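/-
ML (S59) — helper6 — **Hesse-host port, layer 0**: the second degeneracy map `B_q : E_M → E_{M q}`,
`f ↦ f(x^q)`, on the Hesse hosts for EVERY prime `q ≠ 3` (main only has `q = 2`,
`SS.hesHostB`); needed for the Hecke correspondences `T_ℓ` on the Hesse host.

* `qExpand_hesT_mem_hesE_gen`, `qExpand_mem_hesE_of_mem_gen`;
* `hesHostBG K M q hq hq3`, `coe_hesHostBG`, `hesHostBG_two` (`= hesHostB K M`, by `rfl`);
* `xport_fullToHesE_keyFqA_gen`, `xport_fullToHesE_keyFqB_gen`.
-/
import Mathlib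
import Fermat.Agent.SS.HOSTB_helper8_HostB
import Fermat.Agent.S35.XPORT_helper7_Main

set_option autoImplicit false
set_option linter.unusedSectionVars false
set_option linter.unusedVariables false
set_option linter.style.haveILetI false
set_option synthInstance.maxHeartbeats 200000

open HahnSeries ModularCurve IntermediateField

namespace Fermat.Agent.ML

open Fermat.Agent.JA Fermat.Agent.SS Fermat.Agent.S35 Fermat.Agent.Igusa Fermat.Agent.X0N

noncomputable section

variable (K : Type*) [Field K] [Algebra ℚ K]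

/-- **HOST-B, Hesse, every prime `q ≠ 3`**: `t(x^q)` lies in the Hesse tower field of a level
divisible by `q`. -/
theorem qExpand_hesT_mem_hesE_gen {N q : ℕ} [NeZero N] [NeZero q]
    (hq : q.Prime) (hq3 : q ≠ 3) (hqN : q ∣ N) :
    qExpand K q (hesT K) ∈ hesE K N := by
  have hcop : Nat.Coprime q 3 := (Nat.coprime_primes hq Nat.prime_three).mpr hq3
  have h := qExpand_hesT_mem_adjoin hcop
  rw [← coeffEmb_hesT ℂ] at h
  have h1 := qExpand_mem_adjoin_of_complex K 3 q (hesT ℚ) h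
  rw [coeffEmb_hesT K] at h1
  exact adjoin_triple_le_Etu K N 3 q hqN (hesT K) h1

/-- **Hesse**: `E_M(x^q) ⊆ E_N` for a prime `q ≠ 3` with `q M ∣ N`. -/
theorem qExpand_mem_hesE_of_mem_gen {M N q : ℕ} [NeZero M] [NeZero N] [NeZero q]
    (hq : q.Prime) (hq3 : q ≠ 3) (h : q * M ∣ N) {f : LaurentSeries K} (hf : f ∈ hesE K M) :
    qExpand K q f ∈ hesE K N :=
  map_Etu_le K 3 h (hesT K)
    (qExpand_hesT_mem_hesE_gen K hq hq3 (dvd_trans (dvd_mul_right q M) h)) ⟨f, hf, rfl⟩

/-- **the degeneracy map `B_q` on the Hesse hosts**, every prime `q ≠ 3`. -/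
def hesHostBG (M q : ℕ) [NeZero M] [NeZero q] [NeZero (M * q)] (hq : q.Prime) (hq3 : q ≠ 3) :
    ↥(hesE K M) →ₐ[K] ↥(hesE K (M * q)) :=
  dilateAlgHom K q (hesE K M) (hesE K (M * q))
    (fun _ hf => qExpand_mem_hesE_of_mem_gen K hq hq3 (by rw [mul_comm]) hf)

@[simp] theorem coe_hesHostBG (M q : ℕ) [NeZero M] [NeZero q] [NeZero (M * q)] (hq : q.Prime)
    (hq3 : q ≠ 3) (f : ↥(hesE K M)) :
    ((hesHostBG K M q hq hq3 f : ↥(hesE K (M * q))) : LaurentSeries K) =
      qExpand K q (f : LaurentSeries K) := rfl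

/-- at `q = 2` this is main's `hesHostB`. -/
theorem hesHostBG_two (M : ℕ) [NeZero M] [NeZero (M * 2)] (hq : Nat.Prime 2) (hq3 : 2 ≠ 3) :
    hesHostBG K M 2 hq hq3 = hesHostB K M := rfl

variable [Algebra K ℂ] {M q : ℕ} [NeZero M] [NeZero q] [NeZero (M * q)]

/-- (X3) `A` on the level fields and on the Hesse hosts, every `q`. -/
theorem xport_fullToHesE_keyFqA_gen (c : ↥(keyFq K M)) :
    fullToHesE K (M * q) (keyFqA K M q c) = hesHostA K M q (fullToHesE K M c) := by
  apply Subtype.ext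
  rw [coe_fullToHesE, coe_keyFqA, coe_hesHostA, coe_fullToHesE]

/-- (X3) `B` on the level fields and on the Hesse hosts, every prime `q ≠ 3`. -/
theorem xport_fullToHesE_keyFqB_gen (hq : q.Prime) (hq3 : q ≠ 3) (c : ↥(keyFq K M)) :
    fullToHesE K (M * q) (keyFqB K M q c) = hesHostBG K M q hq hq3 (fullToHesE K M c) := by
  apply Subtype.ext
  rw [coe_fullToHesE, coe_keyFqB, coe_hesHostBG, coe_fullToHesE,
    Fermat.Agent.SS.qExpand_qExpand' 3 q (3 * q) rfl,
    Fermat.Agent.SS.qExpand_qExpand' q 3 (3 * q) (mul_comm 3 q)]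

end

end Fermat.Agent.ML
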