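/-
ML (S59) — helper6 — **Hesse-host port** of `Fermat.Agent.SS.FIELD_helper6_Cusp`.
-/
import Mathlib
import Fermat.Agent.SS.FIELD_helper6_Cusp
import Fermat.Agent.ML.HES_helper6_HostB

set_option autoImplicit false
set_option linter.unusedSectionVars false
set_option linter.style.haveILetI false
set_option synthInstance.maxHeartbeats 200000

open Polynomial ModularCurve IntermediateField

namespace Fermat.Agent.ML

open Fermat.Agent.SS

open Fermat.Agent.JA Fermat.Agent.Igusa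

open scoped Fermat.Agent.JA.Host

section Fields

variable (R : Type*) [CommRing R] [IsDomain R] [IsDiscreteValuationRing R] [CharZero R]
  (K : Type*) [Field K] [Algebra R K] [IsFractionRing R K] [Algebra ℚ K] [Algebra K ℂ]
  {M q : ℕ} [NeZero M] [NeZero q] [NeZero (M * q)] {x y : ℤ}
  {π : R}

/-- both `cuspord` and `cuspord'` on the Hesse host. -/
theorem ssModelHesG_cuspord_both (hπ : Irreducible π) (hq : q.Prime) (hq3 : q ≠ 3)
    (V : ValuationSubring ↥(hesE K (M * q)))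
    (hR : ∀ r : R, algebraMap R ↥(hesE K (M * q)) r ∈ V)
    (hπV : (algebraMap R ↥(hesE K (M * q)) π)⁻¹ ∈ V) :
    ((hesHostA K M q : ↥(hesE K M) →+* ↥(hesE K (M * q))) (hesJE K M) ∉ V →
      (hesHostBG K M q hq hq3 : ↥(hesE K M) →+* ↥(hesE K (M * q))) (hesJE K M) *
        ((hesHostA K M q : ↥(hesE K M) →+* ↥(hesE K (M * q))) (hesJE K M) ^ q)⁻¹ ∈ V ∧
      (hesHostA K M q : ↥(hesE K M) →+* ↥(hesE K (M * q))) (hesJE K M) *
        ((hesHostBG K M q hq hq3 : ↥(hesE K M) →+* ↥(hesE K (M * q))) (hesJE K M) ^ q)⁻¹ ∈ V ∧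
      (hesHostBG K M q hq hq3 : ↥(hesE K M) →+* ↥(hesE K (M * q))) (hesJE K M) ∉ V) ∧
    ((hesHostBG K M q hq hq3 : ↥(hesE K M) →+* ↥(hesE K (M * q))) (hesJE K M) ∉ V →
      (hesHostA K M q : ↥(hesE K M) →+* ↥(hesE K (M * q))) (hesJE K M) ∉ V) :=
  cuspord_host (algebraMap K ℂ) 3 hq (Dvd.intro_left M rfl) (hesT K) V
    (algebraMap_mem_of_inv_uniformizer_mem hπ V hR hπV) _ _
    (by rw [RingHom.coe_coe, coe_hesHostA, coe_hesJE])
    (by rw [RingHom.coe_coe, coe_hesHostBG, coe_hesJE])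

/-- **`cuspord`, Hesse.** -/
theorem ssModelHesG_cuspord (hπ : Irreducible π) (hq : q.Prime) (hq3 : q ≠ 3)
    (V : ValuationSubring ↥(hesE K (M * q)))
    (hR : ∀ r : R, algebraMap R ↥(hesE K (M * q)) r ∈ V)
    (hπV : (algebraMap R ↥(hesE K (M * q)) π)⁻¹ ∈ V)
    (hj : (hesHostA K M q : ↥(hesE K M) →+* ↥(hesE K (M * q))) (hesJE K M) ∉ V) :
    (hesHostBG K M q hq hq3 : ↥(hesE K M) →+* ↥(hesE K (M * q))) (hesJE K M) *
        ((hesHostA K M q : ↥(hesE K M) →+* ↥(hesE K (M * q))) (hesJE K M) ^ q)⁻¹ ∈ V ∧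
      (hesHostA K M q : ↥(hesE K M) →+* ↥(hesE K (M * q))) (hesJE K M) *
        ((hesHostBG K M q hq hq3 : ↥(hesE K M) →+* ↥(hesE K (M * q))) (hesJE K M) ^ q)⁻¹ ∈ V ∧
      (hesHostBG K M q hq hq3 : ↥(hesE K M) →+* ↥(hesE K (M * q))) (hesJE K M) ∉ V :=
  (ssModelHesG_cuspord_both R K hπ hq hq3 V hR hπV).1 hj

/-- **`cuspord'`, Hesse.** -/
theorem ssModelHesG_cuspord' (hπ : Irreducible π) (hq : q.Prime) (hq3 : q ≠ 3)
    (V : ValuationSubring ↥(hesE K (M * q)))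
    (hR : ∀ r : R, algebraMap R ↥(hesE K (M * q)) r ∈ V)
    (hπV : (algebraMap R ↥(hesE K (M * q)) π)⁻¹ ∈ V)
    (hj : (hesHostBG K M q hq hq3 : ↥(hesE K M) →+* ↥(hesE K (M * q))) (hesJE K M) ∉ V) :
    (hesHostA K M q : ↥(hesE K M) →+* ↥(hesE K (M * q))) (hesJE K M) ∉ V :=
  (ssModelHesG_cuspord_both R K hπ hq hq3 V hR hπV).2 hj

end Fields

end Fermat.Agent.ML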