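/-
ML (S59) — helper6 — **Hesse-host port** of `Fermat.Agent.SS.FIELD_helper2_DegB`.
-/
import Mathlib
import Fermat.Agent.SS.FIELD_helper2_DegB
import Fermat.Agent.ML.HES_helper6_HostB

set_option autoImplicit false
set_option linter.unusedSectionVars false
set_option linter.unusedVariables false
set_option linter.style.haveILetI false
set_option synthInstance.maxHeartbeats 200000

open HahnSeries Polynomial ModularCurve IntermediateField

namespace Fermat.Agent.ML

open Fermat.Agent.SS

open Fermat.Agent.JA Fermat.Agent.Igusa Fermat.Agent.X0N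

open scoped Fermat.Agent.JA.Host

noncomputable section

section Abstract

variable {F₀ E L F₁ : Type*} [Field F₀] [Field E] [Field L] [Field F₁]

end Abstract

section Host

variable {K : Type*} [Field K] [Algebra ℚ K] (ι : K →+* ℂ) {M q : ℕ} [NeZero M] [NeZero q]
  [NeZero (M * q)] {x y : ℤ} (h : (q : ℤ) * x + M * y = 1) (hq : q.Prime) (w : ℕ) [NeZero w]
  (t : LaurentSeries K)

end Host

section Fields

variable (R : Type*) [CommRing R] [IsDomain R] [IsDiscreteValuationRing R] [CharZero R]
  [DecidableEq R]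
  (K : Type*) [Field K] [Algebra R K] [IsFractionRing R K] [Algebra ℚ K] [Algebra K ℂ]
  {M q : ℕ} [NeZero M] [NeZero q] [NeZero (M * q)] {x y : ℤ}
  {π : R} (hπ : Irreducible π) (h2 : IsUnit (3 : R)) (h : (q : ℤ) * x + M * y = 1)
  (hq : q.Prime) (hq3 : q ≠ 3) (hqπ : (q : R) ∈ Ideal.span {π})

/-- **GROUP E, Hesse host.** -/
theorem ssModelHesG_degB (hq : q.Prime) (hq3 : q ≠ 3) (hqM : ¬ q ∣ M) :
    letI := (hesHostBG K M q hq hq3 : ↥(hesE K M) →+* ↥(hesE K (M * q))).toAlgebra
    FiniteDimensional ↥(hesE K M) ↥(hesE K (M * q)) ∧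
      Module.finrank ↥(hesE K M) ↥(hesE K (M * q)) ≤ q + 1 :=
  degB_finrank_Etu_le (algebraMap K ℂ) 3 (hesT K) hq hqM (isIntegral_hesT K).tower_top
    (hesE_le_of_dvd K (dvd_mul_right M q))
    (hesHostBG K M q hq hq3 : ↥(hesE K M) →+* ↥(hesE K (M * q))) (fun _ => rfl)

end Fields

section FieldsHes

variable (R : Type*) [CommRing R] [IsDomain R] [IsDiscreteValuationRing R] [CharZero R]
  [DecidableEq R]
  (K : Type*) [Field K] [Algebra R K] [IsFractionRing R K] [Algebra ℚ K] [Algebra K ℂ]
  {M : ℕ} [NeZero M] [NeZero (M * 2)]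

end FieldsHes

end

end Fermat.Agent.ML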