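/-
ML (S59) — helper6 — **Hesse-host port** of `Fermat.Agent.SS.FIELD_helper9_A`.
-/
import Mathlib
import Fermat.Agent.SS.FIELD_helper9_A
import Fermat.Agent.ML.HES_helper6_HostB

set_option autoImplicit false
set_option linter.unusedSectionVars false
set_option linter.unusedVariables false
set_option linter.style.haveILetI false
set_option synthInstance.maxHeartbeats 200000

open Polynomial ModularCurve IntermediateField

namespace Fermat.Agent.ML

open Fermat.Agent.SS

open Fermat.Agent.JA Fermat.Agent.Igusa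

open scoped Fermat.Agent.JA.Host

noncomputable section

section Hes

variable (R : Type*) [CommRing R] [IsDomain R] [IsDiscreteValuationRing R] [CharZero R]
  [DecidableEq R]
  (K : Type*) [Field K] [Algebra R K] [IsFractionRing R K] [Algebra ℚ K] [Algebra K ℂ]
  {M q : ℕ} [NeZero M] [NeZero q] [NeZero (M * q)] {x y : ℤ}
  {π : R} (hπ : Irreducible π) (h2 : IsUnit (3 : R)) (h : (q : ℤ) * x + M * y = 1)
  (hq : q.Prime) (hq3 : q ≠ 3) (hqπ : (q : R) ∈ Ideal.span {π})

theorem ssModelHesG_A_algebraMap (r : R) :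
    (hesHostA K M q : ↥(hesE K M) →+* ↥(hesE K (M * q))) (algebraMap R ↥(hesE K M) r) =
      algebraMap R ↥(hesE K (M * q)) r := by
  rw [IsScalarTower.algebraMap_apply R K ↥(hesE K M),
    IsScalarTower.algebraMap_apply R K ↥(hesE K (M * q))]
  exact (hesHostA K M q).commutes _

theorem ssModelHesG_B_algebraMap (hq : q.Prime) (hq3 : q ≠ 3) (r : R) :
    (hesHostBG K M q hq hq3 : ↥(hesE K M) →+* ↥(hesE K (M * q))) (algebraMap R ↥(hesE K M) r) =
      algebraMap R ↥(hesE K (M * q)) r := by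
  rw [IsScalarTower.algebraMap_apply R K ↥(hesE K M),
    IsScalarTower.algebraMap_apply R K ↥(hesE K (M * q))]
  exact (hesHostBG K M q hq hq3).commutes _

theorem ssModelHesG_A_j :
    (hesHostA K M q : ↥(hesE K M) →+* ↥(hesE K (M * q))) (hesJE K M) =
      algebraMap ↥K⟮jqNModC K 3⟯ ↥(hesE K (M * q)) (AdjoinSimple.gen K (jqNModC K 3)) := by
  apply Subtype.ext
  rfl

theorem ssModelHesG_comap_A_inf (h2 : IsUnit (3 : R)) :
    (hesWinf R K h2 (M * q)).comap (hesHostA K M q : ↥(hesE K M) →+* ↥(hesE K (M * q))) =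
      hesWinf R K h2 M := by
  ext x
  rfl

theorem ssModelHesG_comap_B_inf (h2 : IsUnit (3 : R)) (hq : q.Prime) (hq3 : q ≠ 3) :
    (hesWinf R K h2 (M * q)).comap (hesHostBG K M q hq hq3 : ↥(hesE K M) →+* ↥(hesE K (M * q))) =
      hesWinf R K h2 M := by
  ext x
  show qExpand K q (x : LaurentSeries K) ∈ gaussInt R K ↔ (x : LaurentSeries K) ∈ gaussInt R K
  constructor
  · exact (gaussHomQExpand R K q).mem_gaussInt_of_map_mem (hesE_le_gaussField R K h2 M x.2)
  · exact fun h => (gaussHomQExpand R K q).map_mem_gaussInt h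

theorem ssModelHesG_const (x : ↥(hesE K (M * q))) (hx : IsAlgebraic K x) :
    x ∈ Set.range (algebraMap K ↥(hesE K (M * q))) := by
  have h1 : IsAlgebraic K (x : LaurentSeries K) := by
    have := hx.algebraMap (A := LaurentSeries K)
    exact this
  obtain ⟨c, hc⟩ := laurentSeries_mem_range_algebraMap_of_isAlgebraic _ h1
  exact ⟨c, Subtype.ext hc⟩

end Hes

section Hes

variable (R : Type*) [CommRing R] [IsDomain R] [IsDiscreteValuationRing R] [CharZero R]
  [DecidableEq R]
  (K : Type*) [Field K] [Algebra R K] [IsFractionRing R K] [Algebra ℚ K] [Algebra K ℂ]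
  {M : ℕ} [NeZero M] [NeZero (M * 2)] {x y : ℤ}
  {π : R} (hπ : Irreducible π) (h3 : IsUnit (3 : R)) (h : ((2 : ℕ) : ℤ) * x + M * y = 1)
  (hqπ : ((2 : ℕ) : R) ∈ Ideal.span {π})

end Hes

end

end Fermat.Agent.ML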