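/-
ML (S59) — helper6 — **Hesse-host port** of `Fermat.Agent.SS.FIELD_helper6_Kron`.
-/
import Mathlib
import Fermat.Agent.SS.FIELD_helper6_Kron
import Fermat.Agent.ML.HES_helper6_HostB

set_option autoImplicit false
set_option linter.unusedSectionVars false
set_option linter.style.haveILetI false
set_option synthInstance.maxHeartbeats 200000

open Polynomial ModularCurve IntermediateField

namespace Fermat.Agent.ML

open Fermat.Agent.SS

open Fermat.Agent.JA Fermat.Agent.Igusa Fermat.Agent.X0N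

open scoped Fermat.Agent.JA.Host

section Fields

variable (R : Type*) [CommRing R] [IsDomain R] [IsDiscreteValuationRing R] [CharZero R]
  (K : Type*) [Field K] [Algebra R K] [IsFractionRing R K] [Algebra ℚ K] [Algebra K ℂ]
  {M q : ℕ} [NeZero M] [NeZero q] [NeZero (M * q)] {x y : ℤ}

/-- **`kron_j_inf`, Hesse.** -/
theorem ssModelHesG_kron_j_inf {π : R} (hπ : Irreducible π) (h2 : IsUnit (3 : R))
    (hq : q.Prime) (hq3 : q ≠ 3) (hqπ : (q : R) ∈ Ideal.span {π}) :
    (hesWinf R K h2 (M * q)).valuation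
      ((hesHostBG K M q hq hq3 : ↥(hesE K M) →+* ↥(hesE K (M * q))) (hesJE K M) -
        (hesHostA K M q : ↥(hesE K M) →+* ↥(hesE K (M * q))) (hesJE K M) ^ q) < 1 := by
  haveI : CharP (IsLocalRing.ResidueField R) q := charP_residueField_of_mem_span hπ hq hqπ
  haveI : ExpChar (IsLocalRing.ResidueField R) q := ExpChar.prime hq
  exact (isPrimeSeries_jqNModC R K 3).valuation_sub_pow_lt_one hπ q (hesE K (M * q))
    (hesWinf R K h2 (M * q)) (mem_hesWinf_of_mem_gaussInt R K h2 (M * q))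
    (inv_uniformizer_notMem_hesWinf R K h2 (M * q) hπ) _ _
    (by rw [RingHom.coe_coe, coe_hesHostA, coe_hesJE])
    (by rw [RingHom.coe_coe, coe_hesHostBG, coe_hesJE])

/-- **`kron_t_inf`, Hesse.** -/
theorem ssModelHesG_kron_t_inf {π : R} (hπ : Irreducible π) (h2 : IsUnit (3 : R))
    (hq : q.Prime) (hq3 : q ≠ 3) (hqπ : (q : R) ∈ Ideal.span {π}) :
    (hesWinf R K h2 (M * q)).valuation
      ((hesHostBG K M q hq hq3 : ↥(hesE K M) →+* ↥(hesE K (M * q)))
          (algebraMap ↥K⟮hesT K⟯ ↥(hesE K M) (AdjoinSimple.gen K (hesT K))) -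
        (hesHostA K M q : ↥(hesE K M) →+* ↥(hesE K (M * q)))
          (algebraMap ↥K⟮hesT K⟯ ↥(hesE K M) (AdjoinSimple.gen K (hesT K))) ^ q) < 1 := by
  haveI : CharP (IsLocalRing.ResidueField R) q := charP_residueField_of_mem_span hπ hq hqπ
  haveI : ExpChar (IsLocalRing.ResidueField R) q := ExpChar.prime hq
  exact (isPrimeSeries_hesT R K h2).valuation_sub_pow_lt_one hπ q (hesE K (M * q))
    (hesWinf R K h2 (M * q)) (mem_hesWinf_of_mem_gaussInt R K h2 (M * q))
    (inv_uniformizer_notMem_hesWinf R K h2 (M * q) hπ) _ _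
    (by rw [RingHom.coe_coe, coe_hesHostA]; rfl)
    (by rw [RingHom.coe_coe, coe_hesHostBG]; rfl)

/-- **`kron_j_zero`, Hesse.** -/
theorem ssModelHesG_kron_j_zero {π : R} (hπ : Irreducible π)
    (h : (q : ℤ) * x + M * y = 1) (hq : q.Prime) (hq3 : q ≠ 3)
    (hqπ : (q : R) ∈ Ideal.span {π}) :
    (hesW0 R K h hq).valuation
      ((hesHostA K M q : ↥(hesE K M) →+* ↥(hesE K (M * q))) (hesJE K M) -
        (hesHostBG K M q hq hq3 : ↥(hesE K M) →+* ↥(hesE K (M * q))) (hesJE K M) ^ q) < 1 :=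
  kron_j_zero_hesE (algebraMap K ℂ) h hπ hq hqπ (hesW0 R K h hq)
    (hesW0_mem_of_atkinLehnerN R K h hq) (inv_uniformizer_notMem_hesW0 R K h hq hπ) _ _
    (by rw [RingHom.coe_coe, coe_hesHostA, coe_hesJE])
    (by rw [RingHom.coe_coe, coe_hesHostBG, coe_hesJE])

end Fields

end Fermat.Agent.ML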