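/-
ML (S59) — helper6 — **Hesse-host port** of `Fermat.Agent.SS.FIELD_helper6_Unit`.
-/
import Mathlib
import Fermat.Agent.SS.FIELD_helper6_Unit
import Fermat.Agent.ML.HES_helper6_HostB

set_option autoImplicit false
set_option linter.unusedSectionVars false
set_option linter.style.haveILetI false
set_option synthInstance.maxHeartbeats 200000

open Polynomial ModularCurve IntermediateField

namespace Fermat.Agent.ML

open Fermat.Agent.SS

open Fermat.Agent.JA Fermat.Agent.Igusa Fermat.Agent.X0N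

open scoped Fermat.Agent.JA.Host

section Fields

variable (R : Type*) [CommRing R] [IsDomain R] [IsDiscreteValuationRing R] [CharZero R]
  (K : Type*) [Field K] [Algebra R K] [IsFractionRing R K] [Algebra ℚ K] [Algebra K ℂ]
  {M q : ℕ} [NeZero M] [NeZero q] [NeZero (M * q)] {x y : ℤ}

theorem hesHostA_hesJEG : (hesHostA K M q : ↥(hesE K M) →+* ↥(hesE K (M * q))) (hesJE K M) =
    hesJE K (M * q) := Subtype.ext rfl

/-- **`unit`, Hesse.** -/
theorem ssModelHesG_unit {π : R} (hπ : Irreducible π) (h2 : IsUnit (3 : R))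
    (h : (q : ℤ) * x + M * y = 1) (hq : q.Prime) (hqπ : (q : R) ∈ Ideal.span {π}) :
    ∃ (U : ↥(hesE K (M * q))) (c : ℕ), 1 ≤ c ∧ U ≠ 0 ∧ U ∈ hesWinf R K h2 (M * q) ∧
      U⁻¹ ∈ hesWinf R K h2 (M * q) ∧
      U * (algebraMap R ↥(hesE K (M * q)) π ^ c)⁻¹ ∈ hesW0 R K h hq ∧
      (U * (algebraMap R ↥(hesE K (M * q)) π ^ c)⁻¹)⁻¹ ∈ hesW0 R K h hq ∧
      IsIntegral ↥(Algebra.adjoin K
        {(hesHostA K M q : ↥(hesE K M) →+* ↥(hesE K (M * q))) (hesJE K M)}) U ∧
      IsIntegral ↥(Algebra.adjoin K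
        {(hesHostA K M q : ↥(hesE K M) →+* ↥(hesE K (M * q))) (hesJE K M)}) U⁻¹ := by
  haveI : CharZero K := algebraRat.charZero K
  letI : Algebra (AlgebraicClosure K) ℂ :=
    ((IsAlgClosed.lift : AlgebraicClosure K →ₐ[K] ℂ) : AlgebraicClosure K →+* ℂ).toAlgebra
  haveI : IsScalarTower ℚ K (AlgebraicClosure K) :=
    IsScalarTower.of_algebraMap_eq fun r => by
      simp only [eq_ratCast, map_ratCast]
  haveI : IsScalarTower ℚ (AlgebraicClosure K) ℂ :=
    IsScalarTower.of_algebraMap_eq fun r => by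
      simp only [eq_ratCast, map_ratCast]
  rw [hesHostA_hesJEG]
  exact exists_unit_hesE (algebraMap K ℂ) h (AlgebraicClosure K) hπ hq hqπ
    (hesWinf R K h2 (M * q)) (hesW0 R K h hq) (mem_hesWinf_of_mem_gaussInt R K h2 (M * q))
    (hesW0_mem_of_atkinLehnerN R K h hq)

end Fields

end Fermat.Agent.ML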