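/-
ML (S59) — helper6 — **Hesse-host port** of `Fermat.Agent.S36.HOST4_helper6_Sheet`.
-/
import Mathlib
import Fermat.Agent.S36.HOST4_helper6_Sheet
import Fermat.Agent.ML.HESG_helper6_Model

set_option autoImplicit false
set_option linter.unusedSectionVars false
set_option linter.style.haveILetI false
set_option synthInstance.maxHeartbeats 200000

open HahnSeries ModularCurve Fermat.Agent.Igusa Fermat.Agent.X0N Fermat.Agent.RatStr
open IntermediateField Fermat.Agent.JA Fermat.Agent.SS Fermat.Agent.S35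

namespace Fermat.Agent.ML

open Fermat.Agent.S36

noncomputable section

section W0F

variable (K : Type*) [Field K] [Algebra ℚ K] [Algebra K ℂ]
  {M q : ℕ} [NeZero M] [NeZero q] [NeZero (M * q)] (w : ℕ) [NeZero w]
  {x y : ℤ} (h : (q : ℤ) * x + M * y = 1) (hq : q.Prime)
  (R : Type*) [CommRing R] [IsDomain R] [IsDiscreteValuationRing R]
  [Algebra R K] [IsFractionRing R K]

end W0F

section HostSheet

variable (K : Type*) [Field K] [Algebra ℚ K] [Algebra K ℂ]
  {M q : ℕ} [NeZero M] [NeZero q] [NeZero (M * q)]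
  (w : ℕ) [NeZero w] [NeZero (w * w)] (L : ℕ) [NeZero L] [NeZero (L * q)]
  {x y x' y' : ℤ} (h : (q : ℤ) * x + M * y = 1) (h' : (q : ℤ) * x' + L * y' = 1) (hq : q.Prime)
  (hL : w * w * M ∣ L) (t : LaurentSeries K) (ht : t ∈ keyFq K (w * w))
  (htq : qExpand K q t ∈ Host.Etu (keyFw K (M * q) w) t 1)
  (R : Type*) [CommRing R] [IsDomain R] [IsDiscreteValuationRing R]
  [Algebra R K] [IsFractionRing R K]
  (hEg : Host.Etu (keyFw K (M * q) w) t 1 ≤ gaussField R K)

end HostSheet

section Hes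

variable (R : Type*) [CommRing R] [IsDomain R] [IsDiscreteValuationRing R] [CharZero R]
  (K : Type*) [Field K] [Algebra R K] [IsFractionRing R K] [Algebra ℚ K] [Algebra K ℂ]
  {M q : ℕ} [NeZero M] [NeZero q] [NeZero (M * q)] {x y : ℤ}

open scoped Fermat.Agent.JA.Host

/-- **`hesW0` is the only extension of `w_0` to the Hesse host.** -/
theorem hesW0_uniqueG [DecidableEq R] {π : R} (hπ : Irreducible π) {h2 : IsUnit (3 : R)}
    {hbez : (q : ℤ) * x + M * y = 1} {hq : q.Prime} {hq3 : q ≠ 3}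
    {ω : R} (hmodel : SSModelHesG R K π h2 ω hbez hq hq3)
    (V' : ValuationSubring ↥(hesE K (M * q)))
    (hV' : V'.comap ((IntermediateField.inclusion (keyFw_le_hesE K (M * q)) :
        ↥(keyFw K (M * q) 3) →ₐ[K] ↥(hesE K (M * q))) : _ →+* _) =
      hostW0F K (algebraMap K ℂ) 3 hbez hq R) :
    V' = hesW0 R K hbez hq := by
  haveI : FiniteDimensional ↥K⟮jqNModC K 3⟯ ↥(hesE K (M * q)) := finite_hesE_adjoin_j K (M * q)
  have hm := SSModelHesG.ssModel R K hmodel
  have htwo := hm.two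
  have hcomap : V'.comap (algebraMap ↥K⟮jqNModC K 3⟯ ↥(hesE K (M * q))) =
      (hesW0 R K hbez hq).comap (algebraMap ↥K⟮jqNModC K 3⟯ ↥(hesE K (M * q))) := by
    ext a
    have hc : (a : LaurentSeries K) ∈ keyFw K (M * q) 3 :=
      adjoin_jqNModC_le_hostImage (M * q) 3 a.2
    have e : algebraMap ↥K⟮jqNModC K 3⟯ ↥(hesE K (M * q)) a =
        IntermediateField.inclusion (keyFw_le_hesE K (M * q)) ⟨(a : LaurentSeries K), hc⟩ :=
      Subtype.ext rfl
    rw [ValuationSubring.mem_comap, ValuationSubring.mem_comap, e]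
    have h1 : IntermediateField.inclusion (keyFw_le_hesE K (M * q))
        ⟨(a : LaurentSeries K), hc⟩ ∈ V' ↔
        (⟨(a : LaurentSeries K), hc⟩ : ↥(keyFw K (M * q) 3)) ∈
          hostW0F K (algebraMap K ℂ) 3 hbez hq R := by
      rw [← hV']; rfl
    have h2' : IntermediateField.inclusion (keyFw_le_hesE K (M * q))
        ⟨(a : LaurentSeries K), hc⟩ ∈ hesW0 R K hbez hq ↔
        (⟨(a : LaurentSeries K), hc⟩ : ↥(keyFw K (M * q) 3)) ∈
          hostW0F K (algebraMap K ℂ) 3 hbez hq R := by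
      rw [← hostW0_comap K (algebraMap K ℂ) 3 hbez hq R (hesE K (M * q))
        (keyFw_le_hesE K (M * q))]
      rfl
    rw [h1, h2']
  have hG : IsGaussAt R π (AdjoinSimple.gen K (jqNModC K 3))
      (V'.comap (algebraMap ↥K⟮jqNModC K 3⟯ ↥(hesE K (M * q)))) := by
    rw [hcomap]
    exact htwo.gauss_zero
  rcases htwo.only V' hG with h | h
  · exfalso
    apply hostW0F_ne_gaussValSub K 3 hbez hq R hπ hm.q_mem
    rw [← hV', h]
    ext c
    rfl
  · exact h

end Hes

section Hes

variable (R : Type*) [CommRing R] [IsDomain R] [IsDiscreteValuationRing R] [CharZero R]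
  (K : Type*) [Field K] [Algebra R K] [IsFractionRing R K] [Algebra ℚ K] [Algebra K ℂ]
  {M : ℕ} [NeZero M] [NeZero (M * 2)] {x y : ℤ}

open scoped Fermat.Agent.JA.Host

end Hes

end

end Fermat.Agent.ML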