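/-
ML (S59) — helper6 — **Hesse-host port** of `Fermat.Agent.S36.HOST11_helper6_Leg`.
-/
import Mathlib
import Fermat.Agent.S36.HOST11_helper6_Leg
import Fermat.Agent.ML.HESG_helper6_W0Unique
import Fermat.Agent.S36.HOST11H_helper9_Hes

set_option autoImplicit false
set_option linter.unusedSectionVars false
set_option linter.style.haveILetI false
set_option synthInstance.maxHeartbeats 200000

open HahnSeries ModularCurve Fermat.Agent.Igusa Fermat.Agent.X0N Fermat.Agent.RatStr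
open IntermediateField Fermat.Agent.JA Fermat.Agent.SS Fermat.Agent.S35

namespace Fermat.Agent.ML

open Fermat.Agent.S36

noncomputable section

section Uniq

variable {EM EN : Type*} [Field EM] [Field EN] {A B : EM →+* EN} {q : ℕ}
  {Vinf V0 : ValuationSubring EM} {W20 W11 W02 : ValuationSubring EN} {ϖ δ : EN}

end Uniq

section Hes

variable (R : Type*) [CommRing R] [IsDomain R] [IsDiscreteValuationRing R] [CharZero R]
  (K : Type*) [Field K] [Algebra R K] [IsFractionRing R K] [Algebra ℚ K] [Algebra K ℂ]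
  {M q : ℕ} [NeZero M] [NeZero q] [NeZero (M * q)] [NeZero (M * q * q)]
  [NeZero (9 * M)] [NeZero (9 * M * q)] [NeZero (9 * M * q * q)]
  {x y x' y' : ℤ} (hbez : (q : ℤ) * x + M * y = 1)
  (h' : (q : ℤ) * x' + ((9 * M : ℕ) : ℤ) * y' = 1) (hq : q.Prime) (hq3 : q ≠ 3)
  {R' : Type*} [CommRing R'] [IsDomain R'] [IsDiscreteValuationRing R']
  {K' : Type*} [Field K'] [Algebra R' K'] [IsFractionRing R' K']
  (φ : R →+* R') [IsLocalHom φ] (κ : K →+* K')
  (hκ : ∀ r : R, κ (algebraMap R K r) = algebraMap R' K' (φ r))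
  (ζ : R'ˣ) (hζq : ζ ^ q = 1) (hζ1 : ζ ≠ 1)

open scoped Fermat.Agent.JA.Host

/-- the host-level Atkin–Lehner involution of the Hesse host of level `M q`. -/
def hesALG : ↥(hesE K (M * q)) ≃ₐ[K] ↥(hesE K (M * q)) :=
  alEtu K 3 (9 * M) hbez h' hq (hes_dvd_nine M) (hesT K) (hesT_mem_keyFq K)
    (qExpand_hesT_mem_hesE_gen K hq hq3 (Dvd.intro_left M rfl))

/-- **`hesW0 = hesWinf ∘ wE`.** -/
theorem hesW0_eq_comap_hesALG [DecidableEq R] {π : R} (hπ : Irreducible π) {h2 : IsUnit (3 : R)}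
    {ω : R} (hmodel : SSModelHesG R K π h2 ω hbez hq hq3) :
    hesW0 R K hbez hq = (hesWinf R K h2 (M * q)).comap
      ((hesALG K hbez h' hq hq3 : _ ≃ₐ[K] _) : ↥(hesE K (M * q)) →+* ↥(hesE K (M * q))) :=
  hostW0_eq_comap_alEtu K 3 (9 * M) hbez h' hq (hes_dvd_nine M) (hesT K) (hesT_mem_keyFq K)
    (qExpand_hesT_mem_hesE_gen K hq hq3 (Dvd.intro_left M rfl)) R (hesE_le_gaussField R K h2 (M * q))
    (fun V' hV' => hesW0_uniqueG R K hπ hmodel V' hV')

end Hes

end

end Fermat.Agent.ML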