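/-
ML (S59) — helper6 — **Hesse-host port** of `Fermat.Agent.RB.MAZ_helper6_Compat`.
-/
import Mathlib
import Fermat.Agent.RB.MAZ_helper6_Compat
import Fermat.Agent.ML.HESG_helper6_AL

set_option autoImplicit false
set_option linter.unusedSectionVars false
set_option linter.unusedVariables false
set_option linter.style.haveILetI false
set_option synthInstance.maxHeartbeats 200000

open HahnSeries IntermediateField AlgebraicCurve ModularCurve

namespace Fermat.Agent.ML

open Fermat.Agent.RB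

open Fermat.Agent.JA Fermat.Agent.FF Fermat.Agent.SS Fermat.Agent.S35 Fermat.Agent.S36
  Fermat.Agent.X0N

local notation "Ω" => AlgebraicClosure ℚ

local notation "GQ" => (AlgebraicClosure ℚ ≃ₐ[ℚ] AlgebraicClosure ℚ)

section Host

variable (K : Type*) [Field K] [Algebra ℚ K] [Algebra K ℂ]
  {M q : ℕ} [NeZero M] [NeZero q] [NeZero (M * q)] [NeZero (9 * M)] [NeZero (9 * M * q)]
  {x y x' y' : ℤ}

/-- **`hesALG ∘ fullToHesE = fullToHesE ∘ W_q`.** -/
theorem hesAL_fullToHesE (hbez : (q : ℤ) * x + M * y = 1)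
    (h' : (q : ℤ) * x' + ((9 * M : ℕ) : ℤ) * y' = 1) (hq : q.Prime) (hq3 : q ≠ 3)
    (F : ↥(keyFq K (M * q))) :
    hesALG K hbez h' hq hq3 (fullToHesE K (M * q) F) =
      fullToHesE K (M * q) (atkinLehnerN (algebraMap K ℂ) hbez hq F) := by
  apply Subtype.ext
  rw [coe_fullToHesE]
  exact coe_alEtu_of_coe_eq K 3 (9 * M) hbez h' hq (hes_dvd_nine M) (hesT K) (hesT_mem_keyFq K)
    (qExpand_hesT_mem_hesE_gen K hq hq3 (Dvd.intro_left M rfl)) (fullToHesE K (M * q) F) F
    (coe_fullToHesE K (M * q) F)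

end Host

section BC

variable {M q : ℕ} [NeZero M] [NeZero q] [NeZero (M * q)] (K₁ : IntermediateField ℚ Ω)
  (ι : ↥K₁ →+* ℂ) {x y : ℤ}

end BC

end Fermat.Agent.ML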