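/-
ML (S59) — helper6 — **Hesse-host port** of `Fermat.Agent.NP.BASEP_helper2_Iface`.
-/
import Mathlib
import Fermat.Agent.NP.BASEP_helper2_Iface
import Fermat.Agent.ML.HES_helper6_HostB

set_option autoImplicit false
set_option linter.unusedSectionVars false
set_option linter.unusedVariables false
set_option linter.style.haveILetI false

open HahnSeries IntermediateField AlgebraicCurve ModularCurve IsLocalRing

namespace Fermat.Agent.ML

open Fermat.Agent.NP

open Fermat.Agent.JA Fermat.Agent.FF Fermat.Agent.SS Fermat.Agent.S35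

local notation "Ω" => AlgebraicClosure ℚ

local notation "GQ" => (AlgebraicClosure ℚ ≃ₐ[ℚ] AlgebraicClosure ℚ)

section Defs

/-- the divisor condition with rational support (as in `SS.HesKummerBase`). -/
def HesOrdCond (K₁ : IntermediateField ℚ Ω) (N : ℕ) [NeZero N] (m : ℕ) (f : ↥(hesE ↥K₁ N)) : Prop :=
  ∀ P : Place ↥K₁ ↥(hesE ↥K₁ N), P.ord f = 0 ∨ (IsRationalPlace P ∧ (m : ℤ) ∣ P.ord f)

/-- **`T_p = N_A ∘ B`** on the Hesse host of level `M`. -/
noncomputable def hesHeckeP (K : Type*) [Field K] [Algebra ℚ K] (M p : ℕ) [NeZero M] [NeZero p]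
    [NeZero (M * p)] (hp : p.Prime) (hp3 : p ≠ 3) : ↥(hesE K M) → ↥(hesE K M) := fun f =>
  letI := (hesHostA K M p).toRingHom.toAlgebra
  Algebra.norm ↥(hesE K M) (hesHostBG K M p hp hp3 f)

end Defs

end Fermat.Agent.ML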