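/-
ML (S59) — helper6 — **Hesse-host port** of `Fermat.Agent.NP.BASEP_helper2_Compat`.
-/
import Mathlib
import Fermat.Agent.NP.BASEP_helper2_Compat
import Fermat.Agent.ML.HES_helper6_BaseIface

set_option autoImplicit false
set_option linter.unusedSectionVars false
set_option linter.unusedVariables false
set_option linter.style.haveILetI false
set_option synthInstance.maxHeartbeats 400000

open HahnSeries IntermediateField AlgebraicCurve ModularCurve

namespace Fermat.Agent.ML

open Fermat.Agent.NP

open Fermat.Agent.JA Fermat.Agent.FF Fermat.Agent.SS Fermat.Agent.S35 Fermat.Agent.S36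

section Abs

variable {E E' : Type*} [Field E] [Field E'] [Algebra E E'] [Algebra.IsAlgebraic E E']

end Abs

section Span

variable (K : Type*) [Field K] [Algebra ℚ K] [Algebra K ℂ] (M p : ℕ) [NeZero M] [NeZero p]
  [NeZero (M * p)]

/-- the generation principle for the host of level `M p` over the host of level `M`. -/
theorem hesE_generation (P : ↥(hesE K (M * p)) → Prop)
    (h1 : ∀ e : ↥(hesE K M), P (hesHostA K M p e))
    (h2 : ∀ z : ↥(keyFq K (M * p)), P (fullToHesE K (M * p) z))
    (h3 : ∀ x y, P x → P y → P (x + y)) (h4 : ∀ x y, P x → P y → P (x * y))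
    (h5 : ∀ x, P x → P x⁻¹) : ∀ x, P x := by
  have key : ∀ x : LaurentSeries K, x ∈ hesE K (M * p) →
      ∃ y : ↥(hesE K (M * p)), (y : LaurentSeries K) = x ∧ P y := by
    intro x hx
    have hE : hesE K (M * p) =
        IntermediateField.adjoin K ({hesT K} ∪ (keyFw K (M * p) 3 : Set (LaurentSeries K))) := by
      rw [hesE_eq_sup, IntermediateField.adjoin_union, IntermediateField.adjoin_self]
    rw [hE] at hx
    induction hx using IntermediateField.adjoin_induction with
    | mem x hx =>
      rcases hx with hx | hx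
      · rw [Set.mem_singleton_iff] at hx
        subst hx
        have ht : hesT K ∈ hesE K M := Host.mem_Etu_t _ _ _
        exact ⟨hesHostA K M p ⟨hesT K, ht⟩, coe_hesHostA K M p _, h1 _⟩
      · obtain ⟨g, hg, rfl⟩ := hx
        exact ⟨fullToHesE K (M * p) ⟨g, hg⟩, rfl, h2 _⟩
    | algebraMap c =>
      refine ⟨hesHostA K M p (algebraMap K ↥(hesE K M) c), ?_, h1 _⟩
      rw [coe_hesHostA]
      rfl
    | add x y _ _ hx hy =>
      obtain ⟨x', rfl, hx'⟩ := hx
      obtain ⟨y', rfl, hy'⟩ := hy
      exact ⟨x' + y', rfl, h3 _ _ hx' hy'⟩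
    | inv x _ hx =>
      obtain ⟨x', rfl, hx'⟩ := hx
      exact ⟨x'⁻¹, rfl, h5 _ hx'⟩
    | mul x y _ _ hx hy =>
      obtain ⟨x', rfl, hx'⟩ := hx
      obtain ⟨y', rfl, hy'⟩ := hy
      exact ⟨x' * y', rfl, h4 _ _ hx' hy'⟩
  intro x
  obtain ⟨y, hy, hPy⟩ := key (x : LaurentSeries K) x.2
  have : y = x := Subtype.ext hy
  rwa [this] at hPy

/-- **`E_{Mp} = E_M · π^*(F_{Mp})`**: the host of level `M p` is spanned over the host of level `M`
by the image of the level-`M p` function field (when `E_{Mp} / E_M` is algebraic). -/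
theorem hesE_span_range_fullToHesE
    (halg : letI := (hesHostA K M p).toRingHom.toAlgebra
      Algebra.IsAlgebraic ↥(hesE K M) ↥(hesE K (M * p))) :
    letI := (hesHostA K M p).toRingHom.toAlgebra
    Submodule.span ↥(hesE K M) (Set.range (fullToHesE K (M * p))) = ⊤ := by
  letI := (hesHostA K M p).toRingHom.toAlgebra
  haveI := halg
  have h := span_eq_top_of_field_generation (E := ↥(hesE K M)) (E' := ↥(hesE K (M * p)))
    (MonoidHom.mrange ((fullToHesE K (M * p) : ↥(keyFq K (M * p)) →+* ↥(hesE K (M * p))) :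
        ↥(keyFq K (M * p)) →* ↥(hesE K (M * p))))
    (fun P h1 h2 h3 h4 h5 => hesE_generation K M p P h1 (fun z => h2 _ ⟨z, rfl⟩) h3 h4 h5)
  rw [← h]
  congr 1

end Span

section Norm

variable (K : Type*) [Field K] [Algebra ℚ K] [Algebra K ℂ] (M p : ℕ) [NeZero M] [NeZero p]
  [NeZero (M * p)]

/-- **the norms of the hosts and of the level fields are compatible**, given that the host degree
is `p + 1`. -/
theorem hesHostNorm_fullToHesE (hp : p.Prime) (hpM : ¬ p ∣ M)
    (hdeg : letI := (hesHostA K M p).toRingHom.toAlgebra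
      Module.finrank ↥(hesE K M) ↥(hesE K (M * p)) = p + 1)
    (z : ↥(keyFq K (M * p))) :
    (letI := (hesHostA K M p).toRingHom.toAlgebra;
      Algebra.norm ↥(hesE K M) (fullToHesE K (M * p) z)) =
      fullToHesE K M (letI := (keyFqA K M p).toRingHom.toAlgebra;
        Algebra.norm ↥(keyFq K M) z) := by
  letI a1 := (hesHostA K M p).toRingHom.toAlgebra
  letI a2 := (keyFqA K M p).toRingHom.toAlgebra
  have hdF : Module.finrank ↥(keyFq K M) ↥(keyFq K (M * p)) = p + 1 :=
    finrank_keyFqA_of_not_dvd K M p hp hpM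
  haveI : FiniteDimensional ↥(keyFq K M) ↥(keyFq K (M * p)) :=
    Module.finite_of_finrank_pos (by rw [hdF]; omega)
  haveI : FiniteDimensional ↥(hesE K M) ↥(hesE K (M * p)) :=
    Module.finite_of_finrank_pos (by rw [hdeg]; omega)
  have halg : Algebra.IsAlgebraic ↥(hesE K M) ↥(hesE K (M * p)) := Algebra.IsAlgebraic.of_finite _ _
  have hspan := hesE_span_range_fullToHesE K M p halg
  exact (norm_map_of_finrank_eq (fullToHesE K M).toRingHom (fullToHesE K (M * p)).toRingHom
    (fun a => xport_fullToHesE_keyFqA_gen K (q := p) a) (hdF.trans hdeg.symm) hspan z).symm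

/-- **the Hecke operator `T_p` on the host and on the level field are compatible.** -/
theorem hesHeckeP_fullToHesE (hp : p.Prime) (hp3 : p ≠ 3) (hpM : ¬ p ∣ M)
    (hdeg : letI := (hesHostA K M p).toRingHom.toAlgebra
      Module.finrank ↥(hesE K M) ↥(hesE K (M * p)) = p + 1)
    (f : ↥(keyFq K M)) :
    hesHeckeP K M p hp hp3 (fullToHesE K M f) =
      fullToHesE K M (letI := (keyFqA K M p).toRingHom.toAlgebra;
        Algebra.norm ↥(keyFq K M) (keyFqB K M p f)) := by
  rw [← hesHostNorm_fullToHesE K M p hp hpM hdeg, xport_fullToHesE_keyFqB_gen K hp hp3 f]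
  rfl

end Norm

end Fermat.Agent.ML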