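/-
ML (S59) — helper6 — **Hesse-host port, layer 1**: the Hesse model at every Galois base, every prime
`q ≠ 3` (`HesModelAtBasesG`, `hesModelAtBasesG`; mirror of `SS/MODELS_helper7_AtBases`).
-/
import Mathlib
import Fermat.Agent.SS.MODELS_helper7_AtBases
import Fermat.Agent.ML.HESG_helper6_Model

set_option autoImplicit false
set_option linter.unusedSectionVars false
set_option linter.unusedVariables false
set_option linter.style.haveILetI false
set_option synthInstance.maxHeartbeats 400000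

open HahnSeries IntermediateField AlgebraicCurve ModularCurve

namespace Fermat.Agent.ML

open Fermat.Agent.JA Fermat.Agent.FF Fermat.Agent.SS

open scoped Fermat.Agent.JA.Host

/-- `Ω = AlgebraicClosure ℚ`. -/
local notation "Ω" => AlgebraicClosure ℚ

/-- **the model statement at every Galois base, Hesse, every prime `q ≠ 3`.** -/
def HesModelAtBasesG : Prop :=
  ∀ (M q : ℕ) [NeZero M] [NeZero q] [NeZero (M * q)] (hq : q.Prime) (hq3 : q ≠ 3), ¬ q ∣ M →
    ∀ (A : ValuationSubring Ω), A.LiesOverPrime q →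
    ∀ (K₁ : IntermediateField ℚ Ω), IsBase q K₁ →
    ∀ [IsDiscreteValuationRing ↥(baseRing A K₁)] [CharZero ↥(baseRing A K₁)]
      [DecidableEq ↥(baseRing A K₁)] (ϖ : ↥(baseRing A K₁)), Irreducible ϖ →
    ∀ (h3 : IsUnit (3 : ↥(baseRing A K₁))) (x y : ℤ) (hbez : (q : ℤ) * x + M * y = 1),
      letI := baseToComplex K₁
      ∃ ω : ↥(baseRing A K₁), ω ^ 2 + ω + 1 = 0 ∧
        SSModelHesG ↥(baseRing A K₁) ↥K₁ ϖ h3 ω hbez hq hq3

set_option maxHeartbeats 1600000 in
/-- **the Hesse model at every base, every prime `q ≠ 3`.** -/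
theorem hesModelAtBasesG : HesModelAtBasesG := by
  intro M q _ _ _ hq hq3 hqM A hA K₁ hK₁ _ _ _ ϖ hϖ h3 x y hbez
  haveI : Fact q.Prime := ⟨hq⟩
  letI := baseToComplex K₁
  obtain ⟨ω, hω, hgeo⟩ := geoHyps_hesE_baseRing hA M hqM hK₁ hq3 hϖ
  exact ⟨ω, hω, ssModelHesG ↥(baseRing A K₁) ↥K₁ hϖ h3 ω hω hbez hq hq3
    (natCast_mem_span_uniformizer_baseRing hA K₁ hϖ) hgeo⟩

end Fermat.Agent.ML
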