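/-
ML (S59) — helper6 — **Hesse-host port** of `Fermat.Agent.NP.HOSTP_helper7_LegNorm`.
-/
import Mathlib
import Fermat.Agent.NP.HOSTP_helper7_LegNorm
import Fermat.Agent.ML.HESG_helper6_AtBases

/-!
# NP33 — helper7 — [HOSTP-TL], part 2d: the norm data and the `TwoLevel` datum of the Hesse hosts
-/

set_option autoImplicit false
set_option linter.unusedSectionVars false
set_option linter.unusedVariables false
set_option linter.style.haveILetI false
set_option synthInstance.maxHeartbeats 200000

open Polynomial ModularCurve IntermediateField IsLocalRing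

namespace Fermat.Agent.ML

open Fermat.Agent.NP

open Fermat.Agent.JA Fermat.Agent.Igusa Fermat.Agent.SS Fermat.Agent.S35

open scoped Fermat.Agent.JA.Host

noncomputable section

section Hes

variable (R : Type*) [CommRing R] [IsDomain R] [IsDiscreteValuationRing R] [CharZero R]
  [DecidableEq R]
  (K : Type*) [Field K] [Algebra R K] [IsFractionRing R K] [Algebra ℚ K] [Algebra K ℂ]
  {M q : ℕ} [NeZero M] [NeZero q] [NeZero (M * q)] {x y : ℤ}
  {π : R}

/-- the norm of the Hesse host of level `M q` over that of level `M`, along `A`. -/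
def hesHostNormA (M q : ℕ) [NeZero M] [NeZero (M * q)] : ↥(hesE K (M * q)) →* ↥(hesE K M) :=
  letI := (hesHostA K M q).toRingHom.toAlgebra
  Algebra.norm ↥(hesE K M)

/-- the norm of the Hesse host of level `M q` over that of level `M`, along `B`. -/
def hesHostNormB (M q : ℕ) [NeZero M] [NeZero q] [NeZero (M * q)] (hq : q.Prime) (hq3 : q ≠ 3) :
    ↥(hesE K (M * q)) →* ↥(hesE K M) :=
  letI := (hesHostBG K M q hq hq3).toRingHom.toAlgebra
  Algebra.norm ↥(hesE K M)

/-- **the norm / inseparability data of the Hesse hosts**, at any base. -/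
theorem hesSSNormData [IsAlgClosed (ResidueField R)] (hπ : Irreducible π) {h2 : IsUnit (3 : R)}
    {hbez : (q : ℤ) * x + M * y = 1} {hq : q.Prime} {hq3 : q ≠ 3}
    {ω : R} (h : SSModelHesG R K π h2 ω hbez hq hq3) :
    SSNormData q (hesHostA K M q : ↥(hesE K M) →+* ↥(hesE K (M * q)))
      (hesHostBG K M q hq hq3 : ↥(hesE K M) →+* ↥(hesE K (M * q)))
      (hesWinf R K h2 M) (hesWinf R K h2 (M * q)) (hesW0 R K hbez hq)
      (hesHostNormA K M q) (hesHostNormB K M q hq hq3) := by
  haveI : FiniteDimensional ↥K⟮jqNModC K 3⟯ ↥(hesE K (M * q)) := finite_hesE_adjoin_j K (M * q)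
  have h' := SSModelHesG.ssModel R K h
  have hqM : ¬ q ∣ M := not_dvd_of_bezout hbez hq
  have hqπ := h'.q_mem
  haveI : CharP (ResidueField R) q := charP_residueField_of_mem_span hπ hq hqπ
  have hchar : (q : ResidueField R) = 0 := CharP.cast_eq_zero _ q
  have hcop : Nat.Coprime 3 q := (Nat.coprime_primes Nat.prime_three hq).mpr (Ne.symm hq3)
  have hinj : Function.Injective (algebraMap R K) := IsFractionRing.injective R K
  haveI : CharZero K := charZero_of_injective_algebraMap hinj
  have hle : hesE K M ≤ hesE K (M * q) := hesE_le_of_dvd K (dvd_mul_right M q)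
  have hdA := deg2_finrank_hesE_le (K := K) (algebraMap K ℂ) hq hqM hle
  have hdB := ssModelHesG_degB K hq hq3 hqM
  have hTj := isPrimeSeries_jqNModC R K 3
  have hJ : ((hesJE K M : ↥(hesE K M)) : LaurentSeries K) = jqNModC K 3 := rfl
  have hJg : ((hesJE K M : ↥(hesE K M)) : LaurentSeries K) ∈ gaussInt R K := by
    rw [hJ]; exact hTj.mem_gaussInt
  have hred : gaussRed R K ⟨((hesJE K M : ↥(hesE K M)) : LaurentSeries K), hJg⟩ =
      jqNModC (ResidueField R) 3 := by
    have e : (⟨((hesJE K M : ↥(hesE K M)) : LaurentSeries K), hJg⟩ : gaussInt R K) =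
        ⟨jqNModC K 3, hTj.mem_gaussInt⟩ := Subtype.ext hJ
    rw [e, gaussRed_jqNModC]
  have hord : (gaussRed R K ⟨((hesJE K M : ↥(hesE K M)) : LaurentSeries K), hJg⟩).order
      = -((3 : ℕ) : ℤ) := by
    rw [hred, order_jqNModC_field]
  have hne0 : gaussRed R K ⟨((hesJE K M : ↥(hesE K M)) : LaurentSeries K), hJg⟩ ≠ 0 := by
    intro h0
    rw [h0, HahnSeries.order_zero] at hord
    norm_num at hord
  obtain ⟨dA, iA, sA, dB, iB, sB⟩ := host_insep_data (R := R) (hesE K M) (hesE K (M * q)) hle q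
    (fun _ hf => qExpand_mem_hesE_of_mem_gen K hq hq3 (by rw [mul_comm]) hf)
    (hesE_le_gaussField R K h2 M) (hesE_le_gaussField R K h2 (M * q)) hq hchar 3 hcop
    (hesJE K M) hJg hord hne0 hdA.1 hdA.2 hdB.1 hdB.2 (hesW0 R K hbez hq)
    h'.comap_A_zero h'.comap_B_zero h'.kron_j_zero h'.kron_j_inf
  exact SSNormData.of_insep h' (exists_pow_sub_mem_span_of_isAlgClosed hπ hq.pos)
    hdA.1 dA (fun _ => rfl) iA sA hdB.1 dB (fun _ => rfl) iB sB

end Hes

end

end Fermat.Agent.ML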