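/-
ML (S59) — helper6 — **Hesse-host port** of `Fermat.Agent.NP.BASEP_helper2_Deg`.
-/
import Mathlib
import Fermat.Agent.NP.BASEP_helper2_Deg
import Fermat.Agent.ML.HES_helper6_Norm
import Fermat.Agent.ML.HES_helper6_Compat

set_option autoImplicit false
set_option linter.unusedSectionVars false
set_option linter.unusedVariables false
set_option linter.style.haveILetI false
set_option synthInstance.maxHeartbeats 400000

open HahnSeries IntermediateField AlgebraicCurve ModularCurve IsLocalRing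

namespace Fermat.Agent.ML

open Fermat.Agent.NP

open Fermat.Agent.JA Fermat.Agent.FF Fermat.Agent.SS Fermat.Agent.S35 Fermat.Agent.S36
  Fermat.Agent.Igusa

local notation "Ω" => AlgebraicClosure ℚ

section Deg

variable (M p : ℕ) [NeZero M] [NeZero p] [NeZero (M * p)]

set_option maxHeartbeats 1600000 in
/-- **`[E_{Mp} : E_M] = p + 1` at every base.** -/
theorem finrank_hesHostA_of_isBase (hp : p.Prime) (hp3 : p ≠ 3) (hpM : ¬ p ∣ M)
    (A : ValuationSubring Ω) (hA : A.LiesOverPrime p) (K' : IntermediateField ℚ Ω)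
    (hK' : haveI : Fact p.Prime := ⟨hp⟩; IsBase p K') :
    letI := (hesHostA ↥K' M p).toRingHom.toAlgebra
    Module.finrank ↥(hesE ↥K' M) ↥(hesE ↥K' (M * p)) = p + 1 := by
  classical
  haveI : Fact p.Prime := ⟨hp⟩
  haveI : IsDiscreteValuationRing ↥(baseRing A K') := hK'.isDiscreteValuationRing hA
  haveI : CharZero ↥(baseRing A K') := charZero_valuationSubring_of_algebraRat _
  have h2 : IsUnit (3 : ↥(baseRing A K')) := isUnit_ofNat_baseRing hA K' Nat.prime_three hp3
  obtain ⟨x, y, hbez⟩ := exists_bezout_of_prime_of_not_dvd hp hpM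
  letI := baseToComplex K'
  haveI : IsAlgClosed (ResidueField ↥(baseRing A K')) := hK'.isAlgClosed_residueField hA
  obtain ⟨ϖ, hϖ⟩ := IsDiscreteValuationRing.exists_irreducible ↥(baseRing A K')
  obtain ⟨ω, -, hmodel⟩ := hesModelAtBasesG M p hp hp3 hpM A hA K' hK' ϖ hϖ h2 x y hbez
  have D := hesSSNormData ↥(baseRing A K') ↥K' hϖ hmodel
  exact D.degA

end Deg

section HeckeK

variable (K : Type*) [Field K] [Algebra ℚ K] (M p : ℕ) [NeZero M] [NeZero p] [NeZero (M * p)]

end HeckeK

section HeckeBase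

variable (M p : ℕ) [NeZero M] [NeZero p] [NeZero (M * p)]

/-- **`T_p` on the host and on the level field are compatible, at every base.** -/
theorem hesHeckeP_fullToHesE_of_isBase (hp : p.Prime) (hp3 : p ≠ 3) (hpM : ¬ p ∣ M)
    (A : ValuationSubring Ω) (hA : A.LiesOverPrime p) (K' : IntermediateField ℚ Ω)
    (hK' : haveI : Fact p.Prime := ⟨hp⟩; IsBase p K') (f : ↥(keyFq ↥K' M)) :
    hesHeckeP ↥K' M p hp hp3 (fullToHesE ↥K' M f) = fullToHesE ↥K' M (heckeFunK ↥K' M p f) := by
  letI := baseToComplex K'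
  rw [heckeFunK_eq_norm]
  exact hesHeckeP_fullToHesE ↥K' M p hp hp3 hpM
    (finrank_hesHostA_of_isBase M p hp hp3 hpM A hA K' hK') f

theorem hesHeckeP_iterate_fullToHesE_of_isBase (hp : p.Prime) (hp3 : p ≠ 3) (hpM : ¬ p ∣ M)
    (A : ValuationSubring Ω) (hA : A.LiesOverPrime p) (K' : IntermediateField ℚ Ω)
    (hK' : haveI : Fact p.Prime := ⟨hp⟩; IsBase p K') (f : ↥(keyFq ↥K' M)) (j : ℕ) :
    (hesHeckeP ↥K' M p hp hp3)^[j] (fullToHesE ↥K' M f) =
      fullToHesE ↥K' M ((heckeFunK ↥K' M p)^[j] f) := by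
  induction j with
  | zero => rfl
  | succ j ih =>
    rw [Function.iterate_succ_apply', Function.iterate_succ_apply', ih,
      hesHeckeP_fullToHesE_of_isBase M p hp hp3 hpM A hA K' hK']

end HeckeBase

end Fermat.Agent.ML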