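/-
ML (S59) — helper6 — **Hesse-host port** of `Fermat.Agent.NP.BASEP_helper2_DegGen`.
-/
import Mathlib
import Fermat.Agent.NP.BASEP_helper2_DegGen
import Fermat.Agent.ML.HES_helper6_Deg
import Fermat.Agent.SS.TOPB_lead_Hes

set_option autoImplicit false
set_option linter.unusedSectionVars false
set_option linter.unusedVariables false
set_option linter.style.haveILetI false
set_option synthInstance.maxHeartbeats 400000

open HahnSeries IntermediateField AlgebraicCurve ModularCurve IsLocalRing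

namespace Fermat.Agent.ML

open Fermat.Agent.NP

open Fermat.Agent.JA Fermat.Agent.FF Fermat.Agent.SS Fermat.Agent.S35 Fermat.Agent.S36

local notation "Ω" => AlgebraicClosure ℚ

section Abs

end Abs

section Deg

variable (M q : ℕ) [NeZero M] [NeZero q] [NeZero (M * q)]

theorem hesDeg_eq_finrank_base (N : ℕ) [NeZero N] (K₁ : IntermediateField ℚ Ω) :
    hesDeg N = (letI := (fullToHesE ↥K₁ N).toRingHom.toAlgebra;
      Module.finrank ↥(keyFq ↥K₁ N) ↥(hesE ↥K₁ N)) := by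
  unfold hesDeg
  exact finrank_hesE_base N K₁

theorem xport_fullToHesE_keyFqA_base (K₁ : IntermediateField ℚ Ω) (x : ↥(keyFq ↥K₁ M)) :
    fullToHesE ↥K₁ (M * q) (keyFqA ↥K₁ M q x) = hesHostA ↥K₁ M q (fullToHesE ↥K₁ M x) := by
  letI := baseToComplex K₁
  exact xport_fullToHesE_keyFqA_gen ↥K₁ (q := q) x

/-- the degree relation over a subfield of `Ω`. -/
theorem succ_mul_hesDeg_eq (hq : q.Prime) (hqM : ¬ q ∣ M) (K₁ : IntermediateField ℚ Ω) :
    (q + 1) * hesDeg (M * q) = hesDeg M *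
      (letI := (hesHostA ↥K₁ M q).toRingHom.toAlgebra;
        Module.finrank ↥(hesE ↥K₁ M) ↥(hesE ↥K₁ (M * q))) := by
  have h1 := finrank_mul_eq_of_square (keyFqA ↥K₁ M q).toRingHom (hesHostA ↥K₁ M q).toRingHom
    (fullToHesE ↥K₁ M).toRingHom (fullToHesE ↥K₁ (M * q)).toRingHom
    (fun x => xport_fullToHesE_keyFqA_base M q K₁ x)
  rw [hesDeg_eq_finrank_base M K₁, hesDeg_eq_finrank_base (M * q) K₁,
    ← finrank_keyFqA_base M q hq hqM K₁]
  exact h1

/-- **the degree of the Hesse host over the level field does not change when the level is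
multiplied by a prime `q ∤ M`.** -/
theorem hesDeg_mul_prime (hq : q.Prime) (hq3 : q ≠ 3) (hqM : ¬ q ∣ M) :
    hesDeg (M * q) = hesDeg M := by
  haveI : Fact q.Prime := ⟨hq⟩
  obtain ⟨A, hA⟩ := Fermat.Agent.S54.exists_valuationSubring_liesOver (L := Ω) hq
  have h1 := succ_mul_hesDeg_eq M q hq hqM (flatBase q)
  rw [finrank_hesHostA_of_isBase M q hq hq3 hqM A hA (flatBase q) isBase_flatBase, mul_comm] at h1
  exact Nat.eq_of_mul_eq_mul_right (Nat.succ_pos q) h1

/-- **`[E_{Mq} : E_M] = q + 1` over every subfield of `Ω`.** -/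
theorem finrank_hesHostA_base (hq : q.Prime) (hq3 : q ≠ 3) (hqM : ¬ q ∣ M)
    (K₁ : IntermediateField ℚ Ω) :
    letI := (hesHostA ↥K₁ M q).toRingHom.toAlgebra
    Module.finrank ↥(hesE ↥K₁ M) ↥(hesE ↥K₁ (M * q)) = q + 1 := by
  have h1 := succ_mul_hesDeg_eq M q hq hqM K₁
  rw [hesDeg_mul_prime M q hq hq3 hqM, mul_comm] at h1
  exact (Nat.eq_of_mul_eq_mul_left (Nat.pos_of_ne_zero (hesDeg_ne_zero M)) h1).symm

/-- **`T_q` on the host and on the level field are compatible, over every subfield of `Ω`.** -/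
theorem hesHeckeP_fullToHesE_base (hq : q.Prime) (hq3 : q ≠ 3) (hqM : ¬ q ∣ M)
    (K₁ : IntermediateField ℚ Ω) (f : ↥(keyFq ↥K₁ M)) :
    hesHeckeP ↥K₁ M q hq hq3 (fullToHesE ↥K₁ M f) = fullToHesE ↥K₁ M (heckeFunK ↥K₁ M q f) := by
  letI := baseToComplex K₁
  rw [heckeFunK_eq_norm]
  exact hesHeckeP_fullToHesE ↥K₁ M q hq hq3 hqM (finrank_hesHostA_base M q hq hq3 hqM K₁) f

theorem hesHeckeP_iterate_fullToHesE_base (hq : q.Prime) (hq3 : q ≠ 3) (hqM : ¬ q ∣ M)
    (K₁ : IntermediateField ℚ Ω) (f : ↥(keyFq ↥K₁ M)) (j : ℕ) :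
    (hesHeckeP ↥K₁ M q hq hq3)^[j] (fullToHesE ↥K₁ M f) =
      fullToHesE ↥K₁ M ((heckeFunK ↥K₁ M q)^[j] f) := by
  induction j with
  | zero => rfl
  | succ j ih =>
    rw [Function.iterate_succ_apply', Function.iterate_succ_apply', ih,
      hesHeckeP_fullToHesE_base M q hq hq3 hqM]

/-- the norms of the hosts and of the level fields along `A` are compatible, over every subfield of
`Ω`. -/
theorem hesHostNorm_fullToHesE_base (hq : q.Prime) (hq3 : q ≠ 3) (hqM : ¬ q ∣ M)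
    (K₁ : IntermediateField ℚ Ω) (z : ↥(keyFq ↥K₁ (M * q))) :
    (letI := (hesHostA ↥K₁ M q).toRingHom.toAlgebra;
      Algebra.norm ↥(hesE ↥K₁ M) (fullToHesE ↥K₁ (M * q) z)) =
      fullToHesE ↥K₁ M (letI := (keyFqA ↥K₁ M q).toRingHom.toAlgebra;
        Algebra.norm ↥(keyFq ↥K₁ M) z) := by
  letI := baseToComplex K₁
  exact hesHostNorm_fullToHesE ↥K₁ M q hq hqM (finrank_hesHostA_base M q hq hq3 hqM K₁) z

end Deg

end Fermat.Agent.ML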