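/-
ML (S59) — helper6 — **Hesse-host port** of `Fermat.Agent.MP.PLHOST_helper6_LegUnit`.
-/
import Mathlib
import Fermat.Agent.MP.PLHOST_helper6_LegUnit
import Fermat.Agent.ML.HESG_helper6_Unit
import Fermat.Agent.SS.UNODEHOST_helper6_Host

/-!
# Project MP40 — C4/C5 helper6, [LEG-UNIT]: the node unit of the Hesse host, explicitly

The `unit` field of `SSModelHesG` with the unit made explicit: the host image of the modular unit
`U = Δ(τ)/Δ(qτ)` (`modUnit K (M q) q`) is a `NodeUnit` of the two sheets `hesWinf`, `hesW0`, with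
`c = 12 · e` where `q = u · π ^ e` in the base ring.

* `atkinLehnerN_modUnit_mem_gaussInt_of_eq` : the Atkin–Lehner transform of `U / π^(12 e)` and of
  its inverse are Gauss-integral;
* `nodeUnit_hesE_modUnit` : abstract sheets;
* `ssModelHesG_nodeUnit` : the sheets of `SSModelHesG`.
-/

set_option autoImplicit false
set_option linter.unusedSectionVars false
set_option linter.unusedVariables false
set_option linter.style.haveILetI false
set_option synthInstance.maxHeartbeats 200000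

open Polynomial ModularCurve IntermediateField

namespace Fermat.Agent.ML

open Fermat.Agent.MP

open Fermat.Agent.SS Fermat.Agent.JA Fermat.Agent.Igusa Fermat.Agent.X0N Fermat.Agent.MW.NAdic

open scoped Fermat.Agent.JA.Host

section Val

variable (R : Type*) [CommRing R] [IsDomain R] [IsDiscreteValuationRing R]
variable {k : Type*} [Field k] [Algebra R k] [IsFractionRing R k] [Algebra ℚ k] (ι : k →+* ℂ)
variable {N ℓ : ℕ} [NeZero N] [NeZero ℓ] [NeZero (N * ℓ)] {x y : ℤ}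
  (h : (ℓ : ℤ) * x + N * y = 1)

end Val

section Host

variable {R : Type*} [CommRing R] [IsDomain R] [IsDiscreteValuationRing R]
variable {K₁ : Type*} [Field K₁] [Algebra R K₁] [IsFractionRing R K₁] [Algebra ℚ K₁]
  (ι : K₁ →+* ℂ)
variable {M ℓ : ℕ} [NeZero M] [NeZero ℓ] [NeZero (M * ℓ)] {x y : ℤ}
  (h : (ℓ : ℤ) * x + M * y = 1)

/-- **the node unit of the Hesse host, explicitly** (abstract sheets). -/
theorem nodeUnit_hesE_modUnit (L : Type*) [Field L] [Algebra ℚ L] [Algebra K₁ L]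
    [IsScalarTower ℚ K₁ L]
    [Algebra.IsAlgebraic K₁ L] [IsAlgClosed L] [Algebra L ℂ] [IsScalarTower ℚ L ℂ]
    {ϖ : R} (hϖ : Irreducible ϖ) (hℓ : ℓ.Prime) {e : ℕ} {u : Rˣ} (he : 1 ≤ e)
    (hu : (ℓ : R) = u * ϖ ^ e) [Algebra R ↥(hesE K₁ (M * ℓ))]
    [IsScalarTower R K₁ ↥(hesE K₁ (M * ℓ))]
    (Winf W0 : ValuationSubring ↥(hesE K₁ (M * ℓ)))
    (hWinf : ∀ z : ↥(hesE K₁ (M * ℓ)), (z : LaurentSeries K₁) ∈ gaussInt R K₁ → z ∈ Winf)
    (hW0 : ∀ f : ↥(keyFq K₁ (M * ℓ)),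
      ((atkinLehnerN ι h hℓ f : ↥(keyFq K₁ (M * ℓ))) : LaurentSeries K₁) ∈ gaussInt R K₁ →
        fullToHesE K₁ (M * ℓ) f ∈ W0) :
    NodeUnit K₁ ϖ (hesJE K₁ (M * ℓ))
      (fullToHesE K₁ (M * ℓ) (modUnit K₁ (M * ℓ) ℓ (Dvd.intro_left M rfl))) (12 * e) Winf W0 := by
  set U := modUnit K₁ (M * ℓ) ℓ (Dvd.intro_left M rfl) with hU
  obtain ⟨h1, h2⟩ := atkinLehnerN_modUnit_mem_gaussInt_of_eq R ι h hϖ hℓ hu
  have hu0 : U ≠ 0 := deltaRatio_ne_zero 1 ℓ K₁ (M * ℓ) _ _
  have hπ : algebraMap R ↥(hesE K₁ (M * ℓ)) ϖ ^ (12 * e) =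
      fullToHesE K₁ (M * ℓ) (algebraMap K₁ _ (algebraMap R K₁ ϖ ^ (12 * e))) := by
    rw [AlgHom.commutes, map_pow, ← IsScalarTower.algebraMap_apply]
  refine ⟨(_root_.map_ne_zero _).mpr hu0, by omega, ?_, ?_, ?_, ?_, ?_, ?_⟩
  · apply hWinf
    rw [coe_fullToHesE]
    exact (gaussHomQExpand R K₁ 3).map_mem_gaussInt
      (coeffEmb_deltaRatioSeries_mem_gaussInt R K₁ 1 ℓ)
  · apply hWinf
    rw [← map_inv₀, coe_fullToHesE, hU, modUnit, deltaRatio_inv]
    exact (gaussHomQExpand R K₁ 3).map_mem_gaussInt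
      (coeffEmb_deltaRatioSeries_mem_gaussInt R K₁ ℓ 1)
  · rw [hπ, ← map_inv₀, ← map_mul]
    exact hW0 _ h1
  · rw [hπ, ← map_inv₀, ← map_mul, ← map_inv₀]
    exact hW0 _ h2
  · exact isIntegral_fullToHesE (M * ℓ)
      (isIntegral_deltaRatio 1 ℓ L (one_dvd _) (Dvd.intro_left M rfl))
  · rw [← map_inv₀, hU, modUnit, deltaRatio_inv]
    exact isIntegral_fullToHesE (M * ℓ)
      (isIntegral_deltaRatio ℓ 1 L (Dvd.intro_left M rfl) (one_dvd _))

end Host

section Fields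

variable (R : Type*) [CommRing R] [IsDomain R] [IsDiscreteValuationRing R] [CharZero R]
  (K : Type*) [Field K] [Algebra R K] [IsFractionRing R K] [Algebra ℚ K] [Algebra K ℂ]
  {M q : ℕ} [NeZero M] [NeZero q] [NeZero (M * q)] {x y : ℤ}

/-- **the node unit of `SSModelHesG`, explicitly**: the host image of `Δ(τ)/Δ(qτ)`, with
`c = 12 e` for `q = u π^e`. -/
theorem ssModelHesG_nodeUnit {π : R} (hπ : Irreducible π) (h2 : IsUnit (3 : R))
    (h : (q : ℤ) * x + M * y = 1) (hq : q.Prime) {e : ℕ} {u : Rˣ} (he : 1 ≤ e)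
    (hu : (q : R) = u * π ^ e) :
    NodeUnit K π ((hesHostA K M q : ↥(hesE K M) →+* ↥(hesE K (M * q))) (hesJE K M))
      (fullToHesE K (M * q) (modUnit K (M * q) q (Dvd.intro_left M rfl))) (12 * e)
      (hesWinf R K h2 (M * q)) (hesW0 R K h hq) := by
  haveI : CharZero K := algebraRat.charZero K
  letI : Algebra (AlgebraicClosure K) ℂ :=
    ((IsAlgClosed.lift : AlgebraicClosure K →ₐ[K] ℂ) : AlgebraicClosure K →+* ℂ).toAlgebra
  haveI : IsScalarTower ℚ K (AlgebraicClosure K) :=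
    IsScalarTower.of_algebraMap_eq fun r => by
      simp only [eq_ratCast, map_ratCast]
  haveI : IsScalarTower ℚ (AlgebraicClosure K) ℂ :=
    IsScalarTower.of_algebraMap_eq fun r => by
      simp only [eq_ratCast, map_ratCast]
  rw [hesHostA_hesJEG]
  exact nodeUnit_hesE_modUnit (algebraMap K ℂ) h (AlgebraicClosure K) hπ hq he hu
    (hesWinf R K h2 (M * q)) (hesW0 R K h hq) (mem_hesWinf_of_mem_gaussInt R K h2 (M * q))
    (hesW0_mem_of_atkinLehnerN R K h hq)

end Fields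

end Fermat.Agent.ML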