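/-
ML (S59) — helper6 — **Hesse-host port** of `Fermat.Agent.MP.HECKERO_helper6_Comap`.
-/
import Mathlib
import Fermat.Agent.MP.HECKERO_helper6_Comap
import Fermat.Agent.ML.HES_helper6_DegGen
import Fermat.Agent.FG.INST_helper6_Hes

set_option autoImplicit false
set_option linter.unusedSectionVars false
set_option linter.style.haveILetI false
set_option synthInstance.maxHeartbeats 400000

open HahnSeries IntermediateField ModularCurve IsLocalRing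

namespace Fermat.Agent.ML

open Fermat.Agent.MP

open Fermat.Agent.JA Fermat.Agent.Igusa Fermat.Agent.SS Fermat.Agent.FG Fermat.Agent.S36

local notation "Ω" => AlgebraicClosure ℚ

noncomputable section

/-! ### abstract: the map induced on residue fields by a field map with `W'.comap φ = W` -/

section Abs

variable {E E' : Type*} [Field E] [Field E'] (W : ValuationSubring E) (W' : ValuationSubring E')
  (φ : E →+* E') (hφ : W'.comap φ = W)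

end Abs

/-! ### `qExpand` reflects `fracInt` on a valuation ring -/

section Frac

variable {K : Type*} [Field K] {A : ValuationSubring K}

end Frac

/-! ### (Ω1): the comaps -/

section Host

variable {p : ℕ} [Fact p.Prime] {A : ValuationSubring Ω} (hA : A.LiesOverPrime p)
  (M : ℕ) [NeZero M] (hp3 : p ≠ 3) (ℓ : ℕ) [NeZero ℓ] [NeZero (M * ℓ)]

theorem coe_hesHostA_Ω (x : ↥(hesE Ω M)) :
    ((hesHostA Ω M ℓ x : ↥(hesE Ω (M * ℓ))) : LaurentSeries Ω) = x :=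
  IntermediateField.coe_inclusion _ x

theorem coe_hesHostA_toRingHom_Ω (x : ↥(hesE Ω M)) :
    (((hesHostA Ω M ℓ).toRingHom x : ↥(hesE Ω (M * ℓ))) : LaurentSeries Ω) = x :=
  IntermediateField.coe_inclusion _ x

/-- **(Ω1-A)** -/
theorem hesWE_comap_hesHostA :
    (hesWE hA (M * ℓ) hp3).comap (hesHostA Ω M ℓ).toRingHom = hesWE hA M hp3 := by
  ext x
  rw [ValuationSubring.mem_comap, mem_hesWE_iff, mem_hesWE_iff, coe_hesHostA_toRingHom_Ω]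

/-- **(Ω1-B)** -/
theorem hesWE_comap_hesHostB (hℓ : ℓ.Prime) (hℓ3 : ℓ ≠ 3) :
    (hesWE hA (M * ℓ) hp3).comap (hesHostBG Ω M ℓ hℓ hℓ3).toRingHom = hesWE hA M hp3 := by
  ext x
  rw [ValuationSubring.mem_comap, mem_hesWE_iff, mem_hesWE_iff]
  show qExpand Ω ℓ (x : LaurentSeries Ω) ∈ fracInt A ↔ _
  constructor
  · intro h
    refine mem_fracInt_of_qExpand_mem ℓ ?_ h
    have := hesE_mem_fracInt_or_inv_mem hA M hp3 x
    exact this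
  · exact fun h => RQ4Q.qExpand_mem_fracInt ℓ h

theorem hesHostA_mem_hesWE {x : ↥(hesE Ω M)} (hx : x ∈ hesWE hA M hp3) :
    hesHostA Ω M ℓ x ∈ hesWE hA (M * ℓ) hp3 :=
  (mem_hesWE_iff hA (M * ℓ) hp3 _).2 (by
    rw [coe_hesHostA_Ω]
    exact (mem_hesWE_iff hA M hp3 x).1 hx)

theorem hesHostB_mem_hesWE (hℓ : ℓ.Prime) (hℓ3 : ℓ ≠ 3) {x : ↥(hesE Ω M)}
    (hx : x ∈ hesWE hA M hp3) : hesHostBG Ω M ℓ hℓ hℓ3 x ∈ hesWE hA (M * ℓ) hp3 :=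
  (mem_hesWE_iff hA (M * ℓ) hp3 _).2
    (RQ4Q.qExpand_mem_fracInt ℓ ((mem_hesWE_iff hA M hp3 x).1 hx))

/-! ### (Ω2): the induced maps on the reduced function fields -/

/-- `k`-linearity of an induced map. -/
theorem hesEt_commutes_aux (φ : ↥(hesE Ω M) →ₐ[Ω] ↥(hesE Ω (M * ℓ)))
    (hφ : (hesWE hA (M * ℓ) hp3).comap φ.toRingHom = hesWE hA M hp3) (c : ResidueField ↥A) :
    valSubResMap (hesWE hA M hp3) (hesWE hA (M * ℓ) hp3) φ.toRingHom hφ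
      (algebraMap (ResidueField ↥A) (hesEt hA M hp3) c) =
      algebraMap (ResidueField ↥A) (hesEt hA (M * ℓ) hp3) c := by
  obtain ⟨a, rfl⟩ := residue_surjective c
  have h1 : algebraMap Ω ↥(hesE Ω M) (a : Ω) ∈ hesWE hA M hp3 :=
    (algebraMap_mem_hesWE_iff hA M hp3 _).2 a.2
  have h2 : algebraMap Ω ↥(hesE Ω (M * ℓ)) (a : Ω) ∈ hesWE hA (M * ℓ) hp3 :=
    (algebraMap_mem_hesWE_iff hA (M * ℓ) hp3 _).2 a.2
  rw [← hesρ_algebraMap hA M hp3 a h1, ← hesρ_algebraMap hA (M * ℓ) hp3 a h2]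
  have h3 : φ.toRingHom (algebraMap Ω ↥(hesE Ω M) (a : Ω)) ∈ hesWE hA (M * ℓ) hp3 := by
    show φ (algebraMap Ω ↥(hesE Ω M) (a : Ω)) ∈ _
    rw [φ.commutes]; exact h2
  have := valSubResMap_residue_mk (hesWE hA M hp3) (hesWE hA (M * ℓ) hp3) φ.toRingHom hφ _ h1 h3
  refine this.trans ?_
  show residue _ _ = residue _ _
  congr 1
  apply Subtype.ext
  exact φ.commutes _

/-- **(Ω2-A) the reduction of `hesHostA Ω M ℓ`.** -/
def hesEtA : hesEt hA M hp3 →ₐ[ResidueField ↥A] hesEt hA (M * ℓ) hp3 :=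
  { valSubResMap (hesWE hA M hp3) (hesWE hA (M * ℓ) hp3) (hesHostA Ω M ℓ).toRingHom
      (hesWE_comap_hesHostA hA M hp3 ℓ) with
    commutes' := hesEt_commutes_aux hA M hp3 ℓ (hesHostA Ω M ℓ) (hesWE_comap_hesHostA hA M hp3 ℓ) }

/-- **(Ω2-B) the reduction of `hesHostB Ω M ℓ`.** -/
def hesEtB (hℓ : ℓ.Prime) (hℓ3 : ℓ ≠ 3) :
    hesEt hA M hp3 →ₐ[ResidueField ↥A] hesEt hA (M * ℓ) hp3 :=
  { valSubResMap (hesWE hA M hp3) (hesWE hA (M * ℓ) hp3) (hesHostBG Ω M ℓ hℓ hℓ3).toRingHom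
      (hesWE_comap_hesHostB hA M hp3 ℓ hℓ hℓ3) with
    commutes' := hesEt_commutes_aux hA M hp3 ℓ (hesHostBG Ω M ℓ hℓ hℓ3)
      (hesWE_comap_hesHostB hA M hp3 ℓ hℓ hℓ3) }

theorem hesEtA_hesρ (x : ↥(hesE Ω M)) (hx : x ∈ hesWE hA M hp3)
    (hx' : hesHostA Ω M ℓ x ∈ hesWE hA (M * ℓ) hp3) :
    hesEtA hA M hp3 ℓ (hesρ hA M hp3 ⟨x, hx⟩) = hesρ hA (M * ℓ) hp3 ⟨hesHostA Ω M ℓ x, hx'⟩ :=
  valSubResMap_residue_mk (hesWE hA M hp3) (hesWE hA (M * ℓ) hp3) (hesHostA Ω M ℓ).toRingHom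
    (hesWE_comap_hesHostA hA M hp3 ℓ) x hx hx'

theorem hesEtB_hesρ (hℓ : ℓ.Prime) (hℓ3 : ℓ ≠ 3) (x : ↥(hesE Ω M)) (hx : x ∈ hesWE hA M hp3)
    (hx' : hesHostBG Ω M ℓ hℓ hℓ3 x ∈ hesWE hA (M * ℓ) hp3) :
    hesEtB hA M hp3 ℓ hℓ hℓ3 (hesρ hA M hp3 ⟨x, hx⟩) =
      hesρ hA (M * ℓ) hp3 ⟨hesHostBG Ω M ℓ hℓ hℓ3 x, hx'⟩ :=
  valSubResMap_residue_mk (hesWE hA M hp3) (hesWE hA (M * ℓ) hp3)
    (hesHostBG Ω M ℓ hℓ hℓ3).toRingHom (hesWE_comap_hesHostB hA M hp3 ℓ hℓ hℓ3) x hx hx'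

/-- on the series: `hesEtA` is the identity. -/
theorem hesEtEmb_hesEtA (z : hesEt hA M hp3) :
    hesEtEmb hA (M * ℓ) hp3 (hesEtA hA M hp3 ℓ z) = hesEtEmb hA M hp3 z := by
  obtain ⟨⟨x, hx⟩, rfl⟩ := hesρ_surjective hA M hp3 z
  rw [hesEtA_hesρ hA M hp3 ℓ x hx (hesHostA_mem_hesWE hA M hp3 ℓ hx), hesEtEmb_hesρ,
    hesEtEmb_hesρ]
  exact congrArg (fracRed A) (Subtype.ext (coe_hesHostA_Ω M ℓ x))

/-- on the series: `hesEtB` is `f(x) ↦ f(x^ℓ)`. -/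
theorem hesEtEmb_hesEtB (hℓ : ℓ.Prime) (hℓ3 : ℓ ≠ 3) (z : hesEt hA M hp3) :
    hesEtEmb hA (M * ℓ) hp3 (hesEtB hA M hp3 ℓ hℓ hℓ3 z) =
      qExpand (ResidueField ↥A) ℓ (hesEtEmb hA M hp3 z) := by
  obtain ⟨⟨x, hx⟩, rfl⟩ := hesρ_surjective hA M hp3 z
  rw [hesEtB_hesρ hA M hp3 ℓ hℓ hℓ3 x hx (hesHostB_mem_hesWE hA M hp3 ℓ hℓ hℓ3 hx),
    hesEtEmb_hesρ, hesEtEmb_hesρ]
  exact RQ4Q.fracRed_qExpand ℓ hx

end Host

end

end Fermat.Agent.ML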