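/-
ML (S59) — helper6 — **Hesse-host port** of `Fermat.Agent.MP.HECKERO_helper6_Deg`.
-/
import Mathlib
import Fermat.Agent.MP.HECKERO_helper6_Deg
import Fermat.Agent.ML.HES_helper6_Comap
import Fermat.Agent.ML.HES_helper6_DegGen
import Fermat.Agent.FG.EDEF_helper6_PsiBijHes
import Fermat.Agent.FG.EDEF_helper6_Deg

set_option autoImplicit false
set_option linter.unusedSectionVars false
set_option linter.style.haveILetI false
set_option synthInstance.maxHeartbeats 400000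

open HahnSeries IntermediateField ModularCurve IsLocalRing

namespace Fermat.Agent.ML

open Fermat.Agent.MP

open Fermat.Agent.JA Fermat.Agent.Igusa Fermat.Agent.SS Fermat.Agent.FG Fermat.Agent.S36
  Fermat.Agent.NP Fermat.Agent.FF

open scoped Fermat.Agent.JA.Host

local notation "Ω" => AlgebraicClosure ℚ

noncomputable section

/-! ### abstract: degrees along a `k`-algebra map, through a coordinate -/

section AbsDeg

variable {k E E' : Type*} [Field k] [Field E] [Field E'] [Algebra k E] [Algebra k E']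
  (α : E →ₐ[k] E') (t : E)

end AbsDeg

/-! ### the char-0 tower `K(t) ≤ hesE K M ≤ hesE K (M ℓ)` -/

section Char0

variable (K : Type*) [Field K] [Algebra ℚ K] (M ℓ : ℕ) [NeZero M] [NeZero ℓ] [NeZero (M * ℓ)]

theorem finrank_hesT_mul_finrank_hesHostA :
    Module.finrank ↥K⟮hesT K⟯ ↥(hesE K M) *
      (letI := (hesHostA K M ℓ).toRingHom.toAlgebra;
        Module.finrank ↥(hesE K M) ↥(hesE K (M * ℓ))) =
      Module.finrank ↥K⟮hesT K⟯ ↥(hesE K (M * ℓ)) := by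
  letI i1 : Algebra ↥(hesE K M) ↥(hesE K (M * ℓ)) := (hesHostA K M ℓ).toRingHom.toAlgebra
  haveI : IsScalarTower ↥K⟮hesT K⟯ ↥(hesE K M) ↥(hesE K (M * ℓ)) :=
    IsScalarTower.of_algebraMap_eq fun x => by
      apply Subtype.ext
      show _ = ((hesHostA K M ℓ (algebraMap ↥K⟮hesT K⟯ ↥(hesE K M) x) : ↥(hesE K (M * ℓ))) :
        LaurentSeries K)
      rw [hesHostA, IntermediateField.coe_inclusion, Host.coe_algebraMap, Host.coe_algebraMap]
  exact Module.finrank_mul_finrank ↥K⟮hesT K⟯ ↥(hesE K M) ↥(hesE K (M * ℓ))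

end Char0

section Degrees

variable (M ℓ : ℕ) [NeZero M] [NeZero ℓ] [NeZero (M * ℓ)]

/-- **the degree of the Hesse coordinate is multiplied by `ℓ + 1`.** -/
theorem hesCoordBar_degree_mul (hℓ : ℓ.Prime) (hℓ3 : ℓ ≠ 3) (hℓM : ¬ ℓ ∣ M) :
    (hesCoordBar (M * ℓ)).degree = (hesCoordBar M).degree * (ℓ + 1) := by
  have h := finrank_hesT_mul_finrank_hesHostA ↥(⊥ : IntermediateField ℚ Ω) M ℓ
  rw [finrank_hesHostA_base M ℓ hℓ hℓ3 hℓM ⊥, finrank_hesE_adjoin_hesT_base M ⊥,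
    finrank_hesE_adjoin_hesT_base (M * ℓ) ⊥] at h
  exact h.symm

theorem hesCoordBar_degree_ne_zero (N : ℕ) [NeZero N] : (hesCoordBar N).degree ≠ 0 := by
  rw [hesCoordBar_degree]
  letI : Algebra Ω ℂ := ((IsAlgClosed.lift : Ω →ₐ[ℚ] ℂ) : Ω →+* ℂ).toAlgebra
  haveI := finite_hesE Ω N
  exact (Module.finrank_pos).ne'

/-- **`[hesE Ω (M ℓ) : hesE Ω M] = ℓ + 1` over `Ω` itself.** -/
theorem finrank_hesHostA_Omega (hℓ : ℓ.Prime) (hℓ3 : ℓ ≠ 3) (hℓM : ¬ ℓ ∣ M) :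
    letI := (hesHostA Ω M ℓ).toRingHom.toAlgebra
    Module.finrank ↥(hesE Ω M) ↥(hesE Ω (M * ℓ)) = ℓ + 1 := by
  have h := finrank_hesT_mul_finrank_hesHostA Ω M ℓ
  rw [← hesCoordBar_degree, ← hesCoordBar_degree, hesCoordBar_degree_mul M ℓ hℓ hℓ3 hℓM] at h
  exact Nat.eq_of_mul_eq_mul_left (Nat.pos_of_ne_zero (hesCoordBar_degree_ne_zero M)) h

end Degrees

/-! ### (Ω3) -/

section Red

variable {p : ℕ} [Fact p.Prime] {A : ValuationSubring Ω} (hA : A.LiesOverPrime p)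
  (M : ℕ) [NeZero M] (hp3 : p ≠ 3) (ℓ : ℕ) [NeZero ℓ] [NeZero (M * ℓ)]

theorem hesHostA_hesCoordBar_x :
    hesHostA Ω M ℓ (hesCoordBar M).x = (hesCoordBar (M * ℓ)).x := by
  apply Subtype.ext
  rw [coe_hesHostA_Ω, coe_hesCoordBar_x, coe_hesCoordBar_x]

/-- `ᾱ t̄ = t̄`. -/
theorem hesEtA_hesTb : hesEtA hA M hp3 ℓ (hesTb hA M hp3) = hesTb hA (M * ℓ) hp3 := by
  unfold hesTb
  rw [hesEtA_hesρ hA M hp3 ℓ _ _
    (hesHostA_mem_hesWE hA M hp3 ℓ (hesCoordBar_x_mem_hesWE hA M hp3))]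
  exact congrArg (hesρ hA (M * ℓ) hp3) (Subtype.ext (hesHostA_hesCoordBar_x M ℓ))

variable (hℓ : ℓ.Prime) (hℓ3 : ℓ ≠ 3) (hℓM : ¬ ℓ ∣ M) (hpMℓ : ¬ p ∣ M * ℓ)

include hℓ hℓ3 hℓM hpMℓ in
/-- **(Ω3) the degree.** -/
theorem finrank_hesEtA :
    (letI := (hesEtA hA M hp3 ℓ).toRingHom.toAlgebra;
      Module.finrank (hesEt hA M hp3) (hesEt hA (M * ℓ) hp3)) = ℓ + 1 := by
  have hpM : ¬ p ∣ M := fun h => hpMℓ (dvd_mul_of_dvd_left h ℓ)
  have h := finrank_adjoin_mul_finrank_along (hesEtA hA M hp3 ℓ) (hesTb hA M hp3)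
    (hesEtA_hesTb hA M hp3 ℓ)
  rw [(hesEt_facts hA M hpM hp3).2.2.2, (hesEt_facts hA (M * ℓ) hpMℓ hp3).2.2.2,
    hesCoordBar_degree_mul M ℓ hℓ hℓ3 hℓM] at h
  exact Nat.eq_of_mul_eq_mul_left (Nat.pos_of_ne_zero (hesCoordBar_degree_ne_zero M)) h

include hpMℓ in
/-- **(Ω3) finiteness.** -/
theorem finite_hesEtA :
    letI := (hesEtA hA M hp3 ℓ).toRingHom.toAlgebra
    Module.Finite (hesEt hA M hp3) (hesEt hA (M * ℓ) hp3) := by
  haveI := (hesEt_facts hA (M * ℓ) hpMℓ hp3).2.1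
  exact finite_along_of_adjoin (hesEtA hA M hp3 ℓ) (hesTb hA M hp3) (hesEtA_hesTb hA M hp3 ℓ)

include hpMℓ in
/-- **(Ω3) separability.** -/
theorem isSeparable_hesEtA :
    letI := (hesEtA hA M hp3 ℓ).toRingHom.toAlgebra
    Algebra.IsSeparable (hesEt hA M hp3) (hesEt hA (M * ℓ) hp3) := by
  haveI := (hesEt_facts hA (M * ℓ) hpMℓ hp3).2.2.1
  exact isSeparable_along_of_adjoin (hesEtA hA M hp3 ℓ) (hesTb hA M hp3)
    (hesEtA_hesTb hA M hp3 ℓ)

end Red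

end

end Fermat.Agent.ML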