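/-
ML (S59) — helper6 — **Hesse-host port** of `Fermat.Agent.MP.REDINF_helper8_Host`.
-/
import Mathlib
import Fermat.Agent.MP.REDINF_helper8_Host
import Fermat.Agent.ML.HES_helper6_Comap
import Fermat.Agent.ML.HESG_helper6_AtBases
import Fermat.Agent.SS.BASE_helper1_Hes

set_option autoImplicit false
set_option linter.unusedSectionVars false
set_option linter.unusedVariables false
set_option linter.style.haveILetI false
set_option synthInstance.maxHeartbeats 400000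

open HahnSeries IntermediateField ModularCurve IsLocalRing

namespace Fermat.Agent.ML

open Fermat.Agent.MP

open Fermat.Agent.JA Fermat.Agent.Igusa Fermat.Agent.SS Fermat.Agent.FG Fermat.Agent.S36

open scoped Fermat.Agent.JA.Host

local notation "Ω" => AlgebraicClosure ℚ

noncomputable section

section Rho

variable {p : ℕ} [Fact p.Prime] {A : ValuationSubring Ω} (hA : A.LiesOverPrime p)
  (N : ℕ) [NeZero N] (hp3 : p ≠ 3)
  (K' : IntermediateField ℚ Ω) [IsDiscreteValuationRing ↥(baseRing A K')]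
  (h2 : IsUnit (3 : ↥(baseRing A K')))

/-- the base change of a Gauss-integral function over `K'` is `A`-integral. -/
theorem hesBC_mem_hesWE_of_mem_hesWinf (x : ↥(hesE ↥K' N))
    (hx : x ∈ hesWinf ↥(baseRing A K') ↥K' h2 N) : hesBC N K' x ∈ hesWE hA N hp3 := by
  show ((hesBC N K' x : ↥(hesE Ω N)) : LaurentSeries Ω) ∈ fracInt A
  rw [coe_hesBC]
  exact coeffMap_mem_fracInt_of_mem_gaussInt hx

/-- **the reduction map `V_N(K') → Ẽ_N`.** -/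
def hesRhoBase : ↥(hesWinf ↥(baseRing A K') ↥K' h2 N) →+* hesEt hA N hp3 :=
  (hesρ hA N hp3).comp
    (((hesBC N K').comp (hesWinf ↥(baseRing A K') ↥K' h2 N).subtype).codRestrict
      (hesWE hA N hp3).toSubring
      (fun x => hesBC_mem_hesWE_of_mem_hesWinf hA N hp3 K' h2 (x : ↥(hesE ↥K' N)) x.2))

theorem hesRhoBase_apply (x : ↥(hesWinf ↥(baseRing A K') ↥K' h2 N)) :
    hesRhoBase hA N hp3 K' h2 x =
      hesρ hA N hp3 ⟨hesBC N K' (x : ↥(hesE ↥K' N)),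
        hesBC_mem_hesWE_of_mem_hesWinf hA N hp3 K' h2 (x : ↥(hesE ↥K' N)) x.2⟩ := rfl

theorem hesRhoBase_mk (x : ↥(hesE ↥K' N)) (hx : x ∈ hesWinf ↥(baseRing A K') ↥K' h2 N)
    (hW : hesBC N K' x ∈ hesWE hA N hp3) :
    hesRhoBase hA N hp3 K' h2 ⟨x, hx⟩ = hesρ hA N hp3 ⟨hesBC N K' x, hW⟩ := rfl

/-- the series of the reduction. -/
theorem hesEtEmb_hesRhoBase (x : ↥(hesWinf ↥(baseRing A K') ↥K' h2 N)) :
    hesEtEmb hA N hp3 (hesRhoBase hA N hp3 K' h2 x) =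
      coeffMap (baseResidueMap A K') (gaussRed ↥(baseRing A K') ↥K'
        ⟨((x : ↥(hesE ↥K' N)) : LaurentSeries ↥K'), x.2⟩) := by
  rw [hesRhoBase_apply, hesEtEmb_hesρ, ← fracRed_coeffMap_of_mem_gaussInt x.2]
  rfl

/-- the kernel of `hesRhoBase` is the maximal ideal. -/
theorem hesRhoBase_eq_zero_iff (x : ↥(hesWinf ↥(baseRing A K') ↥K' h2 N)) :
    hesRhoBase hA N hp3 K' h2 x = 0 ↔
      (hesWinf ↥(baseRing A K') ↥K' h2 N).valuation (x : ↥(hesE ↥K' N)) < 1 := by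
  rw [← map_eq_zero_iff (hesEtEmb hA N hp3) (RingHom.injective _), hesEtEmb_hesRhoBase,
    map_eq_zero_iff _ (coeffMapV_injective (baseResidueMap_injective A K'))]
  unfold hesWinf
  rw [gaussValSub_valuation_lt_one_iff]
  constructor
  · intro h
    exact ⟨x.2, h⟩
  · rintro ⟨_, h⟩
    exact h

end Rho

section Compat

variable {p : ℕ} [Fact p.Prime] {A : ValuationSubring Ω} (hA : A.LiesOverPrime p)
  (N : ℕ) [NeZero N] (hp3 : p ≠ 3)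
  (K' : IntermediateField ℚ Ω) [IsDiscreteValuationRing ↥(baseRing A K')]
  (h2 : IsUnit (3 : ↥(baseRing A K')))

/-- constants reduce to constants. -/
theorem hesRhoBase_algebraMap (r : ↥(baseRing A K'))
    (hr : algebraMap ↥(baseRing A K') ↥(hesE ↥K' N) r ∈ hesWinf ↥(baseRing A K') ↥K' h2 N) :
    hesRhoBase hA N hp3 K' h2 ⟨algebraMap ↥(baseRing A K') ↥(hesE ↥K' N) r, hr⟩ =
      algebraMap (ResidueField ↥A) (hesEt hA N hp3)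
        (baseResidueMap A K' (residue ↥(baseRing A K') r)) := by
  have e : hesBC N K' (algebraMap ↥(baseRing A K') ↥(hesE ↥K' N) r) =
      algebraMap Ω ↥(hesE Ω N) ((baseIncl A K' r : ↥A) : Ω) := by
    rw [IsScalarTower.algebraMap_apply ↥(baseRing A K') ↥K' ↥(hesE ↥K' N), hesBC_algebraMap]
    rfl
  have hW : algebraMap Ω ↥(hesE Ω N) ((baseIncl A K' r : ↥A) : Ω) ∈ hesWE hA N hp3 :=
    (algebraMap_mem_hesWE_iff hA N hp3 _).mpr (baseIncl A K' r).2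
  have e2 : hesRhoBase hA N hp3 K' h2 ⟨algebraMap ↥(baseRing A K') ↥(hesE ↥K' N) r, hr⟩ =
      hesρ hA N hp3 ⟨algebraMap Ω ↥(hesE Ω N) ((baseIncl A K' r : ↥A) : Ω), hW⟩ := by
    rw [hesRhoBase_apply]
    congr 1
    exact Subtype.ext e
  rw [e2, hesρ_algebraMap hA N hp3 (baseIncl A K' r) hW, baseResidueMap_residue]

/-- the reduction of a function of the level field, in the currency of `HesPeuOrdP`. -/
theorem hesRhoBase_fullToHesE (w₀ : ↥(keyFq ↥K' N))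
    (hw : fullToHesE ↥K' N w₀ ∈ hesWinf ↥(baseRing A K') ↥K' h2 N)
    (hW : fullToHesE Ω N (keyFqBC N K' w₀) ∈ hesWE hA N hp3) :
    hesRhoBase hA N hp3 K' h2 ⟨fullToHesE ↥K' N w₀, hw⟩ =
      hesρ hA N hp3 ⟨fullToHesE Ω N (keyFqBC N K' w₀), hW⟩ := by
  rw [hesRhoBase_apply]
  congr 1
  exact Subtype.ext (bcdeg_hesBC_fullToHesE N K' w₀)

end Compat

section Degen

variable {p : ℕ} [Fact p.Prime] {A : ValuationSubring Ω} (hA : A.LiesOverPrime p)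
  (M : ℕ) [NeZero M] (hp3 : p ≠ 3) (ℓ : ℕ) [NeZero ℓ] [NeZero (M * ℓ)]
  (K' : IntermediateField ℚ Ω) [IsDiscreteValuationRing ↥(baseRing A K')]
  (h2 : IsUnit (3 : ↥(baseRing A K')))

/-- base change commutes with `A`. -/
theorem hesBC_hesHostA_h8 (x : ↥(hesE ↥K' M)) :
    hesBC (M * ℓ) K' (hesHostA ↥K' M ℓ x) = hesHostA Ω M ℓ (hesBC M K' x) := by
  apply Subtype.ext
  have h1 : ((hesHostA ↥K' M ℓ x : ↥(hesE ↥K' (M * ℓ))) : LaurentSeries ↥K') = x :=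
    IntermediateField.coe_inclusion _ x
  rw [coe_hesBC, h1, coe_hesHostA_Ω, coe_hesBC]

/-- `hesRhoBase` is compatible with `A_ℓ`. -/
theorem hesRhoBase_hesHostA (x : ↥(hesE ↥K' M)) (hx : x ∈ hesWinf ↥(baseRing A K') ↥K' h2 M)
    (hx' : hesHostA ↥K' M ℓ x ∈ hesWinf ↥(baseRing A K') ↥K' h2 (M * ℓ)) :
    hesRhoBase hA (M * ℓ) hp3 K' h2 ⟨hesHostA ↥K' M ℓ x, hx'⟩ =
      hesEtA hA M hp3 ℓ (hesRhoBase hA M hp3 K' h2 ⟨x, hx⟩) := by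
  have hW := hesBC_mem_hesWE_of_mem_hesWinf hA M hp3 K' h2 x hx
  have hW' := hesHostA_mem_hesWE hA M hp3 ℓ hW
  have hW'' : hesBC (M * ℓ) K' (hesHostA ↥K' M ℓ x) ∈ hesWE hA (M * ℓ) hp3 := by
    rw [hesBC_hesHostA_h8]; exact hW'
  have e1 : hesRhoBase hA (M * ℓ) hp3 K' h2 ⟨hesHostA ↥K' M ℓ x, hx'⟩ =
      hesρ hA (M * ℓ) hp3 ⟨hesBC (M * ℓ) K' (hesHostA ↥K' M ℓ x), hW''⟩ :=
    hesRhoBase_mk hA (M * ℓ) hp3 K' h2 _ hx' hW''
  have e2 : (⟨hesBC (M * ℓ) K' (hesHostA ↥K' M ℓ x), hW''⟩ : ↥(hesWE hA (M * ℓ) hp3)) =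
      ⟨hesHostA Ω M ℓ (hesBC M K' x), hW'⟩ := Subtype.ext (hesBC_hesHostA_h8 M ℓ K' x)
  rw [e1, e2, hesRhoBase_mk hA M hp3 K' h2 x hx hW, hesEtA_hesρ hA M hp3 ℓ _ hW hW']

/-- base change commutes with `B`. -/
theorem hesBC_hesHostB_h8 (hℓ : ℓ.Prime) (hℓ3 : ℓ ≠ 3) (x : ↥(hesE ↥K' M)) :
    hesBC (M * ℓ) K' (hesHostBG ↥K' M ℓ hℓ hℓ3 x) = hesHostBG Ω M ℓ hℓ hℓ3 (hesBC M K' x) := by
  apply Subtype.ext
  rw [coe_hesBC, coe_hesHostBG, coe_hesHostBG, coe_hesBC, ModularCurve.coeffMap_qExpand]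

/-- `hesRhoBase` is compatible with `B_ℓ`. -/
theorem hesRhoBase_hesHostB (hℓ : ℓ.Prime) (hℓ3 : ℓ ≠ 3) (x : ↥(hesE ↥K' M))
    (hx : x ∈ hesWinf ↥(baseRing A K') ↥K' h2 M)
    (hx' : hesHostBG ↥K' M ℓ hℓ hℓ3 x ∈ hesWinf ↥(baseRing A K') ↥K' h2 (M * ℓ)) :
    hesRhoBase hA (M * ℓ) hp3 K' h2 ⟨hesHostBG ↥K' M ℓ hℓ hℓ3 x, hx'⟩ =
      hesEtB hA M hp3 ℓ hℓ hℓ3 (hesRhoBase hA M hp3 K' h2 ⟨x, hx⟩) := by
  have hW := hesBC_mem_hesWE_of_mem_hesWinf hA M hp3 K' h2 x hx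
  have hW' := hesHostB_mem_hesWE hA M hp3 ℓ hℓ hℓ3 hW
  have hW'' : hesBC (M * ℓ) K' (hesHostBG ↥K' M ℓ hℓ hℓ3 x) ∈ hesWE hA (M * ℓ) hp3 := by
    rw [hesBC_hesHostB_h8]; exact hW'
  have e1 : hesRhoBase hA (M * ℓ) hp3 K' h2 ⟨hesHostBG ↥K' M ℓ hℓ hℓ3 x, hx'⟩ =
      hesρ hA (M * ℓ) hp3 ⟨hesBC (M * ℓ) K' (hesHostBG ↥K' M ℓ hℓ hℓ3 x), hW''⟩ :=
    hesRhoBase_mk hA (M * ℓ) hp3 K' h2 _ hx' hW''
  have e2 : (⟨hesBC (M * ℓ) K' (hesHostBG ↥K' M ℓ hℓ hℓ3 x), hW''⟩ :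
      ↥(hesWE hA (M * ℓ) hp3)) = ⟨hesHostBG Ω M ℓ hℓ hℓ3 (hesBC M K' x), hW'⟩ :=
    Subtype.ext (hesBC_hesHostB_h8 M ℓ K' hℓ hℓ3 x)
  rw [e1, e2, hesRhoBase_mk hA M hp3 K' h2 x hx hW, hesEtB_hesρ hA M hp3 ℓ hℓ hℓ3 _ hW hW']

end Degen

section Inf

variable {p : ℕ} [Fact p.Prime] {A : ValuationSubring Ω} (hA : A.LiesOverPrime p)
  (M : ℕ) [NeZero M] [NeZero p] [NeZero (M * p)] (hp3 : p ≠ 3)
  (K' : IntermediateField ℚ Ω) [IsDiscreteValuationRing ↥(baseRing A K')]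
  (h2 : IsUnit (3 : ↥(baseRing A K')))

end Inf

end

end Fermat.Agent.ML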