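/-
ML (S59) — helper6 — **Hesse-host port** of `Fermat.Agent.MP.REDINF_helper8_ResIndep`.
-/
import Mathlib
import Fermat.Agent.MP.REDINF_helper8_ResIndep
import Fermat.Agent.ML.HES_helper6_RhoBase
import Fermat.Agent.ML.HES_helper6_DegEt
import Fermat.Agent.FG.EDEF_helper6_PsiBijHes
import Fermat.Agent.ML.HES_helper6_DegGen

set_option autoImplicit false
set_option linter.unusedSectionVars false
set_option linter.unusedVariables false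
set_option linter.style.haveILetI false
set_option synthInstance.maxHeartbeats 400000

open HahnSeries IntermediateField ModularCurve IsLocalRing

namespace Fermat.Agent.ML

open Fermat.Agent.MP

open Fermat.Agent.JA Fermat.Agent.Igusa Fermat.Agent.SS Fermat.Agent.FG Fermat.Agent.S36
  Fermat.Agent.NP Fermat.Agent.FF

open scoped Fermat.Agent.JA.Host

local notation "Ω" => AlgebraicClosure ℚ

noncomputable section

section Surj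

variable {p : ℕ} [Fact p.Prime] {A : ValuationSubring Ω} (hA : A.LiesOverPrime p)
  (N : ℕ) [NeZero N] (hp3 : p ≠ 3)
  (K' : IntermediateField ℚ Ω) [IsDiscreteValuationRing ↥(baseRing A K')]
  (h2 : IsUnit (3 : ↥(baseRing A K')))

/-- **the reduction map `V_N(K') → Ẽ_N` of a base is onto.** -/
theorem hesRhoBase_surjective (hK' : IsBase p K') (hpN : ¬ p ∣ N) :
    Function.Surjective (hesRhoBase hA N hp3 K' h2) := by
  classical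
  intro z
  haveI : CharZero ↥(baseRing A K') := charZero_valuationSubring_of_algebraRat _
  obtain ⟨ϖ, hϖ⟩ := IsDiscreteValuationRing.exists_irreducible ↥(baseRing A K')
  obtain ⟨ω, -, hgeo⟩ := geoHyps_hesE_baseRing hA N hpN hK' hp3 hϖ
  obtain ⟨𝒢t, h𝒢t⟩ := exists_isGaussAt ϖ hϖ _ hgeo.transcendental hgeo.adjoin_eq_top
  haveI : IsLocalRing ↥(hesW₁ N 𝒢t) := hgeo.isLocalRing 𝒢t h𝒢t
  obtain ⟨y, hy⟩ := hesPsi_surjective hA N hpN hK' hp3 hϖ 𝒢t h𝒢t z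
  obtain ⟨b, rfl⟩ := IsLocalRing.residue_surjective y
  have hb : ((b : ↥(hesE ↥K' N)) : LaurentSeries ↥K') ∈ gaussInt ↥(baseRing A K') ↥K' :=
    (isIntegral_hesE_iff_mem_gaussInt hA N hpN hK' hp3 hϖ 𝒢t h𝒢t _).1 b.2
  refine ⟨⟨(b : ↥(hesE ↥K' N)), hb⟩, ?_⟩
  rw [← hy, hesPsi_residue]
  rfl

end Surj

section Indep

variable {p : ℕ} [Fact p.Prime] {A : ValuationSubring Ω} (hA : A.LiesOverPrime p)
  (M : ℕ) [NeZero M] (hp3 : p ≠ 3) (ℓ : ℕ) [NeZero ℓ] [NeZero (M * ℓ)]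
  (K' : IntermediateField ℚ Ω) [IsDiscreteValuationRing ↥(baseRing A K')]
  (h2 : IsUnit (3 : ↥(baseRing A K')))

/-- `V_{Mℓ}(K') ∩ A_ℓ E_M = A_ℓ V_M(K')` (any level multiplier `ℓ`). -/
theorem hesWinf_comap_hesHostA_gen :
    (hesWinf ↥(baseRing A K') ↥K' h2 (M * ℓ)).comap (hesHostA ↥K' M ℓ).toRingHom =
      hesWinf ↥(baseRing A K') ↥K' h2 M := by
  ext x
  rw [ValuationSubring.mem_comap]
  show ((hesHostA ↥K' M ℓ x : ↥(hesE ↥K' (M * ℓ))) : LaurentSeries ↥K') ∈ gaussInt _ _ ↔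
    ((x : ↥(hesE ↥K' M)) : LaurentSeries ↥K') ∈ gaussInt _ _
  have h1 : ((hesHostA ↥K' M ℓ x : ↥(hesE ↥K' (M * ℓ))) : LaurentSeries ↥K') = x :=
    IntermediateField.coe_inclusion _ x
  rw [h1]

include hA hp3 in
/-- **[RESINDEP-K']: a residually independent family of full length `ℓ + 1` of
`V_{Mℓ}(K') / V_M(K')` along `A_ℓ`** (the hypothesis `hc` of `threeHyps_hesInf`). -/
theorem exists_resIndep_hesWinf_base (hK' : IsBase p K') (hℓ : ℓ.Prime) (hℓ3 : ℓ ≠ 3)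
    (hℓM : ¬ ℓ ∣ M) (hpMℓ : ¬ p ∣ M * ℓ) :
    letI := (hesHostA ↥K' M ℓ).toRingHom.toAlgebra
    ∃ c : Fin (ℓ + 1) → ↥(hesE ↥K' (M * ℓ)),
      ResIndep (hesWinf ↥(baseRing A K') ↥K' h2 M) (hesWinf ↥(baseRing A K') ↥K' h2 (M * ℓ)) c := by
  letI algE : Algebra ↥(hesE ↥K' M) ↥(hesE ↥K' (M * ℓ)) :=
    (hesHostA ↥K' M ℓ).toRingHom.toAlgebra
  letI algκ : Algebra (hesEt hA M hp3) (hesEt hA (M * ℓ) hp3) :=
    (hesEtA hA M hp3 ℓ).toRingHom.toAlgebra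
  have hfrE : Module.finrank ↥(hesE ↥K' M) ↥(hesE ↥K' (M * ℓ)) = ℓ + 1 :=
    finrank_hesHostA_base M ℓ hℓ hℓ3 hℓM K'
  haveI : FiniteDimensional ↥(hesE ↥K' M) ↥(hesE ↥K' (M * ℓ)) :=
    Module.finite_of_finrank_pos (by rw [hfrE]; exact Nat.succ_pos ℓ)
  have hfrκ : Module.finrank (hesEt hA M hp3) (hesEt hA (M * ℓ) hp3) = ℓ + 1 :=
    finrank_hesEtA hA M hp3 ℓ hℓ hℓ3 hℓM hpMℓ
  haveI : FiniteDimensional (hesEt hA M hp3) (hesEt hA (M * ℓ) hp3) :=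
    finite_hesEtA hA M hp3 ℓ hpMℓ
  obtain ⟨b, hb⟩ := exists_resIndep_of_finrank_res
    (W := hesWinf ↥(baseRing A K') ↥K' h2 M) (W' := hesWinf ↥(baseRing A K') ↥K' h2 (M * ℓ))
    (hesRhoBase hA M hp3 K' h2) (hesRhoBase hA (M * ℓ) hp3 K' h2)
    (hesRhoBase_surjective hA (M * ℓ) hp3 K' h2 hK' hpMℓ)
    (hesRhoBase_eq_zero_iff hA M hp3 K' h2) (hesRhoBase_eq_zero_iff hA (M * ℓ) hp3 K' h2)
    (hesWinf_comap_hesHostA_gen M ℓ K' h2)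
    (fun x hx => hesRhoBase_hesHostA hA M hp3 ℓ K' h2 (x : ↥(hesE ↥K' M)) x.2 hx)
  revert b
  rw [hfrκ]
  intro b hb
  exact ⟨b, hb⟩

/-- **`hesRhoBase` commutes with the norm along `A_ℓ`** (the `K'`-level `ρ_norm`). -/
theorem hesRhoBase_norm_hesHostA (hK' : IsBase p K') (hℓ : ℓ.Prime) (hℓ3 : ℓ ≠ 3)
    (hℓM : ¬ ℓ ∣ M) (hpM : ¬ p ∣ M) (hpMℓ : ¬ p ∣ M * ℓ)
    (y : ↥(hesWinf ↥(baseRing A K') ↥K' h2 (M * ℓ))) :
    ∃ hN : (letI := (hesHostA ↥K' M ℓ).toRingHom.toAlgebra;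
        Algebra.norm ↥(hesE ↥K' M) (y : ↥(hesE ↥K' (M * ℓ)))) ∈
        hesWinf ↥(baseRing A K') ↥K' h2 M,
      hesRhoBase hA M hp3 K' h2 ⟨_, hN⟩ =
        (letI := (hesEtA hA M hp3 ℓ).toRingHom.toAlgebra;
          Algebra.norm (hesEt hA M hp3) (hesRhoBase hA (M * ℓ) hp3 K' h2 y)) := by
  letI algE : Algebra ↥(hesE ↥K' M) ↥(hesE ↥K' (M * ℓ)) :=
    (hesHostA ↥K' M ℓ).toRingHom.toAlgebra
  letI algκ : Algebra (hesEt hA M hp3) (hesEt hA (M * ℓ) hp3) :=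
    (hesEtA hA M hp3 ℓ).toRingHom.toAlgebra
  have hfrE : Module.finrank ↥(hesE ↥K' M) ↥(hesE ↥K' (M * ℓ)) = ℓ + 1 :=
    finrank_hesHostA_base M ℓ hℓ hℓ3 hℓM K'
  haveI : FiniteDimensional ↥(hesE ↥K' M) ↥(hesE ↥K' (M * ℓ)) :=
    Module.finite_of_finrank_pos (by rw [hfrE]; exact Nat.succ_pos ℓ)
  have hfrκ : Module.finrank (hesEt hA M hp3) (hesEt hA (M * ℓ) hp3) = ℓ + 1 :=
    finrank_hesEtA hA M hp3 ℓ hℓ hℓ3 hℓM hpMℓ
  haveI : FiniteDimensional (hesEt hA M hp3) (hesEt hA (M * ℓ) hp3) :=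
    finite_hesEtA hA M hp3 ℓ hpMℓ
  exact ρ_norm_of_finrank_res_eq
    (W := hesWinf ↥(baseRing A K') ↥K' h2 M) (W' := hesWinf ↥(baseRing A K') ↥K' h2 (M * ℓ))
    (hesRhoBase hA M hp3 K' h2) (hesRhoBase hA (M * ℓ) hp3 K' h2)
    (hesRhoBase_surjective hA M hp3 K' h2 hK' hpM)
    (hesRhoBase_surjective hA (M * ℓ) hp3 K' h2 hK' hpMℓ)
    (hesRhoBase_eq_zero_iff hA M hp3 K' h2) (hesRhoBase_eq_zero_iff hA (M * ℓ) hp3 K' h2)
    (hesWinf_comap_hesHostA_gen M ℓ K' h2)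
    (fun x hx => hesRhoBase_hesHostA hA M hp3 ℓ K' h2 (x : ↥(hesE ↥K' M)) x.2 hx)
    (hfrκ.trans hfrE.symm) y

end Indep

end

end Fermat.Agent.ML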