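/-
ML (S59) — helper6 — **Hesse-host port** of `Fermat.Agent.MP.NORMP_helper3_HostT`.
-/
import Mathlib
import Fermat.Agent.MP.NORMP_helper3_HostT
import Fermat.Agent.ML.HES_helper6_Comap

set_option autoImplicit false
set_option linter.unusedSectionVars false
set_option linter.style.haveILetI false

namespace Fermat.Agent.ML

open Fermat.Agent.MP

open ModularCurve AlgebraicCurve IntermediateField Fermat.Agent.X0N Fermat.Agent.Igusa
  Fermat.Agent.JA Fermat.Agent.SS Fermat.Agent.FG Fermat.Agent.MP.RQ4Q IsLocalRing Polynomial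

local notation "Ω" => AlgebraicClosure ℚ

noncomputable section

section Host

variable {p : ℕ} [Fact p.Prime] {A : ValuationSubring Ω} (hA : A.LiesOverPrime p)
  (M : ℕ) [NeZero M] (hp3 : p ≠ 3) (ℓ : ℕ) [NeZero ℓ] [NeZero (M * ℓ)]
  (hℓ : ℓ.Prime) (hℓ3 : ℓ ≠ 3)

/-- **the reduced Hecke operator** `T̄_ℓ = N_ᾱ ∘ β̄` on `hesEt hA M hp3`. -/
def hesEtT : hesEt hA M hp3 →* hesEt hA M hp3 where
  toFun z := normAlong (hesEtA hA M hp3 ℓ) (hesEtB hA M hp3 ℓ hℓ hℓ3 z)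
  map_one' := by
    letI := algebraAlong (hesEtA hA M hp3 ℓ)
    show Algebra.norm (hesEt hA M hp3) (hesEtB hA M hp3 ℓ hℓ hℓ3 1) = 1
    rw [map_one, map_one]
  map_mul' x y := by
    letI := algebraAlong (hesEtA hA M hp3 ℓ)
    show Algebra.norm (hesEt hA M hp3) (hesEtB hA M hp3 ℓ hℓ hℓ3 (x * y)) =
      Algebra.norm (hesEt hA M hp3) (hesEtB hA M hp3 ℓ hℓ hℓ3 x) *
        Algebra.norm (hesEt hA M hp3) (hesEtB hA M hp3 ℓ hℓ hℓ3 y)
    rw [map_mul, map_mul]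

theorem hesEtT_apply (z : hesEt hA M hp3) :
    hesEtT hA M hp3 ℓ hℓ hℓ3 z =
      normAlong (hesEtA hA M hp3 ℓ) (hesEtB hA M hp3 ℓ hℓ hℓ3 z) := rfl

theorem hesEtT_apply' (z : hesEt hA M hp3) :
    hesEtT hA M hp3 ℓ hℓ hℓ3 z =
      (letI := (hesEtA hA M hp3 ℓ).toRingHom.toAlgebra
       Algebra.norm (hesEt hA M hp3) (hesEtB hA M hp3 ℓ hℓ hℓ3 z)) := rfl

end Host

end

end Fermat.Agent.ML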