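/-
ML (S59) — helper6 — **Hesse-host port** of `Fermat.Agent.MP.ORD_helper1_Defs`.
-/
import Mathlib
import Fermat.Agent.MP.ORD_helper1_Defs
import Fermat.Agent.ML.HES_helper6_HostT

/-!
# Project MP40 — (C) [ORD] helper1: the literals of the remaining host inputs of `HesPeuOrdP`

`hesPeuOrdP_of : HesNormBCompat → HesDeltaLit → HesRedHeckeP → HesRhoBaseP → HesEtRationalP →
HesPeuOrdP 5` (in `MP/ORD_helper1_Main`), where

* `HesRhoBaseP`   : the reduction map `ρ : V_M(K') → hesEt` of the good level (`x ↦ hesρ (hesBC x)`),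
  with its kernel and the constants;
* `HesEtRationalP` : every place of the reduced Hesse host over `k = ResidueField A` is rational;
* `HesRedHeckeP`  : **the host instantiation of [RED∞]**: a Hecke relation
  `T_ℓ f = c f ^ b u ^ d` at level `M p` over `K'` reduces, along the sheet `∞`, to
  `T̄_ℓ F̄ = c̄ F̄ ^ b ū ^ d` for the reduction `F̄ = ρ x₀` of `f ϖ ^ (-a∞) ≡ A x₀`.
-/

set_option autoImplicit false
set_option linter.unusedSectionVars false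
set_option linter.unusedVariables false
set_option linter.style.haveILetI false
set_option synthInstance.maxHeartbeats 400000

open HahnSeries IntermediateField AlgebraicCurve ModularCurve IsLocalRing

namespace Fermat.Agent.ML

open Fermat.Agent.MP

open Fermat.Agent.JA Fermat.Agent.FF Fermat.Agent.SS Fermat.Agent.S35 Fermat.Agent.Igusa
  Fermat.Agent.NP Fermat.Agent.FG

open scoped Fermat.Agent.JA.Host

local notation "Ω" => AlgebraicClosure ℚ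

/-- **the reduction map of the good level over the small base.** -/
def HesRhoBaseP : Prop :=
  ∀ (M : ℕ) [NeZero M] (p : ℕ) [NeZero p] [Fact p.Prime] (hp3 : p ≠ 3), ¬ p ∣ M →
  ∀ (A : ValuationSubring Ω) (hA : A.LiesOverPrime p) (K' : IntermediateField ℚ Ω)
    [IsDiscreteValuationRing ↥(baseRing A K')], IsBase p K' →
  ∀ (h2 : IsUnit (3 : ↥(baseRing A K'))),
  ∃ (ρ : ↥(hesWinf ↥(baseRing A K') ↥K' h2 M) →+* hesEt hA M hp3)
    (res : ↥(baseRing A K') →+* ResidueField ↥A), Function.Surjective res ∧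
    (∀ z : ↥(hesWinf ↥(baseRing A K') ↥K' h2 M),
      (hesWinf ↥(baseRing A K') ↥K' h2 M).valuation (z : ↥(hesE ↥K' M)) < 1 → ρ z = 0) ∧
    (∀ (r : ↥(baseRing A K'))
      (hr : algebraMap ↥(baseRing A K') ↥(hesE ↥K' M) r ∈ hesWinf ↥(baseRing A K') ↥K' h2 M),
      ρ ⟨algebraMap ↥(baseRing A K') ↥(hesE ↥K' M) r, hr⟩ =
        algebraMap (ResidueField ↥A) (hesEt hA M hp3) (res r)) ∧
    (∀ (x : ↥(hesE ↥K' M)) (hx : x ∈ hesWinf ↥(baseRing A K') ↥K' h2 M)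
      (hW : hesBC M K' x ∈ hesWE hA M hp3),
      ρ ⟨x, hx⟩ = hesρ hA M hp3 ⟨hesBC M K' x, hW⟩)

/-- **the host instantiation of [RED∞]**: the reduction along the sheet `∞` of a Hecke relation
`T_ℓ f = c f ^ b u ^ d` of level `M p` over the small base. -/
def HesRedHeckeP : Prop :=
  ∀ (M : ℕ) [NeZero M] (p : ℕ) [NeZero p] [NeZero (M * p)] [Fact p.Prime] (hp : p.Prime)
    (hp3 : p ≠ 3), ¬ p ∣ M →
  ∀ (A : ValuationSubring Ω) (hA : A.LiesOverPrime p) (K' : IntermediateField ℚ Ω)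
    [IsDiscreteValuationRing ↥(baseRing A K')], IsBase p K' →
  ∀ (ϖ : ↥(baseRing A K')), Irreducible ϖ → ∀ (h2 : IsUnit (3 : ↥(baseRing A K')))
    (ℓ : ℕ) [NeZero ℓ] [NeZero (M * ℓ)] [NeZero (M * p * ℓ)] (hℓ : ℓ.Prime) (hℓ3 : ℓ ≠ 3),
    ¬ ℓ ∣ M * p →
  ∀ (ρ : ↥(hesWinf ↥(baseRing A K') ↥K' h2 M) →+* hesEt hA M hp3),
    (∀ (x : ↥(hesE ↥K' M)) (hx : x ∈ hesWinf ↥(baseRing A K') ↥K' h2 M)
      (hW : hesBC M K' x ∈ hesWE hA M hp3),
      ρ ⟨x, hx⟩ = hesρ hA M hp3 ⟨hesBC M K' x, hW⟩) →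
  ∀ (b : ℤ) (d : ℕ) (f : ↥(hesE ↥K' (M * p))), f ≠ 0 →
    (∃ (c : ↥K') (u : ↥(hesE ↥K' (M * p))), c ≠ 0 ∧ u ≠ 0 ∧
      hesHeckeP ↥K' (M * p) ℓ hℓ hℓ3 f = algebraMap ↥K' ↥(hesE ↥K' (M * p)) c * f ^ b * u ^ d) →
  ∀ (ainf : ℤ) (x₀ : ↥(hesE ↥K' M)) (hx₀ : x₀ ∈ hesWinf ↥(baseRing A K') ↥K' h2 M),
    (hesWinf ↥(baseRing A K') ↥K' h2 (M * p)).valuation
      (f * (algebraMap ↥(baseRing A K') ↥(hesE ↥K' (M * p)) ϖ ^ ainf)⁻¹) = 1 →
    (hesWinf ↥(baseRing A K') ↥K' h2 (M * p)).valuation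
      (f * (algebraMap ↥(baseRing A K') ↥(hesE ↥K' (M * p)) ϖ ^ ainf)⁻¹ -
        hesHostA ↥K' M p x₀) < 1 →
    ∃ (c : ResidueField ↥A) (u : hesEt hA M hp3), c ≠ 0 ∧ u ≠ 0 ∧
      hesEtT hA M hp3 ℓ hℓ hℓ3 (ρ ⟨x₀, hx₀⟩) =
        algebraMap (ResidueField ↥A) (hesEt hA M hp3) c * ρ ⟨x₀, hx₀⟩ ^ b * u ^ d

end Fermat.Agent.ML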