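/-
ML (S59) — helper6 — **Hesse-host port** of `Fermat.Agent.RB.MAZ_helper6_Iface`.
-/
import Mathlib
import Fermat.Agent.RB.MAZ_helper6_Iface
import Fermat.Agent.ML.HES_helper6_HostB
import Fermat.Agent.SS.TOPB_lead_Hes

set_option autoImplicit false
set_option linter.unusedSectionVars false
set_option linter.unusedVariables false
set_option linter.style.haveILetI false

open HahnSeries IntermediateField AlgebraicCurve ModularCurve WeierstrassCurve
open WeierstrassCurve.Affine WeierstrassCurve.Affine.Point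

open scoped WeierstrassCurve.Affine

namespace Fermat.Agent.ML

open Fermat.Agent.RB

open Fermat.Agent.JA Fermat.Agent.FF Fermat.Agent.SS Fermat.Agent.S35 Fermat.Agent.MP
  Fermat.Agent.NP Fermat.Agent.GR

local notation "Ω" => AlgebraicClosure ℚ

local notation "GQ" => (AlgebraicClosure ℚ ≃ₐ[ℚ] AlgebraicClosure ℚ)

/-! ### toric functions and classes -/

section Toric

variable (M q m : ℕ) [NeZero M] [NeZero q] [NeZero (M * q)] (A : ValuationSubring Ω)

/-- **toric at a base `K₁`**: the function `g` on the Hesse host of level `M q` over `K₁` is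
congruent to the `m`-th power of a unit along each of the two sheets `W_∞`, `W_0` over
`R₁ = A ∩ K₁`. -/
def HesToricAt (K₁ : IntermediateField ℚ Ω) (g : ↥(hesE ↥K₁ (M * q))) : Prop :=
  ∀ [IsDiscreteValuationRing ↥(baseRing A K₁)] [CharZero ↥(baseRing A K₁)]
    (h3 : IsUnit (3 : ↥(baseRing A K₁))) (x y : ℤ) (hbez : (q : ℤ) * x + M * y = 1)
    (hq : q.Prime),
    letI := baseToComplex K₁
    ∃ linf l0 : ↥(hesE ↥K₁ (M * q)),
      (hesWinf ↥(baseRing A K₁) ↥K₁ h3 (M * q)).valuation linf = 1 ∧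
      (hesW0 ↥(baseRing A K₁) ↥K₁ hbez hq).valuation l0 = 1 ∧
      (hesWinf ↥(baseRing A K₁) ↥K₁ h3 (M * q)).valuation (g - linf ^ m) < 1 ∧
      (hesW0 ↥(baseRing A K₁) ↥K₁ hbez hq).valuation (g - l0 ^ m) < 1

/-- **a toric representative**: over every Galois base containing a fixed base `K₀`, the descended
function is toric. -/
def IsToricRepH (f : ↥(modularFunctionFieldBar (M * q))) : Prop :=
  ∃ K₀ : IntermediateField ℚ Ω, IsBase q K₀ ∧
    ∀ K₁ : IntermediateField ℚ Ω, IsGalBase q K₁ → K₀ ≤ K₁ →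
      ∀ F₁ : ↥(keyFq ↥K₁ (M * q)), keyFqBC (M * q) K₁ F₁ = f →
        HesToricAt M q m A K₁ (fullToHesE ↥K₁ (M * q) F₁)

/-- **a toric class** of `J₀(M q)[m]` at the place `A ∣ q`. -/
def IsToricClassAtH (x : JZero (M * q)) : Prop :=
  ∃ (D : Divisor.degZero (K := Ω) (F := ↥(modularFunctionFieldBar (M * q))))
    (f : ↥(modularFunctionFieldBar (M * q))), f ≠ 0 ∧ Pic0.mk D = x ∧
    (∀ v : Place Ω ↥(modularFunctionFieldBar (M * q)),
      v.ord f = (m : ℤ) * (D : Divisor Ω ↥(modularFunctionFieldBar (M * q))) v) ∧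
    IsToricRepH M q m A f

end Toric

/-! ### the key statements on `J₀(M q)` -/

section Key

/-- **(KEY-TORIC)** (P7 + descent): on toric classes of `J₀(M q)[m]` (`q ∤ m`, `m` prime to the
degree of the Hesse host) every Frobenius lift at `A` satisfies `φ x + q • w_q x = 0`. -/
def KeyToricStatementH : Prop :=
  ∀ (M q : ℕ) [NeZero M] [NeZero q] [NeZero (M * q)] (hq : q.Prime) (hq3 : q ≠ 3) (hqM : ¬ q ∣ M)
    (A : ValuationSubring Ω), A.LiesOverPrime q → ∀ φ : GQ, A.IsFrobeniusAt φ q →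
    ∀ m : ℕ, 0 < m → ¬ q ∣ m → Nat.Coprime (hesDeg (M * q)) m →
    ∀ x : JZero (M * q), IsToricClassAtH M q m A x →
      φ • x + q • atkinLehnerJ hq hqM x = 0

/-- **(KEY-MAZ)** at one place `A ∣ q`: an `I_A`-fixed, `q`-new class of `J₀(M q)[p]` which is a
Hecke eigenclass for a non-Eisenstein eigensystem `a` (outside `S ∋ 2, p`) is toric, unless the
eigensystem occurs residually at level `M`. -/
def KeyMazAtH (M q p : ℕ) [NeZero M] [NeZero q] [NeZero (M * q)] (A : ValuationSubring Ω) : Prop :=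
  ∀ (S : Set ℕ) (a : ℕ → ℤ), (∀ ℓ : ℕ, ℓ.Prime → ℓ ∣ M * q → ℓ ∈ S) → p ∈ S → 3 ∈ S →
    (∃ ℓ : ℕ, ℓ.Prime ∧ ℓ ∉ S ∧ ¬ (a ℓ ≡ (ℓ : ℤ) + 1 [ZMOD (p : ℤ)])) →
    ∀ x : JZero (M * q), p • x = 0 → degPushAlpha M q x = 0 → degPushBeta M q x = 0 →
      (∀ (ℓ : ℕ) (hℓ : ℓ.Prime), ℓ ∉ S → heckeOperatorBar (M * q) ⟨ℓ, hℓ⟩ x = a ℓ • x) →
      (∀ τ ∈ A.inertiaSubgroupIn ℚ, τ • x = x) →
      IsToricClassAtH M q p A x ∨ ResOccurs M p S a

end Key

/-! ### the global part -/

section Global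

end Global

end Fermat.Agent.ML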