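/-
ML (S59) — helper6 — **Hesse-host port** of `Fermat.Agent.RB.MAZ_helper6_Parts`.
-/
import Mathlib
import Fermat.Agent.RB.MAZ_helper6_Parts
import Fermat.Agent.ML.HES_helper6_OrdDefs
import Fermat.Agent.ML.IFACE_helper6_MazHes

set_option autoImplicit false
set_option linter.unusedSectionVars false
set_option linter.unusedVariables false
set_option linter.style.haveILetI false
set_option synthInstance.maxHeartbeats 400000

open HahnSeries IntermediateField AlgebraicCurve ModularCurve IsLocalRing CongruenceSubgroup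
  ModularCurve.Period

open scoped MatrixGroups

namespace Fermat.Agent.ML

open Fermat.Agent.RB

open Fermat.Agent.JA Fermat.Agent.FF Fermat.Agent.SS Fermat.Agent.S35 Fermat.Agent.MP
  Fermat.Agent.NP Fermat.Agent.GR Fermat.Agent.FG Fermat.Agent.X0N Fermat.Agent.LR

open scoped Fermat.Agent.JA.Host

local notation "Ω" => AlgebraicClosure ℚ

local notation "GQ" => (AlgebraicClosure ℚ ≃ₐ[ℚ] AlgebraicClosure ℚ)

/-- **the hypothesis package of (KEY-MAZ) over the unramified small base `K' ≤ K₁`.** -/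
structure HesMazHyp (q p M : ℕ) [NeZero M] [NeZero q] [NeZero (M * q)] (A : ValuationSubring Ω)
    (K₁ : IntermediateField ℚ Ω) [Normal ℚ ↥K₁] (K' : IntermediateField ℚ Ω)
    (S : Set ℕ) (a : ℕ → ℤ) (f₀ : ↥(keyFq ↥K' (M * q))) : Prop where
  /-- `K₁` is a Galois base. -/
  galBase : IsGalBase q K₁
  /-- `K'` is a base. -/
  base : IsBase q K'
  le : K' ≤ K₁
  /-- (h1): the automorphisms fixing `K'` preserve `A ∩ K₁`. -/
  h1 : ∀ σ : GQ, (∀ c ∈ K', σ c = c) → ∀ c ∈ K₁, (c ∈ A ↔ σ c ∈ A)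
  /-- `K'` is unramified at `A`: `q` is a uniformiser. -/
  unram : Irreducible ((q : ℕ) : ↥(baseRing A K'))
  bad : ∀ ℓ : ℕ, ℓ.Prime → ℓ ∣ M * q → ℓ ∈ S
  pS : p ∈ S
  threeS : 3 ∈ S
  nonEis : ∃ ℓ : ℕ, ℓ.Prime ∧ ℓ ∉ S ∧ ¬ (a ℓ ≡ (ℓ : ℤ) + 1 [ZMOD (p : ℤ)])
  ne_zero : f₀ ≠ 0
  /-- all orders over `Ω` are divisible by `p`. -/
  ordΩ : ∀ v : Place Ω ↥(modularFunctionFieldBar (M * q)),
    (p : ℤ) ∣ v.ord (keyFqBC (M * q) K' f₀)
  /-- the support on the Hesse host is rational over `K₁`. -/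
  rat : ∃ F₁ : ↥(keyFq ↥K₁ (M * q)), keyFqBC (M * q) K₁ F₁ = keyFqBC (M * q) K' f₀ ∧
    HesOrdCond K₁ (M * q) p (fullToHesE ↥K₁ (M * q) F₁)
  hecke : HeckeRelK ↥K' (M * q) p S a f₀

/-- **[DELTA-q], literal form**: a non-Eisenstein Hecke relation on the host of level `M q` forces
the orders along the two sheets to be congruent modulo `p` (residue characteristic `q ≠ p`). -/
def HesDeltaLitQ : Prop :=
  ∀ (M : ℕ) [NeZero M] (q : ℕ) [NeZero q] [NeZero (M * q)] [Fact q.Prime] (hq : q.Prime)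
    (hq3 : q ≠ 3), ¬ q ∣ M → ∀ (p : ℕ), p.Prime → p ≠ q →
  ∀ (A : ValuationSubring Ω) (hA : A.LiesOverPrime q) (K' : IntermediateField ℚ Ω)
    [IsDiscreteValuationRing ↥(baseRing A K')], IsBase q K' →
  ∀ (ϖ : ↥(baseRing A K')), Irreducible ϖ → ∀ (h2 : IsUnit (3 : ↥(baseRing A K'))) {x y : ℤ}
    (hbez : (q : ℤ) * x + M * y = 1) (ℓ : ℕ) [NeZero ℓ] [NeZero (M * q * ℓ)] (hℓ : ℓ.Prime)
    (hℓ3 : ℓ ≠ 3), ¬ ℓ ∣ M * q → ∀ (a : ℤ), ¬ a ≡ (ℓ : ℤ) + 1 [ZMOD (p : ℤ)] →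
  ∀ f : ↥(hesE ↥K' (M * q)), f ≠ 0 →
    (∃ (c : ↥K') (u : ↥(hesE ↥K' (M * q))), c ≠ 0 ∧ u ≠ 0 ∧
      hesHeckeP ↥K' (M * q) ℓ hℓ hℓ3 f = algebraMap ↥K' ↥(hesE ↥K' (M * q)) c * f ^ a * u ^ p) →
  ∀ ainf a0 : ℤ,
    (hesWinf ↥(baseRing A K') ↥K' h2 (M * q)).valuation
      (f * (algebraMap ↥(baseRing A K') ↥(hesE ↥K' (M * q)) ϖ ^ ainf)⁻¹) = 1 →
    (letI := baseToComplex K'; hesW0 ↥(baseRing A K') ↥K' hbez hq).valuation
      (f * (algebraMap ↥(baseRing A K') ↥(hesE ↥K' (M * q)) ϖ ^ a0)⁻¹) = 1 →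
    (p : ℤ) ∣ a0 - ainf

end Fermat.Agent.ML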