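/-
ML (S59) — helper6 — **[MAZ-L], the interfaces**: Mazur's principle at a prime `q ≠ p`, `q ∥ level`,
for a general curve, EVERY odd `p` (no `5 ≤ p`) and EVERY prime `q` (also `q = 2`), in the
`ResOccurs`-currency (an arbitrary excluded set `S ⊇ badSet`, with finitely many primes).

* `MazurPrincipleStatementL` : the top statement consumed by LEVEL-OPT (b):
  `ρ̄` irreducible and unramified at `q`, the eigensystem of `W` occurs residually at level `M' q`
  outside `S` ⇒ it occurs at level `M'` outside `S`, or `q ≡ 1 mod p` and `ρ̄(Frob_q)` is scalar;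
* `KeyMazStatementO` : RB's (KEY-MAZ) on the Legendre host (`q ≠ 2`) with `p ≠ 2`;
* `TopGQStatementS` : RB's [TOP-G(q)] in the `S`-form;
* `mazurPrincipleL_odd_of` is proved in `ML/MAZ_helper6_Top.lean` (not here).

The `q = 2` half uses the Hesse host (`3` invertible); its middle-level literals are in
`ML/IFACE_helper6_MazHes.lean`.
-/
import Mathlib
import Fermat.Agent.RB.MAZ_helper6_Iface

set_option autoImplicit false
set_option linter.unusedSectionVars false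
set_option linter.unusedVariables false
set_option linter.style.haveILetI false

open HahnSeries IntermediateField AlgebraicCurve ModularCurve WeierstrassCurve
open WeierstrassCurve.Affine WeierstrassCurve.Affine.Point

open scoped WeierstrassCurve.Affine

namespace Fermat.Agent.ML

open Fermat.Agent.JA Fermat.Agent.FF Fermat.Agent.SS Fermat.Agent.S35 Fermat.Agent.MP
  Fermat.Agent.NP Fermat.Agent.GR Fermat.Agent.RB

/-- `Ω = AlgebraicClosure ℚ`. -/
local notation "Ω" => AlgebraicClosure ℚ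

/-- the absolute Galois group. -/
local notation "GQ" => (AlgebraicClosure ℚ ≃ₐ[ℚ] AlgebraicClosure ℚ)

/-- **the side condition at `p = 3`** (lead 2310): a prime `r ≡ 2 mod 3` divides the level, so that
`Γ₀(M)` has no element of order three (`r = 2` qualifies).  Empty for `p ≠ 3`. -/
def NoThreeTorsionLevel (p M : ℕ) : Prop :=
  p = 3 → ∃ r : ℕ, r.Prime ∧ r ∣ M ∧ r % 3 = 2

theorem noThreeTorsionLevel_of_ne {p M : ℕ} (hp : p ≠ 3) : NoThreeTorsionLevel p M :=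
  fun h => absurd h hp

theorem NoThreeTorsionLevel.mul_right {p M : ℕ} (h : NoThreeTorsionLevel p M) (q : ℕ) :
    NoThreeTorsionLevel p (M * q) := fun hp => by
  obtain ⟨r, hr, hrM, hr3⟩ := h hp
  exact ⟨r, hr, Dvd.dvd.mul_right hrM q, hr3⟩

/-- **(KEY-MAZ), all levels, every odd `p`** (`q ≠ 2`: Legendre host; at `p = 3` the lower level `M`
has no `3`-torsion). -/
def KeyMazStatementO : Prop :=
  ∀ (M q p : ℕ) [NeZero M] [NeZero q] [NeZero (M * q)], q.Prime → q ≠ 2 → p.Prime → p ≠ 2 →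
    q ≠ p → ¬ q ∣ M → NoThreeTorsionLevel p M →
    ∀ A : ValuationSubring Ω, A.LiesOverPrime q → KeyMazAt M q p A

/-- **a `q`-new Galois-equivariant copy of `E[p]` in `J₀(M' q)`**, Hecke action outside `S`. -/
structure NewCopyQS (E : WeierstrassCurve ℚ) (W : WeierstrassCurve ℤ) (M' q p : ℕ) [NeZero M']
    [NeZero q] [NeZero (M' * q)] (S : Set ℕ) where
  /-- the embedding -/
  φ : ↥(torsionNat (E.toAffine⁄Ω).Point p) →+ JZero (M' * q)
  inj : Function.Injective φ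
  gal : ∀ (σ : GQ) (Q : ↥(torsionNat (E.toAffine⁄Ω).Point p)),
    φ ⟨σ • Q.1, smul_mem_torsionNat_point E p σ Q.2⟩ = σ • φ Q
  alpha : ∀ Q, degPushAlpha M' q (φ Q) = 0
  beta : ∀ Q, degPushBeta M' q (φ Q) = 0
  hecke : ∀ (ℓ : ℕ) (hℓ : ℓ.Prime), ℓ ∉ S →
    ∀ Q, heckeOperatorBar (M' * q) ⟨ℓ, hℓ⟩ (φ Q) = W.apOfModel ℓ • φ Q

/-- **[TOP-G(q)], `S`-form**: the `q`-old branch or a `q`-new copy of `E[p]`. -/
def TopGQStatementS : Prop :=
  ∀ (E : WeierstrassCurve ℚ) [E.IsElliptic] {W : WeierstrassCurve ℤ} (_hW : W.IsIntegralModelOf E)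
    {M' q p : ℕ} [NeZero M'] [NeZero q] [NeZero (M' * q)], p.Prime → p ≠ 2 → q.Prime → ¬ q ∣ M' →
    ∀ S : Set ℕ, {ℓ : ℕ | ℓ.Prime ∧ ℓ ∈ S}.Finite → badSet W p (M' * q) ⊆ S →
    GaloisRepIsIrreducible (K := Ω) ℚ E p →
    ResOccurs (M' * q) p S (fun ℓ => W.apOfModel ℓ) →
      ResOccurs M' p S (fun ℓ => W.apOfModel ℓ) ∨ Nonempty (NewCopyQS E W M' q p S)

/-- **Mazur's principle at `q ≠ p`**, general curve, every odd `p`, every prime `q`, `S`-form. -/
def MazurPrincipleStatementL : Prop :=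
  ∀ (E : WeierstrassCurve ℚ) [E.IsElliptic] {W : WeierstrassCurve ℤ} (_hW : W.IsIntegralModelOf E)
    {M' q p : ℕ} [NeZero M'] [NeZero q] [NeZero (M' * q)], p.Prime → p ≠ 2 → q.Prime →
    q ≠ p → ¬ q ∣ M' → NoThreeTorsionLevel p M' →
    ∀ S : Set ℕ, {ℓ : ℕ | ℓ.Prime ∧ ℓ ∈ S}.Finite → badSet W p (M' * q) ⊆ S → 2 ∈ S → 3 ∈ S →
    GaloisRepIsIrreducible (K := Ω) ℚ E p →
    GaloisRepUnramifiedAt (K := Ω) ℚ E p q →
    ResOccurs (M' * q) p S (fun ℓ => W.apOfModel ℓ) →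
      ResOccurs M' p S (fun ℓ => W.apOfModel ℓ) ∨ FrobScalarAtCurve E p q

/-- the `q ≠ 2` half of `MazurPrincipleStatementL` (Legendre host). -/
def MazurPrincipleStatementOdd : Prop :=
  ∀ (E : WeierstrassCurve ℚ) [E.IsElliptic] {W : WeierstrassCurve ℤ} (_hW : W.IsIntegralModelOf E)
    {M' q p : ℕ} [NeZero M'] [NeZero q] [NeZero (M' * q)], p.Prime → p ≠ 2 → q.Prime → q ≠ 2 →
    q ≠ p → ¬ q ∣ M' → NoThreeTorsionLevel p M' →
    ∀ S : Set ℕ, {ℓ : ℕ | ℓ.Prime ∧ ℓ ∈ S}.Finite → badSet W p (M' * q) ⊆ S → 2 ∈ S →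
    GaloisRepIsIrreducible (K := Ω) ℚ E p →
    GaloisRepUnramifiedAt (K := Ω) ℚ E p q →
    ResOccurs (M' * q) p S (fun ℓ => W.apOfModel ℓ) →
      ResOccurs M' p S (fun ℓ => W.apOfModel ℓ) ∨ FrobScalarAtCurve E p q

/-- the `q = 2` half of `MazurPrincipleStatementL` (Hesse host). -/
def MazurPrincipleStatementTwo : Prop :=
  ∀ (E : WeierstrassCurve ℚ) [E.IsElliptic] {W : WeierstrassCurve ℤ} (_hW : W.IsIntegralModelOf E)
    {M' p : ℕ} [NeZero M'] [NeZero (M' * 2)], p.Prime → p ≠ 2 → ¬ 2 ∣ M' →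
    NoThreeTorsionLevel p M' →
    ∀ S : Set ℕ, {ℓ : ℕ | ℓ.Prime ∧ ℓ ∈ S}.Finite → badSet W p (M' * 2) ⊆ S → 3 ∈ S →
    GaloisRepIsIrreducible (K := Ω) ℚ E p →
    GaloisRepUnramifiedAt (K := Ω) ℚ E p 2 →
    ResOccurs (M' * 2) p S (fun ℓ => W.apOfModel ℓ) →
      ResOccurs M' p S (fun ℓ => W.apOfModel ℓ) ∨ FrobScalarAtCurve E p 2

/-- the two halves give the statement. -/
theorem mazurPrincipleL_of_halves (h1 : MazurPrincipleStatementOdd)
    (h2 : MazurPrincipleStatementTwo) : MazurPrincipleStatementL := by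
  intro E _ W hW M' q p _ _ _ hp hp2 hq hqp hqM h3 S hS hbad h2S h3S hirr hunr hres
  by_cases hq2 : q = 2
  · subst hq2
    exact h2 E hW hp hp2 hqM h3 S hS hbad h3S hirr hunr hres
  · exact h1 E hW hp hp2 hq hq2 hqp hqM h3 S hS hbad h2S hirr hunr hres

end Fermat.Agent.ML
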