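/-
ML (S59) — helper6 — [MAZ-L]: **the sub-packages of `KeyMazStatementO`, literal forms for every odd
`p`** (= `RB/MAZ_helper6_Parts` with `5 ≤ p` replaced by `p ≠ 2`, and the side condition
`NoThreeTorsionLevel p M` on the lower level wherever [TOPO-p]/[FIN-q] is consumed).

`LegMazHyp`, `LegDeltaLitQ`, `KeyFqALHecke` of RB carry no condition on `p` and are reused as is;
`LegMazOrdQO` is in `ML/MAZ_helper6_OrdQO`.
-/
import Mathlib
import Fermat.Agent.RB.MAZ_helper6_Parts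
import Fermat.Agent.ML.IFACE_helper6_Maz

set_option autoImplicit false
set_option linter.unusedSectionVars false
set_option linter.unusedVariables false
set_option linter.style.haveILetI false
set_option synthInstance.maxHeartbeats 400000

open HahnSeries IntermediateField AlgebraicCurve ModularCurve IsLocalRing CongruenceSubgroup
  ModularCurve.Period

open scoped MatrixGroups

namespace Fermat.Agent.ML

open Fermat.Agent.JA Fermat.Agent.FF Fermat.Agent.SS Fermat.Agent.S35 Fermat.Agent.MP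
  Fermat.Agent.NP Fermat.Agent.GR Fermat.Agent.FG Fermat.Agent.X0N Fermat.Agent.LR Fermat.Agent.RB

open scoped Fermat.Agent.JA.Host

/-- `Ω = AlgebraicClosure ℚ`. -/
local notation "Ω" => AlgebraicClosure ℚ

/-- the absolute Galois group. -/
local notation "GQ" => (AlgebraicClosure ℚ ≃ₐ[ℚ] AlgebraicClosure ℚ)

/-- **[ROLD-q]**: a function on the reduction (at `A ∣ q`) of the Legendre host of level `M` which
is not a `p`-th power, has all orders divisible by `p`, and satisfies the reduced Hecke relations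
`T̄_ℓ w̄ = c w̄ ^ (a ℓ) u ^ p` for all `ℓ ∉ S`, forces the eigensystem `a` to occur residually at
level `M`.

(Route: the class `(1/p) div w̄ ∈ Pic⁰(Ẽ_M)[p]` lifts uniquely to `Pic⁰(E_M)[p]`
(`FG.legGoodRed`, `MW.kerRed_divisible`, `FG.GoodRed.liftSpec_of_liesOverPrime`); its norm to
`J₀(M)[p]` is a non-zero Hecke eigenclass (`MP.legRhoBase_legHeckeP`, `JA.KeyStatement` / S18 for
the injectivity); conclude by `EigenTorsOccurs`.) -/
def LegRoldQO : Prop :=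
  ∀ (M : ℕ) [NeZero M] (q : ℕ) [NeZero q] [Fact q.Prime] (hq2 : q ≠ 2), ¬ q ∣ M →
  ∀ (p : ℕ), p.Prime → p ≠ 2 → p ≠ q → NoThreeTorsionLevel p M →
  ∀ (A : ValuationSubring Ω) (hA : A.LiesOverPrime q) (S : Set ℕ) (a : ℕ → ℤ),
    (∀ ℓ : ℕ, ℓ.Prime → ℓ ∣ M → ℓ ∈ S) → q ∈ S → p ∈ S → 2 ∈ S →
  ∀ (w : ↥(keyFq Ω M)) (hW : fullToLegE Ω M w ∈ legWE hA M hq2),
    (¬ ∃ g : legEt hA M hq2, legρ hA M hq2 ⟨fullToLegE Ω M w, hW⟩ = g ^ p) →
    (∀ Q : Place (ResidueField ↥A) (legEt hA M hq2),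
      (p : ℤ) ∣ Q.ord (legρ hA M hq2 ⟨fullToLegE Ω M w, hW⟩)) →
    (∀ (ℓ : ℕ) (hℓ : ℓ.Prime) (hℓ2 : ℓ ≠ 2), ℓ ∉ S →
      haveI : NeZero ℓ := ⟨hℓ.ne_zero⟩
      haveI : NeZero (M * ℓ) := ⟨Nat.mul_ne_zero (NeZero.ne M) hℓ.ne_zero⟩
      ∃ (c : ResidueField ↥A) (u : legEt hA M hq2), c ≠ 0 ∧ u ≠ 0 ∧
        legEtT hA M hq2 ℓ hℓ hℓ2 (legρ hA M hq2 ⟨fullToLegE Ω M w, hW⟩) =
          algebraMap (ResidueField ↥A) (legEt hA M hq2) c *
            legρ hA M hq2 ⟨fullToLegE Ω M w, hW⟩ ^ (a ℓ) * u ^ p) →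
    ResOccurs M p S a

/-- **[TOPO-p]**: for `p` odd (and no `3`-torsion in `Γ₀(N)` when `p = 3`), every parabolic homomorphism `Γ₀(N) → ℤ/p` is the reduction of an
element of `H¹_par(Γ₀(N), ℤ)`.

(Route: `dim_{𝔽_p} Hom_par(Γ₀(N), 𝔽_p) ≤ 2 g(X₀(N))` by the cocycle count of
`X0N/ParHom_helper9_*` over a field of characteristic prime to `6`; the reduction map
`LPar N / p → Hom_par(Γ₀(N), 𝔽_p)` is injective (`MP.lpar_eq_smul_of_red_eq_zero`) and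
`LPar N` is free of rank `2 g` (`S16.finrank_parabolicHoms_int`).) -/
def ParLiftModPO : Prop :=
  ∀ (N : ℕ) [NeZero N] (p : ℕ) [Fact p.Prime], p ≠ 2 → NoThreeTorsionLevel p N →
    ∀ ψ : Additive ↥(Gamma0 N) →+ ZMod (p ^ 1), ψ ∈ parabolicHoms ℤ (Gamma0 N) (ZMod (p ^ 1)) →
      ∃ w : LPar N, (Int.castAddHom (ZMod (p ^ 1))).comp w.1 = ψ

/-- **[FIN-q]**: a non-zero Hecke eigenclass of `J₀(M)[p]` (`p` odd) with eigensystem `a` outside
`S` gives an eigenform of level `M` congruent to `a` modulo a prime above `p`. -/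
def EigenTorsOccursO : Prop :=
  ∀ (M : ℕ) [NeZero M] (p : ℕ), p.Prime → p ≠ 2 → NoThreeTorsionLevel p M →
    ∀ (S : Set ℕ) (a : ℕ → ℤ),
    (∀ ℓ : ℕ, ℓ.Prime → ℓ ∣ M → ℓ ∈ S) →
    ∀ x : JZero M, x ≠ 0 → p • x = 0 →
      (∀ (ℓ : ℕ) (hℓ : ℓ.Prime), ℓ ∉ S → heckeOperatorBar M ⟨ℓ, hℓ⟩ x = a ℓ • x) →
      ResOccurs M p S a

/-- **[HALF∞]**: along `W_∞`, over the small base: `f₀ ϖ ^ (-a∞)` is congruent to the `p`-th power
of a unit coming from level `M`, or the eigensystem occurs residually at level `M`. -/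
def LegMazInfQO : Prop :=
  ∀ (M : ℕ) [NeZero M] (q : ℕ) [NeZero q] [NeZero (M * q)] [Fact q.Prime] (hq2 : q ≠ 2),
    ¬ q ∣ M → ∀ (p : ℕ), p.Prime → p ≠ 2 → p ≠ q → NoThreeTorsionLevel p M →
  ∀ (A : ValuationSubring Ω) (hA : A.LiesOverPrime q)
    (K₁ : IntermediateField ℚ Ω) [Normal ℚ ↥K₁] (K' : IntermediateField ℚ Ω)
    [IsDiscreteValuationRing ↥(baseRing A K')] (S : Set ℕ) (a : ℕ → ℤ)
    (f₀ : ↥(keyFq ↥K' (M * q))), LegMazHyp q p M A K₁ K' S a f₀ →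
  ∀ (ϖ : ↥(baseRing A K')), Irreducible ϖ → ∀ (h2 : IsUnit (2 : ↥(baseRing A K'))),
    (∃ (ainf : ℤ) (b : ↥(legE ↥K' M)),
      (legWinf ↥(baseRing A K') ↥K' h2 M).valuation b = 1 ∧
      (legWinf ↥(baseRing A K') ↥K' h2 (M * q)).valuation
        (fullToLegE ↥K' (M * q) f₀ *
          (algebraMap ↥(baseRing A K') ↥(legE ↥K' (M * q)) ϖ ^ ainf)⁻¹ -
          legHostA ↥K' M q b ^ p) < 1) ∨
    ResOccurs M p S a

/-- **[DESC-q]**: the descent package of an `I_A`-fixed eigenclass `x ∈ J₀(M q)[p]`: a Kummer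
function `f` of `x`, defined over an unramified small base `K' ≤ K₁`, satisfying `LegMazHyp`
together with its Atkin–Lehner transform. -/
def MazDescQO : Prop :=
  ∀ (M q p : ℕ) [NeZero M] [NeZero q] [NeZero (M * q)] (hq : q.Prime), q ≠ 2 → p.Prime → p ≠ 2 →
    q ≠ p → ¬ q ∣ M → ∀ (A : ValuationSubring Ω), A.LiesOverPrime q →
  ∀ (S : Set ℕ) (a : ℕ → ℤ), (∀ ℓ : ℕ, ℓ.Prime → ℓ ∣ M * q → ℓ ∈ S) → p ∈ S → 2 ∈ S →
    (∃ ℓ : ℕ, ℓ.Prime ∧ ℓ ∉ S ∧ ¬ (a ℓ ≡ (ℓ : ℤ) + 1 [ZMOD (p : ℤ)])) →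
  ∀ x : JZero (M * q), p • x = 0 →
    (∀ (ℓ : ℕ) (hℓ : ℓ.Prime), ℓ ∉ S → heckeOperatorBar (M * q) ⟨ℓ, hℓ⟩ x = a ℓ • x) →
    (∀ τ ∈ A.inertiaSubgroupIn ℚ, τ • x = x) →
  ∃ (D : Divisor.degZero (K := Ω) (F := ↥(modularFunctionFieldBar (M * q))))
    (f : ↥(modularFunctionFieldBar (M * q))), f ≠ 0 ∧ Pic0.mk D = x ∧
    (∀ v : Place Ω ↥(modularFunctionFieldBar (M * q)),
      v.ord f = (p : ℤ) * (D : Divisor Ω ↥(modularFunctionFieldBar (M * q))) v) ∧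
    ∃ (K₁ : IntermediateField ℚ Ω) (_ : Normal ℚ ↥K₁) (K' : IntermediateField ℚ Ω)
      (f₀ : ↥(keyFq ↥K' (M * q))), keyFqBC (M * q) K' f₀ = f ∧
      LegMazHyp q p M A K₁ K' S a f₀ ∧
      ∀ {x y : ℤ} (hbez : (q : ℤ) * x + M * y = 1),
        LegMazHyp q p M A K₁ K' S a
          (letI := baseToComplex K'; atkinLehnerN (algebraMap ↥K' ℂ) hbez hq f₀)

/-- **[BASE-q]**: over the small base, a constant multiple of `f₀ h ^ p` is toric along both sheets,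
or the eigensystem occurs residually at level `M`. -/
def LegMazBaseQO : Prop :=
  ∀ (M q p : ℕ) [NeZero M] [NeZero q] [NeZero (M * q)] (hq : q.Prime), q ≠ 2 → p.Prime → p ≠ 2 →
    q ≠ p → ¬ q ∣ M → NoThreeTorsionLevel p M → ∀ (A : ValuationSubring Ω), A.LiesOverPrime q →
  ∀ (K₁ : IntermediateField ℚ Ω) [Normal ℚ ↥K₁] (K' : IntermediateField ℚ Ω)
    (S : Set ℕ) (a : ℕ → ℤ) (f₀ : ↥(keyFq ↥K' (M * q))), LegMazHyp q p M A K₁ K' S a f₀ →
    (∀ {x y : ℤ} (hbez : (q : ℤ) * x + M * y = 1),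
      LegMazHyp q p M A K₁ K' S a
        (letI := baseToComplex K'; atkinLehnerN (algebraMap ↥K' ℂ) hbez hq f₀)) →
    (∃ (c : ↥K') (h : ↥(keyFq ↥K' (M * q))), c ≠ 0 ∧ h ≠ 0 ∧
      LegToricAt M q p A K'
        (fullToLegE ↥K' (M * q) (algebraMap ↥K' ↥(keyFq ↥K' (M * q)) c * f₀ * h ^ p))) ∨
    ResOccurs M p S a

end Fermat.Agent.ML
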