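/-
ML (S59) — helper6 — **[MAZ-L], the interfaces with the side condition `p = 3 → 2 ∣ M`** (lead 2347
(1)): the `E`-twins of `LegRoldQO`, `LegMazInfQO`, `LegMazBaseQO`, `KeyMazStatementO`,
`MazurPrincipleStatementOdd`, with `NoThreeTorsionLevel p M` replaced by `EvenAtThree p M`
(which implies it).  At `p = 3` the Legendre host over `X₀(M)` has degree prime to `3` only for
even `M` ([ROLD-q] descends a `p`-torsion class of the host by the norm).
-/
import Mathlib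
import Fermat.Agent.ML.MAZ_helper6_PartsO

set_option autoImplicit false
set_option linter.unusedSectionVars false
set_option linter.unusedVariables false
set_option linter.style.haveILetI false

open HahnSeries IntermediateField AlgebraicCurve ModularCurve WeierstrassCurve IsLocalRing
open WeierstrassCurve.Affine WeierstrassCurve.Affine.Point

open scoped WeierstrassCurve.Affine

namespace Fermat.Agent.ML

open Fermat.Agent.JA Fermat.Agent.FF Fermat.Agent.SS Fermat.Agent.S35 Fermat.Agent.S36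
  Fermat.Agent.MP Fermat.Agent.NP Fermat.Agent.GR Fermat.Agent.FG Fermat.Agent.X0N
  Fermat.Agent.Igusa Fermat.Agent.RB

open scoped Fermat.Agent.JA.Host

/-- `Ω = AlgebraicClosure ℚ`. -/
local notation "Ω" => AlgebraicClosure ℚ

/-- the absolute Galois group. -/
local notation "GQ" => (AlgebraicClosure ℚ ≃ₐ[ℚ] AlgebraicClosure ℚ)

/-- the side condition of [ROLD-q] at `p = 3`: the level is even. -/
def EvenAtThree (p M : ℕ) : Prop := p = 3 → 2 ∣ M

theorem EvenAtThree.noThree {p M : ℕ} (h : EvenAtThree p M) : NoThreeTorsionLevel p M :=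
  fun hp => ⟨2, Nat.prime_two, h hp, by norm_num⟩

theorem evenAtThree_of_ne {p M : ℕ} (hp : p ≠ 3) : EvenAtThree p M := fun h => absurd h hp

/-- **[ROLD-q]**: a function on the reduction (at `A ∣ q`) of the Legendre host of level `M` which
is not a `p`-th power, has all orders divisible by `p`, and satisfies the reduced Hecke relations
`T̄_ℓ w̄ = c w̄ ^ (a ℓ) u ^ p` for all `ℓ ∉ S`, forces the eigensystem `a` to occur residually at
level `M`.

(Route: the class `(1/p) div w̄ ∈ Pic⁰(Ẽ_M)[p]` lifts uniquely to `Pic⁰(E_M)[p]`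
(`FG.legGoodRed`, `MW.kerRed_divisible`, `FG.GoodRed.liftSpec_of_liesOverPrime`); its norm to
`J₀(M)[p]` is a non-zero Hecke eigenclass (`MP.legRhoBase_legHeckeP`, `JA.KeyStatement` / S18 for
the injectivity); conclude by `EigenTorsOccurs`.) -/
def LegRoldQE : Prop :=
  ∀ (M : ℕ) [NeZero M] (q : ℕ) [NeZero q] [Fact q.Prime] (hq2 : q ≠ 2), ¬ q ∣ M →
  ∀ (p : ℕ), p.Prime → p ≠ 2 → p ≠ q → EvenAtThree p M →
  ∀ (A : ValuationSubring Ω) (hA : A.LiesOverPrime q) (S : Set ℕ) (a : ℕ → ℤ),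
    (∀ ℓ : ℕ, ℓ.Prime → ℓ ∣ M → ℓ ∈ S) → q ∈ S → p ∈ S → 2 ∈ S →
  ∀ (w : ↥(keyFq Ω M)) (hW : fullToLegE Ω M w ∈ legWE hA M hq2),
    (¬ ∃ g : legEt hA M hq2, legρ hA M hq2 ⟨fullToLegE Ω M w, hW⟩ = g ^ p) →
    (∀ Q : Place (ResidueField ↥A) (legEt hA M hq2),
      (p : ℤ) ∣ Q.ord (legρ hA M hq2 ⟨fullToLegE Ω M w, hW⟩)) →
    (∀ (ℓ : ℕ) (hℓ : ℓ.Prime) (hℓ2 : ℓ ≠ 2), ℓ ∉ S →
      haveI : NeZero ℓ := ⟨hℓ.ne_zero⟩
      haveI : NeZero (M * ℓ) := ⟨Nat.mul_ne_zero (NeZero.ne M) hℓ.ne_zero⟩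
      ∃ (c : ResidueField ↥A) (u : legEt hA M hq2), c ≠ 0 ∧ u ≠ 0 ∧
        legEtT hA M hq2 ℓ hℓ hℓ2 (legρ hA M hq2 ⟨fullToLegE Ω M w, hW⟩) =
          algebraMap (ResidueField ↥A) (legEt hA M hq2) c *
            legρ hA M hq2 ⟨fullToLegE Ω M w, hW⟩ ^ (a ℓ) * u ^ p) →
    ResOccurs M p S a

/-- **[HALF∞]**: along `W_∞`, over the small base: `f₀ ϖ ^ (-a∞)` is congruent to the `p`-th power
of a unit coming from level `M`, or the eigensystem occurs residually at level `M`. -/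
def LegMazInfQE : Prop :=
  ∀ (M : ℕ) [NeZero M] (q : ℕ) [NeZero q] [NeZero (M * q)] [Fact q.Prime] (hq2 : q ≠ 2),
    ¬ q ∣ M → ∀ (p : ℕ), p.Prime → p ≠ 2 → p ≠ q → EvenAtThree p M →
  ∀ (A : ValuationSubring Ω) (hA : A.LiesOverPrime q)
    (K₁ : IntermediateField ℚ Ω) [Normal ℚ ↥K₁] (K' : IntermediateField ℚ Ω)
    [IsDiscreteValuationRing ↥(baseRing A K')] (S : Set ℕ) (a : ℕ → ℤ)
    (f₀ : ↥(keyFq ↥K' (M * q))), LegMazHyp q p M A K₁ K' S a f₀ →
  ∀ (ϖ : ↥(baseRing A K')), Irreducible ϖ → ∀ (h2 : IsUnit (2 : ↥(baseRing A K'))),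
    (∃ (ainf : ℤ) (b : ↥(legE ↥K' M)),
      (legWinf ↥(baseRing A K') ↥K' h2 M).valuation b = 1 ∧
      (legWinf ↥(baseRing A K') ↥K' h2 (M * q)).valuation
        (fullToLegE ↥K' (M * q) f₀ *
          (algebraMap ↥(baseRing A K') ↥(legE ↥K' (M * q)) ϖ ^ ainf)⁻¹ -
          legHostA ↥K' M q b ^ p) < 1) ∨
    ResOccurs M p S a

/-- **[BASE-q]**: over the small base, a constant multiple of `f₀ h ^ p` is toric along both sheets,
or the eigensystem occurs residually at level `M`. -/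
def LegMazBaseQE : Prop :=
  ∀ (M q p : ℕ) [NeZero M] [NeZero q] [NeZero (M * q)] (hq : q.Prime), q ≠ 2 → p.Prime → p ≠ 2 →
    q ≠ p → ¬ q ∣ M → EvenAtThree p M → ∀ (A : ValuationSubring Ω), A.LiesOverPrime q →
  ∀ (K₁ : IntermediateField ℚ Ω) [Normal ℚ ↥K₁] (K' : IntermediateField ℚ Ω)
    (S : Set ℕ) (a : ℕ → ℤ) (f₀ : ↥(keyFq ↥K' (M * q))), LegMazHyp q p M A K₁ K' S a f₀ →
    (∀ {x y : ℤ} (hbez : (q : ℤ) * x + M * y = 1),
      LegMazHyp q p M A K₁ K' S a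
        (letI := baseToComplex K'; atkinLehnerN (algebraMap ↥K' ℂ) hbez hq f₀)) →
    (∃ (c : ↥K') (h : ↥(keyFq ↥K' (M * q))), c ≠ 0 ∧ h ≠ 0 ∧
      LegToricAt M q p A K'
        (fullToLegE ↥K' (M * q) (algebraMap ↥K' ↥(keyFq ↥K' (M * q)) c * f₀ * h ^ p))) ∨
    ResOccurs M p S a

/-- **(KEY-MAZ), all levels, every odd `p`** (`q ≠ 2`: Legendre host; at `p = 3` the lower level `M`
has no `3`-torsion). -/
def KeyMazStatementE : Prop :=
  ∀ (M q p : ℕ) [NeZero M] [NeZero q] [NeZero (M * q)], q.Prime → q ≠ 2 → p.Prime → p ≠ 2 →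
    q ≠ p → ¬ q ∣ M → EvenAtThree p M →
    ∀ A : ValuationSubring Ω, A.LiesOverPrime q → KeyMazAt M q p A

/-- the `q ≠ 2` half of `MazurPrincipleStatementL` (Legendre host). -/
def MazurPrincipleStatementOddE : Prop :=
  ∀ (E : WeierstrassCurve ℚ) [E.IsElliptic] {W : WeierstrassCurve ℤ} (_hW : W.IsIntegralModelOf E)
    {M' q p : ℕ} [NeZero M'] [NeZero q] [NeZero (M' * q)], p.Prime → p ≠ 2 → q.Prime → q ≠ 2 →
    q ≠ p → ¬ q ∣ M' → EvenAtThree p M' →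
    ∀ S : Set ℕ, {ℓ : ℕ | ℓ.Prime ∧ ℓ ∈ S}.Finite → badSet W p (M' * q) ⊆ S → 2 ∈ S →
    GaloisRepIsIrreducible (K := Ω) ℚ E p →
    GaloisRepUnramifiedAt (K := Ω) ℚ E p q →
    ResOccurs (M' * q) p S (fun ℓ => W.apOfModel ℓ) →
      ResOccurs M' p S (fun ℓ => W.apOfModel ℓ) ∨ FrobScalarAtCurve E p q

end Fermat.Agent.ML
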