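/-
ML (S59) — helper6 — [MAZ-L] **(F3): the normalisation of [BASE-q] without `12 t = 1 + p s`.**

In `MAZ_helper6_BaseQ.toric_normalise` the node unit `U` (a unit along `W_∞`, `U ϖ ^ (-12)` a unit
along `W_0`) is used with `n = 12 t = 1 + p s`, which needs `p ∤ 12`.  For `p = 3` (and in fact for
every `p`) one can use instead the explicit element

  `h = (U ^ 2 + ϖ ^ 3) / (U + ϖ) ^ 2`,

which is a unit along `W_∞` and such that `h ϖ ^ (-1)` is a unit along `W_0`, as soon as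
`U ϖ ^ (-c)` is a unit along `W_0` for some `c ≥ 2` and `ϖ` is a non-unit along both sheets.  Then
`toric_normalise` applies with `U := h`, `c = 1`, `n = t = 1`, `s = 0`.

Mathlib only.
-/
import Mathlib

set_option autoImplicit false
set_option linter.unusedSectionVars false
set_option linter.unusedVariables false

namespace Fermat.Agent.ML

section Abstract

variable {E : Type*} [Field E]

/-- `v x = 1` iff `x` and `x⁻¹` lie in the valuation subring. -/
theorem val_eq_one_of_mem_inv_mem_n6 (W : ValuationSubring E) {x : E} (hx : x ≠ 0) (h1 : x ∈ W)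
    (h2 : x⁻¹ ∈ W) : W.valuation x = 1 := by
  have a1 : W.valuation x ≤ 1 := (ValuationSubring.valuation_le_one_iff _ _).mpr h1
  have a2 : W.valuation x⁻¹ ≤ 1 := (ValuationSubring.valuation_le_one_iff _ _).mpr h2
  have hv : W.valuation x ≠ 0 := (Valuation.ne_zero_iff _).mpr hx
  rw [map_inv₀] at a2
  exact le_antisymm a1 ((inv_le_one₀ (zero_lt_iff.mpr hv)).mp a2)

theorem mem_and_inv_mem_of_val_eq_one_n6 (W : ValuationSubring E) {x : E}
    (h : W.valuation x = 1) : x ∈ W ∧ x⁻¹ ∈ W := by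
  constructor
  · exact (ValuationSubring.valuation_le_one_iff _ _).mp h.le
  · refine (ValuationSubring.valuation_le_one_iff _ _).mp ?_
    rw [map_inv₀, h, inv_one]

/-- the sheet normaliser. -/
noncomputable def sheetNormaliser (U ϖ : E) : E := (U ^ 2 + ϖ ^ 3) / (U + ϖ) ^ 2

/-- along a sheet on which `U` is a unit and `ϖ` is not, `h` is a unit. -/
theorem val_sheetNormaliser_inf (W : ValuationSubring E) {U ϖ : E}
    (hU : W.valuation U = 1) (hϖ : W.valuation ϖ < 1) :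
    W.valuation (sheetNormaliser U ϖ) = 1 := by
  have h3 : W.valuation (ϖ ^ 3) < 1 := by
    rw [map_pow]
    exact pow_lt_one₀ zero_le hϖ (by norm_num)
  have h1 : W.valuation (U ^ 2 + ϖ ^ 3) = 1 := by
    have hU2 : W.valuation (U ^ 2) = 1 := by rw [map_pow, hU, one_pow]
    rw [Valuation.map_add_eq_of_lt_left _ (by rw [hU2]; exact h3), hU2]
  have h2 : W.valuation (U + ϖ) = 1 := by
    rw [Valuation.map_add_eq_of_lt_left _ (by rw [hU]; exact hϖ), hU]
  rw [sheetNormaliser, map_div₀, map_pow, h1, h2, one_pow, div_one]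

/-- along a sheet on which `U ϖ ^ (-c)` is a unit, `c ≥ 2`, and `ϖ ≠ 0` is not a unit,
`h ϖ ^ (-1)` is a unit. -/
theorem val_sheetNormaliser_zero (W : ValuationSubring E) {U ϖ : E} {c : ℕ} (hc : 2 ≤ c)
    (hϖ0 : ϖ ≠ 0) (hU : W.valuation (U * (ϖ ^ c)⁻¹) = 1) (hϖ : W.valuation ϖ < 1) :
    W.valuation (sheetNormaliser U ϖ * (ϖ ^ 1)⁻¹) = 1 := by
  set a := W.valuation ϖ with ha
  have ha0 : a ≠ 0 := (Valuation.ne_zero_iff _).mpr hϖ0
  have hapos : 0 < a := zero_lt_iff.mpr ha0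
  have hUa : W.valuation U = a ^ c := by
    have h1 : U = (U * (ϖ ^ c)⁻¹) * ϖ ^ c := by
      field_simp
    rw [h1, map_mul, hU, one_mul, map_pow]
  -- `a ^ c < a`
  have hca : a ^ c < a := by
    calc a ^ c ≤ a ^ 2 := pow_le_pow_of_le_one zero_le hϖ.le hc
      _ = a * a := sq a
      _ < a * 1 := by
        exact mul_lt_mul_of_pos_left hϖ hapos
      _ = a := mul_one a
  -- `a ^ (2 c) < a ^ 3`
  have h2c : (a ^ c) ^ 2 < a ^ 3 := by
    have h4 : (a ^ c) ^ 2 ≤ a ^ 4 := by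
      rw [← pow_mul]
      exact pow_le_pow_of_le_one zero_le hϖ.le (by omega)
    have h43 : a ^ 4 < a ^ 3 := by
      calc a ^ 4 = a ^ 3 * a := pow_succ a 3
        _ < a ^ 3 * 1 := mul_lt_mul_of_pos_left hϖ (pow_pos hapos 3)
        _ = a ^ 3 := mul_one _
    exact lt_of_le_of_lt h4 h43
  have h1 : W.valuation (U ^ 2 + ϖ ^ 3) = a ^ 3 := by
    have hU2 : W.valuation (U ^ 2) = (a ^ c) ^ 2 := by rw [map_pow, hUa]
    have hϖ3 : W.valuation (ϖ ^ 3) = a ^ 3 := by rw [map_pow]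
    rw [Valuation.map_add_eq_of_lt_right _ (by rw [hU2, hϖ3]; exact h2c), hϖ3]
  have h2 : W.valuation (U + ϖ) = a := by
    rw [Valuation.map_add_eq_of_lt_right _ (by rw [hUa]; exact hca)]
  rw [sheetNormaliser, map_mul, map_div₀, map_pow, h1, h2, map_inv₀, pow_one, ← ha]
  field_simp

theorem sheetNormaliser_ne_zero (W : ValuationSubring E) {U ϖ : E}
    (hU : W.valuation U = 1) (hϖ : W.valuation ϖ < 1) : sheetNormaliser U ϖ ≠ 0 := by
  intro h
  have := val_sheetNormaliser_inf W hU hϖ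
  rw [h, map_zero] at this
  exact zero_ne_one this

/-- **the sheet normaliser, in the form consumed by `toric_normalise` (with `c = 1`).** -/
theorem sheetNormaliser_spec (Winf W0 : ValuationSubring E) {ϖ U : E} {c : ℕ} (hc : 2 ≤ c)
    (hϖ : ϖ ≠ 0) (hU : U ≠ 0)
    (hϖinf : Winf.valuation ϖ < 1) (hϖ0 : W0.valuation ϖ < 1)
    (hUinf : U ∈ Winf) (hUinf' : U⁻¹ ∈ Winf)
    (hU0 : U * (ϖ ^ c)⁻¹ ∈ W0) (hU0' : (U * (ϖ ^ c)⁻¹)⁻¹ ∈ W0) :
    sheetNormaliser U ϖ ≠ 0 ∧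
      sheetNormaliser U ϖ ∈ Winf ∧ (sheetNormaliser U ϖ)⁻¹ ∈ Winf ∧
      sheetNormaliser U ϖ * (ϖ ^ 1)⁻¹ ∈ W0 ∧ (sheetNormaliser U ϖ * (ϖ ^ 1)⁻¹)⁻¹ ∈ W0 := by
  have vU : Winf.valuation U = 1 := val_eq_one_of_mem_inv_mem_n6 Winf hU hUinf hUinf'
  have vV : W0.valuation (U * (ϖ ^ c)⁻¹) = 1 := val_eq_one_of_mem_inv_mem_n6 W0
    (mul_ne_zero hU (inv_ne_zero (pow_ne_zero _ hϖ))) hU0 hU0'
  have h1 := val_sheetNormaliser_inf Winf vU hϖinf
  have h2 := val_sheetNormaliser_zero W0 hc hϖ vV hϖ0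
  exact ⟨sheetNormaliser_ne_zero Winf vU hϖinf, (mem_and_inv_mem_of_val_eq_one_n6 Winf h1).1,
    (mem_and_inv_mem_of_val_eq_one_n6 Winf h1).2, (mem_and_inv_mem_of_val_eq_one_n6 W0 h2).1,
    (mem_and_inv_mem_of_val_eq_one_n6 W0 h2).2⟩

end Abstract

end Fermat.Agent.ML
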