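/-
ML (S59) — helper6 — [MAZ-L]: **[BASE-q] for every odd `p`: `LegMazBaseQO ⇐ LegDeltaLitQ + LegMazInfQO`**.

Copy of `RB/MAZ_helper6_BaseQ.legMazBaseQ_of`; the step `n = 12 t = 1 + p s` (which needs
`p ∤ 12`) is replaced by the sheet normaliser `h₀ = (U_q ^ 2 + q ^ 3) / (U_q + q) ^ 2`
(`ML/MAZ_helper6_Normalise`): a unit along `W_∞`, `q` times a unit along `W_0`; then
`toric_normalise` applies with `c = n = t = 1`, `s = 0`.
-/
import Mathlib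
import Fermat.Agent.RB.MAZ_helper6_BaseQ
import Fermat.Agent.ML.MAZ_helper6_PartsO
import Fermat.Agent.ML.MAZ_helper6_Normalise

set_option autoImplicit false
set_option linter.unusedSectionVars false
set_option linter.unusedVariables false
set_option linter.style.haveILetI false
set_option synthInstance.maxHeartbeats 400000

open HahnSeries IntermediateField AlgebraicCurve ModularCurve IsLocalRing

namespace Fermat.Agent.ML

open Fermat.Agent.JA Fermat.Agent.FF Fermat.Agent.SS Fermat.Agent.S35 Fermat.Agent.S36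
  Fermat.Agent.MP Fermat.Agent.NP Fermat.Agent.GR Fermat.Agent.FG Fermat.Agent.X0N
  Fermat.Agent.RB

open scoped Fermat.Agent.JA.Host

/-- `Ω = AlgebraicClosure ℚ`. -/
local notation "Ω" => AlgebraicClosure ℚ

/-- the absolute Galois group. -/
local notation "GQ" => (AlgebraicClosure ℚ ≃ₐ[ℚ] AlgebraicClosure ℚ)

set_option maxHeartbeats 3200000 in
/-- **[BASE-q] from [DELTA-q] and [HALF∞], every odd `p`.** -/
theorem legMazBaseQO_of (HD : LegDeltaLitQ) (HI : LegMazInfQO) : LegMazBaseQO := by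
  intro M q p _ _ _ hq hq2 hp hp2 hqp hqM hno3 A hA K₁ _ K' S a f₀ H HAL
  classical
  haveI : Fact q.Prime := ⟨hq⟩
  haveI : IsDiscreteValuationRing ↥(baseRing A K') := H.base.isDiscreteValuationRing hA
  haveI : CharZero ↥(baseRing A K') := charZero_valuationSubring_of_algebraRat _
  have h2 : IsUnit (2 : ↥(baseRing A K')) := isUnit_ofNat_baseRing hA K' Nat.prime_two hq2
  letI := baseToComplex K'
  haveI : NeZero (4 * M) := ⟨Nat.mul_ne_zero (by norm_num) (NeZero.ne M)⟩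
  haveI : NeZero (4 * M * q) := ⟨Nat.mul_ne_zero (NeZero.ne (4 * M)) (NeZero.ne q)⟩
  obtain ⟨x₀, y₀, hbez₀⟩ := exists_bezout_of_prime_of_not_dvd hq hqM
  have hq4M : ¬ q ∣ 4 * M := by
    intro h
    rcases (Nat.Prime.dvd_mul hq).mp h with h1 | h1
    · have : q ∣ 2 ^ 2 := by norm_num; exact h1
      exact hq2 ((Nat.prime_dvd_prime_iff_eq hq Nat.prime_two).mp (hq.dvd_of_dvd_pow this))
    · exact hqM h1
  obtain ⟨x₄, y₄, h4⟩ := exists_bezout_of_prime_of_not_dvd hq hq4M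
  have hϖ : Irreducible ((q : ℕ) : ↥(baseRing A K')) := H.unram
  set ϖ : ↥(baseRing A K') := ((q : ℕ) : ↥(baseRing A K')) with hϖdef
  -- [HALF∞] for `f₀` and `W_q f₀`
  rcases HI M q hq2 hqM p hp hp2 (Ne.symm hqp) hno3 A hA K₁ K' S a f₀ H ϖ hϖ h2 with
    ⟨ainf, b, hb, hlinf⟩ | hres
  swap
  · exact Or.inr hres
  rcases HI M q hq2 hqM p hp hp2 (Ne.symm hqp) hno3 A hA K₁ K' S a _ (HAL hbez₀) ϖ hϖ h2 with
    ⟨a0, b', hb', hl0⟩ | hres
  swap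
  · exact Or.inr hres
  left
  -- notation
  set F : ↥(legE ↥K' (M * q)) := fullToLegE ↥K' (M * q) f₀ with hFdef
  have hF : F ≠ 0 := (_root_.map_ne_zero (fullToLegE ↥K' (M * q))).mpr H.ne_zero
  set ϖE : ↥(legE ↥K' (M * q)) := algebraMap ↥(baseRing A K') ↥(legE ↥K' (M * q)) ϖ with hϖEdef
  have hϖE0 : ϖE ≠ 0 := by
    rw [hϖEdef, hϖdef, map_natCast]
    exact Nat.cast_ne_zero.mpr hq.ne_zero
  have hϖEK : algebraMap ↥K' ↥(legE ↥K' (M * q)) ((q : ℕ) : ↥K') = ϖE := by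
    rw [hϖEdef, hϖdef, map_natCast, map_natCast]
  set Winf : ValuationSubring ↥(legE ↥K' (M * q)) :=
    legWinf ↥(baseRing A K') ↥K' h2 (M * q) with hWinfdef
  have hcomapA := legWinf_comap_legHostA_gen (A := A) M q K' h2
  have hqϖ : ((q : ℕ) : ↥(baseRing A K')) ∈ Ideal.span {ϖ} := Ideal.mem_span_singleton_self _
  have hmodel : ∀ {x y : ℤ} (hbez : (q : ℤ) * x + M * y = 1),
      SSModelLeg ↥(baseRing A K') ↥K' ϖ h2 hbez hq hq2 := fun hbez =>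
    ssModelLeg ↥(baseRing A K') ↥K' hϖ h2 hbez hq hq2 hqϖ
      (geoHyps_legE_baseRing hA M hqM H.base hq2 hϖ)
  haveI : FiniteDimensional ↥(↥K')⟮jqNModC ↥K' 2⟯ ↥(legE ↥K' (M * q)) :=
    finite_legE_adjoin_j ↥K' (M * q)
  have hmodel' : ∀ {x y : ℤ} (hbez : (q : ℤ) * x + M * y = 1), _ := fun {x y} hbez =>
    SSModelLeg.ssModel ↥(baseRing A K') ↥K' (hmodel hbez)
  have hAb : Winf.valuation (legHostA ↥K' M q b) = 1 :=
    (kp_comap_val_eq_one_iff Winf (legHostA ↥K' M q).toRingHom hcomapA b).mpr hb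
  have hAb' : Winf.valuation (legHostA ↥K' M q b') = 1 :=
    (kp_comap_val_eq_one_iff Winf (legHostA ↥K' M q).toRingHom hcomapA b').mpr hb'
  -- transfer to `W_0`
  have key0 : ∀ {x y : ℤ} (hbez : (q : ℤ) * x + M * y = 1),
      (legW0 ↥(baseRing A K') ↥K' hbez hq).valuation
        ((legAL ↥K' hbez h4 hq hq2).symm (legHostA ↥K' M q b')) = 1 ∧
      (legW0 ↥(baseRing A K') ↥K' hbez hq).valuation
        (F * (ϖE ^ a0)⁻¹ - ((legAL ↥K' hbez h4 hq hq2).symm (legHostA ↥K' M q b')) ^ p) < 1 := by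
    intro x y hbez
    have hW0 := (legW0_eq_comap_legAL ↥(baseRing A K') ↥K' hbez h4 hq hq2 hϖ (hmodel hbez)).symm
    constructor
    · rw [← kp_comap_val_eq_one_iff Winf _ hW0]
      show Winf.valuation ((legAL ↥K' hbez h4 hq hq2)
        ((legAL ↥K' hbez h4 hq hq2).symm (legHostA ↥K' M q b'))) = 1
      rw [AlgEquiv.apply_symm_apply]
      exact hAb'
    · rw [← comap_val_lt_one_iff _ hW0]
      show Winf.valuation ((legAL ↥K' hbez h4 hq hq2)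
        (F * (ϖE ^ a0)⁻¹ - ((legAL ↥K' hbez h4 hq hq2).symm (legHostA ↥K' M q b')) ^ p)) < 1
      rw [map_sub, map_mul, map_inv₀, map_zpow₀, map_pow, AlgEquiv.apply_symm_apply, ← hϖEK,
        AlgEquiv.commutes, hϖEK, hFdef, legAL_fullToLegE ↥K' hbez h4 hq hq2 f₀,
        atkinLehnerN_indep K' (algebraMap ↥K' ℂ) hbez hbez₀ hq hqM f₀]
      exact hl0
  -- orders along the two sheets
  have vYp : Winf.valuation (legHostA ↥K' M q b ^ p) = 1 := val_pow_eq_one Winf hAb p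
  have hfinf : Winf.valuation (F * (ϖE ^ ainf)⁻¹) = 1 :=
    kp_val_eq_one_of_sub_lt Winf vYp (kp_val_sub_comm Winf hlinf)
  have hf0 : (legW0 ↥(baseRing A K') ↥K' hbez₀ hq).valuation (F * (ϖE ^ a0)⁻¹) = 1 :=
    kp_val_eq_one_of_sub_lt _ (val_pow_eq_one _ (key0 hbez₀).1 p)
      (kp_val_sub_comm _ (key0 hbez₀).2)
  -- [DELTA-q]
  obtain ⟨ℓ, hℓ, hℓS, hnEℓ⟩ := H.nonEis
  have hℓ2 : ℓ ≠ 2 := fun h => hℓS (h ▸ H.twoS)
  have hℓMq : ¬ ℓ ∣ M * q := fun h => hℓS (H.bad ℓ hℓ h)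
  haveI : NeZero ℓ := ⟨hℓ.ne_zero⟩
  haveI : NeZero (M * q * ℓ) := ⟨Nat.mul_ne_zero (NeZero.ne (M * q)) hℓ.ne_zero⟩
  obtain ⟨cH, uH, hcH, huH, hrel⟩ := H.hecke ℓ hℓ hℓS
  have hhost : legHeckeP ↥K' (M * q) ℓ hℓ hℓ2 F =
      algebraMap ↥K' ↥(legE ↥K' (M * q)) cH * F ^ (a ℓ) * fullToLegE ↥K' (M * q) uH ^ p := by
    rw [hFdef, legHeckeP_fullToLegE_base (M * q) ℓ hℓ hℓ2 hℓMq K' f₀, hrel, map_mul, map_mul,
      map_zpow₀, map_pow, AlgHom.commutes]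
  obtain ⟨k, hk⟩ : (p : ℤ) ∣ a0 - ainf :=
    HD M q hq hq2 hqM p hp (Ne.symm hqp) A hA K' H.base ϖ hϖ h2 hbez₀ ℓ hℓ hℓ2 hℓMq (a ℓ) hnEℓ F hF
      ⟨cH, fullToLegE ↥K' (M * q) uH, hcH,
        (_root_.map_ne_zero (fullToLegE ↥K' (M * q))).mpr huH, hhost⟩ ainf a0 hfinf hf0
  -- the node unit
  set Uq : ↥(keyFq ↥K' (M * q)) := modUnit ↥K' (M * q) q (Dvd.intro_left M rfl) with hUqdef
  have hUnode : ∀ {x y : ℤ} (hbez : (q : ℤ) * x + M * y = 1), _ := fun {x y} hbez =>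
    ssModelLeg_nodeUnit ↥(baseRing A K') ↥K' (M := M) (e := 1) (u := 1) hϖ h2 hbez hq le_rfl
      (by rw [Units.val_one, one_mul, pow_one])
  have hUq0 : Uq ≠ 0 := fun h0 => (hUnode hbez₀).ne_zero (by rw [← hUqdef, h0, map_zero])
  have hqK : ((q : ℕ) : ↥K') ≠ 0 := Nat.cast_ne_zero.mpr hq.ne_zero
  -- the sheet normaliser `h₀ = (U_q ^ 2 + q ^ 3) / (U_q + q) ^ 2`
  set qF : ↥(keyFq ↥K' (M * q)) := algebraMap ↥K' ↥(keyFq ↥K' (M * q)) ((q : ℕ) : ↥K') with hqFdef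
  set h₀ : ↥(keyFq ↥K' (M * q)) := (Uq ^ 2 + qF ^ 3) / (Uq + qF) ^ 2 with hh₀def
  have hh₀E : fullToLegE ↥K' (M * q) h₀ =
      sheetNormaliser (fullToLegE ↥K' (M * q) Uq) ϖE := by
    rw [hh₀def, sheetNormaliser, map_div₀, map_add, map_pow, map_pow, map_pow, map_add, hqFdef,
      AlgHom.commutes, hϖEK]
  have hspec : ∀ {x y : ℤ} (hbez : (q : ℤ) * x + M * y = 1), _ := fun {x y} hbez =>
    sheetNormaliser_spec Winf (legW0 ↥(baseRing A K') ↥K' hbez hq) (c := 12 * 1) (by norm_num)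
      hϖE0 (hUnode hbez).ne_zero
      (SSModel.val_pi_lt_one_inf (hmodel' hbez)) (SSModel.val_pi_lt_one_zero (hmodel' hbez))
      (hUnode hbez).mem_inf (hUnode hbez).inv_mem_inf (hUnode hbez).mem_zero
      (hUnode hbez).inv_mem_zero
  have hh₀0 : h₀ ≠ 0 := fun h0 => (hspec hbez₀).1 (by rw [← hh₀E, h0, map_zero])
  refine ⟨(((q : ℕ) : ↥K') ^ (((1 : ℕ) : ℤ) * ainf))⁻¹, f₀ ^ 0 * h₀ ^ (-(((1 : ℕ) : ℤ) * k)),
    inv_ne_zero (zpow_ne_zero _ hqK),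
    mul_ne_zero (pow_ne_zero _ H.ne_zero) (zpow_ne_zero _ hh₀0), ?_⟩
  intro _ _ h2' x y hbez hq'
  obtain ⟨linf, l0, h1, h2v, h3, h4v⟩ := toric_normalise Winf
    (legW0 ↥(baseRing A K') ↥K' hbez hq) (c := 1) (p := p) (n := 1) (s := 0) (t := 1)
    hϖE0 (hspec hbez).1 (by omega) (by omega) hk
    (hspec hbez).2.1 (hspec hbez).2.2.1 (hspec hbez).2.2.2.1
    (hspec hbez).2.2.2.2 hAb hlinf (key0 hbez).1 (key0 hbez).2
  have eg : fullToLegE ↥K' (M * q)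
      (algebraMap ↥K' ↥(keyFq ↥K' (M * q)) (((q : ℕ) : ↥K') ^ (((1 : ℕ) : ℤ) * ainf))⁻¹ * f₀ *
        (f₀ ^ 0 * h₀ ^ (-(((1 : ℕ) : ℤ) * k))) ^ p) =
      (ϖE ^ (((1 : ℕ) : ℤ) * ainf))⁻¹ * F *
        (F ^ 0 * sheetNormaliser (fullToLegE ↥K' (M * q) Uq) ϖE ^ (-(((1 : ℕ) : ℤ) * k))) ^ p := by
    rw [map_mul, map_mul, map_pow, AlgHom.commutes, map_mul, map_pow, map_zpow₀, map_inv₀,
      map_zpow₀, hϖEK, hh₀E]
  rw [eg]
  exact ⟨linf, l0, h1, h2v, h3, h4v⟩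

end Fermat.Agent.ML
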