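/-
ML (S59) — helper6 — **[REG-3] on the Hesse host**: the second node unit
`W = (E₄(τ)/E₄(qτ)) · B(γ)/A(γ)` (`γ = t (t³ + 8) / (t³ - 1)`, `j = 27 γ³`) of exponent `4 e`, and
the consequence: **the thickness of every node of the two-sheeted Hesse model divides `4 e`** — in
particular it is prime to `3` when `q` is unramified in the base (`e = 1`).

On the Hesse host `j` is (27 times) an exact cube, so `U = Δ(τ)/Δ(qτ) = (V · B γ / A γ)³` on the nose.
-/
import Mathlib
import Fermat.Agent.ML.REG3_helper6_Leg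
import Fermat.Agent.ML.HES_helper6_NodeUnit
import Fermat.Agent.ML.HES_helper6_HostB
import Fermat.Agent.FG.EGAL_helper8_A4

set_option autoImplicit false
set_option linter.unusedSectionVars false
set_option linter.unusedVariables false
set_option linter.style.haveILetI false
set_option synthInstance.maxHeartbeats 400000

open Polynomial ModularCurve IntermediateField

namespace Fermat.Agent.ML

open Fermat.Agent.SS Fermat.Agent.JA Fermat.Agent.Igusa Fermat.Agent.X0N Fermat.Agent.MW.NAdic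
  Fermat.Agent.MP Fermat.Agent.FG

open scoped Fermat.Agent.JA.Host

section Abs

variable {R : Type*} [CommRing R] [IsDomain R] [IsDiscreteValuationRing R] [CharZero R]
  {EN : Type*} [Field EN] [Algebra R EN]
  {K₁ : Type*} [Field K₁] [Algebra K₁ EN]
  {π : R} {J JB U V γA γB : EN} {c c' : ℕ} {Winf W0 : ValuationSubring EN}

/-- **a node unit from an exact cube relation**: `J = 27 γA³`, `JB = 27 γB³`, `U J = V³ JB`. -/
theorem NodeUnit.of_cube_rel (hU : NodeUnit K₁ π J U c Winf W0) (hc : c = 3 * c')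
    (h27 : (27 : EN) ≠ 0) (hγA : γA ≠ 0) (hJ : J = 27 * γA ^ 3) (hJB : JB = 27 * γB ^ 3)
    (hV : U * J = V ^ 3 * JB) : NodeUnit K₁ π J (V * γB * γA⁻¹) c' Winf W0 := by
  have hW : (V * γB * γA⁻¹) ^ 3 = U * 1 := by
    have h3 : U = V ^ 3 * JB * J⁻¹ := by
      have hJ0 : J ≠ 0 := by
        rw [hJ]; exact mul_ne_zero h27 (pow_ne_zero 3 hγA)
      rw [← hV]; field_simp
    rw [mul_one, h3, hJ, hJB]
    field_simp
  exact NodeUnit.of_pow_eq hU (by norm_num : (3 : ℕ) ≠ 0) hc hW one_ne_zero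
    Winf.one_mem (by rw [inv_one]; exact Winf.one_mem) W0.one_mem
    (by rw [inv_one]; exact W0.one_mem) isIntegral_one (by rw [inv_one]; exact isIntegral_one)

end Abs

section Series

variable (K : Type*) [Field K] [Algebra ℚ K] (q : ℕ) [NeZero q]

/-- the cube relation on the level of Laurent series over `K`, in the variable `x` (`q = x³`). -/
theorem cube_rel_series_three :
    qExpand K 3 (coeffEmb K (modularUnitSeries q)) * jqNModC K 3 =
      qExpand K 3 (coeffEmb K (e4RatioSeries 1 q)) ^ 3 * qExpand K q (jqNModC K 3) := by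
  have h0 := deltaRatioSeries_mul_jq 1 q
  rw [qExpand_one_apply] at h0
  have hjq : qExpand ℚ q jq ≠ 0 :=
    (map_ne_zero_iff _ (qExpand_injective (R := ℚ) (N := q))).mpr jq_ne_zero
  have h1 : deltaRatioSeries 1 q * jq = e4RatioSeries 1 q ^ 3 * qExpand ℚ q jq := by
    rw [← h0]
    field_simp
  have h2 := congrArg (fun z => qExpand K 3 (coeffEmb K z)) h1
  simp only [map_mul, map_pow] at h2
  rw [coeffEmb_jq_eq_jqModC, coeffEmb_qExpand_jq, qExpand_qExpand] at h2
  have e1 : jqNModC K 3 = qExpand K 3 (jqModC K) := rfl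
  have e2 : qExpand K q (qExpand K 3 (jqModC K)) = qExpand K (3 * q) (jqModC K) :=
    qExpand_qExpand' q 3 (3 * q) (mul_comm 3 q) _
  rw [modularUnitSeries_eq_deltaRatioSeries, e1, e2]
  exact h2

end Series

section Host

variable (R : Type*) [CommRing R] [IsDomain R] [IsDiscreteValuationRing R] [CharZero R]
  (K : Type*) [Field K] [Algebra R K] [IsFractionRing R K] [Algebra ℚ K] [Algebra K ℂ]
  {M q : ℕ} [NeZero M] [NeZero q] [NeZero (M * q)] {x y : ℤ}

/-- **the cube relation in the Hesse host**: `U · j = V³ · j_q`. -/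
theorem hesE_cube_rel (hq : q.Prime) (hq3 : q ≠ 3) :
    fullToHesE K (M * q) (modUnit K (M * q) q (Dvd.intro_left M rfl)) *
      (hesHostA K M q : ↥(hesE K M) →+* ↥(hesE K (M * q))) (hesJE K M) =
    fullToHesE K (M * q) (e4Ratio 1 q K (M * q) (one_dvd _) (Dvd.intro_left M rfl)) ^ 3 *
      (hesHostBG K M q hq hq3 : ↥(hesE K M) →+* ↥(hesE K (M * q))) (hesJE K M) := by
  apply Subtype.ext
  have h := cube_rel_series_three K q
  have e1 : ((fullToHesE K (M * q) (modUnit K (M * q) q (Dvd.intro_left M rfl)) :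
      ↥(hesE K (M * q))) : LaurentSeries K) = qExpand K 3 (coeffEmb K (modularUnitSeries q)) := by
    rw [coe_fullToHesE, coe_modUnit]
  have e2 : ((fullToHesE K (M * q) (e4Ratio 1 q K (M * q) (one_dvd _) (Dvd.intro_left M rfl)) :
      ↥(hesE K (M * q))) : LaurentSeries K) = qExpand K 3 (coeffEmb K (e4RatioSeries 1 q)) := by
    rw [coe_fullToHesE, coe_e4Ratio]
  push_cast
  rw [e1, e2]
  exact h

/-- the cube root of `j / 27` on the Hesse host of level `M`. -/
noncomputable def hesGammaE (M : ℕ) [NeZero M] : ↥(hesE K M) :=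
  hesG (algebraMap ↥K⟮hesT K⟯ ↥(hesE K M) (AdjoinSimple.gen K (hesT K)))

theorem hesT_gen_cube_sub_one_ne_zero (M : ℕ) [NeZero M] :
    (algebraMap ↥K⟮hesT K⟯ ↥(hesE K M) (AdjoinSimple.gen K (hesT K))) ^ 3 - 1 ≠ 0 := by
  intro h0
  have hcoe : ((algebraMap ↥K⟮hesT K⟯ ↥(hesE K M) (AdjoinSimple.gen K (hesT K)) :
      ↥(hesE K M)) : LaurentSeries K) = hesT K := rfl
  have h1 := congrArg (Subtype.val : ↥(hesE K M) → LaurentSeries K) h0
  push_cast at h1
  rw [hcoe] at h1
  apply transcendental_hesT K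
  refine ⟨X ^ 3 - 1, ?_, ?_⟩
  · intro h3
    have := congrArg (Polynomial.eval 0) h3
    simp at this
  · simpa using h1

/-- `j = 27 γ³` on the Hesse host. -/
theorem hesJE_eq_cube (M : ℕ) [NeZero M] : hesJE K M = 27 * hesGammaE K M ^ 3 := by
  have hrel := hesse_rel_hesE K M
  have h1 := hesT_gen_cube_sub_one_ne_zero K M
  unfold hesGammaE hesG
  set tE : ↥(hesE K M) := algebraMap ↥K⟮hesT K⟯ ↥(hesE K M) (AdjoinSimple.gen K (hesT K))
  field_simp
  linear_combination -hrel

theorem hesGammaE_ne_zero [CharZero K] (M : ℕ) [NeZero M] : hesGammaE K M ≠ 0 := by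
  intro h0
  have h1 := hesJE_eq_cube K M
  rw [h0, zero_pow (by norm_num), mul_zero] at h1
  have h2 := congrArg (Subtype.val : ↥(hesE K M) → LaurentSeries K) h1
  rw [coe_hesJE] at h2
  have h3 : (jqNModC K 3).order = -((3 : ℕ) : ℤ) := cuspord_order_jqNModC K 3
  rw [h2] at h3
  simp at h3

/-- **the second node unit of the Hesse host**, of exponent `4 e`. -/
theorem ssModelHesG_nodeUnit_four {π : R} (hπ : Irreducible π)
    (h3 : IsUnit (3 : R)) (h : (q : ℤ) * x + M * y = 1) (hq : q.Prime) (hq3 : q ≠ 3) {e : ℕ}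
    {u : Rˣ} (he : 1 ≤ e) (hu : (q : R) = u * π ^ e) :
    NodeUnit K π ((hesHostA K M q : ↥(hesE K M) →+* ↥(hesE K (M * q))) (hesJE K M))
      (fullToHesE K (M * q) (e4Ratio 1 q K (M * q) (one_dvd _) (Dvd.intro_left M rfl)) *
        (hesHostBG K M q hq hq3 : ↥(hesE K M) →+* ↥(hesE K (M * q))) (hesGammaE K M) *
        ((hesHostA K M q : ↥(hesE K M) →+* ↥(hesE K (M * q))) (hesGammaE K M))⁻¹)
      (4 * e) (hesWinf R K h3 (M * q)) (hesW0 R K h hq) := by
  haveI : CharZero K := algebraRat.charZero K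
  have h27 : (27 : ↥(hesE K (M * q))) ≠ 0 := by
    haveI : CharZero ↥(hesE K (M * q)) :=
      charZero_of_injective_algebraMap (algebraMap K ↥(hesE K (M * q))).injective
    norm_num
  refine NodeUnit.of_cube_rel (ssModelHesG_nodeUnit R K hπ h3 h hq he hu)
    (by ring : 12 * e = 3 * (4 * e)) h27
    ((_root_.map_ne_zero _).mpr (hesGammaE_ne_zero K M)) ?_ ?_ (hesE_cube_rel K hq hq3)
  · rw [hesJE_eq_cube K M, map_mul, map_pow, map_ofNat]
  · rw [hesJE_eq_cube K M, map_mul, map_pow, map_ofNat]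

end Host

end Fermat.Agent.ML
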