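/-
ML (S59) — helper6 — **Hesse-host port** of `Fermat.Agent.NP.BASEP_helper2_OldDesc`.
-/
import Mathlib
import Fermat.Agent.NP.BASEP_helper2_OldDesc
import Fermat.Agent.SS.TOPB_lead_Hes

set_option autoImplicit false
set_option linter.unusedSectionVars false
set_option linter.unusedVariables false
set_option linter.style.haveILetI false
set_option synthInstance.maxHeartbeats 400000

open HahnSeries IntermediateField AlgebraicCurve ModularCurve

namespace Fermat.Agent.ML

open Fermat.Agent.NP

open Fermat.Agent.JA Fermat.Agent.FF Fermat.Agent.SS Fermat.Agent.X0N Fermat.Agent.S35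

local notation "Ω" => AlgebraicClosure ℚ

local notation "GQ" => (AlgebraicClosure ℚ ≃ₐ[ℚ] AlgebraicClosure ℚ)

section Ord

variable (N : ℕ) [NeZero N]

/-- the orders of a function of `F_{K₁}(N)` at the places of the host over `K₁` are divisible by
`m` as soon as the orders of its base change to `Ω` are. -/
theorem dvd_ord_fullToHesE_of_keyFqBC {m : ℕ} (K₁ : IntermediateField ℚ Ω) (G : ↥(keyFq ↥K₁ N))
    (hdiv : ∀ v : Place Ω ↥(modularFunctionFieldBar N), (m : ℤ) ∣ v.ord (keyFqBC N K₁ G))
    (P : Place ↥K₁ ↥(hesE ↥K₁ N)) : (m : ℤ) ∣ P.ord (fullToHesE ↥K₁ N G) := by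
  obtain ⟨Q, -, hQord⟩ := exists_place_restrictBC_eq_and_ord (hesBC N K₁) (hesBC_algebraMap N K₁)
    (closure_range_hesBC N K₁) P
  rw [hQord, bcdeg_hesBC_fullToHesE]
  exact dvd_ord_fullToHesE N _ hdiv Q

end Ord

section Main

variable (M p : ℕ) [NeZero M] [NeZero p] [NeZero (M * p)]

end Main

end Fermat.Agent.ML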