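/-
ML (S59) — helper6 — **Hesse-host port** of `Fermat.Agent.MP.PLHOST_helper9_RatPlace`.
-/
import Mathlib
import Fermat.Agent.MP.PLHOST_helper9_RatPlace
import Fermat.Agent.FG.EDEF_helper6_PsiBijHes

/-!
# Project MP40 — C5 [ORD] helper9: the places of the reduced Hesse host are rational

`k = ResidueField A` is algebraically closed and `hesEt hA M hp3` is a function field in one
variable over `k` (`hesEt_facts`), so every place `Q` has residue field `k`:
`hesEt_place_rational`.
-/

set_option autoImplicit false
set_option linter.unusedSectionVars false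
set_option linter.unusedVariables false
set_option linter.style.haveILetI false

namespace Fermat.Agent.ML

open Fermat.Agent.MP

open ModularCurve AlgebraicCurve IntermediateField Fermat.Agent.JA Fermat.Agent.SS Fermat.Agent.FG
  IsLocalRing

local notation "Ω" => AlgebraicClosure ℚ

section RatPlace

variable {p : ℕ} [Fact p.Prime] {A : ValuationSubring Ω} (hA : A.LiesOverPrime p) (M : ℕ)
  [NeZero M] (hp3 : p ≠ 3)

/-- every place of the reduced Hesse host has degree one. -/
theorem hesEt_place_deg_eq_one (hpM : ¬ p ∣ M)
    (Q : Place (ResidueField ↥A) (hesEt hA M hp3)) : Q.deg = 1 := by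
  haveI := isAlgClosed_residueField A
  obtain ⟨-, hfin, -, -⟩ := hesEt_facts hA M hpM hp3
  haveI := hfin
  exact degk_deg_eq_one (hesTb hA M hp3) (Algebra.IsAlgebraic.of_finite _ _) Q

/-- every place of the reduced Hesse host is rational. -/
theorem hesEt_isRationalPlace (hpM : ¬ p ∣ M)
    (Q : Place (ResidueField ↥A) (hesEt hA M hp3)) : IsRationalPlace Q :=
  isRationalPlace_of_deg_eq_one Q (hesEt_place_deg_eq_one hA M hp3 hpM Q)

/-- **every place of the reduced Hesse host is rational**, valuation form: an element of the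
valuation ring of `Q` is congruent to a constant. -/
theorem hesEt_place_rational (hpM : ¬ p ∣ M)
    (Q : Place (ResidueField ↥A) (hesEt hA M hp3)) :
    ∀ y ∈ Q.toValuationSubring, ∃ c : ResidueField ↥A,
      Q.toValuationSubring.valuation (y - algebraMap (ResidueField ↥A) (hesEt hA M hp3) c) < 1 := by
  intro y hy
  obtain ⟨c, hc⟩ := hesEt_isRationalPlace hA M hp3 hpM Q y hy
  refine ⟨c, ?_⟩
  obtain ⟨hmem, h0 | hinv⟩ := (Place.isZeroAt_iff Q _).mp hc
  · rw [h0, map_zero]
    exact zero_lt_one
  · refine lt_of_le_of_ne ((ValuationSubring.valuation_le_one_iff _ _).mpr hmem) ?_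
    intro h1
    apply hinv
    rw [← ValuationSubring.valuation_le_one_iff, map_inv₀, h1, inv_one]

end RatPlace

end Fermat.Agent.ML
namespace Fermat.Agent.ML

open ModularCurve AlgebraicCurve IntermediateField Fermat.Agent.JA Fermat.Agent.SS Fermat.Agent.FG
  IsLocalRing

/-- every place of the reduced Hesse host over `k = ResidueField A` is rational. -/
def HesEtRationalP : Prop :=
  ∀ (M : ℕ) [NeZero M] (p : ℕ) [Fact p.Prime] (hp3 : p ≠ 3), ¬ p ∣ M →
  ∀ (A : ValuationSubring (AlgebraicClosure ℚ)) (hA : A.LiesOverPrime p)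
    (Q : Place (ResidueField ↥A) (hesEt hA M hp3)), ∀ z ∈ Q.toValuationSubring,
    ∃ c : ResidueField ↥A, Q.toValuationSubring.valuation
      (z - algebraMap (ResidueField ↥A) (hesEt hA M hp3) c) < 1

/-- the places of the reduced Hesse host are rational. -/
theorem hesEtRationalP : HesEtRationalP := by
  intro M _ p _ hp3 hpM A hA Q
  exact hesEt_place_rational hA M hp3 hpM Q

end Fermat.Agent.ML
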