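/-
ML (S59) — helper6 — **Hesse-host port** of `Fermat.Agent.MP.REDINF_helper8_RhoBaseP`.
-/
import Mathlib
import Fermat.Agent.MP.REDINF_helper8_RhoBaseP
import Fermat.Agent.ML.HES_helper6_RhoBase
import Fermat.Agent.ML.HES_helper6_OrdDefs

set_option autoImplicit false
set_option linter.unusedSectionVars false
set_option linter.unusedVariables false
set_option linter.style.haveILetI false
set_option synthInstance.maxHeartbeats 400000

open HahnSeries IntermediateField ModularCurve IsLocalRing

namespace Fermat.Agent.ML

open Fermat.Agent.MP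

open Fermat.Agent.JA Fermat.Agent.Igusa Fermat.Agent.SS Fermat.Agent.FG Fermat.Agent.S36
  Fermat.Agent.NP

open scoped Fermat.Agent.JA.Host

local notation "Ω" => AlgebraicClosure ℚ

/-- **the reduction map of the good level over the small base.** -/
theorem hesRhoBaseP : HesRhoBaseP := by
  intro M _ p _ _ hp3 hpM A hA K' _ hK' h2
  refine ⟨hesRhoBase hA M hp3 K' h2,
    (baseResidueMap A K').comp (residue ↥(baseRing A K')), legBaseRes_surjective hA K' hK',
    ?_, ?_, ?_⟩
  · intro z hz
    exact (hesRhoBase_eq_zero_iff hA M hp3 K' h2 z).mpr hz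
  · intro r hr
    exact hesRhoBase_algebraMap hA M hp3 K' h2 r hr
  · intro x hx hW
    exact hesRhoBase_mk hA M hp3 K' h2 x hx hW

end Fermat.Agent.ML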