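/-
ML (S59) — helper6 — **[REG-3], the analytic input**: the series `E₄(q^d)/E₄(q^e)` (`d, e ∣ N`) lies
in the function field of `X₀(N)` over any field `k ⊇ ℚ`, and

  `Δ(q^d)/Δ(q^e) = (E₄(q^d)/E₄(q^e))³ · j(q^e)/j(q^d)`.

Pattern of `SS/UNIT_helper6_Mem` (`Δ` replaced by `E₄`).
-/
import Mathlib
import Fermat.Agent.SS.UNIT_helper6_Mem
import Fermat.Agent.X0N.J_helper8_Basic
import Fermat.Agent.X0N.SYM_helper2_Core
import Fermat.Agent.JA.GEOBASE_helper8_Coord

set_option autoImplicit false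
set_option linter.unusedSectionVars false
set_option linter.style.haveILetI false

open Complex Filter Topology Set ModularForm CongruenceSubgroup EisensteinSeries
open UpperHalfPlane hiding I
open Fermat.Agent.RatStr ModularCurve AlgebraicCurve
open scoped MatrixGroups Manifold

namespace Fermat.Agent.ML

open Fermat.Agent.X0N Fermat.Agent.SS HahnSeries

/-! ### the series -/

/-- the `q`-expansion of `E₄` as a Laurent series over `ℚ`. -/
noncomputable def e4Series : LaurentSeries ℚ :=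
  HahnSeries.ofPowerSeries ℤ ℚ (eisenstein4.map (Int.castRingHom ℚ))

theorem e4Series_ne_zero : e4Series ≠ 0 := by
  intro h
  have h1 : (eisenstein4.map (Int.castRingHom ℚ)) = 0 := by
    apply HahnSeries.ofPowerSeries_injective (Γ := ℤ)
    rw [map_zero]
    exact h
  have h2 := congrArg (PowerSeries.constantCoeff (R := ℚ)) h1
  rw [← PowerSeries.coeff_zero_eq_constantCoeff, PowerSeries.coeff_map,
    PowerSeries.coeff_zero_eq_constantCoeff, constantCoeff_eisenstein4, map_zero] at h2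
  simp at h2

/-- `Δ · j = E₄³` on the level of series. -/
theorem deltaSeries_mul_jq : deltaSeries * jq = e4Series ^ 3 := by
  rw [deltaSeries, jq, e4Series, jNumQ, jNum]
  have h1 : (HahnSeries.single (1 : ℤ) (1 : ℚ)) * HahnSeries.single (-1 : ℤ) (1 : ℚ) = 1 := by
    rw [HahnSeries.single_mul_single]
    simp
  have h2 : HahnSeries.ofPowerSeries ℤ ℚ dedekindEtaUnitQ *
      HahnSeries.ofPowerSeries ℤ ℚ ((eisenstein4 ^ 3 * dedekindEtaUnitInv).map (Int.castRingHom ℚ)) =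
      HahnSeries.ofPowerSeries ℤ ℚ (eisenstein4.map (Int.castRingHom ℚ)) ^ 3 := by
    rw [← map_mul, ← map_pow, dedekindEtaUnitQ, ← map_mul, ← map_pow]
    congr 2
    rw [mul_comm (eisenstein4 ^ 3), ← mul_assoc, dedekindEtaUnit_mul_inv, one_mul]
  calc HahnSeries.single (1 : ℤ) (1 : ℚ) * HahnSeries.ofPowerSeries ℤ ℚ dedekindEtaUnitQ *
        (HahnSeries.single (-1 : ℤ) (1 : ℚ) *
          HahnSeries.ofPowerSeries ℤ ℚ ((eisenstein4 ^ 3 * dedekindEtaUnitInv).map (Int.castRingHom ℚ)))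
      = (HahnSeries.single (1 : ℤ) (1 : ℚ) * HahnSeries.single (-1 : ℤ) (1 : ℚ)) *
        (HahnSeries.ofPowerSeries ℤ ℚ dedekindEtaUnitQ *
          HahnSeries.ofPowerSeries ℤ ℚ
            ((eisenstein4 ^ 3 * dedekindEtaUnitInv).map (Int.castRingHom ℚ))) := by ring
    _ = _ := by rw [h1, one_mul, h2]

variable (d e : ℕ) [NeZero d] [NeZero e]

/-- `E₄(q^d)`. -/
noncomputable def e4SeriesN : LaurentSeries ℚ := qExpand ℚ d e4Series

theorem e4SeriesN_ne_zero : e4SeriesN d ≠ 0 := by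
  rw [e4SeriesN]
  exact (map_ne_zero_iff _ (qExpand_injective (R := ℚ) (N := d))).mpr e4Series_ne_zero

/-- the series `E₄(q^d)/E₄(q^e)`. -/
noncomputable def e4RatioSeries : LaurentSeries ℚ := e4SeriesN d * (e4SeriesN e)⁻¹

theorem e4RatioSeries_ne_zero : e4RatioSeries d e ≠ 0 :=
  mul_ne_zero (e4SeriesN_ne_zero d) (inv_ne_zero (e4SeriesN_ne_zero e))

/-- **the cube relation** `Δ(q^d)/Δ(q^e) · j(q^d)/j(q^e) = (E₄(q^d)/E₄(q^e))³`. -/
theorem deltaRatioSeries_mul_jq :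
    deltaRatioSeries d e * (qExpand ℚ d jq * (qExpand ℚ e jq)⁻¹) = e4RatioSeries d e ^ 3 := by
  have h1 : deltaSeriesN d * qExpand ℚ d jq = e4SeriesN d ^ 3 := by
    rw [deltaSeriesN, e4SeriesN, ← map_mul, deltaSeries_mul_jq, map_pow]
  have h2 : deltaSeriesN e * qExpand ℚ e jq = e4SeriesN e ^ 3 := by
    rw [deltaSeriesN, e4SeriesN, ← map_mul, deltaSeries_mul_jq, map_pow]
  rw [deltaRatioSeries, e4RatioSeries, mul_pow, inv_pow, ← h1, ← h2, mul_inv]
  ring

/-! ### the Laurent expansion of `E₄` -/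

theorem isMeroInfty_E4 : IsMeroInfty 1 (E₄ : ℍ → ℂ) :=
  ⟨0, by simpa using isHolBdd_E₄⟩

/-- the Laurent expansion of `E₄` is the Prelude series. -/
theorem laurent_E4 : laurent 1 (E₄ : ℍ → ℂ) = coeffEmb ℂ e4Series := by
  have hmm : (PowerSeries.map (algebraMap ℚ ℂ)) (eisenstein4.map (Int.castRingHom ℚ)) =
      (PowerSeries.map (Int.castRingHom ℂ)) eisenstein4 := by
    ext n
    simp [PowerSeries.coeff_map]
  rw [laurent_of_isHolBdd one_pos isHolBdd_E₄, qExpansion_E₄, e4Series, coeffEmb,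
    ModularCurve.coeffMap_ofPowerSeries, hmm]

theorem E4_ne_zero_fun : (E₄ : ℍ → ℂ) ≠ 0 := by
  intro h
  have h1 := laurent_E4
  rw [h] at h1
  have h2 : laurent 1 (0 : ℍ → ℂ) = 0 := by
    have := laurent_of_isHolBdd one_pos (F := (0 : ℍ → ℂ)) (by simpa using (isHolBdd_E₄.smul (0 : ℂ)))
    rw [this]
    have hq : qExpansion 1 (0 : ℍ → ℂ) = 0 := qExpansion_zero 1
    rw [hq, map_zero]
  rw [h2] at h1
  have h3 : (coeffEmb ℂ e4Series) ≠ 0 :=
    (map_ne_zero_iff _ (Fermat.Agent.JA.coeffMap_injective_of_field _)).mpr e4Series_ne_zero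
  exact h3 h1.symm

theorem isMeroInfty_dilate_E4 : IsMeroInfty 1 (dilate d (E₄ : ℍ → ℂ)) :=
  isMeroInfty_dilate (NeZero.ne d) isMeroInfty_E4

/-- `τ ↦ E₄(dτ)` as a holomorphic function. -/
noncomputable def e4Hol : HolH := ⟨dilate d (E₄ : ℍ → ℂ), (isMeroInfty_dilate_E4 d).hol⟩

@[simp] theorem e4Hol_apply (τ : ℍ) :
    (e4Hol d : ℍ → ℂ) τ = E₄ (heckeDiagMatrix d • τ) := rfl

theorem laurent_dilate_E4 :
    laurent 1 (dilate d (E₄ : ℍ → ℂ)) = coeffEmb ℂ (e4SeriesN d) := by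
  rw [laurent_dilate d isMeroInfty_E4, laurent_E4, qExpand_coeffEmb]
  rfl

theorem e4Hol_ne_zero : e4Hol d ≠ 0 := by
  intro h
  have h1 := laurent_dilate_E4 d
  have h2 : dilate d (E₄ : ℍ → ℂ) = 0 := congrArg Subtype.val h
  rw [h2] at h1
  have h3 : laurent 1 (0 : ℍ → ℂ) = 0 := by
    have := laurent_of_isHolBdd one_pos (F := (0 : ℍ → ℂ)) (by simpa using (isHolBdd_E₄.smul (0 : ℂ)))
    rw [this]
    have hq : qExpansion 1 (0 : ℍ → ℂ) = 0 := qExpansion_zero 1
    rw [hq, map_zero]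
  rw [h3] at h1
  have h4 : (coeffEmb ℂ (e4SeriesN d)) ≠ 0 :=
    (map_ne_zero_iff _ (Fermat.Agent.JA.coeffMap_injective_of_field _)).mpr (e4SeriesN_ne_zero d)
  exact h4 h1.symm

/-- the meromorphic function `E₄(dτ)/E₄(eτ)`. -/
noncomputable def e4RatioM : MerH := MerH.ofHol (e4Hol d) / MerH.ofHol (e4Hol e)

theorem coeffEmb_e4SeriesN_mem_convSeries :
    coeffEmb ℂ (e4SeriesN d) ∈ convSeries (RingHom.id ℂ) := by
  rw [mem_convSeries]
  refine ⟨dilate d (E₄ : ℍ → ℂ), isMeroInfty_dilate_E4 d, ?_⟩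
  rw [laurent_dilate_E4]
  ext n
  simp

theorem toHol_coeffEmb_e4SeriesN :
    convSeries.toHol (RingHom.id ℂ) ⟨_, coeffEmb_e4SeriesN_mem_convSeries d⟩ = e4Hol d := by
  apply Subtype.ext
  refine convSeries.toHol_mk (RingHom.id ℂ) (isMeroInfty_dilate_E4 d) ?_
  rw [laurent_dilate_E4]
  ext n
  simp

theorem coeffEmb_e4RatioSeries_mem_merSeries :
    coeffEmb ℂ (e4RatioSeries d e) ∈ merSeries (RingHom.id ℂ) := by
  rw [e4RatioSeries, map_mul, map_inv₀]
  exact (merSeries (RingHom.id ℂ)).mul_mem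
    (convSeries_le_merSeries _ (coeffEmb_e4SeriesN_mem_convSeries d))
    ((merSeries (RingHom.id ℂ)).inv_mem
      (convSeries_le_merSeries _ (coeffEmb_e4SeriesN_mem_convSeries e)))

/-- the realisation of the series `E₄(q^d)/E₄(q^e)` is the function `E₄(dτ)/E₄(eτ)`. -/
theorem real_coeffEmb_e4RatioSeries :
    merSeries.real (RingHom.id ℂ)
      ⟨coeffEmb ℂ (e4RatioSeries d e), coeffEmb_e4RatioSeries_mem_merSeries d e⟩ =
      e4RatioM d e := by
  have h : (⟨coeffEmb ℂ (e4RatioSeries d e), coeffEmb_e4RatioSeries_mem_merSeries d e⟩ :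
      merSeries (RingHom.id ℂ)) =
      ⟨_, convSeries_le_merSeries _ (coeffEmb_e4SeriesN_mem_convSeries d)⟩ *
      (⟨_, convSeries_le_merSeries _ (coeffEmb_e4SeriesN_mem_convSeries e)⟩ :
        merSeries (RingHom.id ℂ))⁻¹ := by
    apply Subtype.ext
    show coeffEmb ℂ (e4SeriesN d * (e4SeriesN e)⁻¹) = _
    rw [map_mul, map_inv₀]
    rfl
  rw [h, map_mul, map_inv₀,
    merSeries.real_of_mem_convSeries _ (coeffEmb_e4SeriesN_mem_convSeries d),
    merSeries.real_of_mem_convSeries _ (coeffEmb_e4SeriesN_mem_convSeries e),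
    toHol_coeffEmb_e4SeriesN, toHol_coeffEmb_e4SeriesN, e4RatioM, div_eq_mul_inv]

/-! ### modularity and membership in the function field -/

section Mem

variable {N : ℕ} [NeZero N]

/-- `E₄ ∣[4] diag(d,1)` as a holomorphic function. -/
noncomputable def e4SlashHol : HolH :=
  ⟨(E₄ : ℍ → ℂ) ∣[(4 : ℤ)] alphaN d, (isMF_slash_alphaN d isMF_E4).holo⟩

theorem e4SlashHol_eq : e4SlashHol d = HolH.const ((d : ℂ) ^ 3) * e4Hol d := by
  apply Subtype.ext
  funext z
  show ((E₄ : ℍ → ℂ) ∣[(4 : ℤ)] alphaN d) z = (d : ℂ) ^ 3 * dilate d (E₄ : ℍ → ℂ) z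
  rw [slash_alphaN_apply]
  have e2 : (d : ℂ) ^ ((4 : ℤ) - 1) = (d : ℂ) ^ 3 := by norm_num
  rw [e2, mul_comm]

theorem e4SlashHol_ne_zero : e4SlashHol d ≠ 0 := by
  rw [e4SlashHol_eq]
  refine mul_ne_zero ?_ (e4Hol_ne_zero d)
  intro h
  have h1 := HolH.const_injective (h.trans (map_zero _).symm)
  exact pow_ne_zero 3 (Nat.cast_ne_zero.mpr (NeZero.ne d)) h1

theorem isModFun_e4RatioM (hd : d ∣ N) (he : e ∣ N) :
    IsModFun (Gamma0 N) (e4RatioM d e) := by
  have hg : IsMF (Gamma0 N) 4 ((e4SlashHol d : HolH) : ℍ → ℂ) :=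
    (isMF_slash_alphaN d isMF_E4).mono (Gamma0_le_of_dvd hd)
  have hh : IsMF (Gamma0 N) 4 ((e4SlashHol e : HolH) : ℍ → ℂ) :=
    (isMF_slash_alphaN e isMF_E4).mono (Gamma0_le_of_dvd he)
  have h1 : IsModFun (Gamma0 N) (MerH.ofHol (e4SlashHol d) / MerH.ofHol (e4SlashHol e)) :=
    ⟨4, e4SlashHol d, e4SlashHol e, hg, hh, e4SlashHol_ne_zero e, rfl⟩
  have hdC : ((d : ℂ) ^ 3) ≠ 0 := pow_ne_zero 3 (Nat.cast_ne_zero.mpr (NeZero.ne d))
  have heC : ((e : ℂ) ^ 3) ≠ 0 := pow_ne_zero 3 (Nat.cast_ne_zero.mpr (NeZero.ne e))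
  have h2 : e4RatioM d e = algebraMap ℂ MerH ((e : ℂ) ^ 3 / (d : ℂ) ^ 3) *
      (MerH.ofHol (e4SlashHol d) / MerH.ofHol (e4SlashHol e)) := by
    rw [e4SlashHol_eq, e4SlashHol_eq, map_mul, map_mul, e4RatioM,
      MerH.algebraMap_eq_const, map_div₀]
    have hd' : MerH.ofHol (HolH.const ((d : ℂ) ^ 3)) = MerH.const ((d : ℂ) ^ 3) := rfl
    have he' : MerH.ofHol (HolH.const ((e : ℂ) ^ 3)) = MerH.const ((e : ℂ) ^ 3) := rfl
    rw [hd', he']
    have hd0 : MerH.const ((d : ℂ) ^ 3) ≠ 0 := fun h =>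
      hdC (MerH.const_injective (h.trans (map_zero _).symm))
    have he0 : MerH.const ((e : ℂ) ^ 3) ≠ 0 := fun h =>
      heC (MerH.const_injective (h.trans (map_zero _).symm))
    have hD := MerH.ofHol_ne_zero (e4Hol_ne_zero d)
    have hE := MerH.ofHol_ne_zero (e4Hol_ne_zero e)
    field_simp
  rw [h2]
  exact (isModFun_algebraMap _).mul h1

/-- over `ℂ`: the series `E₄(q^d)/E₄(q^e)` lies in the function field of `X₀(N)`. -/
theorem coeffEmb_e4RatioSeries_mem_complex (hd : d ∣ N) (he : e ∣ N) :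
    coeffEmb ℂ (e4RatioSeries d e) ∈ laurentBaseChange ℂ (modularFunctionFieldFull N) := by
  obtain ⟨f, hf⟩ := Fermat.Agent.GR.mem_range_realNC_of_isModFun N (isModFun_e4RatioM d e hd he)
  rw [realNC_apply] at hf
  have h1 : realN (RingHom.id ℂ) N f = merSeries.real (RingHom.id ℂ) (inclN (RingHom.id ℂ) N f) :=
    rfl
  rw [h1, ← real_coeffEmb_e4RatioSeries d e] at hf
  have h2 := merSeries.real_injective (RingHom.id ℂ) hf
  have h3 : (f : LaurentSeries ℂ) = coeffEmb ℂ (e4RatioSeries d e) :=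
    congrArg Subtype.val h2
  rw [← h3]
  exact f.2

/-- **the series `E₄(q^d)/E₄(q^e)` lies in the function field of `X₀(N)` over any field.** -/
theorem coeffEmb_e4RatioSeries_mem (k : Type*) [Field k] [Algebra ℚ k]
    (hd : d ∣ N) (he : e ∣ N) :
    coeffEmb k (e4RatioSeries d e) ∈ laurentBaseChange k (modularFunctionFieldFull N) := by
  have h1 : e4RatioSeries d e ∈ laurentBaseChange ℚ (modularFunctionFieldFull N) :=
    Fermat.Agent.GR.mem_laurentBaseChange_of_iota_mem' (K := ℚ) (L := ℂ)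
      (modularFunctionFieldFull N) (e4RatioSeries d e)
      (coeffEmb_e4RatioSeries_mem_complex d e hd he)
  have h2 := Fermat.Agent.JA.coeffMap_hom_mem_laurentBaseChange (algebraMap ℚ k)
    (modularFunctionFieldFull N) h1
  exact h2

end Mem

/-! ### the element of the function field -/

section Elt

variable (k : Type*) [Field k] [Algebra ℚ k] (N : ℕ) [NeZero N]

/-- `E₄(q^d)/E₄(q^e)` as an element of the function field of `X₀(N)` over `k`. -/
noncomputable def e4Ratio (hd : d ∣ N) (he : e ∣ N) :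
    ↥(laurentBaseChange k (modularFunctionFieldFull N)) :=
  ⟨coeffEmb k (e4RatioSeries d e), coeffEmb_e4RatioSeries_mem d e k hd he⟩

@[simp] theorem coe_e4Ratio (hd : d ∣ N) (he : e ∣ N) :
    ((e4Ratio d e k N hd he : ↥(laurentBaseChange k (modularFunctionFieldFull N))) :
      LaurentSeries k) = coeffEmb k (e4RatioSeries d e) := rfl

theorem e4Ratio_ne_zero (hd : d ∣ N) (he : e ∣ N) : e4Ratio d e k N hd he ≠ 0 := by
  intro h
  have h1 := congrArg Subtype.val h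
  have h2 : coeffEmb k (e4RatioSeries d e) = 0 := h1
  exact (map_ne_zero_iff _ (Fermat.Agent.JA.coeffMap_injective_of_field _)).mpr (e4RatioSeries_ne_zero d e) h2

end Elt

end Fermat.Agent.ML
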