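/-
ML (S59) — helper6 — **[REG-3], the abstract part**: a second node unit from a cube relation.

* `NodeUnit.of_pow_eq` : if `U` is a node unit of exponent `c = r · c'` and `W ^ r = U · u` with `u`
  a unit along both sheets, integral over `K₁[J]` together with its inverse, then `W` is a node unit
  of exponent `c'`.
* `SSModel.nodeUnit_of_legendre` : on a model whose level-`M` coordinate `t` is a Legendre
  coordinate (`jM t²(t-1)² = 256 (t²-t+1)³`, `0, 1 ∈ S`): if `U · j = V³ · j_q` (`U = Δ(τ)/Δ(qτ)`,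
  `V = E₄(τ)/E₄(qτ)`), then `V · B(t²-t+1)/A(t²-t+1)` is a node unit of exponent `c / 3`.
* `SSModel.thickness_dvd` : the thickness `m` of every node divides the exponent of every node
  unit.
-/
import Mathlib
import Fermat.Agent.MP.PLHOST_helper6_NodeS
import Fermat.Agent.SS.EXPORT_helper4_Model
import Fermat.Agent.SS.NODE_helper8_Model

set_option autoImplicit false
set_option linter.unusedSectionVars false
set_option linter.unusedVariables false
set_option linter.style.haveILetI false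

open AlgebraicCurve IsLocalRing

namespace Fermat.Agent.ML

open Fermat.Agent.SS Fermat.Agent.JA Fermat.Agent.FF Fermat.Agent.MW Fermat.Agent.MW.NAdic
  Fermat.Agent.MP Fermat.Agent.NP

section Tower

/-- integral over `R[y]` ⇒ integral over `K₁[y]`. -/
theorem isIntegral_adjoin_of_tower_h6 {R K₁ E : Type*} [CommRing R] [CommRing K₁] [CommRing E]
    [Algebra R K₁] [Algebra K₁ E] [Algebra R E] [IsScalarTower R K₁ E] {y x : E}
    (h : IsIntegral ↥(Algebra.adjoin R {y}) x) : IsIntegral ↥(Algebra.adjoin K₁ {y}) x := by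
  have hle : Algebra.adjoin R {y} ≤ (Algebra.adjoin K₁ {y}).restrictScalars R :=
    Algebra.adjoin_le (by
      intro z hz
      rw [Set.mem_singleton_iff] at hz
      subst hz
      exact Algebra.self_mem_adjoin_singleton K₁ z)
  let i : ↥(Algebra.adjoin R {y}) →+* ↥(Algebra.adjoin K₁ {y}) :=
    { toFun := fun s => ⟨s.1, hle s.2⟩
      map_one' := rfl
      map_mul' := fun _ _ => rfl
      map_zero' := rfl
      map_add' := fun _ _ => rfl }
  obtain ⟨p, hp, hpx⟩ := h
  refine ⟨p.map i, hp.map i, ?_⟩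
  rw [Polynomial.eval₂_map]
  exact hpx

/-- integral over `R[t]` (`t ∈ K`) ⇒ integral over `R[algebraMap K E t]` (inside `E`). -/
theorem isIntegral_adjoin_algebraMap_h6 {R K E : Type*} [CommRing R] [CommRing K] [CommRing E]
    [Algebra R K] [Algebra K E] [Algebra R E] [IsScalarTower R K E] {t : K} {x : E}
    (h : IsIntegral ↥(Algebra.adjoin R {t}) x) :
    IsIntegral ↥(Algebra.adjoin R {algebraMap K E t}) x := by
  have hmem : ∀ s : ↥(Algebra.adjoin R {t}),
      algebraMap K E (s : K) ∈ Algebra.adjoin R {algebraMap K E t} := by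
    intro s
    have h1 : (IsScalarTower.toAlgHom R K E) (s : K) ∈
        (Algebra.adjoin R {t}).map (IsScalarTower.toAlgHom R K E) := ⟨s, s.2, rfl⟩
    rw [AlgHom.map_adjoin, Set.image_singleton] at h1
    exact h1
  let i : ↥(Algebra.adjoin R {t}) →+* ↥(Algebra.adjoin R {algebraMap K E t}) :=
    { toFun := fun s => ⟨algebraMap K E (s : K), hmem s⟩
      map_one' := Subtype.ext (by simp)
      map_mul' := fun a b => Subtype.ext (by simp)
      map_zero' := Subtype.ext (by simp)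
      map_add' := fun a b => Subtype.ext (by simp) }
  obtain ⟨p, hp, hpx⟩ := h
  refine ⟨p.map i, hp.map i, ?_⟩
  rw [Polynomial.eval₂_map]
  exact hpx

end Tower

section Val

variable {E : Type*} [Field E]

/-- in the value group of a valuation subring, `x ^ r = 1` forces `x = 1` (`r ≠ 0`). -/
theorem val_eq_one_of_pow_eq_one_h6 (W : ValuationSubring E) {x : E} {r : ℕ} (hr : r ≠ 0)
    (h : W.valuation (x ^ r) = 1) : W.valuation x = 1 := by
  rw [map_pow] at h
  rcases lt_trichotomy (W.valuation x) 1 with h1 | h1 | h1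
  · exact absurd h (ne_of_lt (pow_lt_one₀ zero_le h1 hr))
  · exact h1
  · exact absurd h (ne_of_gt (one_lt_pow₀ h1 hr))

theorem val_eq_one_of_mem_inv_mem_h6 (W : ValuationSubring E) {x : E} (hx : x ≠ 0) (h1 : x ∈ W)
    (h2 : x⁻¹ ∈ W) : W.valuation x = 1 := by
  have a1 : W.valuation x ≤ 1 := (ValuationSubring.valuation_le_one_iff _ _).mpr h1
  have a2 : W.valuation x⁻¹ ≤ 1 := (ValuationSubring.valuation_le_one_iff _ _).mpr h2
  have hv : W.valuation x ≠ 0 := (Valuation.ne_zero_iff _).mpr hx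
  rw [map_inv₀] at a2
  exact le_antisymm a1 ((inv_le_one₀ (zero_lt_iff.mpr hv)).mp a2)

theorem mem_and_inv_mem_of_val_eq_one_h6 (W : ValuationSubring E) {x : E}
    (h : W.valuation x = 1) : x ∈ W ∧ x⁻¹ ∈ W := by
  constructor
  · exact (ValuationSubring.valuation_le_one_iff _ _).mp h.le
  · refine (ValuationSubring.valuation_le_one_iff _ _).mp ?_
    rw [map_inv₀, h, inv_one]

end Val

section Cube

variable {R : Type*} [CommRing R] [IsDomain R] [IsDiscreteValuationRing R] [CharZero R]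
  {EN : Type*} [Field EN] [Algebra R EN]
  {K₁ : Type*} [Field K₁] [Algebra K₁ EN]
  {π : R} {J U W u : EN} {c c' r : ℕ} {Winf W0 : ValuationSubring EN}

/-- **a root of a node unit (up to a unit) is a node unit.** -/
theorem NodeUnit.of_pow_eq (hU : NodeUnit K₁ π J U c Winf W0) (hr : r ≠ 0) (hc : c = r * c')
    (hW : W ^ r = U * u) (hu0 : u ≠ 0)
    (huinf : u ∈ Winf) (huinf' : u⁻¹ ∈ Winf) (huz : u ∈ W0) (huz' : u⁻¹ ∈ W0)
    (hint : IsIntegral ↥(Algebra.adjoin K₁ {J}) u)
    (hint' : IsIntegral ↥(Algebra.adjoin K₁ {J}) u⁻¹) :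
    NodeUnit K₁ π J W c' Winf W0 := by
  have hU0 := hU.ne_zero
  have hW0 : W ≠ 0 := by
    intro h0
    rw [h0, zero_pow hr] at hW
    exact mul_ne_zero hU0 hu0 hW.symm
  have hc' : 1 ≤ c' := by
    have := hU.one_le
    rcases Nat.eq_zero_or_pos c' with h0 | h0
    · rw [h0, mul_zero] at hc; omega
    · exact h0
  have vUinf : Winf.valuation U = 1 :=
    val_eq_one_of_mem_inv_mem_h6 Winf hU0 hU.mem_inf hU.inv_mem_inf
  have vuinf : Winf.valuation u = 1 := val_eq_one_of_mem_inv_mem_h6 Winf hu0 huinf huinf'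
  have vuz : W0.valuation u = 1 := val_eq_one_of_mem_inv_mem_h6 W0 hu0 huz huz'
  have vWinf : Winf.valuation W = 1 := by
    apply val_eq_one_of_pow_eq_one_h6 Winf hr
    rw [hW, map_mul, vUinf, vuinf, one_mul]
  have hintW : IsIntegral ↥(Algebra.adjoin K₁ {J}) W := by
    apply IsIntegral.of_pow (Nat.pos_of_ne_zero hr)
    rw [hW]
    exact hU.int.mul hint
  have hintW' : IsIntegral ↥(Algebra.adjoin K₁ {J}) W⁻¹ := by
    apply IsIntegral.of_pow (Nat.pos_of_ne_zero hr)
    rw [inv_pow, hW, mul_inv]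
    exact hU.int_inv.mul hint'
  by_cases hπ0 : algebraMap R EN π = 0
  · -- degenerate: `π = 0` in `EN`
    have hc0 : c' ≠ 0 := by omega
    refine ⟨hW0, hc', (mem_and_inv_mem_of_val_eq_one_h6 Winf vWinf).1,
      (mem_and_inv_mem_of_val_eq_one_h6 Winf vWinf).2, ?_, ?_, hintW, hintW'⟩
    · rw [hπ0, zero_pow hc0, inv_zero, mul_zero]
      exact W0.zero_mem
    · rw [hπ0, zero_pow hc0, inv_zero, mul_zero, inv_zero]
      exact W0.zero_mem
  have vUz : W0.valuation (U * (algebraMap R EN π ^ c)⁻¹) = 1 :=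
    val_eq_one_of_mem_inv_mem_h6 W0 (mul_ne_zero hU0 (inv_ne_zero (pow_ne_zero _ hπ0)))
      hU.mem_zero hU.inv_mem_zero
  have vWz : W0.valuation (W * (algebraMap R EN π ^ c')⁻¹) = 1 := by
    apply val_eq_one_of_pow_eq_one_h6 W0 hr
    have e : (W * (algebraMap R EN π ^ c')⁻¹) ^ r = (U * (algebraMap R EN π ^ c)⁻¹) * u := by
      rw [mul_pow, hW, inv_pow, ← pow_mul, hc, mul_comm c' r]
      ring
    rw [e, map_mul, vUz, vuz, one_mul]
  refine ⟨hW0, hc', (mem_and_inv_mem_of_val_eq_one_h6 Winf vWinf).1,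
    (mem_and_inv_mem_of_val_eq_one_h6 Winf vWinf).2, (mem_and_inv_mem_of_val_eq_one_h6 W0 vWz).1,
    (mem_and_inv_mem_of_val_eq_one_h6 W0 vWz).2, hintW, hintW'⟩

end Cube

section Model

variable {R : Type*} [CommRing R] [IsDomain R] [IsDiscreteValuationRing R] [CharZero R]
  {K₁ : Type*} [Field K₁] [Algebra R K₁] [IsFractionRing R K₁]
  {KM : Type*} [Field KM] [Algebra K₁ KM] [Algebra R KM] [IsScalarTower R K₁ KM]
  {EM : Type*} [Field EM] [Algebra KM EM] [Algebra K₁ EM] [IsScalarTower K₁ KM EM] [Algebra R EM]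
  [IsScalarTower R KM EM]
  {KN : Type*} [Field KN] [Algebra K₁ KN] [Algebra R KN] [IsScalarTower R K₁ KN]
  {EN : Type*} [Field EN] [Algebra KN EN] [Algebra K₁ EN] [IsScalarTower K₁ KN EN] [Algebra R EN]
  [IsScalarTower R KN EN] [FiniteDimensional KN EN]
  {π : R} {q n : ℕ} {S : Finset R} {t : KM} {jM : EM} {j : KN} {A B : EM →+* EN}
  {VM : ValuationSubring EM} {Winf W0 : ValuationSubring EN}

/-- an element of the chart `j` is integral over `K₁[A jM]`. -/
theorem SSModel.isIntegral_of_mem_chartOne [IsScalarTower R K₁ EN]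
    (h : SSModel K₁ π q n S t jM j A B VM Winf W0) {x : EN} (hx : x ∈ chartOne R EN j) :
    IsIntegral ↥(Algebra.adjoin K₁ {A jM}) x := by
  rw [h.A_j]
  exact isIntegral_adjoin_of_tower_h6 (isIntegral_adjoin_algebraMap_h6 ((mem_chartOne_iff j x).mp hx))

/-- **the Legendre unit**: `t (t - 1)` and its inverse are integral over `R[jM]`. -/
theorem SSModel.isIntegral_legendre_unit (h : SSModel K₁ π q n S t jM j A B VM Winf W0)
    (h0S : (0 : R) ∈ S) (h1S : (1 : R) ∈ S) :
    IsIntegral ↥(Algebra.adjoin R {jM}) (algebraMap KM EM t * (algebraMap KM EM t - 1)) ∧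
    IsIntegral ↥(Algebra.adjoin R {jM}) (algebraMap KM EM t * (algebraMap KM EM t - 1))⁻¹ := by
  have h1 := h.t_int
  have h2 := h.t_sub_inv_int 0 h0S
  have h3 := h.t_sub_inv_int 1 h1S
  rw [map_zero, sub_zero] at h2
  rw [map_one] at h3
  refine ⟨h1.mul (h1.sub isIntegral_one), ?_⟩
  rw [mul_inv]
  exact h2.mul h3

/-- **[REG-3], abstract**: on a model over a Legendre coordinate, `U · j = V³ · j_q` gives a node
unit of exponent `c / 3`. -/
theorem SSModel.nodeUnit_of_legendre [IsScalarTower R K₁ EN]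
    (h : SSModel K₁ π q n S t jM j A B VM Winf W0) (hπ : Irreducible π)
    (h0S : (0 : R) ∈ S) (h1S : (1 : R) ∈ S) (h256 : (256 : EN) ≠ 0)
    (hrel : jM * (algebraMap KM EM t * (algebraMap KM EM t - 1)) ^ 2 =
      256 * (algebraMap KM EM t ^ 2 - algebraMap KM EM t + 1) ^ 3)
    (ha : algebraMap KM EM t ^ 2 - algebraMap KM EM t + 1 ≠ 0)
    {U V : EN} {c c' : ℕ} (hc : c = 3 * c')
    (hU : NodeUnit K₁ π (A jM) U c Winf W0) (hV : U * A jM = V ^ 3 * B jM) :
    NodeUnit K₁ π (A jM)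
      (V * B (algebraMap KM EM t ^ 2 - algebraMap KM EM t + 1) *
        (A (algebraMap KM EM t ^ 2 - algebraMap KM EM t + 1))⁻¹) c' Winf W0 := by
  set tE : EM := algebraMap KM EM t with htE
  set a : EM := tE ^ 2 - tE + 1 with hadef
  set nn : EM := tE * (tE - 1) with hnn
  obtain ⟨hn1, hn2⟩ := SSModel.isIntegral_legendre_unit h h0S h1S
  have hn0 : nn ≠ 0 := by
    intro h0
    rw [h0, zero_pow two_ne_zero, mul_zero] at hrel
    have h3 : (256 : EM) * a ^ 3 ≠ 0 := by
      refine mul_ne_zero ?_ (pow_ne_zero 3 ha)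
      intro h4
      apply h256
      have := congrArg A h4
      rwa [map_ofNat, map_zero] at this
    exact h3 hrel.symm
  have hjM0 : jM ≠ 0 := by
    intro h0
    rw [h0, zero_mul] at hrel
    have h3 : (256 : EM) * a ^ 3 ≠ 0 := by
      refine mul_ne_zero ?_ (pow_ne_zero 3 ha)
      intro h4
      apply h256
      have := congrArg A h4
      rwa [map_ofNat, map_zero] at this
    exact h3 hrel.symm
  have hAa : A a ≠ 0 := (map_ne_zero A).mpr ha
  have hBa : B a ≠ 0 := (map_ne_zero B).mpr ha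
  have hAn : A nn ≠ 0 := (map_ne_zero A).mpr hn0
  have hBn : B nn ≠ 0 := (map_ne_zero B).mpr hn0
  have hAj : A jM ≠ 0 := (map_ne_zero A).mpr hjM0
  -- membership in the chart
  have hjq := h.jq_mem_chartOne hπ
  have cA : A nn ∈ chartOne R EN j := by
    have h1 := isIntegral_adjoin_map A h.A_algebraMap hn1
    rw [h.A_j] at h1
    exact mem_chartOne_of_isIntegral_adjoin j (algebraMap_coord_mem_chartOne j) h1
  have cA' : (A nn)⁻¹ ∈ chartOne R EN j := by
    have h1 := isIntegral_adjoin_map A h.A_algebraMap hn2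
    rw [h.A_j, map_inv₀] at h1
    exact mem_chartOne_of_isIntegral_adjoin j (algebraMap_coord_mem_chartOne j) h1
  have cB : B nn ∈ chartOne R EN j :=
    h.mem_chartOne_of_isIntegral_jq hjq (isIntegral_adjoin_map B h.B_algebraMap hn1)
  have cB' : (B nn)⁻¹ ∈ chartOne R EN j := by
    have h1 := isIntegral_adjoin_map B h.B_algebraMap hn2
    rw [map_inv₀] at h1
    exact h.mem_chartOne_of_isIntegral_jq hjq h1
  set u : EN := (B nn * (A nn)⁻¹) ^ 2 with hu
  have cu : u ∈ chartOne R EN j := (chartOne R EN j).pow_mem ((chartOne R EN j).mul_mem cB cA') 2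
  have hu' : u⁻¹ = ((B nn)⁻¹ * A nn) ^ 2 := by
    rw [hu, ← inv_pow, mul_inv, inv_inv]
  have cu' : u⁻¹ ∈ chartOne R EN j := by
    rw [hu']
    exact (chartOne R EN j).pow_mem ((chartOne R EN j).mul_mem cB' cA) 2
  have hu0 : u ≠ 0 := pow_ne_zero 2 (mul_ne_zero hBn (inv_ne_zero hAn))
  -- the cube relation
  have hrelA : A jM * A nn ^ 2 = 256 * A a ^ 3 := by
    have h1 := congrArg A hrel
    rw [map_mul A jM, map_pow A nn, map_mul A 256, map_pow A a, map_ofNat] at h1
    exact h1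
  have hrelB : B jM * B nn ^ 2 = 256 * B a ^ 3 := by
    have h1 := congrArg B hrel
    rw [map_mul B jM, map_pow B nn, map_mul B 256, map_pow B a, map_ofNat] at h1
    exact h1
  have hW : (V * B a * (A a)⁻¹) ^ 3 = U * u := by
    have h1 : A a ^ 3 = A jM * A nn ^ 2 * (256 : EN)⁻¹ := by
      rw [hrelA]; field_simp
    have h2 : B a ^ 3 = B jM * B nn ^ 2 * (256 : EN)⁻¹ := by
      rw [hrelB]; field_simp
    have h3 : U = V ^ 3 * B jM * (A jM)⁻¹ := by
      rw [← hV]; field_simp
    rw [mul_pow, mul_pow, inv_pow, h1, h2, h3, hu]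
    field_simp
  exact NodeUnit.of_pow_eq hU (by norm_num : (3 : ℕ) ≠ 0) hc hW hu0
    (h.two.chart_le_inf _ cu) (h.two.chart_le_inf _ cu') (h.two.chart_le_zero _ cu)
    (h.two.chart_le_zero _ cu') (SSModel.isIntegral_of_mem_chartOne h cu)
    (SSModel.isIntegral_of_mem_chartOne h cu')

/-- **the thickness of a node divides the exponent of every node unit.** -/
theorem SSModel.thickness_dvd [IsScalarTower R K₁ EN]
    (h : SSModel K₁ π q n S t jM j A B VM Winf W0) (hπ : Irreducible π)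
    {U : EN} {c : ℕ} (hU : NodeUnit K₁ π (A jM) U c Winf W0)
    (𝔪 : Ideal ↥(chartOne R EN j)) [h𝔪 : 𝔪.IsMaximal]
    (hinf : sheetIdeal j Winf h.two.chart_le_inf ≤ 𝔪)
    (h0 : sheetIdeal j W0 h.two.chart_le_zero ≤ 𝔪)
    {X : EN} {m : ℕ}
    (hX : haveI := h𝔪.isPrime; IsNodeCoord π (isFractionRing_chartOne (K₁ := K₁) j h.j_adjoin)
      (sheetIdeal j Winf h.two.chart_le_inf) (sheetIdeal j W0 h.two.chart_le_zero) 𝔪 X m) :
    m ∣ c := by
  haveI := h𝔪.isPrime
  obtain ⟨K, w, -, -, hKm, -⟩ := SSModel.nodeUnit_eq_unit_mul_zpow h hπ hU 𝔪 hinf h0 hX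
  have : (m : ℤ) ∣ (c : ℤ) := ⟨K, by rw [← hKm]; ring⟩
  exact_mod_cast this

end Model

end Fermat.Agent.ML
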