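/-
ML (S59) — helper6 — **[REG-3] on the Legendre host**: the second node unit
`W = (E₄(τ)/E₄(qτ)) · B(t²-t+1)/A(t²-t+1)` (`= θ₃(τ)⁸/θ₃(qτ)⁸`) of exponent `4 e`, and the
consequence: **the thickness of every node of the two-sheeted Legendre model divides `4 e`** — in
particular it is prime to `3` when `q` is unramified in the base (`e = 1`).
-/
import Mathlib
import Fermat.Agent.MP.PLHOST_helper6_LegUnit
import Fermat.Agent.ML.REG3_helper6_E4Mem
import Fermat.Agent.ML.REG3_helper6_Node
import Fermat.Agent.JA.RAM0_helper2_Shapes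
import Fermat.Agent.SS.CUSPT_helper3_Host
import Fermat.Agent.SS.BASE_helper1_Leg

set_option autoImplicit false
set_option linter.unusedSectionVars false
set_option linter.unusedVariables false
set_option linter.style.haveILetI false
set_option synthInstance.maxHeartbeats 400000

open Polynomial ModularCurve IntermediateField

namespace Fermat.Agent.ML

open Fermat.Agent.SS Fermat.Agent.JA Fermat.Agent.Igusa Fermat.Agent.X0N Fermat.Agent.MW.NAdic
  Fermat.Agent.MP

open scoped Fermat.Agent.JA.Host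

section Series

variable (K : Type*) [Field K] [Algebra ℚ K] (q : ℕ) [NeZero q]

/-- the cube relation on the level of Laurent series over `K`, in the variable `x` (`q = x²`). -/
theorem cube_rel_series :
    qExpand K 2 (coeffEmb K (modularUnitSeries q)) * jqNModC K 2 =
      qExpand K 2 (coeffEmb K (e4RatioSeries 1 q)) ^ 3 * qExpand K q (jqNModC K 2) := by
  have h0 := deltaRatioSeries_mul_jq 1 q
  rw [qExpand_one_apply] at h0
  have hjq : qExpand ℚ q jq ≠ 0 :=
    (map_ne_zero_iff _ (qExpand_injective (R := ℚ) (N := q))).mpr jq_ne_zero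
  have h1 : deltaRatioSeries 1 q * jq = e4RatioSeries 1 q ^ 3 * qExpand ℚ q jq := by
    rw [← h0]
    field_simp
  have h2 := congrArg (fun z => qExpand K 2 (coeffEmb K z)) h1
  simp only [map_mul, map_pow] at h2
  rw [coeffEmb_jq_eq_jqModC, coeffEmb_qExpand_jq, qExpand_qExpand] at h2
  have e1 : jqNModC K 2 = qExpand K 2 (jqModC K) := rfl
  have e2 : qExpand K q (qExpand K 2 (jqModC K)) = qExpand K (2 * q) (jqModC K) :=
    qExpand_qExpand' q 2 (2 * q) (mul_comm 2 q) _
  rw [modularUnitSeries_eq_deltaRatioSeries, e1, e2]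
  exact h2

end Series

section Host

variable (R : Type*) [CommRing R] [IsDomain R] [IsDiscreteValuationRing R] [CharZero R]
  (K : Type*) [Field K] [Algebra R K] [IsFractionRing R K] [Algebra ℚ K] [Algebra K ℂ]
  {M q : ℕ} [NeZero M] [NeZero q] [NeZero (M * q)] {x y : ℤ}

/-- **the cube relation in the host**: `U · j = V³ · j_q`. -/
theorem legE_cube_rel (hq : q.Prime) (hq2 : q ≠ 2) :
    fullToLegE K (M * q) (modUnit K (M * q) q (Dvd.intro_left M rfl)) *
      (legHostA K M q : ↥(legE K M) →+* ↥(legE K (M * q))) (legJE K M) =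
    fullToLegE K (M * q) (e4Ratio 1 q K (M * q) (one_dvd _) (Dvd.intro_left M rfl)) ^ 3 *
      (legHostB K M q hq hq2 : ↥(legE K M) →+* ↥(legE K (M * q))) (legJE K M) := by
  apply Subtype.ext
  have h := cube_rel_series K q
  have e1 : ((fullToLegE K (M * q) (modUnit K (M * q) q (Dvd.intro_left M rfl)) :
      ↥(legE K (M * q))) : LaurentSeries K) = qExpand K 2 (coeffEmb K (modularUnitSeries q)) := by
    rw [coe_fullToLegE, coe_modUnit]
  have e2 : ((fullToLegE K (M * q) (e4Ratio 1 q K (M * q) (one_dvd _) (Dvd.intro_left M rfl)) :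
      ↥(legE K (M * q))) : LaurentSeries K) = qExpand K 2 (coeffEmb K (e4RatioSeries 1 q)) := by
    rw [coe_fullToLegE, coe_e4Ratio]
  push_cast
  rw [e1, e2]
  exact h

/-- **the second node unit of the Legendre host** (`= θ₃(τ)⁸/θ₃(qτ)⁸`), of exponent `4 e`. -/
theorem ssModelLeg_nodeUnit_four [DecidableEq R] {π : R} (hπ : Irreducible π)
    (h2 : IsUnit (2 : R)) (h : (q : ℤ) * x + M * y = 1) (hq : q.Prime) (hq2 : q ≠ 2) {e : ℕ}
    {u : Rˣ} (he : 1 ≤ e) (hu : (q : R) = u * π ^ e)
    (hmodel : SSModelLeg R K π h2 h hq hq2) :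
    NodeUnit K π ((legHostA K M q : ↥(legE K M) →+* ↥(legE K (M * q))) (legJE K M))
      (fullToLegE K (M * q) (e4Ratio 1 q K (M * q) (one_dvd _) (Dvd.intro_left M rfl)) *
        (legHostB K M q hq hq2 : ↥(legE K M) →+* ↥(legE K (M * q)))
          (algebraMap ↥K⟮legT K⟯ ↥(legE K M) (AdjoinSimple.gen K (legT K)) ^ 2 -
            algebraMap ↥K⟮legT K⟯ ↥(legE K M) (AdjoinSimple.gen K (legT K)) + 1) *
        ((legHostA K M q : ↥(legE K M) →+* ↥(legE K (M * q)))
          (algebraMap ↥K⟮legT K⟯ ↥(legE K M) (AdjoinSimple.gen K (legT K)) ^ 2 -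
            algebraMap ↥K⟮legT K⟯ ↥(legE K M) (AdjoinSimple.gen K (legT K)) + 1))⁻¹)
      (4 * e) (legWinf R K h2 (M * q)) (legW0 R K h hq) := by
  haveI : CharZero K := algebraRat.charZero K
  haveI : FiniteDimensional ↥K⟮jqNModC K 2⟯ ↥(legE K (M * q)) := finite_legE_adjoin_j K (M * q)
  have h' := SSModelLeg.ssModel R K hmodel
  have hrel0 := legendre_rel_legE K M
  set tE : ↥(legE K M) := algebraMap ↥K⟮legT K⟯ ↥(legE K M) (AdjoinSimple.gen K (legT K)) with htE
  have hrel : legJE K M * (tE * (tE - 1)) ^ 2 = 256 * (tE ^ 2 - tE + 1) ^ 3 := by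
    rw [hrel0]; ring
  have hcoe : ((tE : ↥(legE K M)) : LaurentSeries K) = legT K := rfl
  have ha : tE ^ 2 - tE + 1 ≠ 0 := by
    intro h0
    have h1 : (((tE ^ 2 - tE + 1 : ↥(legE K M)) : ↥(legE K M)) : LaurentSeries K) =
        ((0 : ↥(legE K M)) : LaurentSeries K) := congrArg Subtype.val h0
    push_cast at h1
    rw [hcoe] at h1
    apply transcendental_legT K
    refine ⟨X ^ 2 - X + 1, ?_, ?_⟩
    · intro h3
      have := congrArg (Polynomial.eval 0) h3
      simp at this
    · simpa using h1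
  have h256 : (256 : ↥(legE K (M * q))) ≠ 0 := by
    haveI : CharZero ↥(legE K (M * q)) :=
      charZero_of_injective_algebraMap (algebraMap K ↥(legE K (M * q))).injective
    norm_num
  exact SSModel.nodeUnit_of_legendre h' hπ (by simp) (by simp) h256 hrel ha
    (by ring : 12 * e = 3 * (4 * e)) (ssModelLeg_nodeUnit R K hπ h2 h hq he hu)
    (legE_cube_rel K hq hq2)

end Host

end Fermat.Agent.ML
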