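/-
ML (S59) — helper6 — **Hesse-host port** of `Fermat.Agent.ML.MAZ_helper6_OrdQO`.
-/
import Mathlib
import Fermat.Agent.ML.MAZ_helper6_OrdQO
import Fermat.Agent.ML.HES_helper6_Parts
import Fermat.Agent.ML.HES_helper6_RatPlace
import Fermat.Agent.ML.HES_helper6_RhoBaseP
import Fermat.Agent.ML.HES_helper6_OrdBC
import Fermat.Agent.ML.HES_helper6_NodeUnit
import Fermat.Agent.ML.HES_helper6_NodeQ
import Fermat.Agent.ML.HES_helper6_DegGen
import Fermat.Agent.ML.HESG_helper6_AtBases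

set_option autoImplicit false
set_option linter.unusedSectionVars false
set_option linter.unusedVariables false
set_option linter.style.haveILetI false
set_option synthInstance.maxHeartbeats 400000

open HahnSeries IntermediateField AlgebraicCurve ModularCurve IsLocalRing

namespace Fermat.Agent.ML

open Fermat.Agent.RB

open Fermat.Agent.JA Fermat.Agent.FF Fermat.Agent.SS Fermat.Agent.S35 Fermat.Agent.Igusa
  Fermat.Agent.NP Fermat.Agent.MW.NAdic Fermat.Agent.MW Fermat.Agent.FG Fermat.Agent.MP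

open scoped Fermat.Agent.JA.Host

local notation "Ω" => AlgebraicClosure ℚ

/-- a prime different from `2` and `3` is at least `5`. -/
theorem five_le_of_prime_of_ne_h6 {p : ℕ} (hp : p.Prime) (h2 : p ≠ 2) (h3 : p ≠ 3) : 5 ≤ p := by
  by_contra h
  push Not at h
  interval_cases p <;> first | exact absurd hp (by decide) | exact h2 rfl | exact h3 rfl

/-- **[ORD-q], every odd `p`**: the reduction of `f₀ ϖ ^ (-a∞)` along `W_∞` has all orders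
divisible by `p`. -/
def HesMazOrdQO : Prop :=
  ∀ (M : ℕ) [NeZero M] (q : ℕ) [NeZero q] [NeZero (M * q)] [Fact q.Prime] (hq3 : q ≠ 3),
    ¬ q ∣ M → ∀ (p : ℕ), p.Prime → p ≠ 2 → p ≠ 3 → p ≠ q →
  ∀ (A : ValuationSubring Ω) (hA : A.LiesOverPrime q)
    (K₁ : IntermediateField ℚ Ω) [Normal ℚ ↥K₁] (K' : IntermediateField ℚ Ω)
    [IsDiscreteValuationRing ↥(baseRing A K')] (S : Set ℕ) (a : ℕ → ℤ)
    (f₀ : ↥(keyFq ↥K' (M * q))), HesMazHyp q p M A K₁ K' S a f₀ →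
  ∀ (ϖ : ↥(baseRing A K')), Irreducible ϖ → ∀ (h2 : IsUnit (3 : ↥(baseRing A K'))) (ainf : ℤ)
    (w₀ : ↥(keyFq ↥K' M)),
    (hesWinf ↥(baseRing A K') ↥K' h2 M).valuation (fullToHesE ↥K' M w₀) = 1 →
    (hesWinf ↥(baseRing A K') ↥K' h2 (M * q)).valuation
      (fullToHesE ↥K' (M * q) f₀ *
        (algebraMap ↥(baseRing A K') ↥(hesE ↥K' (M * q)) ϖ ^ ainf)⁻¹ -
        hesHostA ↥K' M q (fullToHesE ↥K' M w₀)) < 1 →
  ∀ (hW : fullToHesE Ω M (keyFqBC M K' w₀) ∈ hesWE hA M hq3)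
    (Q : Place (ResidueField ↥A) (hesEt hA M hq3)),
    (p : ℤ) ∣ Q.ord (hesρ hA M hq3 ⟨fullToHesE Ω M (keyFqBC M K' w₀), hW⟩)

set_option maxHeartbeats 6400000 in
/-- **[ORD-q] from [DELTA-q], every odd `p`.** -/
theorem hesMazOrdQO_of (HD : HesDeltaLitQ) : HesMazOrdQO := by
  intro M _ q _ _ _ hq3 hqM p hp hp2 hp3 hpq A hA K₁ _ K' _ S a f₀ H ϖ hϖ h2 ainf w₀ hw₀ hlink hW Q
  classical
  have hq : q.Prime := Fact.out
  haveI : CharZero ↥(baseRing A K') := charZero_valuationSubring_of_algebraRat _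
  letI := baseToComplex K'
  have hK' : IsBase q K' := H.base
  obtain ⟨x, y, hbez⟩ := exists_bezout_of_prime_of_not_dvd hq hqM
  haveI : IsAlgClosed (ResidueField ↥(baseRing A K')) := hK'.isAlgClosed_residueField hA
  have hqϖ := natCast_mem_span_uniformizer_baseRing hA K' hϖ
  obtain ⟨ω, -, hmodel⟩ := hesModelAtBasesG M q hq hq3 hqM A hA K' hK' ϖ hϖ h2 x y hbez
  haveI : FiniteDimensional ↥(↥K')⟮jqNModC ↥K' 3⟯ ↥(hesE ↥K' (M * q)) :=
    finite_hesE_adjoin_j ↥K' (M * q)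
  have h' := SSModelHesG.ssModel ↥(baseRing A K') ↥K' hmodel
  -- `q = u ϖ`
  obtain ⟨u, hu⟩ : ∃ u : (↥(baseRing A K'))ˣ, ((q : ℕ) : ↥(baseRing A K')) = u * ϖ ^ 1 := by
    obtain ⟨u, hu⟩ := IsDiscreteValuationRing.associated_of_irreducible ↥(baseRing A K') hϖ H.unram
    exact ⟨u, by rw [← hu, pow_one, mul_comm]⟩
  have he : 0 < 1 := one_pos
  set f : ↥(hesE ↥K' (M * q)) := fullToHesE ↥K' (M * q) f₀ with hfdef
  have hf : f ≠ 0 := (_root_.map_ne_zero (fullToHesE ↥K' (M * q))).mpr H.ne_zero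
  set x₀ : ↥(hesE ↥K' M) := fullToHesE ↥K' M w₀ with hx₀def
  have hx₀ : x₀ ∈ hesWinf ↥(baseRing A K') ↥K' h2 M :=
    (ValuationSubring.valuation_le_one_iff _ _).mp hw₀.le
  have hord : ∀ P : Place ↥K' ↥(hesE ↥K' (M * q)), (p : ℤ) ∣ P.ord f :=
    fun P => dvd_ord_fullToHesE_of_keyFqBC (M * q) K' f₀ H.ordΩ P
  -- the reduction map
  obtain ⟨ρ, res, hres, hρ, hρR, hρapp⟩ := hesRhoBaseP M q hq3 hqM A hA K' hK' h2
  -- the Hecke operator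
  obtain ⟨ℓ, hℓ, hℓS, hnEℓ⟩ := H.nonEis
  have hℓ3 : ℓ ≠ 3 := fun h => hℓS (h ▸ H.threeS)
  have hℓMq : ¬ ℓ ∣ M * q := fun h => hℓS (H.bad ℓ hℓ h)
  haveI : NeZero ℓ := ⟨hℓ.ne_zero⟩
  haveI : NeZero (M * q * ℓ) := ⟨Nat.mul_ne_zero (NeZero.ne (M * q)) hℓ.ne_zero⟩
  obtain ⟨cH, uH, hcH, huH, hrel⟩ := H.hecke ℓ hℓ hℓS
  have hhost : hesHeckeP ↥K' (M * q) ℓ hℓ hℓ3 f =
      algebraMap ↥K' ↥(hesE ↥K' (M * q)) cH * f ^ (a ℓ) * fullToHesE ↥K' (M * q) uH ^ p := by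
    rw [hfdef, hesHeckeP_fullToHesE_base (M * q) ℓ hℓ hℓ3 hℓMq K' f₀, hrel, map_mul, map_mul,
      map_zpow₀, map_pow, AlgHom.commutes]
  -- the orders along the two sheets
  have hAx₀ : (hesWinf ↥(baseRing A K') ↥K' h2 (M * q)).valuation (hesHostA ↥K' M q x₀) = 1 :=
    (kp_comap_val_eq_one_iff (hesWinf ↥(baseRing A K') ↥K' h2 (M * q))
      (hesHostA ↥K' M q : ↥(hesE ↥K' M) →+* ↥(hesE ↥K' (M * q))) h'.comap_A_inf x₀).mpr hw₀
  have hfinf : (hesWinf ↥(baseRing A K') ↥K' h2 (M * q)).valuation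
      (f * (algebraMap ↥(baseRing A K') ↥(hesE ↥K' (M * q)) ϖ ^ ainf)⁻¹) = 1 := by
    have e1 : f * (algebraMap ↥(baseRing A K') ↥(hesE ↥K' (M * q)) ϖ ^ ainf)⁻¹ =
        (f * (algebraMap ↥(baseRing A K') ↥(hesE ↥K' (M * q)) ϖ ^ ainf)⁻¹ -
          hesHostA ↥K' M q x₀) + hesHostA ↥K' M q x₀ := by ring
    rw [e1, Valuation.map_add_eq_of_lt_right _ (by rw [hAx₀]; exact hlink), hAx₀]
  obtain ⟨a0, hf0⟩ := SSModel.exists_zpow_val_eq_one_zero h' he hu hf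
  -- [DELTA-q]
  have hdelta : (p : ℤ) ∣ a0 - ainf :=
    HD M q hq hq3 hqM p hp hpq A hA K' hK' ϖ hϖ h2 hbez ℓ hℓ hℓ3 hℓMq (a ℓ) hnEℓ f hf
      ⟨cH, fullToHesE ↥K' (M * q) uH, hcH,
        (_root_.map_ne_zero (fullToHesE ↥K' (M * q))).mpr huH, hhost⟩ ainf a0 hfinf hf0
  -- the node package
  have hUnode := ssModelHesG_nodeUnit ↥(baseRing A K') ↥K' (M := M) hϖ h2 hbez hq he hu
  have hfr := isFractionRing_chartOne (R := ↥(baseRing A K')) (K₁ := ↥K')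
    (E := ↥(hesE ↥K' (M * q))) (AdjoinSimple.gen ↥K' (jqNModC ↥K' 3)) h'.j_adjoin
  have hXex : ∀ nd : ChartNode (AdjoinSimple.gen ↥K' (jqNModC ↥K' 3))
      (hesWinf ↥(baseRing A K') ↥K' h2 (M * q)) (hesW0 ↥(baseRing A K') ↥K' hbez hq)
      h'.two.chart_le_inf h'.two.chart_le_zero,
      ∃ (X : ↥(hesE ↥K' (M * q))) (m : ℕ), IsNodeCoord ϖ hfr
        (sheetIdeal (AdjoinSimple.gen ↥K' (jqNModC ↥K' 3))
          (hesWinf ↥(baseRing A K') ↥K' h2 (M * q)) h'.two.chart_le_inf)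
        (sheetIdeal (AdjoinSimple.gen ↥K' (jqNModC ↥K' 3))
          (hesW0 ↥(baseRing A K') ↥K' hbez hq) h'.two.chart_le_zero) nd.1 X m := by
    intro nd
    obtain ⟨X, m, hX, -⟩ := SSModel.exists_isNodeCoord_gen h' hϖ hUnode nd.1 nd.inf_le nd.zero_le
    exact ⟨X, m, hX⟩
  choose X m hX using hXex
  have hKex : ∀ nd, ∃ (K : ℤ) (w : ↥(hesE ↥K' (M * q))),
      IsUnitIn (locSub (chartOne ↥(baseRing A K') ↥(hesE ↥K' (M * q))
        (AdjoinSimple.gen ↥K' (jqNModC ↥K' 3))) nd.1) w ∧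
      fullToHesE ↥K' (M * q) (modUnit ↥K' (M * q) q (Dvd.intro_left M rfl)) = w * X nd ^ K ∧
      K * (m nd : ℤ) = ((12 * 1 : ℕ) : ℤ) ∧ 1 ≤ K := fun nd =>
    SSModel.nodeUnit_eq_unit_mul_zpow h' hϖ hUnode nd.1 nd.inf_le nd.zero_le (hX nd)
  choose K w hw hUw hKm hK1 using hKex
  have hginf : f * (algebraMap ↥(baseRing A K') ↥(hesE ↥K' (M * q)) ϖ ^ ainf)⁻¹ ∈
      hesWinf ↥(baseRing A K') ↥K' h2 (M * q) :=
    ((isUnitIn_toSubring_iff _).mpr hfinf).1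
  have hginf' : (f * (algebraMap ↥(baseRing A K') ↥(hesE ↥K' (M * q)) ϖ ^ ainf)⁻¹)⁻¹ ∈
      hesWinf ↥(baseRing A K') ↥K' h2 (M * q) :=
    ((isUnitIn_toSubring_iff _).mpr hfinf).2.1
  have hkex : ∀ nd, ∃ k : ℤ, IsNodeFact ↥K' (locSub (chartOne ↥(baseRing A K')
      ↥(hesE ↥K' (M * q)) (AdjoinSimple.gen ↥K' (jqNModC ↥K' 3))) nd.1) p (X nd) f k := fun nd =>
    hesE_isNodeFact_of_rat (M * q) A h' hϖ H.le H.h1 nd.1 nd.inf_le nd.zero_le (hX nd) f₀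
      H.ne_zero hord H.rat ainf hginf hginf'
  choose k hk using hkex
  have hXu : ∀ nd, IsUnitIn (hesWinf ↥(baseRing A K') ↥K' h2 (M * q)).toSubring (X nd) := by
    intro nd
    obtain ⟨L, Y, -, -, -, -, -, -, hXu, -⟩ :=
      SSModel.exists_localPt_node hq he hu h' hϖ nd.1 nd.inf_le nd.zero_le (hX nd)
    exact hXu
  have hkk : ∀ nd, (p : ℤ) ∣ k nd := by
    intro nd
    have h1 : (p : ℤ) ∣ k nd * (m nd : ℤ) - (a0 - ainf) :=
      SSModel.dvd_node_of_isNodeFactQ h' hϖ hq he hu nd.1 nd.inf_le nd.zero_le (hX nd) (hk nd)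
        hfinf hf0
    have h2' : (p : ℤ) ∣ k nd * (m nd : ℤ) := by
      have := dvd_add h1 hdelta
      rwa [sub_add_cancel] at this
    have hKm' : K nd * (m nd : ℤ) = 12 := by
      rw [hKm nd]; norm_num
    exact int_dvd_of_dvd_mul_of_mul_eq_twelve hp (five_le_of_prime_of_ne_h6 hp hp2 hp3) hKm' h2'
  -- the core
  have hcore := SSModel.dvd_ord_redQ h' hϖ he hu
    (SSModelHesG.jint ↥(baseRing A K') ↥K' hϖ hmodel) ρ hρ res hres hρR
    (hesEtRationalP M q hq3 hqM A hA) h'.jM_mem hp.ne_zero hf hord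
    h'.two.chart_le_inf h'.two.chart_le_zero X k hXu hk hkk hx₀ hfinf hlink Q
  have hWx : hesBC M K' x₀ ∈ hesWE hA M hq3 := by
    rw [hx₀def, hesBC_fullToHesE]; exact hW
  rw [hρapp x₀ hx₀ hWx] at hcore
  have e2 : (⟨hesBC M K' x₀, hWx⟩ : ↥(hesWE hA M hq3)) =
      ⟨fullToHesE Ω M (keyFqBC M K' w₀), hW⟩ := Subtype.ext (hesBC_fullToHesE M K' w₀)
  rw [e2] at hcore
  exact hcore

end Fermat.Agent.ML
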