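/-
ML (S59) — helper6 — **Hesse-host port** of `Fermat.Agent.MP.REDINF_helper8_HeckeBase`.
-/
import Mathlib
import Fermat.Agent.MP.REDINF_helper8_HeckeBase
import Fermat.Agent.ML.HES_helper6_ResIndep
import Fermat.Agent.ML.HES_helper6_HostT

set_option autoImplicit false
set_option linter.unusedSectionVars false
set_option linter.unusedVariables false
set_option linter.style.haveILetI false
set_option synthInstance.maxHeartbeats 400000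

open HahnSeries IntermediateField ModularCurve IsLocalRing

namespace Fermat.Agent.ML

open Fermat.Agent.MP

open Fermat.Agent.JA Fermat.Agent.Igusa Fermat.Agent.SS Fermat.Agent.FG Fermat.Agent.S36
  Fermat.Agent.NP Fermat.Agent.FF

open scoped Fermat.Agent.JA.Host

local notation "Ω" => AlgebraicClosure ℚ

noncomputable section

section HeckeBase

variable {p : ℕ} [Fact p.Prime] {A : ValuationSubring Ω} (hA : A.LiesOverPrime p)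
  (M : ℕ) [NeZero M] (hp3 : p ≠ 3) (ℓ : ℕ) [NeZero ℓ] [NeZero (M * ℓ)]
  (K' : IntermediateField ℚ Ω) [IsDiscreteValuationRing ↥(baseRing A K')]
  (h2 : IsUnit (3 : ↥(baseRing A K')))

/-- `B_ℓ` preserves Gauss-integrality over a base. -/
theorem hesHostB_mem_hesWinf_base (hℓ : ℓ.Prime) (hℓ3 : ℓ ≠ 3) (x : ↥(hesE ↥K' M))
    (hx : x ∈ hesWinf ↥(baseRing A K') ↥K' h2 M) :
    hesHostBG ↥K' M ℓ hℓ hℓ3 x ∈ hesWinf ↥(baseRing A K') ↥K' h2 (M * ℓ) := by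
  have h1 : ((hesHostBG ↥K' M ℓ hℓ hℓ3 x : ↥(hesE ↥K' (M * ℓ))) : LaurentSeries ↥K') =
      qExpand ↥K' ℓ (x : LaurentSeries ↥K') := coe_hesHostBG (K := ↥K') M ℓ hℓ hℓ3 x
  show ((hesHostBG ↥K' M ℓ hℓ hℓ3 x : ↥(hesE ↥K' (M * ℓ))) : LaurentSeries ↥K') ∈ gaussInt _ _
  rw [h1]
  exact (gaussHomQExpand ↥(baseRing A K') ↥K' ℓ).map_mem_gaussInt hx

/-- `A_ℓ` preserves Gauss-integrality over a base. -/
theorem hesHostA_mem_hesWinf_base (x : ↥(hesE ↥K' M))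
    (hx : x ∈ hesWinf ↥(baseRing A K') ↥K' h2 M) :
    hesHostA ↥K' M ℓ x ∈ hesWinf ↥(baseRing A K') ↥K' h2 (M * ℓ) := by
  have h1 : ((hesHostA ↥K' M ℓ x : ↥(hesE ↥K' (M * ℓ))) : LaurentSeries ↥K') = x :=
    IntermediateField.coe_inclusion _ x
  show ((hesHostA ↥K' M ℓ x : ↥(hesE ↥K' (M * ℓ))) : LaurentSeries ↥K') ∈ gaussInt _ _
  rw [h1]
  exact hx

/-- **`hesRhoBase (T_ℓ x) = T̄_ℓ (hesRhoBase x)`.** -/
theorem hesRhoBase_hesHeckeP (hK' : IsBase p K') (hℓ : ℓ.Prime) (hℓ3 : ℓ ≠ 3)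
    (hℓM : ¬ ℓ ∣ M) (hpM : ¬ p ∣ M) (hpMℓ : ¬ p ∣ M * ℓ) (x : ↥(hesE ↥K' M))
    (hx : x ∈ hesWinf ↥(baseRing A K') ↥K' h2 M) :
    ∃ hN : hesHeckeP ↥K' M ℓ hℓ hℓ3 x ∈ hesWinf ↥(baseRing A K') ↥K' h2 M,
      hesRhoBase hA M hp3 K' h2 ⟨hesHeckeP ↥K' M ℓ hℓ hℓ3 x, hN⟩ =
        hesEtT hA M hp3 ℓ hℓ hℓ3 (hesRhoBase hA M hp3 K' h2 ⟨x, hx⟩) := by
  have hB := hesHostB_mem_hesWinf_base M ℓ K' h2 hℓ hℓ3 x hx
  obtain ⟨hN, h⟩ := hesRhoBase_norm_hesHostA hA M hp3 ℓ K' h2 hK' hℓ hℓ3 hℓM hpM hpMℓ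
    ⟨hesHostBG ↥K' M ℓ hℓ hℓ3 x, hB⟩
  refine ⟨hN, ?_⟩
  rw [hesEtT_apply', ← hesRhoBase_hesHostB hA M hp3 ℓ K' h2 hℓ hℓ3 x hx hB]
  exact h

end HeckeBase

end

end Fermat.Agent.ML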