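/-
ML (S59) — helper6 — **Hesse-host port** of `Fermat.Agent.MP.HECKERS0_helper4_Kron`.
-/
import Mathlib
import Fermat.Agent.MP.HECKERS0_helper4_Kron
import Fermat.Agent.ML.HESG_helper6_Model

set_option autoImplicit false
set_option linter.unusedSectionVars false
set_option linter.unusedVariables false
set_option linter.style.haveILetI false
set_option synthInstance.maxHeartbeats 200000

open Polynomial ModularCurve IntermediateField

namespace Fermat.Agent.ML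

open Fermat.Agent.MP

open Fermat.Agent.SS Fermat.Agent.JA Fermat.Agent.Igusa Fermat.Agent.X0N

open scoped Fermat.Agent.JA.Host

section Zero

variable {R : Type*} [CommRing R] [IsDomain R] [IsDiscreteValuationRing R]
variable {K₁ : Type*} [Field K₁] [Algebra R K₁] [IsFractionRing R K₁] [Algebra ℚ K₁]
  (ι : K₁ →+* ℂ)
variable {M ℓ : ℕ} [NeZero M] [NeZero ℓ] [NeZero (M * ℓ)] {x y : ℤ}
  (h : (ℓ : ℤ) * x + M * y = 1)

/-- **the Kronecker congruence along `W_0` on the Hesse host**, for a function `Z` of level `M`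
whose `q`-expansion is a prime series. -/
theorem kron_zero_hesE_gen {ϖ : R} (hϖ : Irreducible ϖ) (hℓ : ℓ.Prime)
    (hℓϖ : (ℓ : R) ∈ Ideal.span {ϖ}) (W0 : ValuationSubring ↥(hesE K₁ (M * ℓ)))
    (hW0 : ∀ f : ↥(keyFq K₁ (M * ℓ)),
      ((atkinLehnerN ι h hℓ f : ↥(keyFq K₁ (M * ℓ))) : LaurentSeries K₁) ∈ gaussInt R K₁ →
        fullToHesE K₁ (M * ℓ) f ∈ W0)
    (hϖW0 : (algebraMap K₁ ↥(hesE K₁ (M * ℓ)) (algebraMap R K₁ ϖ))⁻¹ ∉ W0)
    (Z : ↥(keyFq K₁ M)) (hT : IsPrimeSeries R K₁ ((Z : ↥(keyFq K₁ M)) : LaurentSeries K₁))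
    (a b : ↥(hesE K₁ (M * ℓ)))
    (ha : (a : LaurentSeries K₁) = qExpand K₁ 3 ((Z : ↥(keyFq K₁ M)) : LaurentSeries K₁))
    (hb : (b : LaurentSeries K₁) =
      qExpand K₁ ℓ (qExpand K₁ 3 ((Z : ↥(keyFq K₁ M)) : LaurentSeries K₁))) :
    W0.valuation (a - b ^ ℓ) < 1 := by
  obtain ⟨hmem, h0⟩ := exists_gaussRed_atkinLehnerN_kron_gen ι h hϖ hℓ hℓϖ Z hT
  have hab : a - b ^ ℓ = fullToHesE K₁ (M * ℓ) (heckeAlphaBar K₁ M ℓ Z -
      heckeBetaBar K₁ M ℓ Z ^ ℓ) := by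
    apply Subtype.ext
    have e1 : qExpand K₁ 3 (qExpand K₁ ℓ ((Z : ↥(keyFq K₁ M)) : LaurentSeries K₁)) =
        qExpand K₁ ℓ (qExpand K₁ 3 ((Z : ↥(keyFq K₁ M)) : LaurentSeries K₁)) := by
      rw [qExpand_qExpand, qExpand_qExpand]
      exact qExpand_congr (R := K₁) (mul_comm 3 ℓ) _
    rw [coe_fullToHesE, AddSubgroupClass.coe_sub, IntermediateField.coe_pow, ha, hb,
      AddSubgroupClass.coe_sub, IntermediateField.coe_pow, coe_heckeBetaBar, coe_heckeAlphaBar,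
      map_sub, map_pow, e1]
  rw [hab]
  exact valuation_lt_one_of_gaussRed_eq_zero_of_ringHom hϖ
    (((keyFq K₁ (M * ℓ)).val : ↥(keyFq K₁ (M * ℓ)) →+* LaurentSeries K₁).comp
      (atkinLehnerN ι h hℓ))
    (fullToHesE K₁ (M * ℓ) : ↥(keyFq K₁ (M * ℓ)) →+* ↥(hesE K₁ (M * ℓ))) W0 hW0
    (algebraMap K₁ _ (algebraMap R K₁ ϖ))
    (by
      show ((atkinLehnerN ι h hℓ (algebraMap K₁ _ (algebraMap R K₁ ϖ)) :
        ↥(keyFq K₁ (M * ℓ))) : LaurentSeries K₁) = _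
      rw [atkinLehnerN_algebraMap]
      show algebraMap K₁ (LaurentSeries K₁) (algebraMap R K₁ ϖ) = _
      rw [algebraMap_laurentSeries_eq_single, ← HahnSeries.C_apply])
    (by
      have : (fullToHesE K₁ (M * ℓ) : ↥(keyFq K₁ (M * ℓ)) →+* ↥(hesE K₁ (M * ℓ)))
          (algebraMap K₁ _ (algebraMap R K₁ ϖ)) =
          algebraMap K₁ ↥(hesE K₁ (M * ℓ)) (algebraMap R K₁ ϖ) :=
        (fullToHesE K₁ (M * ℓ)).commutes _
      rw [this]
      exact hϖW0)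
    _ hmem h0

end Zero

end Fermat.Agent.ML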