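/-
ML (S59) — helper6 — **Hesse-host port** of `Fermat.Agent.MP.HECKERS0_helper4_Sheet`.
-/
import Mathlib
import Fermat.Agent.MP.HECKERS0_helper4_Sheet
import Fermat.Agent.ML.HES_helper6_S0Kron

set_option autoImplicit false
set_option linter.unusedSectionVars false
set_option linter.unusedVariables false
set_option linter.style.haveILetI false
set_option synthInstance.maxHeartbeats 200000

open Polynomial ModularCurve IntermediateField

namespace Fermat.Agent.ML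

open Fermat.Agent.MP

open Fermat.Agent.SS Fermat.Agent.JA Fermat.Agent.Igusa Fermat.Agent.X0N

open scoped Fermat.Agent.JA.Host

section Hes

variable (R : Type*) [CommRing R] [IsDomain R] [IsDiscreteValuationRing R] [CharZero R]
  [DecidableEq R]
  (K : Type*) [Field K] [Algebra R K] [IsFractionRing R K] [Algebra ℚ K] [Algebra K ℂ]
  {M q : ℕ} [NeZero M] [NeZero q] [NeZero (M * q)] {x y : ℤ}
  {π : R}

/-- **`A_q j - (B_q j) ^ q` is a unit along `W_∞`**: its valuation is not `< 1`. -/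
theorem not_hesWinf_valuation_kron_lt_one (h2 : IsUnit (3 : R)) (hq : q.Prime) (hq3 : q ≠ 3) :
    ¬ (hesWinf R K h2 (M * q)).valuation
      ((hesHostA K M q : ↥(hesE K M) →+* ↥(hesE K (M * q))) (hesJE K M) -
        (hesHostBG K M q hq hq3 : ↥(hesE K M) →+* ↥(hesE K (M * q))) (hesJE K M) ^ q) < 1 := by
  intro hkron
  unfold hesWinf at hkron
  rw [gaussValSub_valuation_lt_one_iff] at hkron
  obtain ⟨hmem, hred⟩ := hkron
  have hTj := isPrimeSeries_jqNModC R K 3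
  have hJ : jqNModC K 3 ∈ gaussInt R K := hTj.mem_gaussInt
  have hBJ : qExpand K q (jqNModC K 3) ∈ gaussInt R K :=
    (gaussHomQExpand R K q).map_mem_gaussInt hJ
  have h1 : (⟨_, hmem⟩ : gaussInt R K) =
      (⟨jqNModC K 3, hJ⟩ : gaussInt R K) -
        (⟨qExpand K q (jqNModC K 3), hBJ⟩ : gaussInt R K) ^ q := by
    apply Subtype.ext
    rfl
  rw [h1, map_sub, map_pow, sub_eq_zero, Fermat.Agent.SS.gaussRed_qExpand q hJ,
    gaussRed_jqNModC] at hred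
  have h3 := congrArg HahnSeries.order hred
  rw [HahnSeries.order_pow, Fermat.Agent.JA.order_qExpand, order_jqNModC_field, nsmul_eq_mul]
    at h3
  have hq3' : (2 : ℤ) ≤ q := by exact_mod_cast hq.two_le
  push_cast at h3
  nlinarith

/-- **the sheet `W_0` is characterised by the Kronecker congruence**: a valuation subring of the
host of level `M q` which is Gauss at `j` and along which `A_q j ≡ (B_q j) ^ q` is `W_0`. -/
theorem eq_hesW0_of_isGaussAt_of_kron {h2 : IsUnit (3 : R)} {hbez : (q : ℤ) * x + M * y = 1}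
    {hq : q.Prime} {hq3 : q ≠ 3} {ω : R} (h₁ : SSModelHesG R K π h2 ω hbez hq hq3)
    (V : ValuationSubring ↥(hesE K (M * q)))
    (hG : IsGaussAt R π
      ((hesHostA K M q : ↥(hesE K M) →+* ↥(hesE K (M * q))) (hesJE K M)) V)
    (hk : V.valuation
      ((hesHostA K M q : ↥(hesE K M) →+* ↥(hesE K (M * q))) (hesJE K M) -
        (hesHostBG K M q hq hq3 : ↥(hesE K M) →+* ↥(hesE K (M * q))) (hesJE K M) ^ q) < 1) :
    V = hesW0 R K hbez hq := by
  unfold SSModelHesG at h₁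
  haveI : FiniteDimensional ↥K⟮jqNModC K 3⟯ ↥(hesE K (M * q)) := finite_hesE_adjoin_j K (M * q)
  have hKN : ∀ r : R, algebraMap ↥K⟮jqNModC K 3⟯ ↥(hesE K (M * q))
      (algebraMap R ↥K⟮jqNModC K 3⟯ r) = algebraMap R ↥(hesE K (M * q)) r :=
    fun r => (IsScalarTower.algebraMap_apply R ↥K⟮jqNModC K 3⟯ ↥(hesE K (M * q)) r).symm
  have hG' : IsGaussAt R π (AdjoinSimple.gen K (jqNModC K 3))
      (V.comap (algebraMap ↥K⟮jqNModC K 3⟯ ↥(hesE K (M * q)))) := by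
    rw [isGaussAt_comap_ringHom_iff _ hKN, ← h₁.A_j]
    exact hG
  rcases h₁.two.only V hG' with h | h
  · exfalso
    rw [h] at hk
    exact not_hesWinf_valuation_kron_lt_one R K h2 hq hq3 hk
  · exact h

/-- `A_q j` is Gauss along `W_∞`, from the model. -/
theorem isGaussAt_hesHostA_hesJE_of_ssModelHes {h2 : IsUnit (3 : R)}
    {hbez : (q : ℤ) * x + M * y = 1} {hq : q.Prime} {hq3 : q ≠ 3}
    {ω : R} (h₁ : SSModelHesG R K π h2 ω hbez hq hq3) :
    IsGaussAt R π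
      ((hesHostA K M q : ↥(hesE K M) →+* ↥(hesE K (M * q))) (hesJE K M))
      (hesWinf R K h2 (M * q)) := by
  unfold SSModelHesG at h₁
  haveI : FiniteDimensional ↥K⟮jqNModC K 3⟯ ↥(hesE K (M * q)) := finite_hesE_adjoin_j K (M * q)
  have hKN : ∀ r : R, algebraMap ↥K⟮jqNModC K 3⟯ ↥(hesE K (M * q))
      (algebraMap R ↥K⟮jqNModC K 3⟯ r) = algebraMap R ↥(hesE K (M * q)) r :=
    fun r => (IsScalarTower.algebraMap_apply R ↥K⟮jqNModC K 3⟯ ↥(hesE K (M * q)) r).symm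
  have h3 := (isGaussAt_comap_ringHom_iff _ hKN π _ _).mp h₁.two.gauss_inf
  rw [h₁.A_j]
  exact h3

/-- `j` is Gauss along `V_M` as soon as `A_q j` is Gauss along `W_∞`. -/
theorem isGaussAt_hesJE_of_hesHostA {h2 : IsUnit (3 : R)}
    (h4 : IsGaussAt R π
      ((hesHostA K M q : ↥(hesE K M) →+* ↥(hesE K (M * q))) (hesJE K M))
      (hesWinf R K h2 (M * q))) :
    IsGaussAt R π (hesJE K M) (hesWinf R K h2 M) := by
  have h5 := (isGaussAt_comap_ringHom_iff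
    (hesHostA K M q : ↥(hesE K M) →+* ↥(hesE K (M * q))) (ssModelHesG_A_algebraMap R K) π
    (hesJE K M) (hesWinf R K h2 (M * q))).mpr h4
  rw [ssModelHesG_comap_A_inf R K h2] at h5
  exact h5

/-- `j` is Gauss along `V_M`, from the model. -/
theorem isGaussAt_hesJE_of_ssModelHes {h2 : IsUnit (3 : R)} {hbez : (q : ℤ) * x + M * y = 1}
    {hq : q.Prime} {hq3 : q ≠ 3} {ω : R} (h₁ : SSModelHesG R K π h2 ω hbez hq hq3) :
    IsGaussAt R π (hesJE K M) (hesWinf R K h2 M) :=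
  isGaussAt_hesJE_of_hesHostA R K (isGaussAt_hesHostA_hesJE_of_ssModelHes R K h₁)

end Hes

section Coe

variable (R : Type*) [CommRing R] [IsDomain R] [IsDiscreteValuationRing R] [CharZero R]
  (K : Type*) [Field K] [Algebra R K] [IsFractionRing R K] [Algebra ℚ K]
  (N : ℕ) [NeZero N]

/-- the series of a constant of `R` in the host. -/
theorem coe_algebraMap_hesE (r : R) :
    ((algebraMap R ↥(hesE K N) r : ↥(hesE K N)) : LaurentSeries K) =
      HahnSeries.C (algebraMap R K r) := by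
  rw [IsScalarTower.algebraMap_apply R K ↥(hesE K N), IntermediateField.coe_algebraMap_apply,
    algebraMap_laurentSeries_eq_single]
  rfl

/-- the series of `j` in the host. -/
theorem coe_algebraMap_adjoin_hesE :
    ((algebraMap ↥K⟮jqNModC K 3⟯ ↥(hesE K N) (AdjoinSimple.gen K (jqNModC K 3)) :
      ↥(hesE K N)) : LaurentSeries K) = jqNModC K 3 := rfl

end Coe

section Sheet

variable (R : Type*) [CommRing R] [IsDomain R] [IsDiscreteValuationRing R] [CharZero R]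
  [DecidableEq R]
  (K : Type*) [Field K] [Algebra R K] [IsFractionRing R K] [Algebra ℚ K] [Algebra K ℂ]
  {M p ℓ : ℕ} [NeZero M] [NeZero p] [NeZero ℓ] [NeZero (M * p)] [NeZero (M * ℓ)]
  [NeZero (M * ℓ * p)] {x₁ y₁ x₂ y₂ : ℤ} {π : R}

/-- **(T2-A)**: the comap of the sheet `W_0` of level `(M ℓ) p` along a coefficient-preserving
ring homomorphism from the host of level `M p` (the degeneracy map `A_ℓ`) is the sheet `W_0` of
level `M p`. -/
theorem hesW0_comap_of_coe_eq {h2 : IsUnit (3 : R)} {hbez₁ : (p : ℤ) * x₁ + M * y₁ = 1}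
    {hbez₂ : (p : ℤ) * x₂ + ((M * ℓ : ℕ) : ℤ) * y₂ = 1} {hp : p.Prime} {hp3 : p ≠ 3}
    {ω : R} (h₁ : SSModelHesG R K (M := M) (q := p) π h2 ω hbez₁ hp hp3)
    {ω : R} (h₂ : SSModelHesG R K (M := M * ℓ) (q := p) π h2 ω hbez₂ hp hp3)
    (φ : ↥(hesE K (M * p)) →+* ↥(hesE K (M * ℓ * p)))
    (hφ : ∀ f : ↥(hesE K (M * p)),
      ((φ f : ↥(hesE K (M * ℓ * p))) : LaurentSeries K) = (f : LaurentSeries K)) :
    (hesW0 R K hbez₂ hp).comap φ = hesW0 R K hbez₁ hp := by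
  have hφR : ∀ r : R, φ (algebraMap R ↥(hesE K (M * p)) r) =
      algebraMap R ↥(hesE K (M * ℓ * p)) r := fun r => Subtype.ext (by
    rw [hφ, coe_algebraMap_hesE, coe_algebraMap_hesE])
  refine eq_hesW0_of_isGaussAt_of_kron R K h₁ _ ?_ ?_
  · -- Gauss at `j`
    rw [isGaussAt_comap_ringHom_iff φ hφR]
    unfold SSModelHesG at h₂
    haveI : FiniteDimensional ↥K⟮jqNModC K 3⟯ ↥(hesE K (M * ℓ * p)) :=
      finite_hesE_adjoin_j K (M * ℓ * p)
    have hKN : ∀ r : R, algebraMap ↥K⟮jqNModC K 3⟯ ↥(hesE K (M * ℓ * p))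
        (algebraMap R ↥K⟮jqNModC K 3⟯ r) = algebraMap R ↥(hesE K (M * ℓ * p)) r :=
      fun r => (IsScalarTower.algebraMap_apply R ↥K⟮jqNModC K 3⟯ ↥(hesE K (M * ℓ * p)) r).symm
    have h3 := h₂.two.gauss_zero
    rw [isGaussAt_comap_ringHom_iff _ hKN] at h3
    have e : φ ((hesHostA K M p : ↥(hesE K M) →+* ↥(hesE K (M * p))) (hesJE K M)) =
        algebraMap ↥K⟮jqNModC K 3⟯ ↥(hesE K (M * ℓ * p)) (AdjoinSimple.gen K (jqNModC K 3)) :=
      Subtype.ext (by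
        rw [hφ, RingHom.coe_coe, coe_hesHostA, coe_hesJE, coe_algebraMap_adjoin_hesE])
    rw [e]
    exact h3
  · -- the Kronecker congruence
    rw [← comap_val_lt_one_iff φ (rfl : (hesW0 R K hbez₂ hp).comap φ = _)]
    unfold SSModelHesG at h₂
    haveI : FiniteDimensional ↥K⟮jqNModC K 3⟯ ↥(hesE K (M * ℓ * p)) :=
      finite_hesE_adjoin_j K (M * ℓ * p)
    have h3 := h₂.kron_j_zero
    have e : φ ((hesHostA K M p : ↥(hesE K M) →+* ↥(hesE K (M * p))) (hesJE K M) -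
        (hesHostBG K M p hp hp3 : ↥(hesE K M) →+* ↥(hesE K (M * p))) (hesJE K M) ^ p) =
        (hesHostA K (M * ℓ) p : ↥(hesE K (M * ℓ)) →+* ↥(hesE K (M * ℓ * p))) (hesJE K (M * ℓ)) -
        (hesHostBG K (M * ℓ) p hp hp3 : ↥(hesE K (M * ℓ)) →+* ↥(hesE K (M * ℓ * p)))
          (hesJE K (M * ℓ)) ^ p := by
      apply Subtype.ext
      rw [hφ]
      simp only [AddSubgroupClass.coe_sub, IntermediateField.coe_pow, RingHom.coe_coe,
        coe_hesHostA, coe_hesHostBG, coe_hesJE]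
    rw [e]
    exact h3

/-- **(T2-B)**: the comap of the sheet `W_0` of level `(M ℓ) p` along a ring homomorphism from the
host of level `M p` acting by `x ↦ x ^ ℓ` on the series (the degeneracy map `B_ℓ`) is the sheet
`W_0` of level `M p`. -/
theorem hesW0_comap_of_coe_eq_qExpand {h2 : IsUnit (3 : R)}
    {hbez₁ : (p : ℤ) * x₁ + M * y₁ = 1}
    {hbez₂ : (p : ℤ) * x₂ + ((M * ℓ : ℕ) : ℤ) * y₂ = 1} {hp : p.Prime} {hp3 : p ≠ 3}
    {ω : R} (h₁ : SSModelHesG R K (M := M) (q := p) π h2 ω hbez₁ hp hp3)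
    {ω : R} (h₂ : SSModelHesG R K (M := M * ℓ) (q := p) π h2 ω hbez₂ hp hp3)
    (hπ : Irreducible π) (hℓ : ℓ.Prime) (hℓ3 : ℓ ≠ 3)
    (φ : ↥(hesE K (M * p)) →+* ↥(hesE K (M * ℓ * p)))
    (hφ : ∀ f : ↥(hesE K (M * p)),
      ((φ f : ↥(hesE K (M * ℓ * p))) : LaurentSeries K) = qExpand K ℓ (f : LaurentSeries K)) :
    (hesW0 R K hbez₂ hp).comap φ = hesW0 R K hbez₁ hp := by
  have hφR : ∀ r : R, φ (algebraMap R ↥(hesE K (M * p)) r) =
      algebraMap R ↥(hesE K (M * ℓ * p)) r := fun r => Subtype.ext (by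
    rw [hφ, coe_algebraMap_hesE, coe_algebraMap_hesE, qExpand_C])
  have hJ := isGaussAt_hesJE_of_ssModelHes R K h₁
  unfold SSModelHesG at h₂
  haveI : FiniteDimensional ↥K⟮jqNModC K 3⟯ ↥(hesE K (M * ℓ * p)) :=
    finite_hesE_adjoin_j K (M * ℓ * p)
  refine eq_hesW0_of_isGaussAt_of_kron R K h₁ _ ?_ ?_
  · -- Gauss at `j`
    rw [isGaussAt_comap_ringHom_iff φ hφR]
    have e : φ ((hesHostA K M p : ↥(hesE K M) →+* ↥(hesE K (M * p))) (hesJE K M)) =
        (hesHostA K (M * ℓ) p : ↥(hesE K (M * ℓ)) →+* ↥(hesE K (M * ℓ * p)))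
          ((hesHostBG K M ℓ hℓ hℓ3 : ↥(hesE K M) →+* ↥(hesE K (M * ℓ))) (hesJE K M)) :=
      Subtype.ext (by
        rw [hφ]
        simp only [RingHom.coe_coe, coe_hesHostA, coe_hesHostBG, coe_hesJE])
    rw [e]
    have h4 : IsGaussAt R π (hesJE K M)
        ((hesWinf R K h2 (M * ℓ)).comap
          (hesHostBG K M ℓ hℓ hℓ3 : ↥(hesE K M) →+* ↥(hesE K (M * ℓ)))) := by
      rw [ssModelHesG_comap_B_inf R K h2 hℓ hℓ3]
      exact hJ
    have h5 := (isGaussAt_comap_ringHom_iff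
      (hesHostBG K M ℓ hℓ hℓ3 : ↥(hesE K M) →+* ↥(hesE K (M * ℓ)))
      (ssModelHesG_B_algebraMap R K hℓ hℓ3) π _ _).mp h4
    have h6 : IsGaussAt R π
        ((hesHostBG K M ℓ hℓ hℓ3 : ↥(hesE K M) →+* ↥(hesE K (M * ℓ))) (hesJE K M))
        ((hesW0 R K hbez₂ hp).comap
          (hesHostA K (M * ℓ) p : ↥(hesE K (M * ℓ)) →+* ↥(hesE K (M * ℓ * p)))) := by
      rw [h₂.comap_A_zero]
      exact h5
    exact (isGaussAt_comap_ringHom_iff
      (hesHostA K (M * ℓ) p : ↥(hesE K (M * ℓ)) →+* ↥(hesE K (M * ℓ * p)))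
      (ssModelHesG_A_algebraMap R K) π _ _).mp h6
  · -- the Kronecker congruence
    rw [← comap_val_lt_one_iff φ (rfl : (hesW0 R K hbez₂ hp).comap φ = _), map_sub, map_pow]
    set Z : ↥(keyFq K (M * ℓ)) := heckeBetaBar K M ℓ (jGen K M) with hZ
    have hZc : ((Z : ↥(keyFq K (M * ℓ))) : LaurentSeries K) = jqNModC K ℓ := by
      rw [hZ, coe_heckeBetaBar]
      show qExpand K ℓ (coeffEmb K jq) = _
      rw [coeffEmb_jq_eq_jqModC]
      rfl
    refine kron_zero_hesE_gen (algebraMap K ℂ) hbez₂ hπ hp h₂.q_mem (hesW0 R K hbez₂ hp)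
      (hesW0_mem_of_atkinLehnerN R K hbez₂ hp) (inv_uniformizer_notMem_hesW0 R K hbez₂ hp hπ) Z
      (by rw [hZc]; exact isPrimeSeries_jqNModC R K ℓ) _ _ ?_ ?_
    · rw [hφ, hZc]
      simp only [RingHom.coe_coe, coe_hesHostA, coe_hesJE, jqNModC, qExpand_qExpand]
      exact qExpand_congr (R := K) (mul_comm ℓ 3) _
    · rw [hφ, hZc]
      simp only [RingHom.coe_coe, coe_hesHostBG, coe_hesJE, jqNModC, qExpand_qExpand]
      exact qExpand_congr (R := K) (by ring) _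

/-- **(T2-A), helper7's shape**: `cast` any ring homomorphism
`hesE K (M p ℓ) → hesE K (M ℓ p)` acting by the identity on the series. -/
theorem hesW0_comap_cast_comap_hesHostA [NeZero (M * p * ℓ)] {h2 : IsUnit (3 : R)}
    {hbez₁ : (p : ℤ) * x₁ + M * y₁ = 1}
    {hbez₂ : (p : ℤ) * x₂ + ((M * ℓ : ℕ) : ℤ) * y₂ = 1} {hp : p.Prime} {hp3 : p ≠ 3}
    {ω : R} (h₁ : SSModelHesG R K (M := M) (q := p) π h2 ω hbez₁ hp hp3)
    {ω : R} (h₂ : SSModelHesG R K (M := M * ℓ) (q := p) π h2 ω hbez₂ hp hp3)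
    (c : ↥(hesE K (M * p * ℓ)) →+* ↥(hesE K (M * ℓ * p)))
    (hc : ∀ f : ↥(hesE K (M * p * ℓ)),
      ((c f : ↥(hesE K (M * ℓ * p))) : LaurentSeries K) = (f : LaurentSeries K)) :
    ((hesW0 R K hbez₂ hp).comap c).comap
      (hesHostA K (M * p) ℓ : ↥(hesE K (M * p)) →+* ↥(hesE K (M * p * ℓ))) =
      hesW0 R K hbez₁ hp := by
  rw [ValuationSubring.comap_comap]
  exact hesW0_comap_of_coe_eq R K h₁ h₂
    (c.comp (hesHostA K (M * p) ℓ : ↥(hesE K (M * p)) →+* ↥(hesE K (M * p * ℓ))))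
    (fun f => by rw [RingHom.comp_apply, hc, RingHom.coe_coe, coe_hesHostA])

/-- **(T2-B), helper7's shape**: `cast` any ring homomorphism
`hesE K (M p ℓ) → hesE K (M ℓ p)` acting by the identity on the series. -/
theorem hesW0_comap_cast_comap_hesHostB [NeZero (M * p * ℓ)] {h2 : IsUnit (3 : R)}
    {hbez₁ : (p : ℤ) * x₁ + M * y₁ = 1}
    {hbez₂ : (p : ℤ) * x₂ + ((M * ℓ : ℕ) : ℤ) * y₂ = 1} {hp : p.Prime} {hp3 : p ≠ 3}
    {ω : R} (h₁ : SSModelHesG R K (M := M) (q := p) π h2 ω hbez₁ hp hp3)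
    {ω : R} (h₂ : SSModelHesG R K (M := M * ℓ) (q := p) π h2 ω hbez₂ hp hp3)
    (hπ : Irreducible π) (hℓ : ℓ.Prime) (hℓ3 : ℓ ≠ 3)
    (c : ↥(hesE K (M * p * ℓ)) →+* ↥(hesE K (M * ℓ * p)))
    (hc : ∀ f : ↥(hesE K (M * p * ℓ)),
      ((c f : ↥(hesE K (M * ℓ * p))) : LaurentSeries K) = (f : LaurentSeries K)) :
    ((hesW0 R K hbez₂ hp).comap c).comap
      (hesHostBG K (M * p) ℓ hℓ hℓ3 : ↥(hesE K (M * p)) →+* ↥(hesE K (M * p * ℓ))) =
      hesW0 R K hbez₁ hp := by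
  rw [ValuationSubring.comap_comap]
  exact hesW0_comap_of_coe_eq_qExpand R K h₁ h₂ hπ hℓ hℓ3
    (c.comp (hesHostBG K (M * p) ℓ hℓ hℓ3 : ↥(hesE K (M * p)) →+* ↥(hesE K (M * p * ℓ))))
    (fun f => by rw [RingHom.comp_apply, hc, RingHom.coe_coe, coe_hesHostBG])

end Sheet

section Cast

variable (K : Type*) [Field K] [Algebra ℚ K]

/-- the hosts of equal levels coincide. -/
theorem hesE_congr {N N' : ℕ} [NeZero N] [NeZero N'] (h : N = N') : hesE K N = hesE K N' := by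
  subst h
  rfl

/-- **the identification of the hosts of equal levels** (the identity on the series). -/
noncomputable def hesLevelCast {N N' : ℕ} [NeZero N] [NeZero N'] (h : N = N') :
    ↥(hesE K N) ≃ₐ[K] ↥(hesE K N') :=
  IntermediateField.equivOfEq (hesE_congr K h)

theorem coe_hesLevelCast {N N' : ℕ} [NeZero N] [NeZero N'] (h : N = N') (f : ↥(hesE K N)) :
    ((hesLevelCast K h f : ↥(hesE K N')) : LaurentSeries K) = (f : LaurentSeries K) := by
  subst h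
  rfl

end Cast

section SheetCast

variable (R : Type*) [CommRing R] [IsDomain R] [IsDiscreteValuationRing R] [CharZero R]
  [DecidableEq R]
  (K : Type*) [Field K] [Algebra R K] [IsFractionRing R K] [Algebra ℚ K] [Algebra K ℂ]
  {M p ℓ : ℕ} [NeZero M] [NeZero p] [NeZero ℓ] [NeZero (M * p)] [NeZero (M * ℓ)]
  [NeZero (M * ℓ * p)] [NeZero (M * p * ℓ)] {x₁ y₁ x₂ y₂ : ℤ} {π : R}

/-- **(T2-A)** with `hesLevelCast`. -/
theorem hesW0_comap_hesLevelCast_comap_hesHostA {h2 : IsUnit (3 : R)}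
    {hbez₁ : (p : ℤ) * x₁ + M * y₁ = 1}
    {hbez₂ : (p : ℤ) * x₂ + ((M * ℓ : ℕ) : ℤ) * y₂ = 1} {hp : p.Prime} {hp3 : p ≠ 3}
    {ω : R} (h₁ : SSModelHesG R K (M := M) (q := p) π h2 ω hbez₁ hp hp3)
    {ω : R} (h₂ : SSModelHesG R K (M := M * ℓ) (q := p) π h2 ω hbez₂ hp hp3) :
    ((hesW0 R K hbez₂ hp).comap
      ((hesLevelCast K (Nat.mul_right_comm M p ℓ) :
        ↥(hesE K (M * p * ℓ)) ≃ₐ[K] ↥(hesE K (M * ℓ * p))) :
        ↥(hesE K (M * p * ℓ)) →+* ↥(hesE K (M * ℓ * p)))).comap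
      (hesHostA K (M * p) ℓ : ↥(hesE K (M * p)) →+* ↥(hesE K (M * p * ℓ))) =
      hesW0 R K hbez₁ hp :=
  hesW0_comap_cast_comap_hesHostA R K h₁ h₂ _
    (fun f => by rw [RingHom.coe_coe]; exact coe_hesLevelCast K _ f)

/-- **(T2-B)** with `hesLevelCast`. -/
theorem hesW0_comap_hesLevelCast_comap_hesHostB {h2 : IsUnit (3 : R)}
    {hbez₁ : (p : ℤ) * x₁ + M * y₁ = 1}
    {hbez₂ : (p : ℤ) * x₂ + ((M * ℓ : ℕ) : ℤ) * y₂ = 1} {hp : p.Prime} {hp3 : p ≠ 3}
    {ω : R} (h₁ : SSModelHesG R K (M := M) (q := p) π h2 ω hbez₁ hp hp3)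
    {ω : R} (h₂ : SSModelHesG R K (M := M * ℓ) (q := p) π h2 ω hbez₂ hp hp3)
    (hπ : Irreducible π) (hℓ : ℓ.Prime) (hℓ3 : ℓ ≠ 3) :
    ((hesW0 R K hbez₂ hp).comap
      ((hesLevelCast K (Nat.mul_right_comm M p ℓ) :
        ↥(hesE K (M * p * ℓ)) ≃ₐ[K] ↥(hesE K (M * ℓ * p))) :
        ↥(hesE K (M * p * ℓ)) →+* ↥(hesE K (M * ℓ * p)))).comap
      (hesHostBG K (M * p) ℓ hℓ hℓ3 : ↥(hesE K (M * p)) →+* ↥(hesE K (M * p * ℓ))) =
      hesW0 R K hbez₁ hp :=
  hesW0_comap_cast_comap_hesHostB R K h₁ h₂ hπ hℓ hℓ3 _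
    (fun f => by rw [RingHom.coe_coe]; exact coe_hesLevelCast K _ f)

end SheetCast

end Fermat.Agent.ML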