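/-
ML (S59) — helper6 — **Hesse-host port** of `Fermat.Agent.MP.HECKERS0_helper4_Three`.
-/
import Mathlib
import Fermat.Agent.MP.HECKERS0_helper4_Three
import Fermat.Agent.ML.HES_helper6_S0Sheet
import Fermat.Agent.SS.BASE_helper1_Hes

set_option autoImplicit false
set_option linter.unusedSectionVars false
set_option linter.unusedVariables false
set_option linter.style.haveILetI false
set_option synthInstance.maxHeartbeats 200000

open Polynomial ModularCurve IntermediateField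

namespace Fermat.Agent.ML

open Fermat.Agent.MP

open Fermat.Agent.JA Fermat.Agent.Igusa Fermat.Agent.SS

open scoped Fermat.Agent.JA.Host

noncomputable section

section Hes

variable (R : Type*) [CommRing R] [IsDomain R] [IsDiscreteValuationRing R] [CharZero R]
  [DecidableEq R]
  (K : Type*) [Field K] [Algebra R K] [IsFractionRing R K] [Algebra ℚ K] [Algebra K ℂ]
  (M p ℓ : ℕ) [NeZero M] [NeZero p] [NeZero ℓ] [NeZero (M * p)] [NeZero (M * ℓ)]
  [NeZero (M * p * ℓ)] [NeZero (M * ℓ * p)]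

/-- the dilation `E_{Mℓ} → E_{Mpℓ}`, `x ↦ x ^ p` (the degeneracy map `B_p` of level `M ℓ`, with
the level written `M p ℓ`). -/
def hesHostBmid (hp : p.Prime) (hp3 : p ≠ 3) : ↥(hesE K (M * ℓ)) →ₐ[K] ↥(hesE K (M * p * ℓ)) :=
  dilateAlgHom K p (hesE K (M * ℓ)) (hesE K (M * p * ℓ))
    (fun _ hf => qExpand_mem_hesE_of_mem_gen K hp hp3 ⟨1, by ring⟩ hf)

@[simp] theorem coe_hesHostBmid (hp : p.Prime) (hp3 : p ≠ 3) (f : ↥(hesE K (M * ℓ))) :
    ((hesHostBmid K M p ℓ hp hp3 f : ↥(hesE K (M * p * ℓ))) : LaurentSeries K) =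
      qExpand K p (f : LaurentSeries K) := rfl

/-- the inclusion `E_{Mℓ} → E_{Mpℓ}` (the degeneracy map `A_p` of level `M ℓ`, with the level
written `M p ℓ`). -/
def hesHostAmid₄ : ↥(hesE K (M * ℓ)) →ₐ[K] ↥(hesE K (M * p * ℓ)) :=
  IntermediateField.inclusion (hesE_le_of_dvd K ⟨p, by ring⟩)

@[simp] theorem coe_hesHostAmid₄ (f : ↥(hesE K (M * ℓ))) :
    ((hesHostAmid₄ K M p ℓ f : ↥(hesE K (M * p * ℓ))) : LaurentSeries K) = f :=
  IntermediateField.coe_inclusion _ f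

/-- `A_ℓ ∘ A_p = A_p ∘ A_ℓ` (all inclusions). -/
theorem hesHost_comm_AA (x : ↥(hesE K M)) :
    (hesHostA K (M * p) ℓ).toRingHom ((hesHostA K M p).toRingHom x) =
      (hesHostAmid₄ K M p ℓ).toRingHom ((hesHostA K M ℓ).toRingHom x) := by
  apply Subtype.ext
  simp only [AlgHom.toRingHom_eq_coe, RingHom.coe_coe]
  rw [coe_hesHostA, coe_hesHostA, coe_hesHostAmid₄, coe_hesHostA]

/-- `B_ℓ ∘ A_p = A_p ∘ B_ℓ`. -/
theorem hesHost_comm_BA (hℓ : ℓ.Prime) (hℓ3 : ℓ ≠ 3) (x : ↥(hesE K M)) :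
    (hesHostBG K (M * p) ℓ hℓ hℓ3).toRingHom ((hesHostA K M p).toRingHom x) =
      (hesHostAmid₄ K M p ℓ).toRingHom ((hesHostBG K M ℓ hℓ hℓ3).toRingHom x) := by
  apply Subtype.ext
  simp only [AlgHom.toRingHom_eq_coe, RingHom.coe_coe]
  rw [coe_hesHostBG, coe_hesHostA, coe_hesHostAmid₄, coe_hesHostBG]

/-- `A_ℓ ∘ B_p = B_p ∘ A_ℓ`. -/
theorem hesHost_comm_AB (hp : p.Prime) (hp3 : p ≠ 3) (x : ↥(hesE K M)) :
    (hesHostA K (M * p) ℓ).toRingHom ((hesHostBG K M p hp hp3).toRingHom x) =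
      (hesHostBmid K M p ℓ hp hp3).toRingHom ((hesHostA K M ℓ).toRingHom x) := by
  apply Subtype.ext
  simp only [AlgHom.toRingHom_eq_coe, RingHom.coe_coe]
  rw [coe_hesHostA, coe_hesHostBG, coe_hesHostBmid, coe_hesHostA]

/-- `B_ℓ ∘ B_p = B_p ∘ B_ℓ`. -/
theorem hesHost_comm_BB (hp : p.Prime) (hp3 : p ≠ 3) (hℓ : ℓ.Prime) (hℓ3 : ℓ ≠ 3)
    (x : ↥(hesE K M)) :
    (hesHostBG K (M * p) ℓ hℓ hℓ3).toRingHom ((hesHostBG K M p hp hp3).toRingHom x) =
      (hesHostBmid K M p ℓ hp hp3).toRingHom ((hesHostBG K M ℓ hℓ hℓ3).toRingHom x) := by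
  apply Subtype.ext
  simp only [AlgHom.toRingHom_eq_coe, RingHom.coe_coe]
  rw [coe_hesHostBG, coe_hesHostBG, coe_hesHostBmid, coe_hesHostBG, qExpand_qExpand, qExpand_qExpand]
  exact qExpand_congr (R := K) (mul_comm ℓ p) _

/-- the Gauss ring of level `M p ℓ` restricts to the Gauss ring of level `M ℓ`. -/
theorem hesWinf_comap_hesHostAmid₄ (h2 : IsUnit (3 : R)) :
    (hesWinf R K h2 (M * p * ℓ)).comap (hesHostAmid₄ K M p ℓ).toRingHom =
      hesWinf R K h2 (M * ℓ) := by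
  ext f
  rw [ValuationSubring.mem_comap]
  show ((hesHostAmid₄ K M p ℓ f : ↥(hesE K (M * p * ℓ))) : LaurentSeries K) ∈ gaussInt R K ↔
      (f : LaurentSeries K) ∈ gaussInt R K
  rw [coe_hesHostAmid₄]

/-- `hesLevelCast ∘ B_p^{mid} = B_p` of level `M ℓ`. -/
theorem hesLevelCast_comp_hesHostBmid (hp : p.Prime) (hp3 : p ≠ 3) :
    ((hesLevelCast K (Nat.mul_right_comm M p ℓ) :
        ↥(hesE K (M * p * ℓ)) ≃ₐ[K] ↥(hesE K (M * ℓ * p))) :
        ↥(hesE K (M * p * ℓ)) →+* ↥(hesE K (M * ℓ * p))).comp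
        (hesHostBmid K M p ℓ hp hp3).toRingHom =
      (hesHostBG K (M * ℓ) p hp hp3 : ↥(hesE K (M * ℓ)) →+* ↥(hesE K (M * ℓ * p))) := by
  apply RingHom.ext
  intro f
  apply Subtype.ext
  rw [RingHom.comp_apply, RingHom.coe_coe, coe_hesLevelCast]
  simp only [AlgHom.toRingHom_eq_coe, RingHom.coe_coe]
  rw [coe_hesHostBmid, coe_hesHostBG]

variable {M p ℓ} {x₁ y₁ x₂ y₂ : ℤ} {π : R}

/-- **the three-level datum of the sheet `∞`.** -/
theorem threeHyps_hesInf₄ {h2 : IsUnit (3 : R)} {hbez₁ : (p : ℤ) * x₁ + M * y₁ = 1}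
    {hp : p.Prime} {hp3 : p ≠ 3}
    {ω : R} (h₁ : SSModelHesG R K (M := M) (q := p) π h2 ω hbez₁ hp hp3) (hℓ : ℓ.Prime) (hℓ3 : ℓ ≠ 3)
    {n : ℕ} (hn : 0 < n)
    (hdeg₀ : letI := (hesHostA K M ℓ).toRingHom.toAlgebra;
      Module.finrank ↥(hesE K M) ↥(hesE K (M * ℓ)) = n)
    (hdeg : letI := (hesHostA K (M * p) ℓ).toRingHom.toAlgebra;
      Module.finrank ↥(hesE K (M * p)) ↥(hesE K (M * p * ℓ)) = n)
    (c : Fin n → ↥(hesE K (M * ℓ)))
    (hc : letI := (hesHostA K M ℓ).toRingHom.toAlgebra;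
      ResIndep (hesWinf R K h2 M) (hesWinf R K h2 (M * ℓ)) c) :
    ThreeHyps (hesHostA K M ℓ).toRingHom (hesHostBG K M ℓ hℓ hℓ3).toRingHom
      (hesHostA K (M * p) ℓ).toRingHom (hesHostBG K (M * p) ℓ hℓ hℓ3).toRingHom
      (hesHostA K M p).toRingHom (hesHostAmid₄ K M p ℓ).toRingHom
      (hesWinf R K h2 M) (hesWinf R K h2 (M * ℓ)) (hesWinf R K h2 (M * p))
      (hesWinf R K h2 (M * p * ℓ)) n c := by
  haveI : FiniteDimensional ↥K⟮jqNModC K 3⟯ ↥(hesE K (M * p)) := finite_hesE_adjoin_j K (M * p)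
  have h₁' := SSModelHesG.ssModel R K h₁
  refine
    { hAP := hesHost_comm_AA K M p ℓ
      hBP := hesHost_comm_BA K M p ℓ hℓ hℓ3
      comap_P := ssModelHesG_comap_A_inf R K (M := M) (q := p) h2
      comap_P' := hesWinf_comap_hesHostAmid₄ R K M p ℓ h2
      comap_A := ssModelHesG_comap_A_inf R K (M := M * p) (q := ℓ) h2
      comap_B := ssModelHesG_comap_B_inf R K (M := M * p) h2 hℓ hℓ3
      comap_A₀ := ssModelHesG_comap_A_inf R K (M := M) (q := ℓ) h2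
      comap_B₀ := ssModelHesG_comap_B_inf R K (M := M) h2 hℓ hℓ3
      res := h₁'.res_inf
      finA₀ := ?_
      degA₀ := hdeg₀
      finA := ?_
      degA := hdeg
      indep := hc }
  · letI := (hesHostA K M ℓ).toRingHom.toAlgebra
    exact Module.finite_of_finrank_pos (by rw [hdeg₀]; exact hn)
  · letI := (hesHostA K (M * p) ℓ).toRingHom.toAlgebra
    exact Module.finite_of_finrank_pos (by rw [hdeg]; exact hn)

/-- **the three-level datum of the sheet `0`.** -/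
theorem threeHyps_hesZero {h2 : IsUnit (3 : R)} {hbez₁ : (p : ℤ) * x₁ + M * y₁ = 1}
    {hbez₂ : (p : ℤ) * x₂ + ((M * ℓ : ℕ) : ℤ) * y₂ = 1} {hp : p.Prime} {hp3 : p ≠ 3}
    {ω : R} (h₁ : SSModelHesG R K (M := M) (q := p) π h2 ω hbez₁ hp hp3)
    {ω : R} (h₂ : SSModelHesG R K (M := M * ℓ) (q := p) π h2 ω hbez₂ hp hp3)
    (hπ : Irreducible π) (hℓ : ℓ.Prime) (hℓ3 : ℓ ≠ 3) {n : ℕ} (hn : 0 < n)
    (hdeg₀ : letI := (hesHostA K M ℓ).toRingHom.toAlgebra;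
      Module.finrank ↥(hesE K M) ↥(hesE K (M * ℓ)) = n)
    (hdeg : letI := (hesHostA K (M * p) ℓ).toRingHom.toAlgebra;
      Module.finrank ↥(hesE K (M * p)) ↥(hesE K (M * p * ℓ)) = n)
    (c : Fin n → ↥(hesE K (M * ℓ)))
    (hc : letI := (hesHostA K M ℓ).toRingHom.toAlgebra;
      ResIndep (hesWinf R K h2 M) (hesWinf R K h2 (M * ℓ)) c) :
    ThreeHyps (hesHostA K M ℓ).toRingHom (hesHostBG K M ℓ hℓ hℓ3).toRingHom
      (hesHostA K (M * p) ℓ).toRingHom (hesHostBG K (M * p) ℓ hℓ hℓ3).toRingHom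
      (hesHostBG K M p hp hp3).toRingHom (hesHostBmid K M p ℓ hp hp3).toRingHom
      (hesWinf R K h2 M) (hesWinf R K h2 (M * ℓ)) (hesW0 R K hbez₁ hp)
      ((hesW0 R K hbez₂ hp).comap
        ((hesLevelCast K (Nat.mul_right_comm M p ℓ) :
          ↥(hesE K (M * p * ℓ)) ≃ₐ[K] ↥(hesE K (M * ℓ * p))) :
          ↥(hesE K (M * p * ℓ)) →+* ↥(hesE K (M * ℓ * p)))) n c := by
  haveI : FiniteDimensional ↥K⟮jqNModC K 3⟯ ↥(hesE K (M * p)) := finite_hesE_adjoin_j K (M * p)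
  haveI : FiniteDimensional ↥K⟮jqNModC K 3⟯ ↥(hesE K (M * ℓ * p)) :=
    finite_hesE_adjoin_j K (M * ℓ * p)
  have h₁' := SSModelHesG.ssModel R K h₁
  have h₂' := SSModelHesG.ssModel R K h₂
  refine
    { hAP := hesHost_comm_AB K M p ℓ hp hp3
      hBP := hesHost_comm_BB K M p ℓ hp hp3 hℓ hℓ3
      comap_P := h₁'.comap_B_zero
      comap_P' := ?_
      comap_A := hesW0_comap_hesLevelCast_comap_hesHostA R K h₁ h₂
      comap_B := hesW0_comap_hesLevelCast_comap_hesHostB R K h₁ h₂ hπ hℓ hℓ3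
      comap_A₀ := ssModelHesG_comap_A_inf R K (M := M) (q := ℓ) h2
      comap_B₀ := ssModelHesG_comap_B_inf R K (M := M) h2 hℓ hℓ3
      res := h₁'.res_zero
      finA₀ := ?_
      degA₀ := hdeg₀
      finA := ?_
      degA := hdeg
      indep := hc }
  · rw [ValuationSubring.comap_comap, hesLevelCast_comp_hesHostBmid K M p ℓ hp hp3]
    exact h₂'.comap_B_zero
  · letI := (hesHostA K M ℓ).toRingHom.toAlgebra
    exact Module.finite_of_finrank_pos (by rw [hdeg₀]; exact hn)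
  · letI := (hesHostA K (M * p) ℓ).toRingHom.toAlgebra
    exact Module.finite_of_finrank_pos (by rw [hdeg]; exact hn)

end Hes

end

end Fermat.Agent.ML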