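/-
ML (S59) — helper6 — **Hesse-host port** of `Fermat.Agent.MP.HECKERS0_helper4_Delta`.
-/
import Mathlib
import Fermat.Agent.MP.HECKERS0_helper4_Delta
import Fermat.Agent.ML.HES_helper6_S0Three
import Fermat.Agent.ML.HES_helper6_BaseIface

set_option autoImplicit false
set_option linter.unusedSectionVars false
set_option linter.unusedVariables false
set_option linter.style.haveILetI false
set_option synthInstance.maxHeartbeats 200000

open Polynomial ModularCurve IntermediateField IsLocalRing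

namespace Fermat.Agent.ML

open Fermat.Agent.MP

open Fermat.Agent.JA Fermat.Agent.Igusa Fermat.Agent.SS Fermat.Agent.NP

open scoped Fermat.Agent.JA.Host

noncomputable section

section Hes

variable (R : Type*) [CommRing R] [IsDomain R] [IsDiscreteValuationRing R] [CharZero R]
  [DecidableEq R]
  (K : Type*) [Field K] [Algebra R K] [IsFractionRing R K] [Algebra ℚ K] [Algebra K ℂ]
  {M p ℓ : ℕ} [NeZero M] [NeZero p] [NeZero ℓ] [NeZero (M * p)] [NeZero (M * ℓ)]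
  [NeZero (M * p * ℓ)] [NeZero (M * ℓ * p)] {x₁ y₁ x₂ y₂ : ℤ} {π : R}

/-- the two `ℓ`-degeneracy maps agree on the constants of the base ring. -/
theorem hesHostB_algebraMap_base₄ (hℓ : ℓ.Prime) (hℓ3 : ℓ ≠ 3) (r : R) :
    (hesHostBG K (M * p) ℓ hℓ hℓ3).toRingHom (algebraMap R ↥(hesE K (M * p)) r) =
      (hesHostA K (M * p) ℓ).toRingHom (algebraMap R ↥(hesE K (M * p)) r) := by
  rw [IsScalarTower.algebraMap_apply R K ↥(hesE K (M * p))]
  simp only [AlgHom.toRingHom_eq_coe, RingHom.coe_coe, AlgHom.commutes]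

set_option maxHeartbeats 1600000 in
/-- **[DELTA] on the Hesse hosts, generic base.** -/
theorem hesDelta_of_models [IsAlgClosed (ResidueField R)] {h2 : IsUnit (3 : R)}
    {hbez₁ : (p : ℤ) * x₁ + M * y₁ = 1}
    {hbez₂ : (p : ℤ) * x₂ + ((M * ℓ : ℕ) : ℤ) * y₂ = 1} {hp : p.Prime} {hp3 : p ≠ 3}
    {ω : R} (h₁ : SSModelHesG R K (M := M) (q := p) π h2 ω hbez₁ hp hp3)
    {ω : R} (h₂ : SSModelHesG R K (M := M * ℓ) (q := p) π h2 ω hbez₂ hp hp3)
    (hπ : Irreducible π) (hℓ : ℓ.Prime) (hℓ3 : ℓ ≠ 3)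
    (hdeg₀ : letI := (hesHostA K M ℓ).toRingHom.toAlgebra;
      Module.finrank ↥(hesE K M) ↥(hesE K (M * ℓ)) = ℓ + 1)
    (hdeg : letI := (hesHostA K (M * p) ℓ).toRingHom.toAlgebra;
      Module.finrank ↥(hesE K (M * p)) ↥(hesE K (M * p * ℓ)) = ℓ + 1)
    (c : Fin (ℓ + 1) → ↥(hesE K (M * ℓ)))
    (hc : letI := (hesHostA K M ℓ).toRingHom.toAlgebra;
      ResIndep (hesWinf R K h2 M) (hesWinf R K h2 (M * ℓ)) c)
    {a : ℤ} (hna : ¬ a ≡ (ℓ : ℤ) + 1 [ZMOD (p : ℤ)])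
    {f : ↥(hesE K (M * p))} (hf : f ≠ 0)
    (hrel : ∃ (c₀ : K) (u : ↥(hesE K (M * p))), c₀ ≠ 0 ∧ u ≠ 0 ∧
      hesHeckeP K (M * p) ℓ hℓ hℓ3 f = algebraMap K ↥(hesE K (M * p)) c₀ * f ^ a * u ^ p)
    {ainf a0 : ℤ}
    (hfinf : (hesWinf R K h2 (M * p)).valuation
      (f * (algebraMap R ↥(hesE K (M * p)) π ^ ainf)⁻¹) = 1)
    (hf0 : (hesW0 R K hbez₁ hp).valuation
      (f * (algebraMap R ↥(hesE K (M * p)) π ^ a0)⁻¹) = 1) :
    (p : ℤ) ∣ a0 - ainf := by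
  haveI : FiniteDimensional ↥K⟮jqNModC K 3⟯ ↥(hesE K (M * p)) := finite_hesE_adjoin_j K (M * p)
  have h₁' := SSModelHesG.ssModel R K h₁
  have hTinf := threeHyps_hesInf₄ R K h₁ hℓ hℓ3 (Nat.succ_pos ℓ) hdeg₀ hdeg c hc
  have hT0 := threeHyps_hesZero R K h₁ h₂ hπ hℓ hℓ3 (Nat.succ_pos ℓ) hdeg₀ hdeg c hc
  obtain ⟨c₀, u, hc₀, hu, hrel⟩ := hrel
  -- `p = ε π ^ e₁`
  have hp0' : ((p : ℕ) : R) ≠ 0 := Nat.cast_ne_zero.mpr hp.ne_zero
  obtain ⟨e₁, ε, hpe⟩ := IsDiscreteValuationRing.eq_unit_mul_pow_irreducible hp0' hπ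
  have hpπ := h₁'.q_mem
  have he₁ : 0 < e₁ := by
    rcases Nat.eq_zero_or_pos e₁ with h0 | h0
    · exfalso
      rw [h0, pow_zero, mul_one] at hpe
      have hu' : IsUnit ((p : ℕ) : R) := hpe ▸ Units.isUnit _
      obtain ⟨z, hz⟩ := Ideal.mem_span_singleton.mp hpπ
      rw [hz] at hu'
      exact hπ.not_isUnit (isUnit_of_mul_isUnit_left hu')
    · exact h0
  set ϖ : ↥(hesE K (M * p)) := algebraMap R ↥(hesE K (M * p)) π with hϖdef
  have hϖ0 : ϖ ≠ 0 := SSModel_pi_ne_zero h₁'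
  have hϖinf : (hesWinf R K h2 (M * p)).valuation ϖ < 1 := SSModel.val_pi_lt_one_inf h₁'
  have hϖ0' : (hesW0 R K hbez₁ hp).valuation ϖ < 1 := SSModel.val_pi_lt_one_zero h₁'
  have hBϖ : (hesHostBG K (M * p) ℓ hℓ hℓ3).toRingHom ϖ = (hesHostA K (M * p) ℓ).toRingHom ϖ :=
    hesHostB_algebraMap_base₄ R K hℓ hℓ3 π
  -- the orders of `u`
  obtain ⟨binf, hubinf⟩ := SSModel.exists_zpow_val_eq_one_inf h₁' he₁ hpe hu
  obtain ⟨b0, hub0⟩ := SSModel.exists_zpow_val_eq_one_zero h₁' he₁ hpe hu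
  -- the constant
  obtain ⟨εc, γ, hcγ⟩ := exists_units_mul_zpow_of_fraction₄ (K := K) hπ hc₀
  have hcE : algebraMap K ↥(hesE K (M * p)) c₀ * ϖ ^ (-γ) =
      algebraMap R ↥(hesE K (M * p)) (εc : R) := by
    rw [hcγ, map_mul, map_zpow₀, ← IsScalarTower.algebraMap_apply R K ↥(hesE K (M * p)),
      ← IsScalarTower.algebraMap_apply R K ↥(hesE K (M * p)), ← hϖdef, mul_assoc,
      ← zpow_add₀ hϖ0, add_neg_cancel, zpow_zero, mul_one]
  have hcinf : (hesWinf R K h2 (M * p)).valuation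
      (algebraMap K ↥(hesE K (M * p)) c₀ * ϖ ^ (-γ)) = 1 := by
    rw [hcE]
    exact val_algebraMap_units_eq_one₄ _ (SSModel.algebraMap_R_mem_inf h₁') εc
  have hc0 : (hesW0 R K hbez₁ hp).valuation
      (algebraMap K ↥(hesE K (M * p)) c₀ * ϖ ^ (-γ)) = 1 := by
    rw [hcE]
    exact val_algebraMap_units_eq_one₄ _ (SSModel.algebraMap_R_mem_zero h₁') εc
  -- the shapes
  have hfinf' : (hesWinf R K h2 (M * p)).valuation (f * ϖ ^ (-ainf)) = 1 := by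
    rw [zpow_neg]; exact hfinf
  have hf0' : (hesW0 R K hbez₁ hp).valuation (f * ϖ ^ (-a0)) = 1 := by
    rw [zpow_neg]; exact hf0
  have huinf' : (hesWinf R K h2 (M * p)).valuation (u * ϖ ^ (-binf)) = 1 := by
    rw [zpow_neg]; exact hubinf
  have hu0' : (hesW0 R K hbez₁ hp).valuation (u * ϖ ^ (-b0)) = 1 := by
    rw [zpow_neg]; exact hub0
  have hTi := hTinf.hecke_val hBϖ hfinf'
  have hTz := hT0.hecke_val hBϖ hf0'
  have hrel' : (letI := (hesHostA K (M * p) ℓ).toRingHom.toAlgebra;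
      Algebra.norm ↥(hesE K (M * p)) ((hesHostBG K (M * p) ℓ hℓ hℓ3).toRingHom f)) =
      algebraMap K ↥(hesE K (M * p)) c₀ * f ^ a * u ^ p := hrel
  have key := hecker_delta_abstract (hesWinf R K h2 (M * p)) (hesW0 R K hbez₁ hp) hϖ0 hϖinf hϖ0'
    hrel' hfinf' hf0' hcinf hc0 huinf' hu0' hTi hTz
  refine hecker_dvd_of_delta hp (n := ℓ + 1) ?_ key
  rw [Nat.cast_add, Nat.cast_one]
  exact hna

end Hes

end

end Fermat.Agent.ML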