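/-
ML (S59) — helper6 — **Hesse-host port** of `Fermat.Agent.MP.ORD_helper1_RedHecke`.
-/
import Mathlib
import Fermat.Agent.MP.ORD_helper1_RedHecke
import Fermat.Agent.ML.HES_helper6_OrdDefs
import Fermat.Agent.ML.HES_helper6_S0Delta
import Fermat.Agent.ML.HES_helper6_HeckeBase

/-!
# Project MP40 — (C) [ORD] helper1: `hesRedHeckeP : HesRedHeckeP`

The host instantiation of [RED∞]: helper4's three-level datum of the sheet `∞`
(`threeHyps_hesInf₄`), helper3's abstract reduction of a Hecke relation along a sheet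
(`ThreeHyps.hecke_rel_red`), and helper8's compatibility of the reduction map of the good level with
the Hecke operator (`hesRhoBase_hesHeckeP`).
-/

set_option autoImplicit false
set_option linter.unusedSectionVars false
set_option linter.unusedVariables false
set_option linter.style.haveILetI false
set_option synthInstance.maxHeartbeats 400000

open HahnSeries IntermediateField AlgebraicCurve ModularCurve IsLocalRing

namespace Fermat.Agent.ML

open Fermat.Agent.MP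

open Fermat.Agent.JA Fermat.Agent.FF Fermat.Agent.SS Fermat.Agent.S35 Fermat.Agent.Igusa
  Fermat.Agent.NP Fermat.Agent.FG

open scoped Fermat.Agent.JA.Host

local notation "Ω" => AlgebraicClosure ℚ

noncomputable section

section Hes

variable (R : Type*) [CommRing R] [IsDomain R] [IsDiscreteValuationRing R] [CharZero R]
  [DecidableEq R]
  (K : Type*) [Field K] [Algebra R K] [IsFractionRing R K] [Algebra ℚ K] [Algebra K ℂ]
  {M p ℓ : ℕ} [NeZero M] [NeZero p] [NeZero ℓ] [NeZero (M * p)] [NeZero (M * ℓ)]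
  [NeZero (M * p * ℓ)] [NeZero (M * ℓ * p)] {x₁ y₁ : ℤ} {π : R}

/-- the inclusion of levels is the identity on the constants of the base ring. -/
theorem hesHostA_algebraMap_base₁ (r : R) :
    (hesHostA K M p).toRingHom (algebraMap R ↥(hesE K M) r) =
      algebraMap R ↥(hesE K (M * p)) r := by
  rw [IsScalarTower.algebraMap_apply R K ↥(hesE K M),
    IsScalarTower.algebraMap_apply R K ↥(hesE K (M * p))]
  simp only [AlgHom.toRingHom_eq_coe, RingHom.coe_coe, AlgHom.commutes]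

set_option maxHeartbeats 1600000 in
/-- **[RED∞] on the Hesse hosts, generic base**: a Hecke relation of level `M p` reduces along
the sheet `∞` to a congruence at the good level. -/
theorem hesRedHecke_of_model [IsAlgClosed (ResidueField R)] {h2 : IsUnit (3 : R)}
    {hbez₁ : (p : ℤ) * x₁ + M * y₁ = 1} {hp : p.Prime} {hp3 : p ≠ 3}
    {ω : R} (h₁ : SSModelHesG R K (M := M) (q := p) π h2 ω hbez₁ hp hp3)
    (hπ : Irreducible π) (hℓ : ℓ.Prime) (hℓ3 : ℓ ≠ 3)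
    (hdeg₀ : letI := (hesHostA K M ℓ).toRingHom.toAlgebra;
      Module.finrank ↥(hesE K M) ↥(hesE K (M * ℓ)) = ℓ + 1)
    (hdeg : letI := (hesHostA K (M * p) ℓ).toRingHom.toAlgebra;
      Module.finrank ↥(hesE K (M * p)) ↥(hesE K (M * p * ℓ)) = ℓ + 1)
    (c : Fin (ℓ + 1) → ↥(hesE K (M * ℓ)))
    (hc : letI := (hesHostA K M ℓ).toRingHom.toAlgebra;
      ResIndep (hesWinf R K h2 M) (hesWinf R K h2 (M * ℓ)) c)
    {a : ℤ} {d : ℕ} {f : ↥(hesE K (M * p))}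
    (hrel : ∃ (c₀ : K) (u : ↥(hesE K (M * p))), c₀ ≠ 0 ∧ u ≠ 0 ∧
      hesHeckeP K (M * p) ℓ hℓ hℓ3 f = algebraMap K ↥(hesE K (M * p)) c₀ * f ^ a * u ^ d)
    {ainf : ℤ} {x₀ : ↥(hesE K M)}
    (hfinf : (hesWinf R K h2 (M * p)).valuation
      (f * (algebraMap R ↥(hesE K (M * p)) π ^ ainf)⁻¹) = 1)
    (hlink : (hesWinf R K h2 (M * p)).valuation
      (f * (algebraMap R ↥(hesE K (M * p)) π ^ ainf)⁻¹ - hesHostA K M p x₀) < 1) :
    (hesWinf R K h2 M).valuation x₀ = 1 ∧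
    ∃ (ε : Rˣ) (u₀ : ↥(hesE K M)), (hesWinf R K h2 M).valuation u₀ = 1 ∧
      (hesWinf R K h2 M).valuation
        (hesHeckeP K M ℓ hℓ hℓ3 x₀ - algebraMap R ↥(hesE K M) (ε : R) * x₀ ^ a * u₀ ^ d) < 1 := by
  haveI : FiniteDimensional ↥K⟮jqNModC K 3⟯ ↥(hesE K (M * p)) := finite_hesE_adjoin_j K (M * p)
  have h₁' := SSModelHesG.ssModel R K h₁
  have hT := threeHyps_hesInf₄ R K h₁ hℓ hℓ3 (Nat.succ_pos ℓ) hdeg₀ hdeg c hc
  obtain ⟨c₀, u, hc₀, hu, hrel⟩ := hrel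
  -- `p = ε π ^ e₁`
  have hp0' : ((p : ℕ) : R) ≠ 0 := Nat.cast_ne_zero.mpr hp.ne_zero
  obtain ⟨e₁, ε, hpe⟩ := IsDiscreteValuationRing.eq_unit_mul_pow_irreducible hp0' hπ
  have hpπ := h₁'.q_mem
  have he₁ : 0 < e₁ := by
    rcases Nat.eq_zero_or_pos e₁ with h0 | h0
    · exfalso
      rw [h0, pow_zero, mul_one] at hpe
      have hu' : IsUnit ((p : ℕ) : R) := hpe ▸ Units.isUnit _
      obtain ⟨z, hz⟩ := Ideal.mem_span_singleton.mp hpπ
      rw [hz] at hu'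
      exact hπ.not_isUnit (isUnit_of_mul_isUnit_left hu')
    · exact h0
  set ϖ : ↥(hesE K (M * p)) := algebraMap R ↥(hesE K (M * p)) π with hϖdef
  have hϖ0 : ϖ ≠ 0 := SSModel_pi_ne_zero h₁'
  have hϖinf : (hesWinf R K h2 (M * p)).valuation ϖ < 1 := SSModel.val_pi_lt_one_inf h₁'
  have hBϖ : (hesHostBG K (M * p) ℓ hℓ hℓ3).toRingHom ϖ = (hesHostA K (M * p) ℓ).toRingHom ϖ :=
    hesHostB_algebraMap_base₄ R K hℓ hℓ3 π
  have hunif : ∀ x : ↥(hesE K (M * p)), x ≠ 0 →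
      ∃ k : ℤ, (hesWinf R K h2 (M * p)).valuation (x * ϖ ^ (-k)) = 1 := by
    intro x hx
    obtain ⟨k, hk⟩ := SSModel.exists_zpow_val_eq_one_inf h₁' he₁ hpe hx
    exact ⟨k, by rw [zpow_neg]; exact hk⟩
  -- the constant
  obtain ⟨εc, γ, hcγ⟩ := exists_units_mul_zpow_of_fraction₄ (K := K) hπ hc₀
  have hc₁ : (hesWinf R K h2 M).valuation (algebraMap R ↥(hesE K M) (εc : R)) = 1 :=
    val_algebraMap_units_eq_one₄ _ (algebraMap_mem_hesWinf R K h2 M) εc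
  have hfinf' : (hesWinf R K h2 (M * p)).valuation (f * ϖ ^ (-ainf)) = 1 := by
    rw [zpow_neg]; exact hfinf
  have hlink' : (hesWinf R K h2 (M * p)).valuation
      (f * ϖ ^ (-ainf) - (hesHostA K M p).toRingHom x₀) < 1 := by
    rw [zpow_neg]; exact hlink
  have hrel' : (letI := (hesHostA K (M * p) ℓ).toRingHom.toAlgebra;
      Algebra.norm ↥(hesE K (M * p)) ((hesHostBG K (M * p) ℓ hℓ hℓ3).toRingHom f)) =
      ((hesHostA K M p).toRingHom (algebraMap R ↥(hesE K M) (εc : R)) * ϖ ^ γ) * f ^ a * u ^ d := by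
    rw [hesHostA_algebraMap_base₁ R K (εc : R)]
    have e : algebraMap K ↥(hesE K (M * p)) c₀ =
        algebraMap R ↥(hesE K (M * p)) (εc : R) * ϖ ^ γ := by
      rw [hcγ, map_mul, map_zpow₀, ← IsScalarTower.algebraMap_apply R K ↥(hesE K (M * p)),
        ← IsScalarTower.algebraMap_apply R K ↥(hesE K (M * p))]
    rw [← e]
    exact hrel
  have hPx₀ : (hesWinf R K h2 (M * p)).valuation ((hesHostA K M p).toRingHom x₀) = 1 :=
    redinf_val_eq_one_of_sub_lt _ hfinf' hlink'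
  have hx₀u : (hesWinf R K h2 M).valuation x₀ = 1 := (hT.val_P_eq_one_iff x₀).mp hPx₀
  obtain ⟨u₀, hu₀, hcong⟩ := hT.hecke_rel_red hϖ0 hϖinf hBϖ hunif hu hc₁ hrel' hfinf' hlink'
  exact ⟨hx₀u, εc, u₀, hu₀, hcong⟩

end Hes

end

set_option maxHeartbeats 3200000 in
/-- **the host instantiation of [RED∞].** -/
theorem hesRedHeckeP : HesRedHeckeP := by
  intro M _ p _ _ _ hp hp3 hpM A hA K' _ hK' ϖ hϖ h2 ℓ _ _ _ hℓ hℓ3 hℓMp ρ hρapp b d f hf hrel
    ainf x₀ hx₀ hfinf hlink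
  classical
  haveI : CharZero ↥(baseRing A K') := charZero_valuationSubring_of_algebraRat _
  letI := baseToComplex K'
  haveI : IsAlgClosed (ResidueField ↥(baseRing A K')) := hK'.isAlgClosed_residueField hA
  have hℓM : ¬ ℓ ∣ M := fun h => hℓMp (Dvd.dvd.mul_right h p)
  have hℓp : ¬ ℓ ∣ p := fun h => hℓMp (Dvd.dvd.mul_left h M)
  have hpℓ : ¬ p ∣ ℓ := by
    intro h
    rcases (Nat.dvd_prime hℓ).mp h with h1 | h1
    · exact hp.one_lt.ne' h1
    · exact hℓp (h1 ▸ dvd_rfl)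
  have hpMℓ : ¬ p ∣ M * ℓ := by
    intro h
    rcases hp.dvd_mul.mp h with h1 | h1
    · exact hpM h1
    · exact hpℓ h1
  haveI : NeZero (M * ℓ * p) := ⟨Nat.mul_ne_zero (NeZero.ne (M * ℓ)) hp.ne_zero⟩
  obtain ⟨x, y, hbez⟩ := exists_bezout_of_prime_of_not_dvd hp hpM
  have hpϖ := natCast_mem_span_uniformizer_baseRing hA K' hϖ
  obtain ⟨ω₁, -, h₁⟩ := hesModelAtBasesG M p hp hp3 hpM A hA K' hK' ϖ hϖ h2 x y hbez
  have hdeg₀ := finrank_hesHostA_base M ℓ hℓ hℓ3 hℓM K'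
  have hdeg := finrank_hesHostA_base (M * p) ℓ hℓ hℓ3 hℓMp K'
  obtain ⟨c, hc⟩ := exists_resIndep_hesWinf_base hA M hp3 ℓ K' h2 hK' hℓ hℓ3 hℓM hpMℓ
  obtain ⟨hx₀u, ε, u₀, hu₀, hcong⟩ := hesRedHecke_of_model ↥(baseRing A K') ↥K' h₁ hϖ hℓ hℓ3
    hdeg₀ hdeg c hc hrel hfinf hlink
  -- the reduction map is `hesRhoBase`
  have hρeq : ρ = hesRhoBase hA M hp3 K' h2 := by
    apply RingHom.ext
    rintro ⟨z, hz⟩
    exact hρapp z hz (hesBC_mem_hesWE_of_mem_hesWinf hA M hp3 K' h2 z hz)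
  subst hρeq
  set V := hesWinf ↥(baseRing A K') ↥K' h2 M with hV
  have hu₀m : u₀ ∈ V := redinf_mem_of_val_eq_one V hu₀
  have hεm : algebraMap ↥(baseRing A K') ↥(hesE ↥K' M) (ε : ↥(baseRing A K')) ∈ V :=
    algebraMap_mem_hesWinf ↥(baseRing A K') ↥K' h2 M _
  have hxb : x₀ ^ b ∈ V := redinf_mem_of_val_eq_one V (redinf_val_zpow_eq_one V hx₀u b)
  obtain ⟨hN, hTρ⟩ := hesRhoBase_hesHeckeP hA M hp3 ℓ K' h2 hK' hℓ hℓ3 hℓM hpM hpMℓ x₀ hx₀
  have hrhsm : algebraMap ↥(baseRing A K') ↥(hesE ↥K' M) (ε : ↥(baseRing A K')) * x₀ ^ b *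
      u₀ ^ d ∈ V := V.mul_mem _ _ (V.mul_mem _ _ hεm hxb) (pow_mem hu₀m d)
  have hdiff : hesRhoBase hA M hp3 K' h2 ⟨hesHeckeP ↥K' M ℓ hℓ hℓ3 x₀, hN⟩ =
      hesRhoBase hA M hp3 K' h2
        ⟨algebraMap ↥(baseRing A K') ↥(hesE ↥K' M) (ε : ↥(baseRing A K')) * x₀ ^ b * u₀ ^ d,
          hrhsm⟩ := by
    rw [← sub_eq_zero, ← map_sub, hesRhoBase_eq_zero_iff]
    exact hcong
  have hsplit : hesRhoBase hA M hp3 K' h2
        ⟨algebraMap ↥(baseRing A K') ↥(hesE ↥K' M) (ε : ↥(baseRing A K')) * x₀ ^ b * u₀ ^ d,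
          hrhsm⟩ =
      hesRhoBase hA M hp3 K' h2 ⟨_, hεm⟩ * hesRhoBase hA M hp3 K' h2 ⟨x₀, hx₀⟩ ^ b *
        hesRhoBase hA M hp3 K' h2 ⟨u₀, hu₀m⟩ ^ d := by
    rw [← redinf_ρ_zpow (hesRhoBase hA M hp3 K' h2) hx₀u b, ← map_pow, ← map_mul, ← map_mul]
    rfl
  refine ⟨baseResidueMap A K' (residue ↥(baseRing A K') (ε : ↥(baseRing A K'))),
    hesRhoBase hA M hp3 K' h2 ⟨u₀, hu₀m⟩, ?_, ?_, ?_⟩
  · rw [Ne, map_eq_zero_iff _ (baseResidueMap_injective A K'), residue_eq_zero_iff]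
    intro hmem
    exact (IsLocalRing.mem_maximalIdeal _).mp hmem ε.isUnit
  · intro h0
    rw [hesRhoBase_eq_zero_iff] at h0
    change V.valuation u₀ < 1 at h0
    rw [hu₀] at h0
    exact lt_irrefl _ h0
  · rw [← hTρ, hdiff, hsplit, hesRhoBase_algebraMap hA M hp3 K' h2 (ε : ↥(baseRing A K')) hεm]

end Fermat.Agent.ML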