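/-
ML (S59) — helper6 — **Hesse-host port** of `Fermat.Agent.RB.MAZ_helper6_InfQ`.
-/
import Mathlib
import Fermat.Agent.RB.MAZ_helper6_InfQ
import Fermat.Agent.ML.HES_helper6_Parts
import Fermat.Agent.ML.HES_helper6_RedHecke
import Fermat.Agent.ML.HES_helper6_RhoBaseP
import Fermat.Agent.FG.EDEF_helper6_PsiBijHes

set_option autoImplicit false
set_option linter.unusedSectionVars false
set_option linter.unusedVariables false
set_option linter.style.haveILetI false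
set_option synthInstance.maxHeartbeats 400000

open HahnSeries IntermediateField AlgebraicCurve ModularCurve IsLocalRing

namespace Fermat.Agent.ML

open Fermat.Agent.RB

open Fermat.Agent.JA Fermat.Agent.FF Fermat.Agent.SS Fermat.Agent.S35 Fermat.Agent.S36
  Fermat.Agent.MP Fermat.Agent.NP Fermat.Agent.GR Fermat.Agent.FG Fermat.Agent.X0N
  Fermat.Agent.Igusa

open scoped Fermat.Agent.JA.Host

local notation "Ω" => AlgebraicClosure ℚ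

section CaseOne

variable {q : ℕ} [Fact q.Prime] {A : ValuationSubring Ω} (hA : A.LiesOverPrime q)
  (M : ℕ) [NeZero M] {K' : IntermediateField ℚ Ω}

set_option maxHeartbeats 1600000 in
include hA in
/-- **Case 1**: if the reduction of `w ∈ V_M` is an `m`-th power in `Ẽ`, then `w` is congruent to
an `m`-th power of `V_M`. -/
theorem exists_powQ_approx_of_hesρ_eq_pow (hqM : ¬ q ∣ M) (hK' : IsBase q K') (hq3 : q ≠ 3)
    [IsDiscreteValuationRing ↥(baseRing A K')] (h2 : IsUnit (3 : ↥(baseRing A K')))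
    (w : ↥(hesE ↥K' M)) (hw : w ∈ hesWinf ↥(baseRing A K') ↥K' h2 M)
    (hW : hesBC M K' w ∈ hesWE hA M hq3) (m : ℕ) (g : hesEt hA M hq3)
    (hg : hesρ hA M hq3 ⟨hesBC M K' w, hW⟩ = g ^ m) :
    ∃ b ∈ hesWinf ↥(baseRing A K') ↥K' h2 M,
      (hesWinf ↥(baseRing A K') ↥K' h2 M).valuation (w - b ^ m) < 1 := by
  classical
  haveI : CharZero ↥(baseRing A K') := charZero_valuationSubring_of_algebraRat _
  obtain ⟨ϖ, hϖ⟩ := IsDiscreteValuationRing.exists_irreducible ↥(baseRing A K')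
  obtain ⟨ω, -, hgeo⟩ := geoHyps_hesE_baseRing hA M hqM hK' hq3 hϖ
  obtain ⟨𝒢t, h𝒢t⟩ := exists_isGaussAt ϖ hϖ _ hgeo.transcendental hgeo.adjoin_eq_top
  haveI : IsLocalRing ↥(hesW₁ M 𝒢t) := hgeo.isLocalRing 𝒢t h𝒢t
  obtain ⟨y, rfl⟩ := hesPsi_surjective hA M hqM hK' hq3 hϖ 𝒢t h𝒢t g
  obtain ⟨b, rfl⟩ := residue_surjective y
  have hint : ∀ x : ↥(hesE ↥K' M), IsIntegral ↥𝒢t x ↔ x ∈ hesWinf ↥(baseRing A K') ↥K' h2 M :=
    fun x => isIntegral_hesE_iff_mem_gaussInt hA M hqM hK' hq3 hϖ 𝒢t h𝒢t x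
  have hwint : IsIntegral ↥𝒢t w := (hint w).2 hw
  have e1 := hesPsi_residue_mk hA M hqM hK' hq3 hϖ 𝒢t h𝒢t ⟨w, hwint⟩ hW
  obtain ⟨bE, hbE⟩ : ∃ bE : ↥(hesE ↥K' M), bE = (b : ↥(hesE ↥K' M)) := ⟨_, rfl⟩
  have hbint : IsIntegral ↥𝒢t bE := hbE ▸ b.2
  have hbV : bE ∈ hesWinf ↥(baseRing A K') ↥K' h2 M := (hint _).1 hbint
  have hbW : hesBC M K' bE ∈ hesWE hA M hq3 := (hesBC_mem_hesWE_iff hA M K' hq3 bE).2 hbV
  have e_b : hesPsi hA M hqM hK' hq3 hϖ 𝒢t h𝒢t (residue _ b) =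
      hesρ hA M hq3 ⟨hesBC M K' bE, hbW⟩ := by
    subst hbE
    exact hesPsi_residue_mk hA M hqM hK' hq3 hϖ 𝒢t h𝒢t b hbW
  have hbpint : IsIntegral ↥𝒢t (bE ^ m) := hbint.pow m
  have hbpW : hesBC M K' (bE ^ m) ∈ hesWE hA M hq3 := by
    rw [map_pow]
    exact pow_mem hbW m
  have e_bp := hesPsi_residue_mk hA M hqM hK' hq3 hϖ 𝒢t h𝒢t ⟨bE ^ m, hbpint⟩ hbpW
  have e_pow : hesρ hA M hq3 ⟨hesBC M K' (bE ^ m), hbpW⟩ =
      hesρ hA M hq3 ⟨hesBC M K' bE, hbW⟩ ^ m := by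
    rw [← map_pow]
    congr 1
    exact Subtype.ext (map_pow _ _ _)
  have hg' : hesPsi hA M hqM hK' hq3 hϖ 𝒢t h𝒢t (residue _ (⟨w, hwint⟩ : ↥(hesW₁ M 𝒢t))) =
      hesPsi hA M hqM hK' hq3 hϖ 𝒢t h𝒢t (residue _ (⟨bE ^ m, hbpint⟩ : ↥(hesW₁ M 𝒢t))) :=
    e1.trans (hg.trans ((congrArg (fun z => z ^ m) e_b).trans (e_pow.symm.trans e_bp.symm)))
  have e2 := hesPsi_injective hA M hqM hK' hq3 hϖ 𝒢t h𝒢t hg'
  have e3 : ((⟨w, hwint⟩ : ↥(hesW₁ M 𝒢t)) - ⟨bE ^ m, hbpint⟩) ∈ maximalIdeal ↥(hesW₁ M 𝒢t) :=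
    Ideal.Quotient.eq.1 e2
  refine ⟨bE, hbV, ?_⟩
  by_contra hge
  rw [not_lt] at hge
  obtain ⟨z, hz⟩ : ∃ z : ↥(hesE ↥K' M), z = w - bE ^ m := ⟨_, rfl⟩
  rw [← hz] at hge
  have hzmem : z ∈ hesWinf ↥(baseRing A K') ↥K' h2 M := by
    rw [hz]
    exact sub_mem hw (pow_mem hbV m)
  have hz1 : (hesWinf ↥(baseRing A K') ↥K' h2 M).valuation z = 1 :=
    le_antisymm ((ValuationSubring.valuation_le_one_iff _ _).2 hzmem) hge
  have hz0 : z ≠ 0 := by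
    rintro h0
    rw [h0, map_zero] at hz1
    exact zero_ne_one hz1
  have hzinv : z⁻¹ ∈ hesWinf ↥(baseRing A K') ↥K' h2 M := by
    rw [← ValuationSubring.valuation_le_one_iff, map_inv₀, hz1, inv_one]
  have hzi : IsIntegral ↥𝒢t z⁻¹ := (hint _).2 hzinv
  have hunit : IsUnit ((⟨w, hwint⟩ : ↥(hesW₁ M 𝒢t)) - ⟨bE ^ m, hbpint⟩) := by
    refine IsUnit.of_mul_eq_one ⟨z⁻¹, hzi⟩ (Subtype.ext ?_)
    show (w - bE ^ m) * z⁻¹ = 1
    rw [← hz]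
    exact mul_inv_cancel₀ hz0
  exact (mem_maximalIdeal _).1 e3 hunit

end CaseOne

section Main

end Main

end Fermat.Agent.ML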