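/-
ML (S59) — helper6 — [MAZ-L]: **[HALF∞] for every odd `p`: `LegMazInfQO ⇐ LegMazOrdQO + LegRoldQO`**
(copy of `RB/MAZ_helper6_InfQ.legMazInfQ_of`; `5 ≤ p` was only passed on to the two inputs).
-/
import Mathlib
import Fermat.Agent.RB.MAZ_helper6_InfQ
import Fermat.Agent.ML.MAZ_helper6_PartsO
import Fermat.Agent.ML.MAZ_helper6_OrdQO

set_option autoImplicit false
set_option linter.unusedSectionVars false
set_option linter.unusedVariables false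
set_option linter.style.haveILetI false
set_option synthInstance.maxHeartbeats 400000

open HahnSeries IntermediateField AlgebraicCurve ModularCurve IsLocalRing

namespace Fermat.Agent.ML

open Fermat.Agent.JA Fermat.Agent.FF Fermat.Agent.SS Fermat.Agent.S35 Fermat.Agent.S36
  Fermat.Agent.MP Fermat.Agent.NP Fermat.Agent.GR Fermat.Agent.FG Fermat.Agent.X0N
  Fermat.Agent.Igusa Fermat.Agent.RB

open scoped Fermat.Agent.JA.Host

/-- `Ω = AlgebraicClosure ℚ`. -/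
local notation "Ω" => AlgebraicClosure ℚ

section Main

set_option maxHeartbeats 6400000 in
/-- **[HALF∞]** from [ORD-q] and [ROLD-q], every odd `p`. -/
theorem legMazInfQO_of (HO : LegMazOrdQO) (HR : LegRoldQO) : LegMazInfQO := by
  intro M _ q _ _ _ hq2 hqM p hp hp2 hpq hno3 A hA K₁ _ K' _ S a f₀ H ϖ hϖ h2
  classical
  have hq : q.Prime := Fact.out
  haveI : CharZero ↥(baseRing A K') := charZero_valuationSubring_of_algebraRat _
  obtain ⟨x, y, hbez⟩ := exists_bezout_of_prime_of_not_dvd hq hqM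
  letI := baseToComplex K'
  haveI : IsAlgClosed (ResidueField ↥(baseRing A K')) := H.base.isAlgClosed_residueField hA
  have hqϖ := natCast_mem_span_uniformizer_baseRing hA K' hϖ
  have hmodel : SSModelLeg ↥(baseRing A K') ↥K' ϖ h2 hbez hq hq2 :=
    ssModelLeg ↥(baseRing A K') ↥K' hϖ h2 hbez hq hq2 hqϖ
      (geoHyps_legE_baseRing hA M hqM H.base hq2 hϖ)
  haveI : FiniteDimensional ↥(↥K')⟮jqNModC ↥K' 2⟯ ↥(legE ↥K' (M * q)) :=
    finite_legE_adjoin_j ↥K' (M * q)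
  have h' := SSModelLeg.ssModel ↥(baseRing A K') ↥K' hmodel
  -- `q = ε ϖ ^ e₁`
  have hq0 : ((q : ℕ) : ↥(baseRing A K')) ≠ 0 := Nat.cast_ne_zero.mpr hq.ne_zero
  obtain ⟨e₁, ε, hqe⟩ := IsDiscreteValuationRing.eq_unit_mul_pow_irreducible hq0 hϖ
  have he₁ : 0 < e₁ := by
    rcases Nat.eq_zero_or_pos e₁ with h0 | h0
    · exfalso
      rw [h0, pow_zero, mul_one] at hqe
      have hu : IsUnit ((q : ℕ) : ↥(baseRing A K')) := hqe ▸ Units.isUnit _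
      obtain ⟨z, hz⟩ := Ideal.mem_span_singleton.mp hqϖ
      rw [hz] at hu
      exact hϖ.not_isUnit (isUnit_of_mul_isUnit_left hu)
    · exact h0
  -- the function on the host and its order along `W_∞`
  have hf : fullToLegE ↥K' (M * q) f₀ ≠ 0 :=
    (_root_.map_ne_zero (fullToLegE ↥K' (M * q))).mpr H.ne_zero
  obtain ⟨ainf, hfa⟩ := SSModel.exists_zpow_val_eq_one_inf h' he₁ hqe hf
  have hRN : ∀ r : ↥(baseRing A K'), algebraMap ↥(baseRing A K') ↥(legE ↥K' (M * q)) r =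
      algebraMap ↥K' ↥(legE ↥K' (M * q)) (algebraMap ↥(baseRing A K') ↥K' r) :=
    fun r => IsScalarTower.algebraMap_apply ↥(baseRing A K') ↥K' ↥(legE ↥K' (M * q)) r
  have hϖK : algebraMap ↥(baseRing A K') ↥K' ϖ ≠ 0 := by
    rw [Ne, map_eq_zero_iff _ (IsFractionRing.injective ↥(baseRing A K') ↥K')]
    exact hϖ.ne_zero
  obtain ⟨d, hd⟩ : ∃ d : ↥K', d = algebraMap ↥(baseRing A K') ↥K' ϖ ^ ainf := ⟨_, rfl⟩
  have hd0 : d ≠ 0 := hd ▸ zpow_ne_zero ainf hϖK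
  have hdE : algebraMap ↥K' ↥(legE ↥K' (M * q)) d =
      algebraMap ↥(baseRing A K') ↥(legE ↥K' (M * q)) ϖ ^ ainf := by
    rw [hd, map_zpow₀, ← hRN]
  -- the Gauss unit at the level of `F_{Mq}`
  obtain ⟨f₁, hf₁⟩ : ∃ f₁ : ↥(keyFq ↥K' (M * q)),
      f₁ = f₀ * (algebraMap ↥K' ↥(keyFq ↥K' (M * q)) d)⁻¹ := ⟨_, rfl⟩
  have hf₁E : fullToLegE ↥K' (M * q) f₁ = fullToLegE ↥K' (M * q) f₀ *
      (algebraMap ↥(baseRing A K') ↥(legE ↥K' (M * q)) ϖ ^ ainf)⁻¹ := by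
    rw [hf₁, map_mul, map_inv₀, AlgHom.commutes, hdE]
  have hf₁v : (keyFqWinf ↥(baseRing A K') ↥K' (M * q)).valuation f₁ = 1 := by
    have h1 := kp_comap_val_eq_one_iff (legWinf ↥(baseRing A K') ↥K' h2 (M * q))
      (fullToLegE ↥K' (M * q) : ↥(keyFq ↥K' (M * q)) →+* ↥(legE ↥K' (M * q)))
      (xport_legWinf_comap ↥(baseRing A K') ↥K' h2 (M * q)) f₁
    refine h1.mp ?_
    show (legWinf ↥(baseRing A K') ↥K' h2 (M * q)).valuation (fullToLegE ↥K' (M * q) f₁) = 1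
    rw [hf₁E]
    exact hfa
  have hf₁mem : f₁ ∈ keyFqWinf ↥(baseRing A K') ↥K' (M * q) := kp_mem_of_val_eq_one _ hf₁v
  obtain ⟨w₀, hw₀, hres⟩ := keyFqResInfP M q hqM A hA K' H.base f₁ hf₁mem
  -- on the host
  have hresE : (legWinf ↥(baseRing A K') ↥K' h2 (M * q)).valuation
      (fullToLegE ↥K' (M * q) f₀ *
        (algebraMap ↥(baseRing A K') ↥(legE ↥K' (M * q)) ϖ ^ ainf)⁻¹ -
        legHostA ↥K' M q (fullToLegE ↥K' M w₀)) < 1 := by
    have h1 := (comap_val_lt_one_iff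
      (fullToLegE ↥K' (M * q) : ↥(keyFq ↥K' (M * q)) →+* ↥(legE ↥K' (M * q)))
      (xport_legWinf_comap ↥(baseRing A K') ↥K' h2 (M * q)) (f₁ - keyFqA ↥K' M q w₀)).mpr hres
    have h2' : (fullToLegE ↥K' (M * q) : ↥(keyFq ↥K' (M * q)) →+* ↥(legE ↥K' (M * q)))
        (f₁ - keyFqA ↥K' M q w₀) = fullToLegE ↥K' (M * q) f₀ *
        (algebraMap ↥(baseRing A K') ↥(legE ↥K' (M * q)) ϖ ^ ainf)⁻¹ -
        legHostA ↥K' M q (fullToLegE ↥K' M w₀) := by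
      show fullToLegE ↥K' (M * q) (f₁ - keyFqA ↥K' M q w₀) = _
      rw [map_sub, hf₁E, xport_fullToLegE_keyFqA]
    rwa [h2'] at h1
  have hAWv : (legWinf ↥(baseRing A K') ↥K' h2 (M * q)).valuation
      (legHostA ↥K' M q (fullToLegE ↥K' M w₀)) = 1 := kp_val_eq_one_of_sub_lt _ hfa hresE
  have hWv : (legWinf ↥(baseRing A K') ↥K' h2 M).valuation (fullToLegE ↥K' M w₀) = 1 :=
    (kp_comap_val_eq_one_iff (legWinf ↥(baseRing A K') ↥K' h2 (M * q))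
      (legHostA ↥K' M q : ↥(legE ↥K' M) →+* ↥(legE ↥K' (M * q))) h'.comap_A_inf
      (fullToLegE ↥K' M w₀)).mp hAWv
  have hWmem : fullToLegE ↥K' M w₀ ∈ legWinf ↥(baseRing A K') ↥K' h2 M :=
    kp_mem_of_val_eq_one _ hWv
  have hBC : legBC M K' (fullToLegE ↥K' M w₀) = fullToLegE Ω M (keyFqBC M K' w₀) :=
    bcdeg_legBC_fullToLegE M K' w₀
  have hWE' : legBC M K' (fullToLegE ↥K' M w₀) ∈ legWE hA M hq2 :=
    (legBC_mem_legWE_iff hA M K' hq2 _).2 hWmem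
  have hWE : fullToLegE Ω M (keyFqBC M K' w₀) ∈ legWE hA M hq2 := hBC ▸ hWE'
  by_cases hcase : ∃ g : legEt hA M hq2,
      legρ hA M hq2 ⟨fullToLegE Ω M (keyFqBC M K' w₀), hWE⟩ = g ^ p
  · -- Case 1
    left
    obtain ⟨g, hg⟩ := hcase
    have hg' : legρ hA M hq2 ⟨legBC M K' (fullToLegE ↥K' M w₀), hWE'⟩ = g ^ p := by
      rw [← hg]
      congr 1
      exact Subtype.ext hBC
    obtain ⟨b, hb, hbv⟩ := exists_powQ_approx_of_legρ_eq_pow hA M hqM H.base hq2 h2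
      (fullToLegE ↥K' M w₀) hWmem hWE' p g hg'
    have hAb : (legWinf ↥(baseRing A K') ↥K' h2 (M * q)).valuation
        (legHostA ↥K' M q (fullToLegE ↥K' M w₀) - legHostA ↥K' M q b ^ p) < 1 := by
      have h1 := (comap_val_lt_one_iff
        (legHostA ↥K' M q : ↥(legE ↥K' M) →+* ↥(legE ↥K' (M * q))) h'.comap_A_inf
        (fullToLegE ↥K' M w₀ - b ^ p)).mpr hbv
      have h2' : (legHostA ↥K' M q : ↥(legE ↥K' M) →+* ↥(legE ↥K' (M * q)))
          (fullToLegE ↥K' M w₀ - b ^ p) =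
          legHostA ↥K' M q (fullToLegE ↥K' M w₀) - legHostA ↥K' M q b ^ p := by
        show legHostA ↥K' M q (fullToLegE ↥K' M w₀ - b ^ p) = _
        rw [map_sub, map_pow]
      rwa [h2'] at h1
    have hfin := kp_val_sub_lt_trans _ hresE hAb
    have hbp1 : (legWinf ↥(baseRing A K') ↥K' h2 M).valuation (b ^ p) = 1 :=
      kp_val_eq_one_of_sub_lt _ hWv hbv
    have hb1 : (legWinf ↥(baseRing A K') ↥K' h2 M).valuation b = 1 := by
      rw [map_pow] at hbp1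
      exact (pow_eq_one_iff_of_nonneg zero_le hp.ne_zero).mp hbp1
    exact ⟨ainf, b, hb1, hfin⟩
  · -- Case 2
    right
    obtain ⟨ρ, res, hres', hρ, hρR, hρapp⟩ := legRhoBaseP M q hq2 hqM A hA K' H.base h2
    refine HR M q hq2 hqM p hp hp2 hpq hno3 A hA S a
      (fun ℓ hℓ hℓM => H.bad ℓ hℓ (dvd_mul_of_dvd_left hℓM q))
      (H.bad q hq (dvd_mul_left q M)) H.pS H.twoS (keyFqBC M K' w₀) hWE hcase
      (fun Q => HO M q hq2 hqM p hp hp2 hpq A hA K₁ K' S a f₀ H ϖ hϖ h2 ainf w₀ hWv hresE hWE Q)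
      ?_
    intro ℓ hℓ hℓ2 hℓS
    haveI : NeZero ℓ := ⟨hℓ.ne_zero⟩
    haveI : NeZero (M * ℓ) := ⟨Nat.mul_ne_zero (NeZero.ne M) hℓ.ne_zero⟩
    haveI : NeZero (M * q * ℓ) := ⟨Nat.mul_ne_zero (NeZero.ne (M * q)) hℓ.ne_zero⟩
    have hℓMq : ¬ ℓ ∣ M * q := fun h => hℓS (H.bad ℓ hℓ h)
    obtain ⟨cH, uH, hcH, huH, hrel⟩ := H.hecke ℓ hℓ hℓS
    have hhost : legHeckeP ↥K' (M * q) ℓ hℓ hℓ2 (fullToLegE ↥K' (M * q) f₀) =
        algebraMap ↥K' ↥(legE ↥K' (M * q)) cH * fullToLegE ↥K' (M * q) f₀ ^ (a ℓ) *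
          fullToLegE ↥K' (M * q) uH ^ p := by
      rw [legHeckeP_fullToLegE_base (M * q) ℓ hℓ hℓ2 hℓMq K' f₀, hrel, map_mul, map_mul,
        map_zpow₀, map_pow, AlgHom.commutes]
    obtain ⟨c, u, hc, hu, hT⟩ := legRedHeckeP M q hq hq2 hqM A hA K' H.base ϖ hϖ h2 ℓ hℓ hℓ2 hℓMq
      ρ hρapp (a ℓ) p (fullToLegE ↥K' (M * q) f₀) hf
      ⟨cH, fullToLegE ↥K' (M * q) uH, hcH,
        (_root_.map_ne_zero (fullToLegE ↥K' (M * q))).mpr huH, hhost⟩ ainf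
      (fullToLegE ↥K' M w₀) hWmem hfa hresE
    have hρw : ρ ⟨fullToLegE ↥K' M w₀, hWmem⟩ =
        legρ hA M hq2 ⟨fullToLegE Ω M (keyFqBC M K' w₀), hWE⟩ := by
      rw [hρapp _ hWmem hWE']
      congr 1
      exact Subtype.ext hBC
    rw [hρw] at hT
    exact ⟨c, u, hc, hu, hT⟩

end Main

end Fermat.Agent.ML
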