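/-
ML (S59) — helper6 — **Hesse-host port** of `Fermat.Agent.ML.MAZ_helper6_InfQE`.
-/
import Mathlib
import Fermat.Agent.ML.MAZ_helper6_InfQE
import Fermat.Agent.ML.IFACE_helper6_MazHesE
import Fermat.Agent.ML.HES_helper6_OrdQ
import Fermat.Agent.ML.HES_helper6_InfCase1
import Fermat.Agent.ML.HES_helper6_RedHecke

set_option autoImplicit false
set_option linter.unusedSectionVars false
set_option linter.unusedVariables false
set_option linter.style.haveILetI false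
set_option synthInstance.maxHeartbeats 400000

open HahnSeries IntermediateField AlgebraicCurve ModularCurve IsLocalRing

namespace Fermat.Agent.ML

open Fermat.Agent.JA Fermat.Agent.FF Fermat.Agent.SS Fermat.Agent.S35 Fermat.Agent.S36
  Fermat.Agent.MP Fermat.Agent.NP Fermat.Agent.GR Fermat.Agent.FG Fermat.Agent.X0N
  Fermat.Agent.Igusa Fermat.Agent.RB

open scoped Fermat.Agent.JA.Host

local notation "Ω" => AlgebraicClosure ℚ

section Main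

set_option maxHeartbeats 6400000 in
/-- **[HALF∞]** from [ORD-q] and [ROLD-q], every odd `p`. -/
theorem hesMazInfQE_of (HO : HesMazOrdQO) (HR : HesRoldQE) : HesMazInfQE := by
  intro M _ q _ _ _ hq3 hqM p hp hp2 hpq hno3 A hA K₁ _ K' _ S a f₀ H ϖ hϖ h2
  classical
  have hq : q.Prime := Fact.out
  haveI : CharZero ↥(baseRing A K') := charZero_valuationSubring_of_algebraRat _
  obtain ⟨x, y, hbez⟩ := exists_bezout_of_prime_of_not_dvd hq hqM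
  letI := baseToComplex K'
  haveI : IsAlgClosed (ResidueField ↥(baseRing A K')) := H.base.isAlgClosed_residueField hA
  have hqϖ := natCast_mem_span_uniformizer_baseRing hA K' hϖ
  obtain ⟨ω, -, hmodel⟩ := hesModelAtBasesG M q hq hq3 hqM A hA K' H.base ϖ hϖ h2 x y hbez
  haveI : FiniteDimensional ↥(↥K')⟮jqNModC ↥K' 3⟯ ↥(hesE ↥K' (M * q)) :=
    finite_hesE_adjoin_j ↥K' (M * q)
  have h' := SSModelHesG.ssModel ↥(baseRing A K') ↥K' hmodel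
  -- `q = ε ϖ ^ e₁`
  have hq0 : ((q : ℕ) : ↥(baseRing A K')) ≠ 0 := Nat.cast_ne_zero.mpr hq.ne_zero
  obtain ⟨e₁, ε, hqe⟩ := IsDiscreteValuationRing.eq_unit_mul_pow_irreducible hq0 hϖ
  have he₁ : 0 < e₁ := by
    rcases Nat.eq_zero_or_pos e₁ with h0 | h0
    · exfalso
      rw [h0, pow_zero, mul_one] at hqe
      have hu : IsUnit ((q : ℕ) : ↥(baseRing A K')) := hqe ▸ Units.isUnit _
      obtain ⟨z, hz⟩ := Ideal.mem_span_singleton.mp hqϖ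
      rw [hz] at hu
      exact hϖ.not_isUnit (isUnit_of_mul_isUnit_left hu)
    · exact h0
  -- the function on the host and its order along `W_∞`
  have hf : fullToHesE ↥K' (M * q) f₀ ≠ 0 :=
    (_root_.map_ne_zero (fullToHesE ↥K' (M * q))).mpr H.ne_zero
  obtain ⟨ainf, hfa⟩ := SSModel.exists_zpow_val_eq_one_inf h' he₁ hqe hf
  have hRN : ∀ r : ↥(baseRing A K'), algebraMap ↥(baseRing A K') ↥(hesE ↥K' (M * q)) r =
      algebraMap ↥K' ↥(hesE ↥K' (M * q)) (algebraMap ↥(baseRing A K') ↥K' r) :=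
    fun r => IsScalarTower.algebraMap_apply ↥(baseRing A K') ↥K' ↥(hesE ↥K' (M * q)) r
  have hϖK : algebraMap ↥(baseRing A K') ↥K' ϖ ≠ 0 := by
    rw [Ne, map_eq_zero_iff _ (IsFractionRing.injective ↥(baseRing A K') ↥K')]
    exact hϖ.ne_zero
  obtain ⟨d, hd⟩ : ∃ d : ↥K', d = algebraMap ↥(baseRing A K') ↥K' ϖ ^ ainf := ⟨_, rfl⟩
  have hd0 : d ≠ 0 := hd ▸ zpow_ne_zero ainf hϖK
  have hdE : algebraMap ↥K' ↥(hesE ↥K' (M * q)) d =
      algebraMap ↥(baseRing A K') ↥(hesE ↥K' (M * q)) ϖ ^ ainf := by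
    rw [hd, map_zpow₀, ← hRN]
  -- the Gauss unit at the level of `F_{Mq}`
  obtain ⟨f₁, hf₁⟩ : ∃ f₁ : ↥(keyFq ↥K' (M * q)),
      f₁ = f₀ * (algebraMap ↥K' ↥(keyFq ↥K' (M * q)) d)⁻¹ := ⟨_, rfl⟩
  have hf₁E : fullToHesE ↥K' (M * q) f₁ = fullToHesE ↥K' (M * q) f₀ *
      (algebraMap ↥(baseRing A K') ↥(hesE ↥K' (M * q)) ϖ ^ ainf)⁻¹ := by
    rw [hf₁, map_mul, map_inv₀, AlgHom.commutes, hdE]
  have hf₁v : (keyFqWinf ↥(baseRing A K') ↥K' (M * q)).valuation f₁ = 1 := by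
    have h1 := kp_comap_val_eq_one_iff (hesWinf ↥(baseRing A K') ↥K' h2 (M * q))
      (fullToHesE ↥K' (M * q) : ↥(keyFq ↥K' (M * q)) →+* ↥(hesE ↥K' (M * q)))
      (xport_hesWinf_comap ↥(baseRing A K') ↥K' h2 (M * q)) f₁
    refine h1.mp ?_
    show (hesWinf ↥(baseRing A K') ↥K' h2 (M * q)).valuation (fullToHesE ↥K' (M * q) f₁) = 1
    rw [hf₁E]
    exact hfa
  have hf₁mem : f₁ ∈ keyFqWinf ↥(baseRing A K') ↥K' (M * q) := kp_mem_of_val_eq_one _ hf₁v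
  obtain ⟨w₀, hw₀, hres⟩ := keyFqResInfP M q hqM A hA K' H.base f₁ hf₁mem
  -- on the host
  have hresE : (hesWinf ↥(baseRing A K') ↥K' h2 (M * q)).valuation
      (fullToHesE ↥K' (M * q) f₀ *
        (algebraMap ↥(baseRing A K') ↥(hesE ↥K' (M * q)) ϖ ^ ainf)⁻¹ -
        hesHostA ↥K' M q (fullToHesE ↥K' M w₀)) < 1 := by
    have h1 := (comap_val_lt_one_iff
      (fullToHesE ↥K' (M * q) : ↥(keyFq ↥K' (M * q)) →+* ↥(hesE ↥K' (M * q)))
      (xport_hesWinf_comap ↥(baseRing A K') ↥K' h2 (M * q)) (f₁ - keyFqA ↥K' M q w₀)).mpr hres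
    have h2' : (fullToHesE ↥K' (M * q) : ↥(keyFq ↥K' (M * q)) →+* ↥(hesE ↥K' (M * q)))
        (f₁ - keyFqA ↥K' M q w₀) = fullToHesE ↥K' (M * q) f₀ *
        (algebraMap ↥(baseRing A K') ↥(hesE ↥K' (M * q)) ϖ ^ ainf)⁻¹ -
        hesHostA ↥K' M q (fullToHesE ↥K' M w₀) := by
      show fullToHesE ↥K' (M * q) (f₁ - keyFqA ↥K' M q w₀) = _
      rw [map_sub, hf₁E, xport_fullToHesE_keyFqA_gen]
    rwa [h2'] at h1
  have hAWv : (hesWinf ↥(baseRing A K') ↥K' h2 (M * q)).valuation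
      (hesHostA ↥K' M q (fullToHesE ↥K' M w₀)) = 1 := kp_val_eq_one_of_sub_lt _ hfa hresE
  have hWv : (hesWinf ↥(baseRing A K') ↥K' h2 M).valuation (fullToHesE ↥K' M w₀) = 1 :=
    (kp_comap_val_eq_one_iff (hesWinf ↥(baseRing A K') ↥K' h2 (M * q))
      (hesHostA ↥K' M q : ↥(hesE ↥K' M) →+* ↥(hesE ↥K' (M * q))) h'.comap_A_inf
      (fullToHesE ↥K' M w₀)).mp hAWv
  have hWmem : fullToHesE ↥K' M w₀ ∈ hesWinf ↥(baseRing A K') ↥K' h2 M :=
    kp_mem_of_val_eq_one _ hWv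
  have hBC : hesBC M K' (fullToHesE ↥K' M w₀) = fullToHesE Ω M (keyFqBC M K' w₀) :=
    bcdeg_hesBC_fullToHesE M K' w₀
  have hWE' : hesBC M K' (fullToHesE ↥K' M w₀) ∈ hesWE hA M hq3 :=
    (hesBC_mem_hesWE_iff hA M K' hq3 _).2 hWmem
  have hWE : fullToHesE Ω M (keyFqBC M K' w₀) ∈ hesWE hA M hq3 := hBC ▸ hWE'
  by_cases hcase : ∃ g : hesEt hA M hq3,
      hesρ hA M hq3 ⟨fullToHesE Ω M (keyFqBC M K' w₀), hWE⟩ = g ^ p
  · -- Case 1
    left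
    obtain ⟨g, hg⟩ := hcase
    have hg' : hesρ hA M hq3 ⟨hesBC M K' (fullToHesE ↥K' M w₀), hWE'⟩ = g ^ p := by
      rw [← hg]
      congr 1
      exact Subtype.ext hBC
    obtain ⟨b, hb, hbv⟩ := exists_powQ_approx_of_hesρ_eq_pow hA M hqM H.base hq3 h2
      (fullToHesE ↥K' M w₀) hWmem hWE' p g hg'
    have hAb : (hesWinf ↥(baseRing A K') ↥K' h2 (M * q)).valuation
        (hesHostA ↥K' M q (fullToHesE ↥K' M w₀) - hesHostA ↥K' M q b ^ p) < 1 := by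
      have h1 := (comap_val_lt_one_iff
        (hesHostA ↥K' M q : ↥(hesE ↥K' M) →+* ↥(hesE ↥K' (M * q))) h'.comap_A_inf
        (fullToHesE ↥K' M w₀ - b ^ p)).mpr hbv
      have h2' : (hesHostA ↥K' M q : ↥(hesE ↥K' M) →+* ↥(hesE ↥K' (M * q)))
          (fullToHesE ↥K' M w₀ - b ^ p) =
          hesHostA ↥K' M q (fullToHesE ↥K' M w₀) - hesHostA ↥K' M q b ^ p := by
        show hesHostA ↥K' M q (fullToHesE ↥K' M w₀ - b ^ p) = _
        rw [map_sub, map_pow]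
      rwa [h2'] at h1
    have hfin := kp_val_sub_lt_trans _ hresE hAb
    have hbp1 : (hesWinf ↥(baseRing A K') ↥K' h2 M).valuation (b ^ p) = 1 :=
      kp_val_eq_one_of_sub_lt _ hWv hbv
    have hb1 : (hesWinf ↥(baseRing A K') ↥K' h2 M).valuation b = 1 := by
      rw [map_pow] at hbp1
      exact (pow_eq_one_iff_of_nonneg zero_le hp.ne_zero).mp hbp1
    exact ⟨ainf, b, hb1, hfin⟩
  · -- Case 2
    right
    obtain ⟨ρ, res, hres', hρ, hρR, hρapp⟩ := hesRhoBaseP M q hq3 hqM A hA K' H.base h2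
    refine HR M q hq3 hqM p hp hp2 hpq hno3 A hA S a
      (fun ℓ hℓ hℓM => H.bad ℓ hℓ (dvd_mul_of_dvd_left hℓM q))
      (H.bad q hq (dvd_mul_left q M)) H.pS H.threeS (keyFqBC M K' w₀) hWE hcase
      (fun Q => HO M q hq3 hqM p hp hp2 hno3 hpq A hA K₁ K' S a f₀ H ϖ hϖ h2 ainf w₀ hWv hresE hWE Q)
      ?_
    intro ℓ hℓ hℓ3 hℓS
    haveI : NeZero ℓ := ⟨hℓ.ne_zero⟩
    haveI : NeZero (M * ℓ) := ⟨Nat.mul_ne_zero (NeZero.ne M) hℓ.ne_zero⟩
    haveI : NeZero (M * q * ℓ) := ⟨Nat.mul_ne_zero (NeZero.ne (M * q)) hℓ.ne_zero⟩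
    have hℓMq : ¬ ℓ ∣ M * q := fun h => hℓS (H.bad ℓ hℓ h)
    obtain ⟨cH, uH, hcH, huH, hrel⟩ := H.hecke ℓ hℓ hℓS
    have hhost : hesHeckeP ↥K' (M * q) ℓ hℓ hℓ3 (fullToHesE ↥K' (M * q) f₀) =
        algebraMap ↥K' ↥(hesE ↥K' (M * q)) cH * fullToHesE ↥K' (M * q) f₀ ^ (a ℓ) *
          fullToHesE ↥K' (M * q) uH ^ p := by
      rw [hesHeckeP_fullToHesE_base (M * q) ℓ hℓ hℓ3 hℓMq K' f₀, hrel, map_mul, map_mul,
        map_zpow₀, map_pow, AlgHom.commutes]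
    obtain ⟨c, u, hc, hu, hT⟩ := hesRedHeckeP M q hq hq3 hqM A hA K' H.base ϖ hϖ h2 ℓ hℓ hℓ3 hℓMq
      ρ hρapp (a ℓ) p (fullToHesE ↥K' (M * q) f₀) hf
      ⟨cH, fullToHesE ↥K' (M * q) uH, hcH,
        (_root_.map_ne_zero (fullToHesE ↥K' (M * q))).mpr huH, hhost⟩ ainf
      (fullToHesE ↥K' M w₀) hWmem hfa hresE
    have hρw : ρ ⟨fullToHesE ↥K' M w₀, hWmem⟩ =
        hesρ hA M hq3 ⟨fullToHesE Ω M (keyFqBC M K' w₀), hWE⟩ := by
      rw [hρapp _ hWmem hWE']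
      congr 1
      exact Subtype.ext hBC
    rw [hρw] at hT
    exact ⟨c, u, hc, hu, hT⟩

end Main

end Fermat.Agent.ML
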