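/-
ML (S59) — helper6 — **Hesse-host port** of `Fermat.Agent.ML.MAZ_helper6_PartsO`.
-/
import Mathlib
import Fermat.Agent.ML.MAZ_helper6_PartsO
import Fermat.Agent.ML.HES_helper6_Parts

set_option autoImplicit false
set_option linter.unusedSectionVars false
set_option linter.unusedVariables false
set_option linter.style.haveILetI false
set_option synthInstance.maxHeartbeats 400000

open HahnSeries IntermediateField AlgebraicCurve ModularCurve IsLocalRing CongruenceSubgroup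
  ModularCurve.Period

open scoped MatrixGroups

namespace Fermat.Agent.ML

open Fermat.Agent.JA Fermat.Agent.FF Fermat.Agent.SS Fermat.Agent.S35 Fermat.Agent.MP
  Fermat.Agent.NP Fermat.Agent.GR Fermat.Agent.FG Fermat.Agent.X0N Fermat.Agent.LR Fermat.Agent.RB

open scoped Fermat.Agent.JA.Host

local notation "Ω" => AlgebraicClosure ℚ

local notation "GQ" => (AlgebraicClosure ℚ ≃ₐ[ℚ] AlgebraicClosure ℚ)

/-- **[DESC-q]**: the descent package of an `I_A`-fixed eigenclass `x ∈ J₀(M q)[p]`: a Kummer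
function `f` of `x`, defined over an unramified small base `K' ≤ K₁`, satisfying `HesMazHyp`
together with its Atkin–Lehner transform. -/
def MazDescQH : Prop :=
  ∀ (M q p : ℕ) [NeZero M] [NeZero q] [NeZero (M * q)] (hq : q.Prime), q ≠ 3 → p.Prime → p ≠ 2 →
    q ≠ p → ¬ q ∣ M → ∀ (A : ValuationSubring Ω), A.LiesOverPrime q →
  ∀ (S : Set ℕ) (a : ℕ → ℤ), (∀ ℓ : ℕ, ℓ.Prime → ℓ ∣ M * q → ℓ ∈ S) → p ∈ S → 3 ∈ S →
    (∃ ℓ : ℕ, ℓ.Prime ∧ ℓ ∉ S ∧ ¬ (a ℓ ≡ (ℓ : ℤ) + 1 [ZMOD (p : ℤ)])) →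
  ∀ x : JZero (M * q), p • x = 0 →
    (∀ (ℓ : ℕ) (hℓ : ℓ.Prime), ℓ ∉ S → heckeOperatorBar (M * q) ⟨ℓ, hℓ⟩ x = a ℓ • x) →
    (∀ τ ∈ A.inertiaSubgroupIn ℚ, τ • x = x) →
  ∃ (D : Divisor.degZero (K := Ω) (F := ↥(modularFunctionFieldBar (M * q))))
    (f : ↥(modularFunctionFieldBar (M * q))), f ≠ 0 ∧ Pic0.mk D = x ∧
    (∀ v : Place Ω ↥(modularFunctionFieldBar (M * q)),
      v.ord f = (p : ℤ) * (D : Divisor Ω ↥(modularFunctionFieldBar (M * q))) v) ∧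
    ∃ (K₁ : IntermediateField ℚ Ω) (_ : Normal ℚ ↥K₁) (K' : IntermediateField ℚ Ω)
      (f₀ : ↥(keyFq ↥K' (M * q))), keyFqBC (M * q) K' f₀ = f ∧
      HesMazHyp q p M A K₁ K' S a f₀ ∧
      ∀ {x y : ℤ} (hbez : (q : ℤ) * x + M * y = 1),
        HesMazHyp q p M A K₁ K' S a
          (letI := baseToComplex K'; atkinLehnerN (algebraMap ↥K' ℂ) hbez hq f₀)

end Fermat.Agent.ML
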