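/-
ML (S59) — helper6 — **Hesse-host port** of `Fermat.Agent.ML.MAZ_helper6_DescQO`.
-/
import Mathlib
import Fermat.Agent.ML.MAZ_helper6_DescQO
import Fermat.Agent.ML.HES_helper6_PartsO
import Fermat.Agent.SS.TOPB_lead_Hes

set_option autoImplicit false
set_option linter.unusedSectionVars false
set_option linter.unusedVariables false
set_option linter.style.haveILetI false
set_option synthInstance.maxHeartbeats 400000

open HahnSeries IntermediateField AlgebraicCurve ModularCurve IsLocalRing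

namespace Fermat.Agent.ML

open Fermat.Agent.JA Fermat.Agent.FF Fermat.Agent.SS Fermat.Agent.X0N Fermat.Agent.S35
  Fermat.Agent.S36 Fermat.Agent.NP Fermat.Agent.MP Fermat.Agent.RB

local notation "Ω" => AlgebraicClosure ℚ

local notation "GQ" => (AlgebraicClosure ℚ ≃ₐ[ℚ] AlgebraicClosure ℚ)

section Main

set_option maxHeartbeats 6400000 in
/-- **[DESC-q] from [AL-HECKE], every odd `p`.** -/
theorem mazDescQH_of (HAL : KeyFqALHecke) : MazDescQH := by
  intro M q p _ _ _ hq hq3 hp hp2 hqp hqM A hA S a hS hpS h2S hnE x hpx hT hI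
  classical
  haveI : Fact q.Prime := ⟨hq⟩
  -- the invariant pair
  obtain ⟨D, f, hf, hDx, hfD, hlc, -, hfinv⟩ := exists_invariant_pair (M * q) p x hpx
    {σ : GQ | σ • x = x} (fun σ hσ => hσ)
  have hdiv : ∀ v : Place Ω ↥(modularFunctionFieldBar (M * q)), ((p : ℕ) : ℤ) ∣ v.ord f :=
    fun v => ⟨_, hfD v⟩
  -- the Atkin–Lehner transform of `f`
  set f' : ↥(modularFunctionFieldBar (M * q)) := atkinLehnerBar M q hq hqM f with hf'def
  have hf' : f' ≠ 0 := by
    rw [hf'def, ← alSemi_smul hq hqM]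
    exact (smul_ne_zero_iff_ne (alSemi hq hqM)).mpr hf
  have hdivD : IsDivOf f (p • (D : Divisor Ω ↥(modularFunctionFieldBar (M * q)))) :=
    ⟨hf, fun v => by rw [Finsupp.smul_apply, nsmul_eq_mul, hfD v]⟩
  have hdiv' : ∀ v : Place Ω ↥(modularFunctionFieldBar (M * q)), ((p : ℕ) : ℤ) ∣ v.ord f' := by
    intro v
    have h1 := (hdivD.smul (alSemi hq hqM)).2 v
    rw [smul_comm (alSemi hq hqM) p, Finsupp.smul_apply, nsmul_eq_mul] at h1
    rw [hf'def, ← alSemi_smul hq hqM, ← h1]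
    exact ⟨_, rfl⟩
  -- the divisors of `f`, `f'` on the host over `Ω`
  haveI : HasPrincipalDivisors Ω ↥(hesE Ω (M * q)) := up_hasPrincipalDivisors_hesE (M * q)
  have hfE : fullToHesE Ω (M * q) f ≠ 0 := (_root_.map_ne_zero _).2 hf
  have hfE' : fullToHesE Ω (M * q) f' ≠ 0 := (_root_.map_ne_zero _).2 hf'
  obtain ⟨DE, hDE, -⟩ := HasPrincipalDivisors.exists_divisor (K := Ω) (fullToHesE Ω (M * q) f) hfE
  obtain ⟨DE', hDE', -⟩ :=
    HasPrincipalDivisors.exists_divisor (K := Ω) (fullToHesE Ω (M * q) f') hfE'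
  -- the Galois base
  obtain ⟨K₁, hK₁, -, -, hdesc, hrat⟩ :=
    (isBase_flatBase (ℓ := q)).exists_ge_isGalBase_hesE (M * q) (∅ : Finset Ω)
      (f := fun _ : Unit => ((f : ↥(modularFunctionFieldBar (M * q))) : LaurentSeries Ω))
      (fun _ => f.2) (DE.support ∪ DE'.support)
  haveI := hK₁.normal
  obtain ⟨f₁, hf₁mem, hf₁⟩ := hdesc ()
  set F₁ : ↥(keyFq ↥K₁ (M * q)) := ⟨f₁, hf₁mem⟩ with hF₁def
  have hBC1 : keyFqBC (M * q) K₁ F₁ = f := Subtype.ext hf₁
  -- rationality of the supports over `K₁`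
  have hord₁ : HesOrdCond K₁ (M * q) p (fullToHesE ↥K₁ (M * q) F₁) := by
    intro P
    have hg₁BC : hesBC (M * q) K₁ (fullToHesE ↥K₁ (M * q) F₁) =
        algebraMap Ω ↥(hesE Ω (M * q)) 1 * fullToHesE Ω (M * q) f := by
      rw [bcdeg_hesBC_fullToHesE, hBC1, map_one, one_mul]
    have h1 := ord_descended_hes (M * q) f hdiv DE hDE K₁
      (fun P hP => hrat P (Finset.mem_union_left _ hP)) (fullToHesE ↥K₁ (M * q) F₁) 1
      one_ne_zero hg₁BC P
    by_cases h0 : P.ord (fullToHesE ↥K₁ (M * q) F₁) = 0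
    · exact Or.inl h0
    · exact Or.inr ⟨h1.2 h0, h1.1⟩
  have hord₁' : ∀ {x y : ℤ} (hbez : (q : ℤ) * x + M * y = 1),
      HesOrdCond K₁ (M * q) p (fullToHesE ↥K₁ (M * q)
        (letI := baseToComplex K₁; atkinLehnerN (algebraMap ↥K₁ ℂ) hbez hq F₁)) := by
    intro x y hbez P
    letI := baseToComplex K₁
    have hg₁BC : hesBC (M * q) K₁ (fullToHesE ↥K₁ (M * q)
        (atkinLehnerN (algebraMap ↥K₁ ℂ) hbez hq F₁)) =
        algebraMap Ω ↥(hesE Ω (M * q)) 1 * fullToHesE Ω (M * q) f' := by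
      rw [bcdeg_hesBC_fullToHesE, keyFqBC_atkinLehnerN K₁ (algebraMap ↥K₁ ℂ) hbez hq hqM, hBC1,
        map_one, one_mul]
    have h1 := ord_descended_hes (M * q) f' hdiv' DE' hDE' K₁
      (fun P hP => hrat P (Finset.mem_union_right _ hP)) _ 1 one_ne_zero hg₁BC P
    by_cases h0 : P.ord (fullToHesE ↥K₁ (M * q)
        (atkinLehnerN (algebraMap ↥K₁ ℂ) hbez hq F₁)) = 0
    · exact Or.inl h0
    · exact Or.inr ⟨h1.2 h0, h1.1⟩
  -- the small base
  set H : Subgroup GQ := A.inertiaSubgroupIn ℚ with hHdef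
  have hHflat : ∀ τ ∈ H, ∀ b ∈ flatBase q, τ b = b :=
    fun τ hτ b hb => inertia_apply_of_mem_flatBase hA hτ hb
  set K' : IntermediateField ℚ Ω := fixIn K₁ H with hK'def
  have hK' : IsBase q K' := isBase_fixIn hA le_rfl hK₁.isBase
  have hunram : Irreducible ((q : ℕ) : ↥(baseRing A K')) :=
    irreducible_natCast_baseRing_of_fixed hA hK'
      (fun z hz τ hτ => apply_eq_of_mem_fixIn hτ hz)
  -- `f` over the small base
  obtain ⟨F', hF'⟩ := exists_keyFq_descent_fixIn q (M * q) hK₁.flatBase_le hHflat F₁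
    (fun τ hτ => by
      rw [hBC1]
      exact hfinv τ (hI τ hτ))
  rw [hBC1] at hF'
  have hF'0 : F' ≠ 0 := by
    intro h0
    apply hf
    rw [← hF', h0, map_zero]
  have hheck : HeckeRelK ↥K' (M * q) p S a F' :=
    heckeRelK_of_bcQ (M * q) K' F' hF' hp.pos S a D hf hfD (fun ℓ hℓ hℓS => by
      rw [hDx]; exact hT ℓ hℓ hℓS)
  refine ⟨D, f, hf, hDx, hfD, K₁, hK₁.normal, K', F', hF', ?_, ?_⟩
  · exact
      { galBase := hK₁
        base := hK'
        le := fixIn_le K₁ H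
        h1 := mem_iff_map_mem_of_fixing_fixIn hA le_rfl hK₁.isBase
        unram := hunram
        bad := hS
        pS := hpS
        threeS := h2S
        nonEis := hnE
        ne_zero := hF'0
        ordΩ := fun v => by rw [hF']; exact hdiv v
        rat := ⟨F₁, by rw [hBC1, hF'], hord₁⟩
        hecke := hheck }
  · intro x y hbez
    letI := baseToComplex K'
    have hBCW : keyFqBC (M * q) K' (atkinLehnerN (algebraMap ↥K' ℂ) hbez hq F') = f' := by
      rw [keyFqBC_atkinLehnerN K' (algebraMap ↥K' ℂ) hbez hq hqM, hF']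
    exact
      { galBase := hK₁
        base := hK'
        le := fixIn_le K₁ H
        h1 := mem_iff_map_mem_of_fixing_fixIn hA le_rfl hK₁.isBase
        unram := hunram
        bad := hS
        pS := hpS
        threeS := h2S
        nonEis := hnE
        ne_zero := (_root_.map_ne_zero (atkinLehnerN (algebraMap ↥K' ℂ) hbez hq)).mpr hF'0
        ordΩ := fun v => by rw [hBCW]; exact hdiv' v
        rat := ⟨(letI := baseToComplex K₁; atkinLehnerN (algebraMap ↥K₁ ℂ) hbez hq F₁), by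
          rw [hBCW]
          letI := baseToComplex K₁
          rw [keyFqBC_atkinLehnerN K₁ (algebraMap ↥K₁ ℂ) hbez hq hqM, hBC1], hord₁' hbez⟩
        hecke := by
          intro ℓ hℓ hℓS
          haveI : NeZero ℓ := ⟨hℓ.ne_zero⟩
          haveI : NeZero (M * q * ℓ) := ⟨Nat.mul_ne_zero (NeZero.ne (M * q)) hℓ.ne_zero⟩
          have hℓMq : ¬ ℓ ∣ M * q := fun h => hℓS (hS ℓ hℓ h)
          obtain ⟨c, u, hc, hu, hrel⟩ := hheck ℓ hℓ hℓS
          refine ⟨c, atkinLehnerN (algebraMap ↥K' ℂ) hbez hq u, hc,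
            (_root_.map_ne_zero (atkinLehnerN (algebraMap ↥K' ℂ) hbez hq)).mpr hu, ?_⟩
          rw [HAL ↥K' M q hq hqM hbez ℓ hℓ hℓMq F', hrel, map_mul, map_mul, map_zpow₀, map_pow,
            atkinLehnerN_algebraMap] }

end Main

end Fermat.Agent.ML
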