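/-
ML (S59) — helper6 — **Hesse-host port** of `Fermat.Agent.MP.KPDESC_helper2_SheetBC`.
-/
import Mathlib
import Fermat.Agent.MP.KPDESC_helper2_SheetBC
import Fermat.Agent.SS.BASE_helper1_Hes
import Fermat.Agent.SS.TOPB_lead_Hes
import Fermat.Agent.ML.HESG_helper6_AtBases

set_option autoImplicit false
set_option linter.unusedSectionVars false
set_option linter.unusedVariables false
set_option linter.style.haveILetI false
set_option synthInstance.maxHeartbeats 400000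

open HahnSeries IntermediateField AlgebraicCurve ModularCurve IsLocalRing

namespace Fermat.Agent.ML

open Fermat.Agent.MP

open Fermat.Agent.JA Fermat.Agent.FF Fermat.Agent.SS Fermat.Agent.S35 Fermat.Agent.Igusa
  Fermat.Agent.NP

open scoped Fermat.Agent.JA.Host

local notation "Ω" => AlgebraicClosure ℚ

section Generic

variable {E₁ E₂ : Type*} [Field E₁] [Field E₂]

end Generic

section Gauss

variable {R₁ : Type*} [CommRing R₁] [IsDomain R₁] [IsDiscreteValuationRing R₁]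
  {L₁ : Type*} [Field L₁] [Algebra R₁ L₁] [IsFractionRing R₁ L₁]
  {R₂ : Type*} [CommRing R₂] [IsDomain R₂] [IsDiscreteValuationRing R₂]
  {L₂ : Type*} [Field L₂] [Algebra R₂ L₂] [IsFractionRing R₂ L₂]
  (τ : L₁ →+* L₂) (τR : R₁ →+* R₂)
  (hτ : ∀ r : R₁, τ (algebraMap R₁ L₁ r) = algebraMap R₂ L₂ (τR r))

end Gauss

section Incl

variable {K' K₂ : IntermediateField ℚ Ω} (hle : K' ≤ K₂)

variable (A : ValuationSubring Ω)

variable (N : ℕ) [NeZero N]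

/-- the coefficientwise map `E_N(K') → E_N(K₂)` of the Hesse hosts. -/
noncomputable def hesIncl : ↥(hesE ↥K' N) →+* ↥(hesE ↥K₂ N) :=
  coeffHom (baseIncl hle) (hesE ↥K' N) (hesE ↥K₂ N)
    (fun _ hx => coeffMap_mem_hesE (baseIncl hle) N hx)

theorem coe_hesIncl (x : ↥(hesE ↥K' N)) :
    ((hesIncl hle N x : ↥(hesE ↥K₂ N)) : LaurentSeries ↥K₂) =
      coeffMap (baseIncl hle) (x : LaurentSeries ↥K') := rfl

theorem hesIncl_algebraMap (c : ↥K') :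
    hesIncl hle N (algebraMap ↥K' ↥(hesE ↥K' N) c) =
      algebraMap ↥K₂ ↥(hesE ↥K₂ N) (baseIncl hle c) :=
  coeffHom_algebraMap _ _ _ _ c

/-- base change to `Ω` factors through `hesIncl`. -/
theorem hesBC_hesIncl (x : ↥(hesE ↥K' N)) : hesBC N K₂ (hesIncl hle N x) = hesBC N K' x := by
  apply Subtype.ext
  rw [coe_hesBC, coe_hesIncl, coe_hesBC, coeffMap_coeffMap]
  rfl

theorem hesIncl_injective : Function.Injective (hesIncl hle N) := (hesIncl hle N).injective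

end Incl

section Sheets

variable {K' K₂ : IntermediateField ℚ Ω} (hle : K' ≤ K₂) (A : ValuationSubring Ω)
  [IsDiscreteValuationRing ↥(baseRing A K')] [IsDiscreteValuationRing ↥(baseRing A K₂)]

variable (h2' : IsUnit (3 : ↥(baseRing A K'))) (h2 : IsUnit (3 : ↥(baseRing A K₂)))
  (N : ℕ) [NeZero N]

theorem hesIncl_mem_hesWinf {x : ↥(hesE ↥K' N)}
    (hx : x ∈ hesWinf ↥(baseRing A K') ↥K' h2' N) :
    hesIncl hle N x ∈ hesWinf ↥(baseRing A K₂) ↥K₂ h2 N := by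
  show ((hesIncl hle N x : ↥(hesE ↥K₂ N)) : LaurentSeries ↥K₂) ∈ gaussInt ↥(baseRing A K₂) ↥K₂
  rw [coe_hesIncl]
  exact coeffMap_mem_gaussInt_hom (baseIncl hle) (baseRingIncl hle A) (fun r => rfl) hx

/-- **base change of the sheet `W_∞`.** -/
theorem comap_hesWinf :
    (hesWinf ↥(baseRing A K₂) ↥K₂ h2 N).comap (hesIncl hle N) =
      hesWinf ↥(baseRing A K') ↥K' h2' N := by
  obtain ⟨ϖ', hϖ'⟩ := IsDiscreteValuationRing.exists_irreducible ↥(baseRing A K')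
  obtain ⟨ϖ₂, hϖ₂⟩ := IsDiscreteValuationRing.exists_irreducible ↥(baseRing A K₂)
  refine comap_eq_of_local _ _ _ (fun x hx => hesIncl_mem_hesWinf hle A h2' h2 N hx) ?_
  intro x hx
  have hxmem : x ∈ hesWinf ↥(baseRing A K') ↥K' h2' N :=
    (ValuationSubring.valuation_le_one_iff _ _).1 hx.le
  have h1 : (⟨x, hxmem⟩ : ↥(hesWinf ↥(baseRing A K') ↥K' h2' N)) ∈
      IsLocalRing.maximalIdeal ↥(hesWinf ↥(baseRing A K') ↥K' h2' N) :=
    (ValuationSubring.valuation_lt_one_iff _ _).2 hx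
  have hmax := maximalIdeal_gaussValSub hϖ' (hesE ↥K' N)
    (hesE_le_gaussField ↥(baseRing A K') ↥K' h2' N)
  have h1' : (⟨x, hxmem⟩ : ↥(gaussValSub ↥(baseRing A K') ↥K' (hesE ↥K' N)
      (hesE_le_gaussField ↥(baseRing A K') ↥K' h2' N))) ∈ IsLocalRing.maximalIdeal _ := h1
  rw [hmax, Ideal.mem_span_singleton] at h1'
  obtain ⟨y, hy⟩ := h1'
  have hxy : x = algebraMap ↥K' ↥(hesE ↥K' N) (algebraMap ↥(baseRing A K') ↥K' ϖ') * (y : ↥(hesE ↥K' N)) :=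
    congrArg Subtype.val hy
  obtain ⟨w, hw⟩ := dvd_baseRingIncl_of_irreducible hle A hϖ' hϖ₂
  have hιx : hesIncl hle N x =
      algebraMap ↥K₂ ↥(hesE ↥K₂ N) (algebraMap ↥(baseRing A K₂) ↥K₂ ϖ₂) *
        (algebraMap ↥K₂ ↥(hesE ↥K₂ N) (algebraMap ↥(baseRing A K₂) ↥K₂ w) *
          hesIncl hle N (y : ↥(hesE ↥K' N))) := by
    rw [hxy, map_mul, hesIncl_algebraMap, baseIncl_algebraMap_baseRing, hw, map_mul, map_mul,
      mul_assoc]
  have hmem2 : (algebraMap ↥K₂ ↥(hesE ↥K₂ N) (algebraMap ↥(baseRing A K₂) ↥K₂ w) *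
      hesIncl hle N (y : ↥(hesE ↥K' N))) ∈ hesWinf ↥(baseRing A K₂) ↥K₂ h2 N :=
    (hesWinf ↥(baseRing A K₂) ↥K₂ h2 N).mul_mem _ _
      (gaussValSubC (hesE ↥K₂ N) (hesE_le_gaussField ↥(baseRing A K₂) ↥K₂ h2 N) w).2
      (hesIncl_mem_hesWinf hle A h2' h2 N y.2)
  have hmax₂ := maximalIdeal_gaussValSub hϖ₂ (hesE ↥K₂ N)
    (hesE_le_gaussField ↥(baseRing A K₂) ↥K₂ h2 N)
  have hmem3 : hesIncl hle N x ∈ hesWinf ↥(baseRing A K₂) ↥K₂ h2 N :=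
    hesIncl_mem_hesWinf hle A h2' h2 N hxmem
  have h3 : (⟨hesIncl hle N x, hmem3⟩ : ↥(gaussValSub ↥(baseRing A K₂) ↥K₂ (hesE ↥K₂ N)
      (hesE_le_gaussField ↥(baseRing A K₂) ↥K₂ h2 N))) ∈ IsLocalRing.maximalIdeal _ := by
    rw [hmax₂, Ideal.mem_span_singleton]
    exact ⟨⟨_, hmem2⟩, Subtype.ext hιx⟩
  exact (ValuationSubring.valuation_lt_one_iff (hesWinf ↥(baseRing A K₂) ↥K₂ h2 N)
    ⟨hesIncl hle N x, hmem3⟩).1 h3

end Sheets

section W0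

variable {M p : ℕ} [NeZero M] [NeZero p] [NeZero (M * p)]

set_option maxHeartbeats 1600000 in
/-- **base change of the sheet `W_0`.** -/
theorem comap_hesW0 (hp : p.Prime) (hp3 : p ≠ 3) (hpM : ¬ p ∣ M) {A : ValuationSubring Ω}
    (hA : A.LiesOverPrime p) {K' K₂ : IntermediateField ℚ Ω} (hle : K' ≤ K₂) (hK' : IsBase p K')
    (hK₂ : IsBase p K₂) [IsDiscreteValuationRing ↥(baseRing A K')]
    [IsDiscreteValuationRing ↥(baseRing A K₂)] {x y : ℤ} (hbez : (p : ℤ) * x + M * y = 1) :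
    (letI := baseToComplex K₂; hesW0 ↥(baseRing A K₂) ↥K₂ hbez hp).comap (hesIncl hle (M * p)) =
      (letI := baseToComplex K'; hesW0 ↥(baseRing A K') ↥K' hbez hp) := by
  classical
  haveI : Fact p.Prime := ⟨hp⟩
  haveI : CharZero ↥(baseRing A K') := charZero_valuationSubring_of_algebraRat _
  haveI : CharZero ↥(baseRing A K₂) := charZero_valuationSubring_of_algebraRat _
  obtain ⟨ϖ', hϖ'⟩ := IsDiscreteValuationRing.exists_irreducible ↥(baseRing A K')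
  obtain ⟨ϖ₂, hϖ₂⟩ := IsDiscreteValuationRing.exists_irreducible ↥(baseRing A K₂)
  have h2' : IsUnit (3 : ↥(baseRing A K')) := isUnit_ofNat_baseRing hA K' Nat.prime_three hp3
  have h2 : IsUnit (3 : ↥(baseRing A K₂)) := isUnit_ofNat_baseRing hA K₂ Nat.prime_three hp3
  letI := baseToComplex K'
  letI := baseToComplex K₂
  obtain ⟨ω', hω', hmodel'⟩ := hesModelAtBasesG M p hp hp3 hpM A hA K' hK' ϖ' hϖ' h2' x y hbez
  obtain ⟨ω₂, hω₂, hmodel₂⟩ := hesModelAtBasesG M p hp hp3 hpM A hA K₂ hK₂ ϖ₂ hϖ₂ h2 x y hbez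
  haveI : FiniteDimensional ↥(↥K')⟮jqNModC ↥K' 3⟯ ↥(hesE ↥K' (M * p)) :=
    finite_hesE_adjoin_j ↥K' (M * p)
  haveI : FiniteDimensional ↥(↥K₂)⟮jqNModC ↥K₂ 3⟯ ↥(hesE ↥K₂ (M * p)) :=
    finite_hesE_adjoin_j ↥K₂ (M * p)
  have h' := SSModelHesG.ssModel ↥(baseRing A K') ↥K' hmodel'
  have h₂ := SSModelHesG.ssModel ↥(baseRing A K₂) ↥K₂ hmodel₂
  have hιR : ∀ r : ↥(baseRing A K'),
      hesIncl hle (M * p) (algebraMap ↥(baseRing A K') ↥(hesE ↥K' (M * p)) r) =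
        algebraMap ↥(baseRing A K₂) ↥(hesE ↥K₂ (M * p)) (baseRingIncl hle A r) := by
    intro r
    rw [IsScalarTower.algebraMap_apply ↥(baseRing A K') ↥K' ↥(hesE ↥K' (M * p)),
      hesIncl_algebraMap, baseIncl_algebraMap_baseRing,
      ← IsScalarTower.algebraMap_apply ↥(baseRing A K₂) ↥K₂ ↥(hesE ↥K₂ (M * p))]
  have hinj₂ : Function.Injective (algebraMap ↥(baseRing A K₂) ↥(hesE ↥K₂ (M * p))) := by
    rw [IsScalarTower.algebraMap_eq ↥(baseRing A K₂) ↥K₂ ↥(hesE ↥K₂ (M * p))]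
    exact (algebraMap ↥K₂ ↥(hesE ↥K₂ (M * p))).injective.comp
      (IsFractionRing.injective ↥(baseRing A K₂) ↥K₂)
  have hιj : hesIncl hle (M * p) (algebraMap ↥(↥K')⟮jqNModC ↥K' 3⟯ ↥(hesE ↥K' (M * p))
      (AdjoinSimple.gen ↥K' (jqNModC ↥K' 3))) =
      algebraMap ↥(↥K₂)⟮jqNModC ↥K₂ 3⟯ ↥(hesE ↥K₂ (M * p))
        (AdjoinSimple.gen ↥K₂ (jqNModC ↥K₂ 3)) :=
    Subtype.ext (coeffMap_jqNModC (baseIncl hle) 3)
  have hιb : hesIncl hle (M * p) (hesHostBG ↥K' M p hp hp3 (hesJE ↥K' M)) =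
      hesHostBG ↥K₂ M p hp hp3 (hesJE ↥K₂ M) := by
    apply Subtype.ext
    rw [coe_hesIncl, coe_hesHostBG, coe_hesHostBG, coe_hesJE, coe_hesJE, coeffMap_qExpand,
      coeffMap_jqNModC]
  have hkinf : (hesWinf ↥(baseRing A K₂) ↥K₂ h2 (M * p)).valuation
      (hesIncl hle (M * p) (hesHostBG ↥K' M p hp hp3 (hesJE ↥K' M)) -
        algebraMap ↥(↥K₂)⟮jqNModC ↥K₂ 3⟯ ↥(hesE ↥K₂ (M * p))
          (AdjoinSimple.gen ↥K₂ (jqNModC ↥K₂ 3)) ^ p) < 1 := by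
    rw [hιb]
    have := h₂.kron_j_inf
    rw [h₂.A_j] at this
    exact this
  have hkzero : (hesW0 ↥(baseRing A K₂) ↥K₂ hbez hp).valuation
      (algebraMap ↥(↥K₂)⟮jqNModC ↥K₂ 3⟯ ↥(hesE ↥K₂ (M * p))
          (AdjoinSimple.gen ↥K₂ (jqNModC ↥K₂ 3)) -
        hesIncl hle (M * p) (hesHostBG ↥K' M p hp hp3 (hesJE ↥K' M)) ^ p) < 1 := by
    rw [hιb]
    have := h₂.kron_j_zero
    rw [h₂.A_j] at this
    exact this
  exact comap_zero_eq_of_isTwoSheet h'.two h₂.two hϖ' hϖ₂ (baseRingIncl hle A)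
    (baseRingIncl_injective hle A) (dvd_baseRingIncl_of_irreducible hle A hϖ' hϖ₂)
    (hesIncl hle (M * p)) hιR hinj₂ hιj hp.two_le _ hkinf hkzero
    (comap_hesWinf hle A h2' h2 (M * p))

end W0

section Depth

variable {R₁ : Type*} [CommRing R₁] {K₁ : Type*} [Field K₁] {E₁ : Type*} [Field E₁]
  [Algebra R₁ E₁] [Algebra K₁ E₁]
  {R₂ : Type*} [CommRing R₂] {K₂ : Type*} [Field K₂] {E₂ : Type*} [Field E₂]
  [Algebra R₂ E₂] [Algebra K₂ E₂]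

end Depth

section DepthHes

variable {K' K₁ : IntermediateField ℚ Ω} (hle : K' ≤ K₁) (A : ValuationSubring Ω)
  [IsDiscreteValuationRing ↥(baseRing A K')] [IsDiscreteValuationRing ↥(baseRing A K₁)]
  (N : ℕ) [NeZero N]

/-- the functions over `K'` and over `K₁` with the same base change to `Ω` correspond under
`hesIncl`. -/
theorem hesIncl_fullToHesE_of_keyFqBC_eq (F' : ↥(keyFq ↥K' N)) (F₁ : ↥(keyFq ↥K₁ N))
    (hBC : keyFqBC N K₁ F₁ = keyFqBC N K' F') :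
    hesIncl hle N (fullToHesE ↥K' N F') = fullToHesE ↥K₁ N F₁ := by
  apply (hesBC N K₁).injective
  rw [hesBC_hesIncl, bcdeg_hesBC_fullToHesE, bcdeg_hesBC_fullToHesE, hBC]

/-- **depth along `W_∞` goes up from `K'` to `K₁`.** -/
theorem ValDepth.hesIncl_inf (h2' : IsUnit (3 : ↥(baseRing A K')))
    (h2 : IsUnit (3 : ↥(baseRing A K₁))) {ϖ' : ↥(baseRing A K')} {ϖ₁ u : ↥(baseRing A K₁)}
    {e : ℕ} (hu : baseRingIncl hle A ϖ' = u * ϖ₁ ^ e) {p n : ℕ} {g : ↥(hesE ↥K' N)} {c : ↥K'}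
    (hd : ValDepth ϖ' p (hesWinf ↥(baseRing A K') ↥K' h2' N) n g c) :
    ValDepth ϖ₁ p (hesWinf ↥(baseRing A K₁) ↥K₁ h2 N) (e * n) (hesIncl hle N g)
      (baseIncl hle c) := by
  refine ValDepth.map_hom (baseRingIncl hle A) (baseIncl hle) (hesIncl hle N)
    (hesIncl_algebraMap hle N) ?_ (fun x hx => hesIncl_mem_hesWinf hle A h2' h2 N hx) ?_ hu hd
  · intro r
    rw [IsScalarTower.algebraMap_apply ↥(baseRing A K') ↥K' ↥(hesE ↥K' N), hesIncl_algebraMap,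
      baseIncl_algebraMap_baseRing,
      ← IsScalarTower.algebraMap_apply ↥(baseRing A K₁) ↥K₁ ↥(hesE ↥K₁ N)]
  · intro r
    rw [IsScalarTower.algebraMap_apply ↥(baseRing A K₁) ↥K₁ ↥(hesE ↥K₁ N)]
    exact (gaussValSubC (hesE ↥K₁ N) (hesE_le_gaussField ↥(baseRing A K₁) ↥K₁ h2 N) r).2

/-- **(2a) ⇒ the hypothesis of (2b)**: depth `≥ 1` along `W_∞` goes up from `K'` to `K₁`. -/
theorem exists_valDepth_hesWinf_of_le (hle : K' ≤ K₁) {p : ℕ} (F' : ↥(keyFq ↥K' N))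
    (F₁ : ↥(keyFq ↥K₁ N)) (hBC : keyFqBC N K₁ F₁ = keyFqBC N K' F')
    (h : ∃ (ϖ : ↥(baseRing A K')) (h2 : IsUnit (3 : ↥(baseRing A K'))) (c : ↥K'),
      Irreducible ϖ ∧ c ≠ 0 ∧
      ValDepth ϖ p (hesWinf ↥(baseRing A K') ↥K' h2 N) 1 (fullToHesE ↥K' N F') c) :
    ∃ (ϖ : ↥(baseRing A K₁)) (h2 : IsUnit (3 : ↥(baseRing A K₁))) (c : ↥K₁),
      Irreducible ϖ ∧ c ≠ 0 ∧
      ValDepth ϖ p (hesWinf ↥(baseRing A K₁) ↥K₁ h2 N) 1 (fullToHesE ↥K₁ N F₁) c := by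
  obtain ⟨ϖ', h2', c, hϖ', hc, hd⟩ := h
  obtain ⟨ϖ₁, hϖ₁⟩ := IsDiscreteValuationRing.exists_irreducible ↥(baseRing A K₁)
  have h2 : IsUnit (3 : ↥(baseRing A K₁)) := by
    have := h2'.map (baseRingIncl hle A)
    rwa [map_ofNat] at this
  have hne : baseRingIncl hle A ϖ' ≠ 0 := fun h0 =>
    hϖ'.ne_zero (baseRingIncl_injective hle A (by rw [h0, map_zero]))
  obtain ⟨e, u, hu⟩ := IsDiscreteValuationRing.eq_unit_mul_pow_irreducible hne hϖ₁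
  have he : 1 ≤ e := by
    rcases Nat.eq_zero_or_pos e with h0 | h0
    · exfalso
      obtain ⟨w, hw⟩ := dvd_baseRingIncl_of_irreducible hle A hϖ' hϖ₁
      rw [h0, pow_zero, mul_one] at hu
      rw [hu] at hw
      exact hϖ₁.not_isUnit (isUnit_of_dvd_unit ⟨w, hw⟩ u.isUnit)
    · exact h0
  have hd₁ := ValDepth.hesIncl_inf hle A N h2' h2 hu hd
  rw [hesIncl_fullToHesE_of_keyFqBC_eq hle N F' F₁ hBC, mul_one] at hd₁
  refine ⟨ϖ₁, h2, baseIncl hle c, hϖ₁, (_root_.map_ne_zero _).2 hc,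
    ValDepth.mono_depth ?_ he hd₁⟩
  rw [IsScalarTower.algebraMap_apply ↥(baseRing A K₁) ↥K₁ ↥(hesE ↥K₁ N)]
  exact (gaussValSubC (hesE ↥K₁ N) (hesE_le_gaussField ↥(baseRing A K₁) ↥K₁ h2 N) ϖ₁).2

end DepthHes

end Fermat.Agent.ML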