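/-
ML (S59) — helper6 — **Hesse-host port** of `Fermat.Agent.RB.MAZ_helper6_Asm`.
-/
import Mathlib
import Fermat.Agent.RB.MAZ_helper6_Asm
import Fermat.Agent.ML.HES_helper6_Parts
import Fermat.Agent.ML.HES_helper6_SheetBC

set_option autoImplicit false
set_option linter.unusedSectionVars false
set_option linter.unusedVariables false
set_option linter.style.haveILetI false
set_option synthInstance.maxHeartbeats 400000

open HahnSeries IntermediateField AlgebraicCurve ModularCurve IsLocalRing

namespace Fermat.Agent.ML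

open Fermat.Agent.RB

open Fermat.Agent.JA Fermat.Agent.FF Fermat.Agent.SS Fermat.Agent.S35 Fermat.Agent.MP
  Fermat.Agent.NP Fermat.Agent.GR Fermat.Agent.FG Fermat.Agent.X0N

local notation "Ω" => AlgebraicClosure ℚ

local notation "GQ" => (AlgebraicClosure ℚ ≃ₐ[ℚ] AlgebraicClosure ℚ)

section Abstract

variable {K F : Type*} [Field K] [Field F] [Algebra K F]

end Abstract

section Transport

variable {M q m : ℕ} [NeZero M] [NeZero q] [NeZero (M * q)]

/-- **toric-ness goes up along an extension of bases.** -/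
theorem HesToricAt.of_le (hq0 : q.Prime) (hq3 : q ≠ 3) (hqM : ¬ q ∣ M) {A : ValuationSubring Ω}
    (hA : A.LiesOverPrime q) {K' K₂ : IntermediateField ℚ Ω} (hle : K' ≤ K₂)
    (hK' : IsBase q K') (hK₂ : IsBase q K₂) {g : ↥(hesE ↥K' (M * q))}
    (h : HesToricAt M q m A K' g) : HesToricAt M q m A K₂ (hesIncl hle (M * q) g) := by
  intro _ _ h2 x y hbez hq
  haveI : Fact q.Prime := ⟨hq0⟩
  haveI : IsDiscreteValuationRing ↥(baseRing A K') := hK'.isDiscreteValuationRing hA
  haveI : CharZero ↥(baseRing A K') := charZero_valuationSubring_of_algebraRat _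
  have h2' : IsUnit (3 : ↥(baseRing A K')) := isUnit_ofNat_baseRing hA K' Nat.prime_three hq3
  obtain ⟨linf, l0, h1, h2v, h3, h4⟩ := h h2' x y hbez hq
  have cinf := comap_hesWinf hle A h2' h2 (M * q)
  have c0 := comap_hesW0 hq hq3 hqM hA hle hK' hK₂ hbez
  refine ⟨hesIncl hle (M * q) linf, hesIncl hle (M * q) l0, ?_, ?_, ?_, ?_⟩
  · exact (kp_comap_val_eq_one_iff _ (hesIncl hle (M * q)) cinf linf).mpr h1
  · exact (kp_comap_val_eq_one_iff _ (hesIncl hle (M * q)) c0 l0).mpr h2v
  · have := (comap_val_lt_one_iff (hesIncl hle (M * q)) cinf (g - linf ^ m)).mpr h3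
    rwa [map_sub, map_pow] at this
  · have := (comap_val_lt_one_iff (hesIncl hle (M * q)) c0 (g - l0 ^ m)).mpr h4
    rwa [map_sub, map_pow] at this

end Transport

end Fermat.Agent.ML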