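/-
ML (S59) — helper6 — **Hesse-host port** of `Fermat.Agent.ML.MAZ_helper6_AsmE`.
-/
import Mathlib
import Fermat.Agent.ML.MAZ_helper6_AsmE
import Fermat.Agent.ML.IFACE_helper6_MazHesE
import Fermat.Agent.ML.HES_helper6_ToricLe
import Fermat.Agent.ML.HES_helper6_DescQ
import Fermat.Agent.ML.HES_helper6_BaseQ
import Fermat.Agent.ML.HES_helper6_InfQ
import Fermat.Agent.ML.HES_helper6_Delta

set_option autoImplicit false
set_option linter.unusedSectionVars false
set_option linter.unusedVariables false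
set_option linter.style.haveILetI false
set_option synthInstance.maxHeartbeats 400000

open HahnSeries IntermediateField AlgebraicCurve ModularCurve IsLocalRing

namespace Fermat.Agent.ML

open Fermat.Agent.JA Fermat.Agent.FF Fermat.Agent.SS Fermat.Agent.S35 Fermat.Agent.MP
  Fermat.Agent.NP Fermat.Agent.GR Fermat.Agent.FG Fermat.Agent.X0N Fermat.Agent.RB

local notation "Ω" => AlgebraicClosure ℚ

local notation "GQ" => (AlgebraicClosure ℚ ≃ₐ[ℚ] AlgebraicClosure ℚ)

/-- **(KEY-MAZ) from the descent package and the base statement, every odd `p`.** -/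
theorem keyMazStatementHE_of_parts (hD : MazDescQH) (hB : HesMazBaseQE) : KeyMazStatementHE := by
  intro M q p _ _ _ hq hq3 hp hp2 hqp hqM hno3 A hA S a hS hpS h2S hnE x hpx hα hβ hT hI
  obtain ⟨D, f, hf, hDx, hfD, K₁, hK₁n, K', f₀, hBC, H, HAL⟩ :=
    hD M q p hq hq3 hp hp2 hqp hqM A hA S a hS hpS h2S hnE x hpx hT hI
  haveI := hK₁n
  haveI : Fact q.Prime := ⟨hq⟩
  rcases hB M q p hq hq3 hp hp2 hqp hqM hno3 A hA K₁ K' S a f₀ H HAL with ⟨c, h, hc, hh, htor⟩ | hres
  · left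
    haveI : HasPrincipalDivisors Ω ↥(modularFunctionFieldBar (M * q)) :=
      (Fermat.Agent.X0N.jCoordBar (M * q)).hasPrincipalDivisors
    have hhΩ : keyFqBC (M * q) K' h ≠ 0 := (map_ne_zero _).2 hh
    have hcΩ : algebraMap ↥K' Ω c ≠ 0 := (map_ne_zero _).2 hc
    obtain ⟨D', hD', hfD'⟩ := exists_degZero_of_kummer_mul D f hf hfD (algebraMap ↥K' Ω c) hcΩ
      (keyFqBC (M * q) K' h) hhΩ
    have hF : keyFqBC (M * q) K' (algebraMap ↥K' ↥(keyFq ↥K' (M * q)) c * f₀ * h ^ p) =
        algebraMap Ω ↥(modularFunctionFieldBar (M * q)) (algebraMap ↥K' Ω c) * f *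
          keyFqBC (M * q) K' h ^ p := by
      rw [map_mul, map_mul, map_pow, hBC, keyFqBC_algebraMap]
    refine ⟨D', _, ?_, hD'.trans hDx, hfD', K', H.base, ?_⟩
    · exact mul_ne_zero (mul_ne_zero ((map_ne_zero _).2 hcΩ) hf) (pow_ne_zero _ hhΩ)
    · intro K₂ hK₂ hle F₂ hF₂
      have e : hesIncl hle (M * q) (fullToHesE ↥K' (M * q)
          (algebraMap ↥K' ↥(keyFq ↥K' (M * q)) c * f₀ * h ^ p)) = fullToHesE ↥K₂ (M * q) F₂ := by
        haveI : IsDiscreteValuationRing ↥(baseRing A K') := H.base.isDiscreteValuationRing hA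
        haveI : IsDiscreteValuationRing ↥(baseRing A K₂) :=
          hK₂.isBase.isDiscreteValuationRing hA
        exact hesIncl_fullToHesE_of_keyFqBC_eq hle (M * q) _ F₂ (hF₂.trans hF.symm)
      have h1 : HesToricAt M q p A K₂ (hesIncl hle (M * q) (fullToHesE ↥K' (M * q)
          (algebraMap ↥K' ↥(keyFq ↥K' (M * q)) c * f₀ * h ^ p))) :=
        @HesToricAt.of_le M q p _ _ _ hq hq3 hqM A hA K' K₂ hle H.base hK₂.isBase _ htor
      exact @cast _ _ (congrArg (HesToricAt M q p A K₂) e) h1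
  · exact Or.inr hres

/-- **[ORD-q]** on the Hesse hosts, proved. -/
theorem hesMazOrdQO : HesMazOrdQO := hesMazOrdQO_of hesDeltaLitQ

/-- **[DESC-q]** on the Hesse hosts, proved. -/
theorem mazDescQH : MazDescQH := mazDescQH_of keyFqALHecke

/-- **[BASE-q] from [ROLD-q]**, every odd `p`. -/
theorem hesMazBaseQE_of_rold (HR : HesRoldQE) : HesMazBaseQE :=
  hesMazBaseQE_of hesDeltaLitQ (hesMazInfQE_of hesMazOrdQO HR)

/-- **(KEY-MAZ) from [ROLD-q]**, every odd `p`. -/
theorem keyMazStatementHE_of_rold (HR : HesRoldQE) : KeyMazStatementHE :=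
  keyMazStatementHE_of_parts mazDescQH (hesMazBaseQE_of_rold HR)

end Fermat.Agent.ML
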