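/-
PROJECT ML (S59) — helper8 — **Hesse [HOSTGAL] at `p = 3`, abstract part.**

`L = F(t)` a Hesse cover: `j (t³ − 1)³ = 27 t³ (t³ + 8)³`, `j, ω ∈ F` (`ω` a primitive cube root of
unity), characteristic zero.  Then `L / F` is Galois with group `G ↪ A₄`; the stabiliser `N` of
`γ = t (t³ + 8) / (t³ − 1)` (`27 γ³ = j`) has exponent `2`, and `G / N ↪ μ₃`.  Hence:

* `mem_range_of_cube_mem_hesse` : if `σ ∈ G` moves `γ`, `u ∈ L`, `u³ ∈ F` and `σ u = u`, then
  `u ∈ F`.

(The cyclic cubic subextension `F(γ)/F` is the only obstruction to the Kummer descent of cubes.)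
-/
import Mathlib
import Fermat.Agent.FG.EGAL_helper8_A4
import Fermat.Agent.FG.EGAL_helper6_Hes12

set_option autoImplicit false
set_option linter.unusedSectionVars false
set_option linter.unusedVariables false
set_option linter.style.haveILetI false

open Polynomial IntermediateField

namespace Fermat.Agent.ML

open Fermat.Agent.FG

section Abs

variable {F L : Type*} [Field F] [Field L] [Algebra F L]

/-- an automorphism fixing a generator is trivial. -/
theorem algEquiv_eq_one_of_apply_generator {t : L} (htop : IntermediateField.adjoin F {t} = ⊤)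
    (halg : IsIntegral F t) (g : L ≃ₐ[F] L) (ht : g t = t) (y : L) : g y = y := by
  have hgen' : Algebra.adjoin F {t} = ⊤ := by
    have := IntermediateField.adjoin_simple_toSubalgebra_of_isAlgebraic halg.isAlgebraic
    rw [htop] at this
    exact this.symm
  have h1 : (g : L →ₐ[F] L) = AlgHom.id F L := by
    apply AlgHom.ext_of_adjoin_eq_top hgen'
    intro x hx
    rw [Set.mem_singleton_iff] at hx
    subst hx
    exact ht
  exact congrArg (fun f : L →ₐ[F] L => f y) h1

variable [CharZero F]

/-- **Kummer descent of cubes through a Hesse cover.** -/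
theorem mem_range_of_cube_mem_hesse {t : L} {j ω : F} (hω : ω ^ 2 + ω + 1 = 0)
    (ht3 : t ^ 3 - 1 ≠ 0)
    (hrel : algebraMap F L j * (t ^ 3 - 1) ^ 3 = 27 * t ^ 3 * (t ^ 3 + 8) ^ 3)
    (htop : IntermediateField.adjoin F {t} = ⊤)
    (σ : L ≃ₐ[F] L) (hσ : σ (hesG t) ≠ hesG t)
    {u : L} (hu3 : u ^ 3 ∈ (algebraMap F L).range) (hσu : σ u = u) :
    u ∈ (algebraMap F L).range := by
  classical
  haveI : CharZero L := charZero_of_injective_algebraMap (algebraMap F L).injective
  have h3 : (3 : L) ≠ 0 := by norm_num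
  set w : L := algebraMap F L ω with hwdef
  have hw : w ^ 2 + w + 1 = 0 := by
    rw [hwdef, ← map_pow, ← map_add, ← map_one (algebraMap F L), ← map_add, hω, map_zero]
  have hw3 : w ^ 3 = 1 := by linear_combination (w - 1) * hw
  have hw23 : (w ^ 2) ^ 3 = 1 := by rw [← pow_mul, mul_comm, pow_mul, hw3, one_pow]
  have hgw : ∀ g : L ≃ₐ[F] L, g w = w := fun g => g.commutes ω
  have hgw2 : ∀ g : L ≃ₐ[F] L, g (w ^ 2) = w ^ 2 := fun g => by rw [map_pow, hgw]
  -- the Hesse equation over `F`
  set P : F[X] := C 27 * X ^ 3 * (X ^ 3 + 8) ^ 3 - C j * (X ^ 3 - 1) ^ 3 with hP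
  have hP0 : P ≠ 0 := by
    intro h
    have h1 := congrArg (Polynomial.eval 1) h
    simp [hP] at h1
    norm_num at h1
  have hPmap : P.map (algebraMap F L) =
      C 27 * X ^ 3 * (X ^ 3 + 8) ^ 3 - C (algebraMap F L j) * (X ^ 3 - 1) ^ 3 := by
    simp only [hP, Polynomial.map_sub, Polynomial.map_mul, Polynomial.map_pow,
      Polynomial.map_add, Polynomial.map_one, map_X, map_C, map_ofNat, Polynomial.map_ofNat]
  have hPt : aeval t P = 0 := by
    rw [aeval_def, eval₂_eq_eval_map, hPmap]
    simp only [eval_sub, eval_mul, eval_pow, eval_add, eval_one, eval_X, eval_C, eval_ofNat]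
    linear_combination -hrel
  have hsplit : (P.map (algebraMap F L)).Splits := by
    rw [hPmap]
    exact hesse_poly_splits w t (algebraMap F L j) hw ht3 hrel
  have halg : IsIntegral F t := (isAlgebraic_iff_isIntegral.mp ⟨P, hP0, hPt⟩)
  haveI : P.IsSplittingField F L := by
    rw [isSplittingField_iff_intermediateField]
    refine ⟨hsplit, ?_⟩
    rw [eq_top_iff, ← htop, IntermediateField.adjoin_le_iff, Set.singleton_subset_iff]
    apply IntermediateField.subset_adjoin
    rw [mem_rootSet]
    exact ⟨hP0, hPt⟩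
  haveI : FiniteDimensional F L := Polynomial.IsSplittingField.finiteDimensional L P
  haveI : Algebra.IsSeparable F L := Algebra.IsAlgebraic.isSeparable_of_perfectField
  haveI : Normal F L := Normal.of_isSplittingField P
  haveI : IsGalois F L := ⟨⟩
  -- cube roots of unity are fixed
  have hfix1 : ∀ x : L, x ^ 3 = 1 → ∀ g : L ≃ₐ[F] L, g x = x := by
    intro x hx g
    have hx' : x ^ 3 = (1 : L) ^ 3 := by rw [hx, one_pow]
    rcases hesA4_eq_or_of_cube_eq w hw hx' with e | e | e
    · rw [e, map_one]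
    · rw [e, mul_one, hgw]
    · rw [e, mul_one, hgw2]
  -- `γ = g(t)`
  set γ : L := hesG t with hγ
  have hγ0 : γ ≠ 0 := by
    intro h0
    apply hσ
    rw [h0, map_zero]
  have hgt3 : ∀ g : L ≃ₐ[F] L, (g t) ^ 3 - 1 ≠ 0 := by
    intro g h0
    apply ht3
    have : g (t ^ 3 - 1) = 0 := by rw [map_sub, map_pow, map_one, h0]
    exact (map_eq_zero g).mp this
  have hγ3 : 27 * γ ^ 3 = algebraMap F L j := by
    rw [hγ, hesG, div_pow, mul_div_assoc', div_eq_iff (pow_ne_zero 3 ht3)]
    linear_combination -hrel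
  have hgγ3 : ∀ g : L ≃ₐ[F] L, (g γ / γ) ^ 3 = 1 := by
    intro g
    have h1 := congrArg g hγ3
    rw [map_mul, map_pow, map_ofNat, g.commutes] at h1
    rw [div_pow, div_eq_one_iff_eq (pow_ne_zero 3 hγ0)]
    have h27 : (27 : L) ≠ 0 := by norm_num
    apply mul_left_cancel₀ h27
    rw [h1, hγ3]
  -- the stabiliser of `γ` has exponent `2`
  have hN : ∀ g : L ≃ₐ[F] L, g γ = γ → ∀ y : L, g (g y) = y := by
    intro g hg y
    have hgt : g (g t) = t := by
      have e1 : hesG (g t) = hesG t := by rw [← map_hesG, ← hγ, hg]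
      rcases hesG_fibre w hw t (g t) ht3 (hgt3 g) e1 with e | e | e | e
      · rw [e, e]
      · have hε : (1 : L) ^ 3 = 1 := one_pow 3
        exact HesRel.unique hε h3 (e.map g (map_one g)) e.symm
      · exact HesRel.unique hw3 h3 (e.map g (hgw g)) e.symm
      · exact HesRel.unique hw23 h3 (e.map g (hgw2 g)) e.symm
    exact algEquiv_eq_one_of_apply_generator htop halg (g * g) hgt y
  -- the case `u = 0`
  by_cases hu0 : u = 0
  · rw [hu0]
    exact zero_mem _
  obtain ⟨a, ha⟩ := hu3
  have hgu3 : ∀ g : L ≃ₐ[F] L, (g u / u) ^ 3 = 1 := by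
    intro g
    have h1 := congrArg g ha
    rw [g.commutes, map_pow] at h1
    rw [div_pow, div_eq_one_iff_eq (pow_ne_zero 3 hu0), ← h1, ha]
  -- `N` fixes `u`
  have hNu : ∀ g : L ≃ₐ[F] L, g γ = γ → g u = u := by
    intro g hg
    set z := g u / u with hz
    have hz3 := hgu3 g
    have hgu : g u = z * u := by rw [hz, div_mul_cancel₀ _ hu0]
    have h2 := hN g hg u
    rw [hgu, map_mul, hfix1 z hz3 g, hgu] at h2
    have hz2 : z ^ 2 = 1 := by
      apply mul_right_cancel₀ hu0
      linear_combination h2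
    have hz1 : z = 1 := by
      have : z ^ 3 = z * z ^ 2 := by ring
      rw [this, hz2, mul_one] at hz3
      exact hz3
    rw [hgu, hz1, one_mul]
  -- the class of `σ`
  set s := σ γ / γ with hs
  have hs3 : s ^ 3 = 1 := hgγ3 σ
  have hσγ : σ γ = s * γ := by rw [hs, div_mul_cancel₀ _ hγ0]
  have hs1 : s ≠ 1 := by
    intro h1
    apply hσ
    rw [hσγ, h1, one_mul]
  have hs2 : s ^ 2 + s + 1 = 0 := by
    have : (s - 1) * (s ^ 2 + s + 1) = 0 := by linear_combination hs3
    exact (mul_eq_zero.mp this).resolve_left (sub_ne_zero.mpr hs1)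
  have hσs : σ s = s := hfix1 s hs3 σ
  -- every `g` fixes `u`
  have hall : ∀ g : L ≃ₐ[F] L, g u = u := by
    intro g
    set c := g γ / γ with hc
    have hc3 : c ^ 3 = 1 := hgγ3 g
    have hgγ : g γ = c * γ := by rw [hc, div_mul_cancel₀ _ hγ0]
    set z := g u / u with hz
    have hz3 : z ^ 3 = 1 := hgu3 g
    have hσz : σ z = z := hfix1 z hz3 σ
    have hgu : g u = z * u := by rw [hz, div_mul_cancel₀ _ hu0]
    have hcases : (c - 1) * (c - s) * (c - s ^ 2) = 0 := by
      linear_combination hc3 + (-c ^ 2 + c * s - (s - 1)) * hs2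
    rcases mul_eq_zero.mp hcases with h1 | h1
    · rcases mul_eq_zero.mp h1 with h1 | h1
      · -- `c = 1`
        apply hNu g
        rw [hgγ, sub_eq_zero.mp h1, one_mul]
      · -- `c = s`: `σ σ g` fixes `γ`
        have hc' : c = s := sub_eq_zero.mp h1
        have h2 : (σ * σ * g) γ = γ := by
          show σ (σ (g γ)) = γ
          simp only [hgγ, hc', map_mul, hσs, hσγ]
          linear_combination γ * hs3
        have h3' := hNu _ h2
        have h4 : (σ * σ * g) u = z * u := by
          show σ (σ (g u)) = z * u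
          simp only [hgu, map_mul, hσz, hσu]
        rw [hgu, ← h4, h3']
    · -- `c = s²`: `σ g` fixes `γ`
      have hc' : c = s ^ 2 := sub_eq_zero.mp h1
      have h2 : (σ * g) γ = γ := by
        show σ (g γ) = γ
        simp only [hgγ, hc', map_mul, map_pow, hσs, hσγ]
        linear_combination γ * hs3
      have h3' := hNu _ h2
      have h4 : (σ * g) u = z * u := by
        show σ (g u) = z * u
        simp only [hgu, map_mul, hσz, hσu]
      rw [hgu, ← h4, h3']
  exact (IsGalois.mem_range_algebraMap_iff_fixed u).mpr hall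

end Abs

end Fermat.Agent.ML
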