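/-
PROJECT ML (S59) — helper8 — **Hesse [HOSTGAL] at `p = 3`: Kummer descent of `3 ^ n`-th powers
through the Hesse host.**

`F = keyFq K N` (the function field of `X₀(N)`-type over `K`), `E = hesE K N = F_3(t)`,
`φ = fullToHesE K N` (`q = x³`).  `E / φ F` is Galois with group `↪ A₄`; the twist `x ↦ ω x`
(`ω` a primitive cube root of unity of `K`) induces an automorphism `σ` of `E / φ F` which moves
`γ = t (t³ + 8) / (t³ − 1)` (`27 γ³ = j(x³)`, so `γ` has a simple pole in `x`).  By the abstract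
theorem `mem_range_of_cube_mem_hesse` an element `u ∈ E` with `u³ ∈ φ F` and `σ u = u` lies in
`φ F`; and `σ u = ω ^ (ord_x u) u`.  Hence

* `mem_range_fullToHesE_of_cube` : `φ G = u ^ 3`, `3 ∣ ord_q G`  ⇒  `u ∈ φ F`;
* `exists_pow_eq_of_fullToHesE_eq_pow₀` : `φ G = u ^ (3 ^ n)`, `3 ^ n ∣ ord_q G`  ⇒
  `G = v ^ (3 ^ n)`, `φ v = u`.

The hypothesis on the order cannot be dropped: `φ j = (3 γ) ^ 3`.
-/
import Mathlib
import Fermat.Agent.ML.HES3_helper8_Abs
import Fermat.Agent.FG.EGAL_helper6_CuspHes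
import Fermat.Agent.FG.EGAL_helper6_Gen
import Fermat.Agent.SS.HOSTB_helper6_PhiShape
import Fermat.Agent.SS.CUSPORD_helper9_Main

set_option autoImplicit false
set_option linter.unusedSectionVars false
set_option linter.unusedVariables false
set_option linter.style.haveILetI false
set_option synthInstance.maxHeartbeats 400000

open IntermediateField AlgebraicCurve ModularCurve Polynomial

noncomputable section

namespace Fermat.Agent.ML

open Fermat.Agent.JA Fermat.Agent.SS Fermat.Agent.FG Fermat.Agent.Igusa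
open scoped Fermat.Agent.JA.Host

section Mobius

variable {K L : Type*} [Field K] [Field L] [Algebra K L]

theorem hes3_algebraMap_mul_sub_one_ne_zero {t : L} (ht : Transcendental K t)
    (a : K) : algebraMap K L a * t - 1 ≠ 0 := by
  intro h
  apply ht
  by_cases ha : a = 0
  · rw [ha, map_zero, zero_mul, zero_sub] at h
    exact absurd h (neg_ne_zero.mpr one_ne_zero)
  · have h1 : t = algebraMap K L a⁻¹ := by
      have h2 : algebraMap K L a * t = 1 := sub_eq_zero.mp h
      rw [map_inv₀]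
      exact eq_inv_of_mul_eq_one_right h2
    rw [h1]
    exact isAlgebraic_algebraMap _

theorem hes3_mem_of_mul_sub_eq_zero {S : IntermediateField K L} {A B Y : L} (hA : A ∈ S) (hB : B ∈ S)
    (hA0 : A ≠ 0) (h : A * Y - B = 0) : Y ∈ S := by
  have e : Y = B / A := by
    rw [eq_div_iff hA0, mul_comm]
    exact sub_eq_zero.mp h
  rw [e]
  exact div_mem hB hA

/-- a root `Y` of one of the four `V₄`-factors is a Möbius transform of `t`. -/
theorem mem_adjoin_of_hesQuad_eq_zero {t Y : L} (ht : Transcendental K t) (ω : K)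
    (h : hesQuad (algebraMap K L ω) t Y = 0) : Y ∈ K⟮t⟯ := by
  have htm : t ∈ K⟮t⟯ := IntermediateField.mem_adjoin_simple_self K t
  have h1m : (1 : L) ∈ K⟮t⟯ := one_mem _
  have h2m : (2 : L) ∈ K⟮t⟯ := by
    have : (2 : L) = 1 + 1 := by norm_num
    rw [this]
    exact add_mem h1m h1m
  have hWm : algebraMap K L ω ∈ K⟮t⟯ := K⟮t⟯.algebraMap_mem ω
  have hW2m : algebraMap K L ω ^ 2 ∈ K⟮t⟯ := pow_mem hWm 2
  unfold hesQuad at h
  rcases mul_eq_zero.mp h with h | h
  · rcases mul_eq_zero.mp h with h | h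
    · rcases mul_eq_zero.mp h with h | h
      · rw [sub_eq_zero.mp h]
        exact htm
      · refine hes3_mem_of_mul_sub_eq_zero (sub_mem htm h1m) (add_mem htm h2m) ?_ h
        have := hes3_algebraMap_mul_sub_one_ne_zero ht (1 : K)
        rwa [map_one, one_mul] at this
    · refine hes3_mem_of_mul_sub_eq_zero (sub_mem (mul_mem hW2m htm) h1m)
        (add_mem htm (mul_mem h2m hWm)) ?_ h
      have := hes3_algebraMap_mul_sub_one_ne_zero ht (ω ^ 2)
      rwa [map_pow] at this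
  · refine hes3_mem_of_mul_sub_eq_zero (sub_mem (mul_mem hWm htm) h1m)
      (add_mem htm (mul_mem h2m hW2m)) ?_ h
    exact hes3_algebraMap_mul_sub_one_ne_zero ht ω

/-- two transcendental solutions `t`, `s` of the same Hesse equation: `s ∈ K(t)`. -/
theorem mem_adjoin_of_hesse_rel [CharZero L] {t s j : L} (ht : Transcendental K t) {ω : K}
    (hω : ω ^ 2 + ω + 1 = 0)
    (hrel : j * (t ^ 3 - 1) ^ 3 = 27 * t ^ 3 * (t ^ 3 + 8) ^ 3)
    (hrel' : j * (s ^ 3 - 1) ^ 3 = 27 * s ^ 3 * (s ^ 3 + 8) ^ 3) : s ∈ K⟮t⟯ := by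
  set W : L := algebraMap K L ω with hW
  have hW2 : W ^ 2 + W + 1 = 0 := by
    rw [hW, ← map_pow, ← map_add, ← map_one (algebraMap K L), ← map_add, hω, map_zero]
  have hW3 : W ^ 3 = 1 := by linear_combination (W - 1) * hW2
  have hW0 : W ≠ 0 := by
    intro h0
    rw [h0] at hW3
    norm_num at hW3
  have hWm : W ∈ K⟮t⟯ := K⟮t⟯.algebraMap_mem ω
  have h12 := hesse_twelve_factor W t s hW2
  have h27 : (27 : L) ≠ 0 := by norm_num
  have hz : hesQuad W t s * hesQuad W t (W * s) * hesQuad W t (W ^ 2 * s) = 0 := by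
    apply mul_left_cancel₀ h27
    rw [mul_zero, ← h12]
    linear_combination (-(t ^ 3 - 1) ^ 3) * hrel' + (s ^ 3 - 1) ^ 3 * hrel
  rcases mul_eq_zero.mp hz with hz | hz
  · rcases mul_eq_zero.mp hz with hz | hz
    · exact mem_adjoin_of_hesQuad_eq_zero ht ω hz
    · have h1 := mem_adjoin_of_hesQuad_eq_zero ht ω hz
      have e : s = (W * s) / W := by rw [mul_div_cancel_left₀ _ hW0]
      rw [e]
      exact div_mem h1 hWm
  · have h1 := mem_adjoin_of_hesQuad_eq_zero ht ω hz
    have e : s = (W ^ 2 * s) / W ^ 2 := by rw [mul_div_cancel_left₀ _ (pow_ne_zero 2 hW0)]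
    rw [e]
    exact div_mem h1 (pow_mem hWm 2)

end Mobius

section Twist

variable (K : Type*) [Field K] [Algebra ℚ K]

/-- the twist `x ↦ ξ x` as a `K`-algebra automorphism of `K⸨x⸩`. -/
def hesTwist (ξ : Kˣ) : LaurentSeries K ≃ₐ[K] LaurentSeries K :=
  AlgEquiv.ofRingEquiv (f := twist ξ) (fun c => by
    rw [LaurentSeries.algebraMap_apply]
    exact twist_C _ c)

theorem hesTwist_apply (ξ : Kˣ) (f : LaurentSeries K) : hesTwist K ξ f = twist ξ f := rfl

theorem hesTwist_coeff (ξ : Kˣ) (f : LaurentSeries K) (n : ℤ) :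
    (hesTwist K ξ f).coeff n = ((ξ ^ n : Kˣ) : K) * f.coeff n := rfl

theorem hesTwist_inv_hesTwist (ξ : Kˣ) (f : LaurentSeries K) :
    hesTwist K ξ⁻¹ (hesTwist K ξ f) = f := by
  rw [hesTwist_apply, hesTwist_apply, ← twist_mul, inv_mul_cancel, twist_one]

theorem hesTwist_hesTwist_inv (ξ : Kˣ) (f : LaurentSeries K) :
    hesTwist K ξ (hesTwist K ξ⁻¹ f) = f := by
  rw [hesTwist_apply, hesTwist_apply, ← twist_mul, mul_inv_cancel, twist_one]

theorem hesTwist_qExpand_three {ξ : Kˣ} (hξ : ξ ^ 3 = 1) (f : LaurentSeries K) :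
    hesTwist K ξ (qExpand K 3 f) = qExpand K 3 f := by
  rw [hesTwist_apply, twist_qExpand, hξ, twist_one]

theorem hesTwist_jqNModC {ξ : Kˣ} (hξ : ξ ^ 3 = 1) :
    hesTwist K ξ (jqNModC K 3) = jqNModC K 3 :=
  hesTwist_qExpand_three K hξ _

/-- the Hesse relation in `K⸨x⸩`. -/
theorem hesT_rel :
    jqNModC K 3 * (hesT K ^ 3 - 1) ^ 3 = 27 * hesT K ^ 3 * (hesT K ^ 3 + 8) ^ 3 := by
  have h := jqNModC_mul_aeval_hesT K
  rwa [Host.aeval_hesA, Host.aeval_hesB] at h

theorem hesT_cube_sub_one_ne_zero : hesT K ^ 3 - 1 ≠ 0 :=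
  hesA4_cube_sub_one_ne_zero (transcendental_hesT K)

/-- **the twist maps the Hesse coordinate into `K(t)`** (to one of its `A₄`-transforms). -/
theorem hesTwist_hesT_mem {ω : K} (hω : ω ^ 2 + ω + 1 = 0) {ξ : Kˣ} (hξ : ξ ^ 3 = 1) :
    hesTwist K ξ (hesT K) ∈ K⟮hesT K⟯ := by
  haveI : CharZero K := charZero_of_injective_algebraMap (algebraMap ℚ K).injective
  haveI : CharZero (LaurentSeries K) :=
    charZero_of_injective_algebraMap (algebraMap K (LaurentSeries K)).injective
  have hrel := hesT_rel K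
  have hrel' : jqNModC K 3 * (hesTwist K ξ (hesT K) ^ 3 - 1) ^ 3 =
      27 * hesTwist K ξ (hesT K) ^ 3 * (hesTwist K ξ (hesT K) ^ 3 + 8) ^ 3 := by
    have h := congrArg (hesTwist K ξ) hrel
    simpa only [map_mul, map_pow, map_sub, map_add, map_one, map_ofNat,
      hesTwist_jqNModC K hξ] using h
  exact mem_adjoin_of_hesse_rel (transcendental_hesT K) hω hrel hrel'

/-- `γ = t (t³ + 8) / (t³ − 1)` has a simple pole in `x`. -/
theorem order_hesG_hesT : (hesG (hesT K)).order = -1 := by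
  haveI : CharZero K := charZero_of_injective_algebraMap (algebraMap ℚ K).injective
  haveI : CharZero (LaurentSeries K) :=
    charZero_of_injective_algebraMap (algebraMap K (LaurentSeries K)).injective
  have ht3 := hesT_cube_sub_one_ne_zero K
  have hrel := hesT_rel K
  set γ : LaurentSeries K := hesG (hesT K) with hγ
  have hγ3 : 27 * γ ^ 3 = jqNModC K 3 := by
    rw [hγ, hesG, div_pow, mul_div_assoc', div_eq_iff (pow_ne_zero 3 ht3)]
    linear_combination -hrel
  have hord := cuspord_order_jqNModC K 3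
  rw [← hγ3] at hord
  have h27 : (27 : LaurentSeries K) ≠ 0 := by norm_num
  have hγ0 : γ ≠ 0 := by
    intro h0
    rw [h0] at hord
    simp at hord
  have h27o : (27 : LaurentSeries K).order = 0 := by
    rw [← map_ofNat (algebraMap K (LaurentSeries K)) 27, LaurentSeries.algebraMap_apply]
    exact HahnSeries.order_C
  rw [HahnSeries.order_mul h27 (pow_ne_zero 3 hγ0), h27o, zero_add, HahnSeries.order_pow] at hord
  simp only [nsmul_eq_mul] at hord
  push_cast at hord
  omega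

/-- **the twist by `ξ ≠ 1` moves `γ`.** -/
theorem hesTwist_hesG_ne {ξ : Kˣ} (hξ1 : ξ ≠ 1) :
    hesTwist K ξ (hesG (hesT K)) ≠ hesG (hesT K) := by
  intro hfix
  have hord := order_hesG_hesT K
  set γ : LaurentSeries K := hesG (hesT K) with hγ
  have hγ0 : γ ≠ 0 := by
    intro h0
    rw [h0] at hord
    simp at hord
  have hc : γ.coeff (-1) ≠ 0 := by
    rw [← hord]
    exact fun h => hγ0 (HahnSeries.coeff_order_eq_zero.mp h)
  have h1 : (hesTwist K ξ γ).coeff (-1) = γ.coeff (-1) := by rw [hfix]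
  rw [hesTwist_coeff] at h1
  have h2 : (((ξ ^ (-1 : ℤ) : Kˣ) : K) - 1) * γ.coeff (-1) = 0 := by linear_combination h1
  rcases mul_eq_zero.mp h2 with h3 | h3
  · apply hξ1
    have h4 : ((ξ ^ (-1 : ℤ) : Kˣ) : K) = ((1 : Kˣ) : K) := by
      rw [Units.val_one]
      exact sub_eq_zero.mp h3
    have h5 : ξ ^ (-1 : ℤ) = 1 := Units.ext h4
    rw [zpow_neg_one, inv_eq_one] at h5
    exact h5
  · exact hc h3

end Twist

section Host

variable (K : Type*) [Field K] [Algebra ℚ K] (N : ℕ) [NeZero N]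

/-- the twist preserves the Hesse host. -/
theorem hesTwist_mem_hesE {ω : K} (hω : ω ^ 2 + ω + 1 = 0) {ξ : Kˣ} (hξ : ξ ^ 3 = 1)
    {f : LaurentSeries K} (hf : f ∈ hesE K N) : hesTwist K ξ f ∈ hesE K N := by
  have e : hesE K N = keyFw K N 3 ⊔ K⟮hesT K⟯ := Etu_one_eq_sup K N 3 (hesT K)
  have h : (hesE K N).map ((hesTwist K ξ : LaurentSeries K ≃ₐ[K] LaurentSeries K) :
      LaurentSeries K →ₐ[K] LaurentSeries K) ≤ hesE K N := by
    rw [e, IntermediateField.map_sup, IntermediateField.adjoin_map, Set.image_singleton]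
    refine sup_le ?_ ?_
    · rintro _ ⟨f, hf, rfl⟩
      obtain ⟨g, hg, rfl⟩ := mem_hostImage_iff.mp hf
      refine (le_sup_left : keyFw K N 3 ≤ _) ?_
      show hesTwist K ξ (qExpand K 3 g) ∈ _
      rw [hesTwist_qExpand_three K hξ]
      exact mem_hostImage_iff.mpr ⟨g, hg, rfl⟩
    · rw [adjoin_simple_le_iff]
      exact (le_sup_right : K⟮hesT K⟯ ≤ _) (hesTwist_hesT_mem K hω hξ)
  exact h ⟨f, hf, rfl⟩

/-- the twist on the Hesse host. -/
def hostHesTwist {ω : K} (hω : ω ^ 2 + ω + 1 = 0) {ξ : Kˣ} (hξ : ξ ^ 3 = 1) :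
    ↥(hesE K N) ≃+* ↥(hesE K N) where
  toFun x := ⟨hesTwist K ξ x, hesTwist_mem_hesE K N hω hξ x.2⟩
  invFun x := ⟨hesTwist K ξ⁻¹ x, hesTwist_mem_hesE K N hω
    (by rw [inv_pow, hξ, inv_one]) x.2⟩
  left_inv x := Subtype.ext (hesTwist_inv_hesTwist K ξ _)
  right_inv x := Subtype.ext (hesTwist_hesTwist_inv K ξ _)
  map_mul' x y := Subtype.ext (map_mul (hesTwist K ξ) _ _)
  map_add' x y := Subtype.ext (map_add (hesTwist K ξ) _ _)

theorem coe_hostHesTwist {ω : K} (hω : ω ^ 2 + ω + 1 = 0) {ξ : Kˣ} (hξ : ξ ^ 3 = 1)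
    (x : ↥(hesE K N)) :
    ((hostHesTwist K N hω hξ x : ↥(hesE K N)) : LaurentSeries K) = hesTwist K ξ x := rfl

theorem hostHesTwist_fullToHesE {ω : K} (hω : ω ^ 2 + ω + 1 = 0) {ξ : Kˣ} (hξ : ξ ^ 3 = 1)
    (f : ↥(keyFq K N)) :
    hostHesTwist K N hω hξ (fullToHesE K N f) = fullToHesE K N f := by
  apply Subtype.ext
  rw [coe_hostHesTwist, coe_fullToHesE]
  exact hesTwist_qExpand_three K hξ _

theorem coe_hesG_hesTE :
    ((hesG (hesTE K N) : ↥(hesE K N)) : LaurentSeries K) = hesG (hesT K) := by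
  unfold hesG
  push_cast
  rfl

theorem hesTE_cube_sub_one_ne_zero' : hesTE K N ^ 3 - 1 ≠ 0 := by
  intro h
  apply hesT_cube_sub_one_ne_zero K
  have h1 := congrArg (Subtype.val : ↥(hesE K N) → LaurentSeries K) h
  push_cast at h1
  exact h1

/-- the `j`-function as an element of `F`. -/
def hesJF : ↥(keyFq K N) := ⟨jqModC K, jqModC_mem_keyFq N⟩

theorem coe_fullToHesE_hesJF :
    ((fullToHesE K N (hesJF K N) : ↥(hesE K N)) : LaurentSeries K) = jqNModC K 3 := rfl

/-- the Hesse relation in the host. -/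
theorem hesTE_rel' :
    fullToHesE K N (hesJF K N) * (hesTE K N ^ 3 - 1) ^ 3 =
      27 * hesTE K N ^ 3 * (hesTE K N ^ 3 + 8) ^ 3 := by
  apply Subtype.ext
  have h := hesT_rel K
  push_cast
  rw [coe_fullToHesE_hesJF]
  exact h

theorem order_coe_of_fullToHesE_eq_cube {G : ↥(keyFq K N)} {u : ↥(hesE K N)}
    (h : (fullToHesE K N).toRingHom G = u ^ 3) :
    ((u : ↥(hesE K N)) : LaurentSeries K).order = (G : LaurentSeries K).order := by
  have h1 := congrArg (Subtype.val : ↥(hesE K N) → LaurentSeries K) h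
  have h2 : qExpand K 3 (G : LaurentSeries K) = ((u : ↥(hesE K N)) : LaurentSeries K) ^ 3 := by
    rw [← coe_fullToHesE]
    exact h1
  have h3 := congrArg HahnSeries.order h2
  rw [order_qExpand, HahnSeries.order_pow] at h3
  simp only [nsmul_eq_mul] at h3
  push_cast at h3
  omega

/-- **Kummer descent of cubes through the Hesse host.** -/
theorem mem_range_fullToHesE_of_cube {ω : K} (hω : ω ^ 2 + ω + 1 = 0) {G : ↥(keyFq K N)}
    {u : ↥(hesE K N)} (hord : (3 : ℤ) ∣ (G : LaurentSeries K).order)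
    (h : (fullToHesE K N).toRingHom G = u ^ 3) :
    u ∈ (fullToHesE K N).toRingHom.range := by
  classical
  letI : Algebra ↥(keyFq K N) ↥(hesE K N) := algebraAlong (fullToHesE K N)
  haveI : IsScalarTower K ↥(keyFq K N) ↥(hesE K N) := isScalarTower_along (fullToHesE K N)
  haveI : CharZero K := charZero_of_injective_algebraMap (algebraMap ℚ K).injective
  haveI : CharZero ↥(keyFq K N) :=
    charZero_of_injective_algebraMap (algebraMap K ↥(keyFq K N)).injective
  haveI : CharZero ↥(hesE K N) :=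
    charZero_of_injective_algebraMap (algebraMap K ↥(hesE K N)).injective
  have hω3 : ω ^ 3 = 1 := by linear_combination (ω - 1) * hω
  have hω1 : ω ≠ 1 := by
    intro h2
    rw [h2] at hω
    norm_num at hω
  have hω21 : ω ^ 2 ≠ 1 := by
    intro h2
    apply hω1
    have : ω ^ 3 = ω * ω ^ 2 := by ring
    rw [this, h2, mul_one] at hω3
    exact hω3
  set ξ : Kˣ := Units.mkOfMulEqOne ω (ω ^ 2) (by linear_combination hω3) with hξ
  have hξv : (ξ : K) = ω := rfl
  have hξ3 : ξ ^ 3 = 1 := Units.ext (by rw [Units.val_pow_eq_pow_val, hξv, hω3, Units.val_one])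
  have hξ1 : ξ ≠ 1 := by
    intro h1
    apply hω1
    rw [← hξv, h1, Units.val_one]
  let σ : ↥(hesE K N) ≃ₐ[↥(keyFq K N)] ↥(hesE K N) :=
    AlgEquiv.ofRingEquiv (f := hostHesTwist K N hω hξ3) (hostHesTwist_fullToHesE K N hω hξ3)
  have hσcoe : ∀ x : ↥(hesE K N),
      ((σ x : ↥(hesE K N)) : LaurentSeries K) = hesTwist K ξ x := fun x => rfl
  have hσ : σ (hesG (hesTE K N)) ≠ hesG (hesTE K N) := by
    intro h0
    apply hesTwist_hesG_ne K hξ1
    have h1 := congrArg (Subtype.val : ↥(hesE K N) → LaurentSeries K) h0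
    rw [hσcoe, coe_hesG_hesTE] at h1
    exact h1
  have hωF : (algebraMap K ↥(keyFq K N) ω) ^ 2 + algebraMap K ↥(keyFq K N) ω + 1 = 0 := by
    rw [← map_pow, ← map_add, ← map_one (algebraMap K ↥(keyFq K N)), ← map_add, hω, map_zero]
  have htop : IntermediateField.adjoin ↥(keyFq K N) {hesTE K N} = ⊤ :=
    adjoin_fullToEtu_eq_top K N 3 (hesT K)
  -- `σ u = u`
  have hσu : σ u = u := by
    by_cases hu0 : u = 0
    · rw [hu0, map_zero]
    set W : ↥(hesE K N) := algebraMap K ↥(hesE K N) ω with hW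
    have hW2 : W ^ 2 + W + 1 = 0 := by
      rw [hW, ← map_pow, ← map_add, ← map_one (algebraMap K ↥(hesE K N)), ← map_add, hω,
        map_zero]
    have hcube : (σ u) ^ 3 = u ^ 3 := by
      rw [← map_pow, ← h]
      exact σ.commutes G
    have huL0 : ((u : ↥(hesE K N)) : LaurentSeries K) ≠ 0 := fun h0 => hu0 (Subtype.ext h0)
    set m : ℤ := ((u : ↥(hesE K N)) : LaurentSeries K).order with hm
    have hm3 : (3 : ℤ) ∣ m := by
      rw [hm, order_coe_of_fullToHesE_eq_cube K N h]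
      exact hord
    have hcm : ((u : ↥(hesE K N)) : LaurentSeries K).coeff m ≠ 0 :=
      fun h0 => huL0 (HahnSeries.coeff_order_eq_zero.mp h0)
    have hcoeff : ((σ u : ↥(hesE K N)) : LaurentSeries K).coeff m =
        ((u : ↥(hesE K N)) : LaurentSeries K).coeff m := by
      rw [hσcoe, hesTwist_apply]
      exact coeff_twist_of_dvd 3 hξ3 _ hm3
    have hkey : ∀ c : K, σ u = algebraMap K ↥(hesE K N) c * u → c = 1 := by
      intro c hc
      have h1 : ((σ u : ↥(hesE K N)) : LaurentSeries K).coeff m =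
          ((algebraMap K ↥(hesE K N) c * u : ↥(hesE K N)) : LaurentSeries K).coeff m := by
        rw [hc]
      rw [hcoeff] at h1
      have h2 : ((algebraMap K ↥(hesE K N) c * u : ↥(hesE K N)) : LaurentSeries K) =
          HahnSeries.C c * ((u : ↥(hesE K N)) : LaurentSeries K) := by
        rw [← LaurentSeries.algebraMap_apply K c]
        rfl
      rw [h2, HahnSeries.C_mul_eq_smul, HahnSeries.coeff_smul, smul_eq_mul] at h1
      have h3 : (c - 1) * ((u : ↥(hesE K N)) : LaurentSeries K).coeff m = 0 := by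
        linear_combination -h1
      rcases mul_eq_zero.mp h3 with h4 | h4
      · exact sub_eq_zero.mp h4
      · exact absurd h4 hcm
    rcases hesA4_eq_or_of_cube_eq W hW2 hcube with e | e | e
    · exact e
    · exact absurd (hkey ω e) hω1
    · rw [hW, ← map_pow] at e
      exact absurd (hkey (ω ^ 2) e) hω21
  have hmain := mem_range_of_cube_mem_hesse (F := ↥(keyFq K N)) (L := ↥(hesE K N))
    (t := hesTE K N) (j := hesJF K N) (ω := algebraMap K ↥(keyFq K N) ω) hωF
    (hesTE_cube_sub_one_ne_zero' K N) (hesTE_rel' K N) htop σ hσ (u := u) ⟨G, h⟩ hσu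
  exact hmain

/-- the same for `3 ^ n`-th powers. -/
theorem exists_pow_eq_of_fullToHesE_eq_pow_omega {ω : K} (hω : ω ^ 2 + ω + 1 = 0) :
    ∀ (n : ℕ) {G : ↥(keyFq K N)} {u : ↥(hesE K N)},
      ((3 : ℤ) ^ n ∣ (G : LaurentSeries K).order) →
      (fullToHesE K N).toRingHom G = u ^ (3 ^ n) →
      ∃ v : ↥(keyFq K N), G = v ^ (3 ^ n) ∧ fullToHesE K N v = u := by
  intro n
  induction n with
  | zero =>
    intro G u _ h
    refine ⟨G, by rw [pow_zero, pow_one], ?_⟩
    rw [pow_zero, pow_one] at h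
    exact h
  | succ n ih =>
    intro G u hord h
    have h3 : (3 : ℤ) ∣ (G : LaurentSeries K).order :=
      dvd_trans (dvd_pow_self (3 : ℤ) (Nat.succ_ne_zero n)) hord
    have h' : (fullToHesE K N).toRingHom G = (u ^ (3 ^ n)) ^ 3 := by
      rw [h, ← pow_mul, pow_succ]
    obtain ⟨G', hG'⟩ := mem_range_fullToHesE_of_cube K N hω h3 h'
    have hGG' : G = G' ^ 3 := by
      apply (fullToHesE K N).toRingHom.injective
      rw [h', map_pow, hG']
    have hord' : (3 : ℤ) ^ n ∣ (G' : LaurentSeries K).order := by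
      have h1 : (G : LaurentSeries K) = (G' : LaurentSeries K) ^ 3 := by
        rw [hGG']
        rfl
      rw [h1, HahnSeries.order_pow] at hord
      simp only [nsmul_eq_mul] at hord
      push_cast at hord
      rw [pow_succ, mul_comm] at hord
      exact (mul_dvd_mul_iff_left (by norm_num : (3 : ℤ) ≠ 0)).mp hord
    obtain ⟨v, hv, hvu⟩ := ih hord' hG'
    refine ⟨v, ?_, hvu⟩
    rw [hGG', hv, ← pow_mul, pow_succ]

/-- **[HOSTGAL] for the Hesse host at `p = 3`** (the form used by the descent): `φ G = u ^ (3 ^ n)`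
and `3 ^ n ∣ ord_q G` ⇒ `G` is a `3 ^ n`-th power in `F`. -/
theorem exists_pow_eq_of_fullToHesE_eq_pow₀ {n : ℕ} {ζ : K} (hζ : IsPrimitiveRoot ζ (3 ^ n))
    {G : ↥(keyFq K N)} {u : ↥(hesE K N)}
    (hord : (3 : ℤ) ^ n ∣ (G : LaurentSeries K).order)
    (h : (fullToHesE K N).toRingHom G = u ^ (3 ^ n)) :
    ∃ v : ↥(keyFq K N), G = v ^ (3 ^ n) ∧ fullToHesE K N v = u := by
  rcases Nat.eq_zero_or_pos n with hn | hn
  · subst hn
    refine ⟨G, by rw [pow_zero, pow_one], ?_⟩
    rw [pow_zero, pow_one] at h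
    exact h
  · obtain ⟨k, rfl⟩ : ∃ k, n = k + 1 := ⟨n - 1, by omega⟩
    have hω' : IsPrimitiveRoot (ζ ^ (3 ^ k)) 3 :=
      hζ.pow (by positivity) (by rw [pow_succ])
    set ω : K := ζ ^ (3 ^ k) with hωdef
    have hω3 : ω ^ 3 = 1 := hω'.pow_eq_one
    have hω1 : ω ≠ 1 := hω'.ne_one (by norm_num)
    have hω : ω ^ 2 + ω + 1 = 0 := by
      have : (ω - 1) * (ω ^ 2 + ω + 1) = 0 := by linear_combination hω3
      exact (mul_eq_zero.mp this).resolve_left (sub_ne_zero.mpr hω1)
    exact exists_pow_eq_of_fullToHesE_eq_pow_omega K N hω (k + 1) hord h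

end Host

end Fermat.Agent.ML

end
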