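/-
ML (S59) — helper6 — **Hesse-host port**: the host-level `SSFrobAut` on the Hesse hosts for every
prime `q ≠ 3` (twin of `S35.ssFrobAut_leg` / `S35.ssFrobAut_hes`).
-/
import Mathlib
import Fermat.Agent.S35.FROBSHEET_helper6_Host
import Fermat.Agent.ML.HESG_helper6_Model

set_option autoImplicit false
set_option linter.unusedSectionVars false
set_option linter.style.haveILetI false
set_option synthInstance.maxHeartbeats 200000

open HahnSeries IntermediateField ModularCurve Fermat.Agent.Igusa Fermat.Agent.JA Fermat.Agent.SS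

namespace Fermat.Agent.ML

open Fermat.Agent.S35

open scoped Fermat.Agent.JA.Host

section Host

variable (R : Type*) [CommRing R] [IsDomain R] [IsDiscreteValuationRing R] [CharZero R]
  (K : Type*) [Field K] [Algebra R K] [IsFractionRing R K] [Algebra ℚ K] [Algebra K ℂ]

/-- **the Frobenius-type automorphism of the Hesse model** (every prime `q ≠ 3`). -/
theorem ssFrobAut_hesG {M q : ℕ} [NeZero M] [NeZero q] [NeZero (M * q)] {x y : ℤ}
    [DecidableEq R] {π : R} (hπ : Irreducible π) {h3 : IsUnit (3 : R)} {ω : R}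
    {hbez : (q : ℤ) * x + M * y = 1} {hq : q.Prime} {hq3 : q ≠ 3}
    (hqπ : (q : R) ∈ Ideal.span {π})
    (h : SSModelHesG R K π h3 ω hbez hq hq3)
    (τ : K ≃ₐ[ℚ] K) (τR : R →+* R)
    (hτ : ∀ r : R, τ (algebraMap R K r) = algebraMap R K (τR r))
    (hfrob : ∀ r : R, τR r - r ^ q ∈ Ideal.span {π}) (hbij : Function.Bijective τR) :
    SSFrobAut π q (AdjoinSimple.gen K (jqNModC K 3)) (hesWinf R K h3 (M * q))
      (hesW0 R K hbez hq) τR
      ((coeffRingAut (coeffStable_hesE K (M * q)) τ :
        ↥(hesE K (M * q)) ≃+* ↥(hesE K (M * q))) : ↥(hesE K (M * q)) →+* ↥(hesE K (M * q))) := by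
  haveI : FiniteDimensional ↥K⟮jqNModC K 3⟯ ↥(hesE K (M * q)) := finite_hesE_adjoin_j K (M * q)
  haveI : CharP (IsLocalRing.ResidueField R) q := charP_residueField_of_mem_span hπ hq hqπ
  haveI : ExpChar (IsLocalRing.ResidueField R) q := ExpChar.prime hq
  have h' := SSModelHesG.ssModel R K h
  exact ssFrobAut_of_ssModel (coeffStable_hesE K (M * q)) (hesE_le_gaussField R K h3 (M * q)) hπ
    hq.pos h' rfl τ τR hτ hfrob hbij (Subtype.ext (coeffMap_jqNModC (τ : K →+* K) 3))
    (fun r => IsScalarTower.algebraMap_apply R K ↥(hesE K (M * q)) r)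

end Host

end Fermat.Agent.ML
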