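/-
ML (S59) — helper6 — **Hesse-host port** of `Fermat.Agent.RB.MAZ_helper6_Host`.
-/
import Mathlib
import Fermat.Agent.RB.MAZ_helper6_Host
import Fermat.Agent.ML.HESG_helper6_Frob
import Fermat.Agent.ML.HESG_helper6_AL
import Fermat.Agent.ML.HES_helper6_HostB

set_option autoImplicit false
set_option linter.unusedSectionVars false
set_option linter.style.haveILetI false
set_option synthInstance.maxHeartbeats 200000

open HahnSeries IntermediateField ModularCurve Fermat.Agent.Igusa Fermat.Agent.JA Fermat.Agent.SS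
open Fermat.Agent.S35 Fermat.Agent.S36

namespace Fermat.Agent.ML

open Fermat.Agent.RB

open scoped Fermat.Agent.JA.Host

noncomputable section

section Host

variable (R : Type*) [CommRing R] [IsDomain R] [IsDiscreteValuationRing R] [CharZero R]
  (K : Type*) [Field K] [Algebra R K] [IsFractionRing R K] [Algebra ℚ K] [Algebra K ℂ]
  {M q : ℕ} [NeZero M] [NeZero q] [NeZero (M * q)] [NeZero (M * q * q)]
  [NeZero (9 * M)] [NeZero (9 * M * q)] [NeZero (9 * M * q * q)]
  {x y x' y' : ℤ}

/-- **the host-level Atkin–Lehner involution is an `SSModelAL`.** -/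
theorem ssModelAL_hes [DecidableEq R] {π : R} (hπ : Irreducible π) {h2 : IsUnit (3 : R)}
    (hbez : (q : ℤ) * x + M * y = 1) (h' : (q : ℤ) * x' + ((9 * M : ℕ) : ℤ) * y' = 1)
    (hq : q.Prime) (hq3 : q ≠ 3) {ω : R} (h : SSModelHesG R K π h2 ω hbez hq hq3) :
    SSModelAL (R := R) (hesHostA K M q : ↥(hesE K M) →+* ↥(hesE K (M * q)))
      (hesHostBG K M q hq hq3 : ↥(hesE K M) →+* ↥(hesE K (M * q)))
      (hesWinf R K h2 (M * q)) (hesW0 R K hbez hq)
      ((hesALG K hbez h' hq hq3 : _ ≃ₐ[K] _) : ↥(hesE K (M * q)) →+* ↥(hesE K (M * q))) := by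
  have hmemA : ∀ c : ↥(hesE K M),
      ((hesHostA K M q c : ↥(hesE K (M * q))) : LaurentSeries K) ∈ hesE K M := by
    intro c
    rw [coe_hesHostA]
    exact c.2
  have hA : ∀ c : ↥(hesE K M), hesALG K hbez h' hq hq3 (hesHostA K M q c) =
      hesHostBG K M q hq hq3 c := by
    intro c
    apply Subtype.ext
    rw [coe_hesHostBG]
    have := coe_alEtu_of_mem K 3 (9 * M) hbez h' hq (hes_dvd_nine M) (hesT K) (hesT_mem_keyFq K)
      (qExpand_hesT_mem_hesE_gen K hq hq3 (Dvd.intro_left M rfl)) (hesHostA K M q c) (hmemA c)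
    rw [coe_hesHostA] at this
    exact this
  refine
    { map_R := fun r => ?_
      map_A := hA
      map_B := fun c => ?_
      invol := fun z => ?_
      mem_inf := fun z => ?_ }
  · rw [IsScalarTower.algebraMap_apply R K ↥(hesE K (M * q))]
    exact (hesALG K hbez h' hq hq3).commutes _
  · exact alEtu_eq_of_coe_eq_qExpand K 3 (9 * M) hbez h' hq (hes_dvd_nine M) (hesT K)
      (hesT_mem_keyFq K) (qExpand_hesT_mem_hesE_gen K hq hq3 (Dvd.intro_left M rfl))
      (hesHostA K M q c) (hesHostBG K M q hq hq3 c) (hmemA c)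
      (by rw [coe_hesHostBG, coe_hesHostA])
  · exact alEtu_alEtu K 3 (9 * M) hbez h' hq (hes_dvd_nine M) (hesT K) (hesT_mem_keyFq K)
      (qExpand_hesT_mem_hesE_gen K hq hq3 (Dvd.intro_left M rfl)) z
  · rw [hesW0_eq_comap_hesALG R K hbez h' hq hq3 hπ h]
    rfl

/-- **the Frobenius action on the Hesse model**: all fields of `SSModelFrob`, for an abstract
Frobenius lift `(τ, τR)`. -/
theorem ssModelFrob_hes [DecidableEq R] {π : R} (hπ : Irreducible π) {h2 : IsUnit (3 : R)}
    (hbez : (q : ℤ) * x + M * y = 1) (h' : (q : ℤ) * x' + ((9 * M : ℕ) : ℤ) * y' = 1)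
    (hq : q.Prime) (hq3 : q ≠ 3) (hqπ : (q : R) ∈ Ideal.span {π})
    {ω : R} (h : SSModelHesG R K π h2 ω hbez hq hq3)
    (τ : K ≃ₐ[ℚ] K) (τR : R →+* R)
    (hτ : ∀ r : R, τ (algebraMap R K r) = algebraMap R K (τR r))
    (hfrob : ∀ r : R, τR r - r ^ q ∈ Ideal.span {π}) (hbij : Function.Bijective τR) :
    SSModelFrob π q (AdjoinSimple.gen K (jqNModC K 3))
      (hesHostA K M q : ↥(hesE K M) →+* ↥(hesE K (M * q)))
      (hesHostBG K M q hq hq3 : ↥(hesE K M) →+* ↥(hesE K (M * q)))
      (hesWinf R K h2 M) (hesWinf R K h2 (M * q)) (hesW0 R K hbez hq) τR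
      ((coeffRingAut (coeffStable_hesE K M) τ : ↥(hesE K M) ≃+* ↥(hesE K M)) :
        ↥(hesE K M) →+* ↥(hesE K M))
      ((coeffRingAut (coeffStable_hesE K (M * q)) τ :
        ↥(hesE K (M * q)) ≃+* ↥(hesE K (M * q))) : ↥(hesE K (M * q)) →+* ↥(hesE K (M * q))) := by
  haveI : CharP (IsLocalRing.ResidueField R) q := charP_residueField_of_mem_span hπ hq hqπ
  haveI : ExpChar (IsLocalRing.ResidueField R) q := ExpChar.prime hq
  have hfrob' : ∀ r : R, τR r - r ^ q ∈ IsLocalRing.maximalIdeal R := by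
    intro r
    rw [(IsDiscreteValuationRing.irreducible_iff_uniformizer π).1 hπ]
    exact hfrob r
  have hΨ := ssFrobAut_hesG R K hπ hqπ h τ τR hτ hfrob hbij
  have hw := ssModelAL_hes R K hπ hbez h' hq hq3 h
  have hcommA : ∀ c : ↥(hesE K M),
      coeffRingAut (coeffStable_hesE K (M * q)) τ (hesHostA K M q c) =
        hesHostA K M q (coeffRingAut (coeffStable_hesE K M) τ c) := by
    intro c
    apply Subtype.ext
    rw [coe_coeffRingAut_apply, coe_hesHostA, coe_hesHostA, coe_coeffRingAut_apply]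
  have hcommB : ∀ c : ↥(hesE K M),
      coeffRingAut (coeffStable_hesE K (M * q)) τ (hesHostBG K M q hq hq3 c) =
        hesHostBG K M q hq hq3 (coeffRingAut (coeffStable_hesE K M) τ c) := by
    intro c
    apply Subtype.ext
    rw [coe_coeffRingAut_apply, coe_hesHostBG, coe_hesHostBG, coe_coeffRingAut_apply,
      coeffMap_qExpand]
  have hkinf : ∀ c ∈ hesWinf R K h2 M, (hesWinf R K h2 (M * q)).valuation
      ((hesHostA K M q : ↥(hesE K M) →+* ↥(hesE K (M * q))) c ^ q -
        (hesHostBG K M q hq hq3 : ↥(hesE K M) →+* ↥(hesE K (M * q)))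
          (coeffRingAut (coeffStable_hesE K M) τ c)) < 1 := fun c hc =>
    valuation_pow_sub_dilate_frob_lt_one q (τ : K →+* K) τR hτ hfrob'
      ((coeffRingAut (coeffStable_hesE K M) τ : ↥(hesE K M) ≃+* ↥(hesE K M)) :
        ↥(hesE K M) →+* ↥(hesE K M))
      (fun _ => rfl) (hesHostA K M q : ↥(hesE K M) →+* ↥(hesE K (M * q)))
      (hesHostBG K M q hq hq3 : ↥(hesE K M) →+* ↥(hesE K (M * q)))
      (fun f => coe_hesHostA K M q f) (fun f => coe_hesHostBG K M q hq hq3 f) hc
  exact
    { frob_R := hfrob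
      map_R_M := fun r => by
        rw [IsScalarTower.algebraMap_apply R K ↥(hesE K M), RingEquiv.coe_toRingHom,
          coeffRingAut_algebraMap, hτ, ← IsScalarTower.algebraMap_apply R K ↥(hesE K M)]
      map_R_N := hΨ.map_R
      map_j := hΨ.map_j
      bij_R := hbij
      bij_M := (coeffRingAut (coeffStable_hesE K M) τ).bijective
      bij_N := hΨ.bij
      comm_A := hcommA
      comm_B := hcommB
      mem_VM := fun f => frob_mem_gaussValSub_iff q (τ : K →+* K) τR hτ hfrob'
        ((coeffRingAut (coeffStable_hesE K M) τ : ↥(hesE K M) ≃+* ↥(hesE K M)) :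
          ↥(hesE K M) →+* ↥(hesE K M)) (fun _ => rfl) f
      mem_inf := hΨ.mem_inf
      mem_zero := hΨ.mem_zero
      kron_inf := hkinf
      kron_zero := fun c hc => by
        have h1 := hkinf c hc
        rw [← hw.valuation_inf_lt_one_iff]
        have h2 : ((hesALG K hbez h' hq hq3 : _ ≃ₐ[K] _) :
            ↥(hesE K (M * q)) →+* ↥(hesE K (M * q)))
            ((hesHostBG K M q hq hq3 : ↥(hesE K M) →+* ↥(hesE K (M * q))) c ^ q -
              (hesHostA K M q : ↥(hesE K M) →+* ↥(hesE K (M * q)))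
                (coeffRingAut (coeffStable_hesE K M) τ c)) =
            (hesHostA K M q : ↥(hesE K M) →+* ↥(hesE K (M * q))) c ^ q -
              (hesHostBG K M q hq hq3 : ↥(hesE K M) →+* ↥(hesE K (M * q)))
                (coeffRingAut (coeffStable_hesE K M) τ c) := by
          rw [map_sub, map_pow, hw.map_B, hw.map_A]
        exact lt_of_eq_of_lt (congrArg _ h2) h1 }

end Host

end

end Fermat.Agent.ML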