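/-
ML (S59) — helper6 — **Hesse-host port** of `Fermat.Agent.RB.MAZ_helper6_Base`.
-/
import Mathlib
import Fermat.Agent.RB.MAZ_helper6_Base
import Fermat.Agent.ML.HESG_helper6_HostFrob

set_option autoImplicit false
set_option linter.unusedSectionVars false
set_option linter.style.haveILetI false
set_option synthInstance.maxHeartbeats 200000

open HahnSeries IntermediateField AlgebraicCurve ModularCurve Fermat.Agent.Igusa

namespace Fermat.Agent.ML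

open Fermat.Agent.RB

open Fermat.Agent.JA Fermat.Agent.FF Fermat.Agent.SS Fermat.Agent.S35 Fermat.Agent.S36

open scoped Fermat.Agent.JA.Host

local notation "Ω" => AlgebraicClosure ℚ

local notation "GQ" => (AlgebraicClosure ℚ ≃ₐ[ℚ] AlgebraicClosure ℚ)

section Host

variable (R : Type*) [CommRing R] [IsDomain R] [IsDiscreteValuationRing R] [CharZero R]
  (K : Type*) [Field K] [Algebra R K] [IsFractionRing R K] [Algebra ℚ K] [Algebra K ℂ]
  {M q : ℕ} [NeZero M] [NeZero q] [NeZero (M * q)] [NeZero (M * q * q)]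
  [NeZero (9 * M)] [NeZero (9 * M * q)] [NeZero (9 * M * q * q)]
  {x y x' y' : ℤ}

set_option maxHeartbeats 1600000 in
/-- **the toric Frobenius relation on the Hesse hosts**, abstract Frobenius lift. -/
theorem hesMaz_of_ssModelHes [IsAlgClosed (IsLocalRing.ResidueField R)]
    [DecidableEq R] {π : R} (hπ : Irreducible π) {h2 : IsUnit (3 : R)}
    (hbez : (q : ℤ) * x + M * y = 1) (h' : (q : ℤ) * x' + ((9 * M : ℕ) : ℤ) * y' = 1)
    (hq : q.Prime) (hq3 : q ≠ 3) (hqπ : (q : R) ∈ Ideal.span {π})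
    {ω : R} (h : SSModelHesG R K π h2 ω hbez hq hq3)
    (τ : K ≃ₐ[ℚ] K) (τR : R →+* R)
    (hτ : ∀ r : R, τ (algebraMap R K r) = algebraMap R K (τR r))
    (hfrob : ∀ r : R, τR r - r ^ q ∈ Ideal.span {π}) (hbij : Function.Bijective τR)
    {m : ℕ} (hm : 0 < m) (hmR : IsUnit (m : R)) (ζ : R) (hζ : IsPrimitiveRoot ζ m)
    (g : ↥(hesE K (M * q))) (hg : g ≠ 0)
    (hordg : ∀ P : Place K ↥(hesE K (M * q)),
      P.ord g = 0 ∨ (IsRationalPlace P ∧ (m : ℤ) ∣ P.ord g))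
    (hordG : ∀ P : Place K ↥(hesE K (M * q)),
      P.ord (coeffRingAut (coeffStable_hesE K (M * q)) τ g * hesALG K hbez h' hq hq3 g ^ q) = 0 ∨
        (IsRationalPlace P ∧ (m : ℤ) ∣
          P.ord (coeffRingAut (coeffStable_hesE K (M * q)) τ g * hesALG K hbez h' hq hq3 g ^ q)))
    (linf l0 : ↥(hesE K (M * q)))
    (hlinf : (hesWinf R K h2 (M * q)).valuation linf = 1)
    (hl0 : (hesW0 R K hbez hq).valuation l0 = 1)
    (hginf : (hesWinf R K h2 (M * q)).valuation (g - linf ^ m) < 1)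
    (hg0 : (hesW0 R K hbez hq).valuation (g - l0 ^ m) < 1)
    (hlead : ∃ c : K, c ≠ 0 ∧
      ((coeffRingAut (coeffStable_hesE K (M * q)) τ g * hesALG K hbez h' hq hq3 g ^ q :
        ↥(hesE K (M * q))) : LaurentSeries K).leadingCoeff = c ^ m) :
    ∃ u : ↥(hesE K (M * q)),
      coeffRingAut (coeffStable_hesE K (M * q)) τ g * hesALG K hbez h' hq hq3 g ^ q = u ^ m := by
  haveI : FiniteDimensional ↥K⟮jqNModC K 3⟯ ↥(hesE K (M * q)) := finite_hesE_adjoin_j K (M * q)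
  have hmodel := SSModelHesG.ssModel R K h
  have hjint := SSModelHesG.jint R K hπ h
  have hF := ssModelFrob_hes R K hπ hbez h' hq hq3 hqπ h τ τR hτ hfrob hbij
  have hw := ssModelAL_hes R K hπ hbez h' hq hq3 h
  obtain ⟨c, hc0, hc⟩ := hlead
  exact hmodel.toric_frob_al_pow_of_lc_pow hπ hjint hm hmR ζ hζ (hostLc (hesE K (M * q)))
    (hostLc_algebraMap (hesE K (M * q))) hF hw g hg hordg hordG linf l0 hlinf hl0 hginf hg0
    ⟨Units.mk0 c hc0, fun u hu => by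
      apply Units.ext
      rw [coe_hostLc, hu, Units.val_pow_eq_pow_val, Units.val_mk0]
      exact hc⟩

end Host

section Base

variable {M q : ℕ} [NeZero M] [NeZero q] [NeZero (M * q)] [NeZero (M * q * q)]
  [NeZero (9 * M)] [NeZero (9 * M * q)] [NeZero (9 * M * q * q)]
  {A : ValuationSubring Ω}
  {K₁ : IntermediateField ℚ Ω} [Normal ℚ ↥K₁] [instC : Algebra ↥K₁ ℂ]

set_option maxHeartbeats 1600000 in
/-- **the toric Frobenius relation at a Galois base, Hesse hosts.** -/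
theorem hesMaz_at_base (hq : q.Prime) (hq3 : q ≠ 3) (hA : A.LiesOverPrime q)
    (hK₁ : IsGalBase q K₁)
    [IsDiscreteValuationRing ↥(baseRing A K₁)] [CharZero ↥(baseRing A K₁)]
    [DecidableEq ↥(baseRing A K₁)]
    {ϖ : ↥(baseRing A K₁)} (hϖ : Irreducible ϖ) (h2 : IsUnit (3 : ↥(baseRing A K₁)))
    {x y x' y' : ℤ} (hbez : (q : ℤ) * x + M * y = 1)
    (h' : (q : ℤ) * x' + ((9 * M : ℕ) : ℤ) * y' = 1)
    {ω : ↥(baseRing A K₁)} (h : SSModelHesG ↥(baseRing A K₁) ↥K₁ ϖ h2 ω hbez hq hq3)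
    {φ : GQ} (hφ : A.IsFrobeniusAt φ q) {m : ℕ} (hm : 0 < m) (hqm : ¬ q ∣ m)
    (g : ↥(hesE ↥K₁ (M * q))) (hg : g ≠ 0)
    (hordg : ∀ P : Place ↥K₁ ↥(hesE ↥K₁ (M * q)),
      P.ord g = 0 ∨ (IsRationalPlace P ∧ (m : ℤ) ∣ P.ord g))
    (hordG : ∀ P : Place ↥K₁ ↥(hesE ↥K₁ (M * q)),
      P.ord (coeffRingAut (coeffStable_hesE ↥K₁ (M * q)) (resGal K₁ φ) g *
        hesALG ↥K₁ hbez h' hq hq3 g ^ q) = 0 ∨
        (IsRationalPlace P ∧ (m : ℤ) ∣
          P.ord (coeffRingAut (coeffStable_hesE ↥K₁ (M * q)) (resGal K₁ φ) g *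
            hesALG ↥K₁ hbez h' hq hq3 g ^ q)))
    (linf l0 : ↥(hesE ↥K₁ (M * q)))
    (hlinf : (hesWinf ↥(baseRing A K₁) ↥K₁ h2 (M * q)).valuation linf = 1)
    (hl0 : (hesW0 ↥(baseRing A K₁) ↥K₁ hbez hq).valuation l0 = 1)
    (hginf : (hesWinf ↥(baseRing A K₁) ↥K₁ h2 (M * q)).valuation (g - linf ^ m) < 1)
    (hg0 : (hesW0 ↥(baseRing A K₁) ↥K₁ hbez hq).valuation (g - l0 ^ m) < 1)
    (hlead : ∃ c : ↥K₁, c ≠ 0 ∧
      ((coeffRingAut (coeffStable_hesE ↥K₁ (M * q)) (resGal K₁ φ) g *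
        hesALG ↥K₁ hbez h' hq hq3 g ^ q : ↥(hesE ↥K₁ (M * q))) :
          LaurentSeries ↥K₁).leadingCoeff = c ^ m) :
    ∃ u : ↥(hesE ↥K₁ (M * q)),
      coeffRingAut (coeffStable_hesE ↥K₁ (M * q)) (resGal K₁ φ) g *
        hesALG ↥K₁ hbez h' hq hq3 g ^ q = u ^ m := by
  haveI : Fact q.Prime := ⟨hq⟩
  haveI := hK₁.isBase.isAlgClosed_residueField hA
  obtain ⟨ζ, hζ⟩ := hK₁.isBase.exists_isPrimitiveRoot_baseRing A hm hqm
  have hmR : IsUnit ((m : ℕ) : ↥(baseRing A K₁)) := isUnit_natCast_baseRing hA hqm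
  exact hesMaz_of_ssModelHes ↥(baseRing A K₁) ↥K₁ hϖ hbez h' hq hq3
    (natCast_mem_span_uniformizer_baseRing hA K₁ hϖ) h (resGal K₁ φ)
    (frobBaseRingAut (K₁ := K₁) hφ : ↥(baseRing A K₁) →+* ↥(baseRing A K₁))
    (resGal_algebraMap_frobBase hφ) (frobBaseRingAut_sub_pow_mem hφ hϖ)
    (frobBaseRingAut_bijective hφ) hm hmR ζ hζ g hg hordg hordG linf l0 hlinf hl0 hginf hg0 hlead

end Base

end Fermat.Agent.ML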