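/-
PROJECT ML (S59) — helper8 — [MAZ-L] at `(q, p) = (2, 3)`: **(KEY-TORIC) on the Hesse hosts at the
exponents `3 ^ k`.**

`ML/HESG_helper6_Desc.hesDeg_smul_frob_add_al_eq_zero` descends from the Hesse host to `F_{Mq}(K₁)`
by the norm, which costs the factor `hesDeg (M q)` (always divisible by `3`); at `m = 3 ^ k` we use
instead the Kummer descent `exists_pow_eq_of_fullToHesE_eq_pow₀` (`ML/HES3_helper8_Host`): a
`3 ^ k`-th power on the host of an element of `F_{Mq}(K₁)` whose order at the cusp `∞` is divisible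
by `3 ^ k` is a `3 ^ k`-th power in `F_{Mq}(K₁)` (`ζ_{3^k} ∈ K₁`).

* `hes_frob_add_al_eq_zero_three` : the port at `m = 3 ^ k`;
* `KeyToricStatementH3`, `keyToricStatementH3` : `φ x + q • w_q x = 0` for toric classes (Hesse
  hosts, `q ≠ 3`) of exponent `3 ^ k`.
-/
import Mathlib
import Fermat.Agent.ML.HESG_helper6_Desc
import Fermat.Agent.ML.HES3_helper8_Host
import Fermat.Agent.JA.KEYBASE_helper8_Main

set_option autoImplicit false
set_option linter.unusedSectionVars false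
set_option linter.unusedVariables false
set_option linter.style.haveILetI false
set_option synthInstance.maxHeartbeats 400000

open HahnSeries IntermediateField AlgebraicCurve ModularCurve

namespace Fermat.Agent.ML

open Fermat.Agent.RB

open Fermat.Agent.JA Fermat.Agent.FF Fermat.Agent.SS Fermat.Agent.S35 Fermat.Agent.S36
  Fermat.Agent.X0N

local notation "Ω" => AlgebraicClosure ℚ

local notation "GQ" => (AlgebraicClosure ℚ ≃ₐ[ℚ] AlgebraicClosure ℚ)

section Desc3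

variable (M q : ℕ) [NeZero M] [NeZero q] [NeZero (M * q)]

set_option maxHeartbeats 6400000 in
/-- **(KEY-TORIC) on the Hesse hosts at exponent `3 ^ k`**: the norm from the host (degree
divisible by `3`) is replaced by the Kummer descent `exists_pow_eq_of_fullToHesE_eq_pow₀`. -/
theorem hes_frob_add_al_eq_zero_three (hq : q.Prime) (hq3 : q ≠ 3) (hqM : ¬ q ∣ M)
    (A : ValuationSubring Ω) (hA : A.LiesOverPrime q) (φ : GQ) (hφ : A.IsFrobeniusAt φ q)
    {m : ℕ} (hm : 0 < m) (hqm : ¬ q ∣ m) {k : ℕ} (hmk : m = 3 ^ k)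
    (D : Divisor.degZero (K := Ω) (F := ↥(modularFunctionFieldBar (M * q))))
    (f : ↥(modularFunctionFieldBar (M * q))) (hf : f ≠ 0)
    (hfD : ∀ v : Place Ω ↥(modularFunctionFieldBar (M * q)),
      v.ord f = (m : ℤ) * (D : Divisor Ω ↥(modularFunctionFieldBar (M * q))) v)
    (htor : IsToricRepH M q m A f) :
    φ • (Pic0.mk D : JZero (M * q)) +
      q • atkinLehnerJ hq hqM (Pic0.mk D : JZero (M * q)) = 0 := by
  classical
  haveI : Fact q.Prime := ⟨hq⟩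
  haveI : NeZero (M * q * q) := ⟨mul_ne_zero (NeZero.ne (M * q)) (NeZero.ne q)⟩
  haveI : NeZero (9 * M) := ⟨mul_ne_zero (by norm_num) (NeZero.ne M)⟩
  haveI : NeZero (9 * M * q) := ⟨mul_ne_zero (NeZero.ne (9 * M)) (NeZero.ne q)⟩
  haveI : NeZero (9 * M * q * q) := ⟨mul_ne_zero (NeZero.ne (9 * M * q)) (NeZero.ne q)⟩
  obtain ⟨K₀, hK₀, htor⟩ := htor
  -- the function `G_Ω = φ̄ f · (W f) ^ q` over `Ω`
  set gφ : SemilinearAut Ω ↥(modularFunctionFieldBar (M * q)) :=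
    arithmeticGalois (modularFunctionFieldFull (M * q)) φ with hgφ
  set w : SemilinearAut Ω ↥(modularFunctionFieldBar (M * q)) := alSemi hq hqM with hw
  set GΩ : ↥(modularFunctionFieldBar (M * q)) := gφ • f * (w • f) ^ q with hGΩ
  have hdivf : IsDivOf f (m • (D : Divisor Ω ↥(modularFunctionFieldBar (M * q)))) :=
    ⟨hf, fun v => by rw [Finsupp.smul_apply, nsmul_eq_mul, hfD v]⟩
  have hdivG := isDivOf_frob_mul_al_pow gφ w hdivf q
  have hGΩ0 : GΩ ≠ 0 := hdivG.1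
  have hdiv : ∀ v : Place Ω ↥(modularFunctionFieldBar (M * q)), ((m : ℕ) : ℤ) ∣ v.ord f :=
    fun v => ⟨_, hfD v⟩
  have hGdiv : ∀ v : Place Ω ↥(modularFunctionFieldBar (M * q)), ((m : ℕ) : ℤ) ∣ v.ord GΩ := by
    intro v
    have e : (gφ • (m • (D : Divisor Ω ↥(modularFunctionFieldBar (M * q)))) +
        q • (w • (m • (D : Divisor Ω ↥(modularFunctionFieldBar (M * q))))) :
        Divisor Ω ↥(modularFunctionFieldBar (M * q))) =
        m • (gφ • (D : Divisor Ω ↥(modularFunctionFieldBar (M * q))) +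
          q • (w • (D : Divisor Ω ↥(modularFunctionFieldBar (M * q))))) := by
      rw [smul_comm gφ m, smul_comm w m, smul_comm q m, ← smul_add]
    have h1 := hdivG.2 v
    rw [e, Finsupp.smul_apply, nsmul_eq_mul] at h1
    exact ⟨_, h1.symm⟩
  -- an `m`-th root of the leading coefficient of `G_Ω`
  have hGΩL : ((GΩ : ↥(modularFunctionFieldBar (M * q))) : LaurentSeries Ω) ≠ 0 := fun h0 =>
    hGΩ0 (Subtype.ext h0)
  obtain ⟨μ, hμ⟩ := IsAlgClosed.exists_pow_nat_eq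
    (((GΩ : ↥(modularFunctionFieldBar (M * q))) : LaurentSeries Ω).leadingCoeff) hm
  have hμ0 : μ ≠ 0 := by
    rintro rfl
    rw [zero_pow hm.ne'] at hμ
    exact HahnSeries.leadingCoeff_ne_zero.2 hGΩL hμ.symm
  -- a primitive `3 ^ k`-th root of unity
  obtain ⟨ζ, hζ⟩ := HasEnoughRootsOfUnity.exists_primitiveRoot Ω (3 ^ k)
  -- the divisors on the host over `Ω`
  haveI : HasPrincipalDivisors Ω ↥(hesE Ω (M * q)) := up_hasPrincipalDivisors_hesE (M * q)
  have hfE : fullToHesE Ω (M * q) f ≠ 0 := (map_ne_zero _).2 hf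
  have hGE : fullToHesE Ω (M * q) GΩ ≠ 0 := (map_ne_zero _).2 hGΩ0
  obtain ⟨D1, hD1, -⟩ := HasPrincipalDivisors.exists_divisor (K := Ω) (fullToHesE Ω (M * q) f) hfE
  obtain ⟨D2, hD2, -⟩ := HasPrincipalDivisors.exists_divisor (K := Ω) (fullToHesE Ω (M * q) GΩ) hGE
  -- the Galois base
  obtain ⟨K₁, hK₁, hle, htK, hdesc, hrat⟩ :=
    hK₀.exists_ge_isGalBase_hesE (M * q) ({μ, ζ} : Finset Ω)
      (f := fun _ : Unit => ((f : ↥(modularFunctionFieldBar (M * q))) : LaurentSeries Ω))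
      (fun _ => f.2) (D1.support ∪ D2.support)
  haveI := hK₁.normal
  obtain ⟨f₁, hf₁mem, hf₁⟩ := hdesc ()
  set F₁ : ↥(keyFq ↥K₁ (M * q)) := ⟨f₁, hf₁mem⟩ with hF₁def
  have hBC : keyFqBC (M * q) K₁ F₁ = f := Subtype.ext hf₁
  have hF₁0 : F₁ ≠ 0 := by
    intro h0
    apply hf
    rw [← hBC, h0, map_zero]
  -- the instances at the base
  haveI : IsDiscreteValuationRing ↥(baseRing A K₁) := hK₁.isBase.isDiscreteValuationRing hA
  haveI : CharZero ↥(baseRing A K₁) := charZero_valuationSubring_of_algebraRat _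
  obtain ⟨ϖ, hϖ⟩ := IsDiscreteValuationRing.exists_irreducible ↥(baseRing A K₁)
  have h2 : IsUnit (3 : ↥(baseRing A K₁)) := isUnit_ofNat_baseRing hA K₁ Nat.prime_three hq3
  obtain ⟨x, y, hbez⟩ := exists_bezout_of_prime_of_not_dvd hq hqM
  have hq4M : ¬ q ∣ 9 * M := by
    intro h
    rcases (Nat.Prime.dvd_mul hq).1 h with h4 | hM
    · have h22 : q ∣ 3 * 3 := by simpa using h4
      rcases (Nat.Prime.dvd_mul hq).1 h22 with h | h <;>
        exact hq3 ((Nat.prime_dvd_prime_iff_eq hq Nat.prime_three).1 h)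
    · exact hqM hM
  obtain ⟨x', y', h'⟩ := exists_bezout_of_prime_of_not_dvd hq hq4M
  letI instC : Algebra ↥K₁ ℂ := baseToComplex K₁
  -- the functions over `K₁`
  set g : ↥(hesE ↥K₁ (M * q)) := fullToHesE ↥K₁ (M * q) F₁ with hgdef
  have hg0 : g ≠ 0 := (map_ne_zero _).2 hF₁0
  set WF : ↥(keyFq ↥K₁ (M * q)) := atkinLehnerN (algebraMap ↥K₁ ℂ) hbez hq F₁ with hWF
  set GF : ↥(keyFq ↥K₁ (M * q)) :=
    keyFqGalois ↥K₁ (M * q) (resGal K₁ φ) • F₁ * WF ^ q with hGF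
  have hBCG : keyFqBC (M * q) K₁ GF = GΩ := by
    rw [hGF, map_mul, map_pow, keyFqBC_keyFqGalois_smul, hWF,
      keyFqBC_atkinLehnerN K₁ (algebraMap ↥K₁ ℂ) hbez hq hqM, hBC]
    rfl
  have hhost : coeffRingAut (coeffStable_hesE ↥K₁ (M * q)) (resGal K₁ φ) g *
      hesALG ↥K₁ hbez h' hq hq3 g ^ q = fullToHesE ↥K₁ (M * q) GF := by
    rw [hGF, map_mul, map_pow, fullToHesE_keyFqGalois_smul, hgdef,
      hesAL_fullToHesE ↥K₁ hbez h' hq hq3 F₁]
    rfl
  -- the orders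
  have hgBC : hesBC (M * q) K₁ g =
      algebraMap Ω ↥(hesE Ω (M * q)) 1 * fullToHesE Ω (M * q) f := by
    rw [hgdef, bcdeg_hesBC_fullToHesE, hBC, map_one, one_mul]
  have hGBC : hesBC (M * q) K₁ (fullToHesE ↥K₁ (M * q) GF) =
      algebraMap Ω ↥(hesE Ω (M * q)) 1 * fullToHesE Ω (M * q) GΩ := by
    rw [bcdeg_hesBC_fullToHesE, hBCG, map_one, one_mul]
  have hordg : ∀ P : Place ↥K₁ ↥(hesE ↥K₁ (M * q)),
      P.ord g = 0 ∨ (IsRationalPlace P ∧ (m : ℤ) ∣ P.ord g) := by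
    intro P
    have h1 := ord_descended_hes (M * q) f hdiv D1 hD1 K₁
      (fun P hP => hrat P (Finset.mem_union_left _ hP)) g 1 one_ne_zero hgBC P
    by_cases h0 : P.ord g = 0
    · exact Or.inl h0
    · exact Or.inr ⟨h1.2 h0, h1.1⟩
  have hordG : ∀ P : Place ↥K₁ ↥(hesE ↥K₁ (M * q)),
      P.ord (coeffRingAut (coeffStable_hesE ↥K₁ (M * q)) (resGal K₁ φ) g *
        hesALG ↥K₁ hbez h' hq hq3 g ^ q) = 0 ∨
        (IsRationalPlace P ∧ (m : ℤ) ∣
          P.ord (coeffRingAut (coeffStable_hesE ↥K₁ (M * q)) (resGal K₁ φ) g *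
            hesALG ↥K₁ hbez h' hq hq3 g ^ q)) := by
    intro P
    rw [hhost]
    have h1 := ord_descended_hes (M * q) GΩ hGdiv D2 hD2 K₁
      (fun P hP => hrat P (Finset.mem_union_right _ hP)) (fullToHesE ↥K₁ (M * q) GF) 1
      one_ne_zero hGBC P
    by_cases h0 : P.ord (fullToHesE ↥K₁ (M * q) GF) = 0
    · exact Or.inl h0
    · exact Or.inr ⟨h1.2 h0, h1.1⟩
  -- toric
  obtain ⟨linf, l0, hlinf, hl0, hginf, hg0'⟩ := htor K₁ hK₁ hle F₁ hBC h2 x y hbez hq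
  -- the leading coefficient
  have hμK : μ ∈ K₁ := htK μ (Finset.mem_insert_self μ _)
  have hζK : ζ ∈ K₁ := htK ζ (Finset.mem_insert_of_mem (Finset.mem_singleton_self ζ))
  have hlead : ∃ c : ↥K₁, c ≠ 0 ∧
      ((coeffRingAut (coeffStable_hesE ↥K₁ (M * q)) (resGal K₁ φ) g *
        hesALG ↥K₁ hbez h' hq hq3 g ^ q : ↥(hesE ↥K₁ (M * q))) :
          LaurentSeries ↥K₁).leadingCoeff = c ^ m := by
    refine ⟨⟨μ, hμK⟩, fun h0 => hμ0 (congrArg Subtype.val h0), ?_⟩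
    rw [hhost, leadingCoeff_fullToHesE]
    apply (algebraMap ↥K₁ Ω).injective
    rw [← leadingCoeff_coeffMap_of_injective (f := algebraMap ↥K₁ Ω)
      (algebraMap ↥K₁ Ω).injective, ← coe_keyFqBC, hBCG, map_pow, ← hμ]
    rfl
  obtain ⟨ω, hω, hmodel⟩ := hesModelAtBasesG M q hq hq3 hqM A hA K₁ hK₁.isBase ϖ hϖ h2 x y hbez
  obtain ⟨u, hu⟩ := hesMaz_at_base (instC := baseToComplex K₁) hq hq3 hA hK₁ hϖ h2 hbez h'
    hmodel hφ hm hqm g hg0 hordg hordG
    linf l0 hlinf hl0 hginf hg0' hlead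
  -- the Kummer descent to `F_{Mq}(K₁)`
  have hu' : (fullToHesE ↥K₁ (M * q)).toRingHom GF = u ^ (3 ^ k) := by
    rw [← hmk, ← hu, hhost]
    rfl
  have hζ₁ : IsPrimitiveRoot (⟨ζ, hζK⟩ : ↥K₁) (3 ^ k) :=
    IsPrimitiveRoot.of_map_of_injective (f := algebraMap ↥K₁ Ω) hζ (algebraMap ↥K₁ Ω).injective
  -- the order at the cusp `∞`
  have hordGinf : (3 : ℤ) ^ k ∣ ((GF : ↥(keyFq ↥K₁ (M * q))) : LaurentSeries ↥K₁).order := by
    obtain ⟨Q₀, hQ₀⟩ := exists_place_ord_eq_order (keyFq Ω (M * q)) (jqModC_mem_keyFq (M * q))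
      order_jqModC_eq
    have h1 : ((GF : ↥(keyFq ↥K₁ (M * q))) : LaurentSeries ↥K₁).order =
        ((GΩ : ↥(modularFunctionFieldBar (M * q))) : LaurentSeries Ω).order := by
      rw [← hBCG, coe_keyFqBC, order_coeffMap_of_injective (algebraMap ↥K₁ Ω).injective]
    rw [h1, ← hQ₀ GΩ hGΩ0]
    have h2 := hGdiv Q₀
    rw [hmk] at h2
    exact_mod_cast h2
  obtain ⟨v, hv, -⟩ := exists_pow_eq_of_fullToHesE_eq_pow₀ ↥K₁ (M * q) hζ₁ hordGinf hu'
  have h5 := congrArg (keyFqBC (M * q) K₁) hv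
  rw [map_pow, hBCG, ← hmk] at h5
  set Nu : ↥(modularFunctionFieldBar (M * q)) := keyFqBC (M * q) K₁ v with hNu
  have hNu0 : Nu ≠ 0 := by
    intro h0
    rw [h0, zero_pow hm.ne'] at h5
    exact hGΩ0 h5
  have h6 := pic0_frob_add_al_eq_zero_of_kummer gφ w (c := 1) hm.ne' D f hf hfD 1 Nu one_ne_zero
    hNu0 (by rw [pow_one, map_one, one_mul]; exact h5)
  exact (one_nsmul _).symm.trans h6

end Desc3

section Key3

/-- **(KEY-TORIC) on the Hesse hosts, exponents `3 ^ k`** (literal). -/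
def KeyToricStatementH3 : Prop :=
  ∀ (M q : ℕ) [NeZero M] [NeZero q] [NeZero (M * q)] (hq : q.Prime) (hq3 : q ≠ 3) (hqM : ¬ q ∣ M)
    (A : ValuationSubring Ω), A.LiesOverPrime q → ∀ φ : GQ, A.IsFrobeniusAt φ q →
    ∀ (k : ℕ) (x : JZero (M * q)), IsToricClassAtH M q (3 ^ k) A x →
      φ • x + q • atkinLehnerJ hq hqM x = 0

/-- **(KEY-TORIC) on the Hesse hosts, exponents `3 ^ k`.** -/
theorem keyToricStatementH3 : KeyToricStatementH3 := by
  intro M q _ _ _ hq hq3 hqM A hA φ hφ k x hx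
  have hqm : ¬ q ∣ 3 ^ k := fun h =>
    hq3 ((Nat.prime_dvd_prime_iff_eq hq Nat.prime_three).1 (hq.dvd_of_dvd_pow h))
  obtain ⟨D, f, hf, rfl, hfD, htor⟩ := hx
  exact hes_frob_add_al_eq_zero_three M q hq hq3 hqM A hA φ hφ (pow_pos (by norm_num) k) hqm rfl
    D f hf hfD htor

end Key3

end Fermat.Agent.ML
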