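/-
ML (S59) — helper6 — **Hesse-host port**: the degree of the Hesse host over the level field is a
multiple of `3` and at most `12`, hence prime to every prime `p ≥ 5` (twin of
`MW.legDeg_coprime_five` / `RB.legDeg_coprime_pow`).
-/
import Mathlib
import Fermat.Agent.FG.EGAL_helper6_PullHes
import Fermat.Agent.SS.TOPB_lead_Hes

set_option autoImplicit false
set_option linter.unusedSectionVars false
set_option linter.unusedVariables false
set_option linter.style.haveILetI false

namespace Fermat.Agent.ML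

open Polynomial AlgebraicCurve ModularCurve IntermediateField
open Fermat.Agent.FF Fermat.Agent.FG Fermat.Agent.JA Fermat.Agent.SS Fermat.Agent.GR
open scoped Fermat.Agent.JA.Host

section Degree

variable {F E : Type*} [Field F] [Field E] [Algebra F E] [FiniteDimensional F E]

/-- the degree of a pure cubic subextension (the base contains the cube roots of unity). -/
theorem finrank_adjoin_of_cube_mem {ω : F} (hω : ω ^ 2 + ω + 1 = 0) {δ : E}
    (hδ : δ ∉ Set.range (algebraMap F E)) {c : F}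
    (hc : δ ^ 3 = algebraMap F E c) : Module.finrank F ↥F⟮δ⟯ = 3 := by
  have hint : IsIntegral F δ := Algebra.IsIntegral.isIntegral δ
  rw [IntermediateField.adjoin.finrank hint]
  have hirr : Irreducible (X ^ 3 - C c : F[X]) := by
    rw [X_pow_sub_C_irreducible_iff_of_prime Nat.prime_three]
    intro b hb
    apply hδ
    -- `δ³ = b³`, so `δ ∈ {b, ω b, ω² b}`
    have h1 : δ ^ 3 = (algebraMap F E b) ^ 3 := by rw [hc, ← hb, map_pow]
    have hω' : (algebraMap F E ω) ^ 2 + algebraMap F E ω + 1 = 0 := by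
      rw [← map_pow, ← map_add, ← map_one (algebraMap F E), ← map_add, hω, map_zero]
    have h2 : (δ - algebraMap F E b) * (δ - algebraMap F E ω * algebraMap F E b) *
        (δ - (algebraMap F E ω) ^ 2 * algebraMap F E b) = 0 := by
      have hω3 : (algebraMap F E ω) ^ 3 = 1 := by
        linear_combination (algebraMap F E ω - 1) * hω'
      linear_combination h1 - (algebraMap F E b) ^ 3 * hω3
        + (δ * (algebraMap F E b) ^ 2 * algebraMap F E ω - δ ^ 2 * algebraMap F E b) * hω'
    rcases mul_eq_zero.1 h2 with h3 | h3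
    · rcases mul_eq_zero.1 h3 with h4 | h4
      · exact ⟨b, (sub_eq_zero.1 h4).symm⟩
      · exact ⟨ω * b, by rw [map_mul]; exact (sub_eq_zero.1 h4).symm⟩
    · exact ⟨ω ^ 2 * b, by rw [map_mul, map_pow]; exact (sub_eq_zero.1 h3).symm⟩
  have hmon : (X ^ 3 - C c : F[X]).Monic := monic_X_pow_sub_C c (by norm_num)
  have hroot : aeval δ (X ^ 3 - C c : F[X]) = 0 := by
    rw [map_sub, map_pow, aeval_X, aeval_C, hc, sub_self]
  rw [← minpoly.eq_of_irreducible_of_monic hirr hroot hmon, natDegree_X_pow_sub_C]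

end Degree

local notation "Ω" => AlgebraicClosure ℚ

section Hes

variable (N : ℕ) [NeZero N]

theorem hesTwelve_natDegree_le : (hesTwelve N).natDegree ≤ 12 := by
  unfold hesTwelve
  compute_degree

/-- **the degree of the Hesse host over the level field is at most `12`.** -/
theorem hesDeg_le_twelve : hesDeg N ≤ 12 := by
  letI := algebraAlong (fullToHesE Ω N)
  haveI : FiniteDimensional ↥(keyFq Ω N) ↥(hesE Ω N) := finiteAlong_fullToHesE N
  have ht : IntermediateField.adjoin ↥(keyFq Ω N) {hesTE Ω N} = ⊤ := adjoin_hesTE_eq_top N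
  have hpt : aeval (hesTE Ω N) (hesTwelve N) = 0 := by
    rw [aeval_def, eval₂_eq_eval_map]
    exact hesTwelve_eval N
  have hint : IsIntegral ↥(keyFq Ω N) (hesTE Ω N) := Algebra.IsIntegral.isIntegral _
  have h2 : Module.finrank ↥(keyFq Ω N) ↥(hesE Ω N) =
      (minpoly ↥(keyFq Ω N) (hesTE Ω N)).natDegree := by
    rw [← IntermediateField.adjoin.finrank hint, ht, IntermediateField.finrank_top']
  have h3 : hesDeg N = Module.finrank ↥(keyFq Ω N) ↥(hesE Ω N) := rfl
  rw [h3, h2]
  exact (natDegree_le_of_dvd (minpoly.dvd _ _ hpt) (hesTwelve_ne_zero N)).trans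
    (hesTwelve_natDegree_le N)

/-- **the degree of the Hesse host over the level field is a multiple of `3`.** -/
theorem three_dvd_hesDeg : 3 ∣ hesDeg N := by
  letI := algebraAlong (fullToHesE Ω N)
  haveI : FiniteDimensional ↥(keyFq Ω N) ↥(hesE Ω N) := finiteAlong_fullToHesE N
  obtain ⟨ω, hω⟩ := exists_omega_bar
  have hω' : (algebraMap Ω ↥(keyFq Ω N) ω) ^ 2 + algebraMap Ω ↥(keyFq Ω N) ω + 1 = 0 := by
    rw [← map_pow, ← map_add, ← map_one (algebraMap Ω ↥(keyFq Ω N)), ← map_add, hω, map_zero]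
  have h27 : (27 : ↥(hesE Ω N)) ≠ 0 := by norm_num
  have hc : hesGE N ^ 3 = algebraMap ↥(keyFq Ω N) ↥(hesE Ω N) (egalJ N / 27) := by
    have h1 : algebraMap ↥(keyFq Ω N) ↥(hesE Ω N) (egalJ N / 27) = hesJE Ω N / 27 := by
      rw [map_div₀, map_ofNat]
      congr 1
    rw [h1, ← hesGE_cube N, mul_div_cancel_left₀ _ h27]
  have h3 : hesDeg N = Module.finrank ↥(keyFq Ω N) ↥(hesE Ω N) := rfl
  rw [h3, ← Module.finrank_mul_finrank ↥(keyFq Ω N) ↥(↥(keyFq Ω N))⟮hesGE N⟯ ↥(hesE Ω N),
    finrank_adjoin_of_cube_mem hω' (hesGE_not_mem_range N) hc]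
  exact dvd_mul_right 3 _

/-- the degree of the Hesse host is prime to every power of a prime `p ≥ 5`. -/
theorem hesDeg_coprime_pow {p : ℕ} (hp : p.Prime) (hp5 : 5 ≤ p) (k : ℕ) :
    Nat.Coprime (hesDeg N) (p ^ k) := by
  apply Nat.Coprime.pow_right
  rw [Nat.coprime_comm, Nat.Prime.coprime_iff_not_dvd hp]
  intro hdvd
  have h12 := hesDeg_le_twelve N
  obtain ⟨e, he⟩ := three_dvd_hesDeg N
  have hpos : 0 < hesDeg N := Nat.pos_of_ne_zero (hesDeg_ne_zero N)
  rw [he] at hdvd h12 hpos
  have he4 : e ≤ 4 := by omega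
  have he0 : 0 < e := by omega
  have h3 : ¬ p ∣ 3 := fun h => by
    have := Nat.le_of_dvd (by norm_num) h
    omega
  have hpe : p ∣ e := (hp.dvd_mul.1 hdvd).resolve_left h3
  have := Nat.le_of_dvd he0 hpe
  omega

/-- the degree of the Hesse host is prime to every prime `p ≥ 5`. -/
theorem hesDeg_coprime {p : ℕ} (hp : p.Prime) (hp5 : 5 ≤ p) : Nat.Coprime (hesDeg N) p := by
  simpa using hesDeg_coprime_pow N hp hp5 1

end Hes

end Fermat.Agent.ML
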