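/-
ML (S59) — helper6 — **Hesse-host port** of `Fermat.Agent.RB.MAZ_helper6_KeyToric`.
-/
import Mathlib
import Fermat.Agent.RB.MAZ_helper6_KeyToric
import Fermat.Agent.ML.HESG_helper6_Desc
import Fermat.Agent.ML.HES_helper6_DegCop

set_option autoImplicit false
set_option linter.unusedSectionVars false
set_option linter.unusedVariables false
set_option linter.style.haveILetI false
set_option synthInstance.maxHeartbeats 400000

open HahnSeries IntermediateField AlgebraicCurve ModularCurve Polynomial

namespace Fermat.Agent.ML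

open Fermat.Agent.RB

open Fermat.Agent.JA Fermat.Agent.FF Fermat.Agent.SS Fermat.Agent.S35 Fermat.Agent.S36
  Fermat.Agent.X0N Fermat.Agent.FG

local notation "Ω" => AlgebraicClosure ℚ

local notation "GQ" => (AlgebraicClosure ℚ ≃ₐ[ℚ] AlgebraicClosure ℚ)

section Degree

variable (N : ℕ) [NeZero N]

end Degree

section Abs

variable {G J : Type*} [Group G] [AddCommGroup J] [DistribMulAction G J]

end Abs

section Key

/-- **(KEY-TORIC)**. -/
theorem keyToricStatementH : KeyToricStatementH := by
  intro M q _ _ _ hq hq3 hqM A hA φ hφ m hm hqm hcop x hx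
  obtain ⟨D, f, hf, rfl, hfD, htor⟩ := hx
  have h1 := hesDeg_smul_frob_add_al_eq_zero M q hq hq3 hqM A hA φ hφ hm hqm D f hf hfD htor
  -- `m • x = 0`
  have hmx : m • (Pic0.mk D : JZero (M * q)) = 0 := by
    have h2 : (m • Pic0.mk D : JZero (M * q)) = Pic0.mk (m • D) := rfl
    rw [h2]
    refine (QuotientAddGroup.eq_zero_iff _).2 ?_
    rw [AddSubgroup.mem_addSubgroupOf]
    refine ⟨f, hf, fun v => ?_⟩
    show ((m • (D : Divisor Ω ↥(modularFunctionFieldBar (M * q)))) :
      Divisor Ω ↥(modularFunctionFieldBar (M * q))) v = _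
    rw [Finsupp.smul_apply, nsmul_eq_mul, hfD v]
  have hmy := nsmul_frob_add_al_eq_zero φ (atkinLehnerJ hq hqM) q m hmx
  exact eq_zero_of_coprime_nsmul hcop h1 hmy

end Key

end Fermat.Agent.ML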