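/-
ML (S59) — helper6 — [MAZ-L]: **[TOP-G(q)] in the `S`-form** (`TopGQStatementS`): the excluded set is an
arbitrary `S ⊇ badSet W p (M' q)` with finitely many primes, and the hypothesis is
`ResOccurs (M' q) p S a_W` (so that LEVEL-OPT can chain the steps without returning to the Prelude
predicate `IsResiduallyModularOfLevel`, which is only equivalent to `ResOccurs` outside `badSet`).

* `exists_copy_of_eigen_modelS` : lead's `MP.exists_copy_of_eigen_model` with the Hecke action known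
  outside `S` only (the Chebotarev step avoids the finitely many primes of `S`);
* `topGQStatementS` : copy of `RB.topGQStatement`.
-/
import Mathlib
import Fermat.Agent.RB.MAZ_helper6_TopG
import Fermat.Agent.ML.IFACE_helper6_Maz

set_option autoImplicit false
set_option linter.unusedSectionVars false
set_option linter.unusedVariables false
set_option linter.style.haveILetI false

open AlgebraicCurve ModularCurve CongruenceSubgroup ModularCurve.Period WeierstrassCurve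
  WeierstrassCurve.Affine
open WeierstrassCurve.Affine.Point

open scoped MatrixGroups TensorProduct WeierstrassCurve.Affine

namespace Fermat.Agent.ML

open Fermat.Agent.S35 Fermat.Agent.NP Fermat.Agent.GR Fermat.Agent.LR Fermat.Agent.MP
  Fermat.Agent.LR.NonEis Fermat.Agent.S58 Fermat.Agent.S52x Fermat.Agent.RB

/-- `Ω = AlgebraicClosure ℚ`. -/
local notation "Ω" => AlgebraicClosure ℚ

/-- the absolute Galois group. -/
local notation "GQ" => (AlgebraicClosure ℚ ≃ₐ[ℚ] AlgebraicClosure ℚ)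

section Main

variable (E : WeierstrassCurve ℚ) [E.IsElliptic] {W : WeierstrassCurve ℤ}

/-- **the copy of `E[p]` (points of the integral model) in a Hecke-eigen Galois-stable subgroup
of `J₀(N)[p]`**, Hecke action known outside a set `S` with finitely many primes. -/
theorem exists_copy_of_eigen_modelS (hW : W.IsIntegralModelOf E) {N p : ℕ} [NeZero N]
    (S : Set ℕ) (hSfin : {ℓ : ℕ | ℓ.Prime ∧ ℓ ∈ S}.Finite)
    (hp : p.Prime) (hp2 : p ≠ 2) (hirr : GaloisRepIsIrreducible (K := Ω) ℚ E p)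
    (V : AddSubgroup (JZero N)) (hVp : ∀ v ∈ V, p • v = 0)
    (hVG : ∀ σ : GQ, ∀ v ∈ V, σ • v ∈ V) (hV0 : ∃ v ∈ V, v ≠ 0)
    (hVT : ∀ (ℓ : ℕ) (hℓ : ℓ.Prime), ℓ ∉ S →
      ∀ v ∈ V, heckeOperatorBar N ⟨ℓ, hℓ⟩ v = W.apOfModel ℓ • v) :
    ∃ f : ↥(torsionNat (W.toAffine⁄Ω).Point p) →+ JZero N, Function.Injective f ∧
      (∀ (σ : GQ) (Q : ↥(torsionNat (W.toAffine⁄Ω).Point p)),
        f ⟨σ • Q.1, nsmul_smul_eq_zero σ Q.2⟩ = σ • f Q) ∧ ∀ Q, f Q ∈ V := by
  classical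
  haveI : Fact p.Prime := ⟨hp⟩
  have hΔ : W.Δ ≠ 0 := Δ_ne_zero_of_isIntegralModelOf E hW
  set I := stageIData N p with hI
  -- the `E`-side subgroup
  set UE : AddSubgroup (W.toAffine⁄Ω).Point := torsionNat (W.toAffine⁄Ω).Point p with hUEdef
  have hUE : ∀ u ∈ UE, p • u = 0 := fun u hu => hu
  have hGE : ∀ (g : GQ), ∀ u ∈ UE, g • u ∈ UE := fun g u hu => nsmul_smul_eq_zero g hu
  have hcard : Nat.card ↥UE = p ^ 2 := card_torsionNat_point W hΔ hp2
  have habs := absIrr_of_isIntegralModelOf E hW p hirr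
  have hirr' : ∀ U' : AddSubgroup (W.toAffine⁄Ω).Point, U' ≤ UE →
      (∀ (g : GQ), ∀ u ∈ U', g • u ∈ U') → U' = ⊥ ∨ U' = UE := by
    intro U' hle hst
    rcases habs.2 U' (fun u hu => hle hu) hst with h | h
    · left
      rw [AddSubgroup.eq_bot_iff_forall]
      exact h
    · right
      exact le_antisymm hle (fun P hP => h P hP)
  obtain ⟨Pp, Pm, hPp, hPm, hPp0, hPm0, hcp, hcm⟩ := exists_conj_eigenvectors W hΔ hp2
  -- finiteness and the field of definition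
  haveI : Finite ↥UE := Nat.finite_of_card_ne_zero (by rw [hcard]; exact pow_ne_zero 2 hp.ne_zero)
  haveI hfinJ : Finite ↥(torsionNat (JZero N) (p ^ 1)) := I.D.finite_torsion 1
  haveI : Finite ↥V := by
    refine Finite.of_injective (fun v : ↥V => (⟨v.1, by
      show p ^ 1 • v.1 = 0
      rw [pow_one]
      exact hVp v.1 v.2⟩ : ↥(torsionNat (JZero N) (p ^ 1)))) ?_
    intro a b hab
    have h1 := congrArg (fun z : ↥(torsionNat (JZero N) (p ^ 1)) => (z : JZero N)) hab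
    exact Subtype.ext h1
  obtain ⟨LE, hLEfin, hLE⟩ := exists_fixingField_of_finite UE
    (fun x _ => asm58_exists_fixingField W x)
  obtain ⟨LV, hLVfin, hLV⟩ := exists_fixingField_of_finite V (fun x _ => I.fix x)
  haveI := hLEfin
  haveI := hLVfin
  set L : IntermediateField ℚ Ω := LE ⊔ LV with hL
  haveI : FiniteDimensional ℚ ↥L := IntermediateField.finiteDimensional_sup LE LV
  -- the bad primes
  set T : Finset ℕ :=
    insert p ((W.Δ.natAbs.primeFactors ∪ N.primeFactors) ∪ hSfin.toFinset) with hT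
  have hTgood : ∀ ℓ : ℕ, ℓ.Prime → ℓ ∉ T → (ℓ ≠ p ∧ W.IsGoodPrimeFor ℓ ∧ ¬ ℓ ∣ N) ∧ ℓ ∉ S := by
    intro ℓ hℓ hℓT
    rw [hT, Finset.mem_insert, not_or, Finset.mem_union, not_or, Finset.mem_union, not_or]
      at hℓT
    refine ⟨⟨hℓT.1, fun hdvd => hℓT.2.1.1 ?_, fun hdvd => hℓT.2.1.2 ?_⟩, fun hS => hℓT.2.2 ?_⟩
    · rw [Nat.mem_primeFactors]
      exact ⟨hℓ, Int.natCast_dvd.mp hdvd, Int.natAbs_ne_zero.mpr hΔ⟩
    · rw [Nat.mem_primeFactors]
      exact ⟨hℓ, hdvd, NeZero.ne N⟩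
    · rw [Set.Finite.mem_toFinset]
      exact ⟨hℓ, hS⟩
  -- the Frobenius hypothesis
  have hfrob : ∀ g : GQ, ∃ (τ φ : GQ) (m : ℕ) (t δ : ℤ),
      (∀ u ∈ UE, (τ * g * τ⁻¹) • u = φ ^ m • u) ∧ (∀ v ∈ V, (τ * g * τ⁻¹) • v = φ ^ m • v) ∧
      (∀ v ∈ V, φ • φ • v - t • φ • v + δ • v = 0) ∧
      (∀ P ∈ UE, ∀ Q ∈ UE, (∀ x y : ℤ, x • P + y • Q = 0 → (p : ℤ) ∣ x ∧ (p : ℤ) ∣ y) →
        ∀ a b c d : ℤ, φ • P = a • P + c • Q → φ • Q = b • P + d • Q →
          (p : ℤ) ∣ a + d - t ∧ (p : ℤ) ∣ a * d - b * c - δ) := by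
    intro g
    obtain ⟨ℓ, hℓ, hℓT, A, hA, φ, hφ, m, τ, hτ⟩ := exists_frobenius_pow_conj T L g
    obtain ⟨⟨hℓp, hgood, hℓN⟩, hℓS⟩ := hTgood ℓ hℓ hℓT
    have hℓNp : ¬ ℓ ∣ N * p := by
      intro h
      rcases (Nat.Prime.dvd_mul hℓ).mp h with h | h
      · exact hℓN h
      · exact hℓp ((Nat.prime_dvd_prime_iff_eq hℓ hp).mp h)
    -- the element fixing `L`
    set ν : GQ := (φ ^ m)⁻¹ * (τ * g * τ⁻¹) with hν
    have hνL : ∀ a ∈ L, ν a = a := by
      intro a ha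
      rw [hν, AlgEquiv.mul_apply, hτ a ha, ← AlgEquiv.mul_apply, inv_mul_cancel,
        AlgEquiv.one_apply]
    have hdecomp : τ * g * τ⁻¹ = φ ^ m * ν := by rw [hν, mul_inv_cancel_left]
    refine ⟨τ, φ, m, W.apOfModel ℓ, (ℓ : ℤ), ?_, ?_, ?_, ?_⟩
    · intro u hu
      rw [hdecomp, mul_smul, hLE ν (fun a ha => hνL a (le_sup_left (a := LE) (b := LV) ha)) u hu]
    · intro v hv
      rw [hdecomp, mul_smul, hLV ν (fun a ha => hνL a (le_sup_right (a := LE) (b := LV) ha)) v hv]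
    · intro v hv
      have h1 := I.frobenius_quadratic hℓ hℓNp hA hφ (x := v) ⟨1, by rw [pow_one]; exact hVp v hv⟩
      rw [I.hT' ⟨ℓ, hℓ⟩ hℓN, hVT ℓ hℓ hℓS _ (hVG φ v hv)] at h1
      rw [natCast_zsmul]
      exact h1
    · intro P hP Q hQ hind a b c d hσP hσQ
      exact trace_det_frobenius_mod W hΔ hp2 P Q hP hQ hind hℓ hℓp hgood A hA φ hφ a b c d hσP hσQ
  obtain ⟨f, hf, hfg⟩ := exists_equivariant_copy (G := GQ) hp2 UE hUE hGE hcard hirr'
    complexConjugation Pp Pm hPp hPm hPp0 hPm0 hcp hcm V hVp hVG hV0 hfrob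
  refine ⟨V.subtype.comp f, ?_, ?_, ?_⟩
  · intro a b hab
    exact hf (Subtype.ext hab)
  · intro σ Q
    exact hfg σ Q
  · intro Q
    exact (f Q).2

end Main

/-- **[TOP-G(q)]**: the `q`-old branch or a `q`-new Galois-equivariant copy of `E[p]` in
`J₀(M' q)`. -/
theorem topGQStatementS : TopGQStatementS := by
  intro E _ W hW M' q p _ _ _ hp hp2 hq hqM S hSfin hbadS hirr hres
  classical
  haveI : Fact p.Prime := ⟨hp⟩
  set a : ℕ → ℤ := fun ℓ => W.apOfModel ℓ with ha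
  have hS : ∀ ℓ : ℕ, ℓ.Prime → ℓ ∣ M' * q → ℓ ∈ S := fun ℓ _ hℓ => hbadS (Or.inr (Or.inl hℓ))
  obtain ⟨w, hw, hE⟩ := latOccStatement hp a hres
  obtain ⟨x0, hx0, hx0ne⟩ := exists_mem_eigenTors_ne_zero hS w hw hE
  by_cases hcase : ∃ x ∈ eigenTors (M' * q) p S a,
      degPushAlpha M' q x ≠ 0 ∨ degPushBeta M' q x ≠ 0
  · left
    obtain ⟨x, hx, h | h⟩ := hcase
    · obtain ⟨w', hw', hE'⟩ := exists_lpar_of_degPushAlpha_ne_zero_q hq hqM hS hx h
      exact latLiftStatement hp a w' hw' hE'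
    · obtain ⟨w', hw', hE'⟩ := exists_lpar_of_degPushBeta_ne_zero_q hq hqM hS hx h
      exact latLiftStatement hp a w' hw' hE'
  · right
    simp only [not_exists, not_and, not_or, not_not] at hcase
    obtain ⟨f, hf, hfg, hfV⟩ := exists_copy_of_eigen_modelS E hW S hSfin hp hp2 hirr
      (eigenTors (M' * q) p S a) (fun v hv => nsmul_eq_zero_of_mem_eigenTors hv)
      (fun σ v hv => smul_mem_eigenTors hS σ hv) ⟨x0, hx0, hx0ne⟩
      (fun ℓ hℓ hℓS v hv => hv.2 ℓ hℓ hℓS)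
    obtain ⟨e, he⟩ := exists_equivariant_addEquiv_model E hW
    refine ⟨{
      φ := f.comp (torsionNatMapEquiv p e)
      inj := hf.comp (torsionNatMapEquiv_injective p e)
      gal := ?_
      alpha := fun Q => (hcase _ (hfV _)).1
      beta := fun Q => (hcase _ (hfV _)).2
      hecke := fun ℓ hℓ hℓS Q => (hfV _).2 ℓ hℓ hℓS }⟩
    intro σ Q
    have h1 : torsionNatMapEquiv p e ⟨σ • Q.1, smul_mem_torsionNat_point E p σ Q.2⟩ =
        ⟨σ • (torsionNatMapEquiv p e Q).1,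
          nsmul_smul_eq_zero σ (torsionNatMapEquiv p e Q).2⟩ := Subtype.ext (he σ Q.1)
    show f (torsionNatMapEquiv p e ⟨σ • Q.1, _⟩) = σ • f (torsionNatMapEquiv p e Q)
    rw [h1]
    exact hfg σ _

end Fermat.Agent.ML
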