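/-
ML (S59) — helper6 — **Hesse-host port** of `Fermat.Agent.ML.MAZ_helper6_TopE`.
-/
import Mathlib
import Fermat.Agent.ML.MAZ_helper6_TopE
import Fermat.Agent.ML.IFACE_helper6_MazHesE
import Fermat.Agent.ML.HES_helper6_Asm
import Fermat.Agent.ML.HESG_helper6_KeyToric
import Fermat.Agent.ML.HES_helper6_DegCop

set_option autoImplicit false
set_option linter.unusedSectionVars false
set_option linter.unusedVariables false
set_option linter.style.haveILetI false
set_option synthInstance.maxHeartbeats 400000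

open AlgebraicCurve ModularCurve WeierstrassCurve WeierstrassCurve.Affine
open WeierstrassCurve.Affine.Point

open scoped WeierstrassCurve.Affine

namespace Fermat.Agent.ML

open Fermat.Agent.S35 Fermat.Agent.NP Fermat.Agent.GR Fermat.Agent.LR.NonEis Fermat.Agent.MP
  Fermat.Agent.SS Fermat.Agent.RB

local notation "Ω" => AlgebraicClosure ℚ

local notation "GQ" => (AlgebraicClosure ℚ ≃ₐ[ℚ] AlgebraicClosure ℚ)

section Top

set_option maxHeartbeats 1600000 in
/-- **[TOP-MAZ]: Mazur's principle at `q ≠ p`, `q ≠ 3`, every odd `p`, `S`-form.** -/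
theorem mazurPrincipleHE_of_key (hG : TopGQStatementS) (hK : KeyMazStatementHE) :
    MazurPrincipleStatementHE := by
  intro E _ W hW M' q p _ _ _ hp hp2 hq hq3 hqp hqM hno3 S hSfin hbadS h2S hirr hunr hmod
  classical
  haveI : Fact p.Prime := ⟨hp⟩
  have hqp' : ¬ q ∣ p := fun h => hqp ((Nat.prime_dvd_prime_iff_eq hq hp).1 h)
  have hcop : Nat.Coprime q p := (Nat.coprime_primes hq hp).2 hqp
  by_cases hres : ResOccurs M' p S (fun ℓ => W.apOfModel ℓ)
  · exact Or.inl hres
  rcases hG E hW hp hp2 hq hqM S hSfin hbadS hirr hmod with h | ⟨⟨NC⟩⟩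
  · exact absurd h hres
  right
  -- a non-Eisenstein prime
  obtain ⟨ℓ₀, hℓ₀, hℓ₀S, hℓ₀p, -, hℓ₀good, hℓ₀a⟩ :=
    exists_prime_not_eisenstein E hW hp hp2 hirr 1 one_pos hSfin.toFinset
  have hS : ∀ ℓ : ℕ, ℓ.Prime → ℓ ∣ M' * q → ℓ ∈ S :=
    fun ℓ _ h => hbadS (Or.inr (Or.inl h))
  have hpS : p ∈ S := hbadS (Or.inr (Or.inr rfl))
  have hnE : ∃ ℓ : ℕ, ℓ.Prime ∧ ℓ ∉ S ∧
      ¬ (W.apOfModel ℓ ≡ (ℓ : ℤ) + 1 [ZMOD (p : ℤ)]) := by
    refine ⟨ℓ₀, hℓ₀, ?_, ?_⟩
    · intro h
      exact hℓ₀S ((Set.Finite.mem_toFinset hSfin).mpr ⟨hℓ₀, h⟩)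
    · intro h
      apply hℓ₀a
      have := (Int.modEq_iff_dvd.mp h)
      rwa [dvd_sub_comm] at this
  -- the classes of the copy are toric at every place over `q`
  have htoric : ∀ A : ValuationSubring Ω, A.LiesOverPrime q →
      ∀ Q : ↥(torsionNat (E.toAffine⁄Ω).Point p), IsToricClassAtH M' q p A (NC.φ Q) := by
    intro A hA Q
    have hpQ : p • NC.φ Q = 0 := by
      have h0 : p • Q = 0 := Subtype.ext Q.2
      rw [← map_nsmul, h0, _root_.map_zero]
    have hI : ∀ τ ∈ A.inertiaSubgroupIn ℚ, τ • NC.φ Q = NC.φ Q := by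
      intro τ hτ
      rw [← NC.gal]
      congr 1
      apply Subtype.ext
      have hx : Q.1 ∈ Submodule.torsionBy ℤ (E.toAffine⁄Ω).Point p := by
        rw [Submodule.mem_torsionBy_iff, natCast_zsmul]
        exact Q.2
      have h1 := hunr A hA τ hτ ⟨Q.1, hx⟩
      exact congrArg Subtype.val h1
    exact (hK M' q p hq hq3 hp hp2 hqp hqM hno3 A hA _ _ hS hpS h2S hnE (NC.φ Q) hpQ (NC.alpha Q)
      (NC.beta Q) (fun ℓ hℓ hℓS => NC.hecke ℓ hℓ hℓS Q) hI).resolve_right hres
  -- the scalar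
  have hscal : ∀ A : ValuationSubring Ω, A.LiesOverPrime q → ∀ φ : GQ, A.IsFrobeniusAt φ q →
      (∀ P : (E.toAffine⁄Ω).Point, p • P = 0 → φ • P = -(q • P)) ∨
        (∀ P : (E.toAffine⁄Ω).Point, p • P = 0 → φ • P = q • P) := by
    intro A hA φ hφ
    refine scalar_of_frob_add_al hp (absIrr_of_galoisRepIsIrreducible E p hirr) NC.φ NC.inj
      (fun σ Q h => NC.gal σ Q) (atkinLehnerJ hq hqM) (atkinLehnerJ_atkinLehnerJ hq hqM)
      (fun σ z => smul_atkinLehnerJ hq hqM σ z) φ q hcop ?_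
    intro Q
    exact keyToricStatementH M' q hq hq3 hqM A hA φ hφ p hp.pos hqp'
      (hesDeg_coprime (M' * q) hp (five_le_of_prime_of_ne_h6 hp hp2 hno3)) (NC.φ Q) (htoric A hA Q)
  refine ⟨?_, fun A hA φ hφ => ?_⟩
  · -- `q ≡ 1 mod p` from the determinant
    obtain ⟨A, φ, hA, hφ⟩ := Fermat.Agent.S54.exists_frobenius q hq
    have he : ∀ μ : Ω, μ ^ p = 1 → φ μ = μ ^ q := fun μ hμ =>
      frobenius_apply_rootOfUnity hq hqp' hA hφ hμ
    obtain ⟨e, hee⟩ := exists_equivariant_addEquiv_of_isIntegralModelOf E hW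
    have hΔ := Δ_ne_zero_of_isIntegralModelOf E hW
    -- a natural number `c` with `φ = c` on `W[p]` and `c² ≡ q²`
    have key : ∃ c : ℕ, (∀ P : (W.toAffine⁄Ω).Point, p • P = 0 → φ • P = c • P) ∧
        (p : ℤ) ∣ (c : ℤ) * c - (q : ℤ) * q := by
      rcases hscal A hA φ hφ with h | h
      · refine ⟨(p - 1) * q, fun P hP => ?_, ?_⟩
        · have h1 : p • e.symm P = 0 := by rw [← map_nsmul, hP, _root_.map_zero]
          have h2 := h (e.symm P) h1
          have h3 := congrArg e h2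
          rw [hee, map_neg, map_nsmul, e.apply_symm_apply] at h3
          rw [h3]
          have h4 : ((p - 1) * q) • P + q • P = 0 := by
            rw [← add_smul]
            have : (p - 1) * q + q = q * p := by
              have := hp.one_le
              calc (p - 1) * q + q = ((p - 1) + 1) * q := by ring
                _ = p * q := by rw [Nat.sub_add_cancel this]
                _ = q * p := mul_comm _ _
            rw [this, mul_nsmul', hP, nsmul_zero]
          exact (eq_neg_of_add_eq_zero_left h4).symm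
        · have h1 : (((p - 1) * q : ℕ) : ℤ) = ((p : ℤ) - 1) * q := by
            rw [Nat.cast_mul, Nat.cast_sub hp.one_le, Nat.cast_one]
          rw [h1]
          exact ⟨((p : ℤ) - 2) * q * q, by ring⟩
      · refine ⟨q, fun P hP => ?_, by rw [sub_self]; exact dvd_zero _⟩
        have h1 : p • e.symm P = 0 := by rw [← map_nsmul, hP, _root_.map_zero]
        have h2 := h (e.symm P) h1
        have h3 := congrArg e h2
        rwa [hee, map_nsmul, e.apply_symm_apply] at h3
    obtain ⟨c, hc, hcq⟩ := key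
    have hdvd := sq_sub_dvd_of_scalar W hΔ hp2 φ c q he hc
    have h4 : (p : ℤ) ∣ (q : ℤ) * ((q : ℤ) - 1) := by
      have : (q : ℤ) * ((q : ℤ) - 1) = ((c : ℤ) * c - q) - ((c : ℤ) * c - (q : ℤ) * q) := by ring
      rw [this]
      exact dvd_sub hdvd hcq
    rcases (Nat.prime_iff_prime_int.mp hp).dvd_or_dvd h4 with h5 | h5
    · exfalso
      have h6 : p ∣ q := by exact_mod_cast h5
      exact hqp ((Nat.prime_dvd_prime_iff_eq hp hq).1 h6).symm
    · exact (Nat.modEq_iff_dvd.2 (by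
        have : ((1 : ℕ) : ℤ) - (q : ℤ) = -((q : ℤ) - 1) := by push_cast; ring
        rw [this]
        exact (dvd_neg).2 h5)).symm.symm
  · rcases hscal A hA φ hφ with h | h
    · exact ⟨-(q : ℤ), fun P hP => by rw [h P hP, neg_smul, natCast_zsmul]⟩
    · exact ⟨(q : ℤ), fun P hP => by rw [h P hP, natCast_zsmul]⟩

/-- **Mazur's principle at `q ≠ 3, p`, every odd `p`, from [ROLD-q].** -/
theorem mazurPrincipleHE_of_rold (HR : HesRoldQE) : MazurPrincipleStatementHE :=
  mazurPrincipleHE_of_key topGQStatementS (keyMazStatementHE_of_rold HR)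

end Top

end Fermat.Agent.ML
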