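/-
ML (S59) — helper6 — **Hesse-host port** of `Fermat.Agent.MP.HECKERO_helper8_NormHost`.
-/
import Mathlib
import Fermat.Agent.MP.HECKERO_helper8_NormHost
import Fermat.Agent.ML.HES_helper6_DegGen
import Fermat.Agent.ML.HES_helper6_HostB

set_option autoImplicit false
set_option linter.unusedSectionVars false
set_option linter.unusedVariables false
set_option linter.style.haveILetI false
set_option synthInstance.maxHeartbeats 400000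

open HahnSeries IntermediateField AlgebraicCurve ModularCurve IsLocalRing

namespace Fermat.Agent.ML

open Fermat.Agent.MP

open Fermat.Agent.JA Fermat.Agent.FF Fermat.Agent.SS Fermat.Agent.S35 Fermat.Agent.S36
  Fermat.Agent.NP Fermat.Agent.FG

local notation "Ω" => AlgebraicClosure ℚ

/-- **`[E_{Mℓ} : E_M] = ℓ + 1` over `Ω`.** -/
theorem finrank_hesHostA_closure (M ℓ : ℕ) [NeZero M] [NeZero ℓ] [NeZero (M * ℓ)] (hℓ : ℓ.Prime)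
    (hℓ3 : ℓ ≠ 3) (hℓM : ¬ ℓ ∣ M) :
    letI := (hesHostA Ω M ℓ).toRingHom.toAlgebra
    Module.finrank ↥(hesE Ω M) ↥(hesE Ω (M * ℓ)) = ℓ + 1 := by
  letI : Algebra Ω ℂ := ((IsAlgClosed.lift : Ω →ₐ[ℚ] ℂ) : Ω →+* ℂ).toAlgebra
  have h1 := finrank_mul_eq_of_square (keyFqA Ω M ℓ).toRingHom (hesHostA Ω M ℓ).toRingHom
    (fullToHesE Ω M).toRingHom (fullToHesE Ω (M * ℓ)).toRingHom
    (fun x => xport_fullToHesE_keyFqA_gen Ω (q := ℓ) x)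
  have h2 : (letI := (keyFqA Ω M ℓ).toRingHom.toAlgebra;
      Module.finrank ↥(keyFq Ω M) ↥(keyFq Ω (M * ℓ))) = ℓ + 1 :=
    finrank_keyFqA_of_not_dvd Ω M ℓ hℓ hℓM
  rw [h2] at h1
  have e1 : (letI := (fullToHesE Ω (M * ℓ)).toRingHom.toAlgebra;
      Module.finrank ↥(keyFq Ω (M * ℓ)) ↥(hesE Ω (M * ℓ))) = hesDeg (M * ℓ) := rfl
  have e2 : (letI := (fullToHesE Ω M).toRingHom.toAlgebra;
      Module.finrank ↥(keyFq Ω M) ↥(hesE Ω M)) = hesDeg M := rfl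
  rw [e1, e2, hesDeg_mul_prime M ℓ hℓ hℓ3 hℓM, mul_comm] at h1
  exact (Nat.eq_of_mul_eq_mul_left (Nat.pos_of_ne_zero (hesDeg_ne_zero M)) h1).symm

section Host

variable (M ℓ : ℕ) [NeZero M] [NeZero ℓ] [NeZero (M * ℓ)] {p : ℕ} [Fact p.Prime]
  {A : ValuationSubring Ω} (hA : A.LiesOverPrime p) (hp3 : p ≠ 3)

/-- the kernel of `hesρ` is the maximal ideal. -/
theorem hesρ_eq_zero_iff (N : ℕ) [NeZero N] (x : ↥(hesWE hA N hp3)) :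
    hesρ hA N hp3 x = 0 ↔ (hesWE hA N hp3).valuation (x : ↥(hesE Ω N)) < 1 := by
  unfold hesρ
  rw [residue_eq_zero_iff, ValuationSubring.valuation_lt_one_iff]

/-- **(Ω4), conditional form**: norms along `A_ℓ` commute with the reduction. -/
theorem hesρ_norm_hesHostA_of (hℓ : ℓ.Prime) (hℓ3 : ℓ ≠ 3) (hℓM : ¬ ℓ ∣ M)
    (hcomap : (hesWE hA (M * ℓ) hp3).comap
      ((hesHostA Ω M ℓ : ↥(hesE Ω M) →ₐ[Ω] ↥(hesE Ω (M * ℓ))) :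
        ↥(hesE Ω M) →+* ↥(hesE Ω (M * ℓ))) = hesWE hA M hp3)
    (αb : hesEt hA M hp3 →+* hesEt hA (M * ℓ) hp3)
    (hαb : ∀ (x : ↥(hesWE hA M hp3))
      (hx' : hesHostA Ω M ℓ (x : ↥(hesE Ω M)) ∈ hesWE hA (M * ℓ) hp3),
      hesρ hA (M * ℓ) hp3 ⟨hesHostA Ω M ℓ (x : ↥(hesE Ω M)), hx'⟩ = αb (hesρ hA M hp3 x))
    (hfin : letI := αb.toAlgebra; FiniteDimensional (hesEt hA M hp3) (hesEt hA (M * ℓ) hp3))
    (hdeg : letI := αb.toAlgebra;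
      Module.finrank (hesEt hA M hp3) (hesEt hA (M * ℓ) hp3) = ℓ + 1)
    (y : ↥(hesWE hA (M * ℓ) hp3)) :
    ∃ hN : (letI := (hesHostA Ω M ℓ).toRingHom.toAlgebra;
        Algebra.norm ↥(hesE Ω M) (y : ↥(hesE Ω (M * ℓ)))) ∈ hesWE hA M hp3,
      hesρ hA M hp3 ⟨_, hN⟩ =
        (letI := αb.toAlgebra; Algebra.norm (hesEt hA M hp3) (hesρ hA (M * ℓ) hp3 y)) := by
  letI := (hesHostA Ω M ℓ).toRingHom.toAlgebra
  letI := αb.toAlgebra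
  haveI := hfin
  have hdeg0 : Module.finrank ↥(hesE Ω M) ↥(hesE Ω (M * ℓ)) = ℓ + 1 :=
    finrank_hesHostA_closure M ℓ hℓ hℓ3 hℓM
  haveI : FiniteDimensional ↥(hesE Ω M) ↥(hesE Ω (M * ℓ)) :=
    Module.finite_of_finrank_pos (by rw [hdeg0]; exact Nat.succ_pos ℓ)
  exact ρ_norm_of_finrank_res_eq (hesρ hA M hp3) (hesρ hA (M * ℓ) hp3)
    (hesρ_surjective hA M hp3) (hesρ_surjective hA (M * ℓ) hp3)
    (hesρ_eq_zero_iff hA hp3 M) (hesρ_eq_zero_iff hA hp3 (M * ℓ)) hcomap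
    (fun x hx => hαb x hx) (hdeg.trans hdeg0.symm) y

/-- the norm along `A_ℓ` of a unit of `W_E(Mℓ)` is a unit of `W_E(M)`. -/
theorem norm_hesHostA_unit_of (hℓ : ℓ.Prime) (hℓ3 : ℓ ≠ 3) (hℓM : ¬ ℓ ∣ M)
    (hcomap : (hesWE hA (M * ℓ) hp3).comap
      ((hesHostA Ω M ℓ : ↥(hesE Ω M) →ₐ[Ω] ↥(hesE Ω (M * ℓ))) :
        ↥(hesE Ω M) →+* ↥(hesE Ω (M * ℓ))) = hesWE hA M hp3)
    (αb : hesEt hA M hp3 →+* hesEt hA (M * ℓ) hp3)
    (hαb : ∀ (x : ↥(hesWE hA M hp3))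
      (hx' : hesHostA Ω M ℓ (x : ↥(hesE Ω M)) ∈ hesWE hA (M * ℓ) hp3),
      hesρ hA (M * ℓ) hp3 ⟨hesHostA Ω M ℓ (x : ↥(hesE Ω M)), hx'⟩ = αb (hesρ hA M hp3 x))
    (hfin : letI := αb.toAlgebra; FiniteDimensional (hesEt hA M hp3) (hesEt hA (M * ℓ) hp3))
    (hdeg : letI := αb.toAlgebra;
      Module.finrank (hesEt hA M hp3) (hesEt hA (M * ℓ) hp3) = ℓ + 1)
    {y : ↥(hesE Ω (M * ℓ))} (hy : y ∈ hesWE hA (M * ℓ) hp3) (hy' : y⁻¹ ∈ hesWE hA (M * ℓ) hp3) :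
    (letI := (hesHostA Ω M ℓ).toRingHom.toAlgebra; Algebra.norm ↥(hesE Ω M) y) ∈
        hesWE hA M hp3 ∧
      (letI := (hesHostA Ω M ℓ).toRingHom.toAlgebra; Algebra.norm ↥(hesE Ω M) y)⁻¹ ∈
        hesWE hA M hp3 := by
  letI := (hesHostA Ω M ℓ).toRingHom.toAlgebra
  letI := αb.toAlgebra
  haveI := hfin
  have hdeg0 : Module.finrank ↥(hesE Ω M) ↥(hesE Ω (M * ℓ)) = ℓ + 1 :=
    finrank_hesHostA_closure M ℓ hℓ hℓ3 hℓM
  haveI : FiniteDimensional ↥(hesE Ω M) ↥(hesE Ω (M * ℓ)) :=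
    Module.finite_of_finrank_pos (by rw [hdeg0]; exact Nat.succ_pos ℓ)
  exact norm_inv_mem_of_finrank_res_eq (hesρ hA M hp3) (hesρ hA (M * ℓ) hp3)
    (hesρ_surjective hA M hp3) (hesρ_surjective hA (M * ℓ) hp3)
    (hesρ_eq_zero_iff hA hp3 M) (hesρ_eq_zero_iff hA hp3 (M * ℓ)) hcomap
    (fun x hx => hαb x hx) (hdeg.trans hdeg0.symm) hy hy'

end Host

end Fermat.Agent.ML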