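/-
ML (S59) — helper6 — **Hesse-host port** of `Fermat.Agent.MP.REDINF_helper3_Omega`.
-/
import Mathlib
import Fermat.Agent.MP.REDINF_helper3_Omega
import Fermat.Agent.ML.HES_helper6_NormHost
import Fermat.Agent.ML.HES_helper6_HostT
import Fermat.Agent.ML.HES_helper6_Comap

set_option autoImplicit false
set_option linter.unusedSectionVars false
set_option linter.unusedVariables false
set_option linter.style.haveILetI false
set_option synthInstance.maxHeartbeats 400000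

open HahnSeries IntermediateField AlgebraicCurve ModularCurve IsLocalRing

namespace Fermat.Agent.ML

open Fermat.Agent.MP

open Fermat.Agent.JA Fermat.Agent.FF Fermat.Agent.SS Fermat.Agent.S35 Fermat.Agent.S36
  Fermat.Agent.NP Fermat.Agent.FG Fermat.Agent.X0N

local notation "Ω" => AlgebraicClosure ℚ

noncomputable section

section Omega

variable {p : ℕ} [Fact p.Prime] {A : ValuationSubring Ω} (hA : A.LiesOverPrime p)
  (M : ℕ) [NeZero M] (hp3 : p ≠ 3) (ℓ : ℕ) [NeZero ℓ] [NeZero (M * ℓ)]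
  (hℓ : ℓ.Prime) (hℓ3 : ℓ ≠ 3)

/-- **the Hecke operator commutes with the reduction.** -/
theorem hesρ_hesHeckeP_of (hℓM : ¬ ℓ ∣ M)
    (hfin : letI := (hesEtA hA M hp3 ℓ).toRingHom.toAlgebra
      FiniteDimensional (hesEt hA M hp3) (hesEt hA (M * ℓ) hp3))
    (hdeg : letI := (hesEtA hA M hp3 ℓ).toRingHom.toAlgebra
      Module.finrank (hesEt hA M hp3) (hesEt hA (M * ℓ) hp3) = ℓ + 1)
    (g : ↥(hesE Ω M)) (hg : g ∈ hesWE hA M hp3) :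
    ∃ hN : hesHeckeP Ω M ℓ hℓ hℓ3 g ∈ hesWE hA M hp3,
      hesρ hA M hp3 ⟨hesHeckeP Ω M ℓ hℓ hℓ3 g, hN⟩ =
        hesEtT hA M hp3 ℓ hℓ hℓ3 (hesρ hA M hp3 ⟨g, hg⟩) := by
  have hBg : hesHostBG Ω M ℓ hℓ hℓ3 g ∈ hesWE hA (M * ℓ) hp3 :=
    hesHostB_mem_hesWE hA M hp3 ℓ hℓ hℓ3 hg
  obtain ⟨hN, h⟩ := hesρ_norm_hesHostA_of M ℓ hA hp3 hℓ hℓ3 hℓM
    (hesWE_comap_hesHostA hA M hp3 ℓ) (hesEtA hA M hp3 ℓ).toRingHom
    (fun x hx' => (hesEtA_hesρ hA M hp3 ℓ (x : ↥(hesE Ω M)) x.2 hx').symm) hfin hdeg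
    ⟨hesHostBG Ω M ℓ hℓ hℓ3 g, hBg⟩
  refine ⟨hN, ?_⟩
  rw [hesEtT_apply', hesEtB_hesρ hA M hp3 ℓ hℓ hℓ3 g hg hBg]
  exact h

end Omega

section Base

variable {p : ℕ} [Fact p.Prime] {A : ValuationSubring Ω} (hA : A.LiesOverPrime p)
  (M : ℕ) [NeZero M] (hp3 : p ≠ 3) (ℓ : ℕ) [NeZero ℓ] [NeZero (M * ℓ)]
  (hℓ : ℓ.Prime) (hℓ3 : ℓ ≠ 3) (K' : IntermediateField ℚ Ω)

end Base

end

end Fermat.Agent.ML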