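/-
ML (S59) — helper6 — **Hesse-host port** of `Fermat.Agent.RB.ROLD_helper4_Heck`.
-/
import Mathlib
import Fermat.Agent.RB.ROLD_helper4_Heck
import Fermat.Agent.ML.HES_helper6_RhoOmega
import Fermat.Agent.ML.HES_helper6_DegEt
import Fermat.Agent.ML.HES_helper6_Compat
import Fermat.Agent.FG.INST_helper6_Hes

set_option autoImplicit false
set_option linter.unusedSectionVars false
set_option linter.style.haveILetI false
set_option synthInstance.maxHeartbeats 400000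

noncomputable section

namespace Fermat.Agent.ML

open Fermat.Agent.RB.ROLD

open AlgebraicCurve IsLocalRing IntermediateField ModularCurve
open Fermat.Agent.FG Fermat.Agent.JA Fermat.Agent.SS Fermat.Agent.FF Fermat.Agent.S35
  Fermat.Agent.NP Fermat.Agent.MP

local notation "Ω" => AlgebraicClosure ℚ

section Omega

variable (M : ℕ) [NeZero M] (ℓ : ℕ) [NeZero ℓ] [NeZero (M * ℓ)]
  (hℓ : ℓ.Prime) (hℓ3 : ℓ ≠ 3) (hℓM : ¬ ℓ ∣ M)

include hℓM in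
/-- **`T_ℓ` on the host and on the level field are compatible, over `Ω`.** -/
theorem hesHeckeP_fullToHesE_Omega (f : ↥(keyFq Ω M)) :
    hesHeckeP Ω M ℓ hℓ hℓ3 (fullToHesE Ω M f) = fullToHesE Ω M (heckeFunBar M ℓ f) := by
  letI : Algebra Ω ℂ := ((IsAlgClosed.lift : Ω →ₐ[ℚ] ℂ) : Ω →+* ℂ).toAlgebra
  have h1 : heckeFunBar M ℓ f = heckeFunK Ω M ℓ f := rfl
  rw [h1, heckeFunK_eq_norm]
  exact hesHeckeP_fullToHesE Ω M ℓ hℓ hℓ3 hℓM (finrank_hesHostA_Omega M ℓ hℓ hℓ3 hℓM) f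

end Omega

section Red

variable {q : ℕ} [Fact q.Prime] {A : ValuationSubring Ω} (hA : A.LiesOverPrime q)
  (M : ℕ) [NeZero M] (hqM : ¬ q ∣ M) (hq3 : q ≠ 3) (ℓ : ℕ) [NeZero ℓ] [NeZero (M * ℓ)]
  (hℓ : ℓ.Prime) (hℓ3 : ℓ ≠ 3) (hℓM : ¬ ℓ ∣ M) (hℓq : ℓ ≠ q)

include hℓM hℓq in
/-- **the reduction clause.** -/
theorem redTo_heckeFunBarH (f : ↥(keyFq Ω M)) (r : hesEt hA M hq3)
    (h : RedTo (hesGoodRed hA M hqM hq3) (fullToHesE Ω M f) r) :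
    RedTo (hesGoodRed hA M hqM hq3) (fullToHesE Ω M (heckeFunBar M ℓ f))
      (hesEtT hA M hq3 ℓ hℓ hℓ3 r) := by
  obtain ⟨hf, rfl⟩ := h
  have hq : q.Prime := Fact.out
  have hqMℓ : ¬ q ∣ M * ℓ := by
    intro hdvd
    rcases (Nat.Prime.dvd_mul hq).1 hdvd with h1 | h1
    · exact hqM h1
    · exact hℓq ((Nat.prime_dvd_prime_iff_eq hq hℓ).1 h1).symm
  obtain ⟨hN, hT⟩ := hesρ_hesHeckeP_of hA M hq3 ℓ hℓ hℓ3 hℓM (finite_hesEtA hA M hq3 ℓ hqMℓ)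
    (finrank_hesEtA hA M hq3 ℓ hℓ hℓ3 hℓM hqMℓ) (fullToHesE Ω M f) hf
  rw [← hesHeckeP_fullToHesE_Omega M ℓ hℓ hℓ3 hℓM f]
  exact ⟨hN, hT⟩

end Red

section Div

variable (M : ℕ) [NeZero M] (ℓ : ℕ) [NeZero ℓ]

end Div

end Fermat.Agent.ML
end
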