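/-
ML (S59) — helper6 — **Hesse-host port** of `Fermat.Agent.RB.ROLD_helper4_Gal`: the automorphisms of
the Hesse cover `hesE Ω N / F̄(X₀(N))` preserve the Gauss valuation ring `hesWE` (at a valuation ring
`A` of `ℚ̄` over a prime `q ≠ 3`, `q ∤ N`) and its maximal ideal.

An automorphism `σ` of `hesE Ω N` over `Ω` fixing `j` maps the uniformizer `τ` to another solution
`σ τ` of the Hesse relation `27 (1 + 8 τ³)³ = j τ³ (1 − τ³)³`; the relation forces `σ τ` to be
Gauss-integral (the reduction of `j` is not `0`) with transcendental reduction, and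
`RB/ROLD_helper4_Aut` applies.
-/
import Mathlib
import Fermat.Agent.RB.ROLD_helper4_Gal
import Fermat.Agent.FG.INST_helper6_Hes
import Fermat.Agent.FG.EGAL_helper6_PullHes

set_option autoImplicit false
set_option linter.unusedSectionVars false
set_option linter.style.haveILetI false
set_option synthInstance.maxHeartbeats 400000

noncomputable section

namespace Fermat.Agent.ML

open AlgebraicCurve IsLocalRing IntermediateField Polynomial ModularCurve
open Fermat.Agent.FG Fermat.Agent.JA Fermat.Agent.SS Fermat.Agent.FF Fermat.Agent.RB.ROLD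

section Field

variable {K L : Type*} [Field K] [IsAlgClosed K] [Field L] [Algebra K L]

/-- **a Hesse parameter with a transcendental invariant is transcendental**: if `t` is
transcendental and `s`, `t` satisfy the Hesse relation with the same `j`, then `s` is
transcendental. -/
theorem transcendental_of_hesse_rel (h27 : (27 : L) ≠ 0) {t j s : L}
    (ht : Transcendental K t)
    (hrt : 27 * (1 + 8 * t ^ 3) ^ 3 = j * (t ^ 3 * (1 - t ^ 3) ^ 3))
    (hrs : 27 * (1 + 8 * s ^ 3) ^ 3 = j * (s ^ 3 * (1 - s ^ 3) ^ 3)) : Transcendental K s := by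
  intro halg
  obtain ⟨c, rfl⟩ := exists_algebraMap_eq_of_isAlgebraic halg
  have h27K : (27 : K) ≠ 0 := by
    intro h0
    apply h27
    have := congrArg (algebraMap K L) h0
    rwa [map_ofNat, map_zero] at this
  have h3K : (3 : K) ≠ 0 := by
    intro h0
    apply h27K
    have : (27 : K) = 3 * 3 * 3 := by norm_num
    rw [this, h0]; ring
  have h9K : (9 : K) ≠ 0 := by
    have : (9 : K) = 3 * 3 := by norm_num
    rw [this]
    exact mul_ne_zero h3K h3K
  have hinj : Function.Injective (algebraMap K L) := (algebraMap K L).injective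
  by_cases hD : c ^ 3 * (1 - c ^ 3) ^ 3 = 0
  · have hD' : (algebraMap K L c) ^ 3 * (1 - algebraMap K L c ^ 3) ^ 3 = 0 := by
      have := congrArg (algebraMap K L) hD
      simpa using this
    rw [hD', mul_zero] at hrs
    have h1 : (27 : K) * (1 + 8 * c ^ 3) ^ 3 = 0 := by
      apply hinj
      rw [map_zero]
      simp only [map_mul, map_pow, map_add, map_one, map_ofNat]
      exact hrs
    have h2 : 1 + 8 * c ^ 3 = 0 := by
      rcases mul_eq_zero.1 h1 with h | h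
      · exact absurd h h27K
      · exact pow_eq_zero_iff (by norm_num) |>.1 h
    rcases mul_eq_zero.1 hD with h | h
    · have hc : c ^ 3 = 0 := h
      rw [hc] at h2
      norm_num at h2
    · have hc : 1 - c ^ 3 = 0 := pow_eq_zero_iff (by norm_num) |>.1 h
      have hc' : c ^ 3 = 1 := (sub_eq_zero.1 hc).symm
      rw [hc'] at h2
      apply h9K
      linear_combination h2
  · -- `j` is a constant
    set c' : K := 27 * (1 + 8 * c ^ 3) ^ 3 / (c ^ 3 * (1 - c ^ 3) ^ 3) with hc'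
    have hj : j = algebraMap K L c' := by
      have hD' : algebraMap K L (c ^ 3 * (1 - c ^ 3) ^ 3) ≠ 0 := (_root_.map_ne_zero _).2 hD
      rw [hc', map_div₀, eq_div_iff hD']
      simp only [map_mul, map_pow, map_sub, map_add, map_one, map_ofNat]
      exact hrs.symm
    apply ht
    refine ⟨C 27 * (1 + C 8 * X ^ 3) ^ 3 - C c' * (X ^ 3 * (1 - X ^ 3) ^ 3), ?_, ?_⟩
    · intro h0
      have := congrArg (Polynomial.eval 0) h0
      simp at this
      exact h27K this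
    · simp only [map_sub, map_mul, map_pow, map_add, map_one, aeval_X, aeval_C, map_ofNat]
      rw [← hj, hrt]
      ring

end Field

section Abs

variable {Ω : Type*} [Field Ω] {A : ValuationSubring Ω} {𝔽 : Type*} [Field 𝔽] [Algebra Ω 𝔽]
  {𝔽b : Type*} [Field 𝔽b] [Algebra (ResidueField ↥A) 𝔽b] (X : GoodRed Ω A 𝔽 𝔽b)

/-- **a Hesse parameter with an integral invariant of non-zero reduction is integral.** -/
theorem mem_W_of_hesse_rel {j s : 𝔽} (hj : j ∈ X.W) (hj0 : X.ρ ⟨j, hj⟩ ≠ 0)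
    (hrs : 27 * (1 + 8 * s ^ 3) ^ 3 = j * (s ^ 3 * (1 - s ^ 3) ^ 3)) : s ∈ X.W := by
  by_contra hs
  have hs0 : s ≠ 0 := fun h => hs (h ▸ X.W.zero_mem)
  have hu : s⁻¹ ∈ X.W := (X.W.mem_or_inv_mem s).resolve_left hs
  have hρu : X.ρ ⟨s⁻¹, hu⟩ = 0 := by
    by_contra h
    have := (X.inv_mem_W_iff hu (inv_ne_zero hs0)).2 h
    rw [inv_inv] at this
    exact hs this
  have hid : 27 * (s⁻¹ ^ 3 * (s⁻¹ ^ 3 + 8) ^ 3) = j * (s⁻¹ ^ 3 - 1) ^ 3 := by
    have h1 : 27 * (s⁻¹ ^ 3 * (s⁻¹ ^ 3 + 8) ^ 3) = (27 * (1 + 8 * s ^ 3) ^ 3) * s⁻¹ ^ 12 := by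
      field_simp
    have h2 : j * (s⁻¹ ^ 3 - 1) ^ 3 = (j * (s ^ 3 * (1 - s ^ 3) ^ 3)) * s⁻¹ ^ 12 := by
      field_simp
    rw [h1, h2, hrs]
  have hidW : 27 * ((⟨s⁻¹, hu⟩ : ↥X.W) ^ 3 * ((⟨s⁻¹, hu⟩ : ↥X.W) ^ 3 + 8) ^ 3) =
      (⟨j, hj⟩ : ↥X.W) * ((⟨s⁻¹, hu⟩ : ↥X.W) ^ 3 - 1) ^ 3 := by
    apply Subtype.ext
    push_cast
    exact hid
  have h3 := congrArg X.ρ hidW
  simp only [map_mul, map_pow, map_sub, map_add, map_one, hρu, map_ofNat] at h3
  apply hj0
  have h4 : X.ρ ⟨j, hj⟩ * (0 ^ 3 - 1) ^ 3 = -X.ρ ⟨j, hj⟩ := by ring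
  rw [h4] at h3
  have h5 : (27 : 𝔽b) * (0 ^ 3 * (0 ^ 3 + 8) ^ 3) = 0 := by ring
  rw [h5] at h3
  exact neg_eq_zero.1 h3.symm

end Abs

local notation "Ω" => AlgebraicClosure ℚ

section Hes

variable {q : ℕ} [Fact q.Prime] {A : ValuationSubring Ω} (hA : A.LiesOverPrime q)
  (N : ℕ) [NeZero N] (hqN : ¬ q ∣ N) (hq3 : q ≠ 3)

/-- the Hesse relation of the uniformizer. -/
theorem hesTau_rel : 27 * (1 + 8 * hesTau Ω N ^ 3) ^ 3 =
    hesJE Ω N * (hesTau Ω N ^ 3 * (1 - hesTau Ω N ^ 3) ^ 3) := by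
  apply Subtype.ext
  push_cast
  exact hesU_rel Ω

include hA hq3 in
theorem ofNat_27_ne_zero_hesEt : (27 : hesEt hA N hq3) ≠ 0 := by
  haveI : CharP (ResidueField ↥A) q := charP_residueField hA
  have hq : q.Prime := Fact.out
  have h1 : ((27 : ℕ) : ResidueField ↥A) ≠ 0 := by
    rw [Ne, CharP.cast_eq_zero_iff (ResidueField ↥A) q]
    intro hdvd
    have h2 : q ∣ 3 ^ 3 := by norm_num; exact hdvd
    exact hq3 ((Nat.prime_dvd_prime_iff_eq hq Nat.prime_three).1 (hq.dvd_of_dvd_pow h2))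
  have h3 : algebraMap (ResidueField ↥A) (hesEt hA N hq3) ((27 : ℕ) : ResidueField ↥A) ≠ 0 :=
    (_root_.map_ne_zero _).2 h1
  rw [map_natCast] at h3
  exact_mod_cast h3

/-- `j` is Gauss-integral. -/
theorem hesJE_mem_hesWE' : hesJE Ω N ∈ hesWE hA N hq3 :=
  Fermat.Agent.MP.jqNModC_mem_fracInt 3

include hqN in
/-- the reduction of `j` is not `0` (otherwise `τ̄` would be algebraic). -/
theorem hesρ_hesJE_ne_zero :
    hesρ hA N hq3 ⟨hesJE Ω N, hesJE_mem_hesWE' hA N hq3⟩ ≠ 0 := by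
  haveI : IsAlgClosed (ResidueField ↥A) := isAlgClosed_residueField A
  set G := hesGoodRed hA N hqN hq3 with hG
  have ht : Transcendental (ResidueField ↥A) G.τb := G.transcendental_τb
  intro h0
  set jW : ↥(hesWE hA N hq3) := ⟨hesJE Ω N, hesJE_mem_hesWE' hA N hq3⟩ with hjW
  set tW : ↥(hesWE hA N hq3) := ⟨hesTau Ω N, hesTau_mem_hesWE hA N hq3⟩ with htW
  have hrt : 27 * (1 + 8 * tW ^ 3) ^ 3 = jW * (tW ^ 3 * (1 - tW ^ 3) ^ 3) := by
    apply Subtype.ext
    push_cast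
    exact hesTau_rel N
  have hrt' := congrArg (hesρ hA N hq3) hrt
  simp only [map_mul, map_pow, map_sub, map_add, map_one, map_ofNat] at hrt'
  rw [h0, zero_mul] at hrt'
  have h27 := ofNat_27_ne_zero_hesEt hA N hq3
  have h1 : 1 + 8 * hesρ hA N hq3 tW ^ 3 = 0 := by
    rcases mul_eq_zero.1 hrt' with h | h
    · exact absurd h h27
    · exact pow_eq_zero_iff (by norm_num) |>.1 h
  apply ht
  refine ⟨1 + C 8 * X ^ 3, ?_, ?_⟩
  · intro h0
    have := congrArg (Polynomial.eval 0) h0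
    simp at this
  · simp only [map_add, map_mul, map_pow, map_one, aeval_X, map_ofNat]
    exact h1

variable (σ : ↥(hesE Ω N) ≃ₐ[Ω] ↥(hesE Ω N)) (hσ : σ (hesJE Ω N) = hesJE Ω N)

include hσ in
theorem hesTau_rel_apply : 27 * (1 + 8 * σ (hesTau Ω N) ^ 3) ^ 3 =
    hesJE Ω N * (σ (hesTau Ω N) ^ 3 * (1 - σ (hesTau Ω N) ^ 3) ^ 3) := by
  have h := congrArg σ (hesTau_rel N)
  simp only [map_mul, map_pow, map_sub, map_add, map_one, map_ofNat, hσ] at h
  exact h

include hσ hqN in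
/-- `σ τ` is Gauss-integral. -/
theorem apply_hesTau_mem : σ (hesTau Ω N) ∈ hesWE hA N hq3 :=
  mem_W_of_hesse_rel (hesGoodRed hA N hqN hq3) (hesJE_mem_hesWE' hA N hq3)
    (hesρ_hesJE_ne_zero hA N hqN hq3) (hesTau_rel_apply N σ hσ)

include hσ in
/-- the reduction of `σ τ` is transcendental. -/
theorem transcendental_hesρ_apply_hesTau :
    Transcendental (ResidueField ↥A)
      (hesρ hA N hq3 ⟨σ (hesTau Ω N), apply_hesTau_mem hA N hqN hq3 σ hσ⟩) := by
  haveI : IsAlgClosed (ResidueField ↥A) := isAlgClosed_residueField A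
  set X := hesGoodRed hA N hqN hq3 with hX
  have ht : Transcendental (ResidueField ↥A) X.τb := X.transcendental_τb
  set jW : ↥(hesWE hA N hq3) := ⟨hesJE Ω N, hesJE_mem_hesWE' hA N hq3⟩ with hjW
  set tW : ↥(hesWE hA N hq3) := ⟨hesTau Ω N, hesTau_mem_hesWE hA N hq3⟩ with htW
  set sW : ↥(hesWE hA N hq3) := ⟨σ (hesTau Ω N), apply_hesTau_mem hA N hqN hq3 σ hσ⟩ with hsW
  have hrt : 27 * (1 + 8 * tW ^ 3) ^ 3 = jW * (tW ^ 3 * (1 - tW ^ 3) ^ 3) := by
    apply Subtype.ext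
    push_cast
    exact hesTau_rel N
  have hrs : 27 * (1 + 8 * sW ^ 3) ^ 3 = jW * (sW ^ 3 * (1 - sW ^ 3) ^ 3) := by
    apply Subtype.ext
    push_cast
    exact hesTau_rel_apply N σ hσ
  have hrt' := congrArg (hesρ hA N hq3) hrt
  have hrs' := congrArg (hesρ hA N hq3) hrs
  simp only [map_mul, map_pow, map_sub, map_add, map_one, map_ofNat] at hrt' hrs'
  exact transcendental_of_hesse_rel (ofNat_27_ne_zero_hesEt hA N hq3) ht hrt' hrs'

include hσ in
theorem symm_apply_hesJE : σ.symm (hesJE Ω N) = hesJE Ω N := by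
  conv_lhs => rw [← hσ]
  exact σ.symm_apply_apply _

include hσ hqN in
/-- **`σ` preserves the Gauss valuation ring.** -/
theorem apply_mem_hesWE {y : ↥(hesE Ω N)} (hy : y ∈ hesWE hA N hq3) : σ y ∈ hesWE hA N hq3 :=
  map_mem_W (hesGoodRed hA N hqN hq3) (σ : ↥(hesE Ω N) →ₐ[Ω] ↥(hesE Ω N))
    (apply_hesTau_mem hA N hqN hq3 σ hσ) (transcendental_hesρ_apply_hesTau hA N hqN hq3 σ hσ) hy

include hσ in
/-- **`σ` preserves the maximal ideal of the Gauss valuation ring.** -/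
theorem hesρ_apply_eq_zero {y : ↥(hesE Ω N)} (hy : y ∈ hesWE hA N hq3)
    (h0 : hesρ hA N hq3 ⟨y, hy⟩ = 0) :
    hesρ hA N hq3 ⟨σ y, apply_mem_hesWE hA N hqN hq3 σ hσ hy⟩ = 0 :=
  ρ_map_eq_zero (hesGoodRed hA N hqN hq3) σ
    (apply_hesTau_mem hA N hqN hq3 σ hσ) (transcendental_hesρ_apply_hesTau hA N hqN hq3 σ hσ)
    (apply_hesTau_mem hA N hqN hq3 σ.symm (symm_apply_hesJE N σ hσ))
    (transcendental_hesρ_apply_hesTau hA N hqN hq3 σ.symm (symm_apply_hesJE N σ hσ)) hy h0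

end Hes

end Fermat.Agent.ML

end
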