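/-
ML (S59) — helper6 — **Hesse-host port** of `Fermat.Agent.RB.ROLD_helper4_Norm`.
-/
import Mathlib
import Fermat.Agent.RB.ROLD_helper4_Norm
import Fermat.Agent.ML.HES_helper6_RoldGal
import Fermat.Agent.ML.HES_helper6_DegCop

set_option autoImplicit false
set_option linter.unusedSectionVars false
set_option linter.style.haveILetI false
set_option synthInstance.maxHeartbeats 400000

noncomputable section

namespace Fermat.Agent.ML

open Fermat.Agent.RB.ROLD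

open AlgebraicCurve IsLocalRing IntermediateField Polynomial ModularCurve
open Fermat.Agent.FG Fermat.Agent.JA Fermat.Agent.SS Fermat.Agent.FF Fermat.Agent.S35

section Abs

variable {Ω : Type*} [Field Ω] {A : ValuationSubring Ω} {𝔽 : Type*} [Field 𝔽] [Algebra Ω 𝔽]
  {𝔽b : Type*} [Field 𝔽b] [Algebra (ResidueField ↥A) 𝔽b] (X : GoodRed Ω A 𝔽 𝔽b)

end Abs

local notation "Ω" => AlgebraicClosure ℚ

section Hes

variable {q : ℕ} [Fact q.Prime] {A : ValuationSubring Ω} (hA : A.LiesOverPrime q)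
  (N : ℕ) [NeZero N] (hqN : ¬ q ∣ N) (hq3 : q ≠ 3)

/-- the degree of the Hesse cover. -/
def hesCoverDeg : ℕ := finrankAlong Ω (fullToHesE Ω N)

theorem hesCoverDeg_pos : 0 < hesCoverDeg N := by
  letI := algebraAlong (fullToHesE Ω N)
  haveI : FiniteDimensional ↥(keyFq Ω N) ↥(hesE Ω N) := finiteAlong_fullToHesE N
  exact Module.finrank_pos

theorem hesCoverDeg_eq_hesDeg : hesCoverDeg N = hesDeg N := rfl

/-- **the degree of the Hesse cover is prime to every prime `p ≥ 5`.** -/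
theorem hesCoverDeg_coprime {p : ℕ} (hp : p.Prime) (hp5 : 5 ≤ p) :
    Nat.Coprime (hesCoverDeg N) p := by
  rw [hesCoverDeg_eq_hesDeg]
  exact hesDeg_coprime N hp hp5

theorem normFormulaAlong_fullToHesE :
    haveI : HasPrincipalDivisors Ω ↥(hesE Ω N) := hesE_principal_gen N
    NormFormulaAlong Ω (fullToHesE Ω N) (finiteAlong_fullToHesE N) :=
  haveI : HasPrincipalDivisors Ω ↥(hesE Ω N) := hesE_principal_gen N
  Fermat.Agent.MW.normFormulaAlong_of_deg_eq_one (fullToHesE Ω N) (finiteAlong_fullToHesE N)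
    (Fermat.Agent.MW.legFun_deg_eq_one N) (hesE_deg_gen N)

include hqN in
/-- **the norm of a Kummer lift is Gauss-integral, with reduction `w̄ ^ d · B ^ p`.** -/
theorem exists_ρ_normAlongH (p : ℕ) (w : ↥(keyFq Ω N))
    (hW : fullToHesE Ω N w ∈ hesWE hA N hq3) {g : ↥(hesE Ω N)} (hg : g ∈ hesWE hA N hq3)
    {β : hesEt hA N hq3} (hβ : β ≠ 0)
    (hρ : hesρ hA N hq3 ⟨g, hg⟩ = hesρ hA N hq3 ⟨fullToHesE Ω N w, hW⟩ * β ^ p) :
    ∃ (h : fullToHesE Ω N (normAlong (fullToHesE Ω N) g) ∈ hesWE hA N hq3)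
      (B : hesEt hA N hq3), B ≠ 0 ∧
      hesρ hA N hq3 ⟨fullToHesE Ω N (normAlong (fullToHesE Ω N) g), h⟩ =
        hesρ hA N hq3 ⟨fullToHesE Ω N w, hW⟩ ^ hesCoverDeg N * B ^ p := by
  letI := algebraAlong (fullToHesE Ω N)
  haveI := isScalarTower_along (fullToHesE Ω N)
  haveI : FiniteDimensional ↥(keyFq Ω N) ↥(hesE Ω N) := finiteAlong_fullToHesE N
  haveI : IsGalois ↥(keyFq Ω N) ↥(hesE Ω N) := isGalois_fullToHesE N
  have hnorm : fullToHesE Ω N (normAlong (fullToHesE Ω N) g) =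
      ∏ σ : (↥(hesE Ω N) ≃ₐ[↥(keyFq Ω N)] ↥(hesE Ω N)), σ g :=
    Algebra.norm_eq_prod_automorphisms ↥(keyFq Ω N) g
  have hfix : ∀ σ : (↥(hesE Ω N) ≃ₐ[↥(keyFq Ω N)] ↥(hesE Ω N)),
      (σ.restrictScalars Ω) (hesJE Ω N) = hesJE Ω N := by
    intro σ
    rw [← fullToHesE_egalJ]
    exact σ.commutes _
  have h1 : ∀ (σ : (↥(hesE Ω N) ≃ₐ[↥(keyFq Ω N)] ↥(hesE Ω N))), ∀ y ∈ hesWE hA N hq3,
      ((σ.restrictScalars Ω : ↥(hesE Ω N) ≃ₐ[Ω] ↥(hesE Ω N)) : ↥(hesE Ω N) →+* ↥(hesE Ω N)) y ∈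
        hesWE hA N hq3 :=
    fun σ y hy => apply_mem_hesWE hA N hqN hq3 (σ.restrictScalars Ω) (hfix σ) hy
  have h2 : ∀ (σ : (↥(hesE Ω N) ≃ₐ[↥(keyFq Ω N)] ↥(hesE Ω N))) (y : ↥(hesE Ω N))
      (hy : y ∈ hesWE hA N hq3), hesρ hA N hq3 ⟨y, hy⟩ = 0 →
      hesρ hA N hq3 ⟨_, h1 σ y hy⟩ = 0 :=
    fun σ y hy h0 => hesρ_apply_eq_zero hA N hqN hq3 (σ.restrictScalars Ω) (hfix σ) hy h0
  have h3 : ∀ (σ : (↥(hesE Ω N) ≃ₐ[↥(keyFq Ω N)] ↥(hesE Ω N))) (y : ↥(hesE Ω N))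
      (hy : y ∈ hesWE hA N hq3), hesρ hA N hq3 ⟨y, hy⟩ ≠ 0 →
      hesρ hA N hq3 ⟨_, h1 σ y hy⟩ ≠ 0 := by
    intro σ y hy hne h0
    apply hne
    have h4 := h2 σ.symm _ (h1 σ y hy) h0
    have e : (⟨_, h1 σ.symm _ (h1 σ y hy)⟩ : ↥(hesWE hA N hq3)) = ⟨y, hy⟩ :=
      Subtype.ext (σ.symm_apply_apply y)
    rw [e] at h4
    exact h4
  obtain ⟨P, B, hP, hB, hρP⟩ := ρ_prod_of_congr (hesGoodRed hA N hqN hq3)
    (fun σ : (↥(hesE Ω N) ≃ₐ[↥(keyFq Ω N)] ↥(hesE Ω N)) =>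
      ((σ.restrictScalars Ω : ↥(hesE Ω N) ≃ₐ[Ω] ↥(hesE Ω N)) : ↥(hesE Ω N) →+* ↥(hesE Ω N)))
    h1 h2 h3 hW (fun σ => σ.commutes w) hg β hβ p hρ Finset.univ
  have hPe : (P : ↥(hesE Ω N)) = fullToHesE Ω N (normAlong (fullToHesE Ω N) g) := by
    rw [hnorm, hP]
    rfl
  have hcard : (Finset.univ : Finset (↥(hesE Ω N) ≃ₐ[↥(keyFq Ω N)] ↥(hesE Ω N))).card =
      hesCoverDeg N := by
    rw [Finset.card_univ, ← Nat.card_eq_fintype_card, IsGalois.card_aut_eq_finrank]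
    rfl
  have hmem : fullToHesE Ω N (normAlong (fullToHesE Ω N) g) ∈ hesWE hA N hq3 := by
    rw [← hPe]
    exact P.2
  refine ⟨hmem, B, hB, ?_⟩
  have e1 : hesρ hA N hq3 ⟨_, hmem⟩ = (hesGoodRed hA N hqN hq3).ρ P :=
    congrArg (hesρ hA N hq3) (Subtype.ext hPe.symm)
  rw [e1, hρP, hcard]
  rfl

/-- **the divisor of the norm is the push-forward of the divisor.** -/
theorem isDivOf_normAlongH (D : Divisor.degZero (K := Ω) (F := ↥(hesE Ω N))) {g : ↥(hesE Ω N)}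
    (m : ℕ) (hg : IsDivOf g (m • (D : Divisor Ω ↥(hesE Ω N)))) :
    haveI : HasPrincipalDivisors Ω ↥(hesE Ω N) := hesE_principal_gen N
    IsDivOf (normAlong (fullToHesE Ω N) g)
      (m • (Fermat.Agent.MW.pushDegZero (fullToHesE Ω N) (isIntegral_fullToHesE_bar N) D :
        Divisor Ω ↥(keyFq Ω N))) := by
  haveI : HasPrincipalDivisors Ω ↥(hesE Ω N) := hesE_principal_gen N
  have hN := normFormulaAlong_fullToHesE N
  letI := algebraAlong (fullToHesE Ω N)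
  haveI := isScalarTower_along (fullToHesE Ω N)
  haveI : Module.Finite ↥(keyFq Ω N) ↥(hesE Ω N) := finiteAlong_fullToHesE N
  refine ⟨Algebra.norm_ne_zero_iff.mpr hg.1, fun v => ?_⟩
  rw [Fermat.Agent.MW.coe_pushDegZero, ← map_nsmul]
  exact hN g hg.1 _ hg.2 v

end Hes

end Fermat.Agent.ML
end
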