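/-
PROJECT ML (S59) — helper8 — **[REMOVE-P] at `p = 3`, (R2), part 1: the `q`-expansions at the two
cusps of `X₀(2)`**.  With `v = Δ(q)/Δ(q²) = q⁻¹ - 24 + …` and `j = q⁻¹ + 744 + …` over any
commutative ring:

* `coeff_levTwoNumInf` : `(v + 256)³ - j v²` has no terms of degree `< -1`;
* `coeff_levTwoNumZero` : `(v + 16)³ - j(q²) v` has no terms of degree `< -1`.

These are the two local computations behind the classical identity `j v² = (v + 256)³`
(`LEV2_helper8_Ident`).
-/
import Mathlib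
import Fermat.Agent.MZ.INJL_helper9_Series

set_option autoImplicit false
set_option linter.unusedSectionVars false
set_option linter.style.haveILetI false

open ModularCurve HahnSeries

namespace Fermat.Agent.ML

open Fermat.Agent.SS Fermat.Agent.MZ

section TwoCoeff

variable {R : Type*} [CommRing R]

/-- the first two coefficients of a power series. -/
structure C2 (f : PowerSeries R) (a0 a1 : R) : Prop where
  h0 : PowerSeries.coeff 0 f = a0
  h1 : PowerSeries.coeff 1 f = a1

theorem C2.mul {f g : PowerSeries R} {a0 a1 b0 b1 : R} (hf : C2 f a0 a1) (hg : C2 g b0 b1) :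
    C2 (f * g) (a0 * b0) (a0 * b1 + a1 * b0) := by
  obtain ⟨f0, f1⟩ := hf
  obtain ⟨g0, g1⟩ := hg
  refine ⟨?_, ?_⟩
  · rw [PowerSeries.coeff_mul]
    simp [f0, g0]
  · rw [PowerSeries.coeff_mul]
    simp [Finset.Nat.antidiagonal_succ, f0, f1, g0, g1]

theorem C2.add {f g : PowerSeries R} {a0 a1 b0 b1 : R} (hf : C2 f a0 a1) (hg : C2 g b0 b1) :
    C2 (f + g) (a0 + b0) (a1 + b1) :=
  ⟨by rw [map_add, hf.h0, hg.h0], by rw [map_add, hf.h1, hg.h1]⟩

theorem C2.sub {f g : PowerSeries R} {a0 a1 b0 b1 : R} (hf : C2 f a0 a1) (hg : C2 g b0 b1) :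
    C2 (f - g) (a0 - b0) (a1 - b1) :=
  ⟨by rw [map_sub, hf.h0, hg.h0], by rw [map_sub, hf.h1, hg.h1]⟩

theorem C2.congr {f : PowerSeries R} {a0 a1 b0 b1 : R} (hf : C2 f a0 a1) (e0 : a0 = b0)
    (e1 : a1 = b1) : C2 f b0 b1 := by
  subst e0 e1
  exact hf

theorem C2.cube {f : PowerSeries R} {a1 : R} (hf : C2 f 1 a1) : C2 (f ^ 3) 1 (3 * a1) := by
  have h2 := hf.mul hf
  have h3 := h2.mul hf
  rw [show f ^ 3 = f * f * f by ring]
  exact h3.congr (by ring) (by ring)

theorem c2_const_mul_X (c : R) : C2 (PowerSeries.C c * PowerSeries.X) 0 c := by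
  refine ⟨?_, ?_⟩
  · rw [PowerSeries.coeff_zero_mul_X]
  · rw [show (1 : ℕ) = 0 + 1 from rfl, PowerSeries.coeff_succ_mul_X, PowerSeries.coeff_zero_C]

end TwoCoeff

section Series

variable (R : Type*) [CommRing R]

/-- `V = ∏ (1 - qⁿ)^24 / ∏ (1 - q^{2n})^24 = 1 - 24 q + …`. -/
theorem c2_unitPS_two : C2 (unitPS R 2) 1 (-24) :=
  ⟨coeff_unitPS_zero R 2, coeff_unitPS_one R 2 le_rfl⟩

/-- `q j = 1 + 744 q + …`. -/
theorem c2_jNum_map : C2 (jNum.map (Int.castRingHom R)) 1 744 := by
  refine ⟨?_, ?_⟩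
  · rw [PowerSeries.coeff_map, coeff_jNum_small.1]
    simp
  · rw [PowerSeries.coeff_map, coeff_jNum_small.2.1]
    simp

/-- `q² j(q²) = 1 + 0 q + …`. -/
theorem c2_expand_jNum_map :
    C2 (PowerSeries.expand 2 two_ne_zero (jNum.map (Int.castRingHom R))) 1 0 := by
  refine ⟨?_, ?_⟩
  · rw [PowerSeries.coeff_zero_eq_constantCoeff_apply, PowerSeries.constantCoeff_expand,
      ← PowerSeries.coeff_zero_eq_constantCoeff_apply]
    exact (c2_jNum_map R).h0
  · exact PowerSeries.coeff_expand_of_not_dvd 2 two_ne_zero _ (by norm_num)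

/-- the power series `(V + 256 q)³ - (q j) V²`. -/
noncomputable def levTwoPSInf : PowerSeries R :=
  (unitPS R 2 + PowerSeries.C 256 * PowerSeries.X) ^ 3 -
    jNum.map (Int.castRingHom R) * (unitPS R 2 * unitPS R 2)

/-- the power series `(V + 16 q)³ - (q² j(q²)) V`. -/
noncomputable def levTwoPSZero : PowerSeries R :=
  (unitPS R 2 + PowerSeries.C 16 * PowerSeries.X) ^ 3 -
    PowerSeries.expand 2 two_ne_zero (jNum.map (Int.castRingHom R)) * unitPS R 2

theorem c2_levTwoPSInf : C2 (levTwoPSInf R) 0 0 := by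
  have hV := c2_unitPS_two R
  have h1 : C2 (unitPS R 2 + PowerSeries.C 256 * PowerSeries.X) 1 232 :=
    (hV.add (c2_const_mul_X (256 : R))).congr (by ring) (by ring)
  have h2 := h1.cube
  have h3 := (c2_jNum_map R).mul (hV.mul hV)
  exact (h2.sub h3).congr (by ring) (by ring)

theorem c2_levTwoPSZero : C2 (levTwoPSZero R) 0 0 := by
  have hV := c2_unitPS_two R
  have h1 : C2 (unitPS R 2 + PowerSeries.C 16 * PowerSeries.X) 1 (-8) :=
    (hV.add (c2_const_mul_X (16 : R))).congr (by ring) (by ring)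
  have h2 := h1.cube
  have h3 := (c2_expand_jNum_map R).mul hV
  exact (h2.sub h3).congr (by ring) (by ring)

/-- a power series with vanishing first two coefficients, shifted by `q⁻³`, has no terms of degree
`< -1`. -/
theorem coeff_single_neg_three_mul {f : PowerSeries R} (hf : C2 f 0 0) {n : ℤ} (hn : n < -1) :
    ((HahnSeries.single (-3 : ℤ) (1 : R) : LaurentSeries R) *
      HahnSeries.ofPowerSeries ℤ R f).coeff n = 0 := by
  rw [HahnSeries.coeff_single_mul, one_mul]
  rcases lt_or_ge (n - -3) 0 with h | h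
  · exact ofPowerSeries_coeff_of_neg _ h
  · obtain ⟨m, hm⟩ := Int.eq_ofNat_of_zero_le h
    rw [hm, HahnSeries.ofPowerSeries_apply_coeff]
    have hm1 : m = 0 ∨ m = 1 := by omega
    rcases hm1 with rfl | rfl
    · exact hf.h0
    · exact hf.h1

/-- `q⁻¹ · q = 1`. -/
theorem single_neg_one_mul_ofPowerSeries_X :
    (HahnSeries.single (-1 : ℤ) (1 : R) : LaurentSeries R) *
      HahnSeries.ofPowerSeries ℤ R PowerSeries.X = 1 := by
  rw [HahnSeries.ofPowerSeries_X, HahnSeries.single_mul_single, one_mul]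
  rfl

theorem single_neg_one_pow_three :
    (HahnSeries.single (-1 : ℤ) (1 : R) : LaurentSeries R) ^ 3 = HahnSeries.single (-3 : ℤ) 1 := by
  rw [HahnSeries.single_pow, one_pow]
  rfl

/-- the numerator of `(v + 256)³ / v² - j` at the cusp `∞`. -/
noncomputable def levTwoNumInf : LaurentSeries R :=
  (unitModC R 2 + 256) ^ 3 - jqModC R * unitModC R 2 ^ 2

/-- the numerator of `(v + 16)³ / v - j(q²)` (the Atkin–Lehner transform, at the cusp `0`). -/
noncomputable def levTwoNumZero : LaurentSeries R :=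
  (unitModC R 2 + 16) ^ 3 - jqNModC R 2 * unitModC R 2

theorem unitModC_two_eq : unitModC R 2 =
    (HahnSeries.single (-1 : ℤ) (1 : R) : LaurentSeries R) *
      HahnSeries.ofPowerSeries ℤ R (unitPS R 2) := by
  rw [unitModC]
  norm_num

theorem jqNModC_two_eq : jqNModC R 2 =
    (HahnSeries.single (-1 : ℤ) (1 : R) : LaurentSeries R) ^ 2 *
      HahnSeries.ofPowerSeries ℤ R
        (PowerSeries.expand 2 two_ne_zero (jNum.map (Int.castRingHom R))) := by
  rw [jqNModC, jqModC, map_mul, qExpand_single, qExpand_ofPowerSeries_expand,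
    HahnSeries.single_pow, one_pow]
  norm_num

theorem levTwoNumInf_eq : levTwoNumInf R =
    (HahnSeries.single (-3 : ℤ) (1 : R) : LaurentSeries R) *
      HahnSeries.ofPowerSeries ℤ R (levTwoPSInf R) := by
  have hX := single_neg_one_mul_ofPowerSeries_X R
  have h256 : (256 : LaurentSeries R) =
      HahnSeries.ofPowerSeries ℤ R (PowerSeries.C 256) := by
    rw [map_ofNat, map_ofNat]
  rw [levTwoNumInf, levTwoPSInf, ← single_neg_one_pow_three, unitModC_two_eq, jqModC, map_sub,
    map_pow, map_add, map_mul, map_mul, map_mul, ← h256]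
  linear_combination (-(16777216 * (((HahnSeries.single (-1 : ℤ) (1 : R) : LaurentSeries R) *
        HahnSeries.ofPowerSeries ℤ R PowerSeries.X) ^ 2 +
      (HahnSeries.single (-1 : ℤ) (1 : R) : LaurentSeries R) *
        HahnSeries.ofPowerSeries ℤ R PowerSeries.X + 1) +
    196608 * ((HahnSeries.single (-1 : ℤ) (1 : R) : LaurentSeries R) *
      HahnSeries.ofPowerSeries ℤ R (unitPS R 2)) *
      ((HahnSeries.single (-1 : ℤ) (1 : R) : LaurentSeries R) *
        HahnSeries.ofPowerSeries ℤ R PowerSeries.X + 1) +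
    768 * ((HahnSeries.single (-1 : ℤ) (1 : R) : LaurentSeries R) *
      HahnSeries.ofPowerSeries ℤ R (unitPS R 2)) ^ 2)) * hX

theorem levTwoNumZero_eq : levTwoNumZero R =
    (HahnSeries.single (-3 : ℤ) (1 : R) : LaurentSeries R) *
      HahnSeries.ofPowerSeries ℤ R (levTwoPSZero R) := by
  have hX := single_neg_one_mul_ofPowerSeries_X R
  have h16 : (16 : LaurentSeries R) =
      HahnSeries.ofPowerSeries ℤ R (PowerSeries.C 16) := by
    rw [map_ofNat, map_ofNat]
  rw [levTwoNumZero, levTwoPSZero, ← single_neg_one_pow_three, unitModC_two_eq, jqNModC_two_eq,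
    map_sub, map_pow, map_add, map_mul, map_mul, ← h16]
  linear_combination (-(4096 * (((HahnSeries.single (-1 : ℤ) (1 : R) : LaurentSeries R) *
        HahnSeries.ofPowerSeries ℤ R PowerSeries.X) ^ 2 +
      (HahnSeries.single (-1 : ℤ) (1 : R) : LaurentSeries R) *
        HahnSeries.ofPowerSeries ℤ R PowerSeries.X + 1) +
    768 * ((HahnSeries.single (-1 : ℤ) (1 : R) : LaurentSeries R) *
      HahnSeries.ofPowerSeries ℤ R (unitPS R 2)) *
      ((HahnSeries.single (-1 : ℤ) (1 : R) : LaurentSeries R) *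
        HahnSeries.ofPowerSeries ℤ R PowerSeries.X + 1) +
    48 * ((HahnSeries.single (-1 : ℤ) (1 : R) : LaurentSeries R) *
      HahnSeries.ofPowerSeries ℤ R (unitPS R 2)) ^ 2)) * hX

/-- **the cusp `∞`**: `(v + 256)³ - j v²` has no terms of degree `< -1`. -/
theorem coeff_levTwoNumInf {n : ℤ} (hn : n < -1) : (levTwoNumInf R).coeff n = 0 := by
  rw [levTwoNumInf_eq]
  exact coeff_single_neg_three_mul R (c2_levTwoPSInf R) hn

/-- **the cusp `0`**: `(v + 16)³ - j(q²) v` has no terms of degree `< -1`. -/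
theorem coeff_levTwoNumZero {n : ℤ} (hn : n < -1) : (levTwoNumZero R).coeff n = 0 := by
  rw [levTwoNumZero_eq]
  exact coeff_single_neg_three_mul R (c2_levTwoPSZero R) hn

end Series

end Fermat.Agent.ML
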