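/-
PROJECT ML (S59) — helper8 — **[REMOVE-P] at `p = 3`, (R2), part 2: the classical identity
`j · v² = (v + 256)³`, `v = Δ(q)/Δ(q²)`**, in the function field of `X₀(2)` over `Ω = ℚ̄`.

`g := (v + 256)³ / v² - j` is regular at every place at which `j` is regular (`v` is a unit there),
at the cusp `∞` (`ord ≥ 1`, `LEV2_helper8_Series.coeff_levTwoNumInf`) and at the cusp
`0 = W ∞` (`W g = (v + 16)³ / v - j(q²)`, `coeff_levTwoNumZero`); hence `g` is a constant, which
vanishes at `∞`.
-/
import Mathlib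
import Fermat.Agent.ML.LEV2_helper8_Series
import Fermat.Agent.MZ.CUSP_helper9_Div
import Fermat.Agent.JA.RED_helper7_Coords

set_option autoImplicit false
set_option linter.unusedSectionVars false
set_option linter.unusedVariables false
set_option linter.style.haveILetI false

open AlgebraicCurve ModularCurve HahnSeries

namespace Fermat.Agent.ML

open Fermat.Agent.MW Fermat.Agent.SS Fermat.Agent.X0N Fermat.Agent.JA Fermat.Agent.FF
  Fermat.Agent.MZ

attribute [local instance] algOmC

local notation "Ω" => AlgebraicClosure ℚ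

/-! ### generalities -/

section Gen

variable {k F : Type*} [Field k] [Field F] [Algebra k F] [CharZero k]

/-- a function without poles is algebraic over the constants. -/
theorem isAlgebraic_of_forall_mem_place (c : Coord k F) (f : F)
    (hf : ∀ v : Place k F, f ∈ v.toValuationSubring) : IsAlgebraic k f := by
  by_contra htr
  have htr' : Transcendental k f := htr
  obtain ⟨S, hS, hsum⟩ := (c.ofTranscendental f htr').exists_poles
  simp only [Coord.ofTranscendental_x] at hS hsum
  have hf0 : f ≠ 0 := by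
    rintro rfl
    exact htr isAlgebraic_zero
  have hS0 : S = ∅ := by
    rw [Finset.eq_empty_iff_forall_notMem]
    intro v hv
    have h1 := (hS v).mp hv
    have h2 := (PlaceAux.mem_iff_ord_nonneg' v hf0).mp (hf v)
    omega
  rw [hS0, Finset.sum_empty] at hsum
  have hpos := (c.ofTranscendental f htr').degree_pos
  omega

/-- over an algebraically closed constant field a function without poles is a constant. -/
theorem exists_const_of_forall_mem_place [IsAlgClosed k] (c : Coord k F) (f : F)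
    (hf : ∀ v : Place k F, f ∈ v.toValuationSubring) : ∃ a : k, f = algebraMap k F a := by
  have halg := isAlgebraic_of_forall_mem_place c f hf
  have hint : IsIntegral k f := halg.isIntegral
  have h1 : (minpoly k f).degree = 1 :=
    IsAlgClosed.degree_eq_one_of_irreducible k (minpoly.irreducible hint)
  obtain ⟨a, ha⟩ := minpoly.mem_range_of_degree_eq_one k f h1
  exact ⟨a, ha.symm⟩

/-- a non-zero Laurent series all of whose coefficients below `m` vanish has order `≥ m`. -/
theorem le_order_of_forall_coeff_eq_zero {R : Type*} [Zero R] {x : LaurentSeries R} (hx : x ≠ 0)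
    {m : ℤ} (h : ∀ n : ℤ, n < m → x.coeff n = 0) : m ≤ x.order := by
  by_contra hlt
  rw [not_le] at hlt
  exact hx (HahnSeries.coeff_order_eq_zero.mp (h _ hlt))

end Gen

/-! ### the function `g` -/

/-- the modular unit `v = Δ(q)/Δ(q²)` of `X₀(2)`. -/
noncomputable abbrev levTwoV : FunN 2 := modUnitP 2

theorem coe_levTwoV : ((levTwoV : FunN 2) : LaurentSeries Ω) = unitModC Ω 2 := by
  rw [levTwoV, coe_modUnit, unitModC_eq_coeffEmb]

theorem levTwoV_ne_zero : levTwoV ≠ 0 := modUnitP_ne_zero 2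

/-- the numerator of `g` at `∞`. -/
noncomputable def levTwoN : FunN 2 := (levTwoV + 256) ^ 3 - jBar 2 * levTwoV ^ 2

/-- the numerator of `W g` at `∞`. -/
noncomputable def levTwoN' : FunN 2 :=
  (levTwoV + 16) ^ 3 - jdBar (k := Ω) 2 (dvd_refl 2) * levTwoV

theorem coe_ofNat_funN (n : ℕ) [n.AtLeastTwo] :
    (((OfNat.ofNat n : FunN 2)) : LaurentSeries Ω) = OfNat.ofNat n := rfl

theorem coe_levTwoN : ((levTwoN : FunN 2) : LaurentSeries Ω) = levTwoNumInf Ω := by
  rw [levTwoN, levTwoNumInf]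
  show (((levTwoV : FunN 2) : LaurentSeries Ω) + 256) ^ 3 -
    ((jBar 2 : FunN 2) : LaurentSeries Ω) * ((levTwoV : FunN 2) : LaurentSeries Ω) ^ 2 = _
  rw [coe_levTwoV, coe_jBar_eq_jqModC]

theorem coe_levTwoN' : ((levTwoN' : FunN 2) : LaurentSeries Ω) = levTwoNumZero Ω := by
  rw [levTwoN', levTwoNumZero]
  show (((levTwoV : FunN 2) : LaurentSeries Ω) + 16) ^ 3 -
    ((jdBar (k := Ω) 2 (dvd_refl 2) : FunN 2) : LaurentSeries Ω) *
      ((levTwoV : FunN 2) : LaurentSeries Ω) = _
  rw [coe_levTwoV, cuspord_coe_jdBar]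

theorem ord_infN_levTwoV : (infN 2).ord levTwoV = -1 := by
  have h := ord_infN_modUnit 2
  rw [h]
  norm_num

/-- `ord_∞ N ≥ -1`. -/
theorem ord_infN_levTwoN (h0 : levTwoN ≠ 0) : -1 ≤ (infN 2).ord levTwoN := by
  rw [infN_ord 2 h0, coe_levTwoN]
  have hne : levTwoNumInf Ω ≠ 0 := by
    rw [← coe_levTwoN]
    exact fun h => h0 (Subtype.ext h)
  exact le_order_of_forall_coeff_eq_zero hne (fun n hn => coeff_levTwoNumInf Ω hn)

/-- `ord_∞ N' ≥ -1`. -/
theorem ord_infN_levTwoN' (h0 : levTwoN' ≠ 0) : -1 ≤ (infN 2).ord levTwoN' := by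
  rw [infN_ord 2 h0, coe_levTwoN']
  have hne : levTwoNumZero Ω ≠ 0 := by
    rw [← coe_levTwoN']
    exact fun h => h0 (Subtype.ext h)
  exact le_order_of_forall_coeff_eq_zero hne (fun n hn => coeff_levTwoNumZero Ω hn)

/-- `g = (v + 256)³ / v² - j`. -/
noncomputable def levTwoG : FunN 2 := levTwoN / levTwoV ^ 2

/-- `ord_∞ g ≥ 1`. -/
theorem ord_infN_levTwoG (h0 : levTwoG ≠ 0) : 1 ≤ (infN 2).ord levTwoG := by
  have hN : levTwoN ≠ 0 := by
    intro h
    apply h0
    rw [levTwoG, h, zero_div]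
  have hV2 : levTwoV ^ 2 ≠ 0 := pow_ne_zero 2 levTwoV_ne_zero
  have h1 := ord_infN_levTwoN hN
  rw [levTwoG, div_eq_mul_inv, Place.ord_mul _ hN (inv_ne_zero hV2), Place.ord_inv,
    PlaceAux.ord_pow, ord_infN_levTwoV]
  push_cast
  linarith

/-- the Fricke transform of `v` is `2¹² / v`. -/
theorem frickeAlg_levTwoV : frickeAlg 2 levTwoV = 4096 * levTwoV⁻¹ := by
  rw [frickeAlg_apply]
  have hN : 2 = 2 * 1 := (mul_one 2).symm
  have h := frickeN_modUnit (k := Ω) (algebraMap Ω ℂ) (N := 2) (q := 2) (M := 1) hN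
  rw [levTwoV, modUnitP, h, ← deltaRatio_inv]
  congr 1
  · rw [map_pow, map_natCast]
    norm_num
  
/-- the Fricke transform of `g` is `((v + 16)³ - j(q²) v) / v`. -/
theorem frickeAlg_levTwoG : frickeAlg 2 levTwoG = levTwoN' / levTwoV := by
  have hV := levTwoV_ne_zero
  rw [levTwoG, levTwoN, levTwoN', map_div₀, map_sub, map_pow, map_add, map_mul, map_pow,
    frickeAlg_levTwoV, frickeAlg_jBar, map_ofNat]
  field_simp
  ring

/-- `ord_0 g ≥ 0`. -/
theorem ord_zeroN_levTwoG (h0 : levTwoG ≠ 0) : 0 ≤ (zeroN 2).ord levTwoG := by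
  rw [zeroN_ord 2 Nat.prime_two, frickeAlg_levTwoG]
  have hV := levTwoV_ne_zero
  have hN : levTwoN' ≠ 0 := by
    intro h
    have h1 := frickeAlg_levTwoG
    rw [h, zero_div] at h1
    exact h0 ((map_eq_zero (frickeAlg 2)).mp h1)
  have h1 := ord_infN_levTwoN' hN
  rw [div_eq_mul_inv, Place.ord_mul _ hN (inv_ne_zero hV), Place.ord_inv, ord_infN_levTwoV]
  linarith

/-- `g` has no poles. -/
theorem levTwoG_mem (v : PtN 2) : levTwoG ∈ v.toValuationSubring := by
  by_cases h0 : levTwoG = 0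
  · rw [h0]
    exact zero_mem _
  by_cases h1 : v = infN 2
  · subst h1
    rw [PlaceAux.mem_iff_ord_nonneg' _ h0]
    have := ord_infN_levTwoG h0
    omega
  by_cases h2 : v = zeroN 2
  · subst h2
    rw [PlaceAux.mem_iff_ord_nonneg' _ h0]
    exact ord_zeroN_levTwoG h0
  -- the other places
  have hU : v.ord levTwoV = 0 := ord_modUnit_of_ne 2 Nat.prime_two v h1 h2
  have hj : 0 ≤ v.ord (jBar 2) := by
    by_contra hneg
    rw [not_le] at hneg
    rcases pole_cases 2 Nat.prime_two v hneg with h | h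
    · exact h1 h
    · exact h2 h
  have hVm : levTwoV ∈ v.toValuationSubring := by
    rw [PlaceAux.mem_iff_ord_nonneg' _ levTwoV_ne_zero, hU]
  have hVi : (levTwoV ^ 2)⁻¹ ∈ v.toValuationSubring := by
    rw [PlaceAux.mem_iff_ord_nonneg' _ (inv_ne_zero (pow_ne_zero 2 levTwoV_ne_zero)),
      Place.ord_inv, PlaceAux.ord_pow, hU]
    norm_num
  have hJm : jBar 2 ∈ v.toValuationSubring :=
    (PlaceAux.mem_iff_ord_nonneg' v (jBar_ne_zero 2)).mpr hj
  have h256 : (256 : FunN 2) ∈ v.toValuationSubring := by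
    have : (256 : FunN 2) = algebraMap Ω (FunN 2) 256 := (map_ofNat _ 256).symm
    rw [this]
    exact v.algebraMap_mem' _
  rw [levTwoG, levTwoN, div_eq_mul_inv]
  exact mul_mem (sub_mem (pow_mem (add_mem hVm h256) 3) (mul_mem hJm (pow_mem hVm 2))) hVi

/-- **`j · v² = (v + 256)³`** in the function field of `X₀(2)`. -/
theorem levTwoN_eq_zero : levTwoN = 0 := by
  haveI : CharZero Ω := algebraRat.charZero Ω
  obtain ⟨a, ha⟩ := exists_const_of_forall_mem_place (jCoordBar 2) levTwoG levTwoG_mem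
  have hG : levTwoG = 0 := by
    by_contra h0
    have h1 := ord_infN_levTwoG h0
    have ha0 : a ≠ 0 := by
      rintro rfl
      rw [map_zero] at ha
      exact h0 ha
    rw [ha, PlaceAux.ord_algebraMap] at h1
    omega
  have hV2 : levTwoV ^ 2 ≠ 0 := pow_ne_zero 2 levTwoV_ne_zero
  rw [levTwoG, div_eq_zero_iff] at hG
  exact hG.resolve_right hV2

/-- **`j · v² = (v + 256)³`** as an identity of Laurent series over `Ω`. -/
theorem levTwoNumInf_eq_zero : levTwoNumInf Ω = 0 := by
  rw [← coe_levTwoN, levTwoN_eq_zero]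
  rfl

end Fermat.Agent.ML
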