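/-
PROJECT ML (S59) — helper8 — **[REMOVE-P] at `p = 3`, (R2), part 3: the deck group of the Legendre
host over `X₀(M)`, `2 ∣ M`, has no element of order `3`.**

For `2 ∣ M` the modular unit `v = Δ(q)/Δ(q²)` lies in the function field of `X₀(M)`; on the host
`(v + 256)³ = j v²` (`LEV2_helper8_Ident`) and `j t² (t - 1)² = 256 (t² - t + 1)³`, so
`(t² v - 256 (1 - t)) ((1 - t)² v - 256 t) (v - 256 (t² - t)) = 0`: the Legendre coordinate `t` is
a root of a quadratic polynomial over the function field of `X₀(M)`.  A deck transformation of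
order `3` would give three distinct roots.
-/
import Mathlib
import Fermat.Agent.ML.LEV2_helper8_Ident
import Fermat.Agent.MP.ROLDGR_helper3_Host

set_option autoImplicit false
set_option linter.unusedSectionVars false
set_option linter.unusedVariables false
set_option linter.style.haveILetI false

open AlgebraicCurve ModularCurve HahnSeries

noncomputable section

namespace Fermat.Agent.ML

open Fermat.Agent.MW Fermat.Agent.SS Fermat.Agent.X0N Fermat.Agent.JA Fermat.Agent.FF
  Fermat.Agent.MZ Fermat.Agent.FG Fermat.Agent.MP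
open scoped Classical

local notation "Ω" => AlgebraicClosure ℚ

/-! ### three distinct roots of a quadratic -/

/-- an automorphism of order dividing `3` which fixes the coefficients of a quadratic equation of
`t` fixes `t`. -/
theorem apply_eq_self_of_quadratic {E : Type*} [Field E] (h : E ≃+* E) {t a b c : E}
    (ha : h a = a) (hb : h b = b) (hc : h c = c) (ha0 : a ≠ 0)
    (hq : a * t ^ 2 + b * t + c = 0) (h3 : h (h (h t)) = t) : h t = t := by
  by_contra hne
  have hq1 : a * (h t) ^ 2 + b * (h t) + c = 0 := by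
    have := congrArg h hq
    rwa [map_add, map_add, map_mul, map_mul, map_pow, ha, hb, hc, map_zero] at this
  have hq2 : a * (h (h t)) ^ 2 + b * (h (h t)) + c = 0 := by
    have := congrArg h hq1
    rwa [map_add, map_add, map_mul, map_mul, map_pow, ha, hb, hc, map_zero] at this
  have hne2 : h (h t) ≠ t := by
    intro e
    apply hne
    have e2 := congrArg h e
    rw [h3] at e2
    exact e2.symm
  have hne12 : h (h t) ≠ h t := fun e => hne (h.injective e)
  -- `a (x + y) + b = 0` for two distinct roots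
  have k1 : a * (h t + t) + b = 0 := by
    have e : (h t - t) * (a * (h t + t) + b) = 0 := by linear_combination hq1 - hq
    exact (mul_eq_zero.mp e).resolve_left (sub_ne_zero.mpr hne)
  have k2 : a * (h (h t) + t) + b = 0 := by
    have e : (h (h t) - t) * (a * (h (h t) + t) + b) = 0 := by linear_combination hq2 - hq
    exact (mul_eq_zero.mp e).resolve_left (sub_ne_zero.mpr hne2)
  have k3 : a * (h (h t) - h t) = 0 := by linear_combination k2 - k1
  rcases mul_eq_zero.mp k3 with e | e
  · exact ha0 e
  · exact hne12 (sub_eq_zero.mp e)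

/-! ### the modular unit of level `2` on the host -/

section Host

variable (M : ℕ) [NeZero M] (h2M : 2 ∣ M)

/-- `v = Δ(q)/Δ(q²)` on the Legendre host over `X₀(M)`, `2 ∣ M`. -/
def legVE : ↥(legE Ω M) := fullToLegE Ω M (deltaRatio 1 2 Ω M (one_dvd M) h2M)

theorem coe_legVE :
    ((legVE M h2M : ↥(legE Ω M)) : LaurentSeries Ω) = qExpand Ω 2 (unitModC Ω 2) := by
  rw [legVE, coe_fullToLegE_deltaRatio, unitModC_eq_coeffEmb,
    modularUnitSeries_eq_deltaRatioSeries, qExpand_coeffEmb_deltaRatioSeries]

theorem legVE_ne_zero : legVE M h2M ≠ 0 :=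
  (map_ne_zero (fullToLegE Ω M)).mpr (deltaRatio_ne_zero 1 2 Ω M (one_dvd M) h2M)

/-- **`(v + 256)³ = j v²` on the host.** -/
theorem legVE_rel : (legVE M h2M + 256) ^ 3 = legJE Ω M * legVE M h2M ^ 2 := by
  apply Subtype.ext
  show (((legVE M h2M : ↥(legE Ω M)) : LaurentSeries Ω) + 256) ^ 3 =
    ((legJE Ω M : ↥(legE Ω M)) : LaurentSeries Ω) *
      ((legVE M h2M : ↥(legE Ω M)) : LaurentSeries Ω) ^ 2
  rw [coe_legVE, coe_legJE]
  have h := congrArg (qExpand Ω 2) levTwoNumInf_eq_zero
  rw [levTwoNumInf, map_sub, map_pow, map_add, map_mul, map_pow, map_ofNat, map_zero,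
    sub_eq_zero] at h
  exact h

/-- the three factors. -/
theorem legVE_factor :
    (legTE Ω M ^ 2 * legVE M h2M - 256 * (1 - legTE Ω M)) *
      ((1 - legTE Ω M) ^ 2 * legVE M h2M - 256 * legTE Ω M) *
      (legVE M h2M - 256 * (legTE Ω M ^ 2 - legTE Ω M)) = 0 := by
  have h1 := legTE_rel M
  have h2 := legVE_rel M h2M
  linear_combination (legTE Ω M ^ 2 * (legTE Ω M - 1) ^ 2) * h2 + (legVE M h2M ^ 2) * h1

/-- a deck transformation fixes `v`. -/
theorem apply_legVE {h : ↥(legE Ω M) ≃ₐ[Ω] ↥(legE Ω M)}
    (hh : h ∈ fixingAlong (fullToLegE Ω M)) : h (legVE M h2M) = legVE M h2M := hh _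

include h2M in
/-- **a deck transformation of order dividing `3` is trivial** (`2 ∣ M`). -/
theorem legHost_eq_one_of_pow_three {h : ↥(legE Ω M) ≃ₐ[Ω] ↥(legE Ω M)}
    (hh : h ∈ fixingAlong (fullToLegE Ω M))
    (h3 : h (h (h (legTE Ω M))) = legTE Ω M) : h = 1 := by
  apply legE_eq_one_of_apply_legTE M hh
  have hV := apply_legVE M h2M hh
  have hV0 := legVE_ne_zero M h2M
  have h256 : (256 : ↥(legE Ω M)) ≠ 0 := by norm_num
  have hn : ∀ n : ℕ, h (n : ↥(legE Ω M)) = n := fun n => map_natCast h n
  have h256' : h (256 : ↥(legE Ω M)) = 256 := map_ofNat h 256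
  rcases mul_eq_zero.mp (legVE_factor M h2M) with e | e
  · rcases mul_eq_zero.mp e with e | e
    · -- `v t² + 256 t - 256 = 0`
      refine apply_eq_self_of_quadratic h.toRingEquiv (a := legVE M h2M) (b := 256) (c := -256)
        hV h256' (by show h (-256) = -256; rw [map_neg, h256']) hV0 ?_ h3
      linear_combination e
    · -- `v t² - (2 v + 256) t + v = 0`
      refine apply_eq_self_of_quadratic h.toRingEquiv (a := legVE M h2M)
        (b := -(2 * legVE M h2M + 256)) (c := legVE M h2M) hV ?_ hV hV0 ?_ h3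
      · show h (-(2 * legVE M h2M + 256)) = -(2 * legVE M h2M + 256)
        rw [map_neg, map_add, map_mul, hV, h256', map_ofNat]
      · linear_combination e
  · -- `-256 t² + 256 t + v = 0`
    refine apply_eq_self_of_quadratic h.toRingEquiv (a := -256) (b := 256) (c := legVE M h2M)
      (by show h (-256) = -256; rw [map_neg, h256']) h256' hV (neg_ne_zero.mpr h256) ?_ h3
    linear_combination e

include h2M in
/-- **the order of the deck group of the Legendre host over `X₀(M)`, `2 ∣ M`, is prime to `3`.** -/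
theorem legHost_not_three_dvd_card :
    ¬ 3 ∣ Fintype.card ↥(deckGroup (fullToLegE Ω M)) := by
  intro hdvd
  haveI : Fact (Nat.Prime 3) := ⟨Nat.prime_three⟩
  obtain ⟨g, hg⟩ := exists_prime_orderOf_dvd_card 3 hdvd
  have hg3 : g ^ 3 = 1 := by
    rw [← hg]
    exact pow_orderOf_eq_one g
  obtain ⟨h, hh, hgh⟩ := mem_deckGroup.mp g.2
  have h3 : h (h (h (legTE Ω M))) = legTE Ω M := by
    have e1 : ((g ^ 3 : ↥(deckGroup (fullToLegE Ω M))) : SemilinearAut Ω ↥(legE Ω M)) •
        legTE Ω M = legTE Ω M := by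
      rw [hg3, Subgroup.coe_one, one_smul]
    rw [Subgroup.coe_pow, ← hgh, pow_succ, pow_two, mul_smul, mul_smul, ofAlgAut_smul,
      ofAlgAut_smul, ofAlgAut_smul] at e1
    exact e1
  have h1 : h = 1 := legHost_eq_one_of_pow_three M h2M hh h3
  have hg1 : g = 1 := by
    apply Subtype.ext
    rw [← hgh, h1, map_one, Subgroup.coe_one]
  rw [hg1, orderOf_one] at hg
  norm_num at hg

end Host

end Fermat.Agent.ML

end
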