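/-
PROJECT ML (S59) — helper8 — **the degree of the Legendre host over `X₀(N)`, `2 ∣ N`, is at most
`2`** (`RB.ROLD.legCoverDeg N ∣ 2`), hence prime to every odd prime: the Legendre coordinate is a
root of a quadratic polynomial over the function field of `X₀(N)` (`LEV2_helper8_Deck.legVE_factor`).
-/
import Mathlib
import Fermat.Agent.ML.LEV2_helper8_Deck
import Fermat.Agent.RB.ROLD_helper4_Norm

set_option autoImplicit false
set_option linter.unusedSectionVars false
set_option linter.unusedVariables false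
set_option linter.style.haveILetI false
set_option synthInstance.maxHeartbeats 400000

open AlgebraicCurve ModularCurve Polynomial

noncomputable section

namespace Fermat.Agent.ML

open Fermat.Agent.MW Fermat.Agent.SS Fermat.Agent.X0N Fermat.Agent.JA Fermat.Agent.FF
  Fermat.Agent.FG Fermat.Agent.MP Fermat.Agent.S35 Fermat.Agent.RB.ROLD

local notation "Ω" => AlgebraicClosure ℚ

/-- the minimal polynomial of a root of a quadratic equation has degree at most `2`. -/
theorem natDegree_minpoly_le_two_of_quadratic {F E : Type*} [Field F] [Field E] [Algebra F E]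
    {t : E} {a b c : F} (ha : a ≠ 0)
    (h : algebraMap F E a * t ^ 2 + algebraMap F E b * t + algebraMap F E c = 0) :
    (minpoly F t).natDegree ≤ 2 := by
  have hQ : aeval t (C a * X ^ 2 + C b * X + C c : F[X]) = 0 := by
    simp only [map_add, map_mul, map_pow, aeval_C, aeval_X]
    exact h
  have hQ0 : (C a * X ^ 2 + C b * X + C c : F[X]) ≠ 0 := by
    intro h0
    have h1 := congrArg (fun P : F[X] => P.coeff 2) h0
    simp only [coeff_add, coeff_C_mul, coeff_X_pow, coeff_X, coeff_C, coeff_zero] at h1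
    norm_num at h1
    exact ha h1
  exact (natDegree_le_of_dvd (minpoly.dvd _ _ hQ) hQ0).trans natDegree_quadratic_le

section Host

variable (N : ℕ) [NeZero N] (h2N : 2 ∣ N)

include h2N in
/-- **`[legE Ω N : F(X₀(N))] ≤ 2` for `2 ∣ N`.** -/
theorem legCoverDeg_le_two : legCoverDeg N ≤ 2 := by
  letI := algebraAlong (fullToLegE Ω N)
  haveI : FiniteDimensional ↥(keyFq Ω N) ↥(legE Ω N) := finiteAlong_fullToLegE N
  have ht : IntermediateField.adjoin ↥(keyFq Ω N) {legTE Ω N} = ⊤ := adjoin_legTE_eq_top N
  have hint : IsIntegral ↥(keyFq Ω N) (legTE Ω N) := Algebra.IsIntegral.isIntegral _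
  have h2 : Module.finrank ↥(keyFq Ω N) ↥(legE Ω N) =
      (minpoly ↥(keyFq Ω N) (legTE Ω N)).natDegree := by
    rw [← IntermediateField.adjoin.finrank hint, ht, IntermediateField.finrank_top']
  show Module.finrank ↥(keyFq Ω N) ↥(legE Ω N) ≤ 2
  rw [h2]
  have hmap : ∀ x : ↥(keyFq Ω N), algebraMap ↥(keyFq Ω N) ↥(legE Ω N) x = fullToLegE Ω N x :=
    fun _ => rfl
  have hv0 : deltaRatio 1 2 Ω N (one_dvd N) h2N ≠ 0 := deltaRatio_ne_zero 1 2 Ω N (one_dvd N) h2N
  have h256 : (256 : ↥(keyFq Ω N)) ≠ 0 := by norm_num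
  rcases mul_eq_zero.mp (legVE_factor N h2N) with e | e
  · rcases mul_eq_zero.mp e with e | e
    · refine natDegree_minpoly_le_two_of_quadratic (a := deltaRatio 1 2 Ω N (one_dvd N) h2N)
        (b := 256) (c := -256) hv0 ?_
      rw [hmap, hmap, hmap, map_neg, map_ofNat]
      show legVE N h2N * legTE Ω N ^ 2 + 256 * legTE Ω N + -256 = 0
      linear_combination e
    · refine natDegree_minpoly_le_two_of_quadratic (a := deltaRatio 1 2 Ω N (one_dvd N) h2N)
        (b := -(2 * deltaRatio 1 2 Ω N (one_dvd N) h2N + 256))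
        (c := deltaRatio 1 2 Ω N (one_dvd N) h2N) hv0 ?_
      rw [hmap, hmap, map_neg, map_add, map_mul, map_ofNat, map_ofNat]
      show legVE N h2N * legTE Ω N ^ 2 + -(2 * legVE N h2N + 256) * legTE Ω N + legVE N h2N = 0
      linear_combination e
  · refine natDegree_minpoly_le_two_of_quadratic (a := -256) (b := 256)
      (c := deltaRatio 1 2 Ω N (one_dvd N) h2N) (neg_ne_zero.mpr h256) ?_
    rw [hmap, hmap, hmap, map_neg, map_ofNat]
    show -256 * legTE Ω N ^ 2 + 256 * legTE Ω N + legVE N h2N = 0
    linear_combination e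

include h2N in
/-- **`[legE Ω N : F(X₀(N))] ∣ 2` for `2 ∣ N`.** -/
theorem legCoverDeg_dvd_two : legCoverDeg N ∣ 2 := by
  have h1 := legCoverDeg_pos N
  have h2 := legCoverDeg_le_two N h2N
  interval_cases (legCoverDeg N) <;> norm_num

include h2N in
/-- **for `2 ∣ N` the degree of the Legendre cover is prime to every odd prime** (in particular to
`3`). -/
theorem legCoverDeg_coprime_of_even {p : ℕ} (hp : p.Prime) (hp2 : p ≠ 2) :
    Nat.Coprime (legCoverDeg N) p := by
  have h := legCoverDeg_dvd_two N h2N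
  have h2p : Nat.Coprime 2 p := (Nat.coprime_primes Nat.prime_two hp).mpr (Ne.symm hp2)
  exact Nat.Coprime.coprime_dvd_left h h2p

include h2N in
theorem legCoverDeg_coprime_three : Nat.Coprime (legCoverDeg N) 3 :=
  legCoverDeg_coprime_of_even N h2N Nat.prime_three (by norm_num)

end Host

end Fermat.Agent.ML

end
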