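/-
PROJECT ML (S59) — helper2 — [TOPO-p] for EVERY odd `p`: **every parabolic homomorphism
`Γ₀(N) → ℤ/p^k` is the reduction of an integral parabolic homomorphism**, at `p = 3` under the
side condition that a prime `r ≡ 2 mod 3` divides `N` (then `Γ₀(N)` has no element of order three,
`RB/P3_helper2_NoThree`).

`parLiftModPO` is the literal asked for by helper6 (msg 2327): RB's `ParLiftModP` with `5 ≤ p`
replaced by `p ≠ 2` and `NoThreeTorsionLevel p N` (unfolded: `p = 3 → ∃ r prime, r ∣ N ∧ r % 3 = 2`).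
Proof: `S16.exists_parabolic_lift` (helper9): a homomorphism into `ℤ/p^k` which kills the parabolic
elements kills every `γ` with `γ ^ 12 = 1`: for `p ≥ 5` because `12` is a unit; for `p = 3` because
`(γ ^ 4) ^ 3 = 1` forces `γ ^ 4 = 1` and `4` is a unit.
-/
import Mathlib
import Fermat.Agent.RB.TOPO_helper4_Main
import Fermat.Agent.RB.P3_helper2_NoThree

set_option autoImplicit false
set_option linter.unusedSectionVars false

namespace Fermat.Agent.ML

open CongruenceSubgroup MatrixGroups Matrix ModularCurve.Period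
open Fermat.Agent.S16 Fermat.Agent.LR Fermat.Agent.RB

/-- a homomorphism `Γ₀(N) → ℤ/3^k` kills the elements of order dividing `12` when a prime
`r ≡ 2 mod 3` divides `N`. -/
theorem apply_eq_zero_of_pow_twelve_three {N r : ℕ} (hr : r.Prime) (hrN : r ∣ N) (hr3 : r % 3 = 2)
    (k : ℕ) (ψ : Additive ↥(Gamma0 N) →+ ZMod (3 ^ k)) {γ : ↥(Gamma0 N)} (hγ : γ ^ 12 = 1) :
    ψ (Additive.ofMul γ) = 0 := by
  have h4 : γ ^ 4 = 1 := by
    apply P3.Gamma0_eq_one_of_pow_three hr hrN hr3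
    rw [← pow_mul]
    exact hγ
  have h1 : (4 : ℕ) • ψ (Additive.ofMul γ) = 0 := by
    rw [← map_nsmul, ← ofMul_pow, h4, ofMul_one, map_zero]
  have hcop : Nat.Coprime 4 (3 ^ k) := Nat.Coprime.pow_right _ (by norm_num)
  have hu : IsUnit ((4 : ℕ) : ZMod (3 ^ k)) := (ZMod.isUnit_iff_coprime 4 (3 ^ k)).2 hcop
  rw [nsmul_eq_mul] at h1
  exact (hu.mul_right_eq_zero).1 h1

/-- **[TOPO-p], every odd `p`, every power `p ^ k`.** -/
theorem parLiftModPowO (N : ℕ) [NeZero N] (p : ℕ) [Fact p.Prime] (hp2 : p ≠ 2)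
    (h3 : p = 3 → ∃ r : ℕ, r.Prime ∧ r ∣ N ∧ r % 3 = 2) (k : ℕ)
    (ψ : Additive ↥(Gamma0 N) →+ ZMod (p ^ k))
    (hψ : ψ ∈ parabolicHoms ℤ (Gamma0 N) (ZMod (p ^ k))) :
    ∃ w : LPar N, (Int.castAddHom (ZMod (p ^ k))).comp w.1 = ψ := by
  have hpp : p.Prime := Fact.out
  by_cases hp3 : p = 3
  · subst hp3
    obtain ⟨r, hr, hrN, hr3⟩ := h3 rfl
    have hy : ∀ γ ∈ parTorSet (Gamma0 N), ψ (Additive.ofMul γ) = 0 := by
      intro γ hγ
      rcases (mem_parTorSet (Gamma0 N)).1 hγ with h | h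
      · exact hψ γ h
      · exact apply_eq_zero_of_pow_twelve_three hr hrN hr3 k ψ h
    obtain ⟨w, hw, hwψ⟩ := exists_parabolic_lift N 3 k ψ hy
    exact ⟨⟨w, hw⟩, hwψ.symm⟩
  · have hp5 : 5 ≤ p := by
      have h2 := hpp.two_le
      by_contra hlt
      have : p = 4 := by omega
      subst this
      exact absurd hpp (by norm_num)
    exact TOPO.parLiftModPow N p hp5 k ψ hψ

/-- **[TOPO-p], every odd `p`** (RB's `ParLiftModP` with `p ≠ 2` and the side condition at `3`). -/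
theorem parLiftModPO :
    ∀ (N : ℕ) [NeZero N] (p : ℕ) [Fact p.Prime], p ≠ 2 →
      (p = 3 → ∃ r : ℕ, r.Prime ∧ r ∣ N ∧ r % 3 = 2) →
      ∀ ψ : Additive ↥(Gamma0 N) →+ ZMod (p ^ 1),
        ψ ∈ parabolicHoms ℤ (Gamma0 N) (ZMod (p ^ 1)) →
        ∃ w : LPar N, (Int.castAddHom (ZMod (p ^ 1))).comp w.1 = ψ :=
  fun N _ p _ hp2 h3 ψ hψ => parLiftModPowO N p hp2 h3 1 ψ hψ

end Fermat.Agent.ML
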