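/-
ML (S59) — helper6 — [MAZ-L]: **[ROLD-q] for every odd `p`, `LegRoldQE`, PROVED**: at `p = 3` under
the side condition `2 ∣ M` (lead 2347 (1), helper4 2345 (3)): then the Legendre host has degree
`∣ 2` over `X₀(M)` (helper8's `ML.legCoverDeg_coprime_of_even`), so the norm argument of
`RB/ROLD_helper4_Main` applies.  The other two uses of `5 ≤ p` are replaced by helper2's
`ML.parLiftModPO` ([TOPO-p] for every odd `p`) and `ML.eigenTorsOccursO_of`.

Copy of `RB/ROLD_helper4_Comm.heckeOperatorBar_comm_of_nsmul_eq_zero` and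
`RB/ROLD_helper4_Main.legRoldQ`.
-/
import Mathlib
import Fermat.Agent.RB.ROLD_helper4_Main
import Fermat.Agent.ML.MAZ_helper6_FinO
import Fermat.Agent.ML.IFACE_helper6_MazE
import Fermat.Agent.ML.TOPO3_helper2_ParLift
import Fermat.Agent.ML.LEV2_helper8_Deg

set_option autoImplicit false
set_option linter.unusedSectionVars false
set_option linter.unusedVariables false
set_option linter.style.haveILetI false
set_option synthInstance.maxHeartbeats 400000

noncomputable section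

namespace Fermat.Agent.ML

open AlgebraicCurve IsLocalRing IntermediateField ModularCurve CongruenceSubgroup
  ModularCurve.Period

open scoped MatrixGroups

open Fermat.Agent.FG Fermat.Agent.JA Fermat.Agent.SS Fermat.Agent.FF Fermat.Agent.S35
  Fermat.Agent.NP Fermat.Agent.MP Fermat.Agent.GR Fermat.Agent.X0N Fermat.Agent.LR
  Fermat.Agent.RB Fermat.Agent.RB.ROLD

local notation "Ω" => AlgebraicClosure ℚ

/-- the degree of the Legendre cover is prime to every odd prime `p`, at `p = 3` for even level. -/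
theorem legCoverDeg_coprime_of_evenAtThree (M : ℕ) [NeZero M] {p : ℕ} (hp : p.Prime)
    (hp2 : p ≠ 2) (h32 : EvenAtThree p M) : Nat.Coprime (legCoverDeg M) p := by
  by_cases hp3 : p = 3
  · exact legCoverDeg_coprime_of_even M (h32 hp3) hp hp2
  · have hp5 : 5 ≤ p := by
      have h2 := hp.two_le
      by_contra hlt
      have h4 : p = 4 := by omega
      subst h4
      exact absurd hp (by norm_num)
    exact legCoverDeg_coprime M hp hp5

/-- **the Hecke operators commute on `J₀(M)[p]`**, every odd `p`. -/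
theorem heckeOperatorBar_comm_of_nsmul_eq_zeroO (M : ℕ) [NeZero M] (p : ℕ) [Fact p.Prime]
    (hp2 : p ≠ 2) (hno3 : NoThreeTorsionLevel p M) (ℓ ℓ' : Nat.Primes) (hℓ : ¬ (ℓ : ℕ) ∣ M)
    (hℓ' : ¬ (ℓ' : ℕ) ∣ M) (x : JZero M) (hx : p • x = 0) :
    heckeOperatorBar M ℓ (heckeOperatorBar M ℓ' x) =
      heckeOperatorBar M ℓ' (heckeOperatorBar M ℓ x) := by
  set I := stageIData M p with hI
  have hz : x ∈ torsionNat (JZero M) (p ^ 1) := by
    rw [mem_torsionNat, pow_one]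
    exact hx
  set z : ↥(torsionNat (JZero M) (p ^ 1)) := ⟨x, hz⟩ with hzdef
  obtain ⟨w, hw⟩ := parLiftModPO M p hp2 hno3 (I.D.kap 1 z) (I.D.par 1 z)
  have key : ∀ (ℓ₁ : Nat.Primes) (z' : ↥(torsionNat (JZero M) (p ^ 1))) (w' : LPar M),
      (Int.castAddHom (ZMod (p ^ 1))).comp w'.1 = I.D.kap 1 z' →
      (Int.castAddHom (ZMod (p ^ 1))).comp (heckeZ M ℓ₁ w').1 =
        I.D.kap 1 (torsionNat.map (p ^ 1) (I.T' ℓ₁) z') := by
    intro ℓ₁ z' w' h
    rw [coe_heckeParP, ← heckeGrpP_comp, h, I.hecke ℓ₁ 1 z']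
  have h1 := key ℓ' z w hw
  have h2 := key ℓ _ _ h1
  have h3 := key ℓ z w hw
  have h4 := key ℓ' _ _ h3
  have hc : heckeZ M ℓ (heckeZ M ℓ' w) = heckeZ M ℓ' (heckeZ M ℓ w) :=
    LinearMap.congr_fun (heckeZ_commute M ℓ ℓ').eq w
  rw [hc, h4] at h2
  have h5 := I.D.inj 1 h2
  have h6 := congrArg (fun u : ↥(torsionNat (JZero M) (p ^ 1)) => (u : JZero M)) h5
  simp only [torsionNat.map_coe] at h6
  rw [I.hT' ℓ' hℓ', I.hT' ℓ hℓ, I.hT' ℓ hℓ, I.hT' ℓ' hℓ'] at h6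
  exact h6.symm

set_option maxHeartbeats 1600000 in
/-- **[ROLD-q]**, every odd `p` (even level at `p = 3`), proved. -/
theorem legRoldQE : LegRoldQE := by
  intro M _ q _ _ hq2 hqM p hp hp2 hpq h32 A hA S a hS hqS hpS h2S w hW hnot hord hrel
  have hno3 : NoThreeTorsionLevel p M := h32.noThree
  haveI : Fact p.Prime := ⟨hp⟩
  haveI : IsAlgClosed (ResidueField ↥A) := isAlgClosed_residueField A
  have hq : q.Prime := Fact.out
  set X := legGoodRed hA M hqM hq2 with hX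
  set wb : legEt hA M hq2 := legρ hA M hq2 ⟨fullToLegE Ω M w, hW⟩ with hwb
  have hwb0 : wb ≠ 0 := by
    intro h0
    exact hnot ⟨0, by rw [h0, zero_pow hp.ne_zero]⟩
  -- (A) the Kummer lift
  have hlift : X.LiftSpec := X.liftSpec_of_liesOverPrime hA
  have hens : IsMvHenselian A := isMvHenselian_of_liesOverPrime hA
  have hval : A.valuation ((p : ℕ) : Ω) = 1 :=
    Fermat.Agent.TW.Kill.valuation_natCast_eq_one hq
      (fun h => hpq ((Nat.prime_dvd_prime_iff_eq hq hp).1 h).symm) hA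
  have hdiv := Fermat.Agent.MW.kerRed_divisible X hens p hval
  obtain ⟨D, g, hg, β, hg0, hgD, hβ, hρg⟩ :=
    exists_kummer_lift X hlift p hp.ne_zero hdiv wb hwb0 hord
  -- (B) the norm
  obtain ⟨hmem, B, hB, hρN⟩ := exists_ρ_normAlong hA M hqM hq2 p w hW hg hβ hρg
  haveI : HasPrincipalDivisors Ω ↥(legE Ω M) := legE_principal_gen M
  have hdivN := isDivOf_normAlong M D p ⟨hg0, hgD⟩
  set D' : Divisor.degZero (K := Ω) (F := ↥(keyFq Ω M)) :=
    Fermat.Agent.MW.pushDegZero (fullToLegE Ω M) (isIntegral_fullToLegE_bar M) D with hD'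
  set f' : ↥(keyFq Ω M) := normAlong (fullToLegE Ω M) g with hf'
  have hr' : RedTo X (fullToLegE Ω M f') (wb ^ legCoverDeg M * B ^ p) := ⟨hmem, hρN⟩
  set x' : JZero M := Pic0.mk D' with hx'
  have hx'p : p • x' = 0 := nsmul_mk_eq_zero_of_isDivOf D' hdivN
  -- (C) the subgroup
  have hconst : ∀ u : ↥(keyFq Ω M), u ≠ 0 → (∀ v : Place Ω ↥(keyFq Ω M), v.ord u = 0) →
      ∃ c : Ω, u = algebraMap Ω ↥(keyFq Ω M) c :=
    fun u _ hu => exists_const_of_forall_ord_eq_zero (jCoordBar M) u hu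
  have hx'not : ¬ IsRedPow X (fullToLegE Ω M) p x' :=
    not_isRedPow_of_not_pow X (fullToLegE Ω M) hconst hp.ne_zero (legCoverDeg_coprime_of_evenAtThree M hp hp2 h32)
      D' hdivN hnot hB hr'
  set V : AddSubgroup (JZero M) := torsionNat (JZero M) (p ^ 1) with hV
  haveI : Finite ↥V := (stageIData M p).D.finite_torsion 1
  set V₀ : AddSubgroup (JZero M) := redPowSubgroup X (fullToLegE Ω M) p with hV₀
  set N : {ℓ : Nat.Primes // (ℓ : ℕ) ∉ S} → (JZero M →+ JZero M) := fun i =>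
    (heckeOperatorBar M i.1).toAddMonoidHom - (a (i.1 : ℕ)) • AddMonoidHom.id (JZero M) with hN
  have hNapp : ∀ (i : {ℓ : Nat.Primes // (ℓ : ℕ) ∉ S}) (y : JZero M),
      N i y = heckeOperatorBar M i.1 y - a (i.1 : ℕ) • y := fun i y => rfl
  have hi2 : ∀ i : {ℓ : Nat.Primes // (ℓ : ℕ) ∉ S}, (i.1 : ℕ) ≠ 2 := fun i h => i.2 (h ▸ h2S)
  have hiM : ∀ i : {ℓ : Nat.Primes // (ℓ : ℕ) ∉ S}, ¬ (i.1 : ℕ) ∣ M :=
    fun i h => i.2 (hS _ i.1.2 h)
  have hiq : ∀ i : {ℓ : Nat.Primes // (ℓ : ℕ) ∉ S}, (i.1 : ℕ) ≠ q := fun i h => i.2 (h ▸ hqS)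
  have hmemV : ∀ y : JZero M, y ∈ V ↔ p • y = 0 := by
    intro y
    rw [hV, mem_torsionNat, pow_one]
  obtain ⟨y, hyV, hy0, hker⟩ := exists_common_kernel_subgroup V V₀ N
    (by
      intro i y hy
      rw [hmemV] at hy ⊢
      rw [hNapp, nsmul_sub, ← map_nsmul, hy, map_zero, zero_sub, neg_eq_zero, smul_comm, hy,
        smul_zero])
    (by
      intro i y _ hy
      haveI : NeZero (i.1 : ℕ) := ⟨i.1.2.ne_zero⟩
      haveI : NeZero (M * (i.1 : ℕ)) := ⟨Nat.mul_ne_zero (NeZero.ne M) i.1.2.ne_zero⟩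
      rw [hNapp]
      refine V₀.sub_mem ?_ (V₀.zsmul_mem hy _)
      exact IsRedPow.map X (fullToLegE Ω M) (heckeOperatorBar M i.1).toAddMonoidHom
        (heckeFunBar M (i.1 : ℕ)) (legEtT hA M hq2 (i.1 : ℕ) i.1.2 (hi2 i))
        (fun E => heckeOperatorBar_mk_nsmul M (i.1 : ℕ) i.1.2 p E)
        (fun f r h => redTo_heckeFunBar hA M hqM hq2 (i.1 : ℕ) i.1.2 (hi2 i) (hiM i) (hiq i) f r h)
        hy)
    (by
      intro i j y hy
      rw [hmemV] at hy
      have hTT := heckeOperatorBar_comm_of_nsmul_eq_zeroO M p hp2 hno3 i.1 j.1 (hiM i) (hiM j) y hy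
      rw [hNapp, hNapp, hNapp, hNapp, map_sub, map_sub, map_zsmul, map_zsmul, hTT]
      module)
    x' ((hmemV x').2 hx'p) hx'not
    (by
      intro i
      haveI : NeZero (i.1 : ℕ) := ⟨i.1.2.ne_zero⟩
      haveI : NeZero (M * (i.1 : ℕ)) := ⟨Nat.mul_ne_zero (NeZero.ne M) i.1.2.ne_zero⟩
      obtain ⟨c, u, hc, hu, hr⟩ := hrel (i.1 : ℕ) i.1.2 (hi2 i) i.2
      exact isRedPow_map_sub_zsmul X (fullToLegE Ω M) (heckeOperatorBar M i.1).toAddMonoidHom
        (heckeFunBar M (i.1 : ℕ)) (legEtT hA M hq2 (i.1 : ℕ) i.1.2 (hi2 i))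
        (fun E => heckeOperatorBar_mk_nsmul M (i.1 : ℕ) i.1.2 p E)
        (fun f r h => redTo_heckeFunBar hA M hqM hq2 (i.1 : ℕ) i.1.2 (hi2 i) (hiM i) (hiq i) f r h)
        hp.ne_zero D' hdivN hwb0 hB hr' (a (i.1 : ℕ)) hc hu hr)
  -- (D) conclusion
  refine eigenTorsOccursO_of parLiftModPO M p hp hp2 hno3 S a hS y hy0 ((hmemV y).1 hyV) ?_
  intro ℓ hℓ hℓS
  exact sub_eq_zero.1 (hker ⟨⟨ℓ, hℓ⟩, hℓS⟩)

end Fermat.Agent.ML

end
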