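/-
ML (S59) — helper6 — **Hesse-host port** of `Fermat.Agent.ML.ROLD_helper6_MainE`.
-/
import Mathlib
import Fermat.Agent.ML.ROLD_helper6_MainE
import Fermat.Agent.ML.IFACE_helper6_MazHesE
import Fermat.Agent.ML.HES_helper6_RoldNorm
import Fermat.Agent.ML.HES_helper6_RoldHeck
import Fermat.Agent.ML.HES_helper6_OrdQ

set_option autoImplicit false
set_option linter.unusedSectionVars false
set_option linter.unusedVariables false
set_option linter.style.haveILetI false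
set_option synthInstance.maxHeartbeats 400000

noncomputable section

namespace Fermat.Agent.ML

open AlgebraicCurve IsLocalRing IntermediateField ModularCurve CongruenceSubgroup
  ModularCurve.Period

open scoped MatrixGroups

open Fermat.Agent.FG Fermat.Agent.JA Fermat.Agent.SS Fermat.Agent.FF Fermat.Agent.S35
  Fermat.Agent.NP Fermat.Agent.MP Fermat.Agent.GR Fermat.Agent.X0N Fermat.Agent.LR
  Fermat.Agent.RB Fermat.Agent.RB.ROLD

local notation "Ω" => AlgebraicClosure ℚ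

set_option maxHeartbeats 1600000 in
/-- **[ROLD-q]**, every odd `p` (even level at `p = 3`), proved. -/
theorem hesRoldQE : HesRoldQE := by
  intro M _ q _ _ hq3 hqM p hp hp2 hpq h32 A hA S a hS hqS hpS h2S w hW hnot hord hrel
  have hno3 : NoThreeTorsionLevel p M := h32.noThree
  haveI : Fact p.Prime := ⟨hp⟩
  haveI : IsAlgClosed (ResidueField ↥A) := isAlgClosed_residueField A
  have hq : q.Prime := Fact.out
  set X := hesGoodRed hA M hqM hq3 with hX
  set wb : hesEt hA M hq3 := hesρ hA M hq3 ⟨fullToHesE Ω M w, hW⟩ with hwb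
  have hwb0 : wb ≠ 0 := by
    intro h0
    exact hnot ⟨0, by rw [h0, zero_pow hp.ne_zero]⟩
  -- (A) the Kummer lift
  have hlift : X.LiftSpec := X.liftSpec_of_liesOverPrime hA
  have hens : IsMvHenselian A := isMvHenselian_of_liesOverPrime hA
  have hval : A.valuation ((p : ℕ) : Ω) = 1 :=
    Fermat.Agent.TW.Kill.valuation_natCast_eq_one hq
      (fun h => hpq ((Nat.prime_dvd_prime_iff_eq hq hp).1 h).symm) hA
  have hdiv := Fermat.Agent.MW.kerRed_divisible X hens p hval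
  obtain ⟨D, g, hg, β, hg0, hgD, hβ, hρg⟩ :=
    exists_kummer_lift X hlift p hp.ne_zero hdiv wb hwb0 hord
  -- (B) the norm
  obtain ⟨hmem, B, hB, hρN⟩ := exists_ρ_normAlongH hA M hqM hq3 p w hW hg hβ hρg
  haveI : HasPrincipalDivisors Ω ↥(hesE Ω M) := hesE_principal_gen M
  have hdivN := isDivOf_normAlongH M D p ⟨hg0, hgD⟩
  set D' : Divisor.degZero (K := Ω) (F := ↥(keyFq Ω M)) :=
    Fermat.Agent.MW.pushDegZero (fullToHesE Ω M) (isIntegral_fullToHesE_bar M) D with hD'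
  set f' : ↥(keyFq Ω M) := normAlong (fullToHesE Ω M) g with hf'
  have hr' : RedTo X (fullToHesE Ω M f') (wb ^ hesCoverDeg M * B ^ p) := ⟨hmem, hρN⟩
  set x' : JZero M := Pic0.mk D' with hx'
  have hx'p : p • x' = 0 := nsmul_mk_eq_zero_of_isDivOf D' hdivN
  -- (C) the subgroup
  have hconst : ∀ u : ↥(keyFq Ω M), u ≠ 0 → (∀ v : Place Ω ↥(keyFq Ω M), v.ord u = 0) →
      ∃ c : Ω, u = algebraMap Ω ↥(keyFq Ω M) c :=
    fun u _ hu => exists_const_of_forall_ord_eq_zero (jCoordBar M) u hu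
  have hx'not : ¬ IsRedPow X (fullToHesE Ω M) p x' :=
    not_isRedPow_of_not_pow X (fullToHesE Ω M) hconst hp.ne_zero (hesCoverDeg_coprime M hp (five_le_of_prime_of_ne_h6 hp hp2 h32))
      D' hdivN hnot hB hr'
  set V : AddSubgroup (JZero M) := torsionNat (JZero M) (p ^ 1) with hV
  haveI : Finite ↥V := (stageIData M p).D.finite_torsion 1
  set V₀ : AddSubgroup (JZero M) := redPowSubgroup X (fullToHesE Ω M) p with hV₀
  set N : {ℓ : Nat.Primes // (ℓ : ℕ) ∉ S} → (JZero M →+ JZero M) := fun i =>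
    (heckeOperatorBar M i.1).toAddMonoidHom - (a (i.1 : ℕ)) • AddMonoidHom.id (JZero M) with hN
  have hNapp : ∀ (i : {ℓ : Nat.Primes // (ℓ : ℕ) ∉ S}) (y : JZero M),
      N i y = heckeOperatorBar M i.1 y - a (i.1 : ℕ) • y := fun i y => rfl
  have hi2 : ∀ i : {ℓ : Nat.Primes // (ℓ : ℕ) ∉ S}, (i.1 : ℕ) ≠ 3 := fun i h => i.2 (h ▸ h2S)
  have hiM : ∀ i : {ℓ : Nat.Primes // (ℓ : ℕ) ∉ S}, ¬ (i.1 : ℕ) ∣ M :=
    fun i h => i.2 (hS _ i.1.2 h)
  have hiq : ∀ i : {ℓ : Nat.Primes // (ℓ : ℕ) ∉ S}, (i.1 : ℕ) ≠ q := fun i h => i.2 (h ▸ hqS)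
  have hmemV : ∀ y : JZero M, y ∈ V ↔ p • y = 0 := by
    intro y
    rw [hV, mem_torsionNat, pow_one]
  obtain ⟨y, hyV, hy0, hker⟩ := exists_common_kernel_subgroup V V₀ N
    (by
      intro i y hy
      rw [hmemV] at hy ⊢
      rw [hNapp, nsmul_sub, ← map_nsmul, hy, map_zero, zero_sub, neg_eq_zero, smul_comm, hy,
        smul_zero])
    (by
      intro i y _ hy
      haveI : NeZero (i.1 : ℕ) := ⟨i.1.2.ne_zero⟩
      haveI : NeZero (M * (i.1 : ℕ)) := ⟨Nat.mul_ne_zero (NeZero.ne M) i.1.2.ne_zero⟩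
      rw [hNapp]
      refine V₀.sub_mem ?_ (V₀.zsmul_mem hy _)
      exact IsRedPow.map X (fullToHesE Ω M) (heckeOperatorBar M i.1).toAddMonoidHom
        (heckeFunBar M (i.1 : ℕ)) (hesEtT hA M hq3 (i.1 : ℕ) i.1.2 (hi2 i))
        (fun E => heckeOperatorBar_mk_nsmul M (i.1 : ℕ) i.1.2 p E)
        (fun f r h => redTo_heckeFunBarH hA M hqM hq3 (i.1 : ℕ) i.1.2 (hi2 i) (hiM i) (hiq i) f r h)
        hy)
    (by
      intro i j y hy
      rw [hmemV] at hy
      have hTT := heckeOperatorBar_comm_of_nsmul_eq_zeroO M p hp2 hno3 i.1 j.1 (hiM i) (hiM j) y hy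
      rw [hNapp, hNapp, hNapp, hNapp, map_sub, map_sub, map_zsmul, map_zsmul, hTT]
      module)
    x' ((hmemV x').2 hx'p) hx'not
    (by
      intro i
      haveI : NeZero (i.1 : ℕ) := ⟨i.1.2.ne_zero⟩
      haveI : NeZero (M * (i.1 : ℕ)) := ⟨Nat.mul_ne_zero (NeZero.ne M) i.1.2.ne_zero⟩
      obtain ⟨c, u, hc, hu, hr⟩ := hrel (i.1 : ℕ) i.1.2 (hi2 i) i.2
      exact isRedPow_map_sub_zsmul X (fullToHesE Ω M) (heckeOperatorBar M i.1).toAddMonoidHom
        (heckeFunBar M (i.1 : ℕ)) (hesEtT hA M hq3 (i.1 : ℕ) i.1.2 (hi2 i))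
        (fun E => heckeOperatorBar_mk_nsmul M (i.1 : ℕ) i.1.2 p E)
        (fun f r h => redTo_heckeFunBarH hA M hqM hq3 (i.1 : ℕ) i.1.2 (hi2 i) (hiM i) (hiq i) f r h)
        hp.ne_zero D' hdivN hwb0 hB hr' (a (i.1 : ℕ)) hc hu hr)
  -- (D) conclusion
  refine eigenTorsOccursO_of parLiftModPO M p hp hp2 hno3 S a hS y hy0 ((hmemV y).1 hyV) ?_
  intro ℓ hℓ hℓS
  exact sub_eq_zero.1 (hker ⟨⟨ℓ, hℓ⟩, hℓS⟩)

end Fermat.Agent.ML

end
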