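/-
ML (S59) — helper6 — [MAZ-L], **Hesse-host port, final**: Mazur's principle at every prime `q ≠ 3`
(in particular `q = 2`) for every prime `p ≠ 2, 3`, UNCONDITIONAL:

* `hesRoldQE : HesRoldQE`, `keyMazStatementHE : KeyMazStatementHE`,
  `mazurPrincipleHE : MazurPrincipleStatementHE`;
* `mazurPrincipleTwo_of_ne_three : MazurPrincipleStatementTwoNe3` — the `q = 2` half of
  `MazurPrincipleStatementL` for `p ≠ 3` (the literal of `MazurPrincipleStatementTwo` with the
  extra hypothesis `p ≠ 3`);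
* `mazurPrincipleTwo_of_three : MazurPrincipleStatementTwoThree → MazurPrincipleStatementTwo`,
  where `MazurPrincipleStatementTwoThree` is the remaining case `(q, p) = (2, 3)`.
-/
import Mathlib
import Fermat.Agent.ML.HES_helper6_Top
import Fermat.Agent.ML.HES_helper6_RoldMain
import Fermat.Agent.ML.IFACE_helper6_Maz

set_option autoImplicit false

open AlgebraicCurve ModularCurve WeierstrassCurve WeierstrassCurve.Affine
open WeierstrassCurve.Affine.Point

open scoped WeierstrassCurve.Affine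

namespace Fermat.Agent.ML

open Fermat.Agent.S35 Fermat.Agent.NP Fermat.Agent.GR Fermat.Agent.MP Fermat.Agent.SS
  Fermat.Agent.RB

local notation "Ω" => AlgebraicClosure ℚ

/-- **(KEY-MAZ) on the Hesse hosts**, every prime `q ≠ 3`, every prime `p ≠ 2, 3`. -/
theorem keyMazStatementHE : KeyMazStatementHE := keyMazStatementHE_of_rold hesRoldQE

/-- **Mazur's principle at `q ≠ 3`, `q ≠ p`**, every prime `p ≠ 2, 3` (Hesse hosts). -/
theorem mazurPrincipleHE : MazurPrincipleStatementHE := mazurPrincipleHE_of_rold hesRoldQE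

/-- the `q = 2`, `p ≠ 3` part of `MazurPrincipleStatementTwo`. -/
def MazurPrincipleStatementTwoNe3 : Prop :=
  ∀ (E : WeierstrassCurve ℚ) [E.IsElliptic] {W : WeierstrassCurve ℤ} (_hW : W.IsIntegralModelOf E)
    {M' p : ℕ} [NeZero M'] [NeZero (M' * 2)], p.Prime → p ≠ 2 → p ≠ 3 → ¬ 2 ∣ M' →
    ∀ S : Set ℕ, {ℓ : ℕ | ℓ.Prime ∧ ℓ ∈ S}.Finite → badSet W p (M' * 2) ⊆ S → 3 ∈ S →
    GaloisRepIsIrreducible (K := Ω) ℚ E p →
    GaloisRepUnramifiedAt (K := Ω) ℚ E p 2 →
    ResOccurs (M' * 2) p S (fun ℓ => W.apOfModel ℓ) →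
      ResOccurs M' p S (fun ℓ => W.apOfModel ℓ) ∨ FrobScalarAtCurve E p 2

/-- the `(q, p) = (2, 3)` part of `MazurPrincipleStatementTwo`. -/
def MazurPrincipleStatementTwoThree : Prop :=
  ∀ (E : WeierstrassCurve ℚ) [E.IsElliptic] {W : WeierstrassCurve ℤ} (_hW : W.IsIntegralModelOf E)
    {M' : ℕ} [NeZero M'] [NeZero (M' * 2)], ¬ 2 ∣ M' → NoThreeTorsionLevel 3 M' →
    ∀ S : Set ℕ, {ℓ : ℕ | ℓ.Prime ∧ ℓ ∈ S}.Finite → badSet W 3 (M' * 2) ⊆ S → 3 ∈ S →
    GaloisRepIsIrreducible (K := Ω) ℚ E 3 →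
    GaloisRepUnramifiedAt (K := Ω) ℚ E 3 2 →
    ResOccurs (M' * 2) 3 S (fun ℓ => W.apOfModel ℓ) →
      ResOccurs M' 3 S (fun ℓ => W.apOfModel ℓ) ∨ FrobScalarAtCurve E 3 2

/-- **Mazur's principle at `q = 2`, every prime `p ≠ 2, 3`** (Hesse hosts), UNCONDITIONAL. -/
theorem mazurPrincipleTwo_of_ne_three : MazurPrincipleStatementTwoNe3 := by
  intro E _ W hW M' p _ _ hp hp2 hp3 h2M S hS hbad h3S hirr hunr hres
  exact mazurPrincipleHE E hW (M' := M') (q := 2) (p := p) hp hp2 Nat.prime_two (by decide)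
    (Ne.symm hp2) h2M hp3 S hS hbad h3S hirr hunr hres

/-- the two cases give the `q = 2` half. -/
theorem mazurPrincipleTwo_of_three (h23 : MazurPrincipleStatementTwoThree) :
    MazurPrincipleStatementTwo := by
  intro E _ W hW M' p _ _ hp hp2 h2M hno3 S hS hbad h3S hirr hunr hres
  by_cases hp3 : p = 3
  · subst hp3
    exact h23 E hW h2M hno3 S hS hbad h3S hirr hunr hres
  · exact mazurPrincipleTwo_of_ne_three E hW hp hp2 hp3 h2M S hS hbad h3S hirr hunr hres

end Fermat.Agent.ML
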