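/-
PROJECT ML (S59, modularity lifting at p ∈ {3, 5}) — ARCHITECT (helper9) — INTERFACE FILE ML0:
the top of the proof.  See finding 441.

* `LevelOptStatement` : [LEVEL-OPT]: a residually modular semistable `W` (level `M₀`, `p² ∤ M₀`,
  cube-free away from `p`) is residually modular of a SQUAREFREE level `N` such that
    - every prime `q ≠ p` of `N` is a prime at which `ρ̄ = W[p]` is RAMIFIED, in the arithmetic
      form `q ∣ Δ` and `p ∤ v_q(Δ)` (strong form away from `p`: Mazur's principle, Mazur at `q²`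
      and the generalised RB pipeline for `q ≡ 1 mod p`);
    - if `p ∣ N` then `p ∣ Δ` (flexible at `p`: `p` has to be removed only when `W` is good
      at `p`).
* `LiftStatement` : [LIFT] (chain patching): such a `W` is modular of a cube-free level divisible
  by all primes of bad reduction, `p² ∤` level (the level may contain `p` also when `W` is good
  at `p`: S58 removes it).
* `s59_of : LevelOptStatement → LiftStatement → S59Statement` via `Fermat.Agent.S58.result`.
-/
import Mathlib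
import Fermat.Prelude.Def_WeierstrassCurve_Mlc1RowStatement
import Fermat.Agent.S58
import Fermat.Agent.MP.IFACE_helper8_Defs

set_option autoImplicit false

open WeierstrassCurve

namespace Fermat.Agent.ML

/-- the frozen statement S59, as a `Prop`. -/
def S59Statement : Prop :=
  ∀ (p : ℕ) (_ : p = 3 ∨ p = 5)
    (W : WeierstrassCurve ℤ) (_ : W.Δ ≠ 0) (_ : W.IsSemistableModel)
    (_ : W.ModRepIsIrreducible p)
    (M₀ : ℕ) [NeZero M₀] (_ : W.IsResiduallyModularOfLevel p M₀)
    (_ : ¬ p ^ 2 ∣ M₀)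
    (_ : ∀ q : ℕ, q.Prime → q ≠ p → ¬ q ^ 3 ∣ M₀),
    Mlc1IsModularModelOfExactConductorLevel W

/-- an **auxiliary prime** (helper6 2327 (2); only for `p = 3`): a prime `r ≡ 2 mod 3` of good
reduction with `3 ∤ a_r(W)`.  It makes `Γ₀(N)` free of `3`-torsion, `ρ̄` is unramified at `r` and
there is no level raising at `r` (`a_r² ≢ (r + 1)² ≡ 0`), so every deformation is unramified at
`r`: an unframed prime of the level, removed at the very end by S58. -/
def IsAuxPrime (W : WeierstrassCurve ℤ) (p r : ℕ) : Prop :=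
  p = 3 ∧ r.Prime ∧ W.IsGoodPrimeFor r ∧ r % 3 = 2 ∧ ¬ (3 : ℤ) ∣ W.apOfModel r

/-- the conditions on the optimised level `N`: away from `p` only primes at which `W[p]` is
ramified (`q ∣ Δ`, `p ∤ v_q(Δ)`) and auxiliary primes; `p` only if `W` is bad at `p`. -/
def IsOptimalLevel (W : WeierstrassCurve ℤ) (p N : ℕ) : Prop :=
  0 < N ∧ Squarefree N ∧
    (∀ q : ℕ, q.Prime → q ∣ N → q ≠ p →
      ((q : ℤ) ∣ W.Δ ∧ ¬ p ∣ padicValInt q W.Δ) ∨ IsAuxPrime W p q) ∧
    (p ∣ N → (p : ℤ) ∣ W.Δ)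

/-- **residually modular of level `N` away from finitely many primes** (helper6 2327 (1): the
currency of the level optimisation; no congruence is asked at the removed primes). -/
def IsResModAway (W : WeierstrassCurve ℤ) (p N : ℕ) : Prop :=
  ∃ S : Set ℕ, {ℓ : ℕ | ℓ ∈ S ∧ ℓ.Prime}.Finite ∧
    MP.ResOccurs N p S (fun ℓ => W.apOfModel ℓ)

theorem isResModAway_of_isResiduallyModularOfLevel (W : WeierstrassCurve ℤ) (hΔ : W.Δ ≠ 0)
    (p N : ℕ) (hN : 0 < N) (h : W.IsResiduallyModularOfLevel p N) : IsResModAway W p N := by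
  refine ⟨MP.badSet W p N, ?_, (MP.isResiduallyModularOfLevel_iff W p N).mp h⟩
  refine Set.Finite.subset (((W.Δ.natAbs.divisors : Set ℕ).toFinite.union
    (N.divisors : Set ℕ).toFinite).union (Set.finite_singleton p)) ?_
  rintro ℓ ⟨hℓ, -⟩
  rcases hℓ with h1 | h2 | h3
  · left; left
    have h1' : (ℓ : ℤ) ∣ W.Δ := not_not.mp h1
    simp only [Finset.mem_coe, Nat.mem_divisors]
    exact ⟨Int.natCast_dvd.mp h1', Int.natAbs_ne_zero.mpr hΔ⟩
  · left; right
    simp only [Finset.mem_coe, Nat.mem_divisors]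
    exact ⟨h2, hN.ne'⟩
  · right; exact h3

/-- **[LEVEL-OPT]** (strong away from `p`, flexible at `p`). -/
def LevelOptStatement : Prop :=
  ∀ (p : ℕ) (_ : p = 3 ∨ p = 5)
    (W : WeierstrassCurve ℤ) (_ : W.Δ ≠ 0) (_ : W.IsSemistableModel)
    (_ : W.ModRepIsIrreducible p)
    (M₀ : ℕ) [NeZero M₀] (_ : W.IsResiduallyModularOfLevel p M₀)
    (_ : ¬ p ^ 2 ∣ M₀)
    (_ : ∀ q : ℕ, q.Prime → q ≠ p → ¬ q ^ 3 ∣ M₀),
    ∃ N : ℕ, IsOptimalLevel W p N ∧ IsResModAway W p N

/-- **[LIFT]** (chain patching, finding 441 §1): modularity lifting from an optimal level. -/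
def LiftStatement : Prop :=
  ∀ (p : ℕ) (_ : p = 3 ∨ p = 5)
    (W : WeierstrassCurve ℤ) (_ : W.Δ ≠ 0) (_ : W.IsSemistableModel)
    (_ : W.ModRepIsIrreducible p)
    (N : ℕ) (_ : IsOptimalLevel W p N) (_ : IsResModAway W p N),
    ∃ N' : ℕ, W.IsModularModelOfLevel N' ∧ ¬ p ^ 2 ∣ N' ∧
      (∀ ℓ : ℕ, ℓ.Prime → (ℓ : ℤ) ∣ W.Δ → ℓ ∣ N') ∧ (∀ q : ℕ, q.Prime → ¬ q ^ 3 ∣ N')

/-- the conductor level has the three properties asked by the frozen conclusion. -/
theorem mlc1_of_isModularModelOfLevel_conductorLevel (W : WeierstrassCurve ℤ) (hΔ : W.Δ ≠ 0)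
    (h : W.IsModularModelOfLevel W.conductorLevel) :
    Mlc1IsModularModelOfExactConductorLevel W :=
  ⟨W.conductorLevel, W.conductorLevel_pos, W.squarefree_conductorLevel,
    fun _ hq => W.prime_dvd_conductorLevel_iff hΔ hq, h⟩

/-- **the top of S59**. -/
theorem s59_of (hopt : LevelOptStatement) (hlift : LiftStatement) : S59Statement := by
  intro p hp W hΔ hW hirr M₀ _ hres₀ hM₀ hM₀3
  obtain ⟨N, hNopt, hresN⟩ := hopt p hp W hΔ hW hirr M₀ hres₀ hM₀ hM₀3
  obtain ⟨N', hmod, hp2N', hbad, hN3⟩ := hlift p hp W hΔ hW hirr N hNopt hresN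
  have hpp : p.Prime := by rcases hp with rfl | rfl <;> norm_num
  have : Fact p.Prime := ⟨hpp⟩
  have hp2 : p ≠ 2 := by rcases hp with rfl | rfl <;> norm_num
  exact mlc1_of_isModularModelOfLevel_conductorLevel W hΔ
    (Fermat.Agent.S58.result W hW N' p hp2 hirr hp2N' hmod hbad hN3)

end Fermat.Agent.ML
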