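/-
PROJECT ML (S59) — lead — **INTERFACE of the assembly of [LEVEL-OPT]**: the curve-level STEP
statements (no excluded sets `S`, currency `IsResModAway W p N`), from which
`ML/LEVOPT_lead_Main.lean` proves `LevelOptStatement`.

`CurveHyp p W` : the standing hypotheses of S59 on `(p, W)`.
`UnrArith W p q` : `ρ̄ = W[p]` is unramified at `q ≠ p` in the arithmetic form
  (`q ∤ Δ`, or `p ∣ v_q(Δ)`), i.e. the negation of the first disjunct of `IsOptimalLevel`.
`ScalarAt W p q` : `q ≡ 1 mod p` and the Frobenius elements at `q` act on `W[p]` by scalars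
  (`RB.FrobScalarAtCurve` for `E = W ⊗ ℚ`: the second disjunct of Mazur's principle).

STEPS (each: a level `M · (something)` goes down to `M`; the side conditions at `p = 3` are those of
the proved leaves: even lower level for the Legendre hosts, a prime `r ≡ 2 mod 3` in the lower
level for the Hesse host):
* `SqStepStatement`      : `q² ∥ level`, `q ≠ p`  ⇒ `q ∥ level`
                           (MSQ for `5 ≤ q`; NOCONG for `p = 5`, `q ∈ {2, 3}`; route (C) for
                           `(p, q) = (3, 2)`);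
* `MazurOddStepStatement`: `q ∥ level`, `q ∉ {2, p}`, `ρ̄` unramified at `q` ⇒ level without `q`, or
                           `ScalarAt W p q`  (`ML.mazurPrincipleOddE`);
* `MazurTwoStepStatement`: the same at `q = 2` (Hesse host: (2,5), (2,3));
* `RemovePStepStatement` : `p ∥ level`, `W` good at `p` ⇒ level without `p`
                           (`removePAt_five`, `removePAt_three_of_even`);
* `AuxPrimeStatement`    : at `p = 3` there are auxiliary primes outside every finite set;
* `IAStepStatement`      : Ihara avoidance: ALL scalar primes are removed at once from a level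
                           `N' · ∏ Σ` with `N'` optimal.
-/
import Mathlib
import Fermat.Agent.ML.IFACE_helper9_Top
import Fermat.Agent.RB.MAZ_helper6_Iface

set_option autoImplicit false

namespace Fermat.Agent.ML

/-- the standing hypotheses of S59 on `(p, W)` -/
structure CurveHyp (p : ℕ) (W : WeierstrassCurve ℤ) : Prop where
  p_eq : p = 3 ∨ p = 5
  disc_ne : W.Δ ≠ 0
  semistable : W.IsSemistableModel
  irreducible : W.ModRepIsIrreducible p

/-- `ρ̄ = W[p]` is unramified at `q` (arithmetic form; `q ≠ p`) -/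
def UnrArith (W : WeierstrassCurve ℤ) (p q : ℕ) : Prop :=
  ¬ ((q : ℤ) ∣ W.Δ ∧ ¬ p ∣ padicValInt q W.Δ)

/-- `q ≡ 1 mod p` and the Frobenius elements at `q` are scalar on `W[p]` -/
def ScalarAt (W : WeierstrassCurve ℤ) (p q : ℕ) : Prop :=
  RB.FrobScalarAtCurve (W.map (Int.castRingHom ℚ)) p q

/-- **the step at `q²`** -/
def SqStepStatement : Prop :=
  ∀ (p : ℕ) (W : WeierstrassCurve ℤ), CurveHyp p W →
    ∀ (M q : ℕ), 0 < M → q.Prime → q ≠ p → ¬ q ∣ M → (p = 3 → q = 2 ∨ 2 ∣ M) →
      IsResModAway W p (M * q * q) → IsResModAway W p (M * q)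

/-- **Mazur's principle at an odd prime `q ≠ p`** -/
def MazurOddStepStatement : Prop :=
  ∀ (p : ℕ) (W : WeierstrassCurve ℤ), CurveHyp p W →
    ∀ (M q : ℕ), 0 < M → q.Prime → q ≠ 2 → q ≠ p → ¬ q ∣ M → (p = 3 → 2 ∣ M) →
      UnrArith W p q → IsResModAway W p (M * q) → IsResModAway W p M ∨ ScalarAt W p q

/-- **Mazur's principle at `q = 2`** (Hesse host; at `p = 3` the lower level contains a prime
`r ≡ 2 mod 3`) -/
def MazurTwoStepStatement : Prop :=
  ∀ (p : ℕ) (W : WeierstrassCurve ℤ), CurveHyp p W →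
    ∀ (M : ℕ), 0 < M → ¬ 2 ∣ M → (p = 3 → ∃ r : ℕ, r.Prime ∧ r ∣ M ∧ r % 3 = 2) →
      UnrArith W p 2 → IsResModAway W p (M * 2) → IsResModAway W p M

/-- **removal of `p`** (`W` good at `p`; at `p = 3` the level is even) -/
def RemovePStepStatement : Prop :=
  ∀ (p : ℕ) (W : WeierstrassCurve ℤ), CurveHyp p W → W.IsGoodPrimeFor p →
    ∀ (M : ℕ), 0 < M → ¬ p ∣ M → (p = 3 → 2 ∣ M) →
      IsResModAway W p (M * p) → IsResModAway W p M

/-- **auxiliary primes exist** (`p = 3`) outside every finite set -/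
def AuxPrimeStatement : Prop :=
  ∀ (W : WeierstrassCurve ℤ), CurveHyp 3 W → ∀ B : Finset ℕ, ∃ r : ℕ, r ∉ B ∧ IsAuxPrime W 3 r

/-- **Ihara avoidance**: all the scalar primes are removed at once. -/
def IAStepStatement : Prop :=
  ∀ (p : ℕ) (W : WeierstrassCurve ℤ), CurveHyp p W →
    ∀ (N' : ℕ) (Sig : Finset ℕ), IsOptimalLevel W p N' →
      (∀ v ∈ Sig, v.Prime ∧ v ≠ p ∧ ¬ v ∣ N' ∧ UnrArith W p v ∧ ScalarAt W p v) →
      (p = 3 → ∃ r : ℕ, r.Prime ∧ r ∣ N' ∧ r % 3 = 2) →
      IsResModAway W p (N' * ∏ v ∈ Sig, v) → IsResModAway W p N'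

end Fermat.Agent.ML
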