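/-
ML (S59) — helper6 — [MAZ-L]: **Mazur's principle at `q ≠ 2, p`, every odd `p` (even lower level at
`p = 3`), UNCONDITIONAL**: `mazurPrincipleOddE : MazurPrincipleStatementOddE`, and
`keyMazStatementE : KeyMazStatementE`.
-/
import Mathlib
import Fermat.Agent.ML.MAZ_helper6_TopE
import Fermat.Agent.ML.ROLD_helper6_MainE

set_option autoImplicit false

namespace Fermat.Agent.ML

/-- **(KEY-MAZ)**, every odd `p`, even level at `p = 3`. -/
theorem keyMazStatementE : KeyMazStatementE := keyMazStatementE_of_rold legRoldQE

/-- **Mazur's principle at `q ≠ 2`, `q ≠ p`**, every odd `p`, even lower level at `p = 3`. -/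
theorem mazurPrincipleOddE : MazurPrincipleStatementOddE := mazurPrincipleOddE_of_rold legRoldQE

end Fermat.Agent.ML
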