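/-
ML (S59) — helper1 — **[RHO-W] interface (ML6)**: the `p`-adic Tate module of a semistable
Weierstrass model `W` as a `GaloisRepAdic ℤ_[p]` with ALL the clauses the lifting part consumes
(`RhoWData`), and the statement `RhoWStatement` that it exists for every odd `p`.

Clauses: Frobenius characteristic polynomials at the good primes, `det = ε`, unramified at the good
primes `≠ p`, unipotent inertia at every prime `≠ p`, the Frobenius characteristic polynomial
`(X - s)(X - s q)`, `s² = 1`, at the bad primes `q ≠ p` (Tate curve; needed for the `W`-point of the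
local models and for `det Θ_q ∈ 𝔪`), flat at `p` if `p ∤ Δ`, strictly ordinary at `p` if `p ∣ Δ`,
and the Galois-equivariant identification of the residual representation with `W[p](ℚ̄)`.
-/
import Mathlib
import Fermat.Prelude.Def_FLTPrelim_Modularity
import Fermat.Prelude.Def_FLTPrelim_ModularRep
import Fermat.Prelude.Def_FLTPrelim_Ramification
import Fermat.Prelude.Def_FLTPrelim_GaloisRep
import Fermat.Prelude.Def_GaloisRep_LocalConditions
import Fermat.Prelude.Def_GaloisRep_Flat
import Fermat.Prelude.Def_GaloisRep_StrictOrdinary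

set_option autoImplicit false

open Polynomial IsLocalRing
open scoped WeierstrassCurve.Affine

namespace Fermat.Agent.ML

/-- `Ω = AlgebraicClosure ℚ`. -/
local notation "Ω" => AlgebraicClosure ℚ

/-- the absolute Galois group. -/
local notation "GQ" => (AlgebraicClosure ℚ ≃ₐ[ℚ] AlgebraicClosure ℚ)

/-- **[RHO-W]** the `p`-adic representation of the semistable model `W` with all its local
properties. -/
structure RhoWData (W : WeierstrassCurve ℤ) (p : ℕ) [Fact p.Prime] : Type 1 where
  /-- the representation on the `p`-adic Tate module. -/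
  ρ : GaloisRepAdic ℤ_[p]
  /-- Frobenius characteristic polynomials at the good primes `ℓ ≠ p`. -/
  charpoly_frob : ∀ ℓ : ℕ, ℓ.Prime → ℓ ≠ p → W.IsGoodPrimeFor ℓ →
    ∀ A : ValuationSubring Ω, A.LiesOverPrime ℓ → ∀ σ : GQ, A.IsFrobeniusAt σ ℓ →
      LinearMap.charpoly (ρ.ρ σ) =
        X ^ 2 - C ((W.apOfModel ℓ : ℤ) : ℤ_[p]) * X + C ((ℓ : ℕ) : ℤ_[p])
  /-- `det ρ` is the cyclotomic character. -/
  det_cyclotomic : ρ.DetIsCyclotomic p
  /-- unramified at the good primes `q ≠ p`. -/
  unramified : ∀ q : ℕ, q.Prime → q ≠ p → W.IsGoodPrimeFor q → ρ.IsUnramifiedAt q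
  /-- unipotent inertia at every prime `q ≠ p` (semistability). -/
  unipotent : ∀ q : ℕ, q.Prime → q ≠ p → ρ.IsUnipotentOnInertiaAt q
  /-- at a bad prime `q ≠ p` every Frobenius lift has eigenvalues `s`, `s q` with a sign `s`
  (`s = 1` split, `s = -1` non-split multiplicative reduction) depending only on the place. -/
  frob_bad : ∀ q : ℕ, q.Prime → q ≠ p → (q : ℤ) ∣ W.Δ →
    ∀ A : ValuationSubring Ω, A.LiesOverPrime q → ∃ s : ℤ_[p], s ^ 2 = 1 ∧
      ∀ σ : GQ, A.IsFrobeniusAt σ q →
        LinearMap.charpoly (ρ.ρ σ) = (X - C s) * (X - C (s * ((q : ℕ) : ℤ_[p])))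
  /-- flat at `p` when `W` has good reduction at `p`. -/
  flat : W.IsGoodPrimeFor p → ρ.IsFlatAt p
  /-- strictly ordinary at `p` when `W` has multiplicative reduction at `p`. -/
  strict : (p : ℤ) ∣ W.Δ → ρ.IsStrictOrdinaryAt p
  /-- the residual representation is `W[p](ℚ̄)`, Galois-equivariantly. -/
  residual_torsion : ∃ e : ρ.residual.V ≃+
      Submodule.torsionBy ℤ ((W.map (Int.castRingHom ℚ))⁄Ω).Point p,
    ∀ (σ : GQ) (x : ρ.residual.V), e (ρ.residual.ρ σ x) = σ • e x

/-- **[RHO-W] statement**: the data exist for every semistable `W` with `Δ ≠ 0` and every odd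
prime `p`. -/
def RhoWStatement : Prop :=
  ∀ (p : ℕ) [Fact p.Prime], p ≠ 2 → ∀ W : WeierstrassCurve ℤ, W.Δ ≠ 0 → W.IsSemistableModel →
    Nonempty (RhoWData W p)

end Fermat.Agent.ML
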