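/-
ML (S59) — helper1 — **[RHO-W] step 0**: the `p`-adic Tate module of a semistable model `W` with
its FRAME kept (`RhoWFrame W p` = a `TmodFrame` of `E(ℚ̄)`, S58/TMOD), the representation
`RhoWFrame.rep`, and the clauses of `RhoWData` that are already on main in S58 form:
Frobenius characteristic polynomials at the good primes, unramified at the good primes `≠ p`,
unipotent inertia at all primes `≠ p`.  Every further clause is proved about THIS `rep`.
-/
import Mathlib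
import Fermat.Agent.S58.ECTATE_helper7_UMult
import Fermat.Agent.ML.IFACE_helper1_RhoW

set_option autoImplicit false
set_option linter.unusedSectionVars false
set_option linter.unusedVariables false

open Polynomial IsLocalRing WeierstrassCurve WeierstrassCurve.Affine
open scoped WeierstrassCurve.Affine

namespace Fermat.Agent.ML

open Fermat.Agent.S58 Fermat.Agent.GR

/-- `Ω = AlgebraicClosure ℚ`. -/
local notation "Ω" => AlgebraicClosure ℚ

/-- the absolute Galois group. -/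
local notation "GQ" => (AlgebraicClosure ℚ ≃ₐ[ℚ] AlgebraicClosure ℚ)

variable (W : WeierstrassCurve ℤ) (p : ℕ) [Fact p.Prime]

/-- the action of `G_ℚ` on `E(ℚ̄)`. -/
noncomputable abbrev wAct : GQ →* AddMonoid.End (W⁄Ω).Point :=
  DistribMulAction.toAddMonoidEnd GQ (W⁄Ω).Point

theorem wAct_apply (σ : GQ) (P : (W⁄Ω).Point) : wAct W σ P = σ • P := rfl

/-- continuity: every point is fixed by an open subgroup. -/
theorem wCont : TmodCont p (wAct W) := fun P _ => asm58_exists_fixingField W P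

/-- **[RHO-W] step 0**: a frame of the `p`-adic Tate module of `E(ℚ̄)`. -/
structure RhoWFrame : Type where
  /-- the frame (two Tate sequences forming a basis). -/
  F : TmodFrame (W⁄Ω).Point p

variable {W p}

/-- the `p`-adic representation attached to a frame. -/
noncomputable def RhoWFrame.rep (R : RhoWFrame W p) : GaloisRepAdic ℤ_[p] :=
  R.F.rep (wAct W) (wCont W p)

theorem RhoWFrame.rep_rho (R : RhoWFrame W p) (σ : GQ) : R.rep.ρ σ = R.F.endo (wAct W σ) := rfl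

variable (W p)

theorem discr_baseChange_ne_zero (hΔ : W.Δ ≠ 0) : (W⁄Ω).Δ ≠ 0 := by
  have h1 : (W⁄Ω).Δ = ((W.Δ : ℤ) : Ω) := by
    simp [WeierstrassCurve.baseChange, WeierstrassCurve.map_Δ]
  rw [h1]
  exact_mod_cast hΔ

/-- frames exist (odd `p`, `Δ ≠ 0`). -/
theorem nonempty_rhoWFrame (hΔ : W.Δ ≠ 0) (hp2 : p ≠ 2) : Nonempty (RhoWFrame W p) := by
  have hp : p.Prime := Fact.out
  have hcard1 : Nat.card {P : (W⁄Ω).Point // p • P = 0} = p ^ 2 :=
    Fermat.Agent.EC.card_torsion_eq (discr_baseChange_ne_zero W hΔ) hp hp2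
  obtain ⟨F⟩ := tmod_exists_frame (J := (W⁄Ω).Point) (p := p) hcard1
    (fun P _ => Fermat.Agent.EC.qbar_divisible W hΔ hp hp2 P)
  exact ⟨⟨F⟩⟩

variable {W p}

section Clauses

variable (R : RhoWFrame W p)

theorem odd_pow_of_ne_two (hp2 : p ≠ 2) (n : ℕ) : Odd (p ^ n) :=
  ((Fact.out : p.Prime).odd_of_ne_two hp2).pow

theorem not_dvd_pow_of_ne {q : ℕ} (hq : q.Prime) (hqp : q ≠ p) (n : ℕ) : ¬ q ∣ p ^ n := fun h =>
  hqp ((Nat.prime_dvd_prime_iff_eq hq (Fact.out : p.Prime)).mp (hq.dvd_of_dvd_pow h))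

/-- **Frobenius characteristic polynomials at the good primes.** -/
theorem RhoWFrame.charpoly_frob (hΔ : W.Δ ≠ 0) (hp2 : p ≠ 2) (ℓ : ℕ) (hℓ : ℓ.Prime) (hℓp : ℓ ≠ p)
    (hgood : W.IsGoodPrimeFor ℓ) (A : ValuationSubring Ω) (hA : A.LiesOverPrime ℓ) (σ : GQ)
    (hσ : A.IsFrobeniusAt σ ℓ) :
    LinearMap.charpoly (R.rep.ρ σ) =
      X ^ 2 - C ((W.apOfModel ℓ : ℤ) : ℤ_[p]) * X + C ((ℓ : ℕ) : ℤ_[p]) := by
  have hp : p.Prime := Fact.out
  have hcard1 : Nat.card {P : (W⁄Ω).Point // p • P = 0} = p ^ 2 :=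
    Fermat.Agent.EC.card_torsion_eq (discr_baseChange_ne_zero W hΔ) hp hp2
  have hdiv : ∀ P : (W⁄Ω).Point, ∃ Q : (W⁄Ω).Point, p • Q = P := fun P =>
    Fermat.Agent.EC.qbar_divisible W hΔ hp hp2 P
  have hrel : ∀ P : (W⁄Ω).Point, (∃ n : ℕ, p ^ n • P = 0) →
      wAct W σ (wAct W σ P) - (W.apOfModel ℓ) • wAct W σ P + (ℓ : ℤ) • P = 0 := by
    rintro P ⟨n, hP⟩
    exact e2_frobenius_relation_Qbar W hℓ hgood (asm58_e2FrobRel W hℓ hgood) A hA hσ
      (odd_pow_of_ne_two hp2 n) (not_dvd_pow_of_ne hℓ hℓp n) hP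
  have hns : ¬ IsScalarEnd (R.rep.ρ σ) := fun hs =>
    e2_frobenius_not_scalar_Qbar' W hℓ hgood (e2KerBound_of_good W hℓ hgood) A hA hσ hp hp2
      (Ne.symm hℓp) hcard1 hdiv (R.F.rep_scalar (wAct W) (wCont W p) σ hs)
  have h := charpoly_eq_of_quadratic R.rep.finrank_eq
    (R.F.rep_quadratic (wAct W) (wCont W p) σ (W.apOfModel ℓ) (ℓ : ℤ) hrel) hns
  rw [Int.cast_natCast] at h
  exact h

/-- **unramified at the good primes `q ≠ p`.** -/
theorem RhoWFrame.unramified (hp2 : p ≠ 2) (q : ℕ) (hq : q.Prime) (hqp : q ≠ p)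
    (hgood : W.IsGoodPrimeFor q) : R.rep.IsUnramifiedAt q := by
  intro A hA σ hσ
  refine R.F.rep_eq_one (wAct W) (wCont W p) σ ?_
  rintro P ⟨n, hP⟩
  exact e2_inertia_smul_eq_Qbar W hq hgood A hA hσ (odd_pow_of_ne_two hp2 n)
    (not_dvd_pow_of_ne hq hqp n) hP

/-- **unipotent inertia at every prime `q ≠ p`** (semistable model). -/
theorem RhoWFrame.unipotent (hΔ : W.Δ ≠ 0) (hss : W.IsSemistableModel) (hp2 : p ≠ 2) (q : ℕ)
    (hq : q.Prime) (hqp : q ≠ p) : R.rep.IsUnipotentOnInertiaAt q := by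
  intro A hA σ hσ
  refine R.F.rep_unipotent (wAct W) (wCont W p) σ ?_
  rintro P ⟨n, hP⟩
  by_cases hbad : (q : ℤ) ∣ W.Δ
  · exact uMult58_of_semistable W hΔ hss p hp2 q hq hqp hbad A hA σ hσ n P hP
  · have hfix : ∀ Q : (W⁄Ω).Point, p ^ n • Q = 0 → σ • Q = Q := fun Q hQ =>
      e2_inertia_smul_eq_Qbar W hq hbad A hA hσ (odd_pow_of_ne_two hp2 n)
        (not_dvd_pow_of_ne hq hqp n) hQ
    show σ • σ • P - (2 : ℤ) • σ • P + P = 0
    rw [hfix P hP, hfix P hP]
    have h2 : (2 : ℤ) • P = P + P := by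
      rw [show (2 : ℤ) = 1 + 1 from rfl, add_zsmul, one_zsmul]
    rw [h2]
    abel

end Clauses

end Fermat.Agent.ML
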