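/-
ML (S59) — helper1 — **[RHO-W] clause `residual_torsion`**: the residual representation of the
`p`-adic Tate module `RhoWFrame.rep` is `W[p](ℚ̄)`, Galois-equivariantly.

`ev v = (Ψ v)₁` (level-one component of the Tate sequence) is additive, equivariant, onto `E[p]`, with
kernel `𝔪 V`; the residual space `κ ⊗ V ≃ V / 𝔪 V` (`quotTensorEquivQuotSMul`).
-/
import Mathlib
import Fermat.Agent.ML.RHOW_helper1_Frame
import Fermat.Agent.LR.NONEIS_helper3_Main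

set_option autoImplicit false
set_option linter.unusedSectionVars false
set_option linter.unusedVariables false

open Polynomial IsLocalRing WeierstrassCurve WeierstrassCurve.Affine
open scoped WeierstrassCurve.Affine TensorProduct

namespace Fermat.Agent.ML

open Fermat.Agent.S58 Fermat.Agent.GR Fermat.Agent.LR.NonEis

/-- `Ω = AlgebraicClosure ℚ`. -/
local notation "Ω" => AlgebraicClosure ℚ

/-- the absolute Galois group. -/
local notation "GQ" => (AlgebraicClosure ℚ ≃ₐ[ℚ] AlgebraicClosure ℚ)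

variable {W : WeierstrassCurve ℤ} {p : ℕ} [Fact p.Prime] (R : RhoWFrame W p)

/-- the level-one evaluation `v ↦ (Ψ v)₁ ∈ E(ℚ̄)`. -/
noncomputable def RhoWFrame.ev : (Fin 2 → ℤ_[p]) →+ (W⁄Ω).Point where
  toFun v := (R.F.psi v).1 1
  map_zero' := by rw [map_zero]; rfl
  map_add' v w := by rw [map_add]; rfl

theorem RhoWFrame.ev_apply (v : Fin 2 → ℤ_[p]) : R.ev v = (R.F.psi v).1 1 := rfl

theorem RhoWFrame.nsmul_ev (v : Fin 2 → ℤ_[p]) : p • R.ev v = 0 := by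
  have := TateSeq.pow_smul (R.F.psi v) 1
  rwa [pow_one] at this

/-- equivariance. -/
theorem RhoWFrame.ev_rho (σ : GQ) (v : Fin 2 → ℤ_[p]) : R.ev (R.rep.ρ σ v) = σ • R.ev v := by
  show (R.F.psi (R.F.endo (wAct W σ) v)).1 1 = σ • (R.F.psi v).1 1
  rw [TmodFrame.psi_endo_apply]
  rfl

/-- the kernel is `𝔪 V`. -/
theorem RhoWFrame.ev_eq_zero_iff (v : Fin 2 → ℤ_[p]) :
    R.ev v = 0 ↔ v ∈ (maximalIdeal ℤ_[p]) • (⊤ : Submodule ℤ_[p] (Fin 2 → ℤ_[p])) := by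
  constructor
  · intro h
    obtain ⟨u', hu'⟩ := R.F.exists_eq_smul_of_psi_comp_eq_zero v 1 h
    rw [hu', pow_one]
    refine Submodule.smul_mem_smul ?_ Submodule.mem_top
    rw [PadicInt.maximalIdeal_eq_span_p]
    exact Ideal.subset_span rfl
  · intro h
    refine Submodule.smul_induction_on h ?_ ?_
    · intro a ha w _
      rw [PadicInt.maximalIdeal_eq_span_p, Ideal.mem_span_singleton] at ha
      obtain ⟨c, rfl⟩ := ha
      have h1 : ((p : ℤ_[p]) * c) • w = p • (c • w) := by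
        rw [mul_smul, Nat.cast_smul_eq_nsmul]
      rw [h1, map_nsmul, RhoWFrame.nsmul_ev]
    · intro x y hx hy
      rw [map_add, hx, hy, add_zero]

/-- `ev` is onto the `p`-torsion. -/
theorem RhoWFrame.exists_ev_eq (P : (W⁄Ω).Point) (hP : p • P = 0) : ∃ v, R.ev v = P := by
  obtain ⟨a, b, hab⟩ := R.F.span P hP
  refine ⟨![(a : ℤ_[p]), (b : ℤ_[p])], ?_⟩
  rw [RhoWFrame.ev_apply, TmodFrame.psi_apply, hab]
  have hx : p ^ 1 • R.F.x.1 1 = 0 := TateSeq.pow_smul R.F.x 1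
  have hy : p ^ 1 • R.F.y.1 1 = 0 := TateSeq.pow_smul R.F.y 1
  congr 1
  · exact tmod_zsmul_congr hx (tmod_dvd_appr_sub (by simp))
  · exact tmod_zsmul_congr hy (tmod_dvd_appr_sub (by simp))

/-! ### the `ℚ`-model and the equivalence -/

/-- `ev` with values in the `p`-torsion of the `ℚ`-model. -/
noncomputable def RhoWFrame.evQ : (Fin 2 → ℤ_[p]) →+
    Submodule.torsionBy ℤ ((W.map (Int.castRingHom ℚ))⁄Ω).Point p where
  toFun v := ⟨(pointCongr (baseChange_map_castRingHom W)).symm (R.ev v), by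
    rw [Submodule.mem_torsionBy_iff, ← map_zsmul, natCast_zsmul, R.nsmul_ev, map_zero]⟩
  map_zero' := Subtype.ext (by simp)
  map_add' v w := Subtype.ext (by simp)

theorem RhoWFrame.coe_evQ (v : Fin 2 → ℤ_[p]) :
    ((R.evQ v : Submodule.torsionBy ℤ ((W.map (Int.castRingHom ℚ))⁄Ω).Point p) :
      ((W.map (Int.castRingHom ℚ))⁄Ω).Point) =
      (pointCongr (baseChange_map_castRingHom W)).symm (R.ev v) := rfl

theorem RhoWFrame.evQ_eq_zero_iff (v : Fin 2 → ℤ_[p]) :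
    R.evQ v = 0 ↔ v ∈ (maximalIdeal ℤ_[p]) • (⊤ : Submodule ℤ_[p] (Fin 2 → ℤ_[p])) := by
  rw [← R.ev_eq_zero_iff, Subtype.ext_iff, R.coe_evQ]
  simp

theorem RhoWFrame.evQ_surjective : Function.Surjective R.evQ := by
  rintro ⟨P, hP⟩
  rw [Submodule.mem_torsionBy_iff] at hP
  have h1 : p • pointCongr (baseChange_map_castRingHom W) P = 0 := by
    rw [← natCast_zsmul, ← map_zsmul, hP, map_zero]
  obtain ⟨v, hv⟩ := R.exists_ev_eq _ h1
  refine ⟨v, Subtype.ext ?_⟩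
  rw [R.coe_evQ, hv, AddEquiv.symm_apply_apply]

/-- equivariance of `evQ`. -/
theorem RhoWFrame.evQ_rho (σ : GQ) (v : Fin 2 → ℤ_[p]) :
    R.evQ (R.rep.ρ σ v) = σ • R.evQ v := by
  apply Subtype.ext
  show (pointCongr (baseChange_map_castRingHom W)).symm (R.ev (R.rep.ρ σ v)) =
    σ • (pointCongr (baseChange_map_castRingHom W)).symm (R.ev v)
  rw [R.ev_rho]
  apply (pointCongr (baseChange_map_castRingHom W)).injective
  rw [AddEquiv.apply_symm_apply, smul_pointCongr_castRingHom, AddEquiv.apply_symm_apply]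

/-- auxiliary form of `residual_torsion` with all types explicit. -/
theorem RhoWFrame.residual_torsion_aux :
    ∃ e : (ResidueField ℤ_[p] ⊗[ℤ_[p]] (Fin 2 → ℤ_[p])) ≃+
        Submodule.torsionBy ℤ ((W.map (Int.castRingHom ℚ))⁄Ω).Point p,
      ∀ (σ : GQ) (x : ResidueField ℤ_[p] ⊗[ℤ_[p]] (Fin 2 → ℤ_[p])),
        e ((R.F.endo (wAct W σ)).baseChange (ResidueField ℤ_[p]) x) = σ • e x := by
  classical
  set N : Submodule ℤ_[p] (Fin 2 → ℤ_[p]) :=
    (maximalIdeal ℤ_[p]) • (⊤ : Submodule ℤ_[p] (Fin 2 → ℤ_[p])) with hN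
  set g₁ : (Fin 2 → ℤ_[p]) →ₗ[ℤ]
      Submodule.torsionBy ℤ ((W.map (Int.castRingHom ℚ))⁄Ω).Point p := R.evQ.toIntLinearMap with hg₁
  have hg₁v : ∀ v, g₁ v = R.evQ v := fun v => rfl
  have hker : N.restrictScalars ℤ = LinearMap.ker g₁ := by
    ext v
    rw [Submodule.restrictScalars_mem, LinearMap.mem_ker, hg₁v, R.evQ_eq_zero_iff]
  have hsurj : Function.Surjective g₁ := R.evQ_surjective
  let e₁ : (ResidueField ℤ_[p] ⊗[ℤ_[p]] (Fin 2 → ℤ_[p])) ≃ₗ[ℤ_[p]] ((Fin 2 → ℤ_[p]) ⧸ N) :=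
    TensorProduct.quotTensorEquivQuotSMul (Fin 2 → ℤ_[p]) (maximalIdeal ℤ_[p])
  let e₂ : ((Fin 2 → ℤ_[p]) ⧸ N.restrictScalars ℤ) ≃ₗ[ℤ] ((Fin 2 → ℤ_[p]) ⧸ N) :=
    Submodule.Quotient.restrictScalarsEquiv ℤ N
  let e₃ : ((Fin 2 → ℤ_[p]) ⧸ N.restrictScalars ℤ) ≃ₗ[ℤ]
      ((Fin 2 → ℤ_[p]) ⧸ LinearMap.ker g₁) := Submodule.quotEquivOfEq _ _ hker
  let e₄ : ((Fin 2 → ℤ_[p]) ⧸ LinearMap.ker g₁) ≃ₗ[ℤ]
      Submodule.torsionBy ℤ ((W.map (Int.castRingHom ℚ))⁄Ω).Point p :=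
    g₁.quotKerEquivOfSurjective hsurj
  let e : (ResidueField ℤ_[p] ⊗[ℤ_[p]] (Fin 2 → ℤ_[p])) ≃+
      Submodule.torsionBy ℤ ((W.map (Int.castRingHom ℚ))⁄Ω).Point p :=
    e₁.toAddEquiv.trans (e₂.symm.toAddEquiv.trans (e₃.toAddEquiv.trans e₄.toAddEquiv))
  have key : ∀ (r : ℤ_[p]) (v : Fin 2 → ℤ_[p]),
      e ((IsLocalRing.residue ℤ_[p] r) ⊗ₜ[ℤ_[p]] v) = R.evQ (r • v) := by
    intro r v
    show e₄ (e₃ (e₂.symm (e₁ ((Ideal.Quotient.mk (maximalIdeal ℤ_[p]) r) ⊗ₜ[ℤ_[p]] v)))) = _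
    have h1 : e₁ ((Ideal.Quotient.mk (maximalIdeal ℤ_[p]) r) ⊗ₜ[ℤ_[p]] v) =
        Submodule.Quotient.mk (r • v) :=
      TensorProduct.quotTensorEquivQuotSMul_mk_tmul (maximalIdeal ℤ_[p]) r v
    rw [h1]
    have h2 : e₂.symm (Submodule.Quotient.mk (r • v)) = Submodule.Quotient.mk (r • v) := by
      rw [LinearEquiv.symm_apply_eq]
      rfl
    rw [h2]
    rfl
  refine ⟨e, fun σ x => ?_⟩
  induction x using TensorProduct.induction_on with
  | zero =>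
    rw [map_zero, map_zero, smul_zero]
  | tmul c v =>
    obtain ⟨r, rfl⟩ := IsLocalRing.residue_surjective c
    rw [LinearMap.baseChange_tmul, key, key, ← map_smul]
    exact R.evQ_rho σ (r • v)
  | add x y hx hy =>
    rw [map_add, map_add, hx, hy, map_add, smul_add]

/-- **the clause `residual_torsion`** for the Tate-module representation. -/
theorem RhoWFrame.residual_torsion :
    ∃ e : R.rep.residual.V ≃+ Submodule.torsionBy ℤ ((W.map (Int.castRingHom ℚ))⁄Ω).Point p,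
      ∀ (σ : GQ) (x : R.rep.residual.V), e (R.rep.residual.ρ σ x) = σ • e x :=
  R.residual_torsion_aux

end Fermat.Agent.ML
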