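/-
ML (S59) — helper1 — **[TATE-DICT] (T1)**: `W[p]` is unramified at a prime `q ≠ p` of multiplicative
reduction with `p ∣ v_q(Δ)`; with the good case: `UnrArith W p q → GaloisRepUnramifiedAt`.

Transport of `TATED.gnode_galois_fix` along the translation `(r, t)` to the nodal model (pattern of
`S58.unipotent_of_gnode_params`), the nodal normal form over `ℚ̄` (`S58.gNodeNormalForm_qbar`) and
`w(Δ) = v_q(Δ)`.
-/
import Mathlib
import Fermat.Agent.ML.TATED_helper1_NodeFix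
import Fermat.Agent.S58.ECTATE_helper7_UMult
import Fermat.Agent.ML.RHOW_helper1_Frame

set_option autoImplicit false
set_option linter.unusedSectionVars false
set_option linter.unusedVariables false

namespace Fermat.Agent.ML.TATED

open Fermat.Agent.Tate Fermat.Agent.S13 Fermat.Agent.S58 Fermat.Agent.GR
open WeierstrassCurve WeierstrassCurve.Affine
open scoped WeierstrassCurve.Affine

section Transport

variable {K : Type*} [Field K] [DecidableEq K] [Algebra ℚ K] [CharZero K]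
  {A : ValuationSubring K}

/-- **transport**: if the translate of `W⁄K` by `(r, t)` is a nodal model with `n = m k w(π)` and
`σ` (stabilising `A`, trivial on the residue field) fixes `r`, `t` and `π`, then `σ` fixes every
`m`-torsion point of `W`, `m` odd and invertible in `A`. -/
theorem fix_of_gnode_params (W : WeierstrassCurve ℤ) (r t α β : K) (C : GNodeCtx K A)
    (hM : C.IsModel (VariableChange.mk 1 r 0 t • (W.toAffine⁄K)).toAffine α β)
    {m : ℕ} (hodd : Odd m) (hm0 : m ≠ 0) (hminv : ((m : K))⁻¹ ∈ A)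
    (σ : K ≃ₐ[ℚ] K) (hσ : ∀ a ∈ A, σ a ∈ A ∧ σ a - a ∈ A.nonunits)
    (hσr : σ r = r) (hσt : σ t = t)
    {π : K} (hπ0 : π ≠ 0) (hπ : C.L.w π = 1) (hσπ : σ π = π) (k : ℕ) (hn : C.n = m * k)
    (P : (W.toAffine⁄K).Point) (hP : m • P = 0) : σ • P = P := by
  -- the fixed field of `σ`
  let F₀ : IntermediateField ℚ K := FixedBy.intermediateField ℚ K σ
  let r' : F₀ := ⟨r, hσr⟩
  let t' : F₀ := ⟨t, hσt⟩
  let σ' : K ≃ₐ[F₀] K := { σ.toRingEquiv with commutes' := fun x => x.2 }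
  have hσσ' : ∀ x : K, σ' x = σ x := fun x => rfl
  let W_F : WeierstrassCurve F₀ := W.map (algebraMap ℤ F₀)
  let C₀ : VariableChange F₀ := ⟨1, r', 0, t'⟩
  have h1 : (W_F.toAffine⁄K) = (W.toAffine⁄K) := by
    show (W.map (algebraMap ℤ F₀)).map (algebraMap F₀ K) = W.map (algebraMap ℤ K)
    rw [WeierstrassCurve.map_map]
    congr 1
  have hC₀ : C₀.baseChange K = VariableChange.mk 1 r 0 t := by
    show VariableChange.mk (Units.map (algebraMap F₀ K : F₀ →* K) 1) (algebraMap F₀ K r')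
      (algebraMap F₀ K 0) (algebraMap F₀ K t') = _
    rw [map_one, map_zero]
    rfl
  have h2 : ((C₀ • W_F).toAffine⁄K) = VariableChange.mk 1 r 0 t • (W.toAffine⁄K) := by
    have := baseChange_variableChange W_F C₀ K
    rw [hC₀] at this
    rw [← h1]
    exact this
  have hM' : C.IsModel ((C₀ • W_F).toAffine⁄K) α β := by
    rw [h2]; exact hM
  have hR1 : ∀ {x y : K} (h : ((C₀ • W_F).toAffine⁄K).Nonsingular x y),
      m • Point.some x y h = 0 → x ∈ A ∧ y ∈ A := fun h ht =>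
    mem_of_nsmul_eq_zero' (gnode_isIntegralCurve58 hM') hm0 hminv h ht
  have hσ1 : ∀ a ∈ A, σ' a ∈ A ∧ σ' a - a ∈ A.nonunits := hσ
  have key := gnode_galois_fix (C₀ • W_F).toAffine C hM' hodd hR1 hπ0 hπ k hn σ' hσπ hσ1
  -- transport along the change of variables
  let e := vcPtBaseChange W_F C₀ K
  have he : ∀ Q, σ' • e Q = e (σ' • Q) := fun Q => smul_vcPtBaseChange W_F C₀ σ' Q
  have key2 : ∀ P' : (W_F.toAffine⁄K).Point, m • P' = 0 → σ' • P' = P' := by
    intro P' hP'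
    obtain ⟨Q, rfl⟩ := e.surjective P'
    have hQ : m • Q = 0 := by
      apply e.injective
      rw [map_nsmul, hP', map_zero]
    have := key Q hQ
    rw [he, this]
  -- transport along the identification of the two base changes
  have hc : ∀ P' : (W_F.toAffine⁄K).Point, ptCast h1 (σ' • P') = σ • ptCast h1 P' :=
    fun P' => ptCast_smul W_F.toAffine W.toAffine h1 σ' σ hσσ' P'
  obtain ⟨P', rfl⟩ := (ptCast h1).surjective P
  have hP' : m • P' = 0 := by
    apply (ptCast h1).injective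
    rw [map_nsmul, hP, map_zero]
  have := key2 P' hP'
  rw [← hc, this]

end Transport

section Val

variable {K : Type*} [Field K] [CharZero K] {A : ValuationSubring K}
  {q : ℕ} (hq : q.Prime) (hqA : (q : K) ∈ A.nonunits)

include hq hqA in
/-- **the log valuation of an integer** (normalised by `w q = 1`) is its `q`-adic valuation. -/
theorem logVal_intCast (L : LogVal A) (hL : L.w (q : K) = 1) {z : ℤ} (hz : z ≠ 0) :
    L.w (z : K) = padicValInt q z := by
  have : Fact q.Prime := ⟨hq⟩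
  have hq0 : (q : K) ≠ 0 := Nat.cast_ne_zero.mpr hq.ne_zero
  have hna : z.natAbs ≠ 0 := Int.natAbs_ne_zero.mpr hz
  obtain ⟨v, m, hm, hvm⟩ := Nat.exists_eq_pow_mul_and_not_dvd hna q hq.ne_one
  have hm0 : m ≠ 0 := by
    rintro rfl
    exact hm (dvd_zero q)
  have hval : padicValInt q z = v := by
    rw [padicValInt, hvm, padicValNat.mul (pow_ne_zero _ hq.ne_zero) hm0,
      padicValNat.prime_pow, padicValNat.eq_zero_of_not_dvd hm, add_zero]
  have hmK : (m : K) ≠ 0 := Nat.cast_ne_zero.mpr hm0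
  have hwm : L.w (m : K) = 0 := by
    rw [L.eq_zero_iff hmK]
    exact ⟨natCast_mem A m, inv_natCast_mem A hq hqA hm⟩
  have hw : L.w ((z.natAbs : ℕ) : K) = v := by
    rw [hvm]
    push_cast
    rw [L.map_mul (pow_ne_zero _ hq0) hmK, L.map_pow hq0, hL, hwm]
    ring
  have hz' : (z : K) = ((z.natAbs : ℕ) : K) ∨ (z : K) = -((z.natAbs : ℕ) : K) := by
    rcases Int.natAbs_eq z with h | h
    · left
      have : (z : K) = (((z.natAbs : ℕ) : ℤ) : K) := congrArg (Int.cast : ℤ → K) h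
      rw [this, Int.cast_natCast]
    · right
      have : (z : K) = ((-((z.natAbs : ℕ) : ℤ) : ℤ) : K) := congrArg (Int.cast : ℤ → K) h
      rw [this, Int.cast_neg, Int.cast_natCast]
  rcases hz' with h | h
  · rw [h, hw, hval]
  · rw [h, L.map_neg, hw, hval]

end Val

section Concrete

/-- `Ω = AlgebraicClosure ℚ`. -/
local notation "Ω" => AlgebraicClosure ℚ

/-- **(T1), bad case**: inertia at a prime `q` with `q ∣ Δ`, `q ∤ c₄`, `p ∣ v_q(Δ)` acts trivially
on the `p`-torsion, `p` odd and prime to `q`. -/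
theorem fix_of_multiplicative (W : WeierstrassCurve ℤ)
    (hΔ0 : W.Δ ≠ 0) {q : ℕ} (hq : q.Prime) (hqΔ : (q : ℤ) ∣ W.Δ) (hqc₄ : ¬ (q : ℤ) ∣ W.c₄)
    {p : ℕ} (hodd : Odd p) (hqp : ¬ q ∣ p) (hdvd : p ∣ padicValInt q W.Δ)
    (A : ValuationSubring Ω) (hA : A.LiesOverPrime q)
    (σ : Ω ≃ₐ[ℚ] Ω) (hσ : σ ∈ A.inertiaSubgroupIn ℚ)
    (P : (W.toAffine⁄Ω).Point) (hP : p • P = 0) : σ • P = P := by
  have hqA : ((q : ℕ) : Ω) ∈ A.nonunits := hA
  have : Algebra.IsAlgebraic ℚ Ω := AlgebraicClosure.isAlgebraic ℚ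
  obtain ⟨L, hL⟩ := exists_logVal A hq hqA
  have hcoe : ∀ z : ℤ, algebraMap ℤ Ω z = (z : Ω) := fun z => rfl
  have hint : ∀ z : ℤ, algebraMap ℤ Ω z ∈ A := fun z => by rw [hcoe]; exact intCast_mem A z
  have hΔmap : (W.toAffine⁄Ω).Δ = algebraMap ℤ Ω W.Δ := WeierstrassCurve.map_Δ W _
  have hc₄map : (W.toAffine⁄Ω).c₄ = algebraMap ℤ Ω W.c₄ := WeierstrassCurve.map_c₄ W _
  obtain ⟨r, t, α, β, C, hCL, hr, ht, hM, hfix⟩ := gNodeNormalForm_qbar A L (W.toAffine⁄Ω)
    (hint _) (hint _) (hint _) (hint _) (hint _)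
    (by rw [hΔmap, hcoe]; exact Int.cast_ne_zero.mpr hΔ0)
    (by rw [hΔmap, hcoe]; exact intCast_mem_nonunits A hqA hqΔ)
    (by rw [hc₄map, hcoe]; exact intCast_notMem_nonunits A hq hqA hqc₄)
  have hin : ∀ a ∈ A, σ a ∈ A ∧ σ a - a ∈ A.nonunits :=
    fun a ha => inertia_map_mem_and_sub_mem hσ ha
  have hσcoe : ∀ z : ℤ, (σ : Ω →+* Ω) (algebraMap ℤ Ω z) = algebraMap ℤ Ω z := fun z => by
    rw [hcoe]; exact map_intCast _ z
  obtain ⟨hσr, hσt⟩ := hfix (σ : Ω →+* Ω) (hσcoe _) (hσcoe _) (hσcoe _) (hσcoe _) (hσcoe _) hin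
  have hp0 : p ≠ 0 := by
    rintro rfl
    exact hqp (dvd_zero q)
  have hq0 : ((q : ℕ) : Ω) ≠ 0 := Nat.cast_ne_zero.mpr hq.ne_zero
  -- `n = w(Δ) = v_q(Δ)`
  obtain ⟨k, hk⟩ := hdvd
  have hn : C.n = p * k := by
    have h1 := (gnode_w_disc hM).2
    have h2 : (VariableChange.mk 1 r 0 t • (W.toAffine⁄Ω)).Δ = (W.toAffine⁄Ω).Δ := by
      rw [WeierstrassCurve.variableChange_Δ]
      simp
    have h3 : (VariableChange.mk 1 r 0 t • (W.toAffine⁄Ω)).toAffine.Δ =
        (VariableChange.mk 1 r 0 t • (W.toAffine⁄Ω)).Δ := rfl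
    rw [h3, h2, hΔmap, hcoe, hCL, logVal_intCast hq hqA L hL hΔ0, hk] at h1
    rw [← h1]
    push_cast
    rfl
  exact fix_of_gnode_params W r t α β C hM hodd hp0 (inv_natCast_mem A hq hqA hqp)
    σ hin hσr hσt hq0 (by rw [hCL, hL]) (map_natCast σ q) k hn P hP

end Concrete

end Fermat.Agent.ML.TATED
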