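/-
ML (S59) — helper1 — **[TATE-DICT] (T1), statement form**: for a semistable model `W`, `p` odd,
`q ≠ p` prime with `q ∤ Δ` or `p ∣ v_q(Δ)`, the inertia groups at `q` act trivially on `W[p](ℚ̄)`
(`GaloisRepUnramifiedAt`, lead's leaf (T)), and on the points of `W⁄ℚ̄` directly.
-/
import Mathlib
import Fermat.Agent.ML.TATED_helper1_UnrBad
import Fermat.Agent.ML.RHOW_helper1_Resid

set_option autoImplicit false
set_option linter.unusedSectionVars false
set_option linter.unusedVariables false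

namespace Fermat.Agent.ML.TATED

open Fermat.Agent.Tate Fermat.Agent.S13 Fermat.Agent.S58 Fermat.Agent.GR
open Fermat.Agent.LR.NonEis
open WeierstrassCurve WeierstrassCurve.Affine
open scoped WeierstrassCurve.Affine

/-- `Ω = AlgebraicClosure ℚ`. -/
local notation "Ω" => AlgebraicClosure ℚ

/-- **(T1)** on the points of `W⁄ℚ̄`. -/
theorem inertia_smul_eq_of_unrArith (W : WeierstrassCurve ℤ) (hΔ : W.Δ ≠ 0)
    (hss : W.IsSemistableModel) {p : ℕ} (hp : p.Prime) (hp2 : p ≠ 2) {q : ℕ} (hq : q.Prime)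
    (hqp : q ≠ p) (h : ¬ ((q : ℤ) ∣ W.Δ ∧ ¬ p ∣ padicValInt q W.Δ))
    (A : ValuationSubring Ω) (hA : A.LiesOverPrime q)
    {σ : Ω ≃ₐ[ℚ] Ω} (hσ : σ ∈ A.inertiaSubgroupIn ℚ)
    {P : (W⁄Ω).Point} (hP : p • P = 0) : σ • P = P := by
  have hodd : Odd p := hp.odd_of_ne_two hp2
  have hqp' : ¬ q ∣ p := fun hd => hqp ((Nat.prime_dvd_prime_iff_eq hq hp).mp hd)
  by_cases hbad : (q : ℤ) ∣ W.Δ
  · have hdvd : p ∣ padicValInt q W.Δ := by
      by_contra hnd
      exact h ⟨hbad, hnd⟩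
    exact fix_of_multiplicative W hΔ hq hbad (hss q hq hbad) hodd hqp' hdvd A hA σ hσ P hP
  · exact e2_inertia_smul_eq_Qbar W hq hbad A hA hσ hodd hqp' hP

/-- **(T1)**, lead's leaf (T): `UnrArith W p q → GaloisRepUnramifiedAt`. -/
theorem galoisRepUnramifiedAt_of_unrArith (W : WeierstrassCurve ℤ) (hΔ : W.Δ ≠ 0)
    (hss : W.IsSemistableModel) {p : ℕ} (hp : p.Prime) (hp2 : p ≠ 2) {q : ℕ} (hq : q.Prime)
    (hqp : q ≠ p) (h : ¬ ((q : ℤ) ∣ W.Δ ∧ ¬ p ∣ padicValInt q W.Δ)) :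
    WeierstrassCurve.Affine.Point.GaloisRepUnramifiedAt (K := Ω) ℚ
      (W.map (Int.castRingHom ℚ)) p q := by
  intro A hA σ hσ x
  apply Subtype.ext
  show σ • (x : ((W.map (Int.castRingHom ℚ))⁄Ω).Point) = x
  have hx := x.2
  rw [Submodule.mem_torsionBy_iff] at hx
  apply (pointCongr (baseChange_map_castRingHom W)).injective
  rw [smul_pointCongr_castRingHom]
  refine inertia_smul_eq_of_unrArith W hΔ hss hp hp2 hq hqp h A hA hσ ?_
  rw [← natCast_zsmul, ← map_zsmul, hx, map_zero]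

end Fermat.Agent.ML.TATED
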