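/-
PROJECT ML (S59) — lead — **the step `MazurOddStepStatement` of [LEVEL-OPT]**, from helper6's
`mazurPrincipleOddE` (Mazur's principle at `q ≠ 2, p`, `S`-form, every odd `p`, even lower level at
`p = 3`) and helper1's (T1) of the Tate dictionary (`UnrArith W p q → GaloisRepUnramifiedAt`).
-/
import Mathlib
import Fermat.Agent.ML.IFACE_lead_LevelOpt
import Fermat.Agent.ML.MAZ_helper6_FinalE
import Fermat.Agent.ML.TATED_helper1_UnrT

set_option autoImplicit false
set_option linter.unusedSectionVars false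
set_option linter.unusedVariables false
set_option linter.style.haveILetI false

namespace Fermat.Agent.ML.LevOpt

open Fermat.Agent.MP

/-- the primes of `badSet W p N` are finitely many -/
theorem finite_primes_badSet (W : WeierstrassCurve ℤ) (hΔ : W.Δ ≠ 0) (p N : ℕ) (hN : 0 < N) :
    {ℓ : ℕ | ℓ ∈ badSet W p N ∧ ℓ.Prime}.Finite := by
  refine Set.Finite.subset (((W.Δ.natAbs.divisors : Set ℕ).toFinite.union
    (N.divisors : Set ℕ).toFinite).union (Set.finite_singleton p)) ?_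
  rintro ℓ ⟨hℓ, -⟩
  rcases hℓ with h1 | h2 | h3
  · left; left
    have h1' : (ℓ : ℤ) ∣ W.Δ := not_not.mp h1
    simp only [Finset.mem_coe, Nat.mem_divisors]
    exact ⟨Int.natCast_dvd.mp h1', Int.natAbs_ne_zero.mpr hΔ⟩
  · left; right
    simp only [Finset.mem_coe, Nat.mem_divisors]
    exact ⟨h2, hN.ne'⟩
  · right; exact h3

/-- **`MazurOddStepStatement` holds.** -/
theorem mazurOddStepStatement : MazurOddStepStatement := by
  intro p W hyp M q hM hq hq2 hqp hqM hside hunr hres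
  classical
  have hpp : p.Prime := by rcases hyp.p_eq with rfl | rfl <;> norm_num
  have hp2 : p ≠ 2 := by rcases hyp.p_eq with rfl | rfl <;> norm_num
  obtain ⟨S, hSfin, hS⟩ := hres
  set E : WeierstrassCurve ℚ := W.map (Int.castRingHom ℚ) with hE
  haveI : E.IsElliptic := by
    refine ⟨isUnit_iff_ne_zero.mpr ?_⟩
    rw [hE, WeierstrassCurve.map_Δ]
    simpa using hyp.disc_ne
  have hW : W.IsIntegralModelOf E := ⟨1, one_smul _ _⟩
  haveI : NeZero M := ⟨hM.ne'⟩
  haveI : NeZero q := ⟨hq.ne_zero⟩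
  haveI : NeZero (M * q) := ⟨(Nat.mul_pos hM hq.pos).ne'⟩
  set S' : Set ℕ := (S ∪ badSet W p (M * q)) ∪ {2} with hS'
  have hS'fin : {ℓ : ℕ | ℓ.Prime ∧ ℓ ∈ S'}.Finite := by
    refine Set.Finite.subset ((hSfin.union
      (finite_primes_badSet W hyp.disc_ne p (M * q) (Nat.mul_pos hM hq.pos))).union
      (Set.finite_singleton 2)) ?_
    rintro ℓ ⟨hℓp, (hℓ | hℓ) | hℓ⟩
    · exact Or.inl (Or.inl ⟨hℓ, hℓp⟩)
    · exact Or.inl (Or.inr ⟨hℓ, hℓp⟩)
    · exact Or.inr hℓ
  have hres' : ResOccurs (M * q) p S' (fun ℓ => W.apOfModel ℓ) :=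
    hS.mono (fun ℓ hℓ => Or.inl (Or.inl hℓ))
  have hunr' := TATED.galoisRepUnramifiedAt_of_unrArith W hyp.disc_ne hyp.semistable hpp hp2 hq
    hqp hunr
  rcases mazurPrincipleOddE E hW hpp hp2 hq hq2 hqp hqM hside S' hS'fin
    (fun ℓ hℓ => Or.inl (Or.inr hℓ)) (Or.inr rfl) hyp.irreducible hunr' hres' with h | h
  · left
    refine ⟨S', ?_, h⟩
    refine hS'fin.subset ?_
    rintro ℓ ⟨h1, h2⟩
    exact ⟨h2, h1⟩
  · right
    exact h

end Fermat.Agent.ML.LevOpt
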