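/-
PROJECT ML (S59) — helper6 — **the step `MazurTwoStepStatement` of [LEVEL-OPT]** (Mazur's principle
at `q = 2`, Hesse hosts), from `MazurPrincipleStatementTwo` (`ML/IFACE_helper6_Maz`) and helper1's
(T1) of the Tate dictionary — the twin of lead's `LevOpt.mazurOddStepStatement`.

* `mazurTwoStepStatement_of : MazurPrincipleStatementTwo → MazurTwoStepStatement`;
* `mazurTwoStepStatement_of_three : MazurPrincipleStatementTwoThree → MazurTwoStepStatement`
  (the case `p ≠ 3` is `mazurPrincipleTwo_of_ne_three`, unconditional);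
* `mazurTwoStep_five`: the `p = 5` instances of `MazurTwoStepStatement`, unconditional.
-/
import Mathlib
import Fermat.Agent.ML.LEVOPT_lead_MazOdd
import Fermat.Agent.ML.HES_helper6_Final

set_option autoImplicit false
set_option linter.unusedSectionVars false
set_option linter.unusedVariables false
set_option linter.style.haveILetI false

open WeierstrassCurve WeierstrassCurve.Affine WeierstrassCurve.Affine.Point

namespace Fermat.Agent.ML.LevOpt

open Fermat.Agent.MP Fermat.Agent.RB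

/-- the common part: Mazur's principle at `q = 2` for one `p`, in the arithmetic form. -/
theorem mazurTwoStep_of_principle {p : ℕ} {W : WeierstrassCurve ℤ} (hyp : CurveHyp p W)
    (hprin : ∀ (E : WeierstrassCurve ℚ) [E.IsElliptic] (_hW : W.IsIntegralModelOf E)
      {M' : ℕ} [NeZero M'] [NeZero (M' * 2)], ¬ 2 ∣ M' → NoThreeTorsionLevel p M' →
      ∀ S : Set ℕ, {ℓ : ℕ | ℓ.Prime ∧ ℓ ∈ S}.Finite → badSet W p (M' * 2) ⊆ S → 3 ∈ S →
      GaloisRepIsIrreducible (K := AlgebraicClosure ℚ) ℚ E p →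
      GaloisRepUnramifiedAt (K := AlgebraicClosure ℚ) ℚ E p 2 →
      ResOccurs (M' * 2) p S (fun ℓ => W.apOfModel ℓ) →
        ResOccurs M' p S (fun ℓ => W.apOfModel ℓ) ∨ FrobScalarAtCurve E p 2)
    (M : ℕ) (hM : 0 < M) (h2M : ¬ 2 ∣ M)
    (hside : p = 3 → ∃ r : ℕ, r.Prime ∧ r ∣ M ∧ r % 3 = 2) (hunr : UnrArith W p 2)
    (hres : IsResModAway W p (M * 2)) : IsResModAway W p M := by
  classical
  have hpp : p.Prime := by rcases hyp.p_eq with rfl | rfl <;> norm_num
  have hp2 : p ≠ 2 := by rcases hyp.p_eq with rfl | rfl <;> norm_num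
  obtain ⟨S, hSfin, hS⟩ := hres
  set E : WeierstrassCurve ℚ := W.map (Int.castRingHom ℚ) with hE
  haveI : E.IsElliptic := by
    refine ⟨isUnit_iff_ne_zero.mpr ?_⟩
    rw [hE, WeierstrassCurve.map_Δ]
    simpa using hyp.disc_ne
  have hW : W.IsIntegralModelOf E := ⟨1, one_smul _ _⟩
  haveI : NeZero M := ⟨hM.ne'⟩
  haveI : NeZero (M * 2) := ⟨(Nat.mul_pos hM two_pos).ne'⟩
  set S' : Set ℕ := (S ∪ badSet W p (M * 2)) ∪ {3} with hS'
  have hS'fin : {ℓ : ℕ | ℓ.Prime ∧ ℓ ∈ S'}.Finite := by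
    refine Set.Finite.subset ((hSfin.union
      (finite_primes_badSet W hyp.disc_ne p (M * 2) (Nat.mul_pos hM two_pos))).union
      (Set.finite_singleton 3)) ?_
    rintro ℓ ⟨hℓp, (hℓ | hℓ) | hℓ⟩
    · exact Or.inl (Or.inl ⟨hℓ, hℓp⟩)
    · exact Or.inl (Or.inr ⟨hℓ, hℓp⟩)
    · exact Or.inr hℓ
  have hres' : ResOccurs (M * 2) p S' (fun ℓ => W.apOfModel ℓ) :=
    hS.mono (fun ℓ hℓ => Or.inl (Or.inl hℓ))
  have hunr' := TATED.galoisRepUnramifiedAt_of_unrArith W hyp.disc_ne hyp.semistable hpp hp2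
    Nat.prime_two (Ne.symm hp2) hunr
  rcases hprin E hW h2M hside S' hS'fin (fun ℓ hℓ => Or.inl (Or.inr hℓ)) (Or.inr rfl)
    hyp.irreducible hunr' hres' with h | h
  · refine ⟨S', ?_, h⟩
    refine hS'fin.subset ?_
    rintro ℓ ⟨h1, h2⟩
    exact ⟨h2, h1⟩
  · exfalso
    have h1 : 2 ≡ 1 [MOD p] := h.1
    rcases hyp.p_eq with rfl | rfl
    · exact absurd h1 (by decide)
    · exact absurd h1 (by decide)

/-- **`MazurTwoStepStatement` from the `q = 2` half of Mazur's principle.** -/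
theorem mazurTwoStepStatement_of (h : MazurPrincipleStatementTwo) : MazurTwoStepStatement := by
  intro p W hyp M hM h2M hside hunr hres
  have hpp : p.Prime := by rcases hyp.p_eq with rfl | rfl <;> norm_num
  have hp2 : p ≠ 2 := by rcases hyp.p_eq with rfl | rfl <;> norm_num
  exact mazurTwoStep_of_principle hyp
    (fun E _ hW M' _ _ h2M' hno3 S hS hbad h3S hirr hun hr =>
      h E hW hpp hp2 h2M' hno3 S hS hbad h3S hirr hun hr) M hM h2M hside hunr hres

/-- **`MazurTwoStepStatement` from the remaining case `(q, p) = (2, 3)`.** -/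
theorem mazurTwoStepStatement_of_three (h : MazurPrincipleStatementTwoThree) :
    MazurTwoStepStatement :=
  mazurTwoStepStatement_of (mazurPrincipleTwo_of_three h)

/-- **the `p ≠ 3` instances of `MazurTwoStepStatement`**, unconditional. -/
theorem mazurTwoStep_ne_three {p : ℕ} {W : WeierstrassCurve ℤ} (hyp : CurveHyp p W) (hp3 : p ≠ 3)
    (M : ℕ) (hM : 0 < M) (h2M : ¬ 2 ∣ M) (hunr : UnrArith W p 2)
    (hres : IsResModAway W p (M * 2)) : IsResModAway W p M := by
  have hpp : p.Prime := by rcases hyp.p_eq with rfl | rfl <;> norm_num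
  have hp2 : p ≠ 2 := by rcases hyp.p_eq with rfl | rfl <;> norm_num
  exact mazurTwoStep_of_principle hyp
    (fun E _ hW M' _ _ h2M' hno3 S hS hbad h3S hirr hun hr =>
      mazurPrincipleTwo_of_ne_three E hW hpp hp2 hp3 h2M' S hS hbad h3S hirr hun hr)
    M hM h2M (fun h => absurd h hp3) hunr hres

end Fermat.Agent.ML.LevOpt
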