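/-
PROJECT ML (S59) — lead — **INTERFACE of the assembly of [LEVEL-OPT], second form**
(`ML/LEVOPT_lead_Main2.lean`): the prime `p` is removed FIRST, on the Prelude hypothesis
`W.IsResiduallyModularOfLevel p M₀` (with the proved `removePAt_five`, `removePAt3Even`), so that
no step `RemovePStepStatement` (and no passage back from `IsResModAway` to the Prelude form) is needed;
and at `p = 3` the auxiliary prime `r ≡ 2 mod 3` is adjoined BEFORE the square step at `2`
(route (C) wants a level without elements of order three).

* `SqStepStatementO`   : the square step, all cases but `(p, q) = (3, 2)`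
                          (MSQ-E for `5 ≤ q`; NOCONG for `p = 5`, `q ∈ {2, 3}`);
* `SqTwoStepStatement` : the square step at `(p, q) = (3, 2)`, the lower level contains a prime
                          `r ≡ 2 mod 3` (route (C)).
-/
import Mathlib
import Fermat.Agent.ML.IFACE_lead_LevelOpt

set_option autoImplicit false

namespace Fermat.Agent.ML

/-- **the step at `q²`**, all cases but `(p, q) = (3, 2)` -/
def SqStepStatementO : Prop :=
  ∀ (p : ℕ) (W : WeierstrassCurve ℤ), CurveHyp p W →
    ∀ (M q : ℕ), 0 < M → q.Prime → q ≠ p → ¬ q ∣ M → ¬ (p = 3 ∧ q = 2) → (p = 3 → 2 ∣ M) →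
      IsResModAway W p (M * q * q) → IsResModAway W p (M * q)

/-- **the step at `2²`, `p = 3`** (route (C)): the lower level contains a prime `r ≡ 2 mod 3` -/
def SqTwoStepStatement : Prop :=
  ∀ (W : WeierstrassCurve ℤ), CurveHyp 3 W →
    ∀ (M : ℕ), 0 < M → ¬ 2 ∣ M → (∃ r : ℕ, r.Prime ∧ r ∣ M ∧ r % 3 = 2) →
      IsResModAway W 3 (M * 2 * 2) → IsResModAway W 3 (M * 2)

end Fermat.Agent.ML
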