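/-
ML — helper3 — **[OLD-UP]: `ResOccurs` goes up along divisibility of levels** (oldforms).

* `resOccurs_mul_prime` : `ResOccurs M p S a → q ∈ S → ResOccurs (M * q) p S a` for a prime `q`
  (`q ∤ M`: stabilisation `g - β g(q z)`, `S58.stab_step`; `q ∣ M`: the same function at the
  smaller group, `S58.levelIncl`);
* `resOccurs_of_dvd` : `M ∣ N`, all primes of `N / M` in `S` ⇒ `ResOccurs M p S a → ResOccurs N p S a`.
-/
import Mathlib
import Fermat.Agent.S58.STAB_helper1_Main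
import Fermat.Agent.MP.IFACE_helper8_Defs

set_option autoImplicit false

namespace Fermat.Agent.ML

open CongruenceSubgroup ModularFormClass CuspForm Fermat.Agent.MP Fermat.Agent.S58

/-- the same function at a smaller group `Γ₀(M q)`, `q ∣ M` prime, is still a normalised
eigenform. -/
theorem isNormalizedEigenform_levelIncl_of_dvd {M q : ℕ} (hq : q.Prime) (hqM : q ∣ M)
    (g : CuspForm (Gamma0 M) 2) (hg : g.IsNormalizedEigenform) :
    (levelIncl q g).IsNormalizedEigenform := by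
  refine ⟨?_, ?_, ?_, ?_⟩
  · rw [qCoeff_levelIncl]; exact hg.qCoeff_one
  · intro m n hmn
    simp only [qCoeff_levelIncl]
    exact hg.qCoeff_mul_of_coprime m n hmn
  · intro ℓ r hℓ hℓM
    simp only [qCoeff_levelIncl]
    exact hg.qCoeff_prime_pow_of_not_dvd ℓ r hℓ fun h => hℓM (Dvd.dvd.mul_right h q)
  · intro ℓ r hℓ hℓM
    simp only [qCoeff_levelIncl]
    refine hg.qCoeff_prime_pow_of_dvd ℓ r hℓ ?_
    rcases hℓ.dvd_mul.mp hℓM with h | h
    · exact h
    · rw [(Nat.prime_dvd_prime_iff_eq hℓ hq).mp h]; exact hqM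

/-- **one prime step of [OLD-UP].** -/
theorem resOccurs_mul_prime {M p : ℕ} {S : Set ℕ} {a : ℕ → ℤ} {q : ℕ} (hq : q.Prime)
    (hqS : q ∈ S) (h : ResOccurs M p S a) : ResOccurs (M * q) p S a := by
  obtain ⟨g, 𝔪, hg, hm, hp, hcong⟩ := h
  by_cases hqM : q ∣ M
  · refine ⟨levelIncl q g, 𝔪, isNormalizedEigenform_levelIncl_of_dvd hq hqM g hg, hm, hp, ?_⟩
    intro ℓ hℓ hℓS
    obtain ⟨b, hb, hb'⟩ := hcong ℓ hℓ hℓS
    exact ⟨b, by rw [hb, qCoeff_levelIncl], hb'⟩
  · obtain ⟨g', hg', hcoef⟩ := stab_step hq hqM g hg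
    refine ⟨g', 𝔪, hg', hm, hp, ?_⟩
    intro ℓ hℓ hℓS
    obtain ⟨b, hb, hb'⟩ := hcong ℓ hℓ hℓS
    have hℓq : ℓ ≠ q := fun h => hℓS (h ▸ hqS)
    exact ⟨b, by rw [hb, hcoef ℓ ((Nat.coprime_primes hℓ hq).mpr hℓq)], hb'⟩

/-- transport of `ResOccurs` along an equality of levels. -/
theorem resOccurs_of_level_eq {M N p : ℕ} {S : Set ℕ} {a : ℕ → ℤ} (h : M = N)
    (hM : ResOccurs M p S a) : ResOccurs N p S a := by
  subst h; exact hM

/-- **[OLD-UP]**: `ResOccurs` goes up along divisibility of levels, as long as the new primes are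
in the excluded set. -/
theorem resOccurs_mul {p : ℕ} {S : Set ℕ} {a : ℕ → ℤ} :
    ∀ (e M : ℕ), e ≠ 0 → (∀ ℓ : ℕ, ℓ.Prime → ℓ ∣ e → ℓ ∈ S) → ResOccurs M p S a →
      ResOccurs (M * e) p S a := by
  intro e
  induction e using Nat.strong_induction_on with
  | _ e ih =>
    intro M he hS h
    rcases Nat.lt_or_ge e 2 with he2 | he2
    · have he1 : e = 1 := by omega
      subst he1
      exact resOccurs_of_level_eq (mul_one M).symm h
    · have hq : (Nat.minFac e).Prime := Nat.minFac_prime (by omega)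
      obtain ⟨e', he'⟩ := Nat.minFac_dvd e
      set q := Nat.minFac e with hqdef
      have he'0 : e' ≠ 0 := by
        rintro rfl
        rw [mul_zero] at he'
        exact he he'
      have hlt : e' < e := by
        rw [he']
        calc e' = 1 * e' := (one_mul _).symm
          _ < q * e' := Nat.mul_lt_mul_of_pos_right hq.one_lt (Nat.pos_of_ne_zero he'0)
      have h1 : ResOccurs (M * q) p S a :=
        resOccurs_mul_prime hq (hS q hq ⟨e', he'⟩) h
      have h2 := ih e' hlt (M * q) he'0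
        (fun ℓ hℓ hd => hS ℓ hℓ (he' ▸ Dvd.dvd.mul_left hd q)) h1
      exact resOccurs_of_level_eq (by rw [he']; ring) h2

/-- **[OLD-UP]**, divisibility form. -/
theorem resOccurs_of_dvd {M N p : ℕ} {S : Set ℕ} {a : ℕ → ℤ} (hN : N ≠ 0) (hMN : M ∣ N)
    (hS : ∀ ℓ : ℕ, ℓ.Prime → ℓ ∣ N → ℓ ∈ S) (h : ResOccurs M p S a) : ResOccurs N p S a := by
  obtain ⟨e, rfl⟩ := hMN
  have he : e ≠ 0 := fun h0 => hN (by rw [h0, mul_zero])
  exact resOccurs_mul e M he (fun ℓ hℓ hd => hS ℓ hℓ (Dvd.dvd.mul_left hd M)) h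

end Fermat.Agent.ML
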