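/-
PROJECT ML (S59) — lead — **the assembly of [LEVEL-OPT]**:
`levelOptStatement_of : SqStep → MazurOddStep → MazurTwoStep → RemovePStep → AuxPrime → IAStep →
LevelOptStatement` (the step statements of `ML/IFACE_lead_LevelOpt.lean`).

Order of the steps (helper9 2419 (3)):
  `p = 5`: squares → Mazur odd → Mazur at 2 → remove `p` → Ihara avoidance;
  `p = 3`: [`4 ∥ M₀`: square at 2 | `2 ∤ M₀`: add 2] + add an auxiliary prime `r` → squares (odd `q`)
           → Mazur odd → remove `3` → Mazur at 2 → Ihara avoidance.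
-/
import Mathlib
import Fermat.Agent.ML.IFACE_lead_LevelOpt
import Fermat.Agent.ML.OLDUP_helper3_ResOccurs

set_option autoImplicit false
set_option linter.unusedSectionVars false
set_option linter.unusedVariables false

namespace Fermat.Agent.ML.LevOpt

open Fermat.Agent.MP

/-! ### `IsResModAway` goes up -/

theorem isResModAway_mul_prime {W : WeierstrassCurve ℤ} {p M q : ℕ} (hq : q.Prime)
    (h : IsResModAway W p M) : IsResModAway W p (M * q) := by
  obtain ⟨S, hS, hres⟩ := h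
  refine ⟨S ∪ {q}, ?_, ?_⟩
  · refine Set.Finite.subset (hS.union (Set.finite_singleton q)) ?_
    rintro ℓ ⟨hℓ | hℓ, hℓp⟩
    · exact Or.inl ⟨hℓ, hℓp⟩
    · exact Or.inr hℓ
  · exact resOccurs_mul_prime hq (Or.inr rfl) (hres.mono Set.subset_union_left)

theorem isResModAway_of_eq {W : WeierstrassCurve ℤ} {p M N : ℕ} (h : M = N)
    (hM : IsResModAway W p M) : IsResModAway W p N := h ▸ hM

/-! ### elementary arithmetic -/

theorem exists_eq_mul_sq_of_sq_dvd {N q : ℕ} (hq : q.Prime) (h2 : q ^ 2 ∣ N) (h3 : ¬ q ^ 3 ∣ N) :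
    ∃ M : ℕ, N = M * q * q ∧ ¬ q ∣ M := by
  obtain ⟨M, hM⟩ := h2
  refine ⟨M, by rw [hM]; ring, fun hqM => h3 ?_⟩
  obtain ⟨M', hM'⟩ := hqM
  exact ⟨M', by rw [hM, hM']; ring⟩

theorem exists_eq_mul_of_dvd_of_sq {N q : ℕ} (h1 : q ∣ N) (h2 : ¬ q ^ 2 ∣ N) :
    ∃ M : ℕ, N = M * q ∧ ¬ q ∣ M := by
  obtain ⟨M, hM⟩ := h1
  refine ⟨M, by rw [hM]; ring, fun hqM => h2 ?_⟩
  obtain ⟨M', hM'⟩ := hqM
  exact ⟨M', by rw [hM, hM']; ring⟩

/-- a prime `ℓ ≠ q` dividing `M * q` divides `M` -/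
theorem dvd_of_dvd_mul_prime {M q ℓ : ℕ} (hℓ : ℓ.Prime) (hq : q.Prime) (hne : ℓ ≠ q)
    (h : ℓ ∣ M * q) : ℓ ∣ M := by
  rcases hℓ.dvd_mul.1 h with h | h
  · exact h
  · exact absurd ((Nat.prime_dvd_prime_iff_eq hℓ hq).1 h) hne

/-! ### phase 1: squares, Mazur's principle at the odd primes, removal of `p`, Mazur at `2` for `p ≠ 3` -/

/-- the invariant at `p = 3`: `2 ∥ N` and `r ∥ N` -/
def Inv (p r N : ℕ) : Prop := p = 3 → (2 ∣ N ∧ ¬ 4 ∣ N ∧ r ∣ N ∧ ¬ r ^ 2 ∣ N)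

theorem Inv.of_dvd {p r N N' : ℕ} (h : Inv p r N) (hd : N' ∣ N) (h2 : p = 3 → 2 ∣ N')
    (hr : p = 3 → r ∣ N') : Inv p r N' := fun hp =>
  ⟨h2 hp, fun h4 => (h hp).2.1 (h4.trans hd), hr hp, fun hr2 => (h hp).2.2.2 (hr2.trans hd)⟩

/-- the terminal levels of phase 1 -/
def Term (W : WeierstrassCurve ℤ) (p r N : ℕ) : Prop :=
  Squarefree N ∧ (p ∣ N → (p : ℤ) ∣ W.Δ) ∧
    ∀ q : ℕ, q.Prime → q ∣ N → q ≠ p → q ≠ r → ¬ (p = 3 ∧ q = 2) → UnrArith W p q →
      q ≠ 2 ∧ ScalarAt W p q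

theorem phase1 (hsq : SqStepStatement) (hmo : MazurOddStepStatement)
    (hm2 : MazurTwoStepStatement) (hrem : RemovePStepStatement)
    (p : ℕ) (W : WeierstrassCurve ℤ) (hyp : CurveHyp p W) (r : ℕ)
    (hr3 : p = 3 → r.Prime ∧ r ≠ 2 ∧ r ≠ 3) :
    ∀ N : ℕ, 0 < N → ¬ p ^ 2 ∣ N → (∀ q : ℕ, q.Prime → q ≠ p → ¬ q ^ 3 ∣ N) → Inv p r N →
      IsResModAway W p N →
      ∃ N₁ : ℕ, 0 < N₁ ∧ Inv p r N₁ ∧ Term W p r N₁ ∧ IsResModAway W p N₁ := by
  have hpp : p.Prime := by rcases hyp.p_eq with rfl | rfl <;> norm_num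
  have hp2 : p ≠ 2 := by rcases hyp.p_eq with rfl | rfl <;> norm_num
  intro N
  induction N using Nat.strong_induction_on with
  | _ N ih =>
    intro hN hp2N hcube hinv hres
    by_cases h1 : ∃ q : ℕ, q.Prime ∧ q ≠ p ∧ q ^ 2 ∣ N
    · -- a square
      obtain ⟨q, hq, hqp, hq2N⟩ := h1
      obtain ⟨M, hNM, hqM⟩ := exists_eq_mul_sq_of_sq_dvd hq hq2N (hcube q hq hqp)
      have hM : 0 < M := by
        rcases Nat.eq_zero_or_pos M with h | h
        · rw [h] at hNM; simp at hNM; omega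
        · exact h
      have hside : p = 3 → q = 2 ∨ 2 ∣ M := by
        intro hp3
        by_cases hq2 : q = 2
        · exact Or.inl hq2
        · right
          have h2N : 2 ∣ M * q * q := by rw [← hNM]; exact (hinv hp3).1
          exact dvd_of_dvd_mul_prime Nat.prime_two hq (Ne.symm hq2)
            (dvd_of_dvd_mul_prime Nat.prime_two hq (Ne.symm hq2) h2N)
      have hres' : IsResModAway W p (M * q) :=
        hsq p W hyp M q hM hq hqp hqM hside (isResModAway_of_eq hNM hres)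
      have hdvd : M * q ∣ N := ⟨q, hNM⟩
      have hlt : M * q < N := by
        rw [hNM]
        have : 0 < M * q := Nat.mul_pos hM hq.pos
        have := hq.two_le
        nlinarith
      refine ih (M * q) hlt (Nat.mul_pos hM hq.pos) (fun h => hp2N (h.trans hdvd))
        (fun ℓ hℓ hℓp h => hcube ℓ hℓ hℓp (h.trans hdvd)) ?_ hres'
      refine hinv.of_dvd hdvd (fun hp3 => ?_) (fun hp3 => ?_)
      · rcases hside hp3 with h | h
        · rw [h]; exact Dvd.intro_left M rfl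
        · exact h.mul_right q
      · have hrN : r ∣ M * q * q := by rw [← hNM]; exact (hinv hp3).2.2.1
        by_cases hrq : r = q
        · rw [hrq]; exact Dvd.intro_left M rfl
        · exact dvd_of_dvd_mul_prime (hr3 hp3).1 hq hrq hrN
    · -- `N` is squarefree
      have hsqf : Squarefree N := by
        rw [Nat.squarefree_iff_prime_squarefree]
        intro x hx hxx
        rw [← pow_two] at hxx
        by_cases hxp : x = p
        · exact hp2N (hxp ▸ hxx)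
        · exact h1 ⟨x, hx, hxp, hxx⟩
      have hnsq : ∀ q : ℕ, q.Prime → ¬ q ^ 2 ∣ N := by
        intro q hq h
        rw [pow_two] at h
        exact (Nat.squarefree_iff_prime_squarefree.1 hsqf) q hq h
      by_cases h2 : ∃ q : ℕ, q.Prime ∧ q ∣ N ∧ q ≠ p ∧ q ≠ r ∧ q ≠ 2 ∧ UnrArith W p q ∧
          ¬ ScalarAt W p q
      · -- Mazur's principle at an odd prime
        obtain ⟨q, hq, hqN, hqp, hqr, hq2, hunr, hnsc⟩ := h2
        obtain ⟨M, hNM, hqM⟩ := exists_eq_mul_of_dvd_of_sq hqN (hnsq q hq)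
        have hM : 0 < M := by
          rcases Nat.eq_zero_or_pos M with h | h
          · rw [h] at hNM; simp at hNM; omega
          · exact h
        have hside : p = 3 → 2 ∣ M := fun hp3 =>
          dvd_of_dvd_mul_prime Nat.prime_two hq (Ne.symm hq2) (by rw [← hNM]; exact (hinv hp3).1)
        have hres' : IsResModAway W p M := by
          rcases hmo p W hyp M q hM hq hq2 hqp hqM hside hunr (isResModAway_of_eq hNM hres)
            with h | h
          · exact h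
          · exact absurd h hnsc
        have hdvd : M ∣ N := ⟨q, hNM⟩
        have hlt : M < N := by
          rw [hNM]
          have := hq.two_le
          nlinarith
        refine ih M hlt hM (fun h => hp2N (h.trans hdvd))
          (fun ℓ hℓ hℓp h => hcube ℓ hℓ hℓp (h.trans hdvd)) ?_ hres'
        refine hinv.of_dvd hdvd hside (fun hp3 => ?_)
        exact dvd_of_dvd_mul_prime (hr3 hp3).1 hq (Ne.symm hqr)
          (by rw [← hNM]; exact (hinv hp3).2.2.1)
      · by_cases h3 : p ∣ N ∧ W.IsGoodPrimeFor p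
        · -- removal of `p`
          obtain ⟨hpN, hgood⟩ := h3
          obtain ⟨M, hNM, hpM⟩ := exists_eq_mul_of_dvd_of_sq hpN hp2N
          have hM : 0 < M := by
            rcases Nat.eq_zero_or_pos M with h | h
            · rw [h] at hNM; simp at hNM; omega
            · exact h
          have hside : p = 3 → 2 ∣ M := fun hp3 =>
            dvd_of_dvd_mul_prime Nat.prime_two hpp (Ne.symm hp2)
              (by rw [← hNM]; exact (hinv hp3).1)
          have hres' : IsResModAway W p M :=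
            hrem p W hyp hgood M hM hpM hside (isResModAway_of_eq hNM hres)
          have hdvd : M ∣ N := ⟨p, hNM⟩
          have hlt : M < N := by
            rw [hNM]
            have := hpp.two_le
            nlinarith
          refine ih M hlt hM (fun h => hp2N (h.trans hdvd))
            (fun ℓ hℓ hℓp h => hcube ℓ hℓ hℓp (h.trans hdvd)) ?_ hres'
          refine hinv.of_dvd hdvd hside (fun hp3 => ?_)
          exact dvd_of_dvd_mul_prime (hr3 hp3).1 hpp (by rw [hp3]; exact (hr3 hp3).2.2)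
            (by rw [← hNM]; exact (hinv hp3).2.2.1)
        · by_cases h4 : p ≠ 3 ∧ 2 ∣ N ∧ UnrArith W p 2
          · -- Mazur's principle at `2`, `p ≠ 3`
            obtain ⟨hp3, h2N, hunr⟩ := h4
            obtain ⟨M, hNM, h2M⟩ := exists_eq_mul_of_dvd_of_sq h2N (hnsq 2 Nat.prime_two)
            have hM : 0 < M := by
              rcases Nat.eq_zero_or_pos M with h | h
              · rw [h] at hNM; simp at hNM; omega
              · exact h
            have hres' : IsResModAway W p M :=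
              hm2 p W hyp M hM h2M (fun h => absurd h hp3) hunr (isResModAway_of_eq hNM hres)
            have hdvd : M ∣ N := ⟨2, hNM⟩
            have hlt : M < N := by rw [hNM]; omega
            exact ih M hlt hM (fun h => hp2N (h.trans hdvd))
              (fun ℓ hℓ hℓp h => hcube ℓ hℓ hℓp (h.trans hdvd)) (fun h => absurd h hp3) hres'
          · -- terminal
            refine ⟨N, hN, hinv, ⟨hsqf, ?_, ?_⟩, hres⟩
            · intro hpN
              by_contra hΔ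
              exact h3 ⟨hpN, hΔ⟩
            · intro q hq hqN hqp hqr h32 hunr
              have hq2 : q ≠ 2 := by
                intro hq2
                subst hq2
                exact h4 ⟨fun hp3 => h32 ⟨hp3, rfl⟩, hqN, hunr⟩
              refine ⟨hq2, ?_⟩
              by_contra hnsc
              exact h2 ⟨q, hq, hqN, hqp, hqr, hq2, hunr, hnsc⟩

/-! ### phase 3: Ihara avoidance -/

/-- the first disjunct of `IsOptimalLevel`, or an auxiliary prime -/
def OptAt (W : WeierstrassCurve ℤ) (p q : ℕ) : Prop :=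
  ((q : ℤ) ∣ W.Δ ∧ ¬ p ∣ padicValInt q W.Δ) ∨ IsAuxPrime W p q

/-- the levels to which Ihara avoidance applies -/
def Ready (W : WeierstrassCurve ℤ) (p N : ℕ) : Prop :=
  0 < N ∧ Squarefree N ∧ (p ∣ N → (p : ℤ) ∣ W.Δ) ∧
    (p = 3 → ∃ r : ℕ, r.Prime ∧ r ∣ N ∧ r % 3 = 2 ∧ IsAuxPrime W p r) ∧
    ∀ q : ℕ, q.Prime → q ∣ N → q ≠ p → OptAt W p q ∨ (UnrArith W p q ∧ ScalarAt W p q)

theorem phase3 (hia : IAStepStatement) (p : ℕ) (W : WeierstrassCurve ℤ) (hyp : CurveHyp p W)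
    (N : ℕ) (hready : Ready W p N) (hres : IsResModAway W p N) :
    ∃ N' : ℕ, IsOptimalLevel W p N' ∧ IsResModAway W p N' := by
  classical
  obtain ⟨hN, hsqf, hpΔ, haux, hq⟩ := hready
  set Sig : Finset ℕ := N.primeFactors.filter (fun q => q ≠ p ∧ ¬ OptAt W p q) with hSig
  have hSigmem : ∀ v, v ∈ Sig ↔ (v.Prime ∧ v ∣ N) ∧ v ≠ p ∧ ¬ OptAt W p v := by
    intro v
    rw [hSig, Finset.mem_filter, Nat.mem_primeFactors]
    constructor
    · rintro ⟨⟨h1, h2, -⟩, h3⟩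
      exact ⟨⟨h1, h2⟩, h3⟩
    · rintro ⟨⟨h1, h2⟩, h3⟩
      exact ⟨⟨h1, h2, hN.ne'⟩, h3⟩
  have hPdvd : (∏ v ∈ Sig, v) ∣ N :=
    Finset.prod_primes_dvd N (fun v hv => ((hSigmem v).1 hv).1.1.prime)
      (fun v hv => ((hSigmem v).1 hv).1.2)
  obtain ⟨N', hN'⟩ := hPdvd
  have hN'' : N = N' * ∏ v ∈ Sig, v := by rw [hN']; ring
  have hN'pos : 0 < N' := by
    rcases Nat.eq_zero_or_pos N' with h | h
    · rw [h, zero_mul] at hN''; omega
    · exact h
  have hN'dvd : N' ∣ N := ⟨_, hN''⟩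
  -- a prime of `N'` is not in `Sig`
  have hnot : ∀ q : ℕ, q.Prime → q ∣ N' → q ∉ Sig := by
    intro q hqp hqN' hqSig
    have h1 : q ∣ ∏ v ∈ Sig, v := Finset.dvd_prod_of_mem _ hqSig
    have h2 : q * q ∣ N := by rw [hN'']; exact Nat.mul_dvd_mul hqN' h1
    exact (Nat.squarefree_iff_prime_squarefree.1 hsqf) q hqp h2
  -- a prime of the product is in `Sig`
  have hprod : ∀ q : ℕ, q.Prime → q ∣ ∏ v ∈ Sig, v → q ∈ Sig := by
    intro q hqp hq
    obtain ⟨v, hv, hqv⟩ := (Prime.dvd_finsetProd_iff hqp.prime _).1 hq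
    have := (Nat.prime_dvd_prime_iff_eq hqp ((hSigmem v).1 hv).1.1).1 hqv
    rw [this]; exact hv
  have hopt : IsOptimalLevel W p N' := by
    refine ⟨hN'pos, hsqf.squarefree_of_dvd hN'dvd, ?_, fun h => hpΔ (h.trans hN'dvd)⟩
    intro q hqp hqN' hqne
    by_contra hcon
    exact hnot q hqp hqN' ((hSigmem q).2 ⟨⟨hqp, hqN'.trans hN'dvd⟩, hqne, hcon⟩)
  refine ⟨N', hopt, ?_⟩
  refine hia p W hyp N' Sig hopt ?_ ?_ (isResModAway_of_eq hN'' hres)
  · intro v hv
    obtain ⟨⟨hvp, hvN⟩, hvne, hvopt⟩ := (hSigmem v).1 hv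
    refine ⟨hvp, hvne, fun h => hnot v hvp h hv, ?_⟩
    rcases hq v hvp hvN hvne with h | h
    · exact absurd h hvopt
    · exact h
  · intro hp3
    obtain ⟨r, hr, hrN, hr3, hraux⟩ := haux hp3
    refine ⟨r, hr, ?_, hr3⟩
    rw [hN''] at hrN
    rcases hr.dvd_mul.1 hrN with h | h
    · exact h
    · have := (hSigmem r).1 (hprod r hr h)
      exact absurd (Or.inr hraux) this.2.2

/-! ### the case `p = 5` -/

theorem ready_of_term_five {W : WeierstrassCurve ℤ} {p N : ℕ} (hp3 : p ≠ 3) (hN : 0 < N)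
    (hterm : Term W p 1 N) : Ready W p N := by
  obtain ⟨hsqf, hpΔ, hq⟩ := hterm
  refine ⟨hN, hsqf, hpΔ, fun h => absurd h hp3, ?_⟩
  intro q hqp hqN hqne
  by_cases hopt : OptAt W p q
  · exact Or.inl hopt
  · right
    have hunr : UnrArith W p q := fun h => hopt (Or.inl h)
    exact ⟨hunr, (hq q hqp hqN hqne hqp.one_lt.ne' (fun h => hp3 h.1) hunr).2⟩

/-! ### the case `p = 3`: phases 0 and 2 -/

/-- coprime prime powers: a power of a prime `q ≠ r` dividing `X * r` divides `X` -/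
theorem pow_dvd_of_dvd_mul_prime {q r k X : ℕ} (hq : q.Prime) (hr : r.Prime) (hne : q ≠ r)
    (h : q ^ k ∣ X * r) : q ^ k ∣ X :=
  Nat.Coprime.dvd_of_dvd_mul_right (Nat.Coprime.pow_left k ((Nat.coprime_primes hq hr).2 hne)) h

theorem not_sq_dvd_mul_prime {r X : ℕ} (hr : r.Prime) (h : ¬ r ∣ X) : ¬ r ^ 2 ∣ X * r := by
  intro h2
  rw [pow_two] at h2
  exact h ((Nat.mul_dvd_mul_iff_right hr.pos).1 h2)

/-- adjoining a new prime `r` to a level -/
theorem phase0_add {W : WeierstrassCurve ℤ} {X r : ℕ} (hr : r.Prime) (hr2 : r ≠ 2) (hr3 : r ≠ 3)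
    (hX : 0 < X) (h9 : ¬ 3 ^ 2 ∣ X) (hcube : ∀ q : ℕ, q.Prime → q ≠ 3 → ¬ q ^ 3 ∣ X)
    (h2 : 2 ∣ X) (h4 : ¬ 4 ∣ X) (hrX : ¬ r ∣ X) (hres : IsResModAway W 3 X) :
    0 < X * r ∧ ¬ 3 ^ 2 ∣ X * r ∧ (∀ q : ℕ, q.Prime → q ≠ 3 → ¬ q ^ 3 ∣ X * r) ∧
      Inv 3 r (X * r) ∧ IsResModAway W 3 (X * r) := by
  refine ⟨Nat.mul_pos hX hr.pos, ?_, ?_, ?_, isResModAway_mul_prime hr hres⟩
  · exact fun h => h9 (pow_dvd_of_dvd_mul_prime Nat.prime_three hr (Ne.symm hr3) h)
  · intro q hq hq3 h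
    by_cases hqr : q = r
    · subst hqr
      exact not_sq_dvd_mul_prime hq hrX ((pow_dvd_pow q (by norm_num : 2 ≤ 3)).trans h)
    · exact hcube q hq hq3 (pow_dvd_of_dvd_mul_prime hq hr hqr h)
  · intro _
    refine ⟨h2.mul_right r, ?_, Dvd.intro_left X rfl, not_sq_dvd_mul_prime hr hrX⟩
    intro h
    have : (2 : ℕ) ^ 2 ∣ X * r := by norm_num; exact h
    have := pow_dvd_of_dvd_mul_prime Nat.prime_two hr (Ne.symm hr2) this
    norm_num at this
    exact h4 this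

/-- **phase 0** at `p = 3`: a level with `2 ∥ N₀`, `r ∥ N₀`. -/
theorem phase0 (hsq : SqStepStatement) (W : WeierstrassCurve ℤ) (hyp : CurveHyp 3 W)
    (M₀ r : ℕ) (hM₀ : 0 < M₀) (h9 : ¬ 3 ^ 2 ∣ M₀)
    (hcube : ∀ q : ℕ, q.Prime → q ≠ 3 → ¬ q ^ 3 ∣ M₀) (hr : r.Prime) (hr2 : r ≠ 2) (hr3 : r ≠ 3)
    (hrM : ¬ r ∣ M₀) (hres : IsResModAway W 3 M₀) :
    ∃ N₀ : ℕ, 0 < N₀ ∧ ¬ 3 ^ 2 ∣ N₀ ∧ (∀ q : ℕ, q.Prime → q ≠ 3 → ¬ q ^ 3 ∣ N₀) ∧
      Inv 3 r N₀ ∧ IsResModAway W 3 N₀ := by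
  by_cases h4 : 4 ∣ M₀
  · -- `4 ∥ M₀`: the square step at `2`
    have h4' : (2 : ℕ) ^ 2 ∣ M₀ := by norm_num; exact h4
    obtain ⟨M, hM, h2M⟩ := exists_eq_mul_sq_of_sq_dvd Nat.prime_two h4'
      (hcube 2 Nat.prime_two (by norm_num))
    have hMpos : 0 < M := by
      rcases Nat.eq_zero_or_pos M with h | h
      · rw [h] at hM; simp at hM; omega
      · exact h
    have hres' : IsResModAway W 3 (M * 2) :=
      hsq 3 W hyp M 2 hMpos Nat.prime_two (by norm_num) h2M (fun _ => Or.inl rfl)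
        (isResModAway_of_eq hM hres)
    have hdvd : M * 2 ∣ M₀ := ⟨2, hM⟩
    refine ⟨M * 2 * r, phase0_add hr hr2 hr3 (by omega) (fun h => h9 (h.trans hdvd))
      (fun q hq hq3 h => hcube q hq hq3 (h.trans hdvd)) (Dvd.intro_left M rfl) ?_
      (fun h => hrM (h.trans hdvd)) hres'⟩
    intro h
    apply h2M
    have : 2 * 2 ∣ M * 2 := by norm_num; exact h
    exact (Nat.mul_dvd_mul_iff_right (by norm_num : 0 < 2)).1 this
  · by_cases h2 : 2 ∣ M₀
    · exact ⟨M₀ * r, phase0_add hr hr2 hr3 hM₀ h9 hcube h2 h4 hrM hres⟩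
    · -- add `2`
      refine ⟨M₀ * 2 * r, phase0_add hr hr2 hr3 (by omega) ?_ ?_ (Dvd.intro_left M₀ rfl) ?_ ?_
        (isResModAway_mul_prime Nat.prime_two hres)⟩
      · exact fun h => h9 (pow_dvd_of_dvd_mul_prime Nat.prime_three Nat.prime_two (by norm_num) h)
      · intro q hq hq3 h
        by_cases hq2 : q = 2
        · subst hq2
          exact not_sq_dvd_mul_prime Nat.prime_two h2
            ((pow_dvd_pow 2 (by norm_num : 2 ≤ 3)).trans h)
        · exact hcube q hq hq3 (pow_dvd_of_dvd_mul_prime hq Nat.prime_two hq2 h)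
      · intro h
        have : (2 : ℕ) ^ 2 ∣ M₀ * 2 := by norm_num; exact h
        exact not_sq_dvd_mul_prime Nat.prime_two h2 this
      · intro h
        exact hrM (dvd_of_dvd_mul_prime hr Nat.prime_two hr2 h)

/-- **phase 2** at `p = 3`: Mazur's principle at `2`. -/
theorem phase2 (hm2 : MazurTwoStepStatement) (W : WeierstrassCurve ℤ) (hyp : CurveHyp 3 W)
    (N₁ r : ℕ) (hraux : IsAuxPrime W 3 r) (hr2 : r ≠ 2) (hN₁ : 0 < N₁) (hinv : Inv 3 r N₁)
    (hterm : Term W 3 r N₁) (hres : IsResModAway W 3 N₁) :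
    ∃ N₂ : ℕ, Ready W 3 N₂ ∧ IsResModAway W 3 N₂ := by
  obtain ⟨hsqf, hpΔ, hq⟩ := hterm
  obtain ⟨h2N, h4N, hrN, hr2N⟩ := hinv rfl
  obtain ⟨-, hrp, hrgood, hrmod, hra⟩ := hraux
  have hraux' : IsAuxPrime W 3 r := ⟨rfl, hrp, hrgood, hrmod, hra⟩
  have hr3 : r ≠ 3 := by intro h; rw [h] at hrmod; norm_num at hrmod
  by_cases hcase : UnrArith W 3 2 ∧ ¬ IsAuxPrime W 3 2
  · -- remove `2`
    obtain ⟨hunr, hnaux⟩ := hcase
    have h4N' : ¬ 2 ^ 2 ∣ N₁ := by norm_num; exact h4N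
    obtain ⟨M, hNM, h2M⟩ := exists_eq_mul_of_dvd_of_sq h2N h4N'
    have hM : 0 < M := by
      rcases Nat.eq_zero_or_pos M with h | h
      · rw [h] at hNM; simp at hNM; omega
      · exact h
    have hrM : r ∣ M := dvd_of_dvd_mul_prime hrp Nat.prime_two hr2 (by rw [← hNM]; exact hrN)
    have hres' : IsResModAway W 3 M :=
      hm2 3 W hyp M hM h2M (fun _ => ⟨r, hrp, hrM, hrmod⟩) hunr (isResModAway_of_eq hNM hres)
    have hdvd : M ∣ N₁ := ⟨2, hNM⟩
    refine ⟨M, ⟨hM, hsqf.squarefree_of_dvd hdvd, fun h => hpΔ (h.trans hdvd),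
      fun _ => ⟨r, hrp, hrM, hrmod, hraux'⟩, ?_⟩, hres'⟩
    intro q hqp hqM hqne
    by_cases hopt : OptAt W 3 q
    · exact Or.inl hopt
    · right
      have hunrq : UnrArith W 3 q := fun h => hopt (Or.inl h)
      have hqr : q ≠ r := fun h => hopt (Or.inr (h ▸ hraux'))
      have hq2 : q ≠ 2 := fun h => h2M (h ▸ hqM)
      exact ⟨hunrq, (hq q hqp (hqM.trans hdvd) hqne hqr (fun h => hq2 h.2) hunrq).2⟩
  · -- keep the level
    refine ⟨N₁, ⟨hN₁, hsqf, hpΔ, fun _ => ⟨r, hrp, hrN, hrmod, hraux'⟩, ?_⟩, hres⟩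
    intro q hqp hqN hqne
    by_cases hopt : OptAt W 3 q
    · exact Or.inl hopt
    · right
      have hunrq : UnrArith W 3 q := fun h => hopt (Or.inl h)
      have hqr : q ≠ r := fun h => hopt (Or.inr (h ▸ hraux'))
      have hq2 : q ≠ 2 := by
        intro h
        subst h
        exact hcase ⟨hunrq, fun h => hopt (Or.inr h)⟩
      exact ⟨hunrq, (hq q hqp hqN hqne hqr (fun h => hq2 h.2) hunrq).2⟩

/-! ### the assembly -/

/-- **[LEVEL-OPT] from the step statements.** -/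
theorem levelOptStatement_of (hsq : SqStepStatement) (hmo : MazurOddStepStatement)
    (hm2 : MazurTwoStepStatement) (hrem : RemovePStepStatement) (haux : AuxPrimeStatement)
    (hia : IAStepStatement) : LevelOptStatement := by
  intro p hp W hΔ hss hirr M₀ _ hres₀ hp2M₀ hcube
  have hyp : CurveHyp p W := ⟨hp, hΔ, hss, hirr⟩
  have hM₀ : 0 < M₀ := Nat.pos_of_ne_zero (NeZero.ne M₀)
  have hres : IsResModAway W p M₀ :=
    isResModAway_of_isResiduallyModularOfLevel W hΔ p M₀ hM₀ hres₀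
  rcases hp with rfl | rfl
  · -- `p = 3`
    obtain ⟨r, hrB, hraux⟩ := haux W hyp (M₀.primeFactors ∪ {2, 3})
    have hrp : r.Prime := hraux.2.1
    have hr2 : r ≠ 2 := fun h => hrB (by rw [h]; simp)
    have hr3 : r ≠ 3 := fun h => hrB (by rw [h]; simp)
    have hrM : ¬ r ∣ M₀ := fun h =>
      hrB (Finset.mem_union_left _ (Nat.mem_primeFactors.2 ⟨hrp, h, hM₀.ne'⟩))
    obtain ⟨N₀, hN₀, h9N₀, hcN₀, hinv₀, hres₀'⟩ :=
      phase0 hsq W hyp M₀ r hM₀ hp2M₀ (fun q hq hq3 => hcube q hq hq3) hrp hr2 hr3 hrM hres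
    obtain ⟨N₁, hN₁, hinv₁, hterm₁, hres₁⟩ :=
      phase1 hsq hmo hm2 hrem 3 W hyp r (fun _ => ⟨hrp, hr2, hr3⟩) N₀ hN₀ h9N₀ hcN₀ hinv₀ hres₀'
    obtain ⟨N₂, hready, hres₂⟩ := phase2 hm2 W hyp N₁ r hraux hr2 hN₁ hinv₁ hterm₁ hres₁
    exact phase3 hia 3 W hyp N₂ hready hres₂
  · -- `p = 5`
    obtain ⟨N₁, hN₁, -, hterm₁, hres₁⟩ :=
      phase1 hsq hmo hm2 hrem 5 W hyp 1 (fun h => absurd h (by norm_num)) M₀ hM₀ hp2M₀
        (fun q hq hq5 => hcube q hq hq5) (fun h => absurd h (by norm_num)) hres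
    exact phase3 hia 5 W hyp N₁ (ready_of_term_five (by norm_num) hN₁ hterm₁) hres₁

end Fermat.Agent.ML.LevOpt
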