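import Mathlib
import Fermat.Agent.MP.PLHOST_helper9_Dict
import Fermat.Agent.MP.ELIM_helper3_Abs

/-!
# ML (S59) — helper8 — [REMOVE-P] at `p = 3`, (R1) part 1: arithmetic and elimination

The final arithmetic of (C) [ORD] for a node unit of exponent `4 e` (helper6's
`ssModelLeg_nodeUnit_four`) instead of `12 e`: every step of `MP/PLHOST_helper9_Dict` and
`MP/PLHOST_helper9_LegProp` which used `p ∤ 12 (p - 1)` (`5 ≤ p`) holds for every odd `p` with `4`.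

* `not_dvd_four_mul_pred`, `not_sq_dvd_four_mul`, `not_sq_dvd_four_mul_int`;
* `not_dvd_nodeUnit_exp_four`, `dvd_ord_of_elim_four` : the final arithmetic at a node;
* `elim_dvd_mul_mul_div`, `elim_dvd_ord_or_dvd_div` : **[ELIM] with the Hecke relation of the node
  unit in divisor form** (`p ∣ ord_Q (T U) - b ord_Q U` at the good places).
-/

set_option autoImplicit false
set_option linter.unusedSectionVars false
set_option linter.unusedVariables false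

open AlgebraicCurve

namespace Fermat.Agent.ML

open Fermat.Agent.MP Fermat.Agent.FF

section Arith

/-- `p ∤ 4 (p - 1)` for an odd prime `p`. -/
theorem not_dvd_four_mul_pred {p : ℕ} (hp : p.Prime) (hp2 : p ≠ 2) : ¬ p ∣ 4 * (p - 1) := by
  intro h
  rcases (Nat.Prime.dvd_mul hp).mp h with h1 | h1
  · have h2 : p ∣ 2 ^ 2 := by norm_num; exact h1
    have h3 := (Nat.prime_dvd_prime_iff_eq hp Nat.prime_two).mp (hp.dvd_of_dvd_pow h2)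
    exact hp2 h3
  · have hle := Nat.le_of_dvd (Nat.sub_pos_of_lt hp.one_lt) h1
    have := hp.one_lt
    omega

/-- `p² ∤ 4 m_w (p - 1)` for an odd prime `p` and `0 < m_w ≤ p`. -/
theorem not_sq_dvd_four_mul {p mw : ℕ} (hp : p.Prime) (hp2 : p ≠ 2) (hmw : 0 < mw)
    (hle : mw ≤ p) : ¬ p ^ 2 ∣ 4 * (mw * (p - 1)) := by
  intro h
  have hcop : Nat.Coprime (p ^ 2) (4 * (p - 1)) :=
    Nat.Coprime.pow_left 2 ((Nat.Prime.coprime_iff_not_dvd hp).mpr (not_dvd_four_mul_pred hp hp2))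
  have h' : p ^ 2 ∣ mw * (4 * (p - 1)) := by
    have : 4 * (mw * (p - 1)) = mw * (4 * (p - 1)) := by ring
    rwa [this] at h
  have h1 : p ^ 2 ∣ mw := hcop.dvd_of_dvd_mul_right h'
  have h2 := Nat.le_of_dvd hmw h1
  have := hp.one_lt
  nlinarith

/-- integer form. -/
theorem not_sq_dvd_four_mul_int {p mw : ℕ} (hp : p.Prime) (hp2 : p ≠ 2) (hmw : 0 < mw)
    (hle : mw ≤ p) : ¬ (p : ℤ) ^ 2 ∣ ((4 * (mw * (p - 1)) : ℕ) : ℤ) := by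
  have : ((p : ℤ) ^ 2) = ((p ^ 2 : ℕ) : ℤ) := by push_cast; ring
  rw [this, Int.natCast_dvd_natCast]
  exact not_sq_dvd_four_mul hp hp2 hmw hle

variable {R : Type*} [CommRing R] [IsDomain R] [IsDiscreteValuationRing R]

/-- **the final arithmetic at a node, exponent `4 e`**: `K m = 4 e`, `e = m_w (p - 1)` with
`m_w ≤ p`, `p ∣ k m - δ`, `p ∣ δ`, `p ∤ k`  ⇒  `p ∤ K`. -/
theorem not_dvd_nodeUnit_exp_four {p : ℕ} (hp : p.Prime) (hp2 : p ≠ 2) {ϖ ζ : R}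
    (hϖ : Irreducible ϖ)
    (hζ : IsPrimitiveRoot ζ p) {mw : ℕ} {uw : Rˣ} (hmw : 0 < mw) (hmwp : mw ≤ p)
    (hζϖ : ζ - 1 = uw * ϖ ^ mw) {e : ℕ} {u : Rˣ} (hu : ((p : ℕ) : R) = u * ϖ ^ e)
    {k K a0 ainf : ℤ} {m : ℕ} (hK : K * (m : ℤ) = ((4 * e : ℕ) : ℤ))
    (hval : (p : ℤ) ∣ k * (m : ℤ) - (a0 - ainf)) (hdelta : (p : ℤ) ∣ a0 - ainf)
    (hk : ¬ (p : ℤ) ∣ k) : ¬ (p : ℤ) ∣ K := by
  intro hpK
  have hP : Prime (p : ℤ) := Nat.prime_iff_prime_int.mp hp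
  have he := ramification_eq_of_zeta hp hϖ hζ hζϖ hu
  have hkm : (p : ℤ) ∣ k * (m : ℤ) := by
    have := dvd_add hval hdelta
    rwa [sub_add_cancel] at this
  have hm : (p : ℤ) ∣ (m : ℤ) := (hP.dvd_or_dvd hkm).resolve_left hk
  have h2 : (p : ℤ) ^ 2 ∣ ((4 * e : ℕ) : ℤ) := by
    rw [← hK, pow_two]
    exact mul_dvd_mul hpK hm
  rw [he] at h2
  exact not_sq_dvd_four_mul_int hp hp2 hmw hmwp h2

/-- **the conclusion at a node, exponent `4 e`.** -/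
theorem dvd_ord_of_elim_four {p : ℕ} (hp : p.Prime) (hp2 : p ≠ 2) {ϖ ζ : R}
    (hϖ : Irreducible ϖ)
    (hζ : IsPrimitiveRoot ζ p) {mw : ℕ} {uw : Rˣ} (hmw : 0 < mw) (hmwp : mw ≤ p)
    (hζϖ : ζ - 1 = uw * ϖ ^ mw) {e : ℕ} {u : Rˣ} (hu : ((p : ℕ) : R) = u * ϖ ^ e)
    {k K a0 ainf ordF x : ℤ} {m : ℕ} (hK : K * (m : ℤ) = ((4 * e : ℕ) : ℤ))
    (hval : (p : ℤ) ∣ k * (m : ℤ) - (a0 - ainf)) (hdelta : (p : ℤ) ∣ a0 - ainf)
    (hordF : (p : ℤ) ∣ ordF - k * x) (helim : (p : ℤ) ∣ ordF ∨ (p : ℤ) ∣ K) :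
    (p : ℤ) ∣ ordF := by
  rcases helim with h | h
  · exact h
  · by_contra hn
    have hk : ¬ (p : ℤ) ∣ k := by
      intro hk
      apply hn
      have := dvd_add hordF (Dvd.dvd.mul_right hk x)
      rwa [sub_add_cancel] at this
    exact not_dvd_nodeUnit_exp_four hp hp2 hϖ hζ hmw hmwp hζϖ hu hK hval hdelta hk h

end Arith

section Elim

variable {k κ : Type*} [Field k] [Field κ] [Algebra k κ]

/-- **[ELIM], abstract form, with the Hecke relation of `U` in divisor form.** -/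
theorem elim_dvd_mul_mul_div (p : ℕ) (hp : p.Prime) (good : Place k κ → Prop) (T : κ →* κ)
    (hpdiv : ∀ z : κ, z ≠ 0 → (∀ Q, good Q → (p : ℤ) ∣ Q.ord z) →
      ∀ Q, good Q → (p : ℤ) ∣ Q.ord (T z))
    {F U : κ} (hF : F ≠ 0) (hU : U ≠ 0) (a b : ℤ) (hab : ¬ (p : ℤ) ∣ a - b)
    (hTF : ∃ (c : k) (u : κ), c ≠ 0 ∧ u ≠ 0 ∧ T F = algebraMap k κ c * F ^ a * u ^ p)
    (hTU : ∀ Q, good Q → (p : ℤ) ∣ Q.ord (T U) - b * Q.ord U)
    (x kk KK : Place k κ → ℤ)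
    (hordF : ∀ Q, good Q → (p : ℤ) ∣ Q.ord F - kk Q * x Q)
    (hordU : ∀ Q, good Q → (p : ℤ) ∣ Q.ord U - KK Q * x Q)
    (hprop : ∀ Q Q', good Q → good Q' → (p : ℤ) ∣ kk Q * KK Q' - kk Q' * KK Q)
    (Q₀ : Place k κ) (hQ₀ : good Q₀) : (p : ℤ) ∣ kk Q₀ * KK Q₀ * x Q₀ := by
  obtain ⟨c, u, hc, hu, hTF⟩ := hTF
  set k₀ := kk Q₀ with hk₀
  set K₀ := KK Q₀ with hK₀
  -- the auxiliary function
  set h : κ := F ^ K₀ * U ^ (-k₀) with hh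
  have hFK : F ^ K₀ ≠ 0 := zpow_ne_zero _ hF
  have hUk : U ^ (-k₀) ≠ 0 := zpow_ne_zero _ hU
  have hh0 : h ≠ 0 := mul_ne_zero hFK hUk
  have hordh : ∀ Q : Place k κ, Q.ord h = K₀ * Q.ord F - k₀ * Q.ord U := by
    intro Q
    rw [hh, Q.ord_mul hFK hUk, Q.ord_zpow, Q.ord_zpow]
    ring
  have h1 : ∀ Q : Place k κ, good Q → (p : ℤ) ∣ Q.ord h := by
    intro Q hQ
    obtain ⟨r, hr⟩ := hordF Q hQ
    obtain ⟨s, hs⟩ := hordU Q hQ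
    obtain ⟨t, ht⟩ := hprop Q Q₀ hQ hQ₀
    refine ⟨K₀ * r - k₀ * s + x Q * t, ?_⟩
    rw [hordh Q]
    have e1 : Q.ord F = kk Q * x Q + (p : ℤ) * r := by linarith
    have e2 : Q.ord U = KK Q * x Q + (p : ℤ) * s := by linarith
    rw [e1, e2]
    have e3 : kk Q * K₀ - k₀ * KK Q = (p : ℤ) * t := ht
    linear_combination x Q * e3
  have h2 := hpdiv h hh0 h1 Q₀ hQ₀
  -- the order of `T h` at `Q₀`
  have hTU0 : T U ≠ 0 := monoidHom_ne_zero T hU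
  have hTh : T h = (algebraMap k κ c * F ^ a * u ^ p) ^ K₀ * (T U) ^ (-k₀) := by
    rw [hh, map_mul, monoidHom_zpow T hF, monoidHom_zpow T hU, hTF]
  have hcne : algebraMap k κ c ≠ 0 := (map_ne_zero_iff _ (algebraMap k κ).injective).mpr hc
  have hFa : F ^ a ≠ 0 := zpow_ne_zero _ hF
  have hup : u ^ p ≠ 0 := pow_ne_zero _ hu
  have hA : algebraMap k κ c * F ^ a * u ^ p ≠ 0 := mul_ne_zero (mul_ne_zero hcne hFa) hup
  have hordTh : Q₀.ord (T h) =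
      K₀ * (a * Q₀.ord F + (p : ℤ) * Q₀.ord u) - k₀ * Q₀.ord (T U) := by
    rw [hTh, Q₀.ord_mul (zpow_ne_zero _ hA) (zpow_ne_zero _ hTU0), Q₀.ord_zpow, Q₀.ord_zpow,
      Q₀.ord_mul (mul_ne_zero hcne hFa) hup, Q₀.ord_mul hcne hFa,
      PlaceAux.ord_algebraMap, Q₀.ord_zpow, PlaceAux.ord_pow]
    ring
  obtain ⟨r, hr⟩ := hordF Q₀ hQ₀
  obtain ⟨s, hs⟩ := hordU Q₀ hQ₀
  obtain ⟨t, ht⟩ := h2
  obtain ⟨w, hw⟩ := hTU Q₀ hQ₀
  have e1 : Q₀.ord F = k₀ * x Q₀ + (p : ℤ) * r := by linarith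
  have e2 : Q₀.ord U = K₀ * x Q₀ + (p : ℤ) * s := by linarith
  have e4 : Q₀.ord (T U) = b * Q₀.ord U + (p : ℤ) * w := by linarith
  have hkey : (p : ℤ) ∣ (a - b) * (k₀ * K₀ * x Q₀) := by
    refine ⟨t - K₀ * a * r - K₀ * Q₀.ord u + k₀ * b * s + k₀ * w, ?_⟩
    have e3 : K₀ * (a * Q₀.ord F + (p : ℤ) * Q₀.ord u) - k₀ * Q₀.ord (T U) = (p : ℤ) * t := by
      rw [← hordTh, ht]
    rw [e4, e1, e2] at e3
    linear_combination e3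
  have hpp : Prime (p : ℤ) := Nat.prime_iff_prime_int.mp hp
  rcases hpp.dvd_or_dvd hkey with h3 | h3
  · exact absurd h3 hab
  · exact h3

/-- **[ELIM], consequence, divisor form**: at every good place, `p ∣ ord_Q F` or `p ∣ K_Q`. -/
theorem elim_dvd_ord_or_dvd_div (p : ℕ) (hp : p.Prime) (good : Place k κ → Prop) (T : κ →* κ)
    (hpdiv : ∀ z : κ, z ≠ 0 → (∀ Q, good Q → (p : ℤ) ∣ Q.ord z) →
      ∀ Q, good Q → (p : ℤ) ∣ Q.ord (T z))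
    {F U : κ} (hF : F ≠ 0) (hU : U ≠ 0) (a b : ℤ) (hab : ¬ (p : ℤ) ∣ a - b)
    (hTF : ∃ (c : k) (u : κ), c ≠ 0 ∧ u ≠ 0 ∧ T F = algebraMap k κ c * F ^ a * u ^ p)
    (hTU : ∀ Q, good Q → (p : ℤ) ∣ Q.ord (T U) - b * Q.ord U)
    (x kk KK : Place k κ → ℤ)
    (hordF : ∀ Q, good Q → (p : ℤ) ∣ Q.ord F - kk Q * x Q)
    (hordU : ∀ Q, good Q → (p : ℤ) ∣ Q.ord U - KK Q * x Q)
    (hprop : ∀ Q Q', good Q → good Q' → (p : ℤ) ∣ kk Q * KK Q' - kk Q' * KK Q)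
    (Q₀ : Place k κ) (hQ₀ : good Q₀) : (p : ℤ) ∣ Q₀.ord F ∨ (p : ℤ) ∣ KK Q₀ := by
  have h := elim_dvd_mul_mul_div p hp good T hpdiv hF hU a b hab hTF hTU x kk KK hordF hordU hprop
    Q₀ hQ₀
  have hpp : Prime (p : ℤ) := Nat.prime_iff_prime_int.mp hp
  have e : kk Q₀ * KK Q₀ * x Q₀ = KK Q₀ * (kk Q₀ * x Q₀) := by ring
  rw [e] at h
  rcases hpp.dvd_or_dvd h with h1 | h1
  · exact Or.inr h1
  · left
    have h2 := hordF Q₀ hQ₀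
    have e2 : Q₀.ord F = (Q₀.ord F - kk Q₀ * x Q₀) + kk Q₀ * x Q₀ := by ring
    rw [e2]
    exact dvd_add h2 h1

end Elim

end Fermat.Agent.ML
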