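import Mathlib
import Fermat.Agent.MP.PLHOST_helper9_LegProp
import Fermat.Agent.ML.ORD3_helper8_Arith

/-!
# ML (S59) — helper8 — [REMOVE-P] at `p = 3`, (R1) part 2: the proportionality of the node exponents

`legPeuNode_prop_four` : `MP.legPeuNode_prop` for node-unit exponents `K` with `K m = 4 e`
(helper6's `ssModelLeg_nodeUnit_four`), for EVERY odd prime `p` (the proof of `MP/PLHOST_helper9_LegProp`
verbatim, with `p ∤ 4 (p - 1)` and `p² ∤ 4 m_w (p - 1)`).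
-/

set_option autoImplicit false
set_option linter.unusedSectionVars false
set_option linter.unusedVariables false
set_option linter.style.haveILetI false

open HahnSeries IntermediateField AlgebraicCurve ModularCurve IsLocalRing

namespace Fermat.Agent.ML

open Fermat.Agent.JA Fermat.Agent.FF Fermat.Agent.SS Fermat.Agent.S35 Fermat.Agent.Igusa
  Fermat.Agent.NP Fermat.Agent.MW.NAdic Fermat.Agent.MP

open scoped Fermat.Agent.JA.Host

/-- `Ω = AlgebraicClosure ℚ`. -/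
local notation "Ω" => AlgebraicClosure ℚ

section Leg

variable {M p : ℕ} [NeZero M] [NeZero p] [NeZero (M * p)] {A : ValuationSubring Ω}
  {K' : IntermediateField ℚ Ω} [Algebra ↥K' ℂ]

set_option maxHeartbeats 3200000 in
/-- **the proportionality of the node exponents on the Legendre host, node unit of exponent `4 e`.** -/
theorem legPeuNode_prop_four (hp : p.Prime) (hp2 : p ≠ 2) (hpM : ¬ p ∣ M) (hA : A.LiesOverPrime p)
    (hK' : IsBase p K')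
    [IsDiscreteValuationRing ↥(baseRing A K')] [CharZero ↥(baseRing A K')]
    {ϖ : ↥(baseRing A K')} (hϖ : Irreducible ϖ) (h2 : IsUnit (2 : ↥(baseRing A K')))
    {x y : ℤ} (hbez : (p : ℤ) * x + M * y = 1)
    {ζ : ↥(baseRing A K')} (hζ : IsPrimitiveRoot ζ p)
    (s : ↥K' ≃ₐ[ℚ] ↥K')
    (hs : ∀ r : ↥(baseRing A K'), ∃ r' : ↥(baseRing A K'),
      s (r : ↥K') = (r' : ↥K') ∧ r' - r ∈ maximalIdeal ↥(baseRing A K'))
    (hsp : s ^ p = 1)
    (hpeu : s = 1 ∨ ∃ r d : ↥(baseRing A K'), s (r : ↥K') ≠ (r : ↥K') ∧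
      ((ζ : ↥(baseRing A K')) : ↥K') - 1 = (s (r : ↥K') - (r : ↥K')) * (d : ↥K'))
    (hwild : ∃ (mw : ℕ) (u : (↥(baseRing A K'))ˣ), 0 < mw ∧ mw ≤ p ∧ (s = 1 → mw = 1) ∧
      ζ - 1 = u * ϖ ^ mw)
    {f : ↥(legE ↥K' (M * p))} (hf : f ≠ 0)
    (hord : ∀ P : Place ↥K' ↥(legE ↥K' (M * p)), (p : ℤ) ∣ P.ord f)
    (hdinf : ∀ N, ∃ c : ↥K', c ≠ 0 ∧
      ValDepth ϖ p (legWinf ↥(baseRing A K') ↥K' h2 (M * p)) N
        (legGalois ↥K' (M * p) s • f / f) c)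
    (hd0 : ∀ N, ∃ c : ↥K', c ≠ 0 ∧
      ValDepth ϖ p (legW0 ↥(baseRing A K') ↥K' hbez hp) N
        (legGalois ↥K' (M * p) s • f / f) c)
    (hcinf : ∀ b ∈ chartOne ↥(baseRing A K') ↥(legE ↥K' (M * p))
        (AdjoinSimple.gen ↥K' (jqNModC ↥K' 2)), b ∈ legWinf ↥(baseRing A K') ↥K' h2 (M * p))
    (hc0 : ∀ b ∈ chartOne ↥(baseRing A K') ↥(legE ↥K' (M * p))
        (AdjoinSimple.gen ↥K' (jqNModC ↥K' 2)), b ∈ legW0 ↥(baseRing A K') ↥K' hbez hp)
    (hfr : IsFractionRing ↥(chartOne ↥(baseRing A K') ↥(legE ↥K' (M * p))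
        (AdjoinSimple.gen ↥K' (jqNModC ↥K' 2))) ↥(legE ↥K' (M * p)))
    (X : ChartNode (AdjoinSimple.gen ↥K' (jqNModC ↥K' 2))
      (legWinf ↥(baseRing A K') ↥K' h2 (M * p)) (legW0 ↥(baseRing A K') ↥K' hbez hp) hcinf hc0 →
      ↥(legE ↥K' (M * p)))
    (m : ChartNode (AdjoinSimple.gen ↥K' (jqNModC ↥K' 2))
      (legWinf ↥(baseRing A K') ↥K' h2 (M * p)) (legW0 ↥(baseRing A K') ↥K' hbez hp) hcinf hc0 → ℕ)
    (k : ChartNode (AdjoinSimple.gen ↥K' (jqNModC ↥K' 2))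
      (legWinf ↥(baseRing A K') ↥K' h2 (M * p)) (legW0 ↥(baseRing A K') ↥K' hbez hp) hcinf hc0 → ℤ)
    (hX : ∀ nd, IsNodeCoord ϖ hfr
      (sheetIdeal (AdjoinSimple.gen ↥K' (jqNModC ↥K' 2))
        (legWinf ↥(baseRing A K') ↥K' h2 (M * p)) hcinf)
      (sheetIdeal (AdjoinSimple.gen ↥K' (jqNModC ↥K' 2))
        (legW0 ↥(baseRing A K') ↥K' hbez hp) hc0) nd.1 (X nd) (m nd))
    (hk : ∀ nd, IsNodeFact ↥K' (locSub (chartOne ↥(baseRing A K') ↥(legE ↥K' (M * p))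
      (AdjoinSimple.gen ↥K' (jqNModC ↥K' 2))) nd.1) p (X nd) f (k nd))
    {e : ℕ} {u : (↥(baseRing A K'))ˣ} (hu : ((p : ℕ) : ↥(baseRing A K')) = u * ϖ ^ e)
    (K : ChartNode (AdjoinSimple.gen ↥K' (jqNModC ↥K' 2))
      (legWinf ↥(baseRing A K') ↥K' h2 (M * p)) (legW0 ↥(baseRing A K') ↥K' hbez hp) hcinf hc0 → ℤ)
    (hK : ∀ nd, K nd * (m nd : ℤ) = ((4 * e : ℕ) : ℤ)) :
    ∀ nd nd', (p : ℤ) ∣ k nd * K nd' - k nd' * K nd := by
  classical
  haveI : Fact p.Prime := ⟨hp⟩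
  obtain ⟨mw, uw, hmw, hmwp, hs1, hζϖ⟩ := hwild
  -- `e = m_w (p - 1)`
  have he : e = mw * (p - 1) := by
    obtain ⟨v, hv⟩ := Fermat.Agent.S36.associated_sub_one_pow_natCast_of_prime hp hζ
    have h1 : ((uw ^ (p - 1) * v : (↥(baseRing A K'))ˣ) : ↥(baseRing A K')) * ϖ ^ (mw * (p - 1)) =
        (u : ↥(baseRing A K')) * ϖ ^ e := by
      rw [← hu, ← hv, hζϖ, mul_pow, ← pow_mul, Units.val_mul, Units.val_pow_eq_pow_val]
      ring
    exact (IsDiscreteValuationRing.unit_mul_pow_congr_pow hϖ hϖ _ _ _ _ h1).symm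
  intro nd nd'
  rcases hpeu with hs1' | hpeu'
  · -- the tame case
    have hmw1 := hs1 hs1'
    have hc : ¬ (p : ℤ) ^ (0 + 1) ∣ ((4 * e : ℕ) : ℤ) := by
      rw [zero_add, pow_one, Int.natCast_dvd_natCast, he, hmw1, one_mul]
      exact not_dvd_four_mul_pred hp hp2
    -- the orders along the sheets
    have hpϖ := natCast_mem_span_uniformizer_baseRing hA K' hϖ
    haveI : IsAlgClosed (ResidueField ↥(baseRing A K')) := hK'.isAlgClosed_residueField hA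
    have hmodel : SSModelLeg ↥(baseRing A K') ↥K' ϖ h2 hbez hp hp2 :=
      ssModelLeg ↥(baseRing A K') ↥K' hϖ h2 hbez hp hp2 hpϖ
        (geoHyps_legE_baseRing hA M hpM hK' hp2 hϖ)
    haveI : FiniteDimensional ↥(↥K')⟮jqNModC ↥K' 2⟯ ↥(legE ↥K' (M * p)) :=
      finite_legE_adjoin_j ↥K' (M * p)
    have h' := SSModelLeg.ssModel ↥(baseRing A K') ↥K' hmodel
    have he0 : 0 < e := by
      rw [he, hmw1, one_mul]
      exact Nat.sub_pos_of_lt hp.one_lt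
    obtain ⟨ainf, hainf⟩ := SSModel.exists_zpow_val_eq_one_inf h' he0 hu hf
    obtain ⟨a0, ha0⟩ := SSModel.exists_zpow_val_eq_one_zero h' he0 hu hf
    have d1 := legPeuNode_dvd hp hp2 hpM hA hK' hϖ h2 hbez hainf ha0 hcinf hc0 hfr nd (hX nd)
      (hk nd)
    have d2 := legPeuNode_dvd hp hp2 hpM hA hK' hϖ h2 hbez hainf ha0 hcinf hc0 hfr nd' (hX nd')
      (hk nd')
    have h12 : (p : ℤ) ^ (0 + 1) ∣ k nd * (m nd : ℤ) - k nd' * (m nd' : ℤ) := by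
      rw [zero_add, pow_one]
      have := dvd_sub d1 d2
      have e12 : k nd * (m nd : ℤ) - (a0 - ainf) - (k nd' * (m nd' : ℤ) - (a0 - ainf)) =
          k nd * (m nd : ℤ) - k nd' * (m nd' : ℤ) := by ring
      rwa [e12] at this
    exact int_dvd_cross_of_pow_dvd hp hc (hK nd) (hK nd') h12
  · -- the wild case
    have hc : ¬ (p : ℤ) ^ (1 + 1) ∣ ((4 * e : ℕ) : ℤ) := by
      have : ((p : ℤ) ^ (1 + 1)) = ((p ^ 2 : ℕ) : ℤ) := by push_cast; ring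
      rw [this, Int.natCast_dvd_natCast, he]
      exact not_sq_dvd_four_mul hp hp2 hmw hmwp
    have h12 := legPeuNode_sq_dvd hp hp2 hpM hA hK' hϖ h2 hbez hζ s hs hsp hpeu' hf hord hdinf hd0
      hcinf hc0 hfr X m k hX hk nd nd'
    exact int_dvd_cross_of_pow_dvd hp hc (hK nd) (hK nd') h12

end Leg

end Fermat.Agent.ML
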