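import Mathlib
import Fermat.Agent.MP.PLHOST_helper9_Pack
import Fermat.Agent.ML.REG3_helper6_Leg
import Fermat.Agent.ML.ORD3_helper8_Prop

/-!
# ML (S59) — helper8 — [REMOVE-P] at `p = 3`, (R1) part 3: the node package with the unit of
exponent `4 e`

`legUnitFour K M p = φ(E₄(τ)/E₄(pτ)) · B(t² - t + 1)/A(t² - t + 1)` (`= θ₃(τ)⁸/θ₃(pτ)⁸`) is helper6's
second node unit (`ML/REG3_helper6_Leg.ssModelLeg_nodeUnit_four`). `legPeuNode_package_four` is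
`MP.legPeuNode_package` with `U = Δ(τ)/Δ(pτ)` replaced by it: `K m = 4 e`, valid for EVERY odd `p`.
-/

set_option autoImplicit false
set_option linter.unusedSectionVars false
set_option linter.unusedVariables false
set_option linter.style.haveILetI false
set_option synthInstance.maxHeartbeats 400000

open HahnSeries IntermediateField AlgebraicCurve ModularCurve IsLocalRing

namespace Fermat.Agent.ML

open Fermat.Agent.JA Fermat.Agent.FF Fermat.Agent.SS Fermat.Agent.S35 Fermat.Agent.Igusa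
  Fermat.Agent.NP Fermat.Agent.MW.NAdic Fermat.Agent.MW Fermat.Agent.MP

open scoped Fermat.Agent.JA.Host

/-- `Ω = AlgebraicClosure ℚ`. -/
local notation "Ω" => AlgebraicClosure ℚ

section Unit

variable (K : Type*) [Field K] [Algebra ℚ K] (M p : ℕ) [NeZero M] [NeZero p] [NeZero (M * p)]

/-- **the second node unit of the Legendre host**, `θ₃(τ)⁸/θ₃(pτ)⁸`
`= φ(E₄(τ)/E₄(pτ)) · B(t² - t + 1)/A(t² - t + 1)`. -/
noncomputable def legUnitFour (hp : p.Prime) (hp2 : p ≠ 2) : ↥(legE K (M * p)) :=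
  fullToLegE K (M * p) (e4Ratio 1 p K (M * p) (one_dvd _) (Dvd.intro_left M rfl)) *
    (legHostB K M p hp hp2 : ↥(legE K M) →+* ↥(legE K (M * p)))
      (algebraMap ↥K⟮legT K⟯ ↥(legE K M) (AdjoinSimple.gen K (legT K)) ^ 2 -
        algebraMap ↥K⟮legT K⟯ ↥(legE K M) (AdjoinSimple.gen K (legT K)) + 1) *
    ((legHostA K M p : ↥(legE K M) →+* ↥(legE K (M * p)))
      (algebraMap ↥K⟮legT K⟯ ↥(legE K M) (AdjoinSimple.gen K (legT K)) ^ 2 -
        algebraMap ↥K⟮legT K⟯ ↥(legE K M) (AdjoinSimple.gen K (legT K)) + 1))⁻¹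

end Unit

section Pack

variable {M p : ℕ} [NeZero M] [NeZero p] [NeZero (M * p)] {A : ValuationSubring Ω}
  {K₁ : IntermediateField ℚ Ω} [Normal ℚ ↥K₁] {K' : IntermediateField ℚ Ω} [Algebra ↥K' ℂ]

set_option maxHeartbeats 6400000 in
/-- **the node package of (KEY-PEU), with the node unit of exponent `4 e`**, for every odd `p`. -/
theorem legPeuNode_package_four (HB : LegNormBCompat) [Fact p.Prime] (hp : p.Prime) (hp2 : p ≠ 2)
    (hpM : ¬ p ∣ M) (hA : A.LiesOverPrime p)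
    [IsDiscreteValuationRing ↥(baseRing A K')] [CharZero ↥(baseRing A K')]
    {ζ : ↥(baseRing A K')} {s : ↥K' ≃ₐ[ℚ] ↥K'} {S : Set ℕ} {a : ℕ → ℤ}
    {f₀ : ↥(keyFq ↥K' (M * p))} (hyp : LegPeuHyp p M A K₁ K' ζ s S a f₀)
    {ϖ : ↥(baseRing A K')} (hϖ : Irreducible ϖ) (h2 : IsUnit (2 : ↥(baseRing A K')))
    {x y : ℤ} (hbez : (p : ℤ) * x + M * y = 1)
    {e : ℕ} {u : (↥(baseRing A K'))ˣ} (hu : ((p : ℕ) : ↥(baseRing A K')) = u * ϖ ^ e)
    {ainf a0 : ℤ}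
    (hfinf : (legWinf ↥(baseRing A K') ↥K' h2 (M * p)).valuation
      (fullToLegE ↥K' (M * p) f₀ *
        (algebraMap ↥(baseRing A K') ↥(legE ↥K' (M * p)) ϖ ^ ainf)⁻¹) = 1)
    (hf0 : (legW0 ↥(baseRing A K') ↥K' hbez hp).valuation
      (fullToLegE ↥K' (M * p) f₀ *
        (algebraMap ↥(baseRing A K') ↥(legE ↥K' (M * p)) ϖ ^ a0)⁻¹) = 1)
    (hcinf : ∀ b ∈ chartOne ↥(baseRing A K') ↥(legE ↥K' (M * p))
        (AdjoinSimple.gen ↥K' (jqNModC ↥K' 2)), b ∈ legWinf ↥(baseRing A K') ↥K' h2 (M * p))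
    (hc0 : ∀ b ∈ chartOne ↥(baseRing A K') ↥(legE ↥K' (M * p))
        (AdjoinSimple.gen ↥K' (jqNModC ↥K' 2)), b ∈ legW0 ↥(baseRing A K') ↥K' hbez hp)
    (hfr : IsFractionRing ↥(chartOne ↥(baseRing A K') ↥(legE ↥K' (M * p))
        (AdjoinSimple.gen ↥K' (jqNModC ↥K' 2))) ↥(legE ↥K' (M * p))) :
    ∃ (X : ChartNode (AdjoinSimple.gen ↥K' (jqNModC ↥K' 2))
        (legWinf ↥(baseRing A K') ↥K' h2 (M * p)) (legW0 ↥(baseRing A K') ↥K' hbez hp) hcinf hc0 →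
        ↥(legE ↥K' (M * p)))
      (m : ChartNode (AdjoinSimple.gen ↥K' (jqNModC ↥K' 2))
        (legWinf ↥(baseRing A K') ↥K' h2 (M * p)) (legW0 ↥(baseRing A K') ↥K' hbez hp) hcinf hc0 →
        ℕ)
      (k K : ChartNode (AdjoinSimple.gen ↥K' (jqNModC ↥K' 2))
        (legWinf ↥(baseRing A K') ↥K' h2 (M * p)) (legW0 ↥(baseRing A K') ↥K' hbez hp) hcinf hc0 →
        ℤ),
      (∀ nd, IsNodeCoord ϖ hfr
        (sheetIdeal (AdjoinSimple.gen ↥K' (jqNModC ↥K' 2))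
          (legWinf ↥(baseRing A K') ↥K' h2 (M * p)) hcinf)
        (sheetIdeal (AdjoinSimple.gen ↥K' (jqNModC ↥K' 2))
          (legW0 ↥(baseRing A K') ↥K' hbez hp) hc0) nd.1 (X nd) (m nd)) ∧
      (∀ nd, IsNodeFact ↥K' (locSub (chartOne ↥(baseRing A K') ↥(legE ↥K' (M * p))
        (AdjoinSimple.gen ↥K' (jqNModC ↥K' 2))) nd.1) p (X nd) (fullToLegE ↥K' (M * p) f₀) (k nd)) ∧
      (∀ nd, IsUnitIn (legWinf ↥(baseRing A K') ↥K' h2 (M * p)).toSubring (X nd)) ∧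
      (∀ nd, ∃ w : ↥(legE ↥K' (M * p)),
        IsUnitIn (locSub (chartOne ↥(baseRing A K') ↥(legE ↥K' (M * p))
          (AdjoinSimple.gen ↥K' (jqNModC ↥K' 2))) nd.1) w ∧
        legUnitFour ↥K' M p hp hp2 =
          w * X nd ^ K nd) ∧
      (∀ nd, K nd * (m nd : ℤ) = ((4 * e : ℕ) : ℤ) ∧ 1 ≤ K nd) ∧
      (∀ nd nd', (p : ℤ) ∣ k nd * K nd' - k nd' * K nd) ∧
      (∀ nd, (p : ℤ) ∣ k nd * (m nd : ℤ) - (a0 - ainf)) := by
  classical
  have hK' : IsBase p K' := hyp.base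
  haveI : IsAlgClosed (ResidueField ↥(baseRing A K')) := hK'.isAlgClosed_residueField hA
  have hpϖ := natCast_mem_span_uniformizer_baseRing hA K' hϖ
  have hmodel : SSModelLeg ↥(baseRing A K') ↥K' ϖ h2 hbez hp hp2 :=
    ssModelLeg ↥(baseRing A K') ↥K' hϖ h2 hbez hp hp2 hpϖ
      (geoHyps_legE_baseRing hA M hpM hK' hp2 hϖ)
  haveI : FiniteDimensional ↥(↥K')⟮jqNModC ↥K' 2⟯ ↥(legE ↥K' (M * p)) :=
    finite_legE_adjoin_j ↥K' (M * p)
  have h' := SSModelLeg.ssModel ↥(baseRing A K') ↥K' hmodel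
  have D := legSSNormData ↥(baseRing A K') ↥K' hϖ hmodel
  have he : 0 < e := by
    rcases Nat.eq_zero_or_pos e with h0 | h0
    · exfalso
      rw [h0, pow_zero, mul_one] at hu
      have hu' : IsUnit ((p : ℕ) : ↥(baseRing A K')) := hu ▸ Units.isUnit _
      obtain ⟨z, hz⟩ := Ideal.mem_span_singleton.mp hpϖ
      rw [hz] at hu'
      exact hϖ.not_isUnit (isUnit_of_mul_isUnit_left hu')
    · exact h0
  set f : ↥(legE ↥K' (M * p)) := fullToLegE ↥K' (M * p) f₀ with hfdef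
  have hf : f ≠ 0 := (_root_.map_ne_zero (fullToLegE ↥K' (M * p))).mpr hyp.ne_zero
  have hEN := coeffStable_legE ↥K' (M * p)
  have hEM := coeffStable_legE ↥K' M
  have hMle := legE_le_gaussField ↥(baseRing A K') ↥K' h2 M
  have hNle := legE_le_gaussField ↥(baseRing A K') ↥K' h2 (M * p)
  have hBq : ∀ g : ↥(legE ↥K' M), ((legHostB ↥K' M p hp hp2 g : ↥(legE ↥K' (M * p))) :
      LaurentSeries ↥K') = qExpand ↥K' p (g : LaurentSeries ↥K') :=
    fun g => coe_legHostB ↥K' M p hp hp2 g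
  have hjfix : ∀ τ : ↥K' ≃ₐ[ℚ] ↥K', coeffRingAut hEN τ
      (algebraMap ↥(↥K')⟮jqNModC ↥K' 2⟯ ↥(legE ↥K' (M * p))
        (AdjoinSimple.gen ↥K' (jqNModC ↥K' 2))) =
      algebraMap ↥(↥K')⟮jqNModC ↥K' 2⟯ ↥(legE ↥K' (M * p))
        (AdjoinSimple.gen ↥K' (jqNModC ↥K' 2)) :=
    fun τ => Subtype.ext (coeffMap_jqNModC (τ : ↥K' →+* ↥K') 2)
  have hRN : ∀ r : ↥(baseRing A K'), algebraMap ↥(baseRing A K') ↥(legE ↥K' (M * p)) r =
      algebraMap ↥K' ↥(legE ↥K' (M * p)) (algebraMap ↥(baseRing A K') ↥K' r) :=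
    fun r => IsScalarTower.algebraMap_apply ↥(baseRing A K') ↥K' ↥(legE ↥K' (M * p)) r
  -- the automorphism of `R'`
  have hs := hyp.s_inertia
  have hsp := hyp.s_pow
  have hsmem : ∀ r : ↥(baseRing A K'), s (r : ↥K') ∈ baseRing A K' := by
    intro r
    obtain ⟨r', e', _⟩ := hs r
    rw [e']
    exact r'.2
  let τR : ↥(baseRing A K') →+* ↥(baseRing A K') :=
    ((s : ↥K' →+* ↥K').comp (baseRing A K').subtype).codRestrict (baseRing A K') hsmem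
  have hτ : ∀ r : ↥(baseRing A K'), (s : ↥K' →+* ↥K') (algebraMap ↥(baseRing A K') ↥K' r) =
      algebraMap ↥(baseRing A K') ↥K' (τR r) := fun r => rfl
  have hres : ∀ r : ↥(baseRing A K'), τR r - r ∈ maximalIdeal ↥(baseRing A K') := by
    intro r
    obtain ⟨r', e', hm⟩ := hs r
    have : τR r = r' := Subtype.ext e'
    rw [this]
    exact hm
  have hiter : ∀ (k : ℕ) (r : ↥(baseRing A K')),
      (((⇑τR)^[k] r : ↥(baseRing A K')) : ↥K') = (s ^ k) (r : ↥K') := by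
    intro k
    induction k with
    | zero => intro r; rfl
    | succ k ih =>
      intro r
      rw [Function.iterate_succ_apply', pow_succ', AlgEquiv.mul_apply, ← ih]
      rfl
  have hσp : ∀ r, (⇑τR)^[p] r = r := fun r => Subtype.ext (by rw [hiter, hsp]; rfl)
  obtain ⟨c₀, hc₀⟩ := exists_unit_map_uniformizer hϖ τR hres hp.pos hσp
  -- the automorphisms of the hosts
  set σN : ↥(legE ↥K' (M * p)) ≃+* ↥(legE ↥K' (M * p)) := coeffRingAut hEN s with hσNdef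
  set σM : ↥(legE ↥K' M) ≃+* ↥(legE ↥K' M) := coeffRingAut hEM s with hσMdef
  have hσKN : ∀ c : ↥K', ∃ c' : ↥K', σN (algebraMap ↥K' ↥(legE ↥K' (M * p)) c) =
      algebraMap ↥K' ↥(legE ↥K' (M * p)) c' :=
    fun c => ⟨s c, coeffRingAut_algebraMap hEN s c⟩
  have hσKM : ∀ c : ↥K', ∃ c' : ↥K', σM (algebraMap ↥K' ↥(legE ↥K' M) c) =
      algebraMap ↥K' ↥(legE ↥K' M) c' :=
    fun c => ⟨s c, coeffRingAut_algebraMap hEM s c⟩
  have hσRr : ∀ r : ↥(baseRing A K'), σN (algebraMap ↥(baseRing A K') ↥(legE ↥K' (M * p)) r) =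
      algebraMap ↥(baseRing A K') ↥(legE ↥K' (M * p)) (τR r) := by
    intro r
    rw [hRN, hRN]
    exact (coeffRingAut_algebraMap hEN s _).trans (congrArg _ (hτ r))
  have hσπ : ∃ c₀ : (↥(baseRing A K'))ˣ,
      σN (algebraMap ↥(baseRing A K') ↥(legE ↥K' (M * p)) ϖ) =
        algebraMap ↥(baseRing A K') ↥(legE ↥K' (M * p)) ((c₀ : ↥(baseRing A K')) * ϖ) :=
    ⟨c₀, by rw [hσRr, hc₀]⟩
  have hσA : ∀ z : ↥(legE ↥K' M),
      σN ((legHostA ↥K' M p : ↥(legE ↥K' M) →+* ↥(legE ↥K' (M * p))) z) =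
        (legHostA ↥K' M p : ↥(legE ↥K' M) →+* ↥(legE ↥K' (M * p))) (σM z) := by
    intro z
    apply Subtype.ext
    show coeffMap _ ((legHostA ↥K' M p z : ↥(legE ↥K' (M * p))) : LaurentSeries ↥K') =
      ((legHostA ↥K' M p (σM z) : ↥(legE ↥K' (M * p))) : LaurentSeries ↥K')
    rw [coe_legHostA, coe_legHostA]
    rfl
  have hσB : ∀ z : ↥(legE ↥K' M),
      σN ((legHostB ↥K' M p hp hp2 : ↥(legE ↥K' M) →+* ↥(legE ↥K' (M * p))) z) =
        (legHostB ↥K' M p hp hp2 : ↥(legE ↥K' M) →+* ↥(legE ↥K' (M * p))) (σM z) := by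
    intro z
    apply Subtype.ext
    show coeffMap _ ((legHostB ↥K' M p hp hp2 z : ↥(legE ↥K' (M * p))) : LaurentSeries ↥K') =
      ((legHostB ↥K' M p hp hp2 (σM z) : ↥(legE ↥K' (M * p))) : LaurentSeries ↥K')
    rw [hBq, hBq]
    show _ = qExpand ↥K' p (coeffMap _ _)
    rw [coeffMap_qExpand]
  have hinf_mem : ∀ z ∈ legWinf ↥(baseRing A K') ↥K' h2 (M * p),
      σN z ∈ legWinf ↥(baseRing A K') ↥K' h2 (M * p) :=
    fun z hz => map_mem_gaussValSub (hM := hNle) (s : ↥K' →+* ↥K') τR hτ hres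
      (σN : ↥(legE ↥K' (M * p)) →+* ↥(legE ↥K' (M * p))) (fun _ => rfl) hz
  have hσi : ∀ z ∈ legWinf ↥(baseRing A K') ↥K' h2 (M * p),
      (legWinf ↥(baseRing A K') ↥K' h2 (M * p)).valuation (σN z - z) < 1 :=
    fun z hz => valuation_map_sub_lt_one (hM := hNle) (s : ↥K' →+* ↥K') τR hτ hres
      (σN : ↥(legE ↥K' (M * p)) →+* ↥(legE ↥K' (M * p))) (fun _ => rfl) hz
  have hσMres : ∀ z ∈ legWinf ↥(baseRing A K') ↥K' h2 M,
      (legWinf ↥(baseRing A K') ↥K' h2 M).valuation (σM z - z) < 1 :=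
    fun z hz => valuation_map_sub_lt_one (hM := hMle) (s : ↥K' →+* ↥K') τR hτ hres
      (σM : ↥(legE ↥K' M) →+* ↥(legE ↥K' M)) (fun _ => rfl) hz
  have hinf_iff := mem_iff_map_mem_of_res (legWinf ↥(baseRing A K') ↥K' h2 (M * p))
    (σN : ↥(legE ↥K' (M * p)) →+* ↥(legE ↥K' (M * p))) hinf_mem hσi
  have hres_span : ∀ r : ↥(baseRing A K'), τR r - r ∈ Ideal.span {ϖ} := by
    intro r
    rw [← hϖ.maximalIdeal_eq]
    exact hres r
  have haut := h'.modelAut σN τR (σM : ↥(legE ↥K' M) →+* ↥(legE ↥K' M)) (hjfix s) hσRr hres_span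
    hinf_iff hσi hσB hσMres
  have hσz : ∀ z ∈ legW0 ↥(baseRing A K') ↥K' hbez hp,
      (legW0 ↥(baseRing A K') ↥K' hbez hp).valuation (σN z - z) < 1 :=
    fun z hz => haut.res_zero z hz
  -- the norms
  have hNA' : ∃ (u' : ↥K') (g : ↥(legE ↥K' M)), u' ≠ 0 ∧ g ≠ 0 ∧
      legHostNormA ↥K' M p f = algebraMap ↥K' ↥(legE ↥K' M) u' * g ^ p := by
    obtain ⟨cA, hAf, hcA, hhA, ehA⟩ := hyp.normA
    refine ⟨cA, fullToLegE ↥K' M hAf, hcA,
      (_root_.map_ne_zero (fullToLegE ↥K' M)).mpr hhA, ?_⟩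
    have hcompat : legHostNormA ↥K' M p f =
        fullToLegE ↥K' M (algebraMap ↥K' ↥(keyFq ↥K' M) cA * hAf ^ p) := by
      rw [← ehA]
      exact legHostNorm_fullToLegE ↥K' M p hp hpM D.degA f₀
    rw [hcompat, map_mul, map_pow, AlgHom.commutes]
  have hNB' : ∃ (u' : ↥K') (g : ↥(legE ↥K' M)), u' ≠ 0 ∧ g ≠ 0 ∧
      legHostNormB ↥K' M p hp hp2 f = algebraMap ↥K' ↥(legE ↥K' M) u' * g ^ p := by
    obtain ⟨cB, hBf, hcB, hhB, ehB⟩ := hyp.normB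
    refine ⟨cB, fullToLegE ↥K' M hBf, hcB,
      (_root_.map_ne_zero (fullToLegE ↥K' M)).mpr hhB, ?_⟩
    have hcompat : legHostNormB ↥K' M p hp hp2 f =
        fullToLegE ↥K' M (algebraMap ↥K' ↥(keyFq ↥K' M) cB * hBf ^ p) := by
      rw [← ehB]
      exact HB M p hp hp2 hpM K' f₀
    rw [hcompat, map_mul, map_pow, AlgHom.commutes]
  have hall := fun N => SSModel.valDepth_all_aut_div h' he hu D σN σM hσA hσB hσKM hσKN hσπ hσi hσz
    hf hNA' hNB' N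
  have hdinf : ∀ N, ∃ c : ↥K', c ≠ 0 ∧
      ValDepth ϖ p (legWinf ↥(baseRing A K') ↥K' h2 (M * p)) N
        (legGalois ↥K' (M * p) s • f / f) c := fun N => (hall N).1
  have hd0 : ∀ N, ∃ c : ↥K', c ≠ 0 ∧
      ValDepth ϖ p (legW0 ↥(baseRing A K') ↥K' hbez hp) N
        (legGalois ↥K' (M * p) s • f / f) c := fun N => (hall N).2
  -- the node unit and the node coordinates
  have hUnode : NodeUnit ↥K' ϖ
      ((legHostA ↥K' M p : ↥(legE ↥K' M) →+* ↥(legE ↥K' (M * p))) (legJE ↥K' M))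
      (legUnitFour ↥K' M p hp hp2) (4 * e) (legWinf ↥(baseRing A K') ↥K' h2 (M * p))
      (legW0 ↥(baseRing A K') ↥K' hbez hp) :=
    ssModelLeg_nodeUnit_four ↥(baseRing A K') ↥K' hϖ h2 hbez hp hp2 he hu hmodel
  have hXex : ∀ nd : ChartNode (AdjoinSimple.gen ↥K' (jqNModC ↥K' 2))
      (legWinf ↥(baseRing A K') ↥K' h2 (M * p)) (legW0 ↥(baseRing A K') ↥K' hbez hp) hcinf hc0,
      ∃ (X : ↥(legE ↥K' (M * p))) (m : ℕ), IsNodeCoord ϖ hfr
        (sheetIdeal (AdjoinSimple.gen ↥K' (jqNModC ↥K' 2))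
          (legWinf ↥(baseRing A K') ↥K' h2 (M * p)) hcinf)
        (sheetIdeal (AdjoinSimple.gen ↥K' (jqNModC ↥K' 2))
          (legW0 ↥(baseRing A K') ↥K' hbez hp) hc0) nd.1 X m := by
    intro nd
    obtain ⟨X, m, hX, -⟩ := SSModel.exists_isNodeCoord_gen h' hϖ hUnode nd.1 nd.inf_le nd.zero_le
    exact ⟨X, m, hX⟩
  choose X m hX using hXex
  have hKex : ∀ nd, ∃ (K : ℤ) (w : ↥(legE ↥K' (M * p))),
      IsUnitIn (locSub (chartOne ↥(baseRing A K') ↥(legE ↥K' (M * p))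
        (AdjoinSimple.gen ↥K' (jqNModC ↥K' 2))) nd.1) w ∧
      legUnitFour ↥K' M p hp hp2 = w * X nd ^ K ∧
      K * (m nd : ℤ) = ((4 * e : ℕ) : ℤ) ∧ 1 ≤ K := fun nd =>
    SSModel.nodeUnit_eq_unit_mul_zpow h' hϖ hUnode nd.1 nd.inf_le nd.zero_le (hX nd)
  choose K w hw hUw hKm hK1 using hKex
  have hginf : f * (algebraMap ↥(baseRing A K') ↥(legE ↥K' (M * p)) ϖ ^ ainf)⁻¹ ∈
      legWinf ↥(baseRing A K') ↥K' h2 (M * p) :=
    ((isUnitIn_toSubring_iff _).mpr hfinf).1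
  have hginf' : (f * (algebraMap ↥(baseRing A K') ↥(legE ↥K' (M * p)) ϖ ^ ainf)⁻¹)⁻¹ ∈
      legWinf ↥(baseRing A K') ↥K' h2 (M * p) :=
    ((isUnitIn_toSubring_iff _).mpr hfinf).2.1
  have hkex : ∀ nd, ∃ k : ℤ, IsNodeFact ↥K' (locSub (chartOne ↥(baseRing A K')
      ↥(legE ↥K' (M * p)) (AdjoinSimple.gen ↥K' (jqNModC ↥K' 2))) nd.1) p (X nd) f k := fun nd =>
    legE_isNodeFact_of_rat (M * p) A h' hϖ hyp.le hyp.h1 nd.1 nd.inf_le nd.zero_le (hX nd) f₀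
      hyp.ne_zero hyp.ord hyp.rat ainf hginf hginf'
  choose k hk using hkex
  refine ⟨X, m, k, K, hX, hk, ?_, fun nd => ⟨w nd, hw nd, hUw nd⟩,
    fun nd => ⟨hKm nd, hK1 nd⟩, ?_, ?_⟩
  · intro nd
    obtain ⟨L, Y, -, -, -, -, -, -, hXu, -⟩ :=
      SSModel.exists_localPt_node hp he hu h' hϖ nd.1 nd.inf_le nd.zero_le (hX nd)
    exact hXu
  · exact legPeuNode_prop_four hp hp2 hpM hA hK' hϖ h2 hbez hyp.zeta s hs hsp hyp.peu
      (hyp.wild ϖ hϖ) hf hyp.ord hdinf hd0 hcinf hc0 hfr X m k hX hk hu K hKm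
  · intro nd
    exact legPeuNode_dvd hp hp2 hpM hA hK' hϖ h2 hbez hfinf hf0 hcinf hc0 hfr nd (hX nd) (hk nd)

end Pack

end Fermat.Agent.ML
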