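import Mathlib
import Fermat.Agent.MP.DICT_helper1_Rel
import Fermat.Agent.ML.REG3_helper6_Node
import Fermat.Agent.ML.ORD3_helper8_Arith

/-!
# ML (S59) — helper8 — [REMOVE-P] at `p = 3`, (R1) part 4: the reduced side

* `rho_mem_of_isIntegral`, `SSModel.ord_rho_eq_zero_of_isIntegral` : the reduction of a unit of the
  chart of the good level has order `0` at every non-cuspidal place of the reduced curve;
* `SSModel.charP_of_rho` : the reduced function field has characteristic `q`;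
* `SSModel.hecke_div_of_legendre` : **the Hecke relation of the second node unit
  `W = V · B(t² - t + 1)/A(t² - t + 1)` in divisor form**: from `W³ = U · (B n/A n)²`,
  `n = t (t - 1)`, the Kronecker congruence `B t ≡ (A t)^q` along `W_∞`, the multiplicativity of the
  reduced Hecke operator `T` and [PDIV] with divisor `0`:
  `T Ū = c Ū ^ b` ⇒ `ord_Q (T W̄) = b · ord_Q W̄` at every non-cuspidal `Q`. NO Hecke computation for
  `W` in characteristic `0` is needed;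
* `SSModel.dvd_ord_red_of_hecke_div` : `MP.SSModel.dvd_ord_red_of_hecke` with the Hecke relation of
  the node unit in divisor form.
-/

set_option autoImplicit false
set_option linter.unusedSectionVars false
set_option linter.unusedVariables false
set_option linter.style.haveILetI false

open AlgebraicCurve IsLocalRing Polynomial

namespace Fermat.Agent.ML

open Fermat.Agent.NP Fermat.Agent.SS Fermat.Agent.JA Fermat.Agent.FF Fermat.Agent.MW
  Fermat.Agent.MW.NAdic Fermat.Agent.MP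

section RhoInt

variable {R : Type*} [CommRing R] {EM : Type*} [Field EM] [Algebra R EM] {F : Type*} [Field F]

/-- a ring homomorphism `ρ : VM → F` sends an element integral over `R[jM]` into every valuation
subring of `F` containing `ρ(R)` and `ρ jM`. -/
theorem rho_mem_of_isIntegral (VM : ValuationSubring EM) (ρ : ↥VM →+* F) (O : ValuationSubring F)
    {jM : EM} (hjV : jM ∈ VM) (hRV : ∀ r : R, algebraMap R EM r ∈ VM)
    (hR : ∀ r : R, ρ ⟨algebraMap R EM r, hRV r⟩ ∈ O) (hj : ρ ⟨jM, hjV⟩ ∈ O)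
    {z : EM} (hzV : z ∈ VM) (hz : IsIntegral ↥(Algebra.adjoin R {jM}) z) : ρ ⟨z, hzV⟩ ∈ O := by
  classical
  let S : Subalgebra R EM := { VM.toSubring.toSubsemiring with algebraMap_mem' := hRV }
  have hle : Algebra.adjoin R {jM} ≤ S := by
    apply Algebra.adjoin_le
    rintro y hy
    rw [Set.mem_singleton_iff] at hy
    rw [hy]
    exact hjV
  have hleV : ∀ s : ↥(Algebra.adjoin R {jM}), (s : EM) ∈ VM := fun s => hle s.2
  let incl : ↥(Algebra.adjoin R {jM}) →+* ↥VM :=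
    ((Algebra.adjoin R {jM}).val : ↥(Algebra.adjoin R {jM}) →+* EM).codRestrict VM.toSubring hleV
  have hmem : ∀ s : ↥(Algebra.adjoin R {jM}), ρ (incl s) ∈ O := by
    rintro ⟨s, hs⟩
    induction hs using Algebra.adjoin_induction with
    | mem x hx =>
      rw [Set.mem_singleton_iff] at hx
      subst hx
      exact hj
    | algebraMap r => exact hR r
    | add x y hx hy ihx ihy =>
      have e : incl ⟨x + y, Subalgebra.add_mem _ hx hy⟩ = incl ⟨x, hx⟩ + incl ⟨y, hy⟩ :=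
        Subtype.ext rfl
      rw [e, map_add]
      exact O.add_mem _ _ ihx ihy
    | mul x y hx hy ihx ihy =>
      have e : incl ⟨x * y, Subalgebra.mul_mem _ hx hy⟩ = incl ⟨x, hx⟩ * incl ⟨y, hy⟩ :=
        Subtype.ext rfl
      rw [e, map_mul]
      exact O.mul_mem _ _ ihx ihy
  let φ : ↥(Algebra.adjoin R {jM}) →+* ↥O := (ρ.comp incl).codRestrict O.toSubring hmem
  obtain ⟨f, hmonic, hf⟩ := hz
  have h1 : f.eval₂ incl (⟨z, hzV⟩ : ↥VM) = 0 := by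
    apply Subtype.ext
    have := Polynomial.hom_eval₂ f incl (VM.subtype : ↥VM →+* EM) (⟨z, hzV⟩ : ↥VM)
    exact this.trans hf
  have h2 : f.eval₂ (ρ.comp incl) (ρ ⟨z, hzV⟩) = 0 := by
    rw [← Polynomial.hom_eval₂, h1, map_zero]
  have h3 : IsIntegral ↥O (ρ ⟨z, hzV⟩) := by
    refine ⟨f.map φ, hmonic.map φ, ?_⟩
    rw [Polynomial.eval₂_map]
    exact h2
  obtain ⟨y, hy⟩ := (IsIntegrallyClosed.isIntegral_iff (R := ↥O) (K := F)).mp h3
  rw [← hy]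
  exact y.2

end RhoInt

section Rel

variable {R : Type*} [CommRing R] [IsDomain R] [IsDiscreteValuationRing R] [CharZero R]
  {K₁ : Type*} [Field K₁] [Algebra R K₁] [IsFractionRing R K₁]
  {KM : Type*} [Field KM] [Algebra K₁ KM] [Algebra R KM] [IsScalarTower R K₁ KM]
  {EM : Type*} [Field EM] [Algebra KM EM] [Algebra K₁ EM] [IsScalarTower K₁ KM EM] [Algebra R EM]
  [IsScalarTower R KM EM]
  {KN : Type*} [Field KN] [Algebra K₁ KN] [Algebra R KN] [IsScalarTower R K₁ KN]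
  {EN : Type*} [Field EN] [Algebra KN EN] [Algebra K₁ EN] [IsScalarTower K₁ KN EN] [Algebra R EN]
  [IsScalarTower R KN EN] [FiniteDimensional KN EN]
  {π : R} {q n : ℕ} {S : Finset R} {t : KM} {jM : EM} {j : KN} {A B : EM →+* EN}
  {VM : ValuationSubring EM} {Winf W0 : ValuationSubring EN}
  [IsAlgClosed (IsLocalRing.ResidueField R)]
  {k : Type*} [Field k] {F : Type*} [Field F] [Algebra k F]

/-- `R ⊆ VM` on an `SSModel`. -/
theorem SSModel.algebraMap_mem_VM (h : SSModel K₁ π q n S t jM j A B VM Winf W0) (r : R) :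
    algebraMap R EM r ∈ VM := by
  have h1 : algebraMap R EN r ∈ Winf :=
    h.two.chart_le_inf _ ((chartOne R EN j).algebraMap_mem r)
  have : algebraMap R EM r ∈ Winf.comap A := by
    show A (algebraMap R EM r) ∈ Winf
    rw [h.A_algebraMap]; exact h1
  rwa [h.comap_A_inf] at this

/-- **the reduction of a unit of the chart of the good level has order `0` at the non-cuspidal
places.** -/
theorem SSModel.ord_rho_eq_zero_of_isIntegral (h : SSModel K₁ π q n S t jM j A B VM Winf W0)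
    (ρ : ↥VM →+* F) (res : R →+* k)
    (hρR : ∀ (r : R) (hr : algebraMap R EM r ∈ VM),
      ρ ⟨algebraMap R EM r, hr⟩ = algebraMap k F (res r))
    (Q : Place k F) (hjV : jM ∈ VM) (hρj : ρ ⟨jM, hjV⟩ ∈ Q.toValuationSubring)
    {z : EM} (hz0 : z ≠ 0) (hz : IsIntegral ↥(Algebra.adjoin R {jM}) z)
    (hz' : IsIntegral ↥(Algebra.adjoin R {jM}) z⁻¹) (hzV : z ∈ VM) :
    Q.ord (ρ ⟨z, hzV⟩) = 0 := by
  have hRV := SSModel.algebraMap_mem_VM h
  have hkQ : ∀ c : k, algebraMap k F c ∈ Q.toValuationSubring := by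
    intro c
    rw [PlaceAux.mem_iff_ord_nonneg]
    by_cases hc : algebraMap k F c = 0
    · exact Or.inl hc
    · right; rw [PlaceAux.ord_algebraMap]
  have hR : ∀ r : R, ρ ⟨algebraMap R EM r, hRV r⟩ ∈ Q.toValuationSubring := by
    intro r
    rw [hρR r (hRV r)]
    exact hkQ _
  have hzV' : z⁻¹ ∈ VM :=
    mem_valuationSubring_of_isIntegral_adjoin_singleton VM hRV hjV hz'
  have h1 := rho_mem_of_isIntegral VM ρ Q.toValuationSubring hjV hRV hR hρj hzV hz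
  have h2 := rho_mem_of_isIntegral VM ρ Q.toValuationSubring hjV hRV hR hρj hzV' hz'
  have hmul : ρ ⟨z, hzV⟩ * ρ ⟨z⁻¹, hzV'⟩ = 1 := by
    rw [← map_mul]
    have : (⟨z, hzV⟩ : ↥VM) * ⟨z⁻¹, hzV'⟩ = 1 := Subtype.ext (mul_inv_cancel₀ hz0)
    rw [this, map_one]
  have hinv : ρ ⟨z⁻¹, hzV'⟩ = (ρ ⟨z, hzV⟩)⁻¹ := eq_inv_of_mul_eq_one_right hmul
  have h3 := PlaceAux.ord_nonneg_of_mem Q h1
  have h4 := PlaceAux.ord_nonneg_of_mem Q h2
  rw [hinv, Place.ord_inv] at h4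
  omega

/-- the residue field of the good level has characteristic `q`. -/
theorem SSModel.charP_of_rho (h : SSModel K₁ π q n S t jM j A B VM Winf W0)
    (hπ : Irreducible π)
    (ρ : ↥VM →+* F) (hρ : ∀ x : ↥VM, VM.valuation (x : EM) < 1 → ρ x = 0) : CharP F q := by
  have hπW : Winf.valuation (algebraMap R EN π) < 1 := SSModel.valuation_pi_inf_lt_one h hπ
  have hπV : VM.valuation (algebraMap R EM π) < 1 := by
    apply valuation_lt_one_of_comap A VM Winf h.comap_A_inf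
    rw [h.A_algebraMap]
    exact hπW
  have hqV : VM.valuation ((q : ℕ) : EM) < 1 := by
    obtain ⟨c, hc⟩ := Ideal.mem_span_singleton.mp h.q_mem
    have e : ((q : ℕ) : EM) = algebraMap R EM π * algebraMap R EM c := by
      rw [← map_mul, ← hc, map_natCast]
    rw [e, map_mul]
    have hcV : VM.valuation (algebraMap R EM c) ≤ 1 :=
      (ValuationSubring.valuation_le_one_iff _ _).mpr (SSModel.algebraMap_mem_VM h c)
    calc VM.valuation (algebraMap R EM π) * VM.valuation (algebraMap R EM c)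
        ≤ VM.valuation (algebraMap R EM π) * 1 := by gcongr
      _ < 1 := by rw [mul_one]; exact hπV
  have hq0 : ((q : ℕ) : F) = 0 := by
    have h1 := hρ ((q : ℕ) : ↥VM) (by push_cast; exact hqV)
    rwa [map_natCast] at h1
  obtain ⟨r, hr⟩ := CharP.exists F
  haveI := hr
  have hdvd : r ∣ q := (CharP.cast_eq_zero_iff F r q).mp hq0
  rcases (Nat.dvd_prime h.q_prime).mp hdvd with h1 | h1
  · exfalso
    exact CharP.char_ne_one F r h1
  · rw [← h1]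
    exact hr

set_option maxHeartbeats 1600000 in
/-- **the Hecke relation of the second node unit in divisor form, on the reduced side**: if
`W ^ 3 = U · (B n / A n) ^ 2` with `n = t (t - 1)` a unit of the chart of the good level, the
reduced Hecke relation `T Ū = c Ū ^ b` of the reduction of `U` gives
`ord_Q (T W̄) = b ord_Q W̄` at every non-cuspidal place `Q` of the reduced curve. -/
theorem SSModel.hecke_div_of_legendre [IsScalarTower R K₁ EN]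
    (h : SSModel K₁ π q n S t jM j A B VM Winf W0)
    (hπ : Irreducible π)
    (h0S : (0 : R) ∈ S) (h1S : (1 : R) ∈ S) (h256 : (256 : EN) ≠ 0)
    (hrel : jM * (algebraMap KM EM t * (algebraMap KM EM t - 1)) ^ 2 =
      256 * (algebraMap KM EM t ^ 2 - algebraMap KM EM t + 1) ^ 3)
    (ha : algebraMap KM EM t ^ 2 - algebraMap KM EM t + 1 ≠ 0)
    {U V : EN} {c : ℕ} (hU : NodeUnit K₁ π (A jM) U c Winf W0) (hV : U * A jM = V ^ 3 * B jM)
    (ρ : ↥VM →+* F) (hρ : ∀ x : ↥VM, VM.valuation (x : EM) < 1 → ρ x = 0)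
    (res : R →+* k)
    (hρR : ∀ (r : R) (hr : algebraMap R EM r ∈ VM),
      ρ ⟨algebraMap R EM r, hr⟩ = algebraMap k F (res r))
    (hjV : jM ∈ VM) {U₀ W₀ : EM} (hU₀ : U₀ ∈ VM) (hW₀ : W₀ ∈ VM)
    (hlinkU : Winf.valuation (U - A U₀) < 1)
    (hW1 : Winf.valuation (V * B (algebraMap KM EM t ^ 2 - algebraMap KM EM t + 1) *
      (A (algebraMap KM EM t ^ 2 - algebraMap KM EM t + 1))⁻¹) = 1)
    (hlinkW : Winf.valuation (V * B (algebraMap KM EM t ^ 2 - algebraMap KM EM t + 1) *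
      (A (algebraMap KM EM t ^ 2 - algebraMap KM EM t + 1))⁻¹ - A W₀) < 1)
    (T : F →* F)
    (hpdiv0 : ∀ z : F, z ≠ 0 →
      (∀ Q : Place k F, ρ ⟨jM, hjV⟩ ∈ Q.toValuationSubring → Q.ord z = 0) →
      ∀ Q : Place k F, ρ ⟨jM, hjV⟩ ∈ Q.toValuationSubring → Q.ord (T z) = 0)
    (b : ℤ) (hTU : ∃ c : k, c ≠ 0 ∧ T (ρ ⟨U₀, hU₀⟩) = algebraMap k F c * ρ ⟨U₀, hU₀⟩ ^ b) :
    ∀ Q : Place k F, ρ ⟨jM, hjV⟩ ∈ Q.toValuationSubring →
      Q.ord (T (ρ ⟨W₀, hW₀⟩)) = b * Q.ord (ρ ⟨W₀, hW₀⟩) := by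
  classical
  set tE : EM := algebraMap KM EM t with htE
  set a : EM := tE ^ 2 - tE + 1 with hadef
  set nn : EM := tE * (tE - 1) with hnn
  set W : EN := V * B a * (A a)⁻¹ with hWdef
  obtain ⟨hn1, hn2⟩ := SSModel.isIntegral_legendre_unit h h0S h1S
  have hRV := SSModel.algebraMap_mem_VM h
  haveI : CharP F q := SSModel.charP_of_rho h hπ ρ hρ
  haveI : Fact q.Prime := ⟨h.q_prime⟩
  have h256M : (256 : EM) * a ^ 3 ≠ 0 := by
    refine mul_ne_zero ?_ (pow_ne_zero 3 ha)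
    intro h4
    apply h256
    have := congrArg A h4
    rwa [map_ofNat, map_zero] at this
  have hn0 : nn ≠ 0 := by
    intro h0
    rw [h0, zero_pow two_ne_zero, mul_zero] at hrel
    exact h256M hrel.symm
  have hjM0 : jM ≠ 0 := by
    intro h0
    rw [h0, zero_mul] at hrel
    exact h256M hrel.symm
  have hAa : A a ≠ 0 := (map_ne_zero A).mpr ha
  have hBa : B a ≠ 0 := (map_ne_zero B).mpr ha
  have hAn : A nn ≠ 0 := (map_ne_zero A).mpr hn0
  have hBn : B nn ≠ 0 := (map_ne_zero B).mpr hn0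
  have hAj : A jM ≠ 0 := (map_ne_zero A).mpr hjM0
  -- the cube relation
  have hrelA : A jM * A nn ^ 2 = 256 * A a ^ 3 := by
    have h1 := congrArg A hrel
    rw [map_mul A jM, map_pow A nn, map_mul A 256, map_pow A a, map_ofNat] at h1
    exact h1
  have hrelB : B jM * B nn ^ 2 = 256 * B a ^ 3 := by
    have h1 := congrArg B hrel
    rw [map_mul B jM, map_pow B nn, map_mul B 256, map_pow B a, map_ofNat] at h1
    exact h1
  have hcube : W ^ 3 * A nn ^ 2 = U * B nn ^ 2 := by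
    have h1 : A a ^ 3 = A jM * A nn ^ 2 * (256 : EN)⁻¹ := by
      rw [hrelA]; field_simp
    have h2 : B a ^ 3 = B jM * B nn ^ 2 * (256 : EN)⁻¹ := by
      rw [hrelB]; field_simp
    have h3 : U = V ^ 3 * B jM * (A jM)⁻¹ := by
      rw [← hV]; field_simp
    rw [hWdef, mul_pow, mul_pow, inv_pow, h1, h2, h3]
    field_simp
  -- memberships
  have hnnV : nn ∈ VM := mem_valuationSubring_of_isIntegral_adjoin_singleton VM hRV hjV hn1
  have htV : tE ∈ VM := mem_valuationSubring_of_isIntegral_adjoin_singleton VM hRV hjV h.t_int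
  obtain ⟨ι, hker, hιA, hιR⟩ := SSModel.exists_redInf h ρ hρ res hρR
  have hAnn : A nn ∈ Winf := map_mem_of_comap A VM Winf h.comap_A_inf hnnV
  have hBnn : B nn ∈ Winf := map_mem_of_comap B VM Winf h.comap_B_inf hnnV
  have hBt : B tE ∈ Winf := map_mem_of_comap B VM Winf h.comap_B_inf htV
  have hWm : W ∈ Winf := (ValuationSubring.valuation_le_one_iff _ _).mp hW1.le
  -- the values of `ι`
  have e1 : ι ⟨U, hU.mem_inf⟩ = ρ ⟨U₀, hU₀⟩ := hιA ⟨U, hU.mem_inf⟩ ⟨U₀, hU₀⟩ hlinkU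
  have e2 : ι ⟨W, hWm⟩ = ρ ⟨W₀, hW₀⟩ := hιA ⟨W, hWm⟩ ⟨W₀, hW₀⟩ hlinkW
  have e3 : ι ⟨A nn, hAnn⟩ = ρ ⟨nn, hnnV⟩ := hιA ⟨A nn, hAnn⟩ ⟨nn, hnnV⟩ (by
    show Winf.valuation (A nn - A nn) < 1
    rw [sub_self, map_zero]; exact zero_lt_one)
  have e4 : ι ⟨B tE, hBt⟩ = ρ ⟨tE, htV⟩ ^ q := by
    have htq : tE ^ q ∈ VM := pow_mem htV q
    have h1 := hιA ⟨B tE, hBt⟩ ⟨tE ^ q, htq⟩ (by
      show Winf.valuation (B tE - A (tE ^ q)) < 1
      rw [map_pow]; exact h.kron_t_inf)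
    rw [h1]
    exact (congrArg ρ (Subtype.ext rfl : (⟨tE ^ q, htq⟩ : ↥VM) = ⟨tE, htV⟩ ^ q)).trans
      (map_pow ρ _ q)
  have e5 : ι ⟨B nn, hBnn⟩ = ρ ⟨nn, hnnV⟩ ^ q := by
    have h1 : (⟨B nn, hBnn⟩ : ↥Winf) = ⟨B tE, hBt⟩ * (⟨B tE, hBt⟩ - 1) := by
      apply Subtype.ext
      show B nn = B tE * (B tE - 1)
      rw [hnn, map_mul, map_sub, map_one]
    have h2 : (⟨nn, hnnV⟩ : ↥VM) = ⟨tE, htV⟩ * (⟨tE, htV⟩ - 1) := Subtype.ext rfl
    rw [h1, h2, map_mul, map_sub, map_one, e4, map_mul, map_sub, map_one, mul_pow, sub_pow_char,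
      one_pow]
  -- the reduced cube relation
  have hred : ρ ⟨W₀, hW₀⟩ ^ 3 * ρ ⟨nn, hnnV⟩ ^ 2 = ρ ⟨U₀, hU₀⟩ * (ρ ⟨nn, hnnV⟩ ^ q) ^ 2 := by
    have h1 : (⟨W, hWm⟩ : ↥Winf) ^ 3 * ⟨A nn, hAnn⟩ ^ 2 = ⟨U, hU.mem_inf⟩ * ⟨B nn, hBnn⟩ ^ 2 :=
      Subtype.ext hcube
    have h2 := congrArg ι h1
    simp only [map_mul, map_pow] at h2
    rw [e1, e2, e3, e5] at h2
    exact h2
  -- non-vanishing
  have hU1 : Winf.valuation U = 1 :=
    valuation_eq_one_of_mem_of_inv_mem hU.ne_zero hU.mem_inf hU.inv_mem_inf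
  have hW0 : ρ ⟨W₀, hW₀⟩ ≠ 0 := SSModel.red_ne_zero_of_link h ρ hρ hW₀ hW1 hlinkW
  have hU0 : ρ ⟨U₀, hU₀⟩ ≠ 0 := SSModel.red_ne_zero_of_link h ρ hρ hU₀ hU1 hlinkU
  have hnnV' : nn⁻¹ ∈ VM := mem_valuationSubring_of_isIntegral_adjoin_singleton VM hRV hjV hn2
  have hN0 : ρ ⟨nn, hnnV⟩ ≠ 0 := by
    intro h0
    have hmul : ρ ⟨nn, hnnV⟩ * ρ ⟨nn⁻¹, hnnV'⟩ = 1 := by
      rw [← map_mul]
      have : (⟨nn, hnnV⟩ : ↥VM) * ⟨nn⁻¹, hnnV'⟩ = 1 := Subtype.ext (mul_inv_cancel₀ hn0)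
      rw [this, map_one]
    rw [h0, zero_mul] at hmul
    exact zero_ne_one hmul
  have hNord : ∀ Q : Place k F, ρ ⟨jM, hjV⟩ ∈ Q.toValuationSubring →
      Q.ord (ρ ⟨nn, hnnV⟩) = 0 := fun Q hQ =>
    SSModel.ord_rho_eq_zero_of_isIntegral h ρ res hρR Q hjV hQ hn0 hn1 hn2 hnnV
  have hTN := hpdiv0 _ hN0 hNord
  -- the image of the relation under `T`
  have hT := congrArg T hred
  rw [map_mul, map_mul, map_pow, map_pow, map_pow, map_pow] at hT
  obtain ⟨cU, hcU, hTU⟩ := hTU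
  have hcne : algebraMap k F cU ≠ 0 := (map_ne_zero_iff _ (algebraMap k F).injective).mpr hcU
  intro Q hQ
  have hTW0 : T (ρ ⟨W₀, hW₀⟩) ≠ 0 := monoidHom_ne_zero T hW0
  have hTN0 : T (ρ ⟨nn, hnnV⟩) ≠ 0 := monoidHom_ne_zero T hN0
  have hTU0 : T (ρ ⟨U₀, hU₀⟩) ≠ 0 := monoidHom_ne_zero T hU0
  -- orders
  have o1 := congrArg Q.ord hred
  rw [Q.ord_mul (pow_ne_zero 3 hW0) (pow_ne_zero 2 hN0),
    Q.ord_mul hU0 (pow_ne_zero 2 (pow_ne_zero q hN0)), PlaceAux.ord_pow, PlaceAux.ord_pow,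
    PlaceAux.ord_pow, PlaceAux.ord_pow, hNord Q hQ] at o1
  have o2 := congrArg Q.ord hT
  rw [Q.ord_mul (pow_ne_zero 3 hTW0) (pow_ne_zero 2 hTN0),
    Q.ord_mul hTU0 (pow_ne_zero 2 (pow_ne_zero q hTN0)), PlaceAux.ord_pow, PlaceAux.ord_pow,
    PlaceAux.ord_pow, PlaceAux.ord_pow, hTN Q hQ, hTU,
    Q.ord_mul hcne (zpow_ne_zero _ hU0), PlaceAux.ord_algebraMap, Q.ord_zpow] at o2
  have e : b * ((3 : ℕ) * Q.ord (ρ ⟨W₀, hW₀⟩)) = (3 : ℕ) * (b * Q.ord (ρ ⟨W₀, hW₀⟩)) := by ring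
  simp only [mul_zero, add_zero, zero_add] at o1 o2
  rw [← o1, e] at o2
  push_cast at o2
  linarith

/-- **(C) [ORD], abstract form, with the Hecke relation of the node unit in divisor form**: on an `SSModel` with a reduction `ρ : VM → F̄` of the good level,
a function `f` with `div f ∈ p Div` whose normalisation along `Winf` reduces to `F̄ = ρ x₀`, the
node unit `U` reducing to `Ū = ρ U₀`, the node package (`X`, `kk`, `KK`, proportionality, final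
arithmetic `harith`), and a reduced Hecke operator `T` on `F̄` with [PDIV], `T F̄ = c F̄ ^ a u ^ p`,
`T Ū = c' Ū ^ b`, `p ∤ a - b`: then `p ∣ ord_Q F̄` at EVERY place `Q` of `F̄`. -/
theorem SSModel.dvd_ord_red_of_hecke_div (h : SSModel K₁ π q n S t jM j A B VM Winf W0)
    (hπ : Irreducible π) {e₁ : ℕ} (he₁ : 0 < e₁) {ε : Rˣ} (hpe : (q : R) = ε * π ^ e₁)
    (hjint : IsIntegral ↥(Algebra.adjoin R {B jM}) (A jM))
    (ρ : ↥VM →+* F) (hρ : ∀ x : ↥VM, VM.valuation (x : EM) < 1 → ρ x = 0)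
    (res : R →+* k) (hres : Function.Surjective res)
    (hρR : ∀ (r : R) (hr : algebraMap R EM r ∈ VM),
      ρ ⟨algebraMap R EM r, hr⟩ = algebraMap k F (res r))
    (hQ : ∀ Q : Place k F, ∀ y ∈ Q.toValuationSubring, ∃ c : k,
      Q.toValuationSubring.valuation (y - algebraMap k F c) < 1)
    (hjV : jM ∈ VM)
    {f : EN} (hf : f ≠ 0) (hord : ∀ P : Place K₁ EN, (q : ℤ) ∣ P.ord f)
    {U : EN} {c : ℕ} (hU : NodeUnit K₁ π (A jM) U c Winf W0)
    (hcinf : ∀ b ∈ chartOne R EN j, b ∈ Winf) (hc0 : ∀ b ∈ chartOne R EN j, b ∈ W0)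
    (X : ChartNode j Winf W0 hcinf hc0 → EN) (kk KK : ChartNode j Winf W0 hcinf hc0 → ℤ)
    (hXu : ∀ nd, IsUnitIn Winf.toSubring (X nd))
    (hfact : ∀ nd, IsNodeFact K₁ (locSub (chartOne R EN j) nd.1) q (X nd) f (kk nd))
    (hUfact : ∀ nd, ∃ w : EN, IsUnitIn (locSub (chartOne R EN j) nd.1) w ∧ U = w * X nd ^ KK nd)
    (hprop : ∀ nd nd', (q : ℤ) ∣ kk nd * KK nd' - kk nd' * KK nd)
    (harith : ∀ (nd : ChartNode j Winf W0 hcinf hc0) (ordF x : ℤ), (q : ℤ) ∣ ordF - kk nd * x →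
      ((q : ℤ) ∣ ordF ∨ (q : ℤ) ∣ KK nd) → (q : ℤ) ∣ ordF)
    {ainf : ℤ} {x₀ U₀ : EM} (hx₀ : x₀ ∈ VM) (hU₀ : U₀ ∈ VM)
    (hfu : Winf.valuation (f * (algebraMap R EN π ^ ainf)⁻¹) = 1)
    (hlink : Winf.valuation (f * (algebraMap R EN π ^ ainf)⁻¹ - A x₀) < 1)
    (hlinkU : Winf.valuation (U - A U₀) < 1)
    (T : F →* F)
    (hpdiv : ∀ z : F, z ≠ 0 →
      (∀ Q : Place k F, ρ ⟨jM, hjV⟩ ∈ Q.toValuationSubring → (q : ℤ) ∣ Q.ord z) →
      ∀ Q : Place k F, ρ ⟨jM, hjV⟩ ∈ Q.toValuationSubring → (q : ℤ) ∣ Q.ord (T z))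
    (a b : ℤ) (hab : ¬ (q : ℤ) ∣ a - b)
    (hTF : ∃ (c : k) (u : F), c ≠ 0 ∧ u ≠ 0 ∧
      T (ρ ⟨x₀, hx₀⟩) = algebraMap k F c * ρ ⟨x₀, hx₀⟩ ^ a * u ^ q)
    (hTU : ∀ Q : Place k F, ρ ⟨jM, hjV⟩ ∈ Q.toValuationSubring →
      (q : ℤ) ∣ Q.ord (T (ρ ⟨U₀, hU₀⟩)) - b * Q.ord (ρ ⟨U₀, hU₀⟩)) :
    ∀ Q : Place k F, (q : ℤ) ∣ Q.ord (ρ ⟨x₀, hx₀⟩) := by
  classical
  intro Q
  by_cases hg : ρ ⟨jM, hjV⟩ ∈ Q.toValuationSubring
  · have key : ∀ Q' : Place k F, ρ ⟨jM, hjV⟩ ∈ Q'.toValuationSubring → ∃ (x kQ KQ : ℤ),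
        (q : ℤ) ∣ Q'.ord (ρ ⟨x₀, hx₀⟩) - kQ * x ∧ (q : ℤ) ∣ Q'.ord (ρ ⟨U₀, hU₀⟩) - KQ * x ∧
        ((kQ = 0 ∧ KQ = 0 ∧ (q : ℤ) ∣ Q'.ord (ρ ⟨x₀, hx₀⟩)) ∨
          ∃ nd, kQ = kk nd ∧ KQ = KK nd) := by
      intro Q' hg'
      rcases SSModel.dict_one_rel h hπ he₁ hpe ρ hρ res hres hρR Q' (hQ Q') hjV hg' hf hord hU
        hcinf hc0 X kk KK hXu hfact hUfact hx₀ hU₀ hfu hlink hlinkU with ⟨h1, h2⟩ | ⟨nd, x, h1, h2⟩
      · exact ⟨0, 0, 0, by simpa using h1, by simpa using h2, Or.inl ⟨rfl, rfl, h1⟩⟩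
      · exact ⟨x, kk nd, KK nd, h1, by rw [h2, sub_self]; exact dvd_zero _, Or.inr ⟨nd, rfl, rfl⟩⟩
    choose! x' k' K' h1 h2 h3 using key
    have hprop' : ∀ Q₁ Q₂ : Place k F, ρ ⟨jM, hjV⟩ ∈ Q₁.toValuationSubring →
        ρ ⟨jM, hjV⟩ ∈ Q₂.toValuationSubring → (q : ℤ) ∣ k' Q₁ * K' Q₂ - k' Q₂ * K' Q₁ := by
      intro Q₁ Q₂ hg₁ hg₂
      rcases h3 Q₁ hg₁ with ⟨e1, e2, -⟩ | ⟨nd₁, e1, e2⟩
      · rw [e1, e2]; simp
      · rcases h3 Q₂ hg₂ with ⟨e3, e4, -⟩ | ⟨nd₂, e3, e4⟩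
        · rw [e3, e4]; simp
        · rw [e1, e2, e3, e4]; exact hprop nd₁ nd₂
    have hF0 : ρ ⟨x₀, hx₀⟩ ≠ 0 := SSModel.red_ne_zero_of_link h ρ hρ hx₀ hfu hlink
    have hU1 : Winf.valuation U = 1 :=
      valuation_eq_one_of_mem_of_inv_mem hU.ne_zero hU.mem_inf hU.inv_mem_inf
    have hU0 : ρ ⟨U₀, hU₀⟩ ≠ 0 := SSModel.red_ne_zero_of_link h ρ hρ hU₀ hU1 hlinkU
    have helim := elim_dvd_ord_or_dvd_div q h.q_prime
      (fun Q' : Place k F => ρ ⟨jM, hjV⟩ ∈ Q'.toValuationSubring) T hpdiv hF0 hU0 a b hab hTF hTU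
      x' k' K' h1 h2 hprop' Q hg
    rcases h3 Q hg with ⟨-, -, hd⟩ | ⟨nd, hk, hK⟩
    · exact hd
    · exact harith nd _ (x' Q) (by rw [← hk]; exact h1 Q hg) (by rw [← hK]; exact helim)
  · exact SSModel.dict_two_rel h hπ he₁ hpe hjint ρ hρ res hres hρR Q (hQ Q) hjV hg hf hord hx₀
      hfu hlink

end Rel

end Fermat.Agent.ML
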