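import Mathlib
import Fermat.Agent.MP.ORD_helper1_Core
import Fermat.Agent.ML.ORD3_helper8_Pack
import Fermat.Agent.ML.ORD3_helper8_Rel

/-!
# ML (S59) — helper8 — [REMOVE-P] at `p = 3`, (R1) part 5: the core assembly of (C) [ORD] for every
odd `p`

`legPeuOrd_core_four` = `MP.legPeuOrd_core` without `5 ≤ p`: the node package with helper6's node unit
`W = θ₃(τ)⁸/θ₃(pτ)⁸` of exponent `4 e` (`legPeuNode_package_four`), the final arithmetic
`dvd_ord_of_elim_four`, and the Hecke relation of the reduction of `W` in divisor form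
(`SSModel.hecke_div_of_legendre`, from the reduced Hecke relation `hTU` of `U = Δ(τ)/Δ(pτ)`).
-/

set_option autoImplicit false
set_option linter.unusedSectionVars false
set_option linter.unusedVariables false
set_option linter.style.haveILetI false
set_option synthInstance.maxHeartbeats 400000

open HahnSeries IntermediateField AlgebraicCurve ModularCurve IsLocalRing Polynomial

namespace Fermat.Agent.ML

open Fermat.Agent.JA Fermat.Agent.FF Fermat.Agent.SS Fermat.Agent.S35 Fermat.Agent.Igusa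
  Fermat.Agent.NP Fermat.Agent.MW.NAdic Fermat.Agent.MW Fermat.Agent.FG Fermat.Agent.MP

open scoped Fermat.Agent.JA.Host

/-- `Ω = AlgebraicClosure ℚ`. -/
local notation "Ω" => AlgebraicClosure ℚ

section Rel

variable (K : Type*) [Field K] [Algebra ℚ K] (M : ℕ) [NeZero M]

/-- the Legendre relation in the host, in the form used by `SSModel.hecke_div_of_legendre`. -/
theorem legTE_rel_four :
    legJE K M * (algebraMap ↥K⟮legT K⟯ ↥(legE K M) (AdjoinSimple.gen K (legT K)) *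
      (algebraMap ↥K⟮legT K⟯ ↥(legE K M) (AdjoinSimple.gen K (legT K)) - 1)) ^ 2 =
    256 * (algebraMap ↥K⟮legT K⟯ ↥(legE K M) (AdjoinSimple.gen K (legT K)) ^ 2 -
      algebraMap ↥K⟮legT K⟯ ↥(legE K M) (AdjoinSimple.gen K (legT K)) + 1) ^ 3 := by
  have hrel0 := legendre_rel_legE K M
  rw [hrel0]; ring

/-- `t² - t + 1 ≠ 0` in the host. -/
theorem legTE_sq_sub_add_one_ne_zero_four :
    algebraMap ↥K⟮legT K⟯ ↥(legE K M) (AdjoinSimple.gen K (legT K)) ^ 2 -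
      algebraMap ↥K⟮legT K⟯ ↥(legE K M) (AdjoinSimple.gen K (legT K)) + 1 ≠ 0 := by
  set tE : ↥(legE K M) := algebraMap ↥K⟮legT K⟯ ↥(legE K M) (AdjoinSimple.gen K (legT K)) with htE
  have hcoe : ((tE : ↥(legE K M)) : LaurentSeries K) = legT K := rfl
  intro h0
  have h1 : (((tE ^ 2 - tE + 1 : ↥(legE K M)) : ↥(legE K M)) : LaurentSeries K) =
      ((0 : ↥(legE K M)) : LaurentSeries K) := congrArg Subtype.val h0
  push_cast at h1
  rw [hcoe] at h1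
  apply transcendental_legT K
  refine ⟨X ^ 2 - X + 1, ?_, ?_⟩
  · intro h3
    have := congrArg (Polynomial.eval 0) h3
    simp at this
  · simpa using h1

end Rel

section Core

variable {M p : ℕ} [NeZero M] [NeZero p] [NeZero (M * p)] {A : ValuationSubring Ω}
  {K₁ : IntermediateField ℚ Ω} [Normal ℚ ↥K₁] {K' : IntermediateField ℚ Ω} [Algebra ↥K' ℂ]

set_option maxHeartbeats 6400000 in
/-- **(C) [ORD], core assembly on the Legendre host, with the node unit of exponent `4 e`**: for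
every odd `p`. -/
theorem legPeuOrd_core_four (HB : LegNormBCompat) [Fact p.Prime] (hp : p.Prime)
    (hp2 : p ≠ 2) (hpM : ¬ p ∣ M) (hA : A.LiesOverPrime p)
    [IsDiscreteValuationRing ↥(baseRing A K')] [CharZero ↥(baseRing A K')]
    {ζ : ↥(baseRing A K')} {s : ↥K' ≃ₐ[ℚ] ↥K'} {S : Set ℕ} {a : ℕ → ℤ}
    {f₀ : ↥(keyFq ↥K' (M * p))} (hyp : LegPeuHyp p M A K₁ K' ζ s S a f₀)
    {ϖ : ↥(baseRing A K')} (hϖ : Irreducible ϖ) (h2 : IsUnit (2 : ↥(baseRing A K')))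
    {x y : ℤ} (hbez : (p : ℤ) * x + M * y = 1)
    -- the reduction map of the good level
    (ρ : ↥(legWinf ↥(baseRing A K') ↥K' h2 M) →+* legEt hA M hp2)
    (hρ : ∀ z : ↥(legWinf ↥(baseRing A K') ↥K' h2 M),
      (legWinf ↥(baseRing A K') ↥K' h2 M).valuation (z : ↥(legE ↥K' M)) < 1 → ρ z = 0)
    (res : ↥(baseRing A K') →+* ResidueField ↥A) (hres : Function.Surjective res)
    (hρR : ∀ (r : ↥(baseRing A K'))
      (hr : algebraMap ↥(baseRing A K') ↥(legE ↥K' M) r ∈ legWinf ↥(baseRing A K') ↥K' h2 M),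
      ρ ⟨algebraMap ↥(baseRing A K') ↥(legE ↥K' M) r, hr⟩ =
        algebraMap (ResidueField ↥A) (legEt hA M hp2) (res r))
    (hρj : ∀ hj : legJE ↥K' M ∈ legWinf ↥(baseRing A K') ↥K' h2 M,
      ρ ⟨legJE ↥K' M, hj⟩ = legJt M hA hp2)
    (hQ : ∀ Q : Place (ResidueField ↥A) (legEt hA M hp2), ∀ z ∈ Q.toValuationSubring,
      ∃ c : ResidueField ↥A, Q.toValuationSubring.valuation
        (z - algebraMap (ResidueField ↥A) (legEt hA M hp2) c) < 1)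
    -- the Hecke operator
    (ℓ : ℕ) [NeZero ℓ] [NeZero (M * ℓ)] (hℓ : ℓ.Prime) (hℓ2 : ℓ ≠ 2) (hpMℓ : ¬ p ∣ M * ℓ)
    (hfin : FiniteAlong (ResidueField ↥A) (legEtA hA M hp2 ℓ))
    (hsep : letI := algebraAlong (legEtA hA M hp2 ℓ)
      Algebra.IsSeparable (legEt hA M hp2) (legEt hA (M * ℓ) hp2))
    (hab : ¬ (a ℓ ≡ (ℓ : ℤ) + 1 [ZMOD (p : ℤ)]))
    -- the function along the two sheets
    {ainf a0 : ℤ}
    (hfinf : (legWinf ↥(baseRing A K') ↥K' h2 (M * p)).valuation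
      (fullToLegE ↥K' (M * p) f₀ *
        (algebraMap ↥(baseRing A K') ↥(legE ↥K' (M * p)) ϖ ^ ainf)⁻¹) = 1)
    (hf0 : (legW0 ↥(baseRing A K') ↥K' hbez hp).valuation
      (fullToLegE ↥K' (M * p) f₀ *
        (algebraMap ↥(baseRing A K') ↥(legE ↥K' (M * p)) ϖ ^ a0)⁻¹) = 1)
    (hdelta : (p : ℤ) ∣ a0 - ainf)
    -- the reductions
    {x₀ U₀ W₀ : ↥(legE ↥K' M)} (hx₀ : x₀ ∈ legWinf ↥(baseRing A K') ↥K' h2 M)
    (hU₀ : U₀ ∈ legWinf ↥(baseRing A K') ↥K' h2 M)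
    (hW₀ : W₀ ∈ legWinf ↥(baseRing A K') ↥K' h2 M)
    (hlink : (legWinf ↥(baseRing A K') ↥K' h2 (M * p)).valuation
      (fullToLegE ↥K' (M * p) f₀ *
        (algebraMap ↥(baseRing A K') ↥(legE ↥K' (M * p)) ϖ ^ ainf)⁻¹ -
        legHostA ↥K' M p x₀) < 1)
    (hlinkU : (legWinf ↥(baseRing A K') ↥K' h2 (M * p)).valuation
      (fullToLegE ↥K' (M * p) (modUnit ↥K' (M * p) p (Dvd.intro_left M rfl)) -
        legHostA ↥K' M p U₀) < 1)
    (hlinkW : (legWinf ↥(baseRing A K') ↥K' h2 (M * p)).valuation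
      (legUnitFour ↥K' M p hp hp2 - legHostA ↥K' M p W₀) < 1)
    (hTF : ∃ (c : ResidueField ↥A) (u : legEt hA M hp2), c ≠ 0 ∧ u ≠ 0 ∧
      legEtT hA M hp2 ℓ hℓ hℓ2 (ρ ⟨x₀, hx₀⟩) =
        algebraMap (ResidueField ↥A) (legEt hA M hp2) c * ρ ⟨x₀, hx₀⟩ ^ (a ℓ) * u ^ p)
    (hTU : ∃ c : ResidueField ↥A, c ≠ 0 ∧
      legEtT hA M hp2 ℓ hℓ hℓ2 (ρ ⟨U₀, hU₀⟩) =
        algebraMap (ResidueField ↥A) (legEt hA M hp2) c * ρ ⟨U₀, hU₀⟩ ^ ((ℓ : ℤ) + 1)) :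
    ∀ Q : Place (ResidueField ↥A) (legEt hA M hp2), (p : ℤ) ∣ Q.ord (ρ ⟨x₀, hx₀⟩) := by
  classical
  have hK' : IsBase p K' := hyp.base
  haveI : IsAlgClosed (ResidueField ↥(baseRing A K')) := hK'.isAlgClosed_residueField hA
  have hpϖ := natCast_mem_span_uniformizer_baseRing hA K' hϖ
  have hmodel : SSModelLeg ↥(baseRing A K') ↥K' ϖ h2 hbez hp hp2 :=
    ssModelLeg ↥(baseRing A K') ↥K' hϖ h2 hbez hp hp2 hpϖ
      (geoHyps_legE_baseRing hA M hpM hK' hp2 hϖ)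
  haveI : FiniteDimensional ↥(↥K')⟮jqNModC ↥K' 2⟯ ↥(legE ↥K' (M * p)) :=
    finite_legE_adjoin_j ↥K' (M * p)
  have h' := SSModelLeg.ssModel ↥(baseRing A K') ↥K' hmodel
  -- `p = u ϖ ^ e`
  have hp0 : ((p : ℕ) : ↥(baseRing A K')) ≠ 0 := by
    exact_mod_cast (Nat.cast_ne_zero (R := ↥(baseRing A K'))).mpr hp.ne_zero
  obtain ⟨e, u, hu⟩ := IsDiscreteValuationRing.eq_unit_mul_pow_irreducible hp0 hϖ
  have he : 0 < e := by
    rcases Nat.eq_zero_or_pos e with h0 | h0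
    · exfalso
      rw [h0, pow_zero, mul_one] at hu
      have hu' : IsUnit ((p : ℕ) : ↥(baseRing A K')) := hu ▸ Units.isUnit _
      obtain ⟨z, hz⟩ := Ideal.mem_span_singleton.mp hpϖ
      rw [hz] at hu'
      exact hϖ.not_isUnit (isUnit_of_mul_isUnit_left hu')
    · exact h0
  have hf : fullToLegE ↥K' (M * p) f₀ ≠ 0 :=
    (_root_.map_ne_zero (fullToLegE ↥K' (M * p))).mpr hyp.ne_zero
  have hUnode := ssModelLeg_nodeUnit ↥(baseRing A K') ↥K' (M := M) hϖ h2 hbez hp he hu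
  have hfr := isFractionRing_chartOne (R := ↥(baseRing A K')) (K₁ := ↥K')
    (E := ↥(legE ↥K' (M * p))) (AdjoinSimple.gen ↥K' (jqNModC ↥K' 2)) h'.j_adjoin
  obtain ⟨X, m, k, K, hX, hk, hXu, hUfact, hKm, hprop, hval⟩ :=
    legPeuNode_package_four HB hp hp2 hpM hA hyp hϖ h2 hbez hu hfinf hf0 h'.two.chart_le_inf
      h'.two.chart_le_zero hfr
  obtain ⟨mw, uw, hmw, hmwp, -, hζϖ⟩ := hyp.wild ϖ hϖ
  have harith : ∀ (nd : ChartNode (AdjoinSimple.gen ↥K' (jqNModC ↥K' 2))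
      (legWinf ↥(baseRing A K') ↥K' h2 (M * p)) (legW0 ↥(baseRing A K') ↥K' hbez hp)
      h'.two.chart_le_inf h'.two.chart_le_zero) (ordF x : ℤ), (p : ℤ) ∣ ordF - k nd * x →
      ((p : ℤ) ∣ ordF ∨ (p : ℤ) ∣ K nd) → (p : ℤ) ∣ ordF := fun nd ordF x h1 h2 =>
    dvd_ord_of_elim_four hp hp2 hϖ hyp.zeta hmw hmwp hζϖ hu (hKm nd).1 (hval nd) hdelta h1 h2
  have hjV : legJE ↥K' M ∈ legWinf ↥(baseRing A K') ↥K' h2 M := h'.jM_mem
  have hab' : ¬ (p : ℤ) ∣ a ℓ - ((ℓ : ℤ) + 1) := fun hd =>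
    hab (Int.modEq_iff_dvd.mpr (by
      have e : (ℓ : ℤ) + 1 - a ℓ = -(a ℓ - ((ℓ : ℤ) + 1)) := by ring
      rw [e]
      exact (dvd_neg.mpr hd)))
  -- the second node unit and its Hecke relation in divisor form
  have hWnode : NodeUnit ↥K' ϖ
      ((legHostA ↥K' M p : ↥(legE ↥K' M) →+* ↥(legE ↥K' (M * p))) (legJE ↥K' M))
      (legUnitFour ↥K' M p hp hp2) (4 * e) (legWinf ↥(baseRing A K') ↥K' h2 (M * p))
      (legW0 ↥(baseRing A K') ↥K' hbez hp) :=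
    ssModelLeg_nodeUnit_four ↥(baseRing A K') ↥K' hϖ h2 hbez hp hp2 he hu hmodel
  have hW1 : (legWinf ↥(baseRing A K') ↥K' h2 (M * p)).valuation (legUnitFour ↥K' M p hp hp2) = 1 :=
    valuation_eq_one_of_mem_of_inv_mem hWnode.ne_zero hWnode.mem_inf hWnode.inv_mem_inf
  haveI : CharZero ↥K' := algebraRat.charZero ↥K'
  have h256 : (256 : ↥(legE ↥K' (M * p))) ≠ 0 := by
    haveI : CharZero ↥(legE ↥K' (M * p)) :=
      charZero_of_injective_algebraMap (algebraMap ↥K' ↥(legE ↥K' (M * p))).injective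
    norm_num
  have hpdiv0 : ∀ z : legEt hA M hp2, z ≠ 0 →
      (∀ Q : Place (ResidueField ↥A) (legEt hA M hp2),
        ρ ⟨legJE ↥K' M, hjV⟩ ∈ Q.toValuationSubring → Q.ord z = 0) →
      ∀ Q : Place (ResidueField ↥A) (legEt hA M hp2),
        ρ ⟨legJE ↥K' M, hjV⟩ ∈ Q.toValuationSubring →
        Q.ord (legEtT hA M hp2 ℓ hℓ hℓ2 z) = 0 := by
    intro z hz h Q hQ'
    rw [hρj hjV] at hQ' h
    exact zero_dvd_iff.mp (legEtT_pdiv hA M hp2 ℓ hℓ hℓ2 hpM hpMℓ hfin hsep 0 z hz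
      (fun Q₁ hQ₁ => zero_dvd_iff.mpr (h Q₁ hQ₁)) Q hQ')
  have hTW := SSModel.hecke_div_of_legendre h' hϖ (by simp) (by simp) h256
    (legTE_rel_four ↥K' M) (legTE_sq_sub_add_one_ne_zero_four ↥K' M) hUnode (legE_cube_rel ↥K' hp hp2)
    ρ hρ res hρR hjV hU₀ hW₀ hlinkU hW1 hlinkW (legEtT hA M hp2 ℓ hℓ hℓ2) hpdiv0
    ((ℓ : ℤ) + 1) hTU
  exact SSModel.dvd_ord_red_of_hecke_div h' hϖ he hu
    (SSModelLeg.jint ↥(baseRing A K') ↥K' hϖ hmodel) ρ hρ res hres hρR hQ hjV hf hyp.ord hWnode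
    h'.two.chart_le_inf h'.two.chart_le_zero X k K hXu hk hUfact hprop harith hx₀ hW₀ hfinf hlink
    hlinkW (legEtT hA M hp2 ℓ hℓ hℓ2)
    (fun z hz h Q hQ' => by
      rw [hρj hjV] at hQ' h
      exact legEtT_pdiv hA M hp2 ℓ hℓ hℓ2 hpM hpMℓ hfin hsep (p : ℤ) z hz h Q hQ')
    (a ℓ) ((ℓ : ℤ) + 1) hab' hTF
    (fun Q hQ' => by rw [hTW Q hQ', sub_self]; exact dvd_zero _)

end Core

end Fermat.Agent.ML
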