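import Mathlib
import Fermat.Agent.MP.ORD_helper1_Main
import Fermat.Agent.MP.ORD_helper1_Final
import Fermat.Agent.ML.ORD3_helper8_Core

/-!
# ML (S59) — helper8 — [REMOVE-P] at `p = 3`, (R1) part 6: **`LegPeuOrdP 3`**

`legPeuOrdP_of_four : LegNormBCompat → LegDeltaLit → LegRedHeckeP → LegRhoBaseP → LegEtRationalP →
LegPeuOrdP 3` (proof of `MP.legPeuOrdP_of` with `legPeuOrd_core_four`), and
**`legPeuOrdP_three : LegPeuOrdP 3`** from the inputs proved on main.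
-/

set_option autoImplicit false
set_option linter.unusedSectionVars false
set_option linter.unusedVariables false
set_option linter.style.haveILetI false
set_option synthInstance.maxHeartbeats 400000

open HahnSeries IntermediateField AlgebraicCurve ModularCurve IsLocalRing

namespace Fermat.Agent.ML

open Fermat.Agent.JA Fermat.Agent.FF Fermat.Agent.SS Fermat.Agent.S35 Fermat.Agent.Igusa
  Fermat.Agent.NP Fermat.Agent.MW.NAdic Fermat.Agent.MW Fermat.Agent.FG Fermat.Agent.MP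

open scoped Fermat.Agent.JA.Host

/-- `Ω = AlgebraicClosure ℚ`. -/
local notation "Ω" => AlgebraicClosure ℚ

set_option maxHeartbeats 6400000 in
/-- **(C) [ORD] for every odd `p`** from the remaining host inputs. -/
theorem legPeuOrdP_of_four (HB : LegNormBCompat) (HD : LegDeltaLit) (HR : LegRedHeckeP)
    (Hρ : LegRhoBaseP) (HQ : LegEtRationalP) : LegPeuOrdP 3 := by
  intro M _ p _ _ _ hp2 hp5 hpM A hA K₁ _ K' _ ζ s S a f₀ hyp ϖ hϖ h2 ainf w₀ hw₀ hlink hW Q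
  classical
  have hp : p.Prime := Fact.out
  haveI : CharZero ↥(baseRing A K') := charZero_valuationSubring_of_algebraRat _
  letI := baseToComplex K'
  have hK' : IsBase p K' := hyp.base
  obtain ⟨x, y, hbez⟩ := exists_bezout_of_prime_of_not_dvd hp hpM
  haveI : IsAlgClosed (ResidueField ↥(baseRing A K')) := hK'.isAlgClosed_residueField hA
  have hpϖ := natCast_mem_span_uniformizer_baseRing hA K' hϖ
  have hmodel : SSModelLeg ↥(baseRing A K') ↥K' ϖ h2 hbez hp hp2 :=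
    ssModelLeg ↥(baseRing A K') ↥K' hϖ h2 hbez hp hp2 hpϖ
      (geoHyps_legE_baseRing hA M hpM hK' hp2 hϖ)
  haveI : FiniteDimensional ↥(↥K')⟮jqNModC ↥K' 2⟯ ↥(legE ↥K' (M * p)) :=
    finite_legE_adjoin_j ↥K' (M * p)
  have h' := SSModelLeg.ssModel ↥(baseRing A K') ↥K' hmodel
  have hp0 : ((p : ℕ) : ↥(baseRing A K')) ≠ 0 := Nat.cast_ne_zero.mpr hp.ne_zero
  obtain ⟨e, u, hu⟩ := IsDiscreteValuationRing.eq_unit_mul_pow_irreducible hp0 hϖ
  have he : 0 < e := by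
    rcases Nat.eq_zero_or_pos e with h0 | h0
    · exfalso
      rw [h0, pow_zero, mul_one] at hu
      have hu' : IsUnit ((p : ℕ) : ↥(baseRing A K')) := hu ▸ Units.isUnit _
      obtain ⟨z, hz⟩ := Ideal.mem_span_singleton.mp hpϖ
      rw [hz] at hu'
      exact hϖ.not_isUnit (isUnit_of_mul_isUnit_left hu')
    · exact h0
  set f : ↥(legE ↥K' (M * p)) := fullToLegE ↥K' (M * p) f₀ with hfdef
  have hf : f ≠ 0 := (_root_.map_ne_zero (fullToLegE ↥K' (M * p))).mpr hyp.ne_zero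
  set x₀ : ↥(legE ↥K' M) := fullToLegE ↥K' M w₀ with hx₀def
  have hx₀ : x₀ ∈ legWinf ↥(baseRing A K') ↥K' h2 M :=
    (ValuationSubring.valuation_le_one_iff _ _).mp hw₀.le
  -- the reduction map
  obtain ⟨ρ, res, hres, hρ, hρR, hρapp⟩ := Hρ M p hp2 hpM A hA K' hK' h2
  -- the Hecke operator
  obtain ⟨ℓ, hℓ, hℓS, hℓ2, hnEℓ⟩ := hyp.nonEis
  have hℓMp : ¬ ℓ ∣ M * p := fun h => hℓS (hyp.bad ℓ hℓ h)
  haveI : NeZero ℓ := ⟨hℓ.ne_zero⟩
  haveI : NeZero (M * ℓ) := ⟨Nat.mul_ne_zero (NeZero.ne M) hℓ.ne_zero⟩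
  haveI : NeZero (M * p * ℓ) := ⟨Nat.mul_ne_zero (NeZero.ne (M * p)) hℓ.ne_zero⟩
  have hℓp : ℓ ≠ p := fun h => hℓMp (h ▸ Dvd.intro_left M rfl)
  have hpMℓ : ¬ p ∣ M * ℓ := by
    intro h
    rcases (Nat.Prime.dvd_mul hp).mp h with h1 | h1
    · exact hpM h1
    · exact hℓp ((Nat.prime_dvd_prime_iff_eq hp hℓ).mp h1).symm
  obtain ⟨cH, uH, hcH, huH, hrel⟩ := hyp.hecke ℓ hℓ hℓS
  have hhost : legHeckeP ↥K' (M * p) ℓ hℓ hℓ2 f =
      algebraMap ↥K' ↥(legE ↥K' (M * p)) cH * f ^ (a ℓ) * fullToLegE ↥K' (M * p) uH ^ p := by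
    rw [hfdef, legHeckeP_fullToLegE_base (M * p) ℓ hℓ hℓ2 hℓMp K' f₀, hrel, map_mul, map_mul,
      map_zpow₀, map_pow, AlgHom.commutes]
  -- the orders along the two sheets
  have hAx₀ : (legWinf ↥(baseRing A K') ↥K' h2 (M * p)).valuation (legHostA ↥K' M p x₀) = 1 := by
    have h1 : legHostA ↥K' M p x₀ ∈ legWinf ↥(baseRing A K') ↥K' h2 (M * p) :=
      map_mem_of_comap _ _ _ h'.comap_A_inf hx₀
    refine le_antisymm ((ValuationSubring.valuation_le_one_iff _ _).mpr h1) ?_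
    by_contra hlt
    have h2' := valuation_lt_one_of_comap _ _ _ h'.comap_A_inf (not_le.mp hlt)
    rw [hw₀] at h2'
    exact lt_irrefl _ h2'
  have hfinf : (legWinf ↥(baseRing A K') ↥K' h2 (M * p)).valuation
      (f * (algebraMap ↥(baseRing A K') ↥(legE ↥K' (M * p)) ϖ ^ ainf)⁻¹) = 1 := by
    have e1 : f * (algebraMap ↥(baseRing A K') ↥(legE ↥K' (M * p)) ϖ ^ ainf)⁻¹ =
        (f * (algebraMap ↥(baseRing A K') ↥(legE ↥K' (M * p)) ϖ ^ ainf)⁻¹ -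
          legHostA ↥K' M p x₀) + legHostA ↥K' M p x₀ := by ring
    rw [e1, Valuation.map_add_eq_of_lt_right _ (by rw [hAx₀]; exact hlink), hAx₀]
  obtain ⟨a0, hf0⟩ := SSModel.exists_zpow_val_eq_one_zero h' he hu hf
  -- [DELTA]
  have hdelta : (p : ℤ) ∣ a0 - ainf :=
    HD M p hp hp2 hpM A hA K' hK' ϖ hϖ h2 hbez ℓ hℓ hℓ2 hℓMp (a ℓ) hnEℓ f hf
      ⟨cH, fullToLegE ↥K' (M * p) uH, hcH,
        (_root_.map_ne_zero (fullToLegE ↥K' (M * p))).mpr huH, hhost⟩ ainf a0 hfinf hf0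
  -- the node unit
  have hUnode := ssModelLeg_nodeUnit ↥(baseRing A K') ↥K' (M := M) hϖ h2 hbez hp he hu
  set U : ↥(legE ↥K' (M * p)) :=
    fullToLegE ↥K' (M * p) (modUnit ↥K' (M * p) p (Dvd.intro_left M rfl)) with hUdef
  obtain ⟨U₀, hU₀, hlinkU⟩ := h'.res_inf U hUnode.mem_inf
  have hU1 : (legWinf ↥(baseRing A K') ↥K' h2 (M * p)).valuation U = 1 :=
    valuation_eq_one_of_mem_of_inv_mem hUnode.ne_zero hUnode.mem_inf hUnode.inv_mem_inf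
  have hUrel : legHeckeP ↥K' (M * p) ℓ hℓ hℓ2 U =
      algebraMap ↥K' ↥(legE ↥K' (M * p)) 1 * U ^ ((ℓ : ℤ) + 1) * (1 : ↥(legE ↥K' (M * p))) ^ 0 := by
    rw [hUdef, legHeckeP_fullToLegE_modUnit M p ℓ hℓ hℓ2 hℓMp K', map_one, one_mul, pow_zero,
      mul_one]
    norm_cast
  -- the second node unit
  have hWnode : NodeUnit ↥K' ϖ
      ((legHostA ↥K' M p : ↥(legE ↥K' M) →+* ↥(legE ↥K' (M * p))) (legJE ↥K' M))
      (legUnitFour ↥K' M p hp hp2) (4 * e) (legWinf ↥(baseRing A K') ↥K' h2 (M * p))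
      (legW0 ↥(baseRing A K') ↥K' hbez hp) :=
    ssModelLeg_nodeUnit_four ↥(baseRing A K') ↥K' hϖ h2 hbez hp hp2 he hu hmodel
  obtain ⟨W₀, hW₀, hlinkW⟩ := h'.res_inf (legUnitFour ↥K' M p hp hp2) hWnode.mem_inf
  -- the reduced Hecke relations
  have hTF := HR M p hp hp2 hpM A hA K' hK' ϖ hϖ h2 ℓ hℓ hℓ2 hℓMp ρ hρapp (a ℓ) p f hf
    ⟨cH, fullToLegE ↥K' (M * p) uH, hcH, (_root_.map_ne_zero (fullToLegE ↥K' (M * p))).mpr huH,
      hhost⟩ ainf x₀ hx₀ hfinf hlink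
  have hTU0 := HR M p hp hp2 hpM A hA K' hK' ϖ hϖ h2 ℓ hℓ hℓ2 hℓMp ρ hρapp ((ℓ : ℤ) + 1) 0 U
    hUnode.ne_zero ⟨1, 1, one_ne_zero, one_ne_zero, hUrel⟩ 0 U₀ hU₀
    (by rw [zpow_zero, inv_one, mul_one]; exact hU1)
    (by rw [zpow_zero, inv_one, mul_one]; exact hlinkU)
  have hTU : ∃ c : ResidueField ↥A, c ≠ 0 ∧
      legEtT hA M hp2 ℓ hℓ hℓ2 (ρ ⟨U₀, hU₀⟩) =
        algebraMap (ResidueField ↥A) (legEt hA M hp2) c * ρ ⟨U₀, hU₀⟩ ^ ((ℓ : ℤ) + 1) := by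
    obtain ⟨c, v, hc, -, hcv⟩ := hTU0
    exact ⟨c, hc, by rw [hcv, pow_zero, mul_one]⟩
  -- the core
  have hjρ : ∀ hj : legJE ↥K' M ∈ legWinf ↥(baseRing A K') ↥K' h2 M,
      ρ ⟨legJE ↥K' M, hj⟩ = legJt M hA hp2 := by
    intro hj
    have hWj : legBC M K' (legJE ↥K' M) ∈ legWE hA M hp2 := by
      rw [legBC_legJE]; exact legJE_mem_legWE M hA hp2
    rw [hρapp _ hj hWj]
    show legρ hA M hp2 ⟨legBC M K' (legJE ↥K' M), hWj⟩ =
      legρ hA M hp2 ⟨legJE Ω M, legJE_mem_legWE M hA hp2⟩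
    congr 1
    exact Subtype.ext (legBC_legJE M K')
  have hcore := legPeuOrd_core_four HB hp hp2 hpM hA hyp hϖ h2 hbez ρ hρ res hres hρR hjρ
    (HQ M p hp2 hpM A hA) ℓ hℓ hℓ2 hpMℓ (finite_legEtA hA M hp2 ℓ hpMℓ)
    (isSeparable_legEtA hA M hp2 ℓ hpMℓ) hnEℓ hfinf hf0 hdelta hx₀ hU₀ hW₀ hlink hlinkU hlinkW hTF hTU Q
  have hWx : legBC M K' x₀ ∈ legWE hA M hp2 := by
    rw [hx₀def, legBC_fullToLegE]; exact hW
  rw [hρapp x₀ hx₀ hWx] at hcore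
  have e2 : (⟨legBC M K' x₀, hWx⟩ : ↥(legWE hA M hp2)) =
      ⟨fullToLegE Ω M (keyFqBC M K' w₀), hW⟩ := Subtype.ext (legBC_fullToLegE M K' w₀)
  rw [e2] at hcore
  exact hcore

/-- **(C) [ORD] for every odd prime `p`.** -/
theorem legPeuOrdP_three : LegPeuOrdP 3 :=
  legPeuOrdP_of_four legNormBCompat legDeltaLit legRedHeckeP legRhoBaseP legEtRationalP

end Fermat.Agent.ML
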