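/-
PROJECT ML (S59) — helper8 — **[REMOVE-P] at `p = 3`, (R2), part 4: [ROLD-HOST] with the
hypothesis `p ∤ |deck group|`** instead of `p ≠ 3` (ports of helper3's
`legHost_exists_invariant_lift` and of `resOccurs_of_dlog_host(_q)`; the only use of `p ≠ 3` was
the invertibility of the order of the deck group of the Legendre host in the averaging (N5)).
-/
import Mathlib
import Fermat.Agent.MP.ROLDQ_helper8_HostQ

set_option autoImplicit false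
set_option linter.unusedSectionVars false
set_option linter.unusedVariables false
set_option linter.style.haveILetI false
set_option synthInstance.maxHeartbeats 400000
set_option maxHeartbeats 1600000

open AlgebraicCurve IsLocalRing ModularCurve CongruenceSubgroup ModularFormClass

namespace Fermat.Agent.ML

open Fermat.Agent.FF Fermat.Agent.JA Fermat.Agent.FG Fermat.Agent.MW Fermat.Agent.S36
  Fermat.Agent.X0N Fermat.Agent.X0N.Dict Fermat.Agent.SS Fermat.Agent.DS48 Fermat.Agent.MP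
open scoped Classical

local notation "Ω" => AlgebraicClosure ℚ

noncomputable section

section Lift

variable {p : ℕ} [Fact p.Prime] {A : ValuationSubring Ω} (hA : A.LiesOverPrime p)
  {M : ℕ} [NeZero M] (hpM : ¬ p ∣ M) (hp2 : p ≠ 2)
  {DE : Derivation Ω ↥(legE Ω M) ↥(legE Ω M)}

include hA in
theorem legHost_card_inv_mem_of_not_dvd
    (hcard : ¬ p ∣ Fintype.card ↥(deckGroup (fullToLegE Ω M))) :
    ((Fintype.card ↥(deckGroup (fullToLegE Ω M)) : Ω))⁻¹ ∈ A := by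
  rw [← A.valuation_le_one_iff, map_inv₀,
    Fermat.Agent.TW.Kill.valuation_natCast_eq_one (Fact.out : p.Prime) hcard hA, inv_one]

/-- **(N5) on the host, with the descent to `X₀(M)`**, under `p ∤ |deck group|`. -/
theorem legHost_exists_invariant_lift_of_not_dvd
    (hcard : ¬ p ∣ Fintype.card ↥(deckGroup (fullToLegE Ω M)))
    (hDE : ∀ f : FunN M, DE (fullToLegE Ω M f) = fullToLegE Ω M (derJ M f))
    {hb : legEt hA M hp2} (hhb : hb ∈ regSpace (canBar (legGoodRed hA M hpM hp2) (derCan DE)))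
    (hinv : ∀ g ∈ deckGroup (fullToLegE Ω M), ∀ (f : ↥(legE Ω M))
      (hf : f ∈ legWE hA M hp2) (hgf : g • f ∈ legWE hA M hp2),
      legρ hA M hp2 ⟨f, hf⟩ = hb → legρ hA M hp2 ⟨g • f, hgf⟩ = hb) :
    ∃ (h₀ : FunN M) (hW : fullToLegE Ω M h₀ ∈ legWE hA M hp2),
      fullToLegE Ω M h₀ ∈ regSpace (derCan DE) ∧
        legρ hA M hp2 ⟨fullToLegE Ω M h₀, hW⟩ = hb := by
  obtain ⟨hD, hκ, hdeg, hfin, hdim⟩ := legHost_RR hA hpM hp2 hDE
  obtain ⟨h, hW, hV, hfix, hρ⟩ := exists_invariant_lift_regSpace_deck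
    (X := legGoodRed hA M hpM hp2) (v := A.valuation) A.valuationSubring_valuation hD hκ
    (legHost_isNormalisedDer hA hpM hp2 hDE) hdeg.le hfin hdim
    (deckGroup (fullToLegE Ω M)) (fun g hg => isDeckAut_leg M hA hpM hp2 hg)
    legHost_card_ne_zero (legHost_card_inv_mem_of_not_dvd hA hcard)
    (fun g hg f => legHost_der_comm hDE hg f) hhb hinv
  obtain ⟨h₀, rfl⟩ := legHost_exists_of_deck_fixed hfix
  exact ⟨h₀, hW, hV, hρ⟩

end Lift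

section Fin

variable (M' : ℕ) [NeZero M'] {p : ℕ} [Fact p.Prime] {A : ValuationSubring Ω}
  (hA : A.LiesOverPrime p) (hpM : ¬ p ∣ M') (hp2 : p ≠ 2)

local notation "𝕏" => legGoodRed hA M' hpM hp2

include hpM in
/-- **[ROLD-HOST]** with the hypothesis `p ∤ |deck group|` instead of `p ≠ 3`. -/
theorem resOccurs_of_dlog_host_of_not_dvd
    (hcard : ¬ p ∣ Fintype.card ↥(deckGroup (fullToLegE Ω M')))
    (S : Set ℕ) (a : ℕ → ℤ) (hS : ∀ ℓ : ℕ, ℓ.Prime → ℓ ∣ M' → ℓ ∈ S)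
    (f₃ : ↥(keyFq Ω M')) (hW : fullToLegE Ω M' f₃ ∈ legWE hA M' hp2)
    (hnp : ¬ ∃ g : legEt hA M' hp2, legρ hA M' hp2 ⟨fullToLegE Ω M' f₃, hW⟩ = g ^ p)
    (hord : ∀ Q : Place (ResidueField ↥A) (legEt hA M' hp2),
      (p : ℤ) ∣ Q.ord (legρ hA M' hp2 ⟨fullToLegE Ω M' f₃, hW⟩))
    (b : ℕ → ResidueField ↥A)
    (hb : ∀ n : ℕ, b n =
      (eulerD (ResidueField ↥A) (legEtEmb hA M' hp2 (legρ hA M' hp2 ⟨fullToLegE Ω M' f₃, hW⟩)) /
        legEtEmb hA M' hp2 (legρ hA M' hp2 ⟨fullToLegE Ω M' f₃, hW⟩)).coeff (2 * (n : ℤ)))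
    (hE : ∀ ℓ : ℕ, ℓ.Prime → ℓ ∉ S → ∀ n,
      b (n * ℓ) + (if ℓ ∣ n then (ℓ : ResidueField ↥A) * b (n / ℓ) else 0) =
        (a ℓ : ResidueField ↥A) * b n) :
    ResOccurs M' p S a := by
  classical
  have hp : p.Prime := Fact.out
  haveI : CharP (ResidueField ↥A) p := charP_residueField hA
  haveI : IsAlgClosed (ResidueField ↥A) := Fermat.Agent.DS48.VALSUB.isAlgClosed_residueField A
  obtain ⟨DE, hext⟩ := exists_derivation_extension (fullToLegE Ω M')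
    (finiteAlong_fullToLegE M') (derJ M')
  obtain ⟨hD, hκ, hdeg, hfin, hdim⟩ := legHost_RR hA hpM hp2 hext
  have hn := legHost_isNormalisedDer hA hpM hp2 hext
  have hv : (A.valuation).valuationSubring = A := A.valuationSubring_valuation
  set φ := fullToLegE Ω M' with hφdef
  set fb : legEt hA M' hp2 := legρ hA M' hp2 ⟨φ f₃, hW⟩ with hfb
  have hfb0 : fb ≠ 0 := by
    intro h0
    exact hnp ⟨0, by rw [h0, zero_pow hp.ne_zero]⟩
  have hφ0 : φ f₃ ≠ 0 := (𝕏).ρ_ne_zero_imp_ne_zero hW hfb0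
  set Db := derBar (𝕏) DE hv hD hn with hDb
  have hDbρ : ∀ (f : ↥(legE Ω M')) (hf : f ∈ (𝕏).W) (hDf : DE f ∈ (𝕏).W),
      Db ((𝕏).ρ ⟨f, hf⟩) = (𝕏).ρ ⟨DE f, hDf⟩ := derBar_ρ hv hD hn
  have hDbdat : IsDerDatum Db (canBar (𝕏) (derCan DE)) :=
    isDerDatum_derBar hv hD hκ hn p Db hDbρ
  have hdlog : Db fb / fb ∈ regSpace (canBar (𝕏) (derCan DE)) :=
    dlog_mem_regSpace p hDbdat (𝕏).deg_red hfb0 hord
  -- the invariant Gauss-integral function `h₁ = dlog f₃`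
  have hDW : DE (φ f₃) ∈ (𝕏).W := der_mem_W hv hD hn hW
  have hinvW : (φ f₃)⁻¹ ∈ (𝕏).W := ((𝕏).inv_mem_W_iff hW hφ0).mpr hfb0
  set h₁ : ↥(legE Ω M') := φ (derJ M' f₃ / f₃) with hh₁def
  have hh₁ : h₁ = DE (φ f₃) * (φ f₃)⁻¹ := by
    rw [hh₁def, map_div₀, hext, div_eq_mul_inv]
  have h₁W : h₁ ∈ (𝕏).W := by
    rw [hh₁]
    exact (𝕏).W.mul_mem _ _ hDW hinvW
  have hρinv : (𝕏).ρ ⟨(φ f₃)⁻¹, hinvW⟩ = fb⁻¹ := by
    have h1 : (⟨φ f₃, hW⟩ : ↥(𝕏).W) * ⟨(φ f₃)⁻¹, hinvW⟩ = 1 :=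
      Subtype.ext (mul_inv_cancel₀ hφ0)
    have h2 := congrArg (𝕏).ρ h1
    rw [map_mul, map_one] at h2
    exact eq_inv_of_mul_eq_one_right h2
  have hρh₁ : (𝕏).ρ ⟨h₁, h₁W⟩ = Db fb / fb := by
    have h1 : (⟨h₁, h₁W⟩ : ↥(𝕏).W) = ⟨DE (φ f₃), hDW⟩ * ⟨(φ f₃)⁻¹, hinvW⟩ := Subtype.ext hh₁
    rw [h1, map_mul, ← hDbρ _ hW hDW, hρinv, div_eq_mul_inv]
    rfl
  have hinv : ∀ g ∈ deckGroup (fullToLegE Ω M'), ∀ (f : ↥(legE Ω M'))
      (hf : f ∈ legWE hA M' hp2) (hgf : g • f ∈ legWE hA M' hp2),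
      legρ hA M' hp2 ⟨f, hf⟩ = Db fb / fb → legρ hA M' hp2 ⟨g • f, hgf⟩ = Db fb / fb := by
    intro g hg f hf hgf hρf
    have hgh₁ : g • h₁ = h₁ := by
      obtain ⟨σ, hσ, rfl⟩ := mem_deckGroup.mp hg
      rw [ofAlgAut_smul]
      exact hσ _
    have hgh₁W : g • h₁ ∈ (𝕏).W := by rw [hgh₁]; exact h₁W
    have h1 := ρ_smul_congr (X := 𝕏) (isDeckAut_leg M' hA hpM hp2 hg) hf h₁W hgf hgh₁W
      (hρf.trans hρh₁.symm)
    have h2 : (⟨g • h₁, hgh₁W⟩ : ↥(𝕏).W) = ⟨h₁, h₁W⟩ := Subtype.ext hgh₁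
    rw [h2, hρh₁] at h1
    exact h1
  obtain ⟨h₀, hhW, hhV, hhρ⟩ := legHost_exists_invariant_lift_of_not_dvd hA hpM hp2 hcard hext hdlog hinv
  exact resOccurs_of_regular_lift M' hA hpM hp2 hv DE hext hD hκ hn S a hS f₃ hW hnp b hb hE
    h₀ hhW hhV hhρ


include hpM in
/-- **[ROLD-HOST] in `q`-currency**, with the hypothesis `p ∤ |deck group|`. -/
theorem resOccurs_of_dlog_host_q_of_not_dvd
    (hcard : ¬ p ∣ Fintype.card ↥(deckGroup (fullToLegE Ω M')))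
    (S : Set ℕ) (a : ℕ → ℤ) (hS : ∀ ℓ : ℕ, ℓ.Prime → ℓ ∣ M' → ℓ ∈ S)
    (f₃ : ↥(keyFq Ω M')) (hq : (f₃ : LaurentSeries Ω) ∈ fracInt A)
    (hnp : ¬ ∃ g : legEt hA M' hp2, legρ hA M' hp2
      ⟨fullToLegE Ω M' f₃, fullToLegE_mem_legWE_of_mem_fracInt M' hA hp2 f₃ hq⟩ = g ^ p)
    (hord : ∀ Q : Place (ResidueField ↥A) (legEt hA M' hp2),
      (p : ℤ) ∣ Q.ord (legρ hA M' hp2
        ⟨fullToLegE Ω M' f₃, fullToLegE_mem_legWE_of_mem_fracInt M' hA hp2 f₃ hq⟩))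
    (b : ℕ → ResidueField ↥A)
    (hb : ∀ n : ℕ, b n =
      (eulerD (ResidueField ↥A) (fracRed A ⟨(f₃ : LaurentSeries Ω), hq⟩) /
        fracRed A ⟨(f₃ : LaurentSeries Ω), hq⟩).coeff (n : ℤ))
    (hE : ∀ ℓ : ℕ, ℓ.Prime → ℓ ∉ S → ∀ n,
      b (n * ℓ) + (if ℓ ∣ n then (ℓ : ResidueField ↥A) * b (n / ℓ) else 0) =
        (a ℓ : ResidueField ↥A) * b n) :
    ResOccurs M' p S a := by
  classical
  set Fb := fracRed A ⟨(f₃ : LaurentSeries Ω), hq⟩ with hFb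
  refine resOccurs_of_dlog_host_of_not_dvd M' hA hpM hp2 hcard S a hS f₃
    (fullToLegE_mem_legWE_of_mem_fracInt M' hA hp2 f₃ hq) hnp hord (fun n => 2 * b n) ?_ ?_
  · intro n
    rw [legEtEmb_legρ_fullToLegE M' hA hp2 f₃ hq, ← hFb, eulerD_qExpand, mul_div_assoc,
      ← map_div₀, hb n]
    have h2 : ∀ (Y : LaurentSeries (ResidueField ↥A)) (j : ℤ),
        (((2 : ℕ) : LaurentSeries (ResidueField ↥A)) * Y).coeff j = 2 * Y.coeff j := by
      intro Y j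
      rw [Nat.cast_ofNat, two_mul, HahnSeries.coeff_add, two_mul]
    rw [h2]
    have : ((2 : ℕ) : ℤ) * (n : ℤ) = 2 * (n : ℤ) := by norm_num
    rw [← this, qExpand_coeff_mul]
  · intro ℓ hℓ hℓS n
    have := hE ℓ hℓ hℓS n
    split_ifs at this ⊢ with hdvd
    · rw [← mul_assoc, mul_comm (ℓ : ResidueField ↥A) 2, mul_assoc, ← mul_add, this]
      ring
    · rw [add_zero] at this ⊢
      rw [this]
      ring

end Fin

end

end Fermat.Agent.ML
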