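/-
PROJECT ML (S59) — helper8 — **[REMOVE-P] at `p = 3`, (R2), part 5: the dichotomy (2a) along `W_∞`
at ONE level `(M, p)`**, under the hypothesis that the order of the deck group of the Legendre host
over `X₀(M)` is prime to `p` (port of lead's `legPeuInfP_of`; the hypothesis `4 ≤ p₀` was used only
through `p ≠ 3` in `resOccurs_of_dlog_host_q`).
-/
import Mathlib
import Fermat.Agent.MP.KPBASE_lead_Inf
import Fermat.Agent.ML.REMP3_helper8_Host

set_option autoImplicit false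
set_option linter.unusedSectionVars false
set_option linter.unusedVariables false
set_option linter.style.haveILetI false
set_option synthInstance.maxHeartbeats 400000

open HahnSeries IntermediateField AlgebraicCurve ModularCurve IsLocalRing

namespace Fermat.Agent.ML

open Fermat.Agent.JA Fermat.Agent.FF Fermat.Agent.SS Fermat.Agent.S35 Fermat.Agent.NP
  Fermat.Agent.FG Fermat.Agent.Igusa Fermat.Agent.S36 Fermat.Agent.MP Fermat.Agent.MW

open scoped Fermat.Agent.JA.Host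
open scoped Classical

/-- `Ω = AlgebraicClosure ℚ`. -/
local notation "Ω" => AlgebraicClosure ℚ

/-- **(2a) at the level `(M, p)`**: the dichotomy along `W_∞` over the small base. -/
def LegPeuInfAt (M p : ℕ) [NeZero M] [NeZero p] [NeZero (M * p)] [Fact p.Prime] : Prop :=
  ∀ (hp2 : p ≠ 2), ¬ p ∣ M →
  ∀ (A : ValuationSubring Ω) (hA : A.LiesOverPrime p)
    (K₁ : IntermediateField ℚ Ω) [Normal ℚ ↥K₁] (K' : IntermediateField ℚ Ω)
    [IsDiscreteValuationRing ↥(baseRing A K')]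
    (ζ : ↥(baseRing A K')) (s : ↥K' ≃ₐ[ℚ] ↥K') (S : Set ℕ) (a : ℕ → ℤ)
    (f₀ : ↥(keyFq ↥K' (M * p))), LegPeuHyp p M A K₁ K' ζ s S a f₀ →
  (∃ (ϖ : ↥(baseRing A K')) (h2 : IsUnit (2 : ↥(baseRing A K'))) (c : ↥K'),
      Irreducible ϖ ∧ c ≠ 0 ∧
      ValDepth ϖ p (legWinf ↥(baseRing A K') ↥K' h2 (M * p)) 1
        (fullToLegE ↥K' (M * p) f₀) c) ∨
    ResOccurs M p S a

theorem LegPeuInfP.at {p₀ : ℕ} (h : LegPeuInfP p₀) (M p : ℕ) [NeZero M] [NeZero p]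
    [NeZero (M * p)] [Fact p.Prime] (hp₀p : p₀ ≤ p) : LegPeuInfAt M p :=
  fun hp2 hpM => h M p hp2 hp₀p hpM

section Main

set_option maxHeartbeats 6400000 in
/-- **(2a) at one level**: the dichotomy along `W_∞` over the small base, from (C) [ORD],
[KEYFQ-RESINF] and [RQ4-HOST], when the order of the deck group of the Legendre host is prime to
`p`. -/
theorem legPeuInfAt_of (M p : ℕ) [NeZero M] [NeZero p] [NeZero (M * p)] [Fact p.Prime]
    (hcard : ¬ p ∣ Fintype.card ↥(deckGroup (fullToLegE Ω M)))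
    (p₀ : ℕ) (hp₀p : p₀ ≤ p) (HO : LegPeuOrdP p₀) (HR : KeyFqResInfP)
    (HQ : Rq4HostP) : LegPeuInfAt M p := by
  intro hp2 hpM A hA K₁ _ K' _ ζ s S a f₀ H
  classical
  have hp : p.Prime := Fact.out
  haveI : CharZero ↥(baseRing A K') := charZero_valuationSubring_of_algebraRat _
  obtain ⟨ϖ, hϖ⟩ := IsDiscreteValuationRing.exists_irreducible ↥(baseRing A K')
  have h2 : IsUnit (2 : ↥(baseRing A K')) := isUnit_ofNat_baseRing hA K' Nat.prime_two hp2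
  obtain ⟨x, y, hbez⟩ := exists_bezout_of_prime_of_not_dvd hp hpM
  letI := baseToComplex K'
  haveI : IsAlgClosed (ResidueField ↥(baseRing A K')) := H.base.isAlgClosed_residueField hA
  have hpϖ := natCast_mem_span_uniformizer_baseRing hA K' hϖ
  have hmodel : SSModelLeg ↥(baseRing A K') ↥K' ϖ h2 hbez hp hp2 :=
    ssModelLeg ↥(baseRing A K') ↥K' hϖ h2 hbez hp hp2 hpϖ
      (geoHyps_legE_baseRing hA M hpM H.base hp2 hϖ)
  haveI : FiniteDimensional ↥(↥K')⟮jqNModC ↥K' 2⟯ ↥(legE ↥K' (M * p)) :=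
    finite_legE_adjoin_j ↥K' (M * p)
  have h' := SSModelLeg.ssModel ↥(baseRing A K') ↥K' hmodel
  -- `p = ε ϖ ^ e₁`
  have hp0 : ((p : ℕ) : ↥(baseRing A K')) ≠ 0 := Nat.cast_ne_zero.mpr hp.ne_zero
  obtain ⟨e₁, ε, hpe⟩ := IsDiscreteValuationRing.eq_unit_mul_pow_irreducible hp0 hϖ
  have he₁ : 0 < e₁ := by
    rcases Nat.eq_zero_or_pos e₁ with h0 | h0
    · exfalso
      rw [h0, pow_zero, mul_one] at hpe
      have hu : IsUnit ((p : ℕ) : ↥(baseRing A K')) := hpe ▸ Units.isUnit _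
      obtain ⟨z, hz⟩ := Ideal.mem_span_singleton.mp hpϖ
      rw [hz] at hu
      exact hϖ.not_isUnit (isUnit_of_mul_isUnit_left hu)
    · exact h0
  -- the function on the host and its order along `W_∞`
  have hf : fullToLegE ↥K' (M * p) f₀ ≠ 0 := (map_ne_zero (fullToLegE ↥K' (M * p))).mpr H.ne_zero
  obtain ⟨ainf, hfa⟩ := SSModel.exists_zpow_val_eq_one_inf h' he₁ hpe hf
  have hRN : ∀ r : ↥(baseRing A K'), algebraMap ↥(baseRing A K') ↥(legE ↥K' (M * p)) r =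
      algebraMap ↥K' ↥(legE ↥K' (M * p)) (algebraMap ↥(baseRing A K') ↥K' r) :=
    fun r => IsScalarTower.algebraMap_apply ↥(baseRing A K') ↥K' ↥(legE ↥K' (M * p)) r
  have hϖK : algebraMap ↥(baseRing A K') ↥K' ϖ ≠ 0 := by
    rw [Ne, map_eq_zero_iff _ (IsFractionRing.injective ↥(baseRing A K') ↥K')]
    exact hϖ.ne_zero
  obtain ⟨d, hd⟩ : ∃ d : ↥K', d = algebraMap ↥(baseRing A K') ↥K' ϖ ^ ainf := ⟨_, rfl⟩
  have hd0 : d ≠ 0 := hd ▸ zpow_ne_zero ainf hϖK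
  have hdE : algebraMap ↥K' ↥(legE ↥K' (M * p)) d =
      algebraMap ↥(baseRing A K') ↥(legE ↥K' (M * p)) ϖ ^ ainf := by
    rw [hd, map_zpow₀, ← hRN]
  -- the Gauss unit at the level of `F_{Mp}`
  obtain ⟨f₁, hf₁⟩ : ∃ f₁ : ↥(keyFq ↥K' (M * p)),
      f₁ = f₀ * (algebraMap ↥K' ↥(keyFq ↥K' (M * p)) d)⁻¹ := ⟨_, rfl⟩
  have hf₁E : fullToLegE ↥K' (M * p) f₁ = fullToLegE ↥K' (M * p) f₀ *
      (algebraMap ↥(baseRing A K') ↥(legE ↥K' (M * p)) ϖ ^ ainf)⁻¹ := by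
    rw [hf₁, map_mul, map_inv₀, AlgHom.commutes, hdE]
  have hf₁v : (keyFqWinf ↥(baseRing A K') ↥K' (M * p)).valuation f₁ = 1 := by
    have h1 := kp_comap_val_eq_one_iff (legWinf ↥(baseRing A K') ↥K' h2 (M * p))
      (fullToLegE ↥K' (M * p) : ↥(keyFq ↥K' (M * p)) →+* ↥(legE ↥K' (M * p)))
      (xport_legWinf_comap ↥(baseRing A K') ↥K' h2 (M * p)) f₁
    refine h1.mp ?_
    show (legWinf ↥(baseRing A K') ↥K' h2 (M * p)).valuation (fullToLegE ↥K' (M * p) f₁) = 1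
    rw [hf₁E]
    exact hfa
  have hf₁mem : f₁ ∈ keyFqWinf ↥(baseRing A K') ↥K' (M * p) := kp_mem_of_val_eq_one _ hf₁v
  obtain ⟨w₀, hw₀, hres⟩ := HR M p hpM A hA K' H.base f₁ hf₁mem
  -- on the host
  have hresE : (legWinf ↥(baseRing A K') ↥K' h2 (M * p)).valuation
      (fullToLegE ↥K' (M * p) f₀ *
        (algebraMap ↥(baseRing A K') ↥(legE ↥K' (M * p)) ϖ ^ ainf)⁻¹ -
        legHostA ↥K' M p (fullToLegE ↥K' M w₀)) < 1 := by
    have h1 := (comap_val_lt_one_iff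
      (fullToLegE ↥K' (M * p) : ↥(keyFq ↥K' (M * p)) →+* ↥(legE ↥K' (M * p)))
      (xport_legWinf_comap ↥(baseRing A K') ↥K' h2 (M * p)) (f₁ - keyFqA ↥K' M p w₀)).mpr hres
    have h2' : (fullToLegE ↥K' (M * p) : ↥(keyFq ↥K' (M * p)) →+* ↥(legE ↥K' (M * p)))
        (f₁ - keyFqA ↥K' M p w₀) = fullToLegE ↥K' (M * p) f₀ *
        (algebraMap ↥(baseRing A K') ↥(legE ↥K' (M * p)) ϖ ^ ainf)⁻¹ -
        legHostA ↥K' M p (fullToLegE ↥K' M w₀) := by
      show fullToLegE ↥K' (M * p) (f₁ - keyFqA ↥K' M p w₀) = _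
      rw [map_sub, hf₁E, xport_fullToLegE_keyFqA]
    rwa [h2'] at h1
  have hAWv : (legWinf ↥(baseRing A K') ↥K' h2 (M * p)).valuation
      (legHostA ↥K' M p (fullToLegE ↥K' M w₀)) = 1 := kp_val_eq_one_of_sub_lt _ hfa hresE
  have hWv : (legWinf ↥(baseRing A K') ↥K' h2 M).valuation (fullToLegE ↥K' M w₀) = 1 :=
    (kp_comap_val_eq_one_iff (legWinf ↥(baseRing A K') ↥K' h2 (M * p))
      (legHostA ↥K' M p : ↥(legE ↥K' M) →+* ↥(legE ↥K' (M * p))) h'.comap_A_inf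
      (fullToLegE ↥K' M w₀)).mp hAWv
  have hWmem : fullToLegE ↥K' M w₀ ∈ legWinf ↥(baseRing A K') ↥K' h2 M :=
    kp_mem_of_val_eq_one _ hWv
  have hBC : legBC M K' (fullToLegE ↥K' M w₀) = fullToLegE Ω M (keyFqBC M K' w₀) :=
    bcdeg_legBC_fullToLegE M K' w₀
  have hWE' : legBC M K' (fullToLegE ↥K' M w₀) ∈ legWE hA M hp2 :=
    (legBC_mem_legWE_iff hA M K' hp2 _).2 hWmem
  have hWE : fullToLegE Ω M (keyFqBC M K' w₀) ∈ legWE hA M hp2 := hBC ▸ hWE'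
  by_cases hcase : ∃ g : legEt hA M hp2,
      legρ hA M hp2 ⟨fullToLegE Ω M (keyFqBC M K' w₀), hWE⟩ = g ^ p
  · -- Case 1
    left
    obtain ⟨g, hg⟩ := hcase
    have hg' : legρ hA M hp2 ⟨legBC M K' (fullToLegE ↥K' M w₀), hWE'⟩ = g ^ p := by
      rw [← hg]
      congr 1
      exact Subtype.ext hBC
    obtain ⟨b, hb, hbv⟩ := exists_pow_approx_of_legρ_eq_pow hA M hpM H.base hp2 h2
      (fullToLegE ↥K' M w₀) hWmem hWE' g hg'
    have hAb : (legWinf ↥(baseRing A K') ↥K' h2 (M * p)).valuation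
        (legHostA ↥K' M p (fullToLegE ↥K' M w₀) - legHostA ↥K' M p b ^ p) < 1 := by
      have h1 := (comap_val_lt_one_iff
        (legHostA ↥K' M p : ↥(legE ↥K' M) →+* ↥(legE ↥K' (M * p))) h'.comap_A_inf
        (fullToLegE ↥K' M w₀ - b ^ p)).mpr hbv
      have h2' : (legHostA ↥K' M p : ↥(legE ↥K' M) →+* ↥(legE ↥K' (M * p)))
          (fullToLegE ↥K' M w₀ - b ^ p) =
          legHostA ↥K' M p (fullToLegE ↥K' M w₀) - legHostA ↥K' M p b ^ p := by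
        show legHostA ↥K' M p (fullToLegE ↥K' M w₀ - b ^ p) = _
        rw [map_sub, map_pow]
      rwa [h2'] at h1
    have hfin := kp_val_sub_lt_trans _ hresE hAb
    obtain ⟨P, hP⟩ : ∃ P : ↥(legE ↥K' (M * p)),
        P = algebraMap ↥(baseRing A K') ↥(legE ↥K' (M * p)) ϖ ^ ainf := ⟨_, rfl⟩
    have hπ0 : algebraMap ↥(baseRing A K') ↥(legE ↥K' (M * p)) ϖ ≠ 0 := SSModel_pi_ne_zero h'
    have hP0 : P ≠ 0 := hP ▸ zpow_ne_zero ainf hπ0
    rw [← hP] at hfin hfa hdE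
    obtain ⟨yy, hyy⟩ : ∃ yy : ↥(legE ↥K' (M * p)), yy = legHostA ↥K' M p b ^ p := ⟨_, rfl⟩
    rw [← hyy] at hfin
    have hyv : (legWinf ↥(baseRing A K') ↥K' h2 (M * p)).valuation yy = 1 :=
      kp_val_eq_one_of_sub_lt _ hfa hfin
    have hy0 : yy ≠ 0 := by
      intro h0
      rw [h0, map_zero] at hyv
      exact zero_ne_one hyv
    have hAb0 : legHostA ↥K' M p b ≠ 0 := by
      intro h0
      apply hy0
      rw [hyy, h0, zero_pow hp.ne_zero]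
    refine ⟨ϖ, h2, d, hϖ, hd0, legHostA ↥K' M p b, hAb0,
      (fullToLegE ↥K' (M * p) f₀ * P⁻¹ * yy⁻¹ - 1) *
        (algebraMap ↥(baseRing A K') ↥(legE ↥K' (M * p)) ϖ)⁻¹, ?_, ?_⟩
    · apply h'.two.e_inf
      have e4 : fullToLegE ↥K' (M * p) f₀ * P⁻¹ * yy⁻¹ - 1 =
          (fullToLegE ↥K' (M * p) f₀ * P⁻¹ - yy) * yy⁻¹ := by
        field_simp
      rw [e4, map_mul, map_inv₀, hyv, inv_one, mul_one]
      exact hfin
    · rw [hdE, ← hyy, pow_one]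
      field_simp
      ring
  · -- Case 2
    right
    have hw₀g : ((w₀ : ↥(keyFq ↥K' M)) : LaurentSeries ↥K') ∈ gaussInt ↥(baseRing A K') ↥K' := hw₀
    have hq : ((keyFqBC M K' w₀ : ↥(keyFq Ω M)) : LaurentSeries Ω) ∈ fracInt A :=
      coeffMap_mem_fracInt_of_mem_gaussInt hw₀g
    refine resOccurs_of_dlog_host_q_of_not_dvd M hA hpM hp2 hcard S a
      (fun ℓ hℓ hℓM => H.bad ℓ hℓ (dvd_mul_of_dvd_left hℓM p)) (keyFqBC M K' w₀) hq hcase
      (fun Q => HO M p hp2 hp₀p hpM A hA K₁ K' ζ s S a f₀ H ϖ hϖ h2 ainf w₀ hWv hresE hWE Q)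
      (fun n => (eulerD (ResidueField ↥A)
        (fracRed A ⟨((keyFqBC M K' w₀ : ↥(keyFq Ω M)) : LaurentSeries Ω), hq⟩) /
        fracRed A ⟨((keyFqBC M K' w₀ : ↥(keyFq Ω M)) : LaurentSeries Ω), hq⟩).coeff (n : ℤ))
      (fun n => rfl) ?_
    intro ℓ hℓ hℓS n
    have hℓMp : ¬ ℓ ∣ M * p := fun h => hℓS (H.bad ℓ hℓ h)
    have hℓp : ℓ ≠ p := by
      rintro rfl
      exact hℓMp (dvd_mul_left _ _)
    obtain ⟨c, u, hc, hu, hrel⟩ := H.hecke ℓ hℓ hℓS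
    -- the Gauss unit as a series
    have hY : ((f₁ : ↥(keyFq ↥K' (M * p))) : LaurentSeries ↥K') ∈
        gaussInt ↥(baseRing A K') ↥K' := hf₁mem
    have hfY : ((f₀ : ↥(keyFq ↥K' (M * p))) : LaurentSeries ↥K') =
        HahnSeries.C d * ((f₁ : ↥(keyFq ↥K' (M * p))) : LaurentSeries ↥K') := by
      have hD0 : algebraMap ↥K' ↥(keyFq ↥K' (M * p)) d ≠ 0 := (map_ne_zero _).mpr hd0
      have e1 : f₀ = algebraMap ↥K' ↥(keyFq ↥K' (M * p)) d * f₁ := by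
        rw [hf₁]
        field_simp
      have e2 := congrArg (fun z : ↥(keyFq ↥K' (M * p)) => (z : LaurentSeries ↥K')) e1
      simp only [IntermediateField.coe_mul] at e2
      rw [e2, IntermediateField.coe_algebraMap_apply, algebraMap_laurent_eq_C]
    have hredeq : gaussRed ↥(baseRing A K') ↥K'
        ⟨((f₁ : ↥(keyFq ↥K' (M * p))) : LaurentSeries ↥K'), hY⟩ =
        gaussRed ↥(baseRing A K') ↥K' ⟨((w₀ : ↥(keyFq ↥K' M)) : LaurentSeries ↥K'), hw₀g⟩ := by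
      obtain ⟨hmem, hred0⟩ := (gaussValSub_valuation_lt_one_iff _ _ _).1 hres
      have e1 : (⟨_, hmem⟩ : gaussInt ↥(baseRing A K') ↥K') =
          ⟨((f₁ : ↥(keyFq ↥K' (M * p))) : LaurentSeries ↥K'), hY⟩ -
            ⟨((w₀ : ↥(keyFq ↥K' M)) : LaurentSeries ↥K'), hw₀g⟩ := by
        apply Subtype.ext
        show ((f₁ - keyFqA ↥K' M p w₀ : ↥(keyFq ↥K' (M * p))) : LaurentSeries ↥K') = _
        have e0 : ((f₁ - keyFqA ↥K' M p w₀ : ↥(keyFq ↥K' (M * p))) : LaurentSeries ↥K') =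
            (f₁ : LaurentSeries ↥K') - ((keyFqA ↥K' M p w₀ : ↥(keyFq ↥K' (M * p))) :
              LaurentSeries ↥K') := rfl
        rw [e0, coe_keyFqA]
        rfl
      rw [e1, map_sub, sub_eq_zero] at hred0
      exact hred0
    have hY' : gaussRed ↥(baseRing A K') ↥K'
        ⟨((f₁ : ↥(keyFq ↥K' (M * p))) : LaurentSeries ↥K'), hY⟩ ≠ 0 := by
      intro h0
      have hlt : (keyFqWinf ↥(baseRing A K') ↥K' (M * p)).valuation f₁ < 1 :=
        (gaussValSub_valuation_lt_one_iff _ _ _).2 ⟨hY, h0⟩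
      rw [hf₁v] at hlt
      exact lt_irrefl _ hlt
    have key := HQ p A hA K' H.base (M * p) ℓ hℓ hℓp hℓMp f₀ u c (a ℓ) H.ne_zero hu hc hrel d
      _ hd0 hfY hY hY' n
    rw [hredeq] at key
    have key' := congrArg (baseResidueMap A K') key
    rw [map_add, map_mul, map_intCast, apply_ite (baseResidueMap A K'), map_mul, map_natCast,
      map_zero] at key'
    have hb : ∀ m : ℤ, (eulerD (ResidueField ↥A)
        (fracRed A ⟨((keyFqBC M K' w₀ : ↥(keyFq Ω M)) : LaurentSeries Ω), hq⟩) /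
        fracRed A ⟨((keyFqBC M K' w₀ : ↥(keyFq Ω M)) : LaurentSeries Ω), hq⟩).coeff m =
        baseResidueMap A K' ((RQ4Q.dlogθ (gaussRed ↥(baseRing A K') ↥K'
          ⟨((w₀ : ↥(keyFq ↥K' M)) : LaurentSeries ↥K'), hw₀g⟩)).coeff m) :=
      fun m => coeff_dlog_fracRed_coeffMap A K' hw₀g m
    show (eulerD (ResidueField ↥A)
        (fracRed A ⟨((keyFqBC M K' w₀ : ↥(keyFq Ω M)) : LaurentSeries Ω), hq⟩) /
        fracRed A ⟨((keyFqBC M K' w₀ : ↥(keyFq Ω M)) : LaurentSeries Ω), hq⟩).coeff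
          ((n * ℓ : ℕ) : ℤ) +
      (if ℓ ∣ n then (ℓ : ResidueField ↥A) * (eulerD (ResidueField ↥A)
        (fracRed A ⟨((keyFqBC M K' w₀ : ↥(keyFq Ω M)) : LaurentSeries Ω), hq⟩) /
        fracRed A ⟨((keyFqBC M K' w₀ : ↥(keyFq Ω M)) : LaurentSeries Ω), hq⟩).coeff
          ((n / ℓ : ℕ) : ℤ) else 0) =
      (a ℓ : ResidueField ↥A) * (eulerD (ResidueField ↥A)
        (fracRed A ⟨((keyFqBC M K' w₀ : ↥(keyFq Ω M)) : LaurentSeries Ω), hq⟩) /
        fracRed A ⟨((keyFqBC M K' w₀ : ↥(keyFq Ω M)) : LaurentSeries Ω), hq⟩).coeff (n : ℤ)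
    rw [hb, hb, hb]
    exact key'

end Main

end Fermat.Agent.ML
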