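/-
PROJECT ML (S59) — helper8 — **[REMOVE-P] for `p ≥ 5`**: the frozen statement S40 at every prime
`p ≥ 5`, from the three inputs of S44 on main ([TOP-G], (KEY-NEW), (KEY-PEU) third revision for
`p ≥ 5`) and helper4's (peu) for curves with good reduction (`ecpeu_good_all`).

* `removePAt_of_keyPeu₃` : `KeyPeu₃ M' p` at the one level ⇒ the S40 statement at `(M' p, p)`;
* `removePAt_of_five_le` : `5 ≤ p → RemovePAt p`;  `removePAt_five : RemovePAt 5`.
-/
import Mathlib
import Fermat.Agent.ML.REMP_helper8_Iface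
import Fermat.Agent.MP.S44PRE_lead_Chain
import Fermat.Agent.MP.ORD_helper1_Final
import Fermat.Agent.MP.KEYFQ_helper8_ResInfP
import Fermat.Agent.MP.HECKERS0_helper4_DeltaLit
import Fermat.Agent.MP.ECPEUM_helper4_Frey

set_option autoImplicit false
set_option linter.unusedSectionVars false
set_option linter.unusedVariables false
set_option linter.style.haveILetI false

open AlgebraicCurve ModularCurve WeierstrassCurve WeierstrassCurve.Affine
open WeierstrassCurve.Affine.Point

open scoped WeierstrassCurve.Affine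

namespace Fermat.Agent.ML

open Fermat.Agent.MP Fermat.Agent.S35 Fermat.Agent.NP Fermat.Agent.GR

/-- **the closer of S40, third revision of the interface**: (KEY-PEU) at the level `(M', p)`
implies the S40 statement at `M = M' p`. -/
theorem removeP_of_keyPeu₃ (hG : TopGStatement) (hN : KeyNewStatement)
    (W : WeierstrassCurve ℤ) (hΔ : W.Δ ≠ 0)
    {p : ℕ} (hp : p.Prime) (hp2 : p ≠ 2)
    (hgood : W.IsGoodPrimeFor p)
    (hirr : W.ModRepIsIrreducible p)
    {M' : ℕ} [NeZero M'] [NeZero p] [NeZero (M' * p)] (hpM' : ¬ p ∣ M')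
    (hK : KeyPeu₃ M' p)
    (hmod : W.IsResiduallyModularOfLevel p (M' * p)) :
    W.IsResiduallyModularOfLevel p M' := by
  classical
  set E : WeierstrassCurve ℚ := W.map (Int.castRingHom ℚ) with hE
  haveI : E.IsElliptic := by
    refine ⟨isUnit_iff_ne_zero.mpr ?_⟩
    rw [hE, WeierstrassCurve.map_Δ]
    simpa using hΔ
  have hW : W.IsIntegralModelOf E := ⟨1, one_smul _ _⟩
  have key : ResOccurs M' p (badSet W p (M' * p)) (fun ℓ => W.apOfModel ℓ) := by
    rcases hG E hW hp hp2 hpM' hirr hmod with h | ⟨⟨NC⟩⟩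
    · exact h
    · refine resOccurs_of_newCopy₃ hp hp2 (hN M' p hp hp2 hpM') hK E hW hirr NC ?_
      intro A hA σ hσ Q hQ hne ζ hζ
      exact ecpeu_good_all W hp hp2 hgood A hA hσ Q hQ hne hζ
  rw [isResiduallyModularOfLevel_iff]
  refine key.mono_primes ?_
  rintro ℓ hℓ (h1 | h1 | h1)
  · exact Or.inl h1
  · rcases (Nat.Prime.dvd_mul hℓ).mp h1 with h2 | h2
    · exact Or.inr (Or.inl h2)
    · exact Or.inr (Or.inr ((Nat.prime_dvd_prime_iff_eq hℓ hp).mp h2))
  · exact Or.inr (Or.inr h1)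

/-- the S40 statement at `p` from (KEY-PEU) at all levels prime to `p`. -/
theorem removePAt_of_keyPeu₃ (hG : TopGStatement) (hN : KeyNewStatement) {p : ℕ}
    (hK : ∀ (M' : ℕ) [NeZero M'] [NeZero p] [NeZero (M' * p)], ¬ p ∣ M' → KeyPeu₃ M' p) :
    RemovePAt p := by
  intro W hΔ hp hp2 hgood hirr M hM hpM hp2M hmod
  obtain ⟨M', rfl⟩ := hpM
  have hdiv : p * M' / p = M' := Nat.mul_div_cancel_left M' hp.pos
  rw [hdiv]
  have hcomm : p * M' = M' * p := mul_comm _ _
  rw [hcomm] at hmod hM hp2M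
  have hM'0 : M' ≠ 0 := fun h => by rw [h, zero_mul] at hM; exact lt_irrefl _ hM
  haveI : NeZero M' := ⟨hM'0⟩
  haveI : NeZero p := ⟨hp.ne_zero⟩
  haveI : NeZero (M' * p) := ⟨hM.ne'⟩
  have hpM' : ¬ p ∣ M' := by
    intro h
    apply hp2M
    rw [pow_two]
    exact Nat.mul_dvd_mul h dvd_rfl
  exact removeP_of_keyPeu₃ hG hN W hΔ hp hp2 hgood hirr hpM' (hK M' hpM') hmod

/-- **[REMOVE-P] for every prime `p ≥ 5`** (= the frozen statement S40 for `p ≥ 5`). -/
theorem removePAt_of_five_le {p : ℕ} (hp5 : 5 ≤ p) : RemovePAt p := by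
  intro W hΔ hp
  refine removePAt_of_keyPeu₃ topGStatement (keyNewStatement_of_normB legNormBCompat)
    (fun M' _ _ _ hpM' =>
      keyPeuFrom₃_of_inputs legPeuOrdP legDeltaLit keyFqResInfP M' p hp hp5 hpM') W hΔ hp

/-- **[REMOVE-P] at `p = 5`.** -/
theorem removePAt_five : RemovePAt 5 := removePAt_of_five_le le_rfl

end Fermat.Agent.ML
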