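/-
PROJECT ML (S59) — helper8 — **[REMOVE-P] at `p = 3` for levels with `2 ∣ M`** (`RemovePAt3Even`):
the frozen statement S40 at the prime `3`, restricted to the levels `M` with `2 ∣ M`.

* `keyPeuAt₃_of_infAt` : per-level form of helper4's `keyPeuAt₃_of_base`;
* `keyPeu₃_three_of_even` : `KeyPeu₃ M' 3` for `2 ∣ M'`, `3 ∤ M'` — from (C) [ORD] at `p = 3`
  (`legPeuOrdP_three`), the deck group of the Legendre host of order prime to `3`
  (`legHost_not_three_dvd_card`) and the inputs of S44 which are uniform in `p ≥ 3`;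
* `removePAt3Even : RemovePAt3Even`.
-/
import Mathlib
import Fermat.Agent.ML.REMP_helper8_Five
import Fermat.Agent.ML.REMP3_helper8_Inf
import Fermat.Agent.ML.LEV2_helper8_Deck
import Fermat.Agent.ML.ORD3_helper8_Main

set_option autoImplicit false
set_option linter.unusedSectionVars false
set_option linter.unusedVariables false
set_option linter.style.haveILetI false
set_option synthInstance.maxHeartbeats 400000

open HahnSeries IntermediateField AlgebraicCurve ModularCurve IsLocalRing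

namespace Fermat.Agent.ML

open Fermat.Agent.JA Fermat.Agent.FF Fermat.Agent.SS Fermat.Agent.X0N Fermat.Agent.S35
  Fermat.Agent.S36 Fermat.Agent.NP Fermat.Agent.MP Fermat.Agent.GR

/-- `Ω = AlgebraicClosure ℚ`. -/
local notation "Ω" => AlgebraicClosure ℚ

/-- the absolute Galois group. -/
local notation "GQ" => (AlgebraicClosure ℚ ≃ₐ[ℚ] AlgebraicClosure ℚ)

section Final

variable (M p : ℕ) [NeZero M] [NeZero p] [NeZero (M * p)]

set_option maxHeartbeats 3200000 in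
/-- **(KEY-PEU), third revision, at one place and one level, from the base statements.** -/
theorem keyPeuAt₃_of_infAt [Fact p.Prime] (hI : LegPeuInfAt M p) (p₀ : ℕ) (hD : LegPeuDeepP p₀)
    (hW : LegWinfBCP) (hp0 : p₀ ≤ p) (hp2 : p ≠ 2) (hpM : ¬ p ∣ M) (A : ValuationSubring Ω)
    (hA : A.LiesOverPrime p) : KeyPeuAt₃ M p A := by
  intro S a hS hnE x hpx hα hβ hT hpeu hline
  have hp : p.Prime := Fact.out
  obtain ⟨Pk⟩ := nonempty_peuPackage M p hp A hA x hpx hpeu hline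
  haveI := Pk.hK₁.normal
  obtain ⟨s, hH⟩ := Pk.exists_legPeuHyp hp hA S a hS hnE hα hβ hT
  haveI : IsDiscreteValuationRing ↥(baseRing A Pk.K') := Pk.hK'.isDiscreteValuationRing hA
  haveI : IsDiscreteValuationRing ↥(baseRing A Pk.K₁) :=
    Pk.hK₁.isBase.isDiscreteValuationRing hA
  rcases hI hp2 hpM A hA Pk.K₁ Pk.K' Pk.ζR s S a Pk.F' hH with h1 | h2
  · left
    -- depth along `W_∞(K₁)`
    have hdepth := hW (M * p) p A hA Pk.K' Pk.K₁ Pk.hK' Pk.hK₁.isBase Pk.hle Pk.F' Pk.F₁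
      (by rw [Pk.hF₁, Pk.hF']) h1
    -- the primitive root in `K₁`
    have hζK' : Pk.ζ ∈ Pk.K' := by
      rw [← Pk.hζR]
      exact (Pk.ζR : ↥Pk.K').2
    have hζK : ∃ ζ₁ : ↥Pk.K₁, IsPrimitiveRoot ζ₁ p :=
      ⟨⟨Pk.ζ, Pk.hle hζK'⟩, IsPrimitiveRoot.of_map_of_injective (f := algebraMap ↥Pk.K₁ Ω) Pk.hζ
        (algebraMap ↥Pk.K₁ Ω).injective⟩
    have hα' : degPushAlpha M p (Pic0.mk Pk.D : JZero (M * p)) = 0 := by rw [Pk.hDx]; exact hα
    have hβ' : degPushBeta M p (Pic0.mk Pk.D : JZero (M * p)) = 0 := by rw [Pk.hDx]; exact hβ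
    have hT' : ∀ (ℓ : ℕ) (hℓ : ℓ.Prime), ℓ ∉ S →
        heckeOperatorBar (M * p) ⟨ℓ, hℓ⟩ (Pic0.mk Pk.D : JZero (M * p)) =
          a ℓ • (Pic0.mk Pk.D : JZero (M * p)) := by
      intro ℓ hℓ hℓS
      rw [Pk.hDx]
      exact hT ℓ hℓ hℓS
    intro σ hσ c hc
    obtain ⟨c', u, hc', hu⟩ := hD M p hp2 hp0 hpM A hA Pk.K₁ Pk.hK₁ hζK S a hS hnE Pk.F₁
      Pk.F₁_ne_zero Pk.hrat
      (exists_normA_of_bc M p Pk.K₁ Pk.F₁ Pk.hF₁ hp Pk.D Pk.hf Pk.hfD hα')
      (exists_normB_of_bc M p Pk.K₁ Pk.F₁ Pk.hF₁ hp Pk.D Pk.hf Pk.hfD hβ')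
      (heckeRelK_of_bc M p Pk.K₁ Pk.F₁ Pk.hF₁ hp S a Pk.D Pk.hf Pk.hfD hT') hdepth σ hσ c hc
    -- back to `Ω`
    have hfE : fullToLegE ↥Pk.K₁ (M * p) Pk.F₁ ≠ 0 := (map_ne_zero _).2 Pk.F₁_ne_zero
    have hu0 : u ≠ 0 := by
      rintro rfl
      rw [zero_pow hp.ne_zero, mul_zero] at hu
      have h2 : legGalois ↥Pk.K₁ (M * p) (resGal Pk.K₁ σ) •
          fullToLegE ↥Pk.K₁ (M * p) Pk.F₁ ≠ 0 := by simpa using hfE
      exact div_ne_zero h2 (pow_ne_zero _ hfE) hu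
    have h3 := congrArg (legBC (M * p) Pk.K₁) hu
    rw [map_div₀, legBC_legGalois_smul, map_pow, map_mul, map_pow, legBC_algebraMap,
      bcdeg_legBC_fullToLegE, Pk.hF₁] at h3
    have h4 := jzero_smul_eq_nsmul_of_leg_kummer (M * p) hp hp2 σ c Pk.D Pk.f Pk.hf Pk.hfD
      (algebraMap ↥Pk.K₁ Ω c') (legBC (M * p) Pk.K₁ u) ((map_ne_zero _).2 hc')
      ((map_ne_zero _).2 hu0) h3
    rwa [Pk.hDx] at h4
  · exact Or.inr h2

end Final

/-- **(KEY-PEU), third revision, at `p = 3` and a level `M'` with `2 ∣ M'`.** -/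
theorem keyPeu₃_three_of_even (M' : ℕ) [NeZero M'] [NeZero (M' * 3)] (h2 : 2 ∣ M')
    (h3 : ¬ 3 ∣ M') : KeyPeu₃ M' 3 := by
  intro A hA
  haveI : Fact (Nat.Prime 3) := ⟨Nat.prime_three⟩
  exact keyPeuAt₃_of_infAt M' 3
    (legPeuInfAt_of M' 3 (legHost_not_three_dvd_card M' h2) 3 le_rfl legPeuOrdP_three
      keyFqResInfP rq4HostP)
    3 (legPeuDeepP_of_lit 3 legNormBCompat legDeltaLit) legWinfBCP le_rfl (by norm_num) h3 A hA

/-- **[REMOVE-P] at `p = 3`, even levels**: a curve `W/ℤ` with good reduction at `3` and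
irreducible `W[3]`, residually modular of a level `M` with `3 ∥ M` and `2 ∣ M`, is residually
modular of level `M / 3` (the frozen statement S40 at `p = 3`, restricted to the levels with
`2 ∣ M`). -/
def RemovePAt3Even : Prop :=
  ∀ (W : WeierstrassCurve ℤ), W.Δ ≠ 0 → W.IsGoodPrimeFor 3 → W.ModRepIsIrreducible 3 →
    ∀ {M : ℕ}, 0 < M → 3 ∣ M → ¬ 3 ^ 2 ∣ M → 2 ∣ M →
    W.IsResiduallyModularOfLevel 3 M → W.IsResiduallyModularOfLevel 3 (M / 3)

/-- **`RemovePAt3Even` holds.** -/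
theorem removePAt3Even : RemovePAt3Even := by
  intro W hΔ hgood hirr M hM h3M h9M h2M hmod
  obtain ⟨M', rfl⟩ := h3M
  have hdiv : 3 * M' / 3 = M' := Nat.mul_div_cancel_left M' (by norm_num)
  rw [hdiv]
  have hcomm : 3 * M' = M' * 3 := mul_comm _ _
  rw [hcomm] at hmod hM h9M h2M
  have hM'0 : M' ≠ 0 := fun h => by rw [h, zero_mul] at hM; exact lt_irrefl _ hM
  haveI : NeZero M' := ⟨hM'0⟩
  haveI : NeZero (M' * 3) := ⟨hM.ne'⟩
  have h3M' : ¬ 3 ∣ M' := by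
    intro h
    apply h9M
    rw [pow_two]
    exact Nat.mul_dvd_mul h dvd_rfl
  have h2M' : 2 ∣ M' :=
    (Nat.Coprime.dvd_mul_right (by norm_num : Nat.Coprime 2 3)).mp h2M
  exact removeP_of_keyPeu₃ topGStatement (keyNewStatement_of_normB legNormBCompat) W hΔ
    Nat.prime_three (by norm_num) hgood hirr h3M' (keyPeu₃_three_of_even M' h2M' h3M') hmod

/-- `RemovePAt 3` restricted to even levels, in the form of `RemovePAt`. -/
theorem removePAt_three_of_even (W : WeierstrassCurve ℤ) (hΔ : W.Δ ≠ 0)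
    (hgood : W.IsGoodPrimeFor 3) (hirr : W.ModRepIsIrreducible 3) {M : ℕ} (hM : 0 < M)
    (h3M : 3 ∣ M) (h9M : ¬ 3 ^ 2 ∣ M) (h2M : 2 ∣ M)
    (hmod : W.IsResiduallyModularOfLevel 3 M) : W.IsResiduallyModularOfLevel 3 (M / 3) :=
  removePAt3Even W hΔ hgood hirr hM h3M h9M h2M hmod

end Fermat.Agent.ML
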