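/-
PROJECT ML (S59) — lead — **the assembly of [LEVEL-OPT], second form**:
`levelOptStatement_of₂ : SqStepStatementO → SqTwoStepStatement → MazurOddStepStatement →
MazurTwoStepStatement → AuxPrimeStatement → IAStepStatement → LevelOptStatement`.

Order of the steps:
  phase −1 (Prelude form `W.IsResiduallyModularOfLevel p M₀`): if `p ∣ M₀` and `W` is good at `p`,
           remove `p` (`removePAt_five`; at `p = 3` first add `2` if `M₀` is odd, then
           `removePAt3Even`); from now on `p ∣ N → p ∣ Δ` for all the levels `N`;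
  `p = 5`: squares → Mazur odd → Mazur at 2 → Ihara avoidance;
  `p = 3`: add an auxiliary prime `r` → [`4 ∥ M₁`: square at 2 (route (C)) | `2 ∤ M₁`: add 2]
           → squares (odd `q`) → Mazur odd → Mazur at 2 → Ihara avoidance.
-/
import Mathlib
import Fermat.Agent.ML.IFACE_lead_LevelOpt2
import Fermat.Agent.ML.LEVOPT_lead_Main
import Fermat.Agent.ML.REMP_helper8_Five
import Fermat.Agent.ML.REMP3_helper8_Main

set_option autoImplicit false
set_option linter.unusedSectionVars false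
set_option linter.unusedVariables false

namespace Fermat.Agent.ML.LevOpt

open Fermat.Agent.MP

/-! ### phase −1: the removal of `p`, in the Prelude form -/

/-- the Prelude form goes up by a prime -/
theorem isResiduallyModularOfLevel_mul_prime {W : WeierstrassCurve ℤ} {p M q : ℕ} (hq : q.Prime)
    (h : W.IsResiduallyModularOfLevel p M) : W.IsResiduallyModularOfLevel p (M * q) := by
  rw [isResiduallyModularOfLevel_iff] at h ⊢
  refine resOccurs_mul_prime hq (Or.inr (Or.inl (Dvd.intro_left M rfl))) (h.mono ?_)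
  rintro ℓ (h1 | h1 | h1)
  · exact Or.inl h1
  · exact Or.inr (Or.inl (h1.mul_right q))
  · exact Or.inr (Or.inr h1)

theorem phaseM1_done {W : WeierstrassCurve ℤ} (hΔ : W.Δ ≠ 0) {p X : ℕ} (hX : 0 < X)
    (hpX : ¬ p ∣ X) (hcube : ∀ q : ℕ, q.Prime → q ≠ p → ¬ q ^ 3 ∣ X)
    (hres : W.IsResiduallyModularOfLevel p X) :
    ∃ M₁ : ℕ, 0 < M₁ ∧ ¬ p ^ 2 ∣ M₁ ∧ (∀ q : ℕ, q.Prime → q ≠ p → ¬ q ^ 3 ∣ M₁) ∧
      (p ∣ M₁ → (p : ℤ) ∣ W.Δ) ∧ IsResModAway W p M₁ :=
  ⟨X, hX, fun h => hpX ((dvd_pow_self p two_ne_zero).trans h), hcube, fun h => absurd h hpX,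
    isResModAway_of_isResiduallyModularOfLevel W hΔ p X hX hres⟩

/-- **phase −1**: a level `M₁` with `p ∣ M₁ → p ∣ Δ`. -/
theorem phaseM1 (p : ℕ) (W : WeierstrassCurve ℤ) (hyp : CurveHyp p W) (M₀ : ℕ) (hM₀ : 0 < M₀)
    (hres₀ : W.IsResiduallyModularOfLevel p M₀) (hp2 : ¬ p ^ 2 ∣ M₀)
    (hcube : ∀ q : ℕ, q.Prime → q ≠ p → ¬ q ^ 3 ∣ M₀) :
    ∃ M₁ : ℕ, 0 < M₁ ∧ ¬ p ^ 2 ∣ M₁ ∧ (∀ q : ℕ, q.Prime → q ≠ p → ¬ q ^ 3 ∣ M₁) ∧
      (p ∣ M₁ → (p : ℤ) ∣ W.Δ) ∧ IsResModAway W p M₁ := by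
  by_cases h : p ∣ M₀ ∧ W.IsGoodPrimeFor p
  swap
  · refine ⟨M₀, hM₀, hp2, hcube, fun hpM => ?_,
      isResModAway_of_isResiduallyModularOfLevel W hyp.disc_ne p M₀ hM₀ hres₀⟩
    by_contra hΔ
    exact h ⟨hpM, hΔ⟩
  obtain ⟨hpM, hgood⟩ := h
  obtain ⟨M', hM'⟩ := hpM
  have hM'pos : 0 < M' := by
    rcases Nat.eq_zero_or_pos M' with h | h
    · rw [h, mul_zero] at hM'; omega
    · exact h
  have hpM' : ¬ p ∣ M' := fun h => hp2 (by rw [hM', pow_two]; exact Nat.mul_dvd_mul_left p h)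
  have hcubeM' : ∀ q : ℕ, q.Prime → q ≠ p → ¬ q ^ 3 ∣ M' := fun q hq hqp h =>
    hcube q hq hqp (by rw [hM']; exact h.mul_left p)
  rcases hyp.p_eq with rfl | rfl
  · -- `p = 3`
    by_cases h2 : 2 ∣ M₀
    · have key := removePAt3Even W hyp.disc_ne hgood hyp.irreducible hM₀ ⟨M', hM'⟩ hp2 h2 hres₀
      rw [hM', Nat.mul_div_cancel_left M' (by norm_num)] at key
      exact phaseM1_done hyp.disc_ne hM'pos hpM' hcubeM' key
    · have hres2 : W.IsResiduallyModularOfLevel 3 (M₀ * 2) :=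
        isResiduallyModularOfLevel_mul_prime Nat.prime_two hres₀
      have h3 : 3 ∣ M₀ * 2 := ⟨M' * 2, by rw [hM']; ring⟩
      have h9 : ¬ 3 ^ 2 ∣ M₀ * 2 := fun h =>
        hp2 (pow_dvd_of_dvd_mul_prime Nat.prime_three Nat.prime_two (by norm_num) h)
      have key := removePAt3Even W hyp.disc_ne hgood hyp.irreducible (by omega : 0 < M₀ * 2) h3 h9
        (Dvd.intro_left M₀ rfl) hres2
      have e : M₀ * 2 / 3 = M' * 2 := by
        rw [hM', mul_assoc, Nat.mul_div_cancel_left _ (by norm_num)]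
      rw [e] at key
      have h2M' : ¬ 2 ∣ M' := fun h' => h2 (by rw [hM']; exact h'.mul_left 3)
      refine phaseM1_done hyp.disc_ne (by omega) ?_ ?_ key
      · intro h
        exact hpM' (dvd_of_dvd_mul_prime Nat.prime_three Nat.prime_two (by norm_num) h)
      · intro q hq hq3 h
        by_cases hq2 : q = 2
        · subst hq2
          exact not_sq_dvd_mul_prime Nat.prime_two h2M'
            ((pow_dvd_pow 2 (by norm_num : 2 ≤ 3)).trans h)
        · exact hcubeM' q hq hq3 (pow_dvd_of_dvd_mul_prime hq Nat.prime_two hq2 h)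
  · -- `p = 5`
    have key := removePAt_five W hyp.disc_ne (by norm_num) (by norm_num) hgood hyp.irreducible hM₀
      ⟨M', hM'⟩ hp2 hres₀
    rw [hM', Nat.mul_div_cancel_left M' (by norm_num)] at key
    exact phaseM1_done hyp.disc_ne hM'pos hpM' hcubeM' key

/-! ### phase 1, second form: no removal of `p` (the invariant `p ∣ N → p ∣ Δ`) -/

theorem phase1₂ (hsq : SqStepStatementO) (hmo : MazurOddStepStatement)
    (hm2 : MazurTwoStepStatement)
    (p : ℕ) (W : WeierstrassCurve ℤ) (hyp : CurveHyp p W) (r : ℕ)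
    (hr3 : p = 3 → r.Prime ∧ r ≠ 2 ∧ r ≠ 3) :
    ∀ N : ℕ, 0 < N → ¬ p ^ 2 ∣ N → (∀ q : ℕ, q.Prime → q ≠ p → ¬ q ^ 3 ∣ N) → Inv p r N →
      (p ∣ N → (p : ℤ) ∣ W.Δ) → IsResModAway W p N →
      ∃ N₁ : ℕ, 0 < N₁ ∧ Inv p r N₁ ∧ Term W p r N₁ ∧ IsResModAway W p N₁ := by
  have hpp : p.Prime := by rcases hyp.p_eq with rfl | rfl <;> norm_num
  have hp2 : p ≠ 2 := by rcases hyp.p_eq with rfl | rfl <;> norm_num
  intro N
  induction N using Nat.strong_induction_on with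
  | _ N ih =>
    intro hN hp2N hcube hinv hpΔ hres
    by_cases h1 : ∃ q : ℕ, q.Prime ∧ q ≠ p ∧ q ^ 2 ∣ N
    · -- a square
      obtain ⟨q, hq, hqp, hq2N⟩ := h1
      obtain ⟨M, hNM, hqM⟩ := exists_eq_mul_sq_of_sq_dvd hq hq2N (hcube q hq hqp)
      have hM : 0 < M := by
        rcases Nat.eq_zero_or_pos M with h | h
        · rw [h] at hNM; simp at hNM; omega
        · exact h
      have hq2 : p = 3 → q ≠ 2 := by
        intro hp3 hq2
        apply (hinv hp3).2.1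
        have : (2 : ℕ) ^ 2 ∣ N := hq2 ▸ hq2N
        norm_num at this
        exact this
      have hside : p = 3 → 2 ∣ M := by
        intro hp3
        have h2N : 2 ∣ M * q * q := by rw [← hNM]; exact (hinv hp3).1
        exact dvd_of_dvd_mul_prime Nat.prime_two hq (Ne.symm (hq2 hp3))
          (dvd_of_dvd_mul_prime Nat.prime_two hq (Ne.symm (hq2 hp3)) h2N)
      have hres' : IsResModAway W p (M * q) :=
        hsq p W hyp M q hM hq hqp hqM (fun h => hq2 h.1 h.2) hside (isResModAway_of_eq hNM hres)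
      have hdvd : M * q ∣ N := ⟨q, hNM⟩
      have hlt : M * q < N := by
        rw [hNM]
        have : 0 < M * q := Nat.mul_pos hM hq.pos
        have := hq.two_le
        nlinarith
      refine ih (M * q) hlt (Nat.mul_pos hM hq.pos) (fun h => hp2N (h.trans hdvd))
        (fun ℓ hℓ hℓp h => hcube ℓ hℓ hℓp (h.trans hdvd)) ?_ (fun h => hpΔ (h.trans hdvd)) hres'
      refine hinv.of_dvd hdvd (fun hp3 => (hside hp3).mul_right q) (fun hp3 => ?_)
      have hrN : r ∣ M * q * q := by rw [← hNM]; exact (hinv hp3).2.2.1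
      by_cases hrq : r = q
      · rw [hrq]; exact Dvd.intro_left M rfl
      · exact (dvd_of_dvd_mul_prime (hr3 hp3).1 hq hrq
          (dvd_of_dvd_mul_prime (hr3 hp3).1 hq hrq hrN)).mul_right q
    · -- `N` is squarefree
      have hsqf : Squarefree N := by
        rw [Nat.squarefree_iff_prime_squarefree]
        intro x hx hxx
        rw [← pow_two] at hxx
        by_cases hxp : x = p
        · exact hp2N (hxp ▸ hxx)
        · exact h1 ⟨x, hx, hxp, hxx⟩
      have hnsq : ∀ q : ℕ, q.Prime → ¬ q ^ 2 ∣ N := by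
        intro q hq h
        rw [pow_two] at h
        exact (Nat.squarefree_iff_prime_squarefree.1 hsqf) q hq h
      by_cases h2 : ∃ q : ℕ, q.Prime ∧ q ∣ N ∧ q ≠ p ∧ q ≠ r ∧ q ≠ 2 ∧ UnrArith W p q ∧
          ¬ ScalarAt W p q
      · -- Mazur's principle at an odd prime
        obtain ⟨q, hq, hqN, hqp, hqr, hq2, hunr, hnsc⟩ := h2
        obtain ⟨M, hNM, hqM⟩ := exists_eq_mul_of_dvd_of_sq hqN (hnsq q hq)
        have hM : 0 < M := by
          rcases Nat.eq_zero_or_pos M with h | h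
          · rw [h] at hNM; simp at hNM; omega
          · exact h
        have hside : p = 3 → 2 ∣ M := fun hp3 =>
          dvd_of_dvd_mul_prime Nat.prime_two hq (Ne.symm hq2) (by rw [← hNM]; exact (hinv hp3).1)
        have hres' : IsResModAway W p M := by
          rcases hmo p W hyp M q hM hq hq2 hqp hqM hside hunr (isResModAway_of_eq hNM hres)
            with h | h
          · exact h
          · exact absurd h hnsc
        have hdvd : M ∣ N := ⟨q, hNM⟩
        have hlt : M < N := by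
          rw [hNM]
          have := hq.two_le
          nlinarith
        refine ih M hlt hM (fun h => hp2N (h.trans hdvd))
          (fun ℓ hℓ hℓp h => hcube ℓ hℓ hℓp (h.trans hdvd)) ?_ (fun h => hpΔ (h.trans hdvd)) hres'
        refine hinv.of_dvd hdvd hside (fun hp3 => ?_)
        exact dvd_of_dvd_mul_prime (hr3 hp3).1 hq (Ne.symm hqr)
          (by rw [← hNM]; exact (hinv hp3).2.2.1)
      · by_cases h4 : p ≠ 3 ∧ 2 ∣ N ∧ UnrArith W p 2
        · -- Mazur's principle at `2`, `p ≠ 3`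
          obtain ⟨hp3, h2N, hunr⟩ := h4
          obtain ⟨M, hNM, h2M⟩ := exists_eq_mul_of_dvd_of_sq h2N (hnsq 2 Nat.prime_two)
          have hM : 0 < M := by
            rcases Nat.eq_zero_or_pos M with h | h
            · rw [h] at hNM; simp at hNM; omega
            · exact h
          have hres' : IsResModAway W p M :=
            hm2 p W hyp M hM h2M (fun h => absurd h hp3) hunr (isResModAway_of_eq hNM hres)
          have hdvd : M ∣ N := ⟨2, hNM⟩
          have hlt : M < N := by rw [hNM]; omega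
          exact ih M hlt hM (fun h => hp2N (h.trans hdvd))
            (fun ℓ hℓ hℓp h => hcube ℓ hℓ hℓp (h.trans hdvd)) (fun h => absurd h hp3)
            (fun h => hpΔ (h.trans hdvd)) hres'
        · -- terminal
          refine ⟨N, hN, hinv, ⟨hsqf, hpΔ, ?_⟩, hres⟩
          intro q hq hqN hqp hqr h32 hunr
          have hq2 : q ≠ 2 := by
            intro hq2
            subst hq2
            exact h4 ⟨fun hp3 => h32 ⟨hp3, rfl⟩, hqN, hunr⟩
          refine ⟨hq2, ?_⟩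
          by_contra hnsc
          exact h2 ⟨q, hq, hqN, hqp, hqr, hq2, hunr, hnsc⟩

/-! ### phase 0 at `p = 3`, second form: the auxiliary prime first -/

theorem phase0_arith {X r : ℕ} (hr : r.Prime) (hr2 : r ≠ 2) (hr3 : r ≠ 3)
    (hX : 0 < X) (h9 : ¬ 3 ^ 2 ∣ X) (hcube : ∀ q : ℕ, q.Prime → q ≠ 3 → ¬ q ^ 3 ∣ X)
    (h2 : 2 ∣ X) (h4 : ¬ 4 ∣ X) (hrX : ¬ r ∣ X) :
    0 < X * r ∧ ¬ 3 ^ 2 ∣ X * r ∧ (∀ q : ℕ, q.Prime → q ≠ 3 → ¬ q ^ 3 ∣ X * r) ∧
      Inv 3 r (X * r) := by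
  refine ⟨Nat.mul_pos hX hr.pos, ?_, ?_, ?_⟩
  · exact fun h => h9 (pow_dvd_of_dvd_mul_prime Nat.prime_three hr (Ne.symm hr3) h)
  · intro q hq hq3 h
    by_cases hqr : q = r
    · subst hqr
      exact not_sq_dvd_mul_prime hq hrX ((pow_dvd_pow q (by norm_num : 2 ≤ 3)).trans h)
    · exact hcube q hq hq3 (pow_dvd_of_dvd_mul_prime hq hr hqr h)
  · intro _
    refine ⟨h2.mul_right r, ?_, Dvd.intro_left X rfl, not_sq_dvd_mul_prime hr hrX⟩
    intro h
    have : (2 : ℕ) ^ 2 ∣ X * r := by norm_num; exact h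
    have := pow_dvd_of_dvd_mul_prime Nat.prime_two hr (Ne.symm hr2) this
    norm_num at this
    exact h4 this

/-- **phase 0** at `p = 3`, second form: a level with `2 ∥ N₀`, `r ∥ N₀`. -/
theorem phase0₂ (hsq2 : SqTwoStepStatement) (W : WeierstrassCurve ℤ) (hyp : CurveHyp 3 W)
    (M₁ r : ℕ) (hM₁ : 0 < M₁) (h9 : ¬ 3 ^ 2 ∣ M₁)
    (hcube : ∀ q : ℕ, q.Prime → q ≠ 3 → ¬ q ^ 3 ∣ M₁) (h3Δ : 3 ∣ M₁ → ((3 : ℕ) : ℤ) ∣ W.Δ)
    (hr : r.Prime) (hr2 : r ≠ 2) (hr3 : r ≠ 3) (hrmod : r % 3 = 2)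
    (hrM : ¬ r ∣ M₁) (hres : IsResModAway W 3 M₁) :
    ∃ N₀ : ℕ, 0 < N₀ ∧ ¬ 3 ^ 2 ∣ N₀ ∧ (∀ q : ℕ, q.Prime → q ≠ 3 → ¬ q ^ 3 ∣ N₀) ∧
      Inv 3 r N₀ ∧ (3 ∣ N₀ → ((3 : ℕ) : ℤ) ∣ W.Δ) ∧ IsResModAway W 3 N₀ := by
  by_cases h4 : 4 ∣ M₁
  · -- `4 ∥ M₁`: the auxiliary prime, then the square step at `2`
    have h4' : (2 : ℕ) ^ 2 ∣ M₁ := by norm_num; exact h4
    obtain ⟨M, hM, h2M⟩ := exists_eq_mul_sq_of_sq_dvd Nat.prime_two h4'
      (hcube 2 Nat.prime_two (by norm_num))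
    have hMpos : 0 < M := by
      rcases Nat.eq_zero_or_pos M with h | h
      · rw [h] at hM; simp at hM; omega
      · exact h
    have hresr : IsResModAway W 3 (M * r * 2 * 2) :=
      isResModAway_of_eq (by rw [hM]; ring) (isResModAway_mul_prime hr hres)
    have h2Mr : ¬ 2 ∣ M * r := fun h =>
      h2M (dvd_of_dvd_mul_prime Nat.prime_two hr (Ne.symm hr2) h)
    have hres' : IsResModAway W 3 (M * 2 * r) :=
      isResModAway_of_eq (by ring)
        (hsq2 W hyp (M * r) (Nat.mul_pos hMpos hr.pos) h2Mr ⟨r, hr, Dvd.intro_left M rfl, hrmod⟩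
          hresr)
    have hdvd : M * 2 ∣ M₁ := ⟨2, hM⟩
    obtain ⟨a1, a2, a3, a4⟩ := phase0_arith (X := M * 2) hr hr2 hr3 (by omega)
      (fun h => h9 (h.trans hdvd)) (fun q hq hq3 h => hcube q hq hq3 (h.trans hdvd))
      (Dvd.intro_left M rfl)
      (by
        intro h
        apply h2M
        have : 2 * 2 ∣ M * 2 := by norm_num; exact h
        exact (Nat.mul_dvd_mul_iff_right (by norm_num : 0 < 2)).1 this)
      (fun h => hrM (h.trans hdvd))
    refine ⟨M * 2 * r, a1, a2, a3, a4, fun h => h3Δ ?_, hres'⟩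
    exact (dvd_of_dvd_mul_prime Nat.prime_three hr (Ne.symm hr3) h).trans hdvd
  · by_cases h2 : 2 ∣ M₁
    · obtain ⟨a1, a2, a3, a4, a5⟩ := phase0_add hr hr2 hr3 hM₁ h9 hcube h2 h4 hrM hres
      exact ⟨M₁ * r, a1, a2, a3, a4,
        fun h => h3Δ (dvd_of_dvd_mul_prime Nat.prime_three hr (Ne.symm hr3) h), a5⟩
    · -- add `2`
      obtain ⟨a1, a2, a3, a4, a5⟩ := phase0_add (W := W) (X := M₁ * 2) hr hr2 hr3 (by omega)
        (fun h => h9 (pow_dvd_of_dvd_mul_prime Nat.prime_three Nat.prime_two (by norm_num) h))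
        (by
          intro q hq hq3 h
          by_cases hq2 : q = 2
          · subst hq2
            exact not_sq_dvd_mul_prime Nat.prime_two h2
              ((pow_dvd_pow 2 (by norm_num : 2 ≤ 3)).trans h)
          · exact hcube q hq hq3 (pow_dvd_of_dvd_mul_prime hq Nat.prime_two hq2 h))
        (Dvd.intro_left M₁ rfl)
        (by
          intro h
          have : (2 : ℕ) ^ 2 ∣ M₁ * 2 := by norm_num; exact h
          exact not_sq_dvd_mul_prime Nat.prime_two h2 this)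
        (fun h => hrM (dvd_of_dvd_mul_prime hr Nat.prime_two hr2 h))
        (isResModAway_mul_prime Nat.prime_two hres)
      refine ⟨M₁ * 2 * r, a1, a2, a3, a4, fun h => h3Δ ?_, a5⟩
      exact dvd_of_dvd_mul_prime Nat.prime_three Nat.prime_two (by norm_num)
        (dvd_of_dvd_mul_prime Nat.prime_three hr (Ne.symm hr3) h)

/-! ### the assembly, second form -/

/-- **[LEVEL-OPT] from the step statements** (no removal step; the square step at `(3, 2)` after
the auxiliary prime). -/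
theorem levelOptStatement_of₂ (hsq : SqStepStatementO) (hsq2 : SqTwoStepStatement)
    (hmo : MazurOddStepStatement) (hm2 : MazurTwoStepStatement) (haux : AuxPrimeStatement)
    (hia : IAStepStatement) : LevelOptStatement := by
  intro p hp W hΔ hss hirr M₀ _ hres₀ hp2M₀ hcube
  have hyp : CurveHyp p W := ⟨hp, hΔ, hss, hirr⟩
  have hM₀ : 0 < M₀ := Nat.pos_of_ne_zero (NeZero.ne M₀)
  obtain ⟨M₁, hM₁, hp2M₁, hcube₁, hpΔ₁, hres₁⟩ := phaseM1 p W hyp M₀ hM₀ hres₀ hp2M₀ hcube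
  rcases hp with rfl | rfl
  · -- `p = 3`
    obtain ⟨r, hrB, hraux⟩ := haux W hyp (M₁.primeFactors ∪ {2, 3})
    have hrp : r.Prime := hraux.2.1
    have hrmod : r % 3 = 2 := hraux.2.2.2.1
    have hr2 : r ≠ 2 := fun h => hrB (by rw [h]; simp)
    have hr3 : r ≠ 3 := fun h => hrB (by rw [h]; simp)
    have hrM : ¬ r ∣ M₁ := fun h =>
      hrB (Finset.mem_union_left _ (Nat.mem_primeFactors.2 ⟨hrp, h, hM₁.ne'⟩))
    obtain ⟨N₀, hN₀, h9N₀, hcN₀, hinv₀, h3Δ₀, hres₀'⟩ :=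
      phase0₂ hsq2 W hyp M₁ r hM₁ hp2M₁ (fun q hq hq3 => hcube₁ q hq hq3) hpΔ₁ hrp hr2 hr3 hrmod
        hrM hres₁
    obtain ⟨N₁, hN₁, hinv₁, hterm₁, hres₁'⟩ :=
      phase1₂ hsq hmo hm2 3 W hyp r (fun _ => ⟨hrp, hr2, hr3⟩) N₀ hN₀ h9N₀ hcN₀ hinv₀ h3Δ₀ hres₀'
    obtain ⟨N₂, hready, hres₂⟩ := phase2 hm2 W hyp N₁ r hraux hr2 hN₁ hinv₁ hterm₁ hres₁'
    exact phase3 hia 3 W hyp N₂ hready hres₂
  · -- `p = 5`
    obtain ⟨N₁, hN₁, -, hterm₁, hres₁'⟩ :=
      phase1₂ hsq hmo hm2 5 W hyp 1 (fun h => absurd h (by norm_num)) M₁ hM₁ hp2M₁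
        (fun q hq hq5 => hcube₁ q hq hq5) (fun h => absurd h (by norm_num)) hpΔ₁ hres₁
    exact phase3 hia 5 W hyp N₁ (ready_of_term_five (by norm_num) hN₁ hterm₁) hres₁'

end Fermat.Agent.ML.LevOpt
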