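/-
PROJECT ML (S59) — lead — **the assembly of [LEVEL-OPT], third form**: as
`ML/LEVOPT_lead_Main2.lean`, with Mazur's principle at `2` in the form `MazurTwoStepStatementS`
(the lower level `M` is SQUAREFREE: helper6's side condition for `(q, p) = (2, 3)`; both call sites
have a squarefree level).
`levelOptStatement_of₃ : SqStepStatementO → SqTwoStepStatement → MazurOddStepStatement →
MazurTwoStepStatementS → AuxPrimeStatement → IAStepStatement → LevelOptStatement`.
-/
import Mathlib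
import Fermat.Agent.ML.LEVOPT_lead_Main2

set_option autoImplicit false
set_option linter.unusedSectionVars false
set_option linter.unusedVariables false

namespace Fermat.Agent.ML

/-- **Mazur's principle at `q = 2`**, squarefree lower level (Hesse host; at `p = 3` the lower
level contains a prime `r ≡ 2 mod 3`) -/
def MazurTwoStepStatementS : Prop :=
  ∀ (p : ℕ) (W : WeierstrassCurve ℤ), CurveHyp p W →
    ∀ (M : ℕ), 0 < M → Squarefree M → ¬ 2 ∣ M →
      (p = 3 → ∃ r : ℕ, r.Prime ∧ r ∣ M ∧ r % 3 = 2) →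
      UnrArith W p 2 → IsResModAway W p (M * 2) → IsResModAway W p M

/-- the form without squarefreeness implies the form with it -/
theorem mazurTwoStepStatementS_of (h : MazurTwoStepStatement) : MazurTwoStepStatementS :=
  fun p W hyp M hM _ h2M hr hunr hres => h p W hyp M hM h2M hr hunr hres

end Fermat.Agent.ML

namespace Fermat.Agent.ML.LevOpt

open Fermat.Agent.MP

/-! ### phase 1, third form -/

theorem phase1₃ (hsq : SqStepStatementO) (hmo : MazurOddStepStatement)
    (hm2 : MazurTwoStepStatementS)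
    (p : ℕ) (W : WeierstrassCurve ℤ) (hyp : CurveHyp p W) (r : ℕ)
    (hr3 : p = 3 → r.Prime ∧ r ≠ 2 ∧ r ≠ 3) :
    ∀ N : ℕ, 0 < N → ¬ p ^ 2 ∣ N → (∀ q : ℕ, q.Prime → q ≠ p → ¬ q ^ 3 ∣ N) → Inv p r N →
      (p ∣ N → (p : ℤ) ∣ W.Δ) → IsResModAway W p N →
      ∃ N₁ : ℕ, 0 < N₁ ∧ Inv p r N₁ ∧ Term W p r N₁ ∧ IsResModAway W p N₁ := by
  have hpp : p.Prime := by rcases hyp.p_eq with rfl | rfl <;> norm_num
  have hp2 : p ≠ 2 := by rcases hyp.p_eq with rfl | rfl <;> norm_num
  intro N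
  induction N using Nat.strong_induction_on with
  | _ N ih =>
    intro hN hp2N hcube hinv hpΔ hres
    by_cases h1 : ∃ q : ℕ, q.Prime ∧ q ≠ p ∧ q ^ 2 ∣ N
    · -- a square
      obtain ⟨q, hq, hqp, hq2N⟩ := h1
      obtain ⟨M, hNM, hqM⟩ := exists_eq_mul_sq_of_sq_dvd hq hq2N (hcube q hq hqp)
      have hM : 0 < M := by
        rcases Nat.eq_zero_or_pos M with h | h
        · rw [h] at hNM; simp at hNM; omega
        · exact h
      have hq2 : p = 3 → q ≠ 2 := by
        intro hp3 hq2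
        apply (hinv hp3).2.1
        have : (2 : ℕ) ^ 2 ∣ N := hq2 ▸ hq2N
        norm_num at this
        exact this
      have hside : p = 3 → 2 ∣ M := by
        intro hp3
        have h2N : 2 ∣ M * q * q := by rw [← hNM]; exact (hinv hp3).1
        exact dvd_of_dvd_mul_prime Nat.prime_two hq (Ne.symm (hq2 hp3))
          (dvd_of_dvd_mul_prime Nat.prime_two hq (Ne.symm (hq2 hp3)) h2N)
      have hres' : IsResModAway W p (M * q) :=
        hsq p W hyp M q hM hq hqp hqM (fun h => hq2 h.1 h.2) hside (isResModAway_of_eq hNM hres)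
      have hdvd : M * q ∣ N := ⟨q, hNM⟩
      have hlt : M * q < N := by
        rw [hNM]
        have : 0 < M * q := Nat.mul_pos hM hq.pos
        have := hq.two_le
        nlinarith
      refine ih (M * q) hlt (Nat.mul_pos hM hq.pos) (fun h => hp2N (h.trans hdvd))
        (fun ℓ hℓ hℓp h => hcube ℓ hℓ hℓp (h.trans hdvd)) ?_ (fun h => hpΔ (h.trans hdvd)) hres'
      refine hinv.of_dvd hdvd (fun hp3 => (hside hp3).mul_right q) (fun hp3 => ?_)
      have hrN : r ∣ M * q * q := by rw [← hNM]; exact (hinv hp3).2.2.1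
      by_cases hrq : r = q
      · rw [hrq]; exact Dvd.intro_left M rfl
      · exact (dvd_of_dvd_mul_prime (hr3 hp3).1 hq hrq
          (dvd_of_dvd_mul_prime (hr3 hp3).1 hq hrq hrN)).mul_right q
    · -- `N` is squarefree
      have hsqf : Squarefree N := by
        rw [Nat.squarefree_iff_prime_squarefree]
        intro x hx hxx
        rw [← pow_two] at hxx
        by_cases hxp : x = p
        · exact hp2N (hxp ▸ hxx)
        · exact h1 ⟨x, hx, hxp, hxx⟩
      have hnsq : ∀ q : ℕ, q.Prime → ¬ q ^ 2 ∣ N := by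
        intro q hq h
        rw [pow_two] at h
        exact (Nat.squarefree_iff_prime_squarefree.1 hsqf) q hq h
      by_cases h2 : ∃ q : ℕ, q.Prime ∧ q ∣ N ∧ q ≠ p ∧ q ≠ r ∧ q ≠ 2 ∧ UnrArith W p q ∧
          ¬ ScalarAt W p q
      · -- Mazur's principle at an odd prime
        obtain ⟨q, hq, hqN, hqp, hqr, hq2, hunr, hnsc⟩ := h2
        obtain ⟨M, hNM, hqM⟩ := exists_eq_mul_of_dvd_of_sq hqN (hnsq q hq)
        have hM : 0 < M := by
          rcases Nat.eq_zero_or_pos M with h | h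
          · rw [h] at hNM; simp at hNM; omega
          · exact h
        have hside : p = 3 → 2 ∣ M := fun hp3 =>
          dvd_of_dvd_mul_prime Nat.prime_two hq (Ne.symm hq2) (by rw [← hNM]; exact (hinv hp3).1)
        have hres' : IsResModAway W p M := by
          rcases hmo p W hyp M q hM hq hq2 hqp hqM hside hunr (isResModAway_of_eq hNM hres)
            with h | h
          · exact h
          · exact absurd h hnsc
        have hdvd : M ∣ N := ⟨q, hNM⟩
        have hlt : M < N := by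
          rw [hNM]
          have := hq.two_le
          nlinarith
        refine ih M hlt hM (fun h => hp2N (h.trans hdvd))
          (fun ℓ hℓ hℓp h => hcube ℓ hℓ hℓp (h.trans hdvd)) ?_ (fun h => hpΔ (h.trans hdvd)) hres'
        refine hinv.of_dvd hdvd hside (fun hp3 => ?_)
        exact dvd_of_dvd_mul_prime (hr3 hp3).1 hq (Ne.symm hqr)
          (by rw [← hNM]; exact (hinv hp3).2.2.1)
      · by_cases h4 : p ≠ 3 ∧ 2 ∣ N ∧ UnrArith W p 2
        · -- Mazur's principle at `2`, `p ≠ 3`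
          obtain ⟨hp3, h2N, hunr⟩ := h4
          obtain ⟨M, hNM, h2M⟩ := exists_eq_mul_of_dvd_of_sq h2N (hnsq 2 Nat.prime_two)
          have hM : 0 < M := by
            rcases Nat.eq_zero_or_pos M with h | h
            · rw [h] at hNM; simp at hNM; omega
            · exact h
          have hres' : IsResModAway W p M :=
            hm2 p W hyp M hM (hsqf.squarefree_of_dvd ⟨2, hNM⟩) h2M (fun h => absurd h hp3) hunr (isResModAway_of_eq hNM hres)
          have hdvd : M ∣ N := ⟨2, hNM⟩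
          have hlt : M < N := by rw [hNM]; omega
          exact ih M hlt hM (fun h => hp2N (h.trans hdvd))
            (fun ℓ hℓ hℓp h => hcube ℓ hℓ hℓp (h.trans hdvd)) (fun h => absurd h hp3)
            (fun h => hpΔ (h.trans hdvd)) hres'
        · -- terminal
          refine ⟨N, hN, hinv, ⟨hsqf, hpΔ, ?_⟩, hres⟩
          intro q hq hqN hqp hqr h32 hunr
          have hq2 : q ≠ 2 := by
            intro hq2
            subst hq2
            exact h4 ⟨fun hp3 => h32 ⟨hp3, rfl⟩, hqN, hunr⟩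
          refine ⟨hq2, ?_⟩
          by_contra hnsc
          exact h2 ⟨q, hq, hqN, hqp, hqr, hq2, hunr, hnsc⟩


/-! ### phase 2, third form -/

/-- **phase 2** at `p = 3`: Mazur's principle at `2`. -/
theorem phase2S (hm2 : MazurTwoStepStatementS) (W : WeierstrassCurve ℤ) (hyp : CurveHyp 3 W)
    (N₁ r : ℕ) (hraux : IsAuxPrime W 3 r) (hr2 : r ≠ 2) (hN₁ : 0 < N₁) (hinv : Inv 3 r N₁)
    (hterm : Term W 3 r N₁) (hres : IsResModAway W 3 N₁) :
    ∃ N₂ : ℕ, Ready W 3 N₂ ∧ IsResModAway W 3 N₂ := by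
  obtain ⟨hsqf, hpΔ, hq⟩ := hterm
  obtain ⟨h2N, h4N, hrN, hr2N⟩ := hinv rfl
  obtain ⟨-, hrp, hrgood, hrmod, hra⟩ := hraux
  have hraux' : IsAuxPrime W 3 r := ⟨rfl, hrp, hrgood, hrmod, hra⟩
  have hr3 : r ≠ 3 := by intro h; rw [h] at hrmod; norm_num at hrmod
  by_cases hcase : UnrArith W 3 2 ∧ ¬ IsAuxPrime W 3 2
  · -- remove `2`
    obtain ⟨hunr, hnaux⟩ := hcase
    have h4N' : ¬ 2 ^ 2 ∣ N₁ := by norm_num; exact h4N
    obtain ⟨M, hNM, h2M⟩ := exists_eq_mul_of_dvd_of_sq h2N h4N'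
    have hM : 0 < M := by
      rcases Nat.eq_zero_or_pos M with h | h
      · rw [h] at hNM; simp at hNM; omega
      · exact h
    have hrM : r ∣ M := dvd_of_dvd_mul_prime hrp Nat.prime_two hr2 (by rw [← hNM]; exact hrN)
    have hres' : IsResModAway W 3 M :=
      hm2 3 W hyp M hM (hsqf.squarefree_of_dvd ⟨2, hNM⟩) h2M (fun _ => ⟨r, hrp, hrM, hrmod⟩) hunr (isResModAway_of_eq hNM hres)
    have hdvd : M ∣ N₁ := ⟨2, hNM⟩
    refine ⟨M, ⟨hM, hsqf.squarefree_of_dvd hdvd, fun h => hpΔ (h.trans hdvd),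
      fun _ => ⟨r, hrp, hrM, hrmod, hraux'⟩, ?_⟩, hres'⟩
    intro q hqp hqM hqne
    by_cases hopt : OptAt W 3 q
    · exact Or.inl hopt
    · right
      have hunrq : UnrArith W 3 q := fun h => hopt (Or.inl h)
      have hqr : q ≠ r := fun h => hopt (Or.inr (h ▸ hraux'))
      have hq2 : q ≠ 2 := fun h => h2M (h ▸ hqM)
      exact ⟨hunrq, (hq q hqp (hqM.trans hdvd) hqne hqr (fun h => hq2 h.2) hunrq).2⟩
  · -- keep the level
    refine ⟨N₁, ⟨hN₁, hsqf, hpΔ, fun _ => ⟨r, hrp, hrN, hrmod, hraux'⟩, ?_⟩, hres⟩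
    intro q hqp hqN hqne
    by_cases hopt : OptAt W 3 q
    · exact Or.inl hopt
    · right
      have hunrq : UnrArith W 3 q := fun h => hopt (Or.inl h)
      have hqr : q ≠ r := fun h => hopt (Or.inr (h ▸ hraux'))
      have hq2 : q ≠ 2 := by
        intro h
        subst h
        exact hcase ⟨hunrq, fun h => hopt (Or.inr h)⟩
      exact ⟨hunrq, (hq q hqp hqN hqne hqr (fun h => hq2 h.2) hunrq).2⟩

/-! ### the assembly, third form -/

/-- **[LEVEL-OPT] from the step statements** (no removal step; the square step at `(3, 2)` after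
the auxiliary prime). -/
theorem levelOptStatement_of₃ (hsq : SqStepStatementO) (hsq2 : SqTwoStepStatement)
    (hmo : MazurOddStepStatement) (hm2 : MazurTwoStepStatementS) (haux : AuxPrimeStatement)
    (hia : IAStepStatement) : LevelOptStatement := by
  intro p hp W hΔ hss hirr M₀ _ hres₀ hp2M₀ hcube
  have hyp : CurveHyp p W := ⟨hp, hΔ, hss, hirr⟩
  have hM₀ : 0 < M₀ := Nat.pos_of_ne_zero (NeZero.ne M₀)
  obtain ⟨M₁, hM₁, hp2M₁, hcube₁, hpΔ₁, hres₁⟩ := phaseM1 p W hyp M₀ hM₀ hres₀ hp2M₀ hcube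
  rcases hp with rfl | rfl
  · -- `p = 3`
    obtain ⟨r, hrB, hraux⟩ := haux W hyp (M₁.primeFactors ∪ {2, 3})
    have hrp : r.Prime := hraux.2.1
    have hrmod : r % 3 = 2 := hraux.2.2.2.1
    have hr2 : r ≠ 2 := fun h => hrB (by rw [h]; simp)
    have hr3 : r ≠ 3 := fun h => hrB (by rw [h]; simp)
    have hrM : ¬ r ∣ M₁ := fun h =>
      hrB (Finset.mem_union_left _ (Nat.mem_primeFactors.2 ⟨hrp, h, hM₁.ne'⟩))
    obtain ⟨N₀, hN₀, h9N₀, hcN₀, hinv₀, h3Δ₀, hres₀'⟩ :=
      phase0₂ hsq2 W hyp M₁ r hM₁ hp2M₁ (fun q hq hq3 => hcube₁ q hq hq3) hpΔ₁ hrp hr2 hr3 hrmod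
        hrM hres₁
    obtain ⟨N₁, hN₁, hinv₁, hterm₁, hres₁'⟩ :=
      phase1₃ hsq hmo hm2 3 W hyp r (fun _ => ⟨hrp, hr2, hr3⟩) N₀ hN₀ h9N₀ hcN₀ hinv₀ h3Δ₀ hres₀'
    obtain ⟨N₂, hready, hres₂⟩ := phase2S hm2 W hyp N₁ r hraux hr2 hN₁ hinv₁ hterm₁ hres₁'
    exact phase3 hia 3 W hyp N₂ hready hres₂
  · -- `p = 5`
    obtain ⟨N₁, hN₁, -, hterm₁, hres₁'⟩ :=
      phase1₃ hsq hmo hm2 5 W hyp 1 (fun h => absurd h (by norm_num)) M₁ hM₁ hp2M₁
        (fun q hq hq5 => hcube₁ q hq hq5) (fun h => absurd h (by norm_num)) hpΔ₁ hres₁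
    exact phase3 hia 5 W hyp N₁ (ready_of_term_five (by norm_num) hN₁ hterm₁) hres₁'

end Fermat.Agent.ML.LevOpt
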