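/-
ML (S59) — helper1 — Mazur (2,3): the `p = 3` twin of `Fermat.Agent.ML.HES_helper6_Final` and of
`Fermat.Agent.ML.LEVOPT_helper6_MazTwo` (helper6's interface `ML/IFACE_helper6_MazHes3`):

* `mazurPrincipleTwoThreeS_of_rold : HesRoldQ3 → MazurPrincipleStatementTwoThreeS`
  (Mazur's principle at `(q, p) = (2, 3)`, squarefree lower level with a prime `r ≡ 2 mod 3`);
* `mazurTwoStepStatementS_of_rold : HesRoldQ3 → MazurTwoStepStatementS`
  (lead's literal of `ML/LEVOPT_lead_Main3`; the case `p ≠ 3` is helper6's unconditional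
  `LevOpt.mazurTwoStep_ne_three`).
-/
import Mathlib
import Fermat.Agent.ML.HES3_helper1_Top
import Fermat.Agent.ML.HES_helper6_Final
import Fermat.Agent.ML.LEVOPT_helper6_MazTwo
import Fermat.Agent.ML.LEVOPT_lead_Main3

set_option autoImplicit false
set_option linter.unusedSectionVars false
set_option linter.unusedVariables false
set_option linter.style.haveILetI false

open AlgebraicCurve ModularCurve WeierstrassCurve WeierstrassCurve.Affine
open WeierstrassCurve.Affine.Point

open scoped WeierstrassCurve.Affine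

namespace Fermat.Agent.ML

open Fermat.Agent.S35 Fermat.Agent.NP Fermat.Agent.GR Fermat.Agent.MP Fermat.Agent.SS
  Fermat.Agent.RB

local notation "Ω" => AlgebraicClosure ℚ

/-- **Mazur's principle at `(q, p) = (2, 3)`**, squarefree lower level, from [ROLD-q] at `p = 3`. -/
theorem mazurPrincipleTwoThreeS_of_rold (HR : HesRoldQ3) : MazurPrincipleStatementTwoThreeS := by
  intro E _ W hW M' _ _ h2M hsq hr S hS hbad h3S hirr hunr hres
  exact mazurPrincipleH3_of_rold HR E hW (M' := M') (q := 2) (p := 3) Nat.prime_three (by decide)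
    Nat.prime_two (by decide) (by decide) h2M (fun _ => ⟨hsq, hr⟩) S hS hbad h3S hirr hunr hres

end Fermat.Agent.ML

namespace Fermat.Agent.ML.LevOpt

open Fermat.Agent.MP Fermat.Agent.RB

/-- the common part: Mazur's principle at `q = 2` for one `p` and one lower level `M`, in the
arithmetic form. -/
theorem mazurTwoStep_of_principle_at {p : ℕ} {W : WeierstrassCurve ℤ} (hyp : CurveHyp p W)
    (M : ℕ) (hM : 0 < M)
    (hprin : ∀ (E : WeierstrassCurve ℚ) [E.IsElliptic] (_hW : W.IsIntegralModelOf E)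
      [NeZero M] [NeZero (M * 2)],
      ∀ S : Set ℕ, {ℓ : ℕ | ℓ.Prime ∧ ℓ ∈ S}.Finite → badSet W p (M * 2) ⊆ S → 3 ∈ S →
      GaloisRepIsIrreducible (K := AlgebraicClosure ℚ) ℚ E p →
      GaloisRepUnramifiedAt (K := AlgebraicClosure ℚ) ℚ E p 2 →
      ResOccurs (M * 2) p S (fun ℓ => W.apOfModel ℓ) →
        ResOccurs M p S (fun ℓ => W.apOfModel ℓ) ∨ FrobScalarAtCurve E p 2)
    (hunr : UnrArith W p 2)
    (hres : IsResModAway W p (M * 2)) : IsResModAway W p M := by
  classical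
  have hpp : p.Prime := by rcases hyp.p_eq with rfl | rfl <;> norm_num
  have hp2 : p ≠ 2 := by rcases hyp.p_eq with rfl | rfl <;> norm_num
  obtain ⟨S, hSfin, hS⟩ := hres
  set E : WeierstrassCurve ℚ := W.map (Int.castRingHom ℚ) with hE
  haveI : E.IsElliptic := by
    refine ⟨isUnit_iff_ne_zero.mpr ?_⟩
    rw [hE, WeierstrassCurve.map_Δ]
    simpa using hyp.disc_ne
  have hW : W.IsIntegralModelOf E := ⟨1, one_smul _ _⟩
  haveI : NeZero M := ⟨hM.ne'⟩
  haveI : NeZero (M * 2) := ⟨(Nat.mul_pos hM two_pos).ne'⟩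
  set S' : Set ℕ := (S ∪ badSet W p (M * 2)) ∪ {3} with hS'
  have hS'fin : {ℓ : ℕ | ℓ.Prime ∧ ℓ ∈ S'}.Finite := by
    refine Set.Finite.subset ((hSfin.union
      (finite_primes_badSet W hyp.disc_ne p (M * 2) (Nat.mul_pos hM two_pos))).union
      (Set.finite_singleton 3)) ?_
    rintro ℓ ⟨hℓp, (hℓ | hℓ) | hℓ⟩
    · exact Or.inl (Or.inl ⟨hℓ, hℓp⟩)
    · exact Or.inl (Or.inr ⟨hℓ, hℓp⟩)
    · exact Or.inr hℓ
  have hres' : ResOccurs (M * 2) p S' (fun ℓ => W.apOfModel ℓ) :=
    hS.mono (fun ℓ hℓ => Or.inl (Or.inl hℓ))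
  have hunr' := TATED.galoisRepUnramifiedAt_of_unrArith W hyp.disc_ne hyp.semistable hpp hp2
    Nat.prime_two (Ne.symm hp2) hunr
  rcases hprin E hW S' hS'fin (fun ℓ hℓ => Or.inl (Or.inr hℓ)) (Or.inr rfl)
    hyp.irreducible hunr' hres' with h | h
  · refine ⟨S', ?_, h⟩
    refine hS'fin.subset ?_
    rintro ℓ ⟨h1, h2⟩
    exact ⟨h2, h1⟩
  · exfalso
    have h1 : 2 ≡ 1 [MOD p] := h.1
    rcases hyp.p_eq with rfl | rfl
    · exact absurd h1 (by decide)
    · exact absurd h1 (by decide)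

/-- **`MazurTwoStepStatementS` (lead's literal) from [ROLD-q] at `p = 3`.** -/
theorem mazurTwoStepStatementS_of_rold (HR : HesRoldQ3) : MazurTwoStepStatementS := by
  intro p W hyp M hM hsq h2M hside hunr hres
  by_cases hp3 : p = 3
  · subst hp3
    exact mazurTwoStep_of_principle_at hyp M hM
      (fun E _ hW _ _ S hS hbad h3S hirr hun hr =>
        mazurPrincipleTwoThreeS_of_rold HR E hW h2M hsq (hside rfl) S hS hbad h3S hirr hun hr)
      hunr hres
  · exact mazurTwoStep_ne_three hyp hp3 M hM h2M hunr hres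

end Fermat.Agent.ML.LevOpt
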