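/-
ML (S59) — helper6 — **interface for Mazur's principle at `(q, p) = (2, 3)`** (Hesse host).

The Hesse chain (`ML/HES_helper6_*`) uses `p ≠ 3` in three places; the serious one is [ROLD-q]
(norm descent from the host `E = hesE Ω M` to `L = keyFq Ω M`, degree `12` or `3`).  At `p = 3`
the statement is FALSE without a non-Eisenstein input; the repair [R-EIS] descends the Kummer lift
by Galois descent instead of the norm and kills the cuspidal obstruction by `T_ℓ₀ - (ℓ₀ + 1)`.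

Leaves (all `Prop`s, literal statements):

* `KerRedTorsionFreeStatement`, `PowOfRedPowStatement`  — [KER3]  (generic `FG.GoodRed`)
* `HesGalDescentStatement`                               — [GDESC] (field theory of `E / L`)
* `NoEllThreeStatement`, `HesOrdDescentStatement`        — [NOELL], [NOELL']
* `HeckeCuspStatement`                                   — [HCUSP]
-/
import Mathlib
import Fermat.Agent.NP.BASEP_helper2_Old
import Fermat.Agent.FG.EGAL_helper6_PullHes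
import Fermat.Agent.FG.CURVE_helper5_Red

set_option autoImplicit false
set_option linter.unusedSectionVars false
set_option linter.unusedVariables false

noncomputable section

namespace Fermat.Agent.ML

open AlgebraicCurve IsLocalRing IntermediateField ModularCurve

open Fermat.Agent.FG Fermat.Agent.JA Fermat.Agent.SS Fermat.Agent.FF Fermat.Agent.NP
  Fermat.Agent.X0N

open scoped Fermat.Agent.JA.Host

local notation "Ω" => AlgebraicClosure ℚ

/-! ### [KER3] the kernel of reduction has no prime-to-residue-characteristic torsion -/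

/-- **[KER3]**: the kernel of reduction of a good-reduction datum over a multivariable Henselian
valuation ring has no `m`-torsion, `m` a unit of the valuation ring.
(Route: `MW/DIV_helper2_KerRed.exists_div_sol` read backwards + `hensel_mv_unique`, as in
`FG/REFL_helper5_NF2.normalForm_unique`.) -/
def KerRedTorsionFreeStatement : Prop :=
  ∀ {Ω' : Type} [Field Ω'] [IsAlgClosed Ω'] [CharZero Ω'] {A : ValuationSubring Ω'}
    [IsAlgClosed (ResidueField ↥A)] {𝔽 : Type} [Field 𝔽] [Algebra Ω' 𝔽] {𝔽b : Type} [Field 𝔽b]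
    [Algebra (ResidueField ↥A) 𝔽b] (X : GoodRed Ω' A 𝔽 𝔽b), IsMvHenselian A →
    ∀ m : ℕ, A.valuation ((m : ℕ) : Ω') = 1 → ∀ z ∈ X.kerRed, m • z = 0 → z = 0

/-- **[KER3′]**: a Gauss unit whose reduction is an `m`-th power and whose divisor is divisible by
`m` is a constant times an `m`-th power. -/
def PowOfRedPowStatement : Prop :=
  ∀ {Ω' : Type} [Field Ω'] [IsAlgClosed Ω'] [CharZero Ω'] {A : ValuationSubring Ω'}
    [IsAlgClosed (ResidueField ↥A)] {𝔽 : Type} [Field 𝔽] [Algebra Ω' 𝔽] {𝔽b : Type} [Field 𝔽b]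
    [Algebra (ResidueField ↥A) 𝔽b] (X : GoodRed Ω' A 𝔽 𝔽b), IsMvHenselian A →
    ∀ m : ℕ, A.valuation ((m : ℕ) : Ω') = 1 →
    ∀ (u : 𝔽) (hu : u ∈ X.W) (t : 𝔽b), t ≠ 0 → X.ρ ⟨u, hu⟩ = t ^ m →
      (∀ P : Place Ω' 𝔽, (m : ℤ) ∣ P.ord u) →
      ∃ (c : Ω') (h : 𝔽), c ≠ 0 ∧ h ≠ 0 ∧ u = algebraMap Ω' 𝔽 c * h ^ m

/-! ### [GDESC] Galois descent of cubes through the Hesse cover -/

/-- **[GDESC]**: a function `g` on the Hesse host whose class in `E^× / Ω^× E^{×3}` is invariant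
under `Gal(E / L)`, and whose order at `∞` is divisible by `3`, satisfies
`g ^ d = φ(f) · k ^ 3` with `d ∈ {1, 2}`, `f ∈ L`.
(Route: norm over `N = Gal(E / L(γ))`, `|N| ∈ {1, 2, 4}`; the cyclic cubic `L(γ) / L`, Hilbert 90,
correction by `γ ^ b`; `b = 0` because `ord_∞ γ = -1` and `ord_∞ φ(f) ∈ 3ℤ`.) -/
def HesGalDescentStatement : Prop :=
  ∀ (M : ℕ) [NeZero M] (g : ↥(hesE Ω M)), g ≠ 0 →
    (∀ σ ∈ fixingAlong (fullToHesE Ω M), ∃ (c : Ω) (h : ↥(hesE Ω M)), c ≠ 0 ∧ h ≠ 0 ∧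
      σ g = algebraMap Ω ↥(hesE Ω M) c * g * h ^ 3) →
    (3 : ℤ) ∣ ((g : ↥(hesE Ω M)) : LaurentSeries Ω).order →
    ∃ (d : ℕ) (f : ↥(keyFq Ω M)) (k : ↥(hesE Ω M)), (d = 1 ∨ d = 2) ∧ f ≠ 0 ∧ k ≠ 0 ∧
      g ^ d = fullToHesE Ω M f * k ^ 3

/-! ### [NOELL] no elliptic points of order three -/

/-- the two names of `j` on `X₀(M)` over `Ω` agree. -/
theorem egalJ_eq_jBar_maz23 (M : ℕ) [NeZero M] : (egalJ M : ↥(keyFq Ω M)) = jBar M :=
  Subtype.ext (coeffEmb_jq_eq_jqModC Ω).symm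

/-- **[NOELL]**: if a prime `r ≡ 2 mod 3` divides `M`, every zero of `j` on `X₀(M)` has order
divisible by `3`. -/
def NoEllThreeStatement : Prop :=
  ∀ (M : ℕ) [NeZero M], (∃ r : ℕ, r.Prime ∧ r ∣ M ∧ r % 3 = 2) →
    ∀ v : Place Ω ↥(keyFq Ω M), 0 < v.ord (egalJ M) → (3 : ℤ) ∣ v.ord (egalJ M)

/-- **[NOELL′]**: under the same hypothesis, a function of `X₀(M)` whose pull-back to the Hesse host
has all orders divisible by `3` has order divisible by `3` at every non-cuspidal place. -/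
def HesOrdDescentStatement : Prop :=
  ∀ (M : ℕ) [NeZero M], (∃ r : ℕ, r.Prime ∧ r ∣ M ∧ r % 3 = 2) →
    ∀ f : ↥(keyFq Ω M), f ≠ 0 →
      (∀ P : Place Ω ↥(hesE Ω M), (3 : ℤ) ∣ P.ord (fullToHesE Ω M f)) →
      ∀ v : Place Ω ↥(keyFq Ω M), 0 ≤ v.ord (egalJ M) → (3 : ℤ) ∣ v.ord f

/-! ### [HCUSP] the Hecke operators are Eisenstein on the cusps -/

/-- **[HCUSP]**: `M` squarefree, `ℓ ∤ M`: if all orders of `f` at the non-cuspidal places of
`X₀(M)` are divisible by `m`, then `div (T_ℓ f) ≡ (ℓ + 1) div f mod m` everywhere.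
(At a cusp `v`: the two cusps `w` of `X₀(M ℓ)` above `v` have `(e_α, e_β) ∈ {(1, ℓ), (ℓ, 1)}` and
`β(w) = v`.) -/
def HeckeCuspStatement : Prop :=
  ∀ (M : ℕ) [NeZero M] (ℓ : ℕ) [NeZero ℓ] [NeZero (M * ℓ)], Squarefree M → ℓ.Prime → ¬ ℓ ∣ M →
    ∀ (m : ℤ) (f : ↥(modularFunctionFieldBar M)), f ≠ 0 →
      (∀ v : Place Ω ↥(modularFunctionFieldBar M), 0 ≤ v.ord (jBar M) → m ∣ v.ord f) →
      ∀ v : Place Ω ↥(modularFunctionFieldBar M),
        m ∣ v.ord (heckeFunBar M ℓ f) - ((ℓ : ℤ) + 1) * v.ord f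

end Fermat.Agent.ML

end
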