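/-
PROJECT ML (S59) — Mazur's principle at `(q, p) = (2, 3)` — leaf **[KER3]** (helper2), part 2:
**a Gauss-integral function whose reduction is a non-zero `m`-th power and whose divisor is
divisible by `m` is a constant times an `m`-th power** (`m` a unit of the valuation ring).

`u ∈ W`, `ρ u = t ^ m ≠ 0`, `m ∣ ord_P u` for all `P`.  Write `div u = m D`; the class of `D` is
killed by `m`, and it lies in the kernel of reduction: `m · red D = red (div u) = div (ρ u) =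
m · div t`, so `red D = div t` is principal.  The kernel of reduction has no `m`-torsion
(`kerRed_torsionFree`), so `D = div h` and `u / h ^ m` has trivial divisor, i.e. is a constant.

Final literals: `Fermat.Agent.ML.exists_eq_const_mul_pow_of_kerRed_torsionFree` (abstract: any `m`
for which the kernel of reduction has no `m`-torsion) and
`Fermat.Agent.ML.exists_eq_const_mul_pow_of_red_pow` (`m` a unit of `A`, `A` Henselian).
-/
import Mathlib
import Fermat.Agent.ML.MAZ23_helper2_Ker3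
import Fermat.Agent.RB.ROLD_helper4_Lift

set_option autoImplicit false
set_option linter.unusedSectionVars false
set_option linter.unusedVariables false
set_option linter.style.haveILetI false

noncomputable section

namespace Fermat.Agent.ML

open AlgebraicCurve IsLocalRing IntermediateField Fermat.Agent.FG Fermat.Agent.FF
  Fermat.Agent.RB.ROLD

variable {Ω : Type*} [Field Ω] {A : ValuationSubring Ω} {𝔽 : Type*} [Field 𝔽] [Algebra Ω 𝔽]
  {𝔽b : Type*} [Field 𝔽b] [Algebra (ResidueField ↥A) 𝔽b] (X : GoodRed Ω A 𝔽 𝔽b)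

/-- **[KER3] (ii), abstract form**: if the kernel of reduction has no `m`-torsion, a Gauss-integral
function `u` whose reduction is a non-zero `m`-th power and all of whose orders are divisible by
`m` is a constant times an `m`-th power. -/
theorem exists_eq_const_mul_pow_of_kerRed_torsionFree (m : ℕ) (hm : m ≠ 0)
    (htf : ∀ z ∈ X.kerRed, m • z = 0 → z = 0)
    (u : 𝔽) (hu : u ∈ X.W) (t : 𝔽b) (ht : t ≠ 0) (hρ : X.ρ ⟨u, hu⟩ = t ^ m)
    (hord : ∀ P : Place Ω 𝔽, (m : ℤ) ∣ P.ord u) :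
    ∃ (c : Ω) (h : 𝔽), c ≠ 0 ∧ h ≠ 0 ∧ u = algebraMap Ω 𝔽 c * h ^ m := by
  classical
  haveI := X.principal_gen
  have hρ0 : X.ρ ⟨u, hu⟩ ≠ 0 := by rw [hρ]; exact pow_ne_zero m ht
  have hu0 : u ≠ 0 := by
    rintro rfl
    apply hρ0
    have : (⟨0, hu⟩ : ↥X.W) = 0 := rfl
    rw [this, map_zero]
  have hm' : (m : ℤ) ≠ 0 := by exact_mod_cast hm
  -- the divisor of `u` and its `m`-th part
  obtain ⟨E, hE, hEdeg⟩ := HasPrincipalDivisors.exists_divisor (K := Ω) u hu0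
  obtain ⟨D, hD⟩ := exists_nsmul_eq_of_forall_dvd E m (fun P => by rw [hE]; exact hord P)
  have hDdeg : Divisor.degree D = 0 := by
    have h1 : Divisor.degree (m • D) = 0 := by rw [hD, hEdeg]
    rw [map_nsmul, nsmul_eq_mul] at h1
    rcases mul_eq_zero.1 h1 with h | h
    · exact absurd h hm'
    · exact h
  set D0 : Divisor.degZero (K := Ω) (F := 𝔽) := ⟨D, hDdeg⟩ with hD0
  -- its class is killed by `m`
  have hmz : m • (Pic0.mk D0 : Pic0 Ω 𝔽) = 0 := by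
    have h1 : m • (Pic0.mk D0 : Pic0 Ω 𝔽) = Pic0.mk (m • D0) := rfl
    rw [h1]
    refine (QuotientAddGroup.eq_zero_iff _).2 ?_
    rw [AddSubgroup.mem_addSubgroupOf, AddSubgroup.coe_nsmul]
    show m • D ∈ Divisor.principal
    rw [hD]
    exact ⟨u, hu0, hE⟩
  -- and it lies in the kernel of reduction
  have hrdiv : ∀ Q : Place (ResidueField ↥A) 𝔽b,
      Finsupp.mapDomain X.r E Q = Q.ord (X.ρ ⟨u, hu⟩) :=
    X.r_div ⟨u, hu⟩ hρ0 E hE
  have hredD : ∀ Q : Place (ResidueField ↥A) 𝔽b, X.redDiv D Q = Q.ord t := by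
    intro Q
    have h1 := hrdiv Q
    rw [← hD, ← GoodRed.redDiv_apply, map_nsmul, Finsupp.smul_apply, nsmul_eq_mul, hρ,
      PlaceAux.ord_pow] at h1
    exact mul_left_cancel₀ hm' h1
  have hker : (Pic0.mk D0 : Pic0 Ω 𝔽) ∈ X.kerRed := by
    rw [GoodRed.mem_kerRed, GoodRed.redPic0_mk]
    refine (QuotientAddGroup.eq_zero_iff _).2 ?_
    rw [AddSubgroup.mem_addSubgroupOf]
    show X.redDiv D ∈ Divisor.principal
    exact ⟨t, ht, hredD⟩
  -- hence it is trivial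
  have hz := htf _ hker hmz
  have hprin : D ∈ Divisor.principal (K := Ω) (F := 𝔽) := by
    have h2 := (QuotientAddGroup.eq_zero_iff _).1 hz
    rw [AddSubgroup.mem_addSubgroupOf] at h2
    exact h2
  obtain ⟨h, hh0, hhD⟩ := hprin
  -- `u / h ^ m` has trivial divisor
  have hhm0 : h ^ m ≠ 0 := pow_ne_zero m hh0
  have hquot : ∀ P : Place Ω 𝔽, P.ord (u * (h ^ m)⁻¹) = 0 := by
    intro P
    rw [P.ord_mul hu0 (inv_ne_zero hhm0), P.ord_inv, PlaceAux.ord_pow, ← hhD P, ← hE P, ← hD,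
      Finsupp.smul_apply, nsmul_eq_mul]
    ring
  obtain ⟨c, hc⟩ := X.const_gen _ (fun P => (hquot P).ge)
  have hc0 : c ≠ 0 := by
    rintro rfl
    rw [map_zero] at hc
    exact mul_ne_zero hu0 (inv_ne_zero hhm0) hc
  refine ⟨c, h, hc0, hh0, ?_⟩
  rw [← hc]
  field_simp

/-- **[KER3] (ii)**: over a multivariable Henselian valuation ring, for `m` a unit of the valuation
ring, a Gauss-integral function `u` whose reduction is a non-zero `m`-th power and all of whose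
orders are divisible by `m` is a constant times an `m`-th power. -/
theorem exists_eq_const_mul_pow_of_red_pow [IsAlgClosed Ω] [CharZero Ω]
    [IsAlgClosed (ResidueField ↥A)] (hens : IsMvHenselian A) (m : ℕ)
    (hm : A.valuation ((m : ℕ) : Ω) = 1)
    (u : 𝔽) (hu : u ∈ X.W) (t : 𝔽b) (ht : t ≠ 0) (hρ : X.ρ ⟨u, hu⟩ = t ^ m)
    (hord : ∀ P : Place Ω 𝔽, (m : ℤ) ∣ P.ord u) :
    ∃ (c : Ω) (h : 𝔽), c ≠ 0 ∧ h ≠ 0 ∧ u = algebraMap Ω 𝔽 c * h ^ m := by
  have hm0 : m ≠ 0 := by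
    rintro rfl
    rw [Nat.cast_zero, map_zero] at hm
    exact zero_ne_one hm
  exact exists_eq_const_mul_pow_of_kerRed_torsionFree X m hm0
    (kerRed_torsionFree X hens m hm) u hu t ht hρ hord

/-- **[KER3] (ii), two-function form** (the shape used for `u = σ g / g`): two Gauss-integral
functions `g`, `g'` whose reductions are `w̄ · t ^ m`, `w̄ · t' ^ m` (`w̄, t, t' ≠ 0`) and whose orders
are congruent modulo `m` everywhere differ by a constant and an `m`-th power: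
`g' = c · g · h ^ m`. -/
theorem exists_eq_const_mul_mul_pow_of_kerRed_torsionFree (m : ℕ) (hm : m ≠ 0)
    (htf : ∀ z ∈ X.kerRed, m • z = 0 → z = 0)
    (g g' : 𝔽) (hg : g ∈ X.W) (hg' : g' ∈ X.W) (wb t t' : 𝔽b) (hwb : wb ≠ 0) (ht : t ≠ 0)
    (ht' : t' ≠ 0) (hρ : X.ρ ⟨g, hg⟩ = wb * t ^ m) (hρ' : X.ρ ⟨g', hg'⟩ = wb * t' ^ m)
    (hord : ∀ P : Place Ω 𝔽, (m : ℤ) ∣ P.ord g' - P.ord g) :
    ∃ (c : Ω) (h : 𝔽), c ≠ 0 ∧ h ≠ 0 ∧ g' = algebraMap Ω 𝔽 c * g * h ^ m := by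
  have hρ0 : X.ρ ⟨g, hg⟩ ≠ 0 := by rw [hρ]; exact mul_ne_zero hwb (pow_ne_zero m ht)
  have hρ0' : X.ρ ⟨g', hg'⟩ ≠ 0 := by rw [hρ']; exact mul_ne_zero hwb (pow_ne_zero m ht')
  have hg0 : g ≠ 0 := by
    rintro rfl
    apply hρ0
    have : (⟨0, hg⟩ : ↥X.W) = 0 := rfl
    rw [this, map_zero]
  have hg0' : g' ≠ 0 := by
    rintro rfl
    apply hρ0'
    have : (⟨0, hg'⟩ : ↥X.W) = 0 := rfl
    rw [this, map_zero]
  have hginv : g⁻¹ ∈ X.W := (X.inv_mem_W_iff hg hg0).mpr hρ0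
  have hu : g' * g⁻¹ ∈ X.W := X.W.mul_mem _ _ hg' hginv
  have hρu : X.ρ ⟨g' * g⁻¹, hu⟩ = (t' * t⁻¹) ^ m := by
    have h1 : (⟨g' * g⁻¹, hu⟩ : ↥X.W) * ⟨g, hg⟩ = ⟨g', hg'⟩ := by
      apply Subtype.ext
      show g' * g⁻¹ * g = g'
      rw [mul_assoc, inv_mul_cancel₀ hg0, mul_one]
    have h2 := congrArg X.ρ h1
    rw [map_mul, hρ, hρ'] at h2
    have htm : t ^ m ≠ 0 := pow_ne_zero m ht
    have hwt : wb * t ^ m ≠ 0 := mul_ne_zero hwb htm
    apply mul_right_cancel₀ hwt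
    rw [h2, mul_pow, inv_pow]
    have h3 : t' ^ m * (t ^ m)⁻¹ * (wb * t ^ m) = wb * t' ^ m * ((t ^ m)⁻¹ * t ^ m) := by ring
    rw [h3, inv_mul_cancel₀ htm, mul_one]
  obtain ⟨c, h, hc0, hh0, hch⟩ := exists_eq_const_mul_pow_of_kerRed_torsionFree X m hm htf
    (g' * g⁻¹) hu (t' * t⁻¹) (mul_ne_zero ht' (inv_ne_zero ht)) hρu (fun P => by
      rw [P.ord_mul hg0' (inv_ne_zero hg0), P.ord_inv, ← sub_eq_add_neg]
      exact hord P)
  refine ⟨c, h, hc0, hh0, ?_⟩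
  have h4 : g' = g' * g⁻¹ * g := by
    rw [mul_assoc, inv_mul_cancel₀ hg0, mul_one]
  rw [h4, hch]
  ring

/-- **[KER3] (ii), two-function form**, `m` a unit of the Henselian valuation ring `A`. -/
theorem exists_eq_const_mul_mul_pow_of_red [IsAlgClosed Ω] [CharZero Ω]
    [IsAlgClosed (ResidueField ↥A)] (hens : IsMvHenselian A) (m : ℕ)
    (hm : A.valuation ((m : ℕ) : Ω) = 1)
    (g g' : 𝔽) (hg : g ∈ X.W) (hg' : g' ∈ X.W) (wb t t' : 𝔽b) (hwb : wb ≠ 0) (ht : t ≠ 0)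
    (ht' : t' ≠ 0) (hρ : X.ρ ⟨g, hg⟩ = wb * t ^ m) (hρ' : X.ρ ⟨g', hg'⟩ = wb * t' ^ m)
    (hord : ∀ P : Place Ω 𝔽, (m : ℤ) ∣ P.ord g' - P.ord g) :
    ∃ (c : Ω) (h : 𝔽), c ≠ 0 ∧ h ≠ 0 ∧ g' = algebraMap Ω 𝔽 c * g * h ^ m := by
  have hm0 : m ≠ 0 := by
    rintro rfl
    rw [Nat.cast_zero, map_zero] at hm
    exact zero_ne_one hm
  exact exists_eq_const_mul_mul_pow_of_kerRed_torsionFree X m hm0
    (kerRed_torsionFree X hens m hm) g g' hg hg' wb t t' hwb ht ht' hρ hρ' hord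

end Fermat.Agent.ML

end
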