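/-
PROJECT ML (S59) — Mazur's principle at `(q, p) = (2, 3)` — step 2 of helper6's [ROLD-3] (helper2):
**the class of a Kummer lift on the Hesse host in `E^× / Ω^× E^{×m}` is invariant under
`Gal(E / φ L)`.**

`g` Gauss-integral on the Hesse host `E = hesE Ω N` with `ρ g = ρ (φ w) · β ^ m`, `div g = m D`.
An automorphism `σ` of `E` over `φ (keyFq Ω N)` preserves the Gauss ring and its maximal ideal
(`HES_helper6_RoldGal`) and fixes `φ w`, so `ρ (σ g) = ρ (φ w) · β' ^ m`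
(`ROLD.ρ_apply_of_congr`); `div (σ g) = m σ D`; hence `σ g = c · g · h ^ m` by [KER3]
(`exists_eq_const_mul_mul_pow_of_red`).  This is the hypothesis of `HesGalDescentStatement`.
-/
import Mathlib
import Fermat.Agent.ML.MAZ23_helper2_Ker3Pow
import Fermat.Agent.ML.HES_helper6_RoldGal
import Fermat.Agent.RB.ROLD_helper4_Norm
import Fermat.Agent.RB.ROLD_helper4_Hens
import Fermat.Agent.ML.IFACE_helper6_Maz23

set_option autoImplicit false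
set_option linter.unusedSectionVars false
set_option linter.unusedVariables false
set_option linter.style.haveILetI false
set_option synthInstance.maxHeartbeats 400000

noncomputable section

namespace Fermat.Agent.ML

open AlgebraicCurve IsLocalRing IntermediateField Polynomial ModularCurve
open Fermat.Agent.FG Fermat.Agent.JA Fermat.Agent.SS Fermat.Agent.FF Fermat.Agent.RB.ROLD

local notation "Ω" => AlgebraicClosure ℚ

section Hes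

variable {q : ℕ} [Fact q.Prime] {A : ValuationSubring Ω} (hA : A.LiesOverPrime q)
  (N : ℕ) [NeZero N] (hqN : ¬ q ∣ N) (hq3 : q ≠ 3)

/-- an automorphism of the Hesse cover fixes `j`. -/
theorem apply_hesJE_of_mem_fixingAlong {σ : ↥(hesE Ω N) ≃ₐ[Ω] ↥(hesE Ω N)}
    (hσ : σ ∈ fixingAlong (fullToHesE Ω N)) : σ (hesJE Ω N) = hesJE Ω N := by
  rw [← fullToHesE_egalJ]
  exact hσ _

include hqN in
/-- **step 2 of [ROLD-3]**: the conjugates of a Kummer lift on the Hesse host differ from it by a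
constant and an `m`-th power. -/
theorem hes_apply_eq_const_mul_mul_pow (m : ℕ) (hm : A.valuation ((m : ℕ) : Ω) = 1)
    (w : ↥(keyFq Ω N)) (hW : fullToHesE Ω N w ∈ hesWE hA N hq3)
    (hwb : hesρ hA N hq3 ⟨fullToHesE Ω N w, hW⟩ ≠ 0)
    {g : ↥(hesE Ω N)} (hg : g ∈ hesWE hA N hq3) {β : hesEt hA N hq3} (hβ : β ≠ 0)
    (hρ : hesρ hA N hq3 ⟨g, hg⟩ = hesρ hA N hq3 ⟨fullToHesE Ω N w, hW⟩ * β ^ m)
    (D : Divisor Ω ↥(hesE Ω N)) (hgD : ∀ P : Place Ω ↥(hesE Ω N), (m • D) P = P.ord g) :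
    ∀ σ ∈ fixingAlong (fullToHesE Ω N), ∃ (c : Ω) (h : ↥(hesE Ω N)), c ≠ 0 ∧ h ≠ 0 ∧
      σ g = algebraMap Ω ↥(hesE Ω N) c * g * h ^ m := by
  intro σ hσ
  haveI : IsAlgClosed (ResidueField ↥A) := isAlgClosed_residueField A
  have hens : IsMvHenselian A := isMvHenselian_of_liesOverPrime hA
  set X := hesGoodRed hA N hqN hq3 with hX
  have hσJ : σ (hesJE Ω N) = hesJE Ω N := apply_hesJE_of_mem_fixingAlong N hσ
  have hσJ' : σ.symm (hesJE Ω N) = hesJE Ω N := symm_apply_hesJE N σ hσJ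
  -- `σ` as a ring endomorphism preserving `W` and `𝔪_W`
  have h1 : ∀ y ∈ X.W, (σ : ↥(hesE Ω N) →+* ↥(hesE Ω N)) y ∈ X.W :=
    fun y hy => apply_mem_hesWE hA N hqN hq3 σ hσJ hy
  have h2 : ∀ (y : ↥(hesE Ω N)) (hy : y ∈ X.W), X.ρ ⟨y, hy⟩ = 0 →
      X.ρ ⟨(σ : ↥(hesE Ω N) →+* ↥(hesE Ω N)) y, h1 y hy⟩ = 0 :=
    fun y hy h0 => hesρ_apply_eq_zero hA N hqN hq3 σ hσJ hy h0
  have h1' : ∀ y ∈ X.W, σ.symm y ∈ X.W :=
    fun y hy => apply_mem_hesWE hA N hqN hq3 σ.symm hσJ' hy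
  have h2' : ∀ (y : ↥(hesE Ω N)) (hy : y ∈ X.W), X.ρ ⟨y, hy⟩ = 0 →
      X.ρ ⟨σ.symm y, h1' y hy⟩ = 0 :=
    fun y hy h0 => hesρ_apply_eq_zero hA N hqN hq3 σ.symm hσJ' hy h0
  have h3 : ∀ (y : ↥(hesE Ω N)) (hy : y ∈ X.W), X.ρ ⟨y, hy⟩ ≠ 0 →
      X.ρ ⟨(σ : ↥(hesE Ω N) →+* ↥(hesE Ω N)) y, h1 y hy⟩ ≠ 0 := by
    intro y hy hne h0
    apply hne
    have h4 := h2' _ (h1 y hy) h0
    have e : (⟨σ.symm ((σ : ↥(hesE Ω N) →+* ↥(hesE Ω N)) y), h1' _ (h1 y hy)⟩ : ↥X.W) =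
        ⟨y, hy⟩ := Subtype.ext (σ.symm_apply_apply y)
    rw [e] at h4
    exact h4
  -- a lift of `β`
  obtain ⟨⟨b, hb⟩, hbβ⟩ := X.ρ_surjective β
  have hρ' : X.ρ ⟨g, hg⟩ = X.ρ ⟨fullToHesE Ω N w, hW⟩ * X.ρ ⟨b, hb⟩ ^ m := by
    rw [hbβ]; exact hρ
  have hσw : (σ : ↥(hesE Ω N) →+* ↥(hesE Ω N)) (fullToHesE Ω N w) = fullToHesE Ω N w := hσ w
  have hρσ := ρ_apply_of_congr X (σ : ↥(hesE Ω N) →+* ↥(hesE Ω N)) h1 h2 hW hσw hg hb m hρ'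
  have hβ' : X.ρ ⟨(σ : ↥(hesE Ω N) →+* ↥(hesE Ω N)) b, h1 b hb⟩ ≠ 0 :=
    h3 b hb (by rw [hbβ]; exact hβ)
  -- the orders
  have hord : ∀ P : Place Ω ↥(hesE Ω N), (m : ℤ) ∣ P.ord (σ g) - P.ord g := by
    intro P
    have e1 : P.ord (σ g) = (σ⁻¹ • P).ord g := by
      have := Place.ord_smul σ (σ⁻¹ • P) g
      rwa [smul_inv_smul] at this
    rw [e1, ← hgD, ← hgD, Finsupp.smul_apply, Finsupp.smul_apply, nsmul_eq_mul, nsmul_eq_mul,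
      ← mul_sub]
    exact dvd_mul_right _ _
  exact exists_eq_const_mul_mul_pow_of_red X hens m hm g (σ g) hg (h1 g hg)
    (X.ρ ⟨fullToHesE Ω N w, hW⟩) β (X.ρ ⟨(σ : ↥(hesE Ω N) →+* ↥(hesE Ω N)) b, h1 b hb⟩)
    hwb hβ hβ' hρ hρσ hord

include hqN in
/-- **steps 1–3 of [ROLD-3]**: a Kummer lift `g` (`m = 3`) on the Hesse host descends, up to a cube
(and possibly a square), to `X₀(N)`: `g ^ d = φ(f) · k ^ 3`, `d ∈ {1, 2}`. -/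
theorem hes_kummer_lift_descends (hdesc : HesGalDescentStatement)
    (hm : A.valuation ((3 : ℕ) : Ω) = 1)
    (w : ↥(keyFq Ω N)) (hW : fullToHesE Ω N w ∈ hesWE hA N hq3)
    (hwb : hesρ hA N hq3 ⟨fullToHesE Ω N w, hW⟩ ≠ 0)
    {g : ↥(hesE Ω N)} (hg : g ∈ hesWE hA N hq3) (hg0 : g ≠ 0) {β : hesEt hA N hq3} (hβ : β ≠ 0)
    (hρ : hesρ hA N hq3 ⟨g, hg⟩ = hesρ hA N hq3 ⟨fullToHesE Ω N w, hW⟩ * β ^ 3)
    (D : Divisor Ω ↥(hesE Ω N)) (hgD : ∀ P : Place Ω ↥(hesE Ω N), (3 • D) P = P.ord g) :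
    ∃ (d : ℕ) (f : ↥(keyFq Ω N)) (k : ↥(hesE Ω N)), (d = 1 ∨ d = 2) ∧ f ≠ 0 ∧ k ≠ 0 ∧
      g ^ d = fullToHesE Ω N f * k ^ 3 := by
  refine hdesc N g hg0
    (hes_apply_eq_const_mul_mul_pow hA N hqN hq3 3 hm w hW hwb hg hβ hρ D hgD) ?_
  rw [← hesCusp_ord Ω N hg0, ← hgD, Finsupp.smul_apply, nsmul_eq_mul]
  exact dvd_mul_right _ _

end Hes

end Fermat.Agent.ML

end
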