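/-
ML (S59) — helper6 — **[ROLD-q] at `p = 3` on the Hesse host, the abstract part** (route [R-EIS]).

For a good-reduction datum `X` (`FG.GoodRed`) and a cover `φ : F →ₐ[Ω] 𝔽`:

* `exists_const_mul_pow_of_congr` [INV]: if Gauss units with `m`-th power reduction and divisor
  divisible by `m` are constants times `m`-th powers ([KER3′]), then a Kummer lift `g`
  (`red g = w̄ β^m`, `m ∣ div g`) of a function `w₀` fixed by an automorphism `σ` preserving the Gauss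
  ring satisfies `σ g = c g h^m`;
* `exists_redTo_of_pow_eq` : from `g ^ d = φ f' · k ^ p` a constant multiple `f₁` of `f'` with
  `red φ(f₁) = w̄ ^ d B ^ p`;
* `exists_eisenstein_kummer` : from such an `f₁` whose Hecke transform satisfies
  `div (T f₁) ≡ (ℓ + 1) div f₁ mod p` and a non-Eisenstein reduced Hecke relation for `w̄`, a Kummer
  function `f` (`div f = p D`) with `red φ(f) = w̄ ^ e B ^ p`, `e` prime to `p`.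
-/
import Mathlib
import Fermat.Agent.RB.ROLD_helper4_V0
import Fermat.Agent.RB.ROLD_helper4_Norm
import Fermat.Agent.RB.ROLD_helper4_Lift

set_option autoImplicit false
set_option linter.unusedSectionVars false
set_option linter.unusedVariables false
set_option linter.style.haveILetI false

noncomputable section

namespace Fermat.Agent.ML

open AlgebraicCurve IsLocalRing
open Fermat.Agent.FG Fermat.Agent.S35 Fermat.Agent.NP Fermat.Agent.RB.ROLD Fermat.Agent.FF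

variable {Ω : Type*} [Field Ω] {A : ValuationSubring Ω} {𝔽 : Type*} [Field 𝔽] [Algebra Ω 𝔽]
  {𝔽b : Type*} [Field 𝔽b] [Algebra (ResidueField ↥A) 𝔽b] (X : GoodRed Ω A 𝔽 𝔽b)

/-- **[INV]**: the Kummer lift of a `σ`-invariant function is `σ`-invariant up to constants and
`m`-th powers. -/
theorem exists_const_mul_pow_of_congr (m : ℕ)
    (hpow : ∀ (u : 𝔽) (hu : u ∈ X.W) (t : 𝔽b), t ≠ 0 → X.ρ ⟨u, hu⟩ = t ^ m →
      (∀ P : Place Ω 𝔽, (m : ℤ) ∣ P.ord u) →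
      ∃ (c : Ω) (h : 𝔽), c ≠ 0 ∧ h ≠ 0 ∧ u = algebraMap Ω 𝔽 c * h ^ m)
    (σ : 𝔽 ≃ₐ[Ω] 𝔽) (h1 : ∀ y ∈ X.W, σ y ∈ X.W)
    (h2 : ∀ (y : 𝔽) (hy : y ∈ X.W), X.ρ ⟨y, hy⟩ = 0 → X.ρ ⟨σ y, h1 y hy⟩ = 0)
    (h3 : ∀ (y : 𝔽) (hy : y ∈ X.W), X.ρ ⟨y, hy⟩ ≠ 0 → X.ρ ⟨σ y, h1 y hy⟩ ≠ 0)
    {w₀ g : 𝔽} (hw₀ : w₀ ∈ X.W) (hw₀ne : X.ρ ⟨w₀, hw₀⟩ ≠ 0) (hσw : σ w₀ = w₀) (hg : g ∈ X.W)
    (β : 𝔽b) (hβ : β ≠ 0) (hρ : X.ρ ⟨g, hg⟩ = X.ρ ⟨w₀, hw₀⟩ * β ^ m)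
    (hdiv : ∀ P : Place Ω 𝔽, (m : ℤ) ∣ P.ord g) :
    ∃ (c : Ω) (h : 𝔽), c ≠ 0 ∧ h ≠ 0 ∧ σ g = algebraMap Ω 𝔽 c * g * h ^ m := by
  obtain ⟨⟨b, hb⟩, hbβ⟩ := X.ρ_surjective β
  have hρ' : X.ρ ⟨g, hg⟩ = X.ρ ⟨w₀, hw₀⟩ * X.ρ ⟨b, hb⟩ ^ m := by rw [hbβ]; exact hρ
  have hσg := ρ_apply_of_congr X (σ : 𝔽 →+* 𝔽) h1 h2 hw₀ hσw hg hb m hρ'
  set wb : 𝔽b := X.ρ ⟨w₀, hw₀⟩ with hwb
  set β' : 𝔽b := X.ρ ⟨σ b, h1 b hb⟩ with hβ'
  have hβ'0 : β' ≠ 0 := h3 b hb (by rw [hbβ]; exact hβ)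
  have Hg : RedTo X g (wb * β ^ m) := ⟨hg, hρ⟩
  have Hσg : RedTo X (σ g) (wb * β' ^ m) := ⟨h1 g hg, hσg⟩
  have hr0 : wb * β ^ m ≠ 0 := mul_ne_zero hw₀ne (pow_ne_zero m hβ)
  have hg0 : g ≠ 0 := Hg.ne_zero hr0
  have hσg0 : σ g ≠ 0 := (_root_.map_ne_zero σ).mpr hg0
  have Hu : RedTo X (σ g / g) ((β' / β) ^ m) := by
    have := Hσg.div Hg hr0
    have e : wb * β' ^ m / (wb * β ^ m) = (β' / β) ^ m := by
      rw [div_pow]; field_simp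
    rwa [e] at this
  obtain ⟨hu, hρu⟩ := Hu
  have hord : ∀ P : Place Ω 𝔽, (m : ℤ) ∣ P.ord (σ g / g) := by
    intro P
    rw [PlaceAux.ord_div P hσg0 hg0]
    refine dvd_sub ?_ (hdiv P)
    have h4 : P.ord (σ g) = (σ⁻¹ • P).ord g := by
      have := Place.ord_smul σ (σ⁻¹ • P) g
      rwa [smul_inv_smul] at this
    rw [h4]
    exact hdiv _
  obtain ⟨c, h, hc, hh, hrel⟩ := hpow (σ g / g) hu (β' / β) (div_ne_zero hβ'0 hβ) hρu hord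
  refine ⟨c, h, hc, hh, ?_⟩
  rw [div_eq_iff hg0] at hrel
  rw [hrel]; ring

variable {F : Type*} [Field F] [Algebra Ω F] (φ : F →ₐ[Ω] 𝔽)

/-- **normalisation**: from `g ^ d = φ f' · k ^ p` with `red g = w̄ β ^ p`, a constant multiple
`f₁` of `f'` with `red φ(f₁) = w̄ ^ d B ^ p`. -/
theorem exists_redTo_of_pow_eq {p d : ℕ} {g k : 𝔽} {f' : F} {wb β : 𝔽b} (hwb : wb ≠ 0)
    (hβ : β ≠ 0) (Hg : RedTo X g (wb * β ^ p)) (hk : k ≠ 0) (hrel : g ^ d = φ f' * k ^ p) :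
    ∃ (a : Ω) (B : 𝔽b), a ≠ 0 ∧ B ≠ 0 ∧
      RedTo X (φ (algebraMap Ω F a * f')) (wb ^ d * B ^ p) := by
  obtain ⟨a, ha, hu1, hu2⟩ := X.exists_smul_unit k hk
  set k₁ : 𝔽 := a • k with hk₁
  have hk₁0 : k₁ ≠ 0 := by
    rw [hk₁, Algebra.smul_def]
    exact mul_ne_zero ((_root_.map_ne_zero _).2 ha) hk
  set κ : 𝔽b := X.ρ ⟨k₁, hu1⟩ with hκ
  have hκ0 : κ ≠ 0 := (X.inv_mem_W_iff hu1 hk₁0).1 hu2
  have Hk : RedTo X k₁ κ := ⟨hu1, rfl⟩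
  refine ⟨(a⁻¹) ^ p, β ^ d / κ, pow_ne_zero p (inv_ne_zero ha),
    div_ne_zero (pow_ne_zero d hβ) hκ0, ?_⟩
  have hr0 : wb * β ^ p ≠ 0 := mul_ne_zero hwb (pow_ne_zero p hβ)
  have ha' : algebraMap Ω 𝔽 a ≠ 0 := (_root_.map_ne_zero _).2 ha
  have e1 : φ (algebraMap Ω F ((a⁻¹) ^ p) * f') = g ^ d / k₁ ^ p := by
    rw [map_mul, AlgHom.commutes, hrel, hk₁, Algebra.smul_def, map_pow, map_inv₀, mul_pow]
    have h3 : ((algebraMap Ω 𝔽 a)⁻¹) ^ p * (algebraMap Ω 𝔽 a) ^ p = 1 := by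
      rw [← mul_pow, inv_mul_cancel₀ ha', one_pow]
    have hk0 : k ^ p ≠ 0 := pow_ne_zero p hk
    have ha0 : (algebraMap Ω 𝔽 a) ^ p ≠ 0 := pow_ne_zero p ha'
    rw [eq_div_iff (mul_ne_zero ha0 hk0)]
    linear_combination (φ f' * k ^ p) * h3
  have e2 : wb ^ d * (β ^ d / κ) ^ p = (wb * β ^ p) ^ d / κ ^ p := by
    rw [div_pow, mul_pow, ← pow_mul, ← pow_mul, mul_comm d p]
    field_simp
  rw [e1, e2]
  exact (Hg.pow d).div (Hk.pow p) (pow_ne_zero p hκ0)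

/-- the Hecke data on functions: `Tf` on `F`, `Tb` on the reduced field, compatible with the
reduction. -/
theorem exists_eisenstein_kummer [IsAlgClosed (ResidueField ↥A)] [HasPrincipalDivisors Ω F]
    {p : ℕ} (hp : p.Prime) (Tf : F → F) (Tb : 𝔽b →* 𝔽b)
    (hred : ∀ (f : F) (r : 𝔽b), RedTo X (φ f) r → RedTo X (φ (Tf f)) (Tb r))
    {w f₁ : F} {wb B₁ : 𝔽b} (hwb : wb ≠ 0) (hB₁ : B₁ ≠ 0) (Hw : RedTo X (φ w) wb)
    {d : ℕ} (H₁ : RedTo X (φ f₁) (wb ^ d * B₁ ^ p)) (ℓ : ℕ) (a₀ : ℤ)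
    {c : ResidueField ↥A} {u : 𝔽b} (hc : c ≠ 0) (hu : u ≠ 0)
    (hrel : Tb wb = algebraMap (ResidueField ↥A) 𝔽b c * wb ^ a₀ * u ^ p)
    (hne : ¬ (p : ℤ) ∣ (d : ℤ) * (a₀ - ((ℓ : ℤ) + 1)))
    (hcusp : ∀ v : Place Ω F, (p : ℤ) ∣ v.ord (Tf f₁) - ((ℓ : ℤ) + 1) * v.ord f₁) :
    ∃ (D : Divisor.degZero (K := Ω) (F := F)) (f : F) (e : ℕ) (B : 𝔽b),
      IsDivOf f (p • (D : Divisor Ω F)) ∧ B ≠ 0 ∧ Nat.Coprime e p ∧
        RedTo X (φ f) (wb ^ e * B ^ p) := by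
  classical
  have hp0 : p ≠ 0 := hp.ne_zero
  set e₀ : ℤ := (d : ℤ) * (a₀ - ((ℓ : ℤ) + 1)) with he₀
  set n : ℕ := e₀.natAbs with hn
  have hnonneg : 0 ≤ e₀ + (p : ℤ) * (n : ℤ) := by
    have h1 : (1 : ℤ) ≤ (p : ℤ) := by exact_mod_cast hp.one_lt.le
    have h2 : -(n : ℤ) ≤ e₀ := by
      rw [hn, Int.natCast_natAbs]; exact neg_abs_le e₀
    nlinarith [Int.natCast_nonneg n]
  obtain ⟨e, he⟩ := Int.eq_ofNat_of_zero_le hnonneg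
  -- the nonvanishing
  have hY0 : wb ^ d * B₁ ^ p ≠ 0 := mul_ne_zero (pow_ne_zero d hwb) (pow_ne_zero p hB₁)
  have hf₁0 : f₁ ≠ 0 := fun h0 => by
    have := H₁.ne_zero hY0
    rw [h0, map_zero] at this
    exact this rfl
  have hw0 : w ≠ 0 := fun h0 => by
    have := Hw.ne_zero hwb
    rw [h0, map_zero] at this
    exact this rfl
  have HT : RedTo X (φ (Tf f₁)) (Tb (wb ^ d * B₁ ^ p)) := hred f₁ _ H₁
  have hTY0 : Tb (wb ^ d * B₁ ^ p) ≠ 0 := monoidHom_apply_ne_zero Tb hY0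
  have hTf0 : Tf f₁ ≠ 0 := fun h0 => by
    have := HT.ne_zero hTY0
    rw [h0, map_zero] at this
    exact this rfl
  -- the function
  set f : F := Tf f₁ / f₁ ^ (ℓ + 1) * w ^ (p * n) with hf
  have hf0 : f ≠ 0 :=
    mul_ne_zero (div_ne_zero hTf0 (pow_ne_zero _ hf₁0)) (pow_ne_zero _ hw0)
  have hordf : ∀ v : Place Ω F, (p : ℤ) ∣ v.ord f := by
    intro v
    rw [hf, v.ord_mul (div_ne_zero hTf0 (pow_ne_zero _ hf₁0)) (pow_ne_zero _ hw0),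
      PlaceAux.ord_div v hTf0 (pow_ne_zero _ hf₁0), PlaceAux.ord_pow, PlaceAux.ord_pow]
    have h1 := hcusp v
    have e1 : v.ord (Tf f₁) - ((ℓ + 1 : ℕ) : ℤ) * v.ord f₁ + ((p * n : ℕ) : ℤ) * v.ord w =
        (v.ord (Tf f₁) - ((ℓ : ℤ) + 1) * v.ord f₁) + (p : ℤ) * ((n : ℤ) * v.ord w) := by
      push_cast; ring
    rw [e1]
    exact dvd_add h1 (dvd_mul_right _ _)
  obtain ⟨E, hE, hEdeg⟩ := HasPrincipalDivisors.exists_divisor (K := Ω) f hf0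
  obtain ⟨D, hD⟩ := exists_nsmul_eq_of_forall_dvd E p (fun v => by rw [hE]; exact hordf v)
  have hDdeg : Divisor.degree D = 0 := by
    have h1 : Divisor.degree (p • D) = 0 := by rw [hD, hEdeg]
    rw [map_nsmul, nsmul_eq_mul] at h1
    rcases mul_eq_zero.1 h1 with h | h
    · exact absurd (by exact_mod_cast h) hp0
    · exact h
  -- the constant
  obtain ⟨ε, hε⟩ := IsAlgClosed.exists_pow_nat_eq (c ^ d) (Nat.pos_of_ne_zero hp0)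
  have hε0 : ε ≠ 0 := by
    rintro rfl
    rw [zero_pow hp0] at hε
    exact (pow_ne_zero d hc) hε.symm
  set C : 𝔽b := algebraMap (ResidueField ↥A) 𝔽b c with hC
  set Eb : 𝔽b := algebraMap (ResidueField ↥A) 𝔽b ε with hEb
  have hEC : Eb ^ p = C ^ d := by rw [hEb, hC, ← map_pow, hε, map_pow]
  have hEb0 : Eb ≠ 0 := (_root_.map_ne_zero _).2 hε0
  have hTB0 : Tb B₁ ≠ 0 := monoidHom_apply_ne_zero Tb hB₁
  refine ⟨⟨D, hDdeg⟩, f, e, Eb * u ^ d * Tb B₁ * (B₁ ^ (ℓ + 1))⁻¹, ⟨hf0, fun v => ?_⟩, ?_, ?_, ?_⟩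
  · show (p • D) v = v.ord f
    rw [hD, hE]
  · exact mul_ne_zero (mul_ne_zero (mul_ne_zero hEb0 (pow_ne_zero d hu)) hTB0)
      (inv_ne_zero (pow_ne_zero _ hB₁))
  · rw [Nat.coprime_comm, hp.coprime_iff_not_dvd]
    intro hdvd
    apply hne
    have h1 : (p : ℤ) ∣ (e : ℤ) := by exact_mod_cast hdvd
    rw [← he] at h1
    have := dvd_sub h1 (dvd_mul_right (p : ℤ) (n : ℤ))
    rwa [add_sub_cancel_right] at this
  · have H2 : RedTo X (φ f₁ ^ (ℓ + 1)) ((wb ^ d * B₁ ^ p) ^ (ℓ + 1)) := H₁.pow (ℓ + 1)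
    have H3 := HT.div H2 (pow_ne_zero _ hY0)
    have H4 : RedTo X (φ w ^ (p * n)) (wb ^ (p * n)) := Hw.pow (p * n)
    have H5 := H3.mul H4
    rw [← map_pow, ← map_div₀, ← map_pow, ← map_mul] at H5
    have e1 : Tb (wb ^ d * B₁ ^ p) / (wb ^ d * B₁ ^ p) ^ (ℓ + 1) * wb ^ (p * n) =
        wb ^ e * (Eb * u ^ d * Tb B₁ * (B₁ ^ (ℓ + 1))⁻¹) ^ p := by
      rw [map_mul, map_pow, map_pow, hrel]
      have hwe : wb ^ e = wb ^ e₀ * wb ^ (p * n) := by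
        rw [← zpow_natCast wb e, ← he, zpow_add₀ hwb, ← zpow_natCast wb (p * n)]
        push_cast; rfl
      have hwe₀ : wb ^ e₀ = (wb ^ a₀) ^ d / (wb ^ d) ^ (ℓ + 1) := by
        rw [he₀, mul_sub, zpow_sub₀ hwb, mul_comm (d : ℤ) a₀, zpow_mul, zpow_natCast,
          ← zpow_natCast (wb ^ d) (ℓ + 1), ← zpow_natCast wb d, ← zpow_mul]
        push_cast; rfl
      rw [hwe, hwe₀, mul_pow, mul_pow, mul_pow, mul_pow, mul_pow, mul_pow, hEC, inv_pow]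
      have hB1 : (B₁ ^ p) ^ (ℓ + 1) = (B₁ ^ (ℓ + 1)) ^ p := by
        rw [← pow_mul, ← pow_mul, mul_comm]
      have hu1 : (u ^ p) ^ d = (u ^ d) ^ p := by rw [← pow_mul, ← pow_mul, mul_comm]
      rw [hB1, hu1]
      have hWd : (wb ^ d) ^ (ℓ + 1) ≠ 0 := pow_ne_zero _ (pow_ne_zero d hwb)
      have hBp : (B₁ ^ (ℓ + 1)) ^ p ≠ 0 := pow_ne_zero _ (pow_ne_zero _ hB₁)
      field_simp
    rw [e1] at H5
    exact H5

end Fermat.Agent.ML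

end
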