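/-
ML (S59) — helper6 — Mazur's principle at `(q, p) = (2, 3)`: **[ROLD-3]**, the `p = 3` twin of
`hesRoldQE` (route [R-EIS]).

`hesRoldQ3_of : HesGalDescentStatement → HesOrdDescentStatement → HeckeCuspStatement → HesRoldQ3`.

At `p ≠ 3` this is `hesRoldQE`.  At `p = 3` the degree `12`-ish of the Hesse cover is not prime to
`p`, so the norm of the Kummer lift `g` (reducing to `w̄ β³`) only gives `w̄ ^ deg`, useless.
Instead:
1. (helper2, `hes_kummer_lift_descends`) the class of `g` in `E^× / Ω^× E^{×3}` is Galois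
   invariant ([KER3]), hence ([GDESC]) `g ^ d = φ(f′) k ^ 3`, `d ∈ {1, 2}`, `f′` on `X₀(M)`;
2. after scaling `f′` by a constant, `φ(f₁)` reduces to `w̄ ^ d B₁ ^ 3`
   (`exists_redTo_of_pow_eq`);
3. all orders of `φ(f₁)` are divisible by `3`, hence ([NOELL′]) all orders of `f₁` at the
   non-cuspidal places of `X₀(M)` are divisible by `3`;
4. hence ([HCUSP]) `div (T_ℓ₀ f₁) ≡ (ℓ₀ + 1) div f₁ mod 3` for a prime `ℓ₀ ∉ S` with
   `a ℓ₀ ≢ ℓ₀ + 1 mod 3` (the non-Eisenstein hypothesis);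
5. hence (`exists_eisenstein_kummer`) a function `f₂` on `X₀(M)` with `div f₂ = 3 D₂` reducing to
   `w̄ ^ e B ^ 3`, `e` prime to `3`; the rest is verbatim `hesRoldQE`.
-/
import Mathlib
import Fermat.Agent.ML.HES_helper6_RoldMain
import Fermat.Agent.ML.IFACE_helper6_Maz23
import Fermat.Agent.ML.IFACE_helper6_MazHes3
import Fermat.Agent.ML.ROLD3_helper6_Abs
import Fermat.Agent.ML.MAZ23_helper2_GalCls

set_option autoImplicit false
set_option linter.unusedSectionVars false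
set_option linter.unusedVariables false
set_option linter.style.haveILetI false
set_option synthInstance.maxHeartbeats 400000

noncomputable section

namespace Fermat.Agent.ML

open AlgebraicCurve IsLocalRing IntermediateField ModularCurve CongruenceSubgroup
  ModularCurve.Period

open scoped MatrixGroups

open Fermat.Agent.FG Fermat.Agent.JA Fermat.Agent.SS Fermat.Agent.FF Fermat.Agent.S35
  Fermat.Agent.NP Fermat.Agent.MP Fermat.Agent.GR Fermat.Agent.X0N Fermat.Agent.LR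
  Fermat.Agent.RB Fermat.Agent.RB.ROLD

local notation "Ω" => AlgebraicClosure ℚ

set_option maxHeartbeats 3200000 in
/-- **[ROLD-3]**: `HesRoldQ3` from [GDESC], [NOELL′] and [HCUSP]. -/
theorem hesRoldQ3_of (HG : HesGalDescentStatement) (HO : HesOrdDescentStatement)
    (HC : HeckeCuspStatement) : HesRoldQ3 := by
  intro M _ q _ _ hq3 hqM p hp hp2 hpq hside A hA S a hS hqS hpS h2S hnE w hW hnot hord hrel
  by_cases hp3 : p = 3
  swap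
  · exact hesRoldQE M q hq3 hqM p hp hp2 hpq hp3 A hA S a hS hqS hpS h2S w hW hnot hord hrel
  subst hp3
  obtain ⟨hsqf, hr⟩ := hside rfl
  have hno3 : NoThreeTorsionLevel 3 M := fun _ => hr
  haveI : Fact (3 : ℕ).Prime := ⟨hp⟩
  haveI : IsAlgClosed (ResidueField ↥A) := isAlgClosed_residueField A
  have hq : q.Prime := Fact.out
  set X := hesGoodRed hA M hqM hq3 with hX
  set wb : hesEt hA M hq3 := hesρ hA M hq3 ⟨fullToHesE Ω M w, hW⟩ with hwb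
  have hwb0 : wb ≠ 0 := by
    intro h0
    exact hnot ⟨0, by rw [h0, zero_pow hp.ne_zero]⟩
  -- (A) the Kummer lift
  have hlift : X.LiftSpec := X.liftSpec_of_liesOverPrime hA
  have hens : IsMvHenselian A := isMvHenselian_of_liesOverPrime hA
  have hval : A.valuation ((3 : ℕ) : Ω) = 1 :=
    Fermat.Agent.TW.Kill.valuation_natCast_eq_one hq
      (fun h => hpq ((Nat.prime_dvd_prime_iff_eq hq hp).1 h).symm) hA
  have hdiv := Fermat.Agent.MW.kerRed_divisible X hens 3 hval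
  obtain ⟨D, g, hg, β, hg0, hgD, hβ, hρg⟩ :=
    exists_kummer_lift X hlift 3 hp.ne_zero hdiv wb hwb0 hord
  -- (B1) Galois descent of the class of `g`
  obtain ⟨d, f', k, hd, hf'0, hk0, hrelg⟩ :=
    hes_kummer_lift_descends hA M hqM hq3 HG hval w hW hwb0 hg hg0 hβ hρg
      (D : Divisor Ω ↥(hesE Ω M)) hgD
  -- (B2) the reduction of `φ f'`, up to a constant
  obtain ⟨a₁, B₁, ha₁, hB₁, H₁⟩ :=
    exists_redTo_of_pow_eq X (fullToHesE Ω M) hwb0 hβ (⟨hg, hρg⟩ : RedTo X g (wb * β ^ 3)) hk0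
      hrelg
  set f₁ : ↥(keyFq Ω M) := algebraMap Ω ↥(keyFq Ω M) a₁ * f' with hf₁
  have hf₁0 : f₁ ≠ 0 := mul_ne_zero ((_root_.map_ne_zero _).2 ha₁) hf'0
  -- (B3) orders
  have hB4 : ∀ P : Place Ω ↥(hesE Ω M), (3 : ℤ) ∣ P.ord (fullToHesE Ω M f₁) := by
    intro P
    have hφf'0 : fullToHesE Ω M f' ≠ 0 := (_root_.map_ne_zero _).2 hf'0
    have h1 : P.ord (g ^ d) = P.ord (fullToHesE Ω M f') + P.ord (k ^ 3) := by
      rw [hrelg, P.ord_mul hφf'0 (pow_ne_zero _ hk0)]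
    rw [PlaceAux.ord_pow, PlaceAux.ord_pow] at h1
    have h2 : P.ord g = 3 * (D : Divisor Ω ↥(hesE Ω M)) P := by
      rw [← hgD P, Finsupp.smul_apply, nsmul_eq_mul]
      norm_num
    have h3 : P.ord (fullToHesE Ω M f₁) = P.ord (fullToHesE Ω M f') := by
      rw [hf₁, map_mul, AlgHom.commutes,
        P.ord_mul ((_root_.map_ne_zero _).2 ha₁) hφf'0, PlaceAux.ord_algebraMap, zero_add]
    rw [h3]
    refine ⟨(d : ℤ) * (D : Divisor Ω ↥(hesE Ω M)) P - P.ord k, ?_⟩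
    rw [h2] at h1
    push_cast at h1
    linarith
  have hO : ∀ v : Place Ω ↥(keyFq Ω M), 0 ≤ v.ord (jBar M) → (3 : ℤ) ∣ v.ord f₁ := by
    intro v hv
    exact HO M hr f₁ hf₁0 hB4 v (by rw [egalJ_eq_jBar_maz23]; exact hv)
  -- (B4) the auxiliary prime
  obtain ⟨ℓ₀, hℓ₀, hℓ₀S, hℓ₀ne⟩ := hnE
  have hℓ₀3 : ℓ₀ ≠ 3 := fun h => hℓ₀S (h ▸ h2S)
  have hℓ₀M : ¬ ℓ₀ ∣ M := fun h => hℓ₀S (hS _ hℓ₀ h)
  have hℓ₀q : ℓ₀ ≠ q := fun h => hℓ₀S (h ▸ hqS)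
  haveI : NeZero ℓ₀ := ⟨hℓ₀.ne_zero⟩
  haveI : NeZero (M * ℓ₀) := ⟨Nat.mul_ne_zero (NeZero.ne M) hℓ₀.ne_zero⟩
  have hcusp : ∀ v : Place Ω ↥(keyFq Ω M),
      (((3 : ℕ) : ℤ)) ∣ v.ord (heckeFunBar M ℓ₀ f₁) - ((ℓ₀ : ℤ) + 1) * v.ord f₁ := by
    intro v
    exact_mod_cast HC M ℓ₀ hsqf hℓ₀ hℓ₀M 3 f₁ hf₁0 hO v
  obtain ⟨c₀, u₀, hc₀, hu₀, hrel₀⟩ := hrel ℓ₀ hℓ₀ hℓ₀3 hℓ₀S
  have hne : ¬ (((3 : ℕ) : ℤ)) ∣ (d : ℤ) * (a ℓ₀ - ((ℓ₀ : ℤ) + 1)) := by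
    intro hdvd
    apply hℓ₀ne
    rw [Int.modEq_iff_dvd]
    have hd' : (d : ℤ) = 1 ∨ (d : ℤ) = 2 := by
      rcases hd with h | h <;> [left; right] <;> exact_mod_cast h
    push_cast at hdvd ⊢
    rcases hd' with h | h <;> rw [h] at hdvd <;> omega
  haveI : HasPrincipalDivisors Ω ↥(keyFq Ω M) := (jCoordBar M).hasPrincipalDivisors
  obtain ⟨D₂, f₂, e, B, hdiv₂, hB, hcop, hr₂⟩ :=
    exists_eisenstein_kummer X (fullToHesE Ω M) hp (heckeFunBar M ℓ₀)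
      (hesEtT hA M hq3 ℓ₀ hℓ₀ hℓ₀3)
      (fun f r h => redTo_heckeFunBarH hA M hqM hq3 ℓ₀ hℓ₀ hℓ₀3 hℓ₀M hℓ₀q f r h)
      hwb0 hB₁ (⟨hW, rfl⟩ : RedTo X (fullToHesE Ω M w) wb) H₁ ℓ₀ (a ℓ₀) hc₀ hu₀ hrel₀ hne hcusp
  set x' : JZero M := Pic0.mk D₂ with hx'
  have hx'p : 3 • x' = 0 := nsmul_mk_eq_zero_of_isDivOf D₂ hdiv₂
  -- (C) the subgroup
  have hconst : ∀ u : ↥(keyFq Ω M), u ≠ 0 → (∀ v : Place Ω ↥(keyFq Ω M), v.ord u = 0) →
      ∃ c : Ω, u = algebraMap Ω ↥(keyFq Ω M) c :=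
    fun u _ hu => exists_const_of_forall_ord_eq_zero (jCoordBar M) u hu
  have hx'not : ¬ IsRedPow X (fullToHesE Ω M) 3 x' :=
    not_isRedPow_of_not_pow X (fullToHesE Ω M) hconst hp.ne_zero hcop D₂ hdiv₂ hnot hB hr₂
  set V : AddSubgroup (JZero M) := torsionNat (JZero M) (3 ^ 1) with hV
  haveI : Finite ↥V := (stageIData M 3).D.finite_torsion 1
  set V₀ : AddSubgroup (JZero M) := redPowSubgroup X (fullToHesE Ω M) 3 with hV₀
  set N : {ℓ : Nat.Primes // (ℓ : ℕ) ∉ S} → (JZero M →+ JZero M) := fun i =>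
    (heckeOperatorBar M i.1).toAddMonoidHom - (a (i.1 : ℕ)) • AddMonoidHom.id (JZero M) with hN
  have hNapp : ∀ (i : {ℓ : Nat.Primes // (ℓ : ℕ) ∉ S}) (y : JZero M),
      N i y = heckeOperatorBar M i.1 y - a (i.1 : ℕ) • y := fun i y => rfl
  have hi2 : ∀ i : {ℓ : Nat.Primes // (ℓ : ℕ) ∉ S}, (i.1 : ℕ) ≠ 3 := fun i h => i.2 (h ▸ h2S)
  have hiM : ∀ i : {ℓ : Nat.Primes // (ℓ : ℕ) ∉ S}, ¬ (i.1 : ℕ) ∣ M :=
    fun i h => i.2 (hS _ i.1.2 h)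
  have hiq : ∀ i : {ℓ : Nat.Primes // (ℓ : ℕ) ∉ S}, (i.1 : ℕ) ≠ q := fun i h => i.2 (h ▸ hqS)
  have hmemV : ∀ y : JZero M, y ∈ V ↔ 3 • y = 0 := by
    intro y
    rw [hV, mem_torsionNat, pow_one]
  obtain ⟨y, hyV, hy0, hker⟩ := exists_common_kernel_subgroup V V₀ N
    (by
      intro i y hy
      rw [hmemV] at hy ⊢
      rw [hNapp, nsmul_sub, ← map_nsmul, hy, map_zero, zero_sub, neg_eq_zero, smul_comm, hy,
        smul_zero])
    (by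
      intro i y _ hy
      haveI : NeZero (i.1 : ℕ) := ⟨i.1.2.ne_zero⟩
      haveI : NeZero (M * (i.1 : ℕ)) := ⟨Nat.mul_ne_zero (NeZero.ne M) i.1.2.ne_zero⟩
      rw [hNapp]
      refine V₀.sub_mem ?_ (V₀.zsmul_mem hy _)
      exact IsRedPow.map X (fullToHesE Ω M) (heckeOperatorBar M i.1).toAddMonoidHom
        (heckeFunBar M (i.1 : ℕ)) (hesEtT hA M hq3 (i.1 : ℕ) i.1.2 (hi2 i))
        (fun E => heckeOperatorBar_mk_nsmul M (i.1 : ℕ) i.1.2 3 E)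
        (fun f r h => redTo_heckeFunBarH hA M hqM hq3 (i.1 : ℕ) i.1.2 (hi2 i) (hiM i) (hiq i) f r h)
        hy)
    (by
      intro i j y hy
      rw [hmemV] at hy
      have hTT := heckeOperatorBar_comm_of_nsmul_eq_zeroO M 3 hp2 hno3 i.1 j.1 (hiM i) (hiM j) y hy
      rw [hNapp, hNapp, hNapp, hNapp, map_sub, map_sub, map_zsmul, map_zsmul, hTT]
      module)
    x' ((hmemV x').2 hx'p) hx'not
    (by
      intro i
      haveI : NeZero (i.1 : ℕ) := ⟨i.1.2.ne_zero⟩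
      haveI : NeZero (M * (i.1 : ℕ)) := ⟨Nat.mul_ne_zero (NeZero.ne M) i.1.2.ne_zero⟩
      obtain ⟨c, u, hc, hu, hr⟩ := hrel (i.1 : ℕ) i.1.2 (hi2 i) i.2
      exact isRedPow_map_sub_zsmul X (fullToHesE Ω M) (heckeOperatorBar M i.1).toAddMonoidHom
        (heckeFunBar M (i.1 : ℕ)) (hesEtT hA M hq3 (i.1 : ℕ) i.1.2 (hi2 i))
        (fun E => heckeOperatorBar_mk_nsmul M (i.1 : ℕ) i.1.2 3 E)
        (fun f r h => redTo_heckeFunBarH hA M hqM hq3 (i.1 : ℕ) i.1.2 (hi2 i) (hiM i) (hiq i) f r h)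
        hp.ne_zero D₂ hdiv₂ hwb0 hB hr₂ (a (i.1 : ℕ)) hc hu hr)
  -- (D) conclusion
  refine eigenTorsOccursO_of parLiftModPO M 3 hp hp2 hno3 S a hS y hy0 ((hmemV y).1 hyV) ?_
  intro ℓ hℓ hℓS
  exact sub_eq_zero.1 (hker ⟨⟨ℓ, hℓ⟩, hℓS⟩)

end Fermat.Agent.ML

end
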