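/-
ML — helper3 — **[MSQ] Mazur's principle at `q ^ 2`: the literal interfaces of the three-sheet part**
(definitions and the trivial top; nothing here is used by any closed statement).

Level `M q q` (`q ∤ M`, `q` odd), a place `A ∣ q` of `Ω`, `p ≠ q`.  The Legendre host of level
`M q q` has three sheets over a base `R₁ = A ∩ K₁` (S36: `IsThreeSheet`); by
`IsThreeSheet.only_A_inf / only_A_zero` they are EXACTLY the valuation subrings of
`legE K₁ (M q q)` lying over one of the two sheets `legWinf`, `legW0` of level `M q` along the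
degeneracy map `legHostA`.  This gives a definition of "toric along the three sheets" which does
not mention the construction data of the middle sheet.

* `LegToric3At M q m A K₁ g` : `g` is congruent to the `m`-th power of a unit along every sheet of
  the host of level `M q q` over `R₁ = A ∩ K₁`;
* `IsToric3Rep`, `IsToric3ClassAt M q m A x` : the class `x ∈ J₀(M q q)[m]` has a Kummer function
  which is toric along the three sheets over every sufficiently large Galois base
  (the three-sheet analogue of helper6's `RB.IsToricClassAt`);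
* `KeyMazSqToricAt`, `KeyMazSqToricStatement` : **leaf (a)** = packages (A)–(D) of finding 439
  ([DESC-q²], [DELTA-q²], [ORD-q²], abelian part by `ROLD.legRoldQ`): an `I_A`-fixed Hecke
  eigenclass of `J₀(M q q)[p]` with a non-Eisenstein eigensystem is toric along the three sheets, or
  the eigensystem occurs residually at level `M q`;
* `Toric3OccursAt`, `Toric3OccursStatement` : **leaf (b)** = packages (E)+(F): a non-zero toric
  eigenclass with a non-Eisenstein eigensystem forces the eigensystem to occur residually at level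
  `M q` (end-game (I): Hecke-equivariance of the node datum + helper4's (LINK); end-game (II):
  `Toric3IsOldStatement` + linear algebra);
* `keyMazSqStatement_of_toric : KeyMazSqToricStatement → Toric3OccursStatement →
  RB.KeyMazSqStatement` (proved).
-/
import Mathlib
import Fermat.Agent.RB.MSQ_helper4_Iface
import Fermat.Agent.SS.HOSTB_helper8_HostB

set_option autoImplicit false
set_option linter.unusedSectionVars false
set_option linter.unusedVariables false
set_option linter.style.haveILetI false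

open HahnSeries IntermediateField AlgebraicCurve ModularCurve

namespace Fermat.Agent.ML

open Fermat.Agent.JA Fermat.Agent.FF Fermat.Agent.SS Fermat.Agent.S35 Fermat.Agent.MP
  Fermat.Agent.NP Fermat.Agent.GR Fermat.Agent.RB

/-- `Ω = AlgebraicClosure ℚ`. -/
local notation "Ω" => AlgebraicClosure ℚ

/-- the absolute Galois group. -/
local notation "GQ" => (AlgebraicClosure ℚ ≃ₐ[ℚ] AlgebraicClosure ℚ)

/-! ### toric functions and classes on the three-sheet host -/

section Toric3

variable (M q m : ℕ) [NeZero M] [NeZero q] [NeZero (M * q)] [NeZero (M * q * q)]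
  (A : ValuationSubring Ω)

/-- **toric along the three sheets at a base `K₁`**: the function `g` on the Legendre host of level
`M q q` over `K₁` is congruent to the `m`-th power of a unit along every valuation subring lying
over one of the two sheets `W_∞`, `W_0` of level `M q` (over `R₁ = A ∩ K₁`) along the degeneracy
map `legHostA` — i.e. along each of the three sheets `W20`, `W11`, `W02`. -/
def LegToric3At (K₁ : IntermediateField ℚ Ω) (g : ↥(legE ↥K₁ (M * q * q))) : Prop :=
  ∀ [IsDiscreteValuationRing ↥(baseRing A K₁)] [CharZero ↥(baseRing A K₁)]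
    (h2 : IsUnit (2 : ↥(baseRing A K₁))) (x y : ℤ) (hbez : (q : ℤ) * x + M * y = 1)
    (hq : q.Prime),
    letI := baseToComplex K₁
    ∀ W : ValuationSubring ↥(legE ↥K₁ (M * q * q)),
      (W.comap (legHostA ↥K₁ (M * q) q : ↥(legE ↥K₁ (M * q)) →+* ↥(legE ↥K₁ (M * q * q))) =
          legWinf ↥(baseRing A K₁) ↥K₁ h2 (M * q) ∨
        W.comap (legHostA ↥K₁ (M * q) q : ↥(legE ↥K₁ (M * q)) →+* ↥(legE ↥K₁ (M * q * q))) =
          legW0 ↥(baseRing A K₁) ↥K₁ hbez hq) →
      ∃ l : ↥(legE ↥K₁ (M * q * q)), W.valuation l = 1 ∧ W.valuation (g - l ^ m) < 1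

/-- **a toric representative (three sheets)**: over every Galois base containing a fixed base `K₀`,
the descended function is toric along the three sheets. -/
def IsToric3Rep (f : ↥(modularFunctionFieldBar (M * q * q))) : Prop :=
  ∃ K₀ : IntermediateField ℚ Ω, IsBase q K₀ ∧
    ∀ K₁ : IntermediateField ℚ Ω, IsGalBase q K₁ → K₀ ≤ K₁ →
      ∀ F₁ : ↥(keyFq ↥K₁ (M * q * q)), keyFqBC (M * q * q) K₁ F₁ = f →
        LegToric3At M q m A K₁ (fullToLegE ↥K₁ (M * q * q) F₁)

/-- **a toric class of `J₀(M q q)[m]`** at the place `A ∣ q` (three sheets). -/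
def IsToric3ClassAt (x : JZero (M * q * q)) : Prop :=
  ∃ (D : Divisor.degZero (K := Ω) (F := ↥(modularFunctionFieldBar (M * q * q))))
    (f : ↥(modularFunctionFieldBar (M * q * q))), f ≠ 0 ∧ Pic0.mk D = x ∧
    (∀ v : Place Ω ↥(modularFunctionFieldBar (M * q * q)),
      v.ord f = (m : ℤ) * (D : Divisor Ω ↥(modularFunctionFieldBar (M * q * q))) v) ∧
    IsToric3Rep M q m A f

end Toric3

/-! ### the two leaves of (KEY-MAZ-SQ) -/

section Key

/-- **leaf (a) at one place**: an `I_A`-fixed Hecke eigenclass of `J₀(M q q)[p]` with a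
non-Eisenstein eigensystem `a` (outside `S ∋ 2, p`, primes of the level) is toric along the three
sheets, unless the eigensystem occurs residually at level `M q`. -/
def KeyMazSqToricAt (M q p : ℕ) [NeZero M] [NeZero q] [NeZero (M * q)] [NeZero (M * q * q)]
    (A : ValuationSubring Ω) : Prop :=
  ∀ (S : Set ℕ) (a : ℕ → ℤ), (∀ ℓ : ℕ, ℓ.Prime → ℓ ∣ M * q * q → ℓ ∈ S) → p ∈ S → 2 ∈ S →
    (∃ ℓ : ℕ, ℓ.Prime ∧ ℓ ∉ S ∧ ¬ (a ℓ ≡ (ℓ : ℤ) + 1 [ZMOD (p : ℤ)])) →
    ∀ x : JZero (M * q * q), p • x = 0 →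
      (∀ (ℓ : ℕ) (hℓ : ℓ.Prime), ℓ ∉ S → heckeOperatorBar (M * q * q) ⟨ℓ, hℓ⟩ x = a ℓ • x) →
      (∀ τ ∈ A.inertiaSubgroupIn ℚ, τ • x = x) →
      IsToric3ClassAt M q p A x ∨ ResOccurs (M * q) p S a

/-- **leaf (a), all levels** (`q ≠ 2` for the Legendre host, `p ≥ 5` as in RB). -/
def KeyMazSqToricStatement : Prop :=
  ∀ (M q p : ℕ) [NeZero M] [NeZero q] [NeZero (M * q)] [NeZero (M * q * q)], q.Prime → q ≠ 2 →
    p.Prime → 5 ≤ p → q ≠ p → ¬ q ∣ M → ∀ A : ValuationSubring Ω, A.LiesOverPrime q →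
      KeyMazSqToricAt M q p A

/-- **leaf (b) at one place**: a non-zero toric Hecke eigenclass of `J₀(M q q)[p]` with a
non-Eisenstein eigensystem forces the eigensystem to occur residually at level `M q`. -/
def Toric3OccursAt (M q p : ℕ) [NeZero M] [NeZero q] [NeZero (M * q)] [NeZero (M * q * q)]
    (A : ValuationSubring Ω) : Prop :=
  ∀ (S : Set ℕ) (a : ℕ → ℤ), (∀ ℓ : ℕ, ℓ.Prime → ℓ ∣ M * q * q → ℓ ∈ S) → p ∈ S → 2 ∈ S →
    (∃ ℓ : ℕ, ℓ.Prime ∧ ℓ ∉ S ∧ ¬ (a ℓ ≡ (ℓ : ℤ) + 1 [ZMOD (p : ℤ)])) →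
    ∀ x : JZero (M * q * q), x ≠ 0 → p • x = 0 →
      (∀ (ℓ : ℕ) (hℓ : ℓ.Prime), ℓ ∉ S → heckeOperatorBar (M * q * q) ⟨ℓ, hℓ⟩ x = a ℓ • x) →
      (∀ τ ∈ A.inertiaSubgroupIn ℚ, τ • x = x) →
      IsToric3ClassAt M q p A x → ResOccurs (M * q) p S a

/-- **leaf (b), all levels.** -/
def Toric3OccursStatement : Prop :=
  ∀ (M q p : ℕ) [NeZero M] [NeZero q] [NeZero (M * q)] [NeZero (M * q * q)], q.Prime → q ≠ 2 →
    p.Prime → 5 ≤ p → q ≠ p → ¬ q ∣ M → ∀ A : ValuationSubring Ω, A.LiesOverPrime q →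
      Toric3OccursAt M q p A

/-- **(KEY-MAZ-SQ) from the two leaves.** -/
theorem keyMazSqStatement_of_toric (HA : KeyMazSqToricStatement) (HB : Toric3OccursStatement) :
    KeyMazSqStatement := by
  intro M₁ q p i1 i2 i3 hq hq2 hp hp5 hqp hqM₁ hq2M₁ A hA
  obtain ⟨M, hM⟩ := hqM₁
  have hM' : M₁ = M * q := by rw [hM, mul_comm]
  subst hM'
  have hqM : ¬ q ∣ M := by
    intro h
    apply hq2M₁
    rw [pow_two]
    exact Nat.mul_dvd_mul_right h q |>.trans (by rw [mul_comm])
  haveI : NeZero M := ⟨fun h => by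
    have := NeZero.ne (M * q)
    rw [h, zero_mul] at this
    exact this rfl⟩
  intro S a hS hpS h2S hnE x hx hpx hT hI
  rcases HA M q p hq hq2 hp hp5 hqp hqM A hA S a hS hpS h2S hnE x hpx hT hI with h | h
  · exact HB M q p hq hq2 hp hp5 hqp hqM A hA S a hS hpS h2S hnE x hx hpx hT hI h
  · exact h

end Key

end Fermat.Agent.ML
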