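/-
ML — helper3 — **[MSQ] Mazur's principle at `q ^ 2`, every odd `p`: the `E`-variants of the
interfaces** (definitions and the trivial top; nothing here is used by any closed statement).

Changes with respect to `ML/IFACE_helper3_MSQ.lean`:

* `p ≠ 2` instead of `5 ≤ p`, with helper6's side condition `EvenAtThree p M` (`p = 3 → 2 ∣ M`:
  the Legendre hosts then have degree `2` over the level fields);
* **toric along the three sheets over the UNRAMIFIED bases only** (`IsUnrBase q A K`: a base fixed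
  pointwise by the inertia group of `A`; `q` is then a uniformiser of `A ∩ K`,
  `IsUnrBase.irreducible`): the three-sheet models of S36 (`IsThreeSheet`, REG1, the closed data at
  the triple points) live over unramified bases, and over a ramified base there are MORE classes
  which are `p`-th powers along the three sheets (the twists of the Steinberg classes of level
  `M q` by the characters of conductor `q`), for which leaf (b) is false.  Unramified bases are
  stable under `⊔` (`IsUnrBase.sup`), so the end-game can be run over one base;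
* leaf (b) only for `5 ≤ q` ([MASS] averages over the deck group of the Legendre host; for `q = 3`
  no odd `p ≠ 3` divides `q ^ 2 - 1 = 8`, so helper7's `ML.noCongStatement` covers it).

* `IsUnrBase`, `IsUnrBase.sup`, `IsUnrBase.irreducible`;
* `IsToric3RepU`, `IsToric3ClassAtU`;
* `KeyMazSqToricStatementE` (leaf (a)), `Toric3OccursStatementE` (leaf (b)), `KeyMazSqStatementE`
  and `keyMazSqStatementE_of_toric`.
-/
import Mathlib
import Fermat.Agent.ML.IFACE_helper3_MSQ
import Fermat.Agent.ML.IFACE_helper6_MazE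
import Fermat.Agent.RB.MAZ_helper6_DescQ

set_option autoImplicit false
set_option linter.unusedSectionVars false
set_option linter.unusedVariables false
set_option linter.style.haveILetI false

open HahnSeries IntermediateField AlgebraicCurve ModularCurve

namespace Fermat.Agent.ML

open Fermat.Agent.JA Fermat.Agent.FF Fermat.Agent.SS Fermat.Agent.S35 Fermat.Agent.MP
  Fermat.Agent.NP Fermat.Agent.GR Fermat.Agent.RB

/-- `Ω = AlgebraicClosure ℚ`. -/
local notation "Ω" => AlgebraicClosure ℚ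

/-- the absolute Galois group. -/
local notation "GQ" => (AlgebraicClosure ℚ ≃ₐ[ℚ] AlgebraicClosure ℚ)

/-! ### unramified bases -/

section Unr

/-- **an unramified base at the place `A`**: a base in the sense of `JA.IsBase` which is fixed
pointwise by the inertia group of `A`. -/
def IsUnrBase (q : ℕ) (A : ValuationSubring Ω) (K : IntermediateField ℚ Ω) : Prop :=
  IsBase q K ∧ ∀ z ∈ K, ∀ τ ∈ A.inertiaSubgroupIn ℚ, τ z = z

variable {q : ℕ} {A : ValuationSubring Ω} {K K' : IntermediateField ℚ Ω}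

theorem IsUnrBase.isBase (h : IsUnrBase q A K) : IsBase q K := h.1

/-- the compositum of two unramified bases is an unramified base. -/
theorem IsUnrBase.sup (h : IsUnrBase q A K) (h' : IsUnrBase q A K') : IsUnrBase q A (K ⊔ K') := by
  refine ⟨h.1.sup h'.1, fun z hz τ hτ => ?_⟩
  have hle : K ⊔ K' ≤ IntermediateField.fixedField (Subgroup.zpowers τ) := by
    refine sup_le (fun y hy => ?_) (fun y hy => ?_)
    · rw [IntermediateField.mem_fixedField_iff]
      intro g hg
      obtain ⟨n, rfl⟩ := Subgroup.mem_zpowers_iff.mp hg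
      have h1 : τ y = y := h.2 y hy τ hτ
      have h2 : ∀ m : ℕ, (τ ^ m) y = y := by
        intro m
        induction m with
        | zero => rfl
        | succ m ih => rw [pow_succ, AlgEquiv.mul_apply, h1, ih]
      have h3 : ∀ m : ℕ, (τ ^ m)⁻¹ y = y := by
        intro m
        have := h2 m
        exact (AlgEquiv.symm_apply_eq (τ ^ m)).mpr this.symm
      rcases Int.eq_nat_or_neg n with ⟨m, rfl | rfl⟩
      · rw [zpow_natCast]; exact h2 m
      · rw [zpow_neg, zpow_natCast]; exact h3 m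
    · rw [IntermediateField.mem_fixedField_iff]
      intro g hg
      obtain ⟨n, rfl⟩ := Subgroup.mem_zpowers_iff.mp hg
      have h1 : τ y = y := h'.2 y hy τ hτ
      have h2 : ∀ m : ℕ, (τ ^ m) y = y := by
        intro m
        induction m with
        | zero => rfl
        | succ m ih => rw [pow_succ, AlgEquiv.mul_apply, h1, ih]
      have h3 : ∀ m : ℕ, (τ ^ m)⁻¹ y = y := by
        intro m
        have := h2 m
        exact (AlgEquiv.symm_apply_eq (τ ^ m)).mpr this.symm
      rcases Int.eq_nat_or_neg n with ⟨m, rfl | rfl⟩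
      · rw [zpow_natCast]; exact h2 m
      · rw [zpow_neg, zpow_natCast]; exact h3 m
  have := hle hz
  rw [IntermediateField.mem_fixedField_iff] at this
  exact this τ (Subgroup.mem_zpowers τ)

/-- **`q` is a uniformiser of an unramified base.** -/
theorem IsUnrBase.irreducible [hq : Fact q.Prime] (hA : A.LiesOverPrime q) (h : IsUnrBase q A K) :
    Irreducible ((q : ℕ) : ↥(baseRing A K)) :=
  irreducible_natCast_baseRing_of_fixed hA h.1 h.2

end Unr

/-! ### toric classes over the unramified bases -/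

section Toric3U

variable (M q m : ℕ) [NeZero M] [NeZero q] [NeZero (M * q)] [NeZero (M * q * q)]
  (A : ValuationSubring Ω)

/-- **a toric representative over the unramified bases (three sheets)**: the function descends to
an unramified base `K₀`, and over every unramified base containing `K₀` the descended function is
toric along the three sheets. -/
def IsToric3RepU (f : ↥(modularFunctionFieldBar (M * q * q))) : Prop :=
  ∃ K₀ : IntermediateField ℚ Ω, IsUnrBase q A K₀ ∧
    (∃ F₀ : ↥(keyFq ↥K₀ (M * q * q)), keyFqBC (M * q * q) K₀ F₀ = f) ∧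
    ∀ K₁ : IntermediateField ℚ Ω, IsUnrBase q A K₁ → K₀ ≤ K₁ →
      ∀ F₁ : ↥(keyFq ↥K₁ (M * q * q)), keyFqBC (M * q * q) K₁ F₁ = f →
        LegToric3At M q m A K₁ (fullToLegE ↥K₁ (M * q * q) F₁)

/-- **a toric class of `J₀(M q q)[m]`** at the place `A ∣ q` (three sheets, unramified bases). -/
def IsToric3ClassAtU (x : JZero (M * q * q)) : Prop :=
  ∃ (D : Divisor.degZero (K := Ω) (F := ↥(modularFunctionFieldBar (M * q * q))))
    (f : ↥(modularFunctionFieldBar (M * q * q))), f ≠ 0 ∧ Pic0.mk D = x ∧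
    (∀ v : Place Ω ↥(modularFunctionFieldBar (M * q * q)),
      v.ord f = (m : ℤ) * (D : Divisor Ω ↥(modularFunctionFieldBar (M * q * q))) v) ∧
    IsToric3RepU M q m A f

end Toric3U

/-! ### the two leaves of (KEY-MAZ-SQ), every odd `p` -/

section KeyE

/-- **leaf (a) at one place, every odd `p`.** -/
def KeyMazSqToricAtE (M q p : ℕ) [NeZero M] [NeZero q] [NeZero (M * q)] [NeZero (M * q * q)]
    (A : ValuationSubring Ω) : Prop :=
  ∀ (S : Set ℕ) (a : ℕ → ℤ), (∀ ℓ : ℕ, ℓ.Prime → ℓ ∣ M * q * q → ℓ ∈ S) → p ∈ S → 2 ∈ S →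
    (∃ ℓ : ℕ, ℓ.Prime ∧ ℓ ∉ S ∧ ¬ (a ℓ ≡ (ℓ : ℤ) + 1 [ZMOD (p : ℤ)])) →
    ∀ x : JZero (M * q * q), p • x = 0 →
      (∀ (ℓ : ℕ) (hℓ : ℓ.Prime), ℓ ∉ S → heckeOperatorBar (M * q * q) ⟨ℓ, hℓ⟩ x = a ℓ • x) →
      (∀ τ ∈ A.inertiaSubgroupIn ℚ, τ • x = x) →
      IsToric3ClassAtU M q p A x ∨ ResOccurs (M * q) p S a

/-- **leaf (a), all levels, every odd `p`** (`q ≠ 2`: Legendre host). -/
def KeyMazSqToricStatementE : Prop :=
  ∀ (M q p : ℕ) [NeZero M] [NeZero q] [NeZero (M * q)] [NeZero (M * q * q)], q.Prime → q ≠ 2 →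
    p.Prime → p ≠ 2 → q ≠ p → ¬ q ∣ M → EvenAtThree p M →
    ∀ A : ValuationSubring Ω, A.LiesOverPrime q → KeyMazSqToricAtE M q p A

/-- **leaf (b) at one place, every odd `p`.** -/
def Toric3OccursAtE (M q p : ℕ) [NeZero M] [NeZero q] [NeZero (M * q)] [NeZero (M * q * q)]
    (A : ValuationSubring Ω) : Prop :=
  ∀ (S : Set ℕ) (a : ℕ → ℤ), (∀ ℓ : ℕ, ℓ.Prime → ℓ ∣ M * q * q → ℓ ∈ S) → p ∈ S → 2 ∈ S →
    (∃ ℓ : ℕ, ℓ.Prime ∧ ℓ ∉ S ∧ ¬ (a ℓ ≡ (ℓ : ℤ) + 1 [ZMOD (p : ℤ)])) →
    ∀ x : JZero (M * q * q), x ≠ 0 → p • x = 0 →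
      (∀ (ℓ : ℕ) (hℓ : ℓ.Prime), ℓ ∉ S → heckeOperatorBar (M * q * q) ⟨ℓ, hℓ⟩ x = a ℓ • x) →
      (∀ τ ∈ A.inertiaSubgroupIn ℚ, τ • x = x) →
      IsToric3ClassAtU M q p A x → ResOccurs (M * q) p S a

/-- **leaf (b), all levels, every odd `p`** (`5 ≤ q`: [MASS]). -/
def Toric3OccursStatementE : Prop :=
  ∀ (M q p : ℕ) [NeZero M] [NeZero q] [NeZero (M * q)] [NeZero (M * q * q)], q.Prime → 5 ≤ q →
    p.Prime → p ≠ 2 → q ≠ p → ¬ q ∣ M → EvenAtThree p M →
    ∀ A : ValuationSubring Ω, A.LiesOverPrime q → Toric3OccursAtE M q p A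

/-- **(KEY-MAZ-SQ), all levels, every odd `p`, `5 ≤ q`** (the case `q = 3` is covered by
`ML.noCongStatement`, the case `q = 2` is route (C)). -/
def KeyMazSqStatementE : Prop :=
  ∀ (M₁ q p : ℕ) [NeZero M₁] [NeZero q] [NeZero (M₁ * q)], q.Prime → 5 ≤ q → p.Prime → p ≠ 2 →
    q ≠ p → q ∣ M₁ → ¬ q ^ 2 ∣ M₁ → EvenAtThree p M₁ →
    ∀ A : ValuationSubring Ω, A.LiesOverPrime q → KeyMazSqAt M₁ q p A

/-- **(KEY-MAZ-SQ) from the two leaves, every odd `p`.** -/
theorem keyMazSqStatementE_of_toric (HA : KeyMazSqToricStatementE)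
    (HB : Toric3OccursStatementE) : KeyMazSqStatementE := by
  intro M₁ q p i1 i2 i3 hq hq5 hp hp2 hqp hqM₁ hq2M₁ h3 A hA
  obtain ⟨M, hM⟩ := hqM₁
  have hM' : M₁ = M * q := by rw [hM, mul_comm]
  subst hM'
  have hq2 : q ≠ 2 := by omega
  have hqM : ¬ q ∣ M := by
    intro h
    apply hq2M₁
    rw [pow_two]
    exact Nat.mul_dvd_mul_right h q |>.trans (by rw [mul_comm])
  haveI : NeZero M := ⟨fun h => by
    have := NeZero.ne (M * q)
    rw [h, zero_mul] at this
    exact this rfl⟩
  have h3' : EvenAtThree p M := by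
    intro hp3
    have h2 := h3 hp3
    rcases (Nat.Prime.dvd_mul Nat.prime_two).mp h2 with h | h
    · exact h
    · exact absurd ((Nat.prime_dvd_prime_iff_eq Nat.prime_two hq).mp h).symm hq2
  intro S a hS hpS h2S hnE x hx hpx hT hI
  rcases HA M q p hq hq2 hp hp2 hqp hqM h3' A hA S a hS hpS h2S hnE x hpx hT hI with h | h
  · exact HB M q p hq hq5 hp hp2 hqp hqM h3' A hA S a hS hpS h2S hnE x hx hpx hT hI h
  · exact h

end KeyE

end Fermat.Agent.ML
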