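/-
ML (S59) — helper5 — **a non-zero inertia-fixed `p`-torsion point of a semistable model** at every
place over a prime `q ≠ p` (`p` odd).

The inertia group `I_A` acts on `W[p](ℚ̄)` through unipotent operators of echelon two (good
reduction: trivially, `S58.e2_inertia_smul_eq_Qbar`; multiplicative reduction:
`S58.unipotent_of_multiplicative`), so its image in the permutations of `W[p]` is a `p`-group, and a
`p`-group acting on a set of `p ^ 2` elements with one fixed point (`0`) has another.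

This is the hypothesis `hfix` of `RB.MazurSqStatement`, consumed by `ML.sqStepStatementO_of`.
-/
import Mathlib
import Fermat.Agent.ML.TATED_helper1_UnrT
import Fermat.Agent.S58.ECTATE_helper7_UMult

set_option autoImplicit false
set_option linter.unusedSectionVars false
set_option linter.unusedVariables false
set_option linter.style.haveILetI false

open WeierstrassCurve WeierstrassCurve.Affine
open scoped WeierstrassCurve.Affine

namespace Fermat.Agent.ML.SqO

open Fermat.Agent.S58 Fermat.Agent.Tate Fermat.Agent.S13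

/-- `Ω = AlgebraicClosure ℚ`. -/
local notation "Ω" => AlgebraicClosure ℚ

/-- the absolute Galois group. -/
local notation "GQ" => (AlgebraicClosure ℚ ≃ₐ[ℚ] AlgebraicClosure ℚ)

/-- **unipotency of echelon two of the inertia groups at `q ≠ p` on `W[p](ℚ̄)`**, `W` semistable,
`p` odd. -/
theorem inertia_unipotent_torsion (W : WeierstrassCurve ℤ) (hΔ : W.Δ ≠ 0)
    (hss : W.IsSemistableModel) {p : ℕ} (hp : p.Prime) (hp2 : p ≠ 2) {q : ℕ} (hq : q.Prime)
    (hqp : q ≠ p) (A : ValuationSubring Ω) (hA : A.LiesOverPrime q)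
    {σ : GQ} (hσ : σ ∈ A.inertiaSubgroupIn ℚ)
    {P : (W.toAffine⁄Ω).Point} (hP : p • P = 0) : σ • (σ • P - P) = σ • P - P := by
  have hodd : Odd p := hp.odd_of_ne_two hp2
  have hqp' : ¬ q ∣ p := fun hd => hqp ((Nat.prime_dvd_prime_iff_eq hq hp).mp hd)
  by_cases hbad : (q : ℤ) ∣ W.Δ
  · exact unipotent_of_multiplicative gNodeNormalForm_qbar W hΔ hq hbad (hss q hq hbad) hodd hqp'
      A hA σ hσ P hP
  · have h1 : σ • P = P := e2_inertia_smul_eq_Qbar W hq hbad A hA hσ hodd hqp' hP
    rw [h1, sub_self, smul_zero]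

section Abstract

variable {G J : Type*} [Group G] [AddCommGroup J] [DistribMulAction G J]

/-- unipotent of echelon two: `σ ^ n • x = x + n • (σ • x - x)`. -/
theorem pow_smul_eq_of_unip (σ : G) (x : J) (h : σ • (σ • x - x) = σ • x - x) (n : ℕ) :
    σ ^ n • x = x + n • (σ • x - x) := by
  induction n with
  | zero => simp
  | succ n ih =>
    have h1 : σ • (n • (σ • x - x)) = n • (σ • x - x) := by
      rw [smul_comm, h]
    rw [pow_succ', mul_smul, ih, smul_add, h1, succ_nsmul]
    abel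

/-- a unipotent of echelon two has `p`-th power acting trivially on the `p`-torsion. -/
theorem pow_smul_eq_self_of_unip {p : ℕ} (σ : G) (x : J) (hx : p • x = 0)
    (h : σ • (σ • x - x) = σ • x - x) : σ ^ p • x = x := by
  have h2 : p • (σ • x - x) = 0 := by
    rw [nsmul_sub, hx, sub_zero, smul_comm, hx, smul_zero]
  rw [pow_smul_eq_of_unip σ x h p, h2, add_zero]

/-- the `p`-torsion of a `G`-module as a sub-`G`-set. -/
def torsSubMul (G J : Type*) [Group G] [AddCommGroup J] [DistribMulAction G J] (p : ℕ) :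
    SubMulAction G J where
  carrier := {P | p • P = 0}
  smul_mem' := fun σ P hP => by
    have hP' : p • P = 0 := hP
    show p • σ • P = 0
    rw [smul_comm, hP', smul_zero]

theorem mem_torsSubMul {p : ℕ} {P : J} : P ∈ torsSubMul G J p ↔ p • P = 0 := Iff.rfl

/-- **a subgroup whose elements have `p`-th power acting trivially on the `p`-torsion** (of
cardinality `p ^ 2`) **fixes a non-zero `p`-torsion element**: its image in the permutations of the
`p`-torsion is a `p`-group. -/
theorem exists_fixed_of_pow_trivial {p : ℕ} [Fact p.Prime] (I : Subgroup G)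
    (hcard : Nat.card {P : J // p • P = 0} = p ^ 2)
    (hpow : ∀ σ ∈ I, ∀ P : J, p • P = 0 → σ ^ p • P = P) :
    ∃ Q : J, Q ≠ 0 ∧ p • Q = 0 ∧ ∀ τ ∈ I, τ • Q = Q := by
  classical
  have hp : p.Prime := Fact.out
  have hcard' : Nat.card ↥(torsSubMul G J p) = p ^ 2 := hcard
  haveI : Finite ↥(torsSubMul G J p) :=
    Nat.finite_of_card_ne_zero (by rw [hcard']; exact pow_ne_zero 2 hp.ne_zero)
  -- the image of `I` in the permutations of the `p`-torsion
  let φ : ↥I →* Equiv.Perm ↥(torsSubMul G J p) := MulAction.toPermHom ↥I ↥(torsSubMul G J p)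
  have hPG : IsPGroup p ↥φ.range := by
    rintro ⟨g, ⟨σ, rfl⟩⟩
    refine ⟨1, ?_⟩
    apply Subtype.ext
    show (φ σ) ^ p ^ 1 = 1
    rw [pow_one, ← map_pow]
    apply Equiv.ext
    intro x
    apply Subtype.ext
    show (σ.1 ^ p) • x.1 = x.1
    exact hpow σ.1 σ.2 x.1 x.2
  have hz : (0 : J) ∈ torsSubMul G J p := mem_torsSubMul.mpr (smul_zero p)
  have h0 : (⟨0, hz⟩ : ↥(torsSubMul G J p)) ∈
      MulAction.fixedPoints ↥φ.range ↥(torsSubMul G J p) := by
    rintro ⟨g, ⟨σ, rfl⟩⟩
    apply Subtype.ext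
    show σ.1 • (0 : J) = 0
    exact smul_zero _
  have hdvd : p ∣ Nat.card ↥(torsSubMul G J p) := by
    rw [hcard']
    exact dvd_pow_self p two_ne_zero
  obtain ⟨b, hb, hb0⟩ :=
    hPG.exists_fixed_point_of_prime_dvd_card_of_fixed_point ↥(torsSubMul G J p) hdvd h0
  refine ⟨b.1, ?_, b.2, fun τ hτ => ?_⟩
  · intro h
    exact hb0 (Subtype.ext h.symm)
  · have h1 := hb ⟨φ ⟨τ, hτ⟩, ⟨⟨τ, hτ⟩, rfl⟩⟩
    exact congrArg Subtype.val h1

end Abstract

/-- **a non-zero `p`-torsion point of `W` fixed by the inertia group of a place `A ∣ q`**, `q ≠ p`,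
`W` semistable, `p` odd. -/
theorem exists_inertia_fixed_torsion (W : WeierstrassCurve ℤ) (hΔ : W.Δ ≠ 0)
    (hss : W.IsSemistableModel) {p : ℕ} (hp : p.Prime) (hp2 : p ≠ 2) {q : ℕ} (hq : q.Prime)
    (hqp : q ≠ p) (A : ValuationSubring Ω) (hA : A.LiesOverPrime q) :
    ∃ Q : (W.toAffine⁄Ω).Point, Q ≠ 0 ∧ p • Q = 0 ∧
      ∀ τ ∈ A.inertiaSubgroupIn ℚ, τ • Q = Q := by
  haveI : Fact p.Prime := ⟨hp⟩
  have hΔΩ : (W.toAffine⁄Ω).Δ ≠ 0 := by
    have h1 : (W.toAffine⁄Ω).Δ = ((W.Δ : ℤ) : Ω) := by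
      simp [WeierstrassCurve.baseChange, WeierstrassCurve.map_Δ]
    rw [h1]
    exact_mod_cast hΔ
  exact exists_fixed_of_pow_trivial (A.inertiaSubgroupIn ℚ)
    (Fermat.Agent.EC.card_torsion_eq hΔΩ hp hp2)
    (fun σ hσ P hP => pow_smul_eq_self_of_unip σ P hP
      (inertia_unipotent_torsion W hΔ hss hp hp2 hq hqp A hA hσ hP))

end Fermat.Agent.ML.SqO
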