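/-
PROJECT ML (S59) — ARCHITECT (helper9) — INTERFACE FILE ML1: the ring of local problems of the
chain patching and what the CORE needs to know about it (finding 441 §1 (III), (IV)).

`m` chain primes (in the peu ramifiée case index `0` = the prime `p`; then the primes `q ≠ p` of
bad reduction of `W` at which `ρ̄` is unramified), `nv j` local variables at the `j`-th chain
prime, `g` global variables.  `CPS O m nv g = O⟦local variables, x_1, …, x_g⟧`.

A `ChainModel` gives, for every chain prime `j`, ideals of `CPS`
  * `rel j` : the relations which hold on every module whose level CONTAINS the `j`-th prime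
              (`(ν - q) y = 0`; helper3's three-variable ring; helper4's `I₁`; `u c = 0` at `p`);
  * `unr j` : the relations which hold when the level does NOT contain the `j`-th prime
              (`y = 0`; `s = 0`; `c = 0` at `p`);
  * `new j` : the relations which hold on the `j`-NEW quotient (`ν = q`;
              `tr ρ(φ)² = (q + 1)²` for all Frobenius lifts `φ`; `u = 0` at `p`);
  * `st j`  : the prime of the target component (Steinberg of the sign of `W`; strict at `p`);
  * `th j`  : the level raising element (`q + 1 ∓ T_q`, resp. `U_p² - 1`, up to units).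
`P k = st_0 + … + st_{k-1} + unr_k + … + unr_{m-1}` is the chain of primes of (IV).

`ChainModel.Good lam r` is the list of facts used by the CORE (`r` = number of Taylor–Wiles primes,
`dim S∞ = r + 1`).  Owners of the instances: lead (monomial models and the model at `p`),
helper4 (the scalar model on top of `RB.LOC`).  Products of models: lead.
-/
import Mathlib

set_option autoImplicit false

namespace Fermat.Agent.ML

open MvPowerSeries

/-- the variables: local variables of the chain primes and the global (patching) variables -/
abbrev CVar (m : ℕ) (nv : Fin m → ℕ) (g : ℕ) := (Σ j : Fin m, Fin (nv j)) ⊕ Fin g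

/-- the ring of the local problems `O⟦local variables, x_1, …, x_g⟧` -/
abbrev CPS (O : Type) [CommRing O] (m : ℕ) (nv : Fin m → ℕ) (g : ℕ) :=
  MvPowerSeries (CVar m nv g) O

/-- the `a`-th local variable of the `j`-th chain prime -/
noncomputable def locX (O : Type) [CommRing O] {m : ℕ} (nv : Fin m → ℕ) (g : ℕ) (j : Fin m)
    (a : Fin (nv j)) : CPS O m nv g := X (Sum.inl ⟨j, a⟩)

/-- the `i`-th global variable -/
noncomputable def gloX (O : Type) [CommRing O] {m : ℕ} (nv : Fin m → ℕ) (g : ℕ) (i : Fin g) :
    CPS O m nv g := X (Sum.inr i)

/-- **the local models of a chain**, as ideals of the ambient ring. -/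
structure ChainModel (O : Type) [CommRing O] (m : ℕ) (nv : Fin m → ℕ) (g : ℕ) where
  /-- relations valid when the `j`-th prime divides the level -/
  rel : Fin m → Ideal (CPS O m nv g)
  /-- relations valid when the `j`-th prime does not divide the level -/
  unr : Fin m → Ideal (CPS O m nv g)
  /-- relations valid on the `j`-new quotient -/
  new : Fin m → Ideal (CPS O m nv g)
  /-- the target component at the `j`-th prime -/
  st : Fin m → Ideal (CPS O m nv g)
  /-- the level raising element at the `j`-th prime -/
  th : Fin m → CPS O m nv g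

namespace ChainModel

variable {O : Type} [CommRing O] {m : ℕ} {nv : Fin m → ℕ} {g : ℕ} (D : ChainModel O m nv g)

/-- the `k`-th prime of the chain: target component at the primes `< k`, unramified at the
primes `≥ k`. -/
noncomputable def P (k : ℕ) : Ideal (CPS O m nv g) :=
  (⨆ j : Fin m, ⨆ _ : j.val < k, D.st j) ⊔ (⨆ j : Fin m, ⨆ _ : k ≤ j.val, D.unr j)

/-- the relations of the module of level `k` (the primes `< k` divide the level). -/
noncomputable def Jfull (k : ℕ) : Ideal (CPS O m nv g) :=
  (⨆ j : Fin m, ⨆ _ : j.val < k, D.rel j) ⊔ (⨆ j : Fin m, ⨆ _ : k ≤ j.val, D.unr j)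

/-- the relations of the `k`-new quotient of the module of level `k + 1`. -/
noncomputable def Jnew (k : Fin m) : Ideal (CPS O m nv g) :=
  (⨆ j : Fin m, ⨆ _ : j.val < k.val, D.rel j) ⊔ D.new k ⊔
    (⨆ j : Fin m, ⨆ _ : k.val < j.val, D.unr j)

/-- the prime through which the step `k → k + 1` goes: `P k + (th k)`. -/
noncomputable def Q (k : Fin m) : Ideal (CPS O m nv g) := D.P k.val ⊔ Ideal.span {D.th k}

/-- the ideal of the target point: all the `st j` -/
noncomputable def Pst : Ideal (CPS O m nv g) := ⨆ j : Fin m, D.st j

/-- **what the CORE uses** (`lam` a uniformizer, `r` the number of Taylor–Wiles primes).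
In `step` (and in `Start.start`) the prime `𝔓` is a minimal prime of the support of a module which is finite
free over `S∞`: it has characteristic zero and `dim CPS ⧸ 𝔓 = r + 1`. -/
structure Good (lam : O) (r : ℕ) : Prop where
  /-- the primes of the chain -/
  P_isPrime : ∀ k : ℕ, k ≤ m → (D.P k).IsPrime
  /-- they have (at most) the dimension of `S∞ = O⟦Z_1, …, Z_r⟧` -/
  dim_P : ∀ k : ℕ, k ≤ m → ringKrullDim (CPS O m nv g ⧸ D.P k) ≤ (r : WithBot ℕ∞) + 1
  /-- the level raising divisor of the `k`-th component -/
  Q_isPrime : ∀ k : Fin m, (D.Q k).IsPrime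
  /-- **(IV), the step**: a prime of the support of the `k`-new quotient (characteristic zero,
  dimension `r + 1`) below `Q k` contains `P (k + 1)` -/
  step : ∀ (k : Fin m) (𝔓 : Ideal (CPS O m nv g)), 𝔓.IsPrime → D.Jnew k ≤ 𝔓 → 𝔓 ≤ D.Q k →
    (C lam : CPS O m nv g) ∉ 𝔓 → (r : WithBot ℕ∞) + 1 ≤ ringKrullDim (CPS O m nv g ⧸ 𝔓) →
    D.P (k.val + 1) ≤ 𝔓

/-- **(IV), the start at level one** (amendment, lead 2326): used by the CORE only when the module
of level `0` may vanish (`d 0 = 0 < d 1`); in the application this happens only when the chain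
prime of index `0` is `p` (peu ramifiée, the optimal level contains `p`), where the model has a
unit `κ₀`.  For a type (iv) prime at index `0` the statement is false and not needed. -/
structure Start (lam : O) (r : ℕ) : Prop where
  /-- a prime (characteristic zero, dimension `r + 1`) containing the relations of the module of
  level `1` contains `P 0` or `P 1` -/
  start : 0 < m → ∀ 𝔓 : Ideal (CPS O m nv g), 𝔓.IsPrime → D.Jfull 1 ≤ 𝔓 →
    (C lam : CPS O m nv g) ∉ 𝔓 → (r : WithBot ℕ∞) + 1 ≤ ringKrullDim (CPS O m nv g ⧸ 𝔓) →
    D.P 0 ≤ 𝔓 ∨ D.P 1 ≤ 𝔓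
  /-- the `0`-new quotient does not live on the unramified component -/
  new_not_le : ∀ h : 0 < m, ¬ D.new ⟨0, h⟩ ≤ D.P 0

end ChainModel

end Fermat.Agent.ML
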