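/-
PROJECT ML (S59) — ARCHITECT (helper9) — INTERFACE FILE ML3: what the Taylor–Wiles construction
for a CHAIN of levels ([TWMOD-L] helper2, [IHARA-L] helper6, [REPT-L] helper1, [KEYH-L]
helper5/7/8, [AT-P] helper2/5/7) delivers to the glue ([GLUE-L] helper9), in the vocabulary
`GaloisRepAdic` + plain linear algebra (no modular curves).

Setting: `ρ̄ = W[p] ⊗ k`, `ρ_W : GaloisRepAdic 𝒪` the representation of `W`, `S ∋ p` the set of
primes of the optimal level `N` together with `p` (and the auxiliary prime at `p = 3`),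
`cq : Fin m → ℕ` the chain primes (not in `S`, except `cq 0 = p` in the case `PCase.chain`),
`sgn j = ±1` the sign of `W` at `cq j`, `Q : Fin r → ℕ` Taylor–Wiles primes, `Q q ≡ 1 mod p ^ n`.
The level `i : Fin (m + 1)` contains the chain primes `cq j`, `j < i`.

The situation at `p` (`PCase`):
  * `flat`   : `W` good at `p`; all levels prime to `p`; `ρ` flat at `p`;
  * `strict` : `W` multiplicative at `p`, `ρ̄` très ramifiée; `p ∥` all levels; `ρ` strictly
               ordinary at `p` (no `p`-old forms in the localisation);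
  * `chain`  : `W` multiplicative at `p`, `ρ̄` peu ramifiée; `cq 0 = p`; the modules are the FULL
               localised modules (level `0`: level prime to `p`; level `≥ 1`: `p ∥` level; two
               degeneracy maps at `p`, no `U_p`, helper2 2330); `ρ` ordinary at `p`.  NOTHING is
               asked about the shape of `ρ` at `p` on the module of level `0` (lead 2335 (R-c)).

ONE ring `T` for all levels: the TRACE RING `T' ⊆ T_Q(top level) × 𝒪` generated by the pairs
`(tr ρ_Q(σ), tr ρ_W(σ))` (REPT-L: Carayol's lemma with `W` as one more point); it acts on every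
`H i` through the first projection and `T_Q(top) → T_Q(level i)`; `toO` is the second projection.
-/
import Mathlib
import Fermat.Agent.RB.IFACE_helper9_TW
import Fermat.Prelude.Def_GaloisRep_StrictOrdinary

set_option autoImplicit false

open Polynomial IsLocalRing

namespace Fermat.Agent.ML

local notation "GQ" => (AlgebraicClosure ℚ ≃ₐ[ℚ] AlgebraicClosure ℚ)

/-- the situation at `p` -/
inductive PCase : Type
  | flat
  | strict
  | chain
  deriving DecidableEq

/-- **the global deformation condition of the TOP level**: cyclotomic determinant, unramified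
outside `S ∪ C ∪ Qs`, unipotent on inertia at the primes `≠ p` of `S ∪ C`, and at `p` flat /
strictly ordinary / ordinary according to the case.  (No condition at the Taylor–Wiles primes.) -/
def chainCondition (𝒪 : Type) [CommRing 𝒪] (p : ℕ) (S C Qs : Finset ℕ) (pc : PCase) :
    ∀ ⦃A : Type⦄ [CommRing A] [IsLocalRing A] [Algebra 𝒪 A], GaloisRepAdic A → Prop :=
  fun _A _ _ _ ρ => ρ.DetIsCyclotomic p ∧
    (∀ q : ℕ, q.Prime → q ∉ S ∪ C ∪ Qs → ρ.IsUnramifiedAt q) ∧
    (∀ ℓ ∈ S ∪ C, ℓ.Prime → ℓ ≠ p → ρ.IsUnipotentOnInertiaAt ℓ) ∧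
    (pc = PCase.flat → ρ.IsFlatAt p) ∧
    (pc = PCase.strict → ρ.IsStrictOrdinaryAt p) ∧
    (pc = PCase.chain → ρ.IsOrdinaryAt p)

section

variable {𝒪 : Type} [CommRing 𝒪] [IsDomain 𝒪] [IsDiscreteValuationRing 𝒪]
  [IsAdicComplete (maximalIdeal 𝒪) 𝒪]

/-- **The Taylor–Wiles data at `(n, Q)` for a chain of levels.** -/
structure TWChainGalois (p : ℕ) (ρW : GaloisRepAdic 𝒪)
    (ρbar : ResidualGaloisRep (ResidueField 𝒪)) (S : Finset ℕ) (pc : PCase)
    {m : ℕ} (cq : Fin m → ℕ) (sgn : Fin m → 𝒪) (r : ℕ) (d : Fin (m + 1) → ℕ) (kk : Fin m → ℕ)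
    (M0 : Type) [AddCommGroup M0] [Module 𝒪 M0] (tr0 : GQ → Module.End 𝒪 M0)
    (n : ℕ) (Q : Fin r → ℕ) : Type 1 where
  /-- the trace ring (with the point of `W`) -/
  T : Type
  [instCommRing : CommRing T]
  [instIsLocalRing : IsLocalRing T]
  [instIsNoetherianRing : IsNoetherianRing T]
  [instIsAdicComplete : IsAdicComplete (maximalIdeal T) T]
  [instAlgebra : Algebra 𝒪 T]
  [instIsLocalHom : IsLocalHom (algebraMap 𝒪 T)]
  [instFinite : Module.Finite 𝒪 T]
  residue_surjective : Function.Surjective (IsLocalRing.residue T ∘ algebraMap 𝒪 T)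
  /-- the trace ring is `𝒪`-torsion-free (lead 2335 (R-a)) -/
  torsion_free : ∀ a : 𝒪, a ≠ 0 → ∀ t : T, a • t = 0 → t = 0
  /-- the Galois representation -/
  ρ : GaloisRepAdic T
  residual_isEquiv : ρ.residual.IsEquiv
    (ρbar.baseChangeAlong (IsLocalRing.ResidueField.map (algebraMap 𝒪 T)))
  isOfType : chainCondition 𝒪 p S (Finset.univ.image cq) (Finset.univ.image Q) pc ρ
  adjoin_trace : Algebra.adjoin 𝒪 (Set.range ρ.trace) = ⊤
  /-- the point of `W` -/
  toO : T →ₐ[𝒪] 𝒪
  toO_trace : ∀ σ : GQ, toO (ρ.trace σ) = ρW.trace σ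
  /-- the modules -/
  H : Fin (m + 1) → Type
  [instAddCommGroup : ∀ i, AddCommGroup (H i)]
  [instModule : ∀ i, Module 𝒪 (H i)]
  /-- the Hecke actions -/
  h : ∀ i, T →ₐ[𝒪] Module.End 𝒪 (H i)
  /-- the (square roots of the) diamond operators at the Taylor–Wiles primes -/
  g : ∀ i, Fin r → Module.End 𝒪 (H i)
  g_pow : ∀ i q, g i q ^ (p ^ n) = 1
  g_comm : ∀ i q q', Commute (g i q) (g i q')
  g_comm_h : ∀ i q t, Commute (g i q) (h i t)
  /-- freeness of rank `d i` over `𝒪[(ℤ/p^n)^r]` -/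
  b : ∀ i, Fin (d i) → H i
  free : ∀ i, Function.Bijective fun c : (Fin (d i) × (Fin r → Fin (p ^ n))) →₀ 𝒪 =>
    c.sum fun je a =>
      a • (((List.finRange r).map fun q => g i q ^ ((je.2 q : Fin (p ^ n)) : ℕ)).prod (b i je.1))
  /-- **(KEY-H)** at the Taylor–Wiles primes, unordered form -/
  keyH : ∀ i q, ∃ (P : ValuationSubring (AlgebraicClosure ℚ)) (_ : P.LiesOverPrime (Q q))
    (σ : GQ) (_ : σ ∈ P.inertiaSubgroupIn ℚ),
      h i (ρ.trace σ) = g i q + g i q ^ (p ^ n - 1)
  /-- the level `i` does not contain the chain primes `cq j ≠ p`, `i ≤ j`: unramified there -/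
  unr : ∀ (i : Fin (m + 1)) (j : Fin m), i.val ≤ j.val → cq j ≠ p →
    ∀ a ∈ RB.inertiaIdeal ρ (cq j), h i a = 0
  /-- the level raising maps at the `j`-th chain prime (the two degeneracy maps, also at `p`) -/
  iota : ∀ j : Fin m, Fin (kk j) → (H j.castSucc →ₗ[𝒪] H j.succ)
  iota_h : ∀ (j : Fin m) (c : Fin (kk j)) (t : T) (x : H j.castSucc),
    iota j c (h j.castSucc t x) = h j.succ t (iota j c x)
  iota_g : ∀ (j : Fin m) (c : Fin (kk j)) (q : Fin r) (x : H j.castSucc),
    iota j c (g j.castSucc q x) = g j.succ q (iota j c x)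
  /-- Ihara's lemma at the Taylor–Wiles level: jointly split injective over `𝒪[Δ_Q]` -/
  retr : ∀ j : Fin m, Fin (kk j) → (H j.succ →ₗ[𝒪] H j.castSucc)
  retr_g : ∀ (j : Fin m) (c : Fin (kk j)) (q : Fin r) (x : H j.succ),
    retr j c (g j.succ q x) = g j.castSucc q (retr j c x)
  retr_iota : ∀ (j : Fin m) (c c' : Fin (kk j)) (x : H j.castSucc),
    retr j c (iota j c' x) = if c = c' then x else 0
  /-- the level lowering map (an eigen-combination of the dual degeneracy maps) -/
  omega : ∀ j : Fin m, H j.succ →ₗ[𝒪] H j.castSucc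
  omega_h : ∀ (j : Fin m) (t : T) (x : H j.succ),
    omega j (h j.succ t x) = h j.castSucc t (omega j x)
  omega_g : ∀ (j : Fin m) (q : Fin r) (x : H j.succ),
    omega j (g j.succ q x) = g j.castSucc q (omega j x)
  omega_surjective : ∀ j : Fin m, Function.Surjective (omega j)
  /-- `omega ∘ iota = ± (q + 1 - sgn · T_q)` at a chain prime `q ≠ p` (`T_q = tr ρ(Frob_q)` on the
  level without `q`) -/
  omega_iota_q : ∀ (j : Fin m), cq j ≠ p →
    ∀ (P : ValuationSubring (AlgebraicClosure ℚ)), P.LiesOverPrime (cq j) →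
    ∀ φ : GQ, P.IsFrobeniusAt φ (cq j) → ∀ (c : Fin (kk j)) (x : H j.castSucc),
      ∃ y : H j.castSucc, omega j (iota j c x) =
        h j.castSucc (((cq j : ℕ) : T) + 1 - algebraMap 𝒪 T (sgn j) * ρ.trace φ) y
  /-- the `j`-new quotient is Steinberg at `cq j ≠ p`: `(tr ρ(Frob))² = (q + 1)²` -/
  new_q : ∀ (j : Fin m), cq j ≠ p →
    ∀ (P : ValuationSubring (AlgebraicClosure ℚ)), P.LiesOverPrime (cq j) →
    ∀ φ : GQ, P.IsFrobeniusAt φ (cq j) → ∀ x : H j.succ,
      ∃ y : Fin (kk j) → H j.castSucc,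
        h j.succ (ρ.trace φ ^ 2 - (((cq j : ℕ) : T) + 1) ^ 2) x = ∑ c, iota j c (y c)
  /-- case `chain`: the unit `Up = ψ(Frob_p)` (the value of the unramified quotient character of
  `ρ` at Frobenius lifts; a consequence of `isOfType`) and `omega ∘ iota = (Up² - 1) · unit` -/
  Up : pc = PCase.chain → T
  Up_spec : ∀ (hpc : pc = PCase.chain) (P : ValuationSubring (AlgebraicClosure ℚ)),
    P.LiesOverPrime p → ∀ φ : GQ, P.IsFrobeniusAt φ p → ∃ L : Submodule T ρ.V,
      (∃ b : Module.Basis (Fin 2) T ρ.V, L = T ∙ b 0) ∧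
      (∀ σ ∈ P.decompositionSubgroup ℚ, ∀ v ∈ L, ρ.ρ σ v ∈ L) ∧
      (∀ σ ∈ P.inertiaSubgroupIn ℚ, ∀ v : ρ.V, ρ.ρ σ v - v ∈ L) ∧
      ∀ v : ρ.V, ρ.ρ φ v - Up hpc • v ∈ L
  omega_iota_p : ∀ (hpc : pc = PCase.chain) (j : Fin m), cq j = p →
    ∀ (c : Fin (kk j)) (x : H j.castSucc),
      ∃ y : H j.castSucc, omega j (iota j c x) = h j.castSucc (Up hpc ^ 2 - 1) y
  /-- case `chain`: the `p`-new quotient is strictly ordinary -/
  new_p : pc = PCase.chain → ∀ j : Fin m, cq j = p → ∃ I : Ideal T,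
    (∀ a ∈ I, ∀ x : H j.succ, ∃ y : Fin (kk j) → H j.castSucc,
      h j.succ a x = ∑ c, iota j c (y c)) ∧
    ∀ (B : Type) [CommRing B] [IsLocalRing B] (π : T →+* B) (hπ : IsLocalHom π),
      Function.Surjective π → I ≤ RingHom.ker π →
        (ρ.baseChangeAlong π hπ).IsStrictOrdinaryAt p
  /-- control at the top level -/
  ctl : H (Fin.last m) →ₗ[𝒪] M0
  ctl_surjective : Function.Surjective ctl
  ker_ctl : ∀ x, ctl x = 0 ↔ x ∈ ⨆ q, LinearMap.range (g (Fin.last m) q - 1)
  ctl_trace : ∀ (σ : GQ) (x : H (Fin.last m)),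
    ctl (h (Fin.last m) (ρ.trace σ) x) = tr0 σ (ctl x)

attribute [instance] TWChainGalois.instCommRing TWChainGalois.instIsLocalRing
  TWChainGalois.instIsNoetherianRing TWChainGalois.instIsAdicComplete TWChainGalois.instAlgebra
  TWChainGalois.instIsLocalHom TWChainGalois.instFinite TWChainGalois.instAddCommGroup
  TWChainGalois.instModule

/-- the submodule `𝔭_W • M0`: generated by the images of `tr0 σ - tr ρ_W(σ)` -/
noncomputable def wSubmodule (ρW : GaloisRepAdic 𝒪) (M0 : Type) [AddCommGroup M0] [Module 𝒪 M0]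
    (tr0 : GQ → Module.End 𝒪 M0) : Submodule 𝒪 M0 :=
  ⨆ σ : GQ, LinearMap.range (tr0 σ - algebraMap 𝒪 (Module.End 𝒪 M0) (ρW.trace σ))

end

end Fermat.Agent.ML
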