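/-
PROJECT ML (S59) — [LOC-L] at `p`, lead — INTERFACE FILE `ML/IFACE_lead_Peu`.

* `IsPeuRamifieeAt ρbar p` : `ρ̄` is PEU RAMIFIÉE at `p` (field theoretic form of Serre's definition,
  through the fixed embedding `ℚ̄ → ℚ̄_p`): every `y ∈ ℚ̄_p` which is fixed by the inertial kernel of
  `ρ̄` and whose `p`-th power is fixed by the inertia group has integral valuation.  Nobody has to
  prove or refute it from geometry: the LIFT assembly only does `by_cases`
  (`W` good at `p` → `flat` | `¬ Peu` → `strict` | `Peu` → `chain`).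
* `StrictOfTresStatement` (owner lead): an ordinary deformation (cyclotomic determinant) of a `ρ̄`
  which is not peu ramifiée is strictly ordinary.
-/
import Mathlib
import Fermat.Prelude.Def_GaloisRep_StrictOrdinary
import Fermat.Prelude.Def_GaloisRep_CompletionBridge
import Fermat.Agent.TW.UnrArith2_helper6

set_option autoImplicit false

open IsLocalRing

namespace Fermat.Agent.ML

/-! ### peu ramifiée -/

/-- **`ρ̄` is peu ramifiée at `p`** (Serre), field theoretic form.  `y` runs through the `p`-th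
roots of elements of the maximal unramified extension which lie in the field cut out by the
restriction of `ρ̄` to the inertia group. -/
def IsPeuRamifieeAt {k : Type} [Field k] (ρbar : ResidualGaloisRep k) (p : ℕ) [Fact p.Prime] :
    Prop :=
  ∀ y : PadicAlgCl p, y ≠ 0 →
    (∀ g ∈ TW.unrInertia p, g (y ^ p) = y ^ p) →
    (∀ g ∈ TW.unrInertia p, ρbar.ρ (localGaloisToGlobal p g) = 1 → g y = y) →
    ∃ m : ℤ, ‖y‖ = (p : ℝ) ^ m

/-- **[STRICT-OF-TRÈS]** (owner lead): if `ρ̄` is NOT peu ramifiée at `p`, every ordinary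
deformation with cyclotomic determinant is strictly ordinary (the valuation coordinate `c` of the
extension class is a unit and `(ψ(φ)² - 1) c = 0`). -/
def StrictOfTresStatement : Prop :=
  ∀ {𝒪 : Type} [CommRing 𝒪] [IsDomain 𝒪] [IsDiscreteValuationRing 𝒪]
    [IsAdicComplete (maximalIdeal 𝒪) 𝒪] [Finite (ResidueField 𝒪)]
    (p : ℕ) [Fact p.Prime] (_ : p ≠ 2) (_ : (p : 𝒪) ∈ maximalIdeal 𝒪)
    (ρbar : ResidualGaloisRep (ResidueField 𝒪)) (_ : ¬ IsPeuRamifieeAt ρbar p)
    (T : Type) [CommRing T] [IsLocalRing T] [IsNoetherianRing T]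
    [IsAdicComplete (maximalIdeal T) T] [Algebra 𝒪 T] [IsLocalHom (algebraMap 𝒪 T)]
    [Module.Finite 𝒪 T]
    (_ : Function.Surjective (IsLocalRing.residue T ∘ algebraMap 𝒪 T))
    (ρ : GaloisRepAdic T)
    (_ : ρ.residual.IsEquiv
      (ρbar.baseChangeAlong (IsLocalRing.ResidueField.map (algebraMap 𝒪 T))))
    (_ : ρ.DetIsCyclotomic p) (_ : ρ.IsOrdinaryAt p),
    ρ.IsStrictOrdinaryAt p

end Fermat.Agent.ML
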