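/-
PROJECT ML (S59) — ARCHITECT (helper9) — INTERFACE FILE ML3b: the contract between the local models
([LOC-L]: lead, helper3, helper4), the Selmer computation ([SEL-L]: helper4) and the glue
([GLUE-L]: helper9).

* `ChainKind` and its numerology `hh` (`ns`: `q ≠ p`, non-scalar Frobenius, `h⁰ = 1`;
  `sc`: scalar Frobenius, `h⁰ = 3`; `pns`: at `p`, non-split, `1 + h⁰ = 1`; `psp`: at `p`, split,
  `1 + h⁰ = 2`), `ChainKind.Holds`.
* `IsLocTrivIdeal ρ c I`: modulo every ideal `J ⊇ I + 𝔪² + (λ)` the restriction of `ρ` to a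
  decomposition group at `c` is constant in a suitable basis (so a first order deformation
  `T → k[ε]` killing `I` is locally trivial at `c`).
* `chainEval c y : CPS → T`: the evaluation at local coordinates `c` and global coordinates `y`.
* `ChainChartStatement` ([LOC-L]): the chain model `D` (with `D.Good lam r` whenever
  `r = g + ∑ hh`, and `D.Start lam r` when the chain starts at `p`) and, for every deformation of
  chain type, local coordinates such that
  (E1) `rel j` is killed; (E2) `unr j` lands in the inertia ideal (only for `cq j ≠ p`: nothing is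
  asked at `p`, lead 2335 (R-c)); (E3) `new j` lands in the ideal of the Steinberg trace relations (at `p`: in
  every ideal modulo which `ρ` is strictly ordinary); (E4) `st j` is killed at the point of `W`;
  (E5) `th j` is the level raising element up to a unit; (E6) the coordinates at `cq j`
  trivialise `ρ` locally at `cq j`.
* `SelLStatement` ([SEL-L]): `∃ g r`, `r = g + ∑ hh`, and Taylor–Wiles sets `Q_n` such that the
  maximal ideal of every trace-generated deformation of chain type is generated by `λ`, by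
  locally trivialising ideals at the chain primes and by `g` further elements.
-/
import Mathlib
import Fermat.Agent.ML.IFACE_helper9_Local
import Fermat.Agent.ML.IFACE_helper9_TW
import Fermat.Agent.ML.IFACE_lead_Peu
import Fermat.Agent.TW.PSLift_helper6

set_option autoImplicit false

open Polynomial IsLocalRing

namespace Fermat.Agent.ML

local notation "GQ" => (AlgebraicClosure ℚ ≃ₐ[ℚ] AlgebraicClosure ℚ)

/-- the residual kinds of the chain primes -/
inductive ChainKind : Type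
  | ns
  | sc
  | pns
  | psp
  deriving DecidableEq

/-- the relative dimension of the components of the local model (`h⁰`, resp. `1 + h⁰` at `p`) -/
def ChainKind.hh : ChainKind → ℕ
  | ChainKind.ns => 1
  | ChainKind.sc => 3
  | ChainKind.pns => 1
  | ChainKind.psp => 2

/-- the residual representation has the kind `K` at the prime `q` -/
def ChainKind.Holds {k : Type} [Field k] (ρbar : ResidualGaloisRep k) (p q : ℕ) :
    ChainKind → Prop
  | ChainKind.ns => q ≠ p ∧ ρbar.IsUnramifiedAt q ∧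
      ∀ A : ValuationSubring (AlgebraicClosure ℚ), A.LiesOverPrime q →
        ∀ φ : GQ, A.IsFrobeniusAt φ q → ¬ ∃ c : k, ρbar.ρ φ = c • (1 : Module.End k ρbar.V)
  | ChainKind.sc => q ≠ p ∧ RB.ResFrobScalarAt ρbar p q
  | ChainKind.pns => q = p ∧
      ∀ A : ValuationSubring (AlgebraicClosure ℚ), A.LiesOverPrime p →
        ¬ ∃ L₁ L₂ : Submodule k ρbar.V, IsCompl L₁ L₂ ∧ L₁ ≠ ⊥ ∧ L₂ ≠ ⊥ ∧
          ∀ σ ∈ A.decompositionSubgroup ℚ, (∀ v ∈ L₁, ρbar.ρ σ v ∈ L₁) ∧ ∀ v ∈ L₂, ρbar.ρ σ v ∈ L₂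
  | ChainKind.psp => q = p ∧
      ∀ A : ValuationSubring (AlgebraicClosure ℚ), A.LiesOverPrime p →
        ∃ L₁ L₂ : Submodule k ρbar.V, IsCompl L₁ L₂ ∧ L₁ ≠ ⊥ ∧ L₂ ≠ ⊥ ∧
          ∀ σ ∈ A.decompositionSubgroup ℚ, (∀ v ∈ L₁, ρbar.ρ σ v ∈ L₁) ∧ ∀ v ∈ L₂, ρbar.ρ σ v ∈ L₂

section

variable {𝒪 : Type} [CommRing 𝒪] [IsDomain 𝒪] [IsDiscreteValuationRing 𝒪]
  [IsAdicComplete (maximalIdeal 𝒪) 𝒪]
  {T : Type} [CommRing T] [IsLocalRing T] [Algebra 𝒪 T]

/-- **`I` trivialises `ρ` locally at `c`** -/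
def IsLocTrivIdeal (𝒪 : Type) [CommRing 𝒪] [IsLocalRing 𝒪] {T : Type} [CommRing T] [IsLocalRing T]
    [Algebra 𝒪 T] (ρ : GaloisRepAdic T) (c : ℕ) (I : Ideal T) : Prop :=
  ∀ J : Ideal T, I ≤ J → maximalIdeal T ^ 2 ≤ J → (maximalIdeal 𝒪).map (algebraMap 𝒪 T) ≤ J →
    ∀ P : ValuationSubring (AlgebraicClosure ℚ), P.LiesOverPrime c →
      ∃ β : Module.Basis (Fin 2) T ρ.V, ∀ σ ∈ P.decompositionSubgroup ℚ, ∀ i j : Fin 2,
        ∃ a : 𝒪, LinearMap.toMatrix β β (ρ.ρ σ) i j - algebraMap 𝒪 T a ∈ J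

/-- the evaluation `CPS → T` at local coordinates `c` and global coordinates `y` -/
noncomputable def chainEval [IsAdicComplete (maximalIdeal T) T] {m : ℕ} {nv : Fin m → ℕ} {g : ℕ}
    (c : (Σ j : Fin m, Fin (nv j)) → T) (hc : ∀ a, c a ∈ maximalIdeal T)
    (y : Fin g → T) (hy : ∀ i, y i ∈ maximalIdeal T) : CPS 𝒪 m nv g →ₐ[𝒪] T :=
  TW.psLift (maximalIdeal T) (Sum.elim c y) (fun a => by
    cases a with
    | inl a => exact hc a
    | inr i => exact hy i)

end

/-- `ρ̄` is unramified at `ℓ` and there is no level raising at `ℓ`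
(`tr ρ̄(Frob_ℓ)² ≠ (ℓ + 1)²`): every deformation is unramified at `ℓ` (the auxiliary primes). -/
def NoLevelRaisingAt {k : Type} [Field k] (ρbar : ResidualGaloisRep k) (ℓ : ℕ) : Prop :=
  ρbar.IsUnramifiedAt ℓ ∧
    ∀ A : ValuationSubring (AlgebraicClosure ℚ), A.LiesOverPrime ℓ →
      ∀ φ : GQ, A.IsFrobeniusAt φ ℓ →
        LinearMap.trace k ρbar.V (ρbar.ρ φ) ^ 2 ≠ ((ℓ : k) + 1) ^ 2

/-- the residual hypotheses on the chain: kinds, level raising congruences -/
structure IsResChain {𝒪 : Type} [CommRing 𝒪] [IsLocalRing 𝒪]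
    (ρbar : ResidualGaloisRep (ResidueField 𝒪)) (p : ℕ) (pc : PCase)
    {m : ℕ} (cq : Fin m → ℕ) (sgn : Fin m → 𝒪) (K : Fin m → ChainKind) : Prop where
  injective : Function.Injective cq
  prime : ∀ j, (cq j).Prime
  kind : ∀ j, (K j).Holds ρbar p (cq j)
  sgn_sq : ∀ j, sgn j ^ 2 = 1
  eq_p_iff : (∃ j, cq j = p) ↔ pc = PCase.chain
  eq_p_zero : ∀ j : Fin m, cq j = p → j.val = 0
  /-- the level raising congruence at the chain primes `≠ p` -/
  charpoly_frob : ∀ j, cq j ≠ p →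
    ∀ A : ValuationSubring (AlgebraicClosure ℚ), A.LiesOverPrime (cq j) →
      ∀ φ : GQ, A.IsFrobeniusAt φ (cq j) →
        LinearMap.charpoly (ρbar.ρ φ) =
          (X - C (residue 𝒪 (sgn j))) * (X - C (residue 𝒪 (sgn j) * ((cq j : ℕ) : ResidueField 𝒪)))
  /-- the residual shape at `p` in the chain case (lead 2335 (R-b)): a line stable under the
  decomposition group, with trivial inertia on the quotient, on which Frobenius lifts act by the
  sign.  (That `ρ̄` is peu ramifiée is a separate hypothesis of the chart at `p`: lead's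
  `ML/IFACE_lead_Kinds`.) -/
  ord_p : ∀ j, cq j = p →
    ∀ A : ValuationSubring (AlgebraicClosure ℚ), A.LiesOverPrime p →
      ∃ Lbar : Submodule (ResidueField 𝒪) ρbar.V,
        (∃ v : ρbar.V, v ≠ 0 ∧ Lbar = Submodule.span (ResidueField 𝒪) {v}) ∧
        (∀ σ ∈ A.decompositionSubgroup ℚ, ∀ v ∈ Lbar, ρbar.ρ σ v ∈ Lbar) ∧
        (∀ σ ∈ A.inertiaSubgroupIn ℚ, ∀ v : ρbar.V, ρbar.ρ σ v - v ∈ Lbar) ∧
        ∀ φ : GQ, A.IsFrobeniusAt φ p → ∀ v : ρbar.V, ρbar.ρ φ v - residue 𝒪 (sgn j) • v ∈ Lbar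

/-- the representation of `W` has the Steinberg type of sign `sgn j` at the chain primes `≠ p`
(as in `RhoWData.frob_bad`) and is strictly ordinary at `p` if `p` is a chain prime -/
structure IsWPoint {𝒪 : Type} [CommRing 𝒪] [IsLocalRing 𝒪] (ρW : GaloisRepAdic 𝒪) (p : ℕ)
    (pc : PCase) {m : ℕ} (cq : Fin m → ℕ) (sgn : Fin m → 𝒪) : Prop where
  unipotent : ∀ j, cq j ≠ p → ρW.IsUnipotentOnInertiaAt (cq j)
  frob : ∀ j, cq j ≠ p →
    ∀ A : ValuationSubring (AlgebraicClosure ℚ), A.LiesOverPrime (cq j) →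
      ∀ φ : GQ, A.IsFrobeniusAt φ (cq j) →
        LinearMap.charpoly (ρW.ρ φ) = (X - C (sgn j)) * (X - C (sgn j * ((cq j : ℕ) : 𝒪)))
  strict : pc = PCase.chain → ρW.IsStrictOrdinaryAt p

/-- **[LOC-L]** (owners: lead — monomial models, the model at `p`, products; helper3 — the
three-variable model; helper4 — the scalar model): the chain model and its charts.
[(R-e), 30 Nov: `[CharZero 𝒪]` (helper7 2352: the model constants `κ` must be `≠ 0`) and the
hypothesis `pc = PCase.chain → IsPeuRamifieeAt ρbar p` (lead 2357) added.] -/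
def ChainChartStatement : Prop :=
  ∀ {𝒪 : Type} [CommRing 𝒪] [IsDomain 𝒪] [IsDiscreteValuationRing 𝒪]
    [IsAdicComplete (maximalIdeal 𝒪) 𝒪] [Finite (ResidueField 𝒪)] [CharZero 𝒪]
    (p : ℕ) [Fact p.Prime] (_ : p ≠ 2) (_ : (p : 𝒪) ∈ maximalIdeal 𝒪)
    (lam : 𝒪) (_ : Irreducible lam)
    (ρbar : ResidualGaloisRep (ResidueField 𝒪)) (_ : ρbar.IsAbsolutelyIrreducible)
    (S : Finset ℕ) (pc : PCase) {m : ℕ} (cq : Fin m → ℕ) (sgn : Fin m → 𝒪) (K : Fin m → ChainKind)
    (_ : IsResChain ρbar p pc cq sgn K) (_ : ∀ j, cq j ≠ p → cq j ∉ S)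
    -- (R-e), lead 2357/2358: in the chain case `ρ̄` is peu ramifiée at `p`
    (_ : pc = PCase.chain → IsPeuRamifieeAt ρbar p),
    ∃ nv : Fin m → ℕ, ∀ (g r : ℕ), r = g + ∑ j, (K j).hh →
      ∃ D : ChainModel 𝒪 m nv g, D.Good lam r ∧ (pc = PCase.chain → D.Start lam r) ∧
      ∀ (T : Type) [CommRing T] [IsLocalRing T] [IsNoetherianRing T]
        [IsAdicComplete (maximalIdeal T) T] [Algebra 𝒪 T] [IsLocalHom (algebraMap 𝒪 T)]
        [Module.Finite 𝒪 T]
        (_ : Function.Surjective (IsLocalRing.residue T ∘ algebraMap 𝒪 T))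
        (_ : ∀ a : 𝒪, a ≠ 0 → ∀ t : T, a • t = 0 → t = 0)
        (ρ : GaloisRepAdic T)
        (_ : ρ.residual.IsEquiv
          (ρbar.baseChangeAlong (IsLocalRing.ResidueField.map (algebraMap 𝒪 T))))
        (Qs : Finset ℕ) (_ : ∀ j, cq j ∉ Qs)
        (_ : chainCondition 𝒪 p S (Finset.univ.image cq) Qs pc ρ),
        ∃ (c : (Σ j : Fin m, Fin (nv j)) → T) (hc : ∀ a, c a ∈ maximalIdeal T),
          -- (E6)
          (∀ j, IsLocTrivIdeal 𝒪 ρ (cq j) (Ideal.span (Set.range fun a : Fin (nv j) => c ⟨j, a⟩))) ∧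
          ∀ (y : Fin g → T) (hy : ∀ i, y i ∈ maximalIdeal T),
            -- (E1)
            (∀ j, ∀ f ∈ D.rel j, chainEval c hc y hy f = 0) ∧
            -- (E2)
            (∀ j, cq j ≠ p → ∀ f ∈ D.unr j, chainEval c hc y hy f ∈ RB.inertiaIdeal ρ (cq j)) ∧
            -- (E3)
            (∀ j, cq j ≠ p → ∀ f ∈ D.new j, chainEval c hc y hy f ∈
              Ideal.span {a : T | ∃ (P : ValuationSubring (AlgebraicClosure ℚ))
                (_ : P.LiesOverPrime (cq j)) (φ : GQ) (_ : P.IsFrobeniusAt φ (cq j)),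
                a = ρ.trace φ ^ 2 - (((cq j : ℕ) : T) + 1) ^ 2}) ∧
            (∀ j, cq j = p → ∀ I : Ideal T,
              (∀ (B : Type) [CommRing B] [IsLocalRing B] (π : T →+* B) (hπ : IsLocalHom π),
                Function.Surjective π → I ≤ RingHom.ker π →
                  (ρ.baseChangeAlong π hπ).IsStrictOrdinaryAt p) →
              ∀ f ∈ D.new j, chainEval c hc y hy f ∈ I) ∧
            -- (E4)
            (∀ (ρW : GaloisRepAdic 𝒪) (_ : IsWPoint ρW p pc cq sgn) (π : T →ₐ[𝒪] 𝒪),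
              (∀ σ : GQ, π (ρ.trace σ) = ρW.trace σ) →
              ∀ j, ∀ f ∈ D.st j, π (chainEval c hc y hy f) = 0) ∧
            -- (E5)
            (∀ j, cq j ≠ p →
              ∀ (P : ValuationSubring (AlgebraicClosure ℚ)), P.LiesOverPrime (cq j) →
              ∀ φ : GQ, P.IsFrobeniusAt φ (cq j) → ∃ u : T, IsUnit u ∧
                chainEval c hc y hy (D.th j) -
                  u * (((cq j : ℕ) : T) + 1 - algebraMap 𝒪 T (sgn j) * ρ.trace φ) ∈
                    RB.inertiaIdeal ρ (cq j)) ∧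
            (∀ j, cq j = p → ∀ Up : T,
              (∀ (P : ValuationSubring (AlgebraicClosure ℚ)), P.LiesOverPrime p →
                ∀ φ : GQ, P.IsFrobeniusAt φ p → ∃ L : Submodule T ρ.V,
                  (∃ b : Module.Basis (Fin 2) T ρ.V, L = T ∙ b 0) ∧
                  (∀ σ ∈ P.decompositionSubgroup ℚ, ∀ v ∈ L, ρ.ρ σ v ∈ L) ∧
                  (∀ σ ∈ P.inertiaSubgroupIn ℚ, ∀ v : ρ.V, ρ.ρ σ v - v ∈ L) ∧
                  ∀ v : ρ.V, ρ.ρ φ v - Up • v ∈ L) →
              ∃ u : T, IsUnit u ∧ chainEval c hc y hy (D.th j) = u * (Up ^ 2 - 1))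

/-- **[SEL-L]** (owner helper4): the Selmer computation for the chain condition.
Amended (helper4 2376, lead 2380): (A1) the ideals `I j` lie in the maximal ideal; (A2) at the
unramified primes of `S` also `ℓ ≢ 1 mod p` (otherwise a tamely ramified first order deformation
with unipotent characteristic polynomial exists over non-reduced test rings). -/
def SelLStatement : Prop :=
  ∀ {𝒪 : Type} [CommRing 𝒪] [IsDomain 𝒪] [IsDiscreteValuationRing 𝒪]
    [IsAdicComplete (maximalIdeal 𝒪) 𝒪] [Finite (ResidueField 𝒪)]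
    (p : ℕ) [Fact p.Prime] (_ : p ≠ 2) (_ : (p : 𝒪) ∈ maximalIdeal 𝒪)
    (ρbar : ResidualGaloisRep (ResidueField 𝒪))
    (_ : ρbar.IsAbsolutelyIrreducible)
    (_ : (GaloisRepAdic.ofResidualGaloisRep ρbar).DetIsCyclotomic p)
    (_ : ∀ σ : GQ, ∃ α β : ResidueField 𝒪,
      LinearMap.charpoly (ρbar.ρ σ) = (X - C α) * (X - C β))
    (_ : ∀ (K : Type) [Field K] [Algebra (ResidueField 𝒪) K] (G : Subgroup GQ), G.index = 2 →
      ∀ V : Submodule K (ρbar.baseChange K).V,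
        (∀ σ ∈ G, ∀ x ∈ V, (ρbar.baseChange K).ρ σ x ∈ V) → V = ⊥ ∨ V = ⊤)
    (S : Finset ℕ) (_ : p ∈ S) (_ : ∀ q ∈ S, q.Prime)
    (pc : PCase) {m : ℕ} (cq : Fin m → ℕ) (sgn : Fin m → 𝒪) (K : Fin m → ChainKind)
    (_ : IsResChain ρbar p pc cq sgn K) (_ : ∀ j, cq j ≠ p → cq j ∉ S)
    (_ : ∀ ℓ ∈ S, ℓ ≠ p → ¬ ρbar.IsUnramifiedAt ℓ ∨
      (NoLevelRaisingAt ρbar ℓ ∧ ((ℓ : ℕ) : ResidueField 𝒪) ≠ 1))
    (_ : ∀ ℓ : ℕ, ℓ.Prime → ℓ ∉ S → ρbar.IsUnramifiedAt ℓ),
    ∃ g r : ℕ, r = g + ∑ j, (K j).hh ∧ ∀ n : ℕ, ∃ Q : Fin r → ℕ,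
      RB.IsTWSet ρbar p (S ∪ Finset.univ.image cq) n Q ∧
      ∀ (T : Type) [CommRing T] [IsLocalRing T] [IsNoetherianRing T]
        [IsAdicComplete (maximalIdeal T) T] [Algebra 𝒪 T] [IsLocalHom (algebraMap 𝒪 T)]
        [Module.Finite 𝒪 T]
        (_ : Function.Surjective (IsLocalRing.residue T ∘ algebraMap 𝒪 T))
        (ρ : GaloisRepAdic T)
        (_ : ρ.residual.IsEquiv
          (ρbar.baseChangeAlong (IsLocalRing.ResidueField.map (algebraMap 𝒪 T))))
        (_ : chainCondition 𝒪 p S (Finset.univ.image cq) (Finset.univ.image Q) pc ρ)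
        (_ : Algebra.adjoin 𝒪 (Set.range ρ.trace) = ⊤)
        (I : Fin m → Ideal T) (_ : ∀ j, I j ≤ maximalIdeal T)
        (_ : ∀ j, IsLocTrivIdeal 𝒪 ρ (cq j) (I j)),
        ∃ y : Fin g → T, (∀ i, y i ∈ maximalIdeal T) ∧
          maximalIdeal T = (maximalIdeal 𝒪).map (algebraMap 𝒪 T) ⊔ (⨆ j, I j) ⊔
            Ideal.span (Set.range y)

end Fermat.Agent.ML
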