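/-
ML (S59) — helper7 — **[LOC-L] the chart at a chain prime of kind `ns`** (PROPOSED literal, to be
replaced by / identified with lead's `NsChartStatement` of `ML/IFACE_lead_Kinds.lean`).

`q ≠ p` a chain prime, `ρ̄` unramified at `q`, `ρ̄(Frob_q)` non-scalar with characteristic polynomial
`(X - s)(X - s q)`.  For every deformation `ρ` over `T` with cyclotomic determinant and unipotent
inertia at `q` there are coordinates `(t, y, z) ∈ 𝔪_T³` satisfying the clauses (E1)–(E6) of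
`ChainChartStatement` for lead's monomial model (`ML/LOC_lead_Mono.lean`) with the constant `κ`:
  rel = (T Y, (T + κ) Z, Y Z), unr = (Y, Z), new = rel + (T (T + κ)), st = (T, Z), th = T.
Sub-types: (ii) `q ≢ ±1`, (iv) `q ≡ -1`: eigenbasis of a Frobenius lift, `ρ(φ₀) = diag(α, β)`,
`t = β/α - q`, `ρ(τ₀) - 1 = [[0, z],[y, 0]]`, `κ = (q² - 1)/q`;  (iii-ns) `q ≡ 1`: cyclic basis
`(e, φ₀ e)`, `t = tr ρ(φ₀) - s (1 + q)`, `y` = the `(0,1)` entry of `ρ(τ₀) - 1`, `z = 0`,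
`κ = 2 s (1 + q)`.

REMARK: `CharZero 𝒪` is needed (`κ ≠ 0` at type (iv); `(1 - q) t y = 0 ⇒ t y = 0` at type (iii-ns)).
-/
import Mathlib
import Fermat.Agent.ML.IFACE_helper9_Chart

set_option autoImplicit false

open Polynomial IsLocalRing

namespace Fermat.Agent.ML

local notation "GQ" => (AlgebraicClosure ℚ ≃ₐ[ℚ] AlgebraicClosure ℚ)

/-- **the chart at an `ns` prime.** -/
def NsChartStatement7 : Prop :=
  ∀ {𝒪 : Type} [CommRing 𝒪] [IsDomain 𝒪] [IsDiscreteValuationRing 𝒪]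
    [IsAdicComplete (maximalIdeal 𝒪) 𝒪] [Finite (ResidueField 𝒪)] [CharZero 𝒪]
    (p : ℕ) [Fact p.Prime] (_ : p ≠ 2) (_ : (p : 𝒪) ∈ maximalIdeal 𝒪)
    (ρbar : ResidualGaloisRep (ResidueField 𝒪))
    (q : ℕ) (_ : q.Prime) (s : 𝒪) (_ : s ^ 2 = 1)
    (_ : ChainKind.ns.Holds ρbar p q)
    (_ : ∀ A : ValuationSubring (AlgebraicClosure ℚ), A.LiesOverPrime q →
      ∀ φ : GQ, A.IsFrobeniusAt φ q →
        LinearMap.charpoly (ρbar.ρ φ) =
          (X - C (residue 𝒪 s)) * (X - C (residue 𝒪 s * ((q : ℕ) : ResidueField 𝒪)))),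
    ∃ κ : 𝒪, κ ≠ 0 ∧
      ∀ (T : Type) [CommRing T] [IsLocalRing T] [IsNoetherianRing T]
        [IsAdicComplete (maximalIdeal T) T] [Algebra 𝒪 T] [IsLocalHom (algebraMap 𝒪 T)]
        [Module.Finite 𝒪 T]
        (_ : Function.Surjective (IsLocalRing.residue T ∘ algebraMap 𝒪 T))
        (_ : ∀ a : 𝒪, a ≠ 0 → ∀ t : T, a • t = 0 → t = 0)
        (ρ : GaloisRepAdic T)
        (_ : ρ.residual.IsEquiv
          (ρbar.baseChangeAlong (IsLocalRing.ResidueField.map (algebraMap 𝒪 T))))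
        (_ : ρ.DetIsCyclotomic p) (_ : ρ.IsUnipotentOnInertiaAt q),
        ∃ t y z : T, t ∈ maximalIdeal T ∧ y ∈ maximalIdeal T ∧ z ∈ maximalIdeal T ∧
          -- (E6)
          IsLocTrivIdeal 𝒪 ρ q (Ideal.span {t, y, z}) ∧
          -- (E1)
          t * y = 0 ∧ (t + algebraMap 𝒪 T κ) * z = 0 ∧ y * z = 0 ∧
          -- (E2)
          y ∈ RB.inertiaIdeal ρ q ∧ z ∈ RB.inertiaIdeal ρ q ∧
          -- (E3)
          t * (t + algebraMap 𝒪 T κ) ∈
            Ideal.span {a : T | ∃ (P : ValuationSubring (AlgebraicClosure ℚ))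
              (_ : P.LiesOverPrime q) (φ : GQ) (_ : P.IsFrobeniusAt φ q),
              a = ρ.trace φ ^ 2 - (((q : ℕ) : T) + 1) ^ 2} ∧
          -- (E4)
          (∀ (ρW : GaloisRepAdic 𝒪),
            (∀ A : ValuationSubring (AlgebraicClosure ℚ), A.LiesOverPrime q →
              ∀ φ : GQ, A.IsFrobeniusAt φ q →
                LinearMap.charpoly (ρW.ρ φ) = (X - C s) * (X - C (s * ((q : ℕ) : 𝒪)))) →
            ∀ π : T →ₐ[𝒪] 𝒪, (∀ σ : GQ, π (ρ.trace σ) = ρW.trace σ) → π t = 0 ∧ π z = 0) ∧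
          -- (E5)
          (∀ (P : ValuationSubring (AlgebraicClosure ℚ)), P.LiesOverPrime q →
            ∀ φ : GQ, P.IsFrobeniusAt φ q → ∃ u : T, IsUnit u ∧
              t - u * (((q : ℕ) : T) + 1 - algebraMap 𝒪 T s * ρ.trace φ) ∈ RB.inertiaIdeal ρ q)

end Fermat.Agent.ML
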