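/-
ML (S59) — helper7 — [LOC-L] `ns` charts, file 2: **common local facts** for a deformation `ρ` over a
noetherian local ring `T` at a prime `q ≠ p`, in the matrix form `matRep ρ b`.

* `matCont_matRep` : adic continuity of `matRep ρ b`;
* `matRep_sub_one_mem_inertiaIdeal` : the entries of `ρ(τ) - 1`, `τ` in an inertia group over `q`,
  lie in `RB.inertiaIdeal ρ q`;
* `trace_sub_trace_mem_inertiaIdeal` : the traces of all Frobenius elements at all places over `q`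
  agree modulo the inertia ideal;
* `exists_gen_mod_sq` : one element of `I_P` generates the image of `I_P` modulo `𝔪²`;
* `exists_const_of_mem_decomposition` : if modulo `J ⊇ 𝔪²` inertia acts trivially and a Frobenius by
  a constant matrix, the whole decomposition group acts by constant matrices modulo `J`;
* `isLocTrivIdeal_of_place` : it suffices to trivialise at ONE place over `q`.
-/
import Mathlib
import Fermat.Agent.RB.GLUE_helper9_Local
import Fermat.Agent.RB.GLUE_helper9_Residual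
import Fermat.Agent.RB.GLUE_helper9_Frob
import Fermat.Agent.RB.GLUE_helper9_Mat
import Fermat.Agent.RB.REPT_helper1_MatRep
import Fermat.Agent.ML.IFACE_helper7_NsChart

set_option autoImplicit false
set_option linter.unusedSectionVars false
set_option linter.unusedVariables false

open Polynomial IsLocalRing
open scoped Pointwise

namespace Fermat.Agent.ML

open Fermat.Agent.RB Fermat.Agent.RB.GLUE Fermat.Agent.RB.REPT Fermat.Agent.S53

local notation "Ω" => AlgebraicClosure ℚ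
local notation "GQ" => (AlgebraicClosure ℚ ≃ₐ[ℚ] AlgebraicClosure ℚ)

section Basic

variable {T : Type} [CommRing T] [IsLocalRing T] (ρ : GaloisRepAdic T)
  (b : Module.Basis (Fin 2) T ρ.V)

/-- adic continuity of the matrix form -/
theorem matCont_matRep : MatCont (matRep ρ b) := by
  intro n
  obtain ⟨L, hL, h⟩ := ρ.isAdicContinuous n
  exact ⟨L, hL, fun σ hσ i j => matRep_sub_one_apply_mem ρ b (h σ hσ) i j⟩

/-- the entries of `ρ(τ) - 1` lie in the inertia ideal -/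
theorem matRep_sub_one_mem_inertiaIdeal {q : ℕ} {P : ValuationSubring Ω} (hP : P.LiesOverPrime q)
    {τ : GQ} (hτ : τ ∈ P.inertiaSubgroupIn ℚ) : EMem (RB.inertiaIdeal ρ q) (matRep ρ b τ - 1) := by
  intro i j
  refine Ideal.subset_span ⟨P, hP, τ, hτ, b j, b.coord i, ?_⟩
  rw [Matrix.sub_apply, matRep_apply, LinearMap.toMatrix_apply, map_sub, Module.Basis.coord_apply,
    Module.Basis.coord_apply, Module.Basis.repr_self, Finsupp.single_apply, Matrix.one_apply]
  by_cases hij : i = j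
  · rw [if_pos hij, if_pos hij.symm]
  · rw [if_neg hij, if_neg (Ne.symm hij)]

end Basic

section Frob

variable {T : Type} [CommRing T] [IsLocalRing T] (ρ : GaloisRepAdic T)

/-- two Frobenius elements at the same place differ by an element of the inertia group -/
theorem inv_mul_mem_inertia_of_isFrobeniusAt {A : ValuationSubring Ω} {φ φ' : GQ} {q : ℕ}
    (hφ : A.IsFrobeniusAt φ q) (hφ' : A.IsFrobeniusAt φ' q) :
    φ'⁻¹ * φ ∈ A.inertiaSubgroupIn ℚ := by
  obtain ⟨hφD, hφx⟩ := hφ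
  obtain ⟨hφD', hφx'⟩ := hφ'
  obtain ⟨f, hf⟩ : ∃ f : A.decompositionSubgroup ℚ, f = ⟨φ, hφD⟩ := ⟨_, rfl⟩
  obtain ⟨f', hf'⟩ : ∃ f' : A.decompositionSubgroup ℚ, f' = ⟨φ', hφD'⟩ := ⟨_, rfl⟩
  rw [← hf] at hφx
  rw [← hf'] at hφx'
  have h1 : MulSemiringAction.toRingAut (A.decompositionSubgroup ℚ) (IsLocalRing.ResidueField A)
      f = MulSemiringAction.toRingAut (A.decompositionSubgroup ℚ)
        (IsLocalRing.ResidueField A) f' := RingEquiv.ext fun x => by
    show f • x = f' • x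
    rw [hφx, hφx']
  have hker : f'⁻¹ * f ∈ A.inertiaSubgroup ℚ := by
    change MulSemiringAction.toRingAut (A.decompositionSubgroup ℚ) (IsLocalRing.ResidueField A)
      (f'⁻¹ * f) = 1
    rw [map_mul, map_inv, h1, inv_mul_cancel]
  refine ⟨f'⁻¹ * f, hker, ?_⟩
  rw [hf, hf']
  rfl

/-- **the traces of all Frobenius elements at all places over `q` agree modulo the inertia
ideal** -/
theorem trace_sub_trace_mem_inertiaIdeal {q : ℕ} (hq : q.Prime) {P P' : ValuationSubring Ω}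
    (hP : P.LiesOverPrime q) (hP' : P'.LiesOverPrime q) {φ φ' : GQ}
    (hφ : P.IsFrobeniusAt φ q) (hφ' : P'.IsFrobeniusAt φ' q) :
    ρ.trace φ - ρ.trace φ' ∈ RB.inertiaIdeal ρ q := by
  set b := someBasis ρ with hb
  obtain ⟨g, hg⟩ := Fermat.Agent.EC.exists_smul_eq_of_liesOverPrime hq hP hP'
  have h1 := Fermat.Agent.RB.SEL.isFrobeniusAt_conj g hφ
  rw [← hg] at h1
  -- `ψ = g φ g⁻¹` is a Frobenius at `P'` with the same trace
  set ψ := g * φ * g⁻¹ with hψ
  have htr : ρ.trace ψ = ρ.trace φ := by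
    rw [GaloisRepAdic.trace, GaloisRepAdic.trace, ← trace_matRep ρ b, ← trace_matRep ρ b, hψ,
      map_mul, map_mul, Matrix.trace_mul_comm, ← mul_assoc, ← map_mul, inv_mul_cancel, map_one,
      one_mul]
  have hτ := inv_mul_mem_inertia_of_isFrobeniusAt h1 hφ'
  set τ := φ'⁻¹ * ψ with hτdef
  have hψτ : ψ = φ' * τ := by rw [hτdef, mul_inv_cancel_left]
  have hN := matRep_sub_one_mem_inertiaIdeal ρ b hP' hτ
  rw [← htr, GaloisRepAdic.trace, GaloisRepAdic.trace, ← trace_matRep ρ b, ← trace_matRep ρ b,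
    hψτ, map_mul]
  have e : (matRep ρ b φ' * matRep ρ b τ).trace - (matRep ρ b φ').trace =
      (matRep ρ b φ' * (matRep ρ b τ - 1)).trace := by
    rw [mul_sub, mul_one, Matrix.trace_sub]
  rw [e, Matrix.trace_fin_two]
  have h2 := hN.mul_left (matRep ρ b φ')
  exact Ideal.add_mem _ (h2 0 0) (h2 1 1)

end Frob

section Local

variable {T : Type} [CommRing T] [IsLocalRing T] [IsNoetherianRing T] (ρ : GaloisRepAdic T)
  (b : Module.Basis (Fin 2) T ρ.V)
  {p q : ℕ} (hp : p.Prime) (hq : q.Prime) (hqp : q ≠ p) (hpT : (p : T) ∈ maximalIdeal T)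
  {P : ValuationSubring Ω} (hP : P.LiesOverPrime q)
  (hres : ∀ σ ∈ P.inertiaSubgroupIn ℚ, EMem (maximalIdeal T) (matRep ρ b σ - 1))

include hp hq hqp hpT hP hres in
/-- **a generator of the image of inertia modulo `𝔪²`** -/
theorem exists_gen_mod_sq :
    ∃ τ₀ ∈ P.inertiaSubgroupIn ℚ, ∀ τ ∈ P.inertiaSubgroupIn ℚ, ∃ a : ℕ,
      EMem (maximalIdeal T ^ 2) (matRep ρ b τ - matRep ρ b τ₀ ^ a) := by
  have hr := matCont_matRep ρ b
  obtain ⟨F, hFfd, hFn, hF⟩ := exists_level (matRep ρ b) hr (maximalIdeal T ^ 2) 2 le_rfl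
  have := hFfd
  have := hFn
  obtain ⟨τ₀, hτ₀, hgen⟩ := Fermat.Agent.TW.exists_generator_of_inertia hq hP
    (rmod (matRep ρ b) (maximalIdeal T ^ 2)) F hF
    (exists_coprime_pow (matRep ρ b) hp hq hqp hpT hres (maximalIdeal T ^ 2) 2 le_rfl)
  refine ⟨τ₀, hτ₀, fun τ hτ => ?_⟩
  obtain ⟨a, ha⟩ := hgen τ hτ
  exact ⟨a, (rmod_eq_iff (matRep ρ b) _ _ _ _).1 ha⟩

include hq hP in
/-- **the decomposition group modulo `J ⊇ 𝔪²`**: if inertia acts trivially and a Frobenius by a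
constant matrix modulo `J`, every element of the decomposition group acts by a constant matrix. -/
theorem exists_const_of_mem_decomposition {𝒪 : Type} [CommRing 𝒪] [Algebra 𝒪 T] (J : Ideal T)
    (hJ : maximalIdeal T ^ 2 ≤ J)
    (hI : ∀ τ ∈ P.inertiaSubgroupIn ℚ, EMem J (matRep ρ b τ - 1))
    {φ₀ : GQ} (hφ₀ : P.IsFrobeniusAt φ₀ q) (C₀ : M2 𝒪)
    (hC₀ : EMem J (matRep ρ b φ₀ - C₀.map (algebraMap 𝒪 T)))
    {σ : GQ} (hσ : σ ∈ P.decompositionSubgroup ℚ) (i j : Fin 2) :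
    ∃ a : 𝒪, matRep ρ b σ i j - algebraMap 𝒪 T a ∈ J := by
  set r := matRep ρ b with hr
  set rB := rmod r J with hrB
  set u : GQ →* (M2 (T ⧸ J))ˣ := rB.toHomUnits with hu
  have hu_val : ∀ s : GQ, ((u s : (M2 (T ⧸ J))ˣ) : M2 (T ⧸ J)) = rB s := fun s => rfl
  have hfac : GaloisFactorsThroughFiniteLevel u := by
    obtain ⟨L, hLfd, hLn, hL⟩ := exists_level r (matCont_matRep ρ b) J 2 hJ
    refine ⟨L, hLfd, fun s hs => ?_⟩
    apply Units.ext
    rw [hu_val, hL s hs, Units.val_one]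
  have hur : ∀ s ∈ P.inertiaSubgroupIn ℚ, u s = 1 := by
    intro s hs
    apply Units.ext
    rw [hu_val, Units.val_one, hrB, rmod_eq_one_iff]
    exact hI s hs
  obtain ⟨k, hk⟩ := Fermat.Agent.RB.SEL.exists_pow_of_mem_decompositionSubgroup u hfac hq P hP
    hur hφ₀ hσ
  have h1 : rB σ = rB φ₀ ^ k := by
    have := congrArg (fun x : (M2 (T ⧸ J))ˣ => (x : M2 (T ⧸ J))) hk
    simpa only [Units.val_pow_eq_pow_val, hu_val] using this
  have h2 : EMem J (r σ - r φ₀ ^ k) := (rmod_eq_iff r J σ φ₀ k).1 h1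
  have h3 : EMem J (r φ₀ ^ k - (C₀.map (algebraMap 𝒪 T)) ^ k) := hC₀.pow_sub_pow k
  have h4 : (C₀.map (algebraMap 𝒪 T)) ^ k = (C₀ ^ k).map (algebraMap 𝒪 T) :=
    (map_pow (algebraMap 𝒪 T).mapMatrix C₀ k).symm
  refine ⟨(C₀ ^ k) i j, ?_⟩
  have h5 := (h2.add h3) i j
  rw [h4] at h5
  simpa using h5

end Local

section Places

variable {𝒪 : Type} [CommRing 𝒪] [IsLocalRing 𝒪] {T : Type} [CommRing T] [IsLocalRing T]
  [Algebra 𝒪 T] (ρ : GaloisRepAdic T)

/-- **it suffices to trivialise at one place over `q`** -/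
theorem isLocTrivIdeal_of_place {q : ℕ} (hq : q.Prime) (I : Ideal T)
    {P : ValuationSubring Ω} (hP : P.LiesOverPrime q)
    (h : ∀ J : Ideal T, I ≤ J → maximalIdeal T ^ 2 ≤ J →
      (maximalIdeal 𝒪).map (algebraMap 𝒪 T) ≤ J →
      ∃ β : Module.Basis (Fin 2) T ρ.V, ∀ σ ∈ P.decompositionSubgroup ℚ, ∀ i j : Fin 2,
        ∃ a : 𝒪, LinearMap.toMatrix β β (ρ.ρ σ) i j - algebraMap 𝒪 T a ∈ J) :
    IsLocTrivIdeal 𝒪 ρ q I := by
  intro J hIJ hJ2 hJl P' hP'
  obtain ⟨β, hβ⟩ := h J hIJ hJ2 hJl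
  obtain ⟨g, hg⟩ := Fermat.Agent.EC.exists_smul_eq_of_liesOverPrime hq hP hP'
  -- the basis `ρ(g) β`
  have h3 : ρ.ρ g * ρ.ρ g⁻¹ = 1 := by rw [← map_mul, mul_inv_cancel, map_one]
  have h4 : ρ.ρ g⁻¹ * ρ.ρ g = 1 := by rw [← map_mul, inv_mul_cancel, map_one]
  let e : ρ.V ≃ₗ[T] ρ.V := LinearEquiv.ofLinearMap (ρ.ρ g) (ρ.ρ g⁻¹) h3 h4
  refine ⟨β.map e, fun σ hσ i j => ?_⟩
  -- `σ = g σ' g⁻¹` with `σ' ∈ D_P`
  set σ' := g⁻¹ * σ * g with hσ'
  have hσσ' : σ = g * σ' * g⁻¹ := by rw [hσ']; group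
  have hσ'D : σ' ∈ P.decompositionSubgroup ℚ := by
    rw [hg, hσσ'] at hσ
    exact (Fermat.Agent.EC.conj_mem_decompositionSubgroup (A := P) g σ').1 hσ
  obtain ⟨a, ha⟩ := hβ σ' hσ'D i j
  refine ⟨a, ?_⟩
  have hmat : LinearMap.toMatrix (β.map e) (β.map e) (ρ.ρ σ) i j =
      LinearMap.toMatrix β β (ρ.ρ σ') i j := by
    rw [LinearMap.toMatrix_apply, LinearMap.toMatrix_apply, Module.Basis.map_apply,
      Module.Basis.map_repr, LinearEquiv.trans_apply]
    congr 2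
    show e.symm (ρ.ρ σ (e (β j))) = ρ.ρ σ' (β j)
    rw [LinearEquiv.symm_apply_eq]
    show ρ.ρ σ (ρ.ρ g (β j)) = ρ.ρ g (ρ.ρ σ' (β j))
    rw [← Module.End.mul_apply, ← Module.End.mul_apply, ← map_mul, ← map_mul, hσσ']
    congr 2
    group
  rw [hmat]
  exact ha

end Places

end Fermat.Agent.ML
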