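/-
ML (S59) — helper7 — [NOCONG], file 1: **a residually unipotent inertia at `q` is unipotent when
`p ∤ q² - 1`.**

`ρ : G_ℚ → GL₂(R)`, `R` noetherian local of residue characteristic `p`, `q ≠ p`.  If for every
`σ` in an inertia group over `q` the characteristic polynomial of `ρ(σ)` reduces to `(X - 1)²` and
`q² - 1` is a unit of `R`, then `ρ` is unipotent on inertia at `q`:
`ρ(I_q)` is pro-`p` (`ρ̄(σ)^p = 1`), hence the tame relation `ρ(φ σ φ⁻¹) = ρ(σ)^q` holds; so
`det ρ(σ)^q = det ρ(σ)`, `tr ρ(σ)^q = tr ρ(σ)`.  With `det = 1` and `tr = 2 + s`: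
`tr(A^q) = 2 + q² s + s² c`, so `s (q² - 1 + s c) = 0`, `s = 0`.
-/
import Mathlib
import Fermat.Agent.ML.NSCH_helper7_Common
import Fermat.Agent.S35.TAME_helper8_Main
import Fermat.Agent.TW.Kill_helper1_Frob

set_option autoImplicit false
set_option linter.unusedSectionVars false
set_option linter.unusedVariables false

open Polynomial IsLocalRing
open scoped Pointwise

namespace Fermat.Agent.ML

open Fermat.Agent.RB Fermat.Agent.RB.GLUE Fermat.Agent.RB.REPT Fermat.Agent.S53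

local notation "Ω" => AlgebraicClosure ℚ
local notation "GQ" => (AlgebraicClosure ℚ ≃ₐ[ℚ] AlgebraicClosure ℚ)

section Alg

variable {R : Type*} [CommRing R]

/-- `M ^ (n + 2) = tr(M) M ^ (n + 1) - det(M) M ^ n` -/
theorem mat2_pow_add_two (M : Matrix (Fin 2) (Fin 2) R) (n : ℕ) :
    M ^ (n + 2) = M.trace • M ^ (n + 1) - M.det • M ^ n := by
  have h := mat2_mul_self M
  calc M ^ (n + 2) = M ^ n * (M * M) := by rw [pow_add, pow_two]
    _ = M ^ n * (M.trace • M - M.det • (1 : Matrix (Fin 2) (Fin 2) R)) := by rw [h]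
    _ = M.trace • M ^ (n + 1) - M.det • M ^ n := by
      rw [mul_sub, Matrix.mul_smul, Matrix.mul_smul, mul_one, pow_succ]

/-- the traces of the powers of a matrix of determinant one and trace `2 + s`:
`tr (M ^ n) = 2 + n² s + s² c`. -/
theorem exists_trace_pow_eq {M : Matrix (Fin 2) (Fin 2) R} (hdet : M.det = 1) {s : R}
    (hs : M.trace = 2 + s) (n : ℕ) :
    ∃ c c' : R, (M ^ n).trace = 2 + (n : R) ^ 2 * s + s ^ 2 * c ∧
      (M ^ (n + 1)).trace = 2 + ((n : R) + 1) ^ 2 * s + s ^ 2 * c' := by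
  induction n with
  | zero =>
    refine ⟨0, 0, ?_, ?_⟩
    · rw [pow_zero, Matrix.trace_one]; simp
    · rw [zero_add, pow_one, hs]; simp
  | succ n ih =>
    obtain ⟨c, c', h1, h2⟩ := ih
    refine ⟨c', 2 * c' + ((n : R) + 1) ^ 2 + s * c' - c, ?_, ?_⟩
    · rw [h2]; push_cast; ring
    · rw [show n + 1 + 1 = n + 2 from rfl, mat2_pow_add_two, Matrix.trace_sub, Matrix.trace_smul,
        Matrix.trace_smul, hdet, hs, h1, h2, smul_eq_mul, smul_eq_mul]
      push_cast
      ring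

variable [IsLocalRing R]

/-- a unit plus an element of the maximal ideal -/
theorem isUnit_add_mem_maximalIdeal {u m : R} (hu : IsUnit u) (hm : m ∈ maximalIdeal R) :
    IsUnit (u + m) := by
  by_contra h
  have h1 : u + m ∈ maximalIdeal R := (mem_maximalIdeal _).mpr h
  have h2 : u ∈ maximalIdeal R := by
    have : u = (u + m) - m := by ring
    rw [this]; exact Ideal.sub_mem _ h1 hm
  exact (mem_maximalIdeal _).mp h2 hu

/-- **the algebraic core**: `A ≡ unipotent mod 𝔪`, `A ^ q` has the trace and the determinant of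
`A`, `q² - 1` a unit ⇒ `A` is unipotent. -/
theorem trace_det_of_pow_conj {A : Matrix (Fin 2) (Fin 2) R} {q : ℕ} (hq : 0 < q)
    (htr : (A ^ q).trace = A.trace) (hdet : A.det ^ q = A.det)
    (ht : A.trace - 2 ∈ maximalIdeal R) (hd : A.det - 1 ∈ maximalIdeal R)
    (hu : IsUnit ((q : R) ^ 2 - 1)) : A.trace = 2 ∧ A.det = 1 := by
  have hu1 : IsUnit ((q : R) - 1) := by
    have : (q : R) ^ 2 - 1 = ((q : R) - 1) * ((q : R) + 1) := by ring
    rw [this] at hu
    exact isUnit_of_mul_isUnit_left hu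
  -- the determinant
  have hdu : IsUnit A.det := by
    have : A.det = 1 + (A.det - 1) := by ring
    rw [this]; exact isUnit_add_mem_maximalIdeal isUnit_one hd
  obtain ⟨k, hk⟩ : ∃ k, q = k + 1 := ⟨q - 1, by omega⟩
  have hdk : A.det ^ k = 1 := by
    have h1 : A.det * (A.det ^ k - 1) = 0 := by
      rw [hk, pow_succ] at hdet
      linear_combination hdet
    have := (hdu.mul_right_eq_zero).mp h1
    linear_combination this
  have hsum : ∑ i ∈ Finset.range k, A.det ^ i - (k : R) ∈ maximalIdeal R := by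
    have : ∑ i ∈ Finset.range k, A.det ^ i - (k : R) =
        ∑ i ∈ Finset.range k, (A.det ^ i - 1) := by
      rw [Finset.sum_sub_distrib, Finset.sum_const, Finset.card_range, nsmul_eq_mul, mul_one]
    rw [this]
    refine Ideal.sum_mem _ fun i _ => ?_
    have h2 : A.det ^ i - 1 = (A.det - 1) * ∑ j ∈ Finset.range i, A.det ^ j :=
      (mul_geom_sum A.det i).symm
    rw [h2]
    exact Ideal.mul_mem_right _ _ hd
  have hku : IsUnit (k : R) := by
    have : (k : R) = (q : R) - 1 := by rw [hk]; push_cast; ring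
    rw [this]; exact hu1
  have hsumu : IsUnit (∑ i ∈ Finset.range k, A.det ^ i) := by
    have : ∑ i ∈ Finset.range k, A.det ^ i = (k : R) + (∑ i ∈ Finset.range k, A.det ^ i - (k : R)) := by
      ring
    rw [this]; exact isUnit_add_mem_maximalIdeal hku hsum
  have hd1 : A.det = 1 := by
    have h3 : (A.det - 1) * ∑ i ∈ Finset.range k, A.det ^ i = 0 := by
      rw [mul_geom_sum, hdk, sub_self]
    have := (hsumu.mul_left_eq_zero).mp h3
    linear_combination this
  -- the trace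
  obtain ⟨s, hs⟩ : ∃ s : R, s = A.trace - 2 := ⟨_, rfl⟩
  have hs' : A.trace = 2 + s := by rw [hs]; ring
  obtain ⟨c, -, hc, -⟩ := exists_trace_pow_eq hd1 hs' q
  rw [htr, hs'] at hc
  have h4 : s * (((q : R) ^ 2 - 1) + s * c) = 0 := by linear_combination -hc
  have h5 : IsUnit (((q : R) ^ 2 - 1) + s * c) :=
    isUnit_add_mem_maximalIdeal hu (Ideal.mul_mem_right _ _ (hs ▸ ht))
  have h6 := (h5.mul_left_eq_zero).mp h4
  exact ⟨by rw [hs', h6, add_zero], hd1⟩

end Alg

section Gal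

variable {R : Type} [CommRing R] [IsLocalRing R] [IsNoetherianRing R] (ρ : GaloisRepAdic R)
  {p q : ℕ} (hp : p.Prime) (hq : q.Prime) (hqp : q ≠ p) (hpR : (p : R) ∈ maximalIdeal R)
  {P : ValuationSubring Ω} (hP : P.LiesOverPrime q)
  (hres : ∀ σ ∈ P.inertiaSubgroupIn ℚ, ρ.trace σ - 2 ∈ maximalIdeal R ∧
    LinearMap.det (ρ.ρ σ) - 1 ∈ maximalIdeal R)

include hp hpR hres in
/-- residually unipotent ⇒ `ρ(σ)^p ≡ 1 mod 𝔪` -/
theorem emem_pow_prime_sub_one (b : Module.Basis (Fin 2) R ρ.V) {σ : GQ}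
    (hσ : σ ∈ P.inertiaSubgroupIn ℚ) : EMem (maximalIdeal R) (matRep ρ b σ ^ p - 1) := by
  obtain ⟨h1, h2⟩ := hres σ hσ
  set u := (matRep ρ b σ).map (Ideal.Quotient.mk (maximalIdeal R)) with hu
  have htr : u.trace = 2 := by
    have e : u.trace = Ideal.Quotient.mk (maximalIdeal R) (matRep ρ b σ).trace :=
      (AddMonoidHom.map_trace (Ideal.Quotient.mk (maximalIdeal R)).toAddMonoidHom _).symm
    rw [e, trace_matRep]
    have := (Ideal.Quotient.eq_zero_iff_mem).mpr h1
    rw [map_sub, sub_eq_zero] at this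
    rw [← GaloisRepAdic.trace, this, map_ofNat]
  have hdet : u.det = 1 := by
    have e : u.det = Ideal.Quotient.mk (maximalIdeal R) (matRep ρ b σ).det := by
      rw [hu, ← RingHom.mapMatrix_apply, ← RingHom.map_det]
    rw [e, det_matRep]
    have := (Ideal.Quotient.eq_zero_iff_mem).mpr h2
    rw [map_sub, sub_eq_zero] at this
    rw [this, map_one]
  have h3 := pow_eq_of_sub_one_sq (sub_one_sq_eq_zero htr hdet) p
  have hp0 : ((p : ℕ) : R ⧸ maximalIdeal R) = 0 := by
    rw [← map_natCast (Ideal.Quotient.mk (maximalIdeal R))]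
    exact (Ideal.Quotient.eq_zero_iff_mem).mpr hpR
  rw [hp0, zero_smul, add_zero] at h3
  rw [emem_sub_iff_map_mk_eq]
  have e1 : (matRep ρ b σ ^ p).map (Ideal.Quotient.mk (maximalIdeal R)) = u ^ p :=
    map_pow (Ideal.Quotient.mk (maximalIdeal R)).mapMatrix _ p
  have e2 : (1 : M2 R).map (Ideal.Quotient.mk (maximalIdeal R)) = 1 :=
    map_one (Ideal.Quotient.mk (maximalIdeal R)).mapMatrix
  rw [e1, e2, h3]

include hp hq hqp hpR hP hres in
/-- **the tame relation for a residually unipotent inertia** -/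
theorem conj_frobenius_of_residually_unipotent (b : Module.Basis (Fin 2) R ρ.V) {φ : GQ}
    (hφ : P.IsFrobeniusAt φ q) {τ : GQ} (hτ : τ ∈ P.inertiaSubgroupIn ℚ) :
    matRep ρ b (φ * τ * φ⁻¹) = matRep ρ b τ ^ q := by
  apply matrix_eq_of_forall_emem
  intro k
  obtain ⟨F, hFfd, hFn, hF⟩ :=
    exists_level (matRep ρ b) (matCont_matRep ρ b) (maximalIdeal R ^ k) k le_rfl
  have := hFfd
  have := hFn
  have hcop : ∀ σ ∈ P.inertiaSubgroupIn ℚ, ∃ m : ℕ, m.Coprime q ∧
      rmod (matRep ρ b) (maximalIdeal R ^ k) σ ^ m = 1 := by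
    intro σ hσ
    refine ⟨p ^ (k + 1), Nat.Coprime.pow_left _ ((Nat.coprime_primes hp hq).mpr (Ne.symm hqp)), ?_⟩
    rw [← map_pow, rmod_eq_one_iff, map_pow, pow_succ', pow_mul]
    exact ((EMem.pow_prime_pow hpR (emem_pow_prime_sub_one ρ hp hpR hres b hσ) k).mono
      (Ideal.pow_le_pow_right (Nat.le_succ k)))
  have h1 := Fermat.Agent.S35.map_conj_frobenius_eq_pow hq hP
    (rmod (matRep ρ b) (maximalIdeal R ^ k)) F hF hcop hφ hτ
  exact (rmod_eq_iff (matRep ρ b) _ _ _ _).1 h1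

include hp hq hqp hpR hP hres in
/-- **residually unipotent + `q² - 1` unit ⇒ unipotent**, at one place -/
theorem charpoly_eq_of_residually_unipotent (hu : IsUnit ((q : R) ^ 2 - 1)) {σ : GQ}
    (hσ : σ ∈ P.inertiaSubgroupIn ℚ) : LinearMap.charpoly (ρ.ρ σ) = (X - 1) ^ 2 := by
  set b := someBasis ρ
  obtain ⟨φ, hφ⟩ := Fermat.Agent.TW.Kill.exists_isFrobeniusAt P hq hP
  have hconj := conj_frobenius_of_residually_unipotent ρ hp hq hqp hpR hP hres b hφ hσ
  set A := matRep ρ b σ with hA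
  set Φ := matRep ρ b φ with hΦ
  set Φi := matRep ρ b φ⁻¹ with hΦi
  have hΦΦi : Φi * Φ = 1 := by rw [hΦ, hΦi, ← map_mul, inv_mul_cancel, map_one]
  have hAq : A ^ q = Φ * A * Φi := by rw [← hconj, map_mul, map_mul]
  have htr : (A ^ q).trace = A.trace := by
    rw [hAq, Matrix.trace_mul_comm, ← mul_assoc, hΦΦi, one_mul]
  have hdet : A.det ^ q = A.det := by
    rw [← Matrix.det_pow, hAq, Matrix.det_mul, Matrix.det_mul]
    have : Φi.det * Φ.det = 1 := by rw [← Matrix.det_mul, hΦΦi, Matrix.det_one]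
    linear_combination A.det * this
  obtain ⟨h1, h2⟩ := hres σ hσ
  obtain ⟨ht2, hd1⟩ := trace_det_of_pow_conj hq.pos htr hdet
    (by rw [hA, trace_matRep]; exact h1) (by rw [hA, det_matRep]; exact h2) hu
  rw [← charpoly_matRep ρ b σ, Matrix.charpoly_fin_two, ← hA, ht2, hd1]
  simp only [map_ofNat, map_one]
  ring

end Gal

/-- **residually unipotent inertia at `q` with `p ∤ q² - 1` is unipotent.** -/
theorem isUnipotentOnInertiaAt_of_residually {R : Type} [CommRing R] [IsLocalRing R]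
    [IsNoetherianRing R] (ρ : GaloisRepAdic R) {p q : ℕ} (hp : p.Prime) (hq : q.Prime)
    (hqp : q ≠ p) (hpR : (p : R) ∈ maximalIdeal R) (hu : IsUnit ((q : R) ^ 2 - 1))
    (hres : ∀ P : ValuationSubring Ω, P.LiesOverPrime q → ∀ σ ∈ P.inertiaSubgroupIn ℚ,
      ρ.trace σ - 2 ∈ maximalIdeal R ∧ LinearMap.det (ρ.ρ σ) - 1 ∈ maximalIdeal R) :
    ρ.IsUnipotentOnInertiaAt q := by
  intro P hP σ hσ
  exact charpoly_eq_of_residually_unipotent ρ hp hq hqp hpR hP (hres P hP) hu hσ

end Fermat.Agent.ML
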