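/-
ML (S59) — helper7 — **[NOCONG]**: `p ∤ q² - 1`, `q ≠ p`, `q ∤ M`, `W` semistable:
`ResOccurs (M q²) p S a_W ⇒ ResOccurs (M q) p S a_W`  (Galois side only, no hosts; `q = 2` allowed).

Proof.  Let `g` be the eigenform of level `M q²` and `h` its newform, of level `d ∣ M q²`
(`S58.exists_newform_of_eigenform`).  If `q² ∤ d` then `d ∣ M q` and [OLD-UP]
(`ML.resOccurs_of_dvd`, helper3) concludes.  If `q² ∥ d`: complete the coefficient ring of `h` at
the prime cut out by `𝔪` (`W1.exists_lift_char_zero`); S36 (`S36.s36_of_keyInert`) gives `ρ_h`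
over `O''`, NOT unipotent on inertia at `q`.  By Chebotarev (`S58.cheb_trace_det_eq`) the reduction
of `ρ_h` has the traces and determinants of `W[p]`, so it is unipotent on inertia at `q`
(`S58.ecTate_of_uMult`: `W` semistable); as `p ∤ q² - 1`, `ρ_h` is unipotent on inertia at `q`
(`ML.isUnipotentOnInertiaAt_of_residually`).  Contradiction.
-/
import Mathlib
import Fermat.Agent.ML.NOCONG_helper7_Local
import Fermat.Agent.ML.OLDUP_helper3_ResOccurs
import Fermat.Agent.S58.TOP58_helper9_Main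
import Fermat.Agent.S58.ECTATE_helper9_Fin
import Fermat.Agent.S58.ECTATE_helper7_Unip
import Fermat.Agent.S58.NORMF58_helper3
import Fermat.Agent.S58.CHEB_helper4
import Fermat.Agent.W1.LIFTTH_helper3_Main
import Fermat.Agent.MP.IFACE_helper8_Defs

set_option autoImplicit false
set_option linter.unusedSectionVars false
set_option linter.unusedVariables false
set_option linter.style.haveILetI false

open Polynomial IsLocalRing CuspForm ModularFormClass CongruenceSubgroup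

namespace Fermat.Agent.ML

open Fermat.Agent.MP Fermat.Agent.S58

local notation "Ω" => AlgebraicClosure ℚ
local notation "GQ" => (AlgebraicClosure ℚ ≃ₐ[ℚ] AlgebraicClosure ℚ)

/-- **[NOCONG]**, `ResOccurs` form. -/
def NoCongStatement : Prop :=
  ∀ (p : ℕ) [Fact p.Prime], p ≠ 2 → ∀ (W : WeierstrassCurve ℤ), W.Δ ≠ 0 → W.IsSemistableModel →
    ∀ (M q : ℕ), M ≠ 0 → q.Prime → q ≠ p → ¬ q ∣ M → ¬ p ∣ q ^ 2 - 1 →
    ∀ S : Set ℕ, S.Finite → (∀ ℓ : ℕ, ℓ.Prime → ℓ ∣ M * q → ℓ ∈ S) → p ∈ S →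
      (∀ ℓ : ℕ, ℓ.Prime → ¬ W.IsGoodPrimeFor ℓ → ℓ ∈ S) →
      ResOccurs (M * q ^ 2) p S (fun ℓ => W.apOfModel ℓ) →
        ResOccurs (M * q) p S (fun ℓ => W.apOfModel ℓ)

/-- **[NOCONG]**, curve form (the shape of `RB.MazurSqStatement`, `RB.CarayolSCStatement`). -/
def NoCongCurveStatement : Prop :=
  ∀ (p : ℕ) [Fact p.Prime], p ≠ 2 → ∀ (W : WeierstrassCurve ℤ), W.Δ ≠ 0 → W.IsSemistableModel →
    ∀ (M q : ℕ), M ≠ 0 → q.Prime → q ≠ p → ¬ q ∣ M → ¬ p ∣ q ^ 2 - 1 →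
      W.IsResiduallyModularOfLevel p (M * q ^ 2) → W.IsResiduallyModularOfLevel p (M * q)

section Arith

/-- `d ∣ M q²`, `q ∤ M`, `v_q(d) ≠ 2` ⇒ `d ∣ M q` -/
theorem dvd_mul_of_dvd_mul_sq {d M q : ℕ} (hM : M ≠ 0) (hq : q.Prime) (hqM : ¬ q ∣ M)
    (hd : d ∣ M * q ^ 2) (h2 : d.factorization q ≠ 2) : d ∣ M * q := by
  have hq0 : q ≠ 0 := hq.ne_zero
  have hN0 : M * q ^ 2 ≠ 0 := Nat.mul_ne_zero hM (pow_ne_zero 2 hq0)
  have hd0 : d ≠ 0 := fun h => hN0 (by rw [h] at hd; exact zero_dvd_iff.mp hd)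
  rw [← Nat.factorization_le_iff_dvd hd0 (Nat.mul_ne_zero hM hq0)]
  have hle := (Nat.factorization_le_iff_dvd hd0 hN0).mpr hd
  intro r
  have h1 := hle r
  rw [Nat.factorization_mul hM (pow_ne_zero 2 hq0), Nat.factorization_pow] at h1
  rw [Nat.factorization_mul hM hq0]
  simp only [Finsupp.coe_add, Finsupp.coe_smul, Pi.add_apply, Pi.smul_apply, smul_eq_mul] at h1 ⊢
  by_cases hr : r = q
  · subst hr
    rw [Nat.factorization_eq_zero_of_not_dvd hqM, hq.factorization_self] at h1 ⊢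
    omega
  · have : q.factorization r = 0 := by
      rw [hq.factorization]
      simp [Ne.symm hr]
    rw [this] at h1 ⊢
    omega

end Arith

section Res

variable {A : Type} [CommRing A] [IsLocalRing A]

/-- trace and determinant of a unipotent element -/
theorem trace_det_of_charpoly_sub_one_sq (ρ : GaloisRepAdic A) (σ : GQ)
    (h : LinearMap.charpoly (ρ.ρ σ) = (X - 1) ^ 2) :
    LinearMap.trace A ρ.V (ρ.ρ σ) = 2 ∧ LinearMap.det (ρ.ρ σ) = 1 := by
  set b := Fermat.Agent.S53.someBasis ρ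
  have h1 : (Fermat.Agent.RB.REPT.matRep ρ b σ).charpoly = (X - 1) ^ 2 := by
    rw [Fermat.Agent.RB.REPT.charpoly_matRep]; exact h
  obtain ⟨ht, hd⟩ := Fermat.Agent.RB.GLUE.trace_det_of_charpoly_unipotent _ h1
  rw [Fermat.Agent.RB.REPT.trace_matRep] at ht
  rw [Fermat.Agent.RB.REPT.det_matRep] at hd
  exact ⟨ht, hd⟩

end Res

set_option maxHeartbeats 1600000 in
/-- **[NOCONG].** -/
theorem noCongStatement : NoCongStatement := by
  intro p hpF hp2 W hΔ hss M q hM hq hqp hqM hpq S hSfin hSlev hpS hSbad hres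
  classical
  have hp : p.Prime := hpF.out
  obtain ⟨g, 𝔪, hg, hm, hp𝔪, hcong⟩ := hres
  have hq0 : q ≠ 0 := hq.ne_zero
  have hN0 : M * q ^ 2 ≠ 0 := Nat.mul_ne_zero hM (pow_ne_zero 2 hq0)
  have hMq0 : M * q ≠ 0 := Nat.mul_ne_zero hM hq0
  -- the newform
  obtain ⟨d, hdN, h, hh, hhg⟩ := exists_newform_of_eigenform hN0 g hg
  have hd0 : d ≠ 0 := fun h0 => hN0 (by rw [h0] at hdN; exact zero_dvd_iff.mp hdN)
  have : NeZero d := ⟨hd0⟩
  have hSN : ∀ ℓ : ℕ, ℓ.Prime → ℓ ∣ M * q ^ 2 → ℓ ∈ S := by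
    intro ℓ hℓ hdvd
    refine hSlev ℓ hℓ ?_
    rcases (Nat.Prime.dvd_mul hℓ).mp hdvd with h1 | h1
    · exact Dvd.dvd.mul_right h1 q
    · exact Dvd.dvd.mul_left (hℓ.dvd_of_dvd_pow h1) M
  -- `h` occurs residually
  have hcongh : ∀ ℓ : ℕ, ℓ.Prime → ℓ ∉ S →
      ∃ b : integralClosure ℤ ℂ, (b : ℂ) = qCoeff h ℓ ∧
        b - ((W.apOfModel ℓ : ℤ) : integralClosure ℤ ℂ) ∈ 𝔪 := by
    intro ℓ hℓ hℓS
    obtain ⟨b, hb, hb'⟩ := hcong ℓ hℓ hℓS
    exact ⟨b, by rw [hb, hhg ℓ hℓ fun hdvd => hℓS (hSN ℓ hℓ hdvd)], hb'⟩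
  suffices hfac : d.factorization q ≠ 2 by
    have hdvd : d ∣ M * q := dvd_mul_of_dvd_mul_sq hM hq hqM hdN hfac
    exact resOccurs_of_dvd hMq0 hdvd hSlev ⟨h, 𝔪, hh.1, hm, hp𝔪, hcongh⟩
  intro hfac
  -- the Hecke algebra and the eigencharacter
  set S₁ : Finset ℕ := hSfin.toFinset with hS₁
  have hS₁coe : (↑S₁ : Set ℕ) = S := hSfin.coe_toFinset
  have hpS₁ : p ∈ S₁ := hSfin.mem_toFinset.mpr hpS
  have hdS₁ : ∀ r : ℕ, r.Prime → r ∣ d → r ∈ S₁ := fun r hr hrd =>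
    hSfin.mem_toFinset.mpr (hSN r hr (hrd.trans hdN))
  obtain ⟨chig, hchig⟩ := exists_eigenCharacter hh.1 (↑S₁ : Set ℕ)
  -- the residue map on the coefficient ring
  have hint : ∀ x : chig.range, (x : ℂ) ∈ integralClosure ℤ ℂ := by
    rintro ⟨x, t, rfl⟩
    exact map_isIntegral_int chig (Fermat.Agent.GR.isIntegral_heckeAlgebra (↑S₁ : Set ℕ) t)
  let incl : chig.range →+* integralClosure ℤ ℂ :=
    (chig.range.subtype).codRestrict (integralClosure ℤ ℂ) hint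
  have hincl : ∀ x : chig.range, ((incl x : integralClosure ℤ ℂ) : ℂ) = (x : ℂ) := fun x => rfl
  letI : Field (integralClosure ℤ ℂ ⧸ 𝔪) := Ideal.Quotient.field 𝔪
  haveI : CharP (integralClosure ℤ ℂ ⧸ 𝔪) p := by
    refine (CharP.charP_iff_prime_eq_zero hp).2 ?_
    rw [← map_natCast (Ideal.Quotient.mk 𝔪)]
    exact Ideal.Quotient.eq_zero_iff_mem.mpr hp𝔪
  let θ : chig.range →+* (integralClosure ℤ ℂ ⧸ 𝔪) := (Ideal.Quotient.mk 𝔪).comp incl
  haveI : Module.Finite ℤ (CuspForm.heckeAlgebra d 2 (↑S₁ : Set ℕ)) :=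
    Fermat.Agent.S22.result d 2 (↑S₁ : Set ℕ)
  haveI : Module.Finite ℤ chig.range :=
    Module.Finite.of_surjective (chig.rangeRestrict.toAddMonoidHom.toIntLinearMap)
      chig.rangeRestrict_surjective
  have htf : ∀ (n : ℤ) (x : chig.range), n • x = 0 → n = 0 ∨ x = 0 := by
    intro n x hnx
    have h1 : (n : ℂ) * (x : ℂ) = 0 := by
      have := congrArg (fun y : chig.range => (y : ℂ)) hnx
      simpa [zsmul_eq_mul] using this
    rcases mul_eq_zero.mp h1 with h2 | h2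
    · exact Or.inl (by exact_mod_cast h2)
    · exact Or.inr (Subtype.ext h2)
  obtain ⟨O', i1, i2, i3, i4, i5, i6, iota, hpO', hiota⟩ :=
    Fermat.Agent.W1.exists_lift_char_zero (𝕋 := chig.range) (fun x y => mul_comm x y) htf θ
  -- the representation of S36
  obtain ⟨O2, k1, k2, k3, k4, k5, k6, k7, k8, k9, hinj2, ρ2, hρ2, hρ2q⟩ :=
    Fermat.Agent.S36.s36_of_keyInert
      (Fermat.Agent.S36.keyInertStatement_of_bases Fermat.Agent.S36.legInertBase
        Fermat.Agent.S36.hesInertBase) hh p S₁ O' hpO' chig hchig iota hpS₁ hdS₁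
  have hpO2 : (p : O2) ∈ maximalIdeal O2 :=
    Fermat.Agent.TW.natCast_mem_maximalIdeal_of_isLocalHom (algebraMap O' O2) k9 hpO'
  refine hρ2q q hq hqp hfac ?_
  -- the Tate module of `W`
  have hNF : GNodeNormalForm (AlgebraicClosure ℚ) :=
    fun A L W h1 h2 h3 h4 h6 hΔ0 hΔ hc4 => exists_gnode_model A L W h1 h2 h3 h4 h6 hΔ0 hΔ hc4
  obtain ⟨ρE, hρE, hρEunip⟩ := ecTate_of_uMult W hΔ
    (fun lam _ hlam2 => unipotent_of_semistable_of_normalForm hNF W hΔ hss lam hlam2) p hp2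
  -- comparison of the reductions
  set φ₀ := Fermat.Agent.GR.padicToComplete p (maximalIdeal O2) hpO2 with hφ₀
  have hloc₀ : IsLocalHom φ₀ := isLocalHom_padicToComplete p hpO2
  let f : ℤ_[p] →+* ResidueField O2 := (residue O2).comp φ₀
  haveI hlocf : IsLocalHom f := by
    haveI := hloc₀
    exact RingHom.isLocalHom_comp (residue O2) φ₀
  have hlocres : IsLocalHom (residue O2) := inferInstance
  set ρ2bar := ρ2.baseChangeAlong (residue O2) hlocres with hρ2bar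
  have hsep : ∀ b : ResidueField O2, (∀ n : ℕ, b ∈ maximalIdeal (ResidueField O2) ^ n) → b = 0 := by
    intro b hb
    have h1 := hb 1
    rw [pow_one, IsLocalRing.maximalIdeal_eq_bot, Ideal.mem_bot] at h1
    exact h1
  have hcmp : ∀ σ : GQ,
      f (LinearMap.trace ℤ_[p] ρE.V (ρE.ρ σ)) = residue O2 (ρ2.trace σ) ∧
        f (LinearMap.det (ρE.ρ σ)) = residue O2 (LinearMap.det (ρ2.ρ σ)) := by
    intro σ
    have hfrob : ∀ ℓ : ℕ, ℓ.Prime → ℓ ∉ S₁ → ∀ P : ValuationSubring Ω, P.LiesOverPrime ℓ →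
        ∀ τ : GQ, P.IsFrobeniusAt τ ℓ →
          (LinearMap.charpoly (ρE.ρ τ)).map f = LinearMap.charpoly (ρ2bar.ρ τ) := by
      intro ℓ hℓ hℓS₁ P hP τ hτ
      have hℓS : ℓ ∉ S := fun hmem => hℓS₁ (hSfin.mem_toFinset.mpr hmem)
      have hℓS' : ℓ ∉ (↑S₁ : Set ℕ) := by rw [hS₁coe]; exact hℓS
      have hℓd : ¬ ℓ ∣ d := fun hdvd => hℓS₁ (hdS₁ ℓ hℓ hdvd)
      have hℓp : ℓ ≠ p := fun hℓp => hℓS (hℓp ▸ hpS)
      have hgood : W.IsGoodPrimeFor ℓ := by
        by_contra hbad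
        exact hℓS (hSbad ℓ hℓ hbad)
      rw [hρE ℓ hℓ hℓp hgood P hP τ hτ, hρ2bar, Fermat.Agent.TW.charpoly_baseChangeAlong,
        hρ2 ℓ hℓ hℓd hℓS' P hP τ hτ]
      -- the coefficient
      obtain ⟨b, hb, hb'⟩ := hcongh ℓ hℓ hℓS
      set x : chig.range := chig.rangeRestrict (CuspForm.heckeAlgebra.T hℓ hℓd hℓS') with hx
      have hxb : incl x = b := by
        apply Subtype.ext
        rw [hincl, hb, hx, RingHom.coe_rangeRestrict, hchig ℓ hℓ hℓd hℓS']
      have hθ : θ (x - ((W.apOfModel ℓ : ℤ) : chig.range)) = 0 := by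
        show Ideal.Quotient.mk 𝔪 (incl (x - ((W.apOfModel ℓ : ℤ) : chig.range))) = 0
        rw [map_sub, map_intCast, hxb]
        exact Ideal.Quotient.eq_zero_iff_mem.mpr hb'
      have h1 : iota x - ((W.apOfModel ℓ : ℤ) : O') ∈ maximalIdeal O' := by
        have := (hiota _).mpr hθ
        rwa [map_sub, map_intCast] at this
      have h2 : algebraMap O' O2 (iota x) - ((W.apOfModel ℓ : ℤ) : O2) ∈ maximalIdeal O2 := by
        have h3 : algebraMap O' O2 (iota x - ((W.apOfModel ℓ : ℤ) : O')) ∈ maximalIdeal O2 :=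
          map_nonunit (algebraMap O' O2) _ h1
        rwa [map_sub, map_intCast] at h3
      have h3 : residue O2 (algebraMap O' O2 (iota x)) = ((W.apOfModel ℓ : ℤ) : ResidueField O2) := by
        have := (residue_eq_zero_iff _).mpr h2
        rw [map_sub, sub_eq_zero, map_intCast] at this
        exact this
      have hx' : (iota.comp chig.rangeRestrict) (CuspForm.heckeAlgebra.T hℓ hℓd hℓS') = iota x := rfl
      rw [map_quadratic58, map_quadratic58, map_intCast, hx', h3]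
      simp only [map_natCast]
    have hc := cheb_trace_det_eq f hsep ρE ρ2bar S₁ hfrob σ
    rw [hρ2bar, Fermat.Agent.TW.det_baseChangeAlong] at hc
    have ht : LinearMap.trace (ResidueField O2) (ρ2.baseChangeAlong (residue O2) hlocres).V
        ((ρ2.baseChangeAlong (residue O2) hlocres).ρ σ) = residue O2 (ρ2.trace σ) := by
      letI : Algebra O2 (ResidueField O2) := (residue O2).toAlgebra
      exact LinearMap.trace_baseChange (ρ2.ρ σ) (ResidueField O2)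
    rw [← ht]
    exact hc
  -- unipotency
  have hu : IsUnit ((q : O2) ^ 2 - 1) := by
    have h1 : ((q : O2) ^ 2 - 1) = ((q ^ 2 - 1 : ℕ) : O2) := by
      rw [Nat.cast_sub (Nat.one_le_pow _ _ hq.pos)]; push_cast; ring
    rw [h1]
    by_contra hnu
    have hmem : ((q ^ 2 - 1 : ℕ) : O2) ∈ maximalIdeal O2 := (mem_maximalIdeal _).mpr hnu
    have hcop : Nat.Coprime (q ^ 2 - 1) p := ((Nat.Prime.coprime_iff_not_dvd hp).mpr hpq).symm
    obtain ⟨a, b, hab⟩ := Nat.isCoprime_iff_coprime.2 hcop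
    have h2 : (a : O2) * ((q ^ 2 - 1 : ℕ) : O2) + (b : O2) * (p : O2) = 1 := by
      have := congrArg (Int.cast : ℤ → O2) hab
      push_cast at this
      exact_mod_cast this
    have : (1 : O2) ∈ maximalIdeal O2 := by
      rw [← h2]
      exact Ideal.add_mem _ (Ideal.mul_mem_left _ _ hmem) (Ideal.mul_mem_left _ _ hpO2)
    exact (Ideal.ne_top_iff_one _).1 (maximalIdeal.isMaximal O2).ne_top this
  refine isUnipotentOnInertiaAt_of_residually ρ2 hp hq hqp hpO2 hu ?_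
  intro P hP σ hσ
  obtain ⟨ht, hd⟩ := hcmp σ
  obtain ⟨hE1, hE2⟩ := trace_det_of_charpoly_sub_one_sq ρE σ (hρEunip q hq hqp P hP σ hσ)
  rw [hE1] at ht
  rw [hE2] at hd
  constructor
  · rw [← residue_eq_zero_iff, map_sub, ← ht, map_ofNat, map_ofNat, sub_self]
  · rw [← residue_eq_zero_iff, map_sub, ← hd, map_one, map_one, sub_self]

/-- the excluded set of `IsResiduallyModularOfLevel` is finite -/
theorem badSet_finite (W : WeierstrassCurve ℤ) (hΔ : W.Δ ≠ 0) (p N : ℕ) (hN : N ≠ 0) :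
    (badSet W p N).Finite := by
  have hsub : badSet W p N ⊆
      (↑(Nat.divisors W.Δ.natAbs) : Set ℕ) ∪ (↑(Nat.divisors N) : Set ℕ) ∪ {p} := by
    rintro ℓ (h | h | h)
    · refine Or.inl (Or.inl ?_)
      have h1 : (ℓ : ℤ) ∣ W.Δ := by
        by_contra h2
        exact h h2
      rw [Finset.mem_coe, Nat.mem_divisors]
      exact ⟨Int.natCast_dvd.mp h1, Int.natAbs_ne_zero.mpr hΔ⟩
    · refine Or.inl (Or.inr ?_)
      rw [Finset.mem_coe, Nat.mem_divisors]
      exact ⟨h, hN⟩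
    · exact Or.inr h
  exact Set.Finite.subset
    (((Finset.finite_toSet _).union (Finset.finite_toSet _)).union (Set.finite_singleton p)) hsub

/-- **[NOCONG]**, curve form. -/
theorem noCongCurveStatement : NoCongCurveStatement := by
  intro p hpF hp2 W hΔ hss M q hM hq hqp hqM hpq hmod
  have hq0 : q ≠ 0 := hq.ne_zero
  have hN0 : M * q ^ 2 ≠ 0 := Nat.mul_ne_zero hM (pow_ne_zero 2 hq0)
  rw [isResiduallyModularOfLevel_iff] at hmod
  have hres := noCongStatement p hp2 W hΔ hss M q hM hq hqp hqM hpq (badSet W p (M * q ^ 2))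
    (badSet_finite W hΔ p _ hN0)
    (fun ℓ hℓ hdvd => Or.inr (Or.inl (by
      rcases (Nat.Prime.dvd_mul hℓ).mp hdvd with h1 | h1
      · exact Dvd.dvd.mul_right h1 _
      · exact Dvd.dvd.mul_left (h1.trans (Dvd.intro_left q (by ring))) M)))
    (Or.inr (Or.inr rfl)) (fun ℓ hℓ hbad => Or.inl hbad) hmod
  obtain ⟨g, 𝔪, hg, hm, hp𝔪, hc⟩ := hres
  refine ⟨g, 𝔪, hg, hm, hp𝔪, fun ℓ hℓ hgood hℓM hℓp => hc ℓ hℓ ?_⟩
  rintro (h1 | h1 | h1)
  · exact h1 hgood
  · rcases (Nat.Prime.dvd_mul hℓ).mp h1 with h2 | h2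
    · exact hℓM (Dvd.dvd.mul_right h2 q)
    · exact hℓM (Dvd.dvd.mul_left (hℓ.dvd_of_dvd_pow h2) M)
  · exact hℓp h1

end Fermat.Agent.ML
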