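/-
ML (S59) — helper5 — **the step `SqStepStatementO` of [LEVEL-OPT]** (lead's literal,
`ML/IFACE_lead_LevelOpt2.lean`) from helper3's (KEY-MAZ-SQ) `KeyMazSqStatementE`:

  `sqStepStatementO_of : KeyMazSqStatementE → SqStepStatementO`.

* `q ∈ {2, 3}`: then `p = 5` and `p ∤ q ^ 2 - 1`: helper7's `ML.noCongStatement` (the excluded set
  is replaced by the finite set of its primes and of the primes of `badSet W p (M q)`);
* `5 ≤ q`: port of `RB.mazurSq_of_key` (helper4) in the `S`-flexible form of lead's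
  `ML/LEVOPT_lead_MazOdd.lean`: the copy of `W[p]` in the `a(W)`-eigenpart of `J₀(M q q)[p]`
  (`exists_copy_of_eigen_modelS`, helper6), a non-Eisenstein prime outside the excluded set
  (`exists_prime_not_eisenstein`, helper3), and the image of a non-zero inertia-fixed point of
  `W[p]` (`SqO.exists_inertia_fixed_torsion`: `W` is semistable) is a non-zero `I_A`-fixed
  eigenclass, so (KEY-MAZ-SQ) gives `ResOccurs (M q)`.
-/
import Mathlib
import Fermat.Agent.ML.IFACE_lead_LevelOpt2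
import Fermat.Agent.ML.IFACE_helper3_MSQE
import Fermat.Agent.ML.LEVOPT_lead_MazOdd
import Fermat.Agent.ML.LEVOPT_helper5_InertiaFix
import Fermat.Agent.ML.NOCONG_helper7_Main
import Fermat.Agent.ML.MAZ_helper6_TopGQS
import Fermat.Agent.MP.TOPG_lead_Final
import Fermat.Agent.LR.NONEIS_helper3_Main

set_option autoImplicit false
set_option linter.unusedSectionVars false
set_option linter.unusedVariables false
set_option linter.style.haveILetI false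
set_option synthInstance.maxHeartbeats 400000

open AlgebraicCurve ModularCurve WeierstrassCurve WeierstrassCurve.Affine
open WeierstrassCurve.Affine.Point

open scoped WeierstrassCurve.Affine

namespace Fermat.Agent.ML.SqO

open Fermat.Agent.S35 Fermat.Agent.NP Fermat.Agent.GR Fermat.Agent.LR.NonEis Fermat.Agent.MP
  Fermat.Agent.SS Fermat.Agent.RB Fermat.Agent.ML.LevOpt

/-- `Ω = AlgebraicClosure ℚ`. -/
local notation "Ω" => AlgebraicClosure ℚ

/-- the absolute Galois group. -/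
local notation "GQ" => (AlgebraicClosure ℚ ≃ₐ[ℚ] AlgebraicClosure ℚ)

/-- **the square step for `q ∈ {2, 3}`, `p = 5`** (helper7's [NOCONG]). -/
theorem sqStep_noCong {p : ℕ} {W : WeierstrassCurve ℤ} (hyp : CurveHyp p W) (hpp : p.Prime)
    (hp2 : p ≠ 2) {M q : ℕ} (hM : 0 < M) (hq : q.Prime) (hqp : q ≠ p) (hqM : ¬ q ∣ M)
    (hpq : ¬ p ∣ q ^ 2 - 1) (hres : IsResModAway W p (M * q * q)) :
    IsResModAway W p (M * q) := by
  classical
  haveI : Fact p.Prime := ⟨hpp⟩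
  obtain ⟨S, hSfin, hS⟩ := hres
  set S₀ : Set ℕ := {ℓ | ℓ.Prime ∧ (ℓ ∈ S ∨ ℓ ∈ badSet W p (M * q))} with hS₀
  have hS₀fin : S₀.Finite := by
    refine Set.Finite.subset (hSfin.union
      (finite_primes_badSet W hyp.disc_ne p (M * q) (Nat.mul_pos hM hq.pos))) ?_
    rintro ℓ ⟨hℓp, hℓ | hℓ⟩
    · exact Or.inl ⟨hℓ, hℓp⟩
    · exact Or.inr ⟨hℓ, hℓp⟩
  have hres₀ : ResOccurs (M * q ^ 2) p S₀ (fun ℓ => W.apOfModel ℓ) := by
    have h1 : ResOccurs (M * q * q) p S₀ (fun ℓ => W.apOfModel ℓ) := by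
      obtain ⟨g, 𝔪, hg, hm, hp𝔪, h⟩ := hS
      exact ⟨g, 𝔪, hg, hm, hp𝔪, fun ℓ hℓ hℓT => h ℓ hℓ fun hℓS => hℓT ⟨hℓ, Or.inl hℓS⟩⟩
    have h2 : M * q * q = M * q ^ 2 := by ring
    rw [h2] at h1
    exact h1
  have h := noCongStatement p hp2 W hyp.disc_ne hyp.semistable M q hM.ne' hq hqp hqM hpq S₀ hS₀fin
    (fun ℓ hℓ hℓd => ⟨hℓ, Or.inr (Or.inr (Or.inl hℓd))⟩)
    ⟨hpp, Or.inr (Or.inr (Or.inr rfl))⟩
    (fun ℓ hℓ hbad => ⟨hℓ, Or.inr (Or.inl hbad)⟩) hres₀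
  refine ⟨S₀, ?_, h⟩
  refine hS₀fin.subset ?_
  rintro ℓ ⟨h1, -⟩
  exact h1

set_option maxHeartbeats 1600000 in
/-- **the square step for `5 ≤ q`** from (KEY-MAZ-SQ) (port of `RB.mazurSq_of_key`). -/
theorem sqStep_of_key (hK : KeyMazSqStatementE) {p : ℕ} {W : WeierstrassCurve ℤ}
    (hyp : CurveHyp p W) (hpp : p.Prime) (hp2 : p ≠ 2) {M q : ℕ} (hM : 0 < M) (hq : q.Prime)
    (hq5 : 5 ≤ q) (hqp : q ≠ p) (hqM : ¬ q ∣ M) (h3 : p = 3 → 2 ∣ M)
    (hres : IsResModAway W p (M * q * q)) : IsResModAway W p (M * q) := by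
  classical
  haveI : Fact p.Prime := ⟨hpp⟩
  obtain ⟨S, hSfin, hS⟩ := hres
  set E : WeierstrassCurve ℚ := W.map (Int.castRingHom ℚ) with hE
  haveI : E.IsElliptic := by
    refine ⟨isUnit_iff_ne_zero.mpr ?_⟩
    rw [hE, WeierstrassCurve.map_Δ]
    simpa using hyp.disc_ne
  have hW : W.IsIntegralModelOf E := ⟨1, one_smul _ _⟩
  haveI : NeZero M := ⟨hM.ne'⟩
  haveI : NeZero q := ⟨hq.ne_zero⟩
  haveI : NeZero (M * q) := ⟨(Nat.mul_pos hM hq.pos).ne'⟩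
  haveI : NeZero (M * q * q) := ⟨(Nat.mul_pos (Nat.mul_pos hM hq.pos) hq.pos).ne'⟩
  set S' : Set ℕ := (S ∪ badSet W p (M * q * q)) ∪ {2} with hS'
  have hS'fin : {ℓ : ℕ | ℓ.Prime ∧ ℓ ∈ S'}.Finite := by
    refine Set.Finite.subset ((hSfin.union
      (finite_primes_badSet W hyp.disc_ne p (M * q * q)
        (Nat.mul_pos (Nat.mul_pos hM hq.pos) hq.pos))).union
      (Set.finite_singleton 2)) ?_
    rintro ℓ ⟨hℓp, (hℓ | hℓ) | hℓ⟩
    · exact Or.inl (Or.inl ⟨hℓ, hℓp⟩)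
    · exact Or.inl (Or.inr ⟨hℓ, hℓp⟩)
    · exact Or.inr hℓ
  set a : ℕ → ℤ := fun ℓ => W.apOfModel ℓ with ha
  have hS'lev : ∀ ℓ : ℕ, ℓ.Prime → ℓ ∣ M * q * q → ℓ ∈ S' :=
    fun ℓ _ hℓ => Or.inl (Or.inr (Or.inr (Or.inl hℓ)))
  have hpS' : p ∈ S' := Or.inl (Or.inr (Or.inr (Or.inr rfl)))
  have h2S' : (2 : ℕ) ∈ S' := Or.inr rfl
  have hres' : ResOccurs (M * q * q) p S' a := hS.mono (fun ℓ hℓ => Or.inl (Or.inl hℓ))
  -- the copy of `W[p]`
  obtain ⟨w, hw, hEig⟩ := latOccStatement hpp a hres'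
  obtain ⟨x0, hx0, hx0ne⟩ := exists_mem_eigenTors_ne_zero hS'lev w hw hEig
  obtain ⟨f, hf, hfg, hfV⟩ := exists_copy_of_eigen_modelS E hW S' hS'fin hpp hp2 hyp.irreducible
    (eigenTors (M * q * q) p S' a) (fun v hv => nsmul_eq_zero_of_mem_eigenTors hv)
    (fun σ v hv => smul_mem_eigenTors hS'lev σ hv) ⟨x0, hx0, hx0ne⟩
    (fun ℓ hℓ hℓS v hv => hv.2 ℓ hℓ hℓS)
  -- a non-Eisenstein prime
  obtain ⟨ℓ₀, hℓ₀, hℓ₀S, hℓ₀p, -, hℓ₀good, hℓ₀a⟩ :=
    exists_prime_not_eisenstein E hW hpp hp2 hyp.irreducible 1 one_pos hS'fin.toFinset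
  have hnE : ∃ ℓ : ℕ, ℓ.Prime ∧ ℓ ∉ S' ∧ ¬ (a ℓ ≡ (ℓ : ℤ) + 1 [ZMOD (p : ℤ)]) := by
    refine ⟨ℓ₀, hℓ₀, ?_, ?_⟩
    · intro h
      exact hℓ₀S ((Set.Finite.mem_toFinset hS'fin).mpr ⟨hℓ₀, h⟩)
    · intro h
      apply hℓ₀a
      have := (Int.modEq_iff_dvd.mp h)
      rwa [dvd_sub_comm] at this
  -- the inertia-fixed point
  obtain ⟨A, φ, hA, -⟩ := Fermat.Agent.S54.exists_frobenius q hq
  obtain ⟨Q, hQ0, hpQ, hQI⟩ :=
    exists_inertia_fixed_torsion W hyp.disc_ne hyp.semistable hpp hp2 hq hqp A hA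
  set Q' : ↥(torsionNat (W.toAffine⁄Ω).Point p) := ⟨Q, hpQ⟩ with hQ'
  set x : JZero (M * q * q) := f Q' with hx
  have hx0 : x ≠ 0 := by
    intro h0
    have h1 : Q' = 0 := hf (by rw [← hx, h0, _root_.map_zero])
    exact hQ0 (congrArg Subtype.val h1)
  have hxV := hfV Q'
  have hpx : p • x = 0 := nsmul_eq_zero_of_mem_eigenTors hxV
  have hxI : ∀ τ ∈ A.inertiaSubgroupIn ℚ, τ • x = x := by
    intro τ hτ
    rw [hx, ← hfg τ Q']
    congr 1
    apply Subtype.ext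
    exact hQI τ hτ
  have hqM₁ : q ∣ M * q := Dvd.intro_left M rfl
  have hq2M₁ : ¬ q ^ 2 ∣ M * q := by
    intro h
    rw [pow_two] at h
    exact hqM ((Nat.mul_dvd_mul_iff_right hq.pos).mp h)
  have h3' : EvenAtThree p (M * q) := fun h => Dvd.dvd.mul_right (h3 h) q
  have hkey := hK (M * q) q p hq hq5 hpp hp2 hqp hqM₁ hq2M₁ h3' A hA S' a hS'lev hpS' h2S' hnE x
    hx0 hpx (fun ℓ hℓ hℓS => hxV.2 ℓ hℓ hℓS) hxI
  refine ⟨S', ?_, hkey⟩
  refine hS'fin.subset ?_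
  rintro ℓ ⟨h1, h2⟩
  exact ⟨h2, h1⟩

end Fermat.Agent.ML.SqO

namespace Fermat.Agent.ML

/-- **`SqStepStatementO` from (KEY-MAZ-SQ)** (every odd `p`, `5 ≤ q`) — the cases `q ∈ {2, 3}`
(then `p = 5`) are helper7's [NOCONG]. -/
theorem sqStepStatementO_of (hK : KeyMazSqStatementE) : SqStepStatementO := by
  intro p W hyp M q hM hq hqp hqM h32 h3 hres
  have hpp : p.Prime := by rcases hyp.p_eq with rfl | rfl <;> norm_num
  have hp2 : p ≠ 2 := by rcases hyp.p_eq with rfl | rfl <;> norm_num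
  by_cases hq5 : 5 ≤ q
  · exact SqO.sqStep_of_key hK hyp hpp hp2 hM hq hq5 hqp hqM h3 hres
  · have hq23 : q = 2 ∨ q = 3 := by
      have hlt : q < 5 := by omega
      interval_cases q
      · exact absurd hq (by norm_num)
      · exact absurd hq (by norm_num)
      · exact Or.inl rfl
      · exact Or.inr rfl
      · exact absurd hq (by norm_num)
    have hp5 : p = 5 := by
      rcases hyp.p_eq with h | h
      · exfalso
        rcases hq23 with h' | h'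
        · exact h32 ⟨h, h'⟩
        · exact hqp (h'.trans h.symm)
      · exact h
    have hpq : ¬ p ∣ q ^ 2 - 1 := by
      rw [hp5]
      rcases hq23 with h' | h' <;> rw [h'] <;> norm_num
    exact SqO.sqStep_noCong hyp hpp hp2 hM hq hqp hqM hpq hres

end Fermat.Agent.ML
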