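/-
ML — helper3 — [MSQ] **the three-level data (`MP.ThreeHyps`) of the three sheets of the Legendre
host of level `M q q`**, generic unramified base.

Levels `M`, `M ℓ` (good reduction) and `M q q`, `M q q ℓ`.  The sheets of level `M q q ℓ` are the
sheets of the S36 model of level `(M ℓ) q q`, transported by `legLevelCast`.

* `legSqA`, `legSqB` : the parametrisations `A_q ∘ A_q`, `B_q ∘ B_q : E_M → E_{Mqq}` of the sheets
  `W20`, `W11` (by `A ∘ A`) and `W02` (by `B ∘ B`); `legSqAmid`, `legSqBmid` : the same at level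
  `M ℓ`, with values in `E_{Mqqℓ}`;
* `threeHyps_leg20`, `threeHyps_leg11`, `threeHyps_leg02` : the three-level data; the identification
  of the sheets above `W11`, `W02` along `A_ℓ`, `B_ℓ` is by UNIQUENESS (`IsThreeSheet.only_*`).
-/
import Mathlib
import Fermat.Agent.MP.HECKERS0_helper4_Three
import Fermat.Agent.S36.HOST36_helper7_DeltaInst

set_option autoImplicit false
set_option linter.unusedSectionVars false
set_option linter.unusedVariables false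
set_option linter.style.haveILetI false
set_option synthInstance.maxHeartbeats 400000

open Polynomial ModularCurve IntermediateField

namespace Fermat.Agent.ML

open Fermat.Agent.JA Fermat.Agent.Igusa Fermat.Agent.SS Fermat.Agent.MP Fermat.Agent.S36

open scoped Fermat.Agent.JA.Host

noncomputable section

section Maps

variable (K : Type*) [Field K] [Algebra ℚ K] [Algebra K ℂ]

/-- two ring homomorphisms between hosts with the same effect on the series are equal. -/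
theorem legRingHom_ext {N' : ℕ} [NeZero N'] {L : Type*} [Semiring L]
    {φ ψ : L →+* ↥(legE K N')}
    (h : ∀ f : L, ((φ f : ↥(legE K N')) : LaurentSeries K) = (ψ f : ↥(legE K N'))) : φ = ψ :=
  RingHom.ext fun f => Subtype.ext (h f)

variable (M q ℓ : ℕ) [NeZero M] [NeZero q] [NeZero ℓ] [NeZero (M * q)] [NeZero (M * q * q)]
  [NeZero (M * ℓ)] [NeZero (M * ℓ * q)] [NeZero (M * ℓ * q * q)] [NeZero (M * q * ℓ)]
  [NeZero (M * q * q * ℓ)]

/-- `A_q ∘ A_q : E_M → E_{Mqq}` (the inclusion). -/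
def legSqA : ↥(legE K M) →ₐ[K] ↥(legE K (M * q * q)) :=
  (legHostA K (M * q) q).comp (legHostA K M q)

@[simp] theorem coe_legSqA (f : ↥(legE K M)) :
    ((legSqA K M q f : ↥(legE K (M * q * q))) : LaurentSeries K) = f := by
  rw [legSqA, AlgHom.comp_apply, coe_legHostA, coe_legHostA]

/-- `B_q ∘ B_q : E_M → E_{Mqq}` (`x ↦ x ^ (q q)`). -/
def legSqB (hq : q.Prime) (hq2 : q ≠ 2) : ↥(legE K M) →ₐ[K] ↥(legE K (M * q * q)) :=
  (legHostB K (M * q) q hq hq2).comp (legHostB K M q hq hq2)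

@[simp] theorem coe_legSqB (hq : q.Prime) (hq2 : q ≠ 2) (f : ↥(legE K M)) :
    ((legSqB K M q hq hq2 f : ↥(legE K (M * q * q))) : LaurentSeries K) =
      qExpand K q (qExpand K q (f : LaurentSeries K)) := by
  rw [legSqB, AlgHom.comp_apply, coe_legHostB, coe_legHostB]

/-- the identification `E_{Mqqℓ} = E_{Mℓqq}`. -/
def legSqCast : ↥(legE K (M * q * q * ℓ)) ≃ₐ[K] ↥(legE K (M * ℓ * q * q)) :=
  legLevelCast K (by ring)

@[simp] theorem coe_legSqCast (f : ↥(legE K (M * q * q * ℓ))) :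
    ((legSqCast K M q ℓ f : ↥(legE K (M * ℓ * q * q))) : LaurentSeries K) = f :=
  coe_legLevelCast K _ f

@[simp] theorem coe_legSqCast_symm (f : ↥(legE K (M * ℓ * q * q))) :
    (((legSqCast K M q ℓ).symm f : ↥(legE K (M * q * q * ℓ))) : LaurentSeries K) = f := by
  have h := coe_legSqCast K M q ℓ ((legSqCast K M q ℓ).symm f)
  rw [AlgEquiv.apply_symm_apply] at h
  exact h.symm

/-- `A_q ∘ A_q : E_{Mℓ} → E_{Mqqℓ}`. -/
def legSqAmid : ↥(legE K (M * ℓ)) →ₐ[K] ↥(legE K (M * q * q * ℓ)) :=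
  ((legSqCast K M q ℓ).symm : ↥(legE K (M * ℓ * q * q)) →ₐ[K] ↥(legE K (M * q * q * ℓ))).comp
    (legSqA K (M * ℓ) q)

@[simp] theorem coe_legSqAmid (f : ↥(legE K (M * ℓ))) :
    ((legSqAmid K M q ℓ f : ↥(legE K (M * q * q * ℓ))) : LaurentSeries K) = f := by
  rw [legSqAmid, AlgHom.comp_apply]
  show (((legSqCast K M q ℓ).symm (legSqA K (M * ℓ) q f) : ↥(legE K (M * q * q * ℓ))) :
    LaurentSeries K) = f
  rw [coe_legSqCast_symm, coe_legSqA]

/-- `B_q ∘ B_q : E_{Mℓ} → E_{Mqqℓ}`. -/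
def legSqBmid (hq : q.Prime) (hq2 : q ≠ 2) : ↥(legE K (M * ℓ)) →ₐ[K] ↥(legE K (M * q * q * ℓ)) :=
  ((legSqCast K M q ℓ).symm : ↥(legE K (M * ℓ * q * q)) →ₐ[K] ↥(legE K (M * q * q * ℓ))).comp
    (legSqB K (M * ℓ) q hq hq2)

@[simp] theorem coe_legSqBmid (hq : q.Prime) (hq2 : q ≠ 2) (f : ↥(legE K (M * ℓ))) :
    ((legSqBmid K M q ℓ hq hq2 f : ↥(legE K (M * q * q * ℓ))) : LaurentSeries K) =
      qExpand K q (qExpand K q (f : LaurentSeries K)) := by
  rw [legSqBmid, AlgHom.comp_apply]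
  show (((legSqCast K M q ℓ).symm (legSqB K (M * ℓ) q hq hq2 f) : ↥(legE K (M * q * q * ℓ))) :
    LaurentSeries K) = _
  rw [coe_legSqCast_symm, coe_legSqB]

/-- the inclusion `E_{Mq} → E_{Mℓq}` (the degeneracy map `A_ℓ` of level `M q`, with the level
written `M ℓ q`). -/
def legMidA : ↥(legE K (M * q)) →ₐ[K] ↥(legE K (M * ℓ * q)) :=
  IntermediateField.inclusion (legE_le_of_dvd K ⟨ℓ, by ring⟩)

@[simp] theorem coe_legMidA (f : ↥(legE K (M * q))) :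
    ((legMidA K M q ℓ f : ↥(legE K (M * ℓ * q))) : LaurentSeries K) = f :=
  IntermediateField.coe_inclusion _ f

/-- the dilation `E_{Mq} → E_{Mℓq}`, `x ↦ x ^ ℓ` (the degeneracy map `B_ℓ` of level `M q`, with
the level written `M ℓ q`). -/
def legMidB (hℓ : ℓ.Prime) (hℓ2 : ℓ ≠ 2) : ↥(legE K (M * q)) →ₐ[K] ↥(legE K (M * ℓ * q)) :=
  dilateAlgHom K ℓ (legE K (M * q)) (legE K (M * ℓ * q))
    (fun _ hf => qExpand_mem_legE_of_mem K hℓ hℓ2 ⟨1, by ring⟩ hf)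

@[simp] theorem coe_legMidB (hℓ : ℓ.Prime) (hℓ2 : ℓ ≠ 2) (f : ↥(legE K (M * q))) :
    ((legMidB K M q ℓ hℓ hℓ2 f : ↥(legE K (M * ℓ * q))) : LaurentSeries K) =
      qExpand K ℓ (f : LaurentSeries K) := rfl

end Maps

section Abs

variable {F₀ F₁ F₂ : Type*} [Field F₀] [Field F₁] [Field F₂]

/-- residue degree one is transitive. -/
theorem res_comp {a₁ : F₀ →+* F₁} {a₂ : F₁ →+* F₂} {V₀ : ValuationSubring F₀}
    {V₁ : ValuationSubring F₁} {V₂ : ValuationSubring F₂} (h₂ : V₂.comap a₂ = V₁)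
    (r₂ : ∀ x ∈ V₂, ∃ a ∈ V₁, V₂.valuation (x - a₂ a) < 1)
    (r₁ : ∀ x ∈ V₁, ∃ a ∈ V₀, V₁.valuation (x - a₁ a) < 1) :
    ∀ x ∈ V₂, ∃ a ∈ V₀, V₂.valuation (x - a₂ (a₁ a)) < 1 := by
  intro x hx
  obtain ⟨b, hb, hxb⟩ := r₂ x hx
  obtain ⟨a, ha, hba⟩ := r₁ b hb
  refine ⟨a, ha, ?_⟩
  have h1 : V₂.valuation (a₂ (b - a₁ a)) < 1 := (hecker_comap_val_lt_one_iff V₁ a₂ h₂ _).mpr hba
  have e : x - a₂ (a₁ a) = (x - a₂ b) + a₂ (b - a₁ a) := by rw [map_sub]; ring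
  rw [e]
  exact lt_of_le_of_lt (V₂.valuation.map_add _ _) (max_lt hxb h1)

/-- comap along two sides of a commutative square. -/
theorem comap_of_square {F₃ : Type*} [Field F₃] (a : F₀ →+* F₁) (b : F₁ →+* F₃) (c : F₀ →+* F₂)
    (d : F₂ →+* F₃) (hsq : b.comp a = d.comp c) (V₃ : ValuationSubring F₃)
    {V₂ : ValuationSubring F₂} (hd : V₃.comap d = V₂) :
    (V₃.comap b).comap a = V₂.comap c := by
  rw [ValuationSubring.comap_comap, hsq, ← ValuationSubring.comap_comap, hd]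

end Abs

section Sheets

variable (R : Type*) [CommRing R] [IsDomain R] [IsDiscreteValuationRing R] [CharZero R]
  [DecidableEq R]
  (K : Type*) [Field K] [Algebra R K] [IsFractionRing R K] [Algebra ℚ K] [Algebra K ℂ]

/-- the comap of the Gauss ring along a coefficient-preserving ring homomorphism. -/
theorem legWinf_comap_of_coe_eq (h2 : IsUnit (2 : R)) {N N' : ℕ} [NeZero N] [NeZero N']
    (φ : ↥(legE K N) →+* ↥(legE K N'))
    (hφ : ∀ f : ↥(legE K N), ((φ f : ↥(legE K N')) : LaurentSeries K) = (f : LaurentSeries K)) :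
    (legWinf R K h2 N').comap φ = legWinf R K h2 N := by
  ext f
  rw [ValuationSubring.mem_comap]
  show ((φ f : ↥(legE K N')) : LaurentSeries K) ∈ gaussInt R K ↔
    (f : LaurentSeries K) ∈ gaussInt R K
  rw [hφ]

/-- the comap of the Gauss ring along a ring homomorphism acting by `x ↦ x ^ ℓ` on the series. -/
theorem legWinf_comap_of_coe_eq_qExpand (h2 : IsUnit (2 : R)) {N N' : ℕ} [NeZero N] [NeZero N']
    (ℓ : ℕ) [NeZero ℓ] (φ : ↥(legE K N) →+* ↥(legE K N'))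
    (hφ : ∀ f : ↥(legE K N),
      ((φ f : ↥(legE K N')) : LaurentSeries K) = qExpand K ℓ (f : LaurentSeries K)) :
    (legWinf R K h2 N').comap φ = legWinf R K h2 N := by
  ext f
  rw [ValuationSubring.mem_comap]
  show ((φ f : ↥(legE K N')) : LaurentSeries K) ∈ gaussInt R K ↔
    (f : LaurentSeries K) ∈ gaussInt R K
  rw [hφ]
  constructor
  · exact (gaussHomQExpand R K ℓ).mem_gaussInt_of_map_mem (legE_le_gaussField R K h2 N f.2)
  · exact fun h => (gaussHomQExpand R K ℓ).map_mem_gaussInt h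

variable {M q ℓ : ℕ} [NeZero M] [NeZero q] [NeZero ℓ] [NeZero (M * q)] [NeZero (M * q * q)]
  [NeZero (M * ℓ)] [NeZero (M * ℓ * q)] [NeZero (M * ℓ * q * q)] [NeZero (M * q * ℓ)]
  [NeZero (M * q * q * ℓ)] {x₁ y₁ x₂ y₂ : ℤ} {π : R}

/-- **the three-level datum of the sheet `W20`.** -/
theorem threeHyps_leg20 {h2 : IsUnit (2 : R)} {hbez₁ : (q : ℤ) * x₁ + M * y₁ = 1}
    {hq : q.Prime} {hq2 : q ≠ 2}
    (h₁ : SSModelLeg R K (M := M) (q := q) π h2 hbez₁ hq hq2)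
    {W11 W02 : ValuationSubring ↥(legE K (M * q * q))} {ϖ δ : ↥(legE K (M * q * q))}
    (hT : IsThreeSheet (legHostA K (M * q) q : ↥(legE K (M * q)) →+* ↥(legE K (M * q * q)))
      (legHostB K (M * q) q hq hq2 : ↥(legE K (M * q)) →+* ↥(legE K (M * q * q))) q
      (legWinf R K h2 (M * q)) (legW0 R K hbez₁ hq) (legWinf R K h2 (M * q * q)) W11 W02 ϖ δ)
    (hℓ : ℓ.Prime) (hℓ2 : ℓ ≠ 2) {n : ℕ} (hn : 0 < n)
    (hdeg₀ : letI := (legHostA K M ℓ : ↥(legE K M) →+* ↥(legE K (M * ℓ))).toAlgebra;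
      Module.finrank ↥(legE K M) ↥(legE K (M * ℓ)) = n)
    (hdeg : letI := (legHostA K (M * q * q) ℓ :
        ↥(legE K (M * q * q)) →+* ↥(legE K (M * q * q * ℓ))).toAlgebra;
      Module.finrank ↥(legE K (M * q * q)) ↥(legE K (M * q * q * ℓ)) = n)
    (c : Fin n → ↥(legE K (M * ℓ)))
    (hc : letI := (legHostA K M ℓ : ↥(legE K M) →+* ↥(legE K (M * ℓ))).toAlgebra;
      ResIndep (legWinf R K h2 M) (legWinf R K h2 (M * ℓ)) c) :
    ThreeHyps (legHostA K M ℓ : ↥(legE K M) →+* ↥(legE K (M * ℓ)))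
      (legHostB K M ℓ hℓ hℓ2 : ↥(legE K M) →+* ↥(legE K (M * ℓ)))
      (legHostA K (M * q * q) ℓ : ↥(legE K (M * q * q)) →+* ↥(legE K (M * q * q * ℓ)))
      (legHostB K (M * q * q) ℓ hℓ hℓ2 : ↥(legE K (M * q * q)) →+* ↥(legE K (M * q * q * ℓ)))
      (legSqA K M q : ↥(legE K M) →+* ↥(legE K (M * q * q)))
      (legSqAmid K M q ℓ : ↥(legE K (M * ℓ)) →+* ↥(legE K (M * q * q * ℓ)))
      (legWinf R K h2 M) (legWinf R K h2 (M * ℓ)) (legWinf R K h2 (M * q * q))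
      (legWinf R K h2 (M * q * q * ℓ)) n c := by
  haveI : FiniteDimensional ↥K⟮jqNModC K 2⟯ ↥(legE K (M * q)) := finite_legE_adjoin_j K (M * q)
  have h₁' := SSModelLeg.ssModel R K h₁
  have hAP : ∀ x : ↥(legE K M),
      (legHostA K (M * q * q) ℓ : ↥(legE K (M * q * q)) →+* ↥(legE K (M * q * q * ℓ)))
        ((legSqA K M q : ↥(legE K M) →+* ↥(legE K (M * q * q))) x) =
      (legSqAmid K M q ℓ : ↥(legE K (M * ℓ)) →+* ↥(legE K (M * q * q * ℓ)))
        ((legHostA K M ℓ : ↥(legE K M) →+* ↥(legE K (M * ℓ))) x) := fun x => Subtype.ext (by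
    rw [RingHom.coe_coe, RingHom.coe_coe, RingHom.coe_coe, RingHom.coe_coe, coe_legHostA,
      coe_legSqA, coe_legSqAmid, coe_legHostA])
  have hBP : ∀ x : ↥(legE K M),
      (legHostB K (M * q * q) ℓ hℓ hℓ2 : ↥(legE K (M * q * q)) →+* ↥(legE K (M * q * q * ℓ)))
        ((legSqA K M q : ↥(legE K M) →+* ↥(legE K (M * q * q))) x) =
      (legSqAmid K M q ℓ : ↥(legE K (M * ℓ)) →+* ↥(legE K (M * q * q * ℓ)))
        ((legHostB K M ℓ hℓ hℓ2 : ↥(legE K M) →+* ↥(legE K (M * ℓ))) x) := fun x => Subtype.ext (by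
    rw [RingHom.coe_coe, RingHom.coe_coe, RingHom.coe_coe, RingHom.coe_coe, coe_legHostB,
      coe_legSqA, coe_legSqAmid, coe_legHostB])
  have hcP : (legWinf R K h2 (M * q * q)).comap
      (legSqA K M q : ↥(legE K M) →+* ↥(legE K (M * q * q))) = legWinf R K h2 M :=
    legWinf_comap_of_coe_eq R K h2 _ (fun f => by rw [RingHom.coe_coe, coe_legSqA])
  have hcP' : (legWinf R K h2 (M * q * q * ℓ)).comap
      (legSqAmid K M q ℓ : ↥(legE K (M * ℓ)) →+* ↥(legE K (M * q * q * ℓ))) =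
      legWinf R K h2 (M * ℓ) :=
    legWinf_comap_of_coe_eq R K h2 _ (fun f => by rw [RingHom.coe_coe, coe_legSqAmid])
  have hcA : (legWinf R K h2 (M * q * q * ℓ)).comap
      (legHostA K (M * q * q) ℓ : ↥(legE K (M * q * q)) →+* ↥(legE K (M * q * q * ℓ))) =
      legWinf R K h2 (M * q * q) := ssModelLeg_comap_A_inf R K (M := M * q * q) (q := ℓ) h2
  have hcB : (legWinf R K h2 (M * q * q * ℓ)).comap
      (legHostB K (M * q * q) ℓ hℓ hℓ2 : ↥(legE K (M * q * q)) →+* ↥(legE K (M * q * q * ℓ))) =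
      legWinf R K h2 (M * q * q) := ssModelLeg_comap_B_inf R K (M := M * q * q) h2 hℓ hℓ2
  have hcA₀ : (legWinf R K h2 (M * ℓ)).comap
      (legHostA K M ℓ : ↥(legE K M) →+* ↥(legE K (M * ℓ))) = legWinf R K h2 M :=
    ssModelLeg_comap_A_inf R K (M := M) (q := ℓ) h2
  have hcB₀ : (legWinf R K h2 (M * ℓ)).comap
      (legHostB K M ℓ hℓ hℓ2 : ↥(legE K M) →+* ↥(legE K (M * ℓ))) = legWinf R K h2 M :=
    ssModelLeg_comap_B_inf R K (M := M) h2 hℓ hℓ2
  have hres : ∀ x ∈ legWinf R K h2 (M * q * q), ∃ a ∈ legWinf R K h2 M,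
      (legWinf R K h2 (M * q * q)).valuation
        (x - (legSqA K M q : ↥(legE K M) →+* ↥(legE K (M * q * q))) a) < 1 := by
    have := res_comp hT.comap_A_20 hT.res_A_20 h₁'.res_inf
    intro x hx
    obtain ⟨a, ha, hxa⟩ := this x hx
    exact ⟨a, ha, hxa⟩
  have hfin₀ : letI := (legHostA K M ℓ : ↥(legE K M) →+* ↥(legE K (M * ℓ))).toAlgebra;
      FiniteDimensional ↥(legE K M) ↥(legE K (M * ℓ)) := by
    letI := (legHostA K M ℓ : ↥(legE K M) →+* ↥(legE K (M * ℓ))).toAlgebra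
    exact Module.finite_of_finrank_pos (by rw [hdeg₀]; exact hn)
  have hfin : letI := (legHostA K (M * q * q) ℓ :
        ↥(legE K (M * q * q)) →+* ↥(legE K (M * q * q * ℓ))).toAlgebra;
      FiniteDimensional ↥(legE K (M * q * q)) ↥(legE K (M * q * q * ℓ)) := by
    letI := (legHostA K (M * q * q) ℓ :
      ↥(legE K (M * q * q)) →+* ↥(legE K (M * q * q * ℓ))).toAlgebra
    exact Module.finite_of_finrank_pos (by rw [hdeg]; exact hn)
  exact ⟨hAP, hBP, hcP, hcP', hcA, hcB, hcA₀, hcB₀, hres, hfin₀, hdeg₀, hfin, hdeg, hc⟩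

variable (M q ℓ)

/-- `cast ∘ A_ℓ : E_{Mqq} → E_{Mℓqq}`. -/
def legSqUpA : ↥(legE K (M * q * q)) →+* ↥(legE K (M * ℓ * q * q)) :=
  ((legSqCast K M q ℓ : ↥(legE K (M * q * q * ℓ)) ≃ₐ[K] ↥(legE K (M * ℓ * q * q))) :
    ↥(legE K (M * q * q * ℓ)) →+* ↥(legE K (M * ℓ * q * q))).comp
    (legHostA K (M * q * q) ℓ : ↥(legE K (M * q * q)) →+* ↥(legE K (M * q * q * ℓ)))

theorem coe_legSqUpA (f : ↥(legE K (M * q * q))) :
    ((legSqUpA K M q ℓ f : ↥(legE K (M * ℓ * q * q))) : LaurentSeries K) = f := by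
  rw [legSqUpA, RingHom.comp_apply, RingHom.coe_coe, coe_legSqCast, RingHom.coe_coe, coe_legHostA]

/-- `cast ∘ B_ℓ : E_{Mqq} → E_{Mℓqq}`. -/
def legSqUpB (hℓ : ℓ.Prime) (hℓ2 : ℓ ≠ 2) :
    ↥(legE K (M * q * q)) →+* ↥(legE K (M * ℓ * q * q)) :=
  ((legSqCast K M q ℓ : ↥(legE K (M * q * q * ℓ)) ≃ₐ[K] ↥(legE K (M * ℓ * q * q))) :
    ↥(legE K (M * q * q * ℓ)) →+* ↥(legE K (M * ℓ * q * q))).comp
    (legHostB K (M * q * q) ℓ hℓ hℓ2 : ↥(legE K (M * q * q)) →+* ↥(legE K (M * q * q * ℓ)))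

theorem coe_legSqUpB (hℓ : ℓ.Prime) (hℓ2 : ℓ ≠ 2) (f : ↥(legE K (M * q * q))) :
    ((legSqUpB K M q ℓ hℓ hℓ2 f : ↥(legE K (M * ℓ * q * q))) : LaurentSeries K) =
      qExpand K ℓ (f : LaurentSeries K) := by
  rw [legSqUpB, RingHom.comp_apply, RingHom.coe_coe, coe_legSqCast, RingHom.coe_coe, coe_legHostB]

/-- the four commutative squares `E_{Mq} → E_{Mℓqq}`. -/
theorem legSqUpA_comp_A :
    (legSqUpA K M q ℓ).comp
      (legHostA K (M * q) q : ↥(legE K (M * q)) →+* ↥(legE K (M * q * q))) =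
    (legHostA K (M * ℓ * q) q : ↥(legE K (M * ℓ * q)) →+* ↥(legE K (M * ℓ * q * q))).comp
      (legMidA K M q ℓ : ↥(legE K (M * q)) →+* ↥(legE K (M * ℓ * q))) :=
  legRingHom_ext K fun f => by
    rw [RingHom.comp_apply, RingHom.comp_apply, coe_legSqUpA, RingHom.coe_coe, RingHom.coe_coe,
      RingHom.coe_coe, coe_legHostA, coe_legHostA, coe_legMidA]

theorem legSqUpA_comp_B (hq : q.Prime) (hq2 : q ≠ 2) :
    (legSqUpA K M q ℓ).comp
      (legHostB K (M * q) q hq hq2 : ↥(legE K (M * q)) →+* ↥(legE K (M * q * q))) =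
    (legHostB K (M * ℓ * q) q hq hq2 :
        ↥(legE K (M * ℓ * q)) →+* ↥(legE K (M * ℓ * q * q))).comp
      (legMidA K M q ℓ : ↥(legE K (M * q)) →+* ↥(legE K (M * ℓ * q))) :=
  legRingHom_ext K fun f => by
    rw [RingHom.comp_apply, RingHom.comp_apply, coe_legSqUpA, RingHom.coe_coe, RingHom.coe_coe,
      RingHom.coe_coe, coe_legHostB, coe_legHostB, coe_legMidA]

theorem legSqUpB_comp_A (hℓ : ℓ.Prime) (hℓ2 : ℓ ≠ 2) :
    (legSqUpB K M q ℓ hℓ hℓ2).comp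
      (legHostA K (M * q) q : ↥(legE K (M * q)) →+* ↥(legE K (M * q * q))) =
    (legHostA K (M * ℓ * q) q : ↥(legE K (M * ℓ * q)) →+* ↥(legE K (M * ℓ * q * q))).comp
      (legMidB K M q ℓ hℓ hℓ2 : ↥(legE K (M * q)) →+* ↥(legE K (M * ℓ * q))) :=
  legRingHom_ext K fun f => by
    rw [RingHom.comp_apply, RingHom.comp_apply, coe_legSqUpB, RingHom.coe_coe, RingHom.coe_coe,
      RingHom.coe_coe, coe_legHostA, coe_legHostA, coe_legMidB]

theorem legSqUpB_comp_B (hq : q.Prime) (hq2 : q ≠ 2) (hℓ : ℓ.Prime) (hℓ2 : ℓ ≠ 2) :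
    (legSqUpB K M q ℓ hℓ hℓ2).comp
      (legHostB K (M * q) q hq hq2 : ↥(legE K (M * q)) →+* ↥(legE K (M * q * q))) =
    (legHostB K (M * ℓ * q) q hq hq2 :
        ↥(legE K (M * ℓ * q)) →+* ↥(legE K (M * ℓ * q * q))).comp
      (legMidB K M q ℓ hℓ hℓ2 : ↥(legE K (M * q)) →+* ↥(legE K (M * ℓ * q))) :=
  legRingHom_ext K fun f => by
    rw [RingHom.comp_apply, RingHom.comp_apply, coe_legSqUpB, RingHom.coe_coe, RingHom.coe_coe,
      RingHom.coe_coe, coe_legHostB, coe_legHostB, coe_legMidB, qExpand_qExpand, qExpand_qExpand]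
    exact qExpand_congr (R := K) (mul_comm ℓ q) _

variable {M q ℓ}

/-- the sheets of level `M q q ℓ` above the sheets of level `M q q`, along `A_ℓ` and `B_ℓ`:
uniqueness. -/
theorem legSq_comap_up {h2 : IsUnit (2 : R)} {hbez₁ : (q : ℤ) * x₁ + M * y₁ = 1}
    {hbez₂ : (q : ℤ) * x₂ + ((M * ℓ : ℕ) : ℤ) * y₂ = 1} {hq : q.Prime} {hq2 : q ≠ 2}
    (h₁ : SSModelLeg R K (M := M) (q := q) π h2 hbez₁ hq hq2)
    (h₂ : SSModelLeg R K (M := M * ℓ) (q := q) π h2 hbez₂ hq hq2) (hπ : Irreducible π)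
    {W11 W02 : ValuationSubring ↥(legE K (M * q * q))} {ϖ δ : ↥(legE K (M * q * q))}
    (hT : IsThreeSheet (legHostA K (M * q) q : ↥(legE K (M * q)) →+* ↥(legE K (M * q * q)))
      (legHostB K (M * q) q hq hq2 : ↥(legE K (M * q)) →+* ↥(legE K (M * q * q))) q
      (legWinf R K h2 (M * q)) (legW0 R K hbez₁ hq) (legWinf R K h2 (M * q * q)) W11 W02 ϖ δ)
    {W11' W02' : ValuationSubring ↥(legE K (M * ℓ * q * q))} {ϖ' δ' : ↥(legE K (M * ℓ * q * q))}
    (hT' : IsThreeSheet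
      (legHostA K (M * ℓ * q) q : ↥(legE K (M * ℓ * q)) →+* ↥(legE K (M * ℓ * q * q)))
      (legHostB K (M * ℓ * q) q hq hq2 : ↥(legE K (M * ℓ * q)) →+* ↥(legE K (M * ℓ * q * q))) q
      (legWinf R K h2 (M * ℓ * q)) (legW0 R K hbez₂ hq) (legWinf R K h2 (M * ℓ * q * q))
      W11' W02' ϖ' δ')
    (hℓ : ℓ.Prime) (hℓ2 : ℓ ≠ 2) :
    W11'.comap (legSqUpA K M q ℓ) = W11 ∧ W11'.comap (legSqUpB K M q ℓ hℓ hℓ2) = W11 ∧
    W02'.comap (legSqUpA K M q ℓ) = W02 ∧ W02'.comap (legSqUpB K M q ℓ hℓ hℓ2) = W02 := by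
  -- the four comaps of level `M q`
  have hGA : (legWinf R K h2 (M * ℓ * q)).comap
      (legMidA K M q ℓ : ↥(legE K (M * q)) →+* ↥(legE K (M * ℓ * q))) = legWinf R K h2 (M * q) :=
    legWinf_comap_of_coe_eq R K h2 _ (fun f => by rw [RingHom.coe_coe, coe_legMidA])
  have hGB : (legWinf R K h2 (M * ℓ * q)).comap
      (legMidB K M q ℓ hℓ hℓ2 : ↥(legE K (M * q)) →+* ↥(legE K (M * ℓ * q))) =
      legWinf R K h2 (M * q) :=
    legWinf_comap_of_coe_eq_qExpand R K h2 ℓ _ (fun f => by rw [RingHom.coe_coe, coe_legMidB])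
  have hZA : (legW0 R K hbez₂ hq).comap
      (legMidA K M q ℓ : ↥(legE K (M * q)) →+* ↥(legE K (M * ℓ * q))) = legW0 R K hbez₁ hq :=
    legW0_comap_of_coe_eq R K h₁ h₂ _ (fun f => by rw [RingHom.coe_coe, coe_legMidA])
  have hZB : (legW0 R K hbez₂ hq).comap
      (legMidB K M q ℓ hℓ hℓ2 : ↥(legE K (M * q)) →+* ↥(legE K (M * ℓ * q))) =
      legW0 R K hbez₁ hq :=
    legW0_comap_of_coe_eq_qExpand R K h₁ h₂ hπ hℓ hℓ2 _
      (fun f => by rw [RingHom.coe_coe, coe_legMidB])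
  refine ⟨?_, ?_, ?_, ?_⟩
  · -- `W11`, along `A_ℓ`
    have hA := comap_of_square _ _ _ _ (legSqUpA_comp_A K M q ℓ) W11' hT'.comap_A_11
    rw [hGA] at hA
    have hB := comap_of_square _ _ _ _ (legSqUpA_comp_B K M q ℓ hq hq2) W11' hT'.comap_B_11
    rw [hZA] at hB
    rcases hT.only_A_inf _ hA with h | h
    · rcases hT.only_B_zero _ hB with h' | h'
      · exact absurd (h.symm.trans h') hT.ne_20_02
      · exact h'
    · exact h
  · -- `W11`, along `B_ℓ`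
    have hA := comap_of_square _ _ _ _ (legSqUpB_comp_A K M q ℓ hℓ hℓ2) W11' hT'.comap_A_11
    rw [hGB] at hA
    have hB := comap_of_square _ _ _ _ (legSqUpB_comp_B K M q ℓ hq hq2 hℓ hℓ2) W11'
      hT'.comap_B_11
    rw [hZB] at hB
    rcases hT.only_A_inf _ hA with h | h
    · rcases hT.only_B_zero _ hB with h' | h'
      · exact absurd (h.symm.trans h') hT.ne_20_02
      · exact h'
    · exact h
  · -- `W02`, along `A_ℓ`
    have hA := comap_of_square _ _ _ _ (legSqUpA_comp_A K M q ℓ) W02' hT'.comap_A_02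
    rw [hZA] at hA
    exact hT.only_A_zero _ hA
  · -- `W02`, along `B_ℓ`
    have hA := comap_of_square _ _ _ _ (legSqUpB_comp_A K M q ℓ hℓ hℓ2) W02' hT'.comap_A_02
    rw [hZB] at hA
    exact hT.only_A_zero _ hA

/-- **the three-level datum of the sheet `W11`.** -/
theorem threeHyps_leg11 {h2 : IsUnit (2 : R)} {hbez₁ : (q : ℤ) * x₁ + M * y₁ = 1}
    {hbez₂ : (q : ℤ) * x₂ + ((M * ℓ : ℕ) : ℤ) * y₂ = 1} {hq : q.Prime} {hq2 : q ≠ 2}
    (h₁ : SSModelLeg R K (M := M) (q := q) π h2 hbez₁ hq hq2)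
    (h₂ : SSModelLeg R K (M := M * ℓ) (q := q) π h2 hbez₂ hq hq2) (hπ : Irreducible π)
    {W11 W02 : ValuationSubring ↥(legE K (M * q * q))} {ϖ δ : ↥(legE K (M * q * q))}
    (hT : IsThreeSheet (legHostA K (M * q) q : ↥(legE K (M * q)) →+* ↥(legE K (M * q * q)))
      (legHostB K (M * q) q hq hq2 : ↥(legE K (M * q)) →+* ↥(legE K (M * q * q))) q
      (legWinf R K h2 (M * q)) (legW0 R K hbez₁ hq) (legWinf R K h2 (M * q * q)) W11 W02 ϖ δ)
    {W11' W02' : ValuationSubring ↥(legE K (M * ℓ * q * q))} {ϖ' δ' : ↥(legE K (M * ℓ * q * q))}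
    (hT' : IsThreeSheet
      (legHostA K (M * ℓ * q) q : ↥(legE K (M * ℓ * q)) →+* ↥(legE K (M * ℓ * q * q)))
      (legHostB K (M * ℓ * q) q hq hq2 : ↥(legE K (M * ℓ * q)) →+* ↥(legE K (M * ℓ * q * q))) q
      (legWinf R K h2 (M * ℓ * q)) (legW0 R K hbez₂ hq) (legWinf R K h2 (M * ℓ * q * q))
      W11' W02' ϖ' δ')
    (hℓ : ℓ.Prime) (hℓ2 : ℓ ≠ 2) {n : ℕ} (hn : 0 < n)
    (hdeg₀ : letI := (legHostA K M ℓ : ↥(legE K M) →+* ↥(legE K (M * ℓ))).toAlgebra;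
      Module.finrank ↥(legE K M) ↥(legE K (M * ℓ)) = n)
    (hdeg : letI := (legHostA K (M * q * q) ℓ :
        ↥(legE K (M * q * q)) →+* ↥(legE K (M * q * q * ℓ))).toAlgebra;
      Module.finrank ↥(legE K (M * q * q)) ↥(legE K (M * q * q * ℓ)) = n)
    (c : Fin n → ↥(legE K (M * ℓ)))
    (hc : letI := (legHostA K M ℓ : ↥(legE K M) →+* ↥(legE K (M * ℓ))).toAlgebra;
      ResIndep (legWinf R K h2 M) (legWinf R K h2 (M * ℓ)) c) :
    ThreeHyps (legHostA K M ℓ : ↥(legE K M) →+* ↥(legE K (M * ℓ)))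
      (legHostB K M ℓ hℓ hℓ2 : ↥(legE K M) →+* ↥(legE K (M * ℓ)))
      (legHostA K (M * q * q) ℓ : ↥(legE K (M * q * q)) →+* ↥(legE K (M * q * q * ℓ)))
      (legHostB K (M * q * q) ℓ hℓ hℓ2 : ↥(legE K (M * q * q)) →+* ↥(legE K (M * q * q * ℓ)))
      (legSqA K M q : ↥(legE K M) →+* ↥(legE K (M * q * q)))
      (legSqAmid K M q ℓ : ↥(legE K (M * ℓ)) →+* ↥(legE K (M * q * q * ℓ)))
      (legWinf R K h2 M) (legWinf R K h2 (M * ℓ)) W11
      (W11'.comap ((legSqCast K M q ℓ : ↥(legE K (M * q * q * ℓ)) ≃ₐ[K] ↥(legE K (M * ℓ * q * q))) :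
        ↥(legE K (M * q * q * ℓ)) →+* ↥(legE K (M * ℓ * q * q)))) n c := by
  haveI : FiniteDimensional ↥K⟮jqNModC K 2⟯ ↥(legE K (M * q)) := finite_legE_adjoin_j K (M * q)
  haveI : FiniteDimensional ↥K⟮jqNModC K 2⟯ ↥(legE K (M * ℓ * q)) :=
    finite_legE_adjoin_j K (M * ℓ * q)
  have h₁' := SSModelLeg.ssModel R K h₁
  have h₂' := SSModelLeg.ssModel R K h₂
  obtain ⟨hupA, hupB, -, -⟩ := legSq_comap_up R K h₁ h₂ hπ hT hT' hℓ hℓ2
  have hAP : ∀ x : ↥(legE K M),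
      (legHostA K (M * q * q) ℓ : ↥(legE K (M * q * q)) →+* ↥(legE K (M * q * q * ℓ)))
        ((legSqA K M q : ↥(legE K M) →+* ↥(legE K (M * q * q))) x) =
      (legSqAmid K M q ℓ : ↥(legE K (M * ℓ)) →+* ↥(legE K (M * q * q * ℓ)))
        ((legHostA K M ℓ : ↥(legE K M) →+* ↥(legE K (M * ℓ))) x) := fun x => Subtype.ext (by
    rw [RingHom.coe_coe, RingHom.coe_coe, RingHom.coe_coe, RingHom.coe_coe, coe_legHostA,
      coe_legSqA, coe_legSqAmid, coe_legHostA])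
  have hBP : ∀ x : ↥(legE K M),
      (legHostB K (M * q * q) ℓ hℓ hℓ2 : ↥(legE K (M * q * q)) →+* ↥(legE K (M * q * q * ℓ)))
        ((legSqA K M q : ↥(legE K M) →+* ↥(legE K (M * q * q))) x) =
      (legSqAmid K M q ℓ : ↥(legE K (M * ℓ)) →+* ↥(legE K (M * q * q * ℓ)))
        ((legHostB K M ℓ hℓ hℓ2 : ↥(legE K M) →+* ↥(legE K (M * ℓ))) x) := fun x => Subtype.ext (by
    rw [RingHom.coe_coe, RingHom.coe_coe, RingHom.coe_coe, RingHom.coe_coe, coe_legHostB,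
      coe_legSqA, coe_legSqAmid, coe_legHostB])
  have hcP : W11.comap (legSqA K M q : ↥(legE K M) →+* ↥(legE K (M * q * q))) =
      legWinf R K h2 M := by
    have e : (legSqA K M q : ↥(legE K M) →+* ↥(legE K (M * q * q))) =
        (legHostA K (M * q) q : ↥(legE K (M * q)) →+* ↥(legE K (M * q * q))).comp
          (legHostA K M q : ↥(legE K M) →+* ↥(legE K (M * q))) := rfl
    rw [e, ← ValuationSubring.comap_comap, hT.comap_A_11]
    exact h₁'.comap_A_inf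
  have hcP' : (W11'.comap ((legSqCast K M q ℓ :
        ↥(legE K (M * q * q * ℓ)) ≃ₐ[K] ↥(legE K (M * ℓ * q * q))) :
        ↥(legE K (M * q * q * ℓ)) →+* ↥(legE K (M * ℓ * q * q)))).comap
      (legSqAmid K M q ℓ : ↥(legE K (M * ℓ)) →+* ↥(legE K (M * q * q * ℓ))) =
      legWinf R K h2 (M * ℓ) := by
    have e : (((legSqCast K M q ℓ :
        ↥(legE K (M * q * q * ℓ)) ≃ₐ[K] ↥(legE K (M * ℓ * q * q))) :
        ↥(legE K (M * q * q * ℓ)) →+* ↥(legE K (M * ℓ * q * q)))).comp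
        (legSqAmid K M q ℓ : ↥(legE K (M * ℓ)) →+* ↥(legE K (M * q * q * ℓ))) =
        (legHostA K (M * ℓ * q) q : ↥(legE K (M * ℓ * q)) →+* ↥(legE K (M * ℓ * q * q))).comp
          (legHostA K (M * ℓ) q : ↥(legE K (M * ℓ)) →+* ↥(legE K (M * ℓ * q))) :=
      legRingHom_ext K fun f => by
        rw [RingHom.comp_apply, RingHom.comp_apply, RingHom.coe_coe, coe_legSqCast,
          RingHom.coe_coe, coe_legSqAmid, RingHom.coe_coe, RingHom.coe_coe, coe_legHostA,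
          coe_legHostA]
    rw [ValuationSubring.comap_comap, e, ← ValuationSubring.comap_comap, hT'.comap_A_11]
    exact h₂'.comap_A_inf
  have hcA : (W11'.comap ((legSqCast K M q ℓ :
        ↥(legE K (M * q * q * ℓ)) ≃ₐ[K] ↥(legE K (M * ℓ * q * q))) :
        ↥(legE K (M * q * q * ℓ)) →+* ↥(legE K (M * ℓ * q * q)))).comap
      (legHostA K (M * q * q) ℓ : ↥(legE K (M * q * q)) →+* ↥(legE K (M * q * q * ℓ))) = W11 := by
    rw [ValuationSubring.comap_comap]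
    exact hupA
  have hcB : (W11'.comap ((legSqCast K M q ℓ :
        ↥(legE K (M * q * q * ℓ)) ≃ₐ[K] ↥(legE K (M * ℓ * q * q))) :
        ↥(legE K (M * q * q * ℓ)) →+* ↥(legE K (M * ℓ * q * q)))).comap
      (legHostB K (M * q * q) ℓ hℓ hℓ2 : ↥(legE K (M * q * q)) →+* ↥(legE K (M * q * q * ℓ))) =
      W11 := by
    rw [ValuationSubring.comap_comap]
    exact hupB
  have hcA₀ : (legWinf R K h2 (M * ℓ)).comap
      (legHostA K M ℓ : ↥(legE K M) →+* ↥(legE K (M * ℓ))) = legWinf R K h2 M :=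
    ssModelLeg_comap_A_inf R K (M := M) (q := ℓ) h2
  have hcB₀ : (legWinf R K h2 (M * ℓ)).comap
      (legHostB K M ℓ hℓ hℓ2 : ↥(legE K M) →+* ↥(legE K (M * ℓ))) = legWinf R K h2 M :=
    ssModelLeg_comap_B_inf R K (M := M) h2 hℓ hℓ2
  have hres : ∀ x ∈ W11, ∃ a ∈ legWinf R K h2 M,
      W11.valuation (x - (legSqA K M q : ↥(legE K M) →+* ↥(legE K (M * q * q))) a) < 1 := by
    have := res_comp hT.comap_A_11 hT.res_A_11 h₁'.res_inf
    intro x hx
    obtain ⟨a, ha, hxa⟩ := this x hx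
    exact ⟨a, ha, hxa⟩
  have hfin₀ : letI := (legHostA K M ℓ : ↥(legE K M) →+* ↥(legE K (M * ℓ))).toAlgebra;
      FiniteDimensional ↥(legE K M) ↥(legE K (M * ℓ)) := by
    letI := (legHostA K M ℓ : ↥(legE K M) →+* ↥(legE K (M * ℓ))).toAlgebra
    exact Module.finite_of_finrank_pos (by rw [hdeg₀]; exact hn)
  have hfin : letI := (legHostA K (M * q * q) ℓ :
        ↥(legE K (M * q * q)) →+* ↥(legE K (M * q * q * ℓ))).toAlgebra;
      FiniteDimensional ↥(legE K (M * q * q)) ↥(legE K (M * q * q * ℓ)) := by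
    letI := (legHostA K (M * q * q) ℓ :
      ↥(legE K (M * q * q)) →+* ↥(legE K (M * q * q * ℓ))).toAlgebra
    exact Module.finite_of_finrank_pos (by rw [hdeg]; exact hn)
  exact ⟨hAP, hBP, hcP, hcP', hcA, hcB, hcA₀, hcB₀, hres, hfin₀, hdeg₀, hfin, hdeg, hc⟩

/-- **the three-level datum of the sheet `W02`.** -/
theorem threeHyps_leg02 {h2 : IsUnit (2 : R)} {hbez₁ : (q : ℤ) * x₁ + M * y₁ = 1}
    {hbez₂ : (q : ℤ) * x₂ + ((M * ℓ : ℕ) : ℤ) * y₂ = 1} {hq : q.Prime} {hq2 : q ≠ 2}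
    (h₁ : SSModelLeg R K (M := M) (q := q) π h2 hbez₁ hq hq2)
    (h₂ : SSModelLeg R K (M := M * ℓ) (q := q) π h2 hbez₂ hq hq2) (hπ : Irreducible π)
    {W11 W02 : ValuationSubring ↥(legE K (M * q * q))} {ϖ δ : ↥(legE K (M * q * q))}
    (hT : IsThreeSheet (legHostA K (M * q) q : ↥(legE K (M * q)) →+* ↥(legE K (M * q * q)))
      (legHostB K (M * q) q hq hq2 : ↥(legE K (M * q)) →+* ↥(legE K (M * q * q))) q
      (legWinf R K h2 (M * q)) (legW0 R K hbez₁ hq) (legWinf R K h2 (M * q * q)) W11 W02 ϖ δ)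
    {W11' W02' : ValuationSubring ↥(legE K (M * ℓ * q * q))} {ϖ' δ' : ↥(legE K (M * ℓ * q * q))}
    (hT' : IsThreeSheet
      (legHostA K (M * ℓ * q) q : ↥(legE K (M * ℓ * q)) →+* ↥(legE K (M * ℓ * q * q)))
      (legHostB K (M * ℓ * q) q hq hq2 : ↥(legE K (M * ℓ * q)) →+* ↥(legE K (M * ℓ * q * q))) q
      (legWinf R K h2 (M * ℓ * q)) (legW0 R K hbez₂ hq) (legWinf R K h2 (M * ℓ * q * q))
      W11' W02' ϖ' δ')
    (hℓ : ℓ.Prime) (hℓ2 : ℓ ≠ 2) {n : ℕ} (hn : 0 < n)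
    (hdeg₀ : letI := (legHostA K M ℓ : ↥(legE K M) →+* ↥(legE K (M * ℓ))).toAlgebra;
      Module.finrank ↥(legE K M) ↥(legE K (M * ℓ)) = n)
    (hdeg : letI := (legHostA K (M * q * q) ℓ :
        ↥(legE K (M * q * q)) →+* ↥(legE K (M * q * q * ℓ))).toAlgebra;
      Module.finrank ↥(legE K (M * q * q)) ↥(legE K (M * q * q * ℓ)) = n)
    (c : Fin n → ↥(legE K (M * ℓ)))
    (hc : letI := (legHostA K M ℓ : ↥(legE K M) →+* ↥(legE K (M * ℓ))).toAlgebra;
      ResIndep (legWinf R K h2 M) (legWinf R K h2 (M * ℓ)) c) :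
    ThreeHyps (legHostA K M ℓ : ↥(legE K M) →+* ↥(legE K (M * ℓ)))
      (legHostB K M ℓ hℓ hℓ2 : ↥(legE K M) →+* ↥(legE K (M * ℓ)))
      (legHostA K (M * q * q) ℓ : ↥(legE K (M * q * q)) →+* ↥(legE K (M * q * q * ℓ)))
      (legHostB K (M * q * q) ℓ hℓ hℓ2 : ↥(legE K (M * q * q)) →+* ↥(legE K (M * q * q * ℓ)))
      (legSqB K M q hq hq2 : ↥(legE K M) →+* ↥(legE K (M * q * q)))
      (legSqBmid K M q ℓ hq hq2 : ↥(legE K (M * ℓ)) →+* ↥(legE K (M * q * q * ℓ)))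
      (legWinf R K h2 M) (legWinf R K h2 (M * ℓ)) W02
      (W02'.comap ((legSqCast K M q ℓ : ↥(legE K (M * q * q * ℓ)) ≃ₐ[K] ↥(legE K (M * ℓ * q * q))) :
        ↥(legE K (M * q * q * ℓ)) →+* ↥(legE K (M * ℓ * q * q)))) n c := by
  haveI : FiniteDimensional ↥K⟮jqNModC K 2⟯ ↥(legE K (M * q)) := finite_legE_adjoin_j K (M * q)
  haveI : FiniteDimensional ↥K⟮jqNModC K 2⟯ ↥(legE K (M * ℓ * q)) :=
    finite_legE_adjoin_j K (M * ℓ * q)
  have h₁' := SSModelLeg.ssModel R K h₁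
  have h₂' := SSModelLeg.ssModel R K h₂
  obtain ⟨-, -, hupA, hupB⟩ := legSq_comap_up R K h₁ h₂ hπ hT hT' hℓ hℓ2
  have hAP : ∀ x : ↥(legE K M),
      (legHostA K (M * q * q) ℓ : ↥(legE K (M * q * q)) →+* ↥(legE K (M * q * q * ℓ)))
        ((legSqB K M q hq hq2 : ↥(legE K M) →+* ↥(legE K (M * q * q))) x) =
      (legSqBmid K M q ℓ hq hq2 : ↥(legE K (M * ℓ)) →+* ↥(legE K (M * q * q * ℓ)))
        ((legHostA K M ℓ : ↥(legE K M) →+* ↥(legE K (M * ℓ))) x) := fun x => Subtype.ext (by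
    rw [RingHom.coe_coe, RingHom.coe_coe, RingHom.coe_coe, RingHom.coe_coe, coe_legHostA,
      coe_legSqB, coe_legSqBmid, coe_legHostA])
  have hBP : ∀ x : ↥(legE K M),
      (legHostB K (M * q * q) ℓ hℓ hℓ2 : ↥(legE K (M * q * q)) →+* ↥(legE K (M * q * q * ℓ)))
        ((legSqB K M q hq hq2 : ↥(legE K M) →+* ↥(legE K (M * q * q))) x) =
      (legSqBmid K M q ℓ hq hq2 : ↥(legE K (M * ℓ)) →+* ↥(legE K (M * q * q * ℓ)))
        ((legHostB K M ℓ hℓ hℓ2 : ↥(legE K M) →+* ↥(legE K (M * ℓ))) x) := fun x => Subtype.ext (by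
    rw [RingHom.coe_coe, RingHom.coe_coe, RingHom.coe_coe, RingHom.coe_coe, coe_legHostB,
      coe_legSqB, coe_legSqBmid, coe_legHostB, qExpand_qExpand, qExpand_qExpand, qExpand_qExpand,
      qExpand_qExpand]
    exact qExpand_congr (R := K) (by ring) _)
  have hcP : W02.comap (legSqB K M q hq hq2 : ↥(legE K M) →+* ↥(legE K (M * q * q))) =
      legWinf R K h2 M := by
    have e : (legSqB K M q hq hq2 : ↥(legE K M) →+* ↥(legE K (M * q * q))) =
        (legHostB K (M * q) q hq hq2 : ↥(legE K (M * q)) →+* ↥(legE K (M * q * q))).comp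
          (legHostB K M q hq hq2 : ↥(legE K M) →+* ↥(legE K (M * q))) := rfl
    rw [e, ← ValuationSubring.comap_comap, hT.comap_B_02]
    exact h₁'.comap_B_zero
  have hcP' : (W02'.comap ((legSqCast K M q ℓ :
        ↥(legE K (M * q * q * ℓ)) ≃ₐ[K] ↥(legE K (M * ℓ * q * q))) :
        ↥(legE K (M * q * q * ℓ)) →+* ↥(legE K (M * ℓ * q * q)))).comap
      (legSqBmid K M q ℓ hq hq2 : ↥(legE K (M * ℓ)) →+* ↥(legE K (M * q * q * ℓ))) =
      legWinf R K h2 (M * ℓ) := by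
    have e : (((legSqCast K M q ℓ :
        ↥(legE K (M * q * q * ℓ)) ≃ₐ[K] ↥(legE K (M * ℓ * q * q))) :
        ↥(legE K (M * q * q * ℓ)) →+* ↥(legE K (M * ℓ * q * q)))).comp
        (legSqBmid K M q ℓ hq hq2 : ↥(legE K (M * ℓ)) →+* ↥(legE K (M * q * q * ℓ))) =
        (legHostB K (M * ℓ * q) q hq hq2 :
          ↥(legE K (M * ℓ * q)) →+* ↥(legE K (M * ℓ * q * q))).comp
          (legHostB K (M * ℓ) q hq hq2 : ↥(legE K (M * ℓ)) →+* ↥(legE K (M * ℓ * q))) :=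
      legRingHom_ext K fun f => by
        rw [RingHom.comp_apply, RingHom.comp_apply, RingHom.coe_coe, coe_legSqCast,
          RingHom.coe_coe, coe_legSqBmid, RingHom.coe_coe, RingHom.coe_coe, coe_legHostB,
          coe_legHostB]
    rw [ValuationSubring.comap_comap, e, ← ValuationSubring.comap_comap, hT'.comap_B_02]
    exact h₂'.comap_B_zero
  have hcA : (W02'.comap ((legSqCast K M q ℓ :
        ↥(legE K (M * q * q * ℓ)) ≃ₐ[K] ↥(legE K (M * ℓ * q * q))) :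
        ↥(legE K (M * q * q * ℓ)) →+* ↥(legE K (M * ℓ * q * q)))).comap
      (legHostA K (M * q * q) ℓ : ↥(legE K (M * q * q)) →+* ↥(legE K (M * q * q * ℓ))) = W02 := by
    rw [ValuationSubring.comap_comap]
    exact hupA
  have hcB : (W02'.comap ((legSqCast K M q ℓ :
        ↥(legE K (M * q * q * ℓ)) ≃ₐ[K] ↥(legE K (M * ℓ * q * q))) :
        ↥(legE K (M * q * q * ℓ)) →+* ↥(legE K (M * ℓ * q * q)))).comap
      (legHostB K (M * q * q) ℓ hℓ hℓ2 : ↥(legE K (M * q * q)) →+* ↥(legE K (M * q * q * ℓ))) =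
      W02 := by
    rw [ValuationSubring.comap_comap]
    exact hupB
  have hcA₀ : (legWinf R K h2 (M * ℓ)).comap
      (legHostA K M ℓ : ↥(legE K M) →+* ↥(legE K (M * ℓ))) = legWinf R K h2 M :=
    ssModelLeg_comap_A_inf R K (M := M) (q := ℓ) h2
  have hcB₀ : (legWinf R K h2 (M * ℓ)).comap
      (legHostB K M ℓ hℓ hℓ2 : ↥(legE K M) →+* ↥(legE K (M * ℓ))) = legWinf R K h2 M :=
    ssModelLeg_comap_B_inf R K (M := M) h2 hℓ hℓ2
  have hres : ∀ x ∈ W02, ∃ a ∈ legWinf R K h2 M,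
      W02.valuation
        (x - (legSqB K M q hq hq2 : ↥(legE K M) →+* ↥(legE K (M * q * q))) a) < 1 := by
    have := res_comp hT.comap_B_02 hT.res_B_02 h₁'.res_zero
    intro x hx
    obtain ⟨a, ha, hxa⟩ := this x hx
    exact ⟨a, ha, hxa⟩
  have hfin₀ : letI := (legHostA K M ℓ : ↥(legE K M) →+* ↥(legE K (M * ℓ))).toAlgebra;
      FiniteDimensional ↥(legE K M) ↥(legE K (M * ℓ)) := by
    letI := (legHostA K M ℓ : ↥(legE K M) →+* ↥(legE K (M * ℓ))).toAlgebra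
    exact Module.finite_of_finrank_pos (by rw [hdeg₀]; exact hn)
  have hfin : letI := (legHostA K (M * q * q) ℓ :
        ↥(legE K (M * q * q)) →+* ↥(legE K (M * q * q * ℓ))).toAlgebra;
      FiniteDimensional ↥(legE K (M * q * q)) ↥(legE K (M * q * q * ℓ)) := by
    letI := (legHostA K (M * q * q) ℓ :
      ↥(legE K (M * q * q)) →+* ↥(legE K (M * q * q * ℓ))).toAlgebra
    exact Module.finite_of_finrank_pos (by rw [hdeg]; exact hn)
  exact ⟨hAP, hBP, hcP, hcP', hcA, hcB, hcA₀, hcB₀, hres, hfin₀, hdeg₀, hfin, hdeg, hc⟩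

end Sheets

end

end Fermat.Agent.ML
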