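/-
ML — helper3 — [MSQ] **[DELTA-q²]: the `δ`-argument on the three sheets of the Legendre host of
level `M q q`**, generic unramified base (port of `RB.legDeltaQ_of_models`).

A non-Eisenstein Hecke relation `T_ℓ f = c f ^ a u ^ r` (`a ≢ ℓ + 1` mod `r`) on the host of level
`M q q` forces the orders `n20, n11, n02` of `f` along the three sheets (with respect to the
uniformisers `ϖ, δ, ϖ`; `δ ^ (q - 1) ~ ϖ` along `W11`) to satisfy

  `r ∣ n02 - n20`,   `r ∣ n11 - (q - 1) n20`.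

* `val_pow_mul_zpow_of_val_δ` : orders with respect to `δ` and to `ϖ` along `W11`;
* `legDelta3_of_models` : the statement.
-/
import Mathlib
import Fermat.Agent.ML.MSQ_helper3_Three
import Fermat.Agent.MP.HECKERS0_helper4_Delta
import Fermat.Agent.RB.KUMEXT_helper5_Two
import Fermat.Agent.MP.PLHOST_helper6_Glob

set_option autoImplicit false
set_option linter.unusedSectionVars false
set_option linter.unusedVariables false
set_option linter.style.haveILetI false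
set_option synthInstance.maxHeartbeats 400000

open Polynomial ModularCurve IntermediateField IsLocalRing

namespace Fermat.Agent.ML

open Fermat.Agent.JA Fermat.Agent.Igusa Fermat.Agent.SS Fermat.Agent.MP Fermat.Agent.S36
  Fermat.Agent.NP Fermat.Agent.RB

open scoped Fermat.Agent.JA.Host

noncomputable section

section Abs

variable {E : Type*} [Field E]

/-- **orders with respect to `δ` and to `ϖ`**: if `δ ^ m ~ ϖ` along `W` and `f δ ^ (-k)` is a
`W`-unit, then `f ^ m ϖ ^ (-k)` is a `W`-unit. -/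
theorem val_pow_mul_zpow_of_val_δ (W : ValuationSubring E) {ϖ δ f : E} {m : ℕ} {k : ℤ}
    (hδ0 : δ ≠ 0) (hδ : W.valuation (δ ^ m) = W.valuation ϖ)
    (hf : W.valuation (f * δ ^ (-k)) = 1) : W.valuation (f ^ m * ϖ ^ (-k)) = 1 := by
  have hδv : W.valuation δ ≠ 0 := (_root_.map_ne_zero _).mpr hδ0
  rw [map_mul, map_zpow₀] at hf
  have h1 : W.valuation f = W.valuation δ ^ k := by
    rw [zpow_neg] at hf
    exact (mul_inv_eq_one₀ (zpow_ne_zero _ hδv)).mp hf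
  rw [map_mul, map_pow, map_zpow₀, h1, ← hδ, map_pow, ← zpow_natCast, ← zpow_natCast,
    ← zpow_mul, ← zpow_mul, ← zpow_add₀ hδv]
  have : k * (m : ℤ) + (m : ℤ) * -k = 0 := by ring
  rw [this, zpow_zero]

end Abs

section Leg

variable (R : Type*) [CommRing R] [IsDomain R] [IsDiscreteValuationRing R] [CharZero R]
  [DecidableEq R]
  (K : Type*) [Field K] [Algebra R K] [IsFractionRing R K] [Algebra ℚ K] [Algebra K ℂ]
  {M q ℓ : ℕ} [NeZero M] [NeZero q] [NeZero ℓ] [NeZero (M * q)] [NeZero (M * q * q)]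
  [NeZero (M * ℓ)] [NeZero (M * ℓ * q)] [NeZero (M * ℓ * q * q)] [NeZero (M * q * ℓ)]
  [NeZero (M * q * q * ℓ)] {x₁ y₁ x₂ y₂ : ℤ} {π : R}

/-- the two `ℓ`-degeneracy maps agree on the constants of the base ring (any level). -/
theorem legHostB_algebraMap_base₃ (N : ℕ) [NeZero N] [NeZero (N * ℓ)] (hℓ : ℓ.Prime)
    (hℓ2 : ℓ ≠ 2) (r : R) :
    (legHostB K N ℓ hℓ hℓ2 : ↥(legE K N) →+* ↥(legE K (N * ℓ))) (algebraMap R ↥(legE K N) r) =
      (legHostA K N ℓ : ↥(legE K N) →+* ↥(legE K (N * ℓ))) (algebraMap R ↥(legE K N) r) := by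
  rw [IsScalarTower.algebraMap_apply R K ↥(legE K N)]
  simp only [RingHom.coe_coe, AlgHom.commutes]

set_option maxHeartbeats 3200000 in
/-- **[DELTA-q²] on the Legendre hosts, generic base.** -/
theorem legDelta3_of_models {h2 : IsUnit (2 : R)} {hbez₁ : (q : ℤ) * x₁ + M * y₁ = 1}
    {hbez₂ : (q : ℤ) * x₂ + ((M * ℓ : ℕ) : ℤ) * y₂ = 1} {hq : q.Prime} {hq2 : q ≠ 2}
    (h₁ : SSModelLeg R K (M := M) (q := q) π h2 hbez₁ hq hq2)
    (h₂ : SSModelLeg R K (M := M * ℓ) (q := q) π h2 hbez₂ hq hq2) (hπ : Irreducible π)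
    {W11 W02 : ValuationSubring ↥(legE K (M * q * q))} {δ : ↥(legE K (M * q * q))}
    (hT : IsThreeSheet (legHostA K (M * q) q : ↥(legE K (M * q)) →+* ↥(legE K (M * q * q)))
      (legHostB K (M * q) q hq hq2 : ↥(legE K (M * q)) →+* ↥(legE K (M * q * q))) q
      (legWinf R K h2 (M * q)) (legW0 R K hbez₁ hq) (legWinf R K h2 (M * q * q)) W11 W02
      (algebraMap R ↥(legE K (M * q * q)) π) δ)
    (hF : haveI : FiniteDimensional ↥K⟮jqNModC K 2⟯ ↥(legE K (M * q * q)) :=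
        finite_legE_adjoin_j K (M * q * q)
      IsSheetFamily π (AdjoinSimple.gen K (jqNModC K 2))
        (IsThreeSheet.fam (legWinf R K h2 (M * q * q)) W11 W02))
    {W11' W02' : ValuationSubring ↥(legE K (M * ℓ * q * q))} {ϖ' δ' : ↥(legE K (M * ℓ * q * q))}
    (hT' : IsThreeSheet
      (legHostA K (M * ℓ * q) q : ↥(legE K (M * ℓ * q)) →+* ↥(legE K (M * ℓ * q * q)))
      (legHostB K (M * ℓ * q) q hq hq2 : ↥(legE K (M * ℓ * q)) →+* ↥(legE K (M * ℓ * q * q))) q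
      (legWinf R K h2 (M * ℓ * q)) (legW0 R K hbez₂ hq) (legWinf R K h2 (M * ℓ * q * q))
      W11' W02' ϖ' δ')
    (hℓ : ℓ.Prime) (hℓ2 : ℓ ≠ 2) {r : ℕ} (hr : r.Prime)
    (hdeg₀ : letI := (legHostA K M ℓ : ↥(legE K M) →+* ↥(legE K (M * ℓ))).toAlgebra;
      Module.finrank ↥(legE K M) ↥(legE K (M * ℓ)) = ℓ + 1)
    (hdeg : letI := (legHostA K (M * q * q) ℓ :
        ↥(legE K (M * q * q)) →+* ↥(legE K (M * q * q * ℓ))).toAlgebra;
      Module.finrank ↥(legE K (M * q * q)) ↥(legE K (M * q * q * ℓ)) = ℓ + 1)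
    (c : Fin (ℓ + 1) → ↥(legE K (M * ℓ)))
    (hc : letI := (legHostA K M ℓ : ↥(legE K M) →+* ↥(legE K (M * ℓ))).toAlgebra;
      ResIndep (legWinf R K h2 M) (legWinf R K h2 (M * ℓ)) c)
    {a : ℤ} (hna : ¬ a ≡ (ℓ : ℤ) + 1 [ZMOD (r : ℤ)])
    {f : ↥(legE K (M * q * q))} (hf : f ≠ 0)
    (hrel : ∃ (c₀ : K) (u : ↥(legE K (M * q * q))), c₀ ≠ 0 ∧ u ≠ 0 ∧
      legHeckeP K (M * q * q) ℓ hℓ hℓ2 f =
        algebraMap K ↥(legE K (M * q * q)) c₀ * f ^ a * u ^ r)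
    {n20 n11 n02 : ℤ}
    (hf20 : (legWinf R K h2 (M * q * q)).valuation
      (f * (algebraMap R ↥(legE K (M * q * q)) π) ^ (-n20)) = 1)
    (hf11 : W11.valuation (f * δ ^ (-n11)) = 1)
    (hf02 : W02.valuation (f * (algebraMap R ↥(legE K (M * q * q)) π) ^ (-n02)) = 1) :
    (r : ℤ) ∣ n02 - n20 ∧ (r : ℤ) ∣ n11 - ((q : ℤ) - 1) * n20 := by
  haveI : FiniteDimensional ↥K⟮jqNModC K 2⟯ ↥(legE K (M * q)) := finite_legE_adjoin_j K (M * q)
  haveI : FiniteDimensional ↥K⟮jqNModC K 2⟯ ↥(legE K (M * q * q)) :=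
    finite_legE_adjoin_j K (M * q * q)
  have h₁' := SSModelLeg.ssModel R K h₁
  have hu := h₁'.j_transcendental
  have hK := h₁'.j_adjoin
  have hT20 := threeHyps_leg20 R K h₁ hT hℓ hℓ2 (Nat.succ_pos ℓ) hdeg₀ hdeg c hc
  have hT11 := threeHyps_leg11 R K h₁ h₂ hπ hT hT' hℓ hℓ2 (Nat.succ_pos ℓ) hdeg₀ hdeg c hc
  have hT02 := threeHyps_leg02 R K h₁ h₂ hπ hT hT' hℓ hℓ2 (Nat.succ_pos ℓ) hdeg₀ hdeg c hc
  obtain ⟨c₀, u, hc₀, hu0, hrel⟩ := hrel
  set ϖ : ↥(legE K (M * q * q)) := algebraMap R ↥(legE K (M * q * q)) π with hϖdef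
  have hϖ0 : ϖ ≠ 0 := algebraMap_pi_ne_zero (K₁ := K) (K := ↥K⟮jqNModC K 2⟯) hπ
  have hG20 := hF.gauss 0
  have hG11 := hF.gauss 1
  have hG02 := hF.gauss 2
  have hϖ20 : (legWinf R K h2 (M * q * q)).valuation ϖ < 1 :=
    valuation_pi_lt_one_of_isGaussAt _ hG20
  have hϖ11 : W11.valuation ϖ < 1 := valuation_pi_lt_one_of_isGaussAt _ hG11
  have hϖ02 : W02.valuation ϖ < 1 := valuation_pi_lt_one_of_isGaussAt _ hG02
  haveI d20 : IsDiscreteValuationRing ↥(legWinf R K h2 (M * q * q)) :=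
    isDiscreteValuationRing_sheet (K₁ := K) hπ hu hK hG20
  haveI d11 : IsDiscreteValuationRing ↥W11 :=
    isDiscreteValuationRing_sheet (K₁ := K) hπ hu hK hG11
  haveI d02 : IsDiscreteValuationRing ↥W02 :=
    isDiscreteValuationRing_sheet (K₁ := K) hπ hu hK hG02
  have hBϖ : (legHostB K (M * q * q) ℓ hℓ hℓ2 :
      ↥(legE K (M * q * q)) →+* ↥(legE K (M * q * q * ℓ))) ϖ =
      (legHostA K (M * q * q) ℓ : ↥(legE K (M * q * q)) →+* ↥(legE K (M * q * q * ℓ))) ϖ :=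
    legHostB_algebraMap_base₃ R K (M * q * q) hℓ hℓ2 π
  -- `δ`
  have hδlt : W11.valuation δ < 1 := by
    by_contra hge
    rw [not_lt] at hge
    have h1 : (1 : W11.ValueGroup) ≤ W11.valuation (δ ^ (q - 1)) := by
      rw [map_pow]
      exact one_le_pow₀ hge
    rw [hT.val_δ] at h1
    exact absurd hϖ11 (not_lt.mpr h1)
  have hδ0 : δ ≠ 0 := by
    rintro rfl
    have := hT.val_δ
    rw [zero_pow (Nat.sub_ne_zero_of_lt hq.one_lt), map_zero] at this
    exact (_root_.map_ne_zero _).mpr hϖ0 this.symm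
  -- the orders of `u`
  obtain ⟨b20, hub20⟩ := exists_zpow_val_eq_one (legWinf R K h2 (M * q * q)) hϖ20 hϖ0
    hT.unif_20 u hu0
  obtain ⟨b11, hub11⟩ := exists_zpow_val_eq_one W11 hδlt hδ0 hT.unif_11 u hu0
  obtain ⟨b02, hub02⟩ := exists_zpow_val_eq_one W02 hϖ02 hϖ0 hT.unif_02 u hu0
  -- the constant
  obtain ⟨εc, γ, hcγ⟩ := exists_units_mul_zpow_of_fraction₄ (K := K) hπ hc₀
  have hcE : algebraMap K ↥(legE K (M * q * q)) c₀ * ϖ ^ (-γ) =
      algebraMap R ↥(legE K (M * q * q)) (εc : R) := by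
    rw [hcγ, map_mul, map_zpow₀, ← IsScalarTower.algebraMap_apply R K ↥(legE K (M * q * q)),
      ← IsScalarTower.algebraMap_apply R K ↥(legE K (M * q * q)), ← hϖdef,
      mul_assoc (algebraMap R ↥(legE K (M * q * q)) (εc : R)),
      ← zpow_add₀ hϖ0, add_neg_cancel, zpow_zero, mul_one]
  have hRW : ∀ i, ∀ s : R, algebraMap R ↥(legE K (M * q * q)) s ∈
      IsThreeSheet.fam (legWinf R K h2 (M * q * q)) W11 W02 i := fun i s =>
    hF.chart_le i _ (Subalgebra.algebraMap_mem _ s)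
  have hc20 : (legWinf R K h2 (M * q * q)).valuation
      (algebraMap K ↥(legE K (M * q * q)) c₀ * ϖ ^ (-γ)) = 1 := by
    rw [hcE]
    exact val_algebraMap_units_eq_one₄ _ (hRW 0) εc
  have hc11 : W11.valuation (algebraMap K ↥(legE K (M * q * q)) c₀ * ϖ ^ (-γ)) = 1 := by
    rw [hcE]
    exact val_algebraMap_units_eq_one₄ _ (hRW 1) εc
  have hc02 : W02.valuation (algebraMap K ↥(legE K (M * q * q)) c₀ * ϖ ^ (-γ)) = 1 := by
    rw [hcE]
    exact val_algebraMap_units_eq_one₄ _ (hRW 2) εc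
  have hrel' : (letI := (legHostA K (M * q * q) ℓ :
        ↥(legE K (M * q * q)) →+* ↥(legE K (M * q * q * ℓ))).toAlgebra;
      Algebra.norm ↥(legE K (M * q * q)) ((legHostB K (M * q * q) ℓ hℓ hℓ2 :
        ↥(legE K (M * q * q)) →+* ↥(legE K (M * q * q * ℓ))) f)) =
      algebraMap K ↥(legE K (M * q * q)) c₀ * f ^ a * u ^ r := hrel
  constructor
  · -- the pair `(W20, W02)`
    have hTi := hT20.hecke_val hBϖ hf20
    have hTz := hT02.hecke_val hBϖ hf02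
    have key := hecker_delta_abstract (legWinf R K h2 (M * q * q)) W02 hϖ0 hϖ20 hϖ02
      hrel' hf20 hf02 hc20 hc02 hub20 hub02 hTi hTz
    refine hecker_dvd_of_delta hr (n := ℓ + 1) ?_ key
    rw [Nat.cast_add, Nat.cast_one]
    exact hna
  · -- the pair `(W20, W11)`, for `f ^ (q - 1)`
    have hq1 : ((q - 1 : ℕ) : ℤ) = (q : ℤ) - 1 := by
      rw [Nat.cast_sub hq.one_lt.le, Nat.cast_one]
    have hfq20 : (legWinf R K h2 (M * q * q)).valuation
        (f ^ (q - 1) * ϖ ^ (-(((q : ℤ) - 1) * n20))) = 1 := by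
      have h1 : f ^ (q - 1) * ϖ ^ (-(((q : ℤ) - 1) * n20)) = (f * ϖ ^ (-n20)) ^ (q - 1) := by
        rw [mul_pow, ← zpow_natCast (ϖ ^ (-n20)), ← zpow_mul, hq1]
        congr 2
        ring
      rw [h1, map_pow, hf20, one_pow]
    have hfq11 : W11.valuation (f ^ (q - 1) * ϖ ^ (-n11)) = 1 :=
      val_pow_mul_zpow_of_val_δ W11 hδ0 hT.val_δ hf11
    have huq20 : (legWinf R K h2 (M * q * q)).valuation
        (u ^ (q - 1) * ϖ ^ (-(((q : ℤ) - 1) * b20))) = 1 := by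
      have h1 : u ^ (q - 1) * ϖ ^ (-(((q : ℤ) - 1) * b20)) = (u * ϖ ^ (-b20)) ^ (q - 1) := by
        rw [mul_pow, ← zpow_natCast (ϖ ^ (-b20)), ← zpow_mul, hq1]
        congr 2
        ring
      rw [h1, map_pow, hub20, one_pow]
    have huq11 : W11.valuation (u ^ (q - 1) * ϖ ^ (-b11)) = 1 :=
      val_pow_mul_zpow_of_val_δ W11 hδ0 hT.val_δ hub11
    have hcq20 : (legWinf R K h2 (M * q * q)).valuation
        ((algebraMap K ↥(legE K (M * q * q)) c₀) ^ (q - 1) *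
          ϖ ^ (-(((q : ℤ) - 1) * γ))) = 1 := by
      have h1 : (algebraMap K ↥(legE K (M * q * q)) c₀) ^ (q - 1) * ϖ ^ (-(((q : ℤ) - 1) * γ)) =
          (algebraMap K ↥(legE K (M * q * q)) c₀ * ϖ ^ (-γ)) ^ (q - 1) := by
        rw [mul_pow, ← zpow_natCast (ϖ ^ (-γ)), ← zpow_mul, hq1]
        congr 2
        ring
      rw [h1, map_pow, hc20, one_pow]
    have hcq11 : W11.valuation
        ((algebraMap K ↥(legE K (M * q * q)) c₀) ^ (q - 1) *
          ϖ ^ (-(((q : ℤ) - 1) * γ))) = 1 := by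
      have h1 : (algebraMap K ↥(legE K (M * q * q)) c₀) ^ (q - 1) * ϖ ^ (-(((q : ℤ) - 1) * γ)) =
          (algebraMap K ↥(legE K (M * q * q)) c₀ * ϖ ^ (-γ)) ^ (q - 1) := by
        rw [mul_pow, ← zpow_natCast (ϖ ^ (-γ)), ← zpow_mul, hq1]
        congr 2
        ring
      rw [h1, map_pow, hc11, one_pow]
    have hrelq : (letI := (legHostA K (M * q * q) ℓ :
          ↥(legE K (M * q * q)) →+* ↥(legE K (M * q * q * ℓ))).toAlgebra;
        Algebra.norm ↥(legE K (M * q * q)) ((legHostB K (M * q * q) ℓ hℓ hℓ2 :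
          ↥(legE K (M * q * q)) →+* ↥(legE K (M * q * q * ℓ))) (f ^ (q - 1)))) =
        (algebraMap K ↥(legE K (M * q * q)) c₀) ^ (q - 1) * (f ^ (q - 1)) ^ a *
          (u ^ (q - 1)) ^ r := by
      rw [map_pow, map_pow, hrel', mul_pow, mul_pow, ← zpow_natCast (f ^ a), ← zpow_mul,
        ← zpow_natCast f (q - 1), ← zpow_mul, mul_comm a, ← pow_mul, ← pow_mul, mul_comm r]
    have hTi := hT20.hecke_val hBϖ hfq20
    have hTz := hT11.hecke_val hBϖ hfq11
    have key := hecker_delta_abstract (legWinf R K h2 (M * q * q)) W11 hϖ0 hϖ20 hϖ11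
      hrelq hfq20 hfq11 hcq20 hcq11 huq20 huq11 hTi hTz
    refine hecker_dvd_of_delta hr (n := ℓ + 1) ?_ key
    rw [Nat.cast_add, Nat.cast_one]
    exact hna

end Leg

end

end Fermat.Agent.ML
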