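/-
ML — helper3 — **[MSQ] leaf (a): the model data over an unramified base** used by the three-sheet
arguments at level `M q q`.

* `legW0_indep` : the sheet `W_0` of the Legendre host of level `M q` does not depend on the Bezout
  pair (it is THE second sheet over the Gauss valuation of `K(j)`, `IsTwoSheet.only`);
* `legOrders3` : the orders of a non-zero function along the three sheets;
* `exists_legSq_hecke_data` : for a prime `ℓ ∤ 2 M q` the data of the level `M ℓ` needed by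
  `legDelta3_of_models` and `legRedHecke3_of_model` over `R' = A ∩ K'`, `π = q`.
-/
import Mathlib
import Fermat.Agent.ML.MSQ_helper3_Delta
import Fermat.Agent.ML.IFACE_helper3_MSQE
import Fermat.Agent.S36.BASE36_helper4_Bases
import Fermat.Agent.MP.REDINF_helper8_ResIndep

set_option autoImplicit false
set_option linter.unusedSectionVars false
set_option linter.unusedVariables false
set_option linter.style.haveILetI false
set_option synthInstance.maxHeartbeats 400000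

open Polynomial ModularCurve IntermediateField IsLocalRing

namespace Fermat.Agent.ML

open Fermat.Agent.JA Fermat.Agent.Igusa Fermat.Agent.SS Fermat.Agent.MP Fermat.Agent.S36
  Fermat.Agent.NP Fermat.Agent.RB Fermat.Agent.FF Fermat.Agent.S35

open scoped Fermat.Agent.JA.Host

/-- `Ω = AlgebraicClosure ℚ`. -/
local notation "Ω" => AlgebraicClosure ℚ

noncomputable section

section Generic

variable (R : Type*) [CommRing R] [IsDomain R] [IsDiscreteValuationRing R] [CharZero R]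
  [DecidableEq R]
  (K : Type*) [Field K] [Algebra R K] [IsFractionRing R K] [Algebra ℚ K] [Algebra K ℂ]
  {M q : ℕ} [NeZero M] [NeZero q] [NeZero (M * q)] [NeZero (M * q * q)] {x y x' y' : ℤ}
  {π : R}

/-- **the sheet `W_0` does not depend on the Bezout pair.** -/
theorem legW0_indep (hπ : Irreducible π) (h2 : IsUnit (2 : R))
    (h : (q : ℤ) * x + M * y = 1) (h' : (q : ℤ) * x' + M * y' = 1) (hq : q.Prime) (hq2 : q ≠ 2)
    (hqπ : (q : R) ∈ Ideal.span {π})
    (hgeo : GeoHyps K π (AdjoinSimple.gen K (legT K)) ↥(legE K M) M ({0, 1} : Finset R)) :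
    legW0 R K h hq = legW0 R K h' hq := by
  haveI : FiniteDimensional ↥K⟮jqNModC K 2⟯ ↥(legE K (M * q)) := finite_legE_adjoin_j K (M * q)
  have m := SSModelLeg.ssModel R K (ssModelLeg R K hπ h2 h hq hq2 hqπ hgeo)
  have m' := SSModelLeg.ssModel R K (ssModelLeg R K hπ h2 h' hq hq2 hqπ hgeo)
  rcases m'.two.only _ m.two.gauss_zero with h1 | h1
  · exact absurd h1.symm m.two.ne
  · exact h1

set_option maxHeartbeats 1600000 in
/-- **the orders of a non-zero function along the three sheets.** -/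
theorem legOrders3 {h2 : IsUnit (2 : R)} {hbez₁ : (q : ℤ) * x + M * y = 1}
    {hq : q.Prime} {hq2 : q ≠ 2}
    (h₁ : SSModelLeg R K (M := M) (q := q) π h2 hbez₁ hq hq2) (hπ : Irreducible π)
    {W11 W02 : ValuationSubring ↥(legE K (M * q * q))} {δ : ↥(legE K (M * q * q))}
    (hT : IsThreeSheet (legHostA K (M * q) q : ↥(legE K (M * q)) →+* ↥(legE K (M * q * q)))
      (legHostB K (M * q) q hq hq2 : ↥(legE K (M * q)) →+* ↥(legE K (M * q * q))) q
      (legWinf R K h2 (M * q)) (legW0 R K hbez₁ hq) (legWinf R K h2 (M * q * q)) W11 W02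
      (algebraMap R ↥(legE K (M * q * q)) π) δ)
    (hF : haveI : FiniteDimensional ↥K⟮jqNModC K 2⟯ ↥(legE K (M * q * q)) :=
        finite_legE_adjoin_j K (M * q * q)
      IsSheetFamily π (AdjoinSimple.gen K (jqNModC K 2))
        (IsThreeSheet.fam (legWinf R K h2 (M * q * q)) W11 W02))
    {f : ↥(legE K (M * q * q))} (hf : f ≠ 0) :
    ∃ n20 n11 n02 : ℤ,
      (legWinf R K h2 (M * q * q)).valuation
        (f * (algebraMap R ↥(legE K (M * q * q)) π) ^ (-n20)) = 1 ∧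
      W11.valuation (f * δ ^ (-n11)) = 1 ∧
      W02.valuation (f * (algebraMap R ↥(legE K (M * q * q)) π) ^ (-n02)) = 1 := by
  haveI : FiniteDimensional ↥K⟮jqNModC K 2⟯ ↥(legE K (M * q)) := finite_legE_adjoin_j K (M * q)
  haveI : FiniteDimensional ↥K⟮jqNModC K 2⟯ ↥(legE K (M * q * q)) :=
    finite_legE_adjoin_j K (M * q * q)
  have h₁' := SSModelLeg.ssModel R K h₁
  have hu := h₁'.j_transcendental
  have hK := h₁'.j_adjoin
  set ϖ : ↥(legE K (M * q * q)) := algebraMap R ↥(legE K (M * q * q)) π with hϖdef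
  have hϖ0 : ϖ ≠ 0 := algebraMap_pi_ne_zero (K₁ := K) (K := ↥K⟮jqNModC K 2⟯) hπ
  have hG20 := hF.gauss 0
  have hG11 := hF.gauss 1
  have hG02 := hF.gauss 2
  have hϖ20 : (legWinf R K h2 (M * q * q)).valuation ϖ < 1 :=
    valuation_pi_lt_one_of_isGaussAt _ hG20
  have hϖ11 : W11.valuation ϖ < 1 := valuation_pi_lt_one_of_isGaussAt _ hG11
  have hϖ02 : W02.valuation ϖ < 1 := valuation_pi_lt_one_of_isGaussAt _ hG02
  haveI d20 : IsDiscreteValuationRing ↥(legWinf R K h2 (M * q * q)) :=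
    isDiscreteValuationRing_sheet (K₁ := K) hπ hu hK hG20
  haveI d11 : IsDiscreteValuationRing ↥W11 :=
    isDiscreteValuationRing_sheet (K₁ := K) hπ hu hK hG11
  haveI d02 : IsDiscreteValuationRing ↥W02 :=
    isDiscreteValuationRing_sheet (K₁ := K) hπ hu hK hG02
  have hδlt : W11.valuation δ < 1 := by
    by_contra hge
    rw [not_lt] at hge
    have h1 : (1 : W11.ValueGroup) ≤ W11.valuation (δ ^ (q - 1)) := by
      rw [map_pow]
      exact one_le_pow₀ hge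
    rw [hT.val_δ] at h1
    exact absurd hϖ11 (not_lt.mpr h1)
  have hδ0 : δ ≠ 0 := by
    rintro rfl
    have := hT.val_δ
    rw [zero_pow (Nat.sub_ne_zero_of_lt hq.one_lt), map_zero] at this
    exact (_root_.map_ne_zero _).mpr hϖ0 this.symm
  obtain ⟨b20, hub20⟩ := exists_zpow_val_eq_one (legWinf R K h2 (M * q * q)) hϖ20 hϖ0
    hT.unif_20 f hf
  obtain ⟨b11, hub11⟩ := exists_zpow_val_eq_one W11 hδlt hδ0 hT.unif_11 f hf
  obtain ⟨b02, hub02⟩ := exists_zpow_val_eq_one W02 hϖ02 hϖ0 hT.unif_02 f hf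
  exact ⟨b20, b11, b02, hub20, hub11, hub02⟩

end Generic

section Base

variable (M q ℓ : ℕ) [NeZero M] [NeZero q] [NeZero ℓ] [NeZero (M * q)] [NeZero (M * q * q)]
  [NeZero (M * ℓ)] [NeZero (M * ℓ * q)] [NeZero (M * ℓ * q * q)] [NeZero (M * q * ℓ)]
  [NeZero (M * q * q * ℓ)] [Fact q.Prime]
  {A : ValuationSubring Ω}

set_option maxHeartbeats 3200000 in
/-- **the data of the level `M ℓ` over an unramified base.** -/
theorem exists_legSq_hecke_data (hA : A.LiesOverPrime q) (hq : q.Prime) (hq2 : q ≠ 2)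
    (hqM : ¬ q ∣ M)
    (K' : IntermediateField ℚ Ω) [IsDiscreteValuationRing ↥(baseRing A K')]
    [CharZero ↥(baseRing A K')] [DecidableEq ↥(baseRing A K')] (hK' : IsBase q K')
    (hirr : Irreducible ((q : ℕ) : ↥(baseRing A K'))) (h2 : IsUnit (2 : ↥(baseRing A K')))
    (hℓ : ℓ.Prime) (hℓ2 : ℓ ≠ 2) (hℓM : ¬ ℓ ∣ M) (hℓq : ℓ ≠ q) :
    letI := baseToComplex K'
    ∃ (x₂ y₂ : ℤ) (hbez₂ : (q : ℤ) * x₂ + ((M * ℓ : ℕ) : ℤ) * y₂ = 1)
      (h₂ : SSModelLeg ↥(baseRing A K') ↥K' (M := M * ℓ) (q := q)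
        ((q : ℕ) : ↥(baseRing A K')) h2 hbez₂ hq hq2)
      (W11' W02' : ValuationSubring ↥(legE ↥K' (M * ℓ * q * q))),
      IsThreeSheet
        (legHostA ↥K' (M * ℓ * q) q : ↥(legE ↥K' (M * ℓ * q)) →+* ↥(legE ↥K' (M * ℓ * q * q)))
        (legHostB ↥K' (M * ℓ * q) q hq hq2 :
          ↥(legE ↥K' (M * ℓ * q)) →+* ↥(legE ↥K' (M * ℓ * q * q))) q
        (legWinf ↥(baseRing A K') ↥K' h2 (M * ℓ * q)) (legW0 ↥(baseRing A K') ↥K' hbez₂ hq)
        (legWinf ↥(baseRing A K') ↥K' h2 (M * ℓ * q * q)) W11' W02'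
        (algebraMap ↥(baseRing A K') ↥(legE ↥K' (M * ℓ * q * q)) ((q : ℕ) : ↥(baseRing A K')))
        (legDelta ↥K' (M * ℓ) q) ∧
      (letI := (legHostA ↥K' M ℓ : ↥(legE ↥K' M) →+* ↥(legE ↥K' (M * ℓ))).toAlgebra;
        Module.finrank ↥(legE ↥K' M) ↥(legE ↥K' (M * ℓ)) = ℓ + 1) ∧
      (letI := (legHostA ↥K' (M * q * q) ℓ :
          ↥(legE ↥K' (M * q * q)) →+* ↥(legE ↥K' (M * q * q * ℓ))).toAlgebra;
        Module.finrank ↥(legE ↥K' (M * q * q)) ↥(legE ↥K' (M * q * q * ℓ)) = ℓ + 1) ∧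
      ∃ c : Fin (ℓ + 1) → ↥(legE ↥K' (M * ℓ)),
        (letI := (legHostA ↥K' M ℓ : ↥(legE ↥K' M) →+* ↥(legE ↥K' (M * ℓ))).toAlgebra;
          ResIndep (legWinf ↥(baseRing A K') ↥K' h2 M)
            (legWinf ↥(baseRing A K') ↥K' h2 (M * ℓ)) c) := by
  letI := baseToComplex K'
  have hqℓ : ¬ q ∣ ℓ := fun h => hℓq ((Nat.prime_dvd_prime_iff_eq hq hℓ).mp h).symm
  have hℓq' : ¬ ℓ ∣ q := fun h => hℓq ((Nat.prime_dvd_prime_iff_eq hℓ hq).mp h)
  have hqMℓ : ¬ q ∣ M * ℓ := by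
    intro h
    rcases hq.dvd_mul.mp h with h1 | h1
    · exact hqM h1
    · exact hqℓ h1
  have hℓMqq : ¬ ℓ ∣ M * q * q := by
    intro h
    rcases hℓ.dvd_mul.mp h with h1 | h1
    · rcases hℓ.dvd_mul.mp h1 with h3 | h3
      · exact hℓM h3
      · exact hℓq' h3
    · exact hℓq' h1
  obtain ⟨x₂, y₂, hbez₂⟩ := exists_bezout_of_prime_of_not_dvd hq hqMℓ
  have hqπ : ((q : ℕ) : ↥(baseRing A K')) ∈
      Ideal.span {((q : ℕ) : ↥(baseRing A K'))} := Ideal.mem_span_singleton_self _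
  have hgeo₂ := geoHyps_legE_baseRing hA (M * ℓ) hqMℓ hK' hq2 hirr
  have h₂ : SSModelLeg ↥(baseRing A K') ↥K' (M := M * ℓ) (q := q)
      ((q : ℕ) : ↥(baseRing A K')) h2 hbez₂ hq hq2 :=
    ssModelLeg ↥(baseRing A K') ↥K' hirr h2 hbez₂ hq hq2 hqπ hgeo₂
  obtain ⟨K'', hle, hK'', ζ, u, hζq, hζ1, hu⟩ := exists_cyclo_datum (A := A) hK'
  haveI : IsDiscreteValuationRing ↥(baseRing A K'') := hK''.isDiscreteValuationRing hA
  obtain ⟨W11', W02', -, -, -, hT', -⟩ :=
    exists_legE_threeSheet ↥(baseRing A K') ↥K' (M := M * ℓ) hirr h2 hbez₂ hq hq2 hqπ hgeo₂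
      (Fermat.Agent.JA.baseRingIncl A hle)
      ((IntermediateField.inclusion hle : ↥K' →ₐ[ℚ] ↥K'') : ↥K' →+* ↥K'')
      (inclusion_algebraMap_baseRing hle) ζ hζq hζ1 u hu
  have hdeg₀ := finrank_legHostA_base M ℓ hℓ hℓ2 hℓM K'
  have hdeg := finrank_legHostA_base (M * q * q) ℓ hℓ hℓ2 hℓMqq K'
  obtain ⟨c, hc⟩ := exists_resIndep_legWinf_base hA M hq2 ℓ K' h2 hK' hℓ hℓ2 hℓM hqMℓ
  exact ⟨x₂, y₂, hbez₂, h₂, W11', W02', hT', hdeg₀, hdeg, c, hc⟩

end Base

end

end Fermat.Agent.ML
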