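/-
ML — helper3 — **[MSQ] leaf (a): the Hecke relation reduced along the three sheets of the Legendre
host of level `M q q`**, generic unramified base.

* `ThreeHyps.hecke_rel_red_unit` : the unit form of helper3's `MP.ThreeHyps.hecke_rel_red` (no
  uniformiser of the sheet is needed: the sheet `W11` is ramified over the base);
* `legHeckeRel3_normalise` : a Hecke relation `T_ℓ G = c₀ G ^ a u ^ d` of a function `G` which is a
  unit along the three sheets can be rewritten with `c₀` a unit of the base ring and `u` a unit along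
  the three sheets;
* `legRedHecke3_of_model` : the reduced relation at the good level `M`, for each of the three sheets.
-/
import Mathlib
import Fermat.Agent.ML.MSQ_helper3_Delta
import Fermat.Agent.MP.REDINF_helper3_Abs
import Fermat.Agent.SS.FIELD_helper3_T

set_option autoImplicit false
set_option linter.unusedSectionVars false
set_option linter.unusedVariables false
set_option linter.style.haveILetI false
set_option synthInstance.maxHeartbeats 400000

open Polynomial ModularCurve IntermediateField IsLocalRing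

namespace Fermat.Agent.ML

open Fermat.Agent.JA Fermat.Agent.Igusa Fermat.Agent.SS Fermat.Agent.MP Fermat.Agent.S36
  Fermat.Agent.NP Fermat.Agent.RB

open scoped Fermat.Agent.JA.Host

section Three

variable {E₀ E₀' E E' : Type*} [Field E₀] [Field E₀'] [Field E] [Field E']
  {A₀ B₀ : E₀ →+* E₀'} {A B : E →+* E'} {P : E₀ →+* E} {P' : E₀' →+* E'}
  {V₀ : ValuationSubring E₀} {V₀' : ValuationSubring E₀'} {W : ValuationSubring E}
  {W' : ValuationSubring E'} {n : ℕ} {c : Fin n → E₀'}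

/-- **[RED∞], unit form**: a Hecke relation `N_A (B f) = P c₁ · f ^ a · u ^ p` with `f`, `u` units of
the sheet `W` and `f ≡ P x₀` reduces to `N_{A₀} (B₀ x₀) ≡ c₁ x₀ ^ a u₀ ^ p` at the good level. -/
theorem _root_.Fermat.Agent.MP.ThreeHyps.hecke_rel_red_unit (h : ThreeHyps A₀ B₀ A B P P' V₀ V₀' W W' n c)
    {f u : E} {a : ℤ} {p : ℕ} {c₁ : E₀} (hc₁ : V₀.valuation c₁ = 1) (hu : W.valuation u = 1)
    (hrel : (letI := A.toAlgebra; Algebra.norm E (B f)) = P c₁ * f ^ a * u ^ p)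
    {x₀ : E₀} (hfu : W.valuation f = 1) (hlink : W.valuation (f - P x₀) < 1) :
    V₀.valuation x₀ = 1 ∧ ∃ u₀ : E₀, V₀.valuation u₀ = 1 ∧
      V₀.valuation ((letI := A₀.toAlgebra; Algebra.norm E₀ (B₀ x₀)) -
        c₁ * x₀ ^ a * u₀ ^ p) < 1 := by
  letI algA := A.toAlgebra
  letI algA₀ := A₀.toAlgebra
  haveI := h.finA
  haveI := h.finA₀
  have hf0 : f ≠ 0 := redinf_ne_zero_of_val_eq_one W hfu
  obtain ⟨-, hfm, hfi⟩ := (hecker_val_eq_one_iff W).mp hfu
  have hPx₀ : W.valuation (P x₀) = 1 := redinf_val_eq_one_of_sub_lt W hfu hlink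
  have hx₀u : V₀.valuation x₀ = 1 := (h.val_P_eq_one_iff x₀).mp hPx₀
  have hx₀m : x₀ ∈ V₀ := redinf_mem_of_val_eq_one V₀ hx₀u
  have h2 := h.hecke_red hfm hfi hf0 hx₀m hlink
  obtain ⟨-, hum, -⟩ := (hecker_val_eq_one_iff W).mp hu
  obtain ⟨u₀, hu₀m, hu₀⟩ := h.res u hum
  have hPu₀ : W.valuation (P u₀) = 1 := redinf_val_eq_one_of_sub_lt W hu hu₀
  have hu₀u : V₀.valuation u₀ = 1 := (h.val_P_eq_one_iff u₀).mp hPu₀
  refine ⟨hx₀u, u₀, hu₀u, ?_⟩
  have hPc₁ : W.valuation (P c₁) = 1 := (h.val_P_eq_one_iff c₁).mpr hc₁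
  have hga : W.valuation (f ^ a) = 1 := redinf_val_zpow_eq_one W hfu a
  have hc5 : W.valuation (P c₁ * f ^ a * u ^ p - P (c₁ * x₀ ^ a * u₀ ^ p)) < 1 := by
    rw [map_mul, map_mul, map_zpow₀, map_pow]
    have hPu₀p : P u₀ ^ p ∈ W := pow_mem (redinf_mem_of_val_eq_one W hPu₀) p
    have hc6 : W.valuation (P c₁ * f ^ a - P c₁ * P x₀ ^ a) < 1 := by
      rw [← mul_sub, mul_comm]
      exact hecker_val_mul_lt_one W (redinf_val_zpow_sub_zpow_lt W hfu hPx₀ hlink a)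
        (redinf_mem_of_val_eq_one W hPc₁)
    refine redinf_val_mul_sub_mul_lt W ?_ hPu₀p hc6
      (redinf_val_pow_sub_pow_lt W hum (redinf_mem_of_val_eq_one W hPu₀) hu₀ p)
    exact W.mul_mem _ _ (redinf_mem_of_val_eq_one W hPc₁) (redinf_mem_of_val_eq_one W hga)
  have h7 : W.valuation (P (Algebra.norm E₀ (B₀ x₀)) - P (c₁ * x₀ ^ a * u₀ ^ p)) < 1 := by
    have h8 : W.valuation (P (Algebra.norm E₀ (B₀ x₀)) - Algebra.norm E (B f)) < 1 := by
      rw [Valuation.map_sub_swap]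
      exact h2
    rw [hrel] at h8
    exact redinf_val_sub_lt_trans W h8 hc5
  rw [← map_sub, hecker_comap_val_lt_one_iff V₀ P h.comap_P] at h7
  exact h7

/-- the valuation of `N_A (B x)` for a `W`-unit `x` is one. -/
theorem _root_.Fermat.Agent.MP.ThreeHyps.val_hecke_eq_one (h : ThreeHyps A₀ B₀ A B P P' V₀ V₀' W W' n c) {x : E}
    (hx : W.valuation x = 1) : W.valuation (letI := A.toAlgebra; Algebra.norm E (B x)) = 1 := by
  obtain ⟨hx0, hxm, hxi⟩ := (hecker_val_eq_one_iff W).mp hx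
  obtain ⟨h1, h2⟩ := h.hecke_unit hxm hxi
  refine (hecker_val_eq_one_iff W).mpr ⟨?_, h1, h2⟩
  intro h0
  letI algA := A.toAlgebra
  haveI := h.finA
  have : B x = 0 := Algebra.norm_eq_zero_iff.mp h0
  exact hx0 ((map_eq_zero B).mp this)

end Three

noncomputable section

section Leg

variable (R : Type*) [CommRing R] [IsDomain R] [IsDiscreteValuationRing R] [CharZero R]
  [DecidableEq R]
  (K : Type*) [Field K] [Algebra R K] [IsFractionRing R K] [Algebra ℚ K] [Algebra K ℂ]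
  {M q ℓ : ℕ} [NeZero M] [NeZero q] [NeZero ℓ] [NeZero (M * q)] [NeZero (M * q * q)]
  [NeZero (M * ℓ)] [NeZero (M * ℓ * q)] [NeZero (M * ℓ * q * q)] [NeZero (M * q * ℓ)]
  [NeZero (M * q * q * ℓ)] {x₁ y₁ x₂ y₂ : ℤ} {π : R}

/-- `A ∘ A` on the constants of the base ring. -/
theorem legSqA_algebraMap_base' (r : R) :
    (legSqA K M q : ↥(legE K M) →+* ↥(legE K (M * q * q))) (algebraMap R ↥(legE K M) r) =
      algebraMap R ↥(legE K (M * q * q)) r := by
  rw [IsScalarTower.algebraMap_apply R K ↥(legE K M),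
    IsScalarTower.algebraMap_apply R K ↥(legE K (M * q * q))]
  simp only [RingHom.coe_coe, AlgHom.commutes]

/-- `B ∘ B` on the constants of the base ring. -/
theorem legSqB_algebraMap_base' (hq : q.Prime) (hq2 : q ≠ 2) (r : R) :
    (legSqB K M q hq hq2 : ↥(legE K M) →+* ↥(legE K (M * q * q))) (algebraMap R ↥(legE K M) r) =
      algebraMap R ↥(legE K (M * q * q)) r := by
  rw [IsScalarTower.algebraMap_apply R K ↥(legE K M),
    IsScalarTower.algebraMap_apply R K ↥(legE K (M * q * q))]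
  simp only [RingHom.coe_coe, AlgHom.commutes]

set_option maxHeartbeats 3200000 in
/-- **the Hecke relation reduced along the three sheets, generic base.** -/
theorem legRedHecke3_of_model {h2 : IsUnit (2 : R)} {hbez₁ : (q : ℤ) * x₁ + M * y₁ = 1}
    {hbez₂ : (q : ℤ) * x₂ + ((M * ℓ : ℕ) : ℤ) * y₂ = 1} {hq : q.Prime} {hq2 : q ≠ 2}
    (h₁ : SSModelLeg R K (M := M) (q := q) π h2 hbez₁ hq hq2)
    (h₂ : SSModelLeg R K (M := M * ℓ) (q := q) π h2 hbez₂ hq hq2) (hπ : Irreducible π)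
    {W11 W02 : ValuationSubring ↥(legE K (M * q * q))} {δ : ↥(legE K (M * q * q))}
    (hT : IsThreeSheet (legHostA K (M * q) q : ↥(legE K (M * q)) →+* ↥(legE K (M * q * q)))
      (legHostB K (M * q) q hq hq2 : ↥(legE K (M * q)) →+* ↥(legE K (M * q * q))) q
      (legWinf R K h2 (M * q)) (legW0 R K hbez₁ hq) (legWinf R K h2 (M * q * q)) W11 W02
      (algebraMap R ↥(legE K (M * q * q)) π) δ)
    (hF : haveI : FiniteDimensional ↥K⟮jqNModC K 2⟯ ↥(legE K (M * q * q)) :=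
        finite_legE_adjoin_j K (M * q * q)
      IsSheetFamily π (AdjoinSimple.gen K (jqNModC K 2))
        (IsThreeSheet.fam (legWinf R K h2 (M * q * q)) W11 W02))
    {W11' W02' : ValuationSubring ↥(legE K (M * ℓ * q * q))} {ϖ' δ' : ↥(legE K (M * ℓ * q * q))}
    (hT' : IsThreeSheet
      (legHostA K (M * ℓ * q) q : ↥(legE K (M * ℓ * q)) →+* ↥(legE K (M * ℓ * q * q)))
      (legHostB K (M * ℓ * q) q hq hq2 : ↥(legE K (M * ℓ * q)) →+* ↥(legE K (M * ℓ * q * q))) q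
      (legWinf R K h2 (M * ℓ * q)) (legW0 R K hbez₂ hq) (legWinf R K h2 (M * ℓ * q * q))
      W11' W02' ϖ' δ')
    (hℓ : ℓ.Prime) (hℓ2 : ℓ ≠ 2)
    (hdeg₀ : letI := (legHostA K M ℓ : ↥(legE K M) →+* ↥(legE K (M * ℓ))).toAlgebra;
      Module.finrank ↥(legE K M) ↥(legE K (M * ℓ)) = ℓ + 1)
    (hdeg : letI := (legHostA K (M * q * q) ℓ :
        ↥(legE K (M * q * q)) →+* ↥(legE K (M * q * q * ℓ))).toAlgebra;
      Module.finrank ↥(legE K (M * q * q)) ↥(legE K (M * q * q * ℓ)) = ℓ + 1)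
    (c : Fin (ℓ + 1) → ↥(legE K (M * ℓ)))
    (hc : letI := (legHostA K M ℓ : ↥(legE K M) →+* ↥(legE K (M * ℓ))).toAlgebra;
      ResIndep (legWinf R K h2 M) (legWinf R K h2 (M * ℓ)) c)
    {a : ℤ} {d : ℕ} (hd : d ≠ 0) {G : ↥(legE K (M * q * q))}
    (hrel : ∃ (c₀ : K) (u : ↥(legE K (M * q * q))), c₀ ≠ 0 ∧ u ≠ 0 ∧
      legHeckeP K (M * q * q) ℓ hℓ hℓ2 G =
        algebraMap K ↥(legE K (M * q * q)) c₀ * G ^ a * u ^ d)
    (hG20 : (legWinf R K h2 (M * q * q)).valuation G = 1) (hG11 : W11.valuation G = 1)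
    (hG02 : W02.valuation G = 1) :
    (∀ x₀ : ↥(legE K M), (legWinf R K h2 (M * q * q)).valuation
        (G - (legSqA K M q : ↥(legE K M) →+* ↥(legE K (M * q * q))) x₀) < 1 →
      (legWinf R K h2 M).valuation x₀ = 1 ∧
      ∃ (ε : Rˣ) (u₀ : ↥(legE K M)), (legWinf R K h2 M).valuation u₀ = 1 ∧
        (legWinf R K h2 M).valuation (legHeckeP K M ℓ hℓ hℓ2 x₀ -
          algebraMap R ↥(legE K M) (ε : R) * x₀ ^ a * u₀ ^ d) < 1) ∧
    (∀ x₀ : ↥(legE K M), W11.valuation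
        (G - (legSqA K M q : ↥(legE K M) →+* ↥(legE K (M * q * q))) x₀) < 1 →
      (legWinf R K h2 M).valuation x₀ = 1 ∧
      ∃ (ε : Rˣ) (u₀ : ↥(legE K M)), (legWinf R K h2 M).valuation u₀ = 1 ∧
        (legWinf R K h2 M).valuation (legHeckeP K M ℓ hℓ hℓ2 x₀ -
          algebraMap R ↥(legE K M) (ε : R) * x₀ ^ a * u₀ ^ d) < 1) ∧
    (∀ x₀ : ↥(legE K M), W02.valuation
        (G - (legSqB K M q hq hq2 : ↥(legE K M) →+* ↥(legE K (M * q * q))) x₀) < 1 →
      (legWinf R K h2 M).valuation x₀ = 1 ∧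
      ∃ (ε : Rˣ) (u₀ : ↥(legE K M)), (legWinf R K h2 M).valuation u₀ = 1 ∧
        (legWinf R K h2 M).valuation (legHeckeP K M ℓ hℓ hℓ2 x₀ -
          algebraMap R ↥(legE K M) (ε : R) * x₀ ^ a * u₀ ^ d) < 1) := by
  haveI : FiniteDimensional ↥K⟮jqNModC K 2⟯ ↥(legE K (M * q)) := finite_legE_adjoin_j K (M * q)
  haveI : FiniteDimensional ↥K⟮jqNModC K 2⟯ ↥(legE K (M * q * q)) :=
    finite_legE_adjoin_j K (M * q * q)
  have h₁' := SSModelLeg.ssModel R K h₁
  have hu := h₁'.j_transcendental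
  have hK := h₁'.j_adjoin
  have hT20 := threeHyps_leg20 R K h₁ hT hℓ hℓ2 (Nat.succ_pos ℓ) hdeg₀ hdeg c hc
  have hT11 := threeHyps_leg11 R K h₁ h₂ hπ hT hT' hℓ hℓ2 (Nat.succ_pos ℓ) hdeg₀ hdeg c hc
  have hT02 := threeHyps_leg02 R K h₁ h₂ hπ hT hT' hℓ hℓ2 (Nat.succ_pos ℓ) hdeg₀ hdeg c hc
  obtain ⟨c₀, u, hc₀, hu0, hrel⟩ := hrel
  set ϖ : ↥(legE K (M * q * q)) := algebraMap R ↥(legE K (M * q * q)) π with hϖdef
  have hϖ0 : ϖ ≠ 0 := algebraMap_pi_ne_zero (K₁ := K) (K := ↥K⟮jqNModC K 2⟯) hπ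
  have hG20' := hF.gauss 0
  have hϖ20 : (legWinf R K h2 (M * q * q)).valuation ϖ < 1 :=
    valuation_pi_lt_one_of_isGaussAt _ hG20'
  haveI d20 : IsDiscreteValuationRing ↥(legWinf R K h2 (M * q * q)) :=
    isDiscreteValuationRing_sheet (K₁ := K) hπ hu hK hG20'
  -- the order of `u` along `W20` and the constant
  obtain ⟨b, hub⟩ := exists_zpow_val_eq_one (legWinf R K h2 (M * q * q)) hϖ20 hϖ0
    hT.unif_20 u hu0
  obtain ⟨εc, γ, hcγ⟩ := exists_units_mul_zpow_of_fraction₄ (K := K) hπ hc₀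
  have hcE : algebraMap K ↥(legE K (M * q * q)) c₀ =
      algebraMap R ↥(legE K (M * q * q)) (εc : R) * ϖ ^ γ := by
    rw [hcγ, map_mul, map_zpow₀, ← IsScalarTower.algebraMap_apply R K ↥(legE K (M * q * q)),
      ← IsScalarTower.algebraMap_apply R K ↥(legE K (M * q * q))]
  have hRW : ∀ i, ∀ s : R, algebraMap R ↥(legE K (M * q * q)) s ∈
      IsThreeSheet.fam (legWinf R K h2 (M * q * q)) W11 W02 i := fun i s =>
    hF.chart_le i _ (Subalgebra.algebraMap_mem _ s)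
  have hε20 : (legWinf R K h2 (M * q * q)).valuation
      (algebraMap R ↥(legE K (M * q * q)) (εc : R)) = 1 :=
    val_algebraMap_units_eq_one₄ _ (hRW 0) εc
  have hε11 : W11.valuation (algebraMap R ↥(legE K (M * q * q)) (εc : R)) = 1 :=
    val_algebraMap_units_eq_one₄ _ (hRW 1) εc
  have hε02 : W02.valuation (algebraMap R ↥(legE K (M * q * q)) (εc : R)) = 1 :=
    val_algebraMap_units_eq_one₄ _ (hRW 2) εc
  have hrel' : (letI := (legHostA K (M * q * q) ℓ :
        ↥(legE K (M * q * q)) →+* ↥(legE K (M * q * q * ℓ))).toAlgebra;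
      Algebra.norm ↥(legE K (M * q * q)) ((legHostB K (M * q * q) ℓ hℓ hℓ2 :
        ↥(legE K (M * q * q)) →+* ↥(legE K (M * q * q * ℓ))) G)) =
      algebraMap K ↥(legE K (M * q * q)) c₀ * G ^ a * u ^ d := hrel
  -- the normalised `u`
  set u₁ : ↥(legE K (M * q * q)) := u * ϖ ^ (-b) with hu₁
  have huu : u = u₁ * ϖ ^ b := by
    rw [hu₁, mul_assoc u, ← zpow_add₀ hϖ0, neg_add_cancel, zpow_zero, mul_one]
  have hTG20 := hT20.val_hecke_eq_one hG20
  have hTG11 := hT11.val_hecke_eq_one hG11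
  have hTG02 := hT02.val_hecke_eq_one hG02
  have hrel₁ : (letI := (legHostA K (M * q * q) ℓ :
        ↥(legE K (M * q * q)) →+* ↥(legE K (M * q * q * ℓ))).toAlgebra;
      Algebra.norm ↥(legE K (M * q * q)) ((legHostB K (M * q * q) ℓ hℓ hℓ2 :
        ↥(legE K (M * q * q)) →+* ↥(legE K (M * q * q * ℓ))) G)) =
      algebraMap R ↥(legE K (M * q * q)) (εc : R) * G ^ a * u₁ ^ d * ϖ ^ (γ + (d : ℤ) * b) := by
    rw [hrel', hcE]
    conv_lhs => rw [huu]
    rw [mul_pow, ← zpow_natCast (ϖ ^ b) d, ← zpow_mul, zpow_add₀ hϖ0, mul_comm b (d : ℤ)]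
    ring
  have he0 : γ + (d : ℤ) * b = 0 := by
    have h3 := hTG20
    rw [hrel₁, map_mul, map_mul, map_mul, hε20, redinf_val_zpow_eq_one _ hG20 a, map_pow, hub,
      one_pow, one_mul, one_mul, one_mul, map_zpow₀] at h3
    have h5 : (legWinf R K h2 (M * q * q)).valuation ϖ ^ (γ + (d : ℤ) * b) =
        (legWinf R K h2 (M * q * q)).valuation ϖ ^ (0 : ℤ) := by rw [h3, zpow_zero]
    exact hecker_zpow_inj _ hϖ0 hϖ20 h5
  rw [he0, zpow_zero, mul_one] at hrel₁
  -- `u₁` is a unit along the three sheets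
  have hu₁unit : ∀ W : ValuationSubring ↥(legE K (M * q * q)), W.valuation G = 1 →
      W.valuation (algebraMap R ↥(legE K (M * q * q)) (εc : R)) = 1 →
      W.valuation (letI := (legHostA K (M * q * q) ℓ :
        ↥(legE K (M * q * q)) →+* ↥(legE K (M * q * q * ℓ))).toAlgebra;
      Algebra.norm ↥(legE K (M * q * q)) ((legHostB K (M * q * q) ℓ hℓ hℓ2 :
        ↥(legE K (M * q * q)) →+* ↥(legE K (M * q * q * ℓ))) G)) = 1 →
      W.valuation u₁ = 1 := by
    intro W hGW hεW hTW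
    rw [hrel₁, map_mul, map_mul, hεW, redinf_val_zpow_eq_one _ hGW a, one_mul, one_mul,
      map_pow] at hTW
    exact (pow_eq_one_iff_of_nonneg zero_le hd).mp hTW
  have hu20 := hu₁unit _ hG20 hε20 hTG20
  have hu11 := hu₁unit _ hG11 hε11 hTG11
  have hu02 := hu₁unit _ hG02 hε02 hTG02
  have hεV : (legWinf R K h2 M).valuation (algebraMap R ↥(legE K M) (εc : R)) = 1 :=
    val_algebraMap_units_eq_one₄ _ (algebraMap_mem_legWinf R K h2 M) εc
  refine ⟨?_, ?_, ?_⟩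
  · intro x₀ hlink
    have hr : (letI := (legHostA K (M * q * q) ℓ :
          ↥(legE K (M * q * q)) →+* ↥(legE K (M * q * q * ℓ))).toAlgebra;
        Algebra.norm ↥(legE K (M * q * q)) ((legHostB K (M * q * q) ℓ hℓ hℓ2 :
          ↥(legE K (M * q * q)) →+* ↥(legE K (M * q * q * ℓ))) G)) =
        (legSqA K M q : ↥(legE K M) →+* ↥(legE K (M * q * q)))
          (algebraMap R ↥(legE K M) (εc : R)) * G ^ a * u₁ ^ d := by
      rw [legSqA_algebraMap_base']; exact hrel₁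
    obtain ⟨hx₀u, u₀, hu₀, hcong⟩ := hT20.hecke_rel_red_unit hεV hu20 hr hG20 hlink
    exact ⟨hx₀u, εc, u₀, hu₀, hcong⟩
  · intro x₀ hlink
    have hr : (letI := (legHostA K (M * q * q) ℓ :
          ↥(legE K (M * q * q)) →+* ↥(legE K (M * q * q * ℓ))).toAlgebra;
        Algebra.norm ↥(legE K (M * q * q)) ((legHostB K (M * q * q) ℓ hℓ hℓ2 :
          ↥(legE K (M * q * q)) →+* ↥(legE K (M * q * q * ℓ))) G)) =
        (legSqA K M q : ↥(legE K M) →+* ↥(legE K (M * q * q)))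
          (algebraMap R ↥(legE K M) (εc : R)) * G ^ a * u₁ ^ d := by
      rw [legSqA_algebraMap_base']; exact hrel₁
    obtain ⟨hx₀u, u₀, hu₀, hcong⟩ := hT11.hecke_rel_red_unit hεV hu11 hr hG11 hlink
    exact ⟨hx₀u, εc, u₀, hu₀, hcong⟩
  · intro x₀ hlink
    have hr : (letI := (legHostA K (M * q * q) ℓ :
          ↥(legE K (M * q * q)) →+* ↥(legE K (M * q * q * ℓ))).toAlgebra;
        Algebra.norm ↥(legE K (M * q * q)) ((legHostB K (M * q * q) ℓ hℓ hℓ2 :
          ↥(legE K (M * q * q)) →+* ↥(legE K (M * q * q * ℓ))) G)) =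
        (legSqB K M q hq hq2 : ↥(legE K M) →+* ↥(legE K (M * q * q)))
          (algebraMap R ↥(legE K M) (εc : R)) * G ^ a * u₁ ^ d := by
      rw [legSqB_algebraMap_base']; exact hrel₁
    obtain ⟨hx₀u, u₀, hu₀, hcong⟩ := hT02.hecke_rel_red_unit hεV hu02 hr hG02 hlink
    exact ⟨hx₀u, εc, u₀, hu₀, hcong⟩

end Leg

end

end Fermat.Agent.ML
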