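/-
ML — helper3 — **[MSQ] leaf (a): [DELTA-q²] and the reduced Hecke congruences over an unramified
base** (`R' = A ∩ K'`, `π = q`), from a Hecke relation `HeckeRelK` at the level of `F_{Mqq}(K')`.

* `legSq_host_rel` : the Hecke relation on the host;
* `legDelta3_base` : the congruences between the orders along the three sheets;
* `legRedHecke3_base` : the reduced Hecke congruences at the good level, for each of the three sheets.
-/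
import Mathlib
import Fermat.Agent.ML.MSQ_helper3_BaseData
import Fermat.Agent.ML.MSQ_helper3_RedHecke
import Fermat.Agent.NP.BASEP_helper2_DegGen

set_option autoImplicit false
set_option linter.unusedSectionVars false
set_option linter.unusedVariables false
set_option linter.style.haveILetI false
set_option synthInstance.maxHeartbeats 400000

open Polynomial ModularCurve IntermediateField IsLocalRing

namespace Fermat.Agent.ML

open Fermat.Agent.JA Fermat.Agent.Igusa Fermat.Agent.SS Fermat.Agent.MP Fermat.Agent.S36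
  Fermat.Agent.NP Fermat.Agent.RB Fermat.Agent.FF Fermat.Agent.S35

open scoped Fermat.Agent.JA.Host

/-- `Ω = AlgebraicClosure ℚ`. -/
local notation "Ω" => AlgebraicClosure ℚ

noncomputable section

section Base

variable (M q p : ℕ) [NeZero M] [NeZero q] [NeZero (M * q)] [NeZero (M * q * q)]
  {A : ValuationSubring Ω}

/-- **the Hecke relation on the host**, from the relation at the level of `F_N(K')`. -/
theorem legSq_host_rel (N : ℕ) [NeZero N] (K' : IntermediateField ℚ Ω) (S : Set ℕ) (a : ℕ → ℤ)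
    (g : ↥(keyFq ↥K' N)) (Hg : HeckeRelK ↥K' N p S a g) (ℓ : ℕ) [NeZero ℓ] [NeZero (N * ℓ)]
    (hℓ : ℓ.Prime) (hℓ2 : ℓ ≠ 2) (hℓN : ¬ ℓ ∣ N) (hℓS : ℓ ∉ S) :
    ∃ (c₀ : ↥K') (u : ↥(legE ↥K' N)), c₀ ≠ 0 ∧ u ≠ 0 ∧
      legHeckeP ↥K' N ℓ hℓ hℓ2 (fullToLegE ↥K' N g) =
        algebraMap ↥K' ↥(legE ↥K' N) c₀ * fullToLegE ↥K' N g ^ (a ℓ) * u ^ p := by
  obtain ⟨cH, uH, hcH, huH, hrel⟩ := Hg ℓ hℓ hℓS
  refine ⟨cH, fullToLegE ↥K' N uH, hcH, (_root_.map_ne_zero (fullToLegE ↥K' N)).mpr huH, ?_⟩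
  rw [legHeckeP_fullToLegE_base N ℓ hℓ hℓ2 hℓN K' g, hrel, map_mul, map_mul, map_zpow₀, map_pow,
    AlgHom.commutes]

variable [Fact q.Prime]

set_option maxHeartbeats 3200000 in
/-- **[DELTA-q²] over an unramified base.** -/
theorem legDelta3_base (hA : A.LiesOverPrime q) (hq : q.Prime) (hq2 : q ≠ 2) (hqM : ¬ q ∣ M)
    (hp : p.Prime) (K' : IntermediateField ℚ Ω) [IsDiscreteValuationRing ↥(baseRing A K')]
    [CharZero ↥(baseRing A K')] [DecidableEq ↥(baseRing A K')] (hK' : IsBase q K')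
    (hirr : Irreducible ((q : ℕ) : ↥(baseRing A K'))) (h2 : IsUnit (2 : ↥(baseRing A K')))
    {x₀ y₀ : ℤ} (hbez₀ : (q : ℤ) * x₀ + M * y₀ = 1) (S : Set ℕ) (a : ℕ → ℤ)
    (hbad : ∀ ℓ : ℕ, ℓ.Prime → ℓ ∣ M * q * q → ℓ ∈ S) (h2S : 2 ∈ S)
    (g : ↥(keyFq ↥K' (M * q * q))) (hg : g ≠ 0) (Hg : HeckeRelK ↥K' (M * q * q) p S a g)
    (ℓ : ℕ) (hℓ : ℓ.Prime) (hℓS : ℓ ∉ S) (hna : ¬ a ℓ ≡ (ℓ : ℤ) + 1 [ZMOD (p : ℤ)]) :
    letI := baseToComplex K'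
    ∀ (h₁ : SSModelLeg ↥(baseRing A K') ↥K' (M := M) (q := q) ((q : ℕ) : ↥(baseRing A K')) h2
        hbez₀ hq hq2)
      {W11 W02 : ValuationSubring ↥(legE ↥K' (M * q * q))} {δ : ↥(legE ↥K' (M * q * q))}
      (hT : IsThreeSheet
        (legHostA ↥K' (M * q) q : ↥(legE ↥K' (M * q)) →+* ↥(legE ↥K' (M * q * q)))
        (legHostB ↥K' (M * q) q hq hq2 : ↥(legE ↥K' (M * q)) →+* ↥(legE ↥K' (M * q * q))) q
        (legWinf ↥(baseRing A K') ↥K' h2 (M * q)) (legW0 ↥(baseRing A K') ↥K' hbez₀ hq)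
        (legWinf ↥(baseRing A K') ↥K' h2 (M * q * q)) W11 W02
        (algebraMap ↥(baseRing A K') ↥(legE ↥K' (M * q * q)) ((q : ℕ) : ↥(baseRing A K'))) δ)
      (hF : haveI : FiniteDimensional ↥(↥K')⟮jqNModC ↥K' 2⟯ ↥(legE ↥K' (M * q * q)) :=
          finite_legE_adjoin_j ↥K' (M * q * q)
        IsSheetFamily ((q : ℕ) : ↥(baseRing A K')) (AdjoinSimple.gen ↥K' (jqNModC ↥K' 2))
          (IsThreeSheet.fam (legWinf ↥(baseRing A K') ↥K' h2 (M * q * q)) W11 W02))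
      {n20 n11 n02 : ℤ}
      (hf20 : (legWinf ↥(baseRing A K') ↥K' h2 (M * q * q)).valuation
        (fullToLegE ↥K' (M * q * q) g *
          (algebraMap ↥(baseRing A K') ↥(legE ↥K' (M * q * q))
            ((q : ℕ) : ↥(baseRing A K'))) ^ (-n20)) = 1)
      (hf11 : W11.valuation (fullToLegE ↥K' (M * q * q) g * δ ^ (-n11)) = 1)
      (hf02 : W02.valuation
        (fullToLegE ↥K' (M * q * q) g *
          (algebraMap ↥(baseRing A K') ↥(legE ↥K' (M * q * q))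
            ((q : ℕ) : ↥(baseRing A K'))) ^ (-n02)) = 1),
      (p : ℤ) ∣ n02 - n20 ∧ (p : ℤ) ∣ n11 - ((q : ℤ) - 1) * n20 := by
  letI := baseToComplex K'
  intro h₁ W11 W02 δ hT hF n20 n11 n02 hf20 hf11 hf02
  have hℓ2 : ℓ ≠ 2 := fun h => hℓS (h ▸ h2S)
  have hℓMqq : ¬ ℓ ∣ M * q * q := fun h => hℓS (hbad ℓ hℓ h)
  have hℓM : ¬ ℓ ∣ M := fun h => hℓMqq (Dvd.dvd.mul_right (Dvd.dvd.mul_right h q) q)
  have hℓq : ℓ ≠ q := fun h => hℓMqq (h ▸ dvd_mul_left ℓ (M * ℓ))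
  haveI : NeZero ℓ := ⟨hℓ.ne_zero⟩
  haveI : NeZero (M * ℓ) := ⟨Nat.mul_ne_zero (NeZero.ne M) hℓ.ne_zero⟩
  haveI : NeZero (M * ℓ * q) := ⟨Nat.mul_ne_zero (NeZero.ne (M * ℓ)) hq.ne_zero⟩
  haveI : NeZero (M * ℓ * q * q) := ⟨Nat.mul_ne_zero (NeZero.ne (M * ℓ * q)) hq.ne_zero⟩
  haveI : NeZero (M * q * ℓ) := ⟨Nat.mul_ne_zero (NeZero.ne (M * q)) hℓ.ne_zero⟩
  haveI : NeZero (M * q * q * ℓ) := ⟨Nat.mul_ne_zero (NeZero.ne (M * q * q)) hℓ.ne_zero⟩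
  obtain ⟨x₂, y₂, hbez₂, h₂, W11', W02', hT', hdeg₀, hdeg, c, hc⟩ :=
    exists_legSq_hecke_data M q ℓ hA hq hq2 hqM K' hK' hirr h2 hℓ hℓ2 hℓM hℓq
  have hrel := legSq_host_rel p (M * q * q) K' S a g Hg ℓ hℓ hℓ2 hℓMqq hℓS
  have hG : fullToLegE ↥K' (M * q * q) g ≠ 0 :=
    (_root_.map_ne_zero (fullToLegE ↥K' (M * q * q))).mpr hg
  exact legDelta3_of_models ↥(baseRing A K') ↥K' h₁ h₂ hirr hT hF hT' hℓ hℓ2 hp hdeg₀ hdeg c hc
    hna hG hrel hf20 hf11 hf02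

set_option maxHeartbeats 3200000 in
/-- **the reduced Hecke congruences over an unramified base**, for each of the three sheets. -/
theorem legRedHecke3_base (hA : A.LiesOverPrime q) (hq : q.Prime) (hq2 : q ≠ 2)
    (hqM : ¬ q ∣ M) (hp0 : p ≠ 0) (K' : IntermediateField ℚ Ω)
    [IsDiscreteValuationRing ↥(baseRing A K')]
    [CharZero ↥(baseRing A K')] [DecidableEq ↥(baseRing A K')] (hK' : IsBase q K')
    (hirr : Irreducible ((q : ℕ) : ↥(baseRing A K'))) (h2 : IsUnit (2 : ↥(baseRing A K')))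
    {x₀ y₀ : ℤ} (hbez₀ : (q : ℤ) * x₀ + M * y₀ = 1) (S : Set ℕ) (a : ℕ → ℤ)
    (hbad : ∀ ℓ : ℕ, ℓ.Prime → ℓ ∣ M * q * q → ℓ ∈ S)
    (g : ↥(keyFq ↥K' (M * q * q))) (Hg : HeckeRelK ↥K' (M * q * q) p S a g)
    (ℓ : ℕ) [NeZero ℓ] [NeZero (M * ℓ)] (hℓ : ℓ.Prime) (hℓ2 : ℓ ≠ 2) (hℓS : ℓ ∉ S) :
    letI := baseToComplex K'
    ∀ (h₁ : SSModelLeg ↥(baseRing A K') ↥K' (M := M) (q := q) ((q : ℕ) : ↥(baseRing A K')) h2
        hbez₀ hq hq2)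
      {W11 W02 : ValuationSubring ↥(legE ↥K' (M * q * q))} {δ : ↥(legE ↥K' (M * q * q))}
      (hT : IsThreeSheet
        (legHostA ↥K' (M * q) q : ↥(legE ↥K' (M * q)) →+* ↥(legE ↥K' (M * q * q)))
        (legHostB ↥K' (M * q) q hq hq2 : ↥(legE ↥K' (M * q)) →+* ↥(legE ↥K' (M * q * q))) q
        (legWinf ↥(baseRing A K') ↥K' h2 (M * q)) (legW0 ↥(baseRing A K') ↥K' hbez₀ hq)
        (legWinf ↥(baseRing A K') ↥K' h2 (M * q * q)) W11 W02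
        (algebraMap ↥(baseRing A K') ↥(legE ↥K' (M * q * q)) ((q : ℕ) : ↥(baseRing A K'))) δ)
      (hF : haveI : FiniteDimensional ↥(↥K')⟮jqNModC ↥K' 2⟯ ↥(legE ↥K' (M * q * q)) :=
          finite_legE_adjoin_j ↥K' (M * q * q)
        IsSheetFamily ((q : ℕ) : ↥(baseRing A K')) (AdjoinSimple.gen ↥K' (jqNModC ↥K' 2))
          (IsThreeSheet.fam (legWinf ↥(baseRing A K') ↥K' h2 (M * q * q)) W11 W02))
      (hG20 : (legWinf ↥(baseRing A K') ↥K' h2 (M * q * q)).valuation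
        (fullToLegE ↥K' (M * q * q) g) = 1)
      (hG11 : W11.valuation (fullToLegE ↥K' (M * q * q) g) = 1)
      (hG02 : W02.valuation (fullToLegE ↥K' (M * q * q) g) = 1),
      (∀ x₀ : ↥(legE ↥K' M), (legWinf ↥(baseRing A K') ↥K' h2 (M * q * q)).valuation
          (fullToLegE ↥K' (M * q * q) g -
            (legSqA ↥K' M q : ↥(legE ↥K' M) →+* ↥(legE ↥K' (M * q * q))) x₀) < 1 →
        (legWinf ↥(baseRing A K') ↥K' h2 M).valuation x₀ = 1 ∧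
        ∃ (ε : (↥(baseRing A K'))ˣ) (u₀ : ↥(legE ↥K' M)),
          (legWinf ↥(baseRing A K') ↥K' h2 M).valuation u₀ = 1 ∧
          (legWinf ↥(baseRing A K') ↥K' h2 M).valuation (legHeckeP ↥K' M ℓ hℓ hℓ2 x₀ -
            algebraMap ↥(baseRing A K') ↥(legE ↥K' M) (ε : ↥(baseRing A K')) * x₀ ^ (a ℓ) *
              u₀ ^ p) < 1) ∧
      (∀ x₀ : ↥(legE ↥K' M), W11.valuation
          (fullToLegE ↥K' (M * q * q) g -
            (legSqA ↥K' M q : ↥(legE ↥K' M) →+* ↥(legE ↥K' (M * q * q))) x₀) < 1 →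
        (legWinf ↥(baseRing A K') ↥K' h2 M).valuation x₀ = 1 ∧
        ∃ (ε : (↥(baseRing A K'))ˣ) (u₀ : ↥(legE ↥K' M)),
          (legWinf ↥(baseRing A K') ↥K' h2 M).valuation u₀ = 1 ∧
          (legWinf ↥(baseRing A K') ↥K' h2 M).valuation (legHeckeP ↥K' M ℓ hℓ hℓ2 x₀ -
            algebraMap ↥(baseRing A K') ↥(legE ↥K' M) (ε : ↥(baseRing A K')) * x₀ ^ (a ℓ) *
              u₀ ^ p) < 1) ∧
      (∀ x₀ : ↥(legE ↥K' M), W02.valuation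
          (fullToLegE ↥K' (M * q * q) g -
            (legSqB ↥K' M q hq hq2 : ↥(legE ↥K' M) →+* ↥(legE ↥K' (M * q * q))) x₀) < 1 →
        (legWinf ↥(baseRing A K') ↥K' h2 M).valuation x₀ = 1 ∧
        ∃ (ε : (↥(baseRing A K'))ˣ) (u₀ : ↥(legE ↥K' M)),
          (legWinf ↥(baseRing A K') ↥K' h2 M).valuation u₀ = 1 ∧
          (legWinf ↥(baseRing A K') ↥K' h2 M).valuation (legHeckeP ↥K' M ℓ hℓ hℓ2 x₀ -
            algebraMap ↥(baseRing A K') ↥(legE ↥K' M) (ε : ↥(baseRing A K')) * x₀ ^ (a ℓ) *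
              u₀ ^ p) < 1) := by
  letI := baseToComplex K'
  intro h₁ W11 W02 δ hT hF hG20 hG11 hG02
  have hℓMqq : ¬ ℓ ∣ M * q * q := fun h => hℓS (hbad ℓ hℓ h)
  have hℓM : ¬ ℓ ∣ M := fun h => hℓMqq (Dvd.dvd.mul_right (Dvd.dvd.mul_right h q) q)
  have hℓq : ℓ ≠ q := fun h => hℓMqq (h ▸ dvd_mul_left ℓ (M * ℓ))
  haveI : NeZero (M * ℓ * q) := ⟨Nat.mul_ne_zero (NeZero.ne (M * ℓ)) hq.ne_zero⟩
  haveI : NeZero (M * ℓ * q * q) := ⟨Nat.mul_ne_zero (NeZero.ne (M * ℓ * q)) hq.ne_zero⟩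
  haveI : NeZero (M * q * ℓ) := ⟨Nat.mul_ne_zero (NeZero.ne (M * q)) hℓ.ne_zero⟩
  haveI : NeZero (M * q * q * ℓ) := ⟨Nat.mul_ne_zero (NeZero.ne (M * q * q)) hℓ.ne_zero⟩
  obtain ⟨x₂, y₂, hbez₂, h₂, W11', W02', hT', hdeg₀, hdeg, c, hc⟩ :=
    exists_legSq_hecke_data M q ℓ hA hq hq2 hqM K' hK' hirr h2 hℓ hℓ2 hℓM hℓq
  have hrel := legSq_host_rel p (M * q * q) K' S a g Hg ℓ hℓ hℓ2 hℓMqq hℓS
  exact legRedHecke3_of_model ↥(baseRing A K') ↥K' h₁ h₂ hirr hT hF hT' hℓ hℓ2 hdeg₀ hdeg c hc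
    hp0 hrel hG20 hG11 hG02

end Base

end

end Fermat.Agent.ML
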