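/-
ML — helper3 — **[MSQ] leaf (a): the alternative at the good level** (sheet independent).

A function `w ∈ F_M(K')` over an unramified base `K'`, a unit of the Gauss ring of the Legendre host
of level `M`, whose reduction has all orders divisible by `p` and satisfies the reduced Hecke
congruences `T_ℓ w ≡ ε w ^ (a ℓ) u₀ ^ p`, is congruent to a `p`-th power of a unit, or the
eigensystem occurs residually at level `M` (helper6's `ML.LegRoldQE`).  This is the common second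
half of the three [HALF]-statements of the three sheets of level `M q q` (pattern: helper6's
`ML.legMazInfQE_of`, helper1's `MP.legRedHeckeP`).
-/
import Mathlib
import Fermat.Agent.ML.MAZ_helper6_InfQE

set_option autoImplicit false
set_option linter.unusedSectionVars false
set_option linter.unusedVariables false
set_option linter.style.haveILetI false
set_option synthInstance.maxHeartbeats 400000

open HahnSeries IntermediateField AlgebraicCurve ModularCurve IsLocalRing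

namespace Fermat.Agent.ML

open Fermat.Agent.JA Fermat.Agent.FF Fermat.Agent.SS Fermat.Agent.S35 Fermat.Agent.S36
  Fermat.Agent.MP Fermat.Agent.NP Fermat.Agent.GR Fermat.Agent.FG Fermat.Agent.X0N
  Fermat.Agent.Igusa Fermat.Agent.RB

open scoped Fermat.Agent.JA.Host

/-- `Ω = AlgebraicClosure ℚ`. -/
local notation "Ω" => AlgebraicClosure ℚ

section Main

set_option maxHeartbeats 6400000 in
/-- **the alternative at the good level `M`.** -/
theorem legHalf_good_level (HR : LegRoldQE) (M : ℕ) [NeZero M] (q : ℕ) [NeZero q]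
    [Fact q.Prime] (hq2 : q ≠ 2) (hqM : ¬ q ∣ M) (p : ℕ) (hp : p.Prime) (hp2 : p ≠ 2)
    (hpq : p ≠ q) (h3 : EvenAtThree p M) (A : ValuationSubring Ω) (hA : A.LiesOverPrime q)
    (K' : IntermediateField ℚ Ω) [IsDiscreteValuationRing ↥(baseRing A K')] (hK' : IsBase q K')
    (S : Set ℕ) (a : ℕ → ℤ) (hbad : ∀ ℓ : ℕ, ℓ.Prime → ℓ ∣ M → ℓ ∈ S) (hqS : q ∈ S)
    (hpS : p ∈ S) (h2S : 2 ∈ S) (h2 : IsUnit (2 : ↥(baseRing A K')))
    (w : ↥(keyFq ↥K' M))
    (hWv : (legWinf ↥(baseRing A K') ↥K' h2 M).valuation (fullToLegE ↥K' M w) = 1)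
    (hWmem : fullToLegE ↥K' M w ∈ legWinf ↥(baseRing A K') ↥K' h2 M)
    (hord : ∀ Q : Place (ResidueField ↥A) (legEt hA M hq2),
      (p : ℤ) ∣ Q.ord (legRhoBase hA M hq2 K' h2 ⟨fullToLegE ↥K' M w, hWmem⟩))
    (hhecke : ∀ (ℓ : ℕ) (hℓ : ℓ.Prime) (hℓ2 : ℓ ≠ 2), ℓ ∉ S →
      haveI : NeZero ℓ := ⟨hℓ.ne_zero⟩
      haveI : NeZero (M * ℓ) := ⟨Nat.mul_ne_zero (NeZero.ne M) hℓ.ne_zero⟩
      ∃ (ε : (↥(baseRing A K'))ˣ) (u₀ : ↥(legE ↥K' M)),
        (legWinf ↥(baseRing A K') ↥K' h2 M).valuation u₀ = 1 ∧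
        (legWinf ↥(baseRing A K') ↥K' h2 M).valuation
          (legHeckeP ↥K' M ℓ hℓ hℓ2 (fullToLegE ↥K' M w) -
            algebraMap ↥(baseRing A K') ↥(legE ↥K' M) (ε : ↥(baseRing A K')) *
              fullToLegE ↥K' M w ^ (a ℓ) * u₀ ^ p) < 1) :
    (∃ b : ↥(legE ↥K' M), (legWinf ↥(baseRing A K') ↥K' h2 M).valuation b = 1 ∧
      (legWinf ↥(baseRing A K') ↥K' h2 M).valuation (fullToLegE ↥K' M w - b ^ p) < 1) ∨
    ResOccurs M p S a := by
  classical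
  have hq : q.Prime := Fact.out
  haveI : CharZero ↥(baseRing A K') := charZero_valuationSubring_of_algebraRat _
  letI := baseToComplex K'
  have hBC : legBC M K' (fullToLegE ↥K' M w) = fullToLegE Ω M (keyFqBC M K' w) :=
    bcdeg_legBC_fullToLegE M K' w
  have hWE' : legBC M K' (fullToLegE ↥K' M w) ∈ legWE hA M hq2 :=
    (legBC_mem_legWE_iff hA M K' hq2 _).2 hWmem
  have hWE : fullToLegE Ω M (keyFqBC M K' w) ∈ legWE hA M hq2 := hBC ▸ hWE'
  have hρw : legRhoBase hA M hq2 K' h2 ⟨fullToLegE ↥K' M w, hWmem⟩ =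
      legρ hA M hq2 ⟨fullToLegE Ω M (keyFqBC M K' w), hWE⟩ := by
    rw [legRhoBase_mk hA M hq2 K' h2 _ hWmem hWE']
    congr 1
    exact Subtype.ext hBC
  by_cases hcase : ∃ g : legEt hA M hq2,
      legρ hA M hq2 ⟨fullToLegE Ω M (keyFqBC M K' w), hWE⟩ = g ^ p
  · -- Case 1
    left
    obtain ⟨g, hg⟩ := hcase
    have hg' : legρ hA M hq2 ⟨legBC M K' (fullToLegE ↥K' M w), hWE'⟩ = g ^ p := by
      rw [← hg]
      congr 1
      exact Subtype.ext hBC
    obtain ⟨b, hb, hbv⟩ := exists_powQ_approx_of_legρ_eq_pow hA M hqM hK' hq2 h2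
      (fullToLegE ↥K' M w) hWmem hWE' p g hg'
    have hbp1 : (legWinf ↥(baseRing A K') ↥K' h2 M).valuation (b ^ p) = 1 :=
      kp_val_eq_one_of_sub_lt _ hWv hbv
    have hb1 : (legWinf ↥(baseRing A K') ↥K' h2 M).valuation b = 1 := by
      rw [map_pow] at hbp1
      exact (pow_eq_one_iff_of_nonneg zero_le hp.ne_zero).mp hbp1
    exact ⟨b, hb1, hbv⟩
  · -- Case 2
    right
    refine HR M q hq2 hqM p hp hp2 hpq h3 A hA S a hbad hqS hpS h2S (keyFqBC M K' w) hWE hcase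
      (fun Q => hρw ▸ hord Q) ?_
    intro ℓ hℓ hℓ2 hℓS
    haveI : NeZero ℓ := ⟨hℓ.ne_zero⟩
    haveI : NeZero (M * ℓ) := ⟨Nat.mul_ne_zero (NeZero.ne M) hℓ.ne_zero⟩
    have hℓM : ¬ ℓ ∣ M := fun h => hℓS (hbad ℓ hℓ h)
    have hℓq : ℓ ≠ q := fun h => hℓS (h ▸ hqS)
    have hqℓ : ¬ q ∣ ℓ := fun h => hℓq ((Nat.prime_dvd_prime_iff_eq hq hℓ).mp h).symm
    have hqMℓ : ¬ q ∣ M * ℓ := by
      intro h
      rcases hq.dvd_mul.mp h with h1 | h1
      · exact hqM h1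
      · exact hqℓ h1
    obtain ⟨ε, u₀, hu₀, hcong⟩ := hhecke ℓ hℓ hℓ2 hℓS
    set V := legWinf ↥(baseRing A K') ↥K' h2 M with hV
    set x₀ : ↥(legE ↥K' M) := fullToLegE ↥K' M w with hx₀def
    have hu₀m : u₀ ∈ V := redinf_mem_of_val_eq_one V hu₀
    have hεm : algebraMap ↥(baseRing A K') ↥(legE ↥K' M) (ε : ↥(baseRing A K')) ∈ V :=
      algebraMap_mem_legWinf ↥(baseRing A K') ↥K' h2 M _
    have hxb : x₀ ^ (a ℓ) ∈ V :=
      redinf_mem_of_val_eq_one V (redinf_val_zpow_eq_one V hWv (a ℓ))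
    obtain ⟨hN, hTρ⟩ := legRhoBase_legHeckeP hA M hq2 ℓ K' h2 hK' hℓ hℓ2 hℓM hqM hqMℓ x₀ hWmem
    have hrhsm : algebraMap ↥(baseRing A K') ↥(legE ↥K' M) (ε : ↥(baseRing A K')) *
        x₀ ^ (a ℓ) * u₀ ^ p ∈ V := V.mul_mem _ _ (V.mul_mem _ _ hεm hxb) (pow_mem hu₀m p)
    have hdiff : legRhoBase hA M hq2 K' h2 ⟨legHeckeP ↥K' M ℓ hℓ hℓ2 x₀, hN⟩ =
        legRhoBase hA M hq2 K' h2
          ⟨algebraMap ↥(baseRing A K') ↥(legE ↥K' M) (ε : ↥(baseRing A K')) * x₀ ^ (a ℓ) *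
            u₀ ^ p, hrhsm⟩ := by
      rw [← sub_eq_zero, ← map_sub, legRhoBase_eq_zero_iff]
      exact hcong
    have hsplit : legRhoBase hA M hq2 K' h2
          ⟨algebraMap ↥(baseRing A K') ↥(legE ↥K' M) (ε : ↥(baseRing A K')) * x₀ ^ (a ℓ) *
            u₀ ^ p, hrhsm⟩ =
        legRhoBase hA M hq2 K' h2 ⟨_, hεm⟩ * legRhoBase hA M hq2 K' h2 ⟨x₀, hWmem⟩ ^ (a ℓ) *
          legRhoBase hA M hq2 K' h2 ⟨u₀, hu₀m⟩ ^ p := by
      rw [← redinf_ρ_zpow (legRhoBase hA M hq2 K' h2) hWv (a ℓ), ← map_pow, ← map_mul,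
        ← map_mul]
      rfl
    refine ⟨baseResidueMap A K' (residue ↥(baseRing A K') (ε : ↥(baseRing A K'))),
      legRhoBase hA M hq2 K' h2 ⟨u₀, hu₀m⟩, ?_, ?_, ?_⟩
    · rw [Ne, map_eq_zero_iff _ (baseResidueMap_injective A K'), residue_eq_zero_iff]
      intro hmem
      exact (IsLocalRing.mem_maximalIdeal _).mp hmem ε.isUnit
    · intro h0
      rw [legRhoBase_eq_zero_iff] at h0
      change V.valuation u₀ < 1 at h0
      rw [hu₀] at h0
      exact lt_irrefl _ h0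
    · rw [← hρw, ← hTρ, hdiff, hsplit,
        legRhoBase_algebraMap hA M hq2 K' h2 (ε : ↥(baseRing A K')) hεm]

end Main

end Fermat.Agent.ML
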