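/-
ML — helper3 — [MSQ] **[NORM-q²]: normalisation of a Kummer function to a unit along the three
sheets, at the level of `F_{Mqq}(K)`**, and the stability of the Hecke relations `HeckeRelK`.

* `three_sheet_normalise` : abstract: orders `(n20, n11, n02)` with `p ∣ n11 - m n20`,
  `p ∣ n02 - n20`, normalisers `ϖ ~ (1, m, 1)`, `δ ~ (0, 1, d)`, `H ~ (0, 0, 1)`:
  `ϖ ^ (-n20) f (δ ^ (-a) H ^ (-(b - a d))) ^ p` is a unit along the three sheets;
* `heckeFunK_mul`, `heckeFunK_pow`, `heckeFunK_zpow`, `heckeFunK_ne_zero`,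
  `HeckeRelK.const_mul_mul_pow` : `T_ℓ` is multiplicative and `HeckeRelK` is stable under
  `f₀ ↦ c f₀ h ^ p`.
-/
import Mathlib
import Fermat.Agent.ML.MSQ_helper3_Delta
import Fermat.Agent.MP.KPBASE_helper4_Iface

set_option autoImplicit false
set_option linter.unusedSectionVars false
set_option linter.unusedVariables false
set_option linter.style.haveILetI false
set_option synthInstance.maxHeartbeats 400000

open Polynomial ModularCurve IntermediateField IsLocalRing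

namespace Fermat.Agent.ML

open Fermat.Agent.JA Fermat.Agent.Igusa Fermat.Agent.SS Fermat.Agent.MP Fermat.Agent.S36
  Fermat.Agent.NP Fermat.Agent.RB Fermat.Agent.S35

open scoped Fermat.Agent.JA.Host

noncomputable section

section Abs

variable {E : Type*} [Field E]

/-- **the normalisation along three sheets.** -/
theorem three_sheet_normalise (W20 W11 W02 : ValuationSubring E) {ϖ δ H f : E} {m p : ℕ}
    (hϖ : ϖ ≠ 0) (hδ0 : δ ≠ 0)
    (hδ11 : W11.valuation (δ ^ m) = W11.valuation ϖ)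
    (hδ20 : W20.valuation δ = 1) {d : ℤ} (hδ02 : W02.valuation (δ * ϖ ^ (-d)) = 1)
    (hH20 : W20.valuation H = 1) (hH11 : W11.valuation H = 1)
    (hH02 : W02.valuation (H * ϖ ^ (-(1 : ℤ))) = 1)
    {n20 n11 n02 a b : ℤ} (hf20 : W20.valuation (f * ϖ ^ (-n20)) = 1)
    (hf11 : W11.valuation (f * δ ^ (-n11)) = 1) (hf02 : W02.valuation (f * ϖ ^ (-n02)) = 1)
    (ha : n11 - (m : ℤ) * n20 = (p : ℤ) * a) (hb : n02 - n20 = (p : ℤ) * b) :
    W20.valuation (ϖ ^ (-n20) * f * (δ ^ (-a) * H ^ (-(b - a * d))) ^ p) = 1 ∧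
    W11.valuation (ϖ ^ (-n20) * f * (δ ^ (-a) * H ^ (-(b - a * d))) ^ p) = 1 ∧
    W02.valuation (ϖ ^ (-n20) * f * (δ ^ (-a) * H ^ (-(b - a * d))) ^ p) = 1 := by
  refine ⟨?_, ?_, ?_⟩
  · have h1 : W20.valuation (ϖ ^ (-n20) * f) = 1 := by rw [mul_comm]; exact hf20
    rw [map_mul, h1, one_mul, map_pow, map_mul, map_zpow₀, map_zpow₀, hδ20, hH20, one_zpow,
      one_zpow, one_mul, one_pow]
  · have hδv : W11.valuation δ ≠ 0 := (_root_.map_ne_zero _).mpr hδ0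
    have h1 : W11.valuation f = W11.valuation δ ^ n11 :=
      (hecker_val_eq_zpow_iff W11 hδ0 f n11).mp hf11
    have h2 : W11.valuation ϖ = W11.valuation δ ^ (m : ℤ) := by
      rw [← hδ11, map_pow, zpow_natCast]
    rw [map_mul, map_mul, map_zpow₀, map_pow, map_mul, map_zpow₀, map_zpow₀, hH11, one_zpow,
      mul_one, h1, h2, ← zpow_mul, ← zpow_natCast, ← zpow_mul, ← zpow_add₀ hδv,
      ← zpow_add₀ hδv]
    have : (m : ℤ) * -n20 + n11 + -a * (p : ℤ) = 0 := by linarith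
    rw [this, zpow_zero]
  · have hϖv : W02.valuation ϖ ≠ 0 := (_root_.map_ne_zero _).mpr hϖ
    have h1 : W02.valuation f = W02.valuation ϖ ^ n02 :=
      (hecker_val_eq_zpow_iff W02 hϖ f n02).mp hf02
    have h2 : W02.valuation δ = W02.valuation ϖ ^ d :=
      (hecker_val_eq_zpow_iff W02 hϖ δ d).mp hδ02
    have h3 : W02.valuation H = W02.valuation ϖ ^ (1 : ℤ) :=
      (hecker_val_eq_zpow_iff W02 hϖ H 1).mp hH02
    rw [map_mul, map_mul, map_zpow₀, map_pow, map_mul, map_zpow₀, map_zpow₀, h1, h2, h3,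
      ← zpow_mul, ← zpow_mul, ← zpow_add₀ hϖv, ← zpow_add₀ hϖv, ← zpow_natCast, ← zpow_mul,
      ← zpow_add₀ hϖv]
    have : -n20 + n02 + (d * -a + 1 * -(b - a * d)) * (p : ℤ) = 0 := by
      have : n02 - n20 = (p : ℤ) * b := hb
      ring_nf
      linarith
    rw [this, zpow_zero]

end Abs

section Hecke

variable (K : Type*) [Field K] [Algebra ℚ K] (N ℓ : ℕ) [NeZero N] [NeZero ℓ] [NeZero (N * ℓ)]

theorem heckeFunK_mul (f g : ↥(keyFq K N)) :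
    heckeFunK K N ℓ (f * g) = heckeFunK K N ℓ f * heckeFunK K N ℓ g := by
  rw [heckeFunK_eq_norm, heckeFunK_eq_norm, heckeFunK_eq_norm, map_mul, map_mul]
  -- (closed by `rfl` inside `rw`)

theorem heckeFunK_one : heckeFunK K N ℓ 1 = 1 := by
  rw [heckeFunK_eq_norm, map_one, map_one]

theorem heckeFunK_pow (f : ↥(keyFq K N)) (n : ℕ) :
    heckeFunK K N ℓ (f ^ n) = heckeFunK K N ℓ f ^ n := by
  rw [heckeFunK_eq_norm, heckeFunK_eq_norm, map_pow, map_pow]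

theorem heckeFunK_ne_zero {f : ↥(keyFq K N)} (hf : f ≠ 0) : heckeFunK K N ℓ f ≠ 0 := by
  intro h0
  have h1 : heckeFunK K N ℓ f * heckeFunK K N ℓ f⁻¹ = 1 := by
    rw [← heckeFunK_mul, mul_inv_cancel₀ hf, heckeFunK_one]
  rw [h0, zero_mul] at h1
  exact zero_ne_one h1

end Hecke

section Rel

variable {K : Type*} [Field K] [Algebra ℚ K] {N p : ℕ} [NeZero N] {S : Set ℕ} {a : ℕ → ℤ}

/-- **`HeckeRelK` is stable under `f₀ ↦ c f₀ h ^ p`.** -/
theorem HeckeRelK.const_mul_mul_pow {f₀ : ↥(keyFq K N)} (H : HeckeRelK K N p S a f₀)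
    (hf₀ : f₀ ≠ 0) {c : K} (hc : c ≠ 0) {h : ↥(keyFq K N)} (hh : h ≠ 0) :
    HeckeRelK K N p S a (algebraMap K ↥(keyFq K N) c * f₀ * h ^ p) := by
  intro ℓ hℓ hℓS
  haveI : NeZero ℓ := ⟨hℓ.ne_zero⟩
  haveI : NeZero (N * ℓ) := ⟨Nat.mul_ne_zero (NeZero.ne N) hℓ.ne_zero⟩
  obtain ⟨c₀, u, hc₀, hu, hrel⟩ := H ℓ hℓ hℓS
  obtain ⟨d, hd⟩ := exists_heckeFunK_algebraMap_mul K N ℓ
  have hcE : algebraMap K ↥(keyFq K N) c ≠ 0 := (_root_.map_ne_zero _).mpr hc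
  have hTh : heckeFunK K N ℓ h ≠ 0 := heckeFunK_ne_zero K N ℓ hh
  refine ⟨c ^ d * c₀ * (c ^ (a ℓ))⁻¹, u * heckeFunK K N ℓ h * (h ^ (a ℓ))⁻¹, ?_, ?_, ?_⟩
  · exact mul_ne_zero (mul_ne_zero (pow_ne_zero _ hc) hc₀) (inv_ne_zero (zpow_ne_zero _ hc))
  · exact mul_ne_zero (mul_ne_zero hu hTh) (inv_ne_zero (zpow_ne_zero _ hh))
  · have e1 : (algebraMap K ↥(keyFq K N) c * (f₀ * h ^ p)) ^ (a ℓ) =
        (algebraMap K ↥(keyFq K N) c) ^ (a ℓ) * f₀ ^ (a ℓ) * (h ^ p) ^ (a ℓ) := by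
      rw [mul_zpow, mul_zpow, mul_assoc]
    have e2 : (u * heckeFunK K N ℓ h * (h ^ (a ℓ))⁻¹) ^ p =
        u ^ p * heckeFunK K N ℓ h ^ p * ((h ^ (a ℓ)) ^ p)⁻¹ := by
      rw [mul_pow, mul_pow, inv_pow]
    have hPQ : (h ^ p) ^ (a ℓ) = (h ^ (a ℓ)) ^ p := by
      rw [← zpow_natCast (h ^ (a ℓ)) p, ← zpow_mul, ← zpow_natCast h p, ← zpow_mul, mul_comm]
    have hQ : (h ^ (a ℓ)) ^ p * ((h ^ (a ℓ)) ^ p)⁻¹ = 1 :=
      mul_inv_cancel₀ (pow_ne_zero _ (zpow_ne_zero _ hh))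
    have hca : (algebraMap K ↥(keyFq K N) c) ^ (a ℓ) *
        ((algebraMap K ↥(keyFq K N) c) ^ (a ℓ))⁻¹ = 1 :=
      mul_inv_cancel₀ (zpow_ne_zero _ hcE)
    rw [mul_assoc, hd, heckeFunK_mul, heckeFunK_pow, hrel, e1, e2, hPQ, map_mul, map_mul,
      map_pow, map_inv₀, map_zpow₀]
    linear_combination (-(algebraMap K ↥(keyFq K N) c ^ d * algebraMap K ↥(keyFq K N) c₀ *
        ((algebraMap K ↥(keyFq K N) c) ^ (a ℓ))⁻¹ * (algebraMap K ↥(keyFq K N) c) ^ (a ℓ) *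
        f₀ ^ (a ℓ) * u ^ p * heckeFunK K N ℓ h ^ p)) * hQ +
      (-(algebraMap K ↥(keyFq K N) c ^ d * algebraMap K ↥(keyFq K N) c₀ * f₀ ^ (a ℓ) * u ^ p *
        heckeFunK K N ℓ h ^ p)) * hca

end Rel

end

end Fermat.Agent.ML
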