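/-
ML — helper3 — [MSQ] **[NORM-q²] on the Legendre host of level `M q q`**, generic base: a function
`f₀ ∈ F_{Mqq}(K)` whose orders along the three sheets satisfy the congruences of [DELTA-q²] becomes
a unit along the three sheets after multiplication by a constant and a `p`-th power of a function
of `F_{Mqq}(K)`.

Normalisers: the constant `π ~ (1, q - 1, 1)`, `keyFqDelta ~ (0, 1, d)` (host image `legDelta`),
and `A(h) ~ (0, 0, 1)` with `h = sheetNormaliser U π` (helper6) built from the node unit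
`U = Δ(τ)/Δ(qτ)` of level `M q`.

* `fullToLegE_keyFqDelta` : the host image of `keyFqDelta` is `legDelta`;
* `legSheetNorm`, `val_legSheetNorm_*` : the normaliser of `W02`;
* `legNorm3_of_models` : the statement.
-/
import Mathlib
import Fermat.Agent.ML.MSQ_helper3_Norm
import Fermat.Agent.ML.MAZ_helper6_Normalise
import Fermat.Agent.MP.PLHOST_helper6_LegUnit

set_option autoImplicit false
set_option linter.unusedSectionVars false
set_option linter.unusedVariables false
set_option linter.style.haveILetI false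
set_option synthInstance.maxHeartbeats 400000

open Polynomial ModularCurve IntermediateField IsLocalRing

namespace Fermat.Agent.ML

open Fermat.Agent.JA Fermat.Agent.Igusa Fermat.Agent.SS Fermat.Agent.MP Fermat.Agent.S36
  Fermat.Agent.NP Fermat.Agent.RB Fermat.Agent.S35 Fermat.Agent.MW.NAdic

open scoped Fermat.Agent.JA.Host

noncomputable section

section Leg

variable (R : Type*) [CommRing R] [IsDomain R] [IsDiscreteValuationRing R] [CharZero R]
  [DecidableEq R]
  (K : Type*) [Field K] [Algebra R K] [IsFractionRing R K] [Algebra ℚ K] [Algebra K ℂ]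
  {M q : ℕ} [NeZero M] [NeZero q] [NeZero (M * q)] [NeZero (M * q * q)] {x₁ y₁ : ℤ} {π : R}

/-- the host image of `keyFqDelta` is `legDelta`. -/
theorem fullToLegE_keyFqDelta :
    fullToLegE K (M * q * q) (keyFqDelta K (M := M) (q := q)) = legDelta K M q := by
  apply Subtype.ext
  rw [coe_fullToLegE, coe_legDelta, coe_keyFqDelta]

/-- `A` on the level fields and on the Legendre hosts, level `M q → M q q`. -/
theorem fullToLegE_keyFqA_sq (z : ↥(keyFq K (M * q))) :
    fullToLegE K (M * q * q) (keyFqA K (M * q) q z) =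
      legHostA K (M * q) q (fullToLegE K (M * q) z) := by
  apply Subtype.ext
  rw [coe_fullToLegE, coe_keyFqA, coe_legHostA, coe_fullToLegE]

/-- **the normaliser of `W02`, at the level of `F_{Mqq}(K)`**: `A(h)`, `h = sheetNormaliser U π`,
`U` the node unit of level `M q`. -/
def legSheetNorm (π : R) : ↥(keyFq K (M * q * q)) :=
  keyFqA K (M * q) q
    (sheetNormaliser (modUnit K (M * q) q (Dvd.intro_left M rfl))
      (algebraMap K ↥(keyFq K (M * q)) (algebraMap R K π)))

theorem fullToLegE_legSheetNorm (π : R) :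
    fullToLegE K (M * q * q) (legSheetNorm R K (M := M) (q := q) π) =
      legHostA K (M * q) q
        (sheetNormaliser (fullToLegE K (M * q) (modUnit K (M * q) q (Dvd.intro_left M rfl)))
          (algebraMap R ↥(legE K (M * q)) π)) := by
  rw [legSheetNorm, fullToLegE_keyFqA_sq]
  congr 1
  rw [sheetNormaliser, sheetNormaliser, map_div₀, map_add, map_pow, map_pow, map_pow, map_add,
    AlgHom.commutes, ← IsScalarTower.algebraMap_apply R K ↥(legE K (M * q))]

set_option maxHeartbeats 1600000 in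
/-- **the orders of the normaliser of `W02` along the three sheets**: `(0, 0, 1)`. -/
theorem val_legSheetNorm {h2 : IsUnit (2 : R)} {hbez₁ : (q : ℤ) * x₁ + M * y₁ = 1}
    {hq : q.Prime} {hq2 : q ≠ 2}
    (h₁ : SSModelLeg R K (M := M) (q := q) π h2 hbez₁ hq hq2) (hπ : Irreducible π)
    {e : ℕ} {u : Rˣ} (he : 1 ≤ e) (hqe : (q : R) = u * π ^ e)
    {W11 W02 : ValuationSubring ↥(legE K (M * q * q))} {δ : ↥(legE K (M * q * q))}
    (hT : IsThreeSheet (legHostA K (M * q) q : ↥(legE K (M * q)) →+* ↥(legE K (M * q * q)))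
      (legHostB K (M * q) q hq hq2 : ↥(legE K (M * q)) →+* ↥(legE K (M * q * q))) q
      (legWinf R K h2 (M * q)) (legW0 R K hbez₁ hq) (legWinf R K h2 (M * q * q)) W11 W02
      (algebraMap R ↥(legE K (M * q * q)) π) δ) :
    (legWinf R K h2 (M * q * q)).valuation
      (fullToLegE K (M * q * q) (legSheetNorm R K (M := M) (q := q) π)) = 1 ∧
    W11.valuation (fullToLegE K (M * q * q) (legSheetNorm R K (M := M) (q := q) π)) = 1 ∧
    W02.valuation (fullToLegE K (M * q * q) (legSheetNorm R K (M := M) (q := q) π) *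
      (algebraMap R ↥(legE K (M * q * q)) π) ^ (-(1 : ℤ))) = 1 := by
  haveI : FiniteDimensional ↥K⟮jqNModC K 2⟯ ↥(legE K (M * q)) := finite_legE_adjoin_j K (M * q)
  have h₁' := SSModelLeg.ssModel R K h₁
  have hU := ssModelLeg_nodeUnit R K (M := M) hπ h2 hbez₁ hq he hqe
  set U : ↥(legE K (M * q)) :=
    fullToLegE K (M * q) (modUnit K (M * q) q (Dvd.intro_left M rfl)) with hUdef
  set ϖ₁ : ↥(legE K (M * q)) := algebraMap R ↥(legE K (M * q)) π with hϖ₁def
  have hϖ₁0 : ϖ₁ ≠ 0 := SSModel_pi_ne_zero h₁'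
  have hϖinf : (legWinf R K h2 (M * q)).valuation ϖ₁ < 1 := SSModel.val_pi_lt_one_inf h₁'
  have hϖ0' : (legW0 R K hbez₁ hq).valuation ϖ₁ < 1 := SSModel.val_pi_lt_one_zero h₁'
  have vU : (legWinf R K h2 (M * q)).valuation U = 1 :=
    val_eq_one_of_mem_inv_mem_n6 _ hU.ne_zero hU.mem_inf hU.inv_mem_inf
  have vV : (legW0 R K hbez₁ hq).valuation (U * (ϖ₁ ^ (12 * e))⁻¹) = 1 :=
    val_eq_one_of_mem_inv_mem_n6 _
      (mul_ne_zero hU.ne_zero (inv_ne_zero (pow_ne_zero _ hϖ₁0))) hU.mem_zero hU.inv_mem_zero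
  have hinf := val_sheetNormaliser_inf (legWinf R K h2 (M * q)) vU hϖinf
  have hzero := val_sheetNormaliser_zero (legW0 R K hbez₁ hq) (c := 12 * e) (by omega) hϖ₁0 vV
    hϖ0'
  rw [fullToLegE_legSheetNorm]
  refine ⟨?_, ?_, ?_⟩
  · exact (kp_comap_val_eq_one_iff _ (legHostA K (M * q) q :
      ↥(legE K (M * q)) →+* ↥(legE K (M * q * q))) hT.comap_A_20 _).mpr hinf
  · exact (kp_comap_val_eq_one_iff _ (legHostA K (M * q) q :
      ↥(legE K (M * q)) →+* ↥(legE K (M * q * q))) hT.comap_A_11 _).mpr hinf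
  · have h3 := (kp_comap_val_eq_one_iff _ (legHostA K (M * q) q :
      ↥(legE K (M * q)) →+* ↥(legE K (M * q * q))) hT.comap_A_02 _).mpr hzero
    have e1 : (legHostA K (M * q) q : ↥(legE K (M * q)) →+* ↥(legE K (M * q * q))) ϖ₁ =
        algebraMap R ↥(legE K (M * q * q)) π := by
      rw [hϖ₁def, IsScalarTower.algebraMap_apply R K ↥(legE K (M * q)),
        IsScalarTower.algebraMap_apply R K ↥(legE K (M * q * q))]
      simp only [RingHom.coe_coe, AlgHom.commutes]
    rw [map_mul, map_inv₀, map_pow, e1] at h3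
    rw [zpow_neg, zpow_one]
    rw [pow_one] at h3
    exact h3

set_option maxHeartbeats 1600000 in
/-- **[NORM-q²] on the Legendre hosts, generic base.** -/
theorem legNorm3_of_models {h2 : IsUnit (2 : R)} {hbez₁ : (q : ℤ) * x₁ + M * y₁ = 1}
    {hq : q.Prime} {hq2 : q ≠ 2}
    (h₁ : SSModelLeg R K (M := M) (q := q) π h2 hbez₁ hq hq2) (hπ : Irreducible π)
    {e : ℕ} {u : Rˣ} (he : 1 ≤ e) (hqe : (q : R) = u * π ^ e)
    {W11 W02 : ValuationSubring ↥(legE K (M * q * q))}
    (hT : IsThreeSheet (legHostA K (M * q) q : ↥(legE K (M * q)) →+* ↥(legE K (M * q * q)))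
      (legHostB K (M * q) q hq hq2 : ↥(legE K (M * q)) →+* ↥(legE K (M * q * q))) q
      (legWinf R K h2 (M * q)) (legW0 R K hbez₁ hq) (legWinf R K h2 (M * q * q)) W11 W02
      (algebraMap R ↥(legE K (M * q * q)) π) (legDelta K M q))
    (hF : haveI : FiniteDimensional ↥K⟮jqNModC K 2⟯ ↥(legE K (M * q * q)) :=
        finite_legE_adjoin_j K (M * q * q)
      IsSheetFamily π (AdjoinSimple.gen K (jqNModC K 2))
        (IsThreeSheet.fam (legWinf R K h2 (M * q * q)) W11 W02))
    {p : ℕ} {f₀ : ↥(keyFq K (M * q * q))} (hf₀ : f₀ ≠ 0) {n20 n11 n02 : ℤ}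
    (hf20 : (legWinf R K h2 (M * q * q)).valuation
      (fullToLegE K (M * q * q) f₀ * (algebraMap R ↥(legE K (M * q * q)) π) ^ (-n20)) = 1)
    (hf11 : W11.valuation (fullToLegE K (M * q * q) f₀ * (legDelta K M q) ^ (-n11)) = 1)
    (hf02 : W02.valuation
      (fullToLegE K (M * q * q) f₀ * (algebraMap R ↥(legE K (M * q * q)) π) ^ (-n02)) = 1)
    (hd1 : (p : ℤ) ∣ n02 - n20) (hd2 : (p : ℤ) ∣ n11 - ((q : ℤ) - 1) * n20) :
    ∃ (c : K) (h : ↥(keyFq K (M * q * q))), c ≠ 0 ∧ h ≠ 0 ∧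
      (legWinf R K h2 (M * q * q)).valuation
        (fullToLegE K (M * q * q) (algebraMap K ↥(keyFq K (M * q * q)) c * f₀ * h ^ p)) = 1 ∧
      W11.valuation
        (fullToLegE K (M * q * q) (algebraMap K ↥(keyFq K (M * q * q)) c * f₀ * h ^ p)) = 1 ∧
      W02.valuation
        (fullToLegE K (M * q * q) (algebraMap K ↥(keyFq K (M * q * q)) c * f₀ * h ^ p)) = 1 := by
  haveI : FiniteDimensional ↥K⟮jqNModC K 2⟯ ↥(legE K (M * q)) := finite_legE_adjoin_j K (M * q)
  haveI : FiniteDimensional ↥K⟮jqNModC K 2⟯ ↥(legE K (M * q * q)) :=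
    finite_legE_adjoin_j K (M * q * q)
  have h₁' := SSModelLeg.ssModel R K h₁
  have hu := h₁'.j_transcendental
  have hK := h₁'.j_adjoin
  obtain ⟨b, hb⟩ := hd1
  obtain ⟨a, ha⟩ := hd2
  set ϖ : ↥(legE K (M * q * q)) := algebraMap R ↥(legE K (M * q * q)) π with hϖdef
  have hϖ0 : ϖ ≠ 0 := algebraMap_pi_ne_zero (K₁ := K) (K := ↥K⟮jqNModC K 2⟯) hπ
  have hG02 := hF.gauss 2
  have hϖ02 : W02.valuation ϖ < 1 := valuation_pi_lt_one_of_isGaussAt _ hG02
  haveI d02 : IsDiscreteValuationRing ↥W02 :=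
    isDiscreteValuationRing_sheet (K₁ := K) hπ hu hK hG02
  have hδ20 := legWinf_valuation_legDelta R K (M := M) h2 hq
  have hδ0 : legDelta K M q ≠ 0 := by
    intro h0
    rw [h0, map_zero] at hδ20
    exact zero_ne_one hδ20
  obtain ⟨d, hd⟩ := exists_zpow_val_eq_one W02 hϖ02 hϖ0 hT.unif_02 (legDelta K M q) hδ0
  obtain ⟨hH20, hH11, hH02⟩ := val_legSheetNorm R K h₁ hπ he hqe hT
  have hH0 : legSheetNorm R K (M := M) (q := q) π ≠ 0 := by
    intro h0
    rw [h0, map_zero, map_zero] at hH20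
    exact zero_ne_one hH20
  have hq1 : ((q - 1 : ℕ) : ℤ) = (q : ℤ) - 1 := by
    rw [Nat.cast_sub hq.one_lt.le, Nat.cast_one]
  have ha' : n11 - ((q - 1 : ℕ) : ℤ) * n20 = (p : ℤ) * a := by rw [hq1]; exact ha
  have key := three_sheet_normalise (legWinf R K h2 (M * q * q)) W11 W02 hϖ0 hδ0 hT.val_δ hδ20 hd
    hH20 hH11 hH02 hf20 hf11 hf02 ha' hb
  have hπK : algebraMap R K π ≠ 0 := by
    intro h0
    apply hϖ0
    rw [hϖdef, IsScalarTower.algebraMap_apply R K ↥(legE K (M * q * q)), h0, map_zero]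
  have hΔ0 : keyFqDelta K (M := M) (q := q) ≠ 0 := by
    intro h0
    apply hδ0
    rw [← fullToLegE_keyFqDelta, h0, map_zero]
  refine ⟨(algebraMap R K π) ^ (-n20),
    (keyFqDelta K (M := M) (q := q)) ^ (-a) *
      (legSheetNorm R K (M := M) (q := q) π) ^ (-(b - a * d)),
    zpow_ne_zero _ hπK, mul_ne_zero (zpow_ne_zero _ hΔ0) (zpow_ne_zero _ hH0), ?_⟩
  have eg : fullToLegE K (M * q * q)
      (algebraMap K ↥(keyFq K (M * q * q)) ((algebraMap R K π) ^ (-n20)) * f₀ *
        ((keyFqDelta K (M := M) (q := q)) ^ (-a) *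
          (legSheetNorm R K (M := M) (q := q) π) ^ (-(b - a * d))) ^ p) =
      ϖ ^ (-n20) * fullToLegE K (M * q * q) f₀ *
        ((legDelta K M q) ^ (-a) *
          (fullToLegE K (M * q * q) (legSheetNorm R K (M := M) (q := q) π)) ^ (-(b - a * d))) ^ p := by
    rw [map_mul, map_mul, map_pow, map_mul, map_zpow₀, map_zpow₀, AlgHom.commutes, map_zpow₀,
      fullToLegE_keyFqDelta, ← IsScalarTower.algebraMap_apply R K ↥(legE K (M * q * q)),
      map_zpow₀]
  rw [eg]
  exact key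

end Leg

end

end Fermat.Agent.ML
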