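/-
ML — helper3 — **[MSQ] end-game (3): the calculus of local data and of their ratios** (abstract;
generic in the chart `B ⊆ E`, the closed point `𝔫` and the sheets through it).

`B` a subalgebra of a field `E`, `𝔫` a prime (maximal where needed) of `B`, `W` a valuation subring
of `E` containing `B` whose trace on `B` is contained in `𝔫` (`IsSheetThrough B 𝔫 W`: "the sheet
`W` passes through `𝔫`").

* `IsClosedRootAt B 𝔫 m G Γ` : `G / Γ ^ m` is a unit at `𝔫`;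
  `IsBranchRootAt B 𝔫 W lam Γ w` : `w` is a unit of the local ring at `𝔫` congruent to `lam / Γ`
  on `W`;
* `IsClosedRootAt.div_unit` : for two closed roots `Γ`, `Γ'` of the same `G` the quotient `Γ' / Γ`
  is a unit of the local ring (`B` integrally closed);
* `IsBranchRootAt.sub_mul_mem_locMax` : `w ≡ (Γ' / Γ) w'` modulo `𝔫`;
* `ratio_congr` : **the ratio of the branch roots on two sheets through `𝔫` does not depend on the
  local datum**;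
* `exists_ratio` : the ratio is an `m`-th root of unity of `R`;
* `IsClosedRootAt.mul/inv`, `IsBranchRootAt.mul/inv`, `ratio_mul`, `ratio_inv` : multiplicativity;
* `IsClosedRootAt.map`, `IsBranchRootAt.map` : transport along a ring homomorphism of hosts;
* the two-sheet API: `NodeRatioAt.unique`, `NodeRatioAt.forall_datum`, `NodeRatioAt.mul`,
  `NodeRatioAt.inv`, `NodeRatioAt.of_datum`.
-/
import Mathlib
import Fermat.Agent.ML.IFACE_helper3_Surj2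
import Fermat.Agent.SS.EXPORT_helper4_Loc

set_option autoImplicit false
set_option linter.unusedSectionVars false
set_option linter.unusedVariables false
set_option linter.style.haveILetI false

namespace Fermat.Agent.ML

open Fermat.Agent.SS Fermat.Agent.JA

section Loc

variable {R : Type*} [CommRing R] {E : Type*} [Field E] [Algebra R E]
  {B : Subalgebra R E} {𝔫 : Ideal ↥B}

/-- **the sheet `W` passes through the closed point `𝔫`** of the chart `B`. -/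
structure IsSheetThrough (B : Subalgebra R E) (𝔫 : Ideal ↥B) (W : ValuationSubring E) : Prop where
  le : ∀ b ∈ B, b ∈ W
  mem : ∀ b : ↥B, W.valuation (b : E) < 1 → b ∈ 𝔫

theorem isSheetThrough_of_le {W : ValuationSubring E} (hBW : ∀ b ∈ B, b ∈ W) {𝔭 : Ideal ↥B}
    (h𝔭 : ∀ b : ↥B, b ∈ 𝔭 ↔ W.valuation (b : E) < 1) (hle : 𝔭 ≤ 𝔫) : IsSheetThrough B 𝔫 W :=
  ⟨hBW, fun b hb => hle ((h𝔭 b).mpr hb)⟩

variable [h𝔫 : 𝔫.IsPrime] {W W' : ValuationSubring E}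

theorem IsSheetThrough.valuation_coe_eq_one (h : IsSheetThrough B 𝔫 W) {s : ↥B} (hs : s ∉ 𝔫) :
    W.valuation (s : E) = 1 :=
  le_antisymm ((ValuationSubring.valuation_le_one_iff _ _).mpr (h.le _ s.2))
    (not_lt.mp (fun hlt => hs (h.mem s hlt)))

theorem IsSheetThrough.valuation_le_one (h : IsSheetThrough B 𝔫 W) {e : E}
    (he : e ∈ locRing B 𝔫) : W.valuation e ≤ 1 := by
  obtain ⟨r, s, hs, hrs⟩ := he
  have h1 : W.valuation e = W.valuation (r : E) := by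
    rw [← hrs, map_mul, h.valuation_coe_eq_one hs, mul_one]
  rw [h1]
  exact (ValuationSubring.valuation_le_one_iff _ _).mpr (h.le _ r.2)

theorem IsSheetThrough.mem_locMax (h : IsSheetThrough B 𝔫 W) {e : E}
    (he : e ∈ locRing B 𝔫) (hv : W.valuation e < 1) : e ∈ locMax B 𝔫 := by
  obtain ⟨r, s, hs, hrs⟩ := he
  refine ⟨r, s, h.mem r ?_, hs, hrs⟩
  rw [← hrs, map_mul, h.valuation_coe_eq_one hs, mul_one]
  exact hv

theorem IsSheetThrough.valuation_eq_one (h : IsSheetThrough B 𝔫 W) {e : E}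
    (he : e ∈ locRing B 𝔫) (he' : e ∉ locMax B 𝔫) : W.valuation e = 1 := by
  refine le_antisymm (h.valuation_le_one he) (not_lt.mp (fun hlt => he' (h.mem_locMax he hlt)))

/-- the maximal ideal of the local ring is prime. -/
theorem mem_or_mem_of_mul_mem_locMax {e f : E} (he : e ∈ locRing B 𝔫) (hf : f ∈ locRing B 𝔫)
    (hef : e * f ∈ locMax B 𝔫) : e ∈ locMax B 𝔫 ∨ f ∈ locMax B 𝔫 := by
  by_cases h : e ∈ locMax B 𝔫
  · exact Or.inl h
  · right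
    have h1 : e⁻¹ ∈ locRing B 𝔫 := inv_mem_locRing he h
    have h0 : e ≠ 0 := fun h0 => h (h0 ▸ zero_mem_locMax)
    have h2 := mul_mem_locMax h1 hef
    rwa [← mul_assoc, inv_mul_cancel₀ h0, one_mul] at h2

theorem mul_notMem_locMax {e f : E} (he : e ∈ locRing B 𝔫) (hf : f ∈ locRing B 𝔫)
    (he' : e ∉ locMax B 𝔫) (hf' : f ∉ locMax B 𝔫) : e * f ∉ locMax B 𝔫 := fun h =>
  (mem_or_mem_of_mul_mem_locMax he hf h).elim he' hf'

theorem pow_mem_locMax {e : E} (he : e ∈ locMax B 𝔫) {m : ℕ} (hm : m ≠ 0) :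
    e ^ m ∈ locMax B 𝔫 := by
  obtain ⟨k, rfl⟩ := Nat.exists_eq_succ_of_ne_zero hm
  rw [pow_succ]
  exact mul_mem_locMax ((locRing B 𝔫).pow_mem (locMax_subset_locRing he) k) he

theorem inv_notMem_locMax {e : E} (he : e ∈ locRing B 𝔫) (he' : e ∉ locMax B 𝔫) :
    e⁻¹ ∉ locMax B 𝔫 := by
  intro h
  have h0 : e ≠ 0 := fun h0 => he' (h0 ▸ zero_mem_locMax)
  have := mul_mem_locMax he h
  rw [mul_inv_cancel₀ h0] at this
  exact one_notMem_locMax this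

/-- a fraction of two elements outside `𝔫` is a unit of the local ring. -/
theorem notMem_locMax_of_mul_eq {e : E} {r s : ↥B} (hr : r ∉ 𝔫) (hs : s ∉ 𝔫)
    (hrs : e * (s : E) = (r : E)) : e ∉ locMax B 𝔫 := by
  rintro ⟨r', s', hr', hs', hrs'⟩
  have h1 : (r : E) * (s' : E) = (r' : E) * (s : E) := by
    rw [← hrs, ← hrs']; ring
  have h2 : r * s' = r' * s := Subtype.ext h1
  have h3 : r * s' ∈ 𝔫 := by rw [h2]; exact 𝔫.mul_mem_right _ hr'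
  rcases h𝔫.mem_or_mem h3 with h | h
  · exact hr h
  · exact hs' h

end Loc

section Root

variable {R : Type*} [CommRing R] {E : Type*} [Field E] [Algebra R E]
  {B : Subalgebra R E} {𝔫 : Ideal ↥B}

/-- **roots of elements of the local ring** (`B` integrally closed in `E`, `𝔫` maximal). -/
theorem mem_locRing_of_pow_mem [hmax : 𝔫.IsMaximal] (hB : ∀ e : E, IsIntegral ↥B e → e ∈ B)
    {m : ℕ} (hm : m ≠ 0) {x : E} (hx : x ^ m ∈ locRing B 𝔫) : x ∈ locRing B 𝔫 := by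
  refine mem_locRing_of_forall_valuationSubring hB x (fun V hV1 hV2 => ?_)
  have h1 : x ^ m ∈ V := (locRing_le_of_dominates V hV1 hV2).1 _ hx
  rw [← ValuationSubring.valuation_le_one_iff] at h1 ⊢
  rw [map_pow] at h1
  exact (pow_le_one_iff_of_nonneg zero_le hm).mp h1

end Root

/-! ### closed roots and branch roots -/

section Roots

variable {R : Type*} [CommRing R] {E : Type*} [Field E] [Algebra R E]

/-- **a closed root of `G` at `𝔫`**: `G / Γ ^ m` is a unit at `𝔫`. -/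
def IsClosedRootAt (B : Subalgebra R E) (𝔫 : Ideal ↥B) (m : ℕ) (G Γ : E) : Prop :=
  Γ ≠ 0 ∧ ∃ c d : ↥B, c ∉ 𝔫 ∧ d ∉ 𝔫 ∧ G * (d : E) = Γ ^ m * (c : E)

/-- **a branch root along the sheet `W`**: a unit `w` of the local ring at `𝔫` congruent to
`lam / Γ` on `W`. -/
def IsBranchRootAt (B : Subalgebra R E) (𝔫 : Ideal ↥B) [𝔫.IsPrime] (W : ValuationSubring E)
    (lam Γ w : E) : Prop :=
  w ∈ locRing B 𝔫 ∧ w ∉ locMax B 𝔫 ∧ W.valuation (lam / Γ - w) < 1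

variable {B : Subalgebra R E} {𝔫 : Ideal ↥B} {m : ℕ} {G G' Γ Γ' lam lam' w w' : E}
  {W W' : ValuationSubring E}

theorem IsClosedRootAt.ne_zero [h𝔫 : 𝔫.IsPrime] (h : IsClosedRootAt B 𝔫 m G Γ) : G ≠ 0 := by
  obtain ⟨hΓ, c, d, hc, hd, hcd⟩ := h
  intro h0
  rw [h0, zero_mul] at hcd
  have hc0 : (c : E) = 0 := by
    rcases mul_eq_zero.mp hcd.symm with h | h
    · exact absurd h (pow_ne_zero _ hΓ)
    · exact h
  apply hc
  have : c = 0 := Subtype.ext hc0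
  rw [this]; exact 𝔫.zero_mem

/-- `G / Γ ^ m` is a unit of the local ring. -/
theorem IsClosedRootAt.div_mem [h𝔫 : 𝔫.IsPrime] (h : IsClosedRootAt B 𝔫 m G Γ) :
    G / Γ ^ m ∈ locRing B 𝔫 ∧ G / Γ ^ m ∉ locMax B 𝔫 := by
  obtain ⟨hΓ, c, d, hc, hd, hcd⟩ := h
  have hΓm : Γ ^ m ≠ 0 := pow_ne_zero _ hΓ
  have h1 : G / Γ ^ m * (d : E) = (c : E) := by
    rw [div_mul_eq_mul_div, hcd]; field_simp
  exact ⟨⟨c, d, hd, h1⟩, notMem_locMax_of_mul_eq hc hd h1⟩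

theorem IsClosedRootAt.mul [h𝔫 : 𝔫.IsPrime] (h : IsClosedRootAt B 𝔫 m G Γ)
    (h' : IsClosedRootAt B 𝔫 m G' Γ') : IsClosedRootAt B 𝔫 m (G * G') (Γ * Γ') := by
  obtain ⟨hΓ, c, d, hc, hd, hcd⟩ := h
  obtain ⟨hΓ', c', d', hc', hd', hcd'⟩ := h'
  refine ⟨mul_ne_zero hΓ hΓ', c * c', d * d', fun h => (h𝔫.mem_or_mem h).elim hc hc',
    fun h => (h𝔫.mem_or_mem h).elim hd hd', ?_⟩
  show G * G' * ((d : E) * (d' : E)) = (Γ * Γ') ^ m * ((c : E) * (c' : E))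
  rw [mul_pow]
  calc G * G' * ((d : E) * (d' : E)) = (G * (d : E)) * (G' * (d' : E)) := by ring
    _ = (Γ ^ m * (c : E)) * (Γ' ^ m * (c' : E)) := by rw [hcd, hcd']
    _ = Γ ^ m * Γ' ^ m * ((c : E) * (c' : E)) := by ring

theorem IsClosedRootAt.inv [h𝔫 : 𝔫.IsPrime] (h : IsClosedRootAt B 𝔫 m G Γ) :
    IsClosedRootAt B 𝔫 m G⁻¹ Γ⁻¹ := by
  have hG := h.ne_zero
  obtain ⟨hΓ, c, d, hc, hd, hcd⟩ := h
  refine ⟨inv_ne_zero hΓ, d, c, hd, hc, ?_⟩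
  have hΓm : Γ ^ m ≠ 0 := pow_ne_zero _ hΓ
  rw [inv_pow]
  field_simp
  rw [mul_comm, ← hcd, mul_comm]

theorem IsClosedRootAt.pow [h𝔫 : 𝔫.IsPrime] (h : IsClosedRootAt B 𝔫 m G Γ) (n : ℕ) :
    IsClosedRootAt B 𝔫 m (G ^ n) (Γ ^ n) := by
  induction n with
  | zero =>
    refine ⟨by simp, 1, 1, loc_one_notMem 𝔫, loc_one_notMem 𝔫, by simp⟩
  | succ n ih =>
    rw [pow_succ, pow_succ]
    exact ih.mul h

/-- a unit constant can be absorbed. -/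
theorem IsClosedRootAt.const_mul [h𝔫 : 𝔫.IsPrime] (h : IsClosedRootAt B 𝔫 m G Γ) {u : R}
    (hu : algebraMap R ↥B u ∉ 𝔫) : IsClosedRootAt B 𝔫 m (algebraMap R E u * G) Γ := by
  obtain ⟨hΓ, c, d, hc, hd, hcd⟩ := h
  refine ⟨hΓ, algebraMap R ↥B u * c, d, fun h => (h𝔫.mem_or_mem h).elim hu hc, hd, ?_⟩
  show algebraMap R E u * G * (d : E) = Γ ^ m * (algebraMap R E u * (c : E))
  rw [mul_assoc, hcd]; ring

/-- **two closed roots of the same function differ by a unit of the local ring** (`B` integrally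
closed, `𝔫` maximal). -/
theorem IsClosedRootAt.div_unit [hmax : 𝔫.IsMaximal] (hB : ∀ e : E, IsIntegral ↥B e → e ∈ B)
    (hm : m ≠ 0) (h : IsClosedRootAt B 𝔫 m G Γ) (h' : IsClosedRootAt B 𝔫 m G Γ') :
    Γ' / Γ ∈ locRing B 𝔫 ∧ Γ' / Γ ∉ locMax B 𝔫 := by
  have hG := h.ne_zero
  obtain ⟨hΓ, c, d, hc, hd, hcd⟩ := h
  obtain ⟨hΓ', c', d', hc', hd', hcd'⟩ := h'
  have hp := hmax.isPrime
  have hd0 : (d : E) ≠ 0 := by
    intro h0
    apply hd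
    have : d = 0 := Subtype.ext h0
    rw [this]; exact 𝔫.zero_mem
  have hc'0 : (c' : E) ≠ 0 := by
    intro h0
    apply hc'
    have : c' = 0 := Subtype.ext h0
    rw [this]; exact 𝔫.zero_mem
  have hΓm : Γ ^ m ≠ 0 := pow_ne_zero _ hΓ
  -- `(Γ' / Γ) ^ m = (d' c) / (c' d)`
  have hkey : (Γ' / Γ) ^ m * ((c' * d : ↥B) : E) = ((d' * c : ↥B) : E) := by
    show (Γ' / Γ) ^ m * ((c' : E) * (d : E)) = (d' : E) * (c : E)
    rw [div_pow, div_mul_eq_mul_div, div_eq_iff hΓm]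
    have e1 : Γ' ^ m * (c' : E) = G * (d' : E) := hcd'.symm
    have e2 : Γ ^ m * (c : E) = G * (d : E) := hcd.symm
    calc Γ' ^ m * ((c' : E) * (d : E)) = (Γ' ^ m * (c' : E)) * (d : E) := by ring
      _ = G * (d' : E) * (d : E) := by rw [e1]
      _ = (d' : E) * (G * (d : E)) := by ring
      _ = (d' : E) * (Γ ^ m * (c : E)) := by rw [e2]
      _ = (d' : E) * (c : E) * Γ ^ m := by ring
  have hs : c' * d ∉ 𝔫 := fun h => (hp.mem_or_mem h).elim hc' hd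
  have hr : d' * c ∉ 𝔫 := fun h => (hp.mem_or_mem h).elim hd' hc
  have h1 : (Γ' / Γ) ^ m ∈ locRing B 𝔫 := ⟨d' * c, c' * d, hs, hkey⟩
  have h2 : (Γ' / Γ) ^ m ∉ locMax B 𝔫 := notMem_locMax_of_mul_eq hr hs hkey
  have h3 : Γ' / Γ ∈ locRing B 𝔫 := mem_locRing_of_pow_mem hB hm h1
  exact ⟨h3, fun h => h2 (pow_mem_locMax h hm)⟩

variable [h𝔫 : 𝔫.IsPrime]

theorem IsBranchRootAt.valuation_eq_one (hW : IsSheetThrough B 𝔫 W)
    (h : IsBranchRootAt B 𝔫 W lam Γ w) : W.valuation (lam / Γ) = 1 := by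
  have h1 : W.valuation w = 1 := hW.valuation_eq_one h.1 h.2.1
  have h2 : lam / Γ = (lam / Γ - w) + w := by ring
  rw [h2, Valuation.map_add_eq_of_lt_right _ (by rw [h1]; exact h.2.2), h1]

theorem IsBranchRootAt.mul (hW : IsSheetThrough B 𝔫 W) (h : IsBranchRootAt B 𝔫 W lam Γ w)
    (h' : IsBranchRootAt B 𝔫 W lam' Γ' w') :
    IsBranchRootAt B 𝔫 W (lam * lam') (Γ * Γ') (w * w') := by
  refine ⟨(locRing B 𝔫).mul_mem h.1 h'.1, mul_notMem_locMax h.1 h'.1 h.2.1 h'.2.1, ?_⟩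
  have e : lam * lam' / (Γ * Γ') - w * w' =
      (lam / Γ - w) * (lam' / Γ') + w * (lam' / Γ' - w') := by
    rw [mul_div_mul_comm]; ring
  rw [e]
  refine lt_of_le_of_lt (Valuation.map_add _ _ _) (max_lt ?_ ?_)
  · rw [map_mul, h'.valuation_eq_one hW, mul_one]; exact h.2.2
  · rw [map_mul, hW.valuation_eq_one h.1 h.2.1, one_mul]; exact h'.2.2

theorem IsBranchRootAt.inv (hW : IsSheetThrough B 𝔫 W) (h : IsBranchRootAt B 𝔫 W lam Γ w) :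
    IsBranchRootAt B 𝔫 W lam⁻¹ Γ⁻¹ w⁻¹ := by
  refine ⟨inv_mem_locRing h.1 h.2.1, inv_notMem_locMax h.1 h.2.1, ?_⟩
  have hv1 : W.valuation w = 1 := hW.valuation_eq_one h.1 h.2.1
  have hv2 : W.valuation (lam / Γ) = 1 := h.valuation_eq_one hW
  have hw0 : w ≠ 0 := fun h0 => by rw [h0, map_zero] at hv1; exact zero_ne_one hv1
  have hl0 : lam / Γ ≠ 0 := fun h0 => by rw [h0, map_zero] at hv2; exact zero_ne_one hv2
  have e : lam⁻¹ / Γ⁻¹ - w⁻¹ = -(lam / Γ - w) * ((lam / Γ)⁻¹ * w⁻¹) := by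
    have : lam⁻¹ / Γ⁻¹ = (lam / Γ)⁻¹ := by rw [inv_div_inv, inv_div]
    rw [this]
    generalize lam / Γ = ρ at hl0 ⊢
    field_simp
    ring
  rw [e, map_mul, map_mul, map_inv₀, map_inv₀, hv1, hv2, Valuation.map_neg]
  simpa using h.2.2

theorem IsBranchRootAt.pow (hW : IsSheetThrough B 𝔫 W) (h : IsBranchRootAt B 𝔫 W lam Γ w)
    (n : ℕ) : IsBranchRootAt B 𝔫 W (lam ^ n) (Γ ^ n) (w ^ n) := by
  induction n with
  | zero =>
    simp only [pow_zero]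
    refine ⟨(locRing B 𝔫).one_mem, one_notMem_locMax, ?_⟩
    simp
  | succ n ih =>
    rw [pow_succ, pow_succ, pow_succ]
    exact ih.mul hW h

/-- **the branch roots of two local data on the same sheet are congruent up to the unit
`Γ' / Γ`.** -/
theorem IsBranchRootAt.sub_mul_mem_locMax (hW : IsSheetThrough B 𝔫 W) (hΓ : Γ ≠ 0) (hΓ' : Γ' ≠ 0)
    (hε : Γ' / Γ ∈ locRing B 𝔫) (h : IsBranchRootAt B 𝔫 W lam Γ w)
    (h' : IsBranchRootAt B 𝔫 W lam Γ' w') : w - Γ' / Γ * w' ∈ locMax B 𝔫 := by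
  have hmem : w - Γ' / Γ * w' ∈ locRing B 𝔫 :=
    (locRing B 𝔫).sub_mem h.1 ((locRing B 𝔫).mul_mem hε h'.1)
  refine hW.mem_locMax hmem ?_
  have e : w - Γ' / Γ * w' = -(lam / Γ - w) + Γ' / Γ * (lam / Γ' - w') := by
    field_simp
    ring
  rw [e]
  refine lt_of_le_of_lt (Valuation.map_add _ _ _) (max_lt ?_ ?_)
  · rw [Valuation.map_neg]; exact h.2.2
  · rw [map_mul]
    calc W.valuation (Γ' / Γ) * W.valuation (lam / Γ' - w')
        ≤ 1 * W.valuation (lam / Γ' - w') := mul_le_mul_left (hW.valuation_le_one hε) _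
      _ < 1 := by rw [one_mul]; exact h'.2.2

end Roots

/-! ### the ratio of the branch roots on two sheets -/

section Ratio

variable {R : Type*} [CommRing R] {E : Type*} [Field E] [Algebra R E]
  {B : Subalgebra R E} {𝔫 : Ideal ↥B} [hmax : 𝔫.IsMaximal] {m : ℕ}
  {G G' Γ Γ' lam lam' mu mu' w w' v v' : E} {W W' : ValuationSubring E}

/-- **the ratio of the branch roots on two sheets through `𝔫` does not depend on the local
datum**: if `w ≡ ζ v` for one local datum `(Γ; w, v)` of `(G; lam, mu)` then `w' ≡ ζ v'` for every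
other one. -/
theorem ratio_congr (hB : ∀ e : E, IsIntegral ↥B e → e ∈ B) (hm : m ≠ 0)
    (hW : IsSheetThrough B 𝔫 W) (hW' : IsSheetThrough B 𝔫 W')
    (h : IsClosedRootAt B 𝔫 m G Γ) (hw : IsBranchRootAt B 𝔫 W lam Γ w)
    (hv : IsBranchRootAt B 𝔫 W' mu Γ v)
    (h' : IsClosedRootAt B 𝔫 m G Γ') (hw' : IsBranchRootAt B 𝔫 W lam Γ' w')
    (hv' : IsBranchRootAt B 𝔫 W' mu Γ' v')
    {ζ : E} (hζ : ζ ∈ locRing B 𝔫) (hr : w - ζ * v ∈ locMax B 𝔫) :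
    w' - ζ * v' ∈ locMax B 𝔫 := by
  obtain ⟨hε, hε'⟩ := h.div_unit hB hm h'
  have h1 := hw.sub_mul_mem_locMax hW h.1 h'.1 hε hw'
  have h2 := hv.sub_mul_mem_locMax hW' h.1 h'.1 hε hv'
  -- `ε (w' - ζ v') = -(w - ε w') + (w - ζ v) + ζ (v - ε v')`
  have h3 : Γ' / Γ * (w' - ζ * v') ∈ locMax B 𝔫 := by
    have e : Γ' / Γ * (w' - ζ * v') =
        (w - ζ * v) - (w - Γ' / Γ * w') + ζ * (v - Γ' / Γ * v') := by ring
    rw [e]
    exact add_mem_locMax (sub_mem_locMax hr h1) (mul_mem_locMax hζ h2)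
  have hmem : w' - ζ * v' ∈ locRing B 𝔫 :=
    (locRing B 𝔫).sub_mem hw'.1 ((locRing B 𝔫).mul_mem hζ hv'.1)
  exact (mem_or_mem_of_mul_mem_locMax hε hmem h3).resolve_left hε'

end Ratio


/-! ### the ratio is a root of unity; multiplicativity -/

section Unity

variable {R : Type*} [CommRing R] {E : Type*} [Field E] [Algebra R E]
  {B : Subalgebra R E} {𝔫 : Ideal ↥B} [h𝔫 : 𝔫.IsPrime] {m : ℕ}
  {G G' Γ Γ' lam lam' mu mu' w w' v v' : E} {W W' : ValuationSubring E}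

/-- the `m`-th powers of the branch roots are congruent to the unit `G / Γ ^ m`. -/
theorem IsBranchRootAt.pow_sub_mem_locMax (hW : IsSheetThrough B 𝔫 W)
    (h : IsClosedRootAt B 𝔫 m G Γ) (hw : IsBranchRootAt B 𝔫 W lam Γ w) (hlam : lam ≠ 0)
    (hGW : W.valuation (G / lam ^ m - 1) < 1) : w ^ m - G / Γ ^ m ∈ locMax B 𝔫 := by
  obtain ⟨hu, hu'⟩ := h.div_mem
  have hΓ := h.1
  have hmem : w ^ m - G / Γ ^ m ∈ locRing B 𝔫 :=
    (locRing B 𝔫).sub_mem ((locRing B 𝔫).pow_mem hw.1 m) hu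
  refine hW.mem_locMax hmem ?_
  have hρ : W.valuation (lam / Γ) = 1 := hw.valuation_eq_one hW
  have hw1 : W.valuation w = 1 := hW.valuation_eq_one hw.1 hw.2.1
  -- `w ^ m ≡ (lam / Γ) ^ m`
  have h1 : W.valuation (w ^ m - (lam / Γ) ^ m) < 1 := by
    rw [← geom_sum₂_mul w (lam / Γ) m, map_mul]
    have hS : W.valuation (∑ i ∈ Finset.range m, w ^ i * (lam / Γ) ^ (m - 1 - i)) ≤ 1 := by
      refine Valuation.map_sum_le _ (fun i _ => ?_)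
      rw [map_mul, map_pow, map_pow, hw1, hρ, one_pow, one_pow, one_mul]
    have h2 : W.valuation (w - lam / Γ) < 1 := by
      have : w - lam / Γ = -(lam / Γ - w) := by ring
      rw [this, Valuation.map_neg]; exact hw.2.2
    calc W.valuation (∑ i ∈ Finset.range m, w ^ i * (lam / Γ) ^ (m - 1 - i)) *
          W.valuation (w - lam / Γ) ≤ 1 * W.valuation (w - lam / Γ) := mul_le_mul_left hS _
      _ < 1 := by rw [one_mul]; exact h2
  -- `(lam / Γ) ^ m ≡ G / Γ ^ m`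
  have h2 : W.valuation ((lam / Γ) ^ m - G / Γ ^ m) < 1 := by
    have hΓm : Γ ^ m ≠ 0 := pow_ne_zero _ hΓ
    have hlm : lam ^ m ≠ 0 := pow_ne_zero _ hlam
    have e : (lam / Γ) ^ m - G / Γ ^ m = -(G / lam ^ m - 1) * (lam / Γ) ^ m := by
      rw [div_pow]; field_simp; ring
    rw [e, map_mul, Valuation.map_neg, map_pow, hρ, one_pow, mul_one]
    exact hGW
  have e : w ^ m - G / Γ ^ m = (w ^ m - (lam / Γ) ^ m) + ((lam / Γ) ^ m - G / Γ ^ m) := by ring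
  rw [e]
  exact lt_of_le_of_lt (Valuation.map_add _ _ _) (max_lt h1 h2)

theorem exists_mem_locMax_of_prod_mem {ι : Type*} (s : Finset ι) (f : ι → E)
    (hf : ∀ i ∈ s, f i ∈ locRing B 𝔫) (h : ∏ i ∈ s, f i ∈ locMax B 𝔫) :
    ∃ i ∈ s, f i ∈ locMax B 𝔫 := by
  classical
  induction s using Finset.induction_on with
  | empty =>
    rw [Finset.prod_empty] at h
    exact absurd h one_notMem_locMax
  | insert a s ha ih =>
    rw [Finset.prod_insert ha] at h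
    have h1 : f a ∈ locRing B 𝔫 := hf a (Finset.mem_insert_self a s)
    have h2 : ∏ i ∈ s, f i ∈ locRing B 𝔫 :=
      (locRing B 𝔫).prod_mem (fun i hi => hf i (Finset.mem_insert_of_mem hi))
    rcases mem_or_mem_of_mul_mem_locMax h1 h2 h with h3 | h3
    · exact ⟨a, Finset.mem_insert_self a s, h3⟩
    · obtain ⟨i, hi, hi'⟩ := ih (fun i hi => hf i (Finset.mem_insert_of_mem hi)) h3
      exact ⟨i, Finset.mem_insert_of_mem hi, hi'⟩

/-- **the ratio of the branch roots of a toric function on two sheets through `𝔫` is an `m`-th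
root of unity of `R`.** -/
theorem exists_ratio (hinj : Function.Injective (algebraMap R E)) {ξ : R}
    (hξ : IsPrimitiveRoot ξ m) (hm : m ≠ 0)
    (hW : IsSheetThrough B 𝔫 W) (hW' : IsSheetThrough B 𝔫 W')
    (h : IsClosedRootAt B 𝔫 m G Γ) (hw : IsBranchRootAt B 𝔫 W lam Γ w)
    (hv : IsBranchRootAt B 𝔫 W' mu Γ v) (hlam : lam ≠ 0) (hmu : mu ≠ 0)
    (hGW : W.valuation (G / lam ^ m - 1) < 1) (hGW' : W'.valuation (G / mu ^ m - 1) < 1) :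
    ∃ i : ℕ, w - algebraMap R E (ξ ^ i) * v ∈ locMax B 𝔫 := by
  classical
  haveI : NeZero m := ⟨hm⟩
  have h1 := hw.pow_sub_mem_locMax hW h hlam hGW
  have h2 := hv.pow_sub_mem_locMax hW' h hmu hGW'
  have h3 : w ^ m - v ^ m ∈ locMax B 𝔫 := by
    have e : w ^ m - v ^ m = (w ^ m - G / Γ ^ m) - (v ^ m - G / Γ ^ m) := by ring
    rw [e]; exact sub_mem_locMax h1 h2
  have hξE : IsPrimitiveRoot (algebraMap R E ξ) m := hξ.map_of_injective hinj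
  rw [hξE.pow_sub_pow_eq_prod_sub_mul w v (Nat.pos_of_ne_zero hm)] at h3
  have hroot : ∀ μ ∈ Polynomial.nthRootsFinset m (1 : E), ∃ i : ℕ, μ = algebraMap R E (ξ ^ i) := by
    intro μ hμ
    have hμ1 : μ ^ m = 1 := (Polynomial.mem_nthRootsFinset (Nat.pos_of_ne_zero hm) 1).mp hμ
    obtain ⟨i, -, hi⟩ := hξE.eq_pow_of_pow_eq_one hμ1
    exact ⟨i, by rw [map_pow, hi]⟩
  obtain ⟨μ, hμ, hμ'⟩ := exists_mem_locMax_of_prod_mem _ _ (fun μ hμ => by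
    obtain ⟨i, rfl⟩ := hroot μ hμ
    exact (locRing B 𝔫).sub_mem hw.1
      ((locRing B 𝔫).mul_mem ((locRing B 𝔫).algebraMap_mem _) hv.1)) h3
  obtain ⟨i, rfl⟩ := hroot μ hμ
  exact ⟨i, hμ'⟩

/-- the ratios multiply. -/
theorem ratio_mul {ζ ζ' : E} (hζ : ζ ∈ locRing B 𝔫) (hw' : w' ∈ locRing B 𝔫)
    (hv : v ∈ locRing B 𝔫) (h : w - ζ * v ∈ locMax B 𝔫) (h' : w' - ζ' * v' ∈ locMax B 𝔫) :
    w * w' - ζ * ζ' * (v * v') ∈ locMax B 𝔫 := by
  have e : w * w' - ζ * ζ' * (v * v') = w' * (w - ζ * v) + ζ * v * (w' - ζ' * v') := by ring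
  rw [e]
  exact add_mem_locMax (mul_mem_locMax hw' h) (mul_mem_locMax ((locRing B 𝔫).mul_mem hζ hv) h')

/-- the ratio of the inverses. -/
theorem ratio_inv {ζ ζi : E} (hζi : ζi ∈ locRing B 𝔫) (hζ : ζ * ζi = 1)
    (hw : w ∈ locRing B 𝔫) (hw' : w ∉ locMax B 𝔫) (hv : v ∈ locRing B 𝔫)
    (hv' : v ∉ locMax B 𝔫) (h : w - ζ * v ∈ locMax B 𝔫) : w⁻¹ - ζi * v⁻¹ ∈ locMax B 𝔫 := by
  have hw0 : w ≠ 0 := fun h0 => hw' (h0 ▸ zero_mem_locMax)
  have hv0 : v ≠ 0 := fun h0 => hv' (h0 ▸ zero_mem_locMax)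
  have e : w⁻¹ - ζi * v⁻¹ = -(ζi * w⁻¹ * v⁻¹) * (w - ζ * v) := by
    have : -(ζi * w⁻¹ * v⁻¹) * (w - ζ * v) = -(ζi * v⁻¹ * (w * w⁻¹)) + (ζ * ζi) * w⁻¹ * (v * v⁻¹) := by
      ring
    rw [this, hζ, mul_inv_cancel₀ hw0, mul_inv_cancel₀ hv0]; ring
  rw [e]
  refine mul_mem_locMax ((locRing B 𝔫).neg_mem ((locRing B 𝔫).mul_mem
    ((locRing B 𝔫).mul_mem hζi (inv_mem_locRing hw hw')) (inv_mem_locRing hv hv'))) h

end Unity

/-! ### transport along a homomorphism of hosts -/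

section Map

variable {R : Type*} [CommRing R] {E₁ : Type*} [Field E₁] [Algebra R E₁] {E : Type*} [Field E]
  [Algebra R E] {B₁ : Subalgebra R E₁} {B : Subalgebra R E} (φ : E₁ →+* E)
  (hφB : ∀ b ∈ B₁, φ b ∈ B) {𝔫₁ : Ideal ↥B₁} [h𝔫₁ : 𝔫₁.IsPrime] {𝔫 : Ideal ↥B} [h𝔫 : 𝔫.IsPrime]
  (hφ𝔫 : ∀ b : ↥B₁, b ∈ 𝔫₁ ↔ (⟨φ b, hφB b b.2⟩ : ↥B) ∈ 𝔫)

include hφ𝔫 in
theorem map_mem_locRing {e : E₁} (he : e ∈ locRing B₁ 𝔫₁) : φ e ∈ locRing B 𝔫 := by
  obtain ⟨r, s, hs, hrs⟩ := he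
  refine ⟨⟨φ r, hφB r r.2⟩, ⟨φ s, hφB s s.2⟩, fun h => hs ((hφ𝔫 s).mpr h), ?_⟩
  show φ e * φ (s : E₁) = φ (r : E₁)
  rw [← map_mul, hrs]

include hφ𝔫 in
theorem map_mem_locMax {e : E₁} (he : e ∈ locMax B₁ 𝔫₁) : φ e ∈ locMax B 𝔫 := by
  obtain ⟨r, s, hr, hs, hrs⟩ := he
  refine ⟨⟨φ r, hφB r r.2⟩, ⟨φ s, hφB s s.2⟩, (hφ𝔫 r).mp hr, fun h => hs ((hφ𝔫 s).mpr h), ?_⟩
  show φ e * φ (s : E₁) = φ (r : E₁)
  rw [← map_mul, hrs]

include hφ𝔫 in
theorem map_notMem_locMax {e : E₁} (he : e ∈ locRing B₁ 𝔫₁) (he' : e ∉ locMax B₁ 𝔫₁) :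
    φ e ∉ locMax B 𝔫 := by
  intro h
  have h0 : e ≠ 0 := fun h0 => he' (h0 ▸ zero_mem_locMax)
  have h1 : φ e⁻¹ ∈ locRing B 𝔫 := map_mem_locRing φ hφB hφ𝔫 (inv_mem_locRing he he')
  have h2 := mul_mem_locMax h1 h
  rw [← map_mul, inv_mul_cancel₀ h0, map_one] at h2
  exact one_notMem_locMax h2

include hφ𝔫 in
theorem IsClosedRootAt.map {m : ℕ} {G Γ : E₁} (h : IsClosedRootAt B₁ 𝔫₁ m G Γ) :
    IsClosedRootAt B 𝔫 m (φ G) (φ Γ) := by
  obtain ⟨hΓ, c, d, hc, hd, hcd⟩ := h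
  refine ⟨(_root_.map_ne_zero φ).mpr hΓ, ⟨φ c, hφB c c.2⟩, ⟨φ d, hφB d d.2⟩,
    fun h => hc ((hφ𝔫 c).mpr h), fun h => hd ((hφ𝔫 d).mpr h), ?_⟩
  show φ G * φ (d : E₁) = φ Γ ^ m * φ (c : E₁)
  rw [← map_mul, hcd, map_mul, map_pow]

include hφ𝔫 in
theorem IsBranchRootAt.map {W₁ : ValuationSubring E₁} {W : ValuationSubring E}
    (hWφ : ∀ x : E₁, W₁.valuation x < 1 → W.valuation (φ x) < 1) {lam Γ w : E₁}
    (h : IsBranchRootAt B₁ 𝔫₁ W₁ lam Γ w) : IsBranchRootAt B 𝔫 W (φ lam) (φ Γ) (φ w) := by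
  refine ⟨map_mem_locRing φ hφB hφ𝔫 h.1, map_notMem_locMax φ hφB hφ𝔫 h.1 h.2.1, ?_⟩
  have := hWφ _ h.2.2
  rwa [map_sub, map_div₀] at this

end Map

/-! ### the two-sheet API -/

section Node

variable {R : Type*} [CommRing R] {E : Type*} [Field E] [Algebra R E]
  {B : Subalgebra R E} {𝔫 : Ideal ↥B} {m : ℕ} {G G' Linf L0 Linf' L0' : E}
  {Winf W0 : ValuationSubring E}

theorem nodeRatioAt_iff [h𝔫 : 𝔫.IsPrime] {ζ : R} :
    NodeRatioAt B 𝔫 Winf W0 m G Linf L0 ζ ↔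
      ∃ Γ winf w0 : E, IsClosedRootAt B 𝔫 m G Γ ∧ IsBranchRootAt B 𝔫 Winf Linf Γ winf ∧
        IsBranchRootAt B 𝔫 W0 L0 Γ w0 ∧ winf - algebraMap R E ζ * w0 ∈ locMax B 𝔫 := by
  constructor
  · rintro ⟨Γ, winf, w0, hΓ, hcd, h1, h2, h3⟩
    exact ⟨Γ, winf, w0, ⟨hΓ, hcd⟩, h1, h2, h3⟩
  · rintro ⟨Γ, winf, w0, ⟨hΓ, hcd⟩, h1, h2, h3⟩
    exact ⟨Γ, winf, w0, hΓ, hcd, h1, h2, h3⟩

/-- **the universal form of the node datum**: every local datum has the ratio `ζ`. -/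
theorem NodeRatioAt.forall_datum [hmax : 𝔫.IsMaximal] (hB : ∀ e : E, IsIntegral ↥B e → e ∈ B)
    (hm : m ≠ 0) (hinf : IsSheetThrough B 𝔫 Winf) (h0 : IsSheetThrough B 𝔫 W0) {ζ : R}
    (h : NodeRatioAt B 𝔫 Winf W0 m G Linf L0 ζ) {Γ winf w0 : E}
    (hΓ : IsClosedRootAt B 𝔫 m G Γ) (hwinf : IsBranchRootAt B 𝔫 Winf Linf Γ winf)
    (hw0 : IsBranchRootAt B 𝔫 W0 L0 Γ w0) : winf - algebraMap R E ζ * w0 ∈ locMax B 𝔫 := by
  obtain ⟨Γ', winf', w0', h1, h2, h3, h4⟩ := nodeRatioAt_iff.mp h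
  exact ratio_congr hB hm hinf h0 h1 h2 h3 hΓ hwinf hw0 ((locRing B 𝔫).algebraMap_mem _) h4

/-- two node data of the same toric function are congruent modulo `𝔫`. -/
theorem NodeRatioAt.sub_mem [hmax : 𝔫.IsMaximal] (hB : ∀ e : E, IsIntegral ↥B e → e ∈ B)
    (hm : m ≠ 0) (hinf : IsSheetThrough B 𝔫 Winf) (h0 : IsSheetThrough B 𝔫 W0) {ζ ζ' : R}
    (h : NodeRatioAt B 𝔫 Winf W0 m G Linf L0 ζ) (h' : NodeRatioAt B 𝔫 Winf W0 m G Linf L0 ζ') :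
    algebraMap R E (ζ - ζ') ∈ locMax B 𝔫 := by
  obtain ⟨Γ, winf, w0, h1, h2, h3, h4⟩ := nodeRatioAt_iff.mp h
  have h5 := h'.forall_datum hB hm hinf h0 h1 h2 h3
  have h6 : algebraMap R E (ζ - ζ') * w0 ∈ locMax B 𝔫 := by
    have e : algebraMap R E (ζ - ζ') * w0 =
        (winf - algebraMap R E ζ' * w0) - (winf - algebraMap R E ζ * w0) := by
      rw [map_sub]; ring
    rw [e]; exact sub_mem_locMax h5 h4
  exact (mem_or_mem_of_mul_mem_locMax ((locRing B 𝔫).algebraMap_mem _) h3.1 h6).resolve_right h3.2.1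

/-- the node data multiply. -/
theorem NodeRatioAt.mul [h𝔫 : 𝔫.IsPrime] (hinf : IsSheetThrough B 𝔫 Winf)
    (h0 : IsSheetThrough B 𝔫 W0) {ζ ζ' : R}
    (h : NodeRatioAt B 𝔫 Winf W0 m G Linf L0 ζ) (h' : NodeRatioAt B 𝔫 Winf W0 m G' Linf' L0' ζ') :
    NodeRatioAt B 𝔫 Winf W0 m (G * G') (Linf * Linf') (L0 * L0') (ζ * ζ') := by
  obtain ⟨Γ, winf, w0, h1, h2, h3, h4⟩ := nodeRatioAt_iff.mp h
  obtain ⟨Γ', winf', w0', h1', h2', h3', h4'⟩ := nodeRatioAt_iff.mp h'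
  refine nodeRatioAt_iff.mpr ⟨Γ * Γ', winf * winf', w0 * w0', h1.mul h1', h2.mul hinf h2',
    h3.mul h0 h3', ?_⟩
  rw [map_mul]
  exact ratio_mul ((locRing B 𝔫).algebraMap_mem _) h2'.1 h3.1 h4 h4'

/-- the node datum of the inverse. -/
theorem NodeRatioAt.inv [h𝔫 : 𝔫.IsPrime] (hinf : IsSheetThrough B 𝔫 Winf)
    (h0 : IsSheetThrough B 𝔫 W0) {ζ ζi : R} (hζ : ζ * ζi = 1)
    (h : NodeRatioAt B 𝔫 Winf W0 m G Linf L0 ζ) :
    NodeRatioAt B 𝔫 Winf W0 m G⁻¹ Linf⁻¹ L0⁻¹ ζi := by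
  obtain ⟨Γ, winf, w0, h1, h2, h3, h4⟩ := nodeRatioAt_iff.mp h
  refine nodeRatioAt_iff.mpr ⟨Γ⁻¹, winf⁻¹, w0⁻¹, h1.inv, h2.inv hinf, h3.inv h0, ?_⟩
  exact ratio_inv ((locRing B 𝔫).algebraMap_mem _) (by rw [← map_mul, hζ, map_one])
    h2.1 h2.2.1 h3.1 h3.2.1 h4

/-- **existence of the node datum**: a local datum of a toric function at a point on both sheets
has a ratio, a power of a given primitive `m`-th root of unity of `R`. -/
theorem exists_nodeRatioAt [h𝔫 : 𝔫.IsPrime] (hinj : Function.Injective (algebraMap R E)) {ξ : R}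
    (hξ : IsPrimitiveRoot ξ m) (hm : m ≠ 0)
    (hinf : IsSheetThrough B 𝔫 Winf) (h0 : IsSheetThrough B 𝔫 W0) {Γ winf w0 : E}
    (hΓ : IsClosedRootAt B 𝔫 m G Γ) (hwinf : IsBranchRootAt B 𝔫 Winf Linf Γ winf)
    (hw0 : IsBranchRootAt B 𝔫 W0 L0 Γ w0) (hLinf : Linf ≠ 0) (hL0 : L0 ≠ 0)
    (hGinf : Winf.valuation (G / Linf ^ m - 1) < 1) (hG0 : W0.valuation (G / L0 ^ m - 1) < 1) :
    ∃ i : ℕ, NodeRatioAt B 𝔫 Winf W0 m G Linf L0 (ξ ^ i) := by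
  obtain ⟨i, hi⟩ := exists_ratio hinj hξ hm hinf h0 hΓ hwinf hw0 hLinf hL0 hGinf hG0
  exact ⟨i, nodeRatioAt_iff.mpr ⟨Γ, winf, w0, hΓ, hwinf, hw0, hi⟩⟩

end Node

end Fermat.Agent.ML
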