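/-
ML — helper3 — **[MSQ] leaf (a): [ORD-q²], abstract part.**

`G` a function on the three-sheet model (S36: charts `j₂`, `j₂⁻¹` of `E`, sheets `W : Fin 3 → _`,
level `M'q` model below along `α β`) which is a UNIT along the three sheets and whose horizontal
divisor is divisible by `m`.  The model is regular at its closed points (S36 REG1 and the local
equations `hLE1`, `hLE3`, `hcusp`), so `G` has a closed root at every closed point of the special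
fibre: `G = Γ ^ m · unit` (no root along the sheets is needed, contrary to S36 where the vertical
clause was provided by the roots `λ_i`).  Hence, for every reduction `ι : W l → F` of a sheet and
every place `Q` of the reduction with residue field the residue field of the base, `m ∣ ord_Q (ι G)`.

* `exists_closedRoot_of_family` : `S36.exists_closed_datum_of_family` with the vertical clause
  replaced by `W i (G) = 1`;
* `exists_closedRoot_three_chart` : the closed root at every closed point of the chart `j₂`;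
* `exists_closedRoot_cusp` : the closed root at the cusps of the chart `j₂⁻¹`;
* `dvd_ord_of_closedRoot` : the reduction lemma;
* `dvd_ord_red_three_sheet` : **[ORD-q²], abstract form.**
-/
import Mathlib
import Fermat.Agent.S36.POINTS36_helper3_Final
import Fermat.Agent.ML.DATUM_helper3_Ratio
import Fermat.Agent.MP.DICT_helper1_RedOrd
import Fermat.Agent.MP.PLHOST_helper6_Glob

set_option autoImplicit false
set_option linter.unusedSectionVars false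
set_option linter.unusedVariables false
set_option linter.style.haveILetI false

open AlgebraicCurve

namespace Fermat.Agent.ML

open Fermat.Agent.SS Fermat.Agent.JA Fermat.Agent.S36 Fermat.Agent.MP Fermat.Agent.NP
  Fermat.Agent.FF

section Family

variable {R : Type*} [CommRing R] [IsDomain R] [IsDiscreteValuationRing R] [CharZero R]
  {K₁ : Type*} [Field K₁] [Algebra R K₁] [IsFractionRing R K₁]
  {K : Type*} [Field K] [Algebra K₁ K] [Algebra R K] [IsScalarTower R K₁ K]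
  {F : Type*} [Field F] [Algebra K F] [Algebra R F] [IsScalarTower R K F] [FiniteDimensional K F]
  {π : R} {τ : K} {ι : Type*} {W : ι → ValuationSubring F}

/-- **the closed root at a closed point of the special fibre of an `n`-sheet chart**, for a function
which is a unit along the sheets through the point. -/
theorem exists_closedRoot_of_family (fam : IsSheetFamily π τ W) (hπ : Irreducible π)
    (hτ : Transcendental K₁ τ) (hKτ : IntermediateField.adjoin K₁ {τ} = ⊤)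
    (𝔫 : Ideal ↥(chartOne R F τ)) [h𝔫 : 𝔫.IsMaximal]
    (i₀ : ι) (hle : sheetIdeal τ (W i₀) (fam.chart_le i₀) ≤ 𝔫)
    {z u : ↥(chartOne R F τ)} (hz : z ∈ sheetIdeal τ (W i₀) (fam.chart_le i₀)) (hz0 : z ≠ 0)
    (hgen : ∀ w ∈ sheetIdeal τ (W i₀) (fam.chart_le i₀), ∃ s : ↥(chartOne R F τ), s ∉ 𝔫 ∧ z ∣ s * w)
    (hu : IsBranchUniformizer (sheetIdeal τ (W i₀) (fam.chart_le i₀)) 𝔫 u)
    {m : ℕ} {G : F} (hG : G ≠ 0)
    (hGW : ∀ i, sheetIdeal τ (W i) (fam.chart_le i) ≤ 𝔫 → (W i).valuation G = 1)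
    (hhor : haveI : IsFractionRing ↥(chartOne R F τ) F := isFractionRing_chartOne (K₁ := K₁) τ hKτ
      ∀ 𝔮 : Ideal ↥(chartOne R F τ), 𝔮.IsPrime → 𝔮.height = 1 →
      algebraMap R ↥(chartOne R F τ) π ∉ 𝔮 → 𝔮 ≤ 𝔫 →
      ∃ γ : F, γ ≠ 0 ∧ IsUnitAtPrime 𝔮 (G * (γ ^ m)⁻¹)) :
    ∃ Γ : F, IsClosedRootAt (chartOne R F τ) 𝔫 m G Γ := by
  haveI : IsFractionRing ↥(chartOne R F τ) F := isFractionRing_chartOne (K₁ := K₁) τ hKτ
  haveI : IsNoetherianRing ↥(chartOne R F τ) := isNoetherianRing_chartOne (K₁ := K₁) τ hτ hKτ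
  haveI : 𝔫.IsPrime := h𝔫.isPrime
  obtain ⟨Γ, hΓ, r, s, hr, hs, hrs⟩ := exists_closed_datum_of_branch (B := ↥(chartOne R F τ))
    (E := F) 𝔫 (sheetIdeal τ (W i₀) (fam.chart_le i₀)) hle hz hz0 hgen hu m hG (by
      intro 𝔮 h𝔮 hh h𝔮𝔫
      haveI := h𝔮
      by_cases hπ𝔮 : algebraMap R ↥(chartOne R F τ) π ∈ 𝔮
      · obtain ⟨i, hi⟩ := fam.exists_eq_of_height_one hπ hτ hKτ 𝔮 hh hπ𝔮
        subst hi
        refine ⟨1, one_ne_zero, ?_⟩
        rw [one_pow, inv_one, mul_one]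
        exact isUnitAtPrime_of_valuation_eq_one (B := ↥(chartOne R F τ)) (E := F)
          (fun b => mem_sheetIdeal_iff τ (W i) (fam.chart_le i) b)
          (fam.exists_mul_eq_of_mem hπ hτ hKτ i) (hGW i h𝔮𝔫)
      · exact hhor 𝔮 h𝔮 hh hπ𝔮 h𝔮𝔫)
  have hΓm : Γ ^ m ≠ 0 := pow_ne_zero _ hΓ
  refine ⟨Γ, hΓ, r, s, hr, hs, ?_⟩
  have h1 : G * (Γ ^ m)⁻¹ * (s : F) = (r : F) := hrs
  calc G * (s : F) = (G * (Γ ^ m)⁻¹ * (s : F)) * Γ ^ m := by field_simp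
    _ = Γ ^ m * (r : F) := by rw [h1]; ring

/-- a constant of the base which is a unit along a sheet is a unit of the base. -/
theorem isUnit_of_valuation_sheet_eq_one (fam : IsSheetFamily π τ W) (hπ : Irreducible π) (i : ι)
    {r : R} (hr : (W i).valuation (algebraMap R F r) = 1) : IsUnit r := by
  by_contra hru
  have hmem : r ∈ IsLocalRing.maximalIdeal R := (IsLocalRing.mem_maximalIdeal r).2 hru
  rw [(IsDiscreteValuationRing.irreducible_iff_uniformizer π).1 hπ] at hmem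
  obtain ⟨s, hs⟩ := Ideal.mem_span_singleton'.1 hmem
  have hπW : (W i).valuation (algebraMap R F π) < 1 :=
    valuation_pi_lt_one_of_isGaussAt _ (fam.gauss i)
  have hsW : (W i).valuation (algebraMap R F s) ≤ 1 :=
    (ValuationSubring.valuation_le_one_iff _ _).mpr
      (fam.chart_le i _ (Subalgebra.algebraMap_mem _ s))
  rw [← hs, map_mul, map_mul] at hr
  have : (W i).valuation (algebraMap R F s) * (W i).valuation (algebraMap R F π) < 1 :=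
    mul_lt_one_of_nonneg_of_lt_one_right hsW zero_le hπW
  rw [hr] at this
  exact lt_irrefl _ this

end Family

section Three

variable {R : Type*} [CommRing R] [IsDomain R] [IsDiscreteValuationRing R] [CharZero R]
  {K₁ : Type*} [Field K₁] [Algebra R K₁] [IsFractionRing R K₁]
  {KN₁ : Type*} [Field KN₁] [Algebra K₁ KN₁] [Algebra R KN₁] [IsScalarTower R K₁ KN₁]
  {E₁ : Type*} [Field E₁] [Algebra KN₁ E₁] [Algebra R E₁] [IsScalarTower R KN₁ E₁]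
  [FiniteDimensional KN₁ E₁]
  {KN₂ : Type*} [Field KN₂] [Algebra K₁ KN₂] [Algebra R KN₂] [IsScalarTower R K₁ KN₂]
  {E : Type*} [Field E] [Algebra KN₂ E] [Algebra R E] [IsScalarTower R KN₂ E]
  [FiniteDimensional KN₂ E]
  {π : R} {j₁ : KN₁} {j₂ : KN₂} {W10 W01 : ValuationSubring E₁} {W : Fin 3 → ValuationSubring E}

/-- **the closed root at all closed points of the three-sheet chart**, for a function which is a
unit along the three sheets. -/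
theorem exists_closedRoot_three_chart (hπ : Irreducible π)
    (hj₁ : Transcendental K₁ j₁) (hKj₁ : IntermediateField.adjoin K₁ {j₁} = ⊤)
    (hj₂ : Transcendental K₁ j₂) (hKj₂ : IntermediateField.adjoin K₁ {j₂} = ⊤)
    (h2 : IsTwoSheet π j₁ W10 W01)
    (hmod : IsModelChart E₁ π (sheetIdeal j₁ W10 h2.chart_le_inf)
      (sheetIdeal j₁ W01 h2.chart_le_zero))
    (fam : IsSheetFamily π j₂ W) (α β : E₁ →+* E)
    (hαR : ∀ r : R, α (algebraMap R E₁ r) = algebraMap R E r)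
    (hβR : ∀ r : R, β (algebraMap R E₁ r) = algebraMap R E r)
    (hαB : ∀ b ∈ chartOne R E₁ j₁, α b ∈ chartOne R E j₂)
    (hβB : ∀ b ∈ chartOne R E₁ j₁, β b ∈ chartOne R E j₂)
    (hαint : (chartRestrictHom (B' := chartOne R E₁ j₁) (B := chartOne R E j₂) α hαB).IsIntegral)
    (hβint : (chartRestrictHom (B' := chartOne R E₁ j₁) (B := chartOne R E j₂) β hβB).IsIntegral)
    (hα0 : (W 0).comap α = W10) (hα1 : (W 1).comap α = W10) (hα2 : (W 2).comap α = W01)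
    (hβ0 : (W 0).comap β = W10) (hβ1 : (W 1).comap β = W01) (hβ2 : (W 2).comap β = W01)
    {q : ℕ} (hq : 0 < q)
    (hinsα : ∀ x ∈ W 2, ∃ a ∈ W01, (W 2).valuation (x ^ q - α a) < 1)
    (hinsβ : ∀ x ∈ W 0, ∃ a ∈ W10, (W 0).valuation (x ^ q - β a) < 1)
    (hresα0 : ∀ x ∈ W 0, ∃ a ∈ W10, (W 0).valuation (x - α a) < 1)
    (hresα1 : ∀ x ∈ W 1, ∃ a ∈ W10, (W 1).valuation (x - α a) < 1)
    (hresβ2 : ∀ x ∈ W 2, ∃ a ∈ W01, (W 2).valuation (x - β a) < 1)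
    (he0 : ∀ x : E, (W 0).valuation x < 1 → x * (algebraMap R E π)⁻¹ ∈ W 0)
    (he2 : ∀ x : E, (W 2).valuation x < 1 → x * (algebraMap R E π)⁻¹ ∈ W 2)
    (hLE1 : ∀ (𝔫 : Ideal ↥(chartOne R E j₂)) (_ : 𝔫.IsMaximal),
      sheetIdeal j₂ (W 1) (fam.chart_le 1) ≤ 𝔫 →
      (∀ l, sheetIdeal j₂ (W l) (fam.chart_le l) ≤ 𝔫 → l = 1) →
      ∃ z : ↥(chartOne R E j₂), z ∈ sheetIdeal j₂ (W 1) (fam.chart_le 1) ∧ z ≠ 0 ∧
        ∀ w ∈ sheetIdeal j₂ (W 1) (fam.chart_le 1),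
          ∃ s : ↥(chartOne R E j₂), s ∉ 𝔫 ∧ z ∣ s * w)
    (hLE3 : ∀ (𝔫 : Ideal ↥(chartOne R E j₂)) (_ : 𝔫.IsMaximal),
      (∀ l, sheetIdeal j₂ (W l) (fam.chart_le l) ≤ 𝔫) →
      ∃ (l₁ : Fin 3) (z : ↥(chartOne R E j₂)), z ∈ sheetIdeal j₂ (W l₁) (fam.chart_le l₁) ∧
        z ≠ 0 ∧ ∀ w ∈ sheetIdeal j₂ (W l₁) (fam.chart_le l₁),
          ∃ s : ↥(chartOne R E j₂), s ∉ 𝔫 ∧ z ∣ s * w)
    {m : ℕ} {G : E} (hG : G ≠ 0) (hGW : ∀ l, (W l).valuation G = 1)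
    (hhor : haveI : IsFractionRing ↥(chartOne R E j₂) E := isFractionRing_chartOne (K₁ := K₁) j₂ hKj₂
      ∀ 𝔮 : Ideal ↥(chartOne R E j₂), 𝔮.IsPrime → 𝔮.height = 1 →
      algebraMap R ↥(chartOne R E j₂) π ∉ 𝔮 →
      ∃ γ : E, γ ≠ 0 ∧ IsUnitAtPrime 𝔮 (G * (γ ^ m)⁻¹))
    (𝔫 : Ideal ↥(chartOne R E j₂)) (h𝔫 : 𝔫.IsMaximal)
    (hπ𝔫 : algebraMap R ↥(chartOne R E j₂) π ∈ 𝔫) :
    ∃ Γ : E, IsClosedRootAt (chartOne R E j₂) 𝔫 m G Γ := by
  classical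
  haveI := h𝔫
  haveI h𝔫p : 𝔫.IsPrime := h𝔫.isPrime
  haveI : IsFractionRing ↥(chartOne R E j₂) E := isFractionRing_chartOne (K₁ := K₁) j₂ hKj₂
  haveI : IsNoetherianRing ↥(chartOne R E₁ j₁) := isNoetherianRing_chartOne (K₁ := K₁) j₁ hj₁ hKj₁
  -- branch uniformizers
  have hbr := fun (l : Fin 3) (hle : sheetIdeal j₂ (W l) (fam.chart_le l) ≤ 𝔫) =>
    exists_isBranchUniformizer_three hπ hj₁ hKj₁ h2 hmod fam α β hαB hβB hαint hβint hα0 hα1 hβ2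
      hresα0 hresα1 hresβ2 𝔫 l hle
  obtain ⟨l₀, hl₀⟩ := fam.exists_sheet_le_of_mem hπ hj₂ hKj₂ 𝔫 hπ𝔫
  by_cases honly : ∀ l, sheetIdeal j₂ (W l) (fam.chart_le l) ≤ 𝔫 → l = l₀
  · -- a point on one sheet only
    obtain ⟨u, hu⟩ := hbr l₀ hl₀
    have hLE : ∃ z : ↥(chartOne R E j₂), z ∈ sheetIdeal j₂ (W l₀) (fam.chart_le l₀) ∧ z ≠ 0 ∧
        ∀ w ∈ sheetIdeal j₂ (W l₀) (fam.chart_le l₀),
          ∃ s : ↥(chartOne R E j₂), s ∉ 𝔫 ∧ z ∣ s * w := by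
      have hπ0 : algebraMap R ↥(chartOne R E j₂) π ≠ 0 := by
        intro h0
        have h1 : algebraMap R E π = 0 :=
          congrArg (fun b : ↥(chartOne R E j₂) => (b : E)) h0
        exact algebraMap_pi_ne_zero (K₁ := K₁) (K := KN₂) hπ h1
      have hpi : ∀ l, algebraMap R ↥(chartOne R E j₂) π ∈ sheetIdeal j₂ (W l) (fam.chart_le l) :=
        fun l => sinfemb_pi_mem_sheetIdeal (fam.gauss l)
      fin_cases l₀
      · exact ⟨_, hpi 0, hπ0, exists_dvd_pi_of_single_sheet fam hπ hj₂ hKj₂ 𝔫 0 he0 honly⟩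
      · exact hLE1 𝔫 h𝔫 hl₀ honly
      · exact ⟨_, hpi 2, hπ0, exists_dvd_pi_of_single_sheet fam hπ hj₂ hKj₂ 𝔫 2 he2 honly⟩
    obtain ⟨z, hz, hz0, hgen⟩ := hLE
    exact exists_closedRoot_of_family fam hπ hj₂ hKj₂ 𝔫 l₀ hl₀ hz hz0 hgen hu hG
      (fun i _ => hGW i) (fun 𝔮 h𝔮 hh hπ𝔮 _ => hhor 𝔮 h𝔮 hh hπ𝔮)
  · -- a point on at least two sheets: all three
    push Not at honly
    obtain ⟨l, hl, hll₀⟩ := honly
    obtain ⟨hall, -, -, -, -⟩ :=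
      three_sheet_classification_chart hπ hj₁ hKj₁ hj₂ hKj₂ h2 hmod fam α β hαR hβR hαB hβB
        hαint hβint hα0 hα1 hα2 hβ0 hβ1 hβ2 hq hinsα hinsβ 𝔫 hll₀ hl hl₀
    obtain ⟨l₁, z, hz, hz0, hgen⟩ := hLE3 𝔫 h𝔫 hall
    obtain ⟨u₁, hu₁⟩ := hbr l₁ (hall l₁)
    exact exists_closedRoot_of_family fam hπ hj₂ hKj₂ 𝔫 l₁ (hall l₁) hz hz0 hgen hu₁ hG
      (fun i _ => hGW i) (fun 𝔮 h𝔮 hh hπ𝔮 _ => hhor 𝔮 h𝔮 hh hπ𝔮)

end Three

section Cusp

variable {R : Type*} [CommRing R] [IsDomain R] [IsDiscreteValuationRing R] [CharZero R]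
  {K₁ : Type*} [Field K₁] [Algebra R K₁] [IsFractionRing R K₁]
  {K : Type*} [Field K] [Algebra K₁ K] [Algebra R K] [IsScalarTower R K₁ K]
  {E : Type*} [Field E] [Algebra K E] [Algebra R E] [IsScalarTower R K E] [FiniteDimensional K E]
  {π : R} {u : K} {ι : Type*} {W : ι → ValuationSubring E}

/-- **the closed root at the cusps of the chart `u⁻¹`.** -/
theorem exists_closedRoot_cusp (fam' : IsSheetFamily π u⁻¹ W) (hπ : Irreducible π)
    (hu : Transcendental K₁ u) (hK : IntermediateField.adjoin K₁ {u} = ⊤)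
    (hcusp : ∀ (𝔫 : Ideal ↥(chartOne R E u⁻¹)) (_ : 𝔫.IsMaximal),
      algebraMap R ↥(chartOne R E u⁻¹) π ∈ 𝔫 →
      (⟨algebraMap K E u⁻¹, algebraMap_coord_mem_chartOne u⁻¹⟩ : ↥(chartOne R E u⁻¹)) ∈ 𝔫 →
      ∃ (l₀ : ι) (z v : ↥(chartOne R E u⁻¹)),
        sheetIdeal u⁻¹ (W l₀) (fam'.chart_le l₀) ≤ 𝔫 ∧
        (∀ l, sheetIdeal u⁻¹ (W l) (fam'.chart_le l) ≤ 𝔫 → l = l₀) ∧
        z ∈ sheetIdeal u⁻¹ (W l₀) (fam'.chart_le l₀) ∧ z ≠ 0 ∧
        (∀ w ∈ sheetIdeal u⁻¹ (W l₀) (fam'.chart_le l₀),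
          ∃ s : ↥(chartOne R E u⁻¹), s ∉ 𝔫 ∧ z ∣ s * w) ∧
        IsBranchUniformizer (sheetIdeal u⁻¹ (W l₀) (fam'.chart_le l₀)) 𝔫 v)
    {m : ℕ} {G : E} (hG : G ≠ 0) (hGW : ∀ l, (W l).valuation G = 1)
    (hhor : haveI : IsFractionRing ↥(chartOne R E u⁻¹) E :=
        isFractionRing_chartOne (K₁ := K₁) u⁻¹ (adjoin_inv_eq_top hK)
      ∀ 𝔮 : Ideal ↥(chartOne R E u⁻¹), 𝔮.IsPrime → 𝔮.height = 1 →
      algebraMap R ↥(chartOne R E u⁻¹) π ∉ 𝔮 → ∃ γ : E, γ ≠ 0 ∧ IsUnitAtPrime 𝔮 (G * (γ ^ m)⁻¹))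
    (𝔫 : Ideal ↥(chartOne R E u⁻¹)) (h𝔫 : 𝔫.IsMaximal)
    (hπ𝔫 : algebraMap R ↥(chartOne R E u⁻¹) π ∈ 𝔫)
    (hx : (⟨algebraMap K E u⁻¹, algebraMap_coord_mem_chartOne u⁻¹⟩ : ↥(chartOne R E u⁻¹)) ∈ 𝔫) :
    ∃ Γ : E, IsClosedRootAt (chartOne R E u⁻¹) 𝔫 m G Γ := by
  haveI := h𝔫
  obtain ⟨l₀, z, v, hle, honly, hz, hz0, hgen, hv⟩ := hcusp 𝔫 h𝔫 hπ𝔫 hx
  exact exists_closedRoot_of_family fam' hπ (transcendental_inv_of_transcendental hu)
    (adjoin_inv_eq_top hK) 𝔫 l₀ hle hz hz0 hgen hv hG (fun i _ => hGW i)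
    (fun 𝔮 h𝔮 hh hπ𝔮 _ => hhor 𝔮 h𝔮 hh hπ𝔮)

end Cusp

section Red

variable {R : Type*} [CommRing R] {E : Type*} [Field E] [Algebra R E]
  {k : Type*} [Field k] {F : Type*} [Field F] [Algebra k F]

/-- an element of the valuation ring of a place with valuation one has order zero. -/
theorem ord_eq_zero_of_valuation_eq_one (Q : Place k F) {y : F}
    (h1 : Q.toValuationSubring.valuation y = 1) : Q.ord y = 0 := by
  have hm : y ∈ Q.toValuationSubring := (ValuationSubring.valuation_le_one_iff _ _).mp h1.le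
  have hm' : y⁻¹ ∈ Q.toValuationSubring := by
    rw [← ValuationSubring.valuation_le_one_iff, map_inv₀, h1, inv_one]
  have h4 := PlaceAux.ord_nonneg_of_mem Q hm
  have h5 := PlaceAux.ord_nonneg_of_mem Q hm'
  rw [Q.ord_inv] at h5
  omega

/-- **the reduction lemma**: a closed root of `G` at the centre of the place `Q` of the reduction of
the sheet `Wl` gives `m ∣ ord_Q (ι G)`. -/
theorem dvd_ord_of_closedRoot (Wl : ValuationSubring E) (ι : ↥Wl →+* F)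
    (hker : ∀ x : ↥Wl, Wl.valuation (x : E) < 1 → ι x = 0) (Q : Place k F)
    (B : Subalgebra R E) (𝔪 : Ideal ↥B) [h𝔪 : 𝔪.IsPrime]
    (hunit : ∀ x : E, IsUnitIn (locSub B 𝔪) x →
      ∃ h : x ∈ Wl, Q.toValuationSubring.valuation (ι ⟨x, h⟩) = 1)
    {m : ℕ} (hm : m ≠ 0) {G Γ : E} (hGW : Wl.valuation G = 1)
    (hroot : IsClosedRootAt B 𝔪 m G Γ) :
    (m : ℤ) ∣ Q.ord (ι ⟨G, (ValuationSubring.valuation_le_one_iff _ _).mp hGW.le⟩) := by
  obtain ⟨hΓ, c, d, hc, hd, hcd⟩ := hroot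
  obtain ⟨hcW, hc1⟩ := hunit _ (isUnitIn_coe_of_notMem hc)
  obtain ⟨hdW, hd1⟩ := hunit _ (isUnitIn_coe_of_notMem hd)
  have hne : ∀ {x : E} (hx : x ∈ Wl), Q.toValuationSubring.valuation (ι ⟨x, hx⟩) = 1 →
      Wl.valuation x = 1 := by
    intro x hx h1
    refine le_antisymm ((ValuationSubring.valuation_le_one_iff _ _).mpr hx) ?_
    by_contra hnot
    have h0 := hker ⟨x, hx⟩ (not_le.mp hnot)
    rw [h0, map_zero] at h1
    exact zero_ne_one h1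
  have hcv : Wl.valuation (c : E) = 1 := hne hcW hc1
  have hdv : Wl.valuation (d : E) = 1 := hne hdW hd1
  -- `Γ` is a unit of the sheet
  have hΓm : Wl.valuation (Γ ^ m) = 1 := by
    have h1 : Wl.valuation (G * (d : E)) = 1 := by rw [map_mul, hGW, hdv, one_mul]
    rw [hcd, map_mul, hcv, mul_one] at h1
    exact h1
  have hΓv : Wl.valuation Γ = 1 := by
    rw [map_pow] at hΓm
    exact (pow_eq_one_iff_of_nonneg zero_le hm).mp hΓm
  have hΓW : Γ ∈ Wl := (ValuationSubring.valuation_le_one_iff _ _).mp hΓv.le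
  have hGmem : G ∈ Wl := (ValuationSubring.valuation_le_one_iff _ _).mp hGW.le
  -- the relation in the residue field
  have hrel : ι ⟨G, hGmem⟩ * ι ⟨(d : E), hdW⟩ = ι ⟨Γ, hΓW⟩ ^ m * ι ⟨(c : E), hcW⟩ := by
    rw [← map_mul, ← map_pow, ← map_mul]
    congr 1
    exact Subtype.ext hcd
  have hιne : ∀ {x : E} (hx : x ∈ Wl), Wl.valuation x = 1 → ι ⟨x, hx⟩ ≠ 0 := by
    intro x hx h1
    have hu : IsUnit (⟨x, hx⟩ : ↥Wl) := (ValuationSubring.valuation_eq_one_iff Wl _).mpr h1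
    exact (hu.map ι).ne_zero
  have hG0 := hιne hGmem hGW
  have hd0 := hιne hdW hdv
  have hc0 := hιne hcW hcv
  have hΓ0 := hιne hΓW hΓv
  have hord := congrArg Q.ord hrel
  rw [Q.ord_mul hG0 hd0, Q.ord_mul (pow_ne_zero _ hΓ0) hc0, PlaceAux.ord_pow,
    ord_eq_zero_of_valuation_eq_one Q hc1, ord_eq_zero_of_valuation_eq_one Q hd1, add_zero,
    add_zero] at hord
  exact ⟨_, hord⟩

end Red

section Main

variable {R : Type*} [CommRing R] [IsDomain R] [IsDiscreteValuationRing R] [CharZero R]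
  {K₁ : Type*} [Field K₁] [Algebra R K₁] [IsFractionRing R K₁]
  {KN₁ : Type*} [Field KN₁] [Algebra K₁ KN₁] [Algebra R KN₁] [IsScalarTower R K₁ KN₁]
  {E₁ : Type*} [Field E₁] [Algebra KN₁ E₁] [Algebra R E₁] [IsScalarTower R KN₁ E₁]
  [FiniteDimensional KN₁ E₁]
  {KN₂ : Type*} [Field KN₂] [Algebra K₁ KN₂] [Algebra R KN₂] [IsScalarTower R K₁ KN₂]
  {E : Type*} [Field E] [Algebra KN₂ E] [Algebra R E] [IsScalarTower R KN₂ E]
  [FiniteDimensional KN₂ E]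
  {π : R} {j₁ : KN₁} {j₂ : KN₂} {W10 W01 : ValuationSubring E₁} {W : Fin 3 → ValuationSubring E}
  {k : Type*} [Field k] {F : Type*} [Field F] [Algebra k F]

set_option maxHeartbeats 1600000 in
/-- **[ORD-q²], abstract form**: on the three-sheet model, a function `G` which is a unit along the
three sheets and whose horizontal divisor is divisible by `m` reduces along every sheet to a function
all of whose orders (at the places with residue field the residue field of the base) are divisible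
by `m`. -/
theorem dvd_ord_red_three_sheet (hπ : Irreducible π)
    (hj₁ : Transcendental K₁ j₁) (hKj₁ : IntermediateField.adjoin K₁ {j₁} = ⊤)
    (hj₂ : Transcendental K₁ j₂) (hKj₂ : IntermediateField.adjoin K₁ {j₂} = ⊤)
    (h2 : IsTwoSheet π j₁ W10 W01)
    (hmod : IsModelChart E₁ π (sheetIdeal j₁ W10 h2.chart_le_inf)
      (sheetIdeal j₁ W01 h2.chart_le_zero))
    (fam : IsSheetFamily π j₂ W) (fam' : IsSheetFamily π j₂⁻¹ W) (α β : E₁ →+* E)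
    (hαR : ∀ r : R, α (algebraMap R E₁ r) = algebraMap R E r)
    (hβR : ∀ r : R, β (algebraMap R E₁ r) = algebraMap R E r)
    (hαB : ∀ b ∈ chartOne R E₁ j₁, α b ∈ chartOne R E j₂)
    (hβB : ∀ b ∈ chartOne R E₁ j₁, β b ∈ chartOne R E j₂)
    (hαint : (chartRestrictHom (B' := chartOne R E₁ j₁) (B := chartOne R E j₂) α hαB).IsIntegral)
    (hβint : (chartRestrictHom (B' := chartOne R E₁ j₁) (B := chartOne R E j₂) β hβB).IsIntegral)
    (hα0 : (W 0).comap α = W10) (hα1 : (W 1).comap α = W10) (hα2 : (W 2).comap α = W01)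
    (hβ0 : (W 0).comap β = W10) (hβ1 : (W 1).comap β = W01) (hβ2 : (W 2).comap β = W01)
    {q : ℕ} (hq : 0 < q)
    (hinsα : ∀ x ∈ W 2, ∃ a ∈ W01, (W 2).valuation (x ^ q - α a) < 1)
    (hinsβ : ∀ x ∈ W 0, ∃ a ∈ W10, (W 0).valuation (x ^ q - β a) < 1)
    (hresα0 : ∀ x ∈ W 0, ∃ a ∈ W10, (W 0).valuation (x - α a) < 1)
    (hresα1 : ∀ x ∈ W 1, ∃ a ∈ W10, (W 1).valuation (x - α a) < 1)
    (hresβ2 : ∀ x ∈ W 2, ∃ a ∈ W01, (W 2).valuation (x - β a) < 1)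
    (he0 : ∀ x : E, (W 0).valuation x < 1 → x * (algebraMap R E π)⁻¹ ∈ W 0)
    (he2 : ∀ x : E, (W 2).valuation x < 1 → x * (algebraMap R E π)⁻¹ ∈ W 2)
    (hLE1 : ∀ (𝔫 : Ideal ↥(chartOne R E j₂)) (_ : 𝔫.IsMaximal),
      sheetIdeal j₂ (W 1) (fam.chart_le 1) ≤ 𝔫 →
      (∀ l, sheetIdeal j₂ (W l) (fam.chart_le l) ≤ 𝔫 → l = 1) →
      ∃ z : ↥(chartOne R E j₂), z ∈ sheetIdeal j₂ (W 1) (fam.chart_le 1) ∧ z ≠ 0 ∧
        ∀ w ∈ sheetIdeal j₂ (W 1) (fam.chart_le 1),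
          ∃ s : ↥(chartOne R E j₂), s ∉ 𝔫 ∧ z ∣ s * w)
    (hLE3 : ∀ (𝔫 : Ideal ↥(chartOne R E j₂)) (_ : 𝔫.IsMaximal),
      (∀ l, sheetIdeal j₂ (W l) (fam.chart_le l) ≤ 𝔫) →
      ∃ (l₁ : Fin 3) (z : ↥(chartOne R E j₂)), z ∈ sheetIdeal j₂ (W l₁) (fam.chart_le l₁) ∧
        z ≠ 0 ∧ ∀ w ∈ sheetIdeal j₂ (W l₁) (fam.chart_le l₁),
          ∃ s : ↥(chartOne R E j₂), s ∉ 𝔫 ∧ z ∣ s * w)
    (hcusp : ∀ (𝔫 : Ideal ↥(chartOne R E j₂⁻¹)) (_ : 𝔫.IsMaximal),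
      algebraMap R ↥(chartOne R E j₂⁻¹) π ∈ 𝔫 →
      (⟨algebraMap KN₂ E j₂⁻¹, algebraMap_coord_mem_chartOne j₂⁻¹⟩ : ↥(chartOne R E j₂⁻¹)) ∈ 𝔫 →
      ∃ (l₀ : Fin 3) (z v : ↥(chartOne R E j₂⁻¹)),
        sheetIdeal j₂⁻¹ (W l₀) (fam'.chart_le l₀) ≤ 𝔫 ∧
        (∀ l, sheetIdeal j₂⁻¹ (W l) (fam'.chart_le l) ≤ 𝔫 → l = l₀) ∧
        z ∈ sheetIdeal j₂⁻¹ (W l₀) (fam'.chart_le l₀) ∧ z ≠ 0 ∧
        (∀ w ∈ sheetIdeal j₂⁻¹ (W l₀) (fam'.chart_le l₀),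
          ∃ s : ↥(chartOne R E j₂⁻¹), s ∉ 𝔫 ∧ z ∣ s * w) ∧
        IsBranchUniformizer (sheetIdeal j₂⁻¹ (W l₀) (fam'.chart_le l₀)) 𝔫 v)
    {m : ℕ} (hm : m ≠ 0) {G : E} (hG : G ≠ 0) (hGW : ∀ l, (W l).valuation G = 1)
    (hhor₁ : HorPow36 (K₁ := K₁) j₂ hKj₂ π m G)
    (hhor₂ : HorPow36 (K₁ := K₁) j₂⁻¹ (adjoin_inv_eq_top hKj₂) π m G)
    (l : Fin 3) (ι : ↥(W l) →+* F)
    (hker : ∀ x : ↥(W l), (W l).valuation (x : E) < 1 → ι x = 0)
    (res : R →+* k) (hres : Function.Surjective res)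
    (hιR : ∀ (r : R) (hr : algebraMap R E r ∈ W l),
      ι ⟨algebraMap R E r, hr⟩ = algebraMap k F (res r))
    (Q : Place k F)
    (hQ : ∀ y ∈ Q.toValuationSubring, ∃ c : k,
      Q.toValuationSubring.valuation (y - algebraMap k F c) < 1) :
    (m : ℤ) ∣ Q.ord (ι ⟨G, (ValuationSubring.valuation_le_one_iff _ _).mp (hGW l).le⟩) := by
  have hRW : ∀ r : R, algebraMap R E r ∈ W l := fun r =>
    fam.chart_le l _ (Subalgebra.algebraMap_mem _ r)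
  have hιR' : ∀ r : R, ι ⟨algebraMap R E r, hRW r⟩ ∈ Q.toValuationSubring := fun r => by
    rw [hιR]; exact Q.algebraMap_mem' _
  have hres' : ∀ y ∈ Q.toValuationSubring, ∃ r : R,
      Q.toValuationSubring.valuation (y - ι ⟨algebraMap R E r, hRW r⟩) < 1 := by
    intro y hy
    obtain ⟨c, hc⟩ := hQ y hy
    obtain ⟨r, rfl⟩ := hres c
    exact ⟨r, by rw [hιR]; exact hc⟩
  have hloc : ∀ r : R, (W l).valuation (algebraMap R E r) = 1 → IsUnit r := fun r hr =>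
    isUnit_of_valuation_sheet_eq_one fam hπ l hr
  have hjW : algebraMap KN₂ E j₂ ∈ W l := fam.chart_le l _ (algebraMap_coord_mem_chartOne j₂)
  by_cases hg : ι ⟨algebraMap KN₂ E j₂, hjW⟩ ∈ Q.toValuationSubring
  · -- the centre on the chart `j₂`
    obtain ⟨hW, 𝔪, hmax, hle, hmem, hunit⟩ := exists_centre_compValOf (W l) ι Q.toValuationSubring
      j₂ hker hRW hιR' hjW hg hres' hloc
    haveI := hmax
    haveI := hmax.isPrime
    have hπ𝔪 : algebraMap R ↥(chartOne R E j₂) π ∈ 𝔪 :=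
      hle (sinfemb_pi_mem_sheetIdeal (fam.gauss l))
    obtain ⟨Γ, hΓ⟩ := exists_closedRoot_three_chart hπ hj₁ hKj₁ hj₂ hKj₂ h2 hmod fam α β hαR hβR
      hαB hβB hαint hβint hα0 hα1 hα2 hβ0 hβ1 hβ2 hq hinsα hinsβ hresα0 hresα1 hresβ2 he0 he2
      hLE1 hLE3 hG hGW hhor₁ 𝔪 hmax hπ𝔪
    exact dvd_ord_of_closedRoot (W l) ι hker Q (chartOne R E j₂) 𝔪 hunit hm (hGW l) hΓ
  · -- the centre on the chart `j₂⁻¹`, at a cusp
    have hjiW : algebraMap KN₂ E j₂⁻¹ ∈ W l :=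
      fam'.chart_le l _ (algebraMap_coord_mem_chartOne j₂⁻¹)
    have hmul : ι ⟨algebraMap KN₂ E j₂, hjW⟩ * ι ⟨algebraMap KN₂ E j₂⁻¹, hjiW⟩ = 1 := by
      rw [← map_mul]
      have hj0 : algebraMap KN₂ E j₂ ≠ 0 := by
        intro h0
        apply hg
        have : (⟨algebraMap KN₂ E j₂, hjW⟩ : ↥(W l)) = 0 := Subtype.ext h0
        rw [this, map_zero]
        exact Q.toValuationSubring.zero_mem
      have : (⟨algebraMap KN₂ E j₂, hjW⟩ : ↥(W l)) * ⟨algebraMap KN₂ E j₂⁻¹, hjiW⟩ = 1 := by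
        apply Subtype.ext
        show algebraMap KN₂ E j₂ * algebraMap KN₂ E j₂⁻¹ = 1
        rw [map_inv₀, mul_inv_cancel₀ hj0]
      rw [this, map_one]
    have hιji : ι ⟨algebraMap KN₂ E j₂⁻¹, hjiW⟩ = (ι ⟨algebraMap KN₂ E j₂, hjW⟩)⁻¹ :=
      eq_inv_of_mul_eq_one_right hmul
    have hιjim : ι ⟨algebraMap KN₂ E j₂⁻¹, hjiW⟩ ∈ Q.toValuationSubring := by
      rw [hιji]
      exact (Q.toValuationSubring.mem_or_inv_mem _).resolve_left hg
    have hιjilt : Q.toValuationSubring.valuation (ι ⟨algebraMap KN₂ E j₂⁻¹, hjiW⟩) < 1 := by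
      rw [hιji, map_inv₀]
      have h1 : 1 < Q.toValuationSubring.valuation (ι ⟨algebraMap KN₂ E j₂, hjW⟩) := by
        rw [← not_le, ValuationSubring.valuation_le_one_iff]; exact hg
      exact inv_lt_one_of_one_lt₀ h1
    obtain ⟨hW, 𝔪, hmax, hle, hmem, hunit⟩ := exists_centre_compValOf (W l) ι Q.toValuationSubring
      j₂⁻¹ hker hRW hιR' hjiW hιjim hres' hloc
    haveI := hmax
    haveI := hmax.isPrime
    have hπ𝔪 : algebraMap R ↥(chartOne R E j₂⁻¹) π ∈ 𝔪 :=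
      hle (sinfemb_pi_mem_sheetIdeal (fam'.gauss l))
    have hx : (⟨algebraMap KN₂ E j₂⁻¹, algebraMap_coord_mem_chartOne j₂⁻¹⟩ :
        ↥(chartOne R E j₂⁻¹)) ∈ 𝔪 := (hmem _).mpr hιjilt
    obtain ⟨Γ, hΓ⟩ := exists_closedRoot_cusp fam' hπ hj₂ hKj₂ hcusp hG hGW hhor₂ 𝔪 hmax hπ𝔪 hx
    exact dvd_ord_of_closedRoot (W l) ι hker Q (chartOne R E j₂⁻¹) 𝔪 hunit hm (hGW l) hΓ

end Main

end Fermat.Agent.ML
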