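/-
ML — helper3 — **[MSQ] leaf (a): [ORD-q²] on the Legendre host of level `M q q`**, generic
unramified base.

`(R, K)` a DVR with algebraically closed residue field, `q = π · unit`, the cyclotomic enlargement
`(R', K', φ, κ, ζ, u)`, the three sheets `W20 = legWinf`, `W11`, `W02` of S36.  `G` a function on the
host which is a unit along the three sheets, with all orders (over `K`) divisible by `m`.  For every
reduction map `ρ : V_M → F` of the good level (`F / k` a function field, `k` the residue field of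
`R`), if `G ≡ A A x₀` along `W20` or `W11`, resp. `G ≡ B B x₀` along `W02`, then `m ∣ ord_Q (ρ x₀)`
at every place `Q` of `F / k` with residue field `k`.
-/
import Mathlib
import Fermat.Agent.ML.MSQ_helper3_Ord
import Fermat.Agent.ML.MSQ_helper3_Three
import Fermat.Agent.S36.BASE36_helper4_Final
import Fermat.Agent.MP.DICT_helper1_Rel

set_option autoImplicit false
set_option linter.unusedSectionVars false
set_option linter.unusedVariables false
set_option linter.style.haveILetI false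
set_option synthInstance.maxHeartbeats 400000

open Polynomial ModularCurve IntermediateField AlgebraicCurve

namespace Fermat.Agent.ML

open Fermat.Agent.JA Fermat.Agent.Igusa Fermat.Agent.SS Fermat.Agent.MP Fermat.Agent.S36
  Fermat.Agent.NP Fermat.Agent.X0N Fermat.Agent.S35

open scoped Fermat.Agent.JA.Host

noncomputable section

section Leg

variable (R : Type*) [CommRing R] [IsDomain R] [IsDiscreteValuationRing R] [CharZero R]
  [DecidableEq R]
  (K : Type*) [Field K] [Algebra R K] [IsFractionRing R K] [Algebra ℚ K] [Algebra K ℂ]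
  {M q : ℕ} [NeZero M] [NeZero q] [NeZero (M * q)] [NeZero (M * q * q)] {x y : ℤ}
  {π : R}
  {R' : Type*} [CommRing R'] [IsDomain R'] [IsDiscreteValuationRing R']
  {K' : Type*} [Field K'] [Algebra R' K'] [IsFractionRing R' K']
  {k : Type*} [Field k] {F : Type*} [Field F] [Algebra k F]

/-- `A ∘ A` is the identity on the constants of the base ring. -/
theorem legSqA_algebraMap_base (r : R) :
    (legSqA K M q : ↥(legE K M) →+* ↥(legE K (M * q * q))) (algebraMap R ↥(legE K M) r) =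
      algebraMap R ↥(legE K (M * q * q)) r := by
  rw [IsScalarTower.algebraMap_apply R K ↥(legE K M),
    IsScalarTower.algebraMap_apply R K ↥(legE K (M * q * q))]
  simp only [RingHom.coe_coe, AlgHom.commutes]

/-- `B ∘ B` is the identity on the constants of the base ring. -/
theorem legSqB_algebraMap_base (hq : q.Prime) (hq2 : q ≠ 2) (r : R) :
    (legSqB K M q hq hq2 : ↥(legE K M) →+* ↥(legE K (M * q * q))) (algebraMap R ↥(legE K M) r) =
      algebraMap R ↥(legE K (M * q * q)) r := by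
  rw [IsScalarTower.algebraMap_apply R K ↥(legE K M),
    IsScalarTower.algebraMap_apply R K ↥(legE K (M * q * q))]
  simp only [RingHom.coe_coe, AlgHom.commutes]

set_option maxHeartbeats 6400000 in
/-- **[ORD-q²] on the Legendre hosts, generic base.** -/
theorem legOrd3_of_model [IsAlgClosed (IsLocalRing.ResidueField R)]
    (hπ : Irreducible π) (h2 : IsUnit (2 : R))
    (h : (q : ℤ) * x + M * y = 1) (hq : q.Prime) (hq2 : q ≠ 2)
    (hqπ : (q : R) ∈ Ideal.span {π})
    (hgeo : GeoHyps K π (AdjoinSimple.gen K (legT K)) ↥(legE K M) M ({0, 1} : Finset R))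
    (φ : R →+* R') [IsLocalHom φ] (κ : K →+* K')
    (hκ : ∀ r : R, κ (algebraMap R K r) = algebraMap R' K' (φ r))
    (ζ u : R'ˣ) (hζq : ζ ^ q = 1) (hζ1 : ζ ≠ 1)
    (hπζ : φ π = ((ζ : R') - 1) ^ (q - 1) * u)
    (W11 W02 : ValuationSubring ↥(legE K (M * q * q)))
    (h11 : W11.comap (legIncl K (M * q * q)) =
      hostImageVal K 2 (keyFqW11 R K h hq φ κ hκ ζ hζq hζ1))
    (h02 : W02.comap (legIncl K (M * q * q)) = hostImageVal K 2 (keyFqW02 R K h hq))
    (ρ : ↥(legWinf R K h2 M) →+* F)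
    (hρ : ∀ z : ↥(legWinf R K h2 M), (legWinf R K h2 M).valuation (z : ↥(legE K M)) < 1 → ρ z = 0)
    (res : R →+* k) (hres : Function.Surjective res)
    (hρR : ∀ (r : R) (hr : algebraMap R ↥(legE K M) r ∈ legWinf R K h2 M),
      ρ ⟨algebraMap R ↥(legE K M) r, hr⟩ = algebraMap k F (res r))
    (hQ : ∀ Q : Place k F, ∀ z ∈ Q.toValuationSubring, ∃ c : k,
      Q.toValuationSubring.valuation (z - algebraMap k F c) < 1)
    {m : ℕ} (hm : m ≠ 0) {G : ↥(legE K (M * q * q))} (hG : G ≠ 0)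
    (hord : ∀ P : Place K ↥(legE K (M * q * q)), (m : ℤ) ∣ P.ord G)
    (hG20 : (legWinf R K h2 (M * q * q)).valuation G = 1) (hG11 : W11.valuation G = 1)
    (hG02 : W02.valuation G = 1) :
    (∀ (x₀ : ↥(legE K M)) (hx₀ : x₀ ∈ legWinf R K h2 M),
      (legWinf R K h2 (M * q * q)).valuation
        (G - (legSqA K M q : ↥(legE K M) →+* ↥(legE K (M * q * q))) x₀) < 1 →
      ∀ Q : Place k F, (m : ℤ) ∣ Q.ord (ρ ⟨x₀, hx₀⟩)) ∧
    (∀ (x₀ : ↥(legE K M)) (hx₀ : x₀ ∈ legWinf R K h2 M),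
      W11.valuation (G - (legSqA K M q : ↥(legE K M) →+* ↥(legE K (M * q * q))) x₀) < 1 →
      ∀ Q : Place k F, (m : ℤ) ∣ Q.ord (ρ ⟨x₀, hx₀⟩)) ∧
    (∀ (x₀ : ↥(legE K M)) (hx₀ : x₀ ∈ legWinf R K h2 M),
      W02.valuation
        (G - (legSqB K M q hq hq2 : ↥(legE K M) →+* ↥(legE K (M * q * q))) x₀) < 1 →
      ∀ Q : Place k F, (m : ℤ) ∣ Q.ord (ρ ⟨x₀, hx₀⟩)) := by
  haveI : FiniteDimensional ↥K⟮jqNModC K 2⟯ ↥(legE K (M * q * q)) :=
    finite_legE_adjoin_j K (M * q * q)
  haveI : FiniteDimensional ↥K⟮jqNModC K 2⟯ ↥(legE K (M * q)) := finite_legE_adjoin_j K (M * q)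
  haveI : CharP (IsLocalRing.ResidueField R) q := charP_residueField_of_mem_span hπ hq hqπ
  have hchar : (q : IsLocalRing.ResidueField R) = 0 := CharP.cast_eq_zero _ q
  obtain ⟨hfinA, hdegA⟩ :=
    normhost_finrank_legHostA R K (M := M * q) h2 hq hq2 (dvd_mul_left q M) hchar
  obtain ⟨hfinB, hdegB⟩ :=
    normhost_finrank_legHostB R K (M := M * q) h2 hq hq2 (dvd_mul_left q M) hchar
  obtain ⟨hdvr, hT⟩ := legE_isThreeSheet_delta R K hπ h2 h hq hq2 hqπ hgeo φ κ hκ ζ hζq hζ1 u hπζ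
    W11 W02 h11 h02
  have hfam := legE_isSheetFamily_delta R K hπ h2 h hq hq2 hqπ hgeo φ κ hκ ζ hζq hζ1 u hπζ
    W11 W02 h11 h02
  have D := legE_inst36Data_delta R K hπ h2 h hq hq2 hqπ hgeo φ κ hκ ζ hζq hζ1 u hπζ W11 W02
    h11 h02
    (normvalNormAlong₀ (legHostA K (M * q) q : ↥(legE K (M * q)) →+* ↥(legE K (M * q * q))) hfinA)
    (normvalNormAlong₀ (legHostB K (M * q) q hq hq2 :
      ↥(legE K (M * q)) →+* ↥(legE K (M * q * q))) hfinB)
    (fun _ => rfl) (fun _ => rfl)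
  have hmodel := ssModelLeg R K hπ h2 h hq hq2 hqπ hgeo
  obtain ⟨hαB, hβB, hαint, hβint⟩ := legE_chart_maps R K hπ hmodel
  obtain ⟨cq, hcq, hqcq⟩ := base36_exists_unit_mul φ hπ hq hqπ ζ u hζq hζ1 hπζ
  have hreg := leg_node_regular_final R K hmodel hπ hcq hqcq
  have hmodel' := SSModelLeg.ssModel R K hmodel
  unfold SSModelLeg at hmodel
  have hnode := node_local_equation_of_nodeRegular hmodel hreg
  have hLE1 := legE_hLE1_T R K hπ h2 h hq hq2 hqπ hgeo φ κ hκ ζ u hζq hζ1 hπζ W11 W02 h11 h02 hfam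
  have hcusps := leg_hcusps R K hπ h2 h hq hq2 hqπ hgeo φ κ hκ ζ u hζq hζ1 hπζ W11 W02 h11 h02
    (hfam.inv hπ)
  have hLE3 : ∀ (𝔫 : Ideal ↥(chartOne R ↥(legE K (M * q * q)) (AdjoinSimple.gen K (jqNModC K 2))))
      (_ : 𝔫.IsMaximal),
      (∀ l, sheetIdeal (AdjoinSimple.gen K (jqNModC K 2))
        (IsThreeSheet.fam (legWinf R K h2 (M * q * q)) W11 W02 l) (hfam.chart_le l) ≤ 𝔫) →
      ∃ (l₁ : Fin 3)
        (z : ↥(chartOne R ↥(legE K (M * q * q)) (AdjoinSimple.gen K (jqNModC K 2)))),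
        z ∈ sheetIdeal (AdjoinSimple.gen K (jqNModC K 2))
          (IsThreeSheet.fam (legWinf R K h2 (M * q * q)) W11 W02 l₁) (hfam.chart_le l₁) ∧ z ≠ 0 ∧
        ∀ w ∈ sheetIdeal (AdjoinSimple.gen K (jqNModC K 2))
          (IsThreeSheet.fam (legWinf R K h2 (M * q * q)) W11 W02 l₁) (hfam.chart_le l₁),
          ∃ s : ↥(chartOne R ↥(legE K (M * q * q)) (AdjoinSimple.gen K (jqNModC K 2))),
            s ∉ 𝔫 ∧ z ∣ s * w := by
    intro 𝔫 h𝔫 hall
    exact exists_local_equation_three_of_node (R := R) (K₁ := K) (KN₁ := ↥K⟮jqNModC K 2⟯)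
      (E₁ := ↥(legE K (M * q))) (KN₂ := ↥K⟮jqNModC K 2⟯) (E := ↥(legE K (M * q * q)))
      hπ (ssModelLeg_j_transcendental K) (ssModelLeg_j_adjoin K) hmodel.two hfam
      (legHostB K (M * q) q hq hq2 : ↥(legE K (M * q)) →+* ↥(legE K (M * q * q)))
      (ssModelLeg_B_algebraMap R K hq hq2) hβB hT.comap_B_20 hT.comap_B_11 hT.comap_B_02
      hT.unif_20 hnode
      (fun 𝔫 h𝔫 => haveI := h𝔫
        Ideal.isMaximal_comap_of_isIntegral_of_isMaximal' _ hβint 𝔫) 𝔫 h𝔫 hall
  have hhor₁ := horPow36_of_place (R := R) (K₁ := K) (K := ↥K⟮jqNModC K 2⟯)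
    (F := ↥(legE K (M * q * q))) (AdjoinSimple.gen K (jqNModC K 2))
    (ssModelLeg_j_transcendental K) (ssModelLeg_j_adjoin K) hπ hG hord
  have hhor₂ := horPow36_of_place (R := R) (K₁ := K) (K := ↥K⟮jqNModC K 2⟯)
    (F := ↥(legE K (M * q * q))) (AdjoinSimple.gen K (jqNModC K 2))⁻¹
    (transcendental_inv_of_transcendental (ssModelLeg_j_transcendental K))
    (adjoin_inv_eq_top (ssModelLeg_j_adjoin K)) hπ hG hord
  have hGW : ∀ l, (IsThreeSheet.fam (legWinf R K h2 (M * q * q)) W11 W02 l).valuation G = 1 := by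
    intro l
    fin_cases l
    · exact hG20
    · exact hG11
    · exact hG02
  -- the abstract statement for the sheet `l` and a reduction `ι` of it
  have key : ∀ (l : Fin 3) (ι : ↥(IsThreeSheet.fam (legWinf R K h2 (M * q * q)) W11 W02 l) →+* F),
      (∀ z : ↥(IsThreeSheet.fam (legWinf R K h2 (M * q * q)) W11 W02 l),
        (IsThreeSheet.fam (legWinf R K h2 (M * q * q)) W11 W02 l).valuation
          (z : ↥(legE K (M * q * q))) < 1 → ι z = 0) →
      (∀ (r : R) (hr : algebraMap R ↥(legE K (M * q * q)) r ∈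
          IsThreeSheet.fam (legWinf R K h2 (M * q * q)) W11 W02 l),
        ι ⟨algebraMap R ↥(legE K (M * q * q)) r, hr⟩ = algebraMap k F (res r)) →
      ∀ Q : Place k F, (m : ℤ) ∣ Q.ord (ι ⟨G,
        (ValuationSubring.valuation_le_one_iff _ _).mp (hGW l).le⟩) := by
    intro l ι hker hιR Q
    exact dvd_ord_red_three_sheet (R := R) (K₁ := K) (KN₁ := ↥K⟮jqNModC K 2⟯)
      (E₁ := ↥(legE K (M * q))) (KN₂ := ↥K⟮jqNModC K 2⟯) (E := ↥(legE K (M * q * q)))
      hπ (ssModelLeg_j_transcendental K) (ssModelLeg_j_adjoin K)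
      (ssModelLeg_j_transcendental K) (ssModelLeg_j_adjoin K) hmodel.two
      (hmodel.isModelChart_one hπ) hfam (hfam.inv hπ)
      (legHostA K (M * q) q : ↥(legE K (M * q)) →+* ↥(legE K (M * q * q)))
      (legHostB K (M * q) q hq hq2 : ↥(legE K (M * q)) →+* ↥(legE K (M * q * q)))
      (ssModelLeg_A_algebraMap R K) (ssModelLeg_B_algebraMap R K hq hq2) hαB hβB hαint hβint
      hT.comap_A_20 hT.comap_A_11 hT.comap_A_02 hT.comap_B_20 hT.comap_B_11 hT.comap_B_02
      hq.pos D.hinsA D.hinsB hT.res_A_20 hT.res_A_11 hT.res_B_02 hT.unif_20 hT.unif_02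
      hLE1 hLE3 hcusps hm hG hGW hhor₁ hhor₂ l ι hker res hres hιR Q (hQ Q)
  -- the three sheets
  have hAP : ∀ r : R, algebraMap R ↥(legE K M) r ∈ legWinf R K h2 M :=
    algebraMap_mem_legWinf R K h2 M
  refine ⟨?_, ?_, ?_⟩
  · -- `W20`, parametrised by `A ∘ A`
    intro x₀ hx₀ hlink Q
    have hcP : (legWinf R K h2 (M * q * q)).comap
        (legSqA K M q : ↥(legE K M) →+* ↥(legE K (M * q * q))) = legWinf R K h2 M :=
      legWinf_comap_of_coe_eq R K h2 _ (fun f => by rw [RingHom.coe_coe, coe_legSqA])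
    have hresP := res_comp (a₁ := (legHostA K M q : ↥(legE K M) →+* ↥(legE K (M * q))))
      hT.comap_A_20 hT.res_A_20 hmodel'.res_inf
    obtain ⟨ι, hker, hιA⟩ := exists_ringHom_of_res
      (legSqA K M q : ↥(legE K M) →+* ↥(legE K (M * q * q))) (legWinf R K h2 M)
      (legWinf R K h2 (M * q * q)) hcP hresP ρ hρ
    have h1 := key 0 ι hker (fun r hr =>
      (hιA ⟨_, hr⟩ ⟨algebraMap R ↥(legE K M) r, hAP r⟩ (by
        show (legWinf R K h2 (M * q * q)).valuation (algebraMap R ↥(legE K (M * q * q)) r -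
          (legSqA K M q : ↥(legE K M) →+* ↥(legE K (M * q * q))) (algebraMap R ↥(legE K M) r)) < 1
        rw [legSqA_algebraMap_base, sub_self, map_zero]; exact zero_lt_one)).trans
        (hρR r (hAP r))) Q
    have e := hιA ⟨G, (ValuationSubring.valuation_le_one_iff _ _).mp hG20.le⟩ ⟨x₀, hx₀⟩ hlink
    rw [← e]
    exact h1
  · -- `W11`, parametrised by `A ∘ A`
    intro x₀ hx₀ hlink Q
    have hcP : W11.comap (legSqA K M q : ↥(legE K M) →+* ↥(legE K (M * q * q))) =
        legWinf R K h2 M := by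
      have e : (legSqA K M q : ↥(legE K M) →+* ↥(legE K (M * q * q))) =
          (legHostA K (M * q) q : ↥(legE K (M * q)) →+* ↥(legE K (M * q * q))).comp
            (legHostA K M q : ↥(legE K M) →+* ↥(legE K (M * q))) := rfl
      rw [e, ← ValuationSubring.comap_comap, hT.comap_A_11]
      exact hmodel'.comap_A_inf
    have hresP := res_comp (a₁ := (legHostA K M q : ↥(legE K M) →+* ↥(legE K (M * q))))
      hT.comap_A_11 hT.res_A_11 hmodel'.res_inf
    obtain ⟨ι, hker, hιA⟩ := exists_ringHom_of_res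
      (legSqA K M q : ↥(legE K M) →+* ↥(legE K (M * q * q))) (legWinf R K h2 M)
      W11 hcP hresP ρ hρ
    have h1 := key 1 ι hker (fun r hr =>
      (hιA ⟨_, hr⟩ ⟨algebraMap R ↥(legE K M) r, hAP r⟩ (by
        show W11.valuation (algebraMap R ↥(legE K (M * q * q)) r -
          (legSqA K M q : ↥(legE K M) →+* ↥(legE K (M * q * q))) (algebraMap R ↥(legE K M) r)) < 1
        rw [legSqA_algebraMap_base, sub_self, map_zero]; exact zero_lt_one)).trans
        (hρR r (hAP r))) Q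
    have e := hιA ⟨G, (ValuationSubring.valuation_le_one_iff _ _).mp hG11.le⟩ ⟨x₀, hx₀⟩ hlink
    rw [← e]
    exact h1
  · -- `W02`, parametrised by `B ∘ B`
    intro x₀ hx₀ hlink Q
    have hcP : W02.comap (legSqB K M q hq hq2 : ↥(legE K M) →+* ↥(legE K (M * q * q))) =
        legWinf R K h2 M := by
      have e : (legSqB K M q hq hq2 : ↥(legE K M) →+* ↥(legE K (M * q * q))) =
          (legHostB K (M * q) q hq hq2 : ↥(legE K (M * q)) →+* ↥(legE K (M * q * q))).comp
            (legHostB K M q hq hq2 : ↥(legE K M) →+* ↥(legE K (M * q))) := rfl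
      rw [e, ← ValuationSubring.comap_comap, hT.comap_B_02]
      exact hmodel'.comap_B_zero
    have hresP := res_comp (a₁ := (legHostB K M q hq hq2 : ↥(legE K M) →+* ↥(legE K (M * q))))
      hT.comap_B_02 hT.res_B_02 hmodel'.res_zero
    obtain ⟨ι, hker, hιA⟩ := exists_ringHom_of_res
      (legSqB K M q hq hq2 : ↥(legE K M) →+* ↥(legE K (M * q * q))) (legWinf R K h2 M)
      W02 hcP hresP ρ hρ
    have h1 := key 2 ι hker (fun r hr =>
      (hιA ⟨_, hr⟩ ⟨algebraMap R ↥(legE K M) r, hAP r⟩ (by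
        show W02.valuation (algebraMap R ↥(legE K (M * q * q)) r -
          (legSqB K M q hq hq2 : ↥(legE K M) →+* ↥(legE K (M * q * q)))
            (algebraMap R ↥(legE K M) r)) < 1
        rw [legSqB_algebraMap_base, sub_self, map_zero]; exact zero_lt_one)).trans
        (hρR r (hAP r))) Q
    have e := hιA ⟨G, (ValuationSubring.valuation_le_one_iff _ _).mp hG02.le⟩ ⟨x₀, hx₀⟩ hlink
    rw [← e]
    exact h1

end Leg

end

end Fermat.Agent.ML
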