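/-
ML — helper3 — **[MSQ] leaf (a): the residues of a function of `F_{Mqq}(K)` along the three sheets of
the Legendre host of level `M q q`, as functions of `F_M(K)`** (generic unramified base).

`keyFq_three_sheet_res` (F-level residue degree one along `A`, `B` at level `M q → M q q`) composed
with helper8's `MP.keyFq_res_inf`, `MP.keyFq_res_zero` (level `M → M q`), transported to the host by
`fullToLegE` (`S35.xport_legWinf_comap`, the construction data `h11`, `h02` of the sheets).
-/
import Mathlib
import Fermat.Agent.ML.MSQ_helper3_FSheets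
import Fermat.Agent.ML.MSQ_helper3_Three
import Fermat.Agent.S36.HOST36_helper7_Delta

set_option autoImplicit false
set_option linter.unusedSectionVars false
set_option linter.unusedVariables false
set_option linter.style.haveILetI false
set_option synthInstance.maxHeartbeats 400000

open Polynomial ModularCurve IntermediateField IsLocalRing

namespace Fermat.Agent.ML

open Fermat.Agent.JA Fermat.Agent.Igusa Fermat.Agent.SS Fermat.Agent.MP Fermat.Agent.S36
  Fermat.Agent.S35 Fermat.Agent.X0N

open scoped Fermat.Agent.JA.Host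

noncomputable section

section Leg

variable (R : Type*) [CommRing R] [IsDomain R] [IsDiscreteValuationRing R] [CharZero R]
  [DecidableEq R]
  (K : Type*) [Field K] [Algebra R K] [IsFractionRing R K] [Algebra ℚ K] [Algebra K ℂ]
  {M q : ℕ} [NeZero M] [NeZero q] [NeZero (M * q)] [NeZero (M * q * q)] {x y : ℤ}
  {π : R}
  {R' : Type*} [CommRing R'] [IsDomain R'] [IsDiscreteValuationRing R']
  {K' : Type*} [Field K'] [Algebra R' K'] [IsFractionRing R' K']

/-- `fullToLegE` factors through the host image. -/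
theorem fullToLegE_eq_legIncl (N : ℕ) [NeZero N] (f : ↥(keyFq K N)) :
    fullToLegE K N f =
      Fermat.Agent.S36.legIncl K N (hostImageEquiv K 2 (keyFq K N) f) := by
  apply Subtype.ext
  rw [coe_fullToLegE]
  exact (coe_hostImageEquiv _ _).symm

/-- the restriction to `F_N` of a valuation subring of the host with prescribed restriction to the
host image. -/
theorem comap_fullToLegE_of_comap_legIncl (N : ℕ) [NeZero N] (W : ValuationSubring ↥(legE K N))
    (WF : ValuationSubring ↥(keyFq K N))
    (hW : W.comap (Fermat.Agent.S36.legIncl K N) = hostImageVal K 2 WF) :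
    W.comap (fullToLegE K N : ↥(keyFq K N) →+* ↥(legE K N)) = WF := by
  ext f
  rw [ValuationSubring.mem_comap]
  show fullToLegE K N f ∈ W ↔ _
  rw [fullToLegE_eq_legIncl, ← ValuationSubring.mem_comap, hW,
    hostImageEquiv_mem_hostImageVal_iff]

/-- `A ∘ A` on the level fields and on the hosts. -/
theorem fullToLegE_keyFqA_keyFqA (w : ↥(keyFq K M)) :
    fullToLegE K (M * q * q) (keyFqA K (M * q) q (keyFqA K M q w)) =
      legSqA K M q (fullToLegE K M w) := by
  rw [xport_fullToLegE_keyFqA, xport_fullToLegE_keyFqA]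
  rfl

/-- `B ∘ B` on the level fields and on the hosts. -/
theorem fullToLegE_keyFqB_keyFqB (hq : q.Prime) (hq2 : q ≠ 2) (w : ↥(keyFq K M)) :
    fullToLegE K (M * q * q) (keyFqB K (M * q) q (keyFqB K M q w)) =
      legSqB K M q hq hq2 (fullToLegE K M w) := by
  rw [xport_fullToLegE_keyFqB K hq hq2, xport_fullToLegE_keyFqB K hq hq2]
  rfl

set_option maxHeartbeats 1600000 in
/-- **the residues along the three sheets, as functions of `F_M(K)`.** -/
theorem legRes3_of_model (hπ : Irreducible π) (h2 : IsUnit (2 : R))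
    (h : (q : ℤ) * x + M * y = 1) (hq : q.Prime) (hq2 : q ≠ 2)
    (hqπ : (q : R) ∈ Ideal.span {π})
    (φ : R →+* R') [IsLocalHom φ] (κ : K →+* K')
    (hκ : ∀ r : R, κ (algebraMap R K r) = algebraMap R' K' (φ r))
    (ζ u : R'ˣ) (hζq : ζ ^ q = 1) (hζ1 : ζ ≠ 1)
    (hπζ : φ π = ((ζ : R') - 1) ^ (q - 1) * u)
    (W11 W02 : ValuationSubring ↥(legE K (M * q * q)))
    (h11 : W11.comap (Fermat.Agent.S36.legIncl K (M * q * q)) =
      hostImageVal K 2 (keyFqW11 R K h hq φ κ hκ ζ hζq hζ1))
    (h02 : W02.comap (Fermat.Agent.S36.legIncl K (M * q * q)) =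
      hostImageVal K 2 (keyFqW02 R K h hq))
    (g : ↥(keyFq K (M * q * q)))
    (hg20 : fullToLegE K (M * q * q) g ∈ legWinf R K h2 (M * q * q))
    (hg11 : fullToLegE K (M * q * q) g ∈ W11) (hg02 : fullToLegE K (M * q * q) g ∈ W02) :
    ∃ w20 w11 w02 : ↥(keyFq K M),
      (legWinf R K h2 (M * q * q)).valuation
        (fullToLegE K (M * q * q) g -
          (legSqA K M q : ↥(legE K M) →+* ↥(legE K (M * q * q))) (fullToLegE K M w20)) < 1 ∧
      W11.valuation
        (fullToLegE K (M * q * q) g -
          (legSqA K M q : ↥(legE K M) →+* ↥(legE K (M * q * q))) (fullToLegE K M w11)) < 1 ∧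
      W02.valuation
        (fullToLegE K (M * q * q) g -
          (legSqB K M q hq hq2 : ↥(legE K M) →+* ↥(legE K (M * q * q)))
            (fullToLegE K M w02)) < 1 := by
  have hqM : ¬ q ∣ M := model36_not_dvd_of_bezout h hq
  obtain ⟨r20, r11A, -, r02⟩ :=
    keyFq_three_sheet_res R K h hq φ κ hκ ζ hζq hζ1 hπ hqπ u hπζ
  have rinf := keyFq_res_inf (R := R) (K := K) (algebraMap K ℂ) h hq hqM hπ hqπ
  have rzero := keyFq_res_zero (R := R) (K := K) (algebraMap K ℂ) h hq hqM hπ hqπ
  have c20 := xport_legWinf_comap R K h2 (M * q * q)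
  have c11 := comap_fullToLegE_of_comap_legIncl K (M * q * q) W11 _ h11
  have c02 := comap_fullToLegE_of_comap_legIncl K (M * q * q) W02 _ h02
  have R20 := res_comp (keyFqWinf_comap_keyFqA R K (M := M) (q := q)) r20 rinf
  have R11 := res_comp (keyFqW11_comap_keyFqA R K h hq φ κ hκ ζ hζq hζ1) r11A rinf
  have R02 := res_comp (keyFqW02_comap_keyFqB R K h hq) r02 rzero
  have m20 : g ∈ keyFqWinf R K (M * q * q) := by
    rw [← c20, ValuationSubring.mem_comap]; exact hg20
  have m11 : g ∈ keyFqW11 R K h hq φ κ hκ ζ hζq hζ1 := by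
    rw [← c11, ValuationSubring.mem_comap]; exact hg11
  have m02 : g ∈ keyFqW02 R K h hq := by
    rw [← c02, ValuationSubring.mem_comap]; exact hg02
  obtain ⟨w20, -, hw20⟩ := R20 g m20
  obtain ⟨w11, -, hw11⟩ := R11 g m11
  obtain ⟨w02, -, hw02⟩ := R02 g m02
  refine ⟨w20, w11, w02, ?_, ?_, ?_⟩
  · have h1 := (comap_val_lt_one_iff
      (fullToLegE K (M * q * q) : ↥(keyFq K (M * q * q)) →+* ↥(legE K (M * q * q))) c20 _).mpr hw20
    have e : (fullToLegE K (M * q * q) : ↥(keyFq K (M * q * q)) →+* ↥(legE K (M * q * q)))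
        (g - keyFqA K (M * q) q (keyFqA K M q w20)) =
        fullToLegE K (M * q * q) g -
          (legSqA K M q : ↥(legE K M) →+* ↥(legE K (M * q * q))) (fullToLegE K M w20) := by
      show fullToLegE K (M * q * q) (g - keyFqA K (M * q) q (keyFqA K M q w20)) = _
      rw [map_sub, fullToLegE_keyFqA_keyFqA]
      rfl
    exact lt_of_eq_of_lt (congrArg _ e.symm) h1
  · have h1 := (comap_val_lt_one_iff
      (fullToLegE K (M * q * q) : ↥(keyFq K (M * q * q)) →+* ↥(legE K (M * q * q))) c11 _).mpr hw11
    have e : (fullToLegE K (M * q * q) : ↥(keyFq K (M * q * q)) →+* ↥(legE K (M * q * q)))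
        (g - keyFqA K (M * q) q (keyFqA K M q w11)) =
        fullToLegE K (M * q * q) g -
          (legSqA K M q : ↥(legE K M) →+* ↥(legE K (M * q * q))) (fullToLegE K M w11) := by
      show fullToLegE K (M * q * q) (g - keyFqA K (M * q) q (keyFqA K M q w11)) = _
      rw [map_sub, fullToLegE_keyFqA_keyFqA]
      rfl
    exact lt_of_eq_of_lt (congrArg _ e.symm) h1
  · have h1 := (comap_val_lt_one_iff
      (fullToLegE K (M * q * q) : ↥(keyFq K (M * q * q)) →+* ↥(legE K (M * q * q))) c02 _).mpr hw02
    have e : (fullToLegE K (M * q * q) : ↥(keyFq K (M * q * q)) →+* ↥(legE K (M * q * q)))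
        (g - keyFqB K (M * q) q (keyFqB K M q w02)) =
        fullToLegE K (M * q * q) g -
          (legSqB K M q hq hq2 : ↥(legE K M) →+* ↥(legE K (M * q * q)))
            (fullToLegE K M w02) := by
      show fullToLegE K (M * q * q) (g - keyFqB K (M * q) q (keyFqB K M q w02)) = _
      rw [map_sub, fullToLegE_keyFqB_keyFqB K hq hq2]
      rfl
    exact lt_of_eq_of_lt (congrArg _ e.symm) h1

end Leg

end

end Fermat.Agent.ML
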