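/-
ML — helper3 — **[MSQ] leaf (a): [BASE-q²]** — over the unramified small base `K'`, a constant
multiple of `f₀ h ^ p` is toric along the three sheets of the Legendre host of level `M q q`, or the
eigensystem occurs residually at level `M q` (three-sheet analogue of helper6's
`ML.legMazBaseQE_of`; no Atkin–Lehner transform).

Steps: orders along the three sheets (`legOrders3`), [DELTA-q²] (`legDelta3_base`), [NORM-q²]
(`legNorm3_of_models`), residues as functions of `F_M(K')` (`legRes3_of_model`), [ORD-q²]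
(`legOrd3_of_model`), reduced Hecke congruences (`legRedHecke3_base`), the alternative at the good
level (`legHalf_good_level` ⇐ helper6's `LegRoldQE`), `legW0_indep`, `IsThreeSheet.only_A_*`.
-/
import Mathlib
import Fermat.Agent.ML.MSQ_helper3_BaseHecke
import Fermat.Agent.ML.MSQ_helper3_HalfM
import Fermat.Agent.ML.MSQ_helper3_Res3
import Fermat.Agent.ML.MSQ_helper3_OrdLeg
import Fermat.Agent.ML.MSQ_helper3_NormLeg
import Fermat.Agent.ML.OLDUP_helper3_ResOccurs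
import Fermat.Agent.MP.ORD_helper1_Rat
import Fermat.Agent.NP.BASEP_helper2_OldDesc

set_option autoImplicit false
set_option linter.unusedSectionVars false
set_option linter.unusedVariables false
set_option linter.style.haveILetI false
set_option synthInstance.maxHeartbeats 400000

open HahnSeries IntermediateField AlgebraicCurve ModularCurve IsLocalRing

namespace Fermat.Agent.ML

open Fermat.Agent.JA Fermat.Agent.FF Fermat.Agent.SS Fermat.Agent.S35 Fermat.Agent.S36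
  Fermat.Agent.MP Fermat.Agent.NP Fermat.Agent.GR Fermat.Agent.FG Fermat.Agent.X0N
  Fermat.Agent.Igusa Fermat.Agent.RB

open scoped Fermat.Agent.JA.Host

/-- `Ω = AlgebraicClosure ℚ`. -/
local notation "Ω" => AlgebraicClosure ℚ

section Abs

variable {F₀ F₁ F₂ : Type*} [Field F₀] [Field F₁] [Field F₂]

/-- comap along a composite. -/
theorem comap_eq_of_comp (a₁ : F₀ →+* F₁) (a₂ : F₁ →+* F₂) (φ : F₀ →+* F₂)
    (hφ : ∀ z, φ z = a₂ (a₁ z)) {V₂ : ValuationSubring F₂} {V₁ : ValuationSubring F₁}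
    {V₀ : ValuationSubring F₀} (h₂ : V₂.comap a₂ = V₁) (h₁ : V₁.comap a₁ = V₀) :
    V₂.comap φ = V₀ := by
  ext z
  rw [ValuationSubring.mem_comap, hφ, ← ValuationSubring.mem_comap, h₂,
    ← ValuationSubring.mem_comap, h₁]

/-- a congruence to a `P`-image of a function congruent to a `p`-th power. -/
theorem toric_of_comap (P : F₀ →+* F₂) {W : ValuationSubring F₂} {V : ValuationSubring F₀}
    (hc : W.comap P = V) {G : F₂} {x b : F₀} {p : ℕ} (hl : W.valuation (G - P x) < 1)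
    (hb1 : V.valuation b = 1) (hbv : V.valuation (x - b ^ p) < 1) :
    ∃ l : F₂, W.valuation l = 1 ∧ W.valuation (G - l ^ p) < 1 := by
  refine ⟨P b, (kp_comap_val_eq_one_iff W P hc b).mpr hb1, ?_⟩
  have h1 := (comap_val_lt_one_iff P hc (x - b ^ p)).mpr hbv
  rw [map_sub, map_pow] at h1
  exact kp_val_sub_lt_trans W hl h1

end Abs

section Main

set_option maxHeartbeats 12800000 in
/-- **[BASE-q²]**: over the small base, a constant multiple of `f₀ h ^ p` is toric along the three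
sheets, or the eigensystem occurs residually at level `M q`. -/
theorem legMazSqBase (HR : LegRoldQE) (M q p : ℕ) [NeZero M] [NeZero q] [NeZero (M * q)]
    [NeZero (M * q * q)] (hq : q.Prime) (hq2 : q ≠ 2) (hp : p.Prime) (hp2 : p ≠ 2) (hqp : q ≠ p)
    (hqM : ¬ q ∣ M) (h3 : EvenAtThree p M) (A : ValuationSubring Ω) (hA : A.LiesOverPrime q)
    (K₁ : IntermediateField ℚ Ω) [Normal ℚ ↥K₁] (K' : IntermediateField ℚ Ω) (S : Set ℕ)
    (a : ℕ → ℤ) (f₀ : ↥(keyFq ↥K' (M * q * q)))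
    (H : LegMazHyp q p (M * q) A K₁ K' S a f₀) :
    (∃ (c : ↥K') (h : ↥(keyFq ↥K' (M * q * q))), c ≠ 0 ∧ h ≠ 0 ∧
      LegToric3At M q p A K'
        (fullToLegE ↥K' (M * q * q)
          (algebraMap ↥K' ↥(keyFq ↥K' (M * q * q)) c * f₀ * h ^ p))) ∨
    ResOccurs (M * q) p S a := by
  classical
  haveI : Fact q.Prime := ⟨hq⟩
  haveI : IsDiscreteValuationRing ↥(baseRing A K') := H.base.isDiscreteValuationRing hA
  haveI : CharZero ↥(baseRing A K') := charZero_valuationSubring_of_algebraRat _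
  haveI : IsAlgClosed (ResidueField ↥(baseRing A K')) := H.base.isAlgClosed_residueField hA
  have h2 : IsUnit (2 : ↥(baseRing A K')) := isUnit_ofNat_baseRing hA K' Nat.prime_two hq2
  letI := baseToComplex K'
  obtain ⟨x₀, y₀, hbez₀⟩ := exists_bezout_of_prime_of_not_dvd hq hqM
  have hirr : Irreducible ((q : ℕ) : ↥(baseRing A K')) := H.unram
  have hqπ : ((q : ℕ) : ↥(baseRing A K')) ∈
      Ideal.span {((q : ℕ) : ↥(baseRing A K'))} := Ideal.mem_span_singleton_self _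
  have hgeo := geoHyps_legE_baseRing hA M hqM H.base hq2 hirr
  have h₁ : SSModelLeg ↥(baseRing A K') ↥K' (M := M) (q := q) ((q : ℕ) : ↥(baseRing A K')) h2
      hbez₀ hq hq2 := ssModelLeg ↥(baseRing A K') ↥K' hirr h2 hbez₀ hq hq2 hqπ hgeo
  haveI : FiniteDimensional ↥(↥K')⟮jqNModC ↥K' 2⟯ ↥(legE ↥K' (M * q)) :=
    finite_legE_adjoin_j ↥K' (M * q)
  have h₁' := SSModelLeg.ssModel ↥(baseRing A K') ↥K' h₁
  -- the cyclotomic enlargement and the three sheets
  obtain ⟨K'', hle, hK'', ζ, u, hζq, hζ1, hu⟩ := exists_cyclo_datum (A := A) H.base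
  haveI : IsDiscreteValuationRing ↥(baseRing A K'') := hK''.isDiscreteValuationRing hA
  obtain ⟨W11, W02, h11, h02, hdvr, hT, hfam⟩ :=
    exists_legE_threeSheet ↥(baseRing A K') ↥K' (M := M) hirr h2 hbez₀ hq hq2 hqπ hgeo
      (Fermat.Agent.JA.baseRingIncl A hle)
      ((IntermediateField.inclusion hle : ↥K' →ₐ[ℚ] ↥K'') : ↥K' →+* ↥K'')
      (inclusion_algebraMap_baseRing hle) ζ hζq hζ1 u hu
  -- the orders of `f₀` along the three sheets
  have hF : fullToLegE ↥K' (M * q * q) f₀ ≠ 0 :=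
    (_root_.map_ne_zero (fullToLegE ↥K' (M * q * q))).mpr H.ne_zero
  obtain ⟨n20, n11, n02, hf20, hf11, hf02⟩ :=
    legOrders3 ↥(baseRing A K') ↥K' h₁ hirr hT hfam hF
  -- [DELTA-q²]
  obtain ⟨ℓ₀, hℓ₀, hℓ₀S, hnE⟩ := H.nonEis
  obtain ⟨hd1, hd2⟩ := legDelta3_base M q p hA hq hq2 hqM hp K' H.base hirr h2 hbez₀ S a H.bad
    H.twoS f₀ H.ne_zero H.hecke ℓ₀ hℓ₀ hℓ₀S hnE h₁ hT hfam hf20 hf11 hf02
  -- [NORM-q²]
  obtain ⟨c, h, hc, hh, hG20, hG11, hG02⟩ :=
    legNorm3_of_models ↥(baseRing A K') ↥K' h₁ hirr (e := 1) (u := 1) le_rfl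
      (by rw [Units.val_one, one_mul, pow_one]) hT hfam H.ne_zero hf20 hf11 hf02 hd1 hd2
  obtain ⟨g, hgdef⟩ : ∃ g : ↥(keyFq ↥K' (M * q * q)),
      g = algebraMap ↥K' ↥(keyFq ↥K' (M * q * q)) c * f₀ * h ^ p := ⟨_, rfl⟩
  rw [← hgdef] at hG20 hG11 hG02
  have Hg : HeckeRelK ↥K' (M * q * q) p S a g := by
    rw [hgdef]
    exact HeckeRelK.const_mul_mul_pow H.hecke H.ne_zero hc hh
  have hg0 : g ≠ 0 := by
    rw [hgdef]
    exact mul_ne_zero (mul_ne_zero ((_root_.map_ne_zero _).mpr hc) H.ne_zero) (pow_ne_zero _ hh)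
  have hG0 : fullToLegE ↥K' (M * q * q) g ≠ 0 :=
    (_root_.map_ne_zero (fullToLegE ↥K' (M * q * q))).mpr hg0
  -- the orders of `g` on the host are divisible by `p`
  have hdivg : ∀ v : Place Ω ↥(modularFunctionFieldBar (M * q * q)),
      (p : ℤ) ∣ v.ord (keyFqBC (M * q * q) K' g) := by
    intro v
    have hcΩ : algebraMap Ω ↥(modularFunctionFieldBar (M * q * q)) (algebraMap ↥K' Ω c) ≠ 0 :=
      (_root_.map_ne_zero _).mpr ((_root_.map_ne_zero _).mpr hc)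
    have hfΩ : keyFqBC (M * q * q) K' f₀ ≠ 0 := (_root_.map_ne_zero _).mpr H.ne_zero
    have hhΩ : keyFqBC (M * q * q) K' h ≠ 0 := (_root_.map_ne_zero _).mpr hh
    have e : keyFqBC (M * q * q) K' g =
        algebraMap Ω ↥(modularFunctionFieldBar (M * q * q)) (algebraMap ↥K' Ω c) *
          keyFqBC (M * q * q) K' f₀ * keyFqBC (M * q * q) K' h ^ p := by
      rw [hgdef, map_mul, map_mul, map_pow, keyFqBC_algebraMap]
    rw [e, v.ord_mul (mul_ne_zero hcΩ hfΩ) (pow_ne_zero _ hhΩ), v.ord_mul hcΩ hfΩ,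
      PlaceAux.ord_algebraMap, zero_add, PlaceAux.ord_pow]
    exact dvd_add (H.ordΩ v) (dvd_mul_right _ _)
  have hordG : ∀ P : Place ↥K' ↥(legE ↥K' (M * q * q)),
      (p : ℤ) ∣ P.ord (fullToLegE ↥K' (M * q * q) g) :=
    fun P => dvd_ord_fullToLegE_of_keyFqBC (M * q * q) K' g hdivg P
  -- the residues
  obtain ⟨w20, w11, w02, hl20, hl11, hl02⟩ :=
    legRes3_of_model ↥(baseRing A K') ↥K' hirr h2 hbez₀ hq hq2 hqπ
      (Fermat.Agent.JA.baseRingIncl A hle)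
      ((IntermediateField.inclusion hle : ↥K' →ₐ[ℚ] ↥K'') : ↥K' →+* ↥K'')
      (inclusion_algebraMap_baseRing hle) ζ u hζq hζ1 hu W11 W02 h11 h02 g
      (kp_mem_of_val_eq_one _ hG20) (kp_mem_of_val_eq_one _ hG11) (kp_mem_of_val_eq_one _ hG02)
  -- [ORD-q²]
  obtain ⟨O20, O11, O02⟩ :=
    legOrd3_of_model ↥(baseRing A K') ↥K' hirr h2 hbez₀ hq hq2 hqπ hgeo
      (Fermat.Agent.JA.baseRingIncl A hle)
      ((IntermediateField.inclusion hle : ↥K' →ₐ[ℚ] ↥K'') : ↥K' →+* ↥K'')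
      (inclusion_algebraMap_baseRing hle) ζ u hζq hζ1 hu W11 W02 h11 h02
      (legRhoBase hA M hq2 K' h2)
      (fun z hz => (legRhoBase_eq_zero_iff hA M hq2 K' h2 z).mpr hz)
      ((baseResidueMap A K').comp (residue ↥(baseRing A K')))
      (legBaseRes_surjective hA K' H.base)
      (fun r hr => legRhoBase_algebraMap hA M hq2 K' h2 r hr)
      (legEtRationalP M q hq2 hqM A hA) hp.ne_zero hG0 hordG hG20 hG11 hG02
  -- the comaps of the three parametrisations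
  have c20 : (legWinf ↥(baseRing A K') ↥K' h2 (M * q * q)).comap
      (legSqA ↥K' M q : ↥(legE ↥K' M) →+* ↥(legE ↥K' (M * q * q))) =
      legWinf ↥(baseRing A K') ↥K' h2 M :=
    legWinf_comap_of_coe_eq ↥(baseRing A K') ↥K' h2 _ (coe_legSqA ↥K' M q)
  have c11 : W11.comap (legSqA ↥K' M q : ↥(legE ↥K' M) →+* ↥(legE ↥K' (M * q * q))) =
      legWinf ↥(baseRing A K') ↥K' h2 M :=
    comap_eq_of_comp _ _ _ (fun z => rfl) hT.comap_A_11 h₁'.comap_A_inf
  have c02 : W02.comap (legSqB ↥K' M q hq hq2 : ↥(legE ↥K' M) →+* ↥(legE ↥K' (M * q * q))) =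
      legWinf ↥(baseRing A K') ↥K' h2 M :=
    comap_eq_of_comp _ _ _ (fun z => rfl) hT.comap_B_02 h₁'.comap_B_zero
  -- bookkeeping on `S`
  have hbadM : ∀ ℓ : ℕ, ℓ.Prime → ℓ ∣ M → ℓ ∈ S := fun ℓ hℓ hd =>
    H.bad ℓ hℓ (dvd_mul_of_dvd_left (dvd_mul_of_dvd_left hd q) q)
  have hqS : q ∈ S := H.bad q hq (dvd_mul_left q (M * q))
  have up : ResOccurs M p S a → ResOccurs (M * q) p S a := fun hres =>
    resOccurs_of_dvd (NeZero.ne (M * q)) (dvd_mul_right M q)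
      (fun ℓ hℓ hd => H.bad ℓ hℓ (dvd_mul_of_dvd_left hd q)) hres
  -- the sheet `W20`
  have hWv20 : (legWinf ↥(baseRing A K') ↥K' h2 M).valuation (fullToLegE ↥K' M w20) = 1 :=
    (kp_comap_val_eq_one_iff _ _ c20 _).mp (kp_val_eq_one_of_sub_lt _ hG20 hl20)
  have hWm20 := kp_mem_of_val_eq_one _ hWv20
  rcases legHalf_good_level HR M q hq2 hqM p hp hp2 (Ne.symm hqp) h3 A hA K' H.base S a hbadM hqS
    H.pS H.twoS h2 w20 hWv20 hWm20 (O20 _ hWm20 hl20)
    (fun ℓ hℓ hℓ2 hℓS => by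
      haveI : NeZero ℓ := ⟨hℓ.ne_zero⟩
      haveI : NeZero (M * ℓ) := ⟨Nat.mul_ne_zero (NeZero.ne M) hℓ.ne_zero⟩
      exact ((legRedHecke3_base M q p hA hq hq2 hqM hp.ne_zero K' H.base hirr h2 hbez₀ S a H.bad
        g Hg ℓ hℓ hℓ2 hℓS h₁ hT hfam hG20 hG11 hG02).1 _ hl20).2) with ⟨b20, hb20, hbv20⟩ | hres
  swap
  · exact Or.inr (up hres)
  -- the sheet `W11`
  have hWv11 : (legWinf ↥(baseRing A K') ↥K' h2 M).valuation (fullToLegE ↥K' M w11) = 1 :=
    (kp_comap_val_eq_one_iff _ _ c11 _).mp (kp_val_eq_one_of_sub_lt _ hG11 hl11)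
  have hWm11 := kp_mem_of_val_eq_one _ hWv11
  rcases legHalf_good_level HR M q hq2 hqM p hp hp2 (Ne.symm hqp) h3 A hA K' H.base S a hbadM hqS
    H.pS H.twoS h2 w11 hWv11 hWm11 (O11 _ hWm11 hl11)
    (fun ℓ hℓ hℓ2 hℓS => by
      haveI : NeZero ℓ := ⟨hℓ.ne_zero⟩
      haveI : NeZero (M * ℓ) := ⟨Nat.mul_ne_zero (NeZero.ne M) hℓ.ne_zero⟩
      exact ((legRedHecke3_base M q p hA hq hq2 hqM hp.ne_zero K' H.base hirr h2 hbez₀ S a H.bad
        g Hg ℓ hℓ hℓ2 hℓS h₁ hT hfam hG20 hG11 hG02).2.1 _ hl11).2) with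
    ⟨b11, hb11, hbv11⟩ | hres
  swap
  · exact Or.inr (up hres)
  -- the sheet `W02`
  have hWv02 : (legWinf ↥(baseRing A K') ↥K' h2 M).valuation (fullToLegE ↥K' M w02) = 1 :=
    (kp_comap_val_eq_one_iff _ _ c02 _).mp (kp_val_eq_one_of_sub_lt _ hG02 hl02)
  have hWm02 := kp_mem_of_val_eq_one _ hWv02
  rcases legHalf_good_level HR M q hq2 hqM p hp hp2 (Ne.symm hqp) h3 A hA K' H.base S a hbadM hqS
    H.pS H.twoS h2 w02 hWv02 hWm02 (O02 _ hWm02 hl02)
    (fun ℓ hℓ hℓ2 hℓS => by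
      haveI : NeZero ℓ := ⟨hℓ.ne_zero⟩
      haveI : NeZero (M * ℓ) := ⟨Nat.mul_ne_zero (NeZero.ne M) hℓ.ne_zero⟩
      exact ((legRedHecke3_base M q p hA hq hq2 hqM hp.ne_zero K' H.base hirr h2 hbez₀ S a H.bad
        g Hg ℓ hℓ hℓ2 hℓS h₁ hT hfam hG20 hG11 hG02).2.2 _ hl02).2) with
    ⟨b02, hb02, hbv02⟩ | hres
  swap
  · exact Or.inr (up hres)
  -- toric along the three sheets
  left
  refine ⟨c, h, hc, hh, ?_⟩
  rw [← hgdef]
  intro _ _ h2' x y hbez hq' W hW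
  have hW0eq : legW0 ↥(baseRing A K') ↥K' hbez hq' = legW0 ↥(baseRing A K') ↥K' hbez₀ hq :=
    legW0_indep ↥(baseRing A K') ↥K' hirr h2 hbez hbez₀ hq hq2 hqπ hgeo
  rcases hW with hW | hW
  · rcases hT.only_A_inf W hW with rfl | rfl
    · exact toric_of_comap _ c20 hl20 hb20 hbv20
    · exact toric_of_comap _ c11 hl11 hb11 hbv11
  · rw [hW0eq] at hW
    have hW' := hT.only_A_zero W hW
    subst hW'
    exact toric_of_comap _ c02 hl02 hb02 hbv02

end Main

end Fermat.Agent.ML
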