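/-
ML — helper3 — [MSQ] **[DESC-q²]: the descent package at level `M q q`.**

`x ∈ J₀(M q q)[p]` fixed by the inertia group `I_A` of a place `A ∣ q`, Hecke eigenclass.  Port of the
first half of helper6's `RB.mazDescQ_of` (no Atkin–Lehner transform, no hypothesis `q ∤ level`): the
invariant pair `(D, f)` of `x`, a Galois base `K₁`, the small unramified base `K' = Fix_{K₁}(I_A)`,
`f` defined over `K'`, the Hecke relations over `K'`; packaged as `RB.LegMazHyp q p (M * q)`.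
-/
import Mathlib
import Fermat.Agent.RB.MAZ_helper6_DescQ

set_option autoImplicit false
set_option linter.unusedSectionVars false
set_option linter.unusedVariables false
set_option linter.style.haveILetI false
set_option synthInstance.maxHeartbeats 400000

open HahnSeries IntermediateField AlgebraicCurve ModularCurve IsLocalRing

namespace Fermat.Agent.ML

open Fermat.Agent.JA Fermat.Agent.FF Fermat.Agent.SS Fermat.Agent.X0N Fermat.Agent.S35
  Fermat.Agent.S36 Fermat.Agent.NP Fermat.Agent.MP Fermat.Agent.RB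

/-- `Ω = AlgebraicClosure ℚ`. -/
local notation "Ω" => AlgebraicClosure ℚ

/-- the absolute Galois group. -/
local notation "GQ" => (AlgebraicClosure ℚ ≃ₐ[ℚ] AlgebraicClosure ℚ)

set_option maxHeartbeats 6400000 in
/-- **[DESC-q²]**: the descent package of an `I_A`-fixed Hecke eigenclass of `J₀(N q)[p]`
(`N` arbitrary, in particular `N = M q`). -/
theorem mazDescSq (N q p : ℕ) [NeZero N] [NeZero q] [NeZero (N * q)] (hq : q.Prime)
    (hp : p.Prime) (A : ValuationSubring Ω) (hA : A.LiesOverPrime q)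
    (S : Set ℕ) (a : ℕ → ℤ) (hS : ∀ ℓ : ℕ, ℓ.Prime → ℓ ∣ N * q → ℓ ∈ S) (hpS : p ∈ S)
    (h2S : 2 ∈ S)
    (hnE : ∃ ℓ : ℕ, ℓ.Prime ∧ ℓ ∉ S ∧ ¬ (a ℓ ≡ (ℓ : ℤ) + 1 [ZMOD (p : ℤ)]))
    (x : JZero (N * q)) (hpx : p • x = 0)
    (hT : ∀ (ℓ : ℕ) (hℓ : ℓ.Prime), ℓ ∉ S → heckeOperatorBar (N * q) ⟨ℓ, hℓ⟩ x = a ℓ • x)
    (hI : ∀ τ ∈ A.inertiaSubgroupIn ℚ, τ • x = x) :
    ∃ (D : Divisor.degZero (K := Ω) (F := ↥(modularFunctionFieldBar (N * q))))
      (f : ↥(modularFunctionFieldBar (N * q))), f ≠ 0 ∧ Pic0.mk D = x ∧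
      (∀ v : Place Ω ↥(modularFunctionFieldBar (N * q)),
        v.ord f = (p : ℤ) * (D : Divisor Ω ↥(modularFunctionFieldBar (N * q))) v) ∧
      ∃ (K₁ : IntermediateField ℚ Ω) (_ : Normal ℚ ↥K₁) (K' : IntermediateField ℚ Ω)
        (f₀ : ↥(keyFq ↥K' (N * q))), keyFqBC (N * q) K' f₀ = f ∧
        LegMazHyp q p N A K₁ K' S a f₀ := by
  classical
  haveI : Fact q.Prime := ⟨hq⟩
  -- the invariant pair
  obtain ⟨D, f, hf, hDx, hfD, hlc, -, hfinv⟩ := exists_invariant_pair (N * q) p x hpx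
    {σ : GQ | σ • x = x} (fun σ hσ => hσ)
  have hdiv : ∀ v : Place Ω ↥(modularFunctionFieldBar (N * q)), ((p : ℕ) : ℤ) ∣ v.ord f :=
    fun v => ⟨_, hfD v⟩
  -- the divisor of `f` on the host over `Ω`
  haveI : HasPrincipalDivisors Ω ↥(legE Ω (N * q)) := up_hasPrincipalDivisors_legE (N * q)
  have hfE : fullToLegE Ω (N * q) f ≠ 0 := (_root_.map_ne_zero _).2 hf
  obtain ⟨DE, hDE, -⟩ := HasPrincipalDivisors.exists_divisor (K := Ω) (fullToLegE Ω (N * q) f) hfE
  -- the Galois base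
  obtain ⟨K₁, hK₁, -, -, hdesc, hrat⟩ :=
    (isBase_flatBase (ℓ := q)).exists_ge_isGalBase_legE (N * q) (∅ : Finset Ω)
      (f := fun _ : Unit => ((f : ↥(modularFunctionFieldBar (N * q))) : LaurentSeries Ω))
      (fun _ => f.2) DE.support
  haveI := hK₁.normal
  obtain ⟨f₁, hf₁mem, hf₁⟩ := hdesc ()
  set F₁ : ↥(keyFq ↥K₁ (N * q)) := ⟨f₁, hf₁mem⟩ with hF₁def
  have hBC1 : keyFqBC (N * q) K₁ F₁ = f := Subtype.ext hf₁
  -- rationality of the support over `K₁`
  have hord₁ : LegOrdCond K₁ (N * q) p (fullToLegE ↥K₁ (N * q) F₁) := by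
    intro P
    have hg₁BC : legBC (N * q) K₁ (fullToLegE ↥K₁ (N * q) F₁) =
        algebraMap Ω ↥(legE Ω (N * q)) 1 * fullToLegE Ω (N * q) f := by
      rw [bcdeg_legBC_fullToLegE, hBC1, map_one, one_mul]
    have h1 := ord_descended_leg (N * q) f hdiv DE hDE K₁
      (fun P hP => hrat P hP) (fullToLegE ↥K₁ (N * q) F₁) 1
      one_ne_zero hg₁BC P
    by_cases h0 : P.ord (fullToLegE ↥K₁ (N * q) F₁) = 0
    · exact Or.inl h0
    · exact Or.inr ⟨h1.2 h0, h1.1⟩
  -- the small base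
  set H : Subgroup GQ := A.inertiaSubgroupIn ℚ with hHdef
  have hHflat : ∀ τ ∈ H, ∀ b ∈ flatBase q, τ b = b :=
    fun τ hτ b hb => inertia_apply_of_mem_flatBase hA hτ hb
  set K' : IntermediateField ℚ Ω := fixIn K₁ H with hK'def
  have hK' : IsBase q K' := isBase_fixIn hA le_rfl hK₁.isBase
  have hunram : Irreducible ((q : ℕ) : ↥(baseRing A K')) :=
    irreducible_natCast_baseRing_of_fixed hA hK'
      (fun z hz τ hτ => apply_eq_of_mem_fixIn hτ hz)
  -- `f` over the small base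
  obtain ⟨F', hF'⟩ := exists_keyFq_descent_fixIn q (N * q) hK₁.flatBase_le hHflat F₁
    (fun τ hτ => by
      rw [hBC1]
      exact hfinv τ (hI τ hτ))
  rw [hBC1] at hF'
  have hF'0 : F' ≠ 0 := by
    intro h0
    apply hf
    rw [← hF', h0, map_zero]
  have hheck : HeckeRelK ↥K' (N * q) p S a F' :=
    heckeRelK_of_bcQ (N * q) K' F' hF' hp.pos S a D hf hfD (fun ℓ hℓ hℓS => by
      rw [hDx]; exact hT ℓ hℓ hℓS)
  refine ⟨D, f, hf, hDx, hfD, K₁, hK₁.normal, K', F', hF', ?_⟩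
  exact
    { galBase := hK₁
      base := hK'
      le := fixIn_le K₁ H
      h1 := mem_iff_map_mem_of_fixing_fixIn hA le_rfl hK₁.isBase
      unram := hunram
      bad := hS
      pS := hpS
      twoS := h2S
      nonEis := hnE
      ne_zero := hF'0
      ordΩ := fun v => by rw [hF']; exact hdiv v
      rat := ⟨F₁, by rw [hBC1, hF'], hord₁⟩
      hecke := hheck }

end Fermat.Agent.ML
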