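/-
ML — helper3 — **[MSQ] leaf (a): toric-ness along the three sheets goes up along an extension of
bases** (the three-sheet analogue of helper6's `RB.LegToricAt.of_le`).

A valuation subring `W` of the host of level `M q q` over the bigger base lying over one of the two
sheets of level `M q` restricts to a valuation subring of the host over the smaller base with the
same property (`MP.comap_legWinf`, `MP.comap_legW0`).
-/
import Mathlib
import Fermat.Agent.ML.IFACE_helper3_MSQE
import Fermat.Agent.RB.MAZ_helper6_Asm

set_option autoImplicit false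
set_option linter.unusedSectionVars false
set_option linter.unusedVariables false
set_option linter.style.haveILetI false
set_option synthInstance.maxHeartbeats 400000

open HahnSeries IntermediateField AlgebraicCurve ModularCurve IsLocalRing

namespace Fermat.Agent.ML

open Fermat.Agent.JA Fermat.Agent.FF Fermat.Agent.SS Fermat.Agent.S35 Fermat.Agent.MP
  Fermat.Agent.NP Fermat.Agent.GR Fermat.Agent.RB

/-- `Ω = AlgebraicClosure ℚ`. -/
local notation "Ω" => AlgebraicClosure ℚ

section Transport

variable {M q m : ℕ} [NeZero M] [NeZero q] [NeZero (M * q)] [NeZero (M * q * q)]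

/-- the degeneracy map `A` commutes with the extension of the base. -/
theorem legIncl_legHostA {K' K₂ : IntermediateField ℚ Ω} (hle : K' ≤ K₂) (N : ℕ) [NeZero N]
    [NeZero (N * q)] (z : ↥(legE ↥K' N)) :
    legIncl hle (N * q) (letI := baseToComplex K'; legHostA ↥K' N q z) =
      (letI := baseToComplex K₂; legHostA ↥K₂ N q (legIncl hle N z)) := by
  letI := baseToComplex K'
  letI := baseToComplex K₂
  apply Subtype.ext
  rw [coe_legIncl, coe_legHostA, coe_legHostA, coe_legIncl]

set_option maxHeartbeats 1600000 in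
/-- **toric-ness along the three sheets goes up along an extension of bases.** -/
theorem LegToric3At.of_le (hq0 : q.Prime) (hq2 : q ≠ 2) (hqM : ¬ q ∣ M) {A : ValuationSubring Ω}
    (hA : A.LiesOverPrime q) {K' K₂ : IntermediateField ℚ Ω} (hle : K' ≤ K₂)
    (hK' : IsBase q K') (hK₂ : IsBase q K₂) {g : ↥(legE ↥K' (M * q * q))}
    (h : LegToric3At M q m A K' g) : LegToric3At M q m A K₂ (legIncl hle (M * q * q) g) := by
  intro _ _ h2 x y hbez hq W hW
  haveI : Fact q.Prime := ⟨hq0⟩
  haveI : IsDiscreteValuationRing ↥(baseRing A K') := hK'.isDiscreteValuationRing hA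
  haveI : CharZero ↥(baseRing A K') := charZero_valuationSubring_of_algebraRat _
  have h2' : IsUnit (2 : ↥(baseRing A K')) := isUnit_ofNat_baseRing hA K' Nat.prime_two hq2
  have cinf := comap_legWinf hle A h2' h2 (M * q)
  have c0 := comap_legW0 hq hq2 hqM hA hle hK' hK₂ hbez
  have hcomp : (W.comap (legIncl hle (M * q * q))).comap
      (legHostA ↥K' (M * q) q : ↥(legE ↥K' (M * q)) →+* ↥(legE ↥K' (M * q * q))) =
      (W.comap (legHostA ↥K₂ (M * q) q : ↥(legE ↥K₂ (M * q)) →+* ↥(legE ↥K₂ (M * q * q)))).comap
        (legIncl hle (M * q)) := by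
    ext z
    simp only [ValuationSubring.mem_comap]
    rw [show (legIncl hle (M * q * q))
        ((legHostA ↥K' (M * q) q : ↥(legE ↥K' (M * q)) →+* ↥(legE ↥K' (M * q * q))) z) =
      (legHostA ↥K₂ (M * q) q : ↥(legE ↥K₂ (M * q)) →+* ↥(legE ↥K₂ (M * q * q)))
        (legIncl hle (M * q) z) from legIncl_legHostA hle (M * q) z]
  have hW' : (W.comap (legIncl hle (M * q * q))).comap
        (legHostA ↥K' (M * q) q : ↥(legE ↥K' (M * q)) →+* ↥(legE ↥K' (M * q * q))) =
        legWinf ↥(baseRing A K') ↥K' h2' (M * q) ∨
      (W.comap (legIncl hle (M * q * q))).comap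
        (legHostA ↥K' (M * q) q : ↥(legE ↥K' (M * q)) →+* ↥(legE ↥K' (M * q * q))) =
        (letI := baseToComplex K'; legW0 ↥(baseRing A K') ↥K' hbez hq) := by
    rcases hW with hW | hW
    · left; rw [hcomp, hW]; exact cinf
    · right; rw [hcomp, hW]; exact c0
  obtain ⟨l, hl1, hl2⟩ := h h2' x y hbez hq (W.comap (legIncl hle (M * q * q))) hW'
  refine ⟨legIncl hle (M * q * q) l, ?_, ?_⟩
  · exact (kp_comap_val_eq_one_iff W (legIncl hle (M * q * q)) rfl l).mpr hl1
  · have := (comap_val_lt_one_iff (legIncl hle (M * q * q)) (V := W) rfl (g - l ^ m)).mpr hl2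
    rwa [map_sub, map_pow] at this

end Transport

end Fermat.Agent.ML
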