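/-
ML — helper3 — **[MSQ] leaf (a), every odd `p`, unconditional**:
`keyMazSqToricStatementE : KeyMazSqToricStatementE` (an `I_A`-fixed Hecke eigenclass of
`J₀(M q q)[p]` with a non-Eisenstein eigensystem is toric along the three sheets over the
unramified bases, or the eigensystem occurs residually at level `M q`), from helper6's
`ML.legRoldQE`.
-/
import Mathlib
import Fermat.Agent.ML.MSQ_helper3_Asm
import Fermat.Agent.ML.ROLD_helper6_MainE

set_option autoImplicit false

namespace Fermat.Agent.ML

/-- **leaf (a) of (KEY-MAZ-SQ), every odd `p`.** -/
theorem keyMazSqToricStatementE : KeyMazSqToricStatementE :=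
  keyMazSqToricStatementE_of legRoldQE

end Fermat.Agent.ML
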