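/-
ML — helper3 — **[MSQ] end-game (3): the literal interfaces of the counting leaves**
(definitions only; nothing here is used by any closed statement).

Level `M q` (`q ∤ M`, `q ≥ 5`), the two-sheet Legendre host `legE K (M q)` over a base
`R ⊂ K` (in the applications `K = K₁` a base in the sense of `JA.IsBase q`, `R = baseRing A K₁`,
so the residue field of `R` is algebraically closed and `R` contains all roots of unity of order
prime to `q`), the chart `B = chartOne R (legE K (M q)) j` (integral closure of `R[j]`), its two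
sheets `legWinf`, `legW0` (`SS.SSModelLeg`), its **nodes** (`S35.IsNode`: the closed points lying on
both sheets).

* `legNodeTrace R K N 𝔫` : the trace of a closed point `𝔫` of the host chart on the level field
  `F_N = keyFq K N` (two nodes have the same trace iff they are conjugate under the deck group
  of the host over `F_N`; no group action has to be defined);
* `MassAt`, `MassStatement` : **[MASS]** — a set of nodes with pairwise distinct traces has at most
  `g(M q) - 2 g(M) + 1` elements (`g = genusFormula`).  Paper proof: finding 440 (a Riemann–Roch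
  count on the chart; no local structure of the nodes, no Igusa, no freeness of the deck group);
* `RankStatement` : **[RANK]** — the subgroup of `J₀(M q)[p ^ k]` killed by both degeneracy
  pushforwards has at least `p ^ (2 k (g(M q) - 2 g(M)))` elements;
* `IsLocalDatumAt`, `SheetRatioAt` : the vocabulary of the node datum ("the ratio of the local
  roots `w i / w j` at the closed point `𝔫` is the root of unity `ζ ∈ R`"), for an arbitrary family
  of sheets (two sheets at level `M q`, three sheets at level `M q q`); `S36.SheetDatumAt` is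
  "there is a local datum all of whose ratios are `1`".
-/
import Mathlib
import Fermat.Agent.RB.MSQ_helper4_Iface
import Fermat.Agent.SS.MODEL_helper7_Defs
import Fermat.Agent.S35.NODECOUNT_helper2_Main
import Fermat.Agent.S36.KUM36_helper3_Sheet

set_option autoImplicit false
set_option linter.unusedSectionVars false
set_option linter.unusedVariables false
set_option linter.style.haveILetI false
set_option synthInstance.maxHeartbeats 200000

open Polynomial ModularCurve IntermediateField AlgebraicCurve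

namespace Fermat.Agent.ML

open Fermat.Agent.JA Fermat.Agent.FF Fermat.Agent.SS Fermat.Agent.S35 Fermat.Agent.MP
  Fermat.Agent.NP Fermat.Agent.GR Fermat.Agent.RB Fermat.Agent.Igusa

open scoped Fermat.Agent.JA.Host

/-- `Ω = AlgebraicClosure ℚ`. -/
local notation "Ω" => AlgebraicClosure ℚ

noncomputable section

/-! ### [MASS] -/

section Mass

variable (R : Type*) [CommRing R] [IsDomain R] [IsDiscreteValuationRing R] [CharZero R]
  (K : Type*) [Field K] [Algebra R K] [IsFractionRing R K] [Algebra ℚ K] [Algebra K ℂ]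

/-- **the trace of a closed point of the host chart of level `N` on the level field** `F_N`:
the set of `f ∈ F_N = keyFq K N` whose image in the host lies in the chart and in `𝔫`. -/
def legNodeTrace (N : ℕ) [NeZero N]
    (𝔫 : Ideal ↥(chartOne R ↥(legE K N) (AdjoinSimple.gen K (jqNModC K 2)))) :
    Set ↥(keyFq K N) :=
  {f | ∃ h : fullToLegE K N f ∈ chartOne R ↥(legE K N) (AdjoinSimple.gen K (jqNModC K 2)),
    (⟨fullToLegE K N f, h⟩ : ↥(chartOne R ↥(legE K N) (AdjoinSimple.gen K (jqNModC K 2)))) ∈ 𝔫}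

variable {M q : ℕ} [NeZero M] [NeZero q] [NeZero (M * q)] {x y : ℤ}

/-- **[MASS] on one model**: a finite set of nodes of the two-sheet chart of level `M q` with
pairwise distinct traces on `F_{M q}` has at most `g(M q) - 2 g(M) + 1` elements. -/
def MassAt [DecidableEq R] (π : R) (h2 : IsUnit (2 : R)) (hbez : (q : ℤ) * x + M * y = 1)
    (hq : q.Prime) (hq2 : q ≠ 2) : Prop :=
  ∀ hmodel : SSModelLeg R K π h2 hbez hq hq2,
    haveI : FiniteDimensional ↥K⟮jqNModC K 2⟯ ↥(legE K (M * q)) := finite_legE_adjoin_j K (M * q)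
    ∀ s : Finset (Ideal ↥(chartOne R ↥(legE K (M * q)) (AdjoinSimple.gen K (jqNModC K 2)))),
      (∀ 𝔫 ∈ s, S35.IsNode (SSModel.two hmodel) 𝔫) →
      Set.InjOn (legNodeTrace R K (M * q)) (↑s : Set (Ideal _)) →
      (s.card : ℚ) + 2 * genusFormula M ≤ genusFormula (M * q) + 1

end Mass

/-- **[MASS], all levels** (`q ≥ 5`: the order of the deck group of the Legendre host is invertible
in the residue field), over every base `K₁` (`R₁ = A ∩ K₁` has algebraically closed residue
field). -/
def MassStatement : Prop :=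
  ∀ (M q : ℕ) [NeZero M] [NeZero q] [NeZero (M * q)] (hq : q.Prime) (hq2 : q ≠ 2), 5 ≤ q →
    ¬ q ∣ M → ∀ A : ValuationSubring Ω, A.LiesOverPrime q →
    ∀ K₁ : IntermediateField ℚ Ω, IsBase q K₁ →
    ∀ [IsDiscreteValuationRing ↥(baseRing A K₁)] [CharZero ↥(baseRing A K₁)]
      [DecidableEq ↥(baseRing A K₁)]
      (π : ↥(baseRing A K₁)), Irreducible π → ∀ (h2 : IsUnit (2 : ↥(baseRing A K₁))) (x y : ℤ)
      (hbez : (q : ℤ) * x + M * y = 1),
      letI := baseToComplex K₁
      MassAt ↥(baseRing A K₁) ↥K₁ π h2 hbez hq hq2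

/-! ### [RANK] -/

/-- **[RANK]**: the subgroup of `J₀(M q)[p ^ k]` killed by both degeneracy pushforwards to level
`M` has at least `p ^ (2 k (g(M q) - 2 g(M)))` elements (`p` odd; at `p = 3` the level `M` is even,
so that `Γ₀(M)` has no `3`-torsion). -/
def RankStatement : Prop :=
  ∀ (M q p : ℕ) [NeZero M] [NeZero q] [NeZero (M * q)], q.Prime → p.Prime → p ≠ 2 → q ≠ p →
    ¬ q ∣ M → (p = 3 → 2 ∣ M) → ∀ g₁ g' : ℕ, (g₁ : ℚ) = genusFormula (M * q) →
    (g' : ℚ) = genusFormula M → ∀ k : ℕ,
      p ^ (2 * k * g₁) ≤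
        Nat.card {z : JZero (M * q) // p ^ k • z = 0 ∧ degPushAlpha M q z = 0 ∧
          degPushBeta M q z = 0} * p ^ (4 * k * g')

/-! ### the node datum: vocabulary -/

section Ratio

variable {R : Type*} [CommRing R] {E : Type*} [Field E] [Algebra R E]

/-- **a local datum of the toric function `(G; lam)` at the closed point `𝔫`** of the chart `B`:
a local root `Γ` of `G` (`G / Γ ^ m` a unit at `𝔫`) and units `w i` of the local ring at `𝔫`,
congruent to `lam i / Γ` on the sheet `W i`, for every sheet through `𝔫`. -/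
def IsLocalDatumAt (B : Subalgebra R E) {ι : Type*} (𝔭 : ι → Ideal ↥B) (𝔫 : Ideal ↥B) [𝔫.IsPrime]
    (W : ι → ValuationSubring E) (m : ℕ) (G : E) (lam : ι → E) (Γ : E) (w : ι → E) : Prop :=
  Γ ≠ 0 ∧ (∃ c d : ↥B, c ∉ 𝔫 ∧ d ∉ 𝔫 ∧ G * (d : E) = Γ ^ m * (c : E)) ∧
    ∀ i, 𝔭 i ≤ 𝔫 → w i ∈ locRing B 𝔫 ∧ w i ∉ locMax B 𝔫 ∧
      (W i).valuation (lam i / Γ - w i) < 1

/-- **the ratio of the local roots on the sheets `i`, `j` at `𝔫` is `ζ ∈ R`**: for every local datum
`w i ≡ ζ w j` modulo `𝔫`. -/
def SheetRatioAt (B : Subalgebra R E) {ι : Type*} (𝔭 : ι → Ideal ↥B) (𝔫 : Ideal ↥B) [𝔫.IsPrime]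
    (W : ι → ValuationSubring E) (m : ℕ) (G : E) (lam : ι → E) (i j : ι) (ζ : R) : Prop :=
  ∀ (Γ : E) (w : ι → E), IsLocalDatumAt B 𝔭 𝔫 W m G lam Γ w →
    w i - algebraMap R E ζ * w j ∈ locMax B 𝔫

/-- `S36.SheetDatumAt` is "a local datum all of whose ratios are `1`". -/
theorem sheetDatumAt_iff (B : Subalgebra R E) {ι : Type*} (𝔭 : ι → Ideal ↥B) (𝔫 : Ideal ↥B)
    [𝔫.IsPrime] (W : ι → ValuationSubring E) (m : ℕ) (G : E) (lam : ι → E) :
    S36.SheetDatumAt B 𝔭 𝔫 W m G lam ↔
      ∃ (Γ : E) (w : ι → E), IsLocalDatumAt B 𝔭 𝔫 W m G lam Γ w ∧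
        ∀ i j, 𝔭 i ≤ 𝔫 → 𝔭 j ≤ 𝔫 → w i - w j ∈ locMax B 𝔫 := by
  constructor
  · rintro ⟨Γ, w, hΓ, hcd, hw, hij⟩
    exact ⟨Γ, w, ⟨hΓ, hcd, hw⟩, hij⟩
  · rintro ⟨Γ, w, ⟨hΓ, hcd, hw⟩, hij⟩
    exact ⟨Γ, w, hΓ, hcd, hw, hij⟩

end Ratio

end

end Fermat.Agent.ML
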