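/-
ML — helper3 — **[MSQ] end-game (3), version 2 of the literal interfaces: [SURJ] and [OLD-HECKE]**
(definitions only; nothing here is used by any closed statement).

Level `M q` (`q ∤ M`, `q ≥ 5`), `K` an UNRAMIFIED base at `A ∣ q` (`ML.IsUnrBase`), `R = A ∩ K`
(a DVR with uniformiser `q`, algebraically closed residue field, containing all roots of unity of
order prime to `q`), the two-sheet Legendre host `legE K (M q)`, its chart `B = chartOne R E j` and
its nodes (`S35.IsNode`).

* `NodeRatioAt B 𝔫 Winf W0 m G Linf L0 ζ` : **the node datum of the toric function `(G; Linf, L0)`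
  at the closed point `𝔫` is `ζ ∈ R`** — there are a local root `Γ` of `G` (`G / Γ ^ m` a unit at
  `𝔫`) and units `w_∞ ≡ Linf / Γ` on `W_∞`, `w_0 ≡ L0 / Γ` on `W_0` of the local ring at `𝔫` with
  `w_∞ ≡ ζ w_0` modulo `𝔫`  (`SS.ToricDatumAt` at a crossing point is the case `ζ = 1`; the ratio
  does not depend on the local datum: `ML/DATUM_helper3_Ratio.lean`);
* `SurjAt`, `SurjStatement` : **[SURJ]** — over every sufficiently large unramified base, EVERY
  function `φ` on the set of traces of the nodes with values in `μ_p(R)` is, up to a constant, the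
  node datum of a Kummer function of a class of `J₀(M q)[p]` which is toric along both sheets.
  Paper proof (counting, helper3 msg 2321 (3)): for `k` large, `[RANK]` (`ML.rankStatement`) +
  `[CYC]` (`ML.card_le_card_inertia_fixed_sq`) give `# (G_k^new)^{I_A} ≥ p ^ (k (g₁ - 2 g'))`;
  `newToricAtStatementO` makes `p ^ c • (G_k^new)^{I_A}` toric (exponent `p ^ k`, over the
  unramified base of the descent); the node datum is an injective homomorphism
  (`toric_pow_of_model`) from the toric classes to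
  `{trace-invariant functions nodes → μ_{p^k}} / constants`, a group of order
  `≤ p ^ (k (g₁ - 2 g'))` by `[MASS]` (`ML.MassStatement`); hence its image has index
  `≤ p ^ (2 g₁ c)` for ALL `k`, so it contains the `p`-torsion of the target as soon as
  `k > 2 g₁ c`; a class `y` whose datum is `p`-torsion is `p`-torsion (injectivity), and its
  Kummer function of exponent `p` has the same datum up to a constant;
* `OldHeckeStatement` : **[OLD-HECKE]** — a non-zero Hecke eigenclass of `J₀(M q q)[p]` whose Kummer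
  function is `c · α(f₁) · β(f₂) · h ^ p` with `f₁`, `f₂` Kummer functions of `p`-torsion classes of
  level `M q` forces the eigensystem to occur residually at level `M q`
  (`x = α^* y₁ + β^* y₂`, the pull-backs are Hecke equivariant, commuting operators on the finite
  `𝔽_p`-space `J₀(M q)[p]²`, `EigenTorsOccurs`).
-/
import Mathlib
import Fermat.Agent.ML.IFACE_helper3_Surj
import Fermat.Agent.ML.IFACE_helper3_MSQE

set_option autoImplicit false
set_option linter.unusedSectionVars false
set_option linter.unusedVariables false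
set_option linter.style.haveILetI false
set_option synthInstance.maxHeartbeats 200000

open Polynomial ModularCurve IntermediateField AlgebraicCurve

namespace Fermat.Agent.ML

open Fermat.Agent.JA Fermat.Agent.FF Fermat.Agent.SS Fermat.Agent.S35 Fermat.Agent.MP
  Fermat.Agent.NP Fermat.Agent.GR Fermat.Agent.RB Fermat.Agent.Igusa

open scoped Fermat.Agent.JA.Host

/-- `Ω = AlgebraicClosure ℚ`. -/
local notation "Ω" => AlgebraicClosure ℚ

noncomputable section

/-! ### the node datum of a two-sheet toric function -/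

section NodeRatio

variable {R : Type*} [CommRing R] {E : Type*} [Field E] [Algebra R E]

/-- **the node datum of the toric function `(G; Linf, L0)` at the closed point `𝔫` of the chart `B`
is `ζ ∈ R`**: a local root `Γ` of `G` (`G / Γ ^ m` a unit at `𝔫`), units `w_∞`, `w_0` of the local
ring at `𝔫` congruent to `Linf / Γ` on `W_∞`, to `L0 / Γ` on `W_0`, and `w_∞ ≡ ζ w_0` modulo
`𝔫`. -/
def NodeRatioAt (B : Subalgebra R E) (𝔫 : Ideal ↥B) [𝔫.IsPrime] (Winf W0 : ValuationSubring E)
    (m : ℕ) (G Linf L0 : E) (ζ : R) : Prop :=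
  ∃ Γ winf w0 : E, Γ ≠ 0 ∧
    (∃ c d : ↥B, c ∉ 𝔫 ∧ d ∉ 𝔫 ∧ G * (d : E) = Γ ^ m * (c : E)) ∧
    (winf ∈ locRing B 𝔫 ∧ winf ∉ locMax B 𝔫 ∧ Winf.valuation (Linf / Γ - winf) < 1) ∧
    (w0 ∈ locRing B 𝔫 ∧ w0 ∉ locMax B 𝔫 ∧ W0.valuation (L0 / Γ - w0) < 1) ∧
    winf - algebraMap R E ζ * w0 ∈ locMax B 𝔫

end NodeRatio

/-! ### [SURJ] -/

section Surj

variable (R : Type*) [CommRing R] [IsDomain R] [IsDiscreteValuationRing R] [CharZero R]
  (K : IntermediateField ℚ Ω) [Algebra R ↥K] [IsFractionRing R ↥K]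

variable {M q : ℕ} [NeZero M] [NeZero q] [NeZero (M * q)] {x y : ℤ}

/-- **[SURJ] on one model**: every function `φ` on the traces of the nodes with values in `μ_p(R)`
is, up to a constant `c`, the node datum of a function `F` of level `M q` over `K` all of whose
orders (over `Ω`) are divisible by `p` and which is toric along both sheets. -/
def SurjAt [DecidableEq R] (p : ℕ) (π : R) (h2 : IsUnit (2 : R))
    (hbez : (q : ℤ) * x + M * y = 1) (hq : q.Prime) (hq2 : q ≠ 2) : Prop :=
  letI := baseToComplex K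
  ∀ hmodel : SSModelLeg R ↥K π h2 hbez hq hq2,
    haveI : FiniteDimensional ↥(↥K)⟮jqNModC ↥K 2⟯ ↥(legE ↥K (M * q)) :=
      finite_legE_adjoin_j ↥K (M * q)
    ∀ φ : Set ↥(keyFq ↥K (M * q)) → R, (∀ T, φ T ^ p = 1) →
      ∃ (F : ↥(keyFq ↥K (M * q))) (Linf L0 : ↥(legE ↥K (M * q))) (c : R), F ≠ 0 ∧
        (∀ v : Place Ω ↥(modularFunctionFieldBar (M * q)),
          (p : ℤ) ∣ v.ord (keyFqBC (M * q) K F)) ∧
        (legWinf R ↥K h2 (M * q)).valuation Linf = 1 ∧
        (legW0 R ↥K hbez hq).valuation L0 = 1 ∧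
        (legWinf R ↥K h2 (M * q)).valuation (fullToLegE ↥K (M * q) F - Linf ^ p) < 1 ∧
        (legW0 R ↥K hbez hq).valuation (fullToLegE ↥K (M * q) F - L0 ^ p) < 1 ∧
        ∀ (𝔫 : Ideal ↥(chartOne R ↥(legE ↥K (M * q)) (AdjoinSimple.gen ↥K (jqNModC ↥K 2))))
          (h𝔫 : S35.IsNode (SSModel.two hmodel) 𝔫),
          @NodeRatioAt R _ ↥(legE ↥K (M * q)) _ _
            (chartOne R ↥(legE ↥K (M * q)) (AdjoinSimple.gen ↥K (jqNModC ↥K 2))) 𝔫
            h𝔫.1.isPrime (legWinf R ↥K h2 (M * q)) (legW0 R ↥K hbez hq) p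
            (fullToLegE ↥K (M * q) F) Linf L0 (c * φ (legNodeTrace R ↥K (M * q) 𝔫))

end Surj

/-- **[SURJ], all levels** (`q ≥ 5`, `p` odd, `p = 3 → 2 ∣ M`): there is an unramified base `K₀`
such that [SURJ] holds over every unramified base containing `K₀`. -/
def SurjStatement : Prop :=
  ∀ (M q p : ℕ) [NeZero M] [NeZero q] [NeZero (M * q)] (hq : q.Prime) (hq2 : q ≠ 2), 5 ≤ q →
    p.Prime → p ≠ 2 → q ≠ p → ¬ q ∣ M → EvenAtThree p M →
    ∀ A : ValuationSubring Ω, A.LiesOverPrime q →
    ∃ K₀ : IntermediateField ℚ Ω, IsUnrBase q A K₀ ∧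
    ∀ K : IntermediateField ℚ Ω, IsUnrBase q A K → K₀ ≤ K →
    ∀ [IsDiscreteValuationRing ↥(baseRing A K)] [CharZero ↥(baseRing A K)]
      [DecidableEq ↥(baseRing A K)]
      (π : ↥(baseRing A K)), Irreducible π → ∀ (h2 : IsUnit (2 : ↥(baseRing A K))) (x y : ℤ)
      (hbez : (q : ℤ) * x + M * y = 1),
      SurjAt ↥(baseRing A K) K p π h2 hbez hq hq2

/-! ### [OLD-HECKE] -/

/-- **[OLD-HECKE]**: a non-zero Hecke eigenclass `x = [D] ∈ J₀(M q q)[p]` (eigensystem `a` outside
`S`) whose Kummer function is `f = c · α(f₁) · β(f₂) · h ^ p`, with `f₁`, `f₂` functions of level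
`M q` all of whose orders are divisible by `p` (`α`, `β` the two degeneracy embeddings of the
function field of level `M q` into that of level `M q q`), forces `a` to occur residually at level
`M q`. -/
def OldHeckeStatement : Prop :=
  ∀ (M q p : ℕ) [NeZero M] [NeZero q] [NeZero (M * q)] [NeZero (M * q * q)], q.Prime → p.Prime →
    q ≠ p → ¬ q ∣ M →
    ∀ (S : Set ℕ) (a : ℕ → ℤ), (∀ ℓ : ℕ, ℓ.Prime → ℓ ∣ M * q * q → ℓ ∈ S) → p ∈ S →
    ∀ (D : Divisor.degZero (K := Ω) (F := ↥(modularFunctionFieldBar (M * q * q))))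
      (f h : ↥(modularFunctionFieldBar (M * q * q))) (f₁ f₂ : ↥(modularFunctionFieldBar (M * q)))
      (c : Ω), f ≠ 0 →
      (∀ v : Place Ω ↥(modularFunctionFieldBar (M * q * q)),
        v.ord f = (p : ℤ) * (D : Divisor Ω ↥(modularFunctionFieldBar (M * q * q))) v) →
      (Pic0.mk D : JZero (M * q * q)) ≠ 0 →
      (∀ (ℓ : ℕ) (hℓ : ℓ.Prime), ℓ ∉ S →
        heckeOperatorBar (M * q * q) ⟨ℓ, hℓ⟩ (Pic0.mk D : JZero (M * q * q)) =
          a ℓ • (Pic0.mk D : JZero (M * q * q))) →
      f₁ ≠ 0 → f₂ ≠ 0 →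
      (∀ v : Place Ω ↥(modularFunctionFieldBar (M * q)), (p : ℤ) ∣ v.ord f₁) →
      (∀ v : Place Ω ↥(modularFunctionFieldBar (M * q)), (p : ℤ) ∣ v.ord f₂) →
      f = algebraMap Ω ↥(modularFunctionFieldBar (M * q * q)) c *
          heckeAlphaBar Ω (M * q) q f₁ * heckeBetaBar Ω (M * q) q f₂ * h ^ p →
      ResOccurs (M * q) p S a

end

end Fermat.Agent.ML
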