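/-
ML — helper5 — **[SURJ]: the literal interfaces of the leaves of `surjStatement_of`**
(definitions only; nothing here is used by any closed statement).

Level `M q` (`q ∤ M`, `q ≥ 5`), `K` an unramified base at `A ∣ q`, `R = baseRing A K`, the two-sheet
Legendre host `legE K (M q)`, its chart `B = chartOne R E j`, its nodes (`S35.IsNode`).

* `IsToricTriple R K m h2 hbez hq F Linf L0` : `F ≠ 0` a function of level `M q` over `K` all of
  whose orders (over `Ω`) are divisible by `m`, with unit roots `Linf`, `L0` of exponent `m` along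
  the two sheets;
* `DeckInvAt`, `DeckInvStatement` : **[DECK]** — the node datum of a toric triple only depends on
  the trace of the node on the level field `keyFq K (M q)` (`m` odd, prime to `q`);
* `InjAt`, `InjStatement` : **[INJ]** — a toric triple whose node datum is the same constant
  `γ ∈ R` at all the nodes is, over `Ω`, a constant times an `m`-th power (`m` odd, prime to `q`);
* `NewFixedCardStatement` : **[CARD]** — `# (G_k^new)^{I_A} · p ^ (2 k g') ≥ p ^ (k g₁)`
  (`[RANK]` + `[CYC]`; the unipotency of inertia on `J₀(M q)[p ^ k]` from `GR.SSWStatement` and the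
  divisibility of the `p`-power torsion).
-/
import Mathlib
import Fermat.Agent.ML.IFACE_helper3_Surj2

set_option autoImplicit false
set_option linter.unusedSectionVars false
set_option linter.unusedVariables false
set_option linter.style.haveILetI false
set_option synthInstance.maxHeartbeats 200000

open Polynomial ModularCurve IntermediateField AlgebraicCurve

namespace Fermat.Agent.ML

open Fermat.Agent.JA Fermat.Agent.FF Fermat.Agent.SS Fermat.Agent.S35 Fermat.Agent.MP
  Fermat.Agent.NP Fermat.Agent.GR Fermat.Agent.RB Fermat.Agent.Igusa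

open scoped Fermat.Agent.JA.Host

/-- `Ω = AlgebraicClosure ℚ`. -/
local notation "Ω" => AlgebraicClosure ℚ

noncomputable section

section Leaves

variable (R : Type*) [CommRing R] [IsDomain R] [IsDiscreteValuationRing R] [CharZero R]
  (K : IntermediateField ℚ Ω) [Algebra R ↥K] [IsFractionRing R ↥K]

variable {M q : ℕ} [NeZero M] [NeZero q] [NeZero (M * q)] {x y : ℤ}

/-- **a two-sheet toric triple of exponent `m`** at level `M q` over `K`: a function `F ≠ 0` all of
whose orders over `Ω` are divisible by `m`, with unit roots `Linf`, `L0` along the two sheets. -/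
def IsToricTriple (m : ℕ) (h2 : IsUnit (2 : R)) (hbez : (q : ℤ) * x + M * y = 1) (hq : q.Prime)
    (F : ↥(keyFq ↥K (M * q))) (Linf L0 : ↥(legE ↥K (M * q))) : Prop :=
  letI := baseToComplex K
  F ≠ 0 ∧
    (∀ v : Place Ω ↥(modularFunctionFieldBar (M * q)), (m : ℤ) ∣ v.ord (keyFqBC (M * q) K F)) ∧
    (legWinf R ↥K h2 (M * q)).valuation Linf = 1 ∧
    (legW0 R ↥K hbez hq).valuation L0 = 1 ∧
    (legWinf R ↥K h2 (M * q)).valuation (fullToLegE ↥K (M * q) F - Linf ^ m) < 1 ∧
    (legW0 R ↥K hbez hq).valuation (fullToLegE ↥K (M * q) F - L0 ^ m) < 1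

/-- **[DECK] on one model**: two nodes with the same trace on the level field have the same node
data. -/
def DeckInvAt [DecidableEq R] (m : ℕ) (π : R) (h2 : IsUnit (2 : R))
    (hbez : (q : ℤ) * x + M * y = 1) (hq : q.Prime) (hq2 : q ≠ 2) : Prop :=
  letI := baseToComplex K
  ∀ hmodel : SSModelLeg R ↥K π h2 hbez hq hq2,
    haveI : FiniteDimensional ↥(↥K)⟮jqNModC ↥K 2⟯ ↥(legE ↥K (M * q)) :=
      finite_legE_adjoin_j ↥K (M * q)
    ∀ (F : ↥(keyFq ↥K (M * q))) (Linf L0 : ↥(legE ↥K (M * q))),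
      IsToricTriple R K m h2 hbez hq F Linf L0 →
      ∀ (𝔫 𝔫' : Ideal ↥(chartOne R ↥(legE ↥K (M * q)) (AdjoinSimple.gen ↥K (jqNModC ↥K 2))))
        (h𝔫 : S35.IsNode (SSModel.two hmodel) 𝔫) (h𝔫' : S35.IsNode (SSModel.two hmodel) 𝔫'),
        legNodeTrace R ↥K (M * q) 𝔫 = legNodeTrace R ↥K (M * q) 𝔫' → ∀ ζ : R,
        @NodeRatioAt R _ ↥(legE ↥K (M * q)) _ _
          (chartOne R ↥(legE ↥K (M * q)) (AdjoinSimple.gen ↥K (jqNModC ↥K 2))) 𝔫
          h𝔫.1.isPrime (legWinf R ↥K h2 (M * q)) (legW0 R ↥K hbez hq) m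
          (fullToLegE ↥K (M * q) F) Linf L0 ζ →
        @NodeRatioAt R _ ↥(legE ↥K (M * q)) _ _
          (chartOne R ↥(legE ↥K (M * q)) (AdjoinSimple.gen ↥K (jqNModC ↥K 2))) 𝔫'
          h𝔫'.1.isPrime (legWinf R ↥K h2 (M * q)) (legW0 R ↥K hbez hq) m
          (fullToLegE ↥K (M * q) F) Linf L0 ζ

/-- **[INJ] on one model**: a toric triple with the same node datum `γ` at all the nodes is, over
`Ω`, a constant times an `m`-th power. -/
def InjAt [DecidableEq R] (m : ℕ) (π : R) (h2 : IsUnit (2 : R))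
    (hbez : (q : ℤ) * x + M * y = 1) (hq : q.Prime) (hq2 : q ≠ 2) : Prop :=
  letI := baseToComplex K
  ∀ hmodel : SSModelLeg R ↥K π h2 hbez hq hq2,
    haveI : FiniteDimensional ↥(↥K)⟮jqNModC ↥K 2⟯ ↥(legE ↥K (M * q)) :=
      finite_legE_adjoin_j ↥K (M * q)
    ∀ (F : ↥(keyFq ↥K (M * q))) (Linf L0 : ↥(legE ↥K (M * q))),
      IsToricTriple R K m h2 hbez hq F Linf L0 → ∀ γ : R,
      (∀ (𝔫 : Ideal ↥(chartOne R ↥(legE ↥K (M * q)) (AdjoinSimple.gen ↥K (jqNModC ↥K 2))))
        (h𝔫 : S35.IsNode (SSModel.two hmodel) 𝔫),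
        @NodeRatioAt R _ ↥(legE ↥K (M * q)) _ _
          (chartOne R ↥(legE ↥K (M * q)) (AdjoinSimple.gen ↥K (jqNModC ↥K 2))) 𝔫
          h𝔫.1.isPrime (legWinf R ↥K h2 (M * q)) (legW0 R ↥K hbez hq) m
          (fullToLegE ↥K (M * q) F) Linf L0 γ) →
      ∃ (c : Ω) (h : ↥(modularFunctionFieldBar (M * q))),
        keyFqBC (M * q) K F = algebraMap Ω ↥(modularFunctionFieldBar (M * q)) c * h ^ m

end Leaves

/-- **[DECK], all levels** (`m` odd, prime to `q`), over every unramified base. -/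
def DeckInvStatement : Prop :=
  ∀ (M q m : ℕ) [NeZero M] [NeZero q] [NeZero (M * q)] (hq : q.Prime) (hq2 : q ≠ 2), 5 ≤ q →
    ¬ q ∣ M → Odd m → ¬ q ∣ m → ∀ A : ValuationSubring Ω, A.LiesOverPrime q →
    ∀ K : IntermediateField ℚ Ω, IsUnrBase q A K →
    ∀ [IsDiscreteValuationRing ↥(baseRing A K)] [CharZero ↥(baseRing A K)]
      [DecidableEq ↥(baseRing A K)]
      (π : ↥(baseRing A K)), Irreducible π → ∀ (h2 : IsUnit (2 : ↥(baseRing A K))) (x y : ℤ)
      (hbez : (q : ℤ) * x + M * y = 1),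
      DeckInvAt ↥(baseRing A K) K m π h2 hbez hq hq2

/-- **[INJ], all levels** (`m` odd, prime to `q`), over every unramified base. -/
def InjStatement : Prop :=
  ∀ (M q m : ℕ) [NeZero M] [NeZero q] [NeZero (M * q)] (hq : q.Prime) (hq2 : q ≠ 2), 5 ≤ q →
    ¬ q ∣ M → Odd m → ¬ q ∣ m → ∀ A : ValuationSubring Ω, A.LiesOverPrime q →
    ∀ K : IntermediateField ℚ Ω, IsUnrBase q A K →
    ∀ [IsDiscreteValuationRing ↥(baseRing A K)] [CharZero ↥(baseRing A K)]
      [DecidableEq ↥(baseRing A K)]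
      (π : ↥(baseRing A K)), Irreducible π → ∀ (h2 : IsUnit (2 : ↥(baseRing A K))) (x y : ℤ)
      (hbez : (q : ℤ) * x + M * y = 1),
      InjAt ↥(baseRing A K) K m π h2 hbez hq hq2

/-- **[CARD]**: the `I_A`-fixed part of the subgroup of `J₀(M q)[p ^ k]` killed by both degeneracy
pushforwards has at least `p ^ (k (g(M q) - 2 g(M)))` elements. -/
def NewFixedCardStatement : Prop :=
  ∀ (M q p : ℕ) [NeZero M] [NeZero q] [NeZero (M * q)], q.Prime → p.Prime → p ≠ 2 → q ≠ p →
    ¬ q ∣ M → (p = 3 → 2 ∣ M) → ∀ A : ValuationSubring Ω, A.LiesOverPrime q →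
    ∀ g₁ g' : ℕ, (g₁ : ℚ) = genusFormula (M * q) → (g' : ℚ) = genusFormula M → ∀ k : ℕ,
      p ^ (k * g₁) ≤
        Nat.card {z : JZero (M * q) // p ^ k • z = 0 ∧ degPushAlpha M q z = 0 ∧
          degPushBeta M q z = 0 ∧ ∀ τ ∈ A.inertiaSubgroupIn ℚ, τ • z = z} * p ^ (2 * k * g')

end

end Fermat.Agent.ML
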