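/-
ML — helper7 — **[INJ], part 1 (abstract): the two sheets of an `SSModel` as a family, and the
closed data of a toric function with constant node datum.**

`IsTwoSheet π u Winf W0` (+ `IsModelChart`): the family `pair Winf W0 = ![Winf, W0]` is an
`S36.IsSheetFamily`; a function `G` with `m`-divisible horizontal divisor (`S36.HorPow36`, NO
rationality of the support) which is an `m`-th power along both sheets (`G / lam i ^ m ≡ 1`) has a
closed datum `S36.SheetDatumAt`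

* at every closed point of the special fibre lying on a single sheet
  (`sheetDatumAt_pair_of_not_crossing`: local equation `π`, branch uniformizers of the model chart,
  helper3's `S36.sheetDatumAt_of_single_sheet`);
* at a node, as soon as the node datum (`ML.NodeRatioAt`) of `(G; Linf, L0)` is a constant `γ ∈ R`
  with `γ ^ m ≡ 1`, for the rescaled roots `(Linf / κ, γ L0 / κ)` of `G / (κ ^ m ε)`
  (`sheetDatumAt_pair_of_nodeRatio`).
-/
import Mathlib
import Fermat.Agent.S36.POINTS36_helper3_Inv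
import Fermat.Agent.S36.KUM36_helper3_Final
import Fermat.Agent.S36.BASE36_helper4_Hor
import Fermat.Agent.S36.CUSP36_helper4_Fam
import Fermat.Agent.SS.EXPORT_helper4_Two
import Fermat.Agent.SS.TOPA_lead
import Fermat.Agent.ML.DATUM_helper3_Ratio

set_option autoImplicit false
set_option linter.unusedSectionVars false
set_option linter.unusedVariables false
set_option linter.style.haveILetI false

namespace Fermat.Agent.ML.INJ

open Fermat.Agent.SS Fermat.Agent.JA Fermat.Agent.S36 Fermat.Agent.S35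

section Pair

variable {R : Type*} [CommRing R] [IsDomain R] [IsDiscreteValuationRing R] [CharZero R]
  {K₁ : Type*} [Field K₁] [Algebra R K₁] [IsFractionRing R K₁]
  {K : Type*} [Field K] [Algebra K₁ K] [Algebra R K] [IsScalarTower R K₁ K]
  {E : Type*} [Field E] [Algebra K E] [Algebra R E] [IsScalarTower R K E] [FiniteDimensional K E]
  {π : R} {u : K} {Winf W0 : ValuationSubring E}

/-- the two sheets as a family indexed by `Fin 2`. -/
def pair (Winf W0 : ValuationSubring E) : Fin 2 → ValuationSubring E := ![Winf, W0]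

@[simp] theorem pair_zero : pair Winf W0 0 = Winf := rfl

@[simp] theorem pair_one : pair Winf W0 1 = W0 := rfl

/-- **the two sheets of a two-sheeted chart form a sheet family.** -/
theorem isSheetFamily_pair (h2 : IsTwoSheet π u Winf W0) : IsSheetFamily π u (pair Winf W0) where
  inj := by
    intro i j hij
    fin_cases i <;> fin_cases j
    · rfl
    · exact absurd hij h2.ne
    · exact absurd hij.symm h2.ne
    · rfl
  gauss := fun i => by
    fin_cases i
    · exact h2.gauss_inf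
    · exact h2.gauss_zero
  only := fun V hV => by
    rcases h2.only V hV with h | h
    · exact ⟨0, h⟩
    · exact ⟨1, h⟩

/-- **the closed datum at a closed point of the special fibre lying on a single sheet**
(no rationality of the horizontal divisor). -/
theorem sheetDatumAt_pair_of_not_crossing (h2 : IsTwoSheet π u Winf W0) (hπ : Irreducible π)
    (hu : Transcendental K₁ u) (hK : IntermediateField.adjoin K₁ {u} = ⊤)
    (hmod : IsModelChart E π (sheetIdeal u Winf h2.chart_le_inf)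
      (sheetIdeal u W0 h2.chart_le_zero))
    {m : ℕ} (hm : m ≠ 0) {G : E} (hG : G ≠ 0) {lam : Fin 2 → E} (hlam : ∀ i, lam i ≠ 0)
    (hGW : ∀ i, (pair Winf W0 i).valuation (G / lam i ^ m - 1) < 1)
    (hhor : HorPow36 (K₁ := K₁) u hK π m G)
    (𝔫 : Ideal ↥(chartOne R E u)) (h𝔫 : 𝔫.IsMaximal)
    (hπ𝔫 : algebraMap R ↥(chartOne R E u) π ∈ 𝔫)
    (hnc : ¬ (sheetIdeal u Winf h2.chart_le_inf ≤ 𝔫 ∧ sheetIdeal u W0 h2.chart_le_zero ≤ 𝔫)) :
    @SheetDatumAt R _ E _ _ (chartOne R E u) (Fin 2)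
      (fun i => sheetIdeal u (pair Winf W0 i) ((isSheetFamily_pair h2).chart_le i)) 𝔫
      h𝔫.isPrime (pair Winf W0) m G lam := by
  haveI := h𝔫
  haveI : 𝔫.IsPrime := h𝔫.isPrime
  have fam := isSheetFamily_pair h2
  have hinjE : Function.Injective (algebraMap R E) := by
    rw [IsScalarTower.algebraMap_eq R K E, IsScalarTower.algebraMap_eq R K₁ K]
    exact (algebraMap K E).injective.comp
      ((algebraMap K₁ K).injective.comp (IsFractionRing.injective R K₁))
  have hπB : algebraMap R ↥(chartOne R E u) π ≠ 0 := by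
    intro h0
    have h1 : ((algebraMap R ↥(chartOne R E u) π : ↥(chartOne R E u)) : E) = 0 := by
      rw [h0]; rfl
    exact hπ.ne_zero (hinjE (by rw [map_zero]; exact h1))
  have hor : sheetIdeal u Winf h2.chart_le_inf ≤ 𝔫 ∨ sheetIdeal u W0 h2.chart_le_zero ≤ 𝔫 :=
    le_or_le_of_mem hmod.mem_inf hmod.mem_zero hmod.inf_le 𝔫 hπ𝔫
  rcases hor with hinf | h0
  · have hn0 : ¬ sheetIdeal u W0 h2.chart_le_zero ≤ 𝔫 := fun h => hnc ⟨hinf, h⟩
    obtain ⟨v, hv⟩ := hmod.branch_inf 𝔫 h𝔫 hπ𝔫 hinf hn0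
    obtain ⟨s, hs0, hs𝔫⟩ := SetLike.not_le_iff_exists.mp hn0
    refine sheetDatumAt_of_single_sheet fam hπ hu hK 𝔫 0 hinf ?_
      (z := algebraMap R ↥(chartOne R E u) π) (u := v) hmod.mem_inf hπB ?_ hv hm hG hlam (hGW 0)
      (fun 𝔮 h𝔮 hh hπ𝔮 _ => hhor 𝔮 h𝔮 hh hπ𝔮)
    · intro j hj
      fin_cases j
      · rfl
      · exact absurd hj hn0
    · intro w hw
      refine ⟨s, hs𝔫, Ideal.mem_span_singleton.mp (hmod.inf_le ⟨?_, ?_⟩)⟩
      · exact Ideal.mul_mem_left _ s hw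
      · exact Ideal.mul_mem_right w _ hs0
  · have hninf : ¬ sheetIdeal u Winf h2.chart_le_inf ≤ 𝔫 := fun h => hnc ⟨h, h0⟩
    obtain ⟨v, hv⟩ := hmod.branch_zero 𝔫 h𝔫 hπ𝔫 h0 hninf
    obtain ⟨s, hsinf, hs𝔫⟩ := SetLike.not_le_iff_exists.mp hninf
    refine sheetDatumAt_of_single_sheet fam hπ hu hK 𝔫 1 h0 ?_
      (z := algebraMap R ↥(chartOne R E u) π) (u := v) hmod.mem_zero hπB ?_ hv hm hG hlam (hGW 1)
      (fun 𝔮 h𝔮 hh hπ𝔮 _ => hhor 𝔮 h𝔮 hh hπ𝔮)
    · intro j hj
      fin_cases j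
      · exact absurd hj hninf
      · rfl
    · intro w hw
      refine ⟨s, hs𝔫, Ideal.mem_span_singleton.mp (hmod.inf_le ⟨?_, ?_⟩)⟩
      · exact Ideal.mul_mem_right w _ hsinf
      · exact Ideal.mul_mem_left _ s hw

end Pair

section Val

variable {R : Type*} [CommRing R] {E : Type*} [Field E] [Algebra R E]

/-- an element of `R` congruent to `1` modulo `π` is a unit of a sheet. -/
theorem valuation_eq_one_of_sub_one_mem {W : ValuationSubring E} {π : R}
    (hR : ∀ r : R, algebraMap R E r ∈ W) (hπW : W.valuation (algebraMap R E π) < 1) {δ : R}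
    (hδ : δ - 1 ∈ Ideal.span {π}) : W.valuation (algebraMap R E δ) = 1 := by
  obtain ⟨c, hc⟩ := Ideal.mem_span_singleton.mp hδ
  have h1 : algebraMap R E δ = 1 + algebraMap R E π * algebraMap R E c := by
    rw [← map_mul, ← hc, map_sub, map_one]; ring
  rw [h1, Valuation.map_add_eq_of_lt_left, map_one]
  rw [map_one, map_mul]
  calc W.valuation (algebraMap R E π) * W.valuation (algebraMap R E c)
      ≤ W.valuation (algebraMap R E π) * 1 :=
        mul_le_mul_right ((ValuationSubring.valuation_le_one_iff _ _).mpr (hR c)) _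
    _ < 1 := by rw [mul_one]; exact hπW

/-- the valuation of an element of `π R` is `< 1`. -/
theorem valuation_lt_one_of_mem_span {W : ValuationSubring E} {π : R}
    (hR : ∀ r : R, algebraMap R E r ∈ W) (hπW : W.valuation (algebraMap R E π) < 1) {δ : R}
    (hδ : δ ∈ Ideal.span {π}) : W.valuation (algebraMap R E δ) < 1 := by
  obtain ⟨c, rfl⟩ := Ideal.mem_span_singleton.mp hδ
  rw [map_mul, map_mul]
  calc W.valuation (algebraMap R E π) * W.valuation (algebraMap R E c)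
      ≤ W.valuation (algebraMap R E π) * 1 :=
        mul_le_mul_right ((ValuationSubring.valuation_le_one_iff _ _).mpr (hR c)) _
    _ < 1 := by rw [mul_one]; exact hπW

/-- **rescaling a toric congruence**: `G ≡ L ^ m` with `L` a unit of the sheet and `δ ≡ 1` modulo
`π` give `G / (δ L ^ m) ≡ 1`. -/
theorem valuation_div_sub_one_lt {W : ValuationSubring E} {π : R}
    (hR : ∀ r : R, algebraMap R E r ∈ W) (hπW : W.valuation (algebraMap R E π) < 1) {δ : R}
    (hδ : δ - 1 ∈ Ideal.span {π}) {m : ℕ} {G L : E} (hL : W.valuation L = 1)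
    (hGL : W.valuation (G - L ^ m) < 1) :
    W.valuation (G / (algebraMap R E δ * L ^ m) - 1) < 1 := by
  have hδ1 := valuation_eq_one_of_sub_one_mem hR hπW hδ
  have hδ0 : algebraMap R E δ ≠ 0 := fun h0 => by
    rw [h0, map_zero] at hδ1; exact zero_ne_one hδ1
  have hL0 : L ≠ 0 := fun h0 => by rw [h0, map_zero] at hL; exact zero_ne_one hL
  have hLm : L ^ m ≠ 0 := pow_ne_zero _ hL0
  have e : G / (algebraMap R E δ * L ^ m) - 1 =
      ((G - L ^ m) - algebraMap R E (δ - 1) * L ^ m) * (algebraMap R E δ * L ^ m)⁻¹ := by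
    rw [map_sub, map_one]
    field_simp
    ring
  rw [e, map_mul, map_inv₀, map_mul, map_pow, hδ1, hL, one_pow, mul_one, inv_one, mul_one]
  refine lt_of_le_of_lt (Valuation.map_sub _ _ _) (max_lt hGL ?_)
  rw [map_mul, map_pow, hL, one_pow, mul_one]
  exact valuation_lt_one_of_mem_span hR hπW hδ

end Val

section Node

variable {R : Type*} [CommRing R] {E : Type*} [Field E] [Algebra R E]

/-- **the closed datum at a node from a constant node datum**: if the node datum of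
`(G; Linf, L0)` at `𝔫` is `γ` (a unit at `𝔫`), then `(G / (κ ^ m ε); Linf / κ, γ L0 / κ)` has a
closed datum at `𝔫` (`ε` a unit at `𝔫`). -/
theorem sheetDatumAt_pair_of_nodeRatio {B : Subalgebra R E} (𝔭 : Fin 2 → Ideal ↥B)
    (𝔫 : Ideal ↥B) [h𝔫 : 𝔫.IsPrime] {Winf W0 : ValuationSubring E}
    (hR0 : ∀ r : R, algebraMap R E r ∈ W0)
    {m : ℕ} {G Linf L0 : E} {γ : R}
    (hnode : NodeRatioAt B 𝔫 Winf W0 m G Linf L0 γ)
    (hγ : algebraMap R ↥B γ ∉ 𝔫) {κ : E} (hκ : κ ≠ 0) {ε : R} (hε : algebraMap R ↥B ε ∉ 𝔫) :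
    SheetDatumAt B 𝔭 𝔫 (pair Winf W0) m (G * (κ ^ m * algebraMap R E ε)⁻¹)
      ![Linf / κ, algebraMap R E γ * L0 / κ] := by
  obtain ⟨Γ, winf, w0, hΓ, ⟨c, d, hc, hd, hcd⟩, ⟨hw1, hw2, hw3⟩, ⟨hv1, hv2, hv3⟩, hr⟩ := hnode
  have hεE : algebraMap R E ε ≠ 0 := by
    intro h0
    apply hε
    have : algebraMap R ↥B ε = 0 := Subtype.ext (by
      show algebraMap R E ε = 0
      exact h0)
    rw [this]; exact 𝔫.zero_mem
  have hγL : algebraMap R E γ ∈ locRing B 𝔫 := (locRing B 𝔫).algebraMap_mem γ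
  have hγM : algebraMap R E γ ∉ locMax B 𝔫 := by
    have h1 : ((algebraMap R ↥B γ : ↥B) : E) = algebraMap R E γ := rfl
    rw [← h1, coe_mem_locMax_iff]
    exact hγ
  refine ⟨Γ / κ, ![winf, algebraMap R E γ * w0], div_ne_zero hΓ hκ,
    ⟨c, d * algebraMap R ↥B ε, hc, fun h => (h𝔫.mem_or_mem h).elim hd hε, ?_⟩, ?_, ?_⟩
  · show G * (κ ^ m * algebraMap R E ε)⁻¹ * ((d : E) * algebraMap R E ε) = (Γ / κ) ^ m * (c : E)
    have hκm : κ ^ m ≠ 0 := pow_ne_zero _ hκ
    rw [div_pow]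
    calc G * (κ ^ m * algebraMap R E ε)⁻¹ * ((d : E) * algebraMap R E ε)
        = G * (d : E) * (κ ^ m)⁻¹ := by field_simp
      _ = Γ ^ m * (c : E) * (κ ^ m)⁻¹ := by rw [hcd]
      _ = Γ ^ m / κ ^ m * (c : E) := by ring
  · intro i _
    fin_cases i
    · refine ⟨hw1, hw2, ?_⟩
      show Winf.valuation (Linf / κ / (Γ / κ) - winf) < 1
      rw [div_div_div_cancel_right₀ hκ]
      exact hw3
    · refine ⟨(locRing B 𝔫).mul_mem hγL hv1, mul_notMem_locMax hγL hv1 hγM hv2, ?_⟩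
      show W0.valuation (algebraMap R E γ * L0 / κ / (Γ / κ) - algebraMap R E γ * w0) < 1
      rw [div_div_div_cancel_right₀ hκ, mul_div_assoc, ← mul_sub, map_mul]
      calc W0.valuation (algebraMap R E γ) * W0.valuation (L0 / Γ - w0)
          ≤ 1 * W0.valuation (L0 / Γ - w0) :=
            mul_le_mul_left ((ValuationSubring.valuation_le_one_iff _ _).mpr (hR0 γ)) _
        _ < 1 := by rw [one_mul]; exact hv3
  · intro i k _ _
    fin_cases i <;> fin_cases k
    · show winf - winf ∈ locMax B 𝔫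
      rw [sub_self]; exact zero_mem_locMax
    · exact hr
    · show algebraMap R E γ * w0 - winf ∈ locMax B 𝔫
      have : algebraMap R E γ * w0 - winf = -(winf - algebraMap R E γ * w0) := by ring
      rw [this]; exact neg_mem_locMax hr
    · show algebraMap R E γ * w0 - algebraMap R E γ * w0 ∈ locMax B 𝔫
      rw [sub_self]; exact zero_mem_locMax

/-- powers of units of the local ring are units. -/
theorem pow_notMem_locMax {B : Subalgebra R E} {𝔫 : Ideal ↥B} [h𝔫 : 𝔫.IsPrime] {e : E}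
    (he : e ∈ locRing B 𝔫) (he' : e ∉ locMax B 𝔫) (k : ℕ) : e ^ k ∉ locMax B 𝔫 := by
  induction k with
  | zero => rw [pow_zero]; exact one_notMem_locMax
  | succ k ih =>
    rw [pow_succ]
    exact mul_notMem_locMax ((locRing B 𝔫).pow_mem he k) he ih he'

/-- **the node datum of a toric function is an `m`-th root of unity modulo the node.** -/
theorem pow_sub_one_mem_locMax_of_nodeRatio {B : Subalgebra R E} {𝔫 : Ideal ↥B} [h𝔫 : 𝔫.IsPrime]
    {Winf W0 : ValuationSubring E} (hinf : IsSheetThrough B 𝔫 Winf) (h0 : IsSheetThrough B 𝔫 W0)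
    {m : ℕ} {G Linf L0 : E} {γ : R} (hLinf : Linf ≠ 0) (hL0 : L0 ≠ 0)
    (hGinf : Winf.valuation (G / Linf ^ m - 1) < 1) (hG0 : W0.valuation (G / L0 ^ m - 1) < 1)
    (h : NodeRatioAt B 𝔫 Winf W0 m G Linf L0 γ) :
    algebraMap R E (γ ^ m - 1) ∈ locMax B 𝔫 := by
  obtain ⟨Γ, winf, w0, h1, h2, h3, h4⟩ := nodeRatioAt_iff.mp h
  have ha := h2.pow_sub_mem_locMax hinf h1 hLinf hGinf
  have hb := h3.pow_sub_mem_locMax h0 h1 hL0 hG0
  have hγL : algebraMap R E γ ∈ locRing B 𝔫 := (locRing B 𝔫).algebraMap_mem γ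
  have hc : winf ^ m - (algebraMap R E γ * w0) ^ m ∈ locMax B 𝔫 := by
    rw [← geom_sum₂_mul winf (algebraMap R E γ * w0) m]
    refine mul_mem_locMax ((locRing B 𝔫).sum_mem (fun i _ => ?_)) h4
    exact (locRing B 𝔫).mul_mem ((locRing B 𝔫).pow_mem h2.1 _)
      ((locRing B 𝔫).pow_mem ((locRing B 𝔫).mul_mem hγL h3.1) _)
  have hd : algebraMap R E (γ ^ m - 1) * w0 ^ m ∈ locMax B 𝔫 := by
    have e : algebraMap R E (γ ^ m - 1) * w0 ^ m =
        -(winf ^ m - (algebraMap R E γ * w0) ^ m) + ((winf ^ m - G / Γ ^ m) -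
          (w0 ^ m - G / Γ ^ m)) := by
      rw [map_sub, map_pow, map_one]; ring
    rw [e]
    exact add_mem_locMax (neg_mem_locMax hc) (sub_mem_locMax ha hb)
  have hw0m : w0 ^ m ∉ locMax B 𝔫 := pow_notMem_locMax h3.1 h3.2.1 m
  exact (mem_or_mem_of_mul_mem_locMax ((locRing B 𝔫).algebraMap_mem _)
    ((locRing B 𝔫).pow_mem h3.1 m) hd).resolve_right hw0m

end Node

section Model

variable {R : Type*} [CommRing R] [IsDomain R] [IsDiscreteValuationRing R] [CharZero R]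
  {K₁ : Type*} [Field K₁] [Algebra R K₁] [IsFractionRing R K₁]
  {KM : Type*} [Field KM] [Algebra K₁ KM] [Algebra R KM] [IsScalarTower R K₁ KM]
  {EM : Type*} [Field EM] [Algebra KM EM] [Algebra K₁ EM] [IsScalarTower K₁ KM EM] [Algebra R EM]
  [IsScalarTower R KM EM]
  {KN : Type*} [Field KN] [Algebra K₁ KN] [Algebra R KN] [IsScalarTower R K₁ KN]
  {EN : Type*} [Field EN] [Algebra KN EN] [Algebra K₁ EN] [IsScalarTower K₁ KN EN] [Algebra R EN]
  [IsScalarTower R KN EN] [FiniteDimensional KN EN]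
  {π : R} {q n : ℕ} {S : Finset R} {t : KM} {jM : EM} {j : KN} {A B : EM →+* EN}
  {VM : ValuationSubring EM} {Winf W0 : ValuationSubring EN}

set_option maxHeartbeats 1600000 in
/-- **[INJ], abstract form**: on the two-sheeted model of an `SSModel`, a function `G` with
`m`-divisible divisor, toric along both sheets, whose node datum is the same constant `γ` at all the
nodes, and whose leading coefficient is `κ ^ m ε` with `ε ≡ 1` modulo `π`, is `κ ^ m ε` times an
`m`-th power. -/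
theorem pow_of_constant_nodeRatio [IsAlgClosed (IsLocalRing.ResidueField R)]
    (h : SSModel K₁ π q n S t jM j A B VM Winf W0) (hπ : Irreducible π)
    (hjint : IsIntegral ↥(Algebra.adjoin R {B jM}) (A jM))
    {m : ℕ} (hm : 0 < m) (hmR : IsUnit (m : R)) (ζ : R) (hζ : IsPrimitiveRoot ζ m)
    (lc : ENˣ →* K₁ˣ) (hlc : ∀ c : K₁ˣ, lc (Units.map (algebraMap K₁ EN).toMonoidHom c) = c)
    {G Linf L0 : EN} (hLinf : Winf.valuation Linf = 1) (hL0 : W0.valuation L0 = 1)
    (hGinf : Winf.valuation (G - Linf ^ m) < 1) (hG0 : W0.valuation (G - L0 ^ m) < 1)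
    (hord : ∀ P : AlgebraicCurve.Place K₁ EN, (m : ℤ) ∣ P.ord G)
    (γ : R) (hγ : γ ^ m - 1 ∈ Ideal.span {π})
    (hnode : ∀ (𝔫 : Ideal ↥(chartOne R EN j)) (h𝔫 : IsNode h.two 𝔫),
      @NodeRatioAt R _ EN _ _ (chartOne R EN j) 𝔫 h𝔫.1.isPrime Winf W0 m G Linf L0 γ)
    (κ : K₁ˣ) (ε : R) (hε : ε - 1 ∈ Ideal.span {π})
    (hlcG : ∀ v : ENˣ, (v : EN) = G → ((lc v : K₁ˣ) : K₁) = (κ : K₁) ^ m * algebraMap R K₁ ε) :
    ∃ w : EN, G = algebraMap K₁ EN ((κ : K₁) ^ m * algebraMap R K₁ ε) * w ^ m := by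
  classical
  have hu := h.j_transcendental
  have hK := h.j_adjoin
  have hu' := transcendental_inv_of_transcendental hu
  have hK' := adjoin_inv_eq_top hK
  have two := h.two
  have two' := h.two.inv hπ
  have fam := isSheetFamily_pair two
  have fam' := isSheetFamily_pair two'
  haveI : IsScalarTower R K₁ EN := isScalarTower_base_const R K₁ KN EN
  -- the base ring in the sheets
  have hRinf : ∀ r : R, algebraMap R EN r ∈ Winf := fun r =>
    two.chart_le_inf _ (Subalgebra.algebraMap_mem _ r)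
  have hR0 : ∀ r : R, algebraMap R EN r ∈ W0 := fun r =>
    two.chart_le_zero _ (Subalgebra.algebraMap_mem _ r)
  have hπinf : Winf.valuation (algebraMap R EN π) < 1 :=
    (mem_sheetIdeal_iff j Winf two.chart_le_inf _).mp (two.pi_mem_inf (K₁ := K₁) hπ)
  have hπ0 : W0.valuation (algebraMap R EN π) < 1 :=
    (mem_sheetIdeal_iff j W0 two.chart_le_zero _).mp (two.pi_mem_zero (K₁ := K₁) hπ)
  -- non-vanishing
  have hone : (1 : R) ∉ Ideal.span {π} := fun h1 =>
    hπ.not_isUnit (Ideal.span_singleton_eq_top.mp ((Ideal.eq_top_iff_one _).mpr h1))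
  have hG : G ≠ 0 := by
    intro h0
    rw [h0, zero_sub, Valuation.map_neg, map_pow, hLinf, one_pow] at hGinf
    exact lt_irrefl _ hGinf
  have hLinf0 : Linf ≠ 0 := fun h0 => by rw [h0, map_zero] at hLinf; exact zero_ne_one hLinf
  have hL00 : L0 ≠ 0 := fun h0 => by rw [h0, map_zero] at hL0; exact zero_ne_one hL0
  have hinjE : Function.Injective (algebraMap R EN) := by
    rw [IsScalarTower.algebraMap_eq R K₁ EN]
    exact (algebraMap K₁ EN).injective.comp (IsFractionRing.injective R K₁)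
  have hε0 : ε ≠ 0 := by
    rintro rfl
    rw [zero_sub] at hε
    exact hone (by simpa using (Ideal.span {π}).neg_mem hε)
  have hγ0 : γ ≠ 0 := by
    rintro rfl
    rw [zero_pow hm.ne', zero_sub] at hγ
    exact hone (by simpa using (Ideal.span {π}).neg_mem hγ)
  have hεE : algebraMap R EN ε ≠ 0 := (map_ne_zero_iff _ hinjE).mpr hε0
  have hγE : algebraMap R EN γ ≠ 0 := (map_ne_zero_iff _ hinjE).mpr hγ0
  set κE : EN := algebraMap K₁ EN (κ : K₁) with hκE
  have hκE0 : κE ≠ 0 := (map_ne_zero _).mpr κ.ne_zero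
  set c₀ : K₁ := (κ : K₁) ^ m * algebraMap R K₁ ε with hc₀
  have hc₀0 : c₀ ≠ 0 := mul_ne_zero (pow_ne_zero _ κ.ne_zero)
    ((map_ne_zero_iff _ (IsFractionRing.injective R K₁)).mpr hε0)
  have hc₀E : algebraMap K₁ EN c₀ = κE ^ m * algebraMap R EN ε := by
    rw [hc₀, map_mul, map_pow, ← IsScalarTower.algebraMap_apply R K₁ EN]
  set G' : EN := G * (κE ^ m * algebraMap R EN ε)⁻¹ with hG'
  have hG'0 : G' ≠ 0 := mul_ne_zero hG (inv_ne_zero (mul_ne_zero (pow_ne_zero _ hκE0) hεE))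
  set lam : Fin 2 → EN := ![Linf / κE, algebraMap R EN γ * L0 / κE] with hlamdef
  have hlam : ∀ i, lam i ≠ 0 := by
    intro i
    fin_cases i
    · exact div_ne_zero hLinf0 hκE0
    · exact div_ne_zero (mul_ne_zero hγE hL00) hκE0
  -- the toric congruences
  have hδ : ε * γ ^ m - 1 ∈ Ideal.span {π} := by
    have e : ε * γ ^ m - 1 = (ε - 1) * γ ^ m + (γ ^ m - 1) := by ring
    rw [e]
    exact (Ideal.span {π}).add_mem (Ideal.mul_mem_right _ _ hε) hγ
  have hGW : ∀ i, (pair Winf W0 i).valuation (G' / lam i ^ m - 1) < 1 := by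
    intro i
    fin_cases i
    · show Winf.valuation (G' / (Linf / κE) ^ m - 1) < 1
      have e : G' / (Linf / κE) ^ m = G / (algebraMap R EN ε * Linf ^ m) := by
        rw [hG', div_pow]
        have hκm : κE ^ m ≠ 0 := pow_ne_zero _ hκE0
        have hLm : Linf ^ m ≠ 0 := pow_ne_zero _ hLinf0
        field_simp
      rw [e]
      exact valuation_div_sub_one_lt hRinf hπinf hε hLinf hGinf
    · show W0.valuation (G' / (algebraMap R EN γ * L0 / κE) ^ m - 1) < 1
      have e : G' / (algebraMap R EN γ * L0 / κE) ^ m =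
          G / (algebraMap R EN (ε * γ ^ m) * L0 ^ m) := by
        rw [hG', div_pow, mul_pow, map_mul, map_pow]
        have hκm : κE ^ m ≠ 0 := pow_ne_zero _ hκE0
        have hLm : L0 ^ m ≠ 0 := pow_ne_zero _ hL00
        have hγm : algebraMap R EN γ ^ m ≠ 0 := pow_ne_zero _ hγE
        field_simp
      rw [e]
      exact valuation_div_sub_one_lt hR0 hπ0 hδ hL0 hG0
  -- the horizontal clauses
  have hord' : ∀ P : AlgebraicCurve.Place K₁ EN, (m : ℤ) ∣ P.ord G' := by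
    intro P
    have e : G' = algebraMap K₁ EN c₀⁻¹ * G := by
      rw [hG', map_inv₀, hc₀E, mul_comm]
    rw [e, P.ord_mul ((map_ne_zero _).mpr (inv_ne_zero hc₀0)) hG,
      place_ord_algebraMap_eq_zero P (inv_ne_zero hc₀0), zero_add]
    exact hord P
  have hhor₁ := horPow36_of_place (R := R) (K₁ := K₁) (K := KN) (F := EN) j hu hK hπ hG'0 hord'
  have hhor₂ := horPow36_of_place (R := R) (K₁ := K₁) (K := KN) (F := EN) j⁻¹ hu' hK' hπ hG'0 hord'
  -- the closed data on the chart `j`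
  have hγB : ∀ (𝔫 : Ideal ↥(chartOne R EN j)), 𝔫.IsPrime →
      algebraMap R ↥(chartOne R EN j) π ∈ 𝔫 → ∀ δ : R, δ - 1 ∈ Ideal.span {π} →
      algebraMap R ↥(chartOne R EN j) δ ∉ 𝔫 := by
    intro 𝔫 h𝔫 hπ𝔫 δ hδ' hmem
    obtain ⟨c, hc⟩ := Ideal.mem_span_singleton.mp hδ'
    have h1 : algebraMap R ↥(chartOne R EN j) δ - 1 ∈ 𝔫 := by
      rw [← map_one (algebraMap R ↥(chartOne R EN j)), ← map_sub, hc, map_mul]
      exact Ideal.mul_mem_right _ _ hπ𝔫
    have h2 : (1 : ↥(chartOne R EN j)) ∈ 𝔫 := by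
      have := 𝔫.sub_mem hmem h1
      simpa using this
    exact h𝔫.ne_top ((Ideal.eq_top_iff_one _).mpr h2)
  have hd₁ : ∀ (𝔫 : Ideal ↥(chartOne R EN j)) (h𝔫 : 𝔫.IsMaximal),
      algebraMap R ↥(chartOne R EN j) π ∈ 𝔫 →
      @SheetDatumAt R _ EN _ _ (chartOne R EN j) (Fin 2)
        (fun i => sheetIdeal j (pair Winf W0 i) (fam.chart_le i)) 𝔫 h𝔫.isPrime (pair Winf W0) m
        G' lam := by
    intro 𝔫 h𝔫 hπ𝔫
    haveI := h𝔫
    haveI : 𝔫.IsPrime := h𝔫.isPrime
    by_cases hcr : sheetIdeal j Winf two.chart_le_inf ≤ 𝔫 ∧ sheetIdeal j W0 two.chart_le_zero ≤ 𝔫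
    · have hN : IsNode h.two 𝔫 := ⟨h𝔫, hcr.1, hcr.2⟩
      have hγ𝔫 : algebraMap R ↥(chartOne R EN j) γ ∉ 𝔫 := by
        intro hmem
        have h1 : algebraMap R ↥(chartOne R EN j) (γ ^ m) ∈ 𝔫 := by
          rw [map_pow]; exact Ideal.pow_mem_of_mem _ hmem m hm
        exact hγB 𝔫 inferInstance hπ𝔫 (γ ^ m) hγ h1
      exact sheetDatumAt_pair_of_nodeRatio _ 𝔫 hR0 (hnode 𝔫 hN) hγ𝔫 hκE0
        (hγB 𝔫 inferInstance hπ𝔫 ε hε)
    · exact sheetDatumAt_pair_of_not_crossing two hπ hu hK (h.isModelChart_one hπ) hm.ne' hG'0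
        hlam hGW hhor₁ 𝔫 h𝔫 hπ𝔫 hcr
  -- the closed data on the chart `j⁻¹`
  have hd₂ : ∀ (𝔫 : Ideal ↥(chartOne R EN j⁻¹)) (h𝔫 : 𝔫.IsMaximal),
      algebraMap R ↥(chartOne R EN j⁻¹) π ∈ 𝔫 →
      @SheetDatumAt R _ EN _ _ (chartOne R EN j⁻¹) (Fin 2)
        (fun i => sheetIdeal j⁻¹ (pair Winf W0 i) ((fam.inv hπ).chart_le i)) 𝔫 h𝔫.isPrime
        (pair Winf W0) m G' lam := by
    intro 𝔫 h𝔫 hπ𝔫
    haveI := h𝔫
    haveI : 𝔫.IsPrime := h𝔫.isPrime
    by_cases hx : (⟨algebraMap KN EN j⁻¹, algebraMap_coord_mem_chartOne j⁻¹⟩ :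
        ↥(chartOne R EN j⁻¹)) ∈ 𝔫
    · have hnc : ¬ (sheetIdeal j⁻¹ Winf two'.chart_le_inf ≤ 𝔫 ∧
          sheetIdeal j⁻¹ W0 two'.chart_le_zero ≤ 𝔫) := fun hcr =>
        h.not_crossing_of_cusp hπ two' 𝔫 hx hcr.1 hcr.2
      exact sheetDatumAt_pair_of_not_crossing two' hπ hu' hK'
        (h.isModelChart_two hπ hjint two') hm.ne' hG'0 hlam hGW hhor₂ 𝔫 h𝔫 hπ𝔫 hnc
    · exact sheetDatumAt_chart_inv_of_notMem fam (fam.inv hπ) hπ hu hK hd₁ 𝔫 h𝔫 hπ𝔫 hx
  -- the leading coefficient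
  have hlc1 : ∀ v : ENˣ, (v : EN) = G' → lc v = 1 := by
    intro v hv
    set cu : K₁ˣ := Units.mk0 c₀ hc₀0 with hcu
    have h1 : ((v * Units.map (algebraMap K₁ EN).toMonoidHom cu : ENˣ) : EN) = G := by
      rw [Units.val_mul, hv]
      show G' * algebraMap K₁ EN c₀ = G
      rw [hG', hc₀E, inv_mul_cancel_right₀ (mul_ne_zero (pow_ne_zero _ hκE0) hεE)]
    have h2 := hlcG _ h1
    rw [map_mul, hlc, Units.val_mul] at h2
    apply Units.ext
    have h3 : ((lc v : K₁ˣ) : K₁) * c₀ = c₀ := h2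
    rw [Units.val_one]
    exact mul_right_cancel₀ hc₀0 (by rw [h3, one_mul])
  obtain ⟨w, hw⟩ := sheet_pow_of_model j hu hK π hπ hm hmR ζ hζ h.const lc hlc fam G' lam hlam hGW
    hG'0 hd₁ hd₂ hlc1
  refine ⟨w, ?_⟩
  rw [← hw, hc₀E, hG', mul_comm, inv_mul_cancel_right₀ (mul_ne_zero (pow_ne_zero _ hκE0) hεE)]

/-- **the constant node datum is an `m`-th root of unity modulo `π`**, as soon as there is a
node. -/
theorem pow_sub_one_mem_span_of_node
    (h : SSModel K₁ π q n S t jM j A B VM Winf W0) (hπ : Irreducible π)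
    {m : ℕ} {G Linf L0 : EN} (hLinf : Winf.valuation Linf = 1) (hL0 : W0.valuation L0 = 1)
    (hGinf : Winf.valuation (G - Linf ^ m) < 1) (hG0 : W0.valuation (G - L0 ^ m) < 1)
    {γ : R} {𝔫 : Ideal ↥(chartOne R EN j)} (h𝔫 : IsNode h.two 𝔫)
    (hnode : @NodeRatioAt R _ EN _ _ (chartOne R EN j) 𝔫 h𝔫.1.isPrime Winf W0 m G Linf L0 γ) :
    γ ^ m - 1 ∈ Ideal.span {π} := by
  haveI := h𝔫.1
  haveI : 𝔫.IsPrime := h𝔫.1.isPrime
  have two := h.two
  have hRinf : ∀ r : R, algebraMap R EN r ∈ Winf := fun r =>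
    two.chart_le_inf _ (Subalgebra.algebraMap_mem _ r)
  have hR0 : ∀ r : R, algebraMap R EN r ∈ W0 := fun r =>
    two.chart_le_zero _ (Subalgebra.algebraMap_mem _ r)
  have hπinf : Winf.valuation (algebraMap R EN π) < 1 :=
    (mem_sheetIdeal_iff j Winf two.chart_le_inf _).mp (two.pi_mem_inf (K₁ := K₁) hπ)
  have hπ0 : W0.valuation (algebraMap R EN π) < 1 :=
    (mem_sheetIdeal_iff j W0 two.chart_le_zero _).mp (two.pi_mem_zero (K₁ := K₁) hπ)
  have hLinf0 : Linf ≠ 0 := fun h0 => by rw [h0, map_zero] at hLinf; exact zero_ne_one hLinf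
  have hL00 : L0 ≠ 0 := fun h0 => by rw [h0, map_zero] at hL0; exact zero_ne_one hL0
  have h11 : (1 : R) - 1 ∈ Ideal.span {π} := by rw [sub_self]; exact Ideal.zero_mem _
  have e1 := valuation_div_sub_one_lt hRinf hπinf h11 hLinf hGinf
  have e0 := valuation_div_sub_one_lt hR0 hπ0 h11 hL0 hG0
  rw [map_one, one_mul] at e1 e0
  have hsinf : IsSheetThrough (chartOne R EN j) 𝔫 Winf :=
    isSheetThrough_of_le two.chart_le_inf (mem_sheetIdeal_iff j Winf two.chart_le_inf) h𝔫.2.1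
  have hs0 : IsSheetThrough (chartOne R EN j) 𝔫 W0 :=
    isSheetThrough_of_le two.chart_le_zero (mem_sheetIdeal_iff j W0 two.chart_le_zero) h𝔫.2.2
  have hmem := pow_sub_one_mem_locMax_of_nodeRatio hsinf hs0 hLinf0 hL00 e1 e0 hnode
  have hmem' : algebraMap R ↥(chartOne R EN j) (γ ^ m - 1) ∈ 𝔫 :=
    (coe_mem_locMax_iff (algebraMap R ↥(chartOne R EN j) (γ ^ m - 1))).mp hmem
  have hI : 𝔫.comap (algebraMap R ↥(chartOne R EN j)) ≠ ⊤ := by
    intro htop
    have h1 : (1 : R) ∈ 𝔫.comap (algebraMap R ↥(chartOne R EN j)) := by rw [htop]; trivial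
    rw [Ideal.mem_comap, map_one] at h1
    exact (inferInstance : 𝔫.IsPrime).ne_top ((Ideal.eq_top_iff_one _).mpr h1)
  have hle := IsLocalRing.le_maximalIdeal hI
  rw [Irreducible.maximalIdeal_eq hπ] at hle
  exact hle hmem'

end Model

section Cusp

variable {R : Type*} [CommRing R] [IsDomain R] [IsDiscreteValuationRing R] [CharZero R]
  {K₁ : Type*} [Field K₁] [Algebra R K₁] [IsFractionRing R K₁]
  {KM : Type*} [Field KM] [Algebra K₁ KM] [Algebra R KM] [IsScalarTower R K₁ KM]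
  {EM : Type*} [Field EM] [Algebra KM EM] [Algebra K₁ EM] [IsScalarTower K₁ KM EM] [Algebra R EM]
  [IsScalarTower R KM EM]
  {KN : Type*} [Field KN] [Algebra K₁ KN] [Algebra R KN] [IsScalarTower R K₁ KN]
  {EN : Type*} [Field EN] [Algebra KN EN] [Algebra K₁ EN] [IsScalarTower K₁ KN EN] [Algebra R EN]
  [IsScalarTower R KN EN] [FiniteDimensional KN EN]
  {π : R} {q n : ℕ} {S : Finset R} {t : KM} {jM : EM} {j : KN} {A B : EM →+* EN}
  {VM : ValuationSubring EM} {Winf W0 : ValuationSubring EN}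

set_option maxHeartbeats 800000 in
/-- **the order along `W_∞` of a monic function with `m`-divisible divisor is divisible by `m`**
(helper4's `cusp36_dvd_of_family` at a cusp point `𝔫` of the chart `j⁻¹` through which `W_∞`
passes, on the two-sheeted model). -/
theorem dvd_of_cusp [IsAlgClosed (IsLocalRing.ResidueField R)]
    (h : SSModel K₁ π q n S t jM j A B VM Winf W0) (hπ : Irreducible π)
    (hjint : IsIntegral ↥(Algebra.adjoin R {B jM}) (A jM))
    (𝔫 : Ideal ↥(chartOne R EN j⁻¹)) (h𝔫 : 𝔫.IsMaximal)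
    (hπ𝔫 : algebraMap R ↥(chartOne R EN j⁻¹) π ∈ 𝔫)
    (hx : (⟨algebraMap KN EN j⁻¹, algebraMap_coord_mem_chartOne j⁻¹⟩ :
      ↥(chartOne R EN j⁻¹)) ∈ 𝔫)
    (hinf : sheetIdeal j⁻¹ Winf (h.two.inv hπ).chart_le_inf ≤ 𝔫)
    (lc : ENˣ →* K₁ˣ)
    (hlcπ : ∀ v : ENˣ, (v : EN) = algebraMap R EN π → ((lc v : K₁ˣ) : K₁) = algebraMap R K₁ π)
    (hlcunit : ∀ b : ↥(chartOne R EN j⁻¹), b ∉ 𝔫 → ∀ v : ENˣ, (v : EN) = (b : EN) →
      ∃ ε : Rˣ, ((lc v : K₁ˣ) : K₁) = algebraMap R K₁ (ε : R))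
    {m : ℕ} {G : EN} (hG : G ≠ 0) (hlcG : ∀ v : ENˣ, (v : EN) = G → lc v = 1)
    (hord : ∀ P : AlgebraicCurve.Place K₁ EN, (m : ℤ) ∣ P.ord G)
    (a : ℤ) (ha : Winf.valuation G = Winf.valuation (algebraMap R EN π) ^ a) :
    (m : ℤ) ∣ a := by
  haveI := h𝔫
  haveI : 𝔫.IsPrime := h𝔫.isPrime
  have hu' := transcendental_inv_of_transcendental h.j_transcendental
  have hK' := adjoin_inv_eq_top h.j_adjoin
  have two' := h.two.inv hπ
  have fam' := isSheetFamily_pair two'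
  have hmod := h.isModelChart_two hπ hjint two'
  have hn0 : ¬ sheetIdeal j⁻¹ W0 two'.chart_le_zero ≤ 𝔫 := fun h0 =>
    h.not_crossing_of_cusp hπ two' 𝔫 hx hinf h0
  obtain ⟨v, hv⟩ := hmod.branch_inf 𝔫 h𝔫 hπ𝔫 hinf hn0
  obtain ⟨s, hs0, hs𝔫⟩ := SetLike.not_le_iff_exists.mp hn0
  have hinjE : Function.Injective (algebraMap R EN) := by
    rw [IsScalarTower.algebraMap_eq R KN EN, IsScalarTower.algebraMap_eq R K₁ KN]
    exact (algebraMap KN EN).injective.comp
      ((algebraMap K₁ KN).injective.comp (IsFractionRing.injective R K₁))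
  have hπB : algebraMap R ↥(chartOne R EN j⁻¹) π ≠ 0 := by
    intro h0
    have h1 : ((algebraMap R ↥(chartOne R EN j⁻¹) π : ↥(chartOne R EN j⁻¹)) : EN) = 0 := by
      rw [h0]; rfl
    exact hπ.ne_zero (hinjE (by rw [map_zero]; exact h1))
  have hhor := horPow36_of_place (R := R) (K₁ := K₁) (K := KN) (F := EN) j⁻¹ hu' hK' hπ hG hord
  refine cusp36_dvd_of_family (R := R) (K₁ := K₁) (K := KN) (F := EN) fam' hπ hu' hK' 𝔫 0 hinf ?_
    (z := algebraMap R ↥(chartOne R EN j⁻¹) π) (u := v) hmod.mem_inf hπB ?_ hv lc hlcπ hlcunit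
    hG hlcG hhor a ha
  · intro i hi
    fin_cases i
    · rfl
    · exact absurd hi hn0
  · intro w hw
    refine ⟨s, hs𝔫, Ideal.mem_span_singleton.mp (hmod.inf_le ⟨?_, ?_⟩)⟩
    · exact Ideal.mul_mem_left _ s hw
    · exact Ideal.mul_mem_right w _ hs0

end Cusp

section Kappa

variable {R : Type*} [CommRing R] [IsDomain R] [IsDiscreteValuationRing R]
  {K₁ : Type*} [Field K₁] [Algebra R K₁] [IsFractionRing R K₁]

/-- a non-zero element of the fraction field of a discrete valuation ring is a power of the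
uniformizer times a unit. -/
theorem exists_zpow_mul_unit {π : R} (hπ : Irreducible π) {c : K₁} (hc : c ≠ 0) :
    ∃ (v : ℤ) (u : Rˣ), c = algebraMap R K₁ π ^ v * algebraMap R K₁ (u : R) := by
  obtain ⟨a, b, hb, hab⟩ := IsFractionRing.div_surjective (A := R) c
  have hb0 : b ≠ 0 := nonZeroDivisors.ne_zero hb
  have ha0 : a ≠ 0 := by
    rintro rfl
    rw [map_zero, zero_div] at hab
    exact hc hab.symm
  obtain ⟨n₁, u₁, h₁⟩ := IsDiscreteValuationRing.eq_unit_mul_pow_irreducible ha0 hπ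
  obtain ⟨n₂, u₂, h₂⟩ := IsDiscreteValuationRing.eq_unit_mul_pow_irreducible hb0 hπ
  have hπK : algebraMap R K₁ π ≠ 0 :=
    (map_ne_zero_iff _ (IsFractionRing.injective R K₁)).mpr hπ.ne_zero
  have hu₂K : algebraMap R K₁ (u₂ : R) ≠ 0 :=
    (map_ne_zero_iff _ (IsFractionRing.injective R K₁)).mpr u₂.ne_zero
  refine ⟨(n₁ : ℤ) - n₂, u₁ * u₂⁻¹, ?_⟩
  rw [← hab, h₁, h₂, zpow_sub₀ hπK, zpow_natCast, zpow_natCast, Units.val_mul, map_mul, map_mul,
    map_mul, map_pow, map_pow]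
  have h3 : algebraMap R K₁ ((u₂⁻¹ : Rˣ) : R) = (algebraMap R K₁ (u₂ : R))⁻¹ := by
    refine eq_inv_of_mul_eq_one_left ?_
    rw [← map_mul, Units.inv_mul, map_one]
  rw [h3]
  have hπn : algebraMap R K₁ π ^ n₂ ≠ 0 := pow_ne_zero _ hπK
  field_simp

/-- **normalisation of a constant whose valuation is divisible by `m`**: `c = κ ^ m ε` with
`ε ≡ 1` modulo `π` (the residue field is algebraically closed). -/
theorem exists_kappa_eps [IsAlgClosed (IsLocalRing.ResidueField R)] {π : R} (hπ : Irreducible π)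
    {m : ℕ} (hm : 0 < m) {c : K₁} {v : ℤ} {u : Rˣ}
    (hc : c = algebraMap R K₁ π ^ v * algebraMap R K₁ (u : R)) (hdvd : (m : ℤ) ∣ v) :
    ∃ (κ : K₁ˣ) (ε : R), ε - 1 ∈ Ideal.span {π} ∧ c = (κ : K₁) ^ m * algebraMap R K₁ ε := by
  obtain ⟨a, rfl⟩ := hdvd
  have hπK : algebraMap R K₁ π ≠ 0 :=
    (map_ne_zero_iff _ (IsFractionRing.injective R K₁)).mpr hπ.ne_zero
  -- an `m`-th root of `u` modulo `π`
  obtain ⟨g', hg'⟩ := IsAlgClosed.exists_pow_nat_eq (IsLocalRing.residue R (u : R)) hm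
  obtain ⟨g, rfl⟩ := IsLocalRing.residue_surjective g'
  have hmax : IsLocalRing.maximalIdeal R = Ideal.span {π} :=
    (Irreducible.maximalIdeal_eq hπ)
  have hgu : g ^ m - (u : R) ∈ Ideal.span {π} := by
    rw [← hmax, ← Ideal.Quotient.eq_zero_iff_mem]
    show IsLocalRing.residue R (g ^ m - (u : R)) = 0
    rw [map_sub, map_pow, hg', sub_self]
  have hgunit : IsUnit g := by
    by_contra hng
    have hgm : g ∈ IsLocalRing.maximalIdeal R := (IsLocalRing.mem_maximalIdeal g).mpr hng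
    have h1 : g ^ m ∈ Ideal.span {π} := by
      rw [← hmax]; exact Ideal.pow_mem_of_mem _ hgm m hm
    have h2 : (u : R) ∈ Ideal.span {π} := by
      have := (Ideal.span {π}).sub_mem h1 hgu
      simpa using this
    rw [← hmax] at h2
    exact (IsLocalRing.mem_maximalIdeal _).mp h2 u.isUnit
  obtain ⟨gu, rfl⟩ := hgunit
  have hguK : algebraMap R K₁ (gu : R) ≠ 0 :=
    (map_ne_zero_iff _ (IsFractionRing.injective R K₁)).mpr gu.ne_zero
  refine ⟨Units.mk0 (algebraMap R K₁ π ^ a * algebraMap R K₁ (gu : R))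
      (mul_ne_zero (zpow_ne_zero _ hπK) hguK), (u : R) * ((gu⁻¹ ^ m : Rˣ) : R), ?_, ?_⟩
  · have e : (u : R) * ((gu⁻¹ ^ m : Rˣ) : R) - 1 =
        -((gu : R) ^ m - (u : R)) * ((gu⁻¹ ^ m : Rˣ) : R) := by
      have h1 : (gu : R) ^ m * ((gu⁻¹ ^ m : Rˣ) : R) = 1 := by
        rw [← Units.val_pow_eq_pow_val, ← Units.val_mul, ← mul_pow, mul_inv_cancel, one_pow,
          Units.val_one]
      linear_combination h1
    rw [e]
    exact Ideal.mul_mem_right _ _ ((Ideal.span {π}).neg_mem hgu)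
  · rw [hc, Units.val_mk0, mul_pow, ← zpow_natCast (algebraMap R K₁ π ^ a), ← zpow_mul,
      mul_comm a (m : ℤ), map_mul]
    have h1 : algebraMap R K₁ (gu : R) ^ m * algebraMap R K₁ ((gu⁻¹ ^ m : Rˣ) : R) = 1 := by
      rw [← map_pow, ← map_mul, ← Units.val_pow_eq_pow_val, ← Units.val_mul, ← mul_pow,
        mul_inv_cancel, one_pow, Units.val_one, map_one]
    linear_combination (-(algebraMap R K₁ π ^ ((m : ℤ) * a) * algebraMap R K₁ (u : R))) * h1

end Kappa

end Fermat.Agent.ML.INJ
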