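/-
ML — helper7 — **[INJ], part 2: `ML.InjStatement`** (helper5's literal, `Odd m`).
-/
import Mathlib
import Fermat.Agent.ML.INJ_helper7_Abs
import Fermat.Agent.ML.IFACE_helper5_SurjLeaves
import Fermat.Agent.S36.CUSPPT_helper1_Host
import Fermat.Agent.SS.BASE_helper1_Leg
import Fermat.Agent.SS.FIELD_helper9_A
import Fermat.Agent.SS.FIELD_helper3_T
import Fermat.Agent.SS.TOPB_lead_Leg
import Fermat.Agent.FG.EGAL_helper6_PullLeg
import Fermat.Agent.RB.MAZ_helper6_Base

set_option autoImplicit false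
set_option linter.unusedSectionVars false
set_option linter.unusedVariables false
set_option linter.style.haveILetI false
set_option synthInstance.maxHeartbeats 200000

open Polynomial ModularCurve IntermediateField AlgebraicCurve

namespace Fermat.Agent.ML

open Fermat.Agent.JA Fermat.Agent.FF Fermat.Agent.SS Fermat.Agent.S35 Fermat.Agent.MP
  Fermat.Agent.NP Fermat.Agent.GR Fermat.Agent.RB Fermat.Agent.Igusa Fermat.Agent.S36

open scoped Fermat.Agent.JA.Host

/-- `Ω = AlgebraicClosure ℚ`. -/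
local notation "Ω" => AlgebraicClosure ℚ

/-! ### the orders over a base from the orders over `Ω` -/

section Ord

variable (N : ℕ) [NeZero N] (K : IntermediateField ℚ Ω)

/-- base change commutes with the embedding into the Legendre host. -/
theorem legBC_fullToLegE_inj (F : ↥(keyFq ↥K N)) :
    legBC N K (fullToLegE ↥K N F) = fullToLegE Ω N (keyFqBC N K F) :=
  Subtype.ext (coeffMap_fullToLegE N (algebraMap ↥K Ω) F)

/-- **all the orders of `F` in the host over the base are divisible by `m`** as soon as all its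
orders over `Ω` are. -/
theorem dvd_ord_fullToLegE_base {m : ℕ} (F : ↥(keyFq ↥K N))
    (hord : ∀ v : Place Ω ↥(modularFunctionFieldBar N), (m : ℤ) ∣ v.ord (keyFqBC N K F))
    (P : Place ↥K ↥(legE ↥K N)) : (m : ℤ) ∣ P.ord (fullToLegE ↥K N F) := by
  obtain ⟨Q, -, hQord⟩ := exists_place_restrictBC_eq_and_ord (legBC N K) (legBC_algebraMap N K)
    (closure_range_legBC N K) P
  rw [hQord, legBC_fullToLegE_inj]
  exact dvd_ord_fullToLegE N _ hord Q

end Ord

/-! ### from the host to the level field, over `Ω` -/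

section Descent

open Fermat.Agent.FG

variable (N : ℕ) [NeZero N]

/-- the roots of unity of the host over `Ω` are constants. -/
theorem legE_const_of_pow_eq_one {m : ℕ} (hm : m ≠ 0) {z : ↥(legE Ω N)} (hz : z ^ m = 1) :
    ∃ a : Ω, z = algebraMap Ω ↥(legE Ω N) a := by
  have halg : IsAlgebraic Ω z := by
    refine ⟨X ^ m - 1, ?_, ?_⟩
    · exact X_pow_sub_C_ne_zero (Nat.pos_of_ne_zero hm) (1 : Ω)
    · simp [hz]
  have h1 : IsAlgebraic Ω (z : LaurentSeries Ω) := by
    have := halg.algebraMap (A := LaurentSeries Ω)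
    exact this
  obtain ⟨c, hc⟩ := laurentSeries_mem_range_algebraMap_of_isAlgebraic _ h1
  exact ⟨c, Subtype.ext hc.symm⟩

/-- **descent of an `m`-th root along the Legendre cover, `m` odd**: if `φ f = c u ^ m` in the host
then `f = c h ^ m` in the level field. -/
theorem exists_pow_of_fullToLegE_eq {m : ℕ} (hm : Odd m) (f : ↥(keyFq Ω N)) (c : Ω)
    (U : ↥(legE Ω N)) (hU : fullToLegE Ω N f = algebraMap Ω ↥(legE Ω N) c * U ^ m) :
    ∃ h : ↥(keyFq Ω N), f = algebraMap Ω ↥(keyFq Ω N) c * h ^ m := by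
  have hm0 : m ≠ 0 := fun h0 => by rw [h0] at hm; exact absurd hm (by decide)
  by_cases hc : c = 0
  · subst hc
    rw [map_zero, zero_mul] at hU
    refine ⟨0, ?_⟩
    rw [map_zero, zero_mul]
    exact (map_eq_zero _).mp hU
  by_cases hU0 : U = 0
  · subst hU0
    rw [zero_pow hm0, mul_zero] at hU
    refine ⟨0, ?_⟩
    rw [zero_pow hm0, mul_zero]
    exact (map_eq_zero _).mp hU
  have hcE : algebraMap Ω ↥(legE Ω N) c ≠ 0 := (_root_.map_ne_zero _).mpr hc
  -- the character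
  have hpow : ∀ σ : ↥(fixingAlong (fullToLegE Ω N)),
      ((σ : ↥(legE Ω N) ≃ₐ[Ω] ↥(legE Ω N)) U / U) ^ m = 1 := by
    intro σ
    have h1 : (σ : ↥(legE Ω N) ≃ₐ[Ω] ↥(legE Ω N)) (fullToLegE Ω N f) = fullToLegE Ω N f := σ.2 f
    rw [hU, map_mul, AlgEquiv.commutes, map_pow] at h1
    have h2 := mul_left_cancel₀ hcE h1
    rw [div_pow, h2, div_self (pow_ne_zero _ hU0)]
  have hex : ∀ σ : ↥(fixingAlong (fullToLegE Ω N)), ∃ a : Ωˣ,
      (σ : ↥(legE Ω N) ≃ₐ[Ω] ↥(legE Ω N)) U = algebraMap Ω ↥(legE Ω N) (a : Ω) * U := by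
    intro σ
    obtain ⟨a, ha⟩ := legE_const_of_pow_eq_one N hm0 (hpow σ)
    have ha0 : a ≠ 0 := by
      rintro rfl
      rw [map_zero] at ha
      have := hpow σ
      rw [ha, zero_pow hm0] at this
      exact zero_ne_one this
    refine ⟨Units.mk0 a ha0, ?_⟩
    rw [Units.val_mk0, ← ha, div_mul_cancel₀ _ hU0]
  choose χ hχ using hex
  have hχmul : ∀ a b : ↥(fixingAlong (fullToLegE Ω N)), χ (a * b) = χ a * χ b := by
    intro a b
    have h1 : ((a * b : ↥(fixingAlong (fullToLegE Ω N))) : ↥(legE Ω N) ≃ₐ[Ω] ↥(legE Ω N)) U =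
        (a : ↥(legE Ω N) ≃ₐ[Ω] ↥(legE Ω N)) ((b : ↥(legE Ω N) ≃ₐ[Ω] ↥(legE Ω N)) U) := rfl
    have h2 := hχ (a * b)
    rw [h1, hχ b, map_mul, AlgEquiv.commutes, hχ a, ← mul_assoc, ← map_mul] at h2
    have h3 := mul_right_cancel₀ hU0 h2
    have h4 := (algebraMap Ω ↥(legE Ω N)).injective h3
    apply Units.ext
    rw [Units.val_mul, ← h4, mul_comm]
  have hχ2 : ∀ σ, χ σ ^ 2 = 1 := fun σ => legE_char_sq N (MonoidHom.mk' χ hχmul) σ
  have hχm : ∀ σ, χ σ ^ m = 1 := by
    intro σ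
    have h1 := hpow σ
    rw [hχ σ, mul_div_cancel_right₀ _ hU0, ← map_pow] at h1
    apply Units.ext
    rw [Units.val_pow_eq_pow_val, Units.val_one]
    exact (algebraMap Ω ↥(legE Ω N)).injective (by rw [h1, map_one])
  have hχ1 : ∀ σ, χ σ = 1 := by
    intro σ
    obtain ⟨k, hk⟩ := hm
    have h1 := hχm σ
    rw [hk, pow_succ, pow_mul, hχ2 σ, one_pow, one_mul] at h1
    exact h1
  have hfix : ∀ σ ∈ fixingAlong (fullToLegE Ω N), σ U = U := by
    intro σ hσ
    have := hχ ⟨σ, hσ⟩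
    rw [hχ1, Units.val_one, map_one, one_mul] at this
    exact this
  obtain ⟨h, hh⟩ := legE_mem_range_of_fixed N U hfix
  refine ⟨h, (fullToLegE Ω N).toRingHom.injective ?_⟩
  show fullToLegE Ω N f = fullToLegE Ω N (algebraMap Ω ↥(keyFq Ω N) c * h ^ m)
  rw [hU, map_mul, map_pow, hh, AlgHom.commutes]

end Descent

/-! ### the leading coefficient -/

section Lc

variable (R : Type*) [CommRing R] [IsDomain R] [IsDiscreteValuationRing R] [CharZero R]
  [DecidableEq R]
  (K : Type*) [Field K] [Algebra R K] [IsFractionRing R K] [Algebra ℚ K] [Algebra K ℂ]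
  {M q : ℕ} [NeZero M] [NeZero q] [NeZero (M * q)] {x y : ℤ} {π : R}

/-- a unit of the base is a unit of a valuation subring containing the base. -/
theorem valuation_unit_eq_one {E : Type*} [Field E] [Algebra R E] (W : ValuationSubring E)
    (hR : ∀ r : R, algebraMap R E r ∈ W) (u : Rˣ) : W.valuation (algebraMap R E (u : R)) = 1 := by
  have h1 : W.valuation (algebraMap R E (u : R)) ≤ 1 :=
    (ValuationSubring.valuation_le_one_iff _ _).mpr (hR u)
  have h2 : W.valuation (algebraMap R E ((u⁻¹ : Rˣ) : R)) ≤ 1 :=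
    (ValuationSubring.valuation_le_one_iff _ _).mpr (hR _)
  have h3 : W.valuation (algebraMap R E (u : R)) * W.valuation (algebraMap R E ((u⁻¹ : Rˣ) : R)) =
      1 := by
    rw [← map_mul, ← map_mul, Units.mul_inv, map_one, map_one]
  refine le_antisymm h1 ?_
  calc (1 : _) = W.valuation (algebraMap R E (u : R)) *
        W.valuation (algebraMap R E ((u⁻¹ : Rˣ) : R)) := h3.symm
    _ ≤ W.valuation (algebraMap R E (u : R)) * 1 := mul_le_mul_right h2 _
    _ = W.valuation (algebraMap R E (u : R)) := mul_one _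

set_option maxHeartbeats 1600000 in
/-- **the leading coefficient of a `W_∞`-unit with `m`-divisible divisor is `κ ^ m ε`**, `ε ≡ 1`
modulo `π`. -/
theorem exists_kappa_eps_leg [IsAlgClosed (IsLocalRing.ResidueField R)]
    (hπ : Irreducible π) {h2 : IsUnit (2 : R)} {hbez : (q : ℤ) * x + M * y = 1} {hq : q.Prime}
    {hq2 : q ≠ 2} (h : SSModelLeg R K π h2 hbez hq hq2) {m : ℕ} (hm : 0 < m)
    {G : ↥(legE K (M * q))} (hG : G ≠ 0)
    (hGinf : (legWinf R K h2 (M * q)).valuation G = 1)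
    (hord : ∀ P : Place K ↥(legE K (M * q)), (m : ℤ) ∣ P.ord G) :
    ∃ (κ : Kˣ) (ε : R), ε - 1 ∈ Ideal.span {π} ∧
      ((G : ↥(legE K (M * q))) : LaurentSeries K).leadingCoeff =
        (κ : K) ^ m * algebraMap R K ε := by
  haveI : FiniteDimensional ↥K⟮jqNModC K 2⟯ ↥(legE K (M * q)) := finite_legE_adjoin_j K (M * q)
  have hmodel := SSModelLeg.ssModel R K h
  have hjint := SSModelLeg.jint R K hπ h
  have hc₀ : ((G : ↥(legE K (M * q))) : LaurentSeries K).leadingCoeff ≠ 0 :=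
    HahnSeries.leadingCoeff_ne_zero.mpr (fun h0 => hG (Subtype.ext h0))
  obtain ⟨v, u, hc⟩ := INJ.exists_zpow_mul_unit (K₁ := K) hπ hc₀
  set c₀ : K := ((G : ↥(legE K (M * q))) : LaurentSeries K).leadingCoeff with hc₀def
  set G₁ : ↥(legE K (M * q)) := algebraMap K ↥(legE K (M * q)) c₀⁻¹ * G with hG₁def
  have hcE : algebraMap K ↥(legE K (M * q)) c₀⁻¹ ≠ 0 :=
    (_root_.map_ne_zero _).mpr (inv_ne_zero hc₀)
  have hG₁ : G₁ ≠ 0 := mul_ne_zero hcE hG
  have hlead : ((G₁ : ↥(legE K (M * q))) : LaurentSeries K).leadingCoeff = 1 := by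
    rw [hG₁def, IntermediateField.coe_mul, HahnSeries.leadingCoeff_mul,
      IntermediateField.coe_algebraMap_apply, algebraMap_laurentSeries_eq_single,
      HahnSeries.leadingCoeff_of_single, ← hc₀def, inv_mul_cancel₀ hc₀]
  have hlcG₁ := base36_lc_eq_one_of_leadingCoeff (legE K (M * q)) hlead
  have hord₁ : ∀ P : Place K ↥(legE K (M * q)), (m : ℤ) ∣ P.ord G₁ := by
    intro P
    rw [hG₁def, P.ord_mul hcE hG, place_ord_algebraMap_eq_zero P (inv_ne_zero hc₀), zero_add]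
    exact hord P
  have hRinf : ∀ r : R, algebraMap R ↥(legE K (M * q)) r ∈ legWinf R K h2 (M * q) :=
    algebraMap_mem_legWinf R K h2 (M * q)
  have hπinf : (legWinf R K h2 (M * q)).valuation (algebraMap R ↥(legE K (M * q)) π) ≠ 0 := by
    rw [Ne, map_eq_zero, IsScalarTower.algebraMap_apply R K ↥(legE K (M * q)), map_eq_zero,
      map_eq_zero_iff _ (IsFractionRing.injective R K)]
    exact hπ.ne_zero
  have ha : (legWinf R K h2 (M * q)).valuation G₁ =
      (legWinf R K h2 (M * q)).valuation (algebraMap R ↥(legE K (M * q)) π) ^ (-v) := by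
    have e : algebraMap K ↥(legE K (M * q)) c₀ =
        algebraMap R ↥(legE K (M * q)) π ^ v * algebraMap R ↥(legE K (M * q)) (u : R) := by
      rw [hc, map_mul, map_zpow₀, ← IsScalarTower.algebraMap_apply R K ↥(legE K (M * q)),
        ← IsScalarTower.algebraMap_apply R K ↥(legE K (M * q))]
    rw [hG₁def, map_mul, hGinf, mul_one, map_inv₀, map_inv₀, e, map_mul, map_zpow₀,
      valuation_unit_eq_one R _ hRinf u, mul_one, zpow_neg]
  have hdvd : (m : ℤ) ∣ -v :=
    INJ.dvd_of_cusp hmodel hπ hjint (hostCuspPt R K 2 (legE K (M * q)))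
      (hostCuspPt_isMaximal R K 2 (legE K (M * q))) (pi_mem_hostCuspPt R K 2 (legE K (M * q)) hπ)
      (coord_mem_hostCuspPt R K 2 (legE K (M * q)))
      (sheetIdeal_gauss_le_hostCuspPt R K 2 (legE K (M * q)) (legE_le_gaussField R K h2 (M * q))
        (hmodel.two.inv hπ).chart_le_inf)
      (hostLc (legE K (M * q)))
      (fun w hw => hostCuspPt_hlcπ R K 2 (legE K (M * q)) π w (by rw [hw]; rfl))
      (fun b hb w hw => hostCuspPt_hlcunit R K 2 (legE K (M * q)) b hb w (by rw [hw]; rfl))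
      hG₁ hlcG₁ hord₁ (-v) ha
  exact INJ.exists_kappa_eps hπ hm hc ((dvd_neg).mp hdvd)

end Lc

set_option maxHeartbeats 1600000 in
/-- **[INJ]** (helper5's literal): a toric triple whose node datum is the same constant at all the
nodes is, over `Ω`, a constant times an `m`-th power (`m` odd, prime to `q`). -/
theorem injStatement : InjStatement := by
  intro M q m _ _ _ hq hq2 hq5 hqM hmodd hqm A hA K hK _ _ _ π hπ h2 x y hbez
  letI := baseToComplex K
  intro hmodel F Linf L0 htor γ hnode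
  obtain ⟨hF0, hordΩ, hLinf, hL0, hGinf, hG0⟩ := htor
  haveI : FiniteDimensional ↥(↥K)⟮jqNModC ↥K 2⟯ ↥(legE ↥K (M * q)) :=
    finite_legE_adjoin_j ↥K (M * q)
  haveI : Fact q.Prime := ⟨hq⟩
  haveI := hK.isBase.isAlgClosed_residueField hA
  have hm : 0 < m := hmodd.pos
  obtain ⟨ζ, hζ⟩ := hK.isBase.exists_isPrimitiveRoot_baseRing A hm hqm
  have hmR : IsUnit ((m : ℕ) : ↥(baseRing A K)) := isUnit_natCast_baseRing hA hqm
  have hss := SSModelLeg.ssModel ↥(baseRing A K) ↥K hmodel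
  have hjint := SSModelLeg.jint ↥(baseRing A K) ↥K hπ hmodel
  have hG : fullToLegE ↥K (M * q) F ≠ 0 := (_root_.map_ne_zero _).mpr hF0
  have hord : ∀ P : Place ↥K ↥(legE ↥K (M * q)), (m : ℤ) ∣ P.ord (fullToLegE ↥K (M * q) F) :=
    dvd_ord_fullToLegE_base (M * q) K F hordΩ
  have hGinf1 : (legWinf ↥(baseRing A K) ↥K h2 (M * q)).valuation (fullToLegE ↥K (M * q) F) = 1 :=
    valuation_eq_one_of_sub_lt_one _ (a := Linf ^ m) (by rw [map_pow, hLinf, one_pow]) hGinf
  obtain ⟨κ, ε, hε, hlead⟩ := exists_kappa_eps_leg ↥(baseRing A K) ↥K hπ hmodel hm hG hGinf1 hord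
  -- the constant node datum, an `m`-th root of unity modulo `π`
  obtain ⟨γ', hγ', hnode'⟩ : ∃ γ' : ↥(baseRing A K), γ' ^ m - 1 ∈ Ideal.span {π} ∧
      ∀ (𝔫 : Ideal ↥(chartOne ↥(baseRing A K) ↥(legE ↥K (M * q))
        (AdjoinSimple.gen ↥K (jqNModC ↥K 2)))) (h𝔫 : S35.IsNode hss.two 𝔫),
        @NodeRatioAt ↥(baseRing A K) _ ↥(legE ↥K (M * q)) _ _
          (chartOne ↥(baseRing A K) ↥(legE ↥K (M * q)) (AdjoinSimple.gen ↥K (jqNModC ↥K 2))) 𝔫
          h𝔫.1.isPrime (legWinf ↥(baseRing A K) ↥K h2 (M * q)) (legW0 ↥(baseRing A K) ↥K hbez hq) m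
          (fullToLegE ↥K (M * q) F) Linf L0 γ' := by
    by_cases hex : ∃ 𝔫 : Ideal ↥(chartOne ↥(baseRing A K) ↥(legE ↥K (M * q))
        (AdjoinSimple.gen ↥K (jqNModC ↥K 2))), S35.IsNode hss.two 𝔫
    · obtain ⟨𝔫, h𝔫⟩ := hex
      exact ⟨γ, INJ.pow_sub_one_mem_span_of_node hss hπ hLinf hL0 hGinf hG0 h𝔫 (hnode 𝔫 h𝔫),
        hnode⟩
    · refine ⟨1, ?_, fun 𝔫 h𝔫 => absurd ⟨𝔫, h𝔫⟩ hex⟩
      rw [one_pow, sub_self]
      exact Ideal.zero_mem _
  obtain ⟨w, hw⟩ := INJ.pow_of_constant_nodeRatio hss hπ hjint hm hmR ζ hζ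
    (hostLc (legE ↥K (M * q))) (hostLc_algebraMap (legE ↥K (M * q))) hLinf hL0 hGinf hG0 hord γ' hγ'
    hnode' κ ε hε (fun v hv => by rw [coe_hostLc, hv]; exact hlead)
  -- descent
  have h1 : fullToLegE Ω (M * q) (keyFqBC (M * q) K F) =
      algebraMap Ω ↥(legE Ω (M * q))
        (algebraMap ↥K Ω ((κ : ↥K) ^ m * algebraMap ↥(baseRing A K) ↥K ε)) *
        legBC (M * q) K w ^ m := by
    rw [← legBC_fullToLegE_inj, hw, map_mul, map_pow, legBC_algebraMap]
  obtain ⟨h, hh⟩ := exists_pow_of_fullToLegE_eq (M * q) hmodd _ _ _ h1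
  exact ⟨_, h, hh⟩

end Fermat.Agent.ML
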