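/-
PROJECT ML (S59) — helper4 — **[DECK], part 2 (abstract): automorphisms of a two-sheeted host.**

`E` a finite extension of the coordinate field `KN = K(j)`, `σ` a `K`-automorphism of `E` fixing `j`.
* `apply_algebraMap_coord` : `σ` fixes `KN` pointwise (when `KN = K(j)`);
* `apply_mem_chartOne` : `σ` preserves the chart `chartOne R E j`;
* `sheets_fixed` : `σ` preserves each of the two sheets `W_∞`, `W_0` of an `IsTwoSheet` as soon as it
  fixes an element `U` with `U⁻¹ ∈ W_∞`, `U⁻¹ ∉ W_0` (the node unit);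
* `valuation_apply_*` : an automorphism preserving a valuation subring preserves its valuation
  classes `≤ 1`, `< 1`, `= 1`;
* `involution_congr` : an involution `τ` preserving `W` and fixing `R` and `G₀` moves a unit root `L`
  of `G₀` of ODD exponent `m` (`G₀ ≡ L ^ m` on `W`) to a root congruent to `L` (`R` contains a primitive
  `m`-th root of unity).
-/
import Mathlib
import Fermat.Agent.SS.VERT_helper4

set_option autoImplicit false
set_option linter.unusedSectionVars false
set_option linter.unusedVariables false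
set_option linter.style.haveILetI false

namespace Fermat.Agent.ML.Deck

open Fermat.Agent.SS Fermat.Agent.JA Polynomial

/-! ### valuation subrings and automorphisms -/

section Val

variable {E : Type*} [Field E] (W : ValuationSubring E) (σ : E ≃+* E)
  (hσ : ∀ x : E, x ∈ W ↔ σ x ∈ W)

include hσ in
theorem valuation_apply_le_one_iff (x : E) : W.valuation (σ x) ≤ 1 ↔ W.valuation x ≤ 1 := by
  rw [ValuationSubring.valuation_le_one_iff, ValuationSubring.valuation_le_one_iff]
  exact (hσ x).symm

include hσ in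
theorem valuation_apply_lt_one_iff (x : E) : W.valuation (σ x) < 1 ↔ W.valuation x < 1 := by
  by_cases hx : x = 0
  · rw [hx, map_zero]
  · have hσx : σ x ≠ 0 := (map_ne_zero_iff _ σ.injective).mpr hx
    rw [← not_le, ← not_le, Valuation.one_le_val_iff _ hσx, Valuation.one_le_val_iff _ hx,
      ← map_inv₀, valuation_apply_le_one_iff W σ hσ]

include hσ in
theorem valuation_apply_eq_one_iff (x : E) : W.valuation (σ x) = 1 ↔ W.valuation x = 1 := by
  have h1 := valuation_apply_le_one_iff W σ hσ x
  have h2 := valuation_apply_lt_one_iff W σ hσ x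
  constructor
  · intro h
    exact le_antisymm (h1.mp h.le) (not_lt.mp fun hlt => (h2.mpr hlt).ne h)
  · intro h
    exact le_antisymm (h1.mpr h.le) (not_lt.mp fun hlt => (h2.mp hlt).ne h)

end Val

/-! ### the coordinate field and the chart -/

section Chart

variable {R : Type*} [CommRing R] {K : Type*} [Field K] [Algebra R K]
  {KN : Type*} [Field KN] [Algebra K KN] [Algebra R KN] [IsScalarTower R K KN]
  {E : Type*} [Field E] [Algebra KN E] [Algebra K E] [Algebra R E] [IsScalarTower K KN E]
  [IsScalarTower R KN E] [IsScalarTower R K E]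

/-- a `K`-automorphism fixes the image of `R`. -/
theorem apply_algebraMap_base (σ : E ≃ₐ[K] E) (r : R) :
    σ (algebraMap R E r) = algebraMap R E r := by
  rw [IsScalarTower.algebraMap_apply R K E, σ.commutes]

/-- a `K`-automorphism of `E` fixing the generator `j` of `KN = K(j)` fixes `KN` pointwise. -/
theorem apply_algebraMap_coord {j : KN} (hj : IntermediateField.adjoin K {j} = ⊤)
    (σ : E ≃ₐ[K] E) (hσj : σ (algebraMap KN E j) = algebraMap KN E j) (y : KN) :
    σ (algebraMap KN E y) = algebraMap KN E y := by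
  let S : IntermediateField K KN :=
    { carrier := {y | σ (algebraMap KN E y) = algebraMap KN E y}
      mul_mem' := by
        intro a b ha hb
        show σ (algebraMap KN E (a * b)) = algebraMap KN E (a * b)
        rw [map_mul, map_mul, ha, hb]
      add_mem' := by
        intro a b ha hb
        show σ (algebraMap KN E (a + b)) = algebraMap KN E (a + b)
        rw [map_add, map_add, ha, hb]
      algebraMap_mem' := by
        intro c
        show σ (algebraMap KN E (algebraMap K KN c)) = algebraMap KN E (algebraMap K KN c)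
        rw [← IsScalarTower.algebraMap_apply K KN E, σ.commutes]
      inv_mem' := by
        intro a ha
        show σ (algebraMap KN E a⁻¹) = algebraMap KN E a⁻¹
        rw [map_inv₀, map_inv₀, ha] }
  have hle : IntermediateField.adjoin K {j} ≤ S := by
    rw [IntermediateField.adjoin_le_iff, Set.singleton_subset_iff]
    exact hσj
  rw [hj] at hle
  exact hle (IntermediateField.mem_top)

/-- a `K`-automorphism of `E` fixing `j` preserves the chart `chartOne R E j`. -/
theorem apply_mem_chartOne {j : KN} (σ : E ≃ₐ[K] E)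
    (hσj : σ (algebraMap KN E j) = algebraMap KN E j) {x : E} (hx : x ∈ chartOne R E j) :
    σ x ∈ chartOne R E j := by
  rw [mem_chartOne_iff] at hx ⊢
  refine IsIntegral.map_of_comp_eq (RingHom.id ↥(Algebra.adjoin R {j})) (σ : E →+* E) ?_ hx
  refine RingHom.ext fun a => ?_
  show algebraMap KN E (a : KN) = σ (algebraMap KN E (a : KN))
  symm
  let S : Subalgebra R KN :=
    { carrier := {y | σ (algebraMap KN E y) = algebraMap KN E y}
      mul_mem' := by
        intro a b ha hb
        show σ (algebraMap KN E (a * b)) = algebraMap KN E (a * b)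
        rw [map_mul, map_mul, ha, hb]
      add_mem' := by
        intro a b ha hb
        show σ (algebraMap KN E (a + b)) = algebraMap KN E (a + b)
        rw [map_add, map_add, ha, hb]
      algebraMap_mem' := by
        intro c
        show σ (algebraMap KN E (algebraMap R KN c)) = algebraMap KN E (algebraMap R KN c)
        rw [← IsScalarTower.algebraMap_apply R KN E]
        exact apply_algebraMap_base σ c }
  have hle : Algebra.adjoin R {j} ≤ S := by
    rw [Algebra.adjoin_le_iff, Set.singleton_subset_iff]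
    exact hσj
  exact hle a.2

end Chart

/-! ### the two sheets -/

section Sheets

variable {R : Type*} [CommRing R] [IsDomain R] [IsDiscreteValuationRing R] [CharZero R]
  {KN : Type*} [Field KN] [Algebra R KN]
  {E : Type*} [Field E] [Algebra KN E] [Algebra R E] [IsScalarTower R KN E]
  [FiniteDimensional KN E] {π : R} {j : KN} {Winf W0 : ValuationSubring E}

/-- **an automorphism fixing the coordinate field and the node unit preserves both sheets.** -/
theorem sheets_fixed (h2 : IsTwoSheet π j Winf W0) (σ : E ≃+* E)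
    (hσK : ∀ y : KN, σ (algebraMap KN E y) = algebraMap KN E y) {U : E} (hσU : σ U = U)
    (hUinf : U⁻¹ ∈ Winf) (hU0 : U⁻¹ ∉ W0) :
    (∀ x : E, x ∈ Winf ↔ σ x ∈ Winf) ∧ (∀ x : E, x ∈ W0 ↔ σ x ∈ W0) := by
  have hsymK : ∀ y : KN, σ.symm (algebraMap KN E y) = algebraMap KN E y := by
    intro y
    rw [RingEquiv.symm_apply_eq, hσK]
  have hsymU : σ.symm U⁻¹ = U⁻¹ := by
    rw [RingEquiv.symm_apply_eq, map_inv₀, hσU]
  have hres : ∀ W : ValuationSubring E,
      (W.comap (σ.symm : E →+* E)).comap (algebraMap KN E) = W.comap (algebraMap KN E) := by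
    intro W
    ext y
    rw [ValuationSubring.mem_comap, ValuationSubring.mem_comap, ValuationSubring.mem_comap]
    show σ.symm (algebraMap KN E y) ∈ W ↔ _
    rw [hsymK]
  constructor
  · have h1 : Winf.comap (σ.symm : E →+* E) = Winf ∨ Winf.comap (σ.symm : E →+* E) = W0 :=
      h2.only _ (by rw [hres]; exact h2.gauss_inf)
    have h3 : Winf.comap (σ.symm : E →+* E) = Winf := by
      rcases h1 with h1 | h1
      · exact h1
      · exfalso
        apply hU0
        rw [← h1, ValuationSubring.mem_comap]
        show σ.symm U⁻¹ ∈ Winf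
        rw [hsymU]
        exact hUinf
    intro x
    have h4 : σ x ∈ Winf.comap (σ.symm : E →+* E) ↔ σ x ∈ Winf := by rw [h3]
    rw [ValuationSubring.mem_comap] at h4
    have h5 : (σ.symm : E →+* E) (σ x) = x := σ.symm_apply_apply x
    rw [h5] at h4
    exact h4
  · have h1 : W0.comap (σ.symm : E →+* E) = Winf ∨ W0.comap (σ.symm : E →+* E) = W0 :=
      h2.only _ (by rw [hres]; exact h2.gauss_zero)
    have h3 : W0.comap (σ.symm : E →+* E) = W0 := by
      rcases h1 with h1 | h1
      · exfalso
        apply hU0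
        have h6 : U⁻¹ ∈ W0.comap (σ.symm : E →+* E) := by rw [h1]; exact hUinf
        rw [ValuationSubring.mem_comap] at h6
        have h7 : (σ.symm : E →+* E) U⁻¹ = U⁻¹ := hsymU
        rw [h7] at h6
        exact h6
      · exact h1
    intro x
    have h4 : σ x ∈ W0.comap (σ.symm : E →+* E) ↔ σ x ∈ W0 := by rw [h3]
    rw [ValuationSubring.mem_comap] at h4
    have h5 : (σ.symm : E →+* E) (σ x) = x := σ.symm_apply_apply x
    rw [h5] at h4
    exact h4

end Sheets

/-! ### involutions and unit roots of odd exponent -/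

section Invol

variable {R : Type*} [CommRing R] {E : Type*} [Field E] [Algebra R E]
  (W : ValuationSubring E)

/-- if `u ^ m ≡ 1` on `W` then `u` is congruent to an `m`-th root of unity of `R`. -/
theorem exists_root_congr (hinj : Function.Injective (algebraMap R E)) {m : ℕ} (hm : m ≠ 0)
    {ξ : R} (hξ : IsPrimitiveRoot ξ m) (hR : ∀ r : R, algebraMap R E r ∈ W) {u : E}
    (hu : W.valuation u = 1) (hum : W.valuation (u ^ m - 1) < 1) :
    ∃ i : ℕ, W.valuation (u - algebraMap R E (ξ ^ i)) < 1 := by
  classical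
  haveI : NeZero m := ⟨hm⟩
  have hξE : IsPrimitiveRoot (algebraMap R E ξ) m := hξ.map_of_injective hinj
  have h1 := hξE.pow_sub_pow_eq_prod_sub_mul u 1 (Nat.pos_of_ne_zero hm)
  rw [one_pow] at h1
  rw [h1, map_prod] at hum
  have hroot : ∀ μ ∈ Polynomial.nthRootsFinset m (1 : E), ∃ i : ℕ, μ = algebraMap R E (ξ ^ i) := by
    intro μ hμ
    have hμ1 : μ ^ m = 1 := (Polynomial.mem_nthRootsFinset (Nat.pos_of_ne_zero hm) 1).mp hμ
    obtain ⟨i, -, hi⟩ := hξE.eq_pow_of_pow_eq_one hμ1
    exact ⟨i, by rw [map_pow, hi]⟩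
  by_contra hcon
  push Not at hcon
  have h2 : ∀ μ ∈ Polynomial.nthRootsFinset m (1 : E), W.valuation (u - μ * 1) = 1 := by
    intro μ hμ
    obtain ⟨i, rfl⟩ := hroot μ hμ
    rw [mul_one]
    refine le_antisymm ?_ (hcon i)
    rw [ValuationSubring.valuation_le_one_iff]
    refine sub_mem ?_ (hR _)
    rw [← ValuationSubring.valuation_le_one_iff, hu]
  rw [Finset.prod_congr rfl h2, Finset.prod_const_one] at hum
  exact lt_irrefl _ hum

/-- **an involution preserving `W`, fixing `R` and `G₀`, moves a unit root of `G₀` of odd exponent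
to a congruent one.** -/
theorem involution_congr (hinj : Function.Injective (algebraMap R E)) {m : ℕ} (hm : Odd m)
    {ξ : R} (hξ : IsPrimitiveRoot ξ m) (hR : ∀ r : R, algebraMap R E r ∈ W)
    (τ : E ≃+* E) (hτW : ∀ x : E, x ∈ W ↔ τ x ∈ W)
    (hτR : ∀ r : R, τ (algebraMap R E r) = algebraMap R E r) (hττ : ∀ x : E, τ (τ x) = x)
    {G₀ L : E} (hG : τ G₀ = G₀) (hL : W.valuation L = 1)
    (hGL : W.valuation (G₀ - L ^ m) < 1) : W.valuation (τ L - L) < 1 := by
  have hm0 : m ≠ 0 := by
    rintro rfl
    exact absurd hm (by decide)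
  have hL0 : L ≠ 0 := fun h => by rw [h, map_zero] at hL; exact zero_ne_one hL
  have hτL : W.valuation (τ L) = 1 := (valuation_apply_eq_one_iff W τ hτW L).mpr hL
  have hτL0 : τ L ≠ 0 := (map_ne_zero_iff _ τ.injective).mpr hL0
  set u : E := τ L / L with hu
  have hu1 : W.valuation u = 1 := by rw [hu, map_div₀, hτL, hL, div_one]
  -- `u ^ m ≡ 1`
  have h1 : W.valuation (τ (L ^ m) - L ^ m) < 1 := by
    have e : τ (L ^ m) - L ^ m = -(τ (G₀ - L ^ m)) + (G₀ - L ^ m) := by
      rw [map_sub, hG]; ring
    rw [e]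
    refine lt_of_le_of_lt (Valuation.map_add _ _ _) (max_lt ?_ hGL)
    rw [Valuation.map_neg]
    exact (valuation_apply_lt_one_iff W τ hτW _).mpr hGL
  have hum : W.valuation (u ^ m - 1) < 1 := by
    have hLm : L ^ m ≠ 0 := pow_ne_zero _ hL0
    have e : u ^ m - 1 = (τ (L ^ m) - L ^ m) / L ^ m := by
      rw [hu, div_pow, map_pow]
      field_simp
    have hLm1 : W.valuation (L ^ m) = 1 := by rw [map_pow, hL, one_pow]
    rw [e, map_div₀, hLm1, div_one]
    exact h1
  obtain ⟨i, hi⟩ := exists_root_congr W hinj hm0 hξ hR hu1 hum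
  set z : E := algebraMap R E (ξ ^ i) with hz
  have hzW : z ∈ W := hR _
  -- `τ u = u⁻¹`
  have hτu : τ u = u⁻¹ := by
    rw [hu, map_div₀, hττ, inv_div]
  -- `u⁻¹ ≡ z`
  have h2 : W.valuation (u⁻¹ - z) < 1 := by
    have := (valuation_apply_lt_one_iff W τ hτW _).mpr hi
    rwa [map_sub, hτu, hz, hτR] at this
  -- `u ^ 2 ≡ 1`
  have hu0 : u ≠ 0 := fun h => by rw [h, map_zero] at hu1; exact zero_ne_one hu1
  have h3 : W.valuation (u - u⁻¹) < 1 := by
    have e : u - u⁻¹ = (u - z) - (u⁻¹ - z) := by ring
    rw [e]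
    exact lt_of_le_of_lt (Valuation.map_sub _ _ _) (max_lt hi h2)
  have h4 : W.valuation (u ^ 2 - 1) < 1 := by
    have e : u ^ 2 - 1 = u * (u - u⁻¹) := by field_simp
    rw [e, map_mul, hu1, one_mul]
    exact h3
  -- `u ≡ 1` since `m` is odd
  obtain ⟨k, hk⟩ := hm
  have h5 : W.valuation ((u ^ 2) ^ k - 1) < 1 := by
    have e : (u ^ 2) ^ k - 1 = (u ^ 2 - 1) * ∑ i ∈ Finset.range k, (u ^ 2) ^ i := by
      rw [mul_comm]
      exact (geom_sum_mul (u ^ 2) k).symm
    rw [e, map_mul]
    have hS : W.valuation (∑ i ∈ Finset.range k, (u ^ 2) ^ i) ≤ 1 := by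
      refine Valuation.map_sum_le _ (fun i _ => ?_)
      rw [map_pow, map_pow, hu1, one_pow, one_pow]
    calc W.valuation (u ^ 2 - 1) * W.valuation (∑ i ∈ Finset.range k, (u ^ 2) ^ i)
        ≤ W.valuation (u ^ 2 - 1) * 1 := mul_le_mul_right hS _
      _ < 1 := by rw [mul_one]; exact h4
  have h6 : W.valuation (u - 1) < 1 := by
    have e : u - 1 = (u ^ m - 1) - u * ((u ^ 2) ^ k - 1) := by
      rw [hk]; ring
    rw [e]
    refine lt_of_le_of_lt (Valuation.map_sub _ _ _) (max_lt hum ?_)
    rw [map_mul, hu1, one_mul]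
    exact h5
  have e : τ L - L = (u - 1) * L := by
    rw [hu]; field_simp
  rw [e, map_mul, hL, mul_one]
  exact h6

end Invol

end Fermat.Agent.ML.Deck
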