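/-
PROJECT ML (S59) — helper4 — **[DECK], part 1: the Galois theory of the Legendre cover over a
general base field `K`** (port of `FG/EGAL_helper6_PullLeg` from `Ω = ℚ̄` to any field `K ⊇ ℚ`).

`F = keyFq K N` (the function field of `X₀(N)` over `K`), `E = legE K N = F_2(t)`,
`φ = fullToLegE K N` (`q = x²`).  `E / φ F` is Galois (generated by `t`, whose conjugates are its
anharmonic transforms), the fixed field of the deck group `fixingAlong φ` is `φ F`, the group
contains a transposition (because `√(j − 1728)` has an odd `x`-expansion, so does not lie in `φ F`),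
hence all its characters are killed by `2`.
-/
import Mathlib
import Fermat.Agent.FG.EGAL_helper6_Gen
import Fermat.Agent.FG.EGAL_helper6_S3
import Fermat.Agent.FG.EGAL_helper6_CuspLeg
import Fermat.Agent.FG.EGAL_helper6_PullLeg
import Fermat.Agent.SS.CUSPORD_helper9_Main

set_option autoImplicit false
set_option linter.unusedSectionVars false
set_option linter.unusedVariables false
set_option linter.style.haveILetI false
set_option synthInstance.maxHeartbeats 400000

open IntermediateField AlgebraicCurve ModularCurve Polynomial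

namespace Fermat.Agent.ML.Deck

open Fermat.Agent.JA Fermat.Agent.SS Fermat.Agent.GR Fermat.Agent.FF Fermat.Agent.FG
open scoped Fermat.Agent.JA.Host

variable (K : Type*) [Field K] [Algebra ℚ K] (N : ℕ) [NeZero N]

/-- `j` as an element of the function field of `X₀(N)` over `K`. -/
noncomputable def deckJ : ↥(keyFq K N) := ⟨jqModC K, jqModC_mem_keyFq N⟩

theorem fullToLegE_deckJ : fullToLegE K N (deckJ K N) = legJE K N := Subtype.ext rfl

/-- the Legendre relation in `legE K N`. -/
theorem deck_legTE_rel :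
    legJE K N * (legTE K N ^ 2 * (legTE K N - 1) ^ 2) =
      256 * (legTE K N ^ 2 - legTE K N + 1) ^ 3 := by
  apply Subtype.ext
  have h := jqNModC_mul_aeval_legT K
  rw [Host.aeval_legA, Host.aeval_legB] at h
  exact h

theorem deck_legTE_ne_zero : legTE K N ≠ 0 := by
  intro h
  apply transcendental_legT K
  have : legT K = 0 := congrArg Subtype.val h
  rw [this]
  exact isAlgebraic_zero

theorem deck_legTE_ne_one : legTE K N ≠ 1 := by
  intro h
  apply transcendental_legT K
  have : legT K = 1 := congrArg Subtype.val h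
  rw [this]
  exact isAlgebraic_one

theorem deck_finiteAlong : FiniteAlong K (fullToLegE K N) := finite_fullToLegE K N

/-- `E = φ(F)(t)` -/
theorem deck_adjoin_legTE_eq_top :
    letI := algebraAlong (fullToLegE K N)
    IntermediateField.adjoin ↥(keyFq K N) {legTE K N} = ⊤ :=
  adjoin_fullToEtu_eq_top K N 2 (legT K)

/-- the Legendre sextic over `F`. -/
noncomputable def deckSextic : (↥(keyFq K N))[X] :=
  C 256 * (X ^ 2 - X + 1) ^ 3 - C (deckJ K N) * (X ^ 2 * (X - 1) ^ 2)

theorem deckSextic_ne_zero : deckSextic K N ≠ 0 := by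
  haveI : CharZero K := algebraRat.charZero K
  haveI : CharZero ↥(keyFq K N) :=
    charZero_of_injective_algebraMap (algebraMap K ↥(keyFq K N)).injective
  intro h
  have h1 := congrArg (Polynomial.eval 0) h
  simp [deckSextic] at h1

theorem deckSextic_map : (deckSextic K N).map (fullToLegE K N).toRingHom =
    C 256 * (X ^ 2 - X + 1) ^ 3 - C (legJE K N) * (X ^ 2 * (X - 1) ^ 2) := by
  have h : (fullToLegE K N).toRingHom (deckJ K N) = legJE K N := fullToLegE_deckJ K N
  simp only [deckSextic, Polynomial.map_sub, Polynomial.map_mul, Polynomial.map_pow,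
    Polynomial.map_add, Polynomial.map_one, map_X, map_C, h, map_ofNat, Polynomial.map_ofNat]

theorem deckSextic_eval :
    ((deckSextic K N).map (fullToLegE K N).toRingHom).eval (legTE K N) = 0 := by
  rw [deckSextic_map]
  simp only [eval_sub, eval_mul, eval_pow, eval_add, eval_one, eval_X, eval_C]
  linear_combination -(deck_legTE_rel K N)

theorem deckSextic_splits : ((deckSextic K N).map (fullToLegE K N).toRingHom).Splits := by
  set t := legTE K N with ht
  have ht0 : t ≠ 0 := deck_legTE_ne_zero K N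
  have ht1 : t - 1 ≠ 0 := sub_ne_zero.mpr (deck_legTE_ne_one K N)
  have hc : t ^ 2 * (t - 1) ^ 2 ≠ 0 := mul_ne_zero (pow_ne_zero 2 ht0) (pow_ne_zero 2 ht1)
  set P : (↥(legE K N))[X] := (X - C t) * (X - C (1 - t)) * (C t * X - 1) * (C (1 - t) * X - 1) *
    (C t * X - C (t - 1)) * (C (t - 1) * X - C t) with hP
  have hPs : P.Splits := by
    have hlin : ∀ a b : ↥(legE K N), (C a * X - C b : (↥(legE K N))[X]).Splits := fun a b =>
      Splits.of_degree_le_one (by
        rw [sub_eq_add_neg, ← C_neg]
        exact degree_linear_le)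
    have h1 : (C t * X - 1 : (↥(legE K N))[X]) = C t * X - C 1 := by rw [C_1]
    have h2 : (C (1 - t) * X - 1 : (↥(legE K N))[X]) = C (1 - t) * X - C 1 := by rw [C_1]
    rw [hP, h1, h2]
    exact ((((((Splits.X_sub_C t).mul (Splits.X_sub_C (1 - t))).mul (hlin t 1)).mul
      (hlin (1 - t) 1)).mul (hlin t (t - 1))).mul (hlin (t - 1) t))
  have key : (deckSextic K N).map (fullToLegE K N).toRingHom =
      C (-256 / (t ^ 2 * (t - 1) ^ 2)) * P := by
    apply mul_left_cancel₀ (C_ne_zero.mpr hc)
    rw [← mul_assoc, ← C_mul, mul_div_cancel₀ _ hc, deckSextic_map]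
    have hrel : C (legJE K N) * C (t ^ 2 * (t - 1) ^ 2) =
        (C (256 * (t ^ 2 - t + 1) ^ 3) : (↥(legE K N))[X]) := by
      rw [← C_mul, deck_legTE_rel K N]
    rw [hP]
    simp only [C_mul, C_pow, C_sub, C_add, C_1, C_neg, C_ofNat] at hrel ⊢
    linear_combination (-(X ^ 2 * (X - 1) ^ 2 : (↥(legE K N))[X])) * hrel
  rw [key]
  exact hPs.C_mul _

/-- **`E / φ F` is Galois.** -/
theorem deck_isGalois :
    letI := algebraAlong (fullToLegE K N)
    IsGalois ↥(keyFq K N) ↥(legE K N) :=
  haveI : CharZero K := algebraRat.charZero K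
  isGalois_along_of_splits (fullToLegE K N) (deck_finiteAlong K N) (legTE K N)
    (deck_adjoin_legTE_eq_top K N) (deckSextic K N) (deckSextic_ne_zero K N) (deckSextic_eval K N)
    (deckSextic_splits K N)

/-- the fixed field of the automorphisms of the cover is `φ F`. -/
theorem deck_mem_range_of_fixed (y : ↥(legE K N))
    (hy : ∀ h ∈ fixingAlong (fullToLegE K N), h y = y) : y ∈ Set.range (fullToLegE K N) :=
  haveI : CharZero K := algebraRat.charZero K
  mem_range_of_fixingAlong_fixed (fullToLegE K N) (deck_finiteAlong K N) (deck_isGalois K N) y hy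

/-- faithfulness of the action on `t`. -/
theorem deck_eq_one_of_apply_legTE {h : ↥(legE K N) ≃ₐ[K] ↥(legE K N)}
    (hh : h ∈ fixingAlong (fullToLegE K N)) (ht : h (legTE K N) = legTE K N) : h = 1 := by
  refine eq_one_of_apply_generator (fullToLegE K N) (legTE K N) (deck_adjoin_legTE_eq_top K N) ?_
    hh ht
  letI := algebraAlong (fullToLegE K N)
  haveI : Module.Finite ↥(keyFq K N) ↥(legE K N) := deck_finiteAlong K N
  exact IsIntegral.of_finite _ _

/-- the automorphisms of the cover fix `j`. -/
theorem deck_apply_legJE {h : ↥(legE K N) ≃ₐ[K] ↥(legE K N)}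
    (hh : h ∈ fixingAlong (fullToLegE K N)) : h (legJE K N) = legJE K N := by
  rw [← fullToLegE_deckJ]
  exact hh _

/-- the conjugates of `t` have the same `j`. -/
theorem deck_conj_rel {h : ↥(legE K N) ≃ₐ[K] ↥(legE K N)}
    (hh : h ∈ fixingAlong (fullToLegE K N)) :
    ((h (legTE K N)) ^ 2 - h (legTE K N) + 1) ^ 3 * ((legTE K N) ^ 2 * (legTE K N - 1) ^ 2) =
      ((legTE K N) ^ 2 - legTE K N + 1) ^ 3 * ((h (legTE K N)) ^ 2 * (h (legTE K N) - 1) ^ 2) := by
  haveI : CharZero K := algebraRat.charZero K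
  haveI : CharZero ↥(legE K N) :=
    charZero_of_injective_algebraMap (algebraMap K ↥(legE K N)).injective
  have h1 := deck_legTE_rel K N
  have h2 := congrArg h h1
  simp only [map_mul, map_pow, map_sub, map_add, map_one, map_ofNat, deck_apply_legJE K N hh]
    at h2
  have h256 : (256 : ↥(legE K N)) ≠ 0 := by norm_num
  apply mul_left_cancel₀ h256
  linear_combination ((h (legTE K N)) ^ 2 * (h (legTE K N) - 1) ^ 2) * h1 -
    ((legTE K N) ^ 2 * (legTE K N - 1) ^ 2) * h2

/-- `d = √(j − 1728) / 8` as an element of `E`. -/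
noncomputable def deckD : ↥(legE K N) := legDnum (legTE K N) / legDden (legTE K N)

theorem deck_legDden_ne_zero : legDden (legTE K N) ≠ 0 :=
  mul_ne_zero (deck_legTE_ne_zero K N) (sub_ne_zero.mpr (deck_legTE_ne_one K N))

/-- `64 d² = j − 1728`. -/
theorem deckD_sq : 64 * deckD K N ^ 2 = legJE K N - 1728 := by
  have hd := deck_legDden_ne_zero K N
  have h1 := legD_sq (legTE K N)
  have h2 := deck_legTE_rel K N
  rw [deckD, div_pow, ← h1]
  have hd2 : legDden (legTE K N) ^ 2 ≠ 0 := pow_ne_zero 2 hd
  field_simp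
  have h3 : legDden (legTE K N) ^ 2 = (legTE K N) ^ 2 * (legTE K N - 1) ^ 2 := by
    rw [legDden]; ring
  rw [h3]
  linear_combination (-1 : ↥(legE K N)) * h2

/-- **`√(j − 1728)` does not lie in `φ F`** (its `x`-expansion is odd). -/
theorem deckD_not_mem_range : deckD K N ∉ Set.range (fullToLegE K N) := by
  haveI : CharZero K := algebraRat.charZero K
  rintro ⟨f, hf⟩
  have hsq := congrArg (Subtype.val : ↥(legE K N) → LaurentSeries K) (deckD_sq K N)
  set d : LaurentSeries K := ((deckD K N : ↥(legE K N)) : LaurentSeries K) with hd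
  have hsq' : (64 : LaurentSeries K) * d ^ 2 =
      jqNModC K 2 - algebraMap K (LaurentSeries K) 1728 := by
    rw [← ofNat_laurent_eq_algebraMap]
    exact hsq
  have hord := order_jqNModC_sub_const (K := K) 2 (1728 : K)
  rw [← hsq'] at hord
  have h64 : (64 : LaurentSeries K) ≠ 0 := by
    rw [ofNat_laurent_eq_algebraMap]
    exact (_root_.map_ne_zero _).mpr (by norm_num)
  have hd0 : d ≠ 0 := by
    intro h0
    rw [h0] at hord
    simp at hord
  have h64o : (64 : LaurentSeries K).order = 0 := by
    rw [ofNat_laurent_eq_algebraMap, LaurentSeries.algebraMap_apply]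
    exact HahnSeries.order_C
  rw [HahnSeries.order_mul h64 (pow_ne_zero 2 hd0), h64o, zero_add, pow_two,
    HahnSeries.order_mul hd0 hd0] at hord
  have hdvd : ((2 : ℕ) : ℤ) ∣ d.order := by
    rw [hd, ← hf]
    exact dvd_order_fullToEtu K N 2 (legT K) f
  obtain ⟨m, hm⟩ := hdvd
  push_cast at hm hord
  omega

/-- **the cover has a transposition.** -/
theorem deck_exists_isLegTransp :
    ∃ s ∈ fixingAlong (fullToLegE K N), IsLegTransp (legTE K N) s := by
  haveI : CharZero K := algebraRat.charZero K
  haveI : CharZero ↥(legE K N) :=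
    charZero_of_injective_algebraMap (algebraMap K ↥(legE K N)).injective
  have h1 : ¬ ∀ h ∈ fixingAlong (fullToLegE K N), h (deckD K N) = deckD K N := fun hall =>
    deckD_not_mem_range K N (deck_mem_range_of_fixed K N _ hall)
  push Not at h1
  obtain ⟨s, hs, hsd⟩ := h1
  refine ⟨s, hs, ?_⟩
  have h2 : (2 : ↥(legE K N)) ≠ 0 := two_ne_zero
  have hd0 : legDnum (legTE K N) ≠ 0 := by
    intro h0
    apply deckD_not_mem_range K N
    refine ⟨0, ?_⟩
    rw [map_zero, deckD, h0, zero_div]
  -- `s d = ± d`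
  have hsq : s (deckD K N) ^ 2 = deckD K N ^ 2 := by
    have h3 := congrArg s (deckD_sq K N)
    simp only [map_mul, map_pow, map_sub, map_ofNat, deck_apply_legJE K N hs] at h3
    have h64 : (64 : ↥(legE K N)) ≠ 0 := by norm_num
    apply mul_left_cancel₀ h64
    rw [h3, deckD_sq]
  have hneg : s (deckD K N) = -deckD K N := by
    have h4 : (s (deckD K N) - deckD K N) * (s (deckD K N) + deckD K N) = 0 := by
      linear_combination hsq
    rcases mul_eq_zero.mp h4 with h5 | h5
    · exact absurd (sub_eq_zero.mp h5) hsd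
    · exact eq_neg_of_add_eq_zero_left h5
  exact isLegTransp_of_map_legD_eq_neg (deck_legTE_ne_zero K N) (deck_legTE_ne_one K N) h2 hd0
    (deck_conj_rel K N hs) hneg

/-- **every character of the automorphism group of the Legendre cover is killed by `2`.** -/
theorem deck_char_sq {M : Type*} [CommGroup M] (c : ↥(fixingAlong (fullToLegE K N)) →* M)
    (h : ↥(fixingAlong (fullToLegE K N))) : c h ^ 2 = 1 :=
  char_sq_eq_one_of_legendre (deck_legTE_ne_zero K N) (deck_legTE_ne_one K N)
    (fun _ hh ht => deck_eq_one_of_apply_legTE K N hh ht)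
    (fun _ hh => deck_conj_rel K N hh) (deck_exists_isLegTransp K N) c h

/-- **every deck transformation is a product of two deck transformations of square one.** -/
theorem deck_exists_involutions {s : ↥(legE K N) ≃ₐ[K] ↥(legE K N)}
    (hs : s ∈ fixingAlong (fullToLegE K N)) :
    ∃ a ∈ fixingAlong (fullToLegE K N), ∃ b ∈ fixingAlong (fullToLegE K N),
      a * a = 1 ∧ b * b = 1 ∧ s = a * b := by
  have ht0 := deck_legTE_ne_zero K N
  have ht1 := deck_legTE_ne_one K N
  -- transpositions have square one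
  have htr : ∀ a ∈ fixingAlong (fullToLegE K N), IsLegTransp (legTE K N) a → a * a = 1 := by
    intro a ha hta
    exact deck_eq_one_of_apply_legTE K N ((fixingAlong (fullToLegE K N)).mul_mem ha ha)
      (sq_apply_of_isLegTransp ht0 ht1 hta)
  have hone : (1 : ↥(legE K N) ≃ₐ[K] ↥(legE K N)) ∈ fixingAlong (fullToLegE K N) :=
    (fixingAlong (fullToLegE K N)).one_mem
  -- `3`-cycles
  have hcyc : (s (legTE K N) = (1 - legTE K N)⁻¹ ∨ s (legTE K N) = (legTE K N - 1) / legTE K N) →
      ∃ a ∈ fixingAlong (fullToLegE K N), ∃ b ∈ fixingAlong (fullToLegE K N),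
        a * a = 1 ∧ b * b = 1 ∧ s = a * b := by
    intro hh
    obtain ⟨s₀, hs₀, hts₀⟩ := deck_exists_isLegTransp K N
    have h1 : IsLegTransp (legTE K N) (s₀ * s) := isLegTransp_mul ht0 ht1 hts₀ hh
    have hmem : s₀ * s ∈ fixingAlong (fullToLegE K N) :=
      (fixingAlong (fullToLegE K N)).mul_mem hs₀ hs
    refine ⟨s₀, hs₀, s₀ * s, hmem, htr s₀ hs₀ hts₀, htr _ hmem h1, ?_⟩
    rw [← mul_assoc, htr s₀ hs₀ hts₀, one_mul]
  rcases legendre_six ht0 ht1 (deck_conj_rel K N hs) with hh | hh | hh | hh | hh | hh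
  · have : s = 1 := deck_eq_one_of_apply_legTE K N hs hh
    exact ⟨1, hone, 1, hone, one_mul 1, one_mul 1, by rw [this, one_mul]⟩
  · exact ⟨s, hs, 1, hone, htr s hs (Or.inl hh), one_mul 1, (mul_one s).symm⟩
  · exact ⟨s, hs, 1, hone, htr s hs (Or.inr (Or.inl hh)), one_mul 1, (mul_one s).symm⟩
  · exact hcyc (Or.inl hh)
  · exact hcyc (Or.inr hh)
  · exact ⟨s, hs, 1, hone, htr s hs (Or.inr (Or.inr hh)), one_mul 1, (mul_one s).symm⟩

end Fermat.Agent.ML.Deck
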