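/-
PROJECT ML (S59) — helper4 — **[DECK], part 3 (abstract): transitivity of a Galois group on the
closed points of an invariant subalgebra with the same trace on the base field.**

`E / F` finite Galois, `B ⊆ E` a subalgebra stable under `Gal(E / F)`, `𝔫` a maximal and `𝔫'` a prime
ideal of `B` such that every element of `F ∩ B` lying in `𝔫` lies in `𝔫'`.  Then `𝔫 = σ⁻¹ 𝔫'` for some
`σ ∈ Gal(E / F)` (norms + prime avoidance).
-/
import Mathlib

set_option autoImplicit false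
set_option linter.unusedSectionVars false
set_option linter.unusedVariables false
set_option linter.style.haveILetI false

namespace Fermat.Agent.ML.Deck

section Trans

variable {R : Type*} [CommRing R] {F E : Type*} [Field F] [Field E] [Algebra F E] [Algebra R E]
  [FiniteDimensional F E] [IsGalois F E] (B : Subalgebra R E)
  (hB : ∀ (σ : E ≃ₐ[F] E), ∀ b ∈ B, σ b ∈ B)

/-- the action of an automorphism on the invariant subalgebra. -/
def galRestrict (σ : E ≃ₐ[F] E) : ↥B →+* ↥B where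
  toFun b := ⟨σ b, hB σ b b.2⟩
  map_one' := Subtype.ext (map_one σ)
  map_mul' a b := Subtype.ext (map_mul σ (a : E) (b : E))
  map_zero' := Subtype.ext (map_zero σ)
  map_add' a b := Subtype.ext (map_add σ (a : E) (b : E))

@[simp] theorem coe_galRestrict (σ : E ≃ₐ[F] E) (b : ↥B) :
    ((galRestrict B hB σ b : ↥B) : E) = σ b := rfl

/-- **transitivity.** -/
theorem exists_galois_comap_eq (𝔫 𝔫' : Ideal ↥B) [h𝔫 : 𝔫.IsMaximal] [h𝔫' : 𝔫'.IsPrime]
    (htr : ∀ (f : F) (h : algebraMap F E f ∈ B), (⟨algebraMap F E f, h⟩ : ↥B) ∈ 𝔫 →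
      (⟨algebraMap F E f, h⟩ : ↥B) ∈ 𝔫') :
    ∃ σ : E ≃ₐ[F] E, ∀ b : ↥B, b ∈ 𝔫 ↔ galRestrict B hB σ b ∈ 𝔫' := by
  classical
  have key : ∃ σ : E ≃ₐ[F] E, 𝔫 ≤ 𝔫'.comap (galRestrict B hB σ) := by
    by_contra hcon
    push Not at hcon
    have hsub : ¬ ((𝔫 : Set ↥B) ⊆ ⋃ σ ∈ ((Finset.univ : Finset (E ≃ₐ[F] E)) : Set (E ≃ₐ[F] E)),
        ((𝔫'.comap (galRestrict B hB σ) : Ideal ↥B) : Set ↥B)) := by
      rw [Ideal.subset_union_prime (1 : E ≃ₐ[F] E) (1 : E ≃ₐ[F] E)
        (fun σ _ _ _ => Ideal.comap_isPrime _ _)]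
      rintro ⟨σ, -, hσ⟩
      exact hcon σ hσ
    rw [Set.not_subset] at hsub
    obtain ⟨b, hb, hb'⟩ := hsub
    have hb'' : ∀ σ : E ≃ₐ[F] E, galRestrict B hB σ b ∉ 𝔫' := by
      intro σ hσ
      apply hb'
      simp only [Finset.coe_univ, Set.mem_univ, Set.iUnion_true, Set.mem_iUnion, SetLike.mem_coe]
      exact ⟨σ, hσ⟩
    -- the norm
    set Nb : ↥B := ∏ σ : E ≃ₐ[F] E, galRestrict B hB σ b with hNb
    have hcoe : (Nb : E) = algebraMap F E (Algebra.norm F (b : E)) := by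
      rw [Algebra.norm_eq_prod_automorphisms, hNb]
      have : ((∏ σ : E ≃ₐ[F] E, galRestrict B hB σ b : ↥B) : E) =
          ∏ σ : E ≃ₐ[F] E, ((galRestrict B hB σ b : ↥B) : E) :=
        map_prod B.val _ _
      rw [this]
      rfl
    have hNmem : Nb ∈ 𝔫 := by
      rw [hNb, ← Finset.mul_prod_erase Finset.univ _ (Finset.mem_univ (1 : E ≃ₐ[F] E))]
      refine 𝔫.mul_mem_right _ ?_
      have : galRestrict B hB 1 b = b := Subtype.ext rfl
      rw [this]
      exact hb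
    have hmemB : algebraMap F E (Algebra.norm F (b : E)) ∈ B := by
      rw [← hcoe]; exact Nb.2
    have hN' : (⟨algebraMap F E (Algebra.norm F (b : E)), hmemB⟩ : ↥B) ∈ 𝔫' := by
      apply htr
      have : (⟨algebraMap F E (Algebra.norm F (b : E)), hmemB⟩ : ↥B) = Nb :=
        Subtype.ext hcoe.symm
      rw [this]
      exact hNmem
    have hN'' : Nb ∈ 𝔫' := by
      have : (⟨algebraMap F E (Algebra.norm F (b : E)), hmemB⟩ : ↥B) = Nb :=
        Subtype.ext hcoe.symm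
      rw [← this]
      exact hN'
    rw [hNb, Ideal.IsPrime.prod_mem_iff] at hN''
    obtain ⟨σ, -, hσ⟩ := hN''
    exact hb'' σ hσ
  obtain ⟨σ, hσ⟩ := key
  refine ⟨σ, ?_⟩
  have hne : 𝔫'.comap (galRestrict B hB σ) ≠ ⊤ := (Ideal.comap_isPrime _ _).ne_top
  have heq : 𝔫 = 𝔫'.comap (galRestrict B hB σ) := h𝔫.eq_of_le hne hσ
  intro b
  constructor
  · intro hb
    exact hσ hb
  · intro hb
    rw [heq]
    exact hb

end Trans

end Fermat.Agent.ML.Deck
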