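/-
PROJECT ML (S59) — helper4 — **[DECK], part 4: `ML.deckInvStatement : DeckInvStatement`**
(literal of `ML/IFACE_helper5_SurjLeaves.lean`): the node datum of a two-sheet toric triple of odd
exponent `m` (prime to `q`) only depends on the trace of the node on the level field.

Two nodes `𝔫`, `𝔫'` of the host chart with the same trace on `F = keyFq K (M q)` are conjugate under
the deck group of `legE K (M q) / F` (`Deck.exists_galois_comap_eq`); a deck transformation `σ`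
preserves the chart, both sheets (`Deck.sheets_fixed`, with the node unit `Δ(τ)/Δ(qτ) ∈ F`) and
moves the unit roots `Linf`, `L0` to congruent ones (`Deck.involution_congr`: the deck group is
generated by involutions, `m` is odd), so it transports the local datum at `𝔫` to a local datum at
`𝔫'` with the same ratio (helper3's `IsClosedRootAt.map`, `IsBranchRootAt.map`).
-/
import Mathlib
import Fermat.Agent.ML.IFACE_helper5_SurjLeaves
import Fermat.Agent.ML.DATUM_helper3_Ratio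
import Fermat.Agent.ML.DECK_helper4_Gal
import Fermat.Agent.ML.DECK_helper4_Act
import Fermat.Agent.ML.DECK_helper4_Trans
import Fermat.Agent.MP.PLHOST_helper6_LegUnit

set_option autoImplicit false
set_option linter.unusedSectionVars false
set_option linter.unusedVariables false
set_option linter.style.haveILetI false
set_option synthInstance.maxHeartbeats 400000

open Polynomial ModularCurve IntermediateField AlgebraicCurve

namespace Fermat.Agent.ML

open Fermat.Agent.JA Fermat.Agent.FF Fermat.Agent.SS Fermat.Agent.S35 Fermat.Agent.MP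
  Fermat.Agent.NP Fermat.Agent.GR Fermat.Agent.RB Fermat.Agent.Igusa Fermat.Agent.FG
  Fermat.Agent.MW.NAdic

open scoped Fermat.Agent.JA.Host

/-- `Ω = AlgebraicClosure ℚ`. -/
local notation "Ω" => AlgebraicClosure ℚ

noncomputable section

namespace Deck

/-! ### a branch root only depends on the unit root modulo the sheet -/

section Congr

variable {R : Type*} [CommRing R] {E : Type*} [Field E] [Algebra R E]
  {B : Subalgebra R E} {𝔫 : Ideal ↥B} [h𝔫 : 𝔫.IsPrime] {W : ValuationSubring E}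

theorem isBranchRootAt_congr (hW : IsSheetThrough B 𝔫 W) {lam lam' Γ w : E}
    (h : IsBranchRootAt B 𝔫 W lam Γ w) (hlam : W.valuation lam = 1)
    (hll : W.valuation (lam - lam') < 1) : IsBranchRootAt B 𝔫 W lam' Γ w := by
  refine ⟨h.1, h.2.1, ?_⟩
  have h1 : W.valuation (lam / Γ) = 1 := h.valuation_eq_one hW
  have hΓ : W.valuation Γ = 1 := by
    rw [map_div₀, hlam] at h1
    have hΓ0 : W.valuation Γ ≠ 0 := by
      intro h0
      rw [h0, div_zero] at h1
      exact zero_ne_one h1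
    rw [div_eq_iff hΓ0, one_mul] at h1
    exact h1.symm
  have e : lam' / Γ - w = (lam / Γ - w) - (lam - lam') / Γ := by ring
  rw [e]
  refine lt_of_le_of_lt (Valuation.map_sub _ _ _) (max_lt h.2.2 ?_)
  rw [map_div₀, hΓ, div_one]
  exact hll

end Congr

section Inj

variable (R : Type*) [CommRing R] (K : Type*) [Field K] [Algebra R K] [IsFractionRing R K]
  [Algebra ℚ K] (N : ℕ) [NeZero N]

theorem algebraMap_legE_injective : Function.Injective (algebraMap R ↥(legE K N)) := by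
  intro a b hab
  have h1 := congrArg (Subtype.val : ↥(legE K N) → LaurentSeries K) hab
  have h2 : ∀ r : R, ((algebraMap R ↥(legE K N) r : ↥(legE K N)) : LaurentSeries K) =
      algebraMap R (LaurentSeries K) r := fun r => rfl
  rw [h2, h2, IsScalarTower.algebraMap_apply R K (LaurentSeries K),
    IsScalarTower.algebraMap_apply R K (LaurentSeries K)] at h1
  exact IsFractionRing.injective R K ((algebraMap K (LaurentSeries K)).injective h1)

end Inj

end Deck

/-! ### the statement on one model -/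

section Model

variable (R : Type*) [CommRing R] [IsDomain R] [IsDiscreteValuationRing R] [CharZero R]
  (K : IntermediateField ℚ Ω) [Algebra R ↥K] [IsFractionRing R ↥K]

variable {M q : ℕ} [NeZero M] [NeZero q] [NeZero (M * q)] {x y : ℤ}

set_option maxHeartbeats 3200000 in
/-- **[DECK] on one model**, from a primitive `m`-th root of unity of `R` (`m` odd) and
`q = u π ^ e`, `e ≥ 1`. -/
theorem deckInvAt_of [DecidableEq R] {m : ℕ} (hm : Odd m) {ξ : R} (hξ : IsPrimitiveRoot ξ m)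
    {π : R} (hπ : Irreducible π) (h2 : IsUnit (2 : R)) (hbez : (q : ℤ) * x + M * y = 1)
    (hq : q.Prime) (hq2 : q ≠ 2) {e : ℕ} {u : Rˣ} (he : 1 ≤ e) (hu : (q : R) = u * π ^ e) :
    DeckInvAt R K m π h2 hbez hq hq2 := by
  letI := baseToComplex K
  intro hmodel F Linf L0 htor 𝔫 𝔫' h𝔫 h𝔫' htrace ζ hratio
  haveI : FiniteDimensional ↥(↥K)⟮jqNModC ↥K 2⟯ ↥(legE ↥K (M * q)) :=
    finite_legE_adjoin_j ↥K (M * q)
  have htwo : IsTwoSheet π (AdjoinSimple.gen ↥K (jqNModC ↥K 2)) (legWinf R ↥K h2 (M * q))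
      (legW0 R ↥K hbez hq) := SSModel.two hmodel
  have hjadj : IntermediateField.adjoin ↥K {AdjoinSimple.gen ↥K (jqNModC ↥K 2)} = ⊤ :=
    SSModel.j_adjoin hmodel
  obtain ⟨hF0, -, hLinf, hL0, hGinf, hG0⟩ := htor
  have hm0 : m ≠ 0 := by
    rintro rfl
    exact absurd hm (by decide)
  have hinj : Function.Injective (algebraMap R ↥(legE ↥K (M * q))) :=
    Deck.algebraMap_legE_injective R ↥K (M * q)
  -- the chart is contained in both sheets
  have hBinf := htwo.chart_le_inf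
  have hB0 := htwo.chart_le_zero
  have hRinf : ∀ r : R, algebraMap R ↥(legE ↥K (M * q)) r ∈ legWinf R ↥K h2 (M * q) := fun r =>
    hBinf _ ((chartOne R ↥(legE ↥K (M * q)) (AdjoinSimple.gen ↥K (jqNModC ↥K 2))).algebraMap_mem r)
  have hR0 : ∀ r : R, algebraMap R ↥(legE ↥K (M * q)) r ∈ legW0 R ↥K hbez hq := fun r =>
    hB0 _ ((chartOne R ↥(legE ↥K (M * q)) (AdjoinSimple.gen ↥K (jqNModC ↥K 2))).algebraMap_mem r)
  -- the node unit
  have hU := ssModelLeg_nodeUnit R ↥K hπ h2 hbez hq he hu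
  set U : ↥(legE ↥K (M * q)) :=
    fullToLegE ↥K (M * q) (modUnit ↥K (M * q) q (Dvd.intro_left M rfl)) with hUdef
  have hUinf : U⁻¹ ∈ legWinf R ↥K h2 (M * q) := hU.inv_mem_inf
  have hπinv : (algebraMap R ↥(legE ↥K (M * q)) π)⁻¹ ∉ legW0 R ↥K hbez hq := by
    have h1 := htwo.gauss_zero.2.1
    rw [ValuationSubring.mem_comap, map_inv₀, ← IsScalarTower.algebraMap_apply] at h1
    exact h1
  have hU0 : U⁻¹ ∉ legW0 R ↥K hbez hq := by
    intro hcon
    apply hπinv
    have hπ0 : algebraMap R ↥(legE ↥K (M * q)) π ≠ 0 :=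
      (map_ne_zero_iff _ hinj).mpr hπ.ne_zero
    have h1 : (algebraMap R ↥(legE ↥K (M * q)) π ^ (12 * e))⁻¹ ∈ legW0 R ↥K hbez hq := by
      have e1 : (algebraMap R ↥(legE ↥K (M * q)) π ^ (12 * e))⁻¹ =
          U⁻¹ * (U * (algebraMap R ↥(legE ↥K (M * q)) π ^ (12 * e))⁻¹) := by
        rw [← mul_assoc, inv_mul_cancel₀ hU.ne_zero, one_mul]
      rw [e1]
      exact (legW0 R ↥K hbez hq).mul_mem _ _ hcon hU.mem_zero
    obtain ⟨c, hc⟩ : ∃ c, 12 * e = c + 1 := ⟨12 * e - 1, by omega⟩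
    have e2 : (algebraMap R ↥(legE ↥K (M * q)) π)⁻¹ =
        algebraMap R ↥(legE ↥K (M * q)) π ^ c *
          (algebraMap R ↥(legE ↥K (M * q)) π ^ (12 * e))⁻¹ := by
      rw [hc, pow_succ]
      field_simp
    rw [e2]
    exact (legW0 R ↥K hbez hq).mul_mem _ _ ((legW0 R ↥K hbez hq).pow_mem (hR0 π) c) h1
  -- the deck transformations
  have hdeck : ∀ s ∈ fixingAlong (fullToLegE ↥K (M * q)),
      (∀ b ∈ chartOne R ↥(legE ↥K (M * q)) (AdjoinSimple.gen ↥K (jqNModC ↥K 2)),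
        s b ∈ chartOne R ↥(legE ↥K (M * q)) (AdjoinSimple.gen ↥K (jqNModC ↥K 2))) ∧
      (∀ z : ↥(legE ↥K (M * q)), z ∈ legWinf R ↥K h2 (M * q) ↔
        s z ∈ legWinf R ↥K h2 (M * q)) ∧
      (∀ z : ↥(legE ↥K (M * q)), z ∈ legW0 R ↥K hbez hq ↔ s z ∈ legW0 R ↥K hbez hq) := by
    intro s hs
    have hsj : s (algebraMap ↥(↥K)⟮jqNModC ↥K 2⟯ ↥(legE ↥K (M * q))
        (AdjoinSimple.gen ↥K (jqNModC ↥K 2))) =
        algebraMap ↥(↥K)⟮jqNModC ↥K 2⟯ ↥(legE ↥K (M * q)) (AdjoinSimple.gen ↥K (jqNModC ↥K 2)) :=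
      Deck.deck_apply_legJE ↥K (M * q) hs
    have hsK := Deck.apply_algebraMap_coord hjadj s hsj
    have hsU : s U = U := hs _
    have h3 := Deck.sheets_fixed htwo (s : ↥(legE ↥K (M * q)) ≃+* ↥(legE ↥K (M * q))) hsK hsU
      hUinf hU0
    exact ⟨fun b hb => Deck.apply_mem_chartOne s hsj hb, h3.1, h3.2⟩
  -- the unit roots are moved to congruent ones
  have hcong : ∀ (W : ValuationSubring ↥(legE ↥K (M * q))) (L : ↥(legE ↥K (M * q))),
      (∀ r : R, algebraMap R ↥(legE ↥K (M * q)) r ∈ W) →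
      (∀ s ∈ fixingAlong (fullToLegE ↥K (M * q)), ∀ z : ↥(legE ↥K (M * q)), z ∈ W ↔ s z ∈ W) →
      W.valuation L = 1 → W.valuation (fullToLegE ↥K (M * q) F - L ^ m) < 1 →
      ∀ s ∈ fixingAlong (fullToLegE ↥K (M * q)), W.valuation (s L - L) < 1 := by
    intro W L hRW hWs hL hGL s hs
    obtain ⟨a, ha, b, hb, haa, hbb, rfl⟩ := Deck.deck_exists_involutions ↥K (M * q) hs
    have hinv : ∀ c ∈ fixingAlong (fullToLegE ↥K (M * q)), c * c = 1 →
        W.valuation (c L - L) < 1 := by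
      intro c hc hcc
      refine Deck.involution_congr W hinj hm hξ hRW
        (c : ↥(legE ↥K (M * q)) ≃+* ↥(legE ↥K (M * q))) (hWs c hc)
        (fun r => Deck.apply_algebraMap_base c r) ?_ (hc F) hL hGL
      intro z
      have := congrArg (fun f : ↥(legE ↥K (M * q)) ≃ₐ[↥K] ↥(legE ↥K (M * q)) => f z) hcc
      exact this
    have e1 : (a * b) L - L = a (b L - L) + (a L - L) := by
      rw [AlgEquiv.mul_apply, map_sub]
      ring
    rw [e1]
    refine lt_of_le_of_lt (Valuation.map_add _ _ _) (max_lt ?_ (hinv a ha haa))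
    exact (Deck.valuation_apply_lt_one_iff W
      (a : ↥(legE ↥K (M * q)) ≃+* ↥(legE ↥K (M * q))) (hWs a ha) _).mpr (hinv b hb hbb)
  -- transitivity
  letI := algebraAlong (fullToLegE ↥K (M * q))
  haveI := isScalarTower_along (fullToLegE ↥K (M * q))
  haveI : Module.Finite ↥(keyFq ↥K (M * q)) ↥(legE ↥K (M * q)) := Deck.deck_finiteAlong ↥K (M * q)
  haveI : IsGalois ↥(keyFq ↥K (M * q)) ↥(legE ↥K (M * q)) := Deck.deck_isGalois ↥K (M * q)
  have hBσ : ∀ (σ : ↥(legE ↥K (M * q)) ≃ₐ[↥(keyFq ↥K (M * q))] ↥(legE ↥K (M * q))),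
      ∀ b ∈ chartOne R ↥(legE ↥K (M * q)) (AdjoinSimple.gen ↥K (jqNModC ↥K 2)),
        σ b ∈ chartOne R ↥(legE ↥K (M * q)) (AdjoinSimple.gen ↥K (jqNModC ↥K 2)) := by
    intro σ b hb
    exact (hdeck _ (restrictScalars_mem_fixingAlong (fullToLegE ↥K (M * q)) σ)).1 b hb
  haveI := h𝔫.1
  haveI := h𝔫'.1
  haveI h𝔫p : 𝔫.IsPrime := h𝔫.1.isPrime
  haveI h𝔫'p : 𝔫'.IsPrime := h𝔫'.1.isPrime
  obtain ⟨σ, hσ⟩ := Deck.exists_galois_comap_eq
    (chartOne R ↥(legE ↥K (M * q)) (AdjoinSimple.gen ↥K (jqNModC ↥K 2))) hBσ 𝔫 𝔫' (by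
      intro f hf hmem
      have h1 : f ∈ legNodeTrace R ↥K (M * q) 𝔫 := ⟨hf, hmem⟩
      rw [htrace] at h1
      obtain ⟨hf', hmem'⟩ := h1
      exact hmem')
  set s : ↥(legE ↥K (M * q)) ≃ₐ[↥K] ↥(legE ↥K (M * q)) := σ.restrictScalars ↥K with hsdef
  have hs : s ∈ fixingAlong (fullToLegE ↥K (M * q)) :=
    restrictScalars_mem_fixingAlong (fullToLegE ↥K (M * q)) σ
  obtain ⟨hsB, hsinf, hs0⟩ := hdeck s hs
  have hφ𝔫 : ∀ b : ↥(chartOne R ↥(legE ↥K (M * q)) (AdjoinSimple.gen ↥K (jqNModC ↥K 2))),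
      b ∈ 𝔫 ↔ (⟨(s : ↥(legE ↥K (M * q)) →+* ↥(legE ↥K (M * q))) b, hsB b b.2⟩ :
        ↥(chartOne R ↥(legE ↥K (M * q)) (AdjoinSimple.gen ↥K (jqNModC ↥K 2)))) ∈ 𝔫' := hσ
  -- the sheets pass through `𝔫'`
  have hthr_inf : IsSheetThrough
      (chartOne R ↥(legE ↥K (M * q)) (AdjoinSimple.gen ↥K (jqNModC ↥K 2))) 𝔫'
      (legWinf R ↥K h2 (M * q)) :=
    isSheetThrough_of_le hBinf (mem_sheetIdeal_iff _ _ hBinf) h𝔫'.2.1
  have hthr_zero : IsSheetThrough
      (chartOne R ↥(legE ↥K (M * q)) (AdjoinSimple.gen ↥K (jqNModC ↥K 2))) 𝔫'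
      (legW0 R ↥K hbez hq) :=
    isSheetThrough_of_le hB0 (mem_sheetIdeal_iff _ _ hB0) h𝔫'.2.2
  -- transport of the local datum
  obtain ⟨Γ, winf, w0, hΓ, hwinf, hw0, hr⟩ := nodeRatioAt_iff.mp hratio
  have hsF : s (fullToLegE ↥K (M * q) F) = fullToLegE ↥K (M * q) F := hs F
  have hΓ' := IsClosedRootAt.map (s : ↥(legE ↥K (M * q)) →+* ↥(legE ↥K (M * q))) hsB hφ𝔫 hΓ
  have hwinf' := IsBranchRootAt.map (s : ↥(legE ↥K (M * q)) →+* ↥(legE ↥K (M * q))) hsB hφ𝔫
    (W₁ := legWinf R ↥K h2 (M * q)) (W := legWinf R ↥K h2 (M * q))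
    (fun z hz => (Deck.valuation_apply_lt_one_iff _
      (s : ↥(legE ↥K (M * q)) ≃+* ↥(legE ↥K (M * q))) hsinf z).mpr hz) hwinf
  have hw0' := IsBranchRootAt.map (s : ↥(legE ↥K (M * q)) →+* ↥(legE ↥K (M * q))) hsB hφ𝔫
    (W₁ := legW0 R ↥K hbez hq) (W := legW0 R ↥K hbez hq)
    (fun z hz => (Deck.valuation_apply_lt_one_iff _
      (s : ↥(legE ↥K (M * q)) ≃+* ↥(legE ↥K (M * q))) hs0 z).mpr hz) hw0
  have hr' := map_mem_locMax (s : ↥(legE ↥K (M * q)) →+* ↥(legE ↥K (M * q))) hsB hφ𝔫 hr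
  refine nodeRatioAt_iff.mpr ⟨s Γ, s winf, s w0, ?_, ?_, ?_, ?_⟩
  · have := hΓ'
    rw [show (s : ↥(legE ↥K (M * q)) →+* ↥(legE ↥K (M * q))) (fullToLegE ↥K (M * q) F) =
      fullToLegE ↥K (M * q) F from hsF] at this
    exact this
  · refine Deck.isBranchRootAt_congr hthr_inf hwinf' ?_ ?_
    · exact (Deck.valuation_apply_eq_one_iff _
        (s : ↥(legE ↥K (M * q)) ≃+* ↥(legE ↥K (M * q))) hsinf Linf).mpr hLinf
    · exact hcong _ Linf hRinf (fun c hc => (hdeck c hc).2.1) hLinf hGinf s hs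
  · refine Deck.isBranchRootAt_congr hthr_zero hw0' ?_ ?_
    · exact (Deck.valuation_apply_eq_one_iff _
        (s : ↥(legE ↥K (M * q)) ≃+* ↥(legE ↥K (M * q))) hs0 L0).mpr hL0
    · exact hcong _ L0 hR0 (fun c hc => (hdeck c hc).2.2) hL0 hG0 s hs
  · have e1 : (s : ↥(legE ↥K (M * q)) →+* ↥(legE ↥K (M * q)))
        (winf - algebraMap R ↥(legE ↥K (M * q)) ζ * w0) =
        s winf - algebraMap R ↥(legE ↥K (M * q)) ζ * s w0 := by
      show s (winf - algebraMap R ↥(legE ↥K (M * q)) ζ * w0) = _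
      rw [map_sub, map_mul, Deck.apply_algebraMap_base s ζ]
    rw [e1] at hr'
    exact hr'

end Model

/-- **[DECK], all levels.** -/
theorem deckInvStatement : DeckInvStatement := by
  intro M q m _ _ _ hq hq2 hq5 hqM hm hqm A hA K hK _ _ _ π hπ h2 x y hbez
  haveI : Fact q.Prime := ⟨hq⟩
  obtain ⟨ξ, hξ⟩ := hK.1.exists_isPrimitiveRoot_baseRing A hm.pos hqm
  have hqirr : Irreducible ((q : ℕ) : ↥(baseRing A K)) := hK.irreducible hA
  obtain ⟨u, hu⟩ := IsDiscreteValuationRing.associated_of_irreducible _ hπ hqirr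
  refine deckInvAt_of ↥(baseRing A K) K hm hξ hπ h2 hbez hq hq2 (e := 1) (u := u) le_rfl ?_
  rw [pow_one, ← hu, mul_comm]

end

end Fermat.Agent.ML
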