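/-
ML — helper3 — **[MSQ] leaf (b), [INJ3] part 2 (abstract): a toric function on the three-sheet model
whose two node data are constant along the triple points is a constant times an `m`-th power.**

Setting of `S36.sheetDatumAt_three_sheet_chart` (level `M'q`: `IsTwoSheet` + `IsModelChart` on the
chart `j₁` of `E₁`; level `M'q²`: the sheet family `W : Fin 3 → _` on the chart `j₂` of `E`, the two
degeneracy maps `α β : E₁ → E`), WITHOUT the norms and the local equations at the triple points: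
the closed data at the triple points come from the hypothesis on the node data
(`INJ3.sheetDatumAt_fin3_of_nodeRatio`), the closed data at the single-sheet points from
`S36.sheetDatumAt_of_single_sheet`, the chart `j₂⁻¹` from `S36.sheetDatumAt_chart_inv_of_notMem`
and the single-sheet structure at the cusps; `S36.sheet_pow_of_model` concludes (the three-sheet
analogue of helper7's `INJ.pow_of_constant_nodeRatio`).
-/
import Mathlib
import Fermat.Agent.ML.MSQ_helper3_Inj3Node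
import Fermat.Agent.ML.INJ_helper7_Abs
import Fermat.Agent.S36.POINTS36_helper3_Final

set_option autoImplicit false
set_option linter.unusedSectionVars false
set_option linter.unusedVariables false
set_option linter.style.haveILetI false

namespace Fermat.Agent.ML.INJ3

open Fermat.Agent.SS Fermat.Agent.JA Fermat.Agent.S36 Fermat.Agent.S35 Fermat.Agent.ML

section Abs

variable {R : Type*} [CommRing R] [IsDomain R] [IsDiscreteValuationRing R] [CharZero R]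
  {K₁ : Type*} [Field K₁] [Algebra R K₁] [IsFractionRing R K₁]
  {KN₁ : Type*} [Field KN₁] [Algebra K₁ KN₁] [Algebra R KN₁] [IsScalarTower R K₁ KN₁]
  {E₁ : Type*} [Field E₁] [Algebra KN₁ E₁] [Algebra R E₁] [IsScalarTower R KN₁ E₁]
  [FiniteDimensional KN₁ E₁]
  {KN₂ : Type*} [Field KN₂] [Algebra K₁ KN₂] [Algebra R KN₂] [IsScalarTower R K₁ KN₂]
  {E : Type*} [Field E] [Algebra KN₂ E] [Algebra K₁ E] [IsScalarTower K₁ KN₂ E] [Algebra R E]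
  [IsScalarTower R KN₂ E] [FiniteDimensional KN₂ E]
  {π : R} {j₁ : KN₁} {j₂ : KN₂} {W10 W01 : ValuationSubring E₁} {W : Fin 3 → ValuationSubring E}

set_option maxHeartbeats 3200000 in
/-- **[INJ3], abstract form.** -/
theorem pow_of_constant_ratios3 [IsAlgClosed (IsLocalRing.ResidueField R)] (hπ : Irreducible π)
    (hj₁ : Transcendental K₁ j₁) (hKj₁ : IntermediateField.adjoin K₁ {j₁} = ⊤)
    (hj₂ : Transcendental K₁ j₂) (hKj₂ : IntermediateField.adjoin K₁ {j₂} = ⊤)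
    (h2 : IsTwoSheet π j₁ W10 W01)
    (hmod : IsModelChart E₁ π (sheetIdeal j₁ W10 h2.chart_le_inf)
      (sheetIdeal j₁ W01 h2.chart_le_zero))
    (fam : IsSheetFamily π j₂ W) (fam' : IsSheetFamily π j₂⁻¹ W) (α β : E₁ →+* E)
    (hαR : ∀ r : R, α (algebraMap R E₁ r) = algebraMap R E r)
    (hβR : ∀ r : R, β (algebraMap R E₁ r) = algebraMap R E r)
    (hαB : ∀ b ∈ chartOne R E₁ j₁, α b ∈ chartOne R E j₂)
    (hβB : ∀ b ∈ chartOne R E₁ j₁, β b ∈ chartOne R E j₂)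
    (hαint : (chartRestrictHom (B' := chartOne R E₁ j₁) (B := chartOne R E j₂) α hαB).IsIntegral)
    (hβint : (chartRestrictHom (B' := chartOne R E₁ j₁) (B := chartOne R E j₂) β hβB).IsIntegral)
    (hα0 : (W 0).comap α = W10) (hα1 : (W 1).comap α = W10) (hα2 : (W 2).comap α = W01)
    (hβ0 : (W 0).comap β = W10) (hβ1 : (W 1).comap β = W01) (hβ2 : (W 2).comap β = W01)
    {q : ℕ} (hq : 0 < q)
    (hinsα : ∀ x ∈ W 2, ∃ a ∈ W01, (W 2).valuation (x ^ q - α a) < 1)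
    (hinsβ : ∀ x ∈ W 0, ∃ a ∈ W10, (W 0).valuation (x ^ q - β a) < 1)
    (hresα0 : ∀ x ∈ W 0, ∃ a ∈ W10, (W 0).valuation (x - α a) < 1)
    (hresα1 : ∀ x ∈ W 1, ∃ a ∈ W10, (W 1).valuation (x - α a) < 1)
    (hresβ2 : ∀ x ∈ W 2, ∃ a ∈ W01, (W 2).valuation (x - β a) < 1)
    (he0 : ∀ x : E, (W 0).valuation x < 1 → x * (algebraMap R E π)⁻¹ ∈ W 0)
    (he2 : ∀ x : E, (W 2).valuation x < 1 → x * (algebraMap R E π)⁻¹ ∈ W 2)
    -- local equations on the chart `j₂`: `W11`-only points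
    (hLE1 : ∀ (𝔫 : Ideal ↥(chartOne R E j₂)) (_ : 𝔫.IsMaximal),
      sheetIdeal j₂ (W 1) (fam.chart_le 1) ≤ 𝔫 →
      (∀ l, sheetIdeal j₂ (W l) (fam.chart_le l) ≤ 𝔫 → l = 1) →
      ∃ z : ↥(chartOne R E j₂), z ∈ sheetIdeal j₂ (W 1) (fam.chart_le 1) ∧ z ≠ 0 ∧
        ∀ w ∈ sheetIdeal j₂ (W 1) (fam.chart_le 1),
          ∃ s : ↥(chartOne R E j₂), s ∉ 𝔫 ∧ z ∣ s * w)
    -- the cusps of the chart `j₂⁻¹`
    (hcusp : ∀ (𝔫 : Ideal ↥(chartOne R E j₂⁻¹)) (_ : 𝔫.IsMaximal),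
      algebraMap R ↥(chartOne R E j₂⁻¹) π ∈ 𝔫 →
      (⟨algebraMap KN₂ E j₂⁻¹, algebraMap_coord_mem_chartOne j₂⁻¹⟩ : ↥(chartOne R E j₂⁻¹)) ∈ 𝔫 →
      ∃ (l₀ : Fin 3) (z v : ↥(chartOne R E j₂⁻¹)),
        sheetIdeal j₂⁻¹ (W l₀) (fam'.chart_le l₀) ≤ 𝔫 ∧
        (∀ l, sheetIdeal j₂⁻¹ (W l) (fam'.chart_le l) ≤ 𝔫 → l = l₀) ∧
        z ∈ sheetIdeal j₂⁻¹ (W l₀) (fam'.chart_le l₀) ∧ z ≠ 0 ∧
        (∀ w ∈ sheetIdeal j₂⁻¹ (W l₀) (fam'.chart_le l₀),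
          ∃ s : ↥(chartOne R E j₂⁻¹), s ∉ 𝔫 ∧ z ∣ s * w) ∧
        IsBranchUniformizer (sheetIdeal j₂⁻¹ (W l₀) (fam'.chart_le l₀)) 𝔫 v)
    -- the Kummer data
    {m : ℕ} (hm : 0 < m) (hmR : IsUnit (m : R)) (ζ : R) (hζ : IsPrimitiveRoot ζ m)
    (hM4 : ∀ x : E, IsAlgebraic K₁ x → x ∈ Set.range (algebraMap K₁ E))
    (lc : Eˣ →* K₁ˣ) (hlc : ∀ c : K₁ˣ, lc (Units.map (algebraMap K₁ E).toMonoidHom c) = c)
    -- the function
    {G : E} {lam : Fin 3 → E} (hlam1 : ∀ l, (W l).valuation (lam l) = 1)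
    (hGlam : ∀ l, (W l).valuation (G - lam l ^ m) < 1)
    (hord : ∀ P : AlgebraicCurve.Place K₁ E, (m : ℤ) ∣ P.ord G)
    (γ₁ γ₂ : R) (hγ₁ : γ₁ ^ m - 1 ∈ Ideal.span {π}) (hγ₂ : γ₂ ^ m - 1 ∈ Ideal.span {π})
    (hnode : ∀ (𝔫 : Ideal ↥(chartOne R E j₂)) (h𝔫 : 𝔫.IsMaximal),
      (∀ l, sheetIdeal j₂ (W l) (fam.chart_le l) ≤ 𝔫) →
      @NodeRatioAt R _ E _ _ (chartOne R E j₂) 𝔫 h𝔫.isPrime (W 0) (W 1) m G (lam 0) (lam 1) γ₁ ∧
      @NodeRatioAt R _ E _ _ (chartOne R E j₂) 𝔫 h𝔫.isPrime (W 1) (W 2) m G (lam 1) (lam 2) γ₂)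
    (κ : K₁ˣ) (ε : R) (hε : ε - 1 ∈ Ideal.span {π})
    (hlcG : ∀ v : Eˣ, (v : E) = G → ((lc v : K₁ˣ) : K₁) = (κ : K₁) ^ m * algebraMap R K₁ ε) :
    ∃ w : E, G = algebraMap K₁ E ((κ : K₁) ^ m * algebraMap R K₁ ε) * w ^ m := by
  classical
  have hu' := transcendental_inv_of_transcendental hj₂
  have hK' := adjoin_inv_eq_top hKj₂
  haveI : IsScalarTower R K₁ E := isScalarTower_base_const R K₁ KN₂ E
  haveI : IsFractionRing ↥(chartOne R E j₂) E := isFractionRing_chartOne (K₁ := K₁) j₂ hKj₂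
  -- the base ring in the sheets
  have hRW : ∀ l, ∀ r : R, algebraMap R E r ∈ W l := fun l r =>
    fam.chart_le l _ (Subalgebra.algebraMap_mem _ r)
  have hπW : ∀ l, (W l).valuation (algebraMap R E π) < 1 := fun l =>
    (mem_sheetIdeal_iff j₂ (W l) (fam.chart_le l) _).mp (sinfemb_pi_mem_sheetIdeal (fam.gauss l))
  -- non-vanishing
  have hone : (1 : R) ∉ Ideal.span {π} := fun h1 =>
    hπ.not_isUnit (Ideal.span_singleton_eq_top.mp ((Ideal.eq_top_iff_one _).mpr h1))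
  have hG : G ≠ 0 := by
    intro h0
    have := hGlam 0
    rw [h0, zero_sub, Valuation.map_neg, map_pow, hlam1 0, one_pow] at this
    exact lt_irrefl _ this
  have hlam0 : ∀ l, lam l ≠ 0 := fun l h0 => by
    have := hlam1 l
    rw [h0, map_zero] at this
    exact zero_ne_one this
  have hinjE : Function.Injective (algebraMap R E) := by
    rw [IsScalarTower.algebraMap_eq R K₁ E]
    exact (algebraMap K₁ E).injective.comp (IsFractionRing.injective R K₁)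
  have hne0 : ∀ δ : R, δ - 1 ∈ Ideal.span {π} → δ ≠ 0 := by
    rintro δ hδ rfl
    rw [zero_sub] at hδ
    exact hone (by simpa using (Ideal.span {π}).neg_mem hδ)
  have hpow0 : ∀ δ : R, δ ^ m - 1 ∈ Ideal.span {π} → δ ≠ 0 := by
    rintro δ hδ rfl
    rw [zero_pow hm.ne', zero_sub] at hδ
    exact hone (by simpa using (Ideal.span {π}).neg_mem hδ)
  have hε0 : ε ≠ 0 := hne0 ε hε
  have hγ₁0 : γ₁ ≠ 0 := hpow0 γ₁ hγ₁
  have hγ₂0 : γ₂ ≠ 0 := hpow0 γ₂ hγ₂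
  have hγ₁₂ : (γ₁ * γ₂) ^ m - 1 ∈ Ideal.span {π} := by
    have e : (γ₁ * γ₂) ^ m - 1 = (γ₁ ^ m - 1) * γ₂ ^ m + (γ₂ ^ m - 1) := by ring
    rw [e]
    exact (Ideal.span {π}).add_mem (Ideal.mul_mem_right _ _ hγ₁) hγ₂
  have hεE : algebraMap R E ε ≠ 0 := (map_ne_zero_iff _ hinjE).mpr hε0
  have hγ₁E : algebraMap R E γ₁ ≠ 0 := (map_ne_zero_iff _ hinjE).mpr hγ₁0
  have hγ₁₂E : algebraMap R E (γ₁ * γ₂) ≠ 0 :=
    (map_ne_zero_iff _ hinjE).mpr (mul_ne_zero hγ₁0 hγ₂0)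
  set κE : E := algebraMap K₁ E (κ : K₁) with hκE
  have hκE0 : κE ≠ 0 := (map_ne_zero _).mpr κ.ne_zero
  set c₀ : K₁ := (κ : K₁) ^ m * algebraMap R K₁ ε with hc₀
  have hc₀0 : c₀ ≠ 0 := mul_ne_zero (pow_ne_zero _ κ.ne_zero)
    ((map_ne_zero_iff _ (IsFractionRing.injective R K₁)).mpr hε0)
  have hc₀E : algebraMap K₁ E c₀ = κE ^ m * algebraMap R E ε := by
    rw [hc₀, map_mul, map_pow, ← IsScalarTower.algebraMap_apply R K₁ E]
  set G' : E := G * (κE ^ m * algebraMap R E ε)⁻¹ with hG'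
  have hG'0 : G' ≠ 0 := mul_ne_zero hG (inv_ne_zero (mul_ne_zero (pow_ne_zero _ hκE0) hεE))
  set lam' : Fin 3 → E := ![lam 0 / κE, algebraMap R E γ₁ * lam 1 / κE,
    algebraMap R E (γ₁ * γ₂) * lam 2 / κE] with hlam'def
  have hlam' : ∀ i, lam' i ≠ 0 := by
    intro i
    fin_cases i
    · exact div_ne_zero (hlam0 0) hκE0
    · exact div_ne_zero (mul_ne_zero hγ₁E (hlam0 1)) hκE0
    · exact div_ne_zero (mul_ne_zero hγ₁₂E (hlam0 2)) hκE0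
  -- the toric congruences
  have hδ : ∀ δ : R, δ ^ m - 1 ∈ Ideal.span {π} → ε * δ ^ m - 1 ∈ Ideal.span {π} := by
    intro δ hδ
    have e : ε * δ ^ m - 1 = (ε - 1) * δ ^ m + (δ ^ m - 1) := by ring
    rw [e]
    exact (Ideal.span {π}).add_mem (Ideal.mul_mem_right _ _ hε) hδ
  have hκm : κE ^ m ≠ 0 := pow_ne_zero _ hκE0
  have hGW : ∀ i, (W i).valuation (G' / lam' i ^ m - 1) < 1 := by
    intro i
    fin_cases i
    · show (W 0).valuation (G' / (lam 0 / κE) ^ m - 1) < 1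
      have e : G' / (lam 0 / κE) ^ m = G / (algebraMap R E ε * lam 0 ^ m) := by
        rw [hG', div_pow]
        have hLm : lam 0 ^ m ≠ 0 := pow_ne_zero _ (hlam0 0)
        field_simp
      rw [e]
      exact INJ.valuation_div_sub_one_lt (hRW 0) (hπW 0) hε (hlam1 0) (hGlam 0)
    · show (W 1).valuation (G' / (algebraMap R E γ₁ * lam 1 / κE) ^ m - 1) < 1
      have e : G' / (algebraMap R E γ₁ * lam 1 / κE) ^ m =
          G / (algebraMap R E (ε * γ₁ ^ m) * lam 1 ^ m) := by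
        have e2 : algebraMap R E (ε * γ₁ ^ m) =
            algebraMap R E ε * algebraMap R E γ₁ ^ m := by rw [map_mul, map_pow]
        rw [hG', div_pow, mul_pow, e2]
        have hLm : lam 1 ^ m ≠ 0 := pow_ne_zero _ (hlam0 1)
        have hγm : algebraMap R E γ₁ ^ m ≠ 0 := pow_ne_zero _ hγ₁E
        field_simp
      rw [e]
      exact INJ.valuation_div_sub_one_lt (hRW 1) (hπW 1) (hδ γ₁ hγ₁) (hlam1 1) (hGlam 1)
    · show (W 2).valuation (G' / (algebraMap R E (γ₁ * γ₂) * lam 2 / κE) ^ m - 1) < 1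
      have e : G' / (algebraMap R E (γ₁ * γ₂) * lam 2 / κE) ^ m =
          G / (algebraMap R E (ε * (γ₁ * γ₂) ^ m) * lam 2 ^ m) := by
        have e2 : algebraMap R E (ε * (γ₁ * γ₂) ^ m) =
            algebraMap R E ε * algebraMap R E (γ₁ * γ₂) ^ m := by rw [map_mul, map_pow]
        rw [hG', div_pow, mul_pow, e2]
        have hLm : lam 2 ^ m ≠ 0 := pow_ne_zero _ (hlam0 2)
        have hγm : algebraMap R E (γ₁ * γ₂) ^ m ≠ 0 := pow_ne_zero _ hγ₁₂E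
        field_simp
      rw [e]
      exact INJ.valuation_div_sub_one_lt (hRW 2) (hπW 2) (hδ _ hγ₁₂) (hlam1 2) (hGlam 2)
  -- the horizontal clauses
  have hord' : ∀ P : AlgebraicCurve.Place K₁ E, (m : ℤ) ∣ P.ord G' := by
    intro P
    have e : G' = algebraMap K₁ E c₀⁻¹ * G := by
      rw [hG', map_inv₀, hc₀E, mul_comm]
    rw [e, P.ord_mul ((map_ne_zero _).mpr (inv_ne_zero hc₀0)) hG,
      place_ord_algebraMap_eq_zero P (inv_ne_zero hc₀0), zero_add]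
    exact hord P
  have hhor₁ := horPow36_of_place (R := R) (K₁ := K₁) (K := KN₂) (F := E) j₂ hj₂ hKj₂ hπ hG'0 hord'
  have hhor₂ := horPow36_of_place (R := R) (K₁ := K₁) (K := KN₂) (F := E) j₂⁻¹ hu' hK' hπ hG'0
    hord'
  -- elements of `R` congruent to `1` are units at the closed points of the special fibre
  have hγB : ∀ (𝔫 : Ideal ↥(chartOne R E j₂)), 𝔫.IsPrime →
      algebraMap R ↥(chartOne R E j₂) π ∈ 𝔫 → ∀ δ : R, δ - 1 ∈ Ideal.span {π} →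
      algebraMap R ↥(chartOne R E j₂) δ ∉ 𝔫 := by
    intro 𝔫 h𝔫 hπ𝔫 δ hδ' hmem
    obtain ⟨c, hc⟩ := Ideal.mem_span_singleton.mp hδ'
    have h1 : algebraMap R ↥(chartOne R E j₂) δ - 1 ∈ 𝔫 := by
      rw [← map_one (algebraMap R ↥(chartOne R E j₂)), ← map_sub, hc, map_mul]
      exact Ideal.mul_mem_right _ _ hπ𝔫
    have h2 : (1 : ↥(chartOne R E j₂)) ∈ 𝔫 := by
      have := 𝔫.sub_mem hmem h1
      simpa using this
    exact h𝔫.ne_top ((Ideal.eq_top_iff_one _).mpr h2)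
  have hγpow : ∀ (𝔫 : Ideal ↥(chartOne R E j₂)), 𝔫.IsPrime →
      algebraMap R ↥(chartOne R E j₂) π ∈ 𝔫 → ∀ δ : R, δ ^ m - 1 ∈ Ideal.span {π} →
      algebraMap R ↥(chartOne R E j₂) δ ∉ 𝔫 := by
    intro 𝔫 h𝔫 hπ𝔫 δ hδ' hmem
    have h1 : algebraMap R ↥(chartOne R E j₂) (δ ^ m) ∈ 𝔫 := by
      rw [map_pow]; exact Ideal.pow_mem_of_mem _ hmem m hm
    exact hγB 𝔫 h𝔫 hπ𝔫 (δ ^ m) hδ' h1
  -- the closed data on the chart `j₂`
  have hd₁ : ∀ (𝔫 : Ideal ↥(chartOne R E j₂)) (h𝔫 : 𝔫.IsMaximal),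
      algebraMap R ↥(chartOne R E j₂) π ∈ 𝔫 →
      @SheetDatumAt R _ E _ _ (chartOne R E j₂) (Fin 3)
        (fun i => sheetIdeal j₂ (W i) (fam.chart_le i)) 𝔫 h𝔫.isPrime W m G' lam' := by
    intro 𝔫 h𝔫 hπ𝔫
    haveI := h𝔫
    haveI h𝔫p : 𝔫.IsPrime := h𝔫.isPrime
    haveI : IsNoetherianRing ↥(chartOne R E₁ j₁) :=
      isNoetherianRing_chartOne (K₁ := K₁) j₁ hj₁ hKj₁
    have hbr := fun (l : Fin 3) (hle : sheetIdeal j₂ (W l) (fam.chart_le l) ≤ 𝔫) =>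
      exists_isBranchUniformizer_three hπ hj₁ hKj₁ h2 hmod fam α β hαB hβB hαint hβint hα0 hα1 hβ2
        hresα0 hresα1 hresβ2 𝔫 l hle
    obtain ⟨l₀, hl₀⟩ := fam.exists_sheet_le_of_mem hπ hj₂ hKj₂ 𝔫 hπ𝔫
    by_cases honly : ∀ l, sheetIdeal j₂ (W l) (fam.chart_le l) ≤ 𝔫 → l = l₀
    · -- a point on one sheet only
      obtain ⟨u, hu⟩ := hbr l₀ hl₀
      have hLE : ∃ z : ↥(chartOne R E j₂), z ∈ sheetIdeal j₂ (W l₀) (fam.chart_le l₀) ∧ z ≠ 0 ∧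
          ∀ w ∈ sheetIdeal j₂ (W l₀) (fam.chart_le l₀),
            ∃ s : ↥(chartOne R E j₂), s ∉ 𝔫 ∧ z ∣ s * w := by
        have hπ0 : algebraMap R ↥(chartOne R E j₂) π ≠ 0 := by
          intro h0
          have h1 : algebraMap R E π = 0 :=
            congrArg (fun b : ↥(chartOne R E j₂) => (b : E)) h0
          exact hπ.ne_zero (hinjE (by rw [h1, map_zero]))
        have hpi : ∀ l, algebraMap R ↥(chartOne R E j₂) π ∈
            sheetIdeal j₂ (W l) (fam.chart_le l) :=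
          fun l => sinfemb_pi_mem_sheetIdeal (fam.gauss l)
        fin_cases l₀
        · exact ⟨_, hpi 0, hπ0, exists_dvd_pi_of_single_sheet fam hπ hj₂ hKj₂ 𝔫 0 he0 honly⟩
        · exact hLE1 𝔫 h𝔫 hl₀ honly
        · exact ⟨_, hpi 2, hπ0, exists_dvd_pi_of_single_sheet fam hπ hj₂ hKj₂ 𝔫 2 he2 honly⟩
      obtain ⟨z, hz, hz0, hgen⟩ := hLE
      exact sheetDatumAt_of_single_sheet fam hπ hj₂ hKj₂ 𝔫 l₀ hl₀ honly hz hz0 hgen hu hm.ne' hG'0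
        hlam' (hGW l₀) (fun 𝔮 h𝔮 hh hπ𝔮 _ => hhor₁ 𝔮 h𝔮 hh hπ𝔮)
    · -- a point on at least two sheets: all three
      push Not at honly
      obtain ⟨l, hl, hll₀⟩ := honly
      obtain ⟨hall, -, -, -, -⟩ :=
        three_sheet_classification_chart hπ hj₁ hKj₁ hj₂ hKj₂ h2 hmod fam α β hαR hβR hαB hβB
          hαint hβint hα0 hα1 hα2 hβ0 hβ1 hβ2 hq hinsα hinsβ 𝔫 hll₀ hl hl₀
      obtain ⟨h01, h12⟩ := hnode 𝔫 h𝔫 hall
      have hWt : ∀ l, IsSheetThrough (chartOne R E j₂) 𝔫 (W l) := fun l =>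
        isSheetThrough_of_le (fam.chart_le l) (mem_sheetIdeal_iff j₂ (W l) (fam.chart_le l))
          (hall l)
      exact sheetDatumAt_fin3_of_nodeRatio
        (fun e he => sinfemb_mem_chartOne_of_isIntegral j₂ he)
        (fun i => sheetIdeal j₂ (W i) (fam.chart_le i)) hWt hRW hm.ne' h01 h12
        (hγpow 𝔫 h𝔫p hπ𝔫 γ₁ hγ₁) (hγpow 𝔫 h𝔫p hπ𝔫 γ₂ hγ₂) hκE0 (hγB 𝔫 h𝔫p hπ𝔫 ε hε)
  -- the closed data on the chart `j₂⁻¹`
  have hd₂ : ∀ (𝔫 : Ideal ↥(chartOne R E j₂⁻¹)) (h𝔫 : 𝔫.IsMaximal),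
      algebraMap R ↥(chartOne R E j₂⁻¹) π ∈ 𝔫 →
      @SheetDatumAt R _ E _ _ (chartOne R E j₂⁻¹) (Fin 3)
        (fun i => sheetIdeal j₂⁻¹ (W i) (fam'.chart_le i)) 𝔫 h𝔫.isPrime W m G' lam' := by
    intro 𝔫 h𝔫 hπ𝔫
    haveI := h𝔫
    haveI : 𝔫.IsPrime := h𝔫.isPrime
    by_cases hx : (⟨algebraMap KN₂ E j₂⁻¹, algebraMap_coord_mem_chartOne j₂⁻¹⟩ :
        ↥(chartOne R E j₂⁻¹)) ∈ 𝔫
    · obtain ⟨l₀, z, v, hle, honly, hz, hz0, hgen, hv⟩ := hcusp 𝔫 h𝔫 hπ𝔫 hx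
      exact sheetDatumAt_of_single_sheet fam' hπ hu' hK' 𝔫 l₀ hle honly hz hz0 hgen hv hm.ne' hG'0
        hlam' (hGW l₀) (fun 𝔮 h𝔮 hh hπ𝔮 _ => hhor₂ 𝔮 h𝔮 hh hπ𝔮)
    · exact sheetDatumAt_chart_inv_of_notMem fam fam' hπ hj₂ hKj₂ hd₁ 𝔫 h𝔫 hπ𝔫 hx
  -- the leading coefficient
  have hlc1 : ∀ v : Eˣ, (v : E) = G' → lc v = 1 := by
    intro v hv
    set cu : K₁ˣ := Units.mk0 c₀ hc₀0 with hcu
    have h1 : ((v * Units.map (algebraMap K₁ E).toMonoidHom cu : Eˣ) : E) = G := by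
      rw [Units.val_mul, hv]
      show G' * algebraMap K₁ E c₀ = G
      rw [hG', hc₀E, inv_mul_cancel_right₀ (mul_ne_zero (pow_ne_zero _ hκE0) hεE)]
    have h2 := hlcG _ h1
    rw [map_mul, hlc, Units.val_mul] at h2
    apply Units.ext
    have h3 : ((lc v : K₁ˣ) : K₁) * c₀ = c₀ := h2
    rw [Units.val_one]
    exact mul_right_cancel₀ hc₀0 (by rw [h3, one_mul])
  have fam'' : (fam.inv hπ) = fam' := rfl
  obtain ⟨w, hw⟩ := sheet_pow_of_model j₂ hj₂ hKj₂ π hπ hm hmR ζ hζ hM4 lc hlc fam G' lam' hlam'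
    hGW hG'0 hd₁ hd₂ hlc1
  refine ⟨w, ?_⟩
  rw [← hw, hc₀E, hG', mul_comm, inv_mul_cancel_right₀ (mul_ne_zero (pow_ne_zero _ hκE0) hεE)]

end Abs

end Fermat.Agent.ML.INJ3
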