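/-
ML — helper3 — **[MSQ] leaf (b): the abstract three-sheet model as a structure.**

`ThreeSheetModel π j₁ j₂ W10 W01 W α β q` bundles the hypotheses of
`S36.sheetDatumAt_three_sheet_chart` (level `M'q`: `IsTwoSheet` + `IsModelChart` on the chart `j₁` of
`E₁`; level `M'q²`: the sheet family `W : Fin 3 → _` on the chart `j₂` of `E`; the two degeneracy maps
`α β : E₁ → E`; the local equations `hLE1`, `hLE3`; the cusps of the chart `j₂⁻¹`), so that the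
abstract statements of leaf (b) can be stated in one line:

* `ThreeSheetModel.classification` : a closed point on two sheets lies on the three sheets, its two
  images are nodes, it is the only point over each of them;
* `ThreeSheetModel.exists_nodeRatioAt` : the two node data at a triple point exist;
* `ThreeSheetModel.pow_of_constant_ratios` : [INJ3].
-/
import Mathlib
import Fermat.Agent.ML.MSQ_helper3_Inj3Abs
import Fermat.Agent.ML.MSQ_helper3_Datum3Abs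

set_option autoImplicit false
set_option linter.unusedSectionVars false
set_option linter.unusedVariables false
set_option linter.style.haveILetI false

namespace Fermat.Agent.ML.INJ3

open Fermat.Agent.SS Fermat.Agent.JA Fermat.Agent.S36 Fermat.Agent.S35 Fermat.Agent.ML

section Model

variable {R : Type*} [CommRing R] [IsDomain R] [IsDiscreteValuationRing R] [CharZero R]
  {K₁ : Type*} [Field K₁] [Algebra R K₁] [IsFractionRing R K₁]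
  {KN₁ : Type*} [Field KN₁] [Algebra K₁ KN₁] [Algebra R KN₁] [IsScalarTower R K₁ KN₁]
  {E₁ : Type*} [Field E₁] [Algebra KN₁ E₁] [Algebra R E₁] [IsScalarTower R KN₁ E₁]
  [FiniteDimensional KN₁ E₁]
  {KN₂ : Type*} [Field KN₂] [Algebra K₁ KN₂] [Algebra R KN₂] [IsScalarTower R K₁ KN₂]
  {E : Type*} [Field E] [Algebra KN₂ E] [Algebra K₁ E] [IsScalarTower K₁ KN₂ E] [Algebra R E]
  [IsScalarTower R KN₂ E] [FiniteDimensional KN₂ E]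

/-- **the abstract three-sheet model.** -/
structure ThreeSheetModel (K₁ : Type*) [Field K₁] [Algebra R K₁] [IsFractionRing R K₁]
    [Algebra K₁ KN₁] [IsScalarTower R K₁ KN₁] [Algebra K₁ KN₂] [IsScalarTower R K₁ KN₂]
    [Algebra K₁ E] [IsScalarTower K₁ KN₂ E]
    (π : R) (j₁ : KN₁) (j₂ : KN₂) (W10 W01 : ValuationSubring E₁)
    (W : Fin 3 → ValuationSubring E) (α β : E₁ →+* E) (q : ℕ) : Prop where
  hπ : Irreducible π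
  hj₁ : Transcendental K₁ j₁
  hKj₁ : IntermediateField.adjoin K₁ {j₁} = ⊤
  hj₂ : Transcendental K₁ j₂
  hKj₂ : IntermediateField.adjoin K₁ {j₂} = ⊤
  h2 : IsTwoSheet π j₁ W10 W01
  hmod : IsModelChart E₁ π (sheetIdeal j₁ W10 h2.chart_le_inf)
    (sheetIdeal j₁ W01 h2.chart_le_zero)
  fam : IsSheetFamily π j₂ W
  hαR : ∀ r : R, α (algebraMap R E₁ r) = algebraMap R E r
  hβR : ∀ r : R, β (algebraMap R E₁ r) = algebraMap R E r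
  hαB : ∀ b ∈ chartOne R E₁ j₁, α b ∈ chartOne R E j₂
  hβB : ∀ b ∈ chartOne R E₁ j₁, β b ∈ chartOne R E j₂
  hαint : (chartRestrictHom (B' := chartOne R E₁ j₁) (B := chartOne R E j₂) α hαB).IsIntegral
  hβint : (chartRestrictHom (B' := chartOne R E₁ j₁) (B := chartOne R E j₂) β hβB).IsIntegral
  hα0 : (W 0).comap α = W10
  hα1 : (W 1).comap α = W10
  hα2 : (W 2).comap α = W01
  hβ0 : (W 0).comap β = W10
  hβ1 : (W 1).comap β = W01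
  hβ2 : (W 2).comap β = W01
  hq : 0 < q
  hinsα : ∀ x ∈ W 2, ∃ a ∈ W01, (W 2).valuation (x ^ q - α a) < 1
  hinsβ : ∀ x ∈ W 0, ∃ a ∈ W10, (W 0).valuation (x ^ q - β a) < 1
  hresα0 : ∀ x ∈ W 0, ∃ a ∈ W10, (W 0).valuation (x - α a) < 1
  hresα1 : ∀ x ∈ W 1, ∃ a ∈ W10, (W 1).valuation (x - α a) < 1
  hresβ2 : ∀ x ∈ W 2, ∃ a ∈ W01, (W 2).valuation (x - β a) < 1
  he0 : ∀ x : E, (W 0).valuation x < 1 → x * (algebraMap R E π)⁻¹ ∈ W 0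
  he2 : ∀ x : E, (W 2).valuation x < 1 → x * (algebraMap R E π)⁻¹ ∈ W 2
  hLE1 : ∀ (𝔫 : Ideal ↥(chartOne R E j₂)) (_ : 𝔫.IsMaximal),
    sheetIdeal j₂ (W 1) (fam.chart_le 1) ≤ 𝔫 →
    (∀ l, sheetIdeal j₂ (W l) (fam.chart_le l) ≤ 𝔫 → l = 1) →
    ∃ z : ↥(chartOne R E j₂), z ∈ sheetIdeal j₂ (W 1) (fam.chart_le 1) ∧ z ≠ 0 ∧
      ∀ w ∈ sheetIdeal j₂ (W 1) (fam.chart_le 1),
        ∃ s : ↥(chartOne R E j₂), s ∉ 𝔫 ∧ z ∣ s * w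
  hLE3 : ∀ (𝔫 : Ideal ↥(chartOne R E j₂)) (_ : 𝔫.IsMaximal),
    (∀ l, sheetIdeal j₂ (W l) (fam.chart_le l) ≤ 𝔫) →
    ∃ (l₁ : Fin 3) (z : ↥(chartOne R E j₂)), z ∈ sheetIdeal j₂ (W l₁) (fam.chart_le l₁) ∧
      z ≠ 0 ∧ ∀ w ∈ sheetIdeal j₂ (W l₁) (fam.chart_le l₁),
        ∃ s : ↥(chartOne R E j₂), s ∉ 𝔫 ∧ z ∣ s * w
  hcusp : ∀ (𝔫 : Ideal ↥(chartOne R E j₂⁻¹)) (_ : 𝔫.IsMaximal),
    algebraMap R ↥(chartOne R E j₂⁻¹) π ∈ 𝔫 →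
    (⟨algebraMap KN₂ E j₂⁻¹, algebraMap_coord_mem_chartOne j₂⁻¹⟩ : ↥(chartOne R E j₂⁻¹)) ∈ 𝔫 →
    ∃ (l₀ : Fin 3) (z v : ↥(chartOne R E j₂⁻¹)),
      sheetIdeal j₂⁻¹ (W l₀) ((fam.inv hπ).chart_le l₀) ≤ 𝔫 ∧
      (∀ l, sheetIdeal j₂⁻¹ (W l) ((fam.inv hπ).chart_le l) ≤ 𝔫 → l = l₀) ∧
      z ∈ sheetIdeal j₂⁻¹ (W l₀) ((fam.inv hπ).chart_le l₀) ∧ z ≠ 0 ∧
      (∀ w ∈ sheetIdeal j₂⁻¹ (W l₀) ((fam.inv hπ).chart_le l₀),
        ∃ s : ↥(chartOne R E j₂⁻¹), s ∉ 𝔫 ∧ z ∣ s * w) ∧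
      IsBranchUniformizer (sheetIdeal j₂⁻¹ (W l₀) ((fam.inv hπ).chart_le l₀)) 𝔫 v

variable {π : R} {j₁ : KN₁} {j₂ : KN₂} {W10 W01 : ValuationSubring E₁}
  {W : Fin 3 → ValuationSubring E} {α β : E₁ →+* E} {q : ℕ}

namespace ThreeSheetModel

/-- **a closed point on two sheets lies on the three sheets; its two images are nodes; it is the
only point over each of them.** -/
theorem classification (D : ThreeSheetModel K₁ π j₁ j₂ W10 W01 W α β q)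
    (𝔫 : Ideal ↥(chartOne R E j₂)) [h𝔫 : 𝔫.IsMaximal] {i k : Fin 3} (hik : i ≠ k)
    (hi : sheetIdeal j₂ (W i) (D.fam.chart_le i) ≤ 𝔫)
    (hk : sheetIdeal j₂ (W k) (D.fam.chart_le k) ≤ 𝔫) :
    (∀ l, sheetIdeal j₂ (W l) (D.fam.chart_le l) ≤ 𝔫) ∧
    (sheetIdeal j₁ W10 D.h2.chart_le_inf ≤ 𝔫.comap (chartRestrictHom α D.hαB) ∧
      sheetIdeal j₁ W01 D.h2.chart_le_zero ≤ 𝔫.comap (chartRestrictHom α D.hαB)) ∧
    (sheetIdeal j₁ W10 D.h2.chart_le_inf ≤ 𝔫.comap (chartRestrictHom β D.hβB) ∧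
      sheetIdeal j₁ W01 D.h2.chart_le_zero ≤ 𝔫.comap (chartRestrictHom β D.hβB)) ∧
    (∀ 𝔫' : Ideal ↥(chartOne R E j₂), 𝔫'.IsPrime →
      𝔫'.comap (chartRestrictHom α D.hαB) = 𝔫.comap (chartRestrictHom α D.hαB) → 𝔫' = 𝔫) ∧
    (∀ 𝔫' : Ideal ↥(chartOne R E j₂), 𝔫'.IsPrime →
      𝔫'.comap (chartRestrictHom β D.hβB) = 𝔫.comap (chartRestrictHom β D.hβB) → 𝔫' = 𝔫) :=
  three_sheet_classification_chart D.hπ D.hj₁ D.hKj₁ D.hj₂ D.hKj₂ D.h2 D.hmod D.fam α β D.hαR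
    D.hβR D.hαB D.hβB D.hαint D.hβint D.hα0 D.hα1 D.hα2 D.hβ0 D.hβ1 D.hβ2 D.hq D.hinsα D.hinsβ 𝔫
    hik hi hk

/-- **the two node data at a triple point exist.** -/
theorem exists_nodeRatioAt (D : ThreeSheetModel K₁ π j₁ j₂ W10 W01 W α β q)
    (hinj : Function.Injective (algebraMap R E))
    {m : ℕ} (hm : 0 < m) {ξ : R} (hξ : IsPrimitiveRoot ξ m)
    {G : E} (hG : G ≠ 0) {lam : Fin 3 → E} (hlam : ∀ l, lam l ≠ 0)
    (hGW : ∀ l, (W l).valuation (G / lam l ^ m - 1) < 1)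
    (hhor : HorPow36 (K₁ := K₁) j₂ D.hKj₂ π m G)
    (𝔫 : Ideal ↥(chartOne R E j₂)) (h𝔫 : 𝔫.IsMaximal)
    (hall : ∀ l, sheetIdeal j₂ (W l) (D.fam.chart_le l) ≤ 𝔫) :
    ∃ i k : ℕ,
      @NodeRatioAt R _ E _ _ (chartOne R E j₂) 𝔫 h𝔫.isPrime (W 0) (W 1) m G (lam 0) (lam 1)
        (ξ ^ i) ∧
      @NodeRatioAt R _ E _ _ (chartOne R E j₂) 𝔫 h𝔫.isPrime (W 1) (W 2) m G (lam 1) (lam 2)
        (ξ ^ k) :=
  exists_nodeRatioAt_three D.hπ D.hj₁ D.hKj₁ D.hj₂ D.hKj₂ D.h2 D.hmod D.fam α β D.hαB D.hβB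
    D.hαint D.hβint D.hα0 D.hα1 D.hβ2 D.hresα0 D.hresα1 D.hresβ2 D.hLE3 hinj hm hξ hG hlam hGW
    hhor 𝔫 h𝔫 hall

/-- **[INJ3].** -/
theorem pow_of_constant_ratios [IsAlgClosed (IsLocalRing.ResidueField R)]
    (D : ThreeSheetModel K₁ π j₁ j₂ W10 W01 W α β q)
    {m : ℕ} (hm : 0 < m) (hmR : IsUnit (m : R)) (ζ : R) (hζ : IsPrimitiveRoot ζ m)
    (hM4 : ∀ x : E, IsAlgebraic K₁ x → x ∈ Set.range (algebraMap K₁ E))
    (lc : Eˣ →* K₁ˣ) (hlc : ∀ c : K₁ˣ, lc (Units.map (algebraMap K₁ E).toMonoidHom c) = c)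
    {G : E} {lam : Fin 3 → E} (hlam1 : ∀ l, (W l).valuation (lam l) = 1)
    (hGlam : ∀ l, (W l).valuation (G - lam l ^ m) < 1)
    (hord : ∀ P : AlgebraicCurve.Place K₁ E, (m : ℤ) ∣ P.ord G)
    (γ₁ γ₂ : R) (hγ₁ : γ₁ ^ m - 1 ∈ Ideal.span {π}) (hγ₂ : γ₂ ^ m - 1 ∈ Ideal.span {π})
    (hnode : ∀ (𝔫 : Ideal ↥(chartOne R E j₂)) (h𝔫 : 𝔫.IsMaximal),
      (∀ l, sheetIdeal j₂ (W l) (D.fam.chart_le l) ≤ 𝔫) →
      @NodeRatioAt R _ E _ _ (chartOne R E j₂) 𝔫 h𝔫.isPrime (W 0) (W 1) m G (lam 0) (lam 1) γ₁ ∧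
      @NodeRatioAt R _ E _ _ (chartOne R E j₂) 𝔫 h𝔫.isPrime (W 1) (W 2) m G (lam 1) (lam 2) γ₂)
    (κ : K₁ˣ) (ε : R) (hε : ε - 1 ∈ Ideal.span {π})
    (hlcG : ∀ v : Eˣ, (v : E) = G → ((lc v : K₁ˣ) : K₁) = (κ : K₁) ^ m * algebraMap R K₁ ε) :
    ∃ w : E, G = algebraMap K₁ E ((κ : K₁) ^ m * algebraMap R K₁ ε) * w ^ m :=
  pow_of_constant_ratios3 D.hπ D.hj₁ D.hKj₁ D.hj₂ D.hKj₂ D.h2 D.hmod D.fam (D.fam.inv D.hπ) α β
    D.hαR D.hβR D.hαB D.hβB D.hαint D.hβint D.hα0 D.hα1 D.hα2 D.hβ0 D.hβ1 D.hβ2 D.hq D.hinsα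
    D.hinsβ D.hresα0 D.hresα1 D.hresβ2 D.he0 D.he2 D.hLE1 D.hcusp hm hmR ζ hζ hM4 lc hlc hlam1
    hGlam hord γ₁ γ₂ hγ₁ hγ₂ hnode κ ε hε hlcG

end ThreeSheetModel

end Model

end Fermat.Agent.ML.INJ3
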