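/-
ML — helper3 — **[MSQ] leaf (b) (abstract): transport of the node data at the triple points along
automorphisms, and along the two degeneracy maps.**

* `nodeRatioAt_transport` : an automorphism `s` of `E` preserving the chart, two sheets, fixing `R`
  and `G`, moving the unit roots to congruent ones and mapping the closed point `𝔫` to `𝔫'`
  transports the node datum at `𝔫` to the node datum at `𝔫'` (helper4's argument for
  `ML.deckInvStatement`, for an arbitrary pair of sheets);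
* `sheets_fixed3` : an automorphism of `E` fixing the coordinate field and two separating elements
  preserves each of the three sheets;
* `ThreeSheetModel.conj_mem_iff_α/β` : if `s₂ ∘ α = α ∘ s₁` and `s₁` maps the `α`-image of the triple
  point `𝔫` to the `α`-image of the triple point `𝔫'`, then `s₂` maps `𝔫` to `𝔫'` (uniqueness of the
  triple point over a node);
* `ThreeSheetModel.nodeRatioAt_α/β_*` : **[PULL]** the node data of `α F`, `β F` at a triple point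
  from the node datum of `F` at its image node.
-/
import Mathlib
import Fermat.Agent.ML.MSQ_helper3_Model3
import Fermat.Agent.ML.DECK_helper4_Main
import Fermat.Agent.SS.VAL2_helper7_HostTwo

set_option autoImplicit false
set_option linter.unusedSectionVars false
set_option linter.unusedVariables false
set_option linter.style.haveILetI false

namespace Fermat.Agent.ML.INJ3

open Fermat.Agent.SS Fermat.Agent.JA Fermat.Agent.S36 Fermat.Agent.S35 Fermat.Agent.ML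

/-! ### transport along an automorphism -/

section Transport

variable {R : Type*} [CommRing R] {E : Type*} [Field E] [Algebra R E]
  {B : Subalgebra R E} {𝔫 𝔫' : Ideal ↥B} [h𝔫 : 𝔫.IsPrime] [h𝔫' : 𝔫'.IsPrime]
  {Winf W0 : ValuationSubring E}

/-- **transport of the node datum along an automorphism.** -/
theorem nodeRatioAt_transport (s : E ≃+* E) (hsB : ∀ b ∈ B, s b ∈ B)
    (hs𝔫 : ∀ b : ↥B, b ∈ 𝔫 ↔ (⟨s b, hsB b b.2⟩ : ↥B) ∈ 𝔫')
    (hsR : ∀ r : R, s (algebraMap R E r) = algebraMap R E r)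
    (hsinf : ∀ x : E, x ∈ Winf ↔ s x ∈ Winf) (hs0 : ∀ x : E, x ∈ W0 ↔ s x ∈ W0)
    (hinf : IsSheetThrough B 𝔫' Winf) (h0 : IsSheetThrough B 𝔫' W0)
    {m : ℕ} {G Linf L0 : E} {ζ : R} (hsG : s G = G)
    (hLinf : Winf.valuation Linf = 1) (hL0 : W0.valuation L0 = 1)
    (hcinf : Winf.valuation (s Linf - Linf) < 1) (hc0 : W0.valuation (s L0 - L0) < 1)
    (h : NodeRatioAt B 𝔫 Winf W0 m G Linf L0 ζ) : NodeRatioAt B 𝔫' Winf W0 m G Linf L0 ζ := by
  obtain ⟨Γ, winf, w0, hΓ, hwinf, hw0, hr⟩ := nodeRatioAt_iff.mp h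
  have hΓ' := IsClosedRootAt.map (s : E →+* E) hsB hs𝔫 hΓ
  have hwinf' := IsBranchRootAt.map (s : E →+* E) hsB hs𝔫 (W₁ := Winf) (W := Winf)
    (fun z hz => (Deck.valuation_apply_lt_one_iff _ s hsinf z).mpr hz) hwinf
  have hw0' := IsBranchRootAt.map (s : E →+* E) hsB hs𝔫 (W₁ := W0) (W := W0)
    (fun z hz => (Deck.valuation_apply_lt_one_iff _ s hs0 z).mpr hz) hw0
  have hr' := map_mem_locMax (s : E →+* E) hsB hs𝔫 hr
  refine nodeRatioAt_iff.mpr ⟨s Γ, s winf, s w0, ?_, ?_, ?_, ?_⟩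
  · have := hΓ'
    rw [show (s : E →+* E) G = G from hsG] at this
    exact this
  · refine Deck.isBranchRootAt_congr hinf hwinf' ?_ ?_
    · exact (Deck.valuation_apply_eq_one_iff _ s hsinf Linf).mpr hLinf
    · exact hcinf
  · refine Deck.isBranchRootAt_congr h0 hw0' ?_ ?_
    · exact (Deck.valuation_apply_eq_one_iff _ s hs0 L0).mpr hL0
    · exact hc0
  · have e1 : (s : E →+* E) (winf - algebraMap R E ζ * w0) =
        s winf - algebraMap R E ζ * s w0 := by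
      show s (winf - algebraMap R E ζ * w0) = _
      rw [map_sub, map_mul, hsR ζ]
    rw [e1] at hr'
    exact hr'

end Transport

/-! ### the three sheets are preserved -/

section Sheets

variable {R : Type*} [CommRing R] [IsDomain R] [IsDiscreteValuationRing R] [CharZero R]
  {KN : Type*} [Field KN] [Algebra R KN]
  {E : Type*} [Field E] [Algebra KN E] [Algebra R E] [IsScalarTower R KN E]
  [FiniteDimensional KN E] {π : R} {j : KN} {W : Fin 3 → ValuationSubring E}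

/-- **an automorphism fixing the coordinate field and two separating elements preserves each of the
three sheets.** -/
theorem sheets_fixed3 (fam : IsSheetFamily π j W) (σ : E ≃+* E)
    (hσK : ∀ y : KN, σ (algebraMap KN E y) = algebraMap KN E y) {UA UB : E}
    (hσA : σ UA = UA) (hσB : σ UB = UB)
    (hA0 : UA ∈ W 0) (hA1 : UA ∈ W 1) (hA2 : UA ∉ W 2)
    (hB0 : UB ∈ W 0) (hB1 : UB ∉ W 1) (hB2 : UB ∉ W 2) (l : Fin 3) :
    ∀ x : E, x ∈ W l ↔ σ x ∈ W l := by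
  have hsymK : ∀ y : KN, σ.symm (algebraMap KN E y) = algebraMap KN E y := by
    intro y
    rw [RingEquiv.symm_apply_eq, hσK]
  have hsymA : σ.symm UA = UA := by rw [RingEquiv.symm_apply_eq, hσA]
  have hsymB : σ.symm UB = UB := by rw [RingEquiv.symm_apply_eq, hσB]
  have hres : ∀ V : ValuationSubring E,
      (V.comap (σ.symm : E →+* E)).comap (algebraMap KN E) = V.comap (algebraMap KN E) := by
    intro V
    ext y
    rw [ValuationSubring.mem_comap, ValuationSubring.mem_comap, ValuationSubring.mem_comap]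
    show σ.symm (algebraMap KN E y) ∈ V ↔ _
    rw [hsymK]
  -- the transform of `W l` is one of the sheets, with the same pattern on `UA`, `UB`
  obtain ⟨l', hl'⟩ := fam.only ((W l).comap (σ.symm : E →+* E)) (by rw [hres]; exact fam.gauss l)
  have hpatA : UA ∈ W l' ↔ UA ∈ W l := by
    rw [← hl', ValuationSubring.mem_comap]
    show σ.symm UA ∈ W l ↔ _
    rw [hsymA]
  have hpatB : UB ∈ W l' ↔ UB ∈ W l := by
    rw [← hl', ValuationSubring.mem_comap]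
    show σ.symm UB ∈ W l ↔ _
    rw [hsymB]
  have hll : l' = l := by
    fin_cases l <;> fin_cases l'
    · rfl
    · exact absurd (hpatB.mpr hB0) hB1
    · exact absurd (hpatB.mpr hB0) hB2
    · exact absurd (hpatB.mp hB0) hB1
    · rfl
    · exact absurd (hpatA.mpr hA1) hA2
    · exact absurd (hpatB.mp hB0) hB2
    · exact absurd (hpatA.mp hA1) hA2
    · rfl
  rw [hll] at hl'
  intro x
  have h4 : σ x ∈ (W l).comap (σ.symm : E →+* E) ↔ σ x ∈ W l := by rw [hl']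
  rw [ValuationSubring.mem_comap] at h4
  have h5 : (σ.symm : E →+* E) (σ x) = x := σ.symm_apply_apply x
  rw [h5] at h4
  exact h4

end Sheets

/-! ### the model: conjugate triple points, pull-backs -/

section Model

variable {R : Type*} [CommRing R] [IsDomain R] [IsDiscreteValuationRing R] [CharZero R]
  {K₁ : Type*} [Field K₁] [Algebra R K₁] [IsFractionRing R K₁]
  {KN₁ : Type*} [Field KN₁] [Algebra K₁ KN₁] [Algebra R KN₁] [IsScalarTower R K₁ KN₁]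
  {E₁ : Type*} [Field E₁] [Algebra KN₁ E₁] [Algebra R E₁] [IsScalarTower R KN₁ E₁]
  [FiniteDimensional KN₁ E₁]
  {KN₂ : Type*} [Field KN₂] [Algebra K₁ KN₂] [Algebra R KN₂] [IsScalarTower R K₁ KN₂]
  {E : Type*} [Field E] [Algebra KN₂ E] [Algebra K₁ E] [IsScalarTower K₁ KN₂ E] [Algebra R E]
  [IsScalarTower R KN₂ E] [FiniteDimensional KN₂ E]
  {π : R} {j₁ : KN₁} {j₂ : KN₂} {W10 W01 : ValuationSubring E₁}
  {W : Fin 3 → ValuationSubring E} {α β : E₁ →+* E} {q : ℕ}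

namespace ThreeSheetModel

/-- **conjugate triple points, along `α`.** -/
theorem conj_mem_iff_α (D : ThreeSheetModel K₁ π j₁ j₂ W10 W01 W α β q)
    (s₁ : E₁ →+* E₁) (s₂ : E →+* E) (hcomm : ∀ e : E₁, s₂ (α e) = α (s₁ e))
    (hs₁B : ∀ b ∈ chartOne R E₁ j₁, s₁ b ∈ chartOne R E₁ j₁)
    (hs₂B : ∀ b ∈ chartOne R E j₂, s₂ b ∈ chartOne R E j₂)
    (𝔫 𝔫' : Ideal ↥(chartOne R E j₂)) [h𝔫 : 𝔫.IsMaximal] [h𝔫' : 𝔫'.IsPrime]
    (hall : ∀ l, sheetIdeal j₂ (W l) (D.fam.chart_le l) ≤ 𝔫)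
    (h𝔪 : ∀ b : ↥(chartOne R E₁ j₁), b ∈ 𝔫.comap (chartRestrictHom α D.hαB) ↔
      (⟨s₁ b, hs₁B b b.2⟩ : ↥(chartOne R E₁ j₁)) ∈ 𝔫'.comap (chartRestrictHom α D.hαB))
    (b : ↥(chartOne R E j₂)) :
    b ∈ 𝔫 ↔ (⟨s₂ b, hs₂B b b.2⟩ : ↥(chartOne R E j₂)) ∈ 𝔫' := by
  obtain ⟨-, -, -, hUA, -⟩ := D.classification 𝔫 (i := 0) (k := 1) (by decide) (hall 0) (hall 1)
  set τ : ↥(chartOne R E j₂) →+* ↥(chartOne R E j₂) := chartRestrictHom s₂ hs₂B with hτ
  have hQ : (𝔫'.comap τ).comap (chartRestrictHom α D.hαB) =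
      𝔫.comap (chartRestrictHom α D.hαB) := by
    ext b₁
    rw [h𝔪 b₁, Ideal.mem_comap, Ideal.mem_comap, Ideal.mem_comap]
    have e : τ (chartRestrictHom α D.hαB b₁) =
        chartRestrictHom α D.hαB (⟨s₁ b₁, hs₁B b₁ b₁.2⟩ : ↥(chartOne R E₁ j₁)) :=
      Subtype.ext (hcomm b₁)
    rw [e]
  have h1 : 𝔫'.comap τ = 𝔫 := hUA _ (Ideal.comap_isPrime _ _) hQ
  rw [← h1, Ideal.mem_comap]
  rfl

/-- **conjugate triple points, along `β`.** -/
theorem conj_mem_iff_β (D : ThreeSheetModel K₁ π j₁ j₂ W10 W01 W α β q)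
    (s₁ : E₁ →+* E₁) (s₂ : E →+* E) (hcomm : ∀ e : E₁, s₂ (β e) = β (s₁ e))
    (hs₁B : ∀ b ∈ chartOne R E₁ j₁, s₁ b ∈ chartOne R E₁ j₁)
    (hs₂B : ∀ b ∈ chartOne R E j₂, s₂ b ∈ chartOne R E j₂)
    (𝔫 𝔫' : Ideal ↥(chartOne R E j₂)) [h𝔫 : 𝔫.IsMaximal] [h𝔫' : 𝔫'.IsPrime]
    (hall : ∀ l, sheetIdeal j₂ (W l) (D.fam.chart_le l) ≤ 𝔫)
    (h𝔪 : ∀ b : ↥(chartOne R E₁ j₁), b ∈ 𝔫.comap (chartRestrictHom β D.hβB) ↔
      (⟨s₁ b, hs₁B b b.2⟩ : ↥(chartOne R E₁ j₁)) ∈ 𝔫'.comap (chartRestrictHom β D.hβB))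
    (b : ↥(chartOne R E j₂)) :
    b ∈ 𝔫 ↔ (⟨s₂ b, hs₂B b b.2⟩ : ↥(chartOne R E j₂)) ∈ 𝔫' := by
  obtain ⟨-, -, -, -, hUB⟩ := D.classification 𝔫 (i := 0) (k := 1) (by decide) (hall 0) (hall 1)
  set τ : ↥(chartOne R E j₂) →+* ↥(chartOne R E j₂) := chartRestrictHom s₂ hs₂B with hτ
  have hQ : (𝔫'.comap τ).comap (chartRestrictHom β D.hβB) =
      𝔫.comap (chartRestrictHom β D.hβB) := by
    ext b₁
    rw [h𝔪 b₁, Ideal.mem_comap, Ideal.mem_comap, Ideal.mem_comap]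
    have e : τ (chartRestrictHom β D.hβB b₁) =
        chartRestrictHom β D.hβB (⟨s₁ b₁, hs₁B b₁ b₁.2⟩ : ↥(chartOne R E₁ j₁)) :=
      Subtype.ext (hcomm b₁)
    rw [e]
  have h1 : 𝔫'.comap τ = 𝔫 := hUB _ (Ideal.comap_isPrime _ _) hQ
  rw [← h1, Ideal.mem_comap]
  rfl

/-! ### [PULL] -/

/-- **[PULL] along `α`, the sheets `(W 1, W 2)`**: the node datum of `α F`. -/
theorem nodeRatioAt_α_12 (D : ThreeSheetModel K₁ π j₁ j₂ W10 W01 W α β q)
    (𝔫 : Ideal ↥(chartOne R E j₂)) [h𝔫 : 𝔫.IsPrime]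
    {m : ℕ} {F Linf L0 : E₁} {ρ : R}
    (h : NodeRatioAt (chartOne R E₁ j₁) (𝔫.comap (chartRestrictHom α D.hαB)) W10 W01 m F Linf L0
      ρ) :
    NodeRatioAt (chartOne R E j₂) 𝔫 (W 1) (W 2) m (α F) (α Linf) (α L0) ρ := by
  obtain ⟨Γ, winf, w0, hΓ, hwinf, hw0, hr⟩ := nodeRatioAt_iff.mp h
  have hφ : ∀ b : ↥(chartOne R E₁ j₁), b ∈ 𝔫.comap (chartRestrictHom α D.hαB) ↔
      (⟨α b, D.hαB b b.2⟩ : ↥(chartOne R E j₂)) ∈ 𝔫 := fun b => Iff.rfl
  have hr' := map_mem_locMax α D.hαB hφ hr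
  rw [map_sub, map_mul, D.hαR] at hr'
  exact nodeRatioAt_iff.mpr ⟨α Γ, α winf, α w0, IsClosedRootAt.map α D.hαB hφ hΓ,
    IsBranchRootAt.map α D.hαB hφ (fun x hx => (comap_val_lt_one_iff α D.hα1 x).mpr hx) hwinf,
    IsBranchRootAt.map α D.hαB hφ (fun x hx => (comap_val_lt_one_iff α D.hα2 x).mpr hx) hw0, hr'⟩

/-- **[PULL] along `α`, the sheets `(W 0, W 1)`**: the node datum of `α F` is trivial. -/
theorem nodeRatioAt_α_01 (D : ThreeSheetModel K₁ π j₁ j₂ W10 W01 W α β q)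
    (𝔫 : Ideal ↥(chartOne R E j₂)) [h𝔫 : 𝔫.IsPrime]
    {m : ℕ} {F Linf L0 : E₁} {ρ : R}
    (h : NodeRatioAt (chartOne R E₁ j₁) (𝔫.comap (chartRestrictHom α D.hαB)) W10 W01 m F Linf L0
      ρ) :
    NodeRatioAt (chartOne R E j₂) 𝔫 (W 0) (W 1) m (α F) (α Linf) (α Linf) 1 := by
  obtain ⟨Γ, winf, w0, hΓ, hwinf, hw0, hr⟩ := nodeRatioAt_iff.mp h
  have hφ : ∀ b : ↥(chartOne R E₁ j₁), b ∈ 𝔫.comap (chartRestrictHom α D.hαB) ↔
      (⟨α b, D.hαB b b.2⟩ : ↥(chartOne R E j₂)) ∈ 𝔫 := fun b => Iff.rfl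
  refine nodeRatioAt_iff.mpr ⟨α Γ, α winf, α winf, IsClosedRootAt.map α D.hαB hφ hΓ,
    IsBranchRootAt.map α D.hαB hφ (fun x hx => (comap_val_lt_one_iff α D.hα0 x).mpr hx) hwinf,
    IsBranchRootAt.map α D.hαB hφ (fun x hx => (comap_val_lt_one_iff α D.hα1 x).mpr hx) hwinf, ?_⟩
  rw [map_one, one_mul, sub_self]
  exact zero_mem_locMax

/-- **[PULL] along `β`, the sheets `(W 0, W 1)`**: the node datum of `β F`. -/
theorem nodeRatioAt_β_01 (D : ThreeSheetModel K₁ π j₁ j₂ W10 W01 W α β q)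
    (𝔫 : Ideal ↥(chartOne R E j₂)) [h𝔫 : 𝔫.IsPrime]
    {m : ℕ} {F Linf L0 : E₁} {ρ : R}
    (h : NodeRatioAt (chartOne R E₁ j₁) (𝔫.comap (chartRestrictHom β D.hβB)) W10 W01 m F Linf L0
      ρ) :
    NodeRatioAt (chartOne R E j₂) 𝔫 (W 0) (W 1) m (β F) (β Linf) (β L0) ρ := by
  obtain ⟨Γ, winf, w0, hΓ, hwinf, hw0, hr⟩ := nodeRatioAt_iff.mp h
  have hφ : ∀ b : ↥(chartOne R E₁ j₁), b ∈ 𝔫.comap (chartRestrictHom β D.hβB) ↔
      (⟨β b, D.hβB b b.2⟩ : ↥(chartOne R E j₂)) ∈ 𝔫 := fun b => Iff.rfl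
  have hr' := map_mem_locMax β D.hβB hφ hr
  rw [map_sub, map_mul, D.hβR] at hr'
  exact nodeRatioAt_iff.mpr ⟨β Γ, β winf, β w0, IsClosedRootAt.map β D.hβB hφ hΓ,
    IsBranchRootAt.map β D.hβB hφ (fun x hx => (comap_val_lt_one_iff β D.hβ0 x).mpr hx) hwinf,
    IsBranchRootAt.map β D.hβB hφ (fun x hx => (comap_val_lt_one_iff β D.hβ1 x).mpr hx) hw0, hr'⟩

/-- **[PULL] along `β`, the sheets `(W 1, W 2)`**: the node datum of `β F` is trivial. -/
theorem nodeRatioAt_β_12 (D : ThreeSheetModel K₁ π j₁ j₂ W10 W01 W α β q)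
    (𝔫 : Ideal ↥(chartOne R E j₂)) [h𝔫 : 𝔫.IsPrime]
    {m : ℕ} {F Linf L0 : E₁} {ρ : R}
    (h : NodeRatioAt (chartOne R E₁ j₁) (𝔫.comap (chartRestrictHom β D.hβB)) W10 W01 m F Linf L0
      ρ) :
    NodeRatioAt (chartOne R E j₂) 𝔫 (W 1) (W 2) m (β F) (β L0) (β L0) 1 := by
  obtain ⟨Γ, winf, w0, hΓ, hwinf, hw0, hr⟩ := nodeRatioAt_iff.mp h
  have hφ : ∀ b : ↥(chartOne R E₁ j₁), b ∈ 𝔫.comap (chartRestrictHom β D.hβB) ↔
      (⟨β b, D.hβB b b.2⟩ : ↥(chartOne R E j₂)) ∈ 𝔫 := fun b => Iff.rfl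
  refine nodeRatioAt_iff.mpr ⟨β Γ, β w0, β w0, IsClosedRootAt.map β D.hβB hφ hΓ,
    IsBranchRootAt.map β D.hβB hφ (fun x hx => (comap_val_lt_one_iff β D.hβ1 x).mpr hx) hw0,
    IsBranchRootAt.map β D.hβB hφ (fun x hx => (comap_val_lt_one_iff β D.hβ2 x).mpr hx) hw0, ?_⟩
  rw [map_one, one_mul, sub_self]
  exact zero_mem_locMax

end ThreeSheetModel

end Model

end Fermat.Agent.ML.INJ3
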