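/-
ML — helper3 — **[MSQ] leaf (b) (abstract): the decomposition `G = c · α(F₁) · β(F₂) · w ^ m`** of a
function `G` on the three-sheet model which is toric along the three sheets, from

* [DECK3] (`hdeckA`, `hdeckB`) : the `(W 1, W 2)`-node datum of `G` at a triple point only depends
  on the trace of its `α`-image node, the `(W 0, W 1)`-node datum only on the trace of its
  `β`-image node;
* [SURJ] at the lower level (`hsurj`) : every function `φ` on the traces with values in `μ_m(R)` is,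
  up to a constant, the node datum of a good toric function of the lower level;
* [PULL] (`ThreeSheetModel.nodeRatioAt_α/β_*`), [INJ3] (`ThreeSheetModel.pow_of_constant_ratios`)
  and the normalisation of the leading coefficient (`hlc3`).

`G' = G · α(F₁)⁻¹ · β(F₂)⁻¹` has constant node data, hence is a constant times an `m`-th power.
-/
import Mathlib
import Fermat.Agent.ML.MSQ_helper3_Deck3
import Fermat.Agent.ML.INJ_helper7_Abs
import Fermat.Agent.MP.KPBASE_lead_Norm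

set_option autoImplicit false
set_option linter.unusedSectionVars false
set_option linter.unusedVariables false
set_option linter.style.haveILetI false

namespace Fermat.Agent.ML.INJ3

open Fermat.Agent.SS Fermat.Agent.JA Fermat.Agent.S36 Fermat.Agent.S35 Fermat.Agent.ML
  Fermat.Agent.MP

/-! ### unit roots along a valuation subring -/

section Val

variable {E : Type*} [Field E] (W : ValuationSubring E)

theorem root_ne_zero {L : E} (hL : W.valuation L = 1) : L ≠ 0 := fun h0 => by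
  rw [h0, map_zero] at hL; exact zero_ne_one hL

theorem root_val_eq_one {m : ℕ} {G L : E} (hL : W.valuation L = 1)
    (hG : W.valuation (G - L ^ m) < 1) : W.valuation G = 1 := by
  have h1 : W.valuation (L ^ m) = 1 := by rw [map_pow, hL, one_pow]
  exact kp_val_eq_one_of_sub_lt W h1 (kp_val_sub_comm W hG)

theorem root_mul {m : ℕ} {G L G' L' : E} (hL : W.valuation L = 1)
    (hG : W.valuation (G - L ^ m) < 1) (hL' : W.valuation L' = 1)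
    (hG' : W.valuation (G' - L' ^ m) < 1) :
    W.valuation (L * L') = 1 ∧ W.valuation (G * G' - (L * L') ^ m) < 1 := by
  refine ⟨by rw [map_mul, hL, hL', one_mul], ?_⟩
  have e : G * G' - (L * L') ^ m = (G - L ^ m) * G' + L ^ m * (G' - L' ^ m) := by ring
  rw [e]
  refine Valuation.map_add_lt _ ?_ ?_
  · rw [map_mul, root_val_eq_one W hL' hG', mul_one]; exact hG
  · rw [map_mul, map_pow, hL, one_pow, one_mul]; exact hG'

theorem root_inv {m : ℕ} {G L : E} (hL : W.valuation L = 1)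
    (hG : W.valuation (G - L ^ m) < 1) :
    W.valuation L⁻¹ = 1 ∧ W.valuation (G⁻¹ - L⁻¹ ^ m) < 1 := by
  refine ⟨by rw [map_inv₀, hL, inv_one], ?_⟩
  have hG1 := root_val_eq_one W hL hG
  have hG0 : G ≠ 0 := root_ne_zero W hG1
  have hL0 : L ≠ 0 := root_ne_zero W hL
  have e : G⁻¹ - L⁻¹ ^ m = (L ^ m - G) * (G⁻¹ * (L ^ m)⁻¹) := by
    rw [inv_pow]; field_simp
  rw [e, map_mul, map_mul, map_inv₀, map_inv₀, hG1, map_pow, hL, one_pow, inv_one, mul_one,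
    mul_one]
  exact kp_val_sub_comm W hG

theorem root_comap {E₁ : Type*} [Field E₁] (α : E₁ →+* E) {V : ValuationSubring E₁}
    (hc : W.comap α = V) {m : ℕ} {F L : E₁} (hL : V.valuation L = 1)
    (hF : V.valuation (F - L ^ m) < 1) :
    W.valuation (α L) = 1 ∧ W.valuation (α F - α L ^ m) < 1 := by
  refine ⟨(kp_comap_val_eq_one_iff W α hc L).mpr hL, ?_⟩
  have := (comap_val_lt_one_iff α hc (F - L ^ m)).mpr hF
  rwa [map_sub, map_pow] at this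

theorem root_mul_inv_inv {m : ℕ} {G L G₁ L₁ G₂ L₂ : E}
    (h : W.valuation L = 1 ∧ W.valuation (G - L ^ m) < 1)
    (h₁ : W.valuation L₁ = 1 ∧ W.valuation (G₁ - L₁ ^ m) < 1)
    (h₂ : W.valuation L₂ = 1 ∧ W.valuation (G₂ - L₂ ^ m) < 1) :
    W.valuation (L * L₁⁻¹ * L₂⁻¹) = 1 ∧
      W.valuation (G * G₁⁻¹ * G₂⁻¹ - (L * L₁⁻¹ * L₂⁻¹) ^ m) < 1 := by
  have a := root_inv W h₁.1 h₁.2
  have b := root_inv W h₂.1 h₂.2
  have c := root_mul W h.1 h.2 a.1 a.2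
  exact root_mul W c.1 c.2 b.1 b.2

end Val

/-! ### choosing the node data as functions of the traces -/

theorem exists_phi_of_transport {ι T R : Type*} [Monoid R] (tr : ι → T) (p : ℕ)
    (Rel : ι → R → Prop) (hex : ∀ i, ∃ ζ, ζ ^ p = 1 ∧ Rel i ζ)
    (htrans : ∀ i i' ζ, tr i = tr i' → Rel i ζ → Rel i' ζ) :
    ∃ φ : T → R, (∀ t, φ t ^ p = 1) ∧ ∀ i, Rel i (φ (tr i)) := by
  classical
  refine ⟨fun t => if h : ∃ i, tr i = t then (hex h.choose).choose else 1, ?_, ?_⟩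
  · intro t
    by_cases h : ∃ i, tr i = t
    · simp only [dif_pos h]
      exact (hex h.choose).choose_spec.1
    · simp only [dif_neg h]
      exact one_pow p
  · intro i
    have h : ∃ i', tr i' = tr i := ⟨i, rfl⟩
    simp only [dif_pos h]
    exact htrans _ _ _ h.choose_spec (hex h.choose).choose_spec.2

/-! ### the constants -/

section Const

variable {R : Type*} [CommRing R] [IsDomain R] [IsDiscreteValuationRing R]

theorem exists_inv_of_pow_sub_one_mem {π c : R} (hπ : Irreducible π) {m : ℕ} (hm : 0 < m)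
    (h : c ^ m - 1 ∈ Ideal.span {π}) : ∃ d : R, c * d = 1 ∧ d ^ m - 1 ∈ Ideal.span {π} := by
  have hmax := Irreducible.maximalIdeal_eq hπ
  have hcu : IsUnit c := by
    rw [← IsLocalRing.notMem_maximalIdeal, hmax]
    intro hc
    have h1 : c ^ m ∈ Ideal.span {π} := by
      obtain ⟨k, rfl⟩ : ∃ k, m = k + 1 := ⟨m - 1, by omega⟩
      rw [pow_succ]
      exact Ideal.mul_mem_left _ _ hc
    have h2 : (1 : R) ∈ Ideal.span {π} := by
      have := Ideal.sub_mem _ h1 h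
      rwa [sub_sub_cancel] at this
    rw [← hmax] at h2
    exact (IsLocalRing.notMem_maximalIdeal.mpr isUnit_one) h2
  obtain ⟨d, hd⟩ := hcu.exists_right_inv
  refine ⟨d, hd, ?_⟩
  have e : d ^ m - 1 = -(d ^ m * (c ^ m - 1)) := by
    have : d ^ m * c ^ m = 1 := by rw [← mul_pow, mul_comm, hd, one_pow]
    rw [mul_sub, this, mul_one]; ring
  rw [e]
  exact Ideal.neg_mem_iff _ |>.mpr (Ideal.mul_mem_left _ _ h)

end Const

/-! ### the decomposition -/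

section Model

variable {R : Type*} [CommRing R] [IsDomain R] [IsDiscreteValuationRing R] [CharZero R]
  {K₁ : Type*} [Field K₁] [Algebra R K₁] [IsFractionRing R K₁]
  {KN₁ : Type*} [Field KN₁] [Algebra K₁ KN₁] [Algebra R KN₁] [IsScalarTower R K₁ KN₁]
  {E₁ : Type*} [Field E₁] [Algebra KN₁ E₁] [Algebra R E₁] [IsScalarTower R KN₁ E₁]
  [FiniteDimensional KN₁ E₁]
  {KN₂ : Type*} [Field KN₂] [Algebra K₁ KN₂] [Algebra R KN₂] [IsScalarTower R K₁ KN₂]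
  {E : Type*} [Field E] [Algebra KN₂ E] [Algebra K₁ E] [IsScalarTower K₁ KN₂ E] [Algebra R E]
  [IsScalarTower R KN₂ E] [FiniteDimensional KN₂ E]
  {π : R} {j₁ : KN₁} {j₂ : KN₂} {W10 W01 : ValuationSubring E₁}
  {W : Fin 3 → ValuationSubring E} {α β : E₁ →+* E} {q : ℕ}

namespace ThreeSheetModel

/-- **the node datum of a toric function of the lower level is an `m`-th root of unity modulo
`π`.** -/
theorem pow_sub_one_mem_span_of_node2 (D : ThreeSheetModel K₁ π j₁ j₂ W10 W01 W α β q)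
    {m : ℕ} {G Linf L0 : E₁} (hLinf : W10.valuation Linf = 1) (hL0 : W01.valuation L0 = 1)
    (hGinf : W10.valuation (G - Linf ^ m) < 1) (hG0 : W01.valuation (G - L0 ^ m) < 1)
    {γ : R} {𝔪 : Ideal ↥(chartOne R E₁ j₁)} (h𝔪 : 𝔪.IsMaximal)
    (hinf : sheetIdeal j₁ W10 D.h2.chart_le_inf ≤ 𝔪)
    (h0 : sheetIdeal j₁ W01 D.h2.chart_le_zero ≤ 𝔪)
    (hnode : @NodeRatioAt R _ E₁ _ _ (chartOne R E₁ j₁) 𝔪 h𝔪.isPrime W10 W01 m G Linf L0 γ) :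
    γ ^ m - 1 ∈ Ideal.span {π} := by
  haveI := h𝔪
  haveI : 𝔪.IsPrime := h𝔪.isPrime
  have two := D.h2
  have hπ := D.hπ
  have hRinf : ∀ r : R, algebraMap R E₁ r ∈ W10 := fun r =>
    two.chart_le_inf _ (Subalgebra.algebraMap_mem _ r)
  have hR0 : ∀ r : R, algebraMap R E₁ r ∈ W01 := fun r =>
    two.chart_le_zero _ (Subalgebra.algebraMap_mem _ r)
  have hπinf : W10.valuation (algebraMap R E₁ π) < 1 :=
    (mem_sheetIdeal_iff j₁ W10 two.chart_le_inf _).mp (two.pi_mem_inf (K₁ := K₁) hπ)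
  have hπ0 : W01.valuation (algebraMap R E₁ π) < 1 :=
    (mem_sheetIdeal_iff j₁ W01 two.chart_le_zero _).mp (two.pi_mem_zero (K₁ := K₁) hπ)
  have hLinf0 : Linf ≠ 0 := root_ne_zero W10 hLinf
  have hL00 : L0 ≠ 0 := root_ne_zero W01 hL0
  have h11 : (1 : R) - 1 ∈ Ideal.span {π} := by rw [sub_self]; exact Ideal.zero_mem _
  have e1 := INJ.valuation_div_sub_one_lt hRinf hπinf h11 hLinf hGinf
  have e0 := INJ.valuation_div_sub_one_lt hR0 hπ0 h11 hL0 hG0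
  rw [map_one, one_mul] at e1 e0
  have hsinf : IsSheetThrough (chartOne R E₁ j₁) 𝔪 W10 :=
    isSheetThrough_of_le two.chart_le_inf (mem_sheetIdeal_iff j₁ W10 two.chart_le_inf) hinf
  have hs0 : IsSheetThrough (chartOne R E₁ j₁) 𝔪 W01 :=
    isSheetThrough_of_le two.chart_le_zero (mem_sheetIdeal_iff j₁ W01 two.chart_le_zero) h0
  have hmem := INJ.pow_sub_one_mem_locMax_of_nodeRatio hsinf hs0 hLinf0 hL00 e1 e0 hnode
  have hmem' : algebraMap R ↥(chartOne R E₁ j₁) (γ ^ m - 1) ∈ 𝔪 :=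
    (coe_mem_locMax_iff (algebraMap R ↥(chartOne R E₁ j₁) (γ ^ m - 1))).mp hmem
  have hI : 𝔪.comap (algebraMap R ↥(chartOne R E₁ j₁)) ≠ ⊤ := by
    intro htop
    have h1 : (1 : R) ∈ 𝔪.comap (algebraMap R ↥(chartOne R E₁ j₁)) := by rw [htop]; trivial
    rw [Ideal.mem_comap, map_one] at h1
    exact (inferInstance : 𝔪.IsPrime).ne_top ((Ideal.eq_top_iff_one _).mpr h1)
  have hle := IsLocalRing.le_maximalIdeal hI
  rw [Irreducible.maximalIdeal_eq hπ] at hle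
  exact hle hmem'

set_option maxHeartbeats 3200000 in
/-- **the decomposition.** -/
theorem exists_decomp [IsAlgClosed (IsLocalRing.ResidueField R)]
    (D : ThreeSheetModel K₁ π j₁ j₂ W10 W01 W α β q)
    (hinj : Function.Injective (algebraMap R E))
    {m : ℕ} (hm : 0 < m) (hmR : IsUnit (m : R)) {ξ : R} (hξ : IsPrimitiveRoot ξ m)
    (hM4 : ∀ x : E, IsAlgebraic K₁ x → x ∈ Set.range (algebraMap K₁ E))
    (lc : Eˣ →* K₁ˣ) (hlc : ∀ c : K₁ˣ, lc (Units.map (algebraMap K₁ E).toMonoidHom c) = c)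
    {T : Type*} (tr : Ideal ↥(chartOne R E₁ j₁) → T)
    (Good : E₁ → Prop) (hGood1 : Good 1)
    (hGoodOrd : ∀ F, Good F → F ≠ 0 ∧
      (∀ P : AlgebraicCurve.Place K₁ E, (m : ℤ) ∣ P.ord (α F)) ∧
      (∀ P : AlgebraicCurve.Place K₁ E, (m : ℤ) ∣ P.ord (β F)))
    {G : E} {lam : Fin 3 → E} (hlam1 : ∀ l, (W l).valuation (lam l) = 1)
    (hGlam : ∀ l, (W l).valuation (G - lam l ^ m) < 1)
    (hord : ∀ P : AlgebraicCurve.Place K₁ E, (m : ℤ) ∣ P.ord G)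
    (hdeckA : ∀ (𝔫 𝔫' : Ideal ↥(chartOne R E j₂)) (h𝔫 : 𝔫.IsMaximal) (h𝔫' : 𝔫'.IsMaximal),
      (∀ l, sheetIdeal j₂ (W l) (D.fam.chart_le l) ≤ 𝔫) →
      (∀ l, sheetIdeal j₂ (W l) (D.fam.chart_le l) ≤ 𝔫') →
      tr (𝔫.comap (chartRestrictHom α D.hαB)) = tr (𝔫'.comap (chartRestrictHom α D.hαB)) →
      ∀ ζ : R,
        @NodeRatioAt R _ E _ _ (chartOne R E j₂) 𝔫 h𝔫.isPrime (W 1) (W 2) m G (lam 1) (lam 2)
          ζ →
        @NodeRatioAt R _ E _ _ (chartOne R E j₂) 𝔫' h𝔫'.isPrime (W 1) (W 2) m G (lam 1) (lam 2)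
          ζ)
    (hdeckB : ∀ (𝔫 𝔫' : Ideal ↥(chartOne R E j₂)) (h𝔫 : 𝔫.IsMaximal) (h𝔫' : 𝔫'.IsMaximal),
      (∀ l, sheetIdeal j₂ (W l) (D.fam.chart_le l) ≤ 𝔫) →
      (∀ l, sheetIdeal j₂ (W l) (D.fam.chart_le l) ≤ 𝔫') →
      tr (𝔫.comap (chartRestrictHom β D.hβB)) = tr (𝔫'.comap (chartRestrictHom β D.hβB)) →
      ∀ ζ : R,
        @NodeRatioAt R _ E _ _ (chartOne R E j₂) 𝔫 h𝔫.isPrime (W 0) (W 1) m G (lam 0) (lam 1)
          ζ →
        @NodeRatioAt R _ E _ _ (chartOne R E j₂) 𝔫' h𝔫'.isPrime (W 0) (W 1) m G (lam 0) (lam 1)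
          ζ)
    (hsurj : ∀ φ : T → R, (∀ t, φ t ^ m = 1) →
      ∃ (F Linf L0 : E₁) (c : R), Good F ∧ W10.valuation Linf = 1 ∧ W01.valuation L0 = 1 ∧
        W10.valuation (F - Linf ^ m) < 1 ∧ W01.valuation (F - L0 ^ m) < 1 ∧
        ∀ (𝔪 : Ideal ↥(chartOne R E₁ j₁)) (h𝔪 : 𝔪.IsMaximal),
          sheetIdeal j₁ W10 D.h2.chart_le_inf ≤ 𝔪 → sheetIdeal j₁ W01 D.h2.chart_le_zero ≤ 𝔪 →
          @NodeRatioAt R _ E₁ _ _ (chartOne R E₁ j₁) 𝔪 h𝔪.isPrime W10 W01 m F Linf L0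
            (c * φ (tr 𝔪)))
    (hlc3 : ∀ G' : E, G' ≠ 0 → (W 0).valuation G' = 1 →
      (∀ P : AlgebraicCurve.Place K₁ E, (m : ℤ) ∣ P.ord G') →
      ∃ (κ : K₁ˣ) (ε : R), ε - 1 ∈ Ideal.span {π} ∧
        ∀ v : Eˣ, (v : E) = G' → ((lc v : K₁ˣ) : K₁) = (κ : K₁) ^ m * algebraMap R K₁ ε) :
    ∃ (F₁ F₂ : E₁) (c : K₁) (w : E), Good F₁ ∧ Good F₂ ∧
      G = algebraMap K₁ E c * α F₁ * β F₂ * w ^ m := by
  classical
  have hπ := D.hπ
  have hG0 : G ≠ 0 := root_ne_zero (W 0) (root_val_eq_one (W 0) (hlam1 0) (hGlam 0))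
  have hlam0 : ∀ l, lam l ≠ 0 := fun l => root_ne_zero (W l) (hlam1 l)
  have hhor := horPow36_of_place (R := R) (K₁ := K₁) (K := KN₂) (F := E) j₂ D.hj₂ D.hKj₂ hπ hG0
    hord
  have hGW : ∀ l, (W l).valuation (G / lam l ^ m - 1) < 1 := by
    intro l
    have hl := pow_ne_zero m (hlam0 l)
    have e : G / lam l ^ m - 1 = (G - lam l ^ m) * (lam l ^ m)⁻¹ := by field_simp
    rw [e, map_mul, map_inv₀, map_pow, hlam1 l, one_pow, inv_one, mul_one]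
    exact hGlam l
  by_cases htr : ∃ (𝔫 : Ideal ↥(chartOne R E j₂)) (h𝔫 : 𝔫.IsMaximal),
      ∀ l, sheetIdeal j₂ (W l) (D.fam.chart_le l) ≤ 𝔫
  swap
  · -- no triple point
    have hv0 : (W 0).valuation G = 1 := root_val_eq_one (W 0) (hlam1 0) (hGlam 0)
    obtain ⟨κ, ε, hε, hlcG⟩ := hlc3 G hG0 hv0 hord
    obtain ⟨w, hw⟩ := D.pow_of_constant_ratios hm hmR ξ hξ hM4 lc hlc hlam1 hGlam hord 1 1
      (by rw [one_pow, sub_self]; exact Ideal.zero_mem _)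
      (by rw [one_pow, sub_self]; exact Ideal.zero_mem _)
      (fun 𝔫 h𝔫 hall => absurd ⟨𝔫, h𝔫, hall⟩ htr) κ ε hε hlcG
    refine ⟨1, 1, (κ : K₁) ^ m * algebraMap R K₁ ε, w, hGood1, hGood1, ?_⟩
    rw [map_one, map_one, mul_one, mul_one]
    exact hw
  obtain ⟨𝔫₀, h𝔫₀, hall₀⟩ := htr
  -- the node data at the triple points, as functions of the traces
  have hex : ∀ (𝔫 : Ideal ↥(chartOne R E j₂)) (h𝔫 : 𝔫.IsMaximal),
      (∀ l, sheetIdeal j₂ (W l) (D.fam.chart_le l) ≤ 𝔫) → ∃ i k : ℕ,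
      @NodeRatioAt R _ E _ _ (chartOne R E j₂) 𝔫 h𝔫.isPrime (W 0) (W 1) m G (lam 0) (lam 1)
        (ξ ^ i) ∧
      @NodeRatioAt R _ E _ _ (chartOne R E j₂) 𝔫 h𝔫.isPrime (W 1) (W 2) m G (lam 1) (lam 2)
        (ξ ^ k) := fun 𝔫 h𝔫 hall =>
    D.exists_nodeRatioAt hinj hm hξ hG0 hlam0 hGW hhor 𝔫 h𝔫 hall
  have hξpow : ∀ k : ℕ, (ξ ^ k) ^ m = 1 := fun k => by
    rw [← pow_mul, mul_comm, pow_mul, hξ.pow_eq_one, one_pow]
  obtain ⟨φ₁, hφ₁, hR₁⟩ := exists_phi_of_transport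
    (ι := {𝔫 : Ideal ↥(chartOne R E j₂) // 𝔫.IsMaximal ∧
      ∀ l, sheetIdeal j₂ (W l) (D.fam.chart_le l) ≤ 𝔫})
    (fun i => tr (i.1.comap (chartRestrictHom α D.hαB))) m
    (fun i ζ => @NodeRatioAt R _ E _ _ (chartOne R E j₂) i.1 i.2.1.isPrime (W 1) (W 2) m G
      (lam 1) (lam 2) ζ)
    (fun i => by
      obtain ⟨a, k, -, hk⟩ := hex i.1 i.2.1 i.2.2
      exact ⟨ξ ^ k, hξpow k, hk⟩)
    (fun i i' ζ ht h => hdeckA i.1 i'.1 i.2.1 i'.2.1 i.2.2 i'.2.2 ht ζ h)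
  obtain ⟨φ₂, hφ₂, hR₂⟩ := exists_phi_of_transport
    (ι := {𝔫 : Ideal ↥(chartOne R E j₂) // 𝔫.IsMaximal ∧
      ∀ l, sheetIdeal j₂ (W l) (D.fam.chart_le l) ≤ 𝔫})
    (fun i => tr (i.1.comap (chartRestrictHom β D.hβB))) m
    (fun i ζ => @NodeRatioAt R _ E _ _ (chartOne R E j₂) i.1 i.2.1.isPrime (W 0) (W 1) m G
      (lam 0) (lam 1) ζ)
    (fun i => by
      obtain ⟨a, k, ha, -⟩ := hex i.1 i.2.1 i.2.2
      exact ⟨ξ ^ a, hξpow a, ha⟩)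
    (fun i i' ζ ht h => hdeckB i.1 i'.1 i.2.1 i'.2.1 i.2.2 i'.2.2 ht ζ h)
  obtain ⟨F₁, Linf₁, L0₁, c₁, hgood₁, hLinf₁, hL0₁, hFinf₁, hF0₁, hnode₁⟩ := hsurj φ₁ hφ₁
  obtain ⟨F₂, Linf₂, L0₂, c₂, hgood₂, hLinf₂, hL0₂, hFinf₂, hF0₂, hnode₂⟩ := hsurj φ₂ hφ₂
  obtain ⟨hF₁0, hαord₁, -⟩ := hGoodOrd F₁ hgood₁
  obtain ⟨hF₂0, -, hβord₂⟩ := hGoodOrd F₂ hgood₂
  -- the images of a triple point are nodes
  have himg : ∀ (𝔫 : Ideal ↥(chartOne R E j₂)) (h𝔫 : 𝔫.IsMaximal),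
      (∀ l, sheetIdeal j₂ (W l) (D.fam.chart_le l) ≤ 𝔫) →
      ((𝔫.comap (chartRestrictHom α D.hαB)).IsMaximal ∧
        sheetIdeal j₁ W10 D.h2.chart_le_inf ≤ 𝔫.comap (chartRestrictHom α D.hαB) ∧
        sheetIdeal j₁ W01 D.h2.chart_le_zero ≤ 𝔫.comap (chartRestrictHom α D.hαB)) ∧
      ((𝔫.comap (chartRestrictHom β D.hβB)).IsMaximal ∧
        sheetIdeal j₁ W10 D.h2.chart_le_inf ≤ 𝔫.comap (chartRestrictHom β D.hβB) ∧
        sheetIdeal j₁ W01 D.h2.chart_le_zero ≤ 𝔫.comap (chartRestrictHom β D.hβB)) := by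
    intro 𝔫 h𝔫 hall
    haveI := h𝔫
    obtain ⟨-, hA, hB, -, -⟩ := D.classification 𝔫 (i := 0) (k := 1) (by decide) (hall 0) (hall 1)
    exact ⟨⟨Ideal.isMaximal_comap_of_isIntegral_of_isMaximal' _ D.hαint 𝔫, hA.1, hA.2⟩,
      ⟨Ideal.isMaximal_comap_of_isIntegral_of_isMaximal' _ D.hβint 𝔫, hB.1, hB.2⟩⟩
  -- the constants are units, `m`-th roots of unity modulo `π`
  obtain ⟨⟨hmA₀, hAinf₀, hA0₀⟩, ⟨hmB₀, hBinf₀, hB0₀⟩⟩ := himg 𝔫₀ h𝔫₀ hall₀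
  have hc₁ : c₁ ^ m - 1 ∈ Ideal.span {π} := by
    have h1 := D.pow_sub_one_mem_span_of_node2 hLinf₁ hL0₁ hFinf₁ hF0₁ hmA₀ hAinf₀ hA0₀
      (hnode₁ _ hmA₀ hAinf₀ hA0₀)
    rwa [mul_pow, hφ₁, mul_one] at h1
  have hc₂ : c₂ ^ m - 1 ∈ Ideal.span {π} := by
    have h1 := D.pow_sub_one_mem_span_of_node2 hLinf₂ hL0₂ hFinf₂ hF0₂ hmB₀ hBinf₀ hB0₀
      (hnode₂ _ hmB₀ hBinf₀ hB0₀)
    rwa [mul_pow, hφ₂, mul_one] at h1
  obtain ⟨d₁, hcd₁, hd₁⟩ := exists_inv_of_pow_sub_one_mem hπ hm hc₁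
  obtain ⟨d₂, hcd₂, hd₂⟩ := exists_inv_of_pow_sub_one_mem hπ hm hc₂
  -- the roots of `α F₁`, `β F₂` along the three sheets
  have rα0 := root_comap (W 0) α D.hα0 hLinf₁ hFinf₁
  have rα1 := root_comap (W 1) α D.hα1 hLinf₁ hFinf₁
  have rα2 := root_comap (W 2) α D.hα2 hL0₁ hF0₁
  have rβ0 := root_comap (W 0) β D.hβ0 hLinf₂ hFinf₂
  have rβ1 := root_comap (W 1) β D.hβ1 hL0₂ hF0₂
  have rβ2 := root_comap (W 2) β D.hβ2 hL0₂ hF0₂
  have r0 := root_mul_inv_inv (W 0) ⟨hlam1 0, hGlam 0⟩ rα0 rβ0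
  have r1 := root_mul_inv_inv (W 1) ⟨hlam1 1, hGlam 1⟩ rα1 rβ1
  have r2 := root_mul_inv_inv (W 2) ⟨hlam1 2, hGlam 2⟩ rα2 rβ2
  set G' : E := G * (α F₁)⁻¹ * (β F₂)⁻¹ with hG'
  set lam' : Fin 3 → E := ![lam 0 * (α Linf₁)⁻¹ * (β Linf₂)⁻¹, lam 1 * (α Linf₁)⁻¹ * (β L0₂)⁻¹,
    lam 2 * (α L0₁)⁻¹ * (β L0₂)⁻¹] with hlam'
  have hαF : α F₁ ≠ 0 := (map_ne_zero α).mpr hF₁0
  have hβF : β F₂ ≠ 0 := (map_ne_zero β).mpr hF₂0
  have hG'0 : G' ≠ 0 := mul_ne_zero (mul_ne_zero hG0 (inv_ne_zero hαF)) (inv_ne_zero hβF)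
  have hlam1' : ∀ l, (W l).valuation (lam' l) = 1 := by
    intro l
    fin_cases l
    · exact r0.1
    · exact r1.1
    · exact r2.1
  have hGlam' : ∀ l, (W l).valuation (G' - lam' l ^ m) < 1 := by
    intro l
    fin_cases l
    · exact r0.2
    · exact r1.2
    · exact r2.2
  have hord' : ∀ P : AlgebraicCurve.Place K₁ E, (m : ℤ) ∣ P.ord G' := by
    intro P
    rw [hG', P.ord_mul (mul_ne_zero hG0 (inv_ne_zero hαF)) (inv_ne_zero hβF),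
      P.ord_mul hG0 (inv_ne_zero hαF), P.ord_inv, P.ord_inv]
    exact dvd_add (dvd_add (hord P) ((dvd_neg).mpr (hαord₁ P))) ((dvd_neg).mpr (hβord₂ P))
  -- the node data of `G'` are constant
  have hnode' : ∀ (𝔫 : Ideal ↥(chartOne R E j₂)) (h𝔫 : 𝔫.IsMaximal),
      (∀ l, sheetIdeal j₂ (W l) (D.fam.chart_le l) ≤ 𝔫) →
      @NodeRatioAt R _ E _ _ (chartOne R E j₂) 𝔫 h𝔫.isPrime (W 0) (W 1) m G' (lam' 0) (lam' 1)
        d₂ ∧
      @NodeRatioAt R _ E _ _ (chartOne R E j₂) 𝔫 h𝔫.isPrime (W 1) (W 2) m G' (lam' 1) (lam' 2)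
        d₁ := by
    intro 𝔫 h𝔫 hall
    haveI := h𝔫
    haveI h𝔫p : 𝔫.IsPrime := h𝔫.isPrime
    obtain ⟨⟨hmA, hAinf, hA0⟩, ⟨hmB, hBinf, hB0⟩⟩ := himg 𝔫 h𝔫 hall
    have hs : ∀ l, IsSheetThrough (chartOne R E j₂) 𝔫 (W l) := fun l =>
      isSheetThrough_of_le (D.fam.chart_le l) (mem_sheetIdeal_iff j₂ (W l) (D.fam.chart_le l))
        (hall l)
    have hA := hnode₁ _ hmA hAinf hA0
    have hB := hnode₂ _ hmB hBinf hB0
    set t₁ := φ₁ (tr (𝔫.comap (chartRestrictHom α D.hαB))) with ht₁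
    set t₂ := φ₂ (tr (𝔫.comap (chartRestrictHom β D.hβB))) with ht₂
    have ht₁m : t₁ ^ m = 1 := hφ₁ _
    have ht₂m : t₂ ^ m = 1 := hφ₂ _
    have hG12 : NodeRatioAt (chartOne R E j₂) 𝔫 (W 1) (W 2) m G (lam 1) (lam 2) t₁ :=
      hR₁ ⟨𝔫, h𝔫, hall⟩
    have hG01 : NodeRatioAt (chartOne R E j₂) 𝔫 (W 0) (W 1) m G (lam 0) (lam 1) t₂ :=
      hR₂ ⟨𝔫, h𝔫, hall⟩
    constructor
    · have a1 := (D.nodeRatioAt_α_01 𝔫 hA).inv (hs 0) (hs 1) (one_mul 1)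
      have b1 := (D.nodeRatioAt_β_01 𝔫 hB).inv (hs 0) (hs 1) (ζi := d₂ * t₂ ^ (m - 1)) (by
        have : c₂ * t₂ * (d₂ * t₂ ^ (m - 1)) = (c₂ * d₂) * (t₂ ^ (m - 1) * t₂) := by ring
        rw [this, hcd₂, pow_sub_one_mul hm.ne', ht₂m, one_mul])
      have h := ((hG01.mul (hs 0) (hs 1) a1).mul (hs 0) (hs 1) b1)
      have e : t₂ * 1 * (d₂ * t₂ ^ (m - 1)) = d₂ := by
        have : t₂ * 1 * (d₂ * t₂ ^ (m - 1)) = d₂ * (t₂ ^ (m - 1) * t₂) := by ring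
        rw [this, pow_sub_one_mul hm.ne', ht₂m, mul_one]
      rw [e] at h
      exact h
    · have a1 := (D.nodeRatioAt_α_12 𝔫 hA).inv (hs 1) (hs 2) (ζi := d₁ * t₁ ^ (m - 1)) (by
        have : c₁ * t₁ * (d₁ * t₁ ^ (m - 1)) = (c₁ * d₁) * (t₁ ^ (m - 1) * t₁) := by ring
        rw [this, hcd₁, pow_sub_one_mul hm.ne', ht₁m, one_mul])
      have b1 := (D.nodeRatioAt_β_12 𝔫 hB).inv (hs 1) (hs 2) (one_mul 1)
      have h := ((hG12.mul (hs 1) (hs 2) a1).mul (hs 1) (hs 2) b1)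
      have e : t₁ * (d₁ * t₁ ^ (m - 1)) * 1 = d₁ := by
        have : t₁ * (d₁ * t₁ ^ (m - 1)) * 1 = d₁ * (t₁ ^ (m - 1) * t₁) := by ring
        rw [this, pow_sub_one_mul hm.ne', ht₁m, mul_one]
      rw [e] at h
      exact h
  have hv0 : (W 0).valuation G' = 1 := root_val_eq_one (W 0) (hlam1' 0) (hGlam' 0)
  obtain ⟨κ, ε, hε, hlcG⟩ := hlc3 G' hG'0 hv0 hord'
  obtain ⟨w, hw⟩ := D.pow_of_constant_ratios hm hmR ξ hξ hM4 lc hlc hlam1' hGlam' hord' d₂ d₁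
    hd₂ hd₁ hnode' κ ε hε hlcG
  refine ⟨F₁, F₂, (κ : K₁) ^ m * algebraMap R K₁ ε, w, hgood₁, hgood₂, ?_⟩
  have e : G = G' * α F₁ * β F₂ := by
    rw [hG']
    field_simp
  rw [e, hw]
  ring

end ThreeSheetModel

end Model

end Fermat.Agent.ML.INJ3
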