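/-
ML — helper3 — **[MSQ] leaf (b): the three-sheet model of the Legendre host of level `M q q`**
(generic unramified base) as an `INJ3.ThreeSheetModel`.

`(R, K)` a DVR with algebraically closed residue field, `q = π · unit`, the cyclotomic enlargement
`(R', K', φ, κ, ζ, u)`, the three sheets `W20 = legWinf`, `W11`, `W02` of S36; `α = legHostA`,
`β = legHostB`.  All the fields are the S36 / SS inputs used in `ML.legOrd3_of_model`.
-/
import Mathlib
import Fermat.Agent.ML.MSQ_helper3_Model3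
import Fermat.Agent.ML.MSQ_helper3_OrdLeg

set_option autoImplicit false
set_option linter.unusedSectionVars false
set_option linter.unusedVariables false
set_option linter.style.haveILetI false
set_option synthInstance.maxHeartbeats 400000

open Polynomial ModularCurve IntermediateField AlgebraicCurve

namespace Fermat.Agent.ML

open Fermat.Agent.JA Fermat.Agent.Igusa Fermat.Agent.SS Fermat.Agent.MP Fermat.Agent.S36
  Fermat.Agent.NP Fermat.Agent.X0N Fermat.Agent.S35

open scoped Fermat.Agent.JA.Host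

noncomputable section

section Leg

variable (R : Type*) [CommRing R] [IsDomain R] [IsDiscreteValuationRing R] [CharZero R]
  [DecidableEq R]
  (K : Type*) [Field K] [Algebra R K] [IsFractionRing R K] [Algebra ℚ K] [Algebra K ℂ]
  {M q : ℕ} [NeZero M] [NeZero q] [NeZero (M * q)] [NeZero (M * q * q)] {x y : ℤ}
  {π : R}
  {R' : Type*} [CommRing R'] [IsDomain R'] [IsDiscreteValuationRing R']
  {K' : Type*} [Field K'] [Algebra R' K'] [IsFractionRing R' K']

set_option maxHeartbeats 6400000 in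
/-- **the three-sheet model of the Legendre host of level `M q q`.** -/
theorem legThreeSheetModel [IsAlgClosed (IsLocalRing.ResidueField R)]
    (hπ : Irreducible π) (h2 : IsUnit (2 : R))
    (h : (q : ℤ) * x + M * y = 1) (hq : q.Prime) (hq2 : q ≠ 2)
    (hqπ : (q : R) ∈ Ideal.span {π})
    (hgeo : GeoHyps K π (AdjoinSimple.gen K (legT K)) ↥(legE K M) M ({0, 1} : Finset R))
    (φ : R →+* R') [IsLocalHom φ] (κ : K →+* K')
    (hκ : ∀ r : R, κ (algebraMap R K r) = algebraMap R' K' (φ r))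
    (ζ u : R'ˣ) (hζq : ζ ^ q = 1) (hζ1 : ζ ≠ 1)
    (hπζ : φ π = ((ζ : R') - 1) ^ (q - 1) * u)
    (W11 W02 : ValuationSubring ↥(legE K (M * q * q)))
    (h11 : W11.comap (legIncl K (M * q * q)) =
      hostImageVal K 2 (keyFqW11 R K h hq φ κ hκ ζ hζq hζ1))
    (h02 : W02.comap (legIncl K (M * q * q)) = hostImageVal K 2 (keyFqW02 R K h hq)) :
    haveI : FiniteDimensional ↥K⟮jqNModC K 2⟯ ↥(legE K (M * q * q)) :=
      finite_legE_adjoin_j K (M * q * q)
    haveI : FiniteDimensional ↥K⟮jqNModC K 2⟯ ↥(legE K (M * q)) := finite_legE_adjoin_j K (M * q)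
    INJ3.ThreeSheetModel (R := R) (KN₁ := ↥K⟮jqNModC K 2⟯) (E₁ := ↥(legE K (M * q)))
      (KN₂ := ↥K⟮jqNModC K 2⟯) (E := ↥(legE K (M * q * q))) K π
      (AdjoinSimple.gen K (jqNModC K 2)) (AdjoinSimple.gen K (jqNModC K 2))
      (legWinf R K h2 (M * q)) (legW0 R K h hq)
      (IsThreeSheet.fam (legWinf R K h2 (M * q * q)) W11 W02)
      (legHostA K (M * q) q : ↥(legE K (M * q)) →+* ↥(legE K (M * q * q)))
      (legHostB K (M * q) q hq hq2 : ↥(legE K (M * q)) →+* ↥(legE K (M * q * q))) q := by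
  haveI : FiniteDimensional ↥K⟮jqNModC K 2⟯ ↥(legE K (M * q * q)) :=
    finite_legE_adjoin_j K (M * q * q)
  haveI : FiniteDimensional ↥K⟮jqNModC K 2⟯ ↥(legE K (M * q)) := finite_legE_adjoin_j K (M * q)
  haveI : CharP (IsLocalRing.ResidueField R) q := charP_residueField_of_mem_span hπ hq hqπ
  have hchar : (q : IsLocalRing.ResidueField R) = 0 := CharP.cast_eq_zero _ q
  obtain ⟨hfinA, hdegA⟩ :=
    normhost_finrank_legHostA R K (M := M * q) h2 hq hq2 (dvd_mul_left q M) hchar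
  obtain ⟨hfinB, hdegB⟩ :=
    normhost_finrank_legHostB R K (M := M * q) h2 hq hq2 (dvd_mul_left q M) hchar
  obtain ⟨hdvr, hT⟩ := legE_isThreeSheet_delta R K hπ h2 h hq hq2 hqπ hgeo φ κ hκ ζ hζq hζ1 u hπζ
    W11 W02 h11 h02
  have hfam := legE_isSheetFamily_delta R K hπ h2 h hq hq2 hqπ hgeo φ κ hκ ζ hζq hζ1 u hπζ
    W11 W02 h11 h02
  have D := legE_inst36Data_delta R K hπ h2 h hq hq2 hqπ hgeo φ κ hκ ζ hζq hζ1 u hπζ W11 W02
    h11 h02
    (normvalNormAlong₀ (legHostA K (M * q) q : ↥(legE K (M * q)) →+* ↥(legE K (M * q * q))) hfinA)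
    (normvalNormAlong₀ (legHostB K (M * q) q hq hq2 :
      ↥(legE K (M * q)) →+* ↥(legE K (M * q * q))) hfinB)
    (fun _ => rfl) (fun _ => rfl)
  have hmodel := ssModelLeg R K hπ h2 h hq hq2 hqπ hgeo
  obtain ⟨hαB, hβB, hαint, hβint⟩ := legE_chart_maps R K hπ hmodel
  obtain ⟨cq, hcq, hqcq⟩ := base36_exists_unit_mul φ hπ hq hqπ ζ u hζq hζ1 hπζ
  have hreg := leg_node_regular_final R K hmodel hπ hcq hqcq
  have hmodel' := SSModelLeg.ssModel R K hmodel
  unfold SSModelLeg at hmodel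
  have hnode := node_local_equation_of_nodeRegular hmodel hreg
  have hLE1 := legE_hLE1_T R K hπ h2 h hq hq2 hqπ hgeo φ κ hκ ζ u hζq hζ1 hπζ W11 W02 h11 h02 hfam
  have hcusps := leg_hcusps R K hπ h2 h hq hq2 hqπ hgeo φ κ hκ ζ u hζq hζ1 hπζ W11 W02 h11 h02
    (hfam.inv hπ)
  have hLE3 : ∀ (𝔫 : Ideal ↥(chartOne R ↥(legE K (M * q * q)) (AdjoinSimple.gen K (jqNModC K 2))))
      (_ : 𝔫.IsMaximal),
      (∀ l, sheetIdeal (AdjoinSimple.gen K (jqNModC K 2))
        (IsThreeSheet.fam (legWinf R K h2 (M * q * q)) W11 W02 l) (hfam.chart_le l) ≤ 𝔫) →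
      ∃ (l₁ : Fin 3)
        (z : ↥(chartOne R ↥(legE K (M * q * q)) (AdjoinSimple.gen K (jqNModC K 2)))),
        z ∈ sheetIdeal (AdjoinSimple.gen K (jqNModC K 2))
          (IsThreeSheet.fam (legWinf R K h2 (M * q * q)) W11 W02 l₁) (hfam.chart_le l₁) ∧ z ≠ 0 ∧
        ∀ w ∈ sheetIdeal (AdjoinSimple.gen K (jqNModC K 2))
          (IsThreeSheet.fam (legWinf R K h2 (M * q * q)) W11 W02 l₁) (hfam.chart_le l₁),
          ∃ s : ↥(chartOne R ↥(legE K (M * q * q)) (AdjoinSimple.gen K (jqNModC K 2))),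
            s ∉ 𝔫 ∧ z ∣ s * w := by
    intro 𝔫 h𝔫 hall
    exact exists_local_equation_three_of_node (R := R) (K₁ := K) (KN₁ := ↥K⟮jqNModC K 2⟯)
      (E₁ := ↥(legE K (M * q))) (KN₂ := ↥K⟮jqNModC K 2⟯) (E := ↥(legE K (M * q * q)))
      hπ (ssModelLeg_j_transcendental K) (ssModelLeg_j_adjoin K) hmodel.two hfam
      (legHostB K (M * q) q hq hq2 : ↥(legE K (M * q)) →+* ↥(legE K (M * q * q)))
      (ssModelLeg_B_algebraMap R K hq hq2) hβB hT.comap_B_20 hT.comap_B_11 hT.comap_B_02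
      hT.unif_20 hnode
      (fun 𝔫 h𝔫 => haveI := h𝔫
        Ideal.isMaximal_comap_of_isIntegral_of_isMaximal' _ hβint 𝔫) 𝔫 h𝔫 hall
  exact
    { hπ := hπ
      hj₁ := ssModelLeg_j_transcendental K
      hKj₁ := ssModelLeg_j_adjoin K
      hj₂ := ssModelLeg_j_transcendental K
      hKj₂ := ssModelLeg_j_adjoin K
      h2 := hmodel.two
      hmod := hmodel.isModelChart_one hπ
      fam := hfam
      hαR := ssModelLeg_A_algebraMap R K
      hβR := ssModelLeg_B_algebraMap R K hq hq2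
      hαB := hαB
      hβB := hβB
      hαint := hαint
      hβint := hβint
      hα0 := hT.comap_A_20
      hα1 := hT.comap_A_11
      hα2 := hT.comap_A_02
      hβ0 := hT.comap_B_20
      hβ1 := hT.comap_B_11
      hβ2 := hT.comap_B_02
      hq := hq.pos
      hinsα := D.hinsA
      hinsβ := D.hinsB
      hresα0 := hT.res_A_20
      hresα1 := hT.res_A_11
      hresβ2 := hT.res_B_02
      he0 := hT.unif_20
      he2 := hT.unif_02
      hLE1 := hLE1
      hLE3 := hLE3
      hcusp := hcusps }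

end Leg

end

end Fermat.Agent.ML
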