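/-
ML — helper3 — **[MSQ] leaf (b): [DECK3] on the Legendre hosts** — the node data of a toric
function of the level field `F_{Mqq}` at a triple point of the host of level `M q q` only depend on
the trace on `F_{Mq}` of the image node along `A`, resp. along `B`.

Two triple points `𝔫`, `𝔫'` whose `A`-images have the same trace on `F_{Mq}`: the images are
conjugate under a deck transformation `s₁` of `legE K (M q) / F_{Mq}` (helper4's
`Deck.exists_galois_comap_eq`), `s₁` lifts to a deck transformation `s₂` of level `M q q`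
(`ML.legDeck_lift_A`, `q ≥ 5`), `s₂` maps `𝔫` to `𝔫'` (uniqueness of the triple point over a node,
`INJ3.ThreeSheetModel.conj_mem_iff_α`), preserves the chart and the three sheets
(`INJ3.sheets_fixed3`, with the two pull-backs of the node unit `Δ(τ)/Δ(qτ)`), and moves the unit
roots to congruent ones (`Deck.involution_congr`, `m` odd): `INJ3.nodeRatioAt_transport`.
-/
import Mathlib
import Fermat.Agent.ML.MSQ_helper3_Deck3
import Fermat.Agent.ML.MSQ_helper3_LiftLeg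
import Fermat.Agent.ML.MSQ_helper3_Model3Leg

set_option autoImplicit false
set_option linter.unusedSectionVars false
set_option linter.unusedVariables false
set_option linter.style.haveILetI false
set_option synthInstance.maxHeartbeats 400000

open Polynomial ModularCurve IntermediateField AlgebraicCurve

namespace Fermat.Agent.ML

open Fermat.Agent.JA Fermat.Agent.FF Fermat.Agent.SS Fermat.Agent.S35 Fermat.Agent.MP
  Fermat.Agent.NP Fermat.Agent.GR Fermat.Agent.RB Fermat.Agent.Igusa Fermat.Agent.FG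
  Fermat.Agent.S36

open scoped Fermat.Agent.JA.Host

noncomputable section

/-! ### the unit roots are moved to congruent ones -/

section Congr

variable (R : Type*) [CommRing R] (K : Type*) [Field K] [Algebra R K] [IsFractionRing R K]
  [Algebra ℚ K] (N : ℕ) [NeZero N]

/-- **a deck transformation of the Legendre host moves a unit root of odd exponent of a function of
the level field to a congruent one**, along every valuation subring containing `R` preserved by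
the deck group. -/
theorem deck_root_congr {m : ℕ} (hm : Odd m) {ξ : R} (hξ : IsPrimitiveRoot ξ m)
    (W : ValuationSubring ↥(legE K N)) (hRW : ∀ r : R, algebraMap R ↥(legE K N) r ∈ W)
    (hWs : ∀ s ∈ fixingAlong (fullToLegE K N), ∀ z : ↥(legE K N), z ∈ W ↔ s z ∈ W)
    (F : ↥(keyFq K N)) {L : ↥(legE K N)} (hL : W.valuation L = 1)
    (hGL : W.valuation (fullToLegE K N F - L ^ m) < 1)
    {s : ↥(legE K N) ≃ₐ[K] ↥(legE K N)} (hs : s ∈ fixingAlong (fullToLegE K N)) :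
    W.valuation (s L - L) < 1 := by
  have hinj : Function.Injective (algebraMap R ↥(legE K N)) :=
    Deck.algebraMap_legE_injective R K N
  obtain ⟨a, ha, b, hb, haa, hbb, rfl⟩ := Deck.deck_exists_involutions K N hs
  have hinv : ∀ c ∈ fixingAlong (fullToLegE K N), c * c = 1 → W.valuation (c L - L) < 1 := by
    intro c hc hcc
    refine Deck.involution_congr W hinj hm hξ hRW
      (c : ↥(legE K N) ≃+* ↥(legE K N)) (hWs c hc)
      (fun r => Deck.apply_algebraMap_base c r) ?_ (hc F) hL hGL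
    intro z
    have := congrArg (fun f : ↥(legE K N) ≃ₐ[K] ↥(legE K N) => f z) hcc
    exact this
  have e1 : (a * b) L - L = a (b L - L) + (a L - L) := by
    rw [AlgEquiv.mul_apply, map_sub]
    ring
  rw [e1]
  refine lt_of_le_of_lt (Valuation.map_add _ _ _) (max_lt ?_ (hinv a ha haa))
  exact (Deck.valuation_apply_lt_one_iff W
    (a : ↥(legE K N) ≃+* ↥(legE K N)) (hWs a ha) _).mpr (hinv b hb hbb)

end Congr

/-! ### the deck transformations of level `M q q` preserve the chart and the three sheets -/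

section Model

variable (R : Type*) [CommRing R] [IsDomain R] [IsDiscreteValuationRing R] [CharZero R]
  [DecidableEq R]
  (K : Type*) [Field K] [Algebra R K] [IsFractionRing R K] [Algebra ℚ K] [Algebra K ℂ]
  {M q : ℕ} [NeZero M] [NeZero q] [NeZero (M * q)] [NeZero (M * q * q)] {x y : ℤ}
  {π : R}

/-- the deck transformations of the Legendre host preserve the chart `j`. -/
theorem deck_apply_mem_chart (N : ℕ) [NeZero N]
    {s : ↥(legE K N) ≃ₐ[K] ↥(legE K N)} (hs : s ∈ fixingAlong (fullToLegE K N))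
    {b : ↥(legE K N)} (hb : b ∈ chartOne R ↥(legE K N) (AdjoinSimple.gen K (jqNModC K 2))) :
    s b ∈ chartOne R ↥(legE K N) (AdjoinSimple.gen K (jqNModC K 2)) := by
  have hsj : s (algebraMap ↥K⟮jqNModC K 2⟯ ↥(legE K N) (AdjoinSimple.gen K (jqNModC K 2))) =
      algebraMap ↥K⟮jqNModC K 2⟯ ↥(legE K N) (AdjoinSimple.gen K (jqNModC K 2)) :=
    Deck.deck_apply_legJE K N hs
  exact Deck.apply_mem_chartOne s hsj hb

set_option maxHeartbeats 3200000 in
/-- **the deck transformations of level `M q q` preserve the three sheets.** -/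
theorem legDeck3_sheets {h2 : IsUnit (2 : R)} {hbez : (q : ℤ) * x + M * y = 1} {hq : q.Prime}
    {hq2 : q ≠ 2} (hπ : Irreducible π) {e : ℕ} {u : Rˣ} (he : 1 ≤ e) (hu : (q : R) = u * π ^ e)
    (hmodel : SSModelLeg R K π h2 hbez hq hq2)
    {W : Fin 3 → ValuationSubring ↥(legE K (M * q * q))}
    (D : haveI : FiniteDimensional ↥K⟮jqNModC K 2⟯ ↥(legE K (M * q * q)) :=
        finite_legE_adjoin_j K (M * q * q)
      haveI : FiniteDimensional ↥K⟮jqNModC K 2⟯ ↥(legE K (M * q)) :=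
        finite_legE_adjoin_j K (M * q)
      INJ3.ThreeSheetModel (R := R) (KN₁ := ↥K⟮jqNModC K 2⟯) (E₁ := ↥(legE K (M * q)))
        (KN₂ := ↥K⟮jqNModC K 2⟯) (E := ↥(legE K (M * q * q))) K π
        (AdjoinSimple.gen K (jqNModC K 2)) (AdjoinSimple.gen K (jqNModC K 2))
        (legWinf R K h2 (M * q)) (legW0 R K hbez hq) W
        (legHostA K (M * q) q : ↥(legE K (M * q)) →+* ↥(legE K (M * q * q)))
        (legHostB K (M * q) q hq hq2 : ↥(legE K (M * q)) →+* ↥(legE K (M * q * q))) q)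
    {s : ↥(legE K (M * q * q)) ≃ₐ[K] ↥(legE K (M * q * q))}
    (hs : s ∈ fixingAlong (fullToLegE K (M * q * q))) (l : Fin 3) :
    ∀ z : ↥(legE K (M * q * q)), z ∈ W l ↔ s z ∈ W l := by
  haveI : FiniteDimensional ↥K⟮jqNModC K 2⟯ ↥(legE K (M * q * q)) :=
    finite_legE_adjoin_j K (M * q * q)
  haveI : FiniteDimensional ↥K⟮jqNModC K 2⟯ ↥(legE K (M * q)) := finite_legE_adjoin_j K (M * q)
  have htwo : IsTwoSheet π (AdjoinSimple.gen K (jqNModC K 2)) (legWinf R K h2 (M * q))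
      (legW0 R K hbez hq) := SSModel.two hmodel
  have hinj : Function.Injective (algebraMap R ↥(legE K (M * q))) :=
    Deck.algebraMap_legE_injective R K (M * q)
  have hR0 : ∀ r : R, algebraMap R ↥(legE K (M * q)) r ∈ legW0 R K hbez hq := fun r =>
    htwo.chart_le_zero _
      ((chartOne R ↥(legE K (M * q)) (AdjoinSimple.gen K (jqNModC K 2))).algebraMap_mem r)
  -- the node unit of level `M q`
  have hU := ssModelLeg_nodeUnit R K hπ h2 hbez hq he hu
  set u₀ : ↥(keyFq K (M * q)) := modUnit K (M * q) q (Dvd.intro_left M rfl) with hu₀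
  set U : ↥(legE K (M * q)) := fullToLegE K (M * q) u₀ with hUdef
  have hUinf : U⁻¹ ∈ legWinf R K h2 (M * q) := hU.inv_mem_inf
  have hπinv : (algebraMap R ↥(legE K (M * q)) π)⁻¹ ∉ legW0 R K hbez hq := by
    have h1 := htwo.gauss_zero.2.1
    rw [ValuationSubring.mem_comap, map_inv₀, ← IsScalarTower.algebraMap_apply] at h1
    exact h1
  have hU0 : U⁻¹ ∉ legW0 R K hbez hq := by
    intro hcon
    apply hπinv
    have hπ0 : algebraMap R ↥(legE K (M * q)) π ≠ 0 :=
      (map_ne_zero_iff _ hinj).mpr hπ.ne_zero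
    have h1 : (algebraMap R ↥(legE K (M * q)) π ^ (12 * e))⁻¹ ∈ legW0 R K hbez hq := by
      have e1 : (algebraMap R ↥(legE K (M * q)) π ^ (12 * e))⁻¹ =
          U⁻¹ * (U * (algebraMap R ↥(legE K (M * q)) π ^ (12 * e))⁻¹) := by
        rw [← mul_assoc, inv_mul_cancel₀ hU.ne_zero, one_mul]
      rw [e1]
      exact (legW0 R K hbez hq).mul_mem _ _ hcon hU.mem_zero
    obtain ⟨c, hc⟩ : ∃ c, 12 * e = c + 1 := ⟨12 * e - 1, by omega⟩
    have e2 : (algebraMap R ↥(legE K (M * q)) π)⁻¹ =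
        algebraMap R ↥(legE K (M * q)) π ^ c *
          (algebraMap R ↥(legE K (M * q)) π ^ (12 * e))⁻¹ := by
      rw [hc, pow_succ]
      field_simp
    rw [e2]
    exact (legW0 R K hbez hq).mul_mem _ _ ((legW0 R K hbez hq).pow_mem (hR0 π) c) h1
  -- the two pull-backs of the node unit
  set UA : ↥(legE K (M * q * q)) :=
    (legHostA K (M * q) q : ↥(legE K (M * q)) →+* ↥(legE K (M * q * q))) U⁻¹ with hUA
  set UB : ↥(legE K (M * q * q)) :=
    (legHostB K (M * q) q hq hq2 : ↥(legE K (M * q)) →+* ↥(legE K (M * q * q))) U⁻¹ with hUB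
  have hsA : s UA = UA := by
    have e : UA = fullToLegE K (M * q * q) (keyFqA K (M * q) q u₀⁻¹) := by
      rw [xport_fullToLegE_keyFqA, map_inv₀]
      rfl
    rw [e]
    exact hs _
  have hsB : s UB = UB := by
    have e : UB = fullToLegE K (M * q * q) (keyFqB K (M * q) q u₀⁻¹) := by
      rw [xport_fullToLegE_keyFqB K hq hq2, map_inv₀]
      rfl
    rw [e]
    exact hs _
  have hsj : s (algebraMap ↥K⟮jqNModC K 2⟯ ↥(legE K (M * q * q))
      (AdjoinSimple.gen K (jqNModC K 2))) =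
      algebraMap ↥K⟮jqNModC K 2⟯ ↥(legE K (M * q * q)) (AdjoinSimple.gen K (jqNModC K 2)) :=
    Deck.deck_apply_legJE K (M * q * q) hs
  have hsK := Deck.apply_algebraMap_coord D.hKj₂ s hsj
  exact INJ3.sheets_fixed3 D.fam (s : ↥(legE K (M * q * q)) ≃+* ↥(legE K (M * q * q))) hsK
    (UA := UA) (UB := UB) hsA hsB
    ((comap_mem_iff _ D.hα0 _).mpr hUinf) ((comap_mem_iff _ D.hα1 _).mpr hUinf)
    (fun h => hU0 ((comap_mem_iff _ D.hα2 _).mp h))
    ((comap_mem_iff _ D.hβ0 _).mpr hUinf)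
    (fun h => hU0 ((comap_mem_iff _ D.hβ1 _).mp h))
    (fun h => hU0 ((comap_mem_iff _ D.hβ2 _).mp h)) l

set_option maxHeartbeats 3200000 in
/-- **transport of the node data along a deck transformation of level `M q q` mapping the closed
point `𝔫` to `𝔫'`.** -/
theorem legDeck3_of_conj {h2 : IsUnit (2 : R)} {hbez : (q : ℤ) * x + M * y = 1} {hq : q.Prime}
    {hq2 : q ≠ 2} (hπ : Irreducible π) {e : ℕ} {u : Rˣ} (he : 1 ≤ e) (hu : (q : R) = u * π ^ e)
    (hmodel : SSModelLeg R K π h2 hbez hq hq2)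
    {W : Fin 3 → ValuationSubring ↥(legE K (M * q * q))}
    (D : haveI : FiniteDimensional ↥K⟮jqNModC K 2⟯ ↥(legE K (M * q * q)) :=
        finite_legE_adjoin_j K (M * q * q)
      haveI : FiniteDimensional ↥K⟮jqNModC K 2⟯ ↥(legE K (M * q)) :=
        finite_legE_adjoin_j K (M * q)
      INJ3.ThreeSheetModel (R := R) (KN₁ := ↥K⟮jqNModC K 2⟯) (E₁ := ↥(legE K (M * q)))
        (KN₂ := ↥K⟮jqNModC K 2⟯) (E := ↥(legE K (M * q * q))) K π
        (AdjoinSimple.gen K (jqNModC K 2)) (AdjoinSimple.gen K (jqNModC K 2))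
        (legWinf R K h2 (M * q)) (legW0 R K hbez hq) W
        (legHostA K (M * q) q : ↥(legE K (M * q)) →+* ↥(legE K (M * q * q)))
        (legHostB K (M * q) q hq hq2 : ↥(legE K (M * q)) →+* ↥(legE K (M * q * q))) q)
    {m : ℕ} (hm : Odd m) {ξ : R} (hξ : IsPrimitiveRoot ξ m)
    (F : ↥(keyFq K (M * q * q))) {lam : Fin 3 → ↥(legE K (M * q * q))}
    (hlam1 : ∀ l, (W l).valuation (lam l) = 1)
    (hGlam : ∀ l, (W l).valuation (fullToLegE K (M * q * q) F - lam l ^ m) < 1)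
    {s : ↥(legE K (M * q * q)) ≃ₐ[K] ↥(legE K (M * q * q))}
    (hs : s ∈ fixingAlong (fullToLegE K (M * q * q)))
    (𝔫 𝔫' : Ideal ↥(chartOne R ↥(legE K (M * q * q)) (AdjoinSimple.gen K (jqNModC K 2))))
    [h𝔫 : 𝔫.IsPrime] [h𝔫' : 𝔫'.IsPrime]
    (hall' : haveI : FiniteDimensional ↥K⟮jqNModC K 2⟯ ↥(legE K (M * q * q)) :=
        finite_legE_adjoin_j K (M * q * q)
      haveI : FiniteDimensional ↥K⟮jqNModC K 2⟯ ↥(legE K (M * q)) :=
        finite_legE_adjoin_j K (M * q)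
      ∀ l, sheetIdeal (AdjoinSimple.gen K (jqNModC K 2)) (W l) (D.fam.chart_le l) ≤ 𝔫')
    (hs𝔫 : ∀ b : ↥(chartOne R ↥(legE K (M * q * q)) (AdjoinSimple.gen K (jqNModC K 2))),
      b ∈ 𝔫 ↔ (⟨s b, deck_apply_mem_chart R K (M * q * q) hs b.2⟩ :
        ↥(chartOne R ↥(legE K (M * q * q)) (AdjoinSimple.gen K (jqNModC K 2)))) ∈ 𝔫')
    (a b : Fin 3) {ζ : R}
    (h : NodeRatioAt (chartOne R ↥(legE K (M * q * q)) (AdjoinSimple.gen K (jqNModC K 2))) 𝔫
      (W a) (W b) m (fullToLegE K (M * q * q) F) (lam a) (lam b) ζ) :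
    NodeRatioAt (chartOne R ↥(legE K (M * q * q)) (AdjoinSimple.gen K (jqNModC K 2))) 𝔫'
      (W a) (W b) m (fullToLegE K (M * q * q) F) (lam a) (lam b) ζ := by
  haveI : FiniteDimensional ↥K⟮jqNModC K 2⟯ ↥(legE K (M * q * q)) :=
    finite_legE_adjoin_j K (M * q * q)
  haveI : FiniteDimensional ↥K⟮jqNModC K 2⟯ ↥(legE K (M * q)) := finite_legE_adjoin_j K (M * q)
  have hRW : ∀ l, ∀ r : R, algebraMap R ↥(legE K (M * q * q)) r ∈ W l := fun l r =>
    D.fam.chart_le l _ (Subalgebra.algebraMap_mem _ r)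
  have hsheets : ∀ c ∈ fixingAlong (fullToLegE K (M * q * q)), ∀ l,
      ∀ z : ↥(legE K (M * q * q)), z ∈ W l ↔ c z ∈ W l := fun c hc l =>
    legDeck3_sheets R K hπ he hu hmodel D hc l
  have hthr : ∀ l, IsSheetThrough
      (chartOne R ↥(legE K (M * q * q)) (AdjoinSimple.gen K (jqNModC K 2))) 𝔫' (W l) := fun l =>
    isSheetThrough_of_le (D.fam.chart_le l)
      (mem_sheetIdeal_iff (AdjoinSimple.gen K (jqNModC K 2)) (W l) (D.fam.chart_le l)) (hall' l)
  have hcong : ∀ l, (W l).valuation (s (lam l) - lam l) < 1 := fun l =>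
    deck_root_congr R K (M * q * q) hm hξ (W l) (hRW l) (fun c hc => hsheets c hc l) F (hlam1 l)
      (hGlam l) hs
  exact INJ3.nodeRatioAt_transport
    (s : ↥(legE K (M * q * q)) ≃+* ↥(legE K (M * q * q)))
    (fun b hb => deck_apply_mem_chart R K (M * q * q) hs hb) hs𝔫
    (fun r => Deck.apply_algebraMap_base s r) (hsheets s hs a) (hsheets s hs b) (hthr a) (hthr b)
    (hs F) (hlam1 a) (hlam1 b) (hcong a) (hcong b) h

set_option maxHeartbeats 6400000 in
/-- **[DECK3] along `A`**: the node data at a triple point only depend on the trace on `F_{Mq}` of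
its image along `A`. -/
theorem legDeck3_A {h2 : IsUnit (2 : R)} {hbez : (q : ℤ) * x + M * y = 1} {hq : q.Prime}
    {hq2 : q ≠ 2} (hq5 : 5 ≤ q) (hπ : Irreducible π) {e : ℕ} {u : Rˣ} (he : 1 ≤ e)
    (hu : (q : R) = u * π ^ e) (hmodel : SSModelLeg R K π h2 hbez hq hq2)
    {W : Fin 3 → ValuationSubring ↥(legE K (M * q * q))}
    (D : haveI : FiniteDimensional ↥K⟮jqNModC K 2⟯ ↥(legE K (M * q * q)) :=
        finite_legE_adjoin_j K (M * q * q)
      haveI : FiniteDimensional ↥K⟮jqNModC K 2⟯ ↥(legE K (M * q)) :=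
        finite_legE_adjoin_j K (M * q)
      INJ3.ThreeSheetModel (R := R) (KN₁ := ↥K⟮jqNModC K 2⟯) (E₁ := ↥(legE K (M * q)))
        (KN₂ := ↥K⟮jqNModC K 2⟯) (E := ↥(legE K (M * q * q))) K π
        (AdjoinSimple.gen K (jqNModC K 2)) (AdjoinSimple.gen K (jqNModC K 2))
        (legWinf R K h2 (M * q)) (legW0 R K hbez hq) W
        (legHostA K (M * q) q : ↥(legE K (M * q)) →+* ↥(legE K (M * q * q)))
        (legHostB K (M * q) q hq hq2 : ↥(legE K (M * q)) →+* ↥(legE K (M * q * q))) q)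
    {m : ℕ} (hm : Odd m) {ξ : R} (hξ : IsPrimitiveRoot ξ m)
    (F : ↥(keyFq K (M * q * q))) {lam : Fin 3 → ↥(legE K (M * q * q))}
    (hlam1 : ∀ l, (W l).valuation (lam l) = 1)
    (hGlam : ∀ l, (W l).valuation (fullToLegE K (M * q * q) F - lam l ^ m) < 1)
    (𝔫 𝔫' : Ideal ↥(chartOne R ↥(legE K (M * q * q)) (AdjoinSimple.gen K (jqNModC K 2))))
    (h𝔫 : 𝔫.IsMaximal) (h𝔫' : 𝔫'.IsMaximal)
    (hall : haveI : FiniteDimensional ↥K⟮jqNModC K 2⟯ ↥(legE K (M * q * q)) :=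
        finite_legE_adjoin_j K (M * q * q)
      haveI : FiniteDimensional ↥K⟮jqNModC K 2⟯ ↥(legE K (M * q)) :=
        finite_legE_adjoin_j K (M * q)
      ∀ l, sheetIdeal (AdjoinSimple.gen K (jqNModC K 2)) (W l) (D.fam.chart_le l) ≤ 𝔫)
    (hall' : haveI : FiniteDimensional ↥K⟮jqNModC K 2⟯ ↥(legE K (M * q * q)) :=
        finite_legE_adjoin_j K (M * q * q)
      haveI : FiniteDimensional ↥K⟮jqNModC K 2⟯ ↥(legE K (M * q)) :=
        finite_legE_adjoin_j K (M * q)
      ∀ l, sheetIdeal (AdjoinSimple.gen K (jqNModC K 2)) (W l) (D.fam.chart_le l) ≤ 𝔫')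
    (htrace : haveI : FiniteDimensional ↥K⟮jqNModC K 2⟯ ↥(legE K (M * q * q)) :=
        finite_legE_adjoin_j K (M * q * q)
      haveI : FiniteDimensional ↥K⟮jqNModC K 2⟯ ↥(legE K (M * q)) :=
        finite_legE_adjoin_j K (M * q)
      legNodeTrace R K (M * q) (𝔫.comap (chartRestrictHom
        (legHostA K (M * q) q : ↥(legE K (M * q)) →+* ↥(legE K (M * q * q))) D.hαB)) =
      legNodeTrace R K (M * q) (𝔫'.comap (chartRestrictHom
        (legHostA K (M * q) q : ↥(legE K (M * q)) →+* ↥(legE K (M * q * q))) D.hαB)))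
    (a b : Fin 3) {ζ : R}
    (h : @NodeRatioAt R _ ↥(legE K (M * q * q)) _ _
      (chartOne R ↥(legE K (M * q * q)) (AdjoinSimple.gen K (jqNModC K 2))) 𝔫 h𝔫.isPrime
      (W a) (W b) m (fullToLegE K (M * q * q) F) (lam a) (lam b) ζ) :
    @NodeRatioAt R _ ↥(legE K (M * q * q)) _ _
      (chartOne R ↥(legE K (M * q * q)) (AdjoinSimple.gen K (jqNModC K 2))) 𝔫' h𝔫'.isPrime
      (W a) (W b) m (fullToLegE K (M * q * q) F) (lam a) (lam b) ζ := by
  haveI : FiniteDimensional ↥K⟮jqNModC K 2⟯ ↥(legE K (M * q * q)) :=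
    finite_legE_adjoin_j K (M * q * q)
  haveI : FiniteDimensional ↥K⟮jqNModC K 2⟯ ↥(legE K (M * q)) := finite_legE_adjoin_j K (M * q)
  haveI := h𝔫
  haveI := h𝔫'
  haveI h𝔫p : 𝔫.IsPrime := h𝔫.isPrime
  haveI h𝔫'p : 𝔫'.IsPrime := h𝔫'.isPrime
  set ψ := chartRestrictHom (B' := chartOne R ↥(legE K (M * q)) (AdjoinSimple.gen K (jqNModC K 2)))
    (B := chartOne R ↥(legE K (M * q * q)) (AdjoinSimple.gen K (jqNModC K 2)))
    (legHostA K (M * q) q : ↥(legE K (M * q)) →+* ↥(legE K (M * q * q))) D.hαB with hψ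
  haveI hm𝔪 : (𝔫.comap ψ).IsMaximal :=
    Ideal.isMaximal_comap_of_isIntegral_of_isMaximal' ψ D.hαint 𝔫
  haveI hm𝔪' : (𝔫'.comap ψ).IsMaximal :=
    Ideal.isMaximal_comap_of_isIntegral_of_isMaximal' ψ D.hαint 𝔫'
  -- transitivity at level `M q`
  letI := algebraAlong (fullToLegE K (M * q))
  haveI := isScalarTower_along (fullToLegE K (M * q))
  haveI : Module.Finite ↥(keyFq K (M * q)) ↥(legE K (M * q)) := Deck.deck_finiteAlong K (M * q)
  haveI : IsGalois ↥(keyFq K (M * q)) ↥(legE K (M * q)) := Deck.deck_isGalois K (M * q)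
  have hBσ : ∀ (σ : ↥(legE K (M * q)) ≃ₐ[↥(keyFq K (M * q))] ↥(legE K (M * q))),
      ∀ b ∈ chartOne R ↥(legE K (M * q)) (AdjoinSimple.gen K (jqNModC K 2)),
        σ b ∈ chartOne R ↥(legE K (M * q)) (AdjoinSimple.gen K (jqNModC K 2)) := by
    intro σ b hb
    exact deck_apply_mem_chart R K (M * q)
      (restrictScalars_mem_fixingAlong (fullToLegE K (M * q)) σ) hb
  obtain ⟨σ, hσ⟩ := Deck.exists_galois_comap_eq
    (chartOne R ↥(legE K (M * q)) (AdjoinSimple.gen K (jqNModC K 2))) hBσ (𝔫.comap ψ)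
    (𝔫'.comap ψ) (by
      intro f hf hmem
      have h1 : f ∈ legNodeTrace R K (M * q) (𝔫.comap ψ) := ⟨hf, hmem⟩
      rw [htrace] at h1
      obtain ⟨hf', hmem'⟩ := h1
      exact hmem')
  set s₁ : ↥(legE K (M * q)) ≃ₐ[K] ↥(legE K (M * q)) := σ.restrictScalars K with hs₁def
  have hs₁ : s₁ ∈ fixingAlong (fullToLegE K (M * q)) :=
    restrictScalars_mem_fixingAlong (fullToLegE K (M * q)) σ
  obtain ⟨s₂, hs₂, hcomm⟩ := legDeck_lift_A K M q hq hq5 hs₁
  have hs𝔫 := D.conj_mem_iff_α (s₁ : ↥(legE K (M * q)) →+* ↥(legE K (M * q)))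
    (s₂ : ↥(legE K (M * q * q)) →+* ↥(legE K (M * q * q))) hcomm
    (fun b hb => deck_apply_mem_chart R K (M * q) hs₁ hb)
    (fun b hb => deck_apply_mem_chart R K (M * q * q) hs₂ hb) 𝔫 𝔫' hall hσ
  exact legDeck3_of_conj R K hπ he hu hmodel D hm hξ F hlam1 hGlam hs₂ 𝔫 𝔫' hall' hs𝔫 a b h

set_option maxHeartbeats 6400000 in
/-- **[DECK3] along `B`**: the node data at a triple point only depend on the trace on `F_{Mq}` of
its image along `B`. -/
theorem legDeck3_B {h2 : IsUnit (2 : R)} {hbez : (q : ℤ) * x + M * y = 1} {hq : q.Prime}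
    {hq2 : q ≠ 2} (hq5 : 5 ≤ q) (hπ : Irreducible π) {e : ℕ} {u : Rˣ} (he : 1 ≤ e)
    (hu : (q : R) = u * π ^ e) (hmodel : SSModelLeg R K π h2 hbez hq hq2)
    {W : Fin 3 → ValuationSubring ↥(legE K (M * q * q))}
    (D : haveI : FiniteDimensional ↥K⟮jqNModC K 2⟯ ↥(legE K (M * q * q)) :=
        finite_legE_adjoin_j K (M * q * q)
      haveI : FiniteDimensional ↥K⟮jqNModC K 2⟯ ↥(legE K (M * q)) :=
        finite_legE_adjoin_j K (M * q)
      INJ3.ThreeSheetModel (R := R) (KN₁ := ↥K⟮jqNModC K 2⟯) (E₁ := ↥(legE K (M * q)))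
        (KN₂ := ↥K⟮jqNModC K 2⟯) (E := ↥(legE K (M * q * q))) K π
        (AdjoinSimple.gen K (jqNModC K 2)) (AdjoinSimple.gen K (jqNModC K 2))
        (legWinf R K h2 (M * q)) (legW0 R K hbez hq) W
        (legHostA K (M * q) q : ↥(legE K (M * q)) →+* ↥(legE K (M * q * q)))
        (legHostB K (M * q) q hq hq2 : ↥(legE K (M * q)) →+* ↥(legE K (M * q * q))) q)
    {m : ℕ} (hm : Odd m) {ξ : R} (hξ : IsPrimitiveRoot ξ m)
    (F : ↥(keyFq K (M * q * q))) {lam : Fin 3 → ↥(legE K (M * q * q))}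
    (hlam1 : ∀ l, (W l).valuation (lam l) = 1)
    (hGlam : ∀ l, (W l).valuation (fullToLegE K (M * q * q) F - lam l ^ m) < 1)
    (𝔫 𝔫' : Ideal ↥(chartOne R ↥(legE K (M * q * q)) (AdjoinSimple.gen K (jqNModC K 2))))
    (h𝔫 : 𝔫.IsMaximal) (h𝔫' : 𝔫'.IsMaximal)
    (hall : haveI : FiniteDimensional ↥K⟮jqNModC K 2⟯ ↥(legE K (M * q * q)) :=
        finite_legE_adjoin_j K (M * q * q)
      haveI : FiniteDimensional ↥K⟮jqNModC K 2⟯ ↥(legE K (M * q)) :=
        finite_legE_adjoin_j K (M * q)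
      ∀ l, sheetIdeal (AdjoinSimple.gen K (jqNModC K 2)) (W l) (D.fam.chart_le l) ≤ 𝔫)
    (hall' : haveI : FiniteDimensional ↥K⟮jqNModC K 2⟯ ↥(legE K (M * q * q)) :=
        finite_legE_adjoin_j K (M * q * q)
      haveI : FiniteDimensional ↥K⟮jqNModC K 2⟯ ↥(legE K (M * q)) :=
        finite_legE_adjoin_j K (M * q)
      ∀ l, sheetIdeal (AdjoinSimple.gen K (jqNModC K 2)) (W l) (D.fam.chart_le l) ≤ 𝔫')
    (htrace : haveI : FiniteDimensional ↥K⟮jqNModC K 2⟯ ↥(legE K (M * q * q)) :=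
        finite_legE_adjoin_j K (M * q * q)
      haveI : FiniteDimensional ↥K⟮jqNModC K 2⟯ ↥(legE K (M * q)) :=
        finite_legE_adjoin_j K (M * q)
      legNodeTrace R K (M * q) (𝔫.comap (chartRestrictHom
        (legHostB K (M * q) q hq hq2 : ↥(legE K (M * q)) →+* ↥(legE K (M * q * q))) D.hβB)) =
      legNodeTrace R K (M * q) (𝔫'.comap (chartRestrictHom
        (legHostB K (M * q) q hq hq2 : ↥(legE K (M * q)) →+* ↥(legE K (M * q * q))) D.hβB)))
    (a b : Fin 3) {ζ : R}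
    (h : @NodeRatioAt R _ ↥(legE K (M * q * q)) _ _
      (chartOne R ↥(legE K (M * q * q)) (AdjoinSimple.gen K (jqNModC K 2))) 𝔫 h𝔫.isPrime
      (W a) (W b) m (fullToLegE K (M * q * q) F) (lam a) (lam b) ζ) :
    @NodeRatioAt R _ ↥(legE K (M * q * q)) _ _
      (chartOne R ↥(legE K (M * q * q)) (AdjoinSimple.gen K (jqNModC K 2))) 𝔫' h𝔫'.isPrime
      (W a) (W b) m (fullToLegE K (M * q * q) F) (lam a) (lam b) ζ := by
  haveI : FiniteDimensional ↥K⟮jqNModC K 2⟯ ↥(legE K (M * q * q)) :=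
    finite_legE_adjoin_j K (M * q * q)
  haveI : FiniteDimensional ↥K⟮jqNModC K 2⟯ ↥(legE K (M * q)) := finite_legE_adjoin_j K (M * q)
  haveI := h𝔫
  haveI := h𝔫'
  haveI h𝔫p : 𝔫.IsPrime := h𝔫.isPrime
  haveI h𝔫'p : 𝔫'.IsPrime := h𝔫'.isPrime
  set ψ := chartRestrictHom (B' := chartOne R ↥(legE K (M * q)) (AdjoinSimple.gen K (jqNModC K 2)))
    (B := chartOne R ↥(legE K (M * q * q)) (AdjoinSimple.gen K (jqNModC K 2)))
    (legHostB K (M * q) q hq hq2 : ↥(legE K (M * q)) →+* ↥(legE K (M * q * q))) D.hβB with hψ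
  haveI hm𝔪 : (𝔫.comap ψ).IsMaximal :=
    Ideal.isMaximal_comap_of_isIntegral_of_isMaximal' ψ D.hβint 𝔫
  haveI hm𝔪' : (𝔫'.comap ψ).IsMaximal :=
    Ideal.isMaximal_comap_of_isIntegral_of_isMaximal' ψ D.hβint 𝔫'
  -- transitivity at level `M q`
  letI := algebraAlong (fullToLegE K (M * q))
  haveI := isScalarTower_along (fullToLegE K (M * q))
  haveI : Module.Finite ↥(keyFq K (M * q)) ↥(legE K (M * q)) := Deck.deck_finiteAlong K (M * q)
  haveI : IsGalois ↥(keyFq K (M * q)) ↥(legE K (M * q)) := Deck.deck_isGalois K (M * q)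
  have hBσ : ∀ (σ : ↥(legE K (M * q)) ≃ₐ[↥(keyFq K (M * q))] ↥(legE K (M * q))),
      ∀ b ∈ chartOne R ↥(legE K (M * q)) (AdjoinSimple.gen K (jqNModC K 2)),
        σ b ∈ chartOne R ↥(legE K (M * q)) (AdjoinSimple.gen K (jqNModC K 2)) := by
    intro σ b hb
    exact deck_apply_mem_chart R K (M * q)
      (restrictScalars_mem_fixingAlong (fullToLegE K (M * q)) σ) hb
  obtain ⟨σ, hσ⟩ := Deck.exists_galois_comap_eq
    (chartOne R ↥(legE K (M * q)) (AdjoinSimple.gen K (jqNModC K 2))) hBσ (𝔫.comap ψ)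
    (𝔫'.comap ψ) (by
      intro f hf hmem
      have h1 : f ∈ legNodeTrace R K (M * q) (𝔫.comap ψ) := ⟨hf, hmem⟩
      rw [htrace] at h1
      obtain ⟨hf', hmem'⟩ := h1
      exact hmem')
  set s₁ : ↥(legE K (M * q)) ≃ₐ[K] ↥(legE K (M * q)) := σ.restrictScalars K with hs₁def
  have hs₁ : s₁ ∈ fixingAlong (fullToLegE K (M * q)) :=
    restrictScalars_mem_fixingAlong (fullToLegE K (M * q)) σ
  obtain ⟨s₂, hs₂, hcomm⟩ := legDeck_lift_B K M q hq hq2 hq5 hs₁
  have hs𝔫 := D.conj_mem_iff_β (s₁ : ↥(legE K (M * q)) →+* ↥(legE K (M * q)))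
    (s₂ : ↥(legE K (M * q * q)) →+* ↥(legE K (M * q * q))) hcomm
    (fun b hb => deck_apply_mem_chart R K (M * q) hs₁ hb)
    (fun b hb => deck_apply_mem_chart R K (M * q * q) hs₂ hb) 𝔫 𝔫' hall hσ
  exact legDeck3_of_conj R K hπ he hu hmodel D hm hξ F hlam1 hGlam hs₂ 𝔫 𝔫' hall' hs𝔫 a b h

end Model

end

end Fermat.Agent.ML
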