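/-
ML — helper3 — **[MSQ] leaf (b): the decomposition on the Legendre hosts.**

Over a base `K ⊂ Ω` with a discrete valuation ring `R` (fraction field `K`), the two-sheet model of
level `M q` and the three-sheet model `D` of level `M q q`: a function `F` of the level field
`F_{Mqq}(K)` all of whose orders (over `Ω`) are divisible by the odd `p` and which is toric along
the three sheets decomposes on the host as
`F = c · A(F₁) · B(F₂) · w ^ p`, with `F₁`, `F₂` functions of `F_{Mq}(K)` all of whose orders are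
divisible by `p` — from [SURJ] on the model of level `M q` (`ML.SurjAt`), [DECK3]
(`ML.legDeck3_A/B`), the abstract decomposition (`INJ3.ThreeSheetModel.exists_decomp`) and the
normalisation `hlc3` of the leading coefficients at level `M q q`.
-/
import Mathlib
import Fermat.Agent.ML.MSQ_helper3_Asm3Abs
import Fermat.Agent.ML.MSQ_helper3_Deck3Leg
import Fermat.Agent.ML.INJ_helper7_Main
import Fermat.Agent.ML.IFACE_helper3_Surj2

set_option autoImplicit false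
set_option linter.unusedSectionVars false
set_option linter.unusedVariables false
set_option linter.style.haveILetI false
set_option synthInstance.maxHeartbeats 400000

open Polynomial ModularCurve IntermediateField AlgebraicCurve

namespace Fermat.Agent.ML

open Fermat.Agent.JA Fermat.Agent.FF Fermat.Agent.SS Fermat.Agent.S35 Fermat.Agent.MP
  Fermat.Agent.NP Fermat.Agent.GR Fermat.Agent.RB Fermat.Agent.Igusa Fermat.Agent.FG
  Fermat.Agent.S36

open scoped Fermat.Agent.JA.Host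

/-- `Ω = AlgebraicClosure ℚ`. -/
local notation "Ω" => AlgebraicClosure ℚ

noncomputable section

section Leg

variable (R : Type*) [CommRing R] [IsDomain R] [IsDiscreteValuationRing R] [CharZero R]
  [DecidableEq R]
  (K : IntermediateField ℚ Ω) [Algebra R ↥K] [IsFractionRing R ↥K]
  {M q : ℕ} [NeZero M] [NeZero q] [NeZero (M * q)] [NeZero (M * q * q)] {x y : ℤ}
  {π : R}

set_option maxHeartbeats 6400000 in
/-- **the decomposition on the Legendre hosts.** -/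
theorem legDecomp3 [IsAlgClosed (IsLocalRing.ResidueField R)]
    {h2 : IsUnit (2 : R)} {hbez : (q : ℤ) * x + M * y = 1} {hq : q.Prime} {hq2 : q ≠ 2}
    (hq5 : 5 ≤ q) (hπ : Irreducible π) {e : ℕ} {u : Rˣ} (he : 1 ≤ e) (hu : (q : R) = u * π ^ e)
    {p : ℕ} (hp : Odd p) (hpR : IsUnit (p : R)) {ξ : R} (hξ : IsPrimitiveRoot ξ p) :
    letI := baseToComplex K
    ∀ (hmodel : SSModelLeg R ↥K π h2 hbez hq hq2)
      {W : Fin 3 → ValuationSubring ↥(legE ↥K (M * q * q))}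
      (D : haveI : FiniteDimensional ↥(↥K)⟮jqNModC ↥K 2⟯ ↥(legE ↥K (M * q * q)) :=
          finite_legE_adjoin_j ↥K (M * q * q)
        haveI : FiniteDimensional ↥(↥K)⟮jqNModC ↥K 2⟯ ↥(legE ↥K (M * q)) :=
          finite_legE_adjoin_j ↥K (M * q)
        INJ3.ThreeSheetModel (R := R) (KN₁ := ↥(↥K)⟮jqNModC ↥K 2⟯) (E₁ := ↥(legE ↥K (M * q)))
          (KN₂ := ↥(↥K)⟮jqNModC ↥K 2⟯) (E := ↥(legE ↥K (M * q * q))) ↥K π
          (AdjoinSimple.gen ↥K (jqNModC ↥K 2)) (AdjoinSimple.gen ↥K (jqNModC ↥K 2))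
          (legWinf R ↥K h2 (M * q)) (legW0 R ↥K hbez hq) W
          (legHostA ↥K (M * q) q : ↥(legE ↥K (M * q)) →+* ↥(legE ↥K (M * q * q)))
          (legHostB ↥K (M * q) q hq hq2 : ↥(legE ↥K (M * q)) →+* ↥(legE ↥K (M * q * q))) q)
      (hsurj : SurjAt R K p π h2 hbez hq hq2)
      (hlc3 : ∀ G' : ↥(legE ↥K (M * q * q)), G' ≠ 0 → (W 0).valuation G' = 1 →
        (∀ P : Place ↥K ↥(legE ↥K (M * q * q)), (p : ℤ) ∣ P.ord G') →
        ∃ (κ : (↥K)ˣ) (ε : R), ε - 1 ∈ Ideal.span {π} ∧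
          ((G' : ↥(legE ↥K (M * q * q))) : LaurentSeries ↥K).leadingCoeff =
            (κ : ↥K) ^ p * algebraMap R ↥K ε)
      (F : ↥(keyFq ↥K (M * q * q)))
      (hordΩ : ∀ v : Place Ω ↥(modularFunctionFieldBar (M * q * q)),
        (p : ℤ) ∣ v.ord (keyFqBC (M * q * q) K F))
      {lam : Fin 3 → ↥(legE ↥K (M * q * q))} (hlam1 : ∀ l, (W l).valuation (lam l) = 1)
      (hGlam : ∀ l, (W l).valuation (fullToLegE ↥K (M * q * q) F - lam l ^ p) < 1),
      ∃ (F₁ F₂ : ↥(keyFq ↥K (M * q))) (c : ↥K) (w : ↥(legE ↥K (M * q * q))), F₁ ≠ 0 ∧ F₂ ≠ 0 ∧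
        (∀ v : Place Ω ↥(modularFunctionFieldBar (M * q)),
          (p : ℤ) ∣ v.ord (keyFqBC (M * q) K F₁)) ∧
        (∀ v : Place Ω ↥(modularFunctionFieldBar (M * q)),
          (p : ℤ) ∣ v.ord (keyFqBC (M * q) K F₂)) ∧
        fullToLegE ↥K (M * q * q) F = algebraMap ↥K ↥(legE ↥K (M * q * q)) c *
          legHostA ↥K (M * q) q (fullToLegE ↥K (M * q) F₁) *
          legHostB ↥K (M * q) q hq hq2 (fullToLegE ↥K (M * q) F₂) * w ^ p := by
  letI := baseToComplex K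
  intro hmodel W D hsurj hlc3 F hordΩ lam hlam1 hGlam
  haveI : FiniteDimensional ↥(↥K)⟮jqNModC ↥K 2⟯ ↥(legE ↥K (M * q * q)) :=
    finite_legE_adjoin_j ↥K (M * q * q)
  haveI : FiniteDimensional ↥(↥K)⟮jqNModC ↥K 2⟯ ↥(legE ↥K (M * q)) :=
    finite_legE_adjoin_j ↥K (M * q)
  have hinj : Function.Injective (algebraMap R ↥(legE ↥K (M * q * q))) :=
    Deck.algebraMap_legE_injective R ↥K (M * q * q)
  have hord : ∀ P : Place ↥K ↥(legE ↥K (M * q * q)),
      (p : ℤ) ∣ P.ord (fullToLegE ↥K (M * q * q) F) :=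
    dvd_ord_fullToLegE_base (M * q * q) K F hordΩ
  -- the degeneracy maps are integral
  have hqπ : (q : R) ∈ Ideal.span {π} := by
    rw [hu]
    obtain ⟨k, rfl⟩ : ∃ k, e = k + 1 := ⟨e - 1, by omega⟩
    rw [pow_succ, ← mul_assoc]
    exact Ideal.mul_mem_left _ _ (Ideal.mem_span_singleton_self π)
  haveI : CharP (IsLocalRing.ResidueField R) q := charP_residueField_of_mem_span hπ hq hqπ
  have hchar : (q : IsLocalRing.ResidueField R) = 0 := CharP.cast_eq_zero _ q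
  obtain ⟨hfinA, -⟩ :=
    normhost_finrank_legHostA R ↥K (M := M * q) h2 hq hq2 (dvd_mul_left q M) hchar
  obtain ⟨hfinB, -⟩ :=
    normhost_finrank_legHostB R ↥K (M := M * q) h2 hq hq2 (dvd_mul_left q M) hchar
  have hAint : (legHostA ↥K (M * q) q).toRingHom.IsIntegral := by
    letI := (legHostA ↥K (M * q) q : ↥(legE ↥K (M * q)) →+* ↥(legE ↥K (M * q * q))).toAlgebra
    haveI := hfinA
    intro z
    exact Algebra.IsIntegral.isIntegral (R := ↥(legE ↥K (M * q))) z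
  have hBint : (legHostB ↥K (M * q) q hq hq2).toRingHom.IsIntegral := by
    letI := (legHostB ↥K (M * q) q hq hq2 :
      ↥(legE ↥K (M * q)) →+* ↥(legE ↥K (M * q * q))).toAlgebra
    haveI := hfinB
    intro z
    exact Algebra.IsIntegral.isIntegral (R := ↥(legE ↥K (M * q))) z
  have hαord : ∀ G₁ : ↥(legE ↥K (M * q)),
      (∀ P : Place ↥K ↥(legE ↥K (M * q)), (p : ℤ) ∣ P.ord G₁) →
      ∀ P : Place ↥K ↥(legE ↥K (M * q * q)), (p : ℤ) ∣ P.ord (legHostA ↥K (M * q) q G₁) := by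
    intro G₁ h P
    rw [Place.ord_restrictAlong _ hAint P G₁]
    exact Dvd.dvd.mul_left (h _) _
  have hβord : ∀ G₁ : ↥(legE ↥K (M * q)),
      (∀ P : Place ↥K ↥(legE ↥K (M * q)), (p : ℤ) ∣ P.ord G₁) →
      ∀ P : Place ↥K ↥(legE ↥K (M * q * q)),
        (p : ℤ) ∣ P.ord (legHostB ↥K (M * q) q hq hq2 G₁) := by
    intro G₁ h P
    rw [Place.ord_restrictAlong _ hBint P G₁]
    exact Dvd.dvd.mul_left (h _) _
  obtain ⟨G₁, G₂, c, w, ⟨F₁, hF₁, hΩ₁, rfl⟩, ⟨F₂, hF₂, hΩ₂, rfl⟩, hdec⟩ :=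
    D.exists_decomp hinj hp.pos hpR hξ (ssModelLeg_const ↥K (M := M * q) (q := q))
      (hostLc (legE ↥K (M * q * q))) (hostLc_algebraMap (legE ↥K (M * q * q)))
      (legNodeTrace R ↥K (M * q))
      (fun G₁ : ↥(legE ↥K (M * q)) => ∃ F₁ : ↥(keyFq ↥K (M * q)), F₁ ≠ 0 ∧
        (∀ v : Place Ω ↥(modularFunctionFieldBar (M * q)),
          (p : ℤ) ∣ v.ord (keyFqBC (M * q) K F₁)) ∧ fullToLegE ↥K (M * q) F₁ = G₁)
      ⟨1, one_ne_zero, fun v => by rw [map_one, Place.ord_one]; exact dvd_zero _, map_one _⟩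
      (by
        rintro G₁ ⟨F₁, hF₁, hΩ₁, rfl⟩
        have h1 : ∀ P : Place ↥K ↥(legE ↥K (M * q)), (p : ℤ) ∣ P.ord (fullToLegE ↥K (M * q) F₁) :=
          dvd_ord_fullToLegE_base (M * q) K F₁ hΩ₁
        exact ⟨(_root_.map_ne_zero _).mpr hF₁, hαord _ h1, hβord _ h1⟩)
      hlam1 hGlam hord
      (fun 𝔫 𝔫' h𝔫 h𝔫' hall hall' htr ζ h =>
        legDeck3_A R ↥K hq5 hπ he hu hmodel D hp hξ F hlam1 hGlam 𝔫 𝔫' h𝔫 h𝔫' hall hall' htr 1 2 h)
      (fun 𝔫 𝔫' h𝔫 h𝔫' hall hall' htr ζ h =>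
        legDeck3_B R ↥K hq5 hπ he hu hmodel D hp hξ F hlam1 hGlam 𝔫 𝔫' h𝔫 h𝔫' hall hall' htr 0 1 h)
      (by
        intro φ hφ
        obtain ⟨F₁, Linf, L0, c, hF0, hΩ₁, hLinf, hL0, hFinf, hF0', hnode⟩ := hsurj hmodel φ hφ
        exact ⟨fullToLegE ↥K (M * q) F₁, Linf, L0, c, ⟨F₁, hF0, hΩ₁, rfl⟩, hLinf, hL0, hFinf,
          hF0', fun 𝔪 h𝔪 hi h0 => hnode 𝔪 ⟨h𝔪, hi, h0⟩⟩)
      (by
        intro G' h0 hv hP
        obtain ⟨κ, ε, hε, hl⟩ := hlc3 G' h0 hv hP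
        exact ⟨κ, ε, hε, fun v hv => by rw [coe_hostLc, hv]; exact hl⟩)
  exact ⟨F₁, F₂, c, w, hF₁, hF₂, hΩ₁, hΩ₂, hdec⟩

end Leg

end

end Fermat.Agent.ML
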