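/-
ML — helper7 — **[OLD-HECKE], part 1: Kummer characters and the two degeneracy maps.**

* `kummerChar_pullA` : the Kummer character over `Γ₀(N q)` of a Kummer element of `Γ₀(N)` is the
  restriction `α^*` of its Kummer character;
* `kummerChar_dilate` : the Kummer character over `Γ₀(N q)` of `u(q ·)` is `β^*` of the Kummer
  character of `u`;
* `exists_torsion_of_dvd_ord` : a function all of whose orders are divisible by `n` has an `n`-th
  root `u` on the upper half plane, and `kap` of the class of `(1/n) div f` is the Kummer character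
  of `u`.
-/
import Mathlib
import Fermat.Agent.GR.ASM_helper8_Inst
import Fermat.Agent.GR.KHECKE_helper4_Main
import Fermat.Agent.SS.HOSTB_helper8_Conj
import Fermat.Agent.LR.XFER_helper4_Hecke

set_option autoImplicit false
set_option linter.unusedSectionVars false
set_option linter.unusedVariables false
set_option linter.style.haveILetI false

open UpperHalfPlane hiding I
open ModularCurve AlgebraicCurve CongruenceSubgroup ModularCurve.Period
open scoped MatrixGroups

namespace Fermat.Agent.ML.OLDH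

open Fermat.Agent.JA Fermat.Agent.X0N Fermat.Agent.GR Fermat.Agent.LR Fermat.Agent.SS

local notation "Ω" => AlgebraicClosure ℚ

attribute [local instance] algebraQbarComplex isScalarTower_rat_qbar_complex

section Kummer

variable (N q n : ℕ) [NeZero n]

/-- the Kummer character over `Γ₀(N q)` is the restriction of the Kummer character over
`Γ₀(N)`. -/
theorem kummerChar_pullA {u : MerH} (hu : IsKummerElt (Gamma0 N) n u) :
    kummerChar (Gamma0 (N * q)) n u = pullA N q (ZMod n) (kummerChar (Gamma0 N) n u) := by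
  apply kummerChar_eq_of_spec hu.1
  intro γ
  have h := kummerChar_spec hu (inclHom N q γ)
  rw [coe_inclHom] at h
  rw [h]
  rfl

/-- the Kummer character of `u(q ·)` over `Γ₀(N q)` is `β^*` of the Kummer character of `u`. -/
theorem kummerChar_dilate [NeZero q] (hq : q.Prime) {u : MerH}
    (hu : IsKummerElt (Gamma0 N) n u) :
    kummerChar (Gamma0 (N * q)) n (MerH.dilate q u) =
      pullB N q hq (ZMod n) (kummerChar (Gamma0 N) n u) := by
  have hu0 : MerH.dilate q u ≠ 0 := by
    rw [Ne, map_eq_zero_iff _ (MerH.dilate_injective q)]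
    exact hu.1
  apply kummerChar_eq_of_spec hu0
  intro γ
  have hd : (q : ℤ) ∣ (γ : SL(2, ℤ)) 1 0 := dvd_one_zero_of_mem_Gamma0_mul γ
  have hc : (γ : SL(2, ℤ)) 1 0 = (q : ℤ) * ((γ : SL(2, ℤ)) 1 0 / (q : ℤ)) :=
    (Int.mul_ediv_cancel' hd).symm
  have he : conjDiag q (γ : SL(2, ℤ)) ((γ : SL(2, ℤ)) 1 0 / (q : ℤ)) hc =
      ((conjDownHom N q hq γ : Gamma0 N) : SL(2, ℤ)) := Subtype.ext rfl
  rw [MerH.comp_dilate q (γ : SL(2, ℤ)) _ hc, he, kummerChar_spec hu (conjDownHom N q hq γ),
    map_mul, MerH.dilate_const]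
  rfl

theorem isKummerElt_mono {Γ Γ' : Subgroup SL(2, ℤ)} (h : Γ' ≤ Γ) {u : MerH}
    (hu : IsKummerElt Γ n u) : IsKummerElt Γ' n u :=
  ⟨hu.1, fun γ hγ => hu.2 γ (h hγ)⟩

/-- `u(q ·)` is a Kummer element over `Γ₀(N q)`. -/
theorem isKummerElt_dilate [NeZero q] (hq : q.Prime) {u : MerH}
    (hu : IsKummerElt (Gamma0 N) n u) : IsKummerElt (Gamma0 (N * q)) n (MerH.dilate q u) := by
  have hu0 : MerH.dilate q u ≠ 0 := by
    rw [Ne, map_eq_zero_iff _ (MerH.dilate_injective q)]
    exact hu.1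
  refine isKummerElt_of_char hu0
    (fun γ => kummerChar (Gamma0 N) n u (Additive.ofMul (conjDownHom N q hq γ))) (fun γ => ?_)
  have hd : (q : ℤ) ∣ (γ : SL(2, ℤ)) 1 0 := dvd_one_zero_of_mem_Gamma0_mul γ
  have hc : (γ : SL(2, ℤ)) 1 0 = (q : ℤ) * ((γ : SL(2, ℤ)) 1 0 / (q : ℤ)) :=
    (Int.mul_ediv_cancel' hd).symm
  have he : conjDiag q (γ : SL(2, ℤ)) ((γ : SL(2, ℤ)) 1 0 / (q : ℤ)) hc =
      ((conjDownHom N q hq γ : Gamma0 N) : SL(2, ℤ)) := Subtype.ext rfl
  rw [MerH.comp_dilate q (γ : SL(2, ℤ)) _ hc, he, kummerChar_spec hu (conjDownHom N q hq γ),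
    map_mul, MerH.dilate_const]

end Kummer

section Torsion

variable (N : ℕ) [NeZero N] (B : DescData N)

/-- a function all of whose orders are divisible by `n`: the class of `(1/n) div f`, an `n`-th
root on the upper half plane and its Kummer character. -/
theorem exists_torsion_of_dvd_ord (n : ℕ) [NeZero n] (f : ↥(modularFunctionFieldBar N))
    (hf : f ≠ 0) (hdvd : ∀ v : Place Ω ↥(modularFunctionFieldBar N), (n : ℤ) ∣ v.ord f) :
    ∃ (y : ↥(torsionNat (JZero N) n)) (u : MerH), u ^ n = realN (algebraMap Ω ℂ) N f ∧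
      IsKummerElt (Gamma0 N) n u ∧ B.kapOf n y = kummerChar (Gamma0 N) n u := by
  haveI : HasPrincipalDivisors Ω ↥(modularFunctionFieldBar N) :=
    (jCoordBar N).hasPrincipalDivisors
  have hn0 : (n : ℤ) ≠ 0 := by exact_mod_cast NeZero.ne n
  obtain ⟨E, hE, hdeg⟩ := HasPrincipalDivisors.exists_divisor (K := Ω) f hf
  set D : Divisor Ω ↥(modularFunctionFieldBar N) :=
    Finsupp.mapRange (fun z : ℤ => z / (n : ℤ)) (by simp) E with hDdef
  have hDv : ∀ v, (n : ℤ) * D v = v.ord f := by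
    intro v
    rw [hDdef, Finsupp.mapRange_apply, hE v]
    exact Int.mul_ediv_cancel' (hdvd v)
  have hnD : (n : ℤ) • D = E := by
    ext v
    rw [Finsupp.smul_apply, smul_eq_mul, hDv v, hE v]
  have hdegD : Divisor.degree D = 0 := by
    have h1 : (n : ℤ) * Divisor.degree D = 0 := by
      rw [← smul_eq_mul, ← map_zsmul, hnD, hdeg]
    rcases mul_eq_zero.mp h1 with h2 | h2
    · exact absurd h2 hn0
    · exact h2
  set D₀ : ↥(Divisor.degZero (K := Ω) (F := ↥(modularFunctionFieldBar N))) :=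
    ⟨D, Divisor.mem_degZero.mpr hdegD⟩ with hD₀
  have hD₀v : ∀ v : Place Ω ↥(modularFunctionFieldBar N),
      (n : ℤ) * (D₀ : Divisor Ω _) v = v.ord f := hDv
  have hy : n • (Pic0.mk D₀ : JZero N) = 0 := nsmul_mk_eq_zero_of_fun n D₀ f hf hD₀v
  obtain ⟨D', hbc, hD'⟩ := B.rep n D₀ f hf hD₀v
  have hf' : bcHom (L := ℂ) (modularFunctionFieldFull N) f ≠ 0 := by
    rw [Ne, map_eq_zero_iff _ (bcHom (L := ℂ) (modularFunctionFieldFull N)).injective]
    exact hf
  obtain ⟨u, hu⟩ := exists_root_realNC (n := n) (D' : Divisor ℂ _) _ hf' hD'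
  have hun : u ^ n = realN (algebraMap Ω ℂ) N f := by
    rw [hu, realN_eq_realNC_bcHom]
  refine ⟨⟨Pic0.mk D₀, mem_torsionNat.mpr hy⟩, u, hun, isKummerElt_of_pow_eq_realN N hf hun, ?_⟩
  exact B.kapOf_eq_kummerChar n D₀ f hf hD₀v _ rfl hun

end Torsion

end Fermat.Agent.ML.OLDH
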