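/-
ML — helper7 — **[OLD-HECKE], part 2: `OldHeckeStatementE`** (helper3's `OldHeckeStatement` with
the two extra hypotheses `p ≠ 2`, `EvenAtThree p M` needed by `eigenTorsOccursO_of` and by the
commutativity of the Hecke operators on `J₀(M q)[p]`).

A non-zero Hecke eigenclass `x = [D] ∈ J₀(M q q)[p]` whose Kummer function is
`c · α(f₁) · β(f₂) · h ^ p`, with `f₁`, `f₂` of level `M q` all of whose orders are divisible by
`p`, forces the eigensystem to occur residually at level `M q`.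

Proof, through the Kummer maps only: with `u_i ^ p = f_i` on the upper half plane and
`y_i = [(1/p) div f_i] ∈ J₀(M q)[p]`, the function `c^{1/p} u₁ u₂(q ·) h` is a `p`-th root of `f`,
hence `kap(x) = α^* kap(y₁) + β^* kap(y₂)`.  The map `Ψ = α^* kap ⊕ β^* kap` on the finite group
`J₀(M q)[p]²` is Hecke equivariant (`StageIData.hecke`, `LR.heckeGrpP_pullA/B`), `Ψ(y₁, y₂) ≠ 0` is
an eigenvector, so helper4's `ROLD.exists_common_kernel` (with `V₀ = ker Ψ`) yields a non-zero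
common eigenvector `(z₁, z₂)`; conclude with `eigenTorsOccursO_of`.
-/
import Mathlib
import Fermat.Agent.ML.OLDH_helper7_Kum
import Fermat.Agent.ML.ROLD_helper6_MainE

set_option autoImplicit false
set_option linter.unusedSectionVars false
set_option linter.unusedVariables false
set_option linter.style.haveILetI false
set_option synthInstance.maxHeartbeats 400000

open UpperHalfPlane hiding I
open ModularCurve AlgebraicCurve CongruenceSubgroup ModularCurve.Period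
open scoped MatrixGroups

namespace Fermat.Agent.ML

open Fermat.Agent.JA Fermat.Agent.X0N Fermat.Agent.GR Fermat.Agent.LR Fermat.Agent.SS
  Fermat.Agent.MP Fermat.Agent.RB Fermat.Agent.RB.ROLD Fermat.Agent.ML.OLDH

local notation "Ω" => AlgebraicClosure ℚ

attribute [local instance] algebraQbarComplex isScalarTower_rat_qbar_complex

/-- **[OLD-HECKE]** (every odd `p`, even level at `p = 3`). -/
def OldHeckeStatementE : Prop :=
  ∀ (M q p : ℕ) [NeZero M] [NeZero q] [NeZero (M * q)] [NeZero (M * q * q)], q.Prime → p.Prime →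
    p ≠ 2 → q ≠ p → ¬ q ∣ M → EvenAtThree p M →
    ∀ (S : Set ℕ) (a : ℕ → ℤ), (∀ ℓ : ℕ, ℓ.Prime → ℓ ∣ M * q * q → ℓ ∈ S) → p ∈ S →
    ∀ (D : Divisor.degZero (K := Ω) (F := ↥(modularFunctionFieldBar (M * q * q))))
      (f h : ↥(modularFunctionFieldBar (M * q * q))) (f₁ f₂ : ↥(modularFunctionFieldBar (M * q)))
      (c : Ω), f ≠ 0 →
      (∀ v : Place Ω ↥(modularFunctionFieldBar (M * q * q)),
        v.ord f = (p : ℤ) * (D : Divisor Ω ↥(modularFunctionFieldBar (M * q * q))) v) →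
      (Pic0.mk D : JZero (M * q * q)) ≠ 0 →
      (∀ (ℓ : ℕ) (hℓ : ℓ.Prime), ℓ ∉ S →
        heckeOperatorBar (M * q * q) ⟨ℓ, hℓ⟩ (Pic0.mk D : JZero (M * q * q)) =
          a ℓ • (Pic0.mk D : JZero (M * q * q))) →
      f₁ ≠ 0 → f₂ ≠ 0 →
      (∀ v : Place Ω ↥(modularFunctionFieldBar (M * q)), (p : ℤ) ∣ v.ord f₁) →
      (∀ v : Place Ω ↥(modularFunctionFieldBar (M * q)), (p : ℤ) ∣ v.ord f₂) →
      f = algebraMap Ω ↥(modularFunctionFieldBar (M * q * q)) c *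
          heckeAlphaBar Ω (M * q) q f₁ * heckeBetaBar Ω (M * q) q f₂ * h ^ p →
      ResOccurs (M * q) p S a

section Root

variable (N q n : ℕ) [NeZero N] [NeZero q] [NeZero (N * q)] [NeZero n] (hq : q.Prime)

/-- **the Kummer character of `c · α(f₁) · β(f₂) · h ^ n`.** -/
theorem exists_root_of_old (f h : ↥(modularFunctionFieldBar (N * q)))
    (f₁ f₂ : ↥(modularFunctionFieldBar N)) (c : Ω) (hf : f ≠ 0)
    (hfeq : f = algebraMap Ω ↥(modularFunctionFieldBar (N * q)) c *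
      heckeAlphaBar Ω N q f₁ * heckeBetaBar Ω N q f₂ * h ^ n)
    {u₁ u₂ : MerH} (hu₁ : u₁ ^ n = realN (algebraMap Ω ℂ) N f₁)
    (hu₂ : u₂ ^ n = realN (algebraMap Ω ℂ) N f₂)
    (hK₁ : IsKummerElt (Gamma0 N) n u₁) (hK₂ : IsKummerElt (Gamma0 N) n u₂) :
    ∃ u : MerH, u ^ n = realN (algebraMap Ω ℂ) (N * q) f ∧
      kummerChar (Gamma0 (N * q)) n u =
        pullA N q (ZMod n) (kummerChar (Gamma0 N) n u₁) +
          pullB N q hq (ZMod n) (kummerChar (Gamma0 N) n u₂) := by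
  have hc0 : c ≠ 0 := by
    rintro rfl
    apply hf
    rw [hfeq, map_zero, zero_mul, zero_mul, zero_mul]
  have hh0 : h ≠ 0 := by
    rintro rfl
    apply hf
    rw [hfeq, zero_pow (NeZero.ne n), mul_zero]
  obtain ⟨c', hc'⟩ := IsAlgClosed.exists_pow_nat_eq (algebraMap Ω ℂ c) (Nat.pos_of_ne_zero
    (NeZero.ne n))
  have hc'0 : c' ≠ 0 := by
    rintro rfl
    rw [zero_pow (NeZero.ne n)] at hc'
    exact hc0 ((map_eq_zero_iff _ (algebraMap Ω ℂ).injective).mp hc'.symm)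
  set v : MerH := realN (algebraMap Ω ℂ) (N * q) h with hv
  have hv0 : v ≠ 0 := by
    rw [hv, Ne, map_eq_zero_iff _ (realN_injective (algebraMap Ω ℂ) (N * q))]
    exact hh0
  have hvinv : ∀ γ ∈ Gamma0 (N * q), MerH.comp γ v = v := fun γ hγ =>
    comp_realN_of_mem_Gamma0 (algebraMap Ω ℂ) (N * q) hγ h
  have k0 : IsKummerElt (Gamma0 (N * q)) n (MerH.const c') := isKummerElt_const hc'0
  have k1 : IsKummerElt (Gamma0 (N * q)) n u₁ := isKummerElt_mono n (Gamma0_mul_le N q) hK₁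
  have k2 : IsKummerElt (Gamma0 (N * q)) n (MerH.dilate q u₂) := isKummerElt_dilate N q n hq hK₂
  have k3 : IsKummerElt (Gamma0 (N * q)) n v := isKummerElt_of_invariant hv0 hvinv
  refine ⟨MerH.const c' * u₁ * MerH.dilate q u₂ * v, ?_, ?_⟩
  · rw [mul_pow, mul_pow, mul_pow, ← map_pow, hc', ← map_pow, hu₁, hu₂, hfeq, map_mul, map_mul,
      map_mul, map_pow, realN_algebraMap, realN_heckeAlphaBar, realN_heckeBetaBar]
  · rw [kummerChar_mul ((k0.mul k1).mul k2) k3, kummerChar_mul (k0.mul k1) k2,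
      kummerChar_mul k0 k1, kummerChar_const hc'0, kummerChar_of_invariant hv0 hvinv, zero_add,
      add_zero, kummerChar_pullA N q n hK₁, kummerChar_dilate N q n hq hK₂]

end Root

section Main

variable (M q p : ℕ) [NeZero M] [NeZero q] [NeZero (M * q)] [NeZero (M * q * q)]

set_option quotPrecheck false in
local notation "𝕎" => ↥(torsionNat (JZero (M * q)) (p ^ 1))

set_option maxHeartbeats 4000000 in
/-- the core of **[OLD-HECKE]**. -/
theorem oldHecke_core (hq : q.Prime) (hp : p.Prime) (hp2 : p ≠ 2) (hqp : q ≠ p) (hqM : ¬ q ∣ M)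
    (h3 : EvenAtThree p M) (S : Set ℕ) (a : ℕ → ℤ)
    (hS : ∀ ℓ : ℕ, ℓ.Prime → ℓ ∣ M * q * q → ℓ ∈ S) (hpS : p ∈ S)
    (D : Divisor.degZero (K := Ω) (F := ↥(modularFunctionFieldBar (M * q * q))))
    (f h : ↥(modularFunctionFieldBar (M * q * q))) (f₁ f₂ : ↥(modularFunctionFieldBar (M * q)))
    (c : Ω) (hf : f ≠ 0)
    (hfD : ∀ v : Place Ω ↥(modularFunctionFieldBar (M * q * q)),
      v.ord f = (p : ℤ) * (D : Divisor Ω ↥(modularFunctionFieldBar (M * q * q))) v)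
    (hx0 : (Pic0.mk D : JZero (M * q * q)) ≠ 0)
    (hT : ∀ (ℓ : ℕ) (hℓ : ℓ.Prime), ℓ ∉ S →
      heckeOperatorBar (M * q * q) ⟨ℓ, hℓ⟩ (Pic0.mk D : JZero (M * q * q)) =
        a ℓ • (Pic0.mk D : JZero (M * q * q)))
    (hf₁ : f₁ ≠ 0) (hf₂ : f₂ ≠ 0)
    (hd₁ : ∀ v : Place Ω ↥(modularFunctionFieldBar (M * q)), (p : ℤ) ∣ v.ord f₁)
    (hd₂ : ∀ v : Place Ω ↥(modularFunctionFieldBar (M * q)), (p : ℤ) ∣ v.ord f₂)
    (hfeq : f = algebraMap Ω ↥(modularFunctionFieldBar (M * q * q)) c *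
      heckeAlphaBar Ω (M * q) q f₁ * heckeBetaBar Ω (M * q) q f₂ * h ^ p) :
    ResOccurs (M * q) p S a := by
  haveI : Fact p.Prime := ⟨hp⟩
  haveI : NeZero p := ⟨hp.ne_zero⟩
  have hno3 : NoThreeTorsionLevel p (M * q) := h3.noThree.mul_right q
  set I₁ := stageIData (M * q) p with hI₁
  set I₂ := stageIData (M * q * q) p with hI₂
  -- the class `x`
  have hpx : p • (Pic0.mk D : JZero (M * q * q)) = 0 :=
    nsmul_mk_eq_zero_of_fun p D f hf (fun v => (hfD v).symm)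
  have hxmem : (Pic0.mk D : JZero (M * q * q)) ∈ torsionNat (JZero (M * q * q)) (p ^ 1) := by
    rw [mem_torsionNat, pow_one]
    exact hpx
  set x : ↥(torsionNat (JZero (M * q * q)) (p ^ 1)) := ⟨Pic0.mk D, hxmem⟩ with hxdef
  -- the classes `y₁`, `y₂`
  obtain ⟨y₁, u₁, hu₁, hK₁, hk₁⟩ := exists_torsion_of_dvd_ord (M * q) (descData (M * q)) (p ^ 1)
    f₁ hf₁ (by simpa using hd₁)
  obtain ⟨y₂, u₂, hu₂, hK₂, hk₂⟩ := exists_torsion_of_dvd_ord (M * q) (descData (M * q)) (p ^ 1)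
    f₂ hf₂ (by simpa using hd₂)
  obtain ⟨u, hu, hchar⟩ := exists_root_of_old (M * q) q (p ^ 1) hq f h f₁ f₂ c hf
    (by rw [pow_one]; exact hfeq) hu₁ hu₂ hK₁ hK₂
  have hκx : I₂.D.kap 1 x = pullA (M * q) q (ZMod (p ^ 1)) (I₁.D.kap 1 y₁) +
      pullB (M * q) q hq (ZMod (p ^ 1)) (I₁.D.kap 1 y₂) := by
    have h1 : I₂.D.kap 1 x = kummerChar (Gamma0 (M * q * q)) (p ^ 1) u :=
      (descData (M * q * q)).kapOf_eq_kummerChar (p ^ 1) D f hf
        (fun v => by rw [pow_one]; exact (hfD v).symm) x rfl hu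
    have h2 : I₁.D.kap 1 y₁ = kummerChar (Gamma0 (M * q)) (p ^ 1) u₁ := hk₁
    have h3 : I₁.D.kap 1 y₂ = kummerChar (Gamma0 (M * q)) (p ^ 1) u₂ := hk₂
    rw [h1, h2, h3, hchar]
  -- the operators
  haveI : Finite 𝕎 := I₁.D.finite_torsion 1
  set ι := {ℓ : Nat.Primes // (ℓ : ℕ) ∉ S} with hι
  have hℓq : ∀ i : ι, (i.1 : ℕ) ≠ q := fun i h =>
    i.2 (hS _ i.1.2 (by rw [h]; exact Dvd.intro_left (M * q) rfl))
  have hℓN₁ : ∀ i : ι, ¬ (i.1 : ℕ) ∣ M * q := fun i h =>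
    i.2 (hS _ i.1.2 (Dvd.dvd.mul_right h q))
  have hℓN₂ : ∀ i : ι, ¬ (i.1 : ℕ) ∣ M * q * q := fun i h => i.2 (hS _ i.1.2 h)
  set t : ι → (𝕎 →+ 𝕎) := fun i =>
    torsionNat.map (p ^ 1) (I₁.T' i.1) - (a (i.1 : ℕ)) • AddMonoidHom.id 𝕎 with ht
  have htapp : ∀ (i : ι) (w : 𝕎), t i w = torsionNat.map (p ^ 1) (I₁.T' i.1) w -
      a (i.1 : ℕ) • w := fun i w => rfl
  set T : ι → AddMonoid.End (𝕎 × 𝕎) := fun i => AddMonoidHom.prodMap (t i) (t i) with hTdef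
  have hTapp : ∀ (i : ι) (w : 𝕎 × 𝕎), T i w = (t i w.1, t i w.2) := fun i w => rfl
  -- the map `Ψ`
  set κ' : 𝕎 →+ (Additive ↥(Gamma0 (M * q)) →+ ZMod (p ^ 1)) := I₁.D.kap 1 with hκ'
  set Ψ : 𝕎 × 𝕎 →+ (Additive ↥(Gamma0 (M * q * q)) →+ ZMod (p ^ 1)) :=
    AddMonoidHom.coprod ((pullA (M * q) q (ZMod (p ^ 1))).comp κ')
      ((pullB (M * q) q hq (ZMod (p ^ 1))).comp κ') with hΨ
  have hΨapp : ∀ w : 𝕎 × 𝕎, Ψ w = pullA (M * q) q (ZMod (p ^ 1)) (κ' w.1) +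
      pullB (M * q) q hq (ZMod (p ^ 1)) (κ' w.2) := fun w => rfl
  -- equivariance of `Ψ`
  have hκt : ∀ (i : ι) (w : 𝕎), κ' (t i w) =
      heckeGrpP (M * q) i.1 (ZMod (p ^ 1)) (κ' w) - a (i.1 : ℕ) • κ' w := by
    intro i w
    rw [htapp, map_sub, map_zsmul, hκ', I₁.hecke i.1 1 w]
  have hΨT : ∀ (i : ι) (w : 𝕎 × 𝕎), Ψ (T i w) =
      heckeGrpP (M * q * q) i.1 (ZMod (p ^ 1)) (Ψ w) - a (i.1 : ℕ) • Ψ w := by
    intro i w
    rw [hTapp, hΨapp, hΨapp, hκt, hκt, map_sub, map_sub, map_zsmul, map_zsmul, map_add,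
      heckeGrpP_pullA (M * q) q hq i.1 (hℓq i), heckeGrpP_pullB (M * q) q hq i.1 (hℓq i),
      smul_add]
    abel
  -- the eigenvector `Ψ (y₁, y₂) = kap x`
  have hΨy : Ψ (y₁, y₂) = I₂.D.kap 1 x := (hΨapp (y₁, y₂)).trans hκx.symm
  have hΨy0 : Ψ (y₁, y₂) ≠ 0 := by
    rw [hΨy]
    intro h0
    have h1 := I₂.D.inj 1 (h0.trans (map_zero (I₂.D.kap 1)).symm)
    exact hx0 (congrArg Subtype.val h1)
  have hTx : ∀ i : ι, torsionNat.map (p ^ 1) (I₂.T' i.1) x = a (i.1 : ℕ) • x := by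
    intro i
    apply Subtype.ext
    have h1 := I₂.hT' i.1 (hℓN₂ i) (Pic0.mk D)
    have h2 := hT (i.1 : ℕ) i.1.2 i.2
    exact h1.trans h2
  have hΨTy : ∀ i : ι, Ψ (T i (y₁, y₂)) = 0 := by
    intro i
    rw [hΨT, hΨy, ← I₂.hecke i.1 1 x, hTx i, map_zsmul, sub_self]
  -- commutativity
  have hcomm : ∀ i j : ι, Commute (T i) (T j) := by
    intro i j
    have key : ∀ w : 𝕎, t i (t j w) = t j (t i w) := by
      intro w
      have hw : p • (w : JZero (M * q)) = 0 := by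
        have h1 : p ^ 1 • (w : JZero (M * q)) = 0 := mem_torsionNat.mp w.2
        simpa only [pow_one] using h1
      have hTT := heckeOperatorBar_comm_of_nsmul_eq_zeroO (M * q) p hp2 hno3 i.1 j.1 (hℓN₁ i)
        (hℓN₁ j) (w : JZero (M * q)) hw
      apply Subtype.ext
      simp only [htapp, AddSubgroup.coe_sub, torsionNat.map_coe, AddSubgroup.coe_zsmul, map_sub,
        map_zsmul]
      rw [I₁.hT' i.1 (hℓN₁ i), I₁.hT' j.1 (hℓN₁ j), I₁.hT' i.1 (hℓN₁ i), I₁.hT' j.1 (hℓN₁ j), hTT]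
      have hc : a (i.1 : ℕ) • a (j.1 : ℕ) • (w : JZero (M * q)) =
          a (j.1 : ℕ) • a (i.1 : ℕ) • (w : JZero (M * q)) := by
        rw [← mul_zsmul, ← mul_zsmul, mul_comm (a (i.1 : ℕ))]
      rw [zsmul_sub, zsmul_sub, hc]
      abel
    refine AddMonoidHom.ext fun w => Prod.ext ?_ ?_
    · exact key w.1
    · exact key w.2
  obtain ⟨z, hz0, hker⟩ := exists_common_kernel T hcomm Ψ.ker
    (by
      intro i w hw
      rw [AddMonoidHom.mem_ker] at hw ⊢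
      rw [hΨT, hw, map_zero, smul_zero, sub_zero])
    (y₁, y₂) (by rw [AddMonoidHom.mem_ker]; exact hΨy0)
    (fun i => by rw [AddMonoidHom.mem_ker]; exact hΨTy i)
  -- conclusion
  have hS' : ∀ ℓ : ℕ, ℓ.Prime → ℓ ∣ M * q → ℓ ∈ S := fun ℓ hℓ hd =>
    hS ℓ hℓ (Dvd.dvd.mul_right hd q)
  have hfin : ∀ w : 𝕎, w ≠ 0 → (∀ i : ι, t i w = 0) → ResOccurs (M * q) p S a := by
    intro w hw0 hw
    refine eigenTorsOccursO_of parLiftModPO (M * q) p hp hp2 hno3 S a hS' (w : JZero (M * q))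
      (fun h0 => hw0 (Subtype.ext (h0.trans (ZeroMemClass.coe_zero _).symm))) ?_ ?_
    · have h1 : p ^ 1 • (w : JZero (M * q)) = 0 := mem_torsionNat.mp w.2
      simpa only [pow_one] using h1
    · intro ℓ hℓ hℓS
      have h1 := congrArg (fun u : 𝕎 => (u : JZero (M * q))) (hw ⟨⟨ℓ, hℓ⟩, hℓS⟩)
      simp only [htapp, AddSubgroup.coe_sub, torsionNat.map_coe, AddSubgroup.coe_zsmul,
        ZeroMemClass.coe_zero] at h1
      rw [I₁.hT' ⟨ℓ, hℓ⟩ (hℓN₁ ⟨⟨ℓ, hℓ⟩, hℓS⟩)] at h1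
      exact sub_eq_zero.mp h1
  by_cases hz1 : z.1 = 0
  · have hz2 : z.2 ≠ 0 := fun h2 => hz0 (Prod.ext hz1 h2)
    exact hfin z.2 hz2 (fun i => congrArg Prod.snd (hker i))
  · exact hfin z.1 hz1 (fun i => congrArg Prod.fst (hker i))

/-- **[OLD-HECKE]**, proved. -/
theorem oldHeckeStatementE : OldHeckeStatementE := by
  intro M q p _ _ _ _ hq hp hp2 hqp hqM h3 S a hS hpS D f h f₁ f₂ c hf hfD hx0 hT hf₁ hf₂ hd₁ hd₂
    hfeq
  exact oldHecke_core M q p hq hp hp2 hqp hqM h3 S a hS hpS D f h f₁ f₂ c hf hfD hx0 hT hf₁ hf₂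
    hd₁ hd₂ hfeq

end Main

end Fermat.Agent.ML
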