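/-
ML — helper5 — **[MSQ] leaf (b), [DESC3]: from the decomposition on the Legendre host of level
`M q q` over a base `K` to `ResOccurs (M q)`.**

If `fullToLegE F = c · A(fullToLegE F₁) · B(fullToLegE F₂) · w ^ p` in `legE K (M q q)` (`F` a Kummer
function of a non-zero Hecke eigenclass of `J₀(M q q)[p]`, `F₁`, `F₂` of level `M q` with orders
divisible by `p`), then over `Ω` the function `keyFqBC F` is
`c' · α(keyFqBC F₁) · β(keyFqBC F₂) · h ^ p` in the level field (descent of the `p`-th root along the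
Legendre cover, `p` odd: helper7's `exists_pow_of_fullToLegE_eq`), and [OLD-HECKE] applies.
-/
import Mathlib
import Fermat.Agent.ML.INJ_helper7_Main
import Fermat.Agent.ML.OLDH_helper7_Main
import Fermat.Agent.S35.XPORT_helper7_Main
import Fermat.Agent.RB.MAZ_helper6_Compat

set_option autoImplicit false
set_option linter.unusedSectionVars false
set_option linter.unusedVariables false
set_option linter.style.haveILetI false
set_option synthInstance.maxHeartbeats 400000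

open Polynomial ModularCurve IntermediateField AlgebraicCurve

namespace Fermat.Agent.ML

open Fermat.Agent.JA Fermat.Agent.FF Fermat.Agent.SS Fermat.Agent.S35 Fermat.Agent.MP
  Fermat.Agent.NP Fermat.Agent.GR Fermat.Agent.RB Fermat.Agent.Igusa

open scoped Fermat.Agent.JA.Host

/-- `Ω = AlgebraicClosure ℚ`. -/
local notation "Ω" => AlgebraicClosure ℚ

noncomputable section

set_option maxHeartbeats 1600000 in
/-- **[DESC3]: descent to `Ω` + [OLD-HECKE].** -/
theorem resOccurs_of_leg_decomp (HO : OldHeckeStatementE) (M q p : ℕ) [NeZero M] [NeZero q]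
    [NeZero (M * q)] [NeZero (M * q * q)]
    (hq : q.Prime) (hq2 : q ≠ 2) (hp : p.Prime) (hp2 : p ≠ 2) (hqp : q ≠ p) (hqM : ¬ q ∣ M)
    (h3 : EvenAtThree p M)
    (S : Set ℕ) (a : ℕ → ℤ) (hS : ∀ ℓ : ℕ, ℓ.Prime → ℓ ∣ M * q * q → ℓ ∈ S) (hpS : p ∈ S)
    (K : IntermediateField ℚ Ω)
    (D : Divisor.degZero (K := Ω) (F := ↥(modularFunctionFieldBar (M * q * q))))
    (F : ↥(keyFq ↥K (M * q * q))) (hF0 : F ≠ 0)
    (hordF : ∀ v : Place Ω ↥(modularFunctionFieldBar (M * q * q)),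
      v.ord (keyFqBC (M * q * q) K F) =
        (p : ℤ) * (D : Divisor Ω ↥(modularFunctionFieldBar (M * q * q))) v)
    (hx : (Pic0.mk D : JZero (M * q * q)) ≠ 0)
    (heig : ∀ (ℓ : ℕ) (hℓ : ℓ.Prime), ℓ ∉ S →
      heckeOperatorBar (M * q * q) ⟨ℓ, hℓ⟩ (Pic0.mk D : JZero (M * q * q)) =
        a ℓ • (Pic0.mk D : JZero (M * q * q)))
    (F₁ F₂ : ↥(keyFq ↥K (M * q))) (hF₁ : F₁ ≠ 0) (hF₂ : F₂ ≠ 0)
    (hord₁ : ∀ v : Place Ω ↥(modularFunctionFieldBar (M * q)),
      (p : ℤ) ∣ v.ord (keyFqBC (M * q) K F₁))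
    (hord₂ : ∀ v : Place Ω ↥(modularFunctionFieldBar (M * q)),
      (p : ℤ) ∣ v.ord (keyFqBC (M * q) K F₂))
    (c : ↥K) (w : ↥(legE ↥K (M * q * q)))
    (hdec : letI := baseToComplex K
      fullToLegE ↥K (M * q * q) F = algebraMap ↥K ↥(legE ↥K (M * q * q)) c *
        legHostA ↥K (M * q) q (fullToLegE ↥K (M * q) F₁) *
        legHostB ↥K (M * q) q hq hq2 (fullToLegE ↥K (M * q) F₂) * w ^ p) :
    ResOccurs (M * q) p S a := by
  letI := baseToComplex K
  have hodd : Odd p := hp.odd_of_ne_two hp2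
  -- the functions over `Ω`
  set f : ↥(keyFq Ω (M * q * q)) := keyFqBC (M * q * q) K F with hf
  set f₁ : ↥(keyFq Ω (M * q)) := keyFqBC (M * q) K F₁ with hf₁
  set f₂ : ↥(keyFq Ω (M * q)) := keyFqBC (M * q) K F₂ with hf₂
  have hf0 : f ≠ 0 := (_root_.map_ne_zero _).mpr hF0
  have hf₁0 : f₁ ≠ 0 := (_root_.map_ne_zero _).mpr hF₁
  have hf₂0 : f₂ ≠ 0 := (_root_.map_ne_zero _).mpr hF₂
  have hα0 : heckeAlphaBar Ω (M * q) q f₁ ≠ 0 := (_root_.map_ne_zero _).mpr hf₁0
  have hβ0 : heckeBetaBar Ω (M * q) q f₂ ≠ 0 := (_root_.map_ne_zero _).mpr hf₂0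
  -- the decomposition over `Ω`, on the host
  have h1 : fullToLegE Ω (M * q * q) f =
      algebraMap Ω ↥(legE Ω (M * q * q)) (algebraMap ↥K Ω c) *
        fullToLegE Ω (M * q * q) (heckeAlphaBar Ω (M * q) q f₁) *
        fullToLegE Ω (M * q * q) (heckeBetaBar Ω (M * q) q f₂) *
        legBC (M * q * q) K w ^ p := by
    have e := congrArg (legBC (M * q * q) K) hdec
    rw [← xport_fullToLegE_keyFqA, ← xport_fullToLegE_keyFqB, map_mul, map_mul, map_mul, map_pow,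
      legBC_fullToLegE_inj, legBC_fullToLegE_inj, legBC_fullToLegE_inj, legBC_algebraMap,
      keyFqBC_keyFqA, keyFqBC_keyFqB] at e
    exact e
  -- the quotient
  set g : ↥(keyFq Ω (M * q * q)) :=
    f * (heckeAlphaBar Ω (M * q) q f₁ * heckeBetaBar Ω (M * q) q f₂)⁻¹ with hg
  have h2 : fullToLegE Ω (M * q * q) g =
      algebraMap Ω ↥(legE Ω (M * q * q)) (algebraMap ↥K Ω c) * legBC (M * q * q) K w ^ p := by
    have hA : fullToLegE Ω (M * q * q) (heckeAlphaBar Ω (M * q) q f₁) ≠ 0 :=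
      (_root_.map_ne_zero _).mpr hα0
    have hB : fullToLegE Ω (M * q * q) (heckeBetaBar Ω (M * q) q f₂) ≠ 0 :=
      (_root_.map_ne_zero _).mpr hβ0
    rw [hg, map_mul, map_inv₀, map_mul, h1]
    field_simp
  obtain ⟨h, hh⟩ := exists_pow_of_fullToLegE_eq (M * q * q) hodd g _ _ h2
  have h3' : f = algebraMap Ω ↥(keyFq Ω (M * q * q)) (algebraMap ↥K Ω c) *
      heckeAlphaBar Ω (M * q) q f₁ * heckeBetaBar Ω (M * q) q f₂ * h ^ p := by
    have hne : heckeAlphaBar Ω (M * q) q f₁ * heckeBetaBar Ω (M * q) q f₂ ≠ 0 :=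
      mul_ne_zero hα0 hβ0
    have e : f = g * (heckeAlphaBar Ω (M * q) q f₁ * heckeBetaBar Ω (M * q) q f₂) := by
      rw [hg, inv_mul_cancel_right₀ hne]
    rw [e, hh]
    ring
  exact HO M q p hq hp hp2 hqp hqM h3 S a hS hpS D f h f₁ f₂ (algebraMap ↥K Ω c) hf0 hordF hx heig
    hf₁0 hf₂0 hord₁ hord₂ h3'

end

end Fermat.Agent.ML
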