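/-
ML — helper5 — **[MSQ] leaf (b), [LC3]: the leading coefficient of a `W20`-unit of level `M q q`
with `m`-divisible divisor is `κ ^ m ε`, `ε ≡ 1` modulo `π`** (three-sheet analogue of helper7's
`exists_kappa_eps_leg`): the order along `W20 = legWinf` at the cusp `∞` of the chart `j⁻¹`
(`S36.leg_hcusp_of_hcusps` + `S36.leg_hcusps`), `INJ.exists_zpow_mul_unit`, `INJ.exists_kappa_eps`.
-/
import Mathlib
import Fermat.Agent.ML.INJ_helper7_Main
import Fermat.Agent.S36.CUSPPT_helper1_Leg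
import Fermat.Agent.S36.CUSPSHOST36_helper8_Leg

set_option autoImplicit false
set_option linter.unusedSectionVars false
set_option linter.unusedVariables false
set_option linter.style.haveILetI false
set_option synthInstance.maxHeartbeats 400000

open Polynomial ModularCurve IntermediateField AlgebraicCurve

namespace Fermat.Agent.ML

open Fermat.Agent.JA Fermat.Agent.Igusa Fermat.Agent.SS Fermat.Agent.MP Fermat.Agent.S36
  Fermat.Agent.NP Fermat.Agent.X0N Fermat.Agent.S35

open scoped Fermat.Agent.JA.Host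

noncomputable section

section Lc3

variable (R : Type*) [CommRing R] [IsDomain R] [IsDiscreteValuationRing R] [CharZero R]
  [DecidableEq R]
  (K : Type*) [Field K] [Algebra R K] [IsFractionRing R K] [Algebra ℚ K] [Algebra K ℂ]
  {M q : ℕ} [NeZero M] [NeZero q] [NeZero (M * q)] [NeZero (M * q * q)] {x y : ℤ}
  {π : R}
  {R' : Type*} [CommRing R'] [IsDomain R'] [IsDiscreteValuationRing R']
  {K' : Type*} [Field K'] [Algebra R' K'] [IsFractionRing R' K']

set_option maxHeartbeats 3200000 in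
/-- **[LC3]: the leading coefficient of a `W20`-unit of level `M q q` with `m`-divisible divisor is
`κ ^ m ε`**, `ε ≡ 1` modulo `π`. -/
theorem exists_kappa_eps_leg3 [IsAlgClosed (IsLocalRing.ResidueField R)]
    (hπ : Irreducible π) (h2 : IsUnit (2 : R))
    (h : (q : ℤ) * x + M * y = 1) (hq : q.Prime) (hq2 : q ≠ 2)
    (hqπ : (q : R) ∈ Ideal.span {π})
    (hgeo : GeoHyps K π (AdjoinSimple.gen K (legT K)) ↥(legE K M) M ({0, 1} : Finset R))
    (φ : R →+* R') [IsLocalHom φ] (κ : K →+* K')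
    (hκ : ∀ r : R, κ (algebraMap R K r) = algebraMap R' K' (φ r))
    (ζ u : R'ˣ) (hζq : ζ ^ q = 1) (hζ1 : ζ ≠ 1)
    (hπζ : φ π = ((ζ : R') - 1) ^ (q - 1) * u)
    (W11 W02 : ValuationSubring ↥(legE K (M * q * q)))
    (h11 : W11.comap (legIncl K (M * q * q)) =
      hostImageVal K 2 (keyFqW11 R K h hq φ κ hκ ζ hζq hζ1))
    (h02 : W02.comap (legIncl K (M * q * q)) = hostImageVal K 2 (keyFqW02 R K h hq))
    {m : ℕ} (hm : 0 < m) {G : ↥(legE K (M * q * q))} (hG : G ≠ 0)
    (hGinf : (legWinf R K h2 (M * q * q)).valuation G = 1)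
    (hord : ∀ P : Place K ↥(legE K (M * q * q)), (m : ℤ) ∣ P.ord G) :
    ∃ (κ' : Kˣ) (ε : R), ε - 1 ∈ Ideal.span {π} ∧
      ((G : ↥(legE K (M * q * q))) : LaurentSeries K).leadingCoeff =
        (κ' : K) ^ m * algebraMap R K ε := by
  haveI : FiniteDimensional ↥K⟮jqNModC K 2⟯ ↥(legE K (M * q * q)) :=
    finite_legE_adjoin_j K (M * q * q)
  have hc₀ : ((G : ↥(legE K (M * q * q))) : LaurentSeries K).leadingCoeff ≠ 0 :=
    HahnSeries.leadingCoeff_ne_zero.mpr (fun h0 => hG (Subtype.ext h0))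
  obtain ⟨v, u', hc⟩ := INJ.exists_zpow_mul_unit (K₁ := K) hπ hc₀
  set c₀ : K := ((G : ↥(legE K (M * q * q))) : LaurentSeries K).leadingCoeff with hc₀def
  set G₁ : ↥(legE K (M * q * q)) := algebraMap K ↥(legE K (M * q * q)) c₀⁻¹ * G with hG₁def
  have hcE : algebraMap K ↥(legE K (M * q * q)) c₀⁻¹ ≠ 0 :=
    (_root_.map_ne_zero _).mpr (inv_ne_zero hc₀)
  have hG₁ : G₁ ≠ 0 := mul_ne_zero hcE hG
  have hlead : ((G₁ : ↥(legE K (M * q * q))) : LaurentSeries K).leadingCoeff = 1 := by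
    rw [hG₁def, IntermediateField.coe_mul, HahnSeries.leadingCoeff_mul,
      IntermediateField.coe_algebraMap_apply, algebraMap_laurentSeries_eq_single,
      HahnSeries.leadingCoeff_of_single, ← hc₀def, inv_mul_cancel₀ hc₀]
  have hlcG₁ := base36_lc_eq_one_of_leadingCoeff (legE K (M * q * q)) hlead
  have hord₁ : ∀ P : Place K ↥(legE K (M * q * q)), (m : ℤ) ∣ P.ord G₁ := by
    intro P
    rw [hG₁def, P.ord_mul hcE hG, place_ord_algebraMap_eq_zero P (inv_ne_zero hc₀), zero_add]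
    exact hord P
  have hRinf : ∀ r : R, algebraMap R ↥(legE K (M * q * q)) r ∈ legWinf R K h2 (M * q * q) :=
    algebraMap_mem_legWinf R K h2 (M * q * q)
  have ha : (legWinf R K h2 (M * q * q)).valuation G₁ =
      (legWinf R K h2 (M * q * q)).valuation
        (algebraMap K ↥(legE K (M * q * q)) (algebraMap R K π)) ^ (-v) := by
    have e : algebraMap K ↥(legE K (M * q * q)) c₀ =
        algebraMap K ↥(legE K (M * q * q)) (algebraMap R K π) ^ v *
          algebraMap R ↥(legE K (M * q * q)) (u' : R) := by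
      rw [hc, map_mul, map_zpow₀, ← IsScalarTower.algebraMap_apply R K ↥(legE K (M * q * q)),
        ← IsScalarTower.algebraMap_apply R K ↥(legE K (M * q * q))]
    rw [hG₁def, map_mul, hGinf, mul_one, map_inv₀, map_inv₀, e, map_mul, map_zpow₀,
      valuation_unit_eq_one R _ hRinf u', mul_one, zpow_neg]
  have hhor := horPow36_of_place (R := R) (K₁ := K) (K := ↥K⟮jqNModC K 2⟯)
    (F := ↥(legE K (M * q * q))) (AdjoinSimple.gen K (jqNModC K 2))⁻¹
    (transcendental_inv_of_transcendental (ssModelLeg_j_transcendental K))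
    (adjoin_inv_eq_top (ssModelLeg_j_adjoin K)) hπ hG₁ hord₁
  have hdvd : (m : ℤ) ∣ -v :=
    leg_hcusp_of_hcusps R K hπ h2 h hq hq2 hqπ hgeo φ κ hκ ζ u hζq hζ1 hπζ
      (leg_hcusps R K hπ h2 h hq hq2 hqπ hgeo φ κ hκ ζ u hζq hζ1 hπζ) W11 W02 h11 h02 hm G₁ hG₁
      hlcG₁ hhor (-v) ha
  exact INJ.exists_kappa_eps hπ hm hc ((dvd_neg).mp hdvd)

end Lc3

end

end Fermat.Agent.ML
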