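/-
ML — helper3 — **[MSQ] leaf (b): `Toric3OccursStatementE` from [SURJ] and [OLD-HECKE].**

A non-zero Hecke eigenclass `x ∈ J₀(M q q)[p]` (`q ≥ 5`, `q ∤ M`, `p` odd, `p ≠ q`) which is toric
along the three sheets over the unramified bases forces the eigensystem to occur residually at level
`M q`:  over an unramified base `K` containing the base of the toric representative and the base of
[SURJ], the Kummer function `F` of `x` decomposes on the Legendre host of level `M q q` as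
`F = c · A(F₁) · B(F₂) · w ^ p` (`ML.legDecomp3`: [SURJ] at level `M q` twice, [DECK3], [PULL],
[INJ3], helper5's [LC3] `ML.exists_kappa_eps_leg3`), and helper5's [DESC3]
`ML.resOccurs_of_leg_decomp` (descent to `Ω` + helper7's [OLD-HECKE]) concludes.
-/
import Mathlib
import Fermat.Agent.ML.MSQ_helper3_Asm3Leg
import Fermat.Agent.ML.MSQ_helper3_Base
import Fermat.Agent.ML.MSQ_helper5_Lc3
import Fermat.Agent.ML.MSQ_helper5_Desc3

set_option autoImplicit false
set_option linter.unusedSectionVars false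
set_option linter.unusedVariables false
set_option linter.style.haveILetI false
set_option synthInstance.maxHeartbeats 400000

open HahnSeries IntermediateField AlgebraicCurve ModularCurve IsLocalRing

namespace Fermat.Agent.ML

open Fermat.Agent.JA Fermat.Agent.FF Fermat.Agent.SS Fermat.Agent.S35 Fermat.Agent.S36
  Fermat.Agent.MP Fermat.Agent.NP Fermat.Agent.GR Fermat.Agent.FG Fermat.Agent.X0N
  Fermat.Agent.Igusa Fermat.Agent.RB

open scoped Fermat.Agent.JA.Host

/-- `Ω = AlgebraicClosure ℚ`. -/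
local notation "Ω" => AlgebraicClosure ℚ

/-- a function of the level field over `K₁` is defined over every `K₂ ≥ K₁` (helper5's
`exists_keyFqBC_eq_of_le`, repeated here to keep the import closure small). -/
theorem keyFq_exists_of_le {K₁ K₂ : IntermediateField ℚ Ω} (hle : K₁ ≤ K₂) (N : ℕ) [NeZero N]
    (F₁ : ↥(keyFq ↥K₁ N)) : ∃ F₂ : ↥(keyFq ↥K₂ N), keyFqBC N K₂ F₂ = keyFqBC N K₁ F₁ := by
  refine ⟨⟨coeffMap ((IntermediateField.inclusion hle).toRingHom) (F₁ : LaurentSeries ↥K₁),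
    coeffMap_hom_mem_laurentBaseChange ((IntermediateField.inclusion hle).toRingHom) _ F₁.2⟩, Subtype.ext ?_⟩
  rw [coe_keyFqBC, coe_keyFqBC]
  show coeffMap (algebraMap ↥K₂ Ω)
    (coeffMap ((IntermediateField.inclusion hle).toRingHom) (F₁ : LaurentSeries ↥K₁)) = _
  rw [coeffMap_coeffMap]
  exact coeffMap_congr (RingHom.ext fun c => rfl) _

set_option maxHeartbeats 12800000 in
/-- **leaf (b) of (KEY-MAZ-SQ), every odd `p`.** -/
theorem toric3OccursStatementE_of (HS : SurjStatement) (HO : OldHeckeStatementE) :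
    Toric3OccursStatementE := by
  intro M q p _ _ _ _ hq hq5 hp hp2 hqp hqM h3 A hA S a hS hpS h2S hnE x hx hpx heig hI htor
  classical
  obtain ⟨Dv, f, hf0, hDx, hordf, K₀, hK₀, ⟨F₀, hF₀⟩, htorU⟩ := htor
  have hq2 : q ≠ 2 := by omega
  haveI : Fact q.Prime := ⟨hq⟩
  obtain ⟨K₀', hK₀', hsurjU⟩ := HS M q p hq hq2 hq5 hp hp2 hqp hqM h3 A hA
  -- the unramified base
  obtain ⟨K, hKdef⟩ : ∃ K : IntermediateField ℚ Ω, K = K₀ ⊔ K₀' := ⟨_, rfl⟩
  have hK : IsUnrBase q A K := by rw [hKdef]; exact hK₀.sup hK₀'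
  have hle₀ : K₀ ≤ K := by rw [hKdef]; exact le_sup_left
  have hle₀' : K₀' ≤ K := by rw [hKdef]; exact le_sup_right
  obtain ⟨F, hF'⟩ := keyFq_exists_of_le hle₀ (M * q * q) F₀
  have hF : keyFqBC (M * q * q) K F = f := hF'.trans hF₀
  -- the model over `K`
  haveI : IsDiscreteValuationRing ↥(baseRing A K) := hK.1.isDiscreteValuationRing hA
  haveI : CharZero ↥(baseRing A K) := charZero_valuationSubring_of_algebraRat _
  haveI : IsAlgClosed (ResidueField ↥(baseRing A K)) := hK.1.isAlgClosed_residueField hA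
  have h2 : IsUnit (2 : ↥(baseRing A K)) := isUnit_ofNat_baseRing hA K Nat.prime_two hq2
  letI := baseToComplex K
  haveI : FiniteDimensional ↥(↥K)⟮jqNModC ↥K 2⟯ ↥(legE ↥K (M * q * q)) :=
    finite_legE_adjoin_j ↥K (M * q * q)
  haveI : FiniteDimensional ↥(↥K)⟮jqNModC ↥K 2⟯ ↥(legE ↥K (M * q)) :=
    finite_legE_adjoin_j ↥K (M * q)
  have htoric := htorU K hK hle₀ F hF
  obtain ⟨x₀, y₀, hbez⟩ := exists_bezout_of_prime_of_not_dvd hq hqM
  have hirr : Irreducible ((q : ℕ) : ↥(baseRing A K)) := hK.irreducible hA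
  have hqπ : ((q : ℕ) : ↥(baseRing A K)) ∈ Ideal.span {((q : ℕ) : ↥(baseRing A K))} :=
    Ideal.mem_span_singleton_self _
  have hgeo := geoHyps_legE_baseRing hA M hqM hK.1 hq2 hirr
  have hmodel : SSModelLeg ↥(baseRing A K) ↥K (M := M) (q := q) ((q : ℕ) : ↥(baseRing A K)) h2
      hbez hq hq2 := ssModelLeg ↥(baseRing A K) ↥K hirr h2 hbez hq hq2 hqπ hgeo
  -- the cyclotomic enlargement and the three sheets
  obtain ⟨K'', hle, hK'', ζ, u, hζq, hζ1, hu⟩ := exists_cyclo_datum (A := A) hK.1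
  haveI : IsDiscreteValuationRing ↥(baseRing A K'') := hK''.isDiscreteValuationRing hA
  obtain ⟨W11, W02, h11, h02, hdvr, hT, hfam⟩ :=
    exists_legE_threeSheet ↥(baseRing A K) ↥K (M := M) hirr h2 hbez hq hq2 hqπ hgeo
      (Fermat.Agent.JA.baseRingIncl A hle)
      ((IntermediateField.inclusion hle : ↥K →ₐ[ℚ] ↥K'') : ↥K →+* ↥K'')
      (inclusion_algebraMap_baseRing hle) ζ hζq hζ1 u hu
  have D3 := legThreeSheetModel ↥(baseRing A K) ↥K hirr h2 hbez hq hq2 hqπ hgeo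
    (Fermat.Agent.JA.baseRingIncl A hle)
    ((IntermediateField.inclusion hle : ↥K →ₐ[ℚ] ↥K'') : ↥K →+* ↥K'')
    (inclusion_algebraMap_baseRing hle) ζ u hζq hζ1 hu W11 W02 h11 h02
  -- the unit roots along the three sheets
  have hroot : ∀ l : Fin 3, ∃ lam : ↥(legE ↥K (M * q * q)),
      (IsThreeSheet.fam (legWinf ↥(baseRing A K) ↥K h2 (M * q * q)) W11 W02 l).valuation lam = 1 ∧
      (IsThreeSheet.fam (legWinf ↥(baseRing A K) ↥K h2 (M * q * q)) W11 W02 l).valuation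
        (fullToLegE ↥K (M * q * q) F - lam ^ p) < 1 := by
    intro l
    fin_cases l
    · exact htoric h2 x₀ y₀ hbez hq _ (Or.inl D3.hα0)
    · exact htoric h2 x₀ y₀ hbez hq _ (Or.inl D3.hα1)
    · exact htoric h2 x₀ y₀ hbez hq _ (Or.inr D3.hα2)
  choose lam hlam1 hGlam using hroot
  -- roots of unity, `p` is a unit
  have hqp' : ¬ q ∣ p := fun h => hqp ((Nat.prime_dvd_prime_iff_eq hq hp).mp h)
  obtain ⟨ξ, hξ⟩ := hK.1.exists_isPrimitiveRoot_baseRing A hp.pos hqp'
  have hpR : IsUnit ((p : ℕ) : ↥(baseRing A K)) := isUnit_natCast_baseRing hA hqp'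
  have hpodd : Odd p := hp.odd_of_ne_two hp2
  -- [SURJ] over `K`
  have hsurj := hsurjU K hK hle₀' ((q : ℕ) : ↥(baseRing A K)) hirr h2 x₀ y₀ hbez
  -- the orders of `F`
  have hordF : ∀ v : Place Ω ↥(modularFunctionFieldBar (M * q * q)),
      v.ord (keyFqBC (M * q * q) K F) =
        (p : ℤ) * (Dv : Divisor Ω ↥(modularFunctionFieldBar (M * q * q))) v := by
    intro v
    rw [hF]
    exact hordf v
  have hordΩ : ∀ v : Place Ω ↥(modularFunctionFieldBar (M * q * q)),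
      (p : ℤ) ∣ v.ord (keyFqBC (M * q * q) K F) := fun v => ⟨_, hordF v⟩
  have hF0 : F ≠ 0 := by
    rintro rfl
    rw [map_zero] at hF
    exact hf0 hF.symm
  -- the decomposition on the host
  obtain ⟨F₁, F₂, c, w, hF₁, hF₂, hΩ₁, hΩ₂, hdec⟩ :=
    legDecomp3 ↥(baseRing A K) K hq5 hirr (e := 1) (u := 1) le_rfl
      (by rw [Units.val_one, one_mul, pow_one]) hpodd hpR hξ hmodel D3 hsurj
      (fun G' hG' hv hP =>
        exists_kappa_eps_leg3 ↥(baseRing A K) ↥K hirr h2 hbez hq hq2 hqπ hgeo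
          (Fermat.Agent.JA.baseRingIncl A hle)
          ((IntermediateField.inclusion hle : ↥K →ₐ[ℚ] ↥K'') : ↥K →+* ↥K'')
          (inclusion_algebraMap_baseRing hle) ζ u hζq hζ1 hu W11 W02 h11 h02 hp.pos hG' hv hP)
      F hordΩ hlam1 hGlam
  -- descent and [OLD-HECKE]
  have hx' : (Pic0.mk Dv : JZero (M * q * q)) ≠ 0 := by rw [hDx]; exact hx
  have heig' : ∀ (ℓ : ℕ) (hℓ : ℓ.Prime), ℓ ∉ S →
      heckeOperatorBar (M * q * q) ⟨ℓ, hℓ⟩ (Pic0.mk Dv : JZero (M * q * q)) =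
        a ℓ • (Pic0.mk Dv : JZero (M * q * q)) := by
    intro ℓ hℓ hℓS
    rw [hDx]
    exact heig ℓ hℓ hℓS
  exact resOccurs_of_leg_decomp HO M q p hq hq2 hp hp2 hqp hqM h3 S a hS hpS K Dv F hF0 hordF hx'
    heig' F₁ F₂ hF₁ hF₂ hΩ₁ hΩ₂ c w hdec

end Fermat.Agent.ML
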