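/-
PROJECT ML (S59), block [MSQ], watch-point (w1) of helper3's end-game (3): **the image of the
inertia group at `q` on a finite Galois-stable group of torsion points of order prime to `q`, on
which inertia acts unipotently of echelon `2`, is CYCLIC, hence `#H ≤ (#H^I)²`.**

* `card_le_card_ker_sq` : an endomorphism `ε` of a finite abelian group with `ε² = 0` has
  `#H ≤ (#ker ε)²`;
* `exists_inertia_generator` : (helper6's `TW.exists_generator_of_inertia` through helper2's
  `MZ.tame_smul_cyclic`) there is `τ₀ ∈ I_P` such that every `τ ∈ I_P` acts on `H` as a power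
  of `τ₀`;
* `card_le_card_inertia_fixed_sq` : `#H ≤ (#H^{I_P})²`.
The hypotheses are those available for `J = J₀(N)` (`GR.jzero_fix`).  helper4.
-/
import Mathlib
import Fermat.Agent.MZ.TAME_helper2_Main

set_option autoImplicit false
set_option linter.unusedSectionVars false
set_option linter.style.haveILetI false

namespace Fermat.Agent.ML

local notation "Ω" => AlgebraicClosure ℚ
local notation "GQ" => (AlgebraicClosure ℚ ≃ₐ[ℚ] AlgebraicClosure ℚ)

/-- an endomorphism of square zero of a finite abelian group: `#H ≤ (#ker)²` -/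
theorem card_le_card_ker_sq {H : Type*} [AddCommGroup H] [Finite H] (ε : H →+ H)
    (hε : ∀ h : H, ε (ε h) = 0) : Nat.card H ≤ Nat.card ε.ker ^ 2 := by
  have h1 : Nat.card H = Nat.card (H ⧸ ε.ker) * Nat.card ε.ker :=
    AddSubgroup.card_eq_card_quotient_mul_card_addSubgroup ε.ker
  have h2 : Nat.card (H ⧸ ε.ker) = Nat.card ε.range :=
    Nat.card_congr (QuotientAddGroup.quotientKerEquivRange ε).toEquiv
  have h3 : ε.range ≤ ε.ker := by
    rintro _ ⟨h, rfl⟩
    exact hε h
  have h4 : Nat.card ε.range ≤ Nat.card ε.ker := AddSubgroup.card_le_of_le h3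
  rw [h1, h2, pow_two]
  exact Nat.mul_le_mul_right _ h4

section Inertia

variable {J : Type*} [AddCommGroup J] [DistribMulAction GQ J]

/-- unipotent of echelon two: `σ ^ n • x = x + n • (σ • x - x)` -/
theorem pow_smul_eq_of_unipotent (σ : GQ) (x : J) (h : σ • (σ • x - x) = σ • x - x) (n : ℕ) :
    σ ^ n • x = x + n • (σ • x - x) := by
  induction n with
  | zero => simp
  | succ n ih =>
    have h1 : σ • (n • (σ • x - x)) = n • (σ • x - x) := by
      rw [← DistribMulAction.toAddMonoidHom_apply, map_nsmul, DistribMulAction.toAddMonoidHom_apply,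
        h]
    rw [pow_succ', mul_smul, ih, smul_add, h1, succ_nsmul]
    abel

/-- the sub-`G_ℚ`-set of a Galois-stable subgroup -/
def stableSub (H : AddSubgroup J) (hstab : ∀ σ : GQ, ∀ x ∈ H, σ • x ∈ H) : SubMulAction GQ J where
  carrier := H
  smul_mem' := fun σ _ hx => hstab σ _ hx

variable (hfix : ∀ x : J, ∃ L : IntermediateField ℚ Ω, FiniteDimensional ℚ L ∧
  ∀ σ : GQ, (∀ a ∈ L, σ a = a) → σ • x = x)
  {q : ℕ} (hq : q.Prime) {P : ValuationSubring Ω} (hP : P.LiesOverPrime q)
  (H : AddSubgroup J) [Finite H] (hstab : ∀ σ : GQ, ∀ x ∈ H, σ • x ∈ H)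
  (m : ℕ) (hm : m.Coprime q) (hmH : ∀ x ∈ H, m • x = 0)
  (hunip : ∀ σ ∈ P.inertiaSubgroupIn ℚ, ∀ x ∈ H, σ • (σ • x - x) = σ • x - x)

include hfix hq hP hstab hm hmH hunip in
/-- **the image of inertia on `H` is cyclic** -/
theorem exists_inertia_generator :
    ∃ τ₀ ∈ P.inertiaSubgroupIn ℚ, ∀ τ ∈ P.inertiaSubgroupIn ℚ, ∃ n : ℕ,
      ∀ x ∈ H, τ • x = τ₀ ^ n • x := by
  classical
  haveI : Finite (stableSub H hstab) := ‹Finite H›
  have hcont : MZ.IsCtsAction (stableSub H hstab) := by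
    choose L hLfin hL using hfix
    haveI : ∀ x : stableSub H hstab, FiniteDimensional ℚ ↥(L x.1) := fun x => hLfin x.1
    refine ⟨⨆ x : stableSub H hstab, L x.1, IntermediateField.finiteDimensional_iSup_of_finite,
      fun σ hσ e => ?_⟩
    apply Subtype.ext
    change σ • (e : J) = e
    exact hL e.1 σ (fun a ha => hσ a (le_iSup (fun x : stableSub H hstab => L x.1) e ha))
  obtain ⟨τ₀, hτ₀, h⟩ := MZ.tame_smul_cyclic hq hP hcont (fun σ hσ => ⟨m, hm, fun e => by
    apply Subtype.ext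
    change σ ^ m • (e : J) = e
    have he : (e : J) ∈ H := e.2
    have h1 : m • (σ • (e : J) - (e : J)) = 0 := by
      rw [smul_sub, smul_comm m σ, hmH _ he, smul_zero, sub_zero]
    rw [pow_smul_eq_of_unipotent σ (e : J) (hunip σ hσ _ he) m, h1, add_zero]⟩)
  refine ⟨τ₀, hτ₀, fun τ hτ => ?_⟩
  obtain ⟨n, hn⟩ := h τ hτ
  refine ⟨n, fun x hx => ?_⟩
  have := congrArg (fun e : stableSub H hstab => (e : J)) (hn ⟨x, hx⟩)
  exact this

include hfix hq hP hstab hm hmH hunip in
/-- `(τ - 1)(σ - 1) = 0` on `H` for ALL pairs `σ, τ ∈ I_P`. -/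
theorem inertia_smul_sub_eq (σ τ : GQ) (hσ : σ ∈ P.inertiaSubgroupIn ℚ)
    (hτ : τ ∈ P.inertiaSubgroupIn ℚ) (x : J) (hx : x ∈ H) :
    τ • (σ • x - x) = σ • x - x := by
  obtain ⟨τ₀, hτ₀, h⟩ := exists_inertia_generator hfix hq hP H hstab m hm hmH hunip
  obtain ⟨k, hk⟩ := h σ hσ
  obtain ⟨n, hn⟩ := h τ hτ
  have hd : σ • x - x = k • (τ₀ • x - x) := by
    rw [hk x hx, pow_smul_eq_of_unipotent τ₀ x (hunip τ₀ hτ₀ x hx) k]
    abel
  have h0 : τ₀ • (σ • x - x) = σ • x - x := by
    rw [hd, smul_comm τ₀ k, hunip τ₀ hτ₀ x hx]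
  have hdH : σ • x - x ∈ H := H.sub_mem (hstab σ x hx) hx
  rw [hn _ hdH]
  clear hn
  induction n with
  | zero => simp
  | succ n ih => rw [pow_succ', mul_smul, ih, h0]

include hfix hq hP hstab hm hmH hunip in
/-- **(w1)**: `#H ≤ (#H^{I_P})²`. -/
theorem card_le_card_inertia_fixed_sq :
    Nat.card H ≤
      Nat.card {x : H // ∀ τ ∈ P.inertiaSubgroupIn ℚ, τ • (x : J) = x} ^ 2 := by
  classical
  obtain ⟨τ₀, hτ₀, h⟩ := exists_inertia_generator hfix hq hP H hstab m hm hmH hunip
  let ε : H →+ H :=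
    { toFun := fun x => ⟨τ₀ • (x : J) - x, H.sub_mem (hstab τ₀ _ x.2) x.2⟩
      map_zero' := by
        apply Subtype.ext
        simp
      map_add' := fun x y => by
        apply Subtype.ext
        simp only [AddSubgroup.coe_add, smul_add]
        abel }
  have hε : ∀ x : H, ε (ε x) = 0 := by
    intro x
    apply Subtype.ext
    change τ₀ • (τ₀ • (x : J) - x) - (τ₀ • (x : J) - x) = 0
    rw [hunip τ₀ hτ₀ x x.2, sub_self]
  have hker : ∀ x : H, x ∈ ε.ker ↔ ∀ τ ∈ P.inertiaSubgroupIn ℚ, τ • (x : J) = x := by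
    intro x
    rw [AddMonoidHom.mem_ker]
    constructor
    · intro hx τ hτ
      have hx' : τ₀ • (x : J) = x := by
        have := congrArg (fun e : H => (e : J)) hx
        exact sub_eq_zero.mp this
      obtain ⟨n, hn⟩ := h τ hτ
      rw [hn x x.2]
      clear hn
      induction n with
      | zero => simp
      | succ n ih => rw [pow_succ', mul_smul, ih, hx']
    · intro hx
      apply Subtype.ext
      change τ₀ • (x : J) - x = 0
      rw [hx τ₀ hτ₀, sub_self]
  have hcard : Nat.card ε.ker =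
      Nat.card {x : H // ∀ τ ∈ P.inertiaSubgroupIn ℚ, τ • (x : J) = x} :=
    Nat.card_congr (Equiv.subtypeEquivRight hker)
  rw [← hcard]
  exact card_le_card_ker_sq ε hε

end Inertia

end Fermat.Agent.ML
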