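/-
ML — helper5 — **[RANK]: `ML.rankStatement : RankStatement`** (helper3's literal,
`ML/IFACE_helper3_Surj.lean`).

For `D : KapData J Γ p` and the lattice `L = parabolicHoms ℤ Γ ℤ` of rank `r`:
* `kapData_pow_le_card_torsion` : `p ^ (k r) ≤ #J[p ^ k]` (the reductions of the integral parabolic
  homomorphisms are in the image of `kap k`; two of them agree iff the difference is divisible by
  `p ^ k` IN `L`);
* `kapData_card_torsion_le_pow` : `#J[p ^ k] ≤ p ^ (k r)` as soon as every parabolic homomorphism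
  `Γ → ℤ / p ^ k` lifts to `L` (helper2's `ML.parLiftModPowO`: no `p`-torsion in `Γ₀(M)^{ab}`).
The statement follows by counting along `(α_*, β_*) : J₀(M q)[p ^ k] → J₀(M)[p ^ k]²` with
`r = 2 g` (`S16.finrank_parabolicHoms_int`).
-/
import Mathlib
import Fermat.Agent.ML.IFACE_helper3_Surj
import Fermat.Agent.ML.TOPO3_helper2_ParLift
import Fermat.Agent.GR.ASM_helper8_Done
import Fermat.Agent.GR.TATE_lead_Gal
import Fermat.Agent.S16.LB_helper9_TFLift

set_option autoImplicit false
set_option linter.unusedSectionVars false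
set_option linter.unusedVariables false
set_option linter.style.haveILetI false

open ModularCurve ModularCurve.Period CongruenceSubgroup

open scoped MatrixGroups

namespace Fermat.Agent.ML

open Fermat.Agent.GR Fermat.Agent.S35 Fermat.Agent.NP

section Abstract

variable {J : Type*} [AddCommGroup J] {Γ : Subgroup SL(2, ℤ)} [Group.FG Γ] {p : ℕ}
  [hp : Fact p.Prime]

/-- the reduction modulo `p ^ k` of an integral parabolic homomorphism is a value of `kap k`. -/
theorem kapData_exists_kap_eq_cast (D : KapData J Γ p) (k : ℕ)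
    (w : ↥(parabolicHoms ℤ Γ ℤ)) :
    ∃ x, D.kap k x = (Int.castAddHom (ZMod (p ^ k))).comp w.1 := by
  have hψ : (Int.castAddHom ℤ_[p]).comp w.1 ∈ parabolicHoms ℤ_[p] Γ ℤ_[p] :=
    comp_mem_parabolicHoms (Int.castAddHom ℤ_[p]) w.2
  obtain ⟨x, hx⟩ := D.sur k ⟨_, hψ⟩
  refine ⟨x, hx.trans ?_⟩
  refine AddMonoidHom.ext fun γ => ?_
  show PadicInt.toZModPow k ((w.1 γ : ℤ) : ℤ_[p]) = ((w.1 γ : ℤ) : ZMod (p ^ k))
  exact map_intCast _ _

/-- an integral parabolic homomorphism whose reduction modulo `m` vanishes is divisible by `m`. -/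
theorem exists_eq_smul_of_cast_comp_eq_zero (m : ℕ) (hm : m ≠ 0) (w : ↥(parabolicHoms ℤ Γ ℤ))
    (h : (Int.castAddHom (ZMod m)).comp w.1 = 0) :
    ∃ w' : ↥(parabolicHoms ℤ Γ ℤ), w = (m : ℤ) • w' := by
  refine exists_eq_smul_of_comp_eq_zero ℤ Γ ℤ (Int.castAddHom (ZMod m)) (m : ℤ) ?_ ?_ w h
  · intro a b hab
    have hm' : (m : ℤ) ≠ 0 := by exact_mod_cast hm
    exact mul_left_cancel₀ hm' hab
  · intro a ha
    have h1 : ((a : ℤ) : ZMod m) = 0 := ha
    rw [ZMod.intCast_zmod_eq_zero_iff_dvd] at h1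
    obtain ⟨b, rfl⟩ := h1
    exact ⟨b, rfl⟩

/-- **lower bound**: `p ^ (k r) ≤ #J[p ^ k]`, `r` the rank of the integral parabolic
homomorphisms. -/
theorem kapData_pow_le_card_torsion (D : KapData J Γ p) (k : ℕ) :
    p ^ (k * Module.finrank ℤ ↥(parabolicHoms ℤ Γ ℤ)) ≤ Nat.card ↥(torsionNat J (p ^ k)) := by
  classical
  haveI := D.finite_torsion k
  haveI : NeZero (p ^ k) := ⟨pow_ne_zero _ hp.out.ne_zero⟩
  set r := Module.finrank ℤ ↥(parabolicHoms ℤ Γ ℤ) with hr
  let b : Module.Basis (Fin r) ℤ ↥(parabolicHoms ℤ Γ ℤ) := Module.finBasis ℤ _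
  -- the lattice point of a coefficient vector
  let wOf : (Fin r → ZMod (p ^ k)) → ↥(parabolicHoms ℤ Γ ℤ) := fun c =>
    ∑ i, ((c i).val : ℤ) • b i
  choose xOf hxOf using fun c : Fin r → ZMod (p ^ k) => kapData_exists_kap_eq_cast D k (wOf c)
  have hinj : Function.Injective xOf := by
    intro c c' hcc
    have h1 : (Int.castAddHom (ZMod (p ^ k))).comp (wOf c - wOf c').1 = 0 := by
      have h2 : (wOf c - wOf c').1 = (wOf c).1 - (wOf c').1 := rfl
      rw [h2]
      refine AddMonoidHom.ext fun γ => ?_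
      have h3 := DFunLike.congr_fun (hxOf c) γ
      have h4 := DFunLike.congr_fun (hxOf c') γ
      rw [hcc] at h3
      have h5 : (Int.castAddHom (ZMod (p ^ k))) ((wOf c).1 γ) =
          (Int.castAddHom (ZMod (p ^ k))) ((wOf c').1 γ) := h3.symm.trans h4
      show (Int.castAddHom (ZMod (p ^ k))) ((wOf c).1 γ - (wOf c').1 γ) = 0
      rw [map_sub, h5, sub_self]
    obtain ⟨w', hw'⟩ := exists_eq_smul_of_cast_comp_eq_zero (p ^ k) (NeZero.ne _) _ h1
    funext i
    have h6 := congrArg (fun w => b.repr w i) hw'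
    simp only [map_sub, map_smul, Finsupp.coe_sub, Finsupp.coe_smul, Pi.sub_apply,
      Pi.smul_apply, smul_eq_mul] at h6
    have h7 : ∀ c : Fin r → ZMod (p ^ k), b.repr (wOf c) i = ((c i).val : ℤ) := by
      intro c
      show b.repr (∑ j, ((c j).val : ℤ) • b j) i = _
      rw [map_sum, Finset.sum_apply']
      simp only [map_smul, Module.Basis.repr_self, Finsupp.smul_single, smul_eq_mul, mul_one]
      rw [Finset.sum_eq_single i]
      · simp
      · intro j _ hj
        simp [hj]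
      · intro h
        exact absurd (Finset.mem_univ i) h
    rw [h7 c, h7 c'] at h6
    have h8 : (((c i).val : ℤ) : ZMod (p ^ k)) = (((c' i).val : ℤ) : ZMod (p ^ k)) := by
      have : ((c i).val : ℤ) = ((c' i).val : ℤ) + ((p ^ k : ℕ) : ℤ) * b.repr w' i := by
        linarith
      rw [this]
      push_cast
      have h0 : ((p : ZMod (p ^ k)) ^ k) = 0 := by
        have h00 := ZMod.natCast_self (p ^ k)
        push_cast at h00
        exact h00
      rw [h0, zero_mul, add_zero]
    simpa using h8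
  have h9 := Nat.card_le_card_of_injective xOf hinj
  rw [Nat.card_fun, Nat.card_fin, Nat.card_zmod, ← pow_mul] at h9
  exact h9

/-- **upper bound**: `#J[p ^ k] ≤ p ^ (k r)` when every parabolic homomorphism `Γ → ℤ / p ^ k`
lifts to an integral one. -/
theorem kapData_card_torsion_le_pow (D : KapData J Γ p) (k : ℕ)
    (hlift : ∀ ψ : Additive Γ →+ ZMod (p ^ k), ψ ∈ parabolicHoms ℤ Γ (ZMod (p ^ k)) →
      ∃ w : ↥(parabolicHoms ℤ Γ ℤ), (Int.castAddHom (ZMod (p ^ k))).comp w.1 = ψ) :
    Nat.card ↥(torsionNat J (p ^ k)) ≤ p ^ (k * Module.finrank ℤ ↥(parabolicHoms ℤ Γ ℤ)) := by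
  classical
  haveI := D.finite_torsion k
  haveI : NeZero (p ^ k) := ⟨pow_ne_zero _ hp.out.ne_zero⟩
  set r := Module.finrank ℤ ↥(parabolicHoms ℤ Γ ℤ) with hr
  let b : Module.Basis (Fin r) ℤ ↥(parabolicHoms ℤ Γ ℤ) := Module.finBasis ℤ _
  choose wOf hwOf using fun x : ↥(torsionNat J (p ^ k)) => hlift (D.kap k x) (D.par k x)
  let cOf : ↥(torsionNat J (p ^ k)) → (Fin r → ZMod (p ^ k)) := fun x i =>
    ((b.repr (wOf x) i : ℤ) : ZMod (p ^ k))
  have hinj : Function.Injective cOf := by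
    intro x x' hxx
    apply D.inj k
    rw [← hwOf x, ← hwOf x']
    refine AddMonoidHom.ext fun γ => ?_
    show (((wOf x).1 γ : ℤ) : ZMod (p ^ k)) = (((wOf x').1 γ : ℤ) : ZMod (p ^ k))
    have e : ∀ w : ↥(parabolicHoms ℤ Γ ℤ), ((w.1 γ : ℤ) : ZMod (p ^ k)) =
        ∑ i, ((b.repr w i : ℤ) : ZMod (p ^ k)) * (((b i).1 γ : ℤ) : ZMod (p ^ k)) := by
      intro w
      conv_lhs => rw [← b.sum_repr w]
      have h1 : (∑ i, b.repr w i • b i : ↥(parabolicHoms ℤ Γ ℤ)).1 γ =
          ∑ i, b.repr w i * (b i).1 γ := by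
        have h2 : ((∑ i, b.repr w i • b i : ↥(parabolicHoms ℤ Γ ℤ)) :
            Additive Γ →+ ℤ) = ∑ i, b.repr w i • (b i).1 := by
          rw [Submodule.coe_sum]
          rfl
        rw [h2, AddMonoidHom.finsetSum_apply]
        rfl
      rw [h1]
      push_cast
      rfl
    rw [e (wOf x), e (wOf x')]
    refine Finset.sum_congr rfl fun i _ => ?_
    have := congrFun hxx i
    show cOf x i * _ = cOf x' i * _
    rw [this]
  have h9 := Nat.card_le_card_of_injective cOf hinj
  rw [Nat.card_fun, Nat.card_fin, Nat.card_zmod, ← pow_mul] at h9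
  exact h9

end Abstract

section Count

/-- counting along a homomorphism: `#G ≤ #ker · #H`. -/
theorem card_le_card_ker_mul {G H : Type*} [AddCommGroup G] [AddCommGroup H] [Finite G] [Finite H]
    (f : G →+ H) : Nat.card G ≤ Nat.card ↥f.ker * Nat.card H := by
  have h1 := AddSubgroup.card_mul_index f.ker
  rw [AddSubgroup.index_ker] at h1
  rw [← h1]
  exact Nat.mul_le_mul_left _ (Nat.card_le_card_of_injective _ Subtype.val_injective)

end Count

/-- **[RANK]**. -/
theorem rankStatement : RankStatement := by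
  intro M q p _ _ _ hq hp hp2 hqp hqM h3 g₁ g' hg₁ hg' k
  haveI : Fact p.Prime := ⟨hp⟩
  set D₁ : KapData (JZero (M * q)) (Gamma0 (M * q)) p := (stageIData (M * q) p).D with hD₁
  set D' : KapData (JZero M) (Gamma0 M) p := (stageIData M p).D with hD'
  haveI := D₁.finite_torsion k
  haveI := D'.finite_torsion k
  -- the ranks
  have hr₁ : Module.finrank ℤ ↥(parabolicHoms ℤ (Gamma0 (M * q)) ℤ) = 2 * g₁ := by
    have h := Fermat.Agent.S16.finrank_parabolicHoms_int (M * q)
    rw [← hg₁] at h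
    exact_mod_cast h
  have hr' : Module.finrank ℤ ↥(parabolicHoms ℤ (Gamma0 M) ℤ) = 2 * g' := by
    have h := Fermat.Agent.S16.finrank_parabolicHoms_int M
    rw [← hg'] at h
    exact_mod_cast h
  -- the two bounds
  have hlow := kapData_pow_le_card_torsion D₁ k
  rw [hr₁] at hlow
  have hup := kapData_card_torsion_le_pow D' k (fun ψ hψ =>
    parLiftModPowO M p hp2 (fun h => ⟨2, Nat.prime_two, h3 h, rfl⟩) k ψ hψ)
  rw [hr'] at hup
  -- the map `(α_*, β_*)` on the `p ^ k`-torsion
  let tA : ↥(torsionNat (JZero (M * q)) (p ^ k)) →+ ↥(torsionNat (JZero M) (p ^ k)) :=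
    { toFun := fun z => ⟨degPushAlpha M q z.1, by
        show p ^ k • degPushAlpha M q z.1 = 0
        rw [← map_nsmul, z.2, map_zero]⟩
      map_zero' := Subtype.ext (map_zero _)
      map_add' := fun x y => Subtype.ext (map_add _ _ _) }
  let tB : ↥(torsionNat (JZero (M * q)) (p ^ k)) →+ ↥(torsionNat (JZero M) (p ^ k)) :=
    { toFun := fun z => ⟨degPushBeta M q z.1, by
        show p ^ k • degPushBeta M q z.1 = 0
        rw [← map_nsmul, z.2, map_zero]⟩
      map_zero' := Subtype.ext (map_zero _)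
      map_add' := fun x y => Subtype.ext (map_add _ _ _) }
  let f : ↥(torsionNat (JZero (M * q)) (p ^ k)) →+
      ↥(torsionNat (JZero M) (p ^ k)) × ↥(torsionNat (JZero M) (p ^ k)) := tA.prod tB
  have hcount := card_le_card_ker_mul f
  -- the kernel is the set of the statement
  have hker : Nat.card ↥f.ker = Nat.card {z : JZero (M * q) // p ^ k • z = 0 ∧
      degPushAlpha M q z = 0 ∧ degPushBeta M q z = 0} := by
    refine Nat.card_congr ⟨fun z => ⟨z.1.1, z.1.2, ?_, ?_⟩, fun z => ⟨⟨z.1, z.2.1⟩, ?_⟩,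
      fun z => rfl, fun z => rfl⟩
    · have h := z.2
      rw [AddMonoidHom.mem_ker] at h
      exact congrArg (fun t => (t.1 : JZero M)) h
    · have h := z.2
      rw [AddMonoidHom.mem_ker] at h
      exact congrArg (fun t => (t.2 : JZero M)) h
    · rw [AddMonoidHom.mem_ker]
      exact Prod.ext (Subtype.ext z.2.2.1) (Subtype.ext z.2.2.2)
  rw [hker, Nat.card_prod] at hcount
  calc p ^ (2 * k * g₁) = p ^ (k * (2 * g₁)) := by ring_nf
    _ ≤ Nat.card ↥(torsionNat (JZero (M * q)) (p ^ k)) := hlow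
    _ ≤ _ := hcount
    _ ≤ Nat.card {z : JZero (M * q) // p ^ k • z = 0 ∧ degPushAlpha M q z = 0 ∧
          degPushBeta M q z = 0} * (p ^ (k * (2 * g')) * p ^ (k * (2 * g'))) :=
        Nat.mul_le_mul_left _ (Nat.mul_le_mul hup hup)
    _ = _ := by
        rw [← pow_add]
        ring_nf

end Fermat.Agent.ML
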