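/-
ML — helper1 — **[CARD]: `ML.newFixedCardStatement : NewFixedCardStatement`** (helper5's literal,
`ML/IFACE_helper5_SurjLeaves.lean`).

`H := G_k^new = {z ∈ J₀(M q)[p ^ k] : α_* z = β_* z = 0}`.
* `[RANK]` (helper5): `p ^ (2 k g₁) ≤ #H · p ^ (4 k g')`;
* `[CYC]` (helper4, `card_le_card_inertia_fixed_sq`): `#H ≤ (#H^{I_A})²`, as soon as the inertia
  group at `A ∣ q` acts on `H` with `(σ - 1)² = 0`;
* the STRICT unipotency on `J₀(N)[p ^ k]` (`q ∥ N`, `q ≠ p`) from the weak form `GR.SSWStatement`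
  (`(σ - 1)² (c x) = 0`, `c ≠ 0`): every `x ∈ J₀(N)[p ^ k]` is a component of a Tate sequence
  (`exists_redTors_eq`: `kap k x` lifts to an integral parabolic homomorphism, helper2's
  `parLiftModPowO`), hence `x = p ^ a • y` with `y ∈ J₀(N)[p ^ (k + a)]`, and the prime-to-`p` part
  of `c` is invertible on `y`.
-/
import Mathlib
import Fermat.Agent.ML.IFACE_helper5_SurjLeaves
import Fermat.Agent.ML.RANK_helper5_Card
import Fermat.Agent.ML.CYC_helper4_Count
import Fermat.Agent.ML.STKILL_helper5_Gal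
import Fermat.Agent.SS.TOPA2_lead
import Fermat.Agent.SS.TOPB_lead_Main
import Fermat.Agent.SS.MODELS_helper7_AtBases
import Fermat.Agent.NP.LAT33_helper2_Tate
import Fermat.Agent.GR.FIX_helper3

set_option autoImplicit false
set_option linter.unusedSectionVars false
set_option linter.unusedVariables false
set_option linter.style.haveILetI false

open ModularCurve ModularCurve.Period CongruenceSubgroup

open scoped MatrixGroups

namespace Fermat.Agent.ML.CARD

open Fermat.Agent.GR Fermat.Agent.S35 Fermat.Agent.NP Fermat.Agent.ML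

local notation "Ω" => AlgebraicClosure ℚ
local notation "GQ" => (AlgebraicClosure ℚ ≃ₐ[ℚ] AlgebraicClosure ℚ)

section Div

variable {J : Type*} [AddCommGroup J] {Γ : Subgroup SL(2, ℤ)} [Group.FG Γ] {p : ℕ}
  [hp : Fact p.Prime]

/-- every `p ^ k`-torsion point is a component of a Tate sequence (when the parabolic homomorphisms
modulo `p ^ k` lift to integral ones). -/
theorem exists_redTors_eq (D : KapData J Γ p) (k : ℕ)
    (hlift : ∀ ψ : Additive Γ →+ ZMod (p ^ k), ψ ∈ parabolicHoms ℤ Γ (ZMod (p ^ k)) →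
      ∃ w : ↥(parabolicHoms ℤ Γ ℤ), (Int.castAddHom (ZMod (p ^ k))).comp w.1 = ψ)
    (x : ↥(torsionNat J (p ^ k))) :
    ∃ ψ : ↥(parabolicHoms ℤ_[p] Γ ℤ_[p]), D.redTors k ψ = x := by
  obtain ⟨w, hw⟩ := hlift (D.kap k x) (D.par k x)
  have hψ : (Int.castAddHom ℤ_[p]).comp w.1 ∈ parabolicHoms ℤ_[p] Γ ℤ_[p] :=
    comp_mem_parabolicHoms (Int.castAddHom ℤ_[p]) w.2
  refine ⟨⟨_, hψ⟩, ?_⟩
  apply D.inj k
  rw [D.kap_redTors, ← hw]
  refine AddMonoidHom.ext fun γ => ?_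
  show PadicInt.toZModPow k ((w.1 γ : ℤ) : ℤ_[p]) = ((w.1 γ : ℤ) : ZMod (p ^ k))
  exact map_intCast _ _

/-- the components of a Tate sequence: `p ^ a • x_{m + a} = x_m`. -/
theorem redTors_pow_smul (D : KapData J Γ p) (m a : ℕ) (ψ : ↥(parabolicHoms ℤ_[p] Γ ℤ_[p])) :
    p ^ a • ((D.redTors (m + a) ψ : ↥(torsionNat J (p ^ (m + a)))) : J) =
      ((D.redTors m ψ : ↥(torsionNat J (p ^ m))) : J) := by
  induction a with
  | zero => rw [pow_zero, one_smul]; rfl
  | succ a ih =>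
    have h1 : p • ((D.redTors (m + (a + 1)) ψ : ↥(torsionNat J (p ^ (m + (a + 1))))) : J) =
        ((D.redTors (m + a) ψ : ↥(torsionNat J (p ^ (m + a)))) : J) :=
      redTors_succ D (m + a) ψ
    rw [pow_succ, mul_nsmul', h1, ih]

/-- **divisibility of the `p`-power torsion.** -/
theorem exists_pow_smul_eq (D : KapData J Γ p) (k a : ℕ)
    (hlift : ∀ ψ : Additive Γ →+ ZMod (p ^ k), ψ ∈ parabolicHoms ℤ Γ (ZMod (p ^ k)) →
      ∃ w : ↥(parabolicHoms ℤ Γ ℤ), (Int.castAddHom (ZMod (p ^ k))).comp w.1 = ψ)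
    (x : J) (hx : p ^ k • x = 0) : ∃ y : J, p ^ (k + a) • y = 0 ∧ p ^ a • y = x := by
  obtain ⟨ψ, hψ⟩ := exists_redTors_eq D k hlift ⟨x, hx⟩
  refine ⟨((D.redTors (k + a) ψ : ↥(torsionNat J (p ^ (k + a)))) : J), (D.redTors (k + a) ψ).2, ?_⟩
  rw [redTors_pow_smul, hψ]

end Div

/-- (SS), weak form, all levels. -/
theorem ssWStatement : SSWStatement :=
  Fermat.Agent.SS.ssWStatement_of_kummerSS
    (Fermat.Agent.SS.kummerSS_of_base Fermat.Agent.SS.legKummerBase Fermat.Agent.SS.hesKummerBase)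

section Unip

variable (N : ℕ) [NeZero N] {p q : ℕ}

/-- **strict unipotency of the inertia groups at `q ∥ N`, `q ≠ p`, on `J₀(N)[p ^ k]`** (`p` odd;
at `p = 3` some prime `r ≡ 2 mod 3` divides `N`). -/
theorem inertia_unipotent_strict (hp : p.Prime) (hq : q.Prime) (hqp : q ≠ p) (hqN : q ∣ N)
    (hq2 : ¬ q ^ 2 ∣ N) (hp2 : p ≠ 2) (h3 : p = 3 → ∃ r : ℕ, r.Prime ∧ r ∣ N ∧ r % 3 = 2)
    {A : ValuationSubring Ω} (hA : A.LiesOverPrime q) {σ : GQ} (hσ : σ ∈ A.inertiaSubgroupIn ℚ)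
    (k : ℕ) (x : JZero N) (hx : p ^ k • x = 0) :
    σ • σ • x - 2 • (σ • x) + x = 0 := by
  haveI : Fact p.Prime := ⟨hp⟩
  obtain ⟨c, hc0, hc⟩ := ssWStatement N p q hp hq hqp hqN hq2
  obtain ⟨a, c', hc', rfl⟩ := Nat.exists_eq_pow_mul_and_not_dvd hc0 p hp.ne_one
  obtain ⟨y, hy, hyx⟩ := exists_pow_smul_eq (stageIData N p).D k a
    (fun ψ hψ => parLiftModPowO N p hp2 h3 k ψ hψ) x hx
  -- the prime-to-`p` part of `c` is invertible on `y`
  have hcop : Nat.Coprime c' (p ^ (k + a)) :=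
    Nat.Coprime.pow_right _ ((Nat.Prime.coprime_iff_not_dvd hp).2 hc').symm
  obtain ⟨d, hd⟩ : ∃ d : ℕ, (c' * d) • y = y := by
    by_cases h1 : p ^ (k + a) = 1
    · refine ⟨0, ?_⟩
      rw [h1, one_smul] at hy
      rw [hy, smul_zero]
    · have hlt : 1 < p ^ (k + a) := by
        have : 0 < p ^ (k + a) := pow_pos hp.pos _
        omega
      obtain ⟨d, -, hd⟩ := Nat.exists_mul_mod_eq_one_of_coprime hcop hlt
      refine ⟨d, ?_⟩
      have h4 := Nat.div_add_mod (c' * d) (p ^ (k + a))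
      rw [hd] at h4
      rw [← h4, add_nsmul, mul_nsmul, hy, nsmul_zero, zero_add, one_nsmul]
  have hxc : x = (p ^ a * c') • (d • y) := by
    have h5 : c' • (d • y) = y := by rw [← mul_nsmul', hd]
    rw [← hyx, mul_nsmul', h5]
  have htors : ∃ n : ℕ, p ^ n • (d • y) = 0 :=
    ⟨k + a, by rw [nsmul_left_comm, hy, nsmul_zero]⟩
  have h := hc A hA σ hσ (d • y) htors
  rw [← hxc] at h
  exact h

end Unip

section Gen

variable {J J' : Type*} [AddCommGroup J] [AddCommGroup J'] [DistribMulAction GQ J]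
  [DistribMulAction GQ J']

theorem nsmul_galois_smul_eq_zero (σ : GQ) (n : ℕ) {x : J} (h : n • x = 0) :
    n • (σ • x) = 0 := by
  rw [smul_comm, h, smul_zero]

theorem map_galois_smul_eq_zero (f : J →+ J') (hf : ∀ (σ : GQ) (x : J), f (σ • x) = σ • f x)
    (σ : GQ) {x : J} (h : f x = 0) : f (σ • x) = 0 := by
  rw [hf, h, smul_zero]

theorem unipotent_of_quadratic (σ : GQ) (x : J) (h : σ • σ • x - 2 • (σ • x) + x = 0) :
    σ • (σ • x - x) = σ • x - x := by
  have h' : σ • σ • x = 2 • (σ • x) - x := by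
    have h2 : σ • σ • x = (σ • σ • x - 2 • (σ • x) + x) + (2 • (σ • x) - x) := by abel
    rw [h2, h, zero_add]
  rw [smul_sub, h', two_nsmul]
  abel

end Gen

section Main

variable (M q p k : ℕ) [NeZero M] [NeZero q] [NeZero (M * q)]

/-- `G_k^new`: the subgroup of `J₀(M q)[p ^ k]` killed by both degeneracy pushforwards. -/
def newSub : AddSubgroup (JZero (M * q)) where
  carrier := {z | p ^ k • z = 0 ∧ degPushAlpha M q z = 0 ∧ degPushBeta M q z = 0}
  zero_mem' := ⟨nsmul_zero _, map_zero _, map_zero _⟩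
  add_mem' := by
    rintro a b ⟨ha1, ha2, ha3⟩ ⟨hb1, hb2, hb3⟩
    exact ⟨by rw [nsmul_add, ha1, hb1, add_zero], by rw [map_add, ha2, hb2, add_zero],
      by rw [map_add, ha3, hb3, add_zero]⟩
  neg_mem' := by
    rintro a ⟨ha1, ha2, ha3⟩
    exact ⟨by rw [neg_nsmul, ha1, neg_zero], by rw [map_neg, ha2, neg_zero],
      by rw [map_neg, ha3, neg_zero]⟩

variable {M q p k} in
theorem mem_newSub {z : JZero (M * q)} :
    z ∈ newSub M q p k ↔ p ^ k • z = 0 ∧ degPushAlpha M q z = 0 ∧ degPushBeta M q z = 0 :=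
  Iff.rfl

theorem newSub_stable (σ : GQ) (z : JZero (M * q)) (hz : z ∈ newSub M q p k) :
    σ • z ∈ newSub M q p k := by
  obtain ⟨h1, h2, h3⟩ := hz
  exact ⟨nsmul_galois_smul_eq_zero σ _ h1,
    map_galois_smul_eq_zero (degPushAlpha M q) (degPushAlpha_galois_smul (M := M) (q := q)) σ h2,
    map_galois_smul_eq_zero (degPushBeta M q) (degPushBeta_galois_smul (M := M) (q := q)) σ h3⟩

end Main

/-- **[CARD]**. -/
theorem newFixedCardStatement : NewFixedCardStatement := by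
  intro M q p _ _ _ hq hp hp2 hqp hqM h3 A hA g₁ g' hg₁ hg' k
  haveI : Fact p.Prime := ⟨hp⟩
  haveI hfinT := (stageIData (M * q) p).D.finite_torsion k
  haveI : Finite ↥(newSub M q p k) :=
    Finite.of_injective (fun z : ↥(newSub M q p k) =>
      (⟨z.1, z.2.1⟩ : ↥(torsionNat (JZero (M * q)) (p ^ k))))
      (fun a b hab => Subtype.ext (congrArg (fun t : ↥(torsionNat (JZero (M * q)) (p ^ k)) =>
        (t : JZero (M * q))) hab))
  have hrank := rankStatement M q p hq hp hp2 hqp hqM h3 g₁ g' hg₁ hg' k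
  have hcop : (p ^ k).Coprime q :=
    Nat.Coprime.pow_left _ ((Nat.coprime_primes hp hq).2 (fun h => hqp h.symm))
  have hq2 : ¬ q ^ 2 ∣ M * q := by
    intro h
    rw [pow_two] at h
    exact hqM (Nat.dvd_of_mul_dvd_mul_right hq.pos h)
  have hcyc := card_le_card_inertia_fixed_sq (J := JZero (M * q))
    (fun x => jzero_fix (M * q) x) hq hA (newSub M q p k) (newSub_stable M q p k) (p ^ k) hcop
    (fun x hx => hx.1)
    (fun σ hσ x hx => unipotent_of_quadratic σ x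
      (inertia_unipotent_strict (M * q) hp hq hqp (Dvd.intro_left M rfl) hq2 hp2
        (fun h => ⟨2, Nat.prime_two, Dvd.dvd.mul_right (h3 h) q, rfl⟩) hA hσ k x hx.1))
  -- the fixed part is the set of the statement
  have hfixcard : Nat.card {x : ↥(newSub M q p k) //
        ∀ τ ∈ A.inertiaSubgroupIn ℚ, τ • (x : JZero (M * q)) = x} =
      Nat.card {z : JZero (M * q) // p ^ k • z = 0 ∧ degPushAlpha M q z = 0 ∧
          degPushBeta M q z = 0 ∧ ∀ τ ∈ A.inertiaSubgroupIn ℚ, τ • z = z} := by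
    refine Nat.card_congr ⟨fun x => ⟨x.1.1, x.1.2.1, x.1.2.2.1, x.1.2.2.2, x.2⟩,
      fun z => ⟨⟨z.1, z.2.1, z.2.2.1, z.2.2.2.1⟩, z.2.2.2.2⟩, fun x => rfl, fun z => rfl⟩
  have hHcard : Nat.card ↥(newSub M q p k) = Nat.card {z : JZero (M * q) // p ^ k • z = 0 ∧
      degPushAlpha M q z = 0 ∧ degPushBeta M q z = 0} := rfl
  rw [← hHcard] at hrank
  rw [← hfixcard]
  set F := Nat.card {x : ↥(newSub M q p k) //
        ∀ τ ∈ A.inertiaSubgroupIn ℚ, τ • (x : JZero (M * q)) = x} with hF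
  -- `p ^ (2 k g₁) ≤ (F · p ^ (2 k g'))²`
  have h1 : (p ^ (k * g₁)) ^ 2 ≤ (F * p ^ (2 * k * g')) ^ 2 := by
    calc (p ^ (k * g₁)) ^ 2 = p ^ (2 * k * g₁) := by rw [← pow_mul]; ring_nf
      _ ≤ Nat.card ↥(newSub M q p k) * p ^ (4 * k * g') := hrank
      _ ≤ F ^ 2 * p ^ (4 * k * g') := Nat.mul_le_mul_right _ hcyc
      _ = (F * p ^ (2 * k * g')) ^ 2 := by rw [mul_pow, ← pow_mul]; ring_nf
  exact (Nat.pow_le_pow_iff_left (by norm_num : (2 : ℕ) ≠ 0)).1 h1

end Fermat.Agent.ML.CARD
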