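/-
PROJECT ML (S59) — helper8 — **[MASS], abstract core: the dimension count on a two-sheet chart.**

`R` a ring with a residue map `res : R → k` (kernel `(π)`), `B` an `R`-algebra (the chart) with two
reduction maps `ι∞ : B → F∞`, `ι0 : B → F0` (the two sheets) whose common kernel is `π B`, `Λ ⊆ B` a
free `R`-module of rank `r`, saturated in `B` (sections of `O(n D)` on the whole model), `X ⊆ F∞`,
`Y ⊆ F0` finite-dimensional `k`-spaces containing the reductions of `Λ`, and `s` *nodes*: ideals `𝔪ⱼ`
of `B` containing both kernels, with `𝔪ⱼ ∩ R = (π)`, together with elements `cᵢ ∈ B`, `cᵢ ≡ δᵢⱼ` at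
`𝔪ⱼ`, whose `∞`-reductions lie in `X`.  Then

  `r + s ≤ dim X + dim Y`.

(The reductions of a basis of `Λ` and the pairs `(ι∞ cᵢ, 0)` are linearly independent in `X × Y`:
a section of the special fibre is a pair of functions on the two components AGREEING AT THE NODES.)
-/
import Mathlib

set_option autoImplicit false
set_option linter.unusedSectionVars false
set_option linter.unusedVariables false
set_option linter.style.haveILetI false

namespace Fermat.Agent.ML

open Module

section Count

variable {R : Type*} [CommRing R] (π : R) {k : Type*} [Field k] (res : R →+* k)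
  {B : Type*} [CommRing B] [Algebra R B]
  {Finf F0 : Type*} [CommRing Finf] [Algebra k Finf] [CommRing F0] [Algebra k F0]
  (ιinf : B →+* Finf) (ι0 : B →+* F0)

theorem massCount_smul_inf (hιinf : ∀ r, ιinf (algebraMap R B r) = algebraMap k Finf (res r))
    (r : R) (b : B) : ιinf (r • b) = res r • ιinf b := by
  rw [Algebra.smul_def, map_mul, hιinf, Algebra.smul_def]

/-- **the dimension count.** -/
theorem massCount (hres : Function.Surjective res) (hπ : res π = 0)
    (hιinf : ∀ r, ιinf (algebraMap R B r) = algebraMap k Finf (res r))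
    (hι0 : ∀ r, ι0 (algebraMap R B r) = algebraMap k F0 (res r))
    (hsat : ∀ b, ιinf b = 0 → ι0 b = 0 → ∃ b', b = algebraMap R B π * b')
    (Λ : Submodule R B) {r : ℕ} (e : Basis (Fin r) R Λ)
    (hΛsat : ∀ b : B, algebraMap R B π * b ∈ Λ → b ∈ Λ)
    (X : Submodule k Finf) (Y : Submodule k F0) [FiniteDimensional k X] [FiniteDimensional k Y]
    (hX : ∀ l ∈ Λ, ιinf l ∈ X) (hY : ∀ l ∈ Λ, ι0 l ∈ Y)
    {s : ℕ} (𝔪 : Fin s → Ideal B)
    (h𝔪inf : ∀ j b, ιinf b = 0 → b ∈ 𝔪 j) (h𝔪0 : ∀ j b, ι0 b = 0 → b ∈ 𝔪 j)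
    (h𝔪R : ∀ j r, algebraMap R B r ∈ 𝔪 j → π ∣ r)
    (c : Fin s → B) (hc1 : ∀ j, c j - 1 ∈ 𝔪 j) (hc0 : ∀ i j, i ≠ j → c i ∈ 𝔪 j)
    (hcX : ∀ i, ιinf (c i) ∈ X) :
    r + s ≤ finrank k X + finrank k Y := by
  classical
  have hsmulinf := massCount_smul_inf res ιinf hιinf
  have hsmul0 := massCount_smul_inf res ι0 hι0
  -- the family
  let v : Fin r ⊕ Fin s → ↥X × ↥Y := Sum.elim
    (fun a => (⟨ιinf (e a : B), hX _ (e a).2⟩, ⟨ι0 (e a : B), hY _ (e a).2⟩))
    (fun i => (⟨ιinf (c i), hcX i⟩, 0))
  have hv : LinearIndependent k v := by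
    rw [Fintype.linearIndependent_iff]
    intro g hg
    -- lift the coefficients
    choose G hG using fun i => hres (g i)
    set lam : B := ∑ a : Fin r, G (Sum.inl a) • (e a : B) with hlam
    set mu : B := ∑ i : Fin s, G (Sum.inr i) • c i with hmu
    have hlamΛ : lam ∈ Λ := by
      rw [hlam]
      exact Submodule.sum_mem _ fun a _ => Λ.smul_mem _ (e a).2
    have h1 : ιinf (lam + mu) = 0 := by
      have h := congrArg (fun z : ↥X × ↥Y => ((z.1 : ↥X) : Finf)) hg
      simp only [Fintype.sum_sum_type, v, Sum.elim_inl, Sum.elim_inr, Prod.fst_add, Prod.fst_sum,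
        Prod.smul_fst, Submodule.coe_add, Submodule.coe_sum, Submodule.coe_smul,
        Prod.fst_zero, Submodule.coe_zero] at h
      rw [map_add, hlam, hmu, map_sum, map_sum]
      simp only [hsmulinf, hG]
      exact h
    have h2 : ι0 lam = 0 := by
      have h := congrArg (fun z : ↥X × ↥Y => ((z.2 : ↥Y) : F0)) hg
      simp only [Fintype.sum_sum_type, v, Sum.elim_inl, Sum.elim_inr, Prod.snd_add, Prod.snd_sum,
        Prod.smul_snd, Submodule.coe_sum, Submodule.coe_smul,
        Prod.snd_zero, Submodule.coe_zero, smul_zero, Finset.sum_const_zero, add_zero] at h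
      rw [hlam, map_sum]
      simp only [hsmul0, hG]
      exact h
    -- the coefficients of the node elements vanish
    have hnode : ∀ j : Fin s, g (Sum.inr j) = 0 := by
      intro j
      have hmuj : mu ∈ 𝔪 j := by
        have h3 : lam + mu ∈ 𝔪 j := h𝔪inf j _ h1
        have h4 : lam ∈ 𝔪 j := h𝔪0 j _ h2
        have : mu = (lam + mu) - lam := by ring
        rw [this]
        exact (𝔪 j).sub_mem h3 h4
      have h5 : G (Sum.inr j) • c j ∈ 𝔪 j := by
        have h6 : mu = G (Sum.inr j) • c j + ∑ i ∈ Finset.univ.erase j, G (Sum.inr i) • c i := by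
          rw [hmu]
          exact (Finset.add_sum_erase Finset.univ (fun i => G (Sum.inr i) • c i)
            (Finset.mem_univ j)).symm
        have h7 : ∑ i ∈ Finset.univ.erase j, G (Sum.inr i) • c i ∈ 𝔪 j := by
          refine (𝔪 j).sum_mem fun i hi => ?_
          rw [Algebra.smul_def]
          exact (𝔪 j).mul_mem_left _ (hc0 i j (Finset.ne_of_mem_erase hi))
        have : G (Sum.inr j) • c j = mu - ∑ i ∈ Finset.univ.erase j, G (Sum.inr i) • c i := by
          rw [h6]; ring
        rw [this]
        exact (𝔪 j).sub_mem hmuj h7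
      have h8 : algebraMap R B (G (Sum.inr j)) ∈ 𝔪 j := by
        have : algebraMap R B (G (Sum.inr j)) =
            G (Sum.inr j) • c j - algebraMap R B (G (Sum.inr j)) * (c j - 1) := by
          rw [Algebra.smul_def]; ring
        rw [this]
        exact (𝔪 j).sub_mem h5 ((𝔪 j).mul_mem_left _ (hc1 j))
      obtain ⟨w, hw⟩ := h𝔪R j _ h8
      rw [← hG (Sum.inr j), hw, map_mul, hπ, zero_mul]
    -- hence `λ` reduces to zero on both sheets
    have h3 : ιinf mu = 0 := by
      rw [hmu, map_sum]
      refine Finset.sum_eq_zero fun i _ => ?_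
      rw [hsmulinf, hG, hnode i, zero_smul]
    have h4 : ιinf lam = 0 := by
      rw [map_add, h3, add_zero] at h1
      exact h1
    obtain ⟨b', hb'⟩ := hsat lam h4 h2
    have hb'Λ : b' ∈ Λ := hΛsat b' (hb' ▸ hlamΛ)
    -- compare coordinates
    have hcoord : ∀ a : Fin r, G (Sum.inl a) = π * e.repr ⟨b', hb'Λ⟩ a := by
      intro a
      have h5 : (⟨lam, hlamΛ⟩ : ↥Λ) = ∑ a : Fin r, G (Sum.inl a) • e a := by
        apply Subtype.ext
        rw [Submodule.coe_sum]
        rfl
      have h6 : (⟨lam, hlamΛ⟩ : ↥Λ) = π • (⟨b', hb'Λ⟩ : ↥Λ) := by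
        apply Subtype.ext
        show lam = π • b'
        rw [Algebra.smul_def]
        exact hb'
      have h7 := congrArg (fun z => e.repr z a) h5
      simp only [map_sum, map_smul, Basis.repr_self, Finsupp.coe_finsetSum, Finsupp.coe_smul,
        Finset.sum_apply, Pi.smul_apply, smul_eq_mul] at h7
      rw [h6, map_smul, Finsupp.smul_apply, smul_eq_mul] at h7
      rw [h7]
      simp [Finsupp.single_apply]
    intro i
    rcases i with a | j
    · rw [← hG (Sum.inl a), hcoord a, map_mul, hπ, zero_mul]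
    · exact hnode j
  have hcard := hv.fintype_card_le_finrank
  rw [Fintype.card_sum, Fintype.card_fin, Fintype.card_fin, finrank_prod] at hcard
  exact hcard

end Count

end Fermat.Agent.ML
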