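/-
PROJECT ML (S59) — helper8 — **[MASS], linear algebra: selection of coordinates and Galois descent of
finite-dimensional spaces of functions.**

* `exists_coord_selection` : a finite-dimensional subspace `W ⊆ (I → k)` of dimension `n` is
  separated by `n` of the coordinates;
* `exists_fixed_basis` : a finite-dimensional subspace `V ⊆ (I → Ω)` stable under a set `S` of
  ring endomorphisms of `Ω` acting coordinatewise has a basis of vectors with `S`-fixed coordinates
  (dual basis with respect to a selection of coordinates).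
-/
import Mathlib

set_option autoImplicit false
set_option linter.unusedSectionVars false
set_option linter.unusedVariables false
set_option linter.style.haveILetI false

namespace Fermat.Agent.ML

open Module

section Sel

variable {k : Type*} [Field k] {I : Type*}

theorem exists_coord_selection_aux (n : ℕ) : ∀ W : Submodule k (I → k),
    FiniteDimensional k ↥W → finrank k ↥W = n →
    ∃ J : Fin n → I, ∀ w ∈ W, (∀ s, w (J s) = 0) → w = 0 := by
  induction n with
  | zero =>
    intro W hW hn
    haveI := hW
    refine ⟨Fin.elim0, fun w hw _ => ?_⟩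
    have hbot : W = ⊥ := Submodule.finrank_eq_zero.mp hn
    rw [hbot] at hw
    exact (Submodule.mem_bot k).mp hw
  | succ n ih =>
    intro W hW hn
    haveI := hW
    have hne : W ≠ ⊥ := by
      intro h
      rw [h, finrank_bot] at hn
      exact absurd hn (by omega)
    obtain ⟨w₀, hw₀, hw₀0⟩ := Submodule.exists_mem_ne_zero_of_ne_bot hne
    obtain ⟨i₀, hi₀⟩ : ∃ i₀, w₀ i₀ ≠ 0 := by
      by_contra h
      push Not at h
      exact hw₀0 (funext h)
    set φ : (I → k) →ₗ[k] k := LinearMap.proj i₀ with hφ
    set f : ↥W →ₗ[k] k := φ.comp W.subtype with hf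
    have hfsurj : Function.Surjective f := by
      intro a
      refine ⟨(a / w₀ i₀) • (⟨w₀, hw₀⟩ : ↥W), ?_⟩
      rw [map_smul]
      show (a / w₀ i₀) • w₀ i₀ = a
      rw [smul_eq_mul, div_mul_cancel₀ _ hi₀]
    have hrk := LinearMap.finrank_range_add_finrank_ker f
    rw [LinearMap.range_eq_top.mpr hfsurj, finrank_top, finrank_self, hn] at hrk
    set W' : Submodule k (I → k) := (LinearMap.ker f).map W.subtype with hW'
    have hW'rk : finrank k ↥W' = n := by
      rw [hW', LinearEquiv.finrank_eq
        (Submodule.equivMapOfInjective W.subtype W.injective_subtype (LinearMap.ker f)).symm]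
      omega
    obtain ⟨J', hJ'⟩ := ih W' inferInstance hW'rk
    refine ⟨Fin.cons i₀ J', fun w hw hJ => ?_⟩
    have h0 : w i₀ = 0 := by
      have := hJ 0
      rwa [Fin.cons_zero] at this
    have hwW' : w ∈ W' := by
      rw [hW', Submodule.mem_map]
      exact ⟨⟨w, hw⟩, by rw [LinearMap.mem_ker]; exact h0, rfl⟩
    refine hJ' w hwW' fun s => ?_
    have := hJ s.succ
    rwa [Fin.cons_succ] at this

/-- **selection of coordinates.** -/
theorem exists_coord_selection (W : Submodule k (I → k)) [FiniteDimensional k ↥W] :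
    ∃ J : Fin (finrank k ↥W) → I, ∀ w ∈ W, (∀ s, w (J s) = 0) → w = 0 :=
  exists_coord_selection_aux _ W inferInstance rfl

end Sel

section Desc

variable {Ω : Type*} [Field Ω] {I : Type*}

theorem exists_fixed_basis_aux (S : Set (Ω →+* Ω)) (V : Submodule Ω (I → Ω))
    [FiniteDimensional Ω ↥V] (hV : ∀ σ ∈ S, ∀ v ∈ V, (fun i => σ (v i)) ∈ V) (n : ℕ)
    (hn : finrank Ω ↥V = n) :
    ∃ e : Fin n → (I → Ω), (∀ t, e t ∈ V) ∧ LinearIndependent Ω e ∧
      ∀ t, ∀ σ ∈ S, ∀ i, σ (e t i) = e t i := by
  classical
  obtain ⟨J, hJ⟩ := exists_coord_selection_aux n V inferInstance hn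
  -- the coordinate map
  set T : ↥V →ₗ[Ω] (Fin n → Ω) :=
    (LinearMap.pi fun s => LinearMap.proj (J s)).comp V.subtype with hT
  have hTapp : ∀ (v : ↥V) (s : Fin n), T v s = (v : I → Ω) (J s) := fun v s => rfl
  have hTinj : Function.Injective T := by
    rw [← LinearMap.ker_eq_bot, LinearMap.ker_eq_bot']
    intro v hv
    apply Subtype.ext
    exact hJ v v.2 fun s => by rw [← hTapp, hv]; rfl
  have hTsurj : Function.Surjective T :=
    (LinearMap.injective_iff_surjective_of_finrank_eq_finrank
      (by rw [finrank_fin_fun, hn])).mp hTinj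
  choose e he using fun t : Fin n => hTsurj (Pi.single t 1)
  refine ⟨fun t => (e t : I → Ω), fun t => (e t).2, ?_, fun t σ hσ i => ?_⟩
  · have h1 : LinearIndependent Ω e := by
      apply LinearIndependent.of_comp T
      have : (T ∘ e) = ⇑(Pi.basisFun Ω (Fin n)) := by
        funext t
        rw [Function.comp_apply, he t, Pi.basisFun_apply]
      rw [this]
      exact (Pi.basisFun Ω (Fin n)).linearIndependent
    exact h1.map' V.subtype (Submodule.ker_subtype V)
  · set w : ↥V := ⟨fun i => σ ((e t : I → Ω) i), hV σ hσ _ (e t).2⟩ with hw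
    have hTw : T w = T (e t) := by
      funext s
      rw [hTapp, he t]
      show σ ((e t : I → Ω) (J s)) = _
      rw [← hTapp, he t]
      by_cases hst : s = t
      · subst hst
        rw [Pi.single_eq_same, map_one]
      · rw [Pi.single_eq_of_ne hst, map_zero]
    have := hTinj hTw
    exact congrFun (congrArg Subtype.val this) i

/-- **Galois descent of a finite-dimensional space of functions** (dual basis trick). -/
theorem exists_fixed_basis (S : Set (Ω →+* Ω)) (V : Submodule Ω (I → Ω)) [FiniteDimensional Ω ↥V]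
    (hV : ∀ σ ∈ S, ∀ v ∈ V, (fun i => σ (v i)) ∈ V) :
    ∃ e : Fin (finrank Ω ↥V) → (I → Ω), (∀ t, e t ∈ V) ∧ LinearIndependent Ω e ∧
      ∀ t, ∀ σ ∈ S, ∀ i, σ (e t i) = e t i :=
  exists_fixed_basis_aux S V hV _ rfl

end Desc

end Fermat.Agent.ML
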