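/-
PROJECT ML (S59) — helper8 — **[MASS], input (B): Riemann–Roch for the spaces `L(m · (x)_∞)` with the
Prelude's genus**, characteristic zero.

* `genusTC_eq_genus` (typeclass setting): `genusTC K F = AlgebraicCurve.genus K F`
  (`deg div(dx) = 2 g_TC − 2`);
* `coord_genus_riemannRoch_pole` : for a function field with a coordinate over an algebraically closed
  field of characteristic zero, Riemann's inequality, Riemann–Roch in large degree and the dimension
  of `polePlaceLat c.x m` hold with `g = AlgebraicCurve.genus k F`;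
* `modularBar_riemannRoch_pole` : the case of `X₀(N)` over `ℚ̄`, `(g : ℚ) = genusFormula N` (S24).
-/
import Mathlib
import Fermat.Agent.FG.COH_helper8_PolePlace
import Fermat.Agent.FF.RR_helper3_Final
import Fermat.Agent.FF.RiemannHurwitz
import Fermat.Agent.S24

set_option autoImplicit false
set_option linter.unusedSectionVars false
set_option linter.unusedVariables false
set_option linter.style.haveILetI false

namespace Fermat.Agent.ML

open Polynomial Module nonZeroDivisors IsDedekindDomain FractionalIdeal AlgebraicCurve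
  KaehlerDifferential
open Fermat.Agent.FF Fermat.Agent.FF.RR Fermat.Agent.FG IntermediateField

section TC

variable {K F : Type*} [Field K] [IsAlgClosed K] [CharZero K] [Field F] [Algebra K F]
  [Algebra K[X] F] [Algebra (RatFunc K) F]
  [IsScalarTower K[X] (RatFunc K) F] [IsScalarTower K K[X] F] [IsScalarTower K (RatFunc K) F]
  [FiniteDimensional (RatFunc K) F] [Algebra.IsSeparable (RatFunc K) F]

local notation "B" => FunctionField.ringOfIntegers K F
local notation "Binf" => ringAtInfty K F

/-- **`deg div(dx) = 2 g − 2`** with `g = genusTC`. -/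
theorem degree_D_xF_TC (W : Divisor K F)
    (hW : ∀ v : Place K F, W v = v.ordDifferential (D K F (xF K F))) :
    Divisor.degree W = 2 * (genusTC K F : ℤ) - 2 := by
  have hfin : ∀ P : HeightOneSpectrum B,
      W (placeOf (k := K) (F := F) P) = -count F P (canI K F) :=
    fun P => (hW _).trans (ordDifferential_placeOf_fin P)
  have hinf : ∀ Q : HeightOneSpectrum Binf,
      W (placeOf (k := K) (F := F) Q) = -count F Q (canJ K F) :=
    fun Q => (hW _).trans (ordDifferential_placeOf_inf Q)
  have hdeg : Divisor.degree W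
      = -∑ᶠ P : HeightOneSpectrum B, count F P (canI K F)
        - ∑ᶠ Q : HeightOneSpectrum Binf, count F Q (canJ K F) := by
    rw [degree_eq_finsum_add_finsum (deg_eq_one_TC K F) W]
    simp only [hfin, hinf]
    rw [finsum_neg_distrib, finsum_neg_distrib]
    ring
  rw [hdeg, ← pairDeg_canonical (K := K) (F := F), pairDeg, idealDeg, idealDeg]

end TC

section CoordForm

variable {k F : Type*} [Field k] [Field F] [Algebra k F] [CharZero k] [IsAlgClosed k]

/-- the degree of the canonical divisor of any nonzero differential is `deg div(dx)`. -/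
theorem exists_divisor_D_x_of_canonical (c : Coord k F) [HasCanonicalDivisor (K := k) (F := F)]
    {ω : Ω[F⁄k]} (hω : ω ≠ 0) :
    ∃ K' : Divisor k F, (∀ v, K' v = v.ordDifferential (D k F c.x)) ∧
      Divisor.degree K' = Divisor.degree (canonicalDivisorOf hω) := by
  obtain ⟨g, hg⟩ := c.exists_eq_smul_D_x ω
  have hg0 : g ≠ 0 := by
    intro h0; rw [h0, zero_smul] at hg; exact hω hg
  obtain ⟨Dg, hDg, hdeg⟩ := c.exists_principal_divisor g hg0
  refine ⟨canonicalDivisorOf hω - Dg, fun v => ?_, by rw [map_sub, hdeg, sub_zero]⟩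
  haveI := c.dCoordGenerates v
  haveI := c.nontrivial_kaehler
  rw [Finsupp.sub_apply, canonicalDivisorOf_apply, hDg, hg,
    v.ordDifferential_smul hg0 (c.differentialCoeff_D_x_ne_zero v)]
  ring

/-- **Riemann–Roch with the Prelude's genus**, characteristic zero. -/
theorem coord_genus_riemannRoch_pole (c : Coord k F) [HasCanonicalDivisor (K := k) (F := F)] :
    RiemannIneq k F (genus k F) ∧ RRLarge k F (genus k F) ∧ (∀ v : Place k F, v.deg = 1) ∧
      ∀ m : ℤ, Module.Finite k ↥(polePlaceLat (k := k) c.x m) ∧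
        m * (c.degree : ℤ) + 1 - (genus k F : ℤ) ≤
          (finrank k ↥(polePlaceLat (k := k) c.x m) : ℤ) ∧
        (2 * (genus k F : ℤ) - 1 ≤ m * (c.degree : ℤ) →
          (finrank k ↥(polePlaceLat (k := k) c.x m) : ℤ) =
            m * (c.degree : ℤ) + 1 - (genus k F : ℤ)) := by
  have hex : ∃ ω : Ω[F⁄k], ω ≠ 0 := ⟨D k F c.x, c.D_x_ne_zero⟩
  obtain ⟨K', hK', hK'deg⟩ := exists_divisor_D_x_of_canonical c hex.choose_spec
  haveI : CharZero (RatFunc k) :=
    charZero_of_injective_algebraMap (algebraMap k (RatFunc k)).injective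
  have hsep : Algebra.IsSeparable ↥k⟮c.x⟯ F := by
    haveI : CharZero ↥k⟮c.x⟯ :=
      charZero_of_injective_algebraMap (algebraMap k ↥k⟮c.x⟯).injective
    haveI := c.fin
    exact inferInstance
  obtain ⟨i1, i2, i3, i4, i5, i6, i7, hx, hn, -⟩ :=
    coord_exists_typeclass_setting_of_isSeparable c hsep
  have hgen : genus k F = genusTC k F := by
    have h1 : Divisor.degree K' = 2 * (genusTC k F : ℤ) - 2 :=
      degree_D_xF_TC K' (by rw [hx]; exact hK')
    rw [genus, dif_pos hex, ← hK'deg, h1]
    have : (2 * (genusTC k F : ℤ) - 2 + 2).toNat = 2 * genusTC k F := by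
      have : (2 * (genusTC k F : ℤ) - 2 + 2) = ((2 * genusTC k F : ℕ) : ℤ) := by
        push_cast; ring
      rw [this, Int.toNat_natCast]
    rw [this]
    omega
  rw [hgen]
  refine ⟨riemannIneq_TC k F, rrLarge_TC k F, deg_eq_one_TC_anyChar k F, fun m => ?_⟩
  have hdeg : (c.degree : ℤ) = (finrank (RatFunc k) F : ℤ) := by
    rw [Coord.degree, hn]
  rw [← hx, polePlaceLat_eq_poleLat, hdeg]
  exact ⟨finite_poleLat m, finrank_poleLat_ge m, finrank_poleLat_eq m⟩

end CoordForm

section Modular

open ModularCurve Fermat.Agent.X0N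

/-- `Ω = AlgebraicClosure ℚ`. -/
local notation "Ω" => AlgebraicClosure ℚ

/-- **Riemann–Roch for the spaces `L(m · (j)_∞)` on `X₀(N)` over `ℚ̄`, with `g = genusFormula N`.** -/
theorem modularBar_riemannRoch_pole (N : ℕ) [NeZero N] :
    ∃ g : ℕ, (g : ℚ) = genusFormula N ∧
      RiemannIneq Ω ↥(modularFunctionFieldBar N) g ∧ RRLarge Ω ↥(modularFunctionFieldBar N) g ∧
      ∀ m : ℤ, Module.Finite Ω ↥(polePlaceLat (k := Ω) (jBar N) m) ∧
        m * (dedekindPsi N : ℤ) + 1 - (g : ℤ) ≤
          (finrank Ω ↥(polePlaceLat (k := Ω) (jBar N) m) : ℤ) ∧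
        (2 * (g : ℤ) - 1 ≤ m * (dedekindPsi N : ℤ) →
          (finrank Ω ↥(polePlaceLat (k := Ω) (jBar N) m) : ℤ) =
            m * (dedekindPsi N : ℤ) + 1 - (g : ℤ)) := by
  haveI : CharZero Ω := algebraRat.charZero Ω
  haveI : HasCanonicalDivisor (K := Ω) (F := ↥(modularFunctionFieldBar N)) :=
    (jCoordBar N).hasCanonicalDivisor
  obtain ⟨h1, h2, -, h4⟩ := coord_genus_riemannRoch_pole (jCoordBar N)
  refine ⟨genus Ω ↥(modularFunctionFieldBar N), Fermat.Agent.S24.result N, h1, h2, fun m => ?_⟩
  have := h4 m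
  rwa [jCoordBar_x, jCoordBar_degree] at this

end Modular

end Fermat.Agent.ML
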