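/-
PROJECT ML (S59) — helper8 — **[MASS]: closure properties of pole sections** (`FG.IsPoleSection`,
integrality currency): sums, constant multiples, monotonicity in the order, and the passage from
the coordinate `x ^ q` to the coordinate `x`.
-/
import Mathlib
import Fermat.Agent.FG.COH_helper8_Sect

set_option autoImplicit false
set_option linter.unusedSectionVars false
set_option linter.style.haveILetI false

namespace Fermat.Agent.ML

open Polynomial Fermat.Agent.FG

section Closure

variable {k F : Type*} [Field k] [Field F] [Algebra k F] {x : F} {m : ℕ}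

theorem isPoleSection_zero : IsPoleSection k x m (0 : F) := by
  refine ⟨RingHom.isIntegralElem_zero _, ?_⟩
  rw [mul_zero]
  exact RingHom.isIntegralElem_zero _

theorem isIntegralElem_aeval_algebraMap (y : F) (a : k) :
    (aeval (R := k) y).toRingHom.IsIntegralElem (algebraMap k F a) := by
  have : algebraMap k F a = (aeval (R := k) y).toRingHom (C a) := by simp
  rw [this]
  exact RingHom.isIntegralElem_map _

theorem isIntegralElem_aeval_self (y : F) :
    (aeval (R := k) y).toRingHom.IsIntegralElem y := by
  have : y = (aeval (R := k) y).toRingHom X := by simp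
  conv_rhs => rw [this]
  exact RingHom.isIntegralElem_map _

theorem IsPoleSection.add' {f g : F} (hf : IsPoleSection k x m f) (hg : IsPoleSection k x m g) :
    IsPoleSection k x m (f + g) := by
  refine ⟨RingHom.IsIntegralElem.add _ hf.1 hg.1, ?_⟩
  rw [mul_add]
  exact RingHom.IsIntegralElem.add _ hf.2 hg.2

theorem IsPoleSection.const_mul' {f : F} (a : k) (hf : IsPoleSection k x m f) :
    IsPoleSection k x m (algebraMap k F a * f) := by
  refine ⟨RingHom.IsIntegralElem.mul _ (isIntegralElem_aeval_algebraMap x a) hf.1, ?_⟩
  rw [mul_left_comm]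
  exact RingHom.IsIntegralElem.mul _ (isIntegralElem_aeval_algebraMap x⁻¹ a) hf.2

theorem IsPoleSection.sum' {ι : Type*} (s : Finset ι) (f : ι → F)
    (h : ∀ i ∈ s, IsPoleSection k x m (f i)) : IsPoleSection k x m (∑ i ∈ s, f i) := by
  classical
  induction s using Finset.induction_on with
  | empty => rw [Finset.sum_empty]; exact isPoleSection_zero
  | insert i s hi ih =>
    rw [Finset.sum_insert hi]
    exact IsPoleSection.add' (h i (Finset.mem_insert_self i s))
      (ih fun j hj => h j (Finset.mem_insert_of_mem hj))

theorem IsPoleSection.mono' {m' : ℕ} {f : F} (hmm : m ≤ m') (hf : IsPoleSection k x m f) :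
    IsPoleSection k x m' f := by
  refine ⟨hf.1, ?_⟩
  obtain ⟨d, rfl⟩ := Nat.exists_eq_add_of_le hmm
  have e : x⁻¹ ^ (m + d) * f = x⁻¹ ^ d * (x⁻¹ ^ m * f) := by
    rw [pow_add]; ring
  rw [e]
  refine RingHom.IsIntegralElem.mul _ ?_ hf.2
  have h1 := isIntegralElem_aeval_self (k := k) x⁻¹
  have key : ∀ d : ℕ, (aeval (R := k) x⁻¹).toRingHom.IsIntegralElem (x⁻¹ ^ d) := by
    intro d
    induction d with
    | zero => rw [pow_zero]; exact RingHom.isIntegralElem_one _
    | succ d ih =>
      rw [pow_succ]
      exact RingHom.IsIntegralElem.mul _ ih h1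
  exact key d

/-- integrality over `k[y ^ q]` implies integrality over `k[y]`. -/
theorem isIntegralElem_aeval_of_pow (y : F) (q : ℕ) {f : F}
    (hf : (aeval (R := k) (y ^ q)).toRingHom.IsIntegralElem f) :
    (aeval (R := k) y).toRingHom.IsIntegralElem f := by
  have h2 : (aeval (R := k) (y ^ q)).toRingHom =
      (aeval (R := k) y).toRingHom.comp ((expand k q : k[X] →ₐ[k] k[X]) : k[X] →+* k[X]) := by
    apply Polynomial.ringHom_ext
    · intro a
      simp
    · simp
  rw [h2] at hf
  exact hf.of_comp

/-- a pole section of order `n` with respect to `x ^ q` is a pole section of order `q n` with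
respect to `x`. -/
theorem IsPoleSection.of_pow' {q n : ℕ} {f : F} (hf : IsPoleSection k (x ^ q) n f) :
    IsPoleSection k x (q * n) f := by
  refine ⟨isIntegralElem_aeval_of_pow x q hf.1, ?_⟩
  have h2 := hf.2
  rw [← inv_pow] at h2
  have h3 := isIntegralElem_aeval_of_pow x⁻¹ q h2
  rwa [← pow_mul] at h3

end Closure

end Fermat.Agent.ML
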