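/-
PROJECT ML (S59) — helper8 — **[MASS], input (C): the lower bound over a base.**

For a base `K₁ ⊆ ℚ̄` (any intermediate field containing `flatBase q`) the space of pole sections of
`O(n (j)_∞)` on `X₀(N)` over `K₁` contains at least `n ψ(N) + 1 − g(X₀(N))` linearly independent
elements: Riemann's inequality over `ℚ̄` (S24 for the genus) and Galois descent of the
finite-dimensional space `L(n (j)_∞)` (stable under the coefficientwise action of
`Gal(ℚ̄ / K₁)`).
-/
import Mathlib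
import Fermat.Agent.ML.MASS_helper8_GalDesc
import Fermat.Agent.ML.MASS_helper8_Genus
import Fermat.Agent.ML.MASS_helper8_Sect
import Fermat.Agent.MP.KPDESC_helper2_Field
import Fermat.Agent.JA.BCD_helper9_HostRat

set_option autoImplicit false
set_option linter.unusedSectionVars false
set_option linter.unusedVariables false
set_option linter.style.haveILetI false
set_option synthInstance.maxHeartbeats 400000

open HahnSeries IntermediateField AlgebraicCurve ModularCurve Polynomial Module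

namespace Fermat.Agent.ML

open Fermat.Agent.JA Fermat.Agent.Igusa Fermat.Agent.SS Fermat.Agent.FF Fermat.Agent.FG
  Fermat.Agent.MP Fermat.Agent.X0N Fermat.Agent.S35
open scoped Fermat.Agent.JA.Host

/-- `Ω = AlgebraicClosure ℚ`. -/
local notation "Ω" => AlgebraicClosure ℚ

/-- the absolute Galois group. -/
local notation "GQ" => (AlgebraicClosure ℚ ≃ₐ[ℚ] AlgebraicClosure ℚ)

section Integral

attribute [local instance] Polynomial.algebra

/-- **descent of integrality along an algebraic extension of the constants.** -/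
theorem isIntegralElem_aeval_of_map_algebraic {k k' F F' : Type*} [Field k] [Field k'] [Field F]
    [Field F'] [Algebra k F] [Algebra k' F'] [Algebra k k'] [Algebra.IsAlgebraic k k']
    (ψ : F →+* F') (hψ : ∀ a, ψ (algebraMap k F a) = algebraMap k' F' (algebraMap k k' a))
    (y g : F) (h : (aeval (R := k') (ψ y)).toRingHom.IsIntegralElem (ψ g)) :
    (aeval (R := k) y).toRingHom.IsIntegralElem g := by
  haveI hint : Algebra.IsIntegral k[X] k'[X] :=
    ⟨fun f => Polynomial.isIntegral_iff_isIntegral_coeff.mpr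
      (fun n => Algebra.IsIntegral.isIntegral _)⟩
  have h2 : ψ.comp (aeval (R := k) y).toRingHom =
      ((aeval (R := k') (ψ y)).toRingHom).comp (Polynomial.mapRingHom (algebraMap k k')) := by
    apply Polynomial.ringHom_ext
    · intro a
      simp [hψ]
    · simp
  apply RingHom.IsIntegralElem.of_map ψ.injective
  rw [h2]
  letI : Algebra k'[X] F' := (aeval (R := k') (ψ y)).toRingHom.toAlgebra
  letI : Algebra k[X] F' :=
    (((aeval (R := k') (ψ y)).toRingHom).comp (Polynomial.mapRingHom (algebraMap k k'))).toAlgebra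
  haveI : IsScalarTower k[X] k'[X] F' := IsScalarTower.of_algebraMap_eq (fun x => rfl)
  exact isIntegral_trans (R := k[X]) (A := k'[X]) (ψ g) h

/-- descent of pole sections along an algebraic extension of the constants. -/
theorem isPoleSection_of_map_algebraic {k k' F F' : Type*} [Field k] [Field k'] [Field F]
    [Field F'] [Algebra k F] [Algebra k' F'] [Algebra k k'] [Algebra.IsAlgebraic k k']
    (ψ : F →+* F') (hψ : ∀ a, ψ (algebraMap k F a) = algebraMap k' F' (algebraMap k k' a))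
    {y g : F} {n : ℕ} (h : IsPoleSection k' (ψ y) n (ψ g)) : IsPoleSection k y n g := by
  refine ⟨isIntegralElem_aeval_of_map_algebraic ψ hψ y g h.1, ?_⟩
  apply isIntegralElem_aeval_of_map_algebraic ψ hψ y⁻¹ _
  have := h.2
  rwa [map_mul, map_pow, map_inv₀]

end Integral

section Sigma

variable (N : ℕ) [NeZero N]

/-- the coefficientwise action of a ring endomorphism of `Ω` on the level field. -/
noncomputable def keyFqSigma (σ : Ω →+* Ω) : ↥(keyFq Ω N) →+* ↥(keyFq Ω N) :=
  coeffHom σ (keyFq Ω N) (keyFq Ω N) (fun _ hx => coeffMap_hom_mem_laurentBaseChange σ _ hx)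

theorem coe_keyFqSigma (σ : Ω →+* Ω) (f : ↥(keyFq Ω N)) :
    ((keyFqSigma N σ f : ↥(keyFq Ω N)) : LaurentSeries Ω) = coeffMap σ (f : LaurentSeries Ω) := rfl

theorem keyFqSigma_algebraMap (σ : Ω →+* Ω) (a : Ω) :
    keyFqSigma N σ (algebraMap Ω ↥(keyFq Ω N) a) = algebraMap Ω ↥(keyFq Ω N) (σ a) :=
  coeffHom_algebraMap _ _ _ _ a

theorem keyFqSigma_jBar (σ : Ω →+* Ω) : keyFqSigma N σ (jBar N) = jBar N :=
  Subtype.ext (coeffMap_coeffEmb_hom σ jq)

/-- the coefficients of a function of the level field. -/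
noncomputable def keyFqCoeff : ↥(keyFq Ω N) →ₗ[Ω] (ℤ → Ω) where
  toFun f := fun i => (f : LaurentSeries Ω).coeff i
  map_add' f g := by
    funext i
    show ((f + g : ↥(keyFq Ω N)) : LaurentSeries Ω).coeff i = _
    rw [IntermediateField.coe_add, HahnSeries.coeff_add]
    rfl
  map_smul' a f := by
    funext i
    show ((a • f : ↥(keyFq Ω N)) : LaurentSeries Ω).coeff i = a * (f : LaurentSeries Ω).coeff i
    rw [Algebra.smul_def, IntermediateField.coe_mul]
    have : ((algebraMap Ω ↥(keyFq Ω N) a : ↥(keyFq Ω N)) : LaurentSeries Ω) =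
        algebraMap Ω (LaurentSeries Ω) a := rfl
    rw [this, ModularCurve.algebraMap_laurentSeries_eq_single, HahnSeries.coeff_single_zero_mul]

theorem keyFqCoeff_apply (f : ↥(keyFq Ω N)) (i : ℤ) :
    keyFqCoeff N f i = (f : LaurentSeries Ω).coeff i := rfl

theorem keyFqCoeff_injective : Function.Injective (keyFqCoeff N) := by
  intro f g h
  apply Subtype.ext
  apply HahnSeries.ext
  funext i
  exact congrFun h i

theorem keyFqCoeff_keyFqSigma (σ : Ω →+* Ω) (f : ↥(keyFq Ω N)) (i : ℤ) :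
    keyFqCoeff N (keyFqSigma N σ f) i = σ (keyFqCoeff N f i) := by
  rw [keyFqCoeff_apply, coe_keyFqSigma]
  rfl

end Sigma

section Desc

variable {q : ℕ} (N : ℕ) [NeZero N] {K₁ : IntermediateField ℚ Ω}

/-- **a function of the level field over `Ω` whose coefficients are fixed by `Gal(Ω / K₁)` is
defined over `K₁`.** -/
theorem exists_keyFqBC_eq_of_fixed (hK₁ : flatBase q ≤ K₁) (f : ↥(keyFq Ω N))
    (hfix : ∀ τ : GQ, (∀ c ∈ K₁, τ c = c) → ∀ i : ℤ,
      τ ((f : LaurentSeries Ω).coeff i) = (f : LaurentSeries Ω).coeff i) :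
    ∃ f₀ : ↥(keyFq ↥K₁ N), keyFqBC N K₁ f₀ = f := by
  set H : Set GQ := {τ | ∀ c ∈ K₁, τ c = c} with hH
  have hHflat : ∀ σ ∈ H, ∀ a ∈ flatBase q, σ a = a := fun σ hσ a ha => hσ a (hK₁ ha)
  have hHfix : ∀ σ ∈ H, coeffMap ((σ : GQ) : Ω →+* Ω) (f : LaurentSeries Ω) =
      (f : LaurentSeries Ω) := by
    intro σ hσ
    apply HahnSeries.ext
    funext i
    exact hfix σ hσ i
  obtain ⟨s, hsfix, hsdesc⟩ :=
    exists_descent_finset_of_fixing q (modularFunctionFieldFull N) f.2 H hHflat hHfix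
  obtain ⟨f₀, hf₀, h⟩ := hsdesc K₁ hK₁ fun y hy => by
    have h1 : y ∈ Set.range (algebraMap ↥K₁ Ω) := by
      rw [InfiniteGalois.mem_range_algebraMap_iff_fixed]
      intro σ
      exact hsfix y hy (σ.restrictScalars ℚ) (fun c hc => σ.commutes ⟨c, hc⟩)
    obtain ⟨z, rfl⟩ := h1
    exact z.2
  refine ⟨⟨f₀, hf₀⟩, Subtype.ext ?_⟩
  rw [coe_keyFqBC]
  exact h

theorem keyFqBC_jGen : keyFqBC N K₁ (jGen ↥K₁ N) = jBar N :=
  Subtype.ext (coeffMap_coeffEmb_hom (algebraMap ↥K₁ Ω) jq)

theorem isSeparable_jCoordBar :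
    Algebra.IsSeparable ↥Ω⟮(jCoordBar N).x⟯ ↥(modularFunctionFieldBar N) := by
  haveI := (jCoordBar N).fin
  haveI : CharZero Ω := algebraRat.charZero Ω
  haveI : CharZero ↥Ω⟮(jCoordBar N).x⟯ :=
    charZero_of_injective_algebraMap (algebraMap Ω ↥Ω⟮(jCoordBar N).x⟯).injective
  exact inferInstance

set_option maxHeartbeats 1600000 in
/-- **the lower bound over a base.** -/
theorem exists_independent_poleSections (hK₁ : flatBase q ≤ K₁) :
    ∃ g₁ : ℕ, (g₁ : ℚ) = genusFormula N ∧ ∀ n : ℕ,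
      ∃ (m : ℕ) (v : Fin m → ↥(keyFq ↥K₁ N)), LinearIndependent ↥K₁ v ∧
        (∀ i, IsPoleSection ↥K₁ (jGen ↥K₁ N) n (v i)) ∧
        (n : ℤ) * (dedekindPsi N : ℤ) + 1 - (g₁ : ℤ) ≤ (m : ℤ) := by
  classical
  haveI : IsAlgClosed Ω := inferInstance
  obtain ⟨g₁, hg₁, -, -, hRR⟩ := modularBar_riemannRoch_pole N
  refine ⟨g₁, hg₁, fun n => ?_⟩
  obtain ⟨hfin, hge, -⟩ := hRR (n : ℤ)
  haveI := hfin
  have hsep := isSeparable_jCoordBar N
  set VF : Submodule Ω ↥(keyFq Ω N) := polePlaceLat (k := Ω) (jBar N) (n : ℤ) with hVF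
  set V : Submodule Ω (ℤ → Ω) := VF.map (keyFqCoeff N) with hVdef
  haveI : FiniteDimensional Ω ↥V := inferInstance
  have hVrk : finrank Ω ↥V = finrank Ω ↥VF :=
    (Submodule.equivMapOfInjective _ (keyFqCoeff_injective N) VF).finrank_eq.symm
  set S : Set (Ω →+* Ω) := {σ | ∃ τ : GQ, (∀ c ∈ K₁, τ c = c) ∧ σ = ((τ : GQ) : Ω →+* Ω)}
    with hS
  have hV : ∀ σ ∈ S, ∀ v ∈ V, (fun i => σ (v i)) ∈ V := by
    rintro σ ⟨τ, hτ, rfl⟩ v ⟨f, hf, rfl⟩
    refine ⟨keyFqSigma N ((τ : GQ) : Ω →+* Ω) f, ?_,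
      funext (fun i => keyFqCoeff_keyFqSigma N _ f i)⟩
    have h1 : IsPoleSection Ω (jCoordBar N).x n f :=
      isPoleSection_of_mem_polePlaceLat (jCoordBar N) hsep hf
    have h2 := h1.map ((τ : GQ) : Ω →+* Ω) (keyFqSigma N ((τ : GQ) : Ω →+* Ω))
      (keyFqSigma_algebraMap N _)
    rw [jCoordBar_x, keyFqSigma_jBar] at h2
    exact h2.mem_polePlaceLat
  obtain ⟨e, heV, hind, hfixd⟩ := exists_fixed_basis S V hV
  choose f hfV hfe using heV
  have hdesc : ∀ t, ∃ f₀ : ↥(keyFq ↥K₁ N), keyFqBC N K₁ f₀ = f t := fun t =>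
    exists_keyFqBC_eq_of_fixed N hK₁ (f t) (fun τ hτ i => by
      have := hfixd t ((τ : GQ) : Ω →+* Ω) ⟨τ, hτ, rfl⟩ i
      rw [← hfe t] at this
      exact this)
  choose f₀ hf₀ using hdesc
  refine ⟨finrank Ω ↥V, f₀, ?_, fun t => ?_, ?_⟩
  · rw [Fintype.linearIndependent_iff]
    intro a ha t
    have h1 := congrArg (keyFqBC N K₁) ha
    rw [map_sum, map_zero] at h1
    simp only [Algebra.smul_def, map_mul, keyFqBC_algebraMap, hf₀] at h1
    have h2 := congrArg (keyFqCoeff N) h1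
    rw [map_sum, map_zero] at h2
    simp only [← Algebra.smul_def, map_smul, hfe] at h2
    have h3 := Fintype.linearIndependent_iff.mp hind _ h2 t
    exact (map_eq_zero_iff (algebraMap ↥K₁ Ω) (algebraMap ↥K₁ Ω).injective).mp h3
  · apply isPoleSection_of_map_algebraic (keyFqBC N K₁) (keyFqBC_algebraMap N K₁)
    rw [hf₀, keyFqBC_jGen]
    have := isPoleSection_of_mem_polePlaceLat (jCoordBar N) hsep (hfV t)
    rwa [jCoordBar_x] at this
  · rw [hVrk]
    exact hge

end Desc

end Fermat.Agent.ML
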