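/-
PROJECT ML (S59) — helper8 — **[MASS]: the two reduction maps of a two-sheet chart** (abstract, in the
setting of helper7's `SSModel`).

Given a reduction map `ρ : V_M → F̄` of the level of good reduction (kernel ⊇ the maximal ideal),
the sheets `W_∞`, `W_0` of residue degree one carry reduction maps `massRedInf`, `massRedZero`
(my `MP.resLift` along `A`, `B`); on the chart `B = chartOne R E_N j`:

* `massChInf`, `massChZero` : the two reductions `B → F̄`, kernels the sheet ideals;
* `massCh_sat` : an element of the chart reducing to `0` on both sheets is divisible by `π`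
  (two-sheet Hartogs);
* the reductions of the coordinate: `j ↦ j̄` on `W_∞`, `j ↦ j̄ ^ q` on `W_0` (Kronecker);
* `isPoleSection_massCh` : a chart element `b` with `j⁻ⁿ b` in the chart at infinity reduces to
  pole sections of order `n` with respect to `j̄` resp. `j̄ ^ q`;
* the node facts needed by `massCount`.
-/
import Mathlib
import Fermat.Agent.S35.NODECOUNT_helper2_Main
import Fermat.Agent.SS.HART_helper4
import Fermat.Agent.MP.REDINF_helper8_Lift
import Fermat.Agent.FG.COH_helper8_Transfer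
import Fermat.Agent.ML.MASS_helper8_Sect

set_option autoImplicit false
set_option linter.unusedSectionVars false
set_option linter.unusedVariables false
set_option linter.style.haveILetI false
set_option synthInstance.maxHeartbeats 400000

namespace Fermat.Agent.ML

open Fermat.Agent.JA Fermat.Agent.SS Fermat.Agent.S35 Fermat.Agent.MP Fermat.Agent.FG Polynomial
  IsLocalRing

noncomputable section

section Transport

/-- integrality over `R[y]` inside a valuation subring is transported by a reduction map. -/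
theorem isIntegralElem_aeval_map_valuationSubring {R E : Type*} [CommRing R] [Field E]
    [Algebra R E] (W : ValuationSubring E) (hR : ∀ r, algebraMap R E r ∈ W)
    {k Fb : Type*} [Field k] [Field Fb] [Algebra k Fb] (ρ : ↥W →+* Fb) (res : R →+* k)
    (hρ : ∀ r, ρ ⟨algebraMap R E r, hR r⟩ = algebraMap k Fb (res r)) (y g : E) (hy : y ∈ W)
    (hg : g ∈ W) (h : (aeval (R := R) y).toRingHom.IsIntegralElem g) :
    (aeval (R := k) (ρ ⟨y, hy⟩)).toRingHom.IsIntegralElem (ρ ⟨g, hg⟩) := by
  obtain ⟨p, hp, hpe⟩ := h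
  let cR : R →+* ↥W := (algebraMap R E).codRestrict W.toSubring hR
  let φW : R[X] →+* ↥W := eval₂RingHom cR ⟨y, hy⟩
  have hφ : W.subtype.comp φW = (aeval (R := R) y).toRingHom := by
    apply Polynomial.ringHom_ext
    · intro a
      simp [φW, cR]
    · simp [φW]
  have h1 : φW.IsIntegralElem ⟨g, hg⟩ := by
    refine ⟨p, hp, ?_⟩
    apply W.subtype_injective
    rw [map_zero, Polynomial.hom_eval₂, hφ]
    exact hpe
  have h2 := h1.map ρ
  have h3 : ρ.comp φW = (aeval (R := k) (ρ ⟨y, hy⟩)).toRingHom.comp (mapRingHom res) := by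
    apply Polynomial.ringHom_ext
    · intro a
      have : φW (C a) = ⟨algebraMap R E a, hR a⟩ := by simp [φW, cR]; rfl
      simp only [RingHom.comp_apply, this, hρ]
      simp
    · simp [φW]
  rw [h3] at h2
  exact h2.of_comp

end Transport

section Model

variable {R : Type*} [CommRing R] [IsDomain R] [IsDiscreteValuationRing R] [CharZero R]
  {K₁ : Type*} [Field K₁] [Algebra R K₁] [IsFractionRing R K₁]
  {KM : Type*} [Field KM] [Algebra K₁ KM] [Algebra R KM] [IsScalarTower R K₁ KM]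
  {EM : Type*} [Field EM] [Algebra KM EM] [Algebra K₁ EM] [IsScalarTower K₁ KM EM] [Algebra R EM]
  [IsScalarTower R KM EM]
  {KN : Type*} [Field KN] [Algebra K₁ KN] [Algebra R KN] [IsScalarTower R K₁ KN]
  {EN : Type*} [Field EN] [Algebra KN EN] [Algebra K₁ EN] [IsScalarTower K₁ KN EN] [Algebra R EN]
  [IsScalarTower R KN EN] [FiniteDimensional KN EN]
  {π : R} {q n : ℕ} {S : Finset R} {t : KM} {jM : EM} {j : KN} {A B : EM →+* EN}
  {VM : ValuationSubring EM} {Winf W0 : ValuationSubring EN}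
  {k : Type*} [Field k] {Fb : Type*} [Field Fb] [Algebra k Fb]
  (h : SSModel K₁ π q n S t jM j A B VM Winf W0)
  (ρ : ↥VM →+* Fb) (hρ : ∀ a : ↥VM, VM.valuation (a : EM) < 1 → ρ a = 0)

/-- the reduction map of the sheet `W_∞`. -/
def massRedInf : ↥Winf →+* Fb := resLift VM Winf A h.comap_A_inf h.res_inf ρ hρ

/-- the reduction map of the sheet `W_0`. -/
def massRedZero : ↥W0 →+* Fb := resLift VM W0 B h.comap_B_zero h.res_zero ρ hρ

/-- the chart inside `W_∞`. -/
def chartToInf : ↥(chartOne R EN j) →+* ↥Winf :=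
  (algebraMap ↥(chartOne R EN j) EN).codRestrict Winf.toSubring
    (fun b => h.two.chart_le_inf b b.2)

/-- the chart inside `W_0`. -/
def chartToZero : ↥(chartOne R EN j) →+* ↥W0 :=
  (algebraMap ↥(chartOne R EN j) EN).codRestrict W0.toSubring
    (fun b => h.two.chart_le_zero b b.2)

/-- the reduction of the chart along `W_∞`. -/
def massChInf : ↥(chartOne R EN j) →+* Fb := (massRedInf h ρ hρ).comp (chartToInf h)

/-- the reduction of the chart along `W_0`. -/
def massChZero : ↥(chartOne R EN j) →+* Fb := (massRedZero h ρ hρ).comp (chartToZero h)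

theorem massChInf_apply (b : ↥(chartOne R EN j)) :
    massChInf h ρ hρ b = massRedInf h ρ hρ ⟨(b : EN), h.two.chart_le_inf b b.2⟩ := rfl

theorem massChZero_apply (b : ↥(chartOne R EN j)) :
    massChZero h ρ hρ b = massRedZero h ρ hρ ⟨(b : EN), h.two.chart_le_zero b b.2⟩ := rfl

theorem massRedInf_eq_zero_iff (x : ↥Winf) :
    massRedInf h ρ hρ x = 0 ↔ Winf.valuation (x : EN) < 1 :=
  resLift_eq_zero_iff _ _ _ _ _ _ _ x

theorem massRedZero_eq_zero_iff (x : ↥W0) :
    massRedZero h ρ hρ x = 0 ↔ W0.valuation (x : EN) < 1 :=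
  resLift_eq_zero_iff _ _ _ _ _ _ _ x

theorem massChInf_eq_zero_iff (b : ↥(chartOne R EN j)) :
    massChInf h ρ hρ b = 0 ↔ Winf.valuation (b : EN) < 1 :=
  massRedInf_eq_zero_iff h ρ hρ _

theorem massChZero_eq_zero_iff (b : ↥(chartOne R EN j)) :
    massChZero h ρ hρ b = 0 ↔ W0.valuation (b : EN) < 1 :=
  massRedZero_eq_zero_iff h ρ hρ _

theorem massRedInf_A (a : EM) (ha : a ∈ VM) (ha' : A a ∈ Winf) :
    massRedInf h ρ hρ ⟨A a, ha'⟩ = ρ ⟨a, ha⟩ :=
  resLift_apply_P _ _ _ _ _ _ _ a ha ha'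

theorem massRedZero_B (a : EM) (ha : a ∈ VM) (ha' : B a ∈ W0) :
    massRedZero h ρ hρ ⟨B a, ha'⟩ = ρ ⟨a, ha⟩ :=
  resLift_apply_P _ _ _ _ _ _ _ a ha ha'

theorem massRedInf_eq_of_congr (x : ↥Winf) (a : EM) (ha : a ∈ VM)
    (hx : Winf.valuation ((x : EN) - A a) < 1) : massRedInf h ρ hρ x = ρ ⟨a, ha⟩ :=
  resLift_eq_of_congr _ _ _ _ _ _ _ x a ha hx

theorem massRedZero_eq_of_congr (x : ↥W0) (a : EM) (ha : a ∈ VM)
    (hx : W0.valuation ((x : EN) - B a) < 1) : massRedZero h ρ hρ x = ρ ⟨a, ha⟩ :=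
  resLift_eq_of_congr _ _ _ _ _ _ _ x a ha hx

/-- the constants lie in `V_M`. -/
theorem massModel_algebraMap_mem_VM (h : SSModel K₁ π q n S t jM j A B VM Winf W0) (r : R) :
    algebraMap R EM r ∈ VM := by
  rw [← h.comap_A_inf]
  show A (algebraMap R EM r) ∈ Winf
  rw [h.A_algebraMap]
  exact h.two.chart_le_inf _ (Subalgebra.algebraMap_mem _ r)

theorem massModel_algebraMap_mem_inf (h : SSModel K₁ π q n S t jM j A B VM Winf W0) (r : R) :
    algebraMap R EN r ∈ Winf :=
  h.two.chart_le_inf _ (Subalgebra.algebraMap_mem _ r)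

theorem massModel_algebraMap_mem_zero (h : SSModel K₁ π q n S t jM j A B VM Winf W0) (r : R) :
    algebraMap R EN r ∈ W0 :=
  h.two.chart_le_zero _ (Subalgebra.algebraMap_mem _ r)

variable (res : R →+* k)
  (hρR : ∀ r : R, ρ ⟨algebraMap R EM r, massModel_algebraMap_mem_VM h r⟩ = algebraMap k Fb (res r))

include hρR in
theorem massRedInf_algebraMap (r : R) :
    massRedInf h ρ hρ ⟨algebraMap R EN r, massModel_algebraMap_mem_inf h r⟩ = algebraMap k Fb (res r) := by
  rw [← hρR r]
  apply massRedInf_eq_of_congr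
  show Winf.valuation (algebraMap R EN r - A (algebraMap R EM r)) < 1
  rw [h.A_algebraMap, sub_self, map_zero]
  exact zero_lt_one

include hρR in
theorem massRedZero_algebraMap (r : R) :
    massRedZero h ρ hρ ⟨algebraMap R EN r, massModel_algebraMap_mem_zero h r⟩ = algebraMap k Fb (res r) := by
  rw [← hρR r]
  apply massRedZero_eq_of_congr
  show W0.valuation (algebraMap R EN r - B (algebraMap R EM r)) < 1
  rw [h.B_algebraMap, sub_self, map_zero]
  exact zero_lt_one

include hρR in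
theorem massChInf_algebraMap (r : R) :
    massChInf h ρ hρ (algebraMap R ↥(chartOne R EN j) r) = algebraMap k Fb (res r) :=
  massRedInf_algebraMap h ρ hρ res hρR r

include hρR in
theorem massChZero_algebraMap (r : R) :
    massChZero h ρ hρ (algebraMap R ↥(chartOne R EN j) r) = algebraMap k Fb (res r) :=
  massRedZero_algebraMap h ρ hρ res hρR r

/-- the coordinate `j` lies in both sheets. -/
theorem massModel_coord_mem_inf (h : SSModel K₁ π q n S t jM j A B VM Winf W0) :
    algebraMap KN EN j ∈ Winf :=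
  h.two.chart_le_inf _ (algebraMap_coord_mem_chartOne j)

theorem massModel_coord_mem_zero (h : SSModel K₁ π q n S t jM j A B VM Winf W0) :
    algebraMap KN EN j ∈ W0 :=
  h.two.chart_le_zero _ (algebraMap_coord_mem_chartOne j)

/-- the reduction of the coordinate along `W_∞`. -/
theorem massRedInf_coord :
    massRedInf h ρ hρ ⟨algebraMap KN EN j, massModel_coord_mem_inf h⟩ = ρ ⟨jM, h.jM_mem⟩ := by
  apply massRedInf_eq_of_congr
  show Winf.valuation (algebraMap KN EN j - A jM) < 1
  rw [h.A_j, sub_self, map_zero]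
  exact zero_lt_one

/-- the reduction of the coordinate along `W_0` (Kronecker). -/
theorem massRedZero_coord :
    massRedZero h ρ hρ ⟨algebraMap KN EN j, massModel_coord_mem_zero h⟩ = ρ ⟨jM, h.jM_mem⟩ ^ q := by
  have hB : B jM ∈ W0 := h.jq_mem_zero
  have h1 : massRedZero h ρ hρ ⟨B jM, hB⟩ = ρ ⟨jM, h.jM_mem⟩ := massRedZero_B h ρ hρ jM h.jM_mem hB
  rw [← h1, ← map_pow]
  rw [← sub_eq_zero, ← map_sub, massRedZero_eq_zero_iff]
  show W0.valuation (algebraMap KN EN j - B jM ^ q) < 1
  rw [← h.A_j]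
  exact h.kron_j_zero

/-- **saturation**: an element of the chart reducing to `0` on both sheets is divisible by `π`. -/
theorem massCh_sat (hπ : Irreducible π) (b : ↥(chartOne R EN j)) (h1 : massChInf h ρ hρ b = 0)
    (h2 : massChZero h ρ hρ b = 0) :
    ∃ b' : ↥(chartOne R EN j), b = algebraMap R ↥(chartOne R EN j) π * b' := by
  have hπE : algebraMap R EN π ≠ 0 := algebraMap_pi_ne_zero (K₁ := K₁) (K := KN) hπ
  have hv1 := (massChInf_eq_zero_iff h ρ hρ b).1 h1
  have hv2 := (massChZero_eq_zero_iff h ρ hρ b).1 h2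
  have hx : (b : EN) * (algebraMap R EN π)⁻¹ ∈ chartOne R EN j := by
    refine h.two.mem_chartOne_of_forall hπ h.j_transcendental h.j_adjoin _
      (h.two.e_inf _ hv1) (h.two.e_zero _ hv2) (fun V hπV hV => ?_)
    exact mul_mem (hV _ b.2) hπV
  refine ⟨⟨_, hx⟩, Subtype.ext ?_⟩
  show (b : EN) = algebraMap R EN π * ((b : EN) * (algebraMap R EN π)⁻¹)
  rw [mul_comm (b : EN), ← mul_assoc, mul_inv_cancel₀ hπE, one_mul]

/-- the kernel of the reduction along `W_∞` lies in every node. -/
theorem mem_of_isNode_of_massChInf_eq_zero {𝔫 : Ideal ↥(chartOne R EN j)} (h𝔫 : IsNode h.two 𝔫)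
    (b : ↥(chartOne R EN j)) (hb : massChInf h ρ hρ b = 0) : b ∈ 𝔫 :=
  h𝔫.2.1 ((mem_sheetIdeal_iff j Winf h.two.chart_le_inf b).2
    ((massChInf_eq_zero_iff h ρ hρ b).1 hb))

/-- the kernel of the reduction along `W_0` lies in every node. -/
theorem mem_of_isNode_of_massChZero_eq_zero {𝔫 : Ideal ↥(chartOne R EN j)} (h𝔫 : IsNode h.two 𝔫)
    (b : ↥(chartOne R EN j)) (hb : massChZero h ρ hρ b = 0) : b ∈ 𝔫 :=
  h𝔫.2.2 ((mem_sheetIdeal_iff j W0 h.two.chart_le_zero b).2
    ((massChZero_eq_zero_iff h ρ hρ b).1 hb))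

/-- a constant lying in a proper ideal of the chart is divisible by `π`. -/
theorem dvd_of_algebraMap_mem_of_ne_top (hπ : Irreducible π) {𝔫 : Ideal ↥(chartOne R EN j)}
    (h𝔫 : 𝔫 ≠ ⊤) (r : R) (hr : algebraMap R ↥(chartOne R EN j) r ∈ 𝔫) : π ∣ r := by
  by_contra hnd
  have hmax : IsLocalRing.maximalIdeal R = Ideal.span {π} := hπ.maximalIdeal_eq
  have hunit : IsUnit r := by
    by_contra hnu
    have : r ∈ IsLocalRing.maximalIdeal R := (IsLocalRing.mem_maximalIdeal r).2 hnu
    rw [hmax, Ideal.mem_span_singleton] at this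
    exact hnd this
  exact h𝔫 (Ideal.eq_top_of_isUnit_mem _ hr (hunit.map _))

end Model

section Pole

variable {R : Type*} [CommRing R] {KN : Type*} [Field KN] [Algebra R KN]
  {EN : Type*} [Field EN] [Algebra KN EN] [Algebra R EN] [IsScalarTower R KN EN]
  {k : Type*} [Field k] {Fb : Type*} [Field Fb] [Algebra k Fb]

/-- **a chart element `b` with `j⁻ᵐ b` in the chart at infinity reduces to a pole section of
order `m`**, along any valuation subring containing both charts. -/
theorem isPoleSection_of_mem_charts (W : ValuationSubring EN) (red : ↥W →+* Fb) (res : R →+* k)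
    (hRW : ∀ r, algebraMap R EN r ∈ W)
    (hred : ∀ r, red ⟨algebraMap R EN r, hRW r⟩ = algebraMap k Fb (res r))
    (j : KN) (hj0 : algebraMap KN EN j ≠ 0)
    (hj : algebraMap KN EN j ∈ W) (hjinv : (algebraMap KN EN j)⁻¹ ∈ W) (b : EN) (hbW : b ∈ W)
    (hb : b ∈ chartOne R EN j) (m : ℕ)
    (hb' : (algebraMap KN EN j)⁻¹ ^ m * b ∈ chartOne R EN j⁻¹) :
    IsPoleSection k (red ⟨algebraMap KN EN j, hj⟩) m (red ⟨b, hbW⟩) := by
  constructor
  · exact isIntegralElem_aeval_map_valuationSubring W hRW red res hred _ b hj hbW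
      (isIntegralElem_aeval_of_isIntegral_adjoin j ((mem_chartOne_iff j b).1 hb))
  · have h1 := isIntegralElem_aeval_of_isIntegral_adjoin j⁻¹ ((mem_chartOne_iff j⁻¹ _).1 hb')
    rw [map_inv₀] at h1
    have hcW : (algebraMap KN EN j)⁻¹ ^ m * b ∈ W := mul_mem (pow_mem hjinv m) hbW
    have h2 := isIntegralElem_aeval_map_valuationSubring W hRW red res hred _ _ hjinv hcW h1
    have e1 : red ⟨(algebraMap KN EN j)⁻¹, hjinv⟩ = (red ⟨algebraMap KN EN j, hj⟩)⁻¹ := by
      apply eq_inv_of_mul_eq_one_left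
      rw [← map_mul]
      have : (⟨(algebraMap KN EN j)⁻¹, hjinv⟩ * ⟨algebraMap KN EN j, hj⟩ : ↥W) = 1 :=
        Subtype.ext (inv_mul_cancel₀ hj0)
      rw [this, map_one]
    have e2 : (⟨(algebraMap KN EN j)⁻¹ ^ m * b, hcW⟩ : ↥W) =
        ⟨(algebraMap KN EN j)⁻¹, hjinv⟩ ^ m * ⟨b, hbW⟩ := Subtype.ext rfl
    rw [e2, map_mul, map_pow, e1] at h2
    exact h2

end Pole

section Model2

variable {R : Type*} [CommRing R] [IsDomain R] [IsDiscreteValuationRing R] [CharZero R]
  {K₁ : Type*} [Field K₁] [Algebra R K₁] [IsFractionRing R K₁]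
  {KM : Type*} [Field KM] [Algebra K₁ KM] [Algebra R KM] [IsScalarTower R K₁ KM]
  {EM : Type*} [Field EM] [Algebra KM EM] [Algebra K₁ EM] [IsScalarTower K₁ KM EM] [Algebra R EM]
  [IsScalarTower R KM EM]
  {KN : Type*} [Field KN] [Algebra K₁ KN] [Algebra R KN] [IsScalarTower R K₁ KN]
  {EN : Type*} [Field EN] [Algebra KN EN] [Algebra K₁ EN] [IsScalarTower K₁ KN EN] [Algebra R EN]
  [IsScalarTower R KN EN] [FiniteDimensional KN EN]
  {π : R} {q n : ℕ} {S : Finset R} {t : KM} {jM : EM} {j : KN} {A B : EM →+* EN}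
  {VM : ValuationSubring EM} {Winf W0 : ValuationSubring EN}
  {k : Type*} [Field k] {Fb : Type*} [Field Fb] [Algebra k Fb]
  (h : SSModel K₁ π q n S t jM j A B VM Winf W0)
  (ρ : ↥VM →+* Fb) (hρ : ∀ a : ↥VM, VM.valuation (a : EM) < 1 → ρ a = 0)
  (res : R →+* k)
  (hρR : ∀ r : R, ρ ⟨algebraMap R EM r, massModel_algebraMap_mem_VM h r⟩ = algebraMap k Fb (res r))

theorem massModel_coord_ne_zero (h : SSModel K₁ π q n S t jM j A B VM Winf W0) :
    algebraMap KN EN j ≠ 0 := by
  have hj0 : j ≠ 0 := by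
    intro h0
    exact h.j_transcendental (h0 ▸ isAlgebraic_zero)
  exact (_root_.map_ne_zero _).2 hj0

theorem massModel_coord_inv_mem_inf (h : SSModel K₁ π q n S t jM j A B VM Winf W0)
    (hπ : Irreducible π) : (algebraMap KN EN j)⁻¹ ∈ Winf := by
  rw [← map_inv₀]
  exact (h.two.inv hπ).chart_le_inf _ (algebraMap_coord_mem_chartOne j⁻¹)

theorem massModel_coord_inv_mem_zero (h : SSModel K₁ π q n S t jM j A B VM Winf W0)
    (hπ : Irreducible π) : (algebraMap KN EN j)⁻¹ ∈ W0 := by
  rw [← map_inv₀]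
  exact (h.two.inv hπ).chart_le_zero _ (algebraMap_coord_mem_chartOne j⁻¹)

include hρR in
/-- **pole sections along `W_∞`.** -/
theorem isPoleSection_massChInf (hπ : Irreducible π) (b : ↥(chartOne R EN j)) (m : ℕ)
    (hb : (algebraMap KN EN j)⁻¹ ^ m * (b : EN) ∈ chartOne R EN j⁻¹) :
    IsPoleSection k (ρ ⟨jM, h.jM_mem⟩) m (massChInf h ρ hρ b) := by
  have h1 := isPoleSection_of_mem_charts Winf (massRedInf h ρ hρ) res
    (massModel_algebraMap_mem_inf h) (massRedInf_algebraMap h ρ hρ res hρR) j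
    (massModel_coord_ne_zero h) (massModel_coord_mem_inf h) (massModel_coord_inv_mem_inf h hπ)
    (b : EN) (h.two.chart_le_inf _ b.2) b.2 m hb
  rw [massRedInf_coord] at h1
  exact h1

include hρR in
/-- **pole sections along `W_0`** (with respect to `j̄ ^ q`). -/
theorem isPoleSection_massChZero (hπ : Irreducible π) (b : ↥(chartOne R EN j)) (m : ℕ)
    (hb : (algebraMap KN EN j)⁻¹ ^ m * (b : EN) ∈ chartOne R EN j⁻¹) :
    IsPoleSection k (ρ ⟨jM, h.jM_mem⟩ ^ q) m (massChZero h ρ hρ b) := by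
  have h1 := isPoleSection_of_mem_charts W0 (massRedZero h ρ hρ) res
    (massModel_algebraMap_mem_zero h) (massRedZero_algebraMap h ρ hρ res hρR) j
    (massModel_coord_ne_zero h) (massModel_coord_mem_zero h) (massModel_coord_inv_mem_zero h hπ)
    (b : EN) (h.two.chart_le_zero _ b.2) b.2 m hb
  rw [massRedZero_coord] at h1
  exact h1

/-- **saturation at infinity**: if `π b` is a section of order `m` then so is `b`. -/
theorem massCh_inv_sat (h : SSModel K₁ π q n S t jM j A B VM Winf W0) (hπ : Irreducible π)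
    (m : ℕ) (b : ↥(chartOne R EN j))
    (hb : (algebraMap KN EN j)⁻¹ ^ m * (algebraMap R EN π * (b : EN)) ∈ chartOne R EN j⁻¹) :
    (algebraMap KN EN j)⁻¹ ^ m * (b : EN) ∈ chartOne R EN j⁻¹ := by
  have hπE : algebraMap R EN π ≠ 0 := algebraMap_pi_ne_zero (K₁ := K₁) (K := KN) hπ
  refine (h.two.inv hπ).mem_chartOne_of_forall hπ
    (transcendental_inv_of_transcendental h.j_transcendental) (adjoin_inv_eq_top h.j_adjoin) _
    (mul_mem (pow_mem (massModel_coord_inv_mem_inf h hπ) m) (h.two.chart_le_inf _ b.2))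
    (mul_mem (pow_mem (massModel_coord_inv_mem_zero h hπ) m) (h.two.chart_le_zero _ b.2))
    (fun V hπV hV => ?_)
  have h1 := hV _ hb
  have e : (algebraMap KN EN j)⁻¹ ^ m * (b : EN) =
      (algebraMap R EN π)⁻¹ * ((algebraMap KN EN j)⁻¹ ^ m * (algebraMap R EN π * (b : EN))) := by
    field_simp
  rw [e]
  exact mul_mem hπV h1

end Model2

end

end Fermat.Agent.ML
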