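/-
PROJECT ML (S59) — helper8 — **[MASS]: the lattice of sections on the chart of the Legendre host.**

`K = K₁ ⊆ Ω` a base, `R ⊂ K` a discrete valuation ring with `Frac R = K`, `N` a level, `B` the chart
`chartOne R (legE K N) j` of the Legendre host.  `massLat K₁ N n ⊆ B` is the `R`-module of the
elements of the chart coming from the level field `F_N = keyFq K N` whose pole order at infinity
(with respect to `j`, on the generic fibre) is at most `n`:

* `massLat_sat` : it is saturated (`π b ∈ Λ ⇒ b ∈ Λ`);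
* `exists_basis_massLat` : it is free of finite rank (the `q`-expansion principle: the coefficients
  of the elements of the chart lie in `R`, and finitely many coefficients separate the
  finite-dimensional space `L(n (j)_∞)` of the level field over `Ω`), of rank at least the number of
  any family of `K`-linearly independent pole sections of order `n` of `F_N` (clearing
  denominators).
-/
import Mathlib
import Fermat.Agent.ML.IFACE_helper3_Surj
import Fermat.Agent.S36.CUSPPT_helper1_Coeff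
import Fermat.Agent.ML.MASS_helper8_Lower
import Fermat.Agent.ML.MASS_helper8_Model

set_option autoImplicit false
set_option linter.unusedSectionVars false
set_option linter.unusedVariables false
set_option linter.style.haveILetI false
set_option synthInstance.maxHeartbeats 400000

open Polynomial ModularCurve IntermediateField AlgebraicCurve Module

namespace Fermat.Agent.ML

open Fermat.Agent.JA Fermat.Agent.FF Fermat.Agent.SS Fermat.Agent.S35 Fermat.Agent.MP
  Fermat.Agent.FG Fermat.Agent.X0N Fermat.Agent.Igusa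

open scoped Fermat.Agent.JA.Host

/-- `Ω = AlgebraicClosure ℚ`. -/
local notation "Ω" => AlgebraicClosure ℚ

noncomputable section

section Abstract

/-- a torsion-free module over a principal ideal domain embedded in `R ^ d` is free of finite
rank, and its rank bounds the size of every linearly independent family. -/
theorem exists_basis_of_injective_pi {R : Type*} [CommRing R] [IsDomain R]
    [IsPrincipalIdealRing R] {B : Type*} [AddCommGroup B] [Module R B] [IsTorsionFree R B]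
    (Λ : Submodule R B) {d : ℕ} (T : ↥Λ →ₗ[R] (Fin d → R)) (hT : Function.Injective T) :
    ∃ (r : ℕ) (e : Basis (Fin r) R ↥Λ), ∀ (m : ℕ) (v : Fin m → ↥Λ),
      LinearIndependent R v → m ≤ r := by
  haveI : Module.Finite R ↥Λ := Module.Finite.of_injective T hT
  haveI : IsTorsionFree R ↥Λ := inferInstance
  haveI : Module.Free R ↥Λ := Module.free_of_finite_type_torsion_free'
  refine ⟨finrank R ↥Λ, Module.finBasis R ↥Λ, fun m v hv => ?_⟩
  have := hv.fintype_card_le_finrank
  simpa using this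

end Abstract

section Lattice

variable {R : Type*} [CommRing R] [IsDomain R] [IsDiscreteValuationRing R]
  (K₁ : IntermediateField ℚ Ω) [Algebra R ↥K₁] [IsFractionRing R ↥K₁]
  (N : ℕ) [NeZero N]

/-- the coordinate `j` on the host is the image of the coordinate of the level field. -/
theorem fullToLegE_jGen_eq_algebraMap :
    (fullToLegE ↥K₁ N (jGen ↥K₁ N) : ↥(legE ↥K₁ N)) =
      algebraMap ↥(↥K₁)⟮jqNModC ↥K₁ 2⟯ ↥(legE ↥K₁ N) (AdjoinSimple.gen ↥K₁ (jqNModC ↥K₁ 2)) := by
  rw [fullToLegE_jGen]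
  exact Subtype.ext rfl

/-- the scalar action on the chart, inside the host. -/
theorem massLat_smul_aux (r : R)
    (b : ↥(chartOne R ↥(legE ↥K₁ N) (AdjoinSimple.gen ↥K₁ (jqNModC ↥K₁ 2)))) :
    algebraMap ↥K₁ ↥(legE ↥K₁ N) (algebraMap R ↥K₁ r) * (b : ↥(legE ↥K₁ N)) =
      ((r • b : ↥(chartOne R ↥(legE ↥K₁ N) (AdjoinSimple.gen ↥K₁ (jqNModC ↥K₁ 2)))) :
        ↥(legE ↥K₁ N)) := by
  rw [← IsScalarTower.algebraMap_apply R ↥K₁ ↥(legE ↥K₁ N), Algebra.smul_def]
  rfl

/-- **the lattice of sections of order `n`.** -/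
def massLat (n : ℕ) :
    Submodule R ↥(chartOne R ↥(legE ↥K₁ N) (AdjoinSimple.gen ↥K₁ (jqNModC ↥K₁ 2))) where
  carrier := {b | ∃ f : ↥(keyFq ↥K₁ N), fullToLegE ↥K₁ N f = (b : ↥(legE ↥K₁ N)) ∧
    IsPoleSection ↥K₁ (jGen ↥K₁ N) n f}
  zero_mem' := ⟨0, map_zero _, isPoleSection_zero⟩
  add_mem' := by
    rintro a b ⟨f, hf, hfp⟩ ⟨g, hg, hgp⟩
    exact ⟨f + g, by rw [map_add, hf, hg]; rfl, IsPoleSection.add' hfp hgp⟩
  smul_mem' := by
    intro r b hb
    obtain ⟨f, hf, hfp⟩ := hb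
    refine ⟨algebraMap ↥K₁ ↥(keyFq ↥K₁ N) (algebraMap R ↥K₁ r) * f, ?_,
      IsPoleSection.const_mul' _ hfp⟩
    have h1 : fullToLegE ↥K₁ N (algebraMap ↥K₁ ↥(keyFq ↥K₁ N) (algebraMap R ↥K₁ r) * f) =
        algebraMap ↥K₁ ↥(legE ↥K₁ N) (algebraMap R ↥K₁ r) * (b : ↥(legE ↥K₁ N)) := by
      rw [map_mul, hf, AlgHom.commutes]
    rw [h1]
    exact massLat_smul_aux K₁ N r b

variable {K₁ N}

theorem mem_massLat_iff {n : ℕ}
    {b : ↥(chartOne R ↥(legE ↥K₁ N) (AdjoinSimple.gen ↥K₁ (jqNModC ↥K₁ 2)))} :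
    b ∈ massLat (R := R) K₁ N n ↔ ∃ f : ↥(keyFq ↥K₁ N),
      fullToLegE ↥K₁ N f = (b : ↥(legE ↥K₁ N)) ∧ IsPoleSection ↥K₁ (jGen ↥K₁ N) n f := Iff.rfl

theorem massLat_mono {n n' : ℕ} (h : n ≤ n') : massLat (R := R) K₁ N n ≤ massLat K₁ N n' := by
  rintro b ⟨f, hf, hfp⟩
  exact ⟨f, hf, IsPoleSection.mono' h hfp⟩

/-- **saturation.** -/
theorem massLat_sat {π : R} (hπ : π ≠ 0) (n : ℕ)
    (b : ↥(chartOne R ↥(legE ↥K₁ N) (AdjoinSimple.gen ↥K₁ (jqNModC ↥K₁ 2))))
    (hb : algebraMap R _ π * b ∈ massLat (R := R) K₁ N n) : b ∈ massLat (R := R) K₁ N n := by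
  obtain ⟨f, hf, hfp⟩ := hb
  have hπK : algebraMap R ↥K₁ π ≠ 0 :=
    (map_ne_zero_iff _ (IsFractionRing.injective R ↥K₁)).mpr hπ
  refine ⟨algebraMap ↥K₁ ↥(keyFq ↥K₁ N) (algebraMap R ↥K₁ π)⁻¹ * f, ?_,
    IsPoleSection.const_mul' _ hfp⟩
  rw [map_mul, hf, AlgHom.commutes]
  have h1 : ((algebraMap R ↥(chartOne R ↥(legE ↥K₁ N) (AdjoinSimple.gen ↥K₁ (jqNModC ↥K₁ 2))) π * b :
      ↥(chartOne R ↥(legE ↥K₁ N) (AdjoinSimple.gen ↥K₁ (jqNModC ↥K₁ 2)))) : ↥(legE ↥K₁ N)) =
      algebraMap ↥K₁ ↥(legE ↥K₁ N) (algebraMap R ↥K₁ π) * (b : ↥(legE ↥K₁ N)) := by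
    rw [← IsScalarTower.algebraMap_apply]
    rfl
  rw [h1, ← mul_assoc, ← map_mul, inv_mul_cancel₀ hπK, map_one, one_mul]

end Lattice

section Clear

attribute [local instance] Polynomial.algebra Polynomial.isLocalization in
/-- **clearing denominators**: an element integral over `K[y]` (`K = Frac R`) becomes integral over
`R[y]` after multiplication by a non-zero constant of `R`. -/
theorem exists_smul_isIntegralElem_aeval {R K E : Type*} [CommRing R] [IsDomain R] [Field K]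
    [Algebra R K] [IsFractionRing R K] [Field E] [Algebra R E] [Algebra K E] [IsScalarTower R K E]
    (y x : E) (hx : (aeval (R := K) y).toRingHom.IsIntegralElem x) :
    ∃ r : R, r ≠ 0 ∧ (aeval (R := R) y).toRingHom.IsIntegralElem (algebraMap R E r * x) := by
  letI i1 : Algebra R[X] E := (aeval (R := R) y).toRingHom.toAlgebra
  letI i2 : Algebra K[X] E := (aeval (R := K) y).toRingHom.toAlgebra
  haveI : IsScalarTower R[X] K[X] E := by
    apply IsScalarTower.of_algebraMap_eq'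
    apply Polynomial.ringHom_ext
    · intro a
      show (aeval (R := R) y) (C a) = (aeval (R := K) y) (algebraMap R[X] K[X] (C a))
      simp [Polynomial.algebraMap_def, IsScalarTower.algebraMap_apply R K E]
    · show (aeval (R := R) y) X = (aeval (R := K) y) (algebraMap R[X] K[X] X)
      simp [Polynomial.algebraMap_def]
  have hx' : IsIntegral K[X] x := hx
  obtain ⟨⟨m, r, hr, rfl⟩, hm⟩ :=
    IsIntegral.exists_multiple_integral_of_isLocalization ((nonZeroDivisors R).map C) x hx'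
  refine ⟨r, nonZeroDivisors.ne_zero hr, ?_⟩
  have e : algebraMap R E r * x =
      (⟨C r, r, hr, rfl⟩ : ((nonZeroDivisors R).map (C : R →+* R[X]))) • x := by
    rw [Submonoid.smul_def, Algebra.smul_def]
    show _ = (aeval (R := R) y) (C r) * x
    simp
  rw [e]
  exact hm

/-- integrality over `R[t]`: from the instance-free currency back to the chart. -/
theorem isIntegral_adjoin_of_isIntegralElem_aeval {R K E : Type*} [CommRing R] [Field K]
    [Algebra R K] [Field E] [Algebra K E] [Algebra R E] [IsScalarTower R K E] (t : K) {f : E}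
    (hf : (aeval (R := R) (algebraMap K E t)).toRingHom.IsIntegralElem f) :
    IsIntegral ↥(Algebra.adjoin R {t}) f := by
  set g : ↥(Algebra.adjoin R {t}) := ⟨t, Algebra.self_mem_adjoin_singleton R t⟩ with hg
  have hcomp : (aeval (R := R) (algebraMap K E t)).toRingHom =
      (algebraMap ↥(Algebra.adjoin R {t}) E).comp (aeval (R := R) g).toRingHom := by
    ext a
    · simp only [AlgHom.toRingHom_eq_coe, RingHom.coe_comp, RingHom.coe_coe, Function.comp_apply,
        aeval_C]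
      rw [← IsScalarTower.algebraMap_apply]
    · simp only [AlgHom.toRingHom_eq_coe, RingHom.coe_comp, RingHom.coe_coe, Function.comp_apply,
        aeval_X]
      rfl
  rw [hcomp] at hf
  exact hf.of_comp

/-- extension of the constants `R[y] ⊆ K[y]`. -/
theorem isIntegralElem_aeval_of_tower {R K E : Type*} [CommRing R] [Field K]
    [Algebra R K] [Field E] [Algebra K E] [Algebra R E] [IsScalarTower R K E] (y : E) {f : E}
    (hf : (aeval (R := R) y).toRingHom.IsIntegralElem f) :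
    (aeval (R := K) y).toRingHom.IsIntegralElem f := by
  have hcomp : (aeval (R := R) y).toRingHom =
      (aeval (R := K) y).toRingHom.comp (Polynomial.mapRingHom (algebraMap R K)) := by
    apply Polynomial.ringHom_ext
    · intro a
      simp [IsScalarTower.algebraMap_apply R K E]
    · simp
  rw [hcomp] at hf
  exact hf.of_comp

end Clear

section Finite

variable {R : Type*} [CommRing R] [IsDomain R] [IsDiscreteValuationRing R]
  {K₁ : IntermediateField ℚ Ω} [Algebra R ↥K₁] [IsFractionRing R ↥K₁]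
  {N : ℕ} [NeZero N]

theorem coe_algebraMap_legE (r : R) :
    ((algebraMap R ↥(legE ↥K₁ N) r : ↥(legE ↥K₁ N)) : LaurentSeries ↥K₁) =
      algebraMap ↥K₁ (LaurentSeries ↥K₁) (algebraMap R ↥K₁ r) := by
  rw [IsScalarTower.algebraMap_apply R ↥K₁ ↥(legE ↥K₁ N), IntermediateField.coe_algebraMap_apply]

/-- **the `q`-expansion principle on the chart**: the elements of the chart are series with
coefficients in `R`. -/
theorem exists_emb_eq_of_mem_legChart (h2 : IsUnit (2 : R)) (b : ↥(legE ↥K₁ N))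
    (hb : b ∈ chartOne R ↥(legE ↥K₁ N) (AdjoinSimple.gen ↥K₁ (jqNModC ↥K₁ 2))) :
    ∃ y : LaurentSeries R, emb R ↥K₁ y = (b : LaurentSeries ↥K₁) :=
  S36.exists_emb_eq_of_mem_chartOne (legE_le_gaussField R ↥K₁ h2 N) coe_algebraMap_legE
    (AdjoinSimple.gen ↥K₁ (jqNModC ↥K₁ 2))
    ⟨jqNModC R 2, coeffMap_jqNModC (algebraMap R ↥K₁) 2⟩ b hb

/-- finitely many coefficients of the elements of the chart. -/
def legChartCoeff {d : ℕ} (J : Fin d → ℤ) :
    ↥(chartOne R ↥(legE ↥K₁ N) (AdjoinSimple.gen ↥K₁ (jqNModC ↥K₁ 2))) →ₗ[R] (Fin d → ↥K₁) where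
  toFun b := fun s => ((b : ↥(legE ↥K₁ N)) : LaurentSeries ↥K₁).coeff (2 * J s)
  map_add' a b := by
    funext s
    show (((a + b : ↥(chartOne R ↥(legE ↥K₁ N) (AdjoinSimple.gen ↥K₁ (jqNModC ↥K₁ 2)))) :
      ↥(legE ↥K₁ N)) : LaurentSeries ↥K₁).coeff (2 * J s) = _
    rw [Subalgebra.coe_add, IntermediateField.coe_add, HahnSeries.coeff_add]
    rfl
  map_smul' r b := by
    funext s
    show (((r • b : ↥(chartOne R ↥(legE ↥K₁ N) (AdjoinSimple.gen ↥K₁ (jqNModC ↥K₁ 2)))) :
      ↥(legE ↥K₁ N)) : LaurentSeries ↥K₁).coeff (2 * J s) =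
      r • ((b : ↥(legE ↥K₁ N)) : LaurentSeries ↥K₁).coeff (2 * J s)
    rw [← massLat_smul_aux K₁ N r b, IntermediateField.coe_mul,
      ← IsScalarTower.algebraMap_apply R ↥K₁ ↥(legE ↥K₁ N), coe_algebraMap_legE,
      ModularCurve.algebraMap_laurentSeries_eq_single, HahnSeries.coeff_single_zero_mul,
      Algebra.smul_def]

theorem legChartCoeff_apply {d : ℕ} (J : Fin d → ℤ)
    (b : ↥(chartOne R ↥(legE ↥K₁ N) (AdjoinSimple.gen ↥K₁ (jqNModC ↥K₁ 2)))) (s : Fin d) :
    legChartCoeff J b s = ((b : ↥(legE ↥K₁ N)) : LaurentSeries ↥K₁).coeff (2 * J s) := rfl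

/-- the pole sections of the level field over the base become elements of `L(n (j)_∞)` over
`Ω`. -/
theorem keyFqBC_mem_polePlaceLat {n : ℕ} {f : ↥(keyFq ↥K₁ N)}
    (hf : IsPoleSection ↥K₁ (jGen ↥K₁ N) n f) :
    keyFqBC N K₁ f ∈ polePlaceLat (k := Ω) (jBar N) (n : ℤ) := by
  have h1 := hf.map (algebraMap ↥K₁ Ω) (keyFqBC N K₁) (keyFqBC_algebraMap N K₁)
  rw [keyFqBC_jGen] at h1
  exact h1.mem_polePlaceLat

theorem keyFqCoeff_keyFqBC (f : ↥(keyFq ↥K₁ N)) (i : ℤ) :
    keyFqCoeff N (keyFqBC N K₁ f) i =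
      algebraMap ↥K₁ Ω
        (((fullToLegE ↥K₁ N f : ↥(legE ↥K₁ N)) : LaurentSeries ↥K₁).coeff (2 * i)) := by
  rw [keyFqCoeff_apply, coe_keyFqBC, coeffMap_coeff, coe_fullToLegE]
  congr 1
  have := qExpand_coeff_mul (R := ↥K₁) 2 (f : LaurentSeries ↥K₁) i
  rw [← this]
  rfl

/-- the chart is torsion-free over `R`. -/
theorem isTorsionFree_legChart :
    IsTorsionFree R ↥(chartOne R ↥(legE ↥K₁ N) (AdjoinSimple.gen ↥K₁ (jqNModC ↥K₁ 2))) := by
  have hinjR : Function.Injective (algebraMap R ↥(legE ↥K₁ N)) := by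
    rw [IsScalarTower.algebraMap_eq R ↥K₁ ↥(legE ↥K₁ N)]
    exact (algebraMap ↥K₁ ↥(legE ↥K₁ N)).injective.comp (IsFractionRing.injective R ↥K₁)
  haveI : FaithfulSMul R ↥(chartOne R ↥(legE ↥K₁ N) (AdjoinSimple.gen ↥K₁ (jqNModC ↥K₁ 2))) := by
    rw [faithfulSMul_iff_algebraMap_injective]
    intro a b hab
    apply hinjR
    exact congrArg Subtype.val hab
  infer_instance

/-- the coefficients of an element of the chart lie in `R`. -/
theorem legChartCoeff_mem_range (h2 : IsUnit (2 : R)) {d : ℕ} (J : Fin d → ℤ)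
    (b : ↥(chartOne R ↥(legE ↥K₁ N) (AdjoinSimple.gen ↥K₁ (jqNModC ↥K₁ 2)))) :
    legChartCoeff J b ∈ LinearMap.range ((Algebra.linearMap R ↥K₁).compLeft (Fin d)) := by
  obtain ⟨y, hy⟩ := exists_emb_eq_of_mem_legChart h2 (b : ↥(legE ↥K₁ N)) b.2
  refine ⟨fun s => y.coeff (2 * J s), ?_⟩
  funext s
  show algebraMap R ↥K₁ (y.coeff (2 * J s)) =
    ((b : ↥(legE ↥K₁ N)) : LaurentSeries ↥K₁).coeff (2 * J s)
  rw [← hy]
  rfl

/-- coordinates separating `L(n (j)_∞)` separate the lattice. -/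
theorem eq_zero_of_legChartCoeff_eq_zero {n d : ℕ} (J : Fin d → ℤ)
    (hJ : ∀ w ∈ (polePlaceLat (k := Ω) (jBar N) (n : ℤ)).map (keyFqCoeff N),
      (∀ s, w (J s) = 0) → w = 0)
    (b : ↥(chartOne R ↥(legE ↥K₁ N) (AdjoinSimple.gen ↥K₁ (jqNModC ↥K₁ 2))))
    (hb : b ∈ massLat (R := R) K₁ N n) (h0 : legChartCoeff J b = 0) : b = 0 := by
  obtain ⟨f, hf, hfp⟩ := hb
  have hmem : keyFqCoeff N (keyFqBC N K₁ f) ∈
      (polePlaceLat (k := Ω) (jBar N) (n : ℤ)).map (keyFqCoeff N) :=
    Submodule.mem_map_of_mem (keyFqBC_mem_polePlaceLat hfp)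
  have hzero : keyFqCoeff N (keyFqBC N K₁ f) = 0 := by
    apply hJ _ hmem
    intro s
    rw [keyFqCoeff_keyFqBC, hf]
    have h3 : ((b : ↥(legE ↥K₁ N)) : LaurentSeries ↥K₁).coeff (2 * J s) = 0 := congrFun h0 s
    rw [h3, map_zero]
  have hf0 : f = 0 := by
    have h4 := keyFqCoeff_injective N (hzero.trans (map_zero _).symm)
    exact (keyFqBC N K₁).injective (h4.trans (map_zero _).symm)
  apply Subtype.ext
  rw [← hf, hf0, map_zero]
  rfl

/-- **the lattice of sections is finitely generated.** -/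
theorem finite_massLat (h2 : IsUnit (2 : R)) (n : ℕ) :
    Module.Finite R ↥(massLat (R := R) K₁ N n) := by
  classical
  obtain ⟨g₁, -, -, -, hRR⟩ := modularBar_riemannRoch_pole N
  obtain ⟨hfin, -, -⟩ := hRR (n : ℤ)
  haveI := hfin
  haveI : FiniteDimensional Ω
      ↥((polePlaceLat (k := Ω) (jBar N) (n : ℤ)).map (keyFqCoeff N)) := inferInstance
  obtain ⟨J, hJ⟩ := exists_coord_selection
    ((polePlaceLat (k := Ω) (jBar N) (n : ℤ)).map (keyFqCoeff N))
  haveI : IsNoetherian R ↥(LinearMap.range ((Algebra.linearMap R ↥K₁).compLeft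
      (Fin (finrank Ω ↥((polePlaceLat (k := Ω) (jBar N) (n : ℤ)).map (keyFqCoeff N)))))) :=
    isNoetherian_of_surjective (LinearMap.rangeRestrict _) (LinearMap.range_rangeRestrict _)
  have hinj : Function.Injective
      (((legChartCoeff J).comp (massLat (R := R) K₁ N n).subtype).codRestrict _
        (fun b => legChartCoeff_mem_range h2 J (b : ↥(chartOne R ↥(legE ↥K₁ N)
          (AdjoinSimple.gen ↥K₁ (jqNModC ↥K₁ 2)))))) := by
    rw [← LinearMap.ker_eq_bot, LinearMap.ker_eq_bot']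
    intro b hb
    apply Subtype.ext
    apply eq_zero_of_legChartCoeff_eq_zero J hJ _ b.2
    exact congrArg Subtype.val hb
  exact Module.Finite.of_injective _ hinj

/-- clearing the denominators of a pole section. -/
theorem exists_smul_mem_massLat {n : ℕ} {f : ↥(keyFq ↥K₁ N)}
    (hf : IsPoleSection ↥K₁ (jGen ↥K₁ N) n f) :
    ∃ r : R, r ≠ 0 ∧ ∃ b ∈ massLat (R := R) K₁ N n,
      (b : ↥(legE ↥K₁ N)) = algebraMap R ↥(legE ↥K₁ N) r * fullToLegE ↥K₁ N f := by
  have h1 := (hf.map (RingHom.id ↥K₁) (fullToLegE ↥K₁ N : ↥(keyFq ↥K₁ N) →+* ↥(legE ↥K₁ N))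
    (fun a => (fullToLegE ↥K₁ N).commutes a)).1
  obtain ⟨r, hr, hri⟩ := exists_smul_isIntegralElem_aeval (R := R) (K := ↥K₁) _ _ h1
  have hmem : algebraMap R ↥(legE ↥K₁ N) r * fullToLegE ↥K₁ N f ∈
      chartOne R ↥(legE ↥K₁ N) (AdjoinSimple.gen ↥K₁ (jqNModC ↥K₁ 2)) := by
    rw [mem_chartOne_iff]
    apply isIntegral_adjoin_of_isIntegralElem_aeval
    rw [← fullToLegE_jGen_eq_algebraMap]
    exact hri
  refine ⟨r, hr, ⟨_, hmem⟩, ⟨algebraMap ↥K₁ ↥(keyFq ↥K₁ N) (algebraMap R ↥K₁ r) * f, ?_,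
    IsPoleSection.const_mul' _ hf⟩, rfl⟩
  rw [map_mul, AlgHom.commutes, ← IsScalarTower.algebraMap_apply]

set_option maxHeartbeats 800000 in
/-- **the lattice of sections is free of finite rank**, of rank at least the number of any family
of linearly independent pole sections of the level field over the base. -/
theorem exists_basis_massLat (h2 : IsUnit (2 : R)) (n : ℕ) :
    ∃ (r : ℕ) (e : Basis (Fin r) R ↥(massLat (R := R) K₁ N n)),
      ∀ (m : ℕ) (v : Fin m → ↥(keyFq ↥K₁ N)), LinearIndependent ↥K₁ v →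
        (∀ i, IsPoleSection ↥K₁ (jGen ↥K₁ N) n (v i)) → m ≤ r := by
  classical
  haveI : IsTorsionFree R ↥(chartOne R ↥(legE ↥K₁ N) (AdjoinSimple.gen ↥K₁ (jqNModC ↥K₁ 2))) :=
    isTorsionFree_legChart
  haveI : Module.Finite R ↥(massLat (R := R) K₁ N n) := finite_massLat h2 n
  haveI : IsTorsionFree R ↥(massLat (R := R) K₁ N n) := inferInstance
  haveI : Module.Free R ↥(massLat (R := R) K₁ N n) := Module.free_of_finite_type_torsion_free'
  refine ⟨finrank R ↥(massLat (R := R) K₁ N n), Module.finBasis R _, fun m v hv hvp => ?_⟩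
  choose c hc0 b hbmem hb using fun i => exists_smul_mem_massLat (R := R) (hvp i)
  have hwind : LinearIndependent R (fun i => (⟨b i, hbmem i⟩ : ↥(massLat (R := R) K₁ N n))) := by
    rw [Fintype.linearIndependent_iff]
    intro g hg
    have h1 : ∑ i, (algebraMap R ↥K₁ (g i * c i)) • v i = 0 := by
      apply (fullToLegE ↥K₁ N).toRingHom.injective
      rw [map_zero, map_sum]
      have h2 := congrArg (fun z : ↥(massLat (R := R) K₁ N n) =>
        ((z : ↥(chartOne R ↥(legE ↥K₁ N) (AdjoinSimple.gen ↥K₁ (jqNModC ↥K₁ 2)))) :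
          ↥(legE ↥K₁ N))) hg
      simp only [Submodule.coe_smul, Submodule.coe_zero,
        AddSubmonoidClass.coe_finsetSum, ZeroMemClass.coe_zero] at h2
      rw [← h2]
      refine Finset.sum_congr rfl fun i _ => ?_
      rw [← massLat_smul_aux K₁ N (g i) _, hb i]
      show fullToLegE ↥K₁ N ((algebraMap R ↥K₁ (g i * c i)) • v i) =
        algebraMap ↥K₁ ↥(legE ↥K₁ N) (algebraMap R ↥K₁ (g i)) *
          (algebraMap R ↥(legE ↥K₁ N) (c i) * fullToLegE ↥K₁ N (v i))
      rw [Algebra.smul_def, map_mul, AlgHom.commutes, map_mul, map_mul,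
        ← IsScalarTower.algebraMap_apply R ↥K₁ ↥(legE ↥K₁ N),
        ← IsScalarTower.algebraMap_apply R ↥K₁ ↥(legE ↥K₁ N), mul_assoc]
    have h3 := (Fintype.linearIndependent_iff.mp hv) _ h1
    intro i
    have h4 := h3 i
    rw [map_mul] at h4
    rcases mul_eq_zero.mp h4 with h5 | h5
    · exact (map_eq_zero_iff _ (IsFractionRing.injective R ↥K₁)).mp h5
    · exact absurd ((map_eq_zero_iff _ (IsFractionRing.injective R ↥K₁)).mp h5) (hc0 i)
  have := hwind.fintype_card_le_finrank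
  simpa using this

end Finite

end

end Fermat.Agent.ML
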