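/-
PROJECT ML (S59) — helper8 — **[MASS], input (E4): the upper bound on one sheet.**

On the reduced Legendre host `Ẽ_N = legEt` (`q ≥ 5`, `q ∤ N`) let `massX n` be the space of the
elements of `L(n (j̄)_∞)` which are reductions of Gauss-integral functions of the level field
`F̄(X₀(N))`.  For `n` large

  `dim massX n ≤ n ψ(N) + 1 − g(X₀(N))`

(lift to `L(n (j)_∞)` on the host, average over the deck group, compare with Riemann–Roch on
`X₀(N)` over `ℚ̄`, genus by S24).
-/
import Mathlib
import Fermat.Agent.ML.MASS_helper8_Avg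
import Fermat.Agent.ML.MASS_helper8_Genus

set_option autoImplicit false
set_option linter.unusedSectionVars false
set_option linter.unusedVariables false
set_option linter.style.haveILetI false
set_option synthInstance.maxHeartbeats 400000

open HahnSeries IntermediateField AlgebraicCurve ModularCurve IsLocalRing Polynomial Module

namespace Fermat.Agent.ML

open Fermat.Agent.JA Fermat.Agent.Igusa Fermat.Agent.SS Fermat.Agent.FF Fermat.Agent.FG
  Fermat.Agent.MP Fermat.Agent.RB.ROLD Fermat.Agent.GR Fermat.Agent.X0N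
open scoped Fermat.Agent.JA.Host

/-- `Ω = AlgebraicClosure ℚ`. -/
local notation "Ω" => AlgebraicClosure ℚ

section Lin

/-- a vector space in which every finite linearly independent family has at most `D` elements
has dimension at most `D`. -/
theorem finrank_le_of_forall_fin {k V : Type*} [Field k] [AddCommGroup V] [Module k V] (D : ℕ)
    (H : ∀ (m : ℕ) (v : Fin m → V), LinearIndependent k v → m ≤ D) :
    FiniteDimensional k V ∧ finrank k V ≤ D := by
  have hr : Module.rank k V ≤ D := by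
    apply rank_le
    intro s hs
    have := H s.card (fun i => ((s.equivFin.symm i : ↥s) : V))
      (hs.comp _ (Equiv.injective _))
    exact this
  refine ⟨?_, finrank_le_of_rank_le hr⟩
  exact Module.rank_lt_aleph0_iff.mp (lt_of_le_of_lt hr (Cardinal.natCast_lt_aleph0))

end Lin

section Upper

variable {q : ℕ} [Fact q.Prime] {A : ValuationSubring Ω} (hA : A.LiesOverPrime q)
  (N : ℕ) [NeZero N]

/-- the reductions of the Gauss-integral functions of the level field. -/
noncomputable def legLevelRed (hq2 : q ≠ 2) : Submodule (ResidueField ↥A) (legEt hA N hq2) where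
  carrier := {fb | ∃ (g : ↥(keyFq Ω N)) (hg : fullToLegE Ω N g ∈ legWE hA N hq2),
    legρ hA N hq2 ⟨fullToLegE Ω N g, hg⟩ = fb}
  zero_mem' := ⟨0, by rw [map_zero]; exact zero_mem _, by
    have : (⟨fullToLegE Ω N 0, by rw [map_zero]; exact zero_mem _⟩ : ↥(legWE hA N hq2)) = 0 :=
      Subtype.ext (map_zero _)
    rw [this, map_zero]⟩
  add_mem' := by
    rintro _ _ ⟨g, hg, rfl⟩ ⟨g', hg', rfl⟩
    refine ⟨g + g', by rw [map_add]; exact add_mem hg hg', ?_⟩
    rw [← map_add (legρ hA N hq2)]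
    congr 1
    exact Subtype.ext (map_add _ _ _)
  smul_mem' := by
    rintro c _ ⟨g, hg, rfl⟩
    obtain ⟨a, rfl⟩ := residue_surjective c
    have haW : algebraMap Ω ↥(legE Ω N) (a : Ω) ∈ legWE hA N hq2 :=
      (algebraMap_mem_legWE_iff hA N hq2 _).2 a.2
    refine ⟨algebraMap Ω ↥(keyFq Ω N) (a : Ω) * g, by
      rw [map_mul, AlgHom.commutes]; exact mul_mem haW hg, ?_⟩
    rw [Algebra.smul_def, ← legρ_algebraMap hA N hq2 a haW, ← map_mul (legρ hA N hq2)]
    congr 1
    apply Subtype.ext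
    show fullToLegE Ω N (algebraMap Ω ↥(keyFq Ω N) (a : Ω) * g) = _
    rw [map_mul, AlgHom.commutes]
    rfl

theorem mem_legLevelRed_iff (hq2 : q ≠ 2) (fb : legEt hA N hq2) :
    fb ∈ legLevelRed hA N hq2 ↔ ∃ (g : ↥(keyFq Ω N)) (hg : fullToLegE Ω N g ∈ legWE hA N hq2),
      legρ hA N hq2 ⟨fullToLegE Ω N g, hg⟩ = fb := Iff.rfl

/-- the sections of `O(n (j̄)_∞)` coming from the level field. -/
noncomputable def massX (hq2 : q ≠ 2) (n : ℕ) : Submodule (ResidueField ↥A) (legEt hA N hq2) :=
  polePlaceLat (k := ResidueField ↥A) (legJb hA N hq2) (n : ℤ) ⊓ legLevelRed hA N hq2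

theorem egalJ_eq_jBar : egalJ N = jBar N :=
  Subtype.ext (coeffEmb_jq_eq_jqModC (L := Ω)).symm

set_option maxHeartbeats 1600000 in
include hA in
/-- **the upper bound on one sheet.** -/
theorem exists_finrank_massX_le (hqN : ¬ q ∣ N) (hq2 : q ≠ 2) (hq5 : 5 ≤ q) :
    ∃ (n₁ g' : ℕ), (g' : ℚ) = genusFormula N ∧ ∀ n : ℕ, n₁ ≤ n →
      FiniteDimensional (ResidueField ↥A) ↥(massX hA N hq2 n) ∧
      (finrank (ResidueField ↥A) ↥(massX hA N hq2 n) : ℤ) ≤
        (n : ℤ) * (dedekindPsi N : ℤ) + 1 - (g' : ℤ) := by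
  classical
  obtain ⟨n₀, hlift⟩ := exists_lift_polePlaceLat_legJ hA N hqN hq2
  obtain ⟨g', hg', -, -, hRR⟩ := modularBar_riemannRoch_pole N
  have hψpos : 0 < dedekindPsi N := by
    rw [← jCoordBar_degree]; exact (jCoordBar N).degree_pos
  refine ⟨max n₀ (2 * g'), g', hg', fun n hn => ?_⟩
  have hn0 : n₀ ≤ n := le_trans (le_max_left _ _) hn
  have hn2 : 2 * g' ≤ n := le_trans (le_max_right _ _) hn
  obtain ⟨hfin, -, heq⟩ := hRR (n : ℤ)
  have hlarge : 2 * (g' : ℤ) - 1 ≤ (n : ℤ) * (dedekindPsi N : ℤ) := by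
    have h1 : (2 * g' : ℤ) ≤ (n : ℤ) := by exact_mod_cast hn2
    have h2 : (1 : ℤ) ≤ (dedekindPsi N : ℤ) := by exact_mod_cast hψpos
    nlinarith
  have heq' := heq hlarge
  haveI := hfin
  set D : ℕ := finrank Ω ↥(polePlaceLat (k := Ω) (jBar N) (n : ℤ)) with hD
  have key : ∀ (m : ℕ) (v : Fin m → ↥(massX hA N hq2 n)),
      LinearIndependent (ResidueField ↥A) v → m ≤ D := by
    intro m v hv
    -- lift and average
    have hex : ∀ i : Fin m, ∃ (h : ↥(keyFq Ω N)) (hh : fullToLegE Ω N h ∈ legWE hA N hq2),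
        legρ hA N hq2 ⟨fullToLegE Ω N h, hh⟩ = ((v i : ↥(massX hA N hq2 n)) : legEt hA N hq2) ∧
        IsPoleSection Ω (egalJ N) n h := by
      intro i
      obtain ⟨hpole, g, hg, hgρ⟩ := (v i).2
      obtain ⟨f, hf, hfρ, hfs⟩ := hlift n hn0 _ hpole
      obtain ⟨h, hh, hhρ, hhs⟩ := exists_level_poleSection hA N hqN hq2 hq5 hf hfs g hg
        (hfρ.trans hgρ.symm)
      exact ⟨h, hh, hhρ.trans hgρ, hhs⟩
    choose h hh hhρ hhs using hex
    have hind : LinearIndependent Ω (fun i => fullToLegE Ω N (h i)) := by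
      refine linearIndependent_of_reduction (legWE hA N hq2) (legρ hA N hq2)
        (fun a ha => (algebraMap_mem_legWE_iff hA N hq2 a).mpr ha) (legρ_algebraMap hA N hq2)
        (fun i => fullToLegE Ω N (h i)) hh ?_
      have e : (fun i => legρ hA N hq2 ⟨fullToLegE Ω N (h i), hh i⟩) =
          fun i => ((v i : ↥(massX hA N hq2 n)) : legEt hA N hq2) := funext hhρ
      rw [e]
      exact hv.map' (Submodule.subtype _) (Submodule.ker_subtype _)
    have hind' : LinearIndependent Ω h := by
      have : (fun i => fullToLegE Ω N (h i)) = (fullToLegE Ω N).toLinearMap ∘ h := rfl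
      rw [this] at hind
      exact hind.of_comp _
    let h' : Fin m → ↥(polePlaceLat (k := Ω) (jBar N) (n : ℤ)) := fun i =>
      ⟨h i, by
        have := (hhs i).mem_polePlaceLat
        rwa [egalJ_eq_jBar] at this⟩
    have hind'' : LinearIndependent Ω h' := by
      apply LinearIndependent.of_comp (Submodule.subtype _)
      exact hind'
    have := hind''.fintype_card_le_finrank
    rwa [Fintype.card_fin] at this
  obtain ⟨hfd, hle⟩ := finrank_le_of_forall_fin D key
  refine ⟨hfd, ?_⟩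
  calc (finrank (ResidueField ↥A) ↥(massX hA N hq2 n) : ℤ) ≤ (D : ℤ) := by exact_mod_cast hle
    _ = (n : ℤ) * (dedekindPsi N : ℤ) + 1 - (g' : ℤ) := heq'

end Upper

end Fermat.Agent.ML
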