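/-
PROJECT ML (S59) — helper8 — **[MASS]: the lattice of sections on the two-sheet model.**

On the model `SSModelLeg` of the Legendre host of level `M q` over a base:

* `inv_pow_mul_mem_chartOne_of_mem_massLat` : a section of `massLat n` is a section of order `n` on
  the whole model (`j⁻ⁿ b` lies in the chart at infinity; two-sheet Hartogs);
* `exists_mem_massLat` : every element of the chart coming from the level field lies in some
  `massLat n`;
* `exists_crt_of_comap_ne` : the Chinese remainder theorem for maximal ideals with pairwise distinct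
  traces on a subring over which the ring is integral.
-/
import Mathlib
import Fermat.Agent.ML.MASS_helper8_Lattice
import Fermat.Agent.MP.KEYFQ_helper8_ResInf
import Fermat.Agent.MP.REDINF_helper8_Host
import Fermat.Agent.MP.ORD_helper1_Main
import Fermat.Agent.ML.MASS_helper8_Upper
import Fermat.Agent.ML.MASS_helper8_Count

set_option autoImplicit false
set_option linter.unusedSectionVars false
set_option linter.unusedVariables false
set_option linter.style.haveILetI false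
set_option synthInstance.maxHeartbeats 400000

open Polynomial ModularCurve IntermediateField AlgebraicCurve Module

namespace Fermat.Agent.ML

open Fermat.Agent.JA Fermat.Agent.FF Fermat.Agent.SS Fermat.Agent.S35 Fermat.Agent.MP
  Fermat.Agent.FG Fermat.Agent.X0N Fermat.Agent.Igusa

open scoped Fermat.Agent.JA.Host

/-- `Ω = AlgebraicClosure ℚ`. -/
local notation "Ω" => AlgebraicClosure ℚ

noncomputable section

section Generic

/-- a valuation subring containing `R` and `π⁻¹` contains `K = Frac R`. -/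
theorem algebraMap_mem_valuationSubring_of_inv_mem {R K E : Type*} [CommRing R] [IsDomain R]
    [IsDiscreteValuationRing R] [Field K] [Algebra R K] [IsFractionRing R K] [Field E]
    [Algebra R E] [Algebra K E] [IsScalarTower R K E] {π : R} (hπ : Irreducible π)
    (V : ValuationSubring E) (hR : ∀ r : R, algebraMap R E r ∈ V)
    (hπV : (algebraMap R E π)⁻¹ ∈ V) (c : K) : algebraMap K E c ∈ V := by
  obtain ⟨a, s, hs, rfl⟩ := IsFractionRing.div_surjective (A := R) c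
  have hs0 : s ≠ 0 := nonZeroDivisors.ne_zero hs
  obtain ⟨n, u, hu⟩ := IsDiscreteValuationRing.eq_unit_mul_pow_irreducible hs0 hπ
  rw [map_div₀, ← IsScalarTower.algebraMap_apply, ← IsScalarTower.algebraMap_apply, hu, map_mul,
    map_pow, div_eq_mul_inv, mul_inv, ← inv_pow]
  refine mul_mem (hR a) (mul_mem ?_ (pow_mem hπV n))
  have : (algebraMap R E (u : R))⁻¹ = algebraMap R E ((u⁻¹ : Rˣ) : R) := by
    apply inv_eq_of_mul_eq_one_left
    rw [← map_mul, Units.inv_mul, map_one]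
  rw [this]
  exact hR _

/-- **the Chinese remainder theorem for maximal ideals with distinct traces.** -/
theorem exists_crt_of_comap_ne {S B : Type*} [CommRing S] [CommRing B] (f : S →+* B)
    (hf : f.IsIntegral) {s : ℕ} (𝔫 : Fin s → Ideal B) (hmax : ∀ i, (𝔫 i).IsMaximal)
    (hne : ∀ i j, i ≠ j → (𝔫 i).comap f ≠ (𝔫 j).comap f) :
    ∃ c : Fin s → S, (∀ i, f (c i) - 1 ∈ 𝔫 i) ∧ ∀ i j, i ≠ j → f (c i) ∈ 𝔫 j := by
  classical
  have hmax' : ∀ i, ((𝔫 i).comap f).IsMaximal := fun i =>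
    haveI := hmax i
    Ideal.isMaximal_comap_of_isIntegral_of_isMaximal' f hf (𝔫 i)
  have hcop : Pairwise (Function.onFun IsCoprime fun i => (𝔫 i).comap f) := by
    intro i j hij
    show IsCoprime ((𝔫 i).comap f) ((𝔫 j).comap f)
    rw [Ideal.isCoprime_iff_sup_eq]
    exact Ideal.IsMaximal.coprime_of_ne (hmax' i) (hmax' j) (hne i j hij)
  choose c hc using fun i : Fin s =>
    Ideal.exists_forall_sub_mem_ideal hcop (fun j => if j = i then (1 : S) else 0)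
  refine ⟨c, fun i => ?_, fun i j hij => ?_⟩
  · have := hc i i
    rw [if_pos rfl, Ideal.mem_comap, map_sub, map_one] at this
    exact this
  · have := hc i j
    rw [if_neg (Ne.symm hij), sub_zero, Ideal.mem_comap] at this
    exact this

end Generic

section Charts

variable {R : Type*} [CommRing R] [IsDomain R] [IsDiscreteValuationRing R]
  {K₁ : IntermediateField ℚ Ω} [Algebra R ↥K₁] [IsFractionRing R ↥K₁]
  {N : ℕ} [NeZero N]

/-- the pole section of the level field attached to an element of the lattice, on the host. -/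
theorem isPoleSection_host_of_isPoleSection {n : ℕ} {f : ↥(keyFq ↥K₁ N)}
    (hf : IsPoleSection ↥K₁ (jGen ↥K₁ N) n f) :
    IsPoleSection ↥K₁ (algebraMap ↥(↥K₁)⟮jqNModC ↥K₁ 2⟯ ↥(legE ↥K₁ N)
      (AdjoinSimple.gen ↥K₁ (jqNModC ↥K₁ 2))) n (fullToLegE ↥K₁ N f) := by
  have h1 := hf.map (RingHom.id ↥K₁) (fullToLegE ↥K₁ N : ↥(keyFq ↥K₁ N) →+* ↥(legE ↥K₁ N))
    (fun a => (fullToLegE ↥K₁ N).commutes a)
  rw [RingHom.coe_coe, fullToLegE_jGen_eq_algebraMap] at h1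
  exact h1

/-- **an element of the chart coming from the level field, of order `m` at infinity, lies in
`massLat m`.** -/
theorem mem_massLat_of_mem_charts {m : ℕ}
    (b : ↥(chartOne R ↥(legE ↥K₁ N) (AdjoinSimple.gen ↥K₁ (jqNModC ↥K₁ 2))))
    (f : ↥(keyFq ↥K₁ N)) (hf : fullToLegE ↥K₁ N f = (b : ↥(legE ↥K₁ N)))
    (hb : (algebraMap ↥(↥K₁)⟮jqNModC ↥K₁ 2⟯ ↥(legE ↥K₁ N)
      (AdjoinSimple.gen ↥K₁ (jqNModC ↥K₁ 2)))⁻¹ ^ m * (b : ↥(legE ↥K₁ N)) ∈
        chartOne R ↥(legE ↥K₁ N) (AdjoinSimple.gen ↥K₁ (jqNModC ↥K₁ 2))⁻¹) :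
    b ∈ massLat (R := R) K₁ N m := by
  refine ⟨f, hf, ?_⟩
  apply IsPoleSection.of_map (RingHom.id ↥K₁) Function.surjective_id
    (fullToLegE ↥K₁ N : ↥(keyFq ↥K₁ N) →+* ↥(legE ↥K₁ N))
    (fun a => (fullToLegE ↥K₁ N).commutes a)
  rw [RingHom.coe_coe, fullToLegE_jGen_eq_algebraMap, hf]
  constructor
  · exact isIntegralElem_aeval_of_tower _
      (isIntegralElem_aeval_of_isIntegral_adjoin (AdjoinSimple.gen ↥K₁ (jqNModC ↥K₁ 2))
        ((mem_chartOne_iff _ _).1 b.2))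
  · have h1 := isIntegralElem_aeval_of_isIntegral_adjoin (R := R)
      (AdjoinSimple.gen ↥K₁ (jqNModC ↥K₁ 2))⁻¹ ((mem_chartOne_iff _ _).1 hb)
    rw [map_inv₀] at h1
    exact isIntegralElem_aeval_of_tower _ h1

/-- every element of the chart coming from the level field lies in some `massLat m`. -/
theorem exists_mem_massLat
    (b : ↥(chartOne R ↥(legE ↥K₁ N) (AdjoinSimple.gen ↥K₁ (jqNModC ↥K₁ 2))))
    (f : ↥(keyFq ↥K₁ N)) (hf : fullToLegE ↥K₁ N f = (b : ↥(legE ↥K₁ N))) :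
    ∃ m : ℕ, b ∈ massLat (R := R) K₁ N m := by
  have hj0 : (AdjoinSimple.gen ↥K₁ (jqNModC ↥K₁ 2))⁻¹ ≠ 0 := by
    apply inv_ne_zero
    intro h0
    have h1 := congrArg (fun z : ↥(↥K₁)⟮jqNModC ↥K₁ 2⟯ => (z : LaurentSeries ↥K₁)) h0
    simp only [AdjoinSimple.coe_gen, ZeroMemClass.coe_zero] at h1
    have h2 := order_jqNModC_field ↥K₁ 2
    rw [h1, HahnSeries.order_zero] at h2
    simp at h2
  have hb : IsIntegral ↥(Algebra.adjoin R {((AdjoinSimple.gen ↥K₁ (jqNModC ↥K₁ 2))⁻¹)⁻¹})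
      (b : ↥(legE ↥K₁ N)) := by
    rw [inv_inv]
    exact (mem_chartOne_iff _ _).1 b.2
  obtain ⟨m, hm⟩ := exists_pow_mul_isIntegral (R := R)
    (AdjoinSimple.gen ↥K₁ (jqNModC ↥K₁ 2))⁻¹ hj0 (b : ↥(legE ↥K₁ N)) hb
  refine ⟨m, mem_massLat_of_mem_charts b f hf ?_⟩
  rw [mem_chartOne_iff, ← map_inv₀]
  exact hm

end Charts

section Hartogs

theorem aeval_mem_valuationSubring_of_forall {K E : Type*} [Field K] [Field E] [Algebra K E]
    (V : ValuationSubring E) (hK : ∀ c : K, algebraMap K E c ∈ V) {y : E} (hy : y ∈ V)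
    (p : K[X]) : (aeval (R := K) y).toRingHom p ∈ V := by
  show aeval y p ∈ V
  induction p using Polynomial.induction_on with
  | C a =>
    rw [aeval_C]
    exact hK a
  | add p q hp hq => rw [map_add]; exact add_mem hp hq
  | monomial n a h =>
    rw [pow_succ, ← mul_assoc, map_mul, aeval_X]
    exact mul_mem h hy

variable {R : Type*} [CommRing R] [IsDomain R] [IsDiscreteValuationRing R] [CharZero R]
  {K₁ : IntermediateField ℚ Ω} [Algebra R ↥K₁] [IsFractionRing R ↥K₁]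
  {N : ℕ} [NeZero N] [FiniteDimensional ↥(↥K₁)⟮jqNModC ↥K₁ 2⟯ ↥(legE ↥K₁ N)]
  {KM : Type*} [Field KM] [Algebra ↥K₁ KM] [Algebra R KM] [IsScalarTower R ↥K₁ KM]
  {EM : Type*} [Field EM] [Algebra KM EM] [Algebra ↥K₁ EM] [IsScalarTower ↥K₁ KM EM]
  [Algebra R EM] [IsScalarTower R KM EM]
  {π : R} {q' n' : ℕ} {S : Finset R} {t : KM} {jM : EM} {A B : EM →+* ↥(legE ↥K₁ N)}
  {VM : ValuationSubring EM} {Winf W0 : ValuationSubring ↥(legE ↥K₁ N)}

/-- **a section of `massLat n` is a section of order `n` on the whole model** (two-sheet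
Hartogs at infinity). -/
theorem inv_pow_mul_mem_chartOne_of_mem_massLat (hπ : Irreducible π)
    (h : SSModel ↥K₁ π q' n' S t jM (AdjoinSimple.gen ↥K₁ (jqNModC ↥K₁ 2)) A B VM Winf W0)
    {n : ℕ} (b : ↥(chartOne R ↥(legE ↥K₁ N) (AdjoinSimple.gen ↥K₁ (jqNModC ↥K₁ 2))))
    (hb : b ∈ massLat (R := R) K₁ N n) :
    (algebraMap ↥(↥K₁)⟮jqNModC ↥K₁ 2⟯ ↥(legE ↥K₁ N)
      (AdjoinSimple.gen ↥K₁ (jqNModC ↥K₁ 2)))⁻¹ ^ n * (b : ↥(legE ↥K₁ N)) ∈
        chartOne R ↥(legE ↥K₁ N) (AdjoinSimple.gen ↥K₁ (jqNModC ↥K₁ 2))⁻¹ := by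
  obtain ⟨f, hf, hfp⟩ := hb
  have hp := isPoleSection_host_of_isPoleSection hfp
  rw [hf] at hp
  refine (h.two.inv hπ).mem_chartOne_of_forall hπ
    (transcendental_inv_of_transcendental h.j_transcendental) (adjoin_inv_eq_top h.j_adjoin) _
    (mul_mem (pow_mem (massModel_coord_inv_mem_inf h hπ) n) (h.two.chart_le_inf _ b.2))
    (mul_mem (pow_mem (massModel_coord_inv_mem_zero h hπ) n) (h.two.chart_le_zero _ b.2))
    (fun V hπV hV => ?_)
  have hR : ∀ r : R, algebraMap R ↥(legE ↥K₁ N) r ∈ V :=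
    fun r => hV _ (Subalgebra.algebraMap_mem _ r)
  have hK := algebraMap_mem_valuationSubring_of_inv_mem (K := ↥K₁) hπ V hR hπV
  have hjV : (algebraMap ↥(↥K₁)⟮jqNModC ↥K₁ 2⟯ ↥(legE ↥K₁ N)
      (AdjoinSimple.gen ↥K₁ (jqNModC ↥K₁ 2)))⁻¹ ∈ V := by
    rw [← map_inv₀]
    exact hV _ (algebraMap_coord_mem_chartOne _)
  exact mem_valuationSubring_of_isIntegralElem _ V
    (fun p => aeval_mem_valuationSubring_of_forall V hK hjV p) hp.2

end Hartogs

section Level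

variable (R : Type*) [CommRing R] [IsDomain R] [IsDiscreteValuationRing R] [CharZero R]
  (K : Type*) [Field K] [Algebra R K] [IsFractionRing R K] [Algebra ℚ K] [Algebra K ℂ]
  {M q : ℕ} [NeZero M] [NeZero q] [NeZero (M * q)] {x y : ℤ}

/-- **along `W_∞` an integral function of the level field of level `M q` is congruent to a function
of the level field of level `M`** (host form of `MP.keyFq_res_inf`). -/
theorem exists_keyFq_congr_inf_host (h2 : IsUnit (2 : R)) (h : (q : ℤ) * x + M * y = 1)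
    (hq : q.Prime) (hqM : ¬ q ∣ M) {π : R} (hπ : Irreducible π) (hqπ : (q : R) ∈ Ideal.span {π})
    (f : ↥(keyFq K (M * q))) (hf : fullToLegE K (M * q) f ∈ legWinf R K h2 (M * q)) :
    ∃ (a : ↥(keyFq K M)) (_ : fullToLegE K M a ∈ legWinf R K h2 M),
      (legWinf R K h2 (M * q)).valuation
        (fullToLegE K (M * q) f - legHostA K M q (fullToLegE K M a)) < 1 := by
  have cN := xport_legWinf_comap R K h2 (M * q)
  have cM := xport_legWinf_comap R K h2 M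
  have hfW : f ∈ keyFqWinf R K (M * q) :=
    (comap_mem_iff
      ((fullToLegE K (M * q) : ↥(keyFq K (M * q)) →ₐ[K] ↥(legE K (M * q))) :
        ↥(keyFq K (M * q)) →+* ↥(legE K (M * q))) cN f).mp hf
  obtain ⟨a, ha, hlt⟩ := keyFq_res_inf (R := R) (algebraMap K ℂ) h hq hqM hπ hqπ f hfW
  refine ⟨a, ?_, ?_⟩
  · exact (comap_mem_iff
      ((fullToLegE K M : ↥(keyFq K M) →ₐ[K] ↥(legE K M)) : ↥(keyFq K M) →+* ↥(legE K M))
      cM a).mpr ha
  · have h1 := (comap_val_lt_one_iff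
      ((fullToLegE K (M * q) : ↥(keyFq K (M * q)) →ₐ[K] ↥(legE K (M * q))) :
        ↥(keyFq K (M * q)) →+* ↥(legE K (M * q))) cN (f - keyFqA K M q a)).mpr hlt
    rw [RingHom.coe_coe, map_sub, xport_fullToLegE_keyFqA] at h1
    exact h1

/-- **along `W_0` an integral function of the level field of level `M q` is congruent to the
`B`-image of a function of the level field of level `M`** (host form of `MP.keyFq_res_zero`). -/
theorem exists_keyFq_congr_zero_host (h2 : IsUnit (2 : R)) (h : (q : ℤ) * x + M * y = 1)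
    (hq : q.Prime) (hq2 : q ≠ 2) (hqM : ¬ q ∣ M) {π : R} (hπ : Irreducible π)
    (hqπ : (q : R) ∈ Ideal.span {π})
    (f : ↥(keyFq K (M * q))) (hf : fullToLegE K (M * q) f ∈ legW0 R K h hq) :
    ∃ (a : ↥(keyFq K M)) (_ : fullToLegE K M a ∈ legWinf R K h2 M),
      (legW0 R K h hq).valuation
        (fullToLegE K (M * q) f - legHostB K M q hq hq2 (fullToLegE K M a)) < 1 := by
  have cN := xport_legW0_comap R K h hq
  have cM := xport_legWinf_comap R K h2 M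
  have hfW : f ∈ keyFqW0 R K (algebraMap K ℂ) h hq :=
    (comap_mem_iff
      ((fullToLegE K (M * q) : ↥(keyFq K (M * q)) →ₐ[K] ↥(legE K (M * q))) :
        ↥(keyFq K (M * q)) →+* ↥(legE K (M * q))) cN f).mp hf
  obtain ⟨a, ha, hlt⟩ := keyFq_res_zero (R := R) (algebraMap K ℂ) h hq hqM hπ hqπ f hfW
  refine ⟨a, ?_, ?_⟩
  · exact (comap_mem_iff
      ((fullToLegE K M : ↥(keyFq K M) →ₐ[K] ↥(legE K M)) : ↥(keyFq K M) →+* ↥(legE K M))
      cM a).mpr ha
  · have h1 := (comap_val_lt_one_iff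
      ((fullToLegE K (M * q) : ↥(keyFq K (M * q)) →ₐ[K] ↥(legE K (M * q))) :
        ↥(keyFq K (M * q)) →+* ↥(legE K (M * q))) cN (f - keyFqB K M q a)).mpr hlt
    rw [RingHom.coe_coe, map_sub, xport_fullToLegE_keyFqB K hq hq2] at h1
    exact h1

end Level

section Trace

variable (R : Type*) [CommRing R] [IsDomain R] [IsDiscreteValuationRing R]
  (K₁ : IntermediateField ℚ Ω) [Algebra R ↥K₁] [IsFractionRing R ↥K₁]
  (N : ℕ) [NeZero N]

/-- the functions of the level field regular on the chart. -/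
def massSub : Subring ↥(keyFq ↥K₁ N) :=
  (chartOne R ↥(legE ↥K₁ N) (AdjoinSimple.gen ↥K₁ (jqNModC ↥K₁ 2))).toSubring.comap
    (fullToLegE ↥K₁ N : ↥(keyFq ↥K₁ N) →+* ↥(legE ↥K₁ N))

theorem mem_massSub_iff (f : ↥(keyFq ↥K₁ N)) :
    f ∈ massSub R K₁ N ↔ fullToLegE ↥K₁ N f ∈
      chartOne R ↥(legE ↥K₁ N) (AdjoinSimple.gen ↥K₁ (jqNModC ↥K₁ 2)) := by
  rw [massSub, Subring.mem_comap, Subalgebra.mem_toSubring, RingHom.coe_coe]

/-- the inclusion of the regular functions of the level field into the chart. -/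
def massSubHom : ↥(massSub R K₁ N) →+*
    ↥(chartOne R ↥(legE ↥K₁ N) (AdjoinSimple.gen ↥K₁ (jqNModC ↥K₁ 2))) where
  toFun f := ⟨fullToLegE ↥K₁ N (f : ↥(keyFq ↥K₁ N)), (mem_massSub_iff R K₁ N _).1 f.2⟩
  map_one' := Subtype.ext (map_one _)
  map_mul' a b := Subtype.ext (map_mul _ _ _)
  map_zero' := Subtype.ext (map_zero _)
  map_add' a b := Subtype.ext (map_add _ _ _)

theorem coe_massSubHom (f : ↥(massSub R K₁ N)) :
    ((massSubHom R K₁ N f : ↥(chartOne R ↥(legE ↥K₁ N) (AdjoinSimple.gen ↥K₁ (jqNModC ↥K₁ 2)))) :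
      ↥(legE ↥K₁ N)) = fullToLegE ↥K₁ N (f : ↥(keyFq ↥K₁ N)) := rfl

/-- ideals of the chart with the same contraction have the same trace. -/
theorem legNodeTrace_eq_of_comap_eq [CharZero R] [Algebra ↥K₁ ℂ]
    (𝔫 𝔫' : Ideal ↥(chartOne R ↥(legE ↥K₁ N) (AdjoinSimple.gen ↥K₁ (jqNModC ↥K₁ 2))))
    (h : 𝔫.comap (massSubHom R K₁ N) = 𝔫'.comap (massSubHom R K₁ N)) :
    legNodeTrace R ↥K₁ N 𝔫 = legNodeTrace R ↥K₁ N 𝔫' := by
  have key : ∀ 𝔞 𝔞' : Ideal ↥(chartOne R ↥(legE ↥K₁ N) (AdjoinSimple.gen ↥K₁ (jqNModC ↥K₁ 2))),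
      𝔞.comap (massSubHom R K₁ N) = 𝔞'.comap (massSubHom R K₁ N) →
      ∀ f, f ∈ legNodeTrace R ↥K₁ N 𝔞 → f ∈ legNodeTrace R ↥K₁ N 𝔞' := by
    intro 𝔞 𝔞' h f hf
    obtain ⟨hmem, hn⟩ := hf
    have h1 : (⟨f, (mem_massSub_iff R K₁ N f).2 hmem⟩ : ↥(massSub R K₁ N)) ∈
        𝔞.comap (massSubHom R K₁ N) := by
      rw [Ideal.mem_comap]
      exact hn
    rw [h, Ideal.mem_comap] at h1
    exact ⟨hmem, h1⟩
  exact Set.ext fun f => ⟨key 𝔫 𝔫' h f, key 𝔫' 𝔫 h.symm f⟩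

theorem massSub_algebraMap_mem (r : R) :
    algebraMap ↥K₁ ↥(keyFq ↥K₁ N) (algebraMap R ↥K₁ r) ∈ massSub R K₁ N := by
  rw [mem_massSub_iff, AlgHom.commutes, ← IsScalarTower.algebraMap_apply]
  exact Subalgebra.algebraMap_mem _ r

theorem massSub_jGen_mem : jGen ↥K₁ N ∈ massSub R K₁ N := by
  rw [mem_massSub_iff, fullToLegE_jGen_eq_algebraMap]
  exact algebraMap_coord_mem_chartOne _

/-- **the chart is integral over the regular functions of the level field.** -/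
theorem massSubHom_isIntegral : (massSubHom R K₁ N).IsIntegral := by
  intro b
  have hb := isIntegralElem_aeval_of_isIntegral_adjoin (R := R)
    (AdjoinSimple.gen ↥K₁ (jqNModC ↥K₁ 2)) ((mem_chartOne_iff _ _).1 b.2)
  obtain ⟨p, hp, hpe⟩ := hb
  let cR : R →+* ↥(massSub R K₁ N) :=
    ((algebraMap ↥K₁ ↥(keyFq ↥K₁ N)).comp (algebraMap R ↥K₁)).codRestrict (massSub R K₁ N)
      (fun r => massSub_algebraMap_mem R K₁ N r)
  let ψ : R[X] →+* ↥(massSub R K₁ N) := eval₂RingHom cR ⟨jGen ↥K₁ N, massSub_jGen_mem R K₁ N⟩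
  have hcomp : ((chartOne R ↥(legE ↥K₁ N) (AdjoinSimple.gen ↥K₁ (jqNModC ↥K₁ 2))).val :
      ↥(chartOne R ↥(legE ↥K₁ N) (AdjoinSimple.gen ↥K₁ (jqNModC ↥K₁ 2))) →+* ↥(legE ↥K₁ N)).comp
        ((massSubHom R K₁ N).comp ψ) =
      (aeval (R := R) (algebraMap ↥(↥K₁)⟮jqNModC ↥K₁ 2⟯ ↥(legE ↥K₁ N)
        (AdjoinSimple.gen ↥K₁ (jqNModC ↥K₁ 2)))).toRingHom := by
    apply Polynomial.ringHom_ext
    · intro a
      have h1 : ψ (C a) = cR a := by simp [ψ]
      simp only [RingHom.comp_apply, h1]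
      show fullToLegE ↥K₁ N (algebraMap ↥K₁ ↥(keyFq ↥K₁ N) (algebraMap R ↥K₁ a)) = _
      rw [AlgHom.commutes, ← IsScalarTower.algebraMap_apply]
      simp
    · have h1 : ψ X = ⟨jGen ↥K₁ N, massSub_jGen_mem R K₁ N⟩ := by simp [ψ]
      simp only [RingHom.comp_apply, h1]
      show fullToLegE ↥K₁ N (jGen ↥K₁ N) = _
      rw [fullToLegE_jGen_eq_algebraMap]
      simp
  have h2 : ((massSubHom R K₁ N).comp ψ).IsIntegralElem b := by
    refine ⟨p, hp, ?_⟩
    apply Subtype.ext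
    have := Polynomial.hom_eval₂ p ((massSubHom R K₁ N).comp ψ)
      ((chartOne R ↥(legE ↥K₁ N) (AdjoinSimple.gen ↥K₁ (jqNModC ↥K₁ 2))).val :
      ↥(chartOne R ↥(legE ↥K₁ N) (AdjoinSimple.gen ↥K₁ (jqNModC ↥K₁ 2))) →+* ↥(legE ↥K₁ N)) b
    rw [hcomp] at this
    exact this.trans hpe
  exact h2.of_comp

end Trace

section Main

variable {q : ℕ} [Fact q.Prime] {A : ValuationSubring Ω} (hA : A.LiesOverPrime q)
  {M : ℕ} [NeZero M] [NeZero q] [NeZero (M * q)] (hq2 : q ≠ 2)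
  {K₁ : IntermediateField ℚ Ω} [IsDiscreteValuationRing ↥(baseRing A K₁)]
  [CharZero ↥(baseRing A K₁)] [DecidableEq ↥(baseRing A K₁)] [Algebra ↥K₁ ℂ]
  {π : ↥(baseRing A K₁)} (h2 : IsUnit (2 : ↥(baseRing A K₁))) {x y : ℤ}
  {hbez : (q : ℤ) * x + M * y = 1} {hq : q.Prime}
  [FiniteDimensional ↥(↥K₁)⟮jqNModC ↥K₁ 2⟯ ↥(legE ↥K₁ (M * q))]
  (h : SSModel ↥K₁ (KM := ↥(↥K₁)⟮legT ↥K₁⟯) (EM := ↥(legE ↥K₁ M))
      (KN := ↥(↥K₁)⟮jqNModC ↥K₁ 2⟯) (EN := ↥(legE ↥K₁ (M * q))) π q M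
      ({0, 1} : Finset ↥(baseRing A K₁))
      (AdjoinSimple.gen ↥K₁ (legT ↥K₁)) (legJE ↥K₁ M) (AdjoinSimple.gen ↥K₁ (jqNModC ↥K₁ 2))
      (legHostA ↥K₁ M q : ↥(legE ↥K₁ M) →+* ↥(legE ↥K₁ (M * q)))
      (legHostB ↥K₁ M q hq hq2 : ↥(legE ↥K₁ M) →+* ↥(legE ↥K₁ (M * q)))
      (legWinf ↥(baseRing A K₁) ↥K₁ h2 M) (legWinf ↥(baseRing A K₁) ↥K₁ h2 (M * q))
      (legW0 ↥(baseRing A K₁) ↥K₁ hbez hq))

/-- the kernel of the reduction map of level `M` contains the maximal ideal. -/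
theorem legRhoBase_eq_zero_of_lt (a : ↥(legWinf ↥(baseRing A K₁) ↥K₁ h2 M))
    (ha : (legWinf ↥(baseRing A K₁) ↥K₁ h2 M).valuation (a : ↥(legE ↥K₁ M)) < 1) :
    legRhoBase hA M hq2 K₁ h2 a = 0 :=
  (legRhoBase_eq_zero_iff hA M hq2 K₁ h2 a).mpr ha

/-- the reduction of the coordinate `j` of level `M`. -/
theorem legRhoBase_legJE (hj : legJE ↥K₁ M ∈ legWinf ↥(baseRing A K₁) ↥K₁ h2 M) :
    legRhoBase hA M hq2 K₁ h2 ⟨legJE ↥K₁ M, hj⟩ = legJb hA M hq2 := by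
  rw [legRhoBase_apply]
  unfold legJb
  congr 1
  exact Subtype.ext (legBC_legJE M K₁)

/-- the reduction of a Gauss-integral function of the level field lies in `legLevelRed`. -/
theorem legRhoBase_fullToLegE_mem_legLevelRed (a : ↥(keyFq ↥K₁ M))
    (ha : fullToLegE ↥K₁ M a ∈ legWinf ↥(baseRing A K₁) ↥K₁ h2 M) :
    legRhoBase hA M hq2 K₁ h2 ⟨fullToLegE ↥K₁ M a, ha⟩ ∈ legLevelRed hA M hq2 := by
  have hW : fullToLegE Ω M (keyFqBC M K₁ a) ∈ legWE hA M hq2 := by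
    rw [← bcdeg_legBC_fullToLegE]
    exact legBC_mem_legWE_of_mem_legWinf hA M hq2 K₁ h2 _ ha
  rw [legRhoBase_fullToLegE hA M hq2 K₁ h2 a ha hW]
  exact ⟨keyFqBC M K₁ a, hW, rfl⟩

end Main

end

end Fermat.Agent.ML
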