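/-
PROJECT ML (S59) — helper8 — **[MASS]: the mass bound on the two-sheet model of level `M q`**
(helper3's literal `ML.MassStatement`, `ML/IFACE_helper3_Surj.lean`).

A finite set of nodes of the chart of the Legendre host of level `M q` with pairwise distinct traces
on the level field has at most `g(M q) - 2 g(M) + 1` elements: the lattice `massLat n` of sections of
order `n` is free of rank `≥ n ψ(M q) + 1 - g(M q)` (Riemann–Roch over `ℚ̄` and descent), its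
reductions on the two sheets lie in `massX n`, `massX (q n)` of dimensions
`≤ n ψ(M) + 1 - g(M)`, `≤ q n ψ(M) + 1 - g(M)` (lifting + averaging + Riemann–Roch at level `M`), and
each node costs one condition (`massCount`).
-/
import Mathlib
import Fermat.Agent.ML.MASS_helper8_Glue
import Fermat.Agent.GR.ANORM_helper5_Fricke

set_option autoImplicit false
set_option linter.unusedSectionVars false
set_option linter.unusedVariables false
set_option linter.style.haveILetI false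
set_option synthInstance.maxHeartbeats 400000

open Polynomial ModularCurve IntermediateField AlgebraicCurve Module IsLocalRing

namespace Fermat.Agent.ML

open Fermat.Agent.JA Fermat.Agent.FF Fermat.Agent.SS Fermat.Agent.S35 Fermat.Agent.MP
  Fermat.Agent.FG Fermat.Agent.X0N Fermat.Agent.Igusa

open scoped Fermat.Agent.JA.Host

/-- `Ω = AlgebraicClosure ℚ`. -/
local notation "Ω" => AlgebraicClosure ℚ

noncomputable section

section Main

variable {q : ℕ} [Fact q.Prime] {A : ValuationSubring Ω} (hA : A.LiesOverPrime q)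
  {M : ℕ} [NeZero M] [NeZero q] [NeZero (M * q)] (hq2 : q ≠ 2)
  {K₁ : IntermediateField ℚ Ω} [IsDiscreteValuationRing ↥(baseRing A K₁)]
  [CharZero ↥(baseRing A K₁)] [DecidableEq ↥(baseRing A K₁)] [Algebra ↥K₁ ℂ]
  {π : ↥(baseRing A K₁)} (h2 : IsUnit (2 : ↥(baseRing A K₁))) {x y : ℤ}
  {hbez : (q : ℤ) * x + M * y = 1} {hq : q.Prime}
  [FiniteDimensional ↥(↥K₁)⟮jqNModC ↥K₁ 2⟯ ↥(legE ↥K₁ (M * q))]
  (h : SSModel ↥K₁ (KM := ↥(↥K₁)⟮legT ↥K₁⟯) (EM := ↥(legE ↥K₁ M))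
      (KN := ↥(↥K₁)⟮jqNModC ↥K₁ 2⟯) (EN := ↥(legE ↥K₁ (M * q))) π q M
      ({0, 1} : Finset ↥(baseRing A K₁))
      (AdjoinSimple.gen ↥K₁ (legT ↥K₁)) (legJE ↥K₁ M) (AdjoinSimple.gen ↥K₁ (jqNModC ↥K₁ 2))
      (legHostA ↥K₁ M q : ↥(legE ↥K₁ M) →+* ↥(legE ↥K₁ (M * q)))
      (legHostB ↥K₁ M q hq hq2 : ↥(legE ↥K₁ M) →+* ↥(legE ↥K₁ (M * q)))
      (legWinf ↥(baseRing A K₁) ↥K₁ h2 M) (legWinf ↥(baseRing A K₁) ↥K₁ h2 (M * q))
      (legW0 ↥(baseRing A K₁) ↥K₁ hbez hq))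

/-- the residue map `R₁ → k`. -/
def massRes (A : ValuationSubring Ω) (K₁ : IntermediateField ℚ Ω) :
    ↥(baseRing A K₁) →+* ResidueField ↥A :=
  (baseResidueMap A K₁).comp (residue ↥(baseRing A K₁))

/-- the reduction map of level `M` is compatible with the constants. -/
theorem legRhoBase_const (r : ↥(baseRing A K₁)) :
    legRhoBase hA M hq2 K₁ h2 ⟨algebraMap ↥(baseRing A K₁) ↥(legE ↥K₁ M) r,
      massModel_algebraMap_mem_VM h r⟩ =
      algebraMap (ResidueField ↥A) (legEt hA M hq2) (massRes A K₁ r) :=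
  legRhoBase_algebraMap hA M hq2 K₁ h2 r _

set_option maxHeartbeats 3200000 in
/-- **the reductions of the lattice on the sheet `∞`.** -/
theorem massChInf_mem_massX (hπ : Irreducible π) (hqM : ¬ q ∣ M) {n : ℕ}
    (b : ↥(chartOne ↥(baseRing A K₁) ↥(legE ↥K₁ (M * q))
      (AdjoinSimple.gen ↥K₁ (jqNModC ↥K₁ 2))))
    (hb : b ∈ massLat (R := ↥(baseRing A K₁)) K₁ (M * q) n) :
    massChInf h (legRhoBase hA M hq2 K₁ h2) (legRhoBase_eq_zero_of_lt hA hq2 h2) b ∈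
      massX hA M hq2 n := by
  refine Submodule.mem_inf.mpr ⟨?_, ?_⟩
  · have hb' := inv_pow_mul_mem_chartOne_of_mem_massLat hπ h b hb
    have h1 := isPoleSection_massChInf h (legRhoBase hA M hq2 K₁ h2)
      (legRhoBase_eq_zero_of_lt hA hq2 h2) (massRes A K₁) (legRhoBase_const hA hq2 h2 h) hπ b n hb'
    rw [legRhoBase_legJE] at h1
    exact h1.mem_polePlaceLat
  · obtain ⟨f, hf, -⟩ := hb
    have hbW : (b : ↥(legE ↥K₁ (M * q))) ∈ legWinf ↥(baseRing A K₁) ↥K₁ h2 (M * q) :=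
      h.two.chart_le_inf _ b.2
    obtain ⟨a, ha, hlt⟩ := exists_keyFq_congr_inf_host ↥(baseRing A K₁) ↥K₁ h2 hbez hq hqM hπ
      h.q_mem f (by rw [hf]; exact hbW)
    rw [massChInf_apply, massRedInf_eq_of_congr h (legRhoBase hA M hq2 K₁ h2)
      (legRhoBase_eq_zero_of_lt hA hq2 h2) ⟨(b : ↥(legE ↥K₁ (M * q))), hbW⟩
      (fullToLegE ↥K₁ M a) ha (by rw [← hf]; exact hlt)]
    exact legRhoBase_fullToLegE_mem_legLevelRed hA hq2 h2 a ha

set_option maxHeartbeats 3200000 in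
/-- **the reductions of the lattice on the sheet `0`.** -/
theorem massChZero_mem_massX (hπ : Irreducible π) (hqM : ¬ q ∣ M) {n : ℕ}
    (b : ↥(chartOne ↥(baseRing A K₁) ↥(legE ↥K₁ (M * q))
      (AdjoinSimple.gen ↥K₁ (jqNModC ↥K₁ 2))))
    (hb : b ∈ massLat (R := ↥(baseRing A K₁)) K₁ (M * q) n) :
    massChZero h (legRhoBase hA M hq2 K₁ h2) (legRhoBase_eq_zero_of_lt hA hq2 h2) b ∈
      massX hA M hq2 (q * n) := by
  refine Submodule.mem_inf.mpr ⟨?_, ?_⟩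
  · have hb' := inv_pow_mul_mem_chartOne_of_mem_massLat hπ h b hb
    have h1 := isPoleSection_massChZero h (legRhoBase hA M hq2 K₁ h2)
      (legRhoBase_eq_zero_of_lt hA hq2 h2) (massRes A K₁) (legRhoBase_const hA hq2 h2 h) hπ b n hb'
    rw [legRhoBase_legJE] at h1
    exact (IsPoleSection.of_pow' h1).mem_polePlaceLat
  · obtain ⟨f, hf, -⟩ := hb
    have hbW : (b : ↥(legE ↥K₁ (M * q))) ∈ legW0 ↥(baseRing A K₁) ↥K₁ hbez hq :=
      h.two.chart_le_zero _ b.2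
    obtain ⟨a, ha, hlt⟩ := exists_keyFq_congr_zero_host ↥(baseRing A K₁) ↥K₁ h2 hbez hq hq2 hqM hπ
      h.q_mem f (by rw [hf]; exact hbW)
    rw [massChZero_apply, massRedZero_eq_of_congr h (legRhoBase hA M hq2 K₁ h2)
      (legRhoBase_eq_zero_of_lt hA hq2 h2) ⟨(b : ↥(legE ↥K₁ (M * q))), hbW⟩
      (fullToLegE ↥K₁ M a) ha (by rw [← hf]; exact hlt)]
    exact legRhoBase_fullToLegE_mem_legLevelRed hA hq2 h2 a ha

theorem massRes_uniformizer (hπ : Irreducible π) : massRes A K₁ π = 0 := by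
  show baseResidueMap A K₁ (residue ↥(baseRing A K₁) π) = 0
  have : residue ↥(baseRing A K₁) π = 0 := by
    rw [residue_eq_zero_iff, mem_maximalIdeal, mem_nonunits_iff]
    exact hπ.not_isUnit
  rw [this, map_zero]

include hA in
set_option maxHeartbeats 6400000 in
/-- **[MASS] on one model.** -/
theorem card_add_genus_le_of_nodes (hq5 : 5 ≤ q) (hqM : ¬ q ∣ M) (hK₁ : IsBase q K₁)
    (hπ : Irreducible π)
    (s : Finset (Ideal ↥(chartOne ↥(baseRing A K₁) ↥(legE ↥K₁ (M * q))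
      (AdjoinSimple.gen ↥K₁ (jqNModC ↥K₁ 2)))))
    (hnode : ∀ 𝔫 ∈ s, IsNode h.two 𝔫)
    (hinj : Set.InjOn (legNodeTrace ↥(baseRing A K₁) ↥K₁ (M * q)) (↑s : Set (Ideal _))) :
    (s.card : ℚ) + 2 * genusFormula M ≤ genusFormula (M * q) + 1 := by
  classical
  have hqp : q.Prime := Fact.out
  obtain ⟨n₁, g', hg', hup⟩ := exists_finrank_massX_le hA M hqM hq2 hq5
  obtain ⟨g₁, hg₁, hlow⟩ := exists_independent_poleSections (q := q) (M * q) hK₁.flatBase_le
  -- the nodes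
  obtain ⟨𝔪, h𝔪s, h𝔪inj⟩ : ∃ 𝔪 : Fin s.card → Ideal ↥(chartOne ↥(baseRing A K₁)
      ↥(legE ↥K₁ (M * q)) (AdjoinSimple.gen ↥K₁ (jqNModC ↥K₁ 2))),
      (∀ i, 𝔪 i ∈ s) ∧ Function.Injective 𝔪 :=
    ⟨fun i => ((s.equivFin.symm i : ↥s) : Ideal _), fun i => (s.equivFin.symm i).2,
      fun i j hij => s.equivFin.symm.injective (Subtype.ext hij)⟩
  have hmax : ∀ i, (𝔪 i).IsMaximal := fun i => (hnode _ (h𝔪s i)).1
  have hne : ∀ i j, i ≠ j →
      (𝔪 i).comap (massSubHom ↥(baseRing A K₁) K₁ (M * q)) ≠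
        (𝔪 j).comap (massSubHom ↥(baseRing A K₁) K₁ (M * q)) := by
    intro i j hij hcomap
    have := legNodeTrace_eq_of_comap_eq ↥(baseRing A K₁) K₁ (M * q) (𝔪 i) (𝔪 j) hcomap
    exact hij (h𝔪inj (hinj (h𝔪s i) (h𝔪s j) this))
  obtain ⟨c, hc1, hc0⟩ := exists_crt_of_comap_ne (massSubHom ↥(baseRing A K₁) K₁ (M * q))
    (massSubHom_isIntegral ↥(baseRing A K₁) K₁ (M * q)) 𝔪 hmax hne
  -- the pole orders of the node elements
  have hcm : ∀ i, ∃ m, massSubHom ↥(baseRing A K₁) K₁ (M * q) (c i) ∈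
      massLat (R := ↥(baseRing A K₁)) K₁ (M * q) m := fun i =>
    exists_mem_massLat _ ((c i : ↥(massSub ↥(baseRing A K₁) K₁ (M * q))) : ↥(keyFq ↥K₁ (M * q)))
      (coe_massSubHom ↥(baseRing A K₁) K₁ (M * q) (c i)).symm
  choose mc hmc using hcm
  obtain ⟨n, hn1, hnc⟩ : ∃ n, n₁ ≤ n ∧ ∀ i, massSubHom ↥(baseRing A K₁) K₁ (M * q) (c i) ∈
      massLat (R := ↥(baseRing A K₁)) K₁ (M * q) n :=
    ⟨max n₁ (Finset.univ.sup mc), le_max_left _ _, fun i =>
      massLat_mono (le_trans (Finset.le_sup (Finset.mem_univ i)) (le_max_right _ _)) (hmc i)⟩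
  -- the lattice
  obtain ⟨r, e, hr⟩ := exists_basis_massLat (R := ↥(baseRing A K₁)) (K₁ := K₁) (N := M * q) h2 n
  obtain ⟨m, v, hv, hvp, hm⟩ := hlow n
  have hmr : m ≤ r := hr m v hv hvp
  -- the upper bounds
  obtain ⟨hfX, hX⟩ := hup n hn1
  obtain ⟨hfY, hY⟩ := hup (q * n) (le_trans hn1 (Nat.le_mul_of_pos_left n hqp.pos))
  haveI := hfX
  haveI := hfY
  -- the count
  have hcount := massCount π (massRes A K₁)
    (massChInf h (legRhoBase hA M hq2 K₁ h2) (legRhoBase_eq_zero_of_lt hA hq2 h2))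
    (massChZero h (legRhoBase hA M hq2 K₁ h2) (legRhoBase_eq_zero_of_lt hA hq2 h2))
    (legBaseRes_surjective hA K₁ hK₁) (massRes_uniformizer hπ)
    (massChInf_algebraMap h (legRhoBase hA M hq2 K₁ h2) (legRhoBase_eq_zero_of_lt hA hq2 h2)
      (massRes A K₁) (legRhoBase_const hA hq2 h2 h))
    (massChZero_algebraMap h (legRhoBase hA M hq2 K₁ h2) (legRhoBase_eq_zero_of_lt hA hq2 h2)
      (massRes A K₁) (legRhoBase_const hA hq2 h2 h))
    (massCh_sat h (legRhoBase hA M hq2 K₁ h2) (legRhoBase_eq_zero_of_lt hA hq2 h2) hπ)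
    (massLat (R := ↥(baseRing A K₁)) K₁ (M * q) n) e (massLat_sat hπ.ne_zero n)
    (massX hA M hq2 n) (massX hA M hq2 (q * n))
    (fun l hl => massChInf_mem_massX hA hq2 h2 h hπ hqM l hl)
    (fun l hl => massChZero_mem_massX hA hq2 h2 h hπ hqM l hl)
    𝔪
    (fun j b hb => mem_of_isNode_of_massChInf_eq_zero h (legRhoBase hA M hq2 K₁ h2)
      (legRhoBase_eq_zero_of_lt hA hq2 h2) (hnode _ (h𝔪s j)) b hb)
    (fun j b hb => mem_of_isNode_of_massChZero_eq_zero h (legRhoBase hA M hq2 K₁ h2)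
      (legRhoBase_eq_zero_of_lt hA hq2 h2) (hnode _ (h𝔪s j)) b hb)
    (fun j r hr => dvd_of_algebraMap_mem_of_ne_top hπ (hmax j).ne_top r hr)
    (fun i => massSubHom ↥(baseRing A K₁) K₁ (M * q) (c i)) hc1 hc0
    (fun i => massChInf_mem_massX hA hq2 h2 h hπ hqM _ (hnc i))
  -- the arithmetic
  have hψ : dedekindPsi (M * q) = dedekindPsi M * (q + 1) := by
    rw [Fermat.Agent.X0N.dedekindPsi_mul_prime (NeZero.ne M) hqp, if_neg hqM]
  rw [hψ] at hm
  have hcount' : ((r : ℤ) + (s.card : ℤ)) ≤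
      (finrank (ResidueField ↥A) ↥(massX hA M hq2 n) : ℤ) +
        (finrank (ResidueField ↥A) ↥(massX hA M hq2 (q * n)) : ℤ) := by
    exact_mod_cast hcount
  have hmr' : (m : ℤ) ≤ (r : ℤ) := by exact_mod_cast hmr
  push_cast at hm hY
  have hfin : (s.card : ℤ) + 2 * (g' : ℤ) ≤ (g₁ : ℤ) + 1 := by nlinarith
  have hfinQ : ((s.card : ℤ) : ℚ) + 2 * ((g' : ℤ) : ℚ) ≤ ((g₁ : ℤ) : ℚ) + 1 := by
    exact_mod_cast hfin
  rw [← hg', ← hg₁]
  exact_mod_cast hfinQ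

end Main

set_option maxHeartbeats 3200000 in
/-- **[MASS]** (helper3's literal `ML.MassStatement`). -/
theorem massStatement : MassStatement := by
  intro M q _ _ _ hq hq2 hq5 hqM A hA K₁ hK₁ _ _ _ π hπ h2 x y hbez
  letI := baseToComplex K₁
  intro hmodel s hnode hinj
  haveI : Fact q.Prime := ⟨hq⟩
  haveI : FiniteDimensional ↥(↥K₁)⟮jqNModC ↥K₁ 2⟯ ↥(legE ↥K₁ (M * q)) :=
    finite_legE_adjoin_j ↥K₁ (M * q)
  have h := SSModelLeg.ssModel ↥(baseRing A K₁) ↥K₁ hmodel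
  exact card_add_genus_le_of_nodes hA hq2 h2 h hq5 hqM hK₁ hπ s hnode hinj

end

end Fermat.Agent.ML
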