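/-
ML — helper5 — **[STKILL], part 1: the degeneracy pushforwards `J₀(M q) → J₀(M)` are
Galois-equivariant**, and the joint kernel of two Kummer-intertwined transfers on
`Hom_par(Γ', ℤ_p)` is stable under the transported Galois action.
-/
import Mathlib
import Fermat.Agent.S35.P1_lead_Kap
import Fermat.Agent.S35.P1_lead_Two
import Fermat.Agent.GR.TSWAP_helper4_Main
import Fermat.Agent.GR.TATE_lead_Gal

set_option autoImplicit false
set_option linter.unusedSectionVars false
set_option linter.unusedVariables false
set_option linter.style.haveILetI false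

open AlgebraicCurve ModularCurve ModularCurve.Period CongruenceSubgroup

open scoped MatrixGroups

namespace Fermat.Agent.ML

open Fermat.Agent.GR Fermat.Agent.X0N Fermat.Agent.JA Fermat.Agent.S35

/-- `Ω = AlgebraicClosure ℚ`. -/
local notation "Ω" => AlgebraicClosure ℚ

/-- the absolute Galois group. -/
local notation "GQ" => (AlgebraicClosure ℚ ≃ₐ[ℚ] AlgebraicClosure ℚ)

section Push

variable (M q : ℕ) [NeZero M] [NeZero q] [NeZero (M * q)]
  (φ : ↥(modularFunctionFieldBar M) →ₐ[Ω] ↥(modularFunctionFieldBar (M * q)))

/-- **the pushforward along an embedding commuting with the arithmetic Galois action is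
Galois-equivariant.** -/
theorem degPush_galois_smul
    (hT : ∀ σ : GQ, Transports (arithmeticGalois (modularFunctionFieldFull M) σ)
      (arithmeticGalois (modularFunctionFieldFull (M * q)) σ) φ φ)
    (σ : GQ) (x : JZero (M * q)) : degPush M q φ (σ • x) = σ • degPush M q φ x := by
  haveI : HasPrincipalDivisors Ω ↥(modularFunctionFieldBar (M * q)) :=
    (jCoordBar (M * q)).hasPrincipalDivisors
  have hφ : φ.toRingHom.IsIntegral :=
    isIntegral_of_finiteAlong _ (finiteAlong_of_coord (jCoordBar M) (jCoordBar (M * q)) φ)
  obtain ⟨D, rfl⟩ := Pic0.mk_surjective x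
  rw [galois_smul_pic0_def, galois_smul_pic0_def, SemilinearAut.pic0_smul_mk, degPush_mk,
    degPush_mk, SemilinearAut.pic0_smul_mk]
  refine congrArg Pic0.mk (Subtype.ext ?_)
  show degPushDiv M q φ (arithmeticGalois (modularFunctionFieldFull (M * q)) σ •
      (D : Divisor Ω ↥(modularFunctionFieldBar (M * q)))) =
    arithmeticGalois (modularFunctionFieldFull M) σ •
      degPushDiv M q φ (D : Divisor Ω ↥(modularFunctionFieldBar (M * q)))
  exact (hT σ).pushforwardAlong_smul hφ hφ (fun W => (jCoordBar (M * q)).deg_eq_one W)
    (D : Divisor Ω ↥(modularFunctionFieldBar (M * q)))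

theorem degPushAlpha_galois_smul (σ : GQ) (x : JZero (M * q)) :
    degPushAlpha M q (σ • x) = σ • degPushAlpha M q x :=
  degPush_galois_smul M q _ (fun τ => transports_arithmeticGalois_alpha M q τ) σ x

theorem degPushBeta_galois_smul (σ : GQ) (x : JZero (M * q)) :
    degPushBeta M q (σ • x) = σ • degPushBeta M q x :=
  degPush_galois_smul M q _ (fun τ => transports_arithmeticGalois_beta M q τ) σ x

end Push

end Fermat.Agent.ML
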