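/-
ML — helper7 — [S59] [NEWT-L] **[NEW-TORIC] for every odd prime `p`: the literals without `5 ≤ p`.**

Copies of `NewToricAtStatement` (helper6), `LegNewBaseQ`, `LegNewDictQ`, `LegNewDeltaQ` (helper7) with
the hypothesis `5 ≤ p` dropped ((D1), (D2)) or replaced by `p ≠ 2` ([BASE]-NEW, [NODE-I]); suffix `O`
("odd").  The frozen files of the S43 closure are untouched.
-/
import Mathlib
import Fermat.Agent.RB.NEWT_helper6_Hyp
import Fermat.Agent.SS.UNIT_helper6_Fricke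

set_option autoImplicit false
set_option linter.unusedSectionVars false
set_option linter.unusedVariables false
set_option linter.style.haveILetI false
set_option synthInstance.maxHeartbeats 400000

open HahnSeries IntermediateField AlgebraicCurve ModularCurve IsLocalRing

namespace Fermat.Agent.ML

open Fermat.Agent.RB

open Fermat.Agent.JA Fermat.Agent.FF Fermat.Agent.SS Fermat.Agent.S35 Fermat.Agent.MP
  Fermat.Agent.NP Fermat.Agent.GR Fermat.Agent.FG Fermat.Agent.X0N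

open scoped Fermat.Agent.JA.Host

/-- `Ω = AlgebraicClosure ℚ`. -/
local notation "Ω" => AlgebraicClosure ℚ

/-- **[NODE-I] at every place, all levels, every odd prime `p`.** -/
def NewToricAtStatementO : Prop :=
  ∀ (M q p : ℕ) [NeZero M] [NeZero q] [NeZero (M * q)], q.Prime → q ≠ 2 → p.Prime → p ≠ 2 →
    q ≠ p → ¬ q ∣ M → ∀ A : ValuationSubring Ω, A.LiesOverPrime q → NewToricAt M q p A

/-- **[BASE]-NEW, every odd prime `p`.** -/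
def LegNewBaseQO : Prop :=
  ∀ (M q p : ℕ) [NeZero M] [NeZero q] [NeZero (M * q)] (hq : q.Prime), q ≠ 2 → p.Prime → p ≠ 2 →
    q ≠ p → ¬ q ∣ M → ∀ (A : ValuationSubring Ω), A.LiesOverPrime q → ∃ c : ℕ,
  ∀ (k : ℕ) (K₁ : IntermediateField ℚ Ω) [Normal ℚ ↥K₁] (K' : IntermediateField ℚ Ω)
    (f₀ : ↥(keyFq ↥K' (M * q))), LegNewHyp q (p ^ k) M A K₁ K' f₀ →
    (∀ {x y : ℤ} (hbez : (q : ℤ) * x + M * y = 1),
      LegNewHyp q (p ^ k) M A K₁ K'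
        (letI := baseToComplex K'; atkinLehnerN (algebraMap ↥K' ℂ) hbez hq f₀)) →
    ∃ (c' : ↥K') (h : ↥(keyFq ↥K' (M * q))), c' ≠ 0 ∧ h ≠ 0 ∧
      LegToricAt M q (p ^ k) A K'
        (fullToLegE ↥K' (M * q)
          (algebraMap ↥K' ↥(keyFq ↥K' (M * q)) c' * f₀ ^ (p ^ c) * h ^ (p ^ k)))

/-- **(D1) [NEW-DICT], host form, every prime `p ≠ q`.** -/
def LegNewDictQO : Prop :=
  ∀ (M : ℕ) [NeZero M] (q : ℕ) [NeZero q] [NeZero (M * q)] [Fact q.Prime] (hq2 : q ≠ 2),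
    ¬ q ∣ M → ∀ (p : ℕ), p.Prime → p ≠ q →
  ∀ (A : ValuationSubring Ω) (hA : A.LiesOverPrime q) (k : ℕ)
    (K₁ : IntermediateField ℚ Ω) [Normal ℚ ↥K₁] (K' : IntermediateField ℚ Ω)
    [IsDiscreteValuationRing ↥(baseRing A K')]
    (f₀ : ↥(keyFq ↥K' (M * q))), LegNewHyp q (p ^ k) M A K₁ K' f₀ →
  ∀ (ϖ : ↥(baseRing A K')), Irreducible ϖ → ∀ (h2 : IsUnit (2 : ↥(baseRing A K'))) {x y : ℤ}
    (hbez : (q : ℤ) * x + M * y = 1) (ainf a0 : ℤ) (w₀ wU : ↥(keyFq ↥K' M)),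
    (legWinf ↥(baseRing A K') ↥K' h2 M).valuation (fullToLegE ↥K' M w₀) = 1 →
    (legWinf ↥(baseRing A K') ↥K' h2 M).valuation (fullToLegE ↥K' M wU) = 1 →
    (legWinf ↥(baseRing A K') ↥K' h2 (M * q)).valuation
      (fullToLegE ↥K' (M * q) f₀ *
        (algebraMap ↥(baseRing A K') ↥(legE ↥K' (M * q)) ϖ ^ ainf)⁻¹ -
        legHostA ↥K' M q (fullToLegE ↥K' M w₀)) < 1 →
    (legWinf ↥(baseRing A K') ↥K' h2 (M * q)).valuation
      (fullToLegE ↥K' (M * q) (modUnit ↥K' (M * q) q (Dvd.intro_left M rfl)) -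
        legHostA ↥K' M q (fullToLegE ↥K' M wU)) < 1 →
    (letI := baseToComplex K'
     legW0 ↥(baseRing A K') ↥K' hbez (Fact.out : q.Prime)).valuation
      (fullToLegE ↥K' (M * q) f₀ *
        (algebraMap ↥(baseRing A K') ↥(legE ↥K' (M * q)) ϖ ^ a0)⁻¹) = 1 →
  ∀ (hW : fullToLegE Ω M (keyFqBC M K' w₀) ∈ legWE hA M hq2)
    (hWU : fullToLegE Ω M (keyFqBC M K' wU) ∈ legWE hA M hq2)
    (Q : Place (ResidueField ↥A) (legEt hA M hq2)),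
    ((p ^ k : ℕ) : ℤ) ∣
        12 * Q.ord (legρ hA M hq2 ⟨fullToLegE Ω M (keyFqBC M K' w₀), hW⟩) -
          (a0 - ainf) * Q.ord (legρ hA M hq2 ⟨fullToLegE Ω M (keyFqBC M K' wU), hWU⟩) ∨
      ((p ^ k : ℕ) : ℤ) ∣ Q.ord (legρ hA M hq2 ⟨fullToLegE Ω M (keyFqBC M K' w₀), hW⟩)

/-- **(D2) [NEW-DELTA], every prime `p ≠ q`.** -/
def LegNewDeltaQO : Prop :=
  ∀ (M : ℕ) [NeZero M] (q : ℕ) [NeZero q] [NeZero (M * q)] [Fact q.Prime] (hq2 : q ≠ 2),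
    ¬ q ∣ M → ∀ (p : ℕ), p.Prime → p ≠ q →
  ∀ (A : ValuationSubring Ω) (hA : A.LiesOverPrime q), ∃ c₀ : ℕ,
  ∀ (k : ℕ) (K₁ : IntermediateField ℚ Ω) [Normal ℚ ↥K₁] (K' : IntermediateField ℚ Ω)
    [IsDiscreteValuationRing ↥(baseRing A K')]
    (f₀ : ↥(keyFq ↥K' (M * q))), LegNewHyp q (p ^ k) M A K₁ K' f₀ →
  ∀ (ϖ : ↥(baseRing A K')), Irreducible ϖ → ∀ (h2 : IsUnit (2 : ↥(baseRing A K'))) {x y : ℤ}
    (hbez : (q : ℤ) * x + M * y = 1) (ainf a0 : ℤ),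
    (legWinf ↥(baseRing A K') ↥K' h2 (M * q)).valuation
      (fullToLegE ↥K' (M * q) f₀ *
        (algebraMap ↥(baseRing A K') ↥(legE ↥K' (M * q)) ϖ ^ ainf)⁻¹) = 1 →
    (letI := baseToComplex K'
     legW0 ↥(baseRing A K') ↥K' hbez (Fact.out : q.Prime)).valuation
      (fullToLegE ↥K' (M * q) f₀ *
        (algebraMap ↥(baseRing A K') ↥(legE ↥K' (M * q)) ϖ ^ a0)⁻¹) = 1 →
    ((p ^ k : ℕ) : ℤ) ∣ ((p ^ c₀ : ℕ) : ℤ) * (a0 - ainf)

end Fermat.Agent.ML
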