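/-
ML — helper7 — [S59] [NEWT-L] **[BASE]-NEW, abstract normalisation, version without `gcd(12, p) = 1`**
(Mathlib only; generalises `NEWT_helper7_Norm`: the exponent of the node unit is an arbitrary integer
`j` with `c j = n k`, so that `n ≡ 1 mod r` only has to be divisible by the prime-to-`p` part of
`c = 12`).

`F ϖ ^ (-a∞)` a unit along `W_∞`, `F ϖ ^ (-a₀)` a unit along `W_0`, `e (a₀ - a∞) = r k`, `U` a unit
along `W_∞` with `U ϖ ^ (-c)` a unit along `W_0`, `n = 1 + r s`, `c j = n k`: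
`G = ϖ ^ (-n e a∞) F ^ e (F ^ (e s) U ^ (-j)) ^ r` is a unit along both sheets.
-/
import Mathlib

set_option autoImplicit false
set_option linter.unusedSectionVars false
set_option linter.unusedVariables false
set_option linter.style.haveILetI false

namespace Fermat.Agent.ML.P3

section Abstract

variable {E : Type*} [Field E]

/-- the normalised function in the `W_∞`-adapted form. -/
theorem newNorm_eq_inf {ϖ U F : E} (hϖ : ϖ ≠ 0) {r n s e : ℕ} (hn : n = 1 + r * s)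
    (ainf j : ℤ) :
    (ϖ ^ ((n : ℤ) * ((e : ℤ) * ainf)))⁻¹ * F ^ e * (F ^ (e * s) * U ^ (-j)) ^ r =
      (F * (ϖ ^ ainf)⁻¹) ^ (e * n) * (U ^ (-j)) ^ r := by
  set u : E := U ^ (-j) with hu
  set A : E := ϖ ^ ainf with hA
  have e1 : ϖ ^ ((n : ℤ) * ((e : ℤ) * ainf)) = A ^ (e * n) := by
    rw [hA, ← zpow_natCast (ϖ ^ ainf) (e * n), ← zpow_mul]
    congr 1
    push_cast
    ring
  have hen : e * n = e + e * s * r := by rw [hn]; ring
  rw [e1, mul_pow, mul_pow, inv_pow, ← pow_mul, hen, pow_add]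
  ring

/-- the normalised function in the `W_0`-adapted form. -/
theorem newNorm_eq_zero {ϖ U F : E} (hϖ : ϖ ≠ 0) {c r n s e : ℕ} (hn : n = 1 + r * s)
    {ainf a0 k j : ℤ} (hk : (e : ℤ) * (a0 - ainf) = r * k) (hj : (c : ℤ) * j = n * k) :
    (ϖ ^ ((n : ℤ) * ((e : ℤ) * ainf)))⁻¹ * F ^ e * (F ^ (e * s) * U ^ (-j)) ^ r =
      (F * (ϖ ^ a0)⁻¹) ^ (e * n) * ((U * (ϖ ^ c)⁻¹) ^ (-j)) ^ r := by
  rw [newNorm_eq_inf hϖ hn ainf j]
  set u : E := U ^ (-j) with hu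
  have e3 : (U * (ϖ ^ c)⁻¹) ^ (-j) = u * ϖ ^ ((n : ℤ) * k) := by
    rw [mul_zpow, inv_zpow, zpow_neg (ϖ ^ c), inv_inv, ← zpow_natCast ϖ c, ← zpow_mul, hj]
  have e4 : (ϖ ^ a0) ^ (e * n) = (ϖ ^ ainf) ^ (e * n) * (ϖ ^ ((n : ℤ) * k)) ^ r := by
    rw [← zpow_natCast (ϖ ^ a0), ← zpow_mul, ← zpow_natCast (ϖ ^ ainf), ← zpow_mul,
      ← zpow_natCast (ϖ ^ ((n : ℤ) * k)), ← zpow_mul, ← zpow_add₀ hϖ]
    congr 1
    push_cast
    have h1 : a0 * ((e : ℤ) * n) = (n : ℤ) * ((e : ℤ) * (a0 - ainf)) + ainf * ((e : ℤ) * n) := by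
      ring
    rw [h1, hk]
    ring
  rw [e3, mul_pow, mul_pow, inv_pow, inv_pow, e4, mul_pow u, mul_inv]
  have hB : (ϖ ^ ((n : ℤ) * k)) ^ r ≠ 0 := pow_ne_zero _ (zpow_ne_zero _ hϖ)
  field_simp

/-- **the normalised function is a unit along both sheets.** -/
theorem newNorm_val (Winf W0 : ValuationSubring E) {ϖ U F : E} (hϖ : ϖ ≠ 0) {c r n s e : ℕ}
    (hn : n = 1 + r * s) {ainf a0 k j : ℤ}
    (hk : (e : ℤ) * (a0 - ainf) = r * k) (hj : (c : ℤ) * j = n * k)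
    (hUinf : Winf.valuation U = 1) (hU0 : W0.valuation (U * (ϖ ^ c)⁻¹) = 1)
    (hFinf : Winf.valuation (F * (ϖ ^ ainf)⁻¹) = 1) (hF0 : W0.valuation (F * (ϖ ^ a0)⁻¹) = 1) :
    Winf.valuation ((ϖ ^ ((n : ℤ) * ((e : ℤ) * ainf)))⁻¹ * F ^ e *
        (F ^ (e * s) * U ^ (-j)) ^ r) = 1 ∧
      W0.valuation ((ϖ ^ ((n : ℤ) * ((e : ℤ) * ainf)))⁻¹ * F ^ e *
        (F ^ (e * s) * U ^ (-j)) ^ r) = 1 := by
  constructor
  · rw [newNorm_eq_inf hϖ hn ainf j, map_mul, map_pow, map_pow, map_zpow₀, hFinf, hUinf, one_pow,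
      one_zpow, one_pow, one_mul]
  · rw [newNorm_eq_zero hϖ hn hk hj, map_mul, map_pow, map_pow, map_zpow₀, hF0, hU0, one_pow,
      one_zpow, one_pow, one_mul]

/-- **the Atkin–Lehner transform of the normalised function**: if `W U = Qc ^ c U⁻¹`, then `W` of the
normalised function of `(F, a∞, k, j)` is the normalised function of `(W F, a₀, -k, -j)`. -/
theorem newNorm_AL {Qc U Wf : E} (hQ : Qc ≠ 0) {c r n s e : ℕ}
    {ainf a0 k j : ℤ} (hk : (e : ℤ) * (a0 - ainf) = r * k) (hj : (c : ℤ) * j = n * k) :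
    (Qc ^ ((n : ℤ) * ((e : ℤ) * ainf)))⁻¹ * Wf ^ e *
        (Wf ^ (e * s) * (Qc ^ c * U⁻¹) ^ (-j)) ^ r =
      (Qc ^ ((n : ℤ) * ((e : ℤ) * a0)))⁻¹ * Wf ^ e *
        (Wf ^ (e * s) * U ^ (-(-j))) ^ r := by
  have e1 : (Qc ^ c * U⁻¹) ^ (-j) = (Qc ^ ((n : ℤ) * k))⁻¹ * U ^ (-(-j)) := by
    rw [mul_zpow, inv_zpow', ← zpow_natCast Qc c, ← zpow_mul, ← zpow_neg]
    congr 2
    rw [← hj]
    ring
  have e2 : Qc ^ ((n : ℤ) * ((e : ℤ) * a0)) =
      Qc ^ ((n : ℤ) * ((e : ℤ) * ainf)) * (Qc ^ ((n : ℤ) * k)) ^ r := by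
    rw [← zpow_natCast (Qc ^ ((n : ℤ) * k)), ← zpow_mul, ← zpow_add₀ hQ]
    congr 1
    linear_combination (n : ℤ) * hk
  rw [e1, e2, mul_pow, mul_pow, mul_pow, inv_pow, mul_inv]
  ring

end Abstract

section Arith

/-- `p ^ k ∣ 12 x ⇒ p ^ k ∣ p x` for an odd prime `p`. -/
theorem pow_dvd_mul_of_dvd_twelve_mul {p : ℕ} (hp : p.Prime) (hp2 : p ≠ 2) (k : ℕ) {x : ℤ}
    (h : ((p ^ k : ℕ) : ℤ) ∣ 12 * x) : ((p ^ k : ℕ) : ℤ) ∣ (p : ℤ) * x := by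
  have h4 : IsCoprime (4 : ℤ) ((p ^ k : ℕ) : ℤ) := by
    have h1 : Nat.Coprime 4 p := by
      rw [Nat.coprime_comm, Nat.Prime.coprime_iff_not_dvd hp]
      intro h
      have h22 : (4 : ℕ) = 2 ^ 2 := by norm_num
      rw [h22] at h
      exact hp2 ((Nat.prime_dvd_prime_iff_eq hp Nat.prime_two).mp (hp.dvd_of_dvd_pow h))
    have h2 : Nat.Coprime 4 (p ^ k) := Nat.Coprime.pow_right k h1
    exact_mod_cast Nat.isCoprime_iff_coprime.mpr h2
  have h3x : ((p ^ k : ℕ) : ℤ) ∣ 3 * x := by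
    have : (12 : ℤ) * x = 4 * (3 * x) := by ring
    rw [this] at h
    exact h4.symm.dvd_of_dvd_mul_left h
  rcases eq_or_ne p 3 with h3 | h3
  · subst h3
    exact_mod_cast h3x
  · have h3c : IsCoprime (3 : ℤ) ((p ^ k : ℕ) : ℤ) := by
      have h1 : Nat.Coprime 3 p := (Nat.coprime_primes Nat.prime_three hp).mpr (Ne.symm h3)
      have h2 : Nat.Coprime 3 (p ^ k) := Nat.Coprime.pow_right k h1
      exact_mod_cast Nat.isCoprime_iff_coprime.mpr h2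
    exact Dvd.dvd.mul_left (h3c.symm.dvd_of_dvd_mul_left h3x) _

/-- for an odd prime `p`: `n = 1 + p ^ k s`, `n = m₀ t` and `12 μ = m₀ p` (`m₀ = 4`, `μ = 1` for
`p = 3`; `m₀ = 12`, `μ = p` otherwise). -/
theorem exists_twelve_data {p : ℕ} (hp : p.Prime) (hp2 : p ≠ 2) (k : ℕ) :
    ∃ n s t m₀ μ : ℕ, n = 1 + p ^ k * s ∧ n = m₀ * t ∧ 12 * μ = m₀ * p := by
  have key : ∀ m₀ : ℕ, 0 < m₀ → Nat.Coprime m₀ (p ^ k) →
      ∃ n s t : ℕ, n = 1 + p ^ k * s ∧ n = m₀ * t := by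
    intro m₀ h0 hcop
    rcases Nat.lt_or_ge 1 (p ^ k) with h1 | h1
    · obtain ⟨t, -, ht⟩ := Nat.exists_mul_mod_eq_one_of_coprime hcop h1
      refine ⟨m₀ * t, (m₀ * t) / p ^ k, t, ?_, rfl⟩
      have h2 := Nat.div_add_mod (m₀ * t) (p ^ k)
      omega
    · have hpos : 0 < p ^ k := pow_pos hp.pos k
      have h1' : p ^ k = 1 := by omega
      refine ⟨m₀, m₀ - 1, 1, ?_, by ring⟩
      rw [h1']
      omega
  rcases eq_or_ne p 3 with h3 | h3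
  · subst h3
    have hcop : Nat.Coprime 4 (3 ^ k) := Nat.Coprime.pow_right k (by norm_num)
    obtain ⟨n, s, t, h1, h2⟩ := key 4 (by norm_num) hcop
    exact ⟨n, s, t, 4, 1, h1, h2, by norm_num⟩
  · have hcop : Nat.Coprime 12 (p ^ k) := by
      refine Nat.Coprime.pow_right k ?_
      have h12 : (12 : ℕ) = 4 * 3 := by norm_num
      rw [h12]
      refine Nat.Coprime.mul_left ?_ ((Nat.coprime_primes Nat.prime_three hp).mpr (Ne.symm h3))
      rw [Nat.coprime_comm, Nat.Prime.coprime_iff_not_dvd hp]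
      intro h
      have h22 : (4 : ℕ) = 2 ^ 2 := by norm_num
      rw [h22] at h
      exact hp2 ((Nat.prime_dvd_prime_iff_eq hp Nat.prime_two).mp (hp.dvd_of_dvd_pow h))
    obtain ⟨n, s, t, h1, h2⟩ := key 12 (by norm_num) hcop
    exact ⟨n, s, t, 12, p, h1, h2, by ring⟩

end Arith

end Fermat.Agent.ML.P3
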