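/-
ML — helper7 — [S59] [NEWT-L] **[NEW-TORIC] [BASE]-NEW for every odd prime `p`, main theorem:
`legNewBaseQO_of : LegNewDictQO → LegNewDeltaQO → LegNewInfQ → LegNewBaseQO`** (copy of
`NEWT_helper7_BaseQMain` with `e = p · p ^ c₀`, `n = m₀ t = 1 + r s`, `12 μ = m₀ p`, `j = μ t k₀`;
`c = c₀ + 1 + c₁`).

See `NEWT_helper7_BaseQMain` for the argument.
-/
import Mathlib
import Fermat.Agent.ML.NEWT_helper7_BaseQ
import Fermat.Agent.RB.NEWT_helper7_Norm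
import Fermat.Agent.RB.NEWT_helper7_Lit
import Fermat.Agent.RB.MAZ_helper6_BaseQ

set_option autoImplicit false
set_option linter.unusedSectionVars false
set_option linter.unusedVariables false
set_option linter.style.haveILetI false
set_option synthInstance.maxHeartbeats 400000

open HahnSeries IntermediateField AlgebraicCurve ModularCurve IsLocalRing

namespace Fermat.Agent.ML

open Fermat.Agent.RB

open Fermat.Agent.JA Fermat.Agent.FF Fermat.Agent.SS Fermat.Agent.S35 Fermat.Agent.S36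
  Fermat.Agent.MP Fermat.Agent.NP Fermat.Agent.GR Fermat.Agent.FG Fermat.Agent.X0N
  Fermat.Agent.Igusa Fermat.Agent.MW Fermat.Agent.MW.NAdic

open scoped Fermat.Agent.JA.Host

/-- `Ω = AlgebraicClosure ℚ`. -/
local notation "Ω" => AlgebraicClosure ℚ

/-- the absolute Galois group. -/
local notation "GQ" => (AlgebraicClosure ℚ ≃ₐ[ℚ] AlgebraicClosure ℚ)

section AL

variable {M : ℕ} [NeZero M] {q : ℕ} [NeZero q] [NeZero (M * q)]

/-- **`W_q` of the normalised function of `(f₀, a∞, j)` is the normalised function of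
`(W_q f₀, a₀, -j)`.** -/
theorem atkinLehnerN_newNormFnO (K' : IntermediateField ℚ Ω) (ι : ↥K' →+* ℂ) {x y : ℤ}
    (hbez : (q : ℤ) * x + M * y = 1) (hq : q.Prime) (f₀ : ↥(keyFq ↥K' (M * q)))
    {r e n s : ℕ} {ainf a0 k' j : ℤ}
    (hk : (e : ℤ) * (a0 - ainf) = r * k') (hj : ((12 : ℕ) : ℤ) * j = n * k') :
    atkinLehnerN ι hbez hq (newNormFnO K' f₀ r e n s ainf j) =
      newNormFnO K' (atkinLehnerN ι hbez hq f₀) r e n s a0 (-j) := by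
  have hQ : algebraMap ↥K' ↥(keyFq ↥K' (M * q)) ((q : ℕ) : ↥K') ≠ 0 := by
    rw [map_natCast]
    exact Nat.cast_ne_zero.mpr hq.ne_zero
  rw [newNormFnO, newNormFnO, map_mul, map_mul, map_pow, map_pow, map_mul, map_pow, map_zpow₀,
    atkinLehnerN_algebraMap, atkinLehnerN_modUnit ι hbez hq, map_inv₀, map_zpow₀, map_pow,
    map_inv₀, map_zpow₀]
  exact P3.newNorm_AL hQ hk hj

end AL

set_option maxHeartbeats 6400000 in
/-- **[BASE]-NEW from (D1), (D2) and [HALF∞]-NEW.** -/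
theorem legNewBaseQO_of (HD1 : LegNewDictQO) (HD2 : LegNewDeltaQO) (HI : LegNewInfQ) :
    LegNewBaseQO := by
  intro M q p _ _ _ hq hq2 hp hp2 hqp hqM A hA
  classical
  haveI : Fact q.Prime := ⟨hq⟩
  obtain ⟨c₀, HD2'⟩ := HD2 M q hq2 hqM p hp (Ne.symm hqp) A hA
  obtain ⟨c₁, HI'⟩ := HI M q hq2 hqM p hp (Ne.symm hqp) A hA
  refine ⟨c₀ + 1 + c₁, ?_⟩
  intro k K₁ _ K' f₀ H HAL
  haveI : IsDiscreteValuationRing ↥(baseRing A K') := H.base.isDiscreteValuationRing hA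
  haveI : CharZero ↥(baseRing A K') := charZero_valuationSubring_of_algebraRat _
  have h2 : IsUnit (2 : ↥(baseRing A K')) := isUnit_ofNat_baseRing hA K' Nat.prime_two hq2
  letI := baseToComplex K'
  haveI : NeZero (4 * M) := ⟨Nat.mul_ne_zero (by norm_num) (NeZero.ne M)⟩
  haveI : NeZero (4 * M * q) := ⟨Nat.mul_ne_zero (NeZero.ne (4 * M)) (NeZero.ne q)⟩
  obtain ⟨x₀, y₀, hbez₀⟩ := exists_bezout_of_prime_of_not_dvd hq hqM
  have hq4M : ¬ q ∣ 4 * M := by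
    intro h
    rcases (Nat.Prime.dvd_mul hq).mp h with h1 | h1
    · have : q ∣ 2 ^ 2 := by norm_num; exact h1
      exact hq2 ((Nat.prime_dvd_prime_iff_eq hq Nat.prime_two).mp (hq.dvd_of_dvd_pow this))
    · exact hqM h1
  obtain ⟨x₄, y₄, h4⟩ := exists_bezout_of_prime_of_not_dvd hq hq4M
  have hϖ : Irreducible ((q : ℕ) : ↥(baseRing A K')) := H.unram
  set ϖ : ↥(baseRing A K') := ((q : ℕ) : ↥(baseRing A K')) with hϖdef
  haveI : IsAlgClosed (ResidueField ↥(baseRing A K')) := H.base.isAlgClosed_residueField hA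
  have hqϖ : ((q : ℕ) : ↥(baseRing A K')) ∈ Ideal.span {ϖ} := Ideal.mem_span_singleton_self _
  have hmodel : ∀ {x y : ℤ} (hbez : (q : ℤ) * x + M * y = 1),
      SSModelLeg ↥(baseRing A K') ↥K' ϖ h2 hbez hq hq2 := fun hbez =>
    ssModelLeg ↥(baseRing A K') ↥K' hϖ h2 hbez hq hq2 hqϖ
      (geoHyps_legE_baseRing hA M hqM H.base hq2 hϖ)
  haveI : FiniteDimensional ↥(↥K')⟮jqNModC ↥K' 2⟯ ↥(legE ↥K' (M * q)) :=
    finite_legE_adjoin_j ↥K' (M * q)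
  have h' := SSModelLeg.ssModel ↥(baseRing A K') ↥K' (hmodel hbez₀)
  have hqe : ((q : ℕ) : ↥(baseRing A K')) = ((1 : (↥(baseRing A K'))ˣ) : ↥(baseRing A K')) * ϖ ^ 1 := by
    rw [Units.val_one, one_mul, pow_one]
  -- notation
  set W₀ : ↥(keyFq ↥K' (M * q)) →+* ↥(keyFq ↥K' (M * q)) :=
    atkinLehnerN (algebraMap ↥K' ℂ) hbez₀ hq with hW₀def
  have hWindep : ∀ {x y : ℤ} (hbez : (q : ℤ) * x + M * y = 1) (g : ↥(keyFq ↥K' (M * q))),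
      atkinLehnerN (algebraMap ↥K' ℂ) hbez hq g = W₀ g := fun hbez g =>
    atkinLehnerN_indep K' (algebraMap ↥K' ℂ) hbez hbez₀ hq hqM g
  have hWW : ∀ g : ↥(keyFq ↥K' (M * q)), W₀ (W₀ g) = g := fun g =>
    atkinLehnerN_atkinLehnerN (algebraMap ↥K' ℂ) hbez₀ hq g
  set F : ↥(legE ↥K' (M * q)) := fullToLegE ↥K' (M * q) f₀ with hFdef
  have hF : F ≠ 0 := (_root_.map_ne_zero (fullToLegE ↥K' (M * q))).mpr H.ne_zero
  set FW : ↥(legE ↥K' (M * q)) := fullToLegE ↥K' (M * q) (W₀ f₀) with hFWdef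
  have hFW : FW ≠ 0 := (_root_.map_ne_zero (fullToLegE ↥K' (M * q))).mpr (HAL hbez₀).ne_zero
  set ϖE : ↥(legE ↥K' (M * q)) := algebraMap ↥(baseRing A K') ↥(legE ↥K' (M * q)) ϖ with hϖEdef
  have hϖE0 : ϖE ≠ 0 := by
    rw [hϖEdef, hϖdef, map_natCast]
    exact Nat.cast_ne_zero.mpr hq.ne_zero
  have hϖEK : algebraMap ↥K' ↥(legE ↥K' (M * q)) ((q : ℕ) : ↥K') = ϖE := by
    rw [hϖEdef, hϖdef, map_natCast, map_natCast]
  set Winf : ValuationSubring ↥(legE ↥K' (M * q)) :=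
    legWinf ↥(baseRing A K') ↥K' h2 (M * q) with hWinfdef
  have hcomapA := legWinf_comap_legHostA_gen (A := A) M q K' h2
  -- the orders along `W_∞`
  obtain ⟨ainf, hfinf⟩ := SSModel.exists_zpow_val_eq_one_inf h' one_pos hqe hF
  obtain ⟨a0, hFWinf⟩ := SSModel.exists_zpow_val_eq_one_inf h' one_pos hqe hFW
  -- transport along `legAL`
  have hAL : ∀ {x y : ℤ} (hbez : (q : ℤ) * x + M * y = 1) (g : ↥(keyFq ↥K' (M * q))),
      legAL ↥K' hbez h4 hq hq2 (fullToLegE ↥K' (M * q) g) = fullToLegE ↥K' (M * q) (W₀ g) := by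
    intro x y hbez g
    rw [legAL_fullToLegE ↥K' hbez h4 hq hq2 g, hWindep hbez g]
  have hALϖ : ∀ {x y : ℤ} (hbez : (q : ℤ) * x + M * y = 1) (z : ℤ),
      legAL ↥K' hbez h4 hq hq2 ((ϖE ^ z)⁻¹) = (ϖE ^ z)⁻¹ := by
    intro x y hbez z
    rw [map_inv₀, map_zpow₀, ← hϖEK, AlgEquiv.commutes]
  have hW0 : ∀ {x y : ℤ} (hbez : (q : ℤ) * x + M * y = 1),
      Winf.comap ((legAL ↥K' hbez h4 hq hq2 : _ ≃ₐ[↥K'] _) :
        ↥(legE ↥K' (M * q)) →+* ↥(legE ↥K' (M * q))) =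
        legW0 ↥(baseRing A K') ↥K' hbez hq := fun hbez =>
    (legW0_eq_comap_legAL ↥(baseRing A K') ↥K' hbez h4 hq hq2 hϖ (hmodel hbez)).symm
  have hf0 : ∀ {x y : ℤ} (hbez : (q : ℤ) * x + M * y = 1),
      (legW0 ↥(baseRing A K') ↥K' hbez hq).valuation (F * (ϖE ^ a0)⁻¹) = 1 := by
    intro x y hbez
    rw [← kp_comap_val_eq_one_iff Winf _ (hW0 hbez)]
    show Winf.valuation ((legAL ↥K' hbez h4 hq hq2) (F * (ϖE ^ a0)⁻¹)) = 1
    rw [map_mul, hALϖ hbez, hFdef, hAL hbez f₀]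
    exact hFWinf
  have hFW0 : ∀ {x y : ℤ} (hbez : (q : ℤ) * x + M * y = 1),
      (legW0 ↥(baseRing A K') ↥K' hbez hq).valuation (FW * (ϖE ^ ainf)⁻¹) = 1 := by
    intro x y hbez
    rw [← kp_comap_val_eq_one_iff Winf _ (hW0 hbez)]
    show Winf.valuation ((legAL ↥K' hbez h4 hq hq2) (FW * (ϖE ^ ainf)⁻¹)) = 1
    rw [map_mul, hALϖ hbez, hFWdef, hAL hbez (W₀ f₀), hWW f₀]
    exact hfinf
  -- (D2)
  obtain ⟨k₀, hk₀⟩ : ((p ^ k : ℕ) : ℤ) ∣ ((p ^ c₀ : ℕ) : ℤ) * (a0 - ainf) :=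
    HD2' k K₁ K' f₀ H ϖ hϖ h2 hbez₀ ainf a0 hfinf (hf0 hbez₀)
  have hk2 : ((p ^ c₀ : ℕ) : ℤ) * (ainf - a0) = ((p ^ k : ℕ) : ℤ) * (-k₀) := by
    linear_combination (-1 : ℤ) * hk₀
  -- `n = m₀ t = 1 + r s`, `12 μ = m₀ p`
  obtain ⟨n, s, t, m₀, μ, hn, hnt, hμ⟩ := P3.exists_twelve_data hp hp2 k
  set e : ℕ := p * p ^ c₀ with hedef
  set j : ℤ := (μ : ℤ) * t * k₀ with hjdef
  have hj : ((12 * 1 : ℕ) : ℤ) * j = (n : ℤ) * ((p : ℤ) * k₀) := by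
    have h1 : ((12 : ℤ)) * (μ : ℤ) = (m₀ : ℤ) * (p : ℤ) := by exact_mod_cast hμ
    have h2' : (n : ℤ) = (m₀ : ℤ) * (t : ℤ) := by exact_mod_cast hnt
    rw [hjdef, h2']
    push_cast
    linear_combination ((t : ℤ) * k₀) * h1
  have hj2 : ((12 * 1 : ℕ) : ℤ) * (-j) = (n : ℤ) * ((p : ℤ) * (-k₀)) := by
    linear_combination (-1 : ℤ) * hj
  have hke : ((e : ℕ) : ℤ) * (a0 - ainf) = ((p ^ k : ℕ) : ℤ) * ((p : ℤ) * k₀) := by
    rw [hedef]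
    push_cast
    push_cast at hk₀
    linear_combination (p : ℤ) * hk₀
  have hj12 : ((12 : ℕ) : ℤ) * j = (n : ℤ) * ((p : ℤ) * k₀) := by
    rw [← hj]
  -- the two normalised functions
  set G₁ : ↥(keyFq ↥K' (M * q)) := newNormFnO K' f₀ (p ^ k) e n s ainf j with hG₁def
  set G₂ : ↥(keyFq ↥K' (M * q)) :=
    newNormFnO K' (W₀ f₀) (p ^ k) e n s a0 (-j) with hG₂def
  have hWG : W₀ G₁ = G₂ :=
    atkinLehnerN_newNormFnO K' (algebraMap ↥K' ℂ) hbez₀ hq f₀ hke hj12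
  have hP1 := fun {x y : ℤ} (hbez : (q : ℤ) * x + M * y = 1) =>
    newNormFnO_package hA hq2 hqM hp hp2 (Ne.symm hqp) HD1 H h2 hbez hn hk₀ hj hfinf (hf0 hbez)
  have hP2 := fun {x y : ℤ} (hbez : (q : ℤ) * x + M * y = 1) =>
    newNormFnO_package hA hq2 hqM hp hp2 (Ne.symm hqp) HD1 (HAL hbez₀) h2 hbez hn hk2 hj2 hFWinf
      (hFW0 hbez)
  -- the node unit and the constants
  set Uq : ↥(keyFq ↥K' (M * q)) := modUnit ↥K' (M * q) q (Dvd.intro_left M rfl) with hUqdef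
  have hUnode := ssModelLeg_nodeUnit ↥(baseRing A K') ↥K' (M := M) (e := 1) (u := 1) hϖ h2 hbez₀
    hq le_rfl (by rw [Units.val_one, one_mul, pow_one])
  have hUq0 : Uq ≠ 0 := fun h0 => hUnode.ne_zero (by rw [← hUqdef, h0, map_zero])
  have hqK : ((q : ℕ) : ↥K') ≠ 0 := Nat.cast_ne_zero.mpr hq.ne_zero
  have hX1 : f₀ ^ (e * s) * Uq ^ (-j) ≠ 0 :=
    mul_ne_zero (pow_ne_zero _ H.ne_zero) (zpow_ne_zero _ hUq0)
  have hX2 : W₀ f₀ ^ (e * s) * Uq ^ (-(-j)) ≠ 0 :=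
    mul_ne_zero (pow_ne_zero _ (HAL hbez₀).ne_zero) (zpow_ne_zero _ hUq0)
  have hc1 : (((q : ℕ) : ↥K') ^ ((n : ℤ) * ((e : ℤ) * ainf)))⁻¹ ≠ 0 :=
    inv_ne_zero (zpow_ne_zero _ hqK)
  have hc2 : (((q : ℕ) : ↥K') ^ ((n : ℤ) * ((e : ℤ) * a0)))⁻¹ ≠ 0 :=
    inv_ne_zero (zpow_ne_zero _ hqK)
  -- the norms
  have hnA1 := exists_norm_newNorm (keyFqA ↥K' M q) H.normA hc1 e hX1
  have hnB1 := exists_norm_newNorm (keyFqB ↥K' M q) H.normB hc1 e hX1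
  have hnA2 := exists_norm_newNorm (keyFqA ↥K' M q) (HAL hbez₀).normA hc2 e hX2
  have hnB2 := exists_norm_newNorm (keyFqB ↥K' M q) (HAL hbez₀).normB hc2 e hX2
  -- [HALF∞]-NEW for `G₁` and `G₂`
  obtain ⟨b, hb, hlinf⟩ := HI' K' H.base H.unram H.stab h2 hbez₀ k G₁ (hP1 hbez₀).1
    (hP1 hbez₀).2.1 hnA1 hnB1 (hP1 hbez₀).2.2
  obtain ⟨b', hb', hl0⟩ := HI' K' H.base H.unram H.stab h2 hbez₀ k G₂ (hP2 hbez₀).1
    (hP2 hbez₀).2.1 hnA2 hnB2 (hP2 hbez₀).2.2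
  have hAb : Winf.valuation (legHostA ↥K' M q b) = 1 :=
    (kp_comap_val_eq_one_iff Winf (legHostA ↥K' M q).toRingHom hcomapA b).mpr hb
  have hAb' : Winf.valuation (legHostA ↥K' M q b') = 1 :=
    (kp_comap_val_eq_one_iff Winf (legHostA ↥K' M q).toRingHom hcomapA b').mpr hb'
  -- the final function
  have hfin : algebraMap ↥K' ↥(keyFq ↥K' (M * q))
        ((((q : ℕ) : ↥K') ^ ((n : ℤ) * ((e : ℤ) * ainf)))⁻¹ ^ (p ^ c₁)) *
        f₀ ^ (p ^ (c₀ + 1 + c₁)) *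
        ((f₀ ^ (e * s) * Uq ^ (-j)) ^ (p ^ c₁)) ^ (p ^ k) =
      G₁ ^ (p ^ c₁) := by
    have he : p ^ (c₀ + 1 + c₁) = e * p ^ c₁ := by
      rw [hedef]
      ring
    rw [hG₁def, newNormFnO, map_pow, he, ← hUqdef]
    ring
  refine ⟨(((q : ℕ) : ↥K') ^ ((n : ℤ) * ((e : ℤ) * ainf)))⁻¹ ^ (p ^ c₁),
    (f₀ ^ (e * s) * Uq ^ (-j)) ^ (p ^ c₁), pow_ne_zero _ hc1,
    pow_ne_zero _ hX1, ?_⟩
  rw [hfin]
  intro _ _ h2' x y hbez hq'
  refine ⟨legHostA ↥K' M q b, (legAL ↥K' hbez h4 hq hq2).symm (legHostA ↥K' M q b'), hAb, ?_, ?_,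
    ?_⟩
  · rw [← kp_comap_val_eq_one_iff Winf _ (hW0 hbez)]
    show Winf.valuation ((legAL ↥K' hbez h4 hq hq2)
      ((legAL ↥K' hbez h4 hq hq2).symm (legHostA ↥K' M q b'))) = 1
    rw [AlgEquiv.apply_symm_apply]
    exact hAb'
  · rw [map_pow]
    exact hlinf
  · rw [← comap_val_lt_one_iff _ (hW0 hbez)]
    show Winf.valuation ((legAL ↥K' hbez h4 hq hq2)
      (fullToLegE ↥K' (M * q) (G₁ ^ (p ^ c₁)) -
        ((legAL ↥K' hbez h4 hq hq2).symm (legHostA ↥K' M q b')) ^ (p ^ k))) < 1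
    simp only [map_sub, map_pow, AlgEquiv.apply_symm_apply]
    rw [hAL hbez G₁, hWG]
    exact hl0


end Fermat.Agent.ML
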