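/-
ML — helper7 — [S59] [NEWT-L] **(D1) `LegNewDictQO`**: helper9's proof of `legNewDictQ`
(RB/NEWT_helper9_DictQ.lean, port of helper6's `legMazOrdQ_of` onto `SSModel.cong_ord_redQ`) copied
VERBATIM for the literal without the (unused) hypothesis `5 ≤ p`.
-/
import Mathlib
import Fermat.Agent.ML.NEWT_helper7_Lit
import Fermat.Agent.RB.NEWT_helper6_Dict
import Fermat.Agent.RB.MAZ_helper6_OrdQ

set_option autoImplicit false
set_option linter.unusedSectionVars false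
set_option linter.unusedVariables false
set_option linter.style.haveILetI false
set_option synthInstance.maxHeartbeats 400000

open HahnSeries IntermediateField AlgebraicCurve ModularCurve IsLocalRing

namespace Fermat.Agent.ML

open Fermat.Agent.RB

open Fermat.Agent.JA Fermat.Agent.FF Fermat.Agent.SS Fermat.Agent.S35 Fermat.Agent.Igusa
  Fermat.Agent.NP Fermat.Agent.MW.NAdic Fermat.Agent.MW Fermat.Agent.FG Fermat.Agent.MP

open scoped Fermat.Agent.JA.Host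

/-- `Ω = AlgebraicClosure ℚ`. -/
local notation "Ω" => AlgebraicClosure ℚ

set_option maxHeartbeats 6400000 in
/-- **(D1) [NEW-DICT], host form.** -/
theorem legNewDictQO : LegNewDictQO := by
  intro M _ q _ _ _ hq2 hqM p hp hpq A hA k K₁ _ K' _ f₀ H ϖ hϖ h2 x y hbez ainf a0 w₀ wU
    hw₀ hwU hlink hlinkU hf0 hW hWU Q
  classical
  have hq : q.Prime := Fact.out
  haveI : CharZero ↥(baseRing A K') := charZero_valuationSubring_of_algebraRat _
  letI := baseToComplex K'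
  have hK' : IsBase q K' := H.base
  haveI : IsAlgClosed (ResidueField ↥(baseRing A K')) := hK'.isAlgClosed_residueField hA
  have hqϖ := natCast_mem_span_uniformizer_baseRing hA K' hϖ
  have hmodel : SSModelLeg ↥(baseRing A K') ↥K' ϖ h2 hbez hq hq2 :=
    ssModelLeg ↥(baseRing A K') ↥K' hϖ h2 hbez hq hq2 hqϖ
      (geoHyps_legE_baseRing hA M hqM hK' hq2 hϖ)
  haveI : FiniteDimensional ↥(↥K')⟮jqNModC ↥K' 2⟯ ↥(legE ↥K' (M * q)) :=
    finite_legE_adjoin_j ↥K' (M * q)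
  have h' := SSModelLeg.ssModel ↥(baseRing A K') ↥K' hmodel
  -- `q = u ϖ`
  obtain ⟨u, hu⟩ : ∃ u : (↥(baseRing A K'))ˣ, ((q : ℕ) : ↥(baseRing A K')) = u * ϖ ^ 1 := by
    obtain ⟨u, hu⟩ := IsDiscreteValuationRing.associated_of_irreducible ↥(baseRing A K') hϖ H.unram
    exact ⟨u, by rw [← hu, pow_one, mul_comm]⟩
  have he : 0 < 1 := one_pos
  have hr0 : p ^ k ≠ 0 := pow_ne_zero _ hp.ne_zero
  set f : ↥(legE ↥K' (M * q)) := fullToLegE ↥K' (M * q) f₀ with hfdef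
  have hf : f ≠ 0 := (_root_.map_ne_zero (fullToLegE ↥K' (M * q))).mpr H.ne_zero
  set x₀ : ↥(legE ↥K' M) := fullToLegE ↥K' M w₀ with hx₀def
  set xU : ↥(legE ↥K' M) := fullToLegE ↥K' M wU with hxUdef
  have hx₀ : x₀ ∈ legWinf ↥(baseRing A K') ↥K' h2 M :=
    (ValuationSubring.valuation_le_one_iff _ _).mp hw₀.le
  have hxU : xU ∈ legWinf ↥(baseRing A K') ↥K' h2 M :=
    (ValuationSubring.valuation_le_one_iff _ _).mp hwU.le
  have hord : ∀ P : Place ↥K' ↥(legE ↥K' (M * q)), ((p ^ k : ℕ) : ℤ) ∣ P.ord f :=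
    fun P => dvd_ord_fullToLegE_of_keyFqBC (M * q) K' f₀ H.ordΩ P
  -- the reduction map
  obtain ⟨ρ, res, hres, hρ, hρR, hρapp⟩ := legRhoBaseP M q hq2 hqM A hA K' hK' h2
  -- the order along the sheet `∞`
  have hAx₀ : (legWinf ↥(baseRing A K') ↥K' h2 (M * q)).valuation (legHostA ↥K' M q x₀) = 1 :=
    (kp_comap_val_eq_one_iff (legWinf ↥(baseRing A K') ↥K' h2 (M * q))
      (legHostA ↥K' M q : ↥(legE ↥K' M) →+* ↥(legE ↥K' (M * q))) h'.comap_A_inf x₀).mpr hw₀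
  have hfinf : (legWinf ↥(baseRing A K') ↥K' h2 (M * q)).valuation
      (f * (algebraMap ↥(baseRing A K') ↥(legE ↥K' (M * q)) ϖ ^ ainf)⁻¹) = 1 := by
    have e1 : f * (algebraMap ↥(baseRing A K') ↥(legE ↥K' (M * q)) ϖ ^ ainf)⁻¹ =
        (f * (algebraMap ↥(baseRing A K') ↥(legE ↥K' (M * q)) ϖ ^ ainf)⁻¹ -
          legHostA ↥K' M q x₀) + legHostA ↥K' M q x₀ := by ring
    rw [e1, Valuation.map_add_eq_of_lt_right _ (by rw [hAx₀]; exact hlink), hAx₀]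
  -- the node package
  have hUnode := ssModelLeg_nodeUnit ↥(baseRing A K') ↥K' (M := M) hϖ h2 hbez hq he hu
  have hfr := isFractionRing_chartOne (R := ↥(baseRing A K')) (K₁ := ↥K')
    (E := ↥(legE ↥K' (M * q))) (AdjoinSimple.gen ↥K' (jqNModC ↥K' 2)) h'.j_adjoin
  have hXex : ∀ nd : ChartNode (AdjoinSimple.gen ↥K' (jqNModC ↥K' 2))
      (legWinf ↥(baseRing A K') ↥K' h2 (M * q)) (legW0 ↥(baseRing A K') ↥K' hbez hq)
      h'.two.chart_le_inf h'.two.chart_le_zero,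
      ∃ (X : ↥(legE ↥K' (M * q))) (m : ℕ), IsNodeCoord ϖ hfr
        (sheetIdeal (AdjoinSimple.gen ↥K' (jqNModC ↥K' 2))
          (legWinf ↥(baseRing A K') ↥K' h2 (M * q)) h'.two.chart_le_inf)
        (sheetIdeal (AdjoinSimple.gen ↥K' (jqNModC ↥K' 2))
          (legW0 ↥(baseRing A K') ↥K' hbez hq) h'.two.chart_le_zero) nd.1 X m := by
    intro nd
    obtain ⟨X, m, hX, -⟩ := SSModel.exists_isNodeCoord_gen h' hϖ hUnode nd.1 nd.inf_le nd.zero_le
    exact ⟨X, m, hX⟩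
  choose X m hX using hXex
  have hKex : ∀ nd, ∃ (K : ℤ) (w : ↥(legE ↥K' (M * q))),
      IsUnitIn (locSub (chartOne ↥(baseRing A K') ↥(legE ↥K' (M * q))
        (AdjoinSimple.gen ↥K' (jqNModC ↥K' 2))) nd.1) w ∧
      fullToLegE ↥K' (M * q) (modUnit ↥K' (M * q) q (Dvd.intro_left M rfl)) = w * X nd ^ K ∧
      K * (m nd : ℤ) = ((12 * 1 : ℕ) : ℤ) ∧ 1 ≤ K := fun nd =>
    SSModel.nodeUnit_eq_unit_mul_zpow h' hϖ hUnode nd.1 nd.inf_le nd.zero_le (hX nd)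
  choose K w hw hUw hKm hK1 using hKex
  have hginf : f * (algebraMap ↥(baseRing A K') ↥(legE ↥K' (M * q)) ϖ ^ ainf)⁻¹ ∈
      legWinf ↥(baseRing A K') ↥K' h2 (M * q) :=
    ((isUnitIn_toSubring_iff _).mpr hfinf).1
  have hginf' : (f * (algebraMap ↥(baseRing A K') ↥(legE ↥K' (M * q)) ϖ ^ ainf)⁻¹)⁻¹ ∈
      legWinf ↥(baseRing A K') ↥K' h2 (M * q) :=
    ((isUnitIn_toSubring_iff _).mpr hfinf).2.1
  have hkex : ∀ nd, ∃ kk : ℤ, IsNodeFact ↥K' (locSub (chartOne ↥(baseRing A K')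
      ↥(legE ↥K' (M * q)) (AdjoinSimple.gen ↥K' (jqNModC ↥K' 2))) nd.1) (p ^ k) (X nd) f kk :=
    fun nd =>
    legE_isNodeFact_of_rat (M * q) A h' hϖ H.le H.h1 nd.1 nd.inf_le nd.zero_le (hX nd) f₀
      H.ne_zero hord H.rat ainf hginf hginf'
  choose kk hk using hkex
  have hXu : ∀ nd, IsUnitIn (legWinf ↥(baseRing A K') ↥K' h2 (M * q)).toSubring (X nd) := by
    intro nd
    obtain ⟨L, Y, -, -, -, -, -, -, hXu, -⟩ :=
      SSModel.exists_localPt_node hq he hu h' hϖ nd.1 nd.inf_le nd.zero_le (hX nd)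
    exact hXu
  have hrel : ∀ nd, ((p ^ k : ℕ) : ℤ) ∣ (12 : ℤ) * kk nd - (a0 - ainf) * K nd := by
    intro nd
    have h1 : ((p ^ k : ℕ) : ℤ) ∣ kk nd * (m nd : ℤ) - (a0 - ainf) :=
      SSModel.dvd_node_of_isNodeFactQ h' hϖ hq he hu nd.1 nd.inf_le nd.zero_le (hX nd) (hk nd)
        hfinf hf0
    have hKm' : K nd * (m nd : ℤ) = 12 := by
      rw [hKm nd]; norm_num
    have e : (12 : ℤ) * kk nd - (a0 - ainf) * K nd =
        K nd * (kk nd * (m nd : ℤ) - (a0 - ainf)) := by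
      rw [← hKm']; ring
    rw [e]
    exact Dvd.dvd.mul_left h1 (K nd)
  have hUfact : ∀ nd, ∃ w' : ↥(legE ↥K' (M * q)),
      IsUnitIn (locSub (chartOne ↥(baseRing A K') ↥(legE ↥K' (M * q))
        (AdjoinSimple.gen ↥K' (jqNModC ↥K' 2))) nd.1) w' ∧
      fullToLegE ↥K' (M * q) (modUnit ↥K' (M * q) q (Dvd.intro_left M rfl)) =
        w' * X nd ^ K nd := fun nd => ⟨w nd, hw nd, hUw nd⟩
  -- the core
  have hcore := SSModel.cong_ord_redQ h' hϖ he hu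
    (SSModelLeg.jint ↥(baseRing A K') ↥K' hϖ hmodel) ρ hρ res hres hρR
    (legEtRationalP M q hq2 hqM A hA) h'.jM_mem hr0 hf hord hUnode
    h'.two.chart_le_inf h'.two.chart_le_zero X kk K hXu hk hUfact hrel hx₀ hxU hfinf hlink
    hlinkU Q
  have hWx : legBC M K' x₀ ∈ legWE hA M hq2 := by
    rw [hx₀def, legBC_fullToLegE]; exact hW
  have hWxU : legBC M K' xU ∈ legWE hA M hq2 := by
    rw [hxUdef, legBC_fullToLegE]; exact hWU
  rw [hρapp x₀ hx₀ hWx, hρapp xU hxU hWxU] at hcore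
  have e2 : (⟨legBC M K' x₀, hWx⟩ : ↥(legWE hA M hq2)) =
      ⟨fullToLegE Ω M (keyFqBC M K' w₀), hW⟩ := Subtype.ext (legBC_fullToLegE M K' w₀)
  have e3 : (⟨legBC M K' xU, hWxU⟩ : ↥(legWE hA M hq2)) =
      ⟨fullToLegE Ω M (keyFqBC M K' wU), hWU⟩ := Subtype.ext (legBC_fullToLegE M K' wU)
  rw [e2, e3] at hcore
  by_cases hg : ρ ⟨legJE ↥K' M, h'.jM_mem⟩ ∈ Q.toValuationSubring
  · exact Or.inl (hcore.1 hg)
  · exact Or.inr (hcore.2 hg)

end Fermat.Agent.ML
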