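/-
ML — helper7 — [S59] [NEWT-L] **[NEW-TORIC] for every odd prime `p`, closed:
`newToricAtStatementO : NewToricAtStatementO`** (`newDescQ` + `legNewInfQ` + `legNewDictQO` +
`legNewDeltaQO` + `legNewBaseQO_of`; the assembly is a verbatim copy of
`newToricAtStatement_of_parts`).
-/
import Mathlib
import Fermat.Agent.RB.NEWT_helper7_Asm
import Fermat.Agent.RB.NEWT_helper7_Desc
import Fermat.Agent.RB.NEWT_helper7_InfQT
import Fermat.Agent.ML.NEWT_helper7_DictQ
import Fermat.Agent.ML.NEWT_helper7_DeltaQ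
import Fermat.Agent.ML.NEWT_helper7_BaseQMain

set_option autoImplicit false
set_option linter.unusedSectionVars false
set_option linter.unusedVariables false
set_option linter.style.haveILetI false
set_option synthInstance.maxHeartbeats 400000

open HahnSeries IntermediateField AlgebraicCurve ModularCurve IsLocalRing

namespace Fermat.Agent.ML

open Fermat.Agent.RB

open Fermat.Agent.JA Fermat.Agent.FF Fermat.Agent.SS Fermat.Agent.S35 Fermat.Agent.MP
  Fermat.Agent.NP Fermat.Agent.GR Fermat.Agent.FG Fermat.Agent.X0N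

/-- `Ω = AlgebraicClosure ℚ`. -/
local notation "Ω" => AlgebraicClosure ℚ

/-- the absolute Galois group. -/
local notation "GQ" => (AlgebraicClosure ℚ ≃ₐ[ℚ] AlgebraicClosure ℚ)

/-- **[NODE-I] at every place from the descent package and the base statement.** -/
theorem newToricAtStatementO_of_parts (hD : NewDescQ) (hB : LegNewBaseQO) :
    NewToricAtStatementO := by
  intro M q p _ _ _ hq hq2 hp hp2 hqp hqM A hA
  obtain ⟨c, hc⟩ := hB M q p hq hq2 hp hp2 hqp hqM A hA
  refine ⟨c, fun k x hpx hI hα hβ => ?_⟩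
  obtain ⟨D, f, hf, hDx, hfD, K₁, hK₁n, K', f₀, hBC, H, HAL⟩ :=
    hD M q p hq hq2 hp hqp hqM A hA k x hpx hI hα hβ
  haveI := hK₁n
  haveI : Fact q.Prime := ⟨hq⟩
  obtain ⟨c', h, hc', hh, htor⟩ := hc k K₁ K' f₀ H HAL
  haveI : HasPrincipalDivisors Ω ↥(modularFunctionFieldBar (M * q)) :=
    (Fermat.Agent.X0N.jCoordBar (M * q)).hasPrincipalDivisors
  have hhΩ : keyFqBC (M * q) K' h ≠ 0 := (map_ne_zero _).2 hh
  have hcΩ : algebraMap ↥K' Ω c' ≠ 0 := (map_ne_zero _).2 hc'
  have hfc : f ^ (p ^ c) ≠ 0 := pow_ne_zero _ hf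
  obtain ⟨D', hD', hfD'⟩ := exists_degZero_of_kummer_mul ((p ^ c) • D) (f ^ (p ^ c)) hfc
    (ord_pow_eq_mul_nsmul D f hfD (p ^ c)) (algebraMap ↥K' Ω c') hcΩ (keyFqBC (M * q) K' h) hhΩ
  have hF : keyFqBC (M * q) K'
      (algebraMap ↥K' ↥(keyFq ↥K' (M * q)) c' * f₀ ^ (p ^ c) * h ^ (p ^ k)) =
      algebraMap Ω ↥(modularFunctionFieldBar (M * q)) (algebraMap ↥K' Ω c') * f ^ (p ^ c) *
        keyFqBC (M * q) K' h ^ (p ^ k) := by
    rw [map_mul, map_mul, map_pow, map_pow, hBC, keyFqBC_algebraMap]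
  have hclass : (Pic0.mk D' : JZero (M * q)) = p ^ c • x := by
    rw [hD', ← hDx]
    rfl
  refine ⟨D', _, ?_, hclass, hfD', K', H.base, ?_⟩
  · exact mul_ne_zero (mul_ne_zero ((map_ne_zero _).2 hcΩ) hfc) (pow_ne_zero _ hhΩ)
  · intro K₂ hK₂ hle F₂ hF₂
    have e : legIncl hle (M * q) (fullToLegE ↥K' (M * q)
        (algebraMap ↥K' ↥(keyFq ↥K' (M * q)) c' * f₀ ^ (p ^ c) * h ^ (p ^ k))) =
        fullToLegE ↥K₂ (M * q) F₂ := by
      haveI : IsDiscreteValuationRing ↥(baseRing A K') := H.base.isDiscreteValuationRing hA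
      haveI : IsDiscreteValuationRing ↥(baseRing A K₂) :=
        hK₂.isBase.isDiscreteValuationRing hA
      exact legIncl_fullToLegE_of_keyFqBC_eq hle (M * q) _ F₂ (hF₂.trans hF.symm)
    have h1 : LegToricAt M q (p ^ k) A K₂ (legIncl hle (M * q) (fullToLegE ↥K' (M * q)
        (algebraMap ↥K' ↥(keyFq ↥K' (M * q)) c' * f₀ ^ (p ^ c) * h ^ (p ^ k)))) :=
      @LegToricAt.of_le M q (p ^ k) _ _ _ hq hq2 hqM A hA K' K₂ hle H.base hK₂.isBase _ htor
    exact @cast _ _ (congrArg (LegToricAt M q (p ^ k) A K₂) e) h1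


/-- **[BASE]-NEW, every odd prime.** -/
theorem legNewBaseQO : LegNewBaseQO := legNewBaseQO_of legNewDictQO legNewDeltaQO legNewInfQ

/-- **[NODE-I] at every place, all levels, every odd prime `p`.** -/
theorem newToricAtStatementO : NewToricAtStatementO :=
  newToricAtStatementO_of_parts newDescQ legNewBaseQO

/-- the case `p ≥ 5` (the literal of the S43 closure) is a special case. -/
theorem newToricAtStatement_of_O (h : NewToricAtStatementO) : NewToricAtStatement :=
  fun M q p _ _ _ hq hq2 hp hp5 hqp hqM A hA =>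
    h M q p hq hq2 hp (by omega) hqp hqM A hA

end Fermat.Agent.ML
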