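/-
ML — helper5 — **[SURJ], part (ii): [NEW-TORIC] over the UNRAMIFIED bases** (`NewToricAtU`).

* `NewDescQU`, `newDescQU` : helper7's `NewDescQ`/`newDescQ` (RB/NEWT_helper7_Desc) with one more
  output: the small base `K' = Fix_{K₁}(I_A)` is fixed pointwise by the inertia group (verbatim copy
  of the proof; the extra clause is `apply_eq_of_mem_fixIn`);
* `IsToricRepU`, `IsToricClassAtU` : helper6's `IsToricRep`/`IsToricClassAt` (two sheets) with
  "every Galois base `≥ K₀`" replaced by "every unramified base `≥ K₀`", `K₀` unramified, the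
  function defined over `K₀` (the two-sheet analogue of helper3's `IsToric3RepU`);
* `NewToricAtU`, `newToricAtU` : an `I_A`-fixed class of `p`-power order killed by both degeneracy
  pushforwards is toric over the unramified bases, up to a bounded power of `p`
  (port of `newToricAtStatementO_of_parts`).
-/
import Mathlib
import Fermat.Agent.ML.NEWT_helper7_Wire
import Fermat.Agent.ML.IFACE_helper3_MSQE

set_option autoImplicit false
set_option linter.unusedSectionVars false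
set_option linter.unusedVariables false
set_option linter.style.haveILetI false
set_option synthInstance.maxHeartbeats 400000

open HahnSeries IntermediateField AlgebraicCurve ModularCurve IsLocalRing

namespace Fermat.Agent.ML

open Fermat.Agent.RB

open Fermat.Agent.JA Fermat.Agent.FF Fermat.Agent.SS Fermat.Agent.X0N Fermat.Agent.S35
  Fermat.Agent.S36 Fermat.Agent.NP Fermat.Agent.MP Fermat.Agent.GR Fermat.Agent.FG

/-- `Ω = AlgebraicClosure ℚ`. -/
local notation "Ω" => AlgebraicClosure ℚ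

/-- the absolute Galois group. -/
local notation "GQ" => (AlgebraicClosure ℚ ≃ₐ[ℚ] AlgebraicClosure ℚ)

/-- **[NEW-DESC] with the inertia-fixedness of the small base.** -/
def NewDescQU : Prop :=
  ∀ (M q p : ℕ) [NeZero M] [NeZero q] [NeZero (M * q)] (hq : q.Prime), q ≠ 2 → p.Prime →
    q ≠ p → ¬ q ∣ M → ∀ (A : ValuationSubring Ω), A.LiesOverPrime q →
  ∀ (k : ℕ) (x : JZero (M * q)), p ^ k • x = 0 →
    (∀ τ ∈ A.inertiaSubgroupIn ℚ, τ • x = x) →
    degPushAlpha M q x = 0 → degPushBeta M q x = 0 →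
  ∃ (D : Divisor.degZero (K := Ω) (F := ↥(modularFunctionFieldBar (M * q))))
    (f : ↥(modularFunctionFieldBar (M * q))), f ≠ 0 ∧ Pic0.mk D = x ∧
    (∀ v : Place Ω ↥(modularFunctionFieldBar (M * q)),
      v.ord f = ((p ^ k : ℕ) : ℤ) * (D : Divisor Ω ↥(modularFunctionFieldBar (M * q))) v) ∧
    ∃ (K₁ : IntermediateField ℚ Ω) (_ : Normal ℚ ↥K₁) (K' : IntermediateField ℚ Ω)
      (f₀ : ↥(keyFq ↥K' (M * q))), keyFqBC (M * q) K' f₀ = f ∧
      (∀ z ∈ K', ∀ τ ∈ A.inertiaSubgroupIn ℚ, τ z = z) ∧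
      LegNewHyp q (p ^ k) M A K₁ K' f₀ ∧
      ∀ {x y : ℤ} (hbez : (q : ℤ) * x + M * y = 1),
        LegNewHyp q (p ^ k) M A K₁ K'
          (letI := baseToComplex K'; atkinLehnerN (algebraMap ↥K' ℂ) hbez hq f₀)

set_option maxHeartbeats 6400000 in
/-- **[NEW-DESC], with the inertia-fixedness of the small base** (copy of `RB.newDescQ`). -/
theorem newDescQU : NewDescQU := by

  intro M q p _ _ _ hq hq2 hp hqp hqM A hA k x hpx hI hα hβ
  classical
  haveI : Fact q.Prime := ⟨hq⟩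
  have hm : 0 < p ^ k := pow_pos hp.pos k
  -- the invariant pair
  obtain ⟨D, f, hf, hDx, hfD, hlc, -, hfinv⟩ := exists_invariant_pair (M * q) (p ^ k) x hpx
    {σ : GQ | σ • x = x} (fun σ hσ => hσ)
  have hdiv : ∀ v : Place Ω ↥(modularFunctionFieldBar (M * q)),
      ((p ^ k : ℕ) : ℤ) ∣ v.ord f := fun v => ⟨_, hfD v⟩
  -- the Atkin–Lehner transform of `f`
  set f' : ↥(modularFunctionFieldBar (M * q)) := atkinLehnerBar M q hq hqM f with hf'def
  have hf' : f' ≠ 0 := by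
    rw [hf'def, ← alSemi_smul hq hqM]
    exact (smul_ne_zero_iff_ne (alSemi hq hqM)).mpr hf
  have hdivD : IsDivOf f ((p ^ k) • (D : Divisor Ω ↥(modularFunctionFieldBar (M * q)))) :=
    ⟨hf, fun v => by rw [Finsupp.smul_apply, nsmul_eq_mul, hfD v]⟩
  have hdiv' : ∀ v : Place Ω ↥(modularFunctionFieldBar (M * q)),
      ((p ^ k : ℕ) : ℤ) ∣ v.ord f' := by
    intro v
    have h1 := (hdivD.smul (alSemi hq hqM)).2 v
    rw [smul_comm (alSemi hq hqM) (p ^ k), Finsupp.smul_apply, nsmul_eq_mul] at h1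
    rw [hf'def, ← alSemi_smul hq hqM, ← h1]
    exact ⟨_, rfl⟩
  -- the norms over `Ω`
  have hNα : ∃ (a : Ω) (h : ↥(modularFunctionFieldBar M)), a ≠ 0 ∧ h ≠ 0 ∧
      normAlong (heckeAlphaBar Ω M q) f =
        algebraMap Ω ↥(modularFunctionFieldBar M) a * h ^ (p ^ k) :=
    exists_normAlong_eq_of_degPush_eq_zero M q (heckeAlphaBar Ω M q) D f hf hfD
      (by rw [hDx]; exact hα)
  have hNβ : ∃ (a : Ω) (h : ↥(modularFunctionFieldBar M)), a ≠ 0 ∧ h ≠ 0 ∧
      normAlong (heckeBetaBar Ω M q) f =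
        algebraMap Ω ↥(modularFunctionFieldBar M) a * h ^ (p ^ k) :=
    exists_normAlong_eq_of_degPush_eq_zero M q (heckeBetaBar Ω M q) D f hf hfD
      (by rw [hDx]; exact hβ)
  have hNα' : ∃ (a : Ω) (h : ↥(modularFunctionFieldBar M)), a ≠ 0 ∧ h ≠ 0 ∧
      normAlong (heckeAlphaBar Ω M q) f' =
        algebraMap Ω ↥(modularFunctionFieldBar M) a * h ^ (p ^ k) := by
    rw [hf'def, normAlong_alpha_atkinLehnerBar hq hqM]
    exact hNβ
  have hNβ' : ∃ (a : Ω) (h : ↥(modularFunctionFieldBar M)), a ≠ 0 ∧ h ≠ 0 ∧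
      normAlong (heckeBetaBar Ω M q) f' =
        algebraMap Ω ↥(modularFunctionFieldBar M) a * h ^ (p ^ k) := by
    rw [hf'def, normAlong_beta_atkinLehnerBar hq hqM]
    exact hNα
  -- the divisors of `f`, `f'` on the host over `Ω`
  haveI : HasPrincipalDivisors Ω ↥(legE Ω (M * q)) := up_hasPrincipalDivisors_legE (M * q)
  have hfE : fullToLegE Ω (M * q) f ≠ 0 := (_root_.map_ne_zero _).2 hf
  have hfE' : fullToLegE Ω (M * q) f' ≠ 0 := (_root_.map_ne_zero _).2 hf'
  obtain ⟨DE, hDE, -⟩ := HasPrincipalDivisors.exists_divisor (K := Ω) (fullToLegE Ω (M * q) f) hfE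
  obtain ⟨DE', hDE', -⟩ :=
    HasPrincipalDivisors.exists_divisor (K := Ω) (fullToLegE Ω (M * q) f') hfE'
  -- the Galois base
  obtain ⟨K₁, hK₁, -, -, hdesc, hrat⟩ :=
    (isBase_flatBase (ℓ := q)).exists_ge_isGalBase_legE (M * q) (∅ : Finset Ω)
      (f := fun _ : Unit => ((f : ↥(modularFunctionFieldBar (M * q))) : LaurentSeries Ω))
      (fun _ => f.2) (DE.support ∪ DE'.support)
  haveI := hK₁.normal
  obtain ⟨f₁, hf₁mem, hf₁⟩ := hdesc ()
  set F₁ : ↥(keyFq ↥K₁ (M * q)) := ⟨f₁, hf₁mem⟩ with hF₁def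
  have hBC1 : keyFqBC (M * q) K₁ F₁ = f := Subtype.ext hf₁
  -- rationality of the supports over `K₁`
  have hord₁ : LegOrdCond K₁ (M * q) (p ^ k) (fullToLegE ↥K₁ (M * q) F₁) := by
    intro P
    have hg₁BC : legBC (M * q) K₁ (fullToLegE ↥K₁ (M * q) F₁) =
        algebraMap Ω ↥(legE Ω (M * q)) 1 * fullToLegE Ω (M * q) f := by
      rw [bcdeg_legBC_fullToLegE, hBC1, map_one, one_mul]
    have h1 := ord_descended_leg (M * q) f hdiv DE hDE K₁
      (fun P hP => hrat P (Finset.mem_union_left _ hP)) (fullToLegE ↥K₁ (M * q) F₁) 1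
      one_ne_zero hg₁BC P
    by_cases h0 : P.ord (fullToLegE ↥K₁ (M * q) F₁) = 0
    · exact Or.inl h0
    · exact Or.inr ⟨h1.2 h0, h1.1⟩
  have hord₁' : ∀ {x y : ℤ} (hbez : (q : ℤ) * x + M * y = 1),
      LegOrdCond K₁ (M * q) (p ^ k) (fullToLegE ↥K₁ (M * q)
        (letI := baseToComplex K₁; atkinLehnerN (algebraMap ↥K₁ ℂ) hbez hq F₁)) := by
    intro x y hbez P
    letI := baseToComplex K₁
    have hg₁BC : legBC (M * q) K₁ (fullToLegE ↥K₁ (M * q)
        (atkinLehnerN (algebraMap ↥K₁ ℂ) hbez hq F₁)) =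
        algebraMap Ω ↥(legE Ω (M * q)) 1 * fullToLegE Ω (M * q) f' := by
      rw [bcdeg_legBC_fullToLegE, keyFqBC_atkinLehnerN K₁ (algebraMap ↥K₁ ℂ) hbez hq hqM, hBC1,
        map_one, one_mul]
    have h1 := ord_descended_leg (M * q) f' hdiv' DE' hDE' K₁
      (fun P hP => hrat P (Finset.mem_union_right _ hP)) _ 1 one_ne_zero hg₁BC P
    by_cases h0 : P.ord (fullToLegE ↥K₁ (M * q)
        (atkinLehnerN (algebraMap ↥K₁ ℂ) hbez hq F₁)) = 0
    · exact Or.inl h0
    · exact Or.inr ⟨h1.2 h0, h1.1⟩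
  -- the small base
  set H : Subgroup GQ := A.inertiaSubgroupIn ℚ with hHdef
  have hHflat : ∀ τ ∈ H, ∀ b ∈ flatBase q, τ b = b :=
    fun τ hτ b hb => inertia_apply_of_mem_flatBase hA hτ hb
  set K' : IntermediateField ℚ Ω := fixIn K₁ H with hK'def
  have hK' : IsBase q K' := isBase_fixIn hA le_rfl hK₁.isBase
  have hunram : Irreducible ((q : ℕ) : ↥(baseRing A K')) :=
    irreducible_natCast_baseRing_of_fixed hA hK'
      (fun z hz τ hτ => apply_eq_of_mem_fixIn hτ hz)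
  have hstab : ∀ σ ∈ A.decompositionSubgroup ℚ, ∀ z ∈ K', σ z ∈ K' :=
    fun σ hσ z hz => map_mem_fixIn_of_mem_decomposition hσ hz
  -- `f` over the small base
  obtain ⟨F', hF'⟩ := exists_keyFq_descent_fixIn q (M * q) hK₁.flatBase_le hHflat F₁
    (fun τ hτ => by
      rw [hBC1]
      exact hfinv τ (hI τ hτ))
  rw [hBC1] at hF'
  have hF'0 : F' ≠ 0 := by
    intro h0
    apply hf
    rw [← hF', h0, map_zero]
  refine ⟨D, f, hf, hDx, hfD, K₁, hK₁.normal, K', F', hF',
    fun z hz τ hτ => apply_eq_of_mem_fixIn hτ hz, ?_, ?_⟩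
  · exact
      { galBase := hK₁
        base := hK'
        le := fixIn_le K₁ H
        h1 := mem_iff_map_mem_of_fixing_fixIn hA le_rfl hK₁.isBase
        unram := hunram
        stab := hstab
        ne_zero := hF'0
        ordΩ := fun v => by rw [hF']; exact hdiv v
        rat := ⟨F₁, by rw [hBC1, hF'], hord₁⟩
        normA := exists_normA_of_normAlong_bar M q K' F' hq hm (by rw [hF']; exact hNα)
        normB := exists_normB_of_normAlong_bar M q K' F' hq hm (by rw [hF']; exact hNβ) }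
  · intro x y hbez
    letI := baseToComplex K'
    have hBCW : keyFqBC (M * q) K' (atkinLehnerN (algebraMap ↥K' ℂ) hbez hq F') = f' := by
      rw [keyFqBC_atkinLehnerN K' (algebraMap ↥K' ℂ) hbez hq hqM, hF']
    exact
      { galBase := hK₁
        base := hK'
        le := fixIn_le K₁ H
        h1 := mem_iff_map_mem_of_fixing_fixIn hA le_rfl hK₁.isBase
        unram := hunram
        stab := hstab
        ne_zero := (_root_.map_ne_zero (atkinLehnerN (algebraMap ↥K' ℂ) hbez hq)).mpr hF'0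
        ordΩ := fun v => by rw [hBCW]; exact hdiv' v
        rat := ⟨(letI := baseToComplex K₁; atkinLehnerN (algebraMap ↥K₁ ℂ) hbez hq F₁), by
          rw [hBCW]
          letI := baseToComplex K₁
          rw [keyFqBC_atkinLehnerN K₁ (algebraMap ↥K₁ ℂ) hbez hq hqM, hBC1], hord₁' hbez⟩
        normA := exists_normA_of_normAlong_bar M q K' _ hq hm (by rw [hBCW]; exact hNα')
        normB := exists_normB_of_normAlong_bar M q K' _ hq hm (by rw [hBCW]; exact hNβ') }

/-! ### toric classes over the unramified bases (two sheets) -/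

section ToricU

variable (M q m : ℕ) [NeZero M] [NeZero q] [NeZero (M * q)] (A : ValuationSubring Ω)

/-- **a toric representative over the unramified bases (two sheets)**: the function descends to
an unramified base `K₀`, and over every unramified base containing `K₀` the descended function is
toric along both sheets. -/
def IsToricRepU (f : ↥(modularFunctionFieldBar (M * q))) : Prop :=
  ∃ K₀ : IntermediateField ℚ Ω, IsUnrBase q A K₀ ∧
    (∃ F₀ : ↥(keyFq ↥K₀ (M * q)), keyFqBC (M * q) K₀ F₀ = f) ∧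
    ∀ K₁ : IntermediateField ℚ Ω, IsUnrBase q A K₁ → K₀ ≤ K₁ →
      ∀ F₁ : ↥(keyFq ↥K₁ (M * q)), keyFqBC (M * q) K₁ F₁ = f →
        LegToricAt M q m A K₁ (fullToLegE ↥K₁ (M * q) F₁)

/-- **a toric class of `J₀(M q)[m]`** at the place `A ∣ q` (two sheets, unramified bases). -/
def IsToricClassAtU (x : JZero (M * q)) : Prop :=
  ∃ (D : Divisor.degZero (K := Ω) (F := ↥(modularFunctionFieldBar (M * q))))
    (f : ↥(modularFunctionFieldBar (M * q))), f ≠ 0 ∧ Pic0.mk D = x ∧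
    (∀ v : Place Ω ↥(modularFunctionFieldBar (M * q)),
      v.ord f = (m : ℤ) * (D : Divisor Ω ↥(modularFunctionFieldBar (M * q))) v) ∧
    IsToricRepU M q m A f

end ToricU

/-- **[NODE-I] over the unramified bases, at one place `A ∣ q`.** -/
def NewToricAtU (M q p : ℕ) [NeZero M] [NeZero q] [NeZero (M * q)] (A : ValuationSubring Ω) :
    Prop :=
  ∃ c : ℕ, ∀ (k : ℕ) (x : JZero (M * q)), p ^ k • x = 0 →
    (∀ τ ∈ A.inertiaSubgroupIn ℚ, τ • x = x) →
    degPushAlpha M q x = 0 → degPushBeta M q x = 0 →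
      IsToricClassAtU M q (p ^ k) A (p ^ c • x)

/-- **[NODE-I] over the unramified bases, all levels, every odd prime `p`.** -/
theorem newToricAtU (M q p : ℕ) [NeZero M] [NeZero q] [NeZero (M * q)] (hq : q.Prime)
    (hq2 : q ≠ 2) (hp : p.Prime) (hp2 : p ≠ 2) (hqp : q ≠ p) (hqM : ¬ q ∣ M)
    (A : ValuationSubring Ω) (hA : A.LiesOverPrime q) : NewToricAtU M q p A := by
  obtain ⟨c, hc⟩ := legNewBaseQO M q p hq hq2 hp hp2 hqp hqM A hA
  refine ⟨c, fun k x hpx hI hα hβ => ?_⟩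
  obtain ⟨D, f, hf, hDx, hfD, K₁, hK₁n, K', f₀, hBC, hfix, H, HAL⟩ :=
    newDescQU M q p hq hq2 hp hqp hqM A hA k x hpx hI hα hβ
  haveI := hK₁n
  haveI : Fact q.Prime := ⟨hq⟩
  obtain ⟨c', h, hc', hh, htor⟩ := hc k K₁ K' f₀ H HAL
  haveI : HasPrincipalDivisors Ω ↥(modularFunctionFieldBar (M * q)) :=
    (Fermat.Agent.X0N.jCoordBar (M * q)).hasPrincipalDivisors
  have hhΩ : keyFqBC (M * q) K' h ≠ 0 := (map_ne_zero _).2 hh
  have hcΩ : algebraMap ↥K' Ω c' ≠ 0 := (map_ne_zero _).2 hc'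
  have hfc : f ^ (p ^ c) ≠ 0 := pow_ne_zero _ hf
  obtain ⟨D', hD', hfD'⟩ := exists_degZero_of_kummer_mul ((p ^ c) • D) (f ^ (p ^ c)) hfc
    (ord_pow_eq_mul_nsmul D f hfD (p ^ c)) (algebraMap ↥K' Ω c') hcΩ (keyFqBC (M * q) K' h) hhΩ
  have hF : keyFqBC (M * q) K'
      (algebraMap ↥K' ↥(keyFq ↥K' (M * q)) c' * f₀ ^ (p ^ c) * h ^ (p ^ k)) =
      algebraMap Ω ↥(modularFunctionFieldBar (M * q)) (algebraMap ↥K' Ω c') * f ^ (p ^ c) *
        keyFqBC (M * q) K' h ^ (p ^ k) := by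
    rw [map_mul, map_mul, map_pow, map_pow, hBC, keyFqBC_algebraMap]
  have hclass : (Pic0.mk D' : JZero (M * q)) = p ^ c • x := by
    rw [hD', ← hDx]
    rfl
  refine ⟨D', _, ?_, hclass, hfD', K', ⟨H.base, hfix⟩, ⟨_, hF⟩, ?_⟩
  · exact mul_ne_zero (mul_ne_zero ((map_ne_zero _).2 hcΩ) hfc) (pow_ne_zero _ hhΩ)
  · intro K₂ hK₂ hle F₂ hF₂
    have e : legIncl hle (M * q) (fullToLegE ↥K' (M * q)
        (algebraMap ↥K' ↥(keyFq ↥K' (M * q)) c' * f₀ ^ (p ^ c) * h ^ (p ^ k))) =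
        fullToLegE ↥K₂ (M * q) F₂ := by
      haveI : IsDiscreteValuationRing ↥(baseRing A K') := H.base.isDiscreteValuationRing hA
      haveI : IsDiscreteValuationRing ↥(baseRing A K₂) :=
        hK₂.isBase.isDiscreteValuationRing hA
      exact legIncl_fullToLegE_of_keyFqBC_eq hle (M * q) _ F₂ (hF₂.trans hF.symm)
    have h1 : LegToricAt M q (p ^ k) A K₂ (legIncl hle (M * q) (fullToLegE ↥K' (M * q)
        (algebraMap ↥K' ↥(keyFq ↥K' (M * q)) c' * f₀ ^ (p ^ c) * h ^ (p ^ k)))) :=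
      @LegToricAt.of_le M q (p ^ k) _ _ _ hq hq2 hqM A hA K' K₂ hle H.base hK₂.isBase _ htor
    exact @cast _ _ (congrArg (LegToricAt M q (p ^ k) A K₂) e) h1

end Fermat.Agent.ML
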