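/-
ML — helper5 — **[SURJ]: the abstract cardinality bookkeeping.**

* `finite_and_card_le_of_forall_finset` : a type all of whose finite subsets have at most `b`
  elements is finite with at most `b` elements;
* `card_le_card_torsion_pow` : a finite abelian group killed by `p ^ k` has at most
  `(# A[p]) ^ k` elements;
* `pow_le_mul_card_map_of_card_bounds` : **the size of `T = p ^ c • H_{c+1}`**: for a family of
  finite subgroups `H_k` of `J[p ^ k]` with `H_k ∩ J[p ^ (c+1)] ⊆ H_{c+1}`,
  `# H_k · p ^ (2 k g') ≥ p ^ (k g₁)` for all `k` and `# J[p ^ c] ≤ p ^ (2 c g₁)`, the subgroup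
  `T = p ^ c • H_{c+1}` of `J[p]` has at least `p ^ (n - 1)` elements as soon as
  `n + 2 g' ≤ g₁ + 1`.
-/
import Mathlib

set_option autoImplicit false
set_option linter.unusedSectionVars false
set_option linter.unusedVariables false
set_option linter.style.haveILetI false

namespace Fermat.Agent.ML

section Finite

/-- a type all of whose finite subsets have at most `b` elements is finite, with at most `b`
elements. -/
theorem finite_and_card_le_of_forall_finset {α : Type*} (b : ℕ)
    (h : ∀ s : Finset α, s.card ≤ b) : Finite α ∧ Nat.card α ≤ b := by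
  classical
  have hfin : Finite α := by
    by_contra hinf
    rw [not_finite_iff_infinite] at hinf
    obtain ⟨s, hs⟩ := Infinite.exists_subset_card_eq α (b + 1)
    have := h s
    omega
  refine ⟨hfin, ?_⟩
  haveI := Fintype.ofFinite α
  rw [Nat.card_eq_fintype_card, ← Finset.card_univ]
  exact h _

end Finite

section Torsion

/-- **a finite abelian group killed by `p ^ k` has at most `(# A[p]) ^ k` elements.** -/
theorem card_le_card_torsion_pow (p : ℕ) :
    ∀ (k : ℕ) {A : Type*} [AddCommGroup A] [Finite A], (∀ a : A, p ^ k • a = 0) →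
      Nat.card A ≤ Nat.card {a : A // p • a = 0} ^ k := by
  intro k
  induction k with
  | zero =>
    intro A _ _ hA
    have hsub : Subsingleton A := ⟨fun a b => by
      have ha := hA a
      have hb := hA b
      rw [pow_zero, one_smul] at ha hb
      rw [ha, hb]⟩
    rw [pow_zero]
    exact Finite.card_le_one_iff_subsingleton.mpr hsub
  | succ k ih =>
    intro A _ _ hA
    let f : A →+ A := nsmulAddMonoidHom p
    have hf : ∀ a, f a = p • a := fun a => rfl
    have h1 : Nat.card A = Nat.card (A ⧸ f.ker) * Nat.card f.ker :=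
      AddSubgroup.card_eq_card_quotient_mul_card_addSubgroup f.ker
    have h2 : Nat.card (A ⧸ f.ker) = Nat.card f.range :=
      Nat.card_congr (QuotientAddGroup.quotientKerEquivRange f).toEquiv
    have hker : Nat.card f.ker = Nat.card {a : A // p • a = 0} := by
      refine Nat.card_congr ⟨fun a => ⟨a.1, ?_⟩, fun a => ⟨a.1, ?_⟩, fun a => rfl, fun a => rfl⟩
      · have := a.2
        rwa [AddMonoidHom.mem_ker, hf] at this
      · rw [AddMonoidHom.mem_ker, hf]
        exact a.2
    have hrange : ∀ b : f.range, p ^ k • b = 0 := by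
      rintro ⟨b, a, hab⟩
      apply Subtype.ext
      show p ^ k • b = 0
      rw [← hab, hf, ← mul_smul, ← pow_succ]
      exact hA a
    have h3 := ih (A := f.range) hrange
    have h4 : Nat.card {b : f.range // p • b = 0} ≤ Nat.card {a : A // p • a = 0} := by
      refine Nat.card_le_card_of_injective
        (fun b => (⟨(b.1 : A), by
          have hb : ((p • b.1 : f.range) : A) = ((0 : f.range) : A) :=
            congrArg (fun z : f.range => (z : A)) b.2
          rw [AddSubgroup.coe_nsmul, AddSubgroup.coe_zero] at hb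
          exact hb⟩ : {a : A // p • a = 0})) ?_
      intro b b' hbb
      apply Subtype.ext
      apply Subtype.ext
      exact congrArg (fun z : {a : A // p • a = 0} => (z : A)) hbb
    rw [h1, h2, hker, pow_succ]
    calc Nat.card f.range * Nat.card {a : A // p • a = 0}
        ≤ Nat.card {b : f.range // p • b = 0} ^ k * Nat.card {a : A // p • a = 0} :=
          Nat.mul_le_mul_right _ h3
      _ ≤ Nat.card {a : A // p • a = 0} ^ k * Nat.card {a : A // p • a = 0} :=
          Nat.mul_le_mul_right _ (Nat.pow_le_pow_left h4 k)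

end Torsion

section Bound

/-- counting along a homomorphism: `#G ≤ #ker · #range`. -/
theorem card_le_card_ker_mul_range {G H : Type*} [AddCommGroup G] [AddCommGroup H] [Finite G]
    (f : G →+ H) : Nat.card G ≤ Nat.card ↥f.ker * Nat.card ↥f.range := by
  have h1 : Nat.card G = Nat.card (G ⧸ f.ker) * Nat.card f.ker :=
    AddSubgroup.card_eq_card_quotient_mul_card_addSubgroup f.ker
  have h2 : Nat.card (G ⧸ f.ker) = Nat.card f.range :=
    Nat.card_congr (QuotientAddGroup.quotientKerEquivRange f).toEquiv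
  rw [h1, h2, mul_comm]

/-- a finite abelian group killed by the prime `p` has `p ^ τ` elements. -/
theorem exists_card_eq_pow_of_forall_smul_eq_zero (p : ℕ) (hp : p.Prime) {T : Type*}
    [AddCommGroup T] [Finite T] (hT : ∀ t : T, p • t = 0) : ∃ τ : ℕ, Nat.card T = p ^ τ := by
  haveI : Fact p.Prime := ⟨hp⟩
  have hpg : IsPGroup p (Multiplicative T) := by
    intro g
    refine ⟨1, ?_⟩
    rw [pow_one]
    show Multiplicative.ofAdd (p • Multiplicative.toAdd g) = 1
    rw [hT]
    rfl
  obtain ⟨τ, hτ⟩ := hpg.exists_card_eq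
  exact ⟨τ, hτ⟩

/-- **the size of `T = p ^ c • H_{c+1}`.** -/
theorem pow_le_mul_card_map_of_card_bounds {J : Type*} [AddCommGroup J] (p : ℕ) (hp : p.Prime)
    (H : ℕ → AddSubgroup J) (hfin : ∀ k, Finite ↥(H k))
    (hkill : ∀ k, ∀ z ∈ H k, p ^ k • z = 0) (c g₁ g' n : ℕ)
    (hsub : ∀ k, ∀ z ∈ H k, p ^ (c + 1) • z = 0 → z ∈ H (c + 1))
    (hcard : ∀ k, p ^ (k * g₁) ≤ Nat.card ↥(H k) * p ^ (2 * k * g'))
    (hJ : ∀ S : AddSubgroup J, Finite ↥S → (∀ z ∈ S, p ^ c • z = 0) →
      Nat.card ↥S ≤ p ^ (2 * c * g₁))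
    (hn : n + 2 * g' ≤ g₁ + 1) :
    p ^ n ≤ p * Nat.card ↥((H (c + 1)).map (nsmulAddMonoidHom (p ^ c) : J →+ J)) := by
  classical
  have hp1 : 1 < p := hp.one_lt
  have hp0 : 0 < p := hp.pos
  set T : AddSubgroup J := (H (c + 1)).map (nsmulAddMonoidHom (p ^ c) : J →+ J) with hT
  haveI : Finite ↥(H (c + 1)) := hfin _
  haveI hTfin : Finite ↥T := by
    rw [hT]
    exact Set.Finite.to_subtype ((Set.toFinite (↑(H (c + 1)) : Set J)).image _)
  -- `T` is killed by `p`
  have hTkill : ∀ t : ↥T, p • t = 0 := by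
    rintro ⟨t, ht⟩
    apply Subtype.ext
    show p • t = 0
    rw [hT, AddSubgroup.mem_map] at ht
    obtain ⟨z, hz, rfl⟩ := ht
    show p • (p ^ c • z) = 0
    rw [← mul_smul, ← pow_succ']
    exact hkill _ z hz
  obtain ⟨τ, hτ⟩ := exists_card_eq_pow_of_forall_smul_eq_zero p hp hTkill
  -- the index `k`
  set k : ℕ := 2 * c * g₁ + 1 with hk
  haveI : Finite ↥(H k) := hfin _
  -- the multiplication by `p ^ c` on `H_k`
  let f : ↥(H k) →+ ↥(H k) := nsmulAddMonoidHom (p ^ c)
  have hf : ∀ z : ↥(H k), ((f z : ↥(H k)) : J) = p ^ c • (z : J) := fun z => rfl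
  have h1 := card_le_card_ker_mul_range f
  -- the kernel
  have hker : Nat.card ↥f.ker ≤ p ^ (2 * c * g₁) := by
    have hle := hJ ((f.ker).map (H k).subtype)
      (Set.Finite.to_subtype ((Set.toFinite (↑f.ker : Set ↥(H k))).image _)) (by
        intro z hz
        rw [AddSubgroup.mem_map] at hz
        obtain ⟨w, hw, rfl⟩ := hz
        rw [AddMonoidHom.mem_ker] at hw
        have := congrArg (fun t : ↥(H k) => (t : J)) hw
        exact this)
    refine le_trans (le_of_eq ?_) hle
    exact Nat.card_congr ((f.ker).equivMapOfInjective (H k).subtype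
      (AddSubgroup.subtype_injective _)).toEquiv
  -- the range is killed by `p ^ k`
  have hrange : ∀ b : ↥f.range, p ^ k • b = 0 := by
    rintro ⟨b, hb⟩
    apply Subtype.ext
    apply Subtype.ext
    show p ^ k • (b : J) = 0
    exact hkill k _ b.2
  have h2 := card_le_card_torsion_pow p k (A := ↥f.range) hrange
  -- the `p`-torsion of the range is in `T`
  have h3 : Nat.card {b : ↥f.range // p • b = 0} ≤ Nat.card ↥T := by
    refine Nat.card_le_card_of_injective
      (fun b => (⟨((b.1 : ↥(H k)) : J), by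
        obtain ⟨⟨b, a, hab⟩, hb⟩ := b
        show (b : J) ∈ T
        have hb' : p • (b : J) = 0 := by
          have := congrArg (fun t : ↥f.range => ((t : ↥(H k)) : J)) hb
          exact this
        rw [hT, AddSubgroup.mem_map]
        refine ⟨(a : J), hsub k _ a.2 ?_, ?_⟩
        · rw [pow_succ', mul_smul, ← hf a, hab]
          exact hb'
        · rw [← hab]
          rfl⟩ : ↥T)) ?_
    intro b b' hbb
    apply Subtype.ext
    apply Subtype.ext
    apply Subtype.ext
    exact congrArg (fun t : ↥T => (t : J)) hbb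
  -- assemble
  have h4 : p ^ (k * g₁) ≤ p ^ (2 * c * g₁) * p ^ (τ * k) * p ^ (2 * k * g') := by
    calc p ^ (k * g₁) ≤ Nat.card ↥(H k) * p ^ (2 * k * g') := hcard k
      _ ≤ (p ^ (2 * c * g₁) * p ^ (τ * k)) * p ^ (2 * k * g') := by
          refine Nat.mul_le_mul_right _ (le_trans h1 (Nat.mul_le_mul hker ?_))
          refine le_trans h2 ?_
          rw [pow_mul, ← hτ]
          exact Nat.pow_le_pow_left h3 k
  rw [← pow_add, ← pow_add] at h4
  have h5 : k * g₁ ≤ 2 * c * g₁ + τ * k + 2 * k * g' := (Nat.pow_le_pow_iff_right hp1).mp h4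
  -- arithmetic: `g₁ ≤ τ + 2 g'`
  have h6 : g₁ ≤ τ + 2 * g' := by
    by_contra hlt
    rw [not_le] at hlt
    have h7 : k * (τ + 2 * g' + 1) ≤ k * g₁ := Nat.mul_le_mul_left _ hlt
    have h8 : k * (τ + 2 * g' + 1) = τ * k + 2 * k * g' + k := by ring
    rw [h8] at h7
    omega
  have h9 : n ≤ τ + 1 := by omega
  calc p ^ n ≤ p ^ (τ + 1) := Nat.pow_le_pow_right hp0 h9
    _ = p * Nat.card ↥T := by rw [hτ, pow_succ']

end Bound

end Fermat.Agent.ML
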