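/-
ML — helper5 — **[SURJ]: the bookkeeping on the side of `J₀(M q)` and of the bases.**

* `isUnrBase_flatBase`, `exists_isUnrBase_ge_of_finite` : finitely many unramified bases are
  contained in one;
* `exists_keyFqBC_eq_of_le` : a function of the level field over `K₁` is defined over every
  `K₂ ≥ K₁`;
* `fixSub M q p A k` : the `I_A`-fixed part of the subgroup of `J₀(M q)[p ^ k]` killed by both
  degeneracy pushforwards, its finiteness;
* `card_le_pow_of_forall_smul_eq_zero` : a finite subgroup of `J₀(M q)` killed by `p ^ c` has at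
  most `p ^ (2 c g(M q))` elements;
* `pow_le_mul_card_toricSub` : **`p ^ n ≤ p · # (p ^ c • (G_{c+1}^new)^{I_A})`** as soon as
  `n + 2 g(M) ≤ g(M q) + 1`, from `[CARD]`.
-/
import Mathlib
import Fermat.Agent.ML.SURJ_helper5_Tors
import Fermat.Agent.ML.SURJ_helper5_NewToricU
import Fermat.Agent.ML.IFACE_helper5_SurjLeaves
import Fermat.Agent.ML.RANK_helper5_Card
import Fermat.Agent.ML.STKILL_helper5_Gal

set_option autoImplicit false
set_option linter.unusedSectionVars false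
set_option linter.unusedVariables false
set_option linter.style.haveILetI false
set_option synthInstance.maxHeartbeats 400000

open HahnSeries IntermediateField AlgebraicCurve ModularCurve ModularCurve.Period
  CongruenceSubgroup

open scoped MatrixGroups

namespace Fermat.Agent.ML

open Fermat.Agent.JA Fermat.Agent.FF Fermat.Agent.SS Fermat.Agent.S35 Fermat.Agent.MP
  Fermat.Agent.NP Fermat.Agent.GR Fermat.Agent.RB

/-- `Ω = AlgebraicClosure ℚ`. -/
local notation "Ω" => AlgebraicClosure ℚ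

/-- the absolute Galois group. -/
local notation "GQ" => (AlgebraicClosure ℚ ≃ₐ[ℚ] AlgebraicClosure ℚ)

/-! ### bases -/

section Bases

variable {q : ℕ} [Fact q.Prime] {A : ValuationSubring Ω}

/-- the flat base is unramified. -/
theorem isUnrBase_flatBase (hA : A.LiesOverPrime q) : IsUnrBase q A (flatBase q) :=
  ⟨isBase_flatBase, fun z hz τ hτ => inertia_apply_of_mem_flatBase hA hτ hz⟩

/-- finitely many unramified bases are contained in one. -/
theorem exists_isUnrBase_ge_of_finite (hA : A.LiesOverPrime q) {ι : Type*} [Finite ι]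
    (Kf : ι → IntermediateField ℚ Ω) (hKf : ∀ i, IsUnrBase q A (Kf i)) :
    ∃ K₀ : IntermediateField ℚ Ω, IsUnrBase q A K₀ ∧ ∀ i, Kf i ≤ K₀ := by
  classical
  haveI := Fintype.ofFinite ι
  have key : ∀ s : Finset ι, ∃ K₀ : IntermediateField ℚ Ω, IsUnrBase q A K₀ ∧
      ∀ i ∈ s, Kf i ≤ K₀ := by
    intro s
    induction s using Finset.induction_on with
    | empty => exact ⟨flatBase q, isUnrBase_flatBase hA, fun i hi => absurd hi (Finset.notMem_empty i)⟩
    | insert a s ha ih =>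
      obtain ⟨K₀, hK₀, hle⟩ := ih
      refine ⟨K₀ ⊔ Kf a, hK₀.sup (hKf a), fun i hi => ?_⟩
      rcases Finset.mem_insert.mp hi with rfl | hi
      · exact le_sup_right
      · exact (hle i hi).trans le_sup_left
  obtain ⟨K₀, hK₀, hle⟩ := key Finset.univ
  exact ⟨K₀, hK₀, fun i => hle i (Finset.mem_univ i)⟩

/-- a function of the level field over `K₁` is defined over every `K₂ ≥ K₁`. -/
theorem exists_keyFqBC_eq_of_le {K₁ K₂ : IntermediateField ℚ Ω} (hle : K₁ ≤ K₂) (N : ℕ) [NeZero N]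
    (F₁ : ↥(keyFq ↥K₁ N)) : ∃ F₂ : ↥(keyFq ↥K₂ N), keyFqBC N K₂ F₂ = keyFqBC N K₁ F₁ := by
  refine ⟨⟨coeffMap (baseIncl hle) (F₁ : LaurentSeries ↥K₁),
    coeffMap_hom_mem_laurentBaseChange (baseIncl hle) _ F₁.2⟩, Subtype.ext ?_⟩
  rw [coe_keyFqBC, coe_keyFqBC]
  show coeffMap (algebraMap ↥K₂ Ω) (coeffMap (baseIncl hle) (F₁ : LaurentSeries ↥K₁)) = _
  rw [coeffMap_coeffMap]
  exact coeffMap_congr (RingHom.ext fun c => rfl) _

end Bases

/-! ### the inertia-fixed new part -/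

section Fix

variable (M q p : ℕ) [NeZero M] [NeZero q] [NeZero (M * q)] (A : ValuationSubring Ω) (k : ℕ)

/-- `(G_k^new)^{I_A}`: the `I_A`-fixed part of the subgroup of `J₀(M q)[p ^ k]` killed by both
degeneracy pushforwards. -/
def fixSub : AddSubgroup (JZero (M * q)) where
  carrier := {z | p ^ k • z = 0 ∧ degPushAlpha M q z = 0 ∧ degPushBeta M q z = 0 ∧
    ∀ τ ∈ A.inertiaSubgroupIn ℚ, τ • z = z}
  zero_mem' := ⟨nsmul_zero _, map_zero _, map_zero _, fun τ _ => smul_zero τ⟩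
  add_mem' := by
    rintro a b ⟨ha1, ha2, ha3, ha4⟩ ⟨hb1, hb2, hb3, hb4⟩
    exact ⟨by rw [nsmul_add, ha1, hb1, add_zero], by rw [map_add, ha2, hb2, add_zero],
      by rw [map_add, ha3, hb3, add_zero], fun τ hτ => by rw [smul_add, ha4 τ hτ, hb4 τ hτ]⟩
  neg_mem' := by
    rintro a ⟨ha1, ha2, ha3, ha4⟩
    exact ⟨by rw [neg_nsmul, ha1, neg_zero], by rw [map_neg, ha2, neg_zero],
      by rw [map_neg, ha3, neg_zero], fun τ hτ => by rw [smul_neg, ha4 τ hτ]⟩

variable {M q p A k} in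
theorem mem_fixSub {z : JZero (M * q)} :
    z ∈ fixSub M q p A k ↔ p ^ k • z = 0 ∧ degPushAlpha M q z = 0 ∧ degPushBeta M q z = 0 ∧
      ∀ τ ∈ A.inertiaSubgroupIn ℚ, τ • z = z :=
  Iff.rfl

/-- the torsion of `J₀(N)` is finite. -/
theorem finite_torsionNat_jzero (N : ℕ) [NeZero N] (hp : p.Prime) :
    Finite ↥(torsionNat (JZero N) (p ^ k)) := by
  haveI : Fact p.Prime := ⟨hp⟩
  exact (stageIData N p).D.finite_torsion k

/-- a subgroup of `J₀(N)` killed by `p ^ k` is finite. -/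
theorem finite_of_forall_smul_eq_zero (N : ℕ) [NeZero N] (hp : p.Prime)
    (S : AddSubgroup (JZero N)) (hS : ∀ z ∈ S, p ^ k • z = 0) : Finite ↥S := by
  haveI := finite_torsionNat_jzero p k N hp
  exact Finite.of_injective (fun z : ↥S => (⟨z.1, hS z.1 z.2⟩ : ↥(torsionNat (JZero N) (p ^ k))))
    (fun a b hab => Subtype.ext (congrArg (fun t : ↥(torsionNat (JZero N) (p ^ k)) =>
      (t : JZero N)) hab))

theorem finite_fixSub (hp : p.Prime) : Finite ↥(fixSub M q p A k) :=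
  finite_of_forall_smul_eq_zero p k (M * q) hp _ (fun z hz => hz.1)

/-- **a finite subgroup of `J₀(N)` killed by `p ^ c` has at most `p ^ (2 c g(N))` elements**
(`p` odd; at `p = 3`, a prime `r ≡ 2 mod 3` divides `N`). -/
theorem card_le_pow_of_forall_smul_eq_zero (N : ℕ) [NeZero N] (hp : p.Prime) (hp2 : p ≠ 2)
    (h3 : p = 3 → ∃ r : ℕ, r.Prime ∧ r ∣ N ∧ r % 3 = 2) (g : ℕ) (hg : (g : ℚ) = genusFormula N)
    (c : ℕ) (S : AddSubgroup (JZero N)) (hS : ∀ z ∈ S, p ^ c • z = 0) :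
    Nat.card ↥S ≤ p ^ (2 * c * g) := by
  haveI : Fact p.Prime := ⟨hp⟩
  set D : KapData (JZero N) (Gamma0 N) p := (stageIData N p).D with hD
  haveI := D.finite_torsion c
  have hr : Module.finrank ℤ ↥(parabolicHoms ℤ (Gamma0 N) ℤ) = 2 * g := by
    have h := Fermat.Agent.S16.finrank_parabolicHoms_int N
    rw [← hg] at h
    exact_mod_cast h
  have hup := kapData_card_torsion_le_pow D c (fun ψ hψ => parLiftModPowO N p hp2 h3 c ψ hψ)
  rw [hr] at hup
  have hinj : Nat.card ↥S ≤ Nat.card ↥(torsionNat (JZero N) (p ^ c)) :=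
    Nat.card_le_card_of_injective
      (fun z : ↥S => (⟨z.1, hS z.1 z.2⟩ : ↥(torsionNat (JZero N) (p ^ c))))
      (fun a b hab => Subtype.ext (congrArg (fun t : ↥(torsionNat (JZero N) (p ^ c)) =>
        (t : JZero N)) hab))
  calc Nat.card ↥S ≤ _ := hinj
    _ ≤ p ^ (c * (2 * g)) := hup
    _ = p ^ (2 * c * g) := by ring_nf

/-- **the size of the group of the toric classes**: `p ^ n ≤ p · # (p ^ c • (G_{c+1}^new)^{I_A})`
as soon as `n + 2 g(M) ≤ g(M q) + 1`. -/
theorem pow_le_mul_card_toricSub (HC : NewFixedCardStatement) (hq : q.Prime) (hp : p.Prime)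
    (hp2 : p ≠ 2) (hqp : q ≠ p) (hqM : ¬ q ∣ M) (h3 : p = 3 → 2 ∣ M) (hA : A.LiesOverPrime q)
    (g₁ g' : ℕ) (hg₁ : (g₁ : ℚ) = genusFormula (M * q)) (hg' : (g' : ℚ) = genusFormula M)
    (c n : ℕ) (hn : n + 2 * g' ≤ g₁ + 1) :
    p ^ n ≤ p * Nat.card ↥((fixSub M q p A (c + 1)).map
      (nsmulAddMonoidHom (p ^ c) : JZero (M * q) →+ JZero (M * q))) := by
  refine pow_le_mul_card_map_of_card_bounds p hp (fun k => fixSub M q p A k)
    (fun k => finite_fixSub M q p A k hp) (fun k z hz => hz.1) c g₁ g' n ?_ ?_ ?_ hn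
  · intro k z hz hz'
    exact ⟨hz', hz.2.1, hz.2.2.1, hz.2.2.2⟩
  · intro k
    have h := HC M q p hq hp hp2 hqp hqM h3 A hA g₁ g' hg₁ hg' k
    have e : Nat.card ↥(fixSub M q p A k) = Nat.card {z : JZero (M * q) // p ^ k • z = 0 ∧
        degPushAlpha M q z = 0 ∧ degPushBeta M q z = 0 ∧
          ∀ τ ∈ A.inertiaSubgroupIn ℚ, τ • z = z} := rfl
    rw [e]
    exact h
  · intro S _ hS
    exact card_le_pow_of_forall_smul_eq_zero p (M * q) hp hp2
      (fun h => ⟨2, Nat.prime_two, Dvd.dvd.mul_right (h3 h) q, rfl⟩) g₁ hg₁ c S hS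

end Fix

end Fermat.Agent.ML
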