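/-
ML — helper5 — **[SURJ], part (vi): the abstract counting lemma.**

`T` a finite abelian group ("toric classes"), `X` a finite abelian `p`-group ("functions on the
traces of the nodes with values in `μ_{p^k}`"), `C ≤ X` ("constants"), and an additive relation
`Rel ⊆ T × X` ("`x` is a node datum of a toric representative of `t`"), total on `T`, such that a
class with a constant datum is `0`.  If `# X ≤ # C · # T · p ^ e` then every `p ^ e`-th power of `X`
is, up to a constant, a datum.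

No well-definedness of the datum on classes is needed: the data of the representatives of the
classes of `T` form a subgroup `Y` of `X / C` into which `T` injects.
-/
import Mathlib

set_option autoImplicit false
set_option linter.unusedSectionVars false
set_option linter.unusedVariables false

namespace Fermat.Agent.ML

section Count

variable {T : Type*} [AddCommGroup T] [Finite T] {X : Type*} [CommGroup X] [Finite X]

/-- **the counting lemma.** -/
theorem exists_rel_pow_of_card_le (C : Subgroup X) (Rel : T → X → Prop)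
    (hone : Rel 0 1)
    (hmul : ∀ t t' x x', Rel t x → Rel t' x' → Rel (t + t') (x * x'))
    (hinv : ∀ t x, Rel t x → Rel (-t) x⁻¹)
    (htot : ∀ t, ∃ x, Rel t x)
    (hinj : ∀ t x, Rel t x → x ∈ C → t = 0)
    {p e N : ℕ} (hp : p.Prime) (hX : Nat.card X = p ^ N)
    (hcard : Nat.card X ≤ Nat.card C * Nat.card T * p ^ e) (ψ : X) :
    ∃ t x, Rel t x ∧ ∃ c ∈ C, x = ψ ^ (p ^ e) * c := by
  classical
  -- the subgroup of the data, modulo constants
  let Y : Subgroup (X ⧸ C) :=
    { carrier := {z | ∃ t x, Rel t x ∧ (QuotientGroup.mk x : X ⧸ C) = z}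
      one_mem' := ⟨0, 1, hone, rfl⟩
      mul_mem' := by
        rintro _ _ ⟨t, x, h, rfl⟩ ⟨t', x', h', rfl⟩
        exact ⟨t + t', x * x', hmul t t' x x' h h', rfl⟩
      inv_mem' := by
        rintro _ ⟨t, x, h, rfl⟩
        exact ⟨-t, x⁻¹, hinv t x h, rfl⟩ }
  have hYmem : ∀ z : X ⧸ C, z ∈ Y ↔ ∃ t x, Rel t x ∧ (QuotientGroup.mk x : X ⧸ C) = z :=
    fun z => Iff.rfl
  -- `T` injects into `Y`
  choose d hd using htot
  have hdY : ∀ t : T, (QuotientGroup.mk (d t) : X ⧸ C) ∈ Y := fun t => ⟨t, d t, hd t, rfl⟩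
  have hinjd : Function.Injective (fun t : T => (⟨QuotientGroup.mk (d t), hdY t⟩ : ↥Y)) := by
    intro t s hts
    have h1 : (QuotientGroup.mk (d t) : X ⧸ C) = QuotientGroup.mk (d s) :=
      congrArg Subtype.val hts
    rw [QuotientGroup.eq] at h1
    have h2 : Rel (-t + s) ((d t)⁻¹ * d s) := hmul _ _ _ _ (hinv _ _ (hd t)) (hd s)
    have h3 := hinj _ _ h2 h1
    rw [neg_add_eq_zero] at h3
    exact h3
  have hTY : Nat.card T ≤ Nat.card ↥Y := Nat.card_le_card_of_injective _ hinjd
  -- cardinalities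
  have h1 : Nat.card (X ⧸ C) * Nat.card ↥C = Nat.card X :=
    (Subgroup.card_eq_card_quotient_mul_card_subgroup C).symm
  have h2 : Nat.card ↥Y * Y.index = Nat.card (X ⧸ C) := Subgroup.card_mul_index Y
  have hCpos : 0 < Nat.card ↥C := Nat.card_pos
  have hYpos : 0 < Nat.card ↥Y := Nat.card_pos
  have hidx : Y.index ≤ p ^ e := by
    have h3 : Nat.card ↥C * Nat.card ↥Y * Y.index ≤ Nat.card ↥C * Nat.card ↥Y * p ^ e := by
      calc Nat.card ↥C * Nat.card ↥Y * Y.index = Nat.card ↥Y * Y.index * Nat.card ↥C := by ring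
        _ = Nat.card X := by rw [h2, h1]
        _ ≤ Nat.card ↥C * Nat.card T * p ^ e := hcard
        _ ≤ Nat.card ↥C * Nat.card ↥Y * p ^ e :=
            Nat.mul_le_mul_right _ (Nat.mul_le_mul_left _ hTY)
    exact Nat.le_of_mul_le_mul_left h3 (Nat.mul_pos hCpos hYpos)
  have hdvd : Y.index ∣ p ^ N := by
    rw [← hX, ← h1, ← h2]
    exact Dvd.dvd.mul_right (Dvd.intro_left _ rfl) _
  obtain ⟨j, -, hjeq⟩ := (Nat.dvd_prime_pow hp).1 hdvd
  have hje : j ≤ e := by
    rw [hjeq] at hidx
    exact (Nat.pow_le_pow_iff_right hp.one_lt).1 hidx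
  -- `ψ ^ (p ^ e)` is a datum modulo constants
  have hmem : (QuotientGroup.mk ψ : X ⧸ C) ^ (p ^ e) ∈ Y := by
    have h3 : (QuotientGroup.mk ψ : X ⧸ C) ^ Y.index ∈ Y := Subgroup.pow_index_mem Y _
    rw [hjeq] at h3
    have h4 : p ^ e = p ^ j * p ^ (e - j) := by rw [← pow_add, Nat.add_sub_cancel' hje]
    rw [h4, pow_mul]
    exact Y.pow_mem h3 _
  obtain ⟨t, x, hrel, hx⟩ := (hYmem _).1 hmem
  refine ⟨t, x, hrel, (ψ ^ (p ^ e))⁻¹ * x, ?_, by rw [mul_inv_cancel_left]⟩
  rw [← QuotientGroup.mk_pow] at hx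
  have h5 : (QuotientGroup.mk (ψ ^ (p ^ e)) : X ⧸ C) = QuotientGroup.mk x := hx.symm
  rw [QuotientGroup.eq] at h5
  exact h5

end Count

end Fermat.Agent.ML
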