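/-
ML — helper5 — **[SURJ]: the abstract core.**

`B ⊂ E` a chart, `W_∞`, `W_0` two sheets, `Nd` a set of closed points of `B` on both sheets
("nodes"), `tr` a function on the points ("trace"), `T` a finite abelian group ("toric classes"),
`Tor t G Linf L0` a multiplicative relation ("`(G; Linf, L0)` is a toric triple of class `t`").
If every toric triple has a node datum in `μ_p(R)` at every node (existence), which only depends on
the trace (deck invariance), a class with a constant datum vanishes (injectivity), and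
`p ^ #traces ≤ p · # T`, then every function `φ` on the traces with values in `μ_p(R)` is, up to a
constant, the node datum of a toric triple (`exists_toric_of_count`).
-/
import Mathlib
import Fermat.Agent.ML.SURJ_helper5_Count
import Fermat.Agent.ML.DATUM_helper3_Ratio

set_option autoImplicit false
set_option linter.unusedSectionVars false
set_option linter.unusedVariables false
set_option linter.style.haveILetI false

namespace Fermat.Agent.ML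

open Fermat.Agent.SS

section Core

variable {R : Type*} [CommRing R] [IsDomain R] {E : Type*} [Field E] [Algebra R E]
  {B : Subalgebra R E} {Winf W0 : ValuationSubring E}

/-- the node datum of the trivial triple. -/
theorem nodeRatioAt_one (𝔫 : Ideal ↥B) [h𝔫 : 𝔫.IsPrime] (m : ℕ) :
    NodeRatioAt B 𝔫 Winf W0 m (1 : E) 1 1 (1 : R) := by
  refine ⟨1, 1, 1, one_ne_zero, ⟨1, 1, loc_one_notMem 𝔫, loc_one_notMem 𝔫, by simp⟩,
    ⟨(locRing B 𝔫).one_mem, one_notMem_locMax, by simp⟩,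
    ⟨(locRing B 𝔫).one_mem, one_notMem_locMax, by simp⟩, ?_⟩
  rw [map_one, mul_one, sub_self]
  exact zero_mem_locMax

/-- the node datum only depends on the value of the constant. -/
theorem NodeRatioAt.congr_const {𝔫 : Ideal ↥B} [h𝔫 : 𝔫.IsPrime] {m : ℕ} {G Linf L0 : E} {ζ ζ' : R}
    (h : NodeRatioAt B 𝔫 Winf W0 m G Linf L0 ζ) (hζ : ζ = ζ') :
    NodeRatioAt B 𝔫 Winf W0 m G Linf L0 ζ' := hζ ▸ h

variable (Nd : Ideal ↥B → Prop) (hprime : ∀ 𝔫, Nd 𝔫 → 𝔫.IsPrime)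
  (hthr_inf : ∀ 𝔫, Nd 𝔫 → IsSheetThrough B 𝔫 Winf)
  (hthr_zero : ∀ 𝔫, Nd 𝔫 → IsSheetThrough B 𝔫 W0)
  {τ : Type*} (tr : Ideal ↥B → τ) (Trs : Set τ) (hTrs : ∀ S, S ∈ Trs ↔ ∃ 𝔫, Nd 𝔫 ∧ tr 𝔫 = S)
  {p : ℕ} (hp : p.Prime) {ξ : R} (hξ : IsPrimitiveRoot ξ p)
  {T : Type*} [AddCommGroup T] [Finite T] (Tor : T → E → E → E → Prop)

include hthr_inf hthr_zero hTrs hp hξ in
/-- **the abstract core of [SURJ].** -/
theorem exists_toric_of_count
    (hone : Tor 0 1 1 1)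
    (hmul : ∀ t t' G G' L L' l l', Tor t G L l → Tor t' G' L' l' →
      Tor (t + t') (G * G') (L * L') (l * l'))
    (hinv : ∀ t G L l, Tor t G L l → Tor (-t) G⁻¹ L⁻¹ l⁻¹)
    (htot : ∀ t, ∃ G L l, Tor t G L l)
    (hnode : ∀ t G L l, Tor t G L l → ∀ 𝔫 (h : Nd 𝔫), ∃ i : ℕ,
      @NodeRatioAt R _ E _ _ B 𝔫 (hprime 𝔫 h) Winf W0 p G L l (ξ ^ i))
    (hdeck : ∀ t G L l, Tor t G L l → ∀ 𝔫 𝔫' (h : Nd 𝔫) (h' : Nd 𝔫'), tr 𝔫 = tr 𝔫' → ∀ ζ : R,
      @NodeRatioAt R _ E _ _ B 𝔫 (hprime 𝔫 h) Winf W0 p G L l ζ →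
      @NodeRatioAt R _ E _ _ B 𝔫' (hprime 𝔫' h') Winf W0 p G L l ζ)
    (hinj : ∀ t G L l, Tor t G L l → ∀ γ : R,
      (∀ 𝔫 (h : Nd 𝔫), @NodeRatioAt R _ E _ _ B 𝔫 (hprime 𝔫 h) Winf W0 p G L l γ) → t = 0)
    (hfin : Finite ↥Trs) (hcard : p ^ Nat.card ↥Trs ≤ p * Nat.card T)
    (φ : τ → R) (hφ : ∀ S, φ S ^ p = 1) :
    ∃ (t : T) (G L l : E) (c : R), Tor t G L l ∧ ∀ 𝔫 (h : Nd 𝔫),
      @NodeRatioAt R _ E _ _ B 𝔫 (hprime 𝔫 h) Winf W0 p G L l (c * φ (tr 𝔫)) := by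
  classical
  haveI : NeZero p := ⟨hp.ne_zero⟩
  haveI := hfin
  have hμcard : Nat.card ↥(rootsOfUnity p R) = p := hξ.card_rootsOfUnity
  haveI : Finite ↥(rootsOfUnity p R) :=
    Nat.finite_of_card_ne_zero (by rw [hμcard]; exact hp.ne_zero)
  -- the trace of a node as an element of `Trs`
  let trN : ∀ 𝔫, Nd 𝔫 → ↥Trs := fun 𝔫 h => ⟨tr 𝔫, (hTrs _).2 ⟨𝔫, h, rfl⟩⟩
  -- the relation
  let Rel : T → (↥Trs → ↥(rootsOfUnity p R)) → Prop := fun t x =>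
    ∃ G L l, Tor t G L l ∧ ∀ 𝔫 (h : Nd 𝔫),
      @NodeRatioAt R _ E _ _ B 𝔫 (hprime 𝔫 h) Winf W0 p G L l
        (((x (trN 𝔫 h) : ↥(rootsOfUnity p R)) : Rˣ) : R)
  -- the constants
  let constHom : ↥(rootsOfUnity p R) →* (↥Trs → ↥(rootsOfUnity p R)) :=
    { toFun := fun γ _ => γ
      map_one' := rfl
      map_mul' := fun _ _ => rfl }
  let C : Subgroup (↥Trs → ↥(rootsOfUnity p R)) := constHom.range
  have hRone : Rel 0 1 := by
    refine ⟨1, 1, 1, hone, fun 𝔫 h => ?_⟩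
    haveI := hprime 𝔫 h
    exact nodeRatioAt_one 𝔫 p
  have hRmul : ∀ t t' x x', Rel t x → Rel t' x' → Rel (t + t') (x * x') := by
    rintro t t' x x' ⟨G, L, l, hT, hN⟩ ⟨G', L', l', hT', hN'⟩
    refine ⟨G * G', L * L', l * l', hmul _ _ _ _ _ _ _ _ hT hT', fun 𝔫 h => ?_⟩
    haveI := hprime 𝔫 h
    exact NodeRatioAt.mul (hthr_inf 𝔫 h) (hthr_zero 𝔫 h) (hN 𝔫 h) (hN' 𝔫 h)
  have hRinv : ∀ t x, Rel t x → Rel (-t) x⁻¹ := by
    rintro t x ⟨G, L, l, hT, hN⟩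
    refine ⟨G⁻¹, L⁻¹, l⁻¹, hinv _ _ _ _ hT, fun 𝔫 h => ?_⟩
    haveI := hprime 𝔫 h
    refine NodeRatioAt.inv (hthr_inf 𝔫 h) (hthr_zero 𝔫 h) ?_ (hN 𝔫 h)
    exact Units.mul_inv ((x (trN 𝔫 h) : ↥(rootsOfUnity p R)) : Rˣ)
  have hRtot : ∀ t, ∃ x, Rel t x := by
    intro t
    obtain ⟨G, L, l, hT⟩ := htot t
    choose i hi using hnode t G L l hT
    choose nd hnd htr using fun S : ↥Trs => (hTrs S.1).1 S.2
    have hpow : ∀ k : ℕ, (ξ ^ k) ^ p = 1 := fun k => by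
      rw [← pow_mul, mul_comm, pow_mul, hξ.pow_eq_one, one_pow]
    refine ⟨fun S => rootsOfUnity.mkOfPowEq (ξ ^ i (nd S) (hnd S)) (hpow _), G, L, l, hT,
      fun 𝔫 h => ?_⟩
    rw [rootsOfUnity.coe_mkOfPowEq]
    exact hdeck t G L l hT (nd (trN 𝔫 h)) 𝔫 (hnd _) h (htr (trN 𝔫 h)) _ (hi _ (hnd _))
  have hRinj : ∀ t x, Rel t x → x ∈ C → t = 0 := by
    rintro t x ⟨G, L, l, hT, hN⟩ ⟨γ, rfl⟩
    exact hinj t G L l hT ((γ : Rˣ) : R) (fun 𝔫 h => hN 𝔫 h)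
  -- the cardinalities
  have hX : Nat.card (↥Trs → ↥(rootsOfUnity p R)) = p ^ Nat.card ↥Trs := by
    rw [Nat.card_fun, hμcard]
  have hcardX : Nat.card (↥Trs → ↥(rootsOfUnity p R)) ≤ Nat.card ↥C * Nat.card T * p ^ 0 := by
    rw [pow_zero, mul_one, hX]
    by_cases hne : Nonempty ↥Trs
    · have hinjc : Function.Injective constHom := fun a b hab =>
        congrFun hab (Classical.choice hne)
      have hC : Nat.card ↥C = p :=
        ((Nat.card_congr (MonoidHom.ofInjective hinjc).toEquiv).symm).trans hμcard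
      rw [hC]
      exact hcard
    · rw [not_nonempty_iff] at hne
      rw [Nat.card_of_isEmpty, pow_zero]
      exact Nat.mul_pos Nat.card_pos Nat.card_pos
  -- the function `φ`
  obtain ⟨t, x, hRel, c, ⟨γ, rfl⟩, hx⟩ := exists_rel_pow_of_card_le C Rel hRone hRmul hRinv hRtot
    hRinj hp hX hcardX (fun S : ↥Trs => rootsOfUnity.mkOfPowEq (φ S.1) (hφ S.1))
  obtain ⟨G, L, l, hT, hN⟩ := hRel
  refine ⟨t, G, L, l, ((γ : Rˣ) : R), hT, fun 𝔫 h => ?_⟩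
  haveI := hprime 𝔫 h
  refine (hN 𝔫 h).congr_const ?_
  rw [hx, pow_zero, pow_one]
  show ((rootsOfUnity.mkOfPowEq (φ (tr 𝔫)) (hφ (tr 𝔫)) : Rˣ) : R) * ((γ : Rˣ) : R) = _
  rw [rootsOfUnity.coe_mkOfPowEq, mul_comm]

end Core

end Fermat.Agent.ML
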