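/-
ML — helper5 — **[SURJ]: the set of the traces of the nodes.**

* `nodeTraces R K hmodel` : the set of the traces on the level field of the nodes of the Legendre
  model;
* `finite_nodeTraces` : by `[MASS]` it is finite, with `# + 2 g(M) ≤ g(M q) + 1`.
-/
import Mathlib
import Fermat.Agent.ML.SURJ_helper5_Tors
import Fermat.Agent.ML.IFACE_helper3_Surj

set_option autoImplicit false
set_option linter.unusedSectionVars false
set_option linter.unusedVariables false
set_option linter.style.haveILetI false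
set_option synthInstance.maxHeartbeats 400000

open Polynomial ModularCurve IntermediateField AlgebraicCurve

namespace Fermat.Agent.ML

open Fermat.Agent.JA Fermat.Agent.FF Fermat.Agent.SS Fermat.Agent.S35 Fermat.Agent.MP
  Fermat.Agent.NP Fermat.Agent.GR Fermat.Agent.RB Fermat.Agent.Igusa

open scoped Fermat.Agent.JA.Host

noncomputable section

section Trace

variable (R : Type*) [CommRing R] [IsDomain R] [IsDiscreteValuationRing R] [CharZero R]
  (K : Type*) [Field K] [Algebra R K] [IsFractionRing R K] [Algebra ℚ K] [Algebra K ℂ]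

variable {M q : ℕ} [NeZero M] [NeZero q] [NeZero (M * q)] {x y : ℤ}

variable [DecidableEq R] {π : R} {h2 : IsUnit (2 : R)} {hbez : (q : ℤ) * x + M * y = 1}
  {hq : q.Prime} {hq2 : q ≠ 2}

/-- **the set of the traces of the nodes** of the Legendre model on the level field. -/
def nodeTraces (hmodel : SSModelLeg R K π h2 hbez hq hq2) : Set (Set ↥(keyFq K (M * q))) :=
  haveI : FiniteDimensional ↥K⟮jqNModC K 2⟯ ↥(legE K (M * q)) := finite_legE_adjoin_j K (M * q)
  {S | ∃ 𝔫 : Ideal ↥(chartOne R ↥(legE K (M * q)) (AdjoinSimple.gen K (jqNModC K 2))),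
    S35.IsNode (SSModel.two hmodel) 𝔫 ∧ legNodeTrace R K (M * q) 𝔫 = S}

/-- **by [MASS] the set of the traces of the nodes is finite, with at most
`g(M q) + 1 - 2 g(M)` elements.** -/
theorem finite_nodeTraces (hmass : MassAt R K π h2 hbez hq hq2)
    (hmodel : SSModelLeg R K π h2 hbez hq hq2) (g₁ g' : ℕ)
    (hg₁ : (g₁ : ℚ) = genusFormula (M * q)) (hg' : (g' : ℚ) = genusFormula M) :
    Finite ↥(nodeTraces R K hmodel) ∧ Nat.card ↥(nodeTraces R K hmodel) + 2 * g' ≤ g₁ + 1 := by
  classical
  haveI : FiniteDimensional ↥K⟮jqNModC K 2⟯ ↥(legE K (M * q)) := finite_legE_adjoin_j K (M * q)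
  have h0 : 2 * g' ≤ g₁ + 1 := by
    have h := hmass hmodel ∅ (fun 𝔫 h𝔫 => absurd h𝔫 (Finset.notMem_empty 𝔫))
      (fun 𝔫 h𝔫 => absurd (Finset.mem_coe.mp h𝔫) (Finset.notMem_empty 𝔫))
    rw [← hg₁, ← hg', Finset.card_empty] at h
    have h' : ((0 + 2 * g' : ℕ) : ℚ) ≤ ((g₁ + 1 : ℕ) : ℚ) := by
      push_cast
      exact h
    have := Nat.cast_le.mp h'
    omega
  have key : ∀ s : Finset ↥(nodeTraces R K hmodel), s.card ≤ g₁ + 1 - 2 * g' := by
    intro s
    choose nd hnd htr using fun S : ↥(nodeTraces R K hmodel) => S.2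
    have hinj : Function.Injective nd := fun S S' h =>
      Subtype.ext (by rw [← htr S, ← htr S', h])
    have h1 := hmass hmodel (s.image nd)
      (by
        intro 𝔫 h𝔫
        obtain ⟨S, -, rfl⟩ := Finset.mem_image.mp h𝔫
        exact hnd S)
      (by
        intro 𝔫 h𝔫 𝔫' h𝔫' heq
        obtain ⟨S, -, rfl⟩ := Finset.mem_image.mp (Finset.mem_coe.mp h𝔫)
        obtain ⟨S', -, rfl⟩ := Finset.mem_image.mp (Finset.mem_coe.mp h𝔫')
        rw [htr, htr] at heq
        rw [Subtype.ext heq])
    rw [Finset.card_image_of_injective _ hinj, ← hg₁, ← hg'] at h1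
    have h' : ((s.card + 2 * g' : ℕ) : ℚ) ≤ ((g₁ + 1 : ℕ) : ℚ) := by
      push_cast
      exact h1
    have := Nat.cast_le.mp h'
    omega
  obtain ⟨hfin, hc⟩ := finite_and_card_le_of_forall_finset _ key
  exact ⟨hfin, by omega⟩

end Trace

end

end Fermat.Agent.ML
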