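/-
ML — helper5 — **[SURJ] on one model** (`surjAt_of`): the abstract core
(`exists_toric_of_count`) on the Legendre model of level `M q` over a base `K`.

* `IsToricTriple.one/mul/inv` : the toric triples form a group;
* `surjAt_of` : `SurjAt` from `[MASS]`, `[DECK]`, `[INJ]` on the model, the existence of the node
  data, a finite group `T` of classes of `J₀(M q)` all of whose elements have a toric triple over
  `K`, and the lower bound `p ^ n ≤ p · # T` for `n + 2 g(M) ≤ g(M q) + 1`.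
-/
import Mathlib
import Fermat.Agent.ML.SURJ_helper5_Core
import Fermat.Agent.ML.SURJ_helper5_Trace
import Fermat.Agent.ML.IFACE_helper5_SurjLeaves
import Fermat.Agent.RB.DESC1_helper4_Abs

set_option autoImplicit false
set_option linter.unusedSectionVars false
set_option linter.unusedVariables false
set_option linter.style.haveILetI false
set_option synthInstance.maxHeartbeats 400000

open Polynomial ModularCurve IntermediateField AlgebraicCurve

namespace Fermat.Agent.ML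

open Fermat.Agent.JA Fermat.Agent.FF Fermat.Agent.SS Fermat.Agent.S35 Fermat.Agent.MP
  Fermat.Agent.NP Fermat.Agent.GR Fermat.Agent.RB Fermat.Agent.Igusa

open scoped Fermat.Agent.JA.Host

/-- `Ω = AlgebraicClosure ℚ`. -/
local notation "Ω" => AlgebraicClosure ℚ

noncomputable section

/-! ### valuations -/

section Val

variable {E : Type*} [Field E] (W : ValuationSubring E) {m : ℕ} {G G' L L' : E}

theorem valuation_eq_one_of_sub_pow_lt (hL : W.valuation L = 1)
    (hG : W.valuation (G - L ^ m) < 1) : W.valuation G = 1 := by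
  have e : G = (G - L ^ m) + L ^ m := by ring
  have h1 : W.valuation (L ^ m) = 1 := by rw [map_pow, hL, one_pow]
  rw [e, Valuation.map_add_eq_of_lt_right _ (by rw [h1]; exact hG), h1]

theorem valuation_mul_sub_pow_lt (hL : W.valuation L = 1) (hL' : W.valuation L' = 1)
    (hG : W.valuation (G - L ^ m) < 1) (hG' : W.valuation (G' - L' ^ m) < 1) :
    W.valuation (G * G' - (L * L') ^ m) < 1 := by
  have hGv := valuation_eq_one_of_sub_pow_lt W hL hG
  have h1 : W.valuation (L' ^ m) = 1 := by rw [map_pow, hL', one_pow]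
  have e : G * G' - (L * L') ^ m = G * (G' - L' ^ m) + L' ^ m * (G - L ^ m) := by
    rw [mul_pow]; ring
  rw [e]
  refine lt_of_le_of_lt (Valuation.map_add _ _ _) (max_lt ?_ ?_)
  · rw [map_mul, hGv, one_mul]; exact hG'
  · rw [map_mul, h1, one_mul]; exact hG

theorem valuation_inv_sub_pow_lt (hL : W.valuation L = 1) (hG : W.valuation (G - L ^ m) < 1) :
    W.valuation (G⁻¹ - L⁻¹ ^ m) < 1 := by
  have hGv := valuation_eq_one_of_sub_pow_lt W hL hG
  have h1 : W.valuation (L ^ m) = 1 := by rw [map_pow, hL, one_pow]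
  have hG0 : G ≠ 0 := fun h0 => by rw [h0, map_zero] at hGv; exact zero_ne_one hGv
  have hL0 : L ^ m ≠ 0 := fun h0 => by rw [h0, map_zero] at h1; exact zero_ne_one h1
  have e : G⁻¹ - L⁻¹ ^ m = -(G - L ^ m) * (G⁻¹ * (L ^ m)⁻¹) := by
    rw [inv_pow]
    field_simp
    ring
  rw [e, map_mul, Valuation.map_neg, map_mul, map_inv₀, map_inv₀, hGv, h1, inv_one, mul_one,
    mul_one]
  exact hG

end Val

/-! ### the group of the toric triples -/

section Triple

variable (R : Type*) [CommRing R] [IsDomain R] [IsDiscreteValuationRing R] [CharZero R]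
  (K : IntermediateField ℚ Ω) [Algebra R ↥K] [IsFractionRing R ↥K]

variable {M q : ℕ} [NeZero M] [NeZero q] [NeZero (M * q)] {x y : ℤ}

variable {m : ℕ} {h2 : IsUnit (2 : R)} {hbez : (q : ℤ) * x + M * y = 1} {hq : q.Prime}

theorem IsToricTriple.one : IsToricTriple R K m h2 hbez hq (1 : ↥(keyFq ↥K (M * q))) 1 1 := by
  letI := baseToComplex K
  refine ⟨one_ne_zero, fun v => ?_, map_one _, map_one _, ?_, ?_⟩
  · rw [map_one, v.ord_one]
    exact dvd_zero _
  · rw [map_one, one_pow, sub_self, map_zero]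
    exact zero_lt_one
  · rw [map_one, one_pow, sub_self, map_zero]
    exact zero_lt_one

theorem IsToricTriple.mul {F F' : ↥(keyFq ↥K (M * q))} {Linf L0 Linf' L0' : ↥(legE ↥K (M * q))}
    (h : IsToricTriple R K m h2 hbez hq F Linf L0)
    (h' : IsToricTriple R K m h2 hbez hq F' Linf' L0') :
    IsToricTriple R K m h2 hbez hq (F * F') (Linf * Linf') (L0 * L0') := by
  letI := baseToComplex K
  obtain ⟨hF, hdiv, hLinf, hL0, hGinf, hG0⟩ := h
  obtain ⟨hF', hdiv', hLinf', hL0', hGinf', hG0'⟩ := h'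
  refine ⟨mul_ne_zero hF hF', fun v => ?_, ?_, ?_, ?_, ?_⟩
  · rw [map_mul, v.ord_mul ((_root_.map_ne_zero _).2 hF) ((_root_.map_ne_zero _).2 hF')]
    exact dvd_add (hdiv v) (hdiv' v)
  · rw [map_mul, hLinf, hLinf', one_mul]
  · rw [map_mul, hL0, hL0', one_mul]
  · rw [map_mul]
    exact valuation_mul_sub_pow_lt _ hLinf hLinf' hGinf hGinf'
  · rw [map_mul]
    exact valuation_mul_sub_pow_lt _ hL0 hL0' hG0 hG0'

theorem IsToricTriple.inv {F : ↥(keyFq ↥K (M * q))} {Linf L0 : ↥(legE ↥K (M * q))}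
    (h : IsToricTriple R K m h2 hbez hq F Linf L0) :
    IsToricTriple R K m h2 hbez hq F⁻¹ Linf⁻¹ L0⁻¹ := by
  letI := baseToComplex K
  obtain ⟨hF, hdiv, hLinf, hL0, hGinf, hG0⟩ := h
  refine ⟨inv_ne_zero hF, fun v => ?_, ?_, ?_, ?_, ?_⟩
  · rw [map_inv₀, v.ord_inv]
    exact (dvd_neg).mpr (hdiv v)
  · rw [map_inv₀, hLinf, inv_one]
  · rw [map_inv₀, hL0, inv_one]
  · rw [map_inv₀]
    exact valuation_inv_sub_pow_lt _ hLinf hGinf
  · rw [map_inv₀]
    exact valuation_inv_sub_pow_lt _ hL0 hG0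

end Triple

/-! ### [SURJ] on one model -/

section Model

variable (R : Type*) [CommRing R] [IsDomain R] [IsDiscreteValuationRing R] [CharZero R]
  (K : IntermediateField ℚ Ω) [Algebra R ↥K] [IsFractionRing R ↥K]

variable {M q : ℕ} [NeZero M] [NeZero q] [NeZero (M * q)] {x y : ℤ}

set_option maxHeartbeats 3200000 in
/-- **[SURJ] on one model.** -/
theorem surjAt_of [DecidableEq R] {p : ℕ} (hp : p.Prime) {ξ : R} (hξ : IsPrimitiveRoot ξ p)
    {π : R} {h2 : IsUnit (2 : R)} {hbez : (q : ℤ) * x + M * y = 1} {hq : q.Prime} {hq2 : q ≠ 2}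
    (hmass : letI := baseToComplex K; MassAt R ↥K π h2 hbez hq hq2)
    (hdeck : DeckInvAt R K p π h2 hbez hq hq2)
    (hinj : InjAt R K p π h2 hbez hq hq2)
    (hnode : letI := baseToComplex K
      ∀ hmodel : SSModelLeg R ↥K π h2 hbez hq hq2,
      haveI : FiniteDimensional ↥(↥K)⟮jqNModC ↥K 2⟯ ↥(legE ↥K (M * q)) :=
        finite_legE_adjoin_j ↥K (M * q)
      ∀ (F : ↥(keyFq ↥K (M * q))) (Linf L0 : ↥(legE ↥K (M * q))),
        IsToricTriple R K p h2 hbez hq F Linf L0 →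
        ∀ (𝔫 : Ideal ↥(chartOne R ↥(legE ↥K (M * q)) (AdjoinSimple.gen ↥K (jqNModC ↥K 2))))
          (h𝔫 : S35.IsNode (SSModel.two hmodel) 𝔫),
          ∃ i : ℕ, @NodeRatioAt R _ ↥(legE ↥K (M * q)) _ _
            (chartOne R ↥(legE ↥K (M * q)) (AdjoinSimple.gen ↥K (jqNModC ↥K 2))) 𝔫
            h𝔫.1.isPrime (legWinf R ↥K h2 (M * q)) (legW0 R ↥K hbez hq) p
            (fullToLegE ↥K (M * q) F) Linf L0 (ξ ^ i))
    (T : AddSubgroup (JZero (M * q))) (hTfin : Finite ↥T)
    (htor : ∀ t ∈ T, ∃ (D : Divisor.degZero (K := Ω) (F := ↥(modularFunctionFieldBar (M * q))))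
      (F : ↥(keyFq ↥K (M * q))) (Linf L0 : ↥(legE ↥K (M * q))),
      (Pic0.mk D : JZero (M * q)) = t ∧
      (∀ v : Place Ω ↥(modularFunctionFieldBar (M * q)),
        v.ord (keyFqBC (M * q) K F) =
          (p : ℤ) * (D : Divisor Ω ↥(modularFunctionFieldBar (M * q))) v) ∧
      IsToricTriple R K p h2 hbez hq F Linf L0)
    (hcard : ∀ n g₁ g' : ℕ, (g₁ : ℚ) = genusFormula (M * q) → (g' : ℚ) = genusFormula M →
      n + 2 * g' ≤ g₁ + 1 → p ^ n ≤ p * Nat.card ↥T)
    (g₁ g' : ℕ) (hg₁ : (g₁ : ℚ) = genusFormula (M * q)) (hg' : (g' : ℚ) = genusFormula M) :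
    SurjAt R K p π h2 hbez hq hq2 := by
  letI := baseToComplex K
  intro hmodel φ hφ
  haveI : FiniteDimensional ↥(↥K)⟮jqNModC ↥K 2⟯ ↥(legE ↥K (M * q)) :=
    finite_legE_adjoin_j ↥K (M * q)
  haveI := hTfin
  have hp0 : p ≠ 0 := hp.ne_zero
  have htwo : IsTwoSheet π (AdjoinSimple.gen ↥K (jqNModC ↥K 2)) (legWinf R ↥K h2 (M * q))
      (legW0 R ↥K hbez hq) := SSModel.two hmodel
  -- the traces
  obtain ⟨hfinTr, hcardTr⟩ := finite_nodeTraces R ↥K hmass hmodel g₁ g' hg₁ hg'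
  have hcard' := hcard _ g₁ g' hg₁ hg' hcardTr
  -- the relation
  let Tor : ↥T → ↥(legE ↥K (M * q)) → ↥(legE ↥K (M * q)) → ↥(legE ↥K (M * q)) → Prop :=
    fun t G L l => ∃ (F : ↥(keyFq ↥K (M * q)))
      (D : Divisor.degZero (K := Ω) (F := ↥(modularFunctionFieldBar (M * q)))),
      G = fullToLegE ↥K (M * q) F ∧ IsToricTriple R K p h2 hbez hq F L l ∧
      (Pic0.mk D : JZero (M * q)) = (t : JZero (M * q)) ∧
      ∀ v : Place Ω ↥(modularFunctionFieldBar (M * q)),
        v.ord (keyFqBC (M * q) K F) =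
          (p : ℤ) * (D : Divisor Ω ↥(modularFunctionFieldBar (M * q))) v
  have hone : Tor 0 1 1 1 := by
    refine ⟨1, 0, (map_one _).symm, IsToricTriple.one R K, rfl, fun v => ?_⟩
    rw [map_one, v.ord_one]
    show (0 : ℤ) = (p : ℤ) * ((0 : Divisor Ω ↥(modularFunctionFieldBar (M * q))) v)
    rw [Finsupp.zero_apply, mul_zero]
  have hmul : ∀ t t' G G' L L' l l', Tor t G L l → Tor t' G' L' l' →
      Tor (t + t') (G * G') (L * L') (l * l') := by
    rintro t t' G G' L L' l l' ⟨F, D, rfl, htr, hD, hord⟩ ⟨F', D', rfl, htr', hD', hord'⟩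
    refine ⟨F * F', D + D', (map_mul _ _ _).symm, htr.mul R K htr', ?_, fun v => ?_⟩
    · rw [Pic0.mk_add, hD, hD']
      rfl
    · rw [map_mul, v.ord_mul ((_root_.map_ne_zero _).2 htr.1) ((_root_.map_ne_zero _).2 htr'.1),
        hord v, hord' v]
      show _ = (p : ℤ) * (((D : Divisor Ω ↥(modularFunctionFieldBar (M * q))) +
        (D' : Divisor Ω ↥(modularFunctionFieldBar (M * q)))) v)
      rw [Finsupp.add_apply, mul_add]
  have hinv : ∀ t G L l, Tor t G L l → Tor (-t) G⁻¹ L⁻¹ l⁻¹ := by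
    rintro t G L l ⟨F, D, rfl, htr, hD, hord⟩
    refine ⟨F⁻¹, -D, (map_inv₀ _ _).symm, htr.inv R K, ?_, fun v => ?_⟩
    · have e : (Pic0.mk (-D) : JZero (M * q)) = -Pic0.mk D := rfl
      rw [e, hD]
      rfl
    · rw [map_inv₀, v.ord_inv, hord v]
      show _ = (p : ℤ) * ((-(D : Divisor Ω ↥(modularFunctionFieldBar (M * q)))) v)
      rw [Finsupp.neg_apply, mul_neg]
  have htot : ∀ t : ↥T, ∃ G L l, Tor t G L l := by
    rintro ⟨t, ht⟩
    obtain ⟨D, F, Linf, L0, hD, hord, htr⟩ := htor t ht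
    exact ⟨_, Linf, L0, F, D, rfl, htr, hD, hord⟩
  -- the nodes
  have hthr_inf : ∀ 𝔫, S35.IsNode htwo 𝔫 →
      IsSheetThrough (chartOne R ↥(legE ↥K (M * q)) (AdjoinSimple.gen ↥K (jqNModC ↥K 2))) 𝔫
        (legWinf R ↥K h2 (M * q)) := fun 𝔫 h =>
    isSheetThrough_of_le htwo.chart_le_inf (mem_sheetIdeal_iff _ _ htwo.chart_le_inf) h.2.1
  have hthr_zero : ∀ 𝔫, S35.IsNode htwo 𝔫 →
      IsSheetThrough (chartOne R ↥(legE ↥K (M * q)) (AdjoinSimple.gen ↥K (jqNModC ↥K 2))) 𝔫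
        (legW0 R ↥K hbez hq) := fun 𝔫 h =>
    isSheetThrough_of_le htwo.chart_le_zero (mem_sheetIdeal_iff _ _ htwo.chart_le_zero) h.2.2
  obtain ⟨t, G, L, l, c, ⟨F, D, rfl, htr, hD, hord⟩, hN⟩ :=
    exists_toric_of_count (fun 𝔫 => S35.IsNode htwo 𝔫) (fun 𝔫 h => h.1.isPrime) hthr_inf hthr_zero
      (legNodeTrace R ↥K (M * q)) (nodeTraces R ↥K hmodel) (fun S => Iff.rfl) hp hξ Tor
      hone hmul hinv htot
      (by
        rintro t G L l ⟨F, D, rfl, htr, hD, hord⟩ 𝔫 h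
        exact hnode hmodel F L l htr 𝔫 h)
      (by
        rintro t G L l ⟨F, D, rfl, htr, hD, hord⟩ 𝔫 𝔫' h h' htrace ζ hζ
        exact hdeck hmodel F L l htr 𝔫 𝔫' h h' htrace ζ hζ)
      (by
        rintro t G L l ⟨F, D, rfl, htr, hD, hord⟩ γ hγ
        obtain ⟨c, h, hch⟩ := hinj hmodel F L l htr γ hγ
        have hBC : keyFqBC (M * q) K F ≠ 0 := (_root_.map_ne_zero _).2 htr.1
        have hc0 : c ≠ 0 := by
          intro h0
          apply hBC
          rw [hch, h0, map_zero, zero_mul]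
        have hh0 : h ≠ 0 := by
          intro h0
          apply hBC
          rw [hch, h0, zero_pow hp0, mul_zero]
        have hdivD : IsDivOf (keyFqBC (M * q) K F)
            (p • (D : Divisor Ω ↥(modularFunctionFieldBar (M * q)))) :=
          ⟨hBC, fun v => by rw [Finsupp.smul_apply, nsmul_eq_mul, hord v]⟩
        have h1 := Fermat.Agent.RB.DESC1.nsmul_mk_eq_zero_of_pow_eq (c := 1) hp0 D hdivD c h hc0 hh0
          (by rw [pow_one]; exact hch)
        rw [one_nsmul] at h1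
        exact Subtype.ext (hD.symm.trans h1))
      hfinTr hcard' φ hφ
  obtain ⟨hF0, hdiv, hLinf, hL0, hGinf, hG0⟩ := htr
  exact ⟨F, L, l, c, hF0, hdiv, hLinf, hL0, hGinf, hG0, fun 𝔫 h𝔫 => hN 𝔫 h𝔫⟩

end Model

end

end Fermat.Agent.ML
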