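/-
ML — helper5 — **[SURJ], part (iii): existence of the node datum.**

* `IsTwoSheet.isSheetFamily` : the two sheets as an `S36.IsSheetFamily` indexed by `Fin 2`;
* `exists_nodeRatioAt_of_nodeRegular` : (abstract, over `SSModel` + `SSModel.NodeRegular`) a toric
  function `(G; Linf, L0)` of exponent `m` whose horizontal divisor is divisible by `m` has a node
  datum `ξ ^ i` at every node (`ξ ∈ R` a primitive `m`-th root of unity): the closed datum from
  `S36.exists_closed_datum_of_family` (local equation `y` of `𝔭_∞`, branch uniformizer `x`), the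
  branch units from `S36.exists_branch_unit_of_datum`, the ratio from helper3's
  `exists_nodeRatioAt`.
-/
import Mathlib
import Fermat.Agent.ML.DATUM_helper3_Ratio
import Fermat.Agent.S36.REG1_lead_Final
import Fermat.Agent.S36.DATUM36_helper3

set_option autoImplicit false
set_option linter.unusedSectionVars false
set_option linter.unusedVariables false
set_option linter.style.haveILetI false
set_option synthInstance.maxHeartbeats 400000

namespace Fermat.Agent.ML

open Fermat.Agent.SS Fermat.Agent.JA Fermat.Agent.S36 Fermat.Agent.S35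

section Abstract

variable {R : Type*} [CommRing R] [IsDomain R] [IsDiscreteValuationRing R] [CharZero R]
  {K₁ : Type*} [Field K₁] [Algebra R K₁] [IsFractionRing R K₁]
  {KM : Type*} [Field KM] [Algebra K₁ KM] [Algebra R KM] [IsScalarTower R K₁ KM]
  {EM : Type*} [Field EM] [Algebra KM EM] [Algebra K₁ EM] [IsScalarTower K₁ KM EM] [Algebra R EM]
  [IsScalarTower R KM EM]
  {KN : Type*} [Field KN] [Algebra K₁ KN] [Algebra R KN] [IsScalarTower R K₁ KN]
  {EN : Type*} [Field EN] [Algebra KN EN] [Algebra K₁ EN] [IsScalarTower K₁ KN EN] [Algebra R EN]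
  [IsScalarTower R KN EN] [FiniteDimensional KN EN]
  {π : R} {q n : ℕ} {S : Finset R} {t : KM} {jM : EM} {j : KN} {A B : EM →+* EN}
  {VM : ValuationSubring EM} {Winf W0 : ValuationSubring EN}

/-- the two sheets as a family indexed by `Fin 2`. -/
theorem _root_.Fermat.Agent.SS.IsTwoSheet.isSheetFamily (h2 : IsTwoSheet π j Winf W0) :
    IsSheetFamily π j (![Winf, W0] : Fin 2 → ValuationSubring EN) where
  inj := by
    intro a b hab
    fin_cases a <;> fin_cases b
    · rfl
    · exact absurd hab h2.ne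
    · exact absurd hab.symm h2.ne
    · rfl
  gauss := by
    intro i
    fin_cases i
    · exact h2.gauss_inf
    · exact h2.gauss_zero
  only := by
    intro V hV
    rcases h2.only V hV with h | h
    · exact ⟨0, h⟩
    · exact ⟨1, h⟩

/-- the toric congruence in the quotient form. -/
theorem valuation_div_pow_sub_one_lt {W : ValuationSubring EN} {m : ℕ} {G L : EN}
    (hL : W.valuation L = 1) (hG : W.valuation (G - L ^ m) < 1) :
    W.valuation (G / L ^ m - 1) < 1 := by
  have hL0 : L ≠ 0 := by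
    intro h0
    rw [h0, map_zero] at hL
    exact zero_ne_one hL
  have e : G / L ^ m - 1 = (G - L ^ m) * (L ^ m)⁻¹ := by
    have : L ^ m ≠ 0 := pow_ne_zero _ hL0
    field_simp
  rw [e, map_mul, map_inv₀, map_pow, hL, one_pow, inv_one, mul_one]
  exact hG

set_option maxHeartbeats 1600000 in
/-- **existence of the node datum at a regular node.** -/
theorem exists_nodeRatioAt_of_nodeRegular (h : SSModel K₁ π q n S t jM j A B VM Winf W0)
    (hπ : Irreducible π) (hreg : h.NodeRegular) {m : ℕ} (hm : m ≠ 0) {ξ : R}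
    (hξ : IsPrimitiveRoot ξ m) {G Linf L0 : EN} (hG : G ≠ 0)
    (hLinf : Winf.valuation Linf = 1) (hL0 : W0.valuation L0 = 1)
    (hGinf : Winf.valuation (G - Linf ^ m) < 1) (hG0 : W0.valuation (G - L0 ^ m) < 1)
    (hhor : haveI : IsFractionRing ↥(chartOne R EN j) EN :=
        isFractionRing_chartOne (K₁ := K₁) j h.j_adjoin
      ∀ 𝔮 : Ideal ↥(chartOne R EN j), 𝔮.IsPrime → 𝔮.height = 1 →
        algebraMap R ↥(chartOne R EN j) π ∉ 𝔮 →
        ∃ γ : EN, γ ≠ 0 ∧ IsUnitAtPrime 𝔮 (G * (γ ^ m)⁻¹))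
    (𝔫 : Ideal ↥(chartOne R EN j)) (h𝔫 : IsNode h.two 𝔫) :
    ∃ i : ℕ, @NodeRatioAt R _ EN _ _ (chartOne R EN j) 𝔫 h𝔫.1.isPrime Winf W0 m G Linf L0
      (ξ ^ i) := by
  classical
  obtain ⟨hmax, hinf, h0⟩ := h𝔫
  haveI := hmax
  haveI : 𝔫.IsPrime := hmax.isPrime
  have fam := h.two.isSheetFamily
  obtain ⟨s', hs', x, y, r, hxs, hys, hx0, hyinf, hxy, hnode⟩ := hreg
  obtain ⟨hbx, hby, hr, hgeninf, hgen0⟩ := hnode 𝔫 hinf h0
  -- `y ≠ 0`
  have hinjE : Function.Injective (algebraMap R EN) := by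
    rw [IsScalarTower.algebraMap_eq R KN EN, IsScalarTower.algebraMap_eq R K₁ KN]
    exact (algebraMap KN EN).injective.comp
      ((algebraMap K₁ KN).injective.comp (IsFractionRing.injective R K₁))
  have hπne : algebraMap R ↥(chartOne R EN j) π ≠ 0 := by
    intro h0'
    have := congrArg (fun w : ↥(chartOne R EN j) => (w : EN)) h0'
    exact hπ.ne_zero (hinjE (by rw [map_zero]; exact this))
  have hr0 : r ≠ 0 := fun h0' => hr (h0' ▸ 𝔫.zero_mem)
  have hy0 : y ≠ 0 := by
    intro h0'
    rw [h0', mul_zero] at hxy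
    exact mul_ne_zero hπne hr0 hxy.symm
  -- the data of the family
  set lam : Fin 2 → EN := ![Linf, L0] with hlam
  have hLinf0 : Linf ≠ 0 := by
    intro h0'
    rw [h0', map_zero] at hLinf
    exact zero_ne_one hLinf
  have hL00 : L0 ≠ 0 := by
    intro h0'
    rw [h0', map_zero] at hL0
    exact zero_ne_one hL0
  have hlam0 : ∀ i, lam i ≠ 0 := by
    intro i
    fin_cases i
    · exact hLinf0
    · exact hL00
  have hGWinf := valuation_div_pow_sub_one_lt hLinf hGinf
  have hGW0 := valuation_div_pow_sub_one_lt hL0 hG0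
  have hGW : ∀ i : Fin 2, ((![Winf, W0] : Fin 2 → ValuationSubring EN) i).valuation
      (G / lam i ^ m - 1) < 1 := by
    intro i
    fin_cases i
    · exact hGWinf
    · exact hGW0
  -- the closed datum
  obtain ⟨Γ, hΓ, hdat⟩ := exists_closed_datum_of_family fam hπ h.j_transcendental h.j_adjoin 𝔫
    (0 : Fin 2) hinf hyinf hy0 hgeninf hbx hG hlam0 (fun i _ => hGW i)
    (fun 𝔮 h𝔮 hh hπ𝔮 _ => hhor 𝔮 h𝔮 hh hπ𝔮)
  -- the branch units
  obtain ⟨winf, hw1, hw2, hw3⟩ := exists_branch_unit_of_datum fam hπ h.j_transcendental h.j_adjoin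
    𝔫 (0 : Fin 2) hinf hbx hm hLinf0 hΓ hGWinf hdat
  obtain ⟨w0, hv1, hv2, hv3⟩ := exists_branch_unit_of_datum fam hπ h.j_transcendental h.j_adjoin
    𝔫 (1 : Fin 2) h0 hby hm hL00 hΓ hGW0 hdat
  -- the ratio
  have hsinf : IsSheetThrough (chartOne R EN j) 𝔫 Winf :=
    isSheetThrough_of_le h.two.chart_le_inf (mem_sheetIdeal_iff j Winf h.two.chart_le_inf) hinf
  have hs0 : IsSheetThrough (chartOne R EN j) 𝔫 W0 :=
    isSheetThrough_of_le h.two.chart_le_zero (mem_sheetIdeal_iff j W0 h.two.chart_le_zero) h0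
  exact exists_nodeRatioAt hinjE hξ hm hsinf hs0 ⟨hΓ, hdat⟩ ⟨hw1, hw2, hw3⟩ ⟨hv1, hv2, hv3⟩
    hLinf0 hL00 hGWinf hGW0

end Abstract

end Fermat.Agent.ML
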