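/-
ML — helper5 — **[SURJ], part (iii) on the Legendre model: existence of the node datum of a toric
triple.**

* `IsToricTriple.exists_nodeRatioAt` : over a base ring `R` with algebraically closed residue field
  and `q = π · unit`, a two-sheet toric triple `(F; Linf, L0)` of exponent `m` at level `M q` has a
  node datum `ξ ^ i` at every node of the Legendre model (`ξ ∈ R` a primitive `m`-th root of unity):
  REG1 (`S36.leg_node_regular_final`), the horizontal clause from the orders over `Ω`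
  (`NP.dvd_ord_fullToLegE_of_keyFqBC`, `S36.horPow36_of_place`) and the abstract
  `exists_nodeRatioAt_of_nodeRegular`.
-/
import Mathlib
import Fermat.Agent.ML.SURJ_helper5_NodeDatum
import Fermat.Agent.ML.IFACE_helper5_SurjLeaves
import Fermat.Agent.S36.BASE36_helper4_Hor
import Fermat.Agent.NP.BASEP_helper2_OldDesc

set_option autoImplicit false
set_option linter.unusedSectionVars false
set_option linter.unusedVariables false
set_option linter.style.haveILetI false
set_option synthInstance.maxHeartbeats 400000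

open Polynomial ModularCurve IntermediateField AlgebraicCurve

namespace Fermat.Agent.ML

open Fermat.Agent.JA Fermat.Agent.FF Fermat.Agent.SS Fermat.Agent.S35 Fermat.Agent.MP
  Fermat.Agent.NP Fermat.Agent.GR Fermat.Agent.RB Fermat.Agent.Igusa Fermat.Agent.S36

open scoped Fermat.Agent.JA.Host

/-- `Ω = AlgebraicClosure ℚ`. -/
local notation "Ω" => AlgebraicClosure ℚ

noncomputable section

section NodeLeg

variable (R : Type*) [CommRing R] [IsDomain R] [IsDiscreteValuationRing R] [CharZero R]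
  (K : IntermediateField ℚ Ω) [Algebra R ↥K] [IsFractionRing R ↥K]

variable {M q : ℕ} [NeZero M] [NeZero q] [NeZero (M * q)] {x y : ℤ}

set_option maxHeartbeats 1600000 in
/-- **existence of the node datum of a toric triple on the Legendre model.** -/
theorem IsToricTriple.exists_nodeRatioAt [DecidableEq R]
    [IsAlgClosed (IsLocalRing.ResidueField R)] {m : ℕ} (hm : m ≠ 0) {ξ : R}
    (hξ : IsPrimitiveRoot ξ m) {π : R} (hπ : Irreducible π) {h2 : IsUnit (2 : R)}
    {hbez : (q : ℤ) * x + M * y = 1} {hq : q.Prime} {hq2 : q ≠ 2} {cq : R} (hcq : IsUnit cq)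
    (hqπ : ((q : ℕ) : R) = π * cq)
    (hmodel : letI := baseToComplex K; SSModelLeg R ↥K π h2 hbez hq hq2)
    {F : ↥(keyFq ↥K (M * q))} {Linf L0 : ↥(legE ↥K (M * q))}
    (htor : IsToricTriple R K m h2 hbez hq F Linf L0) :
    letI := baseToComplex K
    haveI : FiniteDimensional ↥(↥K)⟮jqNModC ↥K 2⟯ ↥(legE ↥K (M * q)) :=
      finite_legE_adjoin_j ↥K (M * q)
    ∀ (𝔫 : Ideal ↥(chartOne R ↥(legE ↥K (M * q)) (AdjoinSimple.gen ↥K (jqNModC ↥K 2))))
      (h𝔫 : S35.IsNode (SSModel.two hmodel) 𝔫),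
      ∃ i : ℕ, @NodeRatioAt R _ ↥(legE ↥K (M * q)) _ _
        (chartOne R ↥(legE ↥K (M * q)) (AdjoinSimple.gen ↥K (jqNModC ↥K 2))) 𝔫
        h𝔫.1.isPrime (legWinf R ↥K h2 (M * q)) (legW0 R ↥K hbez hq) m
        (fullToLegE ↥K (M * q) F) Linf L0 (ξ ^ i) := by
  letI := baseToComplex K
  haveI : FiniteDimensional ↥(↥K)⟮jqNModC ↥K 2⟯ ↥(legE ↥K (M * q)) :=
    finite_legE_adjoin_j ↥K (M * q)
  intro 𝔫 h𝔫
  obtain ⟨hF0, hdiv, hLinf, hL0, hGinf, hG0⟩ := htor
  have hreg := leg_node_regular_final R ↥K hmodel hπ hcq hqπ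
  have hG : fullToLegE ↥K (M * q) F ≠ 0 := (_root_.map_ne_zero _).2 hF0
  have hord : ∀ P : Place ↥K ↥(legE ↥K (M * q)), (m : ℤ) ∣ P.ord (fullToLegE ↥K (M * q) F) :=
    fun P => dvd_ord_fullToLegE_of_keyFqBC (M * q) K F hdiv P
  have hhor := horPow36_of_place (R := R) (K₁ := ↥K) (AdjoinSimple.gen ↥K (jqNModC ↥K 2))
    (ssModelLeg_j_transcendental ↥K) (ssModelLeg_j_adjoin ↥K) hπ hG hord
  exact exists_nodeRatioAt_of_nodeRegular hmodel hπ hreg hm hξ hG hLinf hL0 hGinf hG0 hhor 𝔫 h𝔫

end NodeLeg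

end

end Fermat.Agent.ML
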