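/-
ML — helper5 — **[SURJ], part (b): toric classes of exponent `p`.**

* `valuation_algebraMap_unit_eq_one`, `exists_unit_cong_of_pow_cong`, `exists_root_of_pow_root` :
  the residue field of the base `R` (algebraically closed) is closed under roots in the residue
  field of a sheet `W`: from a unit root of exponent `n p` of `u G ^ n` (`u` a unit of `R`) to a unit
  root of exponent `p` of `G`;
* `NewToricExpAtU`, `newToricExpAtU` : `newToricAtU` with the data of the toric function exposed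
  (`F = c' f₀ ^ (p ^ c) h ^ (p ^ k)` with `c'`, `f₀`, `h` over the small unramified base `K'`);
* `isToricClassAtU_prime` : there is `c` such that for every `I_A`-fixed class `x` with
  `p ^ (c + 1) x = 0` killed by both degeneracy pushforwards the class `p ^ c x ∈ J₀(M q)[p]` is
  toric of exponent `p` over the unramified bases: its Kummer function is
  `g = q ^ (-z) f₀ h ^ p`, defined over `K'` (no Galois descent needed).
-/
import Mathlib
import Fermat.Agent.ML.SURJ_helper5_NewToricU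
import Fermat.Agent.S36.BASE36_helper9_Const
import Fermat.Agent.RB.KEYH_helper5_Order
import Fermat.Agent.NP.HOSTP_helper7_ThmA

set_option autoImplicit false
set_option linter.unusedSectionVars false
set_option linter.unusedVariables false
set_option linter.style.haveILetI false
set_option synthInstance.maxHeartbeats 400000

open HahnSeries IntermediateField AlgebraicCurve ModularCurve IsLocalRing

namespace Fermat.Agent.ML

open Fermat.Agent.RB

open Fermat.Agent.JA Fermat.Agent.FF Fermat.Agent.SS Fermat.Agent.X0N Fermat.Agent.S35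
  Fermat.Agent.S36 Fermat.Agent.NP Fermat.Agent.MP Fermat.Agent.GR Fermat.Agent.FG

open scoped Fermat.Agent.JA.Host

/-- `Ω = AlgebraicClosure ℚ`. -/
local notation "Ω" => AlgebraicClosure ℚ

/-- the absolute Galois group. -/
local notation "GQ" => (AlgebraicClosure ℚ ≃ₐ[ℚ] AlgebraicClosure ℚ)

/-! ### roots of constants on a sheet -/

section Roots

variable {R : Type*} [CommRing R] [IsDomain R] [IsDiscreteValuationRing R]
  {E : Type*} [Field E] [Algebra R E]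

/-- a unit of `R` is a unit of every valuation subring containing `R`. -/
theorem valuation_algebraMap_unit_eq_one (W : ValuationSubring E)
    (hRW : ∀ r : R, algebraMap R E r ∈ W) (u : Rˣ) : W.valuation (algebraMap R E (u : R)) = 1 := by
  have h1 : W.valuation (algebraMap R E (u : R)) ≤ 1 := (W.valuation_le_one_iff _).2 (hRW _)
  have h2 : W.valuation (algebraMap R E ((u⁻¹ : Rˣ) : R)) ≤ 1 :=
    (W.valuation_le_one_iff _).2 (hRW _)
  have h3 : W.valuation (algebraMap R E (u : R)) * W.valuation (algebraMap R E ((u⁻¹ : Rˣ) : R))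
      = 1 := by
    rw [← map_mul, ← map_mul, Units.mul_inv, map_one, map_one]
  refine le_antisymm h1 ?_
  by_contra hlt
  rw [not_le] at hlt
  have h4 : W.valuation (algebraMap R E (u : R)) *
      W.valuation (algebraMap R E ((u⁻¹ : Rˣ) : R)) < 1 := by
    calc _ ≤ W.valuation (algebraMap R E (u : R)) * 1 := mul_le_mul_right h2 _
      _ = W.valuation (algebraMap R E (u : R)) := mul_one _
      _ < 1 := hlt
  rw [h3] at h4
  exact lt_irrefl _ h4

/-- **the residue field of `R` is closed under roots in the residue field of a sheet**: if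
`r ^ n ≡ u` on `W` with `u` a unit of `R`, then `r ≡ δ` on `W` for a unit `δ` of `R`. -/
theorem exists_unit_cong_of_pow_cong [IsAlgClosed (IsLocalRing.ResidueField R)]
    (hinj : Function.Injective (algebraMap R E)) (W : ValuationSubring E)
    (hRW : ∀ r : R, algebraMap R E r ∈ W)
    (hmax : ∀ r ∈ IsLocalRing.maximalIdeal R, W.valuation (algebraMap R E r) < 1)
    {n : ℕ} (hn : 0 < n) {ξ : R} (hξ : IsPrimitiveRoot ξ n) (u : Rˣ) {r : E}
    (hr : W.valuation (r ^ n - algebraMap R E (u : R)) < 1) :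
    ∃ δ : Rˣ, W.valuation (r - algebraMap R E (δ : R)) < 1 := by
  classical
  haveI : NeZero n := ⟨hn.ne'⟩
  obtain ⟨e, he⟩ := Fermat.Agent.S36.base36_exists_unit_pow_cong hn u
  have he' := hmax _ he
  have hu1 := valuation_algebraMap_unit_eq_one W hRW u
  -- `r` is a unit of `W`
  have hrn : W.valuation (r ^ n) = 1 := by
    have e1 : r ^ n = (r ^ n - algebraMap R E (u : R)) + algebraMap R E (u : R) := by ring
    rw [e1, Valuation.map_add_eq_of_lt_right _ (by rw [hu1]; exact hr), hu1]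
  have hr1 : W.valuation r = 1 := by
    rw [map_pow] at hrn
    exact (pow_eq_one_iff_left hn.ne').mp hrn
  -- `r ^ n ≡ e ^ n`
  have h1 : W.valuation (r ^ n - algebraMap R E (e : R) ^ n) < 1 := by
    have e1 : r ^ n - algebraMap R E (e : R) ^ n =
        (r ^ n - algebraMap R E (u : R)) + algebraMap R E ((u : R) - (e : R) ^ n) := by
      rw [map_sub, map_pow]; ring
    rw [e1]
    exact lt_of_le_of_lt (Valuation.map_add _ _ _) (max_lt hr he')
  have hξE : IsPrimitiveRoot (algebraMap R E ξ) n := hξ.map_of_injective hinj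
  rw [hξE.pow_sub_pow_eq_prod_sub_mul r (algebraMap R E (e : R)) hn] at h1
  have hroot : ∀ μ ∈ Polynomial.nthRootsFinset n (1 : E), ∃ i : ℕ, μ = algebraMap R E (ξ ^ i) := by
    intro μ hμ
    have hμ1 : μ ^ n = 1 := (Polynomial.mem_nthRootsFinset hn 1).mp hμ
    obtain ⟨i, -, hi⟩ := hξE.eq_pow_of_pow_eq_one hμ1
    exact ⟨i, by rw [map_pow, hi]⟩
  -- one of the factors is not a unit
  have hex : ∃ μ ∈ Polynomial.nthRootsFinset n (1 : E),
      W.valuation (r - μ * algebraMap R E (e : R)) < 1 := by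
    by_contra hno
    have hall : ∀ μ ∈ Polynomial.nthRootsFinset n (1 : E),
        W.valuation (r - μ * algebraMap R E (e : R)) = 1 := by
      intro μ hμ
      obtain ⟨i, rfl⟩ := hroot μ hμ
      have hle : W.valuation (r - algebraMap R E (ξ ^ i) * algebraMap R E (e : R)) ≤ 1 := by
        refine le_trans (Valuation.map_sub _ _ _) (max_le hr1.le ?_)
        rw [← map_mul]
        exact (W.valuation_le_one_iff _).2 (hRW _)
      refine le_antisymm hle ?_
      by_contra hlt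
      exact hno ⟨_, hμ, not_le.mp hlt⟩
    rw [map_prod, Finset.prod_congr rfl hall, Finset.prod_const_one] at h1
    exact lt_irrefl _ h1
  obtain ⟨μ, hμ, hμ'⟩ := hex
  obtain ⟨i, rfl⟩ := hroot μ hμ
  have hξu : IsUnit ξ := hξ.isUnit hn.ne'
  refine ⟨(hξu.unit) ^ i * e, ?_⟩
  have e2 : algebraMap R E (((hξu.unit) ^ i * e : Rˣ) : R) =
      algebraMap R E (ξ ^ i) * algebraMap R E (e : R) := by
    rw [← map_mul]
    congr 1
  rw [e2]
  exact hμ'

/-- **from a unit root of exponent `n p` of `u G ^ n` to a unit root of exponent `p` of `G`**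
(`u` a unit of `R`, the residue field of `R` algebraically closed). -/
theorem exists_root_of_pow_root [IsAlgClosed (IsLocalRing.ResidueField R)]
    (hinj : Function.Injective (algebraMap R E)) (W : ValuationSubring E)
    (hRW : ∀ r : R, algebraMap R E r ∈ W)
    (hmax : ∀ r ∈ IsLocalRing.maximalIdeal R, W.valuation (algebraMap R E r) < 1)
    {n p : ℕ} (hn : 0 < n) (hp : 0 < p) {ξ : R} (hξ : IsPrimitiveRoot ξ n) (u : Rˣ) {G L : E}
    (hL : W.valuation L = 1)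
    (h : W.valuation (algebraMap R E (u : R) * G ^ n - L ^ (p * n)) < 1) :
    ∃ L' : E, W.valuation L' = 1 ∧ W.valuation (G - L' ^ p) < 1 := by
  have hu1 := valuation_algebraMap_unit_eq_one W hRW u
  -- `G` is a unit of `W`
  have hLn : W.valuation (L ^ (p * n)) = 1 := by rw [map_pow, hL, one_pow]
  have hGn : W.valuation (algebraMap R E (u : R) * G ^ n) = 1 := by
    have e1 : algebraMap R E (u : R) * G ^ n =
        (algebraMap R E (u : R) * G ^ n - L ^ (p * n)) + L ^ (p * n) := by ring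
    rw [e1, Valuation.map_add_eq_of_lt_right _ (by rw [hLn]; exact h), hLn]
  have hG1 : W.valuation G = 1 := by
    rw [map_mul, hu1, one_mul, map_pow] at hGn
    exact (pow_eq_one_iff_left hn.ne').mp hGn
  have hG0 : G ≠ 0 := by
    intro h0
    rw [h0, map_zero] at hG1
    exact zero_ne_one hG1
  -- `r = L ^ p / G`
  set r : E := L ^ p / G with hrdef
  have hr : W.valuation (r ^ n - algebraMap R E (u : R)) < 1 := by
    have e1 : r ^ n - algebraMap R E (u : R) =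
        -(algebraMap R E (u : R) * G ^ n - L ^ (p * n)) * (G ^ n)⁻¹ := by
      rw [hrdef, div_pow, ← pow_mul]
      field_simp
      ring
    rw [e1, map_mul, Valuation.map_neg, map_inv₀, map_pow, hG1, one_pow, inv_one, mul_one]
    exact h
  obtain ⟨δ, hδ⟩ := exists_unit_cong_of_pow_cong hinj W hRW hmax hn hξ u hr
  obtain ⟨δ₁, hδ₁⟩ := Fermat.Agent.S36.base36_exists_unit_pow_cong hp δ
  have hδ₁' := hmax _ hδ₁
  have hd1 := valuation_algebraMap_unit_eq_one W hRW δ₁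
  have hd0 : algebraMap R E (δ₁ : R) ≠ 0 := by
    intro h0
    rw [h0, map_zero] at hd1
    exact zero_ne_one hd1
  refine ⟨L * (algebraMap R E (δ₁ : R))⁻¹, ?_, ?_⟩
  · rw [map_mul, map_inv₀, hL, hd1, inv_one, mul_one]
  · have e1 : G - (L * (algebraMap R E (δ₁ : R))⁻¹) ^ p =
        G * (algebraMap R E (δ₁ : R) ^ p)⁻¹ *
          (algebraMap R E ((δ₁ : R) ^ p - (δ : R)) + (algebraMap R E (δ : R) - r)) := by
      rw [hrdef, map_sub, map_pow, mul_pow, inv_pow]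
      have hdp : algebraMap R E (δ₁ : R) ^ p ≠ 0 := pow_ne_zero _ hd0
      field_simp
      ring
    rw [e1, map_mul, map_mul, map_inv₀, map_pow, hd1, one_pow, inv_one, mul_one, hG1, one_mul]
    refine lt_of_le_of_lt (Valuation.map_add _ _ _) (max_lt ?_ ?_)
    · have e2 : algebraMap R E ((δ₁ : R) ^ p - (δ : R)) =
          -algebraMap R E ((δ : R) - (δ₁ : R) ^ p) := by rw [← map_neg, neg_sub]
      rw [e2, Valuation.map_neg]
      exact hδ₁'
    · rw [← Valuation.map_neg, neg_sub]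
      exact hδ

end Roots

/-! ### `newToricAtU` with the data exposed -/

/-- **[NODE-I] over the unramified bases with the toric function exposed**: the toric
representative of `p ^ c • x` is `c' · f₀ ^ (p ^ c) · h ^ (p ^ k)` with `f₀` a Kummer function of
`x` of exponent `p ^ k`, all over the small unramified base `K'`. -/
def NewToricExpAtU (M q p : ℕ) [NeZero M] [NeZero q] [NeZero (M * q)] (A : ValuationSubring Ω) :
    Prop :=
  ∃ c : ℕ, ∀ (k : ℕ) (x : JZero (M * q)), p ^ k • x = 0 →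
    (∀ τ ∈ A.inertiaSubgroupIn ℚ, τ • x = x) →
    degPushAlpha M q x = 0 → degPushBeta M q x = 0 →
    ∃ (D : Divisor.degZero (K := Ω) (F := ↥(modularFunctionFieldBar (M * q))))
      (K' : IntermediateField ℚ Ω) (f₀ h : ↥(keyFq ↥K' (M * q))) (c' : ↥K'),
      IsUnrBase q A K' ∧ f₀ ≠ 0 ∧ h ≠ 0 ∧ c' ≠ 0 ∧ Pic0.mk D = x ∧
      (∀ v : Place Ω ↥(modularFunctionFieldBar (M * q)),
        v.ord (keyFqBC (M * q) K' f₀) =
          ((p ^ k : ℕ) : ℤ) * (D : Divisor Ω ↥(modularFunctionFieldBar (M * q))) v) ∧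
      ∀ K₂ : IntermediateField ℚ Ω, IsUnrBase q A K₂ → K' ≤ K₂ →
        ∀ F₂ : ↥(keyFq ↥K₂ (M * q)),
          keyFqBC (M * q) K₂ F₂ = keyFqBC (M * q) K'
            (algebraMap ↥K' ↥(keyFq ↥K' (M * q)) c' * f₀ ^ (p ^ c) * h ^ (p ^ k)) →
          LegToricAt M q (p ^ k) A K₂ (fullToLegE ↥K₂ (M * q) F₂)

/-- **[NODE-I] over the unramified bases, exposed form, every odd prime `p`.** -/
theorem newToricExpAtU (M q p : ℕ) [NeZero M] [NeZero q] [NeZero (M * q)] (hq : q.Prime)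
    (hq2 : q ≠ 2) (hp : p.Prime) (hp2 : p ≠ 2) (hqp : q ≠ p) (hqM : ¬ q ∣ M)
    (A : ValuationSubring Ω) (hA : A.LiesOverPrime q) : NewToricExpAtU M q p A := by
  obtain ⟨c, hc⟩ := legNewBaseQO M q p hq hq2 hp hp2 hqp hqM A hA
  refine ⟨c, fun k x hpx hI hα hβ => ?_⟩
  obtain ⟨D, f, hf, hDx, hfD, K₁, hK₁n, K', f₀, hBC, hfix, H, HAL⟩ :=
    newDescQU M q p hq hq2 hp hqp hqM A hA k x hpx hI hα hβ
  haveI := hK₁n
  haveI : Fact q.Prime := ⟨hq⟩
  obtain ⟨c', h, hc', hh, htor⟩ := hc k K₁ K' f₀ H HAL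
  refine ⟨D, K', f₀, h, c', ⟨H.base, hfix⟩, H.ne_zero, hh, hc', hDx,
    fun v => by rw [hBC]; exact hfD v, ?_⟩
  intro K₂ hK₂ hle F₂ hF₂
  have e : legIncl hle (M * q) (fullToLegE ↥K' (M * q)
      (algebraMap ↥K' ↥(keyFq ↥K' (M * q)) c' * f₀ ^ (p ^ c) * h ^ (p ^ k))) =
      fullToLegE ↥K₂ (M * q) F₂ := by
    haveI : IsDiscreteValuationRing ↥(baseRing A K') := H.base.isDiscreteValuationRing hA
    haveI : IsDiscreteValuationRing ↥(baseRing A K₂) :=
      hK₂.isBase.isDiscreteValuationRing hA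
    exact legIncl_fullToLegE_of_keyFqBC_eq hle (M * q) _ F₂ hF₂
  have h1 : LegToricAt M q (p ^ k) A K₂ (legIncl hle (M * q) (fullToLegE ↥K' (M * q)
      (algebraMap ↥K' ↥(keyFq ↥K' (M * q)) c' * f₀ ^ (p ^ c) * h ^ (p ^ k)))) :=
    @LegToricAt.of_le M q (p ^ k) _ _ _ hq hq2 hqM A hA K' K₂ hle H.base hK₂.isBase _ htor
  exact @cast _ _ (congrArg (LegToricAt M q (p ^ k) A K₂) e) h1

/-! ### the sheets dominate the base -/

section Sheet

variable {R : Type*} [CommRing R] [IsDomain R] [IsDiscreteValuationRing R] [CharZero R]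
  {K₁ : Type*} [Field K₁] [Algebra R K₁] [IsFractionRing R K₁]
  {K : Type*} [Field K] [Algebra K₁ K] [Algebra R K] [IsScalarTower R K₁ K]
  {E : Type*} [Field E] [Algebra K E] [Algebra K₁ E] [IsScalarTower K₁ K E] [Algebra R E]
  [IsScalarTower R K E] [FiniteDimensional K E]
  {π : R} {t : K}

include K₁ in
/-- the elements of the maximal ideal of `R` are non-units of a sheet. -/
theorem valuation_lt_one_of_mem_maximalIdeal (hπ : Irreducible π) {W : ValuationSubring E}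
    (hG : IsGaussAt R π t (W.comap (algebraMap K E))) (hRW : ∀ r : R, algebraMap R E r ∈ W)
    {r : R} (hr : r ∈ IsLocalRing.maximalIdeal R) : W.valuation (algebraMap R E r) < 1 := by
  rw [hπ.maximalIdeal_eq, Ideal.mem_span_singleton'] at hr
  obtain ⟨s, rfl⟩ := hr
  rw [map_mul, map_mul]
  have h1 : W.valuation (algebraMap R E s) ≤ 1 := (W.valuation_le_one_iff _).2 (hRW s)
  have h2 := (val_pi_lt_one (K₁ := K₁) hπ hG).2
  calc W.valuation (algebraMap R E s) * W.valuation (algebraMap R E π)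
      ≤ 1 * W.valuation (algebraMap R E π) := mul_le_mul_left h1 _
    _ = W.valuation (algebraMap R E π) := one_mul _
    _ < 1 := h2

end Sheet

/-! ### toric classes of exponent `p` -/

set_option maxHeartbeats 3200000 in
/-- **toric classes of exponent `p`**: for an `I_A`-fixed class `x` with `p ^ (c + 1) x = 0` killed
by both degeneracy pushforwards, the class `p ^ c x ∈ J₀(M q)[p]` is toric of exponent `p` over the
unramified bases. -/
theorem isToricClassAtU_prime_of_exp (M q p : ℕ) [NeZero M] [NeZero q] [NeZero (M * q)]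
    (hq : q.Prime) (hq2 : q ≠ 2) (hp : p.Prime) (hqp : q ≠ p) (hqM : ¬ q ∣ M)
    (A : ValuationSubring Ω) (hA : A.LiesOverPrime q) (hexp : NewToricExpAtU M q p A) :
    ∃ c : ℕ, ∀ x : JZero (M * q), p ^ (c + 1) • x = 0 →
      (∀ τ ∈ A.inertiaSubgroupIn ℚ, τ • x = x) →
      degPushAlpha M q x = 0 → degPushBeta M q x = 0 →
      IsToricClassAtU M q p A (p ^ c • x) := by
  classical
  obtain ⟨c, hc⟩ := hexp
  refine ⟨c, fun x hx hI hα hβ => ?_⟩
  obtain ⟨D, K', f₀, h, c', hK', hf₀, hh, hc', hDx, hord, htor⟩ := hc (c + 1) x hx hI hα hβ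
  haveI : Fact q.Prime := ⟨hq⟩
  haveI : HasPrincipalDivisors Ω ↥(modularFunctionFieldBar (M * q)) :=
    (Fermat.Agent.X0N.jCoordBar (M * q)).hasPrincipalDivisors
  have hpc : 0 < p ^ c := pow_pos hp.pos c
  have hqpc : ¬ q ∣ p ^ c := fun hd =>
    hqp ((Nat.prime_dvd_prime_iff_eq hq hp).mp (hq.dvd_of_dvd_pow hd))
  have e1 : p ^ (c + 1) = p * p ^ c := pow_succ' p c
  -- the model over `K'`
  haveI : IsDiscreteValuationRing ↥(baseRing A K') := hK'.isBase.isDiscreteValuationRing hA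
  haveI : CharZero ↥(baseRing A K') := charZero_valuationSubring_of_algebraRat _
  haveI : IsAlgClosed (ResidueField ↥(baseRing A K')) := hK'.isBase.isAlgClosed_residueField hA
  have h2' : IsUnit (2 : ↥(baseRing A K')) := isUnit_ofNat_baseRing hA K' Nat.prime_two hq2
  letI := baseToComplex K'
  obtain ⟨x₀, y₀, hbez₀⟩ := exists_bezout_of_prime_of_not_dvd hq hqM
  have hϖ : Irreducible ((q : ℕ) : ↥(baseRing A K')) := hK'.irreducible hA
  set ϖ : ↥(baseRing A K') := ((q : ℕ) : ↥(baseRing A K')) with hϖdef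
  have hqϖ : ((q : ℕ) : ↥(baseRing A K')) ∈ Ideal.span {ϖ} := Ideal.mem_span_singleton_self _
  have hmodel : SSModelLeg ↥(baseRing A K') ↥K' ϖ h2' hbez₀ hq hq2 :=
    ssModelLeg ↥(baseRing A K') ↥K' hϖ h2' hbez₀ hq hq2 hqϖ
      (geoHyps_legE_baseRing hA M hqM hK'.isBase hq2 hϖ)
  haveI : FiniteDimensional ↥(↥K')⟮jqNModC ↥K' 2⟯ ↥(legE ↥K' (M * q)) :=
    finite_legE_adjoin_j ↥K' (M * q)
  have h' := SSModelLeg.ssModel ↥(baseRing A K') ↥K' hmodel
  have hqe : ((q : ℕ) : ↥(baseRing A K')) =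
      ((1 : (↥(baseRing A K'))ˣ) : ↥(baseRing A K')) * ϖ ^ 1 := by
    rw [Units.val_one, one_mul, pow_one]
  set Winf : ValuationSubring ↥(legE ↥K' (M * q)) :=
    legWinf ↥(baseRing A K') ↥K' h2' (M * q) with hWinfdef
  obtain ⟨ϖE, hϖEdef⟩ : ∃ e : ↥(legE ↥K' (M * q)),
      e = algebraMap ↥(baseRing A K') ↥(legE ↥K' (M * q)) ϖ := ⟨_, rfl⟩
  obtain ⟨hϖE0, hϖElt⟩ := val_pi_lt_one (K₁ := ↥K') hϖ h'.two.gauss_inf
  rw [← hϖEdef] at hϖE0 hϖElt
  have hRWinf : ∀ r : ↥(baseRing A K'), algebraMap ↥(baseRing A K') ↥(legE ↥K' (M * q)) r ∈ Winf :=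
    fun r => algebraMap_mem_legWinf ↥(baseRing A K') ↥K' h2' (M * q) r
  -- `c' = u₀ ϖ ^ b`
  obtain ⟨b, u₀, hu₀⟩ := IsDiscreteValuationRing.exists_units_eq_smul_zpow_of_irreducible
    (K := ↥K') hϖ hc'
  rw [Units.smul_def, Algebra.smul_def] at hu₀
  -- the toric function over `K'`
  obtain ⟨g₀, hg₀def⟩ : ∃ y : ↥(keyFq ↥K' (M * q)), y = f₀ * h ^ p := ⟨_, rfl⟩
  have hg₀ : g₀ ≠ 0 := by
    rw [hg₀def]
    exact mul_ne_zero hf₀ (pow_ne_zero _ hh)
  obtain ⟨F', hF'def⟩ : ∃ y : ↥(keyFq ↥K' (M * q)),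
      y = algebraMap ↥K' ↥(keyFq ↥K' (M * q)) c' * f₀ ^ (p ^ c) * h ^ (p ^ (c + 1)) := ⟨_, rfl⟩
  have hF'g : F' = algebraMap ↥K' ↥(keyFq ↥K' (M * q)) c' * g₀ ^ (p ^ c) := by
    rw [hF'def, hg₀def, mul_pow, ← pow_mul, ← e1, mul_assoc]
  obtain ⟨linf, l0, hl1, hl2, hl3, hl4⟩ := htor K' hK' le_rfl F' (by rw [hF'def]) h2' x₀ y₀
    hbez₀ hq
  have hF'1 : Winf.valuation (fullToLegE ↥K' (M * q) F') = 1 := by
    refine valuation_eq_one_of_sub_lt_one Winf (a := linf ^ (p ^ (c + 1))) ?_ hl3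
    rw [map_pow, hl1, one_pow]
  have hg₀E : fullToLegE ↥K' (M * q) g₀ ≠ 0 := (map_ne_zero _).2 hg₀
  obtain ⟨z, hz⟩ := SSModel.exists_zpow_val_eq_one_inf h' one_pos hqe hg₀E
  rw [← hϖEdef] at hz
  -- `b + z p ^ c = 0`
  have hcE : fullToLegE ↥K' (M * q) (algebraMap ↥K' ↥(keyFq ↥K' (M * q)) c') =
      algebraMap ↥(baseRing A K') ↥(legE ↥K' (M * q)) (u₀ : ↥(baseRing A K')) * ϖE ^ b := by
    rw [AlgHom.commutes, hu₀, map_mul, map_zpow₀,
      ← IsScalarTower.algebraMap_apply ↥(baseRing A K') ↥K' ↥(legE ↥K' (M * q)),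
      ← IsScalarTower.algebraMap_apply ↥(baseRing A K') ↥K' ↥(legE ↥K' (M * q)), ← hϖEdef]
  have hbz : b + z * (p ^ c : ℕ) = 0 := by
    have h1 : Winf.valuation (ϖE ^ (b + z * (p ^ c : ℕ))) = 1 := by
      have h2 : fullToLegE ↥K' (M * q) F' =
          algebraMap ↥(baseRing A K') ↥(legE ↥K' (M * q)) (u₀ : ↥(baseRing A K')) *
            ϖE ^ (b + z * (p ^ c : ℕ)) *
            (fullToLegE ↥K' (M * q) g₀ * (ϖE ^ z)⁻¹) ^ (p ^ c) := by
        rw [hF'g, map_mul, map_pow, hcE, zpow_add₀ hϖE0, zpow_mul, zpow_natCast, mul_pow,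
          inv_pow]
        have h3 : (ϖE ^ z) ^ (p ^ c) ≠ 0 := pow_ne_zero _ (zpow_ne_zero _ hϖE0)
        have h4 : (ϖE ^ z) ^ (p ^ c) * ((ϖE ^ z) ^ (p ^ c))⁻¹ = 1 := mul_inv_cancel₀ h3
        calc _ = algebraMap ↥(baseRing A K') ↥(legE ↥K' (M * q)) (u₀ : ↥(baseRing A K')) *
              ϖE ^ b * fullToLegE ↥K' (M * q) g₀ ^ (p ^ c) *
              ((ϖE ^ z) ^ (p ^ c) * ((ϖE ^ z) ^ (p ^ c))⁻¹) := by rw [h4, mul_one]
          _ = _ := by ring
      rw [h2, map_mul, map_mul, map_pow, hz, one_pow, mul_one,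
        valuation_algebraMap_unit_eq_one Winf hRWinf u₀, one_mul] at hF'1
      exact hF'1
    exact (zpow_val_eq_one_iff hϖE0 hϖElt _).1 h1
  -- the Kummer function of exponent `p`
  obtain ⟨ϖK, hϖKdef⟩ : ∃ e : ↥K', e = algebraMap ↥(baseRing A K') ↥K' ϖ := ⟨_, rfl⟩
  rw [← hϖKdef] at hu₀
  have hϖK0 : ϖK ≠ 0 := by
    rw [hϖKdef, Ne, map_eq_zero_iff _ (IsFractionRing.injective ↥(baseRing A K') ↥K')]
    exact hϖ.ne_zero
  obtain ⟨g, hgdef⟩ : ∃ y : ↥(keyFq ↥K' (M * q)),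
      y = algebraMap ↥K' ↥(keyFq ↥K' (M * q)) (ϖK ^ z)⁻¹ * g₀ := ⟨_, rfl⟩
  have hg : g ≠ 0 := by
    rw [hgdef]
    exact mul_ne_zero ((map_ne_zero _).2 (inv_ne_zero (zpow_ne_zero _ hϖK0))) hg₀
  have hF'u : F' = algebraMap ↥K' ↥(keyFq ↥K' (M * q))
      (algebraMap ↥(baseRing A K') ↥K' (u₀ : ↥(baseRing A K'))) * g ^ (p ^ c) := by
    have h1 : c' * ((ϖK ^ z) ^ (p ^ c)) =
        algebraMap ↥(baseRing A K') ↥K' (u₀ : ↥(baseRing A K')) := by
      rw [hu₀, ← zpow_natCast, ← zpow_mul, mul_assoc, ← zpow_add₀ hϖK0, hbz, zpow_zero, mul_one]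
    have h3 : (ϖK ^ z) ^ (p ^ c) ≠ 0 := pow_ne_zero _ (zpow_ne_zero _ hϖK0)
    rw [hF'g, hgdef, mul_pow, ← map_pow, ← mul_assoc, ← map_mul, inv_pow, ← h1,
      mul_assoc c', mul_inv_cancel₀ h3, mul_one]
  -- its divisor
  have hf₀Ω : keyFqBC (M * q) K' f₀ ≠ 0 := (map_ne_zero _).2 hf₀
  have hhΩ : keyFqBC (M * q) K' h ≠ 0 := (map_ne_zero _).2 hh
  have hcΩ : algebraMap ↥K' Ω (ϖK ^ z)⁻¹ ≠ 0 :=
    (map_ne_zero _).2 (inv_ne_zero (zpow_ne_zero _ hϖK0))
  have hord' : ∀ v : Place Ω ↥(modularFunctionFieldBar (M * q)),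
      v.ord (keyFqBC (M * q) K' f₀) = (p : ℤ) *
        ((p ^ c • D : Divisor.degZero (K := Ω) (F := ↥(modularFunctionFieldBar (M * q)))) :
          Divisor Ω ↥(modularFunctionFieldBar (M * q))) v := by
    intro v
    have h2 : ((p ^ c • D : Divisor.degZero (K := Ω) (F := ↥(modularFunctionFieldBar (M * q)))) :
        Divisor Ω ↥(modularFunctionFieldBar (M * q))) v =
        ((p ^ c : ℕ) : ℤ) * (D : Divisor Ω ↥(modularFunctionFieldBar (M * q))) v := by
      show ((p ^ c • (D : Divisor Ω ↥(modularFunctionFieldBar (M * q)))) :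
        Divisor Ω ↥(modularFunctionFieldBar (M * q))) v = _
      rw [Finsupp.smul_apply, nsmul_eq_mul]
    rw [hord v, h2, e1]
    push_cast
    ring
  obtain ⟨D', hD', hgD'⟩ := exists_degZero_of_kummer_mul (p ^ c • D) (keyFqBC (M * q) K' f₀) hf₀Ω
    hord' (algebraMap ↥K' Ω (ϖK ^ z)⁻¹) hcΩ (keyFqBC (M * q) K' h) hhΩ
  have hgΩ : keyFqBC (M * q) K' g =
      algebraMap Ω ↥(modularFunctionFieldBar (M * q)) (algebraMap ↥K' Ω (ϖK ^ z)⁻¹) *
        keyFqBC (M * q) K' f₀ * keyFqBC (M * q) K' h ^ p := by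
    rw [hgdef, hg₀def, map_mul, map_mul, map_pow, keyFqBC_algebraMap, mul_assoc]
  have hgBC : ∃ F₀ : ↥(keyFq ↥K' (M * q)), keyFqBC (M * q) K' F₀ = keyFqBC (M * q) K' g :=
    ⟨g, rfl⟩
  have hclass : (Pic0.mk D' : JZero (M * q)) = p ^ c • x := by
    rw [hD', ← hDx]
    rfl
  refine ⟨D', keyFqBC (M * q) K' g, (map_ne_zero _).2 hg, hclass, ?_, K', hK', hgBC, ?_⟩
  · intro v
    rw [hgΩ]
    exact hgD' v
  -- toric of exponent `p` over every unramified base `K₂ ≥ K'`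
  intro K₂ hK₂ hle G₂ hG₂ _ _ h2 x₂ y₂ hbez hq'
  haveI : IsAlgClosed (ResidueField ↥(baseRing A K₂)) := hK₂.isBase.isAlgClosed_residueField hA
  letI := baseToComplex K₂
  have hϖ₂ : Irreducible ((q : ℕ) : ↥(baseRing A K₂)) := hK₂.irreducible hA
  have hqϖ₂ : ((q : ℕ) : ↥(baseRing A K₂)) ∈ Ideal.span {((q : ℕ) : ↥(baseRing A K₂))} :=
    Ideal.mem_span_singleton_self _
  have hmodel₂ : SSModelLeg ↥(baseRing A K₂) ↥K₂ ((q : ℕ) : ↥(baseRing A K₂)) h2 hbez hq' hq2 :=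
    ssModelLeg ↥(baseRing A K₂) ↥K₂ hϖ₂ h2 hbez hq' hq2 hqϖ₂
      (geoHyps_legE_baseRing hA M hqM hK₂.isBase hq2 hϖ₂)
  haveI : FiniteDimensional ↥(↥K₂)⟮jqNModC ↥K₂ 2⟯ ↥(legE ↥K₂ (M * q)) :=
    finite_legE_adjoin_j ↥K₂ (M * q)
  have h₂ := SSModelLeg.ssModel ↥(baseRing A K₂) ↥K₂ hmodel₂
  -- the unit `u₀` over `K₂`
  obtain ⟨u₂, hu₂def⟩ : ∃ u : (↥(baseRing A K₂))ˣ,
      u = Units.map (JA.baseRingIncl A hle).toMonoidHom u₀ := ⟨_, rfl⟩
  obtain ⟨F₂, hF₂def⟩ : ∃ y : ↥(keyFq ↥K₂ (M * q)),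
      y = algebraMap ↥K₂ ↥(keyFq ↥K₂ (M * q))
        (algebraMap ↥(baseRing A K₂) ↥K₂ (u₂ : ↥(baseRing A K₂))) * G₂ ^ (p ^ c) := ⟨_, rfl⟩
  have hF₂ : keyFqBC (M * q) K₂ F₂ = keyFqBC (M * q) K' F' := by
    rw [hF₂def, hF'u, map_mul, map_mul, map_pow, map_pow, hG₂, keyFqBC_algebraMap,
      keyFqBC_algebraMap, hu₂def]
    rfl
  obtain ⟨linf₂, l0₂, hm1, hm2, hm3, hm4⟩ := htor K₂ hK₂ hle F₂ (by rw [hF₂, hF'def]) h2 x₂ y₂
    hbez hq'
  have hF₂E : fullToLegE ↥K₂ (M * q) F₂ =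
      algebraMap ↥(baseRing A K₂) ↥(legE ↥K₂ (M * q)) (u₂ : ↥(baseRing A K₂)) *
        fullToLegE ↥K₂ (M * q) G₂ ^ (p ^ c) := by
    rw [hF₂def, map_mul, map_pow, AlgHom.commutes,
      ← IsScalarTower.algebraMap_apply ↥(baseRing A K₂) ↥K₂ ↥(legE ↥K₂ (M * q))]
  rw [hF₂E] at hm3 hm4
  obtain ⟨ξ, hξ⟩ := hK₂.isBase.exists_isPrimitiveRoot_baseRing A hpc hqpc
  have hinj : Function.Injective (algebraMap ↥(baseRing A K₂) ↥(legE ↥K₂ (M * q))) := by
    rw [IsScalarTower.algebraMap_eq ↥(baseRing A K₂) ↥K₂ ↥(legE ↥K₂ (M * q))]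
    exact (algebraMap ↥K₂ ↥(legE ↥K₂ (M * q))).injective.comp
      (IsFractionRing.injective ↥(baseRing A K₂) ↥K₂)
  have hRW₁ : ∀ r : ↥(baseRing A K₂), algebraMap ↥(baseRing A K₂) ↥(legE ↥K₂ (M * q)) r ∈
      legWinf ↥(baseRing A K₂) ↥K₂ h2 (M * q) :=
    fun r => algebraMap_mem_legWinf ↥(baseRing A K₂) ↥K₂ h2 (M * q) r
  have hRW₂ : ∀ r : ↥(baseRing A K₂), algebraMap ↥(baseRing A K₂) ↥(legE ↥K₂ (M * q)) r ∈
      legW0 ↥(baseRing A K₂) ↥K₂ hbez hq' := by
    intro r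
    have := h₂.two.chart_le_zero (algebraMap ↥(baseRing A K₂) ↥(legE ↥K₂ (M * q)) r)
      (Subalgebra.algebraMap_mem _ r)
    exact this
  have e2 : p ^ (c + 1) = p * p ^ c := e1
  rw [e2] at hm3 hm4
  obtain ⟨linf', hi1, hi2⟩ := exists_root_of_pow_root hinj _ hRW₁
    (fun r hr => valuation_lt_one_of_mem_maximalIdeal (K₁ := ↥K₂) hϖ₂ h₂.two.gauss_inf hRW₁ hr)
    hpc hp.pos hξ u₂ hm1 hm3
  obtain ⟨l0', hj1, hj2⟩ := exists_root_of_pow_root hinj _ hRW₂
    (fun r hr => valuation_lt_one_of_mem_maximalIdeal (K₁ := ↥K₂) hϖ₂ h₂.two.gauss_zero hRW₂ hr)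
    hpc hp.pos hξ u₂ hm2 hm4
  exact ⟨linf', l0', hi1, hj1, hi2, hj2⟩

/-- **toric classes of exponent `p`, every odd prime `p`.** -/
theorem isToricClassAtU_prime (M q p : ℕ) [NeZero M] [NeZero q] [NeZero (M * q)]
    (hq : q.Prime) (hq2 : q ≠ 2) (hp : p.Prime) (hp2 : p ≠ 2) (hqp : q ≠ p) (hqM : ¬ q ∣ M)
    (A : ValuationSubring Ω) (hA : A.LiesOverPrime q) :
    ∃ c : ℕ, ∀ x : JZero (M * q), p ^ (c + 1) • x = 0 →
      (∀ τ ∈ A.inertiaSubgroupIn ℚ, τ • x = x) →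
      degPushAlpha M q x = 0 → degPushBeta M q x = 0 →
      IsToricClassAtU M q p A (p ^ c • x) :=
  isToricClassAtU_prime_of_exp M q p hq hq2 hp hqp hqM A hA
    (newToricExpAtU M q p hq hq2 hp hp2 hqp hqM A hA)

end Fermat.Agent.ML
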