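/-
ML — helper5 — **[SURJ]: `surjStatement_of`** (helper3's literal `ML.SurjStatement`,
`ML/IFACE_helper3_Surj2.lean`) from the four leaves `[MASS]`, `[DECK]`, `[INJ]`, `[CARD]`.

`c` the constant of `isToricClassAtU_prime` (exponent-`p` toric classes over the unramified bases),
`T = p ^ c • (G_{c+1}^new)^{I_A} ⊂ J₀(M q)[p]` (finite), `K₀` an unramified base over which the
Kummer functions of all the classes of `T` are defined; over every unramified base `K ⊇ K₀` the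
classes of `T` have toric triples, and `surjAt_of` applies with the bound
`pow_le_mul_card_toricSub`.
-/
import Mathlib
import Fermat.Agent.ML.SURJ_helper5_Model
import Fermat.Agent.ML.SURJ_helper5_Book
import Fermat.Agent.ML.SURJ_helper5_RedP
import Fermat.Agent.ML.SURJ_helper5_NodeLeg
import Fermat.Agent.S20

set_option autoImplicit false
set_option linter.unusedSectionVars false
set_option linter.unusedVariables false
set_option linter.style.haveILetI false
set_option synthInstance.maxHeartbeats 400000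

open Polynomial ModularCurve IntermediateField AlgebraicCurve

namespace Fermat.Agent.ML

open Fermat.Agent.JA Fermat.Agent.FF Fermat.Agent.SS Fermat.Agent.S35 Fermat.Agent.MP
  Fermat.Agent.NP Fermat.Agent.GR Fermat.Agent.RB Fermat.Agent.Igusa

open scoped Fermat.Agent.JA.Host

/-- `Ω = AlgebraicClosure ℚ`. -/
local notation "Ω" => AlgebraicClosure ℚ

noncomputable section

/-- the genus formula is a natural number. -/
theorem exists_nat_eq_genusFormula (N : ℕ) [NeZero N] : ∃ g : ℕ, (g : ℚ) = genusFormula N :=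
  ⟨_, Fermat.Agent.S20.result N⟩

set_option maxHeartbeats 3200000 in
/-- **[SURJ] from [MASS], [DECK], [INJ], [CARD].** -/
theorem surjStatement_of (HM : MassStatement) (HD : DeckInvStatement) (HI : InjStatement)
    (HC : NewFixedCardStatement) : SurjStatement := by
  intro M q p _ _ _ hq hq2 hq5 hp hp2 hqp hqM h3 A hA
  classical
  haveI : Fact q.Prime := ⟨hq⟩
  have hodd : Odd p := hp.odd_of_ne_two hp2
  have hqp' : ¬ q ∣ p := fun h => hqp ((Nat.prime_dvd_prime_iff_eq hq hp).mp h)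
  obtain ⟨c, hc⟩ := isToricClassAtU_prime M q p hq hq2 hp hp2 hqp hqM A hA
  obtain ⟨g₁, hg₁⟩ := exists_nat_eq_genusFormula (M * q)
  obtain ⟨g', hg'⟩ := exists_nat_eq_genusFormula M
  -- the group of the toric classes
  obtain ⟨T, hT⟩ : ∃ T : AddSubgroup (JZero (M * q)), T = (fixSub M q p A (c + 1)).map
      (nsmulAddMonoidHom (p ^ c) : JZero (M * q) →+ JZero (M * q)) := ⟨_, rfl⟩
  have hTmem : ∀ t ∈ T, ∃ z ∈ fixSub M q p A (c + 1), p ^ c • z = t := by
    intro t ht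
    rw [hT, AddSubgroup.mem_map] at ht
    exact ht
  have hTkill : ∀ t ∈ T, p ^ 1 • t = 0 := by
    intro t ht
    obtain ⟨z, hz, rfl⟩ := hTmem t ht
    rw [pow_one, ← mul_smul, ← pow_succ']
    exact hz.1
  have hTfin : Finite ↥T := finite_of_forall_smul_eq_zero p 1 (M * q) hp T hTkill
  have hTtoric : ∀ t : ↥T, IsToricClassAtU M q p A (t : JZero (M * q)) := by
    rintro ⟨t, ht⟩
    obtain ⟨z, hz, rfl⟩ := hTmem t ht
    exact hc z hz.1 hz.2.2.2 hz.2.1 hz.2.2.1
  have hTtoric' : ∀ t : ↥T,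
      ∃ (D : Divisor.degZero (K := Ω) (F := ↥(modularFunctionFieldBar (M * q))))
        (f : ↥(modularFunctionFieldBar (M * q))) (Kt : IntermediateField ℚ Ω)
        (F₀ : ↥(keyFq ↥Kt (M * q))), f ≠ 0 ∧ (Pic0.mk D : JZero (M * q)) = t ∧
        (∀ v : Place Ω ↥(modularFunctionFieldBar (M * q)),
          v.ord f = (p : ℤ) * (D : Divisor Ω ↥(modularFunctionFieldBar (M * q))) v) ∧
        IsUnrBase q A Kt ∧ keyFqBC (M * q) Kt F₀ = f ∧
        ∀ K₁ : IntermediateField ℚ Ω, IsUnrBase q A K₁ → Kt ≤ K₁ →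
          ∀ F₁ : ↥(keyFq ↥K₁ (M * q)), keyFqBC (M * q) K₁ F₁ = f →
            LegToricAt M q p A K₁ (fullToLegE ↥K₁ (M * q) F₁) := by
    intro t
    obtain ⟨D, f, hf, hD, hord, Kt, hKt, ⟨F₀, hF₀⟩, htor⟩ := hTtoric t
    exact ⟨D, f, Kt, F₀, hf, hD, hord, hKt, hF₀, htor⟩
  choose D f Kt F₀ hf hD hord hKt hF₀ htoric using hTtoric'
  obtain ⟨K₀, hK₀, hle₀⟩ := exists_isUnrBase_ge_of_finite hA Kt hKt
  refine ⟨K₀, hK₀, ?_⟩
  intro K hK hle _ _ _ π hπ h2 x y hbez
  obtain ⟨ξ, hξ⟩ := hK.1.exists_isPrimitiveRoot_baseRing A hp.pos hqp'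
  have hqirr : Irreducible ((q : ℕ) : ↥(baseRing A K)) := hK.irreducible hA
  obtain ⟨u, hu⟩ := IsDiscreteValuationRing.associated_of_irreducible _ hπ hqirr
  haveI : IsAlgClosed (IsLocalRing.ResidueField ↥(baseRing A K)) :=
    hK.1.isAlgClosed_residueField hA
  refine surjAt_of ↥(baseRing A K) K hp hξ
    (HM M q hq hq2 hq5 hqM A hA K hK.1 π hπ h2 x y hbez)
    (HD M q p hq hq2 hq5 hqM hodd hqp' A hA K hK π hπ h2 x y hbez)
    (HI M q p hq hq2 hq5 hqM hodd hqp' A hA K hK π hπ h2 x y hbez)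
    (fun hmodel F Linf L0 htr =>
      IsToricTriple.exists_nodeRatioAt ↥(baseRing A K) K hp.ne_zero hξ hπ u.isUnit hu.symm
        hmodel htr)
    T hTfin ?_ ?_ g₁ g' hg₁ hg'
  · -- the toric triples
    intro t ht
    have hle' : Kt ⟨t, ht⟩ ≤ K := (hle₀ ⟨t, ht⟩).trans hle
    obtain ⟨F₁, hF₁⟩ := exists_keyFqBC_eq_of_le hle' (M * q) (F₀ ⟨t, ht⟩)
    have hBC : keyFqBC (M * q) K F₁ = f ⟨t, ht⟩ := hF₁.trans (hF₀ ⟨t, ht⟩)
    obtain ⟨linf, l0, h1, h2', h3', h4⟩ :=
      htoric ⟨t, ht⟩ K hK hle' F₁ hBC h2 x y hbez hq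
    refine ⟨D ⟨t, ht⟩, F₁, linf, l0, hD ⟨t, ht⟩, fun v => ?_, ?_, fun v => ?_, h1, h2', h3', h4⟩
    · rw [hBC]
      exact hord ⟨t, ht⟩ v
    · intro h0
      apply hf ⟨t, ht⟩
      rw [← hBC, h0, map_zero]
    · rw [hBC, hord ⟨t, ht⟩ v]
      exact ⟨_, rfl⟩
  · -- the cardinality
    intro n g₁ g' hg₁ hg' hn
    rw [hT]
    exact pow_le_mul_card_toricSub M q p A HC hq hp hp2 hqp hqM h3 hA g₁ g' hg₁ hg' c n hn

end

end Fermat.Agent.ML
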