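/-
ML — helper5 — **[SURJ], closed form: `ML.surjStatement : SurjStatement`** (helper3's literal,
`ML/IFACE_helper3_Surj2.lean`), from `surjStatement_of` and the four leaves
`ML.massStatement` (helper8), `ML.deckInvStatement` (helper4), `ML.injStatement` (helper7),
`ML.CARD.newFixedCardStatement` (helper1).
-/
import Mathlib
import Fermat.Agent.ML.SURJ_helper5_Main
import Fermat.Agent.ML.MASS_helper8_Final
import Fermat.Agent.ML.DECK_helper4_Main
import Fermat.Agent.ML.INJ_helper7_Main
import Fermat.Agent.ML.CARD_helper1_Main

set_option autoImplicit false

namespace Fermat.Agent.ML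

/-- **[SURJ]**, unconditional. -/
theorem surjStatement : SurjStatement :=
  surjStatement_of massStatement deckInvStatement injStatement CARD.newFixedCardStatement

end Fermat.Agent.ML
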