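/-
ML — helper3 — **(KEY-MAZ-SQ), every odd `p`, `5 ≤ q`: the closed statements.**

* `toric3OccursStatementE` : leaf (b), from helper5's `ML.surjStatement` ([SURJ] ⇐ helper8's [MASS],
  helper4's [DECK], helper7's [INJ], helper1's [CARD]) and helper7's `ML.oldHeckeStatementE`;
* `keyMazSqStatementE` : (KEY-MAZ-SQ) from the two leaves.
-/
import Mathlib
import Fermat.Agent.ML.MSQ_helper3_LeafB
import Fermat.Agent.ML.MSQ_helper3_LeafA
import Fermat.Agent.ML.SURJ_helper5_Closed

set_option autoImplicit false

namespace Fermat.Agent.ML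

/-- **leaf (b) of (KEY-MAZ-SQ), every odd `p`.** -/
theorem toric3OccursStatementE : Toric3OccursStatementE :=
  toric3OccursStatementE_of surjStatement oldHeckeStatementE

/-- **(KEY-MAZ-SQ), all levels, every odd `p`, `5 ≤ q`.** -/
theorem keyMazSqStatementE : KeyMazSqStatementE :=
  keyMazSqStatementE_of_toric keyMazSqToricStatementE toric3OccursStatementE

end Fermat.Agent.ML
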