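/-
ML (S59) — helper5 — **`sqStepStatementO : SqStepStatementO`, UNCONDITIONAL** (leaf (1) of lead's
`LevOpt.levelOptStatement_of_leaves`): `sqStepStatementO_of` (`ML/LEVOPT_helper5_SqO.lean`) applied
to helper3's closed (KEY-MAZ-SQ) `keyMazSqStatementE` (`ML/MSQ_helper3_Closed.lean`).
-/
import Mathlib
import Fermat.Agent.ML.LEVOPT_helper5_SqO
import Fermat.Agent.ML.MSQ_helper3_Closed

set_option autoImplicit false

namespace Fermat.Agent.ML

/-- **the square step of [LEVEL-OPT], all cases but `(p, q) = (3, 2)`.** -/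
theorem sqStepStatementO : SqStepStatementO := sqStepStatementO_of keyMazSqStatementE

end Fermat.Agent.ML
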