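/-
PROJECT ML (S59) — lead — [AUX-PRIME], file 1: linear algebra and group theory.

A two-dimensional representation `ρ` of a group `G` over a field `k` (`1 ≠ -1`) with
`det ρ ∈ {±1}`, `det ρ(σ₀) = -1`, such that EVERY `σ` with `det ρ(σ) = -1` has `tr ρ(σ) = 0`:
then `ρ(σ)² = 1` for these `σ`, the image of `H = ker det` is commutative, and over an
algebraically closed field `H` has a stable line.
-/
import Mathlib
import Fermat.Agent.GR.S34TOP_helper4

set_option autoImplicit false
set_option linter.unusedSectionVars false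
set_option linter.unusedVariables false
set_option linter.style.haveILetI false

open scoped TensorProduct

namespace Fermat.Agent.ML.AuxP

open Polynomial Fermat.Agent.GR

section LinAlg

variable {k V : Type*} [Field k] [AddCommGroup V] [Module k V] [Module.Finite k V]

/-- Cayley–Hamilton in dimension two -/
theorem mul_self_eq (hV : Module.finrank k V = 2) (f : Module.End k V) :
    f * f = LinearMap.trace k V f • f - LinearMap.det f • (1 : Module.End k V) := by
  have h := LinearMap.aeval_self_charpoly f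
  rw [charpoly_eq_of_finrank_eq_two hV f] at h
  simp only [map_add, map_sub, map_mul, map_pow, aeval_X, aeval_C] at h
  rw [pow_two] at h
  have h2 : f * f = (algebraMap k (Module.End k V)) (LinearMap.trace k V f) * f -
      (algebraMap k (Module.End k V)) (LinearMap.det f) := by
    rw [← sub_eq_zero]
    rw [← h]
    abel
  rw [h2, Algebra.algebraMap_eq_smul_one, Algebra.algebraMap_eq_smul_one, smul_mul_assoc, one_mul]

theorem mul_self_eq_one (hV : Module.finrank k V = 2) (f : Module.End k V)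
    (ht : LinearMap.trace k V f = 0) (hd : LinearMap.det f = -1) : f * f = 1 := by
  rw [mul_self_eq hV f, ht, hd, zero_smul, zero_sub, neg_smul, neg_neg, one_smul]

end LinAlg

section Group

variable {k V : Type*} [Field k] [AddCommGroup V] [Module k V] [Module.Finite k V]
  {G : Type*} [Group G] (ρ : G →* Module.End k V)

/-- the image of `ker det` is commutative -/
theorem commute_of_forall_trace_eq_zero (hV : Module.finrank k V = 2)
    (σ₀ : G) (hσ₀ : LinearMap.det (ρ σ₀) = -1)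
    (hall : ∀ σ, LinearMap.det (ρ σ) = -1 → LinearMap.trace k V (ρ σ) = 0)
    (h₁ h₂ : G) (hh₁ : LinearMap.det (ρ h₁) = 1) (hh₂ : LinearMap.det (ρ h₂) = 1) :
    ρ h₁ * ρ h₂ = ρ h₂ * ρ h₁ := by
  -- `ρ(σ₀ h)² = 1` for `det ρ(h) = 1`
  have hsq : ∀ h : G, LinearMap.det (ρ h) = 1 → ρ (σ₀ * h) * ρ (σ₀ * h) = 1 := by
    intro h hh
    have hd : LinearMap.det (ρ (σ₀ * h)) = -1 := by
      rw [map_mul, map_mul, hσ₀, hh, mul_one]
    exact mul_self_eq_one hV _ (hall _ hd) hd
  have hs : ρ σ₀ * ρ σ₀ = 1 := mul_self_eq_one hV _ (hall _ hσ₀) hσ₀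
  -- `ρ(σ₀) ρ(h) ρ(σ₀) = ρ(h⁻¹)`
  have hinv : ∀ h : G, LinearMap.det (ρ h) = 1 → ρ σ₀ * ρ h * ρ σ₀ = ρ h⁻¹ := by
    intro h hh
    have h1 := hsq h hh
    rw [map_mul] at h1
    have h2 : ρ h * ρ h⁻¹ = 1 := by rw [← map_mul, mul_inv_cancel, map_one]
    calc ρ σ₀ * ρ h * ρ σ₀ = ρ σ₀ * ρ h * ρ σ₀ * (ρ h * ρ h⁻¹) := by rw [h2, mul_one]
      _ = (ρ σ₀ * ρ h * (ρ σ₀ * ρ h)) * ρ h⁻¹ := by simp only [mul_assoc]
      _ = ρ h⁻¹ := by rw [h1, one_mul]
  have hdetinv : ∀ h : G, LinearMap.det (ρ h) = 1 → LinearMap.det (ρ h⁻¹) = 1 := by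
    intro h hh
    have h2 : ρ h * ρ h⁻¹ = 1 := by rw [← map_mul, mul_inv_cancel, map_one]
    have := congrArg LinearMap.det h2
    rw [map_mul, hh, one_mul, map_one] at this
    exact this
  -- inverses commute
  have hcomm : ∀ a b : G, LinearMap.det (ρ a) = 1 → LinearMap.det (ρ b) = 1 →
      ρ a⁻¹ * ρ b⁻¹ = ρ b⁻¹ * ρ a⁻¹ := by
    intro a b ha hb
    have hab : LinearMap.det (ρ (a * b)) = 1 := by rw [map_mul, map_mul, ha, hb, mul_one]
    have h1 := hinv (a * b) hab
    have h2 : ρ σ₀ * ρ (a * b) * ρ σ₀ = (ρ σ₀ * ρ a * ρ σ₀) * (ρ σ₀ * ρ b * ρ σ₀) := by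
      rw [map_mul]
      calc ρ σ₀ * (ρ a * ρ b) * ρ σ₀ = ρ σ₀ * ρ a * 1 * ρ b * ρ σ₀ := by
            simp only [mul_assoc, one_mul]
        _ = ρ σ₀ * ρ a * (ρ σ₀ * ρ σ₀) * ρ b * ρ σ₀ := by rw [hs]
        _ = (ρ σ₀ * ρ a * ρ σ₀) * (ρ σ₀ * ρ b * ρ σ₀) := by simp only [mul_assoc]
    rw [h2, hinv a ha, hinv b hb] at h1
    rw [h1, mul_inv_rev, map_mul]
  have := hcomm h₁⁻¹ h₂⁻¹ (hdetinv _ hh₁) (hdetinv _ hh₂)
  simpa using this

/-- **a stable line for `ker det`** over an algebraically closed field -/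
theorem exists_stable_line (hV : Module.finrank k V = 2)
    (σ₀ : G) (hσ₀ : LinearMap.det (ρ σ₀) = -1)
    (hall : ∀ σ, LinearMap.det (ρ σ) = -1 → LinearMap.trace k V (ρ σ) = 0)
    (K : Type*) [Field K] [Algebra k K] [IsAlgClosed K] :
    ∃ L : Submodule K (K ⊗[k] V), L ≠ ⊥ ∧ L ≠ ⊤ ∧
      ∀ h : G, LinearMap.det (ρ h) = 1 → ∀ x ∈ L, (ρ h).baseChange K x ∈ L := by
  have hfr : Module.finrank K (K ⊗[k] V) = 2 := by rw [Module.finrank_baseChange, hV]
  haveI : Module.Finite K (K ⊗[k] V) := Module.finite_of_finrank_eq_succ hfr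
  haveI : Nontrivial (K ⊗[k] V) := Module.nontrivial_of_finrank_pos (R := K) (by omega)
  by_cases hsc : ∀ h : G, LinearMap.det (ρ h) = 1 →
      ∃ c : K, (ρ h).baseChange K = c • (1 : Module.End K (K ⊗[k] V))
  · -- all scalar: any line
    obtain ⟨x, hx⟩ := exists_ne (0 : K ⊗[k] V)
    refine ⟨K ∙ x, ?_, ?_, ?_⟩
    · intro h
      apply hx
      have : x ∈ K ∙ x := Submodule.mem_span_singleton_self x
      rw [h] at this
      exact (Submodule.mem_bot K).1 this
    · intro h
      have h1 : Module.finrank K (K ∙ x) = 1 := finrank_span_singleton hx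
      rw [h, finrank_top, hfr] at h1
      omega
    · intro h hh y hy
      obtain ⟨c, hc⟩ := hsc h hh
      rw [hc]
      exact Submodule.smul_mem _ c hy
  · -- a non-scalar element: an eigenspace
    push Not at hsc
    obtain ⟨h₀, hh₀, hns⟩ := hsc
    obtain ⟨μ, hμ⟩ := Module.End.exists_eigenvalue ((ρ h₀).baseChange K)
    refine ⟨Module.End.eigenspace ((ρ h₀).baseChange K) μ, hμ, ?_, ?_⟩
    · intro htop
      apply hns μ
      refine LinearMap.ext fun x => ?_
      have hx : x ∈ Module.End.eigenspace ((ρ h₀).baseChange K) μ := by rw [htop]; trivial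
      rw [Module.End.mem_eigenspace_iff] at hx
      rw [hx]
      rfl
    · intro h hh x hx
      rw [Module.End.mem_eigenspace_iff] at hx ⊢
      have hcomm := commute_of_forall_trace_eq_zero ρ hV σ₀ hσ₀ hall h₀ h hh₀ hh
      have h1 : (ρ h₀).baseChange K ((ρ h).baseChange K x) =
          (ρ h).baseChange K ((ρ h₀).baseChange K x) := by
        have := congrArg (fun f : Module.End k V => f.baseChange K x) hcomm
        simpa [LinearMap.baseChange_mul] using this
      rw [h1, hx, map_smul]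

end Group

end Fermat.Agent.ML.AuxP
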