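/-
ML (S59) — helper1 — **[HYG-L] part 1: linear algebra in dimension two**.

Small lemmas on endomorphisms of a two-dimensional vector space used by the group-theoretic core of
[HYG-L]: adapted bases, trace and determinant from the action on a basis, Cayley–Hamilton,
"trivial modulo a line ⇒ `tr = 1 + det`", "swaps two complementary subspaces ⇒ `tr = 0`",
nilpotent ⇒ square zero.
-/
import Mathlib

set_option autoImplicit false
set_option linter.unusedSectionVars false

namespace Fermat.Agent.ML

open Module

section TwoDim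

variable {k : Type*} [Field k] {V : Type*} [AddCommGroup V] [Module k V]

/-- a basis with prescribed vectors. -/
theorem hyg_exists_basis (hV : Module.finrank k V = 2) {e v : V} (he : e ≠ 0)
    (hv : v ∉ Submodule.span k {e}) :
    ∃ b : Module.Basis (Fin 2) k V, b 0 = e ∧ b 1 = v := by
  have hli : LinearIndependent k ![e, v] := by
    rw [LinearIndependent.pair_iff' he]
    intro a ha
    exact hv (ha ▸ Submodule.smul_mem _ a (Submodule.mem_span_singleton_self e))
  have hcard : Fintype.card (Fin 2) = Module.finrank k V := by rw [hV]; rfl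
  have : Module.Finite k V := Module.finite_of_finrank_pos (by rw [hV]; norm_num)
  refine ⟨basisOfLinearIndependentOfCardEqFinrank hli hcard, ?_, ?_⟩
  · rw [coe_basisOfLinearIndependentOfCardEqFinrank]; rfl
  · rw [coe_basisOfLinearIndependentOfCardEqFinrank]; rfl

/-- a line is not everything. -/
theorem hyg_exists_not_mem_span (hV : Module.finrank k V = 2) (e : V) :
    ∃ v : V, v ∉ Submodule.span k {e} := by
  by_contra hcon
  have hall : ∀ v : V, v ∈ Submodule.span k {e} := fun v => by
    by_contra h
    exact hcon ⟨v, h⟩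
  have htop : Submodule.span k {e} = ⊤ := by
    rw [eq_top_iff]
    intro v _
    exact hall v
  have : Module.Finite k V := Module.finite_of_finrank_pos (by rw [hV]; norm_num)
  have h1 : Module.finrank k (Submodule.span k {e}) ≤ 1 := by
    have := finrank_span_le_card (R := k) ({e} : Set V)
    simpa using this
  rw [htop, finrank_top, hV] at h1
  omega

/-- the expansion of a vector in a basis indexed by `Fin 2`. -/
theorem hyg_expand (b : Module.Basis (Fin 2) k V) (x : V) :
    x = b.repr x 0 • b 0 + b.repr x 1 • b 1 := by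
  conv_lhs => rw [← b.sum_repr x, Fin.sum_univ_two]

/-- trace and determinant from the action on a basis. -/
theorem hyg_trace_det_of_basis (b : Module.Basis (Fin 2) k V) (f : Module.End k V)
    {a₀ c₀ a₁ c₁ : k} (h0 : f (b 0) = a₀ • b 0 + c₀ • b 1) (h1 : f (b 1) = a₁ • b 0 + c₁ • b 1) :
    LinearMap.trace k V f = a₀ + c₁ ∧ LinearMap.det f = a₀ * c₁ - a₁ * c₀ := by
  have hM : LinearMap.toMatrix b b f = !![a₀, a₁; c₀, c₁] := by
    ext i j
    rw [LinearMap.toMatrix_apply]
    fin_cases i <;> fin_cases j <;> simp [h0, h1]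
  constructor
  · rw [LinearMap.trace_eq_matrix_trace k b, hM, Matrix.trace_fin_two_of]
  · rw [← LinearMap.det_toMatrix b, hM, Matrix.det_fin_two_of]

/-- Cayley–Hamilton for `2 × 2` matrices. -/
theorem hyg_mat_cayley {R : Type*} [CommRing R] (M : Matrix (Fin 2) (Fin 2) R) :
    M * M = M.trace • M - M.det • (1 : Matrix (Fin 2) (Fin 2) R) := by
  ext i j
  fin_cases i <;> fin_cases j <;>
    simp [Matrix.mul_apply, Fin.sum_univ_two, Matrix.trace_fin_two, Matrix.det_fin_two] <;> ring

/-- Cayley–Hamilton in dimension two. -/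
theorem hyg_cayley (hV : Module.finrank k V = 2) (f : Module.End k V) :
    f * f = LinearMap.trace k V f • f - LinearMap.det f • (1 : Module.End k V) := by
  have : Module.Finite k V := Module.finite_of_finrank_pos (by rw [hV]; norm_num)
  let b : Module.Basis (Fin 2) k V := Module.finBasisOfFinrankEq k V hV
  apply (LinearMap.toMatrix b b).injective
  rw [LinearMap.toMatrix_mul, map_sub, map_smul, map_smul, LinearMap.toMatrix_one,
    LinearMap.trace_eq_matrix_trace k b, ← LinearMap.det_toMatrix b]
  exact hyg_mat_cayley _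

/-- pointwise Cayley–Hamilton. -/
theorem hyg_cayley_apply (hV : Module.finrank k V = 2) (f : Module.End k V) (x : V) :
    f (f x) = LinearMap.trace k V f • f x - LinearMap.det f • x := by
  have := congrArg (fun g : Module.End k V => g x) (hyg_cayley hV f)
  simpa using this

/-- `tr = 2`, `det = 1` ⇒ unipotent. -/
theorem hyg_unipotent_of_trace_det (hV : Module.finrank k V = 2) (f : Module.End k V)
    (ht : LinearMap.trace k V f = 2) (hd : LinearMap.det f = 1) (x : V) :
    f (f x - x) = f x - x := by
  rw [map_sub, hyg_cayley_apply hV f x, ht, hd, two_smul, one_smul]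
  abel

/-- **trivial modulo a line** ⇒ `tr = 1 + det`, and the line is an eigenline for `det`. -/
theorem hyg_trace_eq_one_add_det (hV : Module.finrank k V = 2) (f : Module.End k V) {e : V}
    (he : e ≠ 0) (hf : ∀ x, f x - x ∈ Submodule.span k {e}) :
    LinearMap.trace k V f = 1 + LinearMap.det f ∧ f e = LinearMap.det f • e := by
  obtain ⟨v, hv⟩ := hyg_exists_not_mem_span hV e
  obtain ⟨b, hb0, hb1⟩ := hyg_exists_basis hV he hv
  obtain ⟨α, hα⟩ := Submodule.mem_span_singleton.mp (hf e)
  obtain ⟨β, hβ⟩ := Submodule.mem_span_singleton.mp (hf v)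
  have h0 : f (b 0) = (1 + α) • b 0 + (0 : k) • b 1 := by
    rw [hb0, hb1, zero_smul, add_zero, add_smul, one_smul, hα]; abel
  have h1 : f (b 1) = β • b 0 + (1 : k) • b 1 := by
    rw [hb0, hb1, one_smul, hβ]; abel
  obtain ⟨ht, hd⟩ := hyg_trace_det_of_basis b f h0 h1
  have hd' : LinearMap.det f = 1 + α := by rw [hd]; ring
  refine ⟨by rw [ht, hd']; ring, ?_⟩
  rw [hd', add_smul, one_smul, hα]; abel

/-- **swapping two complementary subspaces** ⇒ trace zero. -/
theorem hyg_trace_eq_zero_of_swap {U U' : Submodule k V} (hc : IsCompl U U') (f : Module.End k V)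
    (h1 : ∀ x ∈ U, f x ∈ U') (h2 : ∀ x ∈ U', f x ∈ U) : LinearMap.trace k V f = 0 := by
  set π : Module.End k V := U.projection U' hc with hπ
  have hππ : π * π = π := Submodule.isIdempotentElem_projection hc
  have hπU : ∀ x, π x ∈ U := fun x => Submodule.projection_apply_mem hc x
  have hπ0 : ∀ x ∈ U', π x = 0 := fun x hx => (Submodule.projection_apply_eq_zero_iff hc).mpr hx
  have hπ1 : ∀ x ∈ U, π x = x := fun x hx => Submodule.projection_apply_of_mem_left hc hx
  have hcU' : ∀ x, x - π x ∈ U' := by
    intro x
    rw [← Submodule.projection_apply_eq_zero_iff hc, map_sub]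
    have : π (π x) = π x := by
      have := congrArg (fun g : Module.End k V => g x) hππ
      simpa using this
    rw [← hπ, this, sub_self]
  have e1 : π * (f * π) = 0 := by
    ext x
    show π (f (π x)) = 0
    exact hπ0 _ (h1 _ (hπU x))
  have e2 : (1 - π) * (f * (1 - π)) = 0 := by
    ext x
    show (1 - π) (f ((1 - π) x)) = 0
    have hx : (1 - π) x ∈ U' := by
      show x - π x ∈ U'
      exact hcU' x
    have hy : f ((1 - π) x) ∈ U := h2 _ hx
    show f ((1 - π) x) - π (f ((1 - π) x)) = 0
    rw [hπ1 _ hy, sub_self]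
  have hq : (1 - π) * (1 - π) = 1 - π := by
    rw [mul_sub, sub_mul, sub_mul, one_mul, mul_one, one_mul, hππ]; abel
  have t1 : LinearMap.trace k V (f * π) = 0 := by
    have : f * π = (f * π) * π := by rw [mul_assoc, hππ]
    rw [this, LinearMap.trace_mul_comm, e1, map_zero]
  have t2 : LinearMap.trace k V (f * (1 - π)) = 0 := by
    have : f * (1 - π) = (f * (1 - π)) * (1 - π) := by rw [mul_assoc, hq]
    rw [this, LinearMap.trace_mul_comm, e2, map_zero]
  have hsum : f = f * π + f * (1 - π) := by
    rw [← mul_add, add_sub_cancel, mul_one]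
  rw [hsum, map_add, t1, t2, add_zero]

/-- polarised Cayley–Hamilton for `2 × 2` matrices. -/
theorem hyg_mat_polar {R : Type*} [CommRing R] (A B : Matrix (Fin 2) (Fin 2) R) :
    A * B + B * A = A.trace • B + B.trace • A +
      ((A * B).trace - A.trace * B.trace) • (1 : Matrix (Fin 2) (Fin 2) R) := by
  ext i j
  fin_cases i <;> fin_cases j <;>
    simp [Matrix.mul_apply, Fin.sum_univ_two, Matrix.trace_fin_two] <;> ring

/-- polarised Cayley–Hamilton in dimension two. -/
theorem hyg_polar (hV : Module.finrank k V = 2) (f g : Module.End k V) :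
    f * g + g * f = LinearMap.trace k V f • g + LinearMap.trace k V g • f +
      (LinearMap.trace k V (f * g) - LinearMap.trace k V f * LinearMap.trace k V g) •
        (1 : Module.End k V) := by
  have : Module.Finite k V := Module.finite_of_finrank_pos (by rw [hV]; norm_num)
  let b : Module.Basis (Fin 2) k V := Module.finBasisOfFinrankEq k V hV
  apply (LinearMap.toMatrix b b).injective
  rw [map_add, map_add, map_add, LinearMap.toMatrix_mul, LinearMap.toMatrix_mul, map_smul, map_smul,
    map_smul, LinearMap.toMatrix_one, LinearMap.trace_eq_matrix_trace k b f,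
    LinearMap.trace_eq_matrix_trace k b g, LinearMap.trace_eq_matrix_trace k b (f * g),
    LinearMap.toMatrix_mul]
  exact hyg_mat_polar _ _

/-- a subspace of a plane is zero, everything or a line. -/
theorem hyg_submodule_trichotomy (hV : Module.finrank k V = 2) (S : Submodule k V) :
    S = ⊥ ∨ S = ⊤ ∨ ∃ e : V, e ≠ 0 ∧ S = Submodule.span k {e} := by
  have : Module.Finite k V := Module.finite_of_finrank_pos (by rw [hV]; norm_num)
  have hle : Module.finrank k S ≤ 2 := hV ▸ Submodule.finrank_le S
  interval_cases hS : Module.finrank k S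
  · exact Or.inl (Submodule.finrank_eq_zero.mp hS)
  · right; right
    obtain ⟨⟨e, heS⟩, he0, hall⟩ := finrank_eq_one_iff'.mp hS
    refine ⟨e, fun h0 => he0 (Subtype.ext h0), le_antisymm ?_ ?_⟩
    · intro w hw
      obtain ⟨c, hc⟩ := hall ⟨w, hw⟩
      have := congrArg Subtype.val hc
      simp only [Submodule.coe_smul] at this
      exact Submodule.mem_span_singleton.mpr ⟨c, this⟩
    · rw [Submodule.span_singleton_le_iff_mem]
      exact heS
  · exact Or.inr (Or.inl (Submodule.eq_top_of_finrank_eq (hS.trans hV.symm)))

end TwoDim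

section Nilp

variable {k : Type*} [Field k]

/-- a nilpotent `2 × 2` matrix over a field has square zero. -/
theorem hyg_sq_zero_of_isNilpotent (N : Matrix (Fin 2) (Fin 2) k) (h : IsNilpotent N) :
    N * N = 0 := by
  obtain ⟨r, hr⟩ := h
  have hdet : N.det = 0 := by
    have : N.det ^ r = 0 := by rw [← Matrix.det_pow, hr, Matrix.det_zero]
    exact pow_eq_zero_iff (n := r) (by
      rintro rfl
      rw [pow_zero] at hr
      have := congrArg (fun M : Matrix (Fin 2) (Fin 2) k => M 0 0) hr
      simp at this) |>.mp this
  have hCH : N * N = N.trace • N := by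
    rw [hyg_mat_cayley N, hdet, zero_smul, sub_zero]
  have hpow : ∀ n : ℕ, N ^ (n + 1) = N.trace ^ n • N := by
    intro n
    induction n with
    | zero => rw [pow_zero, one_smul, zero_add, pow_one]
    | succ n ih =>
      rw [pow_succ, ih, Matrix.smul_mul, hCH, smul_smul, pow_succ]
  by_cases ht : N.trace = 0
  · rw [hCH, ht, zero_smul]
  · exfalso
    have hr0 : r ≠ 0 := by
      rintro rfl
      rw [pow_zero] at hr
      have := congrArg (fun M : Matrix (Fin 2) (Fin 2) k => M 0 0) hr
      simp at this
    obtain ⟨n, rfl⟩ := Nat.exists_eq_succ_of_ne_zero hr0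
    rw [hpow n] at hr
    have hN : N = 0 := by
      rcases smul_eq_zero.mp hr with h0 | h0
      · exact absurd (pow_eq_zero_iff (n := n) (fun hn => by
          subst hn; rw [pow_zero] at h0; exact one_ne_zero h0) |>.mp h0) ht
      · exact h0
    apply ht
    rw [hN, Matrix.trace_zero]

end Nilp

end Fermat.Agent.ML
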