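/-
ML (S59) — helper1 — **[HYG-L] part 2: the group-theoretic core**.

`HygM ρ` : for every subgroup `H` of index two of `G_ℚ` some element outside `H` has nonzero trace.
`HygInput p ρ` : the arithmetic input for a residual representation over `𝔽_p` (irreducible,
cyclotomic determinant, unipotent inertia away from `p`, and at the places over `p` a subgroup `V₁`
modulo which inertia is trivial, with transitive inertia action when `V₁` is everything).
`hygM_of_input` : `HygInput p ρ → HygM ρ` for `p = 3` and `p = 5`.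

Proof: assume all traces outside `H` vanish.  Then the image has no nontrivial unipotent element
(else irreducibility fails), so `ρ` is unramified outside `p` and `H ⊇ ker ρ`; by Minkowski some
inertia group `I_A`, `A ∣ p`, is not inside `H`.  If `V₁ = V` the image of `I_A` is cyclic (tame),
generated by an element of trace zero, of order at most `2 (p - 1) < p² - 1`: not transitive.  If
`V₁` is a line, `tr = 1 + det` on `I_A`: for `p = 5` an element of `I_A` of determinant `2` gives a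
contradiction; for `p = 3` Minkowski gives `H = ker det`, the image is a `2`-group whose elements
commute or anticommute with `s = ρ(σ₀)`, the centraliser of `s` is normal, open and contains all
inertia, so everything commutes with `s` and the eigenline of `s` is stable.
-/
import Mathlib
import Fermat.Agent.ML.HYG_helper1_Lin
import Fermat.Agent.EC.Minkowski_helper5
import Fermat.Agent.EC.Conjugacy_helper5
import Fermat.Agent.RB.REPT_helper1_CycInertia
import Fermat.Agent.TW.TameCyclic_helper6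
import Fermat.Prelude.Def_GaloisRep_Residual

set_option autoImplicit false
set_option linter.unusedSectionVars false
set_option linter.unusedVariables false
set_option linter.style.haveILetI false

namespace Fermat.Agent.ML

open Fermat.Agent.TW.Kill Fermat.Agent.EC

/-- `Ω = AlgebraicClosure ℚ`. -/
local notation "Ω" => AlgebraicClosure ℚ

/-- the absolute Galois group. -/
local notation "GQ" => (AlgebraicClosure ℚ ≃ₐ[ℚ] AlgebraicClosure ℚ)

/-- for every subgroup of index two some element outside it has nonzero trace. -/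
def HygM {k : Type} [Field k] (ρ : ResidualGaloisRep k) : Prop :=
  ∀ H : Subgroup GQ, H.index = 2 → ∃ σ : GQ, σ ∉ H ∧ LinearMap.trace k ρ.V (ρ.ρ σ) ≠ 0

/-- **the arithmetic input of [HYG-L]** for a residual representation over `𝔽_p`. -/
structure HygInput (p : ℕ) [Fact p.Prime] (ρ : ResidualGaloisRep (ZMod p)) : Prop where
  /-- irreducible. -/
  irr : ρ.IsIrreducible
  /-- cyclotomic determinant. -/
  det : ∀ (σ : GQ) (a : ℕ), (∀ μ : Ω, μ ^ p = 1 → σ μ = μ ^ a) →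
    LinearMap.det (ρ.ρ σ) = (a : ZMod p)
  /-- unipotent inertia away from `p`. -/
  unip : ∀ q : ℕ, q.Prime → q ≠ p → ∀ A : ValuationSubring Ω, A.LiesOverPrime q →
    ∀ σ ∈ A.inertiaSubgroupIn ℚ, ∀ x : ρ.V, ρ.ρ σ (ρ.ρ σ x - x) = ρ.ρ σ x - x
  /-- at the places over `p`: inertia is trivial modulo a subgroup `V₁` ("kernel of reduction"), and
  transitive on the nonzero vectors when `V₁` is everything. -/
  atp : ∀ A : ValuationSubring Ω, A.LiesOverPrime p → ∃ V₁ : AddSubgroup ρ.V,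
    (∀ σ ∈ A.inertiaSubgroupIn ℚ, ∀ x : ρ.V, ρ.ρ σ x - x ∈ V₁) ∧
    ((∀ x : ρ.V, x ∈ V₁) → ∀ x y : ρ.V, x ≠ 0 → y ≠ 0 →
      ∃ σ ∈ A.inertiaSubgroupIn ℚ, ρ.ρ σ x = y)

section Core

variable {p : ℕ} [Fact p.Prime] {ρ : ResidualGaloisRep (ZMod p)} (h : HygInput p ρ) (hp2 : p ≠ 2)
  {H : Subgroup GQ} (hH : H.index = 2)
  (hstar : ∀ σ : GQ, σ ∉ H → LinearMap.trace (ZMod p) ρ.V (ρ.ρ σ) = 0)

include hp2 in
theorem hyg_two_ne_zero : (2 : ZMod p) ≠ 0 := by
  intro h0
  have h2 : ((2 : ℕ) : ZMod p) = 0 := by exact_mod_cast h0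
  rw [ZMod.natCast_eq_zero_iff] at h2
  exact hp2 ((Nat.prime_dvd_prime_iff_eq (Fact.out : p.Prime) Nat.prime_two).mp h2)

include hH in
theorem hyg_exists_not_mem : ∃ τ : GQ, τ ∉ H := by
  by_contra hcon
  have htop : H = ⊤ := by
    rw [eq_top_iff]
    intro σ _
    by_contra hσ
    exact hcon ⟨σ, hσ⟩
  rw [htop, Subgroup.index_top] at hH
  omega

include h in
/-- the determinant is the mod `p` cyclotomic character. -/
theorem HygInput.det_eq_cyc (σ : GQ) :
    haveI : NeZero p := ⟨(Fact.out : p.Prime).ne_zero⟩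
    LinearMap.det (ρ.ρ σ) = ((cyc p σ : (ZMod p)ˣ) : ZMod p) := by
  haveI : NeZero p := ⟨(Fact.out : p.Prime).ne_zero⟩
  rw [h.det σ ((cyc p σ : (ZMod p)ˣ) : ZMod p).val (fun μ hμ => cyc_spec' p σ hμ),
    ZMod.natCast_zmod_val]

include hp2 hstar in
/-- the kernel of `ρ` lies in `H`. -/
theorem hyg_mem_of_rho_eq_one {σ : GQ} (h1 : ρ.ρ σ = 1) : σ ∈ H := by
  by_contra hσ
  have h2 := hstar σ hσ
  rw [h1, LinearMap.trace_one, ρ.finrank_eq] at h2
  exact hyg_two_ne_zero hp2 (by exact_mod_cast h2)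

/-- a subgroup containing the kernel of `ρ` is open. -/
theorem hyg_isOpen_of_ker_le (ρ : ResidualGaloisRep (ZMod p)) (N : Subgroup GQ)
    (hN : ∀ σ : GQ, ρ.ρ σ = 1 → σ ∈ N) : IsOpen (N : Set GQ) := by
  obtain ⟨L, hL, h1⟩ := ρ.factorsThroughFiniteLevel
  haveI := hL
  refine Subgroup.isOpen_mono (H₁ := L.fixingSubgroup) ?_ L.fixingSubgroup_isOpen
  intro σ hσ
  exact hN σ (h1 σ (fun x hx => (IntermediateField.mem_fixingSubgroup_iff L σ).mp hσ x hx))

include h hp2 hH hstar in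
/-- **no nontrivial unipotent element** in the image. -/
theorem hyg_no_unipotent (σ₀ : GQ)
    (hu : ∀ x : ρ.V, ρ.ρ σ₀ (ρ.ρ σ₀ x - x) = ρ.ρ σ₀ x - x) : ρ.ρ σ₀ = 1 := by
  by_contra hne
  obtain ⟨v, hv⟩ : ∃ v : ρ.V, ρ.ρ σ₀ v - v ≠ 0 := by
    by_contra hno
    apply hne
    ext x
    have : ρ.ρ σ₀ x - x = 0 := by
      by_contra h0
      exact hno ⟨x, h0⟩
    rw [sub_eq_zero] at this
    rw [this]; rfl
  set u := ρ.ρ σ₀ with hudef
  set e : ρ.V := u v - v with he
  have hue : u e = e := hu v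
  have huv : u v = v + e := by rw [he]; abel
  have hvs : v ∉ Submodule.span (ZMod p) {e} := by
    intro hmem
    obtain ⟨a, ha⟩ := Submodule.mem_span_singleton.mp hmem
    apply hv
    show u v - v = 0
    rw [← ha, map_smul, hue, sub_self]
  obtain ⟨b, hb0, hb1⟩ := hyg_exists_basis ρ.finrank_eq hv hvs
  -- the trace of `u`
  have htru : LinearMap.trace (ZMod p) ρ.V u = 2 := by
    have h0 : u (b 0) = (1 : ZMod p) • b 0 + (0 : ZMod p) • b 1 := by
      rw [hb0, hue, one_smul, zero_smul, add_zero]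
    have h1 : u (b 1) = (1 : ZMod p) • b 0 + (1 : ZMod p) • b 1 := by
      rw [hb1, hb0, huv, one_smul, one_smul, add_comm]
    rw [(hyg_trace_det_of_basis b u h0 h1).1]; norm_num
  have hσ₀ : σ₀ ∈ H := by
    by_contra hσ
    have := hstar σ₀ hσ
    rw [← hudef, htru] at this
    exact hyg_two_ne_zero hp2 this
  -- elements outside `H` stabilise the line
  have key : ∀ g : GQ, g ∉ H → ∃ a : ZMod p, ρ.ρ g e = a • e := by
    intro g hg
    have e0 := hyg_expand b (ρ.ρ g (b 0))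
    have e1 := hyg_expand b (ρ.ρ g (b 1))
    set a := b.repr (ρ.ρ g (b 0)) 0
    set c := b.repr (ρ.ρ g (b 0)) 1
    set a' := b.repr (ρ.ρ g (b 1)) 0
    set c' := b.repr (ρ.ρ g (b 1)) 1
    have t1 := (hyg_trace_det_of_basis b (ρ.ρ g) e0 e1).1
    rw [hstar g hg] at t1
    have hgσ : g * σ₀ ∉ H := by
      rw [Subgroup.mul_mem_iff_of_index_two hH]
      tauto
    have f0 : (ρ.ρ (g * σ₀)) (b 0) = a • b 0 + c • b 1 := by
      rw [map_mul, Module.End.mul_apply, ← hudef, hb0, hue, ← hb0]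
      exact e0
    have f1 : (ρ.ρ (g * σ₀)) (b 1) = (a' + a) • b 0 + (c' + c) • b 1 := by
      rw [map_mul, Module.End.mul_apply, ← hudef, hb1, huv, map_add, ← hb1, ← hb0, e0, e1,
        add_smul, add_smul]
      abel
    have t2 := (hyg_trace_det_of_basis b (ρ.ρ (g * σ₀)) f0 f1).1
    rw [hstar _ hgσ] at t2
    have hc : c = 0 := by
      have : a + (c' + c) - (a + c') = c := by ring
      rw [← this, ← t1, ← t2, sub_self]
    refine ⟨a, ?_⟩
    rw [← hb0, e0, hc, zero_smul, add_zero]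
  obtain ⟨τ, hτ⟩ := hyg_exists_not_mem hH
  have all : ∀ g : GQ, ∃ a : ZMod p, ρ.ρ g e = a • e := by
    intro g
    by_cases hg : g ∈ H
    · have hτg : τ⁻¹ * g ∉ H := by
        rw [Subgroup.mul_mem_iff_of_index_two hH, Subgroup.inv_mem_iff]
        tauto
      obtain ⟨a₁, ha₁⟩ := key _ hτg
      obtain ⟨a₂, ha₂⟩ := key _ hτ
      refine ⟨a₁ * a₂, ?_⟩
      have : g = τ * (τ⁻¹ * g) := by group
      rw [this, map_mul, Module.End.mul_apply, ha₁, map_smul, ha₂, smul_smul]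
    · exact key g hg
  rcases h.irr (Submodule.span (ZMod p) {e}) (by
      intro σ x hx
      obtain ⟨c, rfl⟩ := Submodule.mem_span_singleton.mp hx
      obtain ⟨a, ha⟩ := all σ
      rw [map_smul, ha, smul_smul]
      exact Submodule.mem_span_singleton.mpr ⟨_, rfl⟩) with hbot | htop
  · apply hv
    have : e ∈ Submodule.span (ZMod p) {e} := Submodule.mem_span_singleton_self e
    rw [hbot] at this
    exact (Submodule.mem_bot (ZMod p)).mp this
  · apply hvs
    rw [htop]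
    exact Submodule.mem_top

include h hp2 hH hstar in
/-- `ρ` is unramified outside `p`. -/
theorem hyg_rho_inertia_eq_one {q : ℕ} (hq : q.Prime) (hqp : q ≠ p) {A : ValuationSubring Ω}
    (hA : A.LiesOverPrime q) {σ : GQ} (hσ : σ ∈ A.inertiaSubgroupIn ℚ) : ρ.ρ σ = 1 :=
  hyg_no_unipotent h hp2 hH hstar σ (h.unip q hq hqp A hA σ hσ)

include h hp2 hH hstar in
/-- **Minkowski**: some inertia group over `p` is not inside `H`. -/
theorem hyg_exists_inertia_p :
    ∃ A : ValuationSubring Ω, A.LiesOverPrime p ∧ ∃ σ₀ ∈ A.inertiaSubgroupIn ℚ, σ₀ ∉ H := by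
  by_contra hcon
  haveI : H.Normal := Subgroup.normal_of_index_eq_two hH
  have htop := eq_top_of_inertia_le H
    (hyg_isOpen_of_ker_le ρ H (fun σ h1 => hyg_mem_of_rho_eq_one hp2 hstar h1)) (by
      intro ℓ A hℓ hA σ hσ
      by_cases hℓp : ℓ = p
      · by_contra hσH
        exact hcon ⟨A, hℓp ▸ hA, σ, hσ, hσH⟩
      · exact hyg_mem_of_rho_eq_one hp2 hstar
          (hyg_rho_inertia_eq_one h hp2 hH hstar hℓ hℓp hA hσ))
  rw [htop, Subgroup.index_top] at hH
  omega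

include h in
/-- inertia over `p` realises every determinant. -/
theorem hyg_exists_inertia_det {A : ValuationSubring Ω} (hA : A.LiesOverPrime p) (u : (ZMod p)ˣ) :
    ∃ σ ∈ A.inertiaSubgroupIn ℚ, LinearMap.det (ρ.ρ σ) = (u : ZMod p) := by
  haveI : NeZero p := ⟨(Fact.out : p.Prime).ne_zero⟩
  obtain ⟨σ, hσ, hcyc⟩ := Fermat.Agent.RB.REPT.exists_mem_inertia_cyc_prime p hA u
  exact ⟨σ, hσ, by rw [h.det_eq_cyc, hcyc]⟩

include h hp2 hH hstar in
/-- every element of the image has order prime to `p`. -/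
theorem hyg_exists_coprime_pow (σ : GQ) : ∃ m : ℕ, m.Coprime p ∧ ρ.ρ σ ^ m = 1 := by
  have hp : p.Prime := Fact.out
  haveI : Finite ρ.V := Module.finite_of_finite (ZMod p)
  haveI : Finite (Module.End (ZMod p) ρ.V) := DFunLike.finite _
  set xu : (Module.End (ZMod p) ρ.V)ˣ := ρ.ρ.toHomUnits σ with hxu
  have hn0 : orderOf xu ≠ 0 := (orderOf_pos xu).ne'
  obtain ⟨a, m, hm, hn⟩ := Nat.exists_eq_pow_mul_and_not_dvd hn0 p hp.ne_one
  refine ⟨m, (hp.coprime_iff_not_dvd.mpr hm).symm, ?_⟩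
  have hpow : (ρ.ρ σ) ^ (p ^ a * m) = 1 := by
    have h1 : xu ^ (p ^ a * m) = 1 := by rw [← hn]; exact pow_orderOf_eq_one xu
    have h2 := congrArg (fun u : (Module.End (ZMod p) ρ.V)ˣ => (u : Module.End (ZMod p) ρ.V)) h1
    simpa [hxu] using h2
  rw [← map_pow]
  apply hyg_no_unipotent h hp2 hH hstar (σ ^ m)
  set y := ρ.ρ (σ ^ m) with hy
  have hy1 : y ^ (p ^ a) = 1 := by
    rw [hy, map_pow, ← pow_mul, mul_comm]; exact hpow
  have : Module.Finite (ZMod p) ρ.V := inferInstance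
  let b : Module.Basis (Fin 2) (ZMod p) ρ.V := Module.finBasisOfFinrankEq _ _ ρ.finrank_eq
  set Y := LinearMap.toMatrixAlgEquiv b y with hY
  have hY1 : Y ^ (p ^ a) = 1 := by
    rw [hY, ← map_pow, hy1, map_one]
  have hnil : IsNilpotent (Y - 1) := by
    refine ⟨p ^ a, ?_⟩
    rw [sub_pow_char_pow_of_commute p a (Commute.one_right Y), hY1, one_pow, sub_self]
  have hsq := hyg_sq_zero_of_isNilpotent (Y - 1) hnil
  have hsq' : (y - 1) * (y - 1) = 0 := by
    apply (LinearMap.toMatrixAlgEquiv b).injective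
    rw [map_mul, map_sub, map_one, map_zero]
    exact hsq
  intro x
  have := congrArg (fun g : Module.End (ZMod p) ρ.V => g x) hsq'
  simp only [Module.End.mul_apply, LinearMap.sub_apply, Module.End.one_apply,
    LinearMap.zero_apply, map_sub] at this
  rw [map_sub]
  rw [sub_eq_zero] at this
  exact this

include h hp2 hH hstar in
/-- **the transitive ("supersingular") case is impossible**. -/
theorem hyg_false_of_transitive {A : ValuationSubring Ω} (hA : A.LiesOverPrime p) {σ₀ : GQ}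
    (hσ₀ : σ₀ ∈ A.inertiaSubgroupIn ℚ) (hσ₀H : σ₀ ∉ H)
    (htrans : ∀ x y : ρ.V, x ≠ 0 → y ≠ 0 → ∃ σ ∈ A.inertiaSubgroupIn ℚ, ρ.ρ σ x = y) :
    False := by
  classical
  have hp : p.Prime := Fact.out
  obtain ⟨L, hL, hL1⟩ := ρ.factorsThroughFiniteLevel
  haveI := hL
  haveI : FiniteDimensional ℚ (IntermediateField.normalClosure ℚ L Ω) :=
    normalClosure.is_finiteDimensional ℚ L Ω
  haveI : Normal ℚ (IntermediateField.normalClosure ℚ L Ω) := normalClosure.normal ℚ L Ω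
  obtain ⟨τ₀, hτ₀, hgen⟩ := Fermat.Agent.TW.exists_generator_of_inertia hp hA ρ.ρ
    (IntermediateField.normalClosure ℚ L Ω)
    (fun σ hσ => hL1 σ (fun x hx => hσ x (L.le_normalClosure hx)))
    (fun σ _ => hyg_exists_coprime_pow h hp2 hH hstar σ)
  -- the generator is outside `H`
  have hτ₀H : τ₀ ∉ H := by
    intro hmem
    apply hσ₀H
    obtain ⟨n, hn⟩ := hgen σ₀ hσ₀
    have h1 : ρ.ρ (σ₀ * (τ₀ ^ n)⁻¹) = 1 := by
      rw [map_mul, hn, ← map_pow, ← map_mul, mul_inv_cancel, map_one]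
    have h2 : σ₀ * (τ₀ ^ n)⁻¹ ∈ H := hyg_mem_of_rho_eq_one hp2 hstar h1
    have h3 : σ₀ = (σ₀ * (τ₀ ^ n)⁻¹) * τ₀ ^ n := by group
    rw [h3]
    exact H.mul_mem h2 (H.pow_mem hmem n)
  set γ := ρ.ρ τ₀ with hγ
  have htr : LinearMap.trace (ZMod p) ρ.V γ = 0 := hstar τ₀ hτ₀H
  set c : ZMod p := -LinearMap.det γ with hc
  have hγ2 : γ * γ = c • (1 : Module.End (ZMod p) ρ.V) := by
    rw [hyg_cayley ρ.finrank_eq γ, htr, zero_smul, zero_sub, hc, neg_smul]
  have hc0 : c ≠ 0 := by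
    intro h0
    have hdet : LinearMap.det γ = 0 := by rw [hc, neg_eq_zero] at h0; exact h0
    have h1 : LinearMap.det (γ * ρ.ρ τ₀⁻¹) = 1 := by
      rw [hγ, ← map_mul, mul_inv_cancel, map_one, map_one]
    rw [map_mul, hdet, zero_mul] at h1
    exact zero_ne_one h1
  have hcp : c ^ (p - 1) = 1 := ZMod.pow_card_sub_one_eq_one hc0
  have hγN : γ ^ (2 * (p - 1)) = 1 := by
    rw [pow_mul, pow_two, hγ2, smul_pow, hcp, one_pow, one_smul]
  have hNpos : 0 < 2 * (p - 1) := by have := hp.two_le; omega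
  -- a nonzero vector
  obtain ⟨x, hx⟩ : ∃ x : ρ.V, x ≠ 0 := by
    haveI : Nontrivial ρ.V := Module.nontrivial_of_finrank_pos (R := ZMod p) (by
      rw [ρ.finrank_eq]; norm_num)
    exact exists_ne 0
  haveI : Finite ρ.V := Module.finite_of_finite (ZMod p)
  haveI : Fintype ρ.V := Fintype.ofFinite _
  set S : Finset ρ.V := (Finset.range (2 * (p - 1))).image (fun n => (γ ^ n) x) with hS
  have hsub : (Finset.univ.erase (0 : ρ.V)) ⊆ S := by
    intro y hy
    have hy0 : y ≠ 0 := Finset.ne_of_mem_erase hy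
    obtain ⟨σ, hσ, hσy⟩ := htrans x y hx hy0
    obtain ⟨n, hn⟩ := hgen σ hσ
    rw [hS, Finset.mem_image]
    refine ⟨n % (2 * (p - 1)), Finset.mem_range.mpr (Nat.mod_lt _ hNpos), ?_⟩
    show (γ ^ (n % (2 * (p - 1)))) x = y
    have hpow : γ ^ n = γ ^ (n % (2 * (p - 1))) := by
      conv_lhs => rw [← Nat.div_add_mod n (2 * (p - 1)), pow_add, pow_mul, hγN, one_pow, one_mul]
    rw [← hpow, ← hn, hσy]
  have hcard1 : S.card ≤ 2 * (p - 1) := by
    refine (Finset.card_image_le).trans ?_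
    rw [Finset.card_range]
  have hcardV : Fintype.card ρ.V = p ^ 2 := by
    have h1 := Module.natCard_eq_pow_finrank (K := ZMod p) (V := ρ.V)
    rw [ρ.finrank_eq, Nat.card_zmod, Nat.card_eq_fintype_card] at h1
    exact h1
  have hcard2 : (Finset.univ.erase (0 : ρ.V)).card = p ^ 2 - 1 := by
    rw [Finset.card_erase_of_mem (Finset.mem_univ _), Finset.card_univ, hcardV]
  have hle := (Finset.card_le_card hsub).trans hcard1
  rw [hcard2] at hle
  have h3 : 3 ≤ p := by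
    have := hp.two_le
    omega
  have h4 : p ^ 2 ≤ 2 * (p - 1) + 1 := Nat.sub_le_iff_le_add.mp hle
  have h5 : 2 * (p - 1) + 1 ≤ 2 * p := by omega
  have h6 : 3 * p ≤ p ^ 2 := by nlinarith
  have h7 : 3 * p ≤ 2 * p := h6.trans (h4.trans h5)
  omega

include h hp2 hH hstar in
/-- **the ordinary case with a unit `≠ ± 1`** (`p ≥ 5`) is impossible. -/
theorem hyg_false_of_ordinary_of_unit (u : (ZMod p)ˣ) (hu1 : (u : ZMod p) ≠ 1)
    (hu2 : (u : ZMod p) ≠ -1) {A : ValuationSubring Ω} (hA : A.LiesOverPrime p) {σ₀ : GQ}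
    (hσ₀ : σ₀ ∈ A.inertiaSubgroupIn ℚ) (hσ₀H : σ₀ ∉ H)
    (htr : ∀ σ ∈ A.inertiaSubgroupIn ℚ,
      LinearMap.trace (ZMod p) ρ.V (ρ.ρ σ) = 1 + LinearMap.det (ρ.ρ σ)) : False := by
  have hd₀ : LinearMap.det (ρ.ρ σ₀) = -1 := by
    have h1 := htr σ₀ hσ₀
    rw [hstar σ₀ hσ₀H] at h1
    linear_combination -h1
  obtain ⟨τ, hτ, hdτ⟩ := hyg_exists_inertia_det h hA u
  by_cases hτH : τ ∈ H
  · have hmem : τ * σ₀ ∈ A.inertiaSubgroupIn ℚ := Subgroup.mul_mem _ hτ hσ₀
    have hnot : τ * σ₀ ∉ H := by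
      rw [Subgroup.mul_mem_iff_of_index_two hH]
      tauto
    have h1 := htr _ hmem
    rw [hstar _ hnot, map_mul, map_mul, hdτ, hd₀] at h1
    apply hu1
    linear_combination h1
  · have h1 := htr τ hτ
    rw [hstar τ hτH, hdτ] at h1
    apply hu2
    linear_combination -h1

end Core

/-- determinants of the image are nonzero. -/
theorem hyg_det_ne_zero {p : ℕ} [Fact p.Prime] (ρ : ResidualGaloisRep (ZMod p)) (σ : GQ) :
    LinearMap.det (ρ.ρ σ) ≠ 0 := by
  intro h0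
  have h1 : LinearMap.det (ρ.ρ σ * ρ.ρ σ⁻¹) = 1 := by
    rw [← map_mul, mul_inv_cancel, map_one, map_one]
  rw [map_mul, h0, zero_mul] at h1
  exact zero_ne_one h1

section Three

variable {ρ : ResidualGaloisRep (ZMod 3)} (h : HygInput 3 ρ) {H : Subgroup GQ} (hH : H.index = 2)
  (hstar : ∀ σ : GQ, σ ∉ H → LinearMap.trace (ZMod 3) ρ.V (ρ.ρ σ) = 0)

theorem hyg3_det_cases (ρ : ResidualGaloisRep (ZMod 3)) (σ : GQ) :
    LinearMap.det (ρ.ρ σ) = 1 ∨ LinearMap.det (ρ.ρ σ) = -1 := by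
  have h0 := hyg_det_ne_zero ρ σ
  generalize LinearMap.det (ρ.ρ σ) = d at h0
  revert d
  decide

theorem hyg3_det_inv (ρ : ResidualGaloisRep (ZMod 3)) (σ : GQ) :
    LinearMap.det (ρ.ρ σ⁻¹) = LinearMap.det (ρ.ρ σ) := by
  have h1 : LinearMap.det (ρ.ρ σ) * LinearMap.det (ρ.ρ σ⁻¹) = 1 := by
    rw [← map_mul, ← map_mul, mul_inv_cancel, map_one, map_one]
  rcases hyg3_det_cases ρ σ with h2 | h2 <;> rcases hyg3_det_cases ρ σ⁻¹ with h3 | h3 <;>
    rw [h2, h3] at h1 ⊢ <;> revert h1 <;> decide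

/-- the subgroup `{σ | σ ∈ H ↔ det ρ(σ) = 1}`. -/
def hyg3Sub (ρ : ResidualGaloisRep (ZMod 3)) {H : Subgroup GQ} (hH : H.index = 2) :
    Subgroup GQ where
  carrier := {σ | σ ∈ H ↔ LinearMap.det (ρ.ρ σ) = 1}
  one_mem' := by
    show (1 : GQ) ∈ H ↔ LinearMap.det (ρ.ρ 1) = 1
    rw [map_one, map_one]
    exact ⟨fun _ => rfl, fun _ => H.one_mem⟩
  mul_mem' := by
    intro a b ha hb
    show a * b ∈ H ↔ LinearMap.det (ρ.ρ (a * b)) = 1
    have ha' : a ∈ H ↔ LinearMap.det (ρ.ρ a) = 1 := ha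
    have hb' : b ∈ H ↔ LinearMap.det (ρ.ρ b) = 1 := hb
    rw [Subgroup.mul_mem_iff_of_index_two hH, map_mul, map_mul, ha', hb']
    rcases hyg3_det_cases ρ a with h2 | h2 <;> rcases hyg3_det_cases ρ b with h3 | h3 <;>
      rw [h2, h3] <;> decide
  inv_mem' := by
    intro a ha
    show a⁻¹ ∈ H ↔ LinearMap.det (ρ.ρ a⁻¹) = 1
    have ha' : a ∈ H ↔ LinearMap.det (ρ.ρ a) = 1 := ha
    rw [Subgroup.inv_mem_iff, hyg3_det_inv, ha']

theorem mem_hyg3Sub (ρ : ResidualGaloisRep (ZMod 3)) {H : Subgroup GQ} (hH : H.index = 2)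
    (σ : GQ) : σ ∈ hyg3Sub ρ hH ↔ (σ ∈ H ↔ LinearMap.det (ρ.ρ σ) = 1) := Iff.rfl

theorem hyg3Sub_normal (ρ : ResidualGaloisRep (ZMod 3)) {H : Subgroup GQ} (hH : H.index = 2) :
    (hyg3Sub ρ hH).Normal := by
  refine ⟨fun σ hσ g => ?_⟩
  rw [mem_hyg3Sub] at hσ ⊢
  rw [Subgroup.mul_mem_iff_of_index_two hH, Subgroup.mul_mem_iff_of_index_two hH,
    Subgroup.inv_mem_iff, map_mul, map_mul, map_mul, map_mul, hyg3_det_inv]
  have e : LinearMap.det (ρ.ρ g) * LinearMap.det (ρ.ρ σ) * LinearMap.det (ρ.ρ g) =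
      LinearMap.det (ρ.ρ σ) := by
    rcases hyg3_det_cases ρ g with h2 | h2 <;> rw [h2] <;> ring
  rw [e]
  tauto

include h hH hstar in
/-- **`H = ker det`** (Minkowski), in the ordinary case at a place where inertia is not in `H`. -/
theorem hyg3_mem_iff_det {A : ValuationSubring Ω} (hA : A.LiesOverPrime 3) {σ₀ : GQ}
    (hσ₀ : σ₀ ∈ A.inertiaSubgroupIn ℚ) (hσ₀H : σ₀ ∉ H)
    (htr : ∀ σ ∈ A.inertiaSubgroupIn ℚ,
      LinearMap.trace (ZMod 3) ρ.V (ρ.ρ σ) = 1 + LinearMap.det (ρ.ρ σ)) (σ : GQ) :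
    σ ∈ H ↔ LinearMap.det (ρ.ρ σ) = 1 := by
  have hp2 : (3 : ℕ) ≠ 2 := by norm_num
  have hd₀ : LinearMap.det (ρ.ρ σ₀) = -1 := by
    have h1 := htr σ₀ hσ₀
    rw [hstar σ₀ hσ₀H] at h1
    linear_combination -h1
  have hker : ∀ τ : GQ, ρ.ρ τ = 1 → τ ∈ hyg3Sub ρ hH := by
    intro τ h1
    rw [mem_hyg3Sub]
    exact ⟨fun _ => by rw [h1, map_one], fun _ => hyg_mem_of_rho_eq_one hp2 hstar h1⟩
  have hloc : ∀ τ ∈ A.inertiaSubgroupIn ℚ, τ ∈ hyg3Sub ρ hH := by
    intro τ hτ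
    rw [mem_hyg3Sub]
    rcases hyg3_det_cases ρ τ with h2 | h2
    · refine ⟨fun _ => h2, fun _ => ?_⟩
      by_contra hτH
      have h3 := htr τ hτ
      rw [hstar τ hτH, h2] at h3
      revert h3
      decide
    · refine ⟨fun hτH => ?_, fun h3 => ?_⟩
      · exfalso
        have hmem : τ * σ₀ ∈ A.inertiaSubgroupIn ℚ := Subgroup.mul_mem _ hτ hσ₀
        have hnot : τ * σ₀ ∉ H := by
          rw [Subgroup.mul_mem_iff_of_index_two hH]
          tauto
        have h3 := htr _ hmem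
        rw [hstar _ hnot, map_mul, map_mul, h2, hd₀] at h3
        revert h3
        decide
      · exfalso
        rw [h2] at h3
        revert h3
        decide
  haveI := hyg3Sub_normal ρ hH
  have htop := eq_top_of_inertia_le (hyg3Sub ρ hH) (hyg_isOpen_of_ker_le ρ _ hker) (by
    intro ℓ A' hℓ hA' τ hτ
    by_cases hℓ3 : ℓ = 3
    · have hA'3 : A'.LiesOverPrime 3 := hℓ3 ▸ hA'
      obtain ⟨g, hg⟩ := exists_conj_inertia Nat.prime_three A A' hA hA'3
      have h1 := hloc _ (hg τ hτ)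
      have h2 := (hyg3Sub_normal ρ hH).conj_mem _ h1 g
      have e : g * (g⁻¹ * τ * g) * g⁻¹ = τ := by group
      rwa [e] at h2
    · exact hker τ (hyg_rho_inertia_eq_one h hp2 hH hstar hℓ hℓ3 hA' hτ))
  have : σ ∈ hyg3Sub ρ hH := htop ▸ Subgroup.mem_top σ
  exact (mem_hyg3Sub ρ hH σ).mp this

include h hH hstar in
/-- elements of determinant one are `± 1` or have trace zero. -/
theorem hyg3_classify (σ : GQ) (hd : LinearMap.det (ρ.ρ σ) = 1) :
    ρ.ρ σ = 1 ∨ ρ.ρ σ = -1 ∨ LinearMap.trace (ZMod 3) ρ.V (ρ.ρ σ) = 0 := by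
  have hp2 : (3 : ℕ) ≠ 2 := by norm_num
  set f := ρ.ρ σ with hf
  have ht : LinearMap.trace (ZMod 3) ρ.V f = 0 ∨ LinearMap.trace (ZMod 3) ρ.V f = 1 ∨
      LinearMap.trace (ZMod 3) ρ.V f = 2 := by
    generalize LinearMap.trace (ZMod 3) ρ.V f = t
    revert t
    decide
  rcases ht with ht | ht | ht
  · exact Or.inr (Or.inr ht)
  · right; left
    have hff : f * f = f - 1 := by
      rw [hyg_cayley ρ.finrank_eq f, ht, hd, one_smul, one_smul]
    have h1 : ρ.ρ (σ * σ) = 1 := by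
      apply hyg_no_unipotent h hp2 hH hstar (σ * σ)
      apply hyg_unipotent_of_trace_det ρ.finrank_eq
      · rw [map_mul, ← hf, hff, map_sub, ht, LinearMap.trace_one, ρ.finrank_eq]
        decide
      · rw [map_mul, map_mul, ← hf, hd, one_mul]
    rw [map_mul, ← hf, hff] at h1
    have h2 : f = 1 + 1 := sub_eq_iff_eq_add.mp h1
    rw [h2]
    have h3 : ((1 : Module.End (ZMod 3) ρ.V) + 1) + 1 = 0 := by
      have : ((1 : Module.End (ZMod 3) ρ.V) + 1) + 1 = (3 : ZMod 3) • (1 : Module.End (ZMod 3) ρ.V) := by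
        rw [show (3 : ZMod 3) = 1 + 1 + 1 by decide, add_smul, add_smul, one_smul]
      rw [this, show (3 : ZMod 3) = 0 by decide, zero_smul]
    exact eq_neg_of_add_eq_zero_left h3
  · left
    apply hyg_no_unipotent h hp2 hH hstar σ
    exact hyg_unipotent_of_trace_det ρ.finrank_eq f ht hd

end Three

section Three2

variable {ρ : ResidualGaloisRep (ZMod 3)} (h : HygInput 3 ρ) {H : Subgroup GQ} (hH : H.index = 2)
  (hstar : ∀ σ : GQ, σ ∉ H → LinearMap.trace (ZMod 3) ρ.V (ρ.ρ σ) = 0)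
  {A : ValuationSubring Ω} (hA : A.LiesOverPrime 3) {σ₀ : GQ}
  (hσ₀ : σ₀ ∈ A.inertiaSubgroupIn ℚ) (hσ₀H : σ₀ ∉ H)
  (htr : ∀ σ ∈ A.inertiaSubgroupIn ℚ,
    LinearMap.trace (ZMod 3) ρ.V (ρ.ρ σ) = 1 + LinearMap.det (ρ.ρ σ))

include hstar hσ₀ hσ₀H htr in
theorem hyg3_det_s : LinearMap.det (ρ.ρ σ₀) = -1 := by
  have h1 := htr σ₀ hσ₀
  rw [hstar σ₀ hσ₀H] at h1
  linear_combination -h1

include hstar hσ₀ hσ₀H htr in
theorem hyg3_s_mul_s : ρ.ρ σ₀ * ρ.ρ σ₀ = 1 := by
  rw [hyg_cayley ρ.finrank_eq, hstar σ₀ hσ₀H, hyg3_det_s hstar hσ₀ hσ₀H htr, zero_smul, zero_sub,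
    neg_smul, neg_neg, one_smul]

include h hH hstar hA hσ₀ hσ₀H htr in
/-- every element of the image commutes or anticommutes with `s = ρ(σ₀)`. -/
theorem hyg3_comm_or_anti (σ : GQ) :
    ρ.ρ σ * ρ.ρ σ₀ = ρ.ρ σ₀ * ρ.ρ σ ∨ ρ.ρ σ * ρ.ρ σ₀ = -(ρ.ρ σ₀ * ρ.ρ σ) := by
  set s := ρ.ρ σ₀ with hs
  set f := ρ.ρ σ with hf
  have hds : LinearMap.det s = -1 := hyg3_det_s hstar hσ₀ hσ₀H htr
  have hts : LinearMap.trace (ZMod 3) ρ.V s = 0 := hstar σ₀ hσ₀H
  have hss : s * s = 1 := hyg3_s_mul_s hstar hσ₀ hσ₀H htr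
  have hiff := hyg3_mem_iff_det h hH hstar hA hσ₀ hσ₀H htr
  have hpol := hyg_polar ρ.finrank_eq f s
  rw [hts, zero_smul, add_zero, mul_zero, sub_zero] at hpol
  have hfs : ρ.ρ (σ * σ₀) = f * s := by rw [map_mul]
  -- anticommutation from two vanishing traces
  have anti : LinearMap.trace (ZMod 3) ρ.V f = 0 → LinearMap.trace (ZMod 3) ρ.V (f * s) = 0 →
      f * s = -(s * f) := by
    intro h1 h2
    rw [h1, h2, zero_smul, zero_smul, add_zero] at hpol
    exact eq_neg_of_add_eq_zero_left hpol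
  rcases hyg3_det_cases ρ σ with hd | hd
  · rcases hyg3_classify h hH hstar σ hd with h1 | h1 | h1
    · left; rw [← hf] at h1; rw [h1, one_mul, mul_one]
    · left; rw [← hf] at h1; rw [h1, neg_mul, mul_neg, one_mul, mul_one]
    · right
      refine anti h1 ?_
      have hnot : σ * σ₀ ∉ H := by
        rw [hiff, map_mul, map_mul, hd, ← hs, hds]
        decide
      have := hstar _ hnot
      rwa [hfs] at this
  · have hnot : σ ∉ H := by
      rw [hiff, hd]
      decide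
    have htf : LinearMap.trace (ZMod 3) ρ.V f = 0 := hstar σ hnot
    have hd2 : LinearMap.det (ρ.ρ (σ * σ₀)) = 1 := by
      rw [map_mul, map_mul, hd, ← hs, hds]
      decide
    rcases hyg3_classify h hH hstar (σ * σ₀) hd2 with h1 | h1 | h1
    · left
      rw [hfs] at h1
      have : f = s := by
        have h2 : f * s * s = s := by rw [h1, one_mul]
        rwa [mul_assoc, hss, mul_one] at h2
      rw [this]
    · left
      rw [hfs] at h1
      have : f = -s := by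
        have h2 : f * s * s = -s := by rw [h1, neg_mul, one_mul]
        rwa [mul_assoc, hss, mul_one] at h2
      rw [this, neg_mul, mul_neg]
    · right
      rw [hfs] at h1
      exact anti htf h1

/-- the centraliser of `s = ρ(σ₀)`. -/
def hyg3Cent (ρ : ResidualGaloisRep (ZMod 3)) (σ₀ : GQ) : Subgroup GQ where
  carrier := {σ | ρ.ρ σ * ρ.ρ σ₀ = ρ.ρ σ₀ * ρ.ρ σ}
  one_mem' := by
    show ρ.ρ 1 * ρ.ρ σ₀ = ρ.ρ σ₀ * ρ.ρ 1
    rw [map_one, one_mul, mul_one]
  mul_mem' := by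
    intro a b ha hb
    show ρ.ρ (a * b) * ρ.ρ σ₀ = ρ.ρ σ₀ * ρ.ρ (a * b)
    have ha' : ρ.ρ a * ρ.ρ σ₀ = ρ.ρ σ₀ * ρ.ρ a := ha
    have hb' : ρ.ρ b * ρ.ρ σ₀ = ρ.ρ σ₀ * ρ.ρ b := hb
    rw [map_mul, mul_assoc, hb', ← mul_assoc, ha', mul_assoc]
  inv_mem' := by
    intro a ha
    show ρ.ρ a⁻¹ * ρ.ρ σ₀ = ρ.ρ σ₀ * ρ.ρ a⁻¹
    have ha' : ρ.ρ a * ρ.ρ σ₀ = ρ.ρ σ₀ * ρ.ρ a := ha
    have h1 : ρ.ρ a⁻¹ * ρ.ρ a = 1 := by rw [← map_mul, inv_mul_cancel, map_one]
    have h2 : ρ.ρ a * ρ.ρ a⁻¹ = 1 := by rw [← map_mul, mul_inv_cancel, map_one]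
    calc ρ.ρ a⁻¹ * ρ.ρ σ₀ = ρ.ρ a⁻¹ * ρ.ρ σ₀ * (ρ.ρ a * ρ.ρ a⁻¹) := by rw [h2, mul_one]
      _ = ρ.ρ a⁻¹ * (ρ.ρ σ₀ * ρ.ρ a) * ρ.ρ a⁻¹ := by simp only [mul_assoc]
      _ = ρ.ρ a⁻¹ * (ρ.ρ a * ρ.ρ σ₀) * ρ.ρ a⁻¹ := by rw [ha']
      _ = (ρ.ρ a⁻¹ * ρ.ρ a) * ρ.ρ σ₀ * ρ.ρ a⁻¹ := by simp only [mul_assoc]
      _ = ρ.ρ σ₀ * ρ.ρ a⁻¹ := by rw [h1, one_mul]

theorem mem_hyg3Cent (ρ : ResidualGaloisRep (ZMod 3)) (σ₀ σ : GQ) :
    σ ∈ hyg3Cent ρ σ₀ ↔ ρ.ρ σ * ρ.ρ σ₀ = ρ.ρ σ₀ * ρ.ρ σ := Iff.rfl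

include h hH hstar hA hσ₀ hσ₀H htr in
theorem hyg3Cent_normal : (hyg3Cent ρ σ₀).Normal := by
  refine ⟨fun σ hσ g => ?_⟩
  rw [mem_hyg3Cent] at hσ ⊢
  set s := ρ.ρ σ₀ with hs
  set F := ρ.ρ σ with hF
  set G := ρ.ρ g with hG
  set G' := ρ.ρ g⁻¹ with hG'
  have h1 : G' * G = 1 := by rw [hG, hG', ← map_mul, inv_mul_cancel, map_one]
  have h2 : G * G' = 1 := by rw [hG, hG', ← map_mul, mul_inv_cancel, map_one]
  have e : ρ.ρ (g * σ * g⁻¹) = G * F * G' := by rw [map_mul, map_mul]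
  rw [e]
  rcases hyg3_comm_or_anti h hH hstar hA hσ₀ hσ₀H htr g with hc | hc
  · -- `G` commutes with `s`
    have hc' : G' * s = s * G' := by
      calc G' * s = G' * s * (G * G') := by rw [h2, mul_one]
        _ = G' * (s * G) * G' := by simp only [mul_assoc]
        _ = G' * (G * s) * G' := by rw [← hc]
        _ = (G' * G) * s * G' := by simp only [mul_assoc]
        _ = s * G' := by rw [h1, one_mul]
    calc G * F * G' * s = G * F * (G' * s) := by simp only [mul_assoc]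
      _ = G * F * (s * G') := by rw [hc']
      _ = G * (F * s) * G' := by simp only [mul_assoc]
      _ = G * (s * F) * G' := by rw [hσ]
      _ = (G * s) * F * G' := by simp only [mul_assoc]
      _ = (s * G) * F * G' := by rw [hc]
      _ = s * (G * F * G') := by simp only [mul_assoc]
  · have hc' : G' * s = -(s * G') := by
      calc G' * s = G' * s * (G * G') := by rw [h2, mul_one]
        _ = G' * (s * G) * G' := by simp only [mul_assoc]
        _ = G' * (-(G * s)) * G' := by rw [hc, neg_neg]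
        _ = -((G' * G) * s * G') := by simp only [mul_assoc, mul_neg, neg_mul]
        _ = -(s * G') := by rw [h1, one_mul]
    calc G * F * G' * s = G * F * (G' * s) := by simp only [mul_assoc]
      _ = G * F * (-(s * G')) := by rw [hc']
      _ = -(G * (F * s) * G') := by simp only [mul_assoc, mul_neg]
      _ = -(G * (s * F) * G') := by rw [hσ]
      _ = -((G * s) * F * G') := by simp only [mul_assoc]
      _ = -((-(s * G)) * F * G') := by rw [hc]
      _ = s * (G * F * G') := by simp only [mul_assoc, neg_mul, neg_neg]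

include h hH hstar hA hσ₀ hσ₀H htr in
/-- **the ordinary case at `p = 3` is impossible**. -/
theorem hyg3_false_of_ordinary {e : ρ.V} (he : e ≠ 0)
    (hline : ∀ σ ∈ A.inertiaSubgroupIn ℚ, ∀ x : ρ.V, ρ.ρ σ x - x ∈ Submodule.span (ZMod 3) {e}) :
    False := by
  have hp2 : (3 : ℕ) ≠ 2 := by norm_num
  set s := ρ.ρ σ₀ with hs
  have hds : LinearMap.det s = -1 := hyg3_det_s hstar hσ₀ hσ₀H htr
  have hts : LinearMap.trace (ZMod 3) ρ.V s = 0 := hstar σ₀ hσ₀H
  have hss : s * s = 1 := hyg3_s_mul_s hstar hσ₀ hσ₀H htr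
  have hker : ∀ τ : GQ, ρ.ρ τ = 1 → τ ∈ hyg3Cent ρ σ₀ := by
    intro τ h1
    rw [mem_hyg3Cent, h1, one_mul, mul_one]
  -- inertia at `A` commutes with `s`
  have hloc : ∀ τ ∈ A.inertiaSubgroupIn ℚ, τ ∈ hyg3Cent ρ σ₀ := by
    intro τ hτ
    rw [mem_hyg3Cent]
    rcases hyg3_comm_or_anti h hH hstar hA hσ₀ hσ₀H htr τ with hc | hc
    · exact hc
    · exfalso
      set f := ρ.ρ τ with hf
      rw [← hs] at hc
      have t1 : LinearMap.trace (ZMod 3) ρ.V (f * s) = 0 := by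
        have h1 : LinearMap.trace (ZMod 3) ρ.V (f * s) = -LinearMap.trace (ZMod 3) ρ.V (f * s) := by
          conv_lhs => rw [hc, map_neg, LinearMap.trace_mul_comm]
        have h2 : (2 : ZMod 3) * LinearMap.trace (ZMod 3) ρ.V (f * s) = 0 := by
          linear_combination h1
        rcases mul_eq_zero.mp h2 with h3 | h3
        · exact absurd h3 (by decide)
        · exact h3
      have hmem : τ * σ₀ ∈ A.inertiaSubgroupIn ℚ := Subgroup.mul_mem _ hτ hσ₀
      have t2 := htr _ hmem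
      rw [map_mul, ← hf, ← hs, t1, map_mul, hds] at t2
      have hdf : LinearMap.det f = 1 := by linear_combination t2
      have t3 := htr τ hτ
      rw [← hf, hdf] at t3
      -- but `f = - s f s` has trace zero
      have hfe : f = -(s * f * s) := by
        have : f * s * s = -(s * f) * s := by rw [hc]
        rw [mul_assoc, hss, mul_one] at this
        exact this.trans (neg_mul _ _)
      have t4 : LinearMap.trace (ZMod 3) ρ.V f = -LinearMap.trace (ZMod 3) ρ.V f := by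
        conv_lhs => rw [hfe, map_neg, LinearMap.trace_mul_comm, ← mul_assoc, hss, one_mul]
      rw [t3] at t4
      revert t4
      decide
  haveI := hyg3Cent_normal h hH hstar hA hσ₀ hσ₀H htr
  have htop := eq_top_of_inertia_le (hyg3Cent ρ σ₀) (hyg_isOpen_of_ker_le ρ _ hker) (by
    intro ℓ A' hℓ hA' τ hτ
    by_cases hℓ3 : ℓ = 3
    · have hA'3 : A'.LiesOverPrime 3 := hℓ3 ▸ hA'
      obtain ⟨g, hg⟩ := exists_conj_inertia Nat.prime_three A A' hA hA'3
      have h1 := hloc _ (hg τ hτ)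
      have h2 := (hyg3Cent_normal h hH hstar hA hσ₀ hσ₀H htr).conj_mem _ h1 g
      have e : g * (g⁻¹ * τ * g) * g⁻¹ = τ := by group
      rwa [e] at h2
    · exact hker τ (hyg_rho_inertia_eq_one h hp2 hH hstar hℓ hℓ3 hA' hτ))
  have hcomm : ∀ σ : GQ, ρ.ρ σ * s = s * ρ.ρ σ := fun σ =>
    (mem_hyg3Cent ρ σ₀ σ).mp (htop ▸ Subgroup.mem_top σ)
  -- the `(-1)`-eigenspace of `s` is stable
  have hse : s e = -e := by
    have := (hyg_trace_eq_one_add_det ρ.finrank_eq s he (hline σ₀ hσ₀)).2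
    rw [hds, neg_smul, one_smul] at this
    exact this
  rcases h.irr (LinearMap.ker (s + 1)) (by
      intro σ x hx
      rw [LinearMap.mem_ker] at hx ⊢
      have h1 : (s + 1) (ρ.ρ σ x) = ρ.ρ σ ((s + 1) x) := by
        have := congrArg (fun g : Module.End (ZMod 3) ρ.V => g x) (hcomm σ)
        simp only [Module.End.mul_apply] at this
        simp only [LinearMap.add_apply, Module.End.one_apply, map_add]
        rw [this]
      rw [h1, hx, map_zero]) with hbot | htop'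
  · apply he
    have : e ∈ LinearMap.ker (s + 1) := by
      rw [LinearMap.mem_ker, LinearMap.add_apply, Module.End.one_apply, hse, neg_add_cancel]
    rw [hbot] at this
    exact (Submodule.mem_bot (ZMod 3)).mp this
  · have hs1 : s = -1 := by
      have h0 : s + 1 = 0 := LinearMap.ker_eq_top.mp htop'
      exact eq_neg_of_add_eq_zero_left h0
    rw [hs1, map_neg, LinearMap.trace_one, ρ.finrank_eq] at hts
    revert hts
    decide

end Three2

theorem hyg_five_aux : ((2 : ℕ) : ZMod 5) ≠ 1 ∧ ((2 : ℕ) : ZMod 5) ≠ -1 := by decide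

/-- **[HYG-L] core**: the arithmetic input excludes subgroups of index two outside which all traces
vanish (`p = 3` or `p = 5`). -/
theorem hygM_of_input {p : ℕ} [Fact p.Prime] (hp : p = 3 ∨ p = 5)
    {ρ : ResidualGaloisRep (ZMod p)} (h : HygInput p ρ) : HygM ρ := by
  intro H hH
  by_contra hcon
  have hstar : ∀ σ : GQ, σ ∉ H → LinearMap.trace (ZMod p) ρ.V (ρ.ρ σ) = 0 := by
    intro σ hσ
    by_contra h0
    exact hcon ⟨σ, hσ, h0⟩
  have hp2 : p ≠ 2 := by rcases hp with rfl | rfl <;> norm_num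
  obtain ⟨A, hA, σ₀, hσ₀, hσ₀H⟩ := hyg_exists_inertia_p h hp2 hH hstar
  obtain ⟨V₁, hV₁, htrans⟩ := h.atp A hA
  rcases hyg_submodule_trichotomy ρ.finrank_eq (AddSubgroup.toZModSubmodule p V₁) with
    hbot | htop | ⟨e, he, hline⟩
  · -- inertia acts trivially: impossible (`det = ω`)
    obtain ⟨σ, hσ, hdet⟩ := hyg_exists_inertia_det h hA (-1 : (ZMod p)ˣ)
    have h1 : ρ.ρ σ = 1 := by
      ext x
      have hx : ρ.ρ σ x - x ∈ AddSubgroup.toZModSubmodule p V₁ := hV₁ σ hσ x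
      rw [hbot, Submodule.mem_bot, sub_eq_zero] at hx
      rw [hx]; rfl
    rw [h1, map_one, Units.val_neg, Units.val_one] at hdet
    have : (2 : ZMod p) = 0 := by linear_combination hdet
    exact hyg_two_ne_zero hp2 this
  · -- transitive case
    refine hyg_false_of_transitive h hp2 hH hstar hA hσ₀ hσ₀H (htrans ?_)
    intro x
    have : x ∈ AddSubgroup.toZModSubmodule p V₁ := by rw [htop]; exact Submodule.mem_top
    exact this
  · -- ordinary case
    have hline' : ∀ σ ∈ A.inertiaSubgroupIn ℚ, ∀ x : ρ.V,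
        ρ.ρ σ x - x ∈ Submodule.span (ZMod p) {e} := by
      intro σ hσ x
      rw [← hline]
      exact hV₁ σ hσ x
    have htr : ∀ σ ∈ A.inertiaSubgroupIn ℚ,
        LinearMap.trace (ZMod p) ρ.V (ρ.ρ σ) = 1 + LinearMap.det (ρ.ρ σ) := fun σ hσ =>
      (hyg_trace_eq_one_add_det ρ.finrank_eq (ρ.ρ σ) he (hline' σ hσ)).1
    rcases hp with rfl | rfl
    · exact hyg3_false_of_ordinary h hH hstar hA hσ₀ hσ₀H htr he hline'
    · exact hyg_false_of_ordinary_of_unit h hp2 hH hstar (ZMod.unitOfCoprime 2 (by norm_num))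
        (by rw [ZMod.coe_unitOfCoprime]; exact hyg_five_aux.1)
        (by rw [ZMod.coe_unitOfCoprime]; exact hyg_five_aux.2) hA hσ₀ hσ₀H htr

end Fermat.Agent.ML
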