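/-
ML (S59) — helper1 — **[HYG-L] interface (ML7)**: the Taylor–Wiles hypothesis `hTW` of S56 / [SEL]
for the residual representation `W[p]`, `W` semistable with irreducible `W[p]`, `p ∈ {3, 5}`.

* `ResTW ρ̄` : the literal `hTW` of S56 (every base change of `ρ̄` restricted to every subgroup of
  index `2` of `G_ℚ` is irreducible);
* `HygTWStatement` : `ResTW` for `W[p](ℚ̄)` (as a `ResidualGaloisRep (ZMod p)`);
* `HygTWRhoStatement` : `ResTW` for the residual representation of any `RhoWData W p` (the form the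
  lifting part consumes; follows from `HygTWStatement` by `RhoWData.residual_torsion`).
-/
import Mathlib
import Fermat.Agent.ML.IFACE_helper1_RhoW

set_option autoImplicit false

open Polynomial IsLocalRing
open scoped WeierstrassCurve.Affine

namespace Fermat.Agent.ML

/-- `Ω = AlgebraicClosure ℚ`. -/
local notation "Ω" => AlgebraicClosure ℚ

/-- the absolute Galois group. -/
local notation "GQ" => (AlgebraicClosure ℚ ≃ₐ[ℚ] AlgebraicClosure ℚ)

/-- **`hTW`** (the literal of S56): every base change of `ρ̄`, restricted to any subgroup of index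
`2`, is irreducible. -/
def ResTW {k : Type} [Field k] (ρ : ResidualGaloisRep k) : Prop :=
  ∀ (K : Type) [Field K] [Algebra k K] (G : Subgroup GQ), G.index = 2 →
    ∀ V : Submodule K (ρ.baseChange K).V,
      (∀ σ ∈ G, ∀ x ∈ V, (ρ.baseChange K).ρ σ x ∈ V) → V = ⊥ ∨ V = ⊤

/-- **[HYG-L], `E[p]` form**: `hTW` for `W[p](ℚ̄)`, `p ∈ {3, 5}`, `W` semistable, `W[p]`
irreducible. -/
def HygTWStatement : Prop :=
  ∀ (p : ℕ) [Fact p.Prime], p = 3 ∨ p = 5 → ∀ W : WeierstrassCurve ℤ, W.Δ ≠ 0 →
    W.IsSemistableModel → W.ModRepIsIrreducible p →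
    ∀ (hcard : Nat.card
        (Submodule.torsionBy ℤ ((W.map (Int.castRingHom ℚ))⁄Ω).Point p) = p ^ 2)
      (hker : GaloisFactorsThroughFiniteLevel
        (WeierstrassCurve.Affine.Point.galoisRepModuleEnd (K := Ω) ℚ
          (W.map (Int.castRingHom ℚ)) p)),
      ResTW (WeierstrassCurve.residualGaloisRepOf (W.map (Int.castRingHom ℚ)) p hcard hker)

/-- **[HYG-L], consumer form**: `hTW` for the residual representation of the `p`-adic Tate
module. -/
def HygTWRhoStatement : Prop :=
  ∀ (p : ℕ) [Fact p.Prime], p = 3 ∨ p = 5 → ∀ W : WeierstrassCurve ℤ, W.Δ ≠ 0 →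
    W.IsSemistableModel → W.ModRepIsIrreducible p → ∀ D : RhoWData W p,
      D.ρ.residual.IsAbsolutelyIrreducible ∧ ResTW D.ρ.residual

end Fermat.Agent.ML
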