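/-
ML (S59) — helper1 — **[HYG-L] part 3: from `HygM` to `ResTW`** (generic in the coefficient field).

* `hyg_trace_eq_zero_of_stable` : if an irreducible two-dimensional representation has a proper
  nonzero subspace stable under a subgroup `H` of index two, every element outside `H` has trace
  zero;
* `hyg_isIrreducible_of_split` : irreducible over `k₁` + an element with two distinct eigenvalues in
  `k₁` ⇒ every "semilinear extension of scalars" is irreducible;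
* `hyg_transfer` : `ResIntertwined ψ ρ₁ ρ₂`, `ρ₁` irreducible with a split element, `HygM ρ₁` ⇒
  `ρ₂` absolutely irreducible and `ResTW ρ₂`.
-/
import Mathlib
import Fermat.Agent.ML.HYG_helper1_Core
import Fermat.Agent.ML.IFACE_helper1_Hyg
import Fermat.Agent.RB.HYG_lead_Inter

set_option autoImplicit false
set_option linter.unusedSectionVars false
set_option linter.unusedVariables false
set_option linter.style.haveILetI false

open scoped TensorProduct

namespace Fermat.Agent.ML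

open Fermat.Agent.RB

/-- `Ω = AlgebraicClosure ℚ`. -/
local notation "Ω" => AlgebraicClosure ℚ

/-- the absolute Galois group. -/
local notation "GQ" => (AlgebraicClosure ℚ ≃ₐ[ℚ] AlgebraicClosure ℚ)

/-- **a proper stable subspace for a subgroup of index two forces trace zero outside it.** -/
theorem hyg_trace_eq_zero_of_stable {K : Type} [Field K] (ρ' : ResidualGaloisRep K)
    (hirr : ρ'.IsIrreducible) {H : Subgroup GQ} (hH : H.index = 2) (U : Submodule K ρ'.V)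
    (hU : ∀ σ ∈ H, ∀ x ∈ U, ρ'.ρ σ x ∈ U) (hbot : U ≠ ⊥) (htop : U ≠ ⊤) (σ : GQ) (hσ : σ ∉ H) :
    LinearMap.trace K ρ'.V (ρ'.ρ σ) = 0 := by
  haveI : H.Normal := Subgroup.normal_of_index_eq_two hH
  set U' : Submodule K ρ'.V := U.map (ρ'.ρ σ) with hU'
  have hσ1 : ∀ x ∈ U, ρ'.ρ σ x ∈ U' := fun x hx => Submodule.mem_map_of_mem hx
  have hσ2 : ∀ x ∈ U', ρ'.ρ σ x ∈ U := by
    intro x hx
    obtain ⟨u, hu, rfl⟩ := Submodule.mem_map.mp hx
    have : ρ'.ρ σ (ρ'.ρ σ u) = ρ'.ρ (σ * σ) u := by rw [map_mul]; rfl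
    rw [this]
    exact hU _ (Subgroup.mul_self_mem_of_index_two hH σ) u hu
  have hU'H : ∀ g ∈ H, ∀ x ∈ U', ρ'.ρ g x ∈ U' := by
    intro g hg x hx
    obtain ⟨u, hu, rfl⟩ := Submodule.mem_map.mp hx
    have e : g * σ = σ * (σ⁻¹ * g * σ) := by group
    have : ρ'.ρ g (ρ'.ρ σ u) = ρ'.ρ σ (ρ'.ρ (σ⁻¹ * g * σ) u) := by
      rw [← Module.End.mul_apply, ← map_mul, e, map_mul]; rfl
    rw [this]
    refine Submodule.mem_map_of_mem (hU _ ?_ u hu)
    have := Subgroup.Normal.conj_mem ‹H.Normal› g hg σ⁻¹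
    rwa [inv_inv] at this
  -- every element either preserves or swaps `U`, `U'`
  have hcases : ∀ g : GQ, ((∀ x ∈ U, ρ'.ρ g x ∈ U) ∧ (∀ x ∈ U', ρ'.ρ g x ∈ U')) ∨
      ((∀ x ∈ U, ρ'.ρ g x ∈ U') ∧ (∀ x ∈ U', ρ'.ρ g x ∈ U)) := by
    intro g
    by_cases hg : g ∈ H
    · exact Or.inl ⟨hU g hg, hU'H g hg⟩
    · right
      have hh : σ⁻¹ * g ∈ H := by
        rw [Subgroup.mul_mem_iff_of_index_two hH, Subgroup.inv_mem_iff]
        tauto
      have e : g = σ * (σ⁻¹ * g) := by group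
      have hρ : ∀ x, ρ'.ρ g x = ρ'.ρ σ (ρ'.ρ (σ⁻¹ * g) x) := by
        intro x
        conv_lhs => rw [e, map_mul]
        rfl
      exact ⟨fun x hx => by rw [hρ]; exact hσ1 _ (hU _ hh x hx),
        fun x hx => by rw [hρ]; exact hσ2 _ (hU'H _ hh x hx)⟩
  have hinf : U ⊓ U' = ⊥ := by
    rcases hirr (U ⊓ U') (by
        intro g x hx
        rcases hcases g with ⟨h1, h2⟩ | ⟨h1, h2⟩
        · exact ⟨h1 x hx.1, h2 x hx.2⟩
        · exact ⟨h2 x hx.2, h1 x hx.1⟩) with h | h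
    · exact h
    · exfalso
      apply htop
      rw [eq_top_iff, ← h]
      exact inf_le_left
  have hsup : U ⊔ U' = ⊤ := by
    rcases hirr (U ⊔ U') (by
        intro g x hx
        obtain ⟨y, hy, z, hz, rfl⟩ := Submodule.mem_sup.mp hx
        rw [map_add]
        rcases hcases g with ⟨h1, h2⟩ | ⟨h1, h2⟩
        · exact Submodule.add_mem _ (Submodule.mem_sup_left (h1 y hy))
            (Submodule.mem_sup_right (h2 z hz))
        · exact Submodule.add_mem _ (Submodule.mem_sup_right (h1 y hy))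
            (Submodule.mem_sup_left (h2 z hz))) with h | h
    · exfalso
      apply hbot
      rw [eq_bot_iff, ← h]
      exact le_sup_left
    · exact h
  exact hyg_trace_eq_zero_of_swap ⟨disjoint_iff.mpr hinf, codisjoint_iff.mpr hsup⟩ (ρ'.ρ σ) hσ1 hσ2

section Split

variable {k₁ k' : Type} [Field k₁] [Field k']

/-- two eigenvectors for distinct eigenvalues span a plane. -/
theorem hyg_span_of_eigen (ρ₁ : ResidualGaloisRep k₁) (c : GQ) {e₁ e₂ : ρ₁.V} {l₁ l₂ : k₁}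
    (hl : l₁ ≠ l₂) (he₁ : e₁ ≠ 0) (he₂ : e₂ ≠ 0) (h1 : ρ₁.ρ c e₁ = l₁ • e₁)
    (h2 : ρ₁.ρ c e₂ = l₂ • e₂) (x : ρ₁.V) : ∃ a b : k₁, x = a • e₁ + b • e₂ := by
  refine exists_coords_of_finrank_two ρ₁.finrank_eq ?_ x
  intro a b hab
  have h3 : ρ₁.ρ c (a • e₁ + b • e₂) = 0 := by rw [hab, map_zero]
  rw [map_add, map_smul, map_smul, h1, h2, smul_smul, smul_smul] at h3
  have h4 : (a * (l₁ - l₂)) • e₁ = 0 := by
    have : (a * (l₁ - l₂)) • e₁ = (a * l₁) • e₁ + (b * l₂) • e₂ - l₂ • (a • e₁ + b • e₂) := by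
      rw [smul_add, smul_smul, smul_smul, mul_sub, sub_smul, mul_comm l₂ a, mul_comm l₂ b]
      abel
    rw [this, h3, hab, smul_zero, sub_zero]
  have ha : a = 0 := by
    rcases smul_eq_zero.mp h4 with h5 | h5
    · rcases mul_eq_zero.mp h5 with h6 | h6
      · exact h6
      · exact absurd (sub_eq_zero.mp h6) hl
    · exact absurd h5 he₁
  rw [ha, zero_smul, zero_add] at hab
  rcases smul_eq_zero.mp hab with h5 | h5
  · exact ⟨ha, h5⟩
  · exact absurd h5 he₂

/-- **irreducible + split element ⇒ every semilinear extension is irreducible.** -/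
theorem hyg_isIrreducible_of_split {ψ : k₁ →+* k'} {ρ₁ : ResidualGaloisRep k₁}
    {ρ' : ResidualGaloisRep k'} (hirr : ρ₁.IsIrreducible) (c : GQ) {e₁ e₂ : ρ₁.V} {l₁ l₂ : k₁}
    (hl : l₁ ≠ l₂) (he₁ : e₁ ≠ 0) (he₂ : e₂ ≠ 0) (h1 : ρ₁.ρ c e₁ = l₁ • e₁)
    (h2 : ρ₁.ρ c e₂ = l₂ • e₂) (F : ρ₁.V →+ ρ'.V)
    (hequiv : ∀ (σ : GQ) (v : ρ₁.V), F (ρ₁.ρ σ v) = ρ'.ρ σ (F v))
    (hsemi : ∀ (a : k₁) (v : ρ₁.V), F (a • v) = ψ a • F v)
    (hspan : ∀ y : ρ'.V, ∃ a b : k', y = a • F e₁ + b • F e₂) : ρ'.IsIrreducible := by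
  intro U hU
  by_cases hbot : U = ⊥
  · exact Or.inl hbot
  right
  obtain ⟨w, hwU, hw0⟩ := Submodule.exists_mem_ne_zero_of_ne_bot hbot
  obtain ⟨x, y, hw⟩ := hspan w
  have hc1 : ρ'.ρ c (F e₁) = ψ l₁ • F e₁ := by rw [← hequiv, h1, hsemi]
  have hc2 : ρ'.ρ c (F e₂) = ψ l₂ • F e₂ := by rw [← hequiv, h2, hsemi]
  have hψ : ψ l₁ - ψ l₂ ≠ 0 := by
    rw [sub_ne_zero]
    exact fun h0 => hl (ψ.injective h0)
  -- some `F eᵢ` lies in `U`
  have hsome : (F e₁ ∈ U) ∨ (F e₂ ∈ U) := by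
    by_cases hx : x = 0
    · right
      rw [hx, zero_smul, zero_add] at hw
      have hy : y ≠ 0 := by
        rintro rfl
        rw [zero_smul] at hw
        exact hw0 hw
      have := U.smul_mem y⁻¹ hwU
      rwa [hw, smul_smul, inv_mul_cancel₀ hy, one_smul] at this
    · left
      have h3 : ρ'.ρ c w - ψ l₂ • w ∈ U := U.sub_mem (hU c w hwU) (U.smul_mem _ hwU)
      have h4 : ρ'.ρ c w - ψ l₂ • w = (x * (ψ l₁ - ψ l₂)) • F e₁ := by
        rw [hw, map_add, map_smul, map_smul, hc1, hc2, smul_add, smul_smul, smul_smul, smul_smul,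
          smul_smul, mul_sub, sub_smul, mul_comm (ψ l₂) x, mul_comm (ψ l₂) y]
        abel
      rw [h4] at h3
      have := U.smul_mem (x * (ψ l₁ - ψ l₂))⁻¹ h3
      rwa [smul_smul, inv_mul_cancel₀ (mul_ne_zero hx hψ), one_smul] at this
  -- the pull-back of `U`
  let U₀ : Submodule k₁ ρ₁.V :=
    { carrier := {v | F v ∈ U}
      add_mem' := fun {a b} ha hb => by
        show F (a + b) ∈ U
        rw [map_add]; exact U.add_mem ha hb
      zero_mem' := by
        show F 0 ∈ U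
        rw [map_zero]; exact U.zero_mem
      smul_mem' := fun a v hv => by
        show F (a • v) ∈ U
        rw [hsemi]; exact U.smul_mem _ hv }
  have hU₀ : U₀ = ⊤ := by
    rcases hirr U₀ (by
        intro σ v hv
        show F (ρ₁.ρ σ v) ∈ U
        rw [hequiv]
        exact hU σ _ hv) with h0 | h0
    · exfalso
      rcases hsome with h5 | h5
      · have : e₁ ∈ U₀ := h5
        rw [h0] at this
        exact he₁ ((Submodule.mem_bot k₁).mp this)
      · have : e₂ ∈ U₀ := h5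
        rw [h0] at this
        exact he₂ ((Submodule.mem_bot k₁).mp this)
    · exact h0
  have hall : ∀ v : ρ₁.V, F v ∈ U := fun v => by
    have : v ∈ U₀ := by rw [hU₀]; exact Submodule.mem_top
    exact this
  rw [eq_top_iff]
  intro z _
  obtain ⟨a, b, rfl⟩ := hspan z
  exact U.add_mem (U.smul_mem _ (hall e₁)) (U.smul_mem _ (hall e₂))

end Split

section Transfer

variable {k₁ k₂ : Type} [Field k₁] [Field k₂]

/-- traces correspond under an intertwiner. -/
theorem hyg_trace_of_intertwined {ψ : k₁ →+* k₂} {ρ₁ : ResidualGaloisRep k₁}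
    {ρ₂ : ResidualGaloisRep k₂} (h : ResIntertwined ψ ρ₁ ρ₂) (σ : GQ) :
    LinearMap.trace k₂ ρ₂.V (ρ₂.ρ σ) = ψ (LinearMap.trace k₁ ρ₁.V (ρ₁.ρ σ)) := by
  obtain ⟨F, b₁, b₂, hequiv, hsemi, hb⟩ := h.exists_bases
  rw [LinearMap.trace_eq_matrix_trace k₂ b₂, LinearMap.trace_eq_matrix_trace k₁ b₁,
    toMatrix_of_intertwiner F b₁ b₂ hequiv hsemi hb σ, Matrix.trace_fin_two, Matrix.trace_fin_two,
    Matrix.map_apply, Matrix.map_apply, map_add]

/-- **[HYG-L] transfer**: from `HygM` for an irreducible representation with a split element to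
absolute irreducibility and `ResTW` for every representation intertwined with it. -/
theorem hyg_transfer {ψ : k₁ →+* k₂} {ρ₁ : ResidualGaloisRep k₁} {ρ₂ : ResidualGaloisRep k₂}
    (hint : ResIntertwined ψ ρ₁ ρ₂) (hirr : ρ₁.IsIrreducible) (c : GQ) {e₁ e₂ : ρ₁.V}
    {l₁ l₂ : k₁} (hl : l₁ ≠ l₂) (he₁ : e₁ ≠ 0) (he₂ : e₂ ≠ 0) (h1 : ρ₁.ρ c e₁ = l₁ • e₁)
    (h2 : ρ₁.ρ c e₂ = l₂ • e₂) (hM : HygM ρ₁) :
    ρ₂.IsAbsolutelyIrreducible ∧ ResTW ρ₂ := by
  obtain ⟨F, hequiv, hsemi, hsep⟩ := hint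
  have hspan₁ := hyg_span_of_eigen ρ₁ c hl he₁ he₂ h1 h2
  have hspan₂ := span_pair_of_intertwiner F hsemi hsep hspan₁
  -- irreducibility of all base changes
  have hK : ∀ (K : Type) [Field K] [Algebra k₂ K], (ρ₂.baseChange K).IsIrreducible := by
    intro K _ _
    let F' : ρ₁.V →+ (ρ₂.baseChange K).V :=
      ((TensorProduct.mk k₂ K ρ₂.V 1 : ρ₂.V →ₗ[k₂] K ⊗[k₂] ρ₂.V).toAddMonoidHom).comp F
    have hF' : ∀ v, F' v = (1 : K) ⊗ₜ[k₂] F v := fun v => rfl
    refine hyg_isIrreducible_of_split (ψ := (algebraMap k₂ K).comp ψ) hirr c hl he₁ he₂ h1 h2 F'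
      ?_ ?_ ?_
    · intro σ v
      rw [hF', hF', hequiv]
      show _ = (ρ₂.ρ σ).baseChange K ((1 : K) ⊗ₜ[k₂] F v)
      rw [LinearMap.baseChange_tmul]
    · intro a v
      rw [hF', hF', hsemi, TensorProduct.tmul_smul, RingHom.comp_apply, algebraMap_smul]
    · intro y
      induction y using TensorProduct.induction_on with
      | zero => exact ⟨0, 0, by simp⟩
      | tmul z v =>
        obtain ⟨a, b, rfl⟩ := hspan₂ v
        refine ⟨z * algebraMap k₂ K a, z * algebraMap k₂ K b, ?_⟩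
        rw [hF', hF', TensorProduct.tmul_add, TensorProduct.tmul_smul, TensorProduct.tmul_smul,
          TensorProduct.smul_tmul', TensorProduct.smul_tmul', TensorProduct.smul_tmul',
          TensorProduct.smul_tmul', smul_eq_mul, smul_eq_mul, mul_one, mul_one,
          Algebra.smul_def, Algebra.smul_def, mul_comm (algebraMap k₂ K a),
          mul_comm (algebraMap k₂ K b)]
      | add x y hx hy =>
        obtain ⟨a, b, rfl⟩ := hx
        obtain ⟨a', b', rfl⟩ := hy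
        exact ⟨a + a', b + b', by rw [add_smul, add_smul]; abel⟩
  refine ⟨hK (AlgebraicClosure k₂), ?_⟩
  intro K _ _ G hG U hU
  by_contra hcon
  rw [not_or] at hcon
  obtain ⟨σ, hσ, htr⟩ := hM G hG
  apply htr
  have h0 := hyg_trace_eq_zero_of_stable (ρ₂.baseChange K) (hK K) hG U hU hcon.1 hcon.2 σ hσ
  have h3 : LinearMap.trace K (ρ₂.baseChange K).V ((ρ₂.baseChange K).ρ σ) =
      algebraMap k₂ K (LinearMap.trace k₂ ρ₂.V (ρ₂.ρ σ)) := by
    show LinearMap.trace K (K ⊗[k₂] ρ₂.V) ((ρ₂.ρ σ).baseChange K) = _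
    rw [LinearMap.trace_baseChange]
  rw [h3, hyg_trace_of_intertwined ⟨F, hequiv, hsemi, hsep⟩ σ] at h0
  have h4 : (algebraMap k₂ K) (ψ (LinearMap.trace k₁ ρ₁.V (ρ₁.ρ σ))) = (algebraMap k₂ K) (ψ 0) := by
    rw [h0, map_zero, map_zero]
  exact ψ.injective ((algebraMap k₂ K).injective h4)

end Transfer

end Fermat.Agent.ML
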