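/-
ML (S59) — helper7 — (e-STRICT) leaf 2, the abstract Tate-module transfer (S58/TMOD vocabulary).

`J` an abelian group with a frame `F : TmodFrame J p`, `E₁ ≤ J` a subgroup ("kernel of reduction")
such that (a) not all `p`-torsion lies in `E₁`; (b) the `p`-torsion of `J[p^∞]/E₁[p^∞]` is cyclic;
(c) `E₁[p^∞]` is stable under `D`; (d) `I` acts trivially on `J[p^∞]` modulo `E₁`; (e) every element
of `D` acts by a sign modulo `E₁`.  Then `L := {v : all components of Ψ v lie in E₁}` is a line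
`ℤ_p ∙ b 0` for a basis `b`, `D`-stable, `I` acts trivially on `V/L` and `D` acts by signs on `V/L`.
-/
import Mathlib
import Fermat.Agent.S58.TMOD_helper4_Main

set_option autoImplicit false
set_option linter.unusedSectionVars false
set_option linter.unusedVariables false

namespace Fermat.Agent.ML

open Fermat.Agent.S58 Fermat.Agent.GR

/-- `GQ = Gal(Ω/ℚ)`. -/
local notation "GQ" => (AlgebraicClosure ℚ ≃ₐ[ℚ] AlgebraicClosure ℚ)

section Tmod

variable {J : Type*} [AddCommGroup J] {p : ℕ} [hp : Fact p.Prime]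

/-- scalar compatibility of `Ψ` -/
theorem psi_smul_comp (F : TmodFrame J p) (c : ℤ_[p]) (w : Fin 2 → ℤ_[p]) (k : ℕ) :
    (F.psi (c • w)).1 k = (c.appr k : ℤ) • (F.psi w).1 k := by
  rw [TmodFrame.psi_apply, TmodFrame.psi_apply, smul_add, smul_smul, smul_smul]
  have h : ∀ z : ℤ_[p],
      ((p ^ k : ℕ) : ℤ) ∣ ((c * z).appr k : ℤ) - (c.appr k : ℤ) * (z.appr k : ℤ) := by
    intro z
    apply tmod_dvd_appr_sub
    rw [map_mul, Int.cast_mul, tmod_cast_appr, tmod_cast_appr]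
  congr 1
  · exact tmod_zsmul_congr (TateSeq.pow_smul F.x k) (h (w 0))
  · exact tmod_zsmul_congr (TateSeq.pow_smul F.y k) (h (w 1))

theorem psi_add_comp (F : TmodFrame J p) (v w : Fin 2 → ℤ_[p]) (k : ℕ) :
    (F.psi (v + w)).1 k = (F.psi v).1 k + (F.psi w).1 k := by
  rw [map_add]; rfl

theorem psi_sub_comp (F : TmodFrame J p) (v w : Fin 2 → ℤ_[p]) (k : ℕ) :
    (F.psi (v - w)).1 k = (F.psi v).1 k - (F.psi w).1 k := by
  rw [map_sub]; rfl

theorem psi_zero_comp (F : TmodFrame J p) (k : ℕ) :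
    (F.psi (0 : Fin 2 → ℤ_[p])).1 k = 0 := by
  rw [map_zero]; rfl

/-- vectors all of whose components lie in `E₁` -/
def inSub (F : TmodFrame J p) (E1 : AddSubgroup J) : Submodule ℤ_[p] (Fin 2 → ℤ_[p]) where
  carrier := {w | ∀ k, (F.psi w).1 k ∈ E1}
  add_mem' := fun {a b} ha hb k => by
    rw [psi_add_comp]; exact E1.add_mem (ha k) (hb k)
  zero_mem' := fun k => by rw [psi_zero_comp]; exact E1.zero_mem
  smul_mem' := fun c w hw k => by rw [psi_smul_comp]; exact E1.zsmul_mem (hw k) _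

theorem mem_inSub (F : TmodFrame J p) (E1 : AddSubgroup J) (w : Fin 2 → ℤ_[p]) :
    w ∈ inSub F E1 ↔ ∀ k, (F.psi w).1 k ∈ E1 := Iff.rfl

/-- `inSub` is saturated -/
theorem inSub_saturated (F : TmodFrame J p) (E1 : AddSubgroup J) (w : Fin 2 → ℤ_[p])
    (h : (p : ℤ_[p]) • w ∈ inSub F E1) : w ∈ inSub F E1 := by
  intro k
  have h1 := h (k + 1)
  have e : (p : ℤ_[p]) • w = p • w := by
    rw [← Nat.cast_smul_eq_nsmul ℤ_[p]]
  rw [e, map_nsmul] at h1
  have e2 : ((p • F.psi w : ↥(TateSeq J p)) : ℕ → J) (k + 1) = p • (F.psi w).1 (k + 1) := rfl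
  rw [e2, TateSeq.smul_succ] at h1
  exact h1

/-- a Tate sequence inside a subgroup whose `p`-power torsion is `p`-divisible -/
theorem exists_tateSeq_in (E1 : AddSubgroup J)
    (hdiv : ∀ Q ∈ E1, (∃ n : ℕ, p ^ n • Q = 0) → ∃ R ∈ E1, p • R = Q)
    (e : J) (heE : e ∈ E1) (he : p • e = 0) :
    ∃ t : ↥(TateSeq J p), t.1 1 = e ∧ ∀ k, t.1 k ∈ E1 := by
  classical
  let T := {x : J // x ∈ E1 ∧ ∃ n : ℕ, p ^ n • x = 0}
  have hstep : ∀ x : T, ∃ y : T, p • y.1 = x.1 := by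
    intro x
    obtain ⟨R, hR, hpR⟩ := hdiv x.1 x.2.1 x.2.2
    obtain ⟨n, hn⟩ := x.2.2
    refine ⟨⟨R, hR, n + 1, ?_⟩, hpR⟩
    rw [pow_succ, mul_smul, hpR, hn]
  choose nxt hnxt using hstep
  let s : ℕ → T := fun n =>
    Nat.rec (⟨e, heE, 1, by rw [pow_one]; exact he⟩ : T) (fun _ x => nxt x) n
  have hs0 : (s 0).1 = e := rfl
  have hss : ∀ n, p • (s (n + 1)).1 = (s n).1 := fun n => hnxt (s n)
  refine ⟨⟨fun k => Nat.casesOn k 0 (fun k => (s k).1), ?_, ?_⟩, ?_, ?_⟩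
  · rfl
  · intro k
    cases k with
    | zero =>
      show p • (s 0).1 = 0
      rw [hs0, he]
    | succ k =>
      show p • (s (k + 1)).1 = (s k).1
      exact hss k
  · exact hs0
  · intro k
    cases k with
    | zero => exact E1.zero_mem
    | succ k => exact (s k).2.1

/-- a vector of `ℤ_p²` which is not divisible by `p` is the first vector of a basis -/
theorem exists_basis_of_not_dvd (v : Fin 2 → ℤ_[p])
    (hv : ¬ ∃ v' : Fin 2 → ℤ_[p], v = (p : ℤ_[p]) • v') :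
    ∃ b : Module.Basis (Fin 2) ℤ_[p] (Fin 2 → ℤ_[p]), b 0 = v := by
  classical
  -- one of the coordinates is a unit
  have hunit : IsUnit (v 0) ∨ IsUnit (v 1) := by
    by_contra hcon
    rw [not_or] at hcon
    obtain ⟨h0, h1⟩ := hcon
    have hm : ∀ i : Fin 2, ∃ c : ℤ_[p], v i = (p : ℤ_[p]) * c := by
      intro i
      have hi : ¬ IsUnit (v i) := by fin_cases i <;> assumption
      have : v i ∈ IsLocalRing.maximalIdeal ℤ_[p] := (IsLocalRing.mem_maximalIdeal _).mpr hi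
      rw [PadicInt.maximalIdeal_eq_span_p, Ideal.mem_span_singleton'] at this
      obtain ⟨c, hc⟩ := this
      exact ⟨c, by rw [← hc, mul_comm]⟩
    choose c hc using hm
    exact hv ⟨c, funext fun i => hc i⟩
  obtain ⟨M, hM, hcol⟩ : ∃ M : Matrix (Fin 2) (Fin 2) ℤ_[p], IsUnit M.det ∧
      M.mulVec (Pi.single 0 1) = v := by
    rcases hunit with h | h
    · refine ⟨!![v 0, 0; v 1, 1], ?_, ?_⟩
      · rw [Matrix.det_fin_two_of]; simpa using h
      · funext i; fin_cases i <;> simp [Matrix.mulVec, dotProduct, Fin.sum_univ_two]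
    · refine ⟨!![v 0, 1; v 1, 0], ?_, ?_⟩
      · rw [Matrix.det_fin_two_of]; simpa using h
      · funext i; fin_cases i <;> simp [Matrix.mulVec, dotProduct, Fin.sum_univ_two]
  let _ : Invertible M := Matrix.invertibleOfIsUnitDet M hM
  let e : (Fin 2 → ℤ_[p]) ≃ₗ[ℤ_[p]] (Fin 2 → ℤ_[p]) := Matrix.toLinearEquiv' M inferInstance
  refine ⟨(Pi.basisFun ℤ_[p] (Fin 2)).map e, ?_⟩
  rw [Module.Basis.map_apply, Pi.basisFun_apply]
  show M.toLin' (Pi.single 0 1) = v
  rw [Matrix.toLin'_apply]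
  exact hcol

end Tmod

end Fermat.Agent.ML
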