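/-
ML (S59) — helper7 — (e-STRICT) leaf 2, main statement of the abstract Tate-module transfer:
`exists_signed_line` (see `ESTRICT_helper7_Abs`).
-/
import Mathlib
import Fermat.Agent.ML.ESTRICT_helper7_Abs

set_option autoImplicit false
set_option linter.unusedSectionVars false
set_option linter.unusedVariables false

namespace Fermat.Agent.ML

open Fermat.Agent.S58 Fermat.Agent.GR

/-- `GQ = Gal(Ω/ℚ)`. -/
local notation "GQ" => (AlgebraicClosure ℚ ≃ₐ[ℚ] AlgebraicClosure ℚ)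

section Tmod

variable {J : Type*} [AddCommGroup J] {p : ℕ} [hp : Fact p.Prime]

/-- hypotheses on the "kernel of reduction" `E₁` -/
structure KerRedData (F : TmodFrame J p) (E1 : AddSubgroup J) : Prop where
  /-- not all `p`-torsion lies in `E₁` -/
  ha : ∃ Q : J, p • Q = 0 ∧ Q ∉ E1
  /-- the `p`-torsion of `J[p^∞]/E₁[p^∞]` is cyclic -/
  hb : ∀ Q Q' : J, (∃ n : ℕ, p ^ n • Q = 0) → (∃ n : ℕ, p ^ n • Q' = 0) → p • Q ∈ E1 →
    p • Q' ∈ E1 → Q ∉ E1 → ∃ a : ℤ, Q' - a • Q ∈ E1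

variable {F : TmodFrame J p} {E1 : AddSubgroup J}

/-- the `p`-power torsion of `J` is `p`-divisible (from the frame) -/
theorem frame_divisible (F : TmodFrame J p) (Q : J) (n : ℕ) (hQ : p ^ n • Q = 0) :
    ∃ R : J, p • R = Q ∧ p ^ (n + 1) • R = 0 := by
  obtain ⟨a, b, rfl⟩ := F.span_level n Q hQ
  refine ⟨a • F.x.1 (n + 1) + b • F.y.1 (n + 1), ?_, ?_⟩
  · rw [smul_add, smul_comm p a, smul_comm p b, TateSeq.smul_succ, TateSeq.smul_succ]
  · rw [smul_add, smul_comm _ a, smul_comm _ b, TateSeq.pow_smul, TateSeq.pow_smul, smul_zero,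
      smul_zero, add_zero]

/-- a nonzero `p`-torsion point of `E₁` -/
theorem KerRedData.exists_torsion (h : KerRedData F E1) :
    ∃ t : J, t ∈ E1 ∧ p • t = 0 ∧ t ≠ 0 := by
  obtain ⟨Q₀, hQ₀, hQ₀E⟩ := h.ha
  have hx1 : p • F.x.1 1 = 0 := by have := TateSeq.pow_smul F.x 1; rwa [pow_one] at this
  have hy1 : p • F.y.1 1 = 0 := by have := TateSeq.pow_smul F.y 1; rwa [pow_one] at this
  have htors : ∀ z : J, p • z = 0 → ∃ n : ℕ, p ^ n • z = 0 := fun z hz => ⟨1, by rwa [pow_one]⟩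
  have h0E : p • Q₀ ∈ E1 := by rw [hQ₀]; exact E1.zero_mem
  obtain ⟨a, ha⟩ := h.hb Q₀ (F.x.1 1) (htors _ hQ₀) (htors _ hx1) h0E
    (by rw [hx1]; exact E1.zero_mem) hQ₀E
  obtain ⟨b, hb⟩ := h.hb Q₀ (F.y.1 1) (htors _ hQ₀) (htors _ hy1) h0E
    (by rw [hy1]; exact E1.zero_mem) hQ₀E
  by_cases hxa : F.x.1 1 - a • Q₀ = 0
  · by_cases hyb : F.y.1 1 - b • Q₀ = 0
    · exfalso
      have ex : F.x.1 1 = a • Q₀ := sub_eq_zero.mp hxa
      have ey : F.y.1 1 = b • Q₀ := sub_eq_zero.mp hyb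
      have h1 : b • F.x.1 1 + (-a) • F.y.1 1 = 0 := by
        rw [ex, ey, smul_smul, smul_smul, ← add_smul]
        have : b * a + -a * b = 0 := by ring
        rw [this, zero_smul]
      obtain ⟨-, hpa⟩ := F.indep b (-a) h1
      have hpa' : (p : ℤ) ∣ a := (dvd_neg).mp hpa
      have hx0 : F.x.1 1 = 0 := by
        rw [ex]
        exact tmod_zsmul_eq_zero hQ₀ hpa'
      have h2 : (1 : ℤ) • F.x.1 1 + (0 : ℤ) • F.y.1 1 = 0 := by
        rw [hx0, smul_zero, zero_smul, add_zero]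
      obtain ⟨hp1, -⟩ := F.indep 1 0 h2
      have := Int.le_of_dvd one_pos hp1
      have hp2 : (2 : ℤ) ≤ p := by exact_mod_cast hp.out.two_le
      omega
    · refine ⟨_, hb, ?_, hyb⟩
      rw [smul_sub, hy1, smul_comm, hQ₀, smul_zero, sub_zero]
  · refine ⟨_, ha, ?_, hxa⟩
    rw [smul_sub, hx1, smul_comm, hQ₀, smul_zero, sub_zero]

/-- the `p`-power torsion of `E₁` is `p`-divisible -/
theorem KerRedData.divisible (h : KerRedData F E1) (Q : J) (hQE : Q ∈ E1)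
    (hQ : ∃ n : ℕ, p ^ n • Q = 0) : ∃ R ∈ E1, p • R = Q := by
  obtain ⟨Q₀, hQ₀, hQ₀E⟩ := h.ha
  obtain ⟨n, hn⟩ := hQ
  obtain ⟨R₀, hR₀, hR₀t⟩ := frame_divisible F Q n hn
  obtain ⟨c, hc⟩ := h.hb Q₀ R₀ ⟨1, by rwa [pow_one]⟩ ⟨n + 1, hR₀t⟩
    (by rw [hQ₀]; exact E1.zero_mem) (by rw [hR₀]; exact hQE) hQ₀E
  refine ⟨_, hc, ?_⟩
  rw [smul_sub, hR₀, smul_comm, hQ₀, smul_zero, sub_zero]

/-- a primitive vector of `inSub` spans it, as soon as not all `p`-torsion lies in `E₁` -/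
theorem exists_basis_of_primitive (F : TmodFrame J p) (E1 : AddSubgroup J)
    (ha : ∃ Q : J, p • Q = 0 ∧ Q ∉ E1) (v : Fin 2 → ℤ_[p]) (hvS : v ∈ inSub F E1)
    (hvp : ¬ ∃ v' : Fin 2 → ℤ_[p], v = (p : ℤ_[p]) • v') :
    ∃ b : Module.Basis (Fin 2) ℤ_[p] (Fin 2 → ℤ_[p]),
      inSub F E1 = Submodule.span ℤ_[p] {b 0} := by
  classical
  have hsat : ∀ (m : ℕ) (u : Fin 2 → ℤ_[p]), (p : ℤ_[p]) ^ m • u ∈ inSub F E1 →
      u ∈ inSub F E1 := by
    intro m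
    induction m with
    | zero => intro u hu; rwa [pow_zero, one_smul] at hu
    | succ m ih =>
      intro u hu
      apply ih
      apply inSub_saturated
      rwa [smul_smul, ← pow_succ']
  obtain ⟨b, hb0⟩ := exists_basis_of_not_dvd v hvp
  refine ⟨b, le_antisymm ?_ ?_⟩
  · -- `inSub ≤ span`
    intro w hw
    have hrepr : w = b.repr w 0 • b 0 + b.repr w 1 • b 1 := by
      have := b.sum_repr w
      rw [Fin.sum_univ_two] at this
      exact this.symm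
    set d := b.repr w 1 with hd
    have hd0 : d = 0 := by
      by_contra hdne
      -- `d • b 1 ∈ inSub`
      have h1 : d • b 1 ∈ inSub F E1 := by
        have : d • b 1 = w - b.repr w 0 • b 0 := by
          rw [eq_sub_iff_add_eq, add_comm]; exact hrepr.symm
        rw [this]
        refine (inSub F E1).sub_mem hw ((inSub F E1).smul_mem _ ?_)
        rw [hb0]; exact hvS
      -- hence `b 1 ∈ inSub`
      have h2 : b 1 ∈ inSub F E1 := by
        have hspec := PadicInt.unitCoeff_spec hdne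
        have h3 : (p : ℤ_[p]) ^ d.valuation • ((PadicInt.unitCoeff hdne : ℤ_[p]) • b 1) ∈
            inSub F E1 := by
          rw [smul_smul, mul_comm, ← hspec]
          exact h1
        have h4 := hsat _ _ h3
        have h5 := (inSub F E1).smul_mem (((PadicInt.unitCoeff hdne)⁻¹ : ℤ_[p]ˣ) : ℤ_[p]) h4
        rwa [smul_smul, Units.inv_mul, one_smul] at h5
      -- so everything is in `inSub`, contradicting (a)
      have htop : ∀ u : Fin 2 → ℤ_[p], u ∈ inSub F E1 := by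
        intro u
        have := b.sum_repr u
        rw [Fin.sum_univ_two] at this
        rw [← this]
        refine (inSub F E1).add_mem ((inSub F E1).smul_mem _ ?_) ((inSub F E1).smul_mem _ h2)
        rw [hb0]; exact hvS
      obtain ⟨Q₀, hQ₀, hQ₀E⟩ := ha
      obtain ⟨s, hs⟩ := tmod_exists_tateSeq (J := J) (p := p)
        (fun P hP => by
          obtain ⟨n, hn⟩ := hP
          obtain ⟨R, hR, -⟩ := frame_divisible F P n hn
          exact ⟨R, hR⟩) Q₀ hQ₀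
      obtain ⟨u, hu⟩ := F.psi_surjective s
      apply hQ₀E
      have := htop u 1
      rwa [hu, hs] at this
    rw [hrepr, hd0, zero_smul, add_zero]
    exact Submodule.smul_mem _ _ (Submodule.mem_span_singleton_self _)
  · rw [Submodule.span_le, Set.singleton_subset_iff, hb0]
    exact hvS

/-- a nonzero vector of `inSub` gives a primitive one -/
theorem exists_primitive_of_ne_zero (F : TmodFrame J p) (E1 : AddSubgroup J)
    (w : Fin 2 → ℤ_[p]) (hwS : w ∈ inSub F E1) (hw : w ≠ 0) :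
    ∃ v : Fin 2 → ℤ_[p], v ∈ inSub F E1 ∧ ¬ ∃ v' : Fin 2 → ℤ_[p], v = (p : ℤ_[p]) • v' := by
  classical
  have hex : ∃ k : ℕ, ¬ ∃ m' : Fin 2 → ℤ_[p], w = (p : ℤ_[p]) ^ k • m' := by
    by_contra hcon
    push Not at hcon
    exact hw (tmod_pi_separated w hcon)
  have hk := Nat.find_spec hex
  have hk0 : Nat.find hex ≠ 0 := by
    intro h0
    rw [h0] at hk
    exact hk ⟨w, by rw [pow_zero, one_smul]⟩
  obtain ⟨k, hk1⟩ := Nat.exists_eq_succ_of_ne_zero hk0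
  have hmin : ∃ m' : Fin 2 → ℤ_[p], w = (p : ℤ_[p]) ^ k • m' := by
    have := Nat.find_min hex (m := k) (by omega)
    exact not_not.mp this
  obtain ⟨v, hv⟩ := hmin
  have hsat : ∀ (m : ℕ) (u : Fin 2 → ℤ_[p]), (p : ℤ_[p]) ^ m • u ∈ inSub F E1 →
      u ∈ inSub F E1 := by
    intro m
    induction m with
    | zero => intro u hu; rwa [pow_zero, one_smul] at hu
    | succ m ih =>
      intro u hu
      apply ih
      apply inSub_saturated
      rwa [smul_smul, ← pow_succ']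
  refine ⟨v, hsat k v (hv ▸ hwS), ?_⟩
  rintro ⟨v', rfl⟩
  apply hk
  rw [hk1]
  exact ⟨v', by rw [hv, smul_smul, ← pow_succ]⟩

/-- the vectors of `inSub` are the multiples of one basis vector -/
theorem KerRedData.exists_basis (h : KerRedData F E1) :
    ∃ b : Module.Basis (Fin 2) ℤ_[p] (Fin 2 → ℤ_[p]),
      inSub F E1 = Submodule.span ℤ_[p] {b 0} := by
  classical
  obtain ⟨t₁, ht₁E, ht₁p, ht₁0⟩ := h.exists_torsion
  obtain ⟨τ, hτ1, hτE⟩ := exists_tateSeq_in E1 h.divisible t₁ ht₁E ht₁p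
  obtain ⟨v, hv⟩ := F.psi_surjective τ
  have hvS : v ∈ inSub F E1 := fun k => by rw [hv]; exact hτE k
  -- `v` is not divisible by `p`
  have hvp : ¬ ∃ v' : Fin 2 → ℤ_[p], v = (p : ℤ_[p]) • v' := by
    rintro ⟨v', rfl⟩
    apply ht₁0
    have e : (p : ℤ_[p]) • v' = p • v' := by rw [← Nat.cast_smul_eq_nsmul ℤ_[p]]
    rw [e, map_nsmul] at hv
    have h1 : (p • F.psi v' : ↥(TateSeq J p)).1 1 = p • (F.psi v').1 1 := rfl
    have h2 : p • (F.psi v').1 1 = 0 := by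
      have := TateSeq.pow_smul (F.psi v') 1; rwa [pow_one] at this
    rw [← hτ1, ← hv, h1, h2]
  exact exists_basis_of_primitive F E1 h.ha v hvS hvp

end Tmod

section Galois

variable {J : Type*} [AddCommGroup J] {p : ℕ} [hp : Fact p.Prime] (F : TmodFrame J p)
  (act : GQ →* AddMonoid.End J) (hcont : TmodCont p act)

/-- **leaf 2 (abstract Tate-module transfer)**: a signed ordinary line from the kernel of
reduction. -/
theorem exists_signed_line (D I : Subgroup GQ) (E1 : AddSubgroup J) (h : KerRedData F E1)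
    (hc : ∀ σ ∈ D, ∀ Q ∈ E1, (∃ n : ℕ, p ^ n • Q = 0) → act σ Q ∈ E1)
    (hd : ∀ σ ∈ I, ∀ Q : J, (∃ n : ℕ, p ^ n • Q = 0) → act σ Q - Q ∈ E1)
    (he : ∀ σ ∈ D, (∀ Q : J, (∃ n : ℕ, p ^ n • Q = 0) → act σ Q - Q ∈ E1) ∨
      (∀ Q : J, (∃ n : ℕ, p ^ n • Q = 0) → act σ Q + Q ∈ E1)) :
    ∃ L : Submodule ℤ_[p] (F.rep act hcont).V,
      (∃ b : Module.Basis (Fin 2) ℤ_[p] (F.rep act hcont).V, L = ℤ_[p] ∙ b 0) ∧
      (∀ σ ∈ D, ∀ v ∈ L, (F.rep act hcont).ρ σ v ∈ L) ∧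
      (∀ σ ∈ I, ∀ v : (F.rep act hcont).V, (F.rep act hcont).ρ σ v - v ∈ L) ∧
      (∀ σ ∈ D, ∃ z : ℤ_[p], z * z = 1 ∧
        ∀ v : (F.rep act hcont).V, (F.rep act hcont).ρ σ v - z • v ∈ L) := by
  obtain ⟨b, hb⟩ := h.exists_basis
  have key1 : ∀ σ ∈ D, ∀ v : Fin 2 → ℤ_[p], v ∈ inSub F E1 → F.endo (act σ) v ∈ inSub F E1 := by
    intro σ hσ v hv k
    rw [TmodFrame.psi_endo_apply]
    exact hc σ hσ _ (hv k) ⟨k, TateSeq.pow_smul _ k⟩
  have key2 : ∀ σ ∈ I, ∀ v : Fin 2 → ℤ_[p], F.endo (act σ) v - v ∈ inSub F E1 := by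
    intro σ hσ v k
    rw [psi_sub_comp, TmodFrame.psi_endo_apply]
    exact hd σ hσ _ ⟨k, TateSeq.pow_smul _ k⟩
  have key3 : ∀ σ ∈ D, ∃ z : ℤ_[p], z * z = 1 ∧
      ∀ v : Fin 2 → ℤ_[p], F.endo (act σ) v - z • v ∈ inSub F E1 := by
    intro σ hσ
    rcases he σ hσ with h1 | h1
    · refine ⟨1, by ring, fun v k => ?_⟩
      rw [one_smul, psi_sub_comp, TmodFrame.psi_endo_apply]
      exact h1 _ ⟨k, TateSeq.pow_smul _ k⟩
    · refine ⟨-1, by ring, fun v k => ?_⟩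
      rw [neg_one_smul, sub_neg_eq_add, psi_add_comp, TmodFrame.psi_endo_apply]
      exact h1 _ ⟨k, TateSeq.pow_smul _ k⟩
  exact ⟨inSub F E1, ⟨b, hb⟩, key1, key2, key3⟩

/-- **leaf 2, variant without (b)**: if some element of `I` acts nontrivially on the Tate module
(e.g. because `det = ε`), the line exists as soon as not all `p`-torsion lies in `E₁`. -/
theorem exists_signed_line_of_nontrivial (D I : Subgroup GQ) (E1 : AddSubgroup J)
    (ha : ∃ Q : J, p • Q = 0 ∧ Q ∉ E1)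
    (hnt : ∃ σ ∈ I, (F.rep act hcont).ρ σ ≠ 1)
    (hc : ∀ σ ∈ D, ∀ Q ∈ E1, (∃ n : ℕ, p ^ n • Q = 0) → act σ Q ∈ E1)
    (hd : ∀ σ ∈ I, ∀ Q : J, (∃ n : ℕ, p ^ n • Q = 0) → act σ Q - Q ∈ E1)
    (he : ∀ σ ∈ D, (∀ Q : J, (∃ n : ℕ, p ^ n • Q = 0) → act σ Q - Q ∈ E1) ∨
      (∀ Q : J, (∃ n : ℕ, p ^ n • Q = 0) → act σ Q + Q ∈ E1)) :
    ∃ L : Submodule ℤ_[p] (F.rep act hcont).V,
      (∃ b : Module.Basis (Fin 2) ℤ_[p] (F.rep act hcont).V, L = ℤ_[p] ∙ b 0) ∧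
      (∀ σ ∈ D, ∀ v ∈ L, (F.rep act hcont).ρ σ v ∈ L) ∧
      (∀ σ ∈ I, ∀ v : (F.rep act hcont).V, (F.rep act hcont).ρ σ v - v ∈ L) ∧
      (∀ σ ∈ D, ∃ z : ℤ_[p], z * z = 1 ∧
        ∀ v : (F.rep act hcont).V, (F.rep act hcont).ρ σ v - z • v ∈ L) := by
  have key1 : ∀ σ ∈ D, ∀ v : Fin 2 → ℤ_[p], v ∈ inSub F E1 → F.endo (act σ) v ∈ inSub F E1 := by
    intro σ hσ v hv k
    rw [TmodFrame.psi_endo_apply]
    exact hc σ hσ _ (hv k) ⟨k, TateSeq.pow_smul _ k⟩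
  have key2 : ∀ σ ∈ I, ∀ v : Fin 2 → ℤ_[p], F.endo (act σ) v - v ∈ inSub F E1 := by
    intro σ hσ v k
    rw [psi_sub_comp, TmodFrame.psi_endo_apply]
    exact hd σ hσ _ ⟨k, TateSeq.pow_smul _ k⟩
  have key3 : ∀ σ ∈ D, ∃ z : ℤ_[p], z * z = 1 ∧
      ∀ v : Fin 2 → ℤ_[p], F.endo (act σ) v - z • v ∈ inSub F E1 := by
    intro σ hσ
    rcases he σ hσ with h1 | h1
    · refine ⟨1, by ring, fun v k => ?_⟩
      rw [one_smul, psi_sub_comp, TmodFrame.psi_endo_apply]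
      exact h1 _ ⟨k, TateSeq.pow_smul _ k⟩
    · refine ⟨-1, by ring, fun v k => ?_⟩
      rw [neg_one_smul, sub_neg_eq_add, psi_add_comp, TmodFrame.psi_endo_apply]
      exact h1 _ ⟨k, TateSeq.pow_smul _ k⟩
  -- a nonzero vector of `inSub`
  obtain ⟨σ, hσI, hσ1⟩ := hnt
  have hex : ∃ v : Fin 2 → ℤ_[p], F.endo (act σ) v - v ≠ 0 := by
    by_contra hcon
    push Not at hcon
    apply hσ1
    apply LinearMap.ext
    intro v
    exact sub_eq_zero.mp (hcon v)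
  obtain ⟨v₀, hv₀⟩ := hex
  obtain ⟨v, hvS, hvp⟩ := exists_primitive_of_ne_zero F E1 _ (key2 σ hσI v₀) hv₀
  obtain ⟨b, hb⟩ := exists_basis_of_primitive F E1 ha v hvS hvp
  exact ⟨inSub F E1, ⟨b, hb⟩, key1, key2, key3⟩

end Galois

end Fermat.Agent.ML
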