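/-
ML (S59) — helper7 — **[RHO-W] (e-STRICT) interface**: the `p`-adic Tate module of a semistable model
`W` with multiplicative reduction at the odd prime `p` is strictly ordinary at `p`
(field `strict` of helper1's `RhoWData`), stated against helper1's `RhoWFrame`.

ALL CLOSED (files `ML/ESTRICT_helper7_*`): `eStrict : EStrictStatement` in
`ML/ESTRICT_helper7_Main.lean`, `eStrictSign : EStrictSignStatement` in `ML/ESTRICT_helper7_Sign.lean`,
`nodalDivPoly : NodalDivPolyStatement` in `ML/ESTRICT_helper7_Main.lean`.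

Route: (Sign) `det = ε` + an ordinary line on whose quotient every element of the decomposition
group acts by a sign ⇒ strictly ordinary; (Abs/AbsMain) the abstract Tate-module transfer
(S58/TMOD vocabulary) for a subgroup `E₁` of `J` (kernel of reduction) with (a) not all `p`-torsion
in `E₁`, (c) `D`-stable, (d) `I` trivial modulo `E₁`, (e) `D` acts by a sign modulo `E₁`, plus a
nontrivial element of inertia (from `det = ε`); (Lucas/DivPoly/Red/Points) the `p`-th division
polynomial of a nodal cubic in characteristic `p` is `b₂^((p-1)/2) X^((p²-p)/2)`, whence (a) and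
"a `p`-power torsion point with unit abscissa has `p`-multiple outside `E₁`"; (NormF/Gal/Main) the
component class (`depthPt`) on the nodal model and the decomposition group give (c), (d), (e).
-/
import Mathlib
import Fermat.Agent.ML.RHOW_helper1_Frame

set_option autoImplicit false

open Polynomial IsLocalRing
open scoped WeierstrassCurve.Affine

namespace Fermat.Agent.ML

/-- `Ω = AlgebraicClosure ℚ`. -/
local notation "Ω" => AlgebraicClosure ℚ

/-- the absolute Galois group. -/
local notation "GQ" => (AlgebraicClosure ℚ ≃ₐ[ℚ] AlgebraicClosure ℚ)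

/-- **(e-STRICT)**: for a semistable model with `p ∣ Δ`, `p` odd, the Tate-module representation of
every frame is strictly ordinary at `p`, given that its determinant is cyclotomic (helper1's
clause `det_cyclotomic`, proved about the same `rep`). -/
def EStrictStatement : Prop :=
  ∀ (p : ℕ) [Fact p.Prime], p ≠ 2 → ∀ W : WeierstrassCurve ℤ, W.Δ ≠ 0 → W.IsSemistableModel →
    (p : ℤ) ∣ W.Δ → ∀ R : RhoWFrame W p, R.rep.DetIsCyclotomic p → R.rep.IsStrictOrdinaryAt p

/-- an ordinary line at the place `P` such that every element of the decomposition group acts on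
the quotient by a sign. -/
def HasSignedOrdinaryLineAt {A : Type} [CommRing A] [IsLocalRing A] (ρ : GaloisRepAdic A)
    (P : ValuationSubring Ω) : Prop :=
  ∃ L : Submodule A ρ.V,
    (∃ b : Module.Basis (Fin 2) A ρ.V, L = A ∙ b 0) ∧
    (∀ σ ∈ P.decompositionSubgroup ℚ, ∀ v ∈ L, ρ.ρ σ v ∈ L) ∧
    (∀ σ ∈ P.inertiaSubgroupIn ℚ, ∀ v : ρ.V, ρ.ρ σ v - v ∈ L) ∧
    (∀ σ ∈ P.decompositionSubgroup ℚ, ∃ z : A, z * z = 1 ∧ ∀ v : ρ.V, ρ.ρ σ v - z • v ∈ L)

/-- **leaf 1 (linear algebra)**: `det = ε` and signed ordinary lines at all places over `p` give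
strict ordinarity. -/
def EStrictSignStatement : Prop :=
  ∀ {A : Type} [CommRing A] [IsLocalRing A] (ρ : GaloisRepAdic A) (p : ℕ),
    ρ.DetIsCyclotomic p →
    (∀ P : ValuationSubring Ω, P.LiesOverPrime p → HasSignedOrdinaryLineAt ρ P) →
    ρ.IsStrictOrdinaryAt p

/-- **leaf 3 (algebra)**: the `p`-th division polynomial of a nodal Weierstrass cubic
`y² + a₁ x y = x³ + a₂ x²` (`b₂ ≠ 0`) over a field of characteristic `p` (odd). -/
def NodalDivPolyStatement : Prop :=
  ∀ (k : Type) [Field k] (p : ℕ) [Fact p.Prime] [CharP k p], p ≠ 2 →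
    ∀ W : WeierstrassCurve k, W.a₃ = 0 → W.a₄ = 0 → W.a₆ = 0 → W.b₂ ≠ 0 →
      W.preΨ (p : ℤ) = C (W.b₂ ^ ((p - 1) / 2)) * X ^ ((p ^ 2 - p) / 2)

end Fermat.Agent.ML
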