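/-
ML (S59) — helper7 — (e-STRICT) leaf 1, linear algebra: `det = ε` and, at every place over `p`, an
ordinary line on whose quotient the decomposition group acts by signs, give strict ordinarity.
-/
import Mathlib
import Fermat.Agent.ML.IFACE_helper7_EStrict

set_option autoImplicit false

open Polynomial IsLocalRing

namespace Fermat.Agent.ML

/-- the determinant of an endomorphism which is triangular with diagonal `x, z` in a basis -/
theorem det_eq_mul_of_triangular {A : Type*} [CommRing A] {V : Type*} [AddCommGroup V] [Module A V]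
    (b : Module.Basis (Fin 2) A V) (f : V →ₗ[A] V) (x z c : A) (h0 : f (b 0) = x • b 0)
    (h1 : f (b 1) = z • b 1 + c • b 0) : LinearMap.det f = x * z := by
  rw [← LinearMap.det_toMatrix b, Matrix.det_fin_two]
  have e00 : LinearMap.toMatrix b b f 0 0 = x := by
    rw [LinearMap.toMatrix_apply, h0, map_smul, Module.Basis.repr_self]
    simp
  have e10 : LinearMap.toMatrix b b f 1 0 = 0 := by
    rw [LinearMap.toMatrix_apply, h0, map_smul, Module.Basis.repr_self]
    simp
  have e11 : LinearMap.toMatrix b b f 1 1 = z := by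
    rw [LinearMap.toMatrix_apply, h1, map_add, map_smul, map_smul, Module.Basis.repr_self,
      Module.Basis.repr_self]
    simp
  rw [e00, e10, e11, mul_zero, sub_zero]

/-- **leaf 1** -/
theorem eStrictSign : EStrictSignStatement := by
  intro A _ _ ρ p hdet h
  refine ⟨hdet.1, fun P hP => ?_⟩
  obtain ⟨L, ⟨b, hb⟩, hD, hI, hz⟩ := h P hP
  refine ⟨L, ⟨b, hb⟩, hD, hI, fun σ hσ => ?_⟩
  obtain ⟨z, hz1, hzv⟩ := hz σ hσ
  have h0 : ρ.ρ σ (b 0) ∈ L :=
    hD σ hσ _ (by rw [hb]; exact Submodule.mem_span_singleton_self _)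
  rw [hb, Submodule.mem_span_singleton] at h0
  obtain ⟨x, hx⟩ := h0
  have h1 := hzv (b 1)
  rw [hb, Submodule.mem_span_singleton] at h1
  obtain ⟨c, hc⟩ := h1
  have hdet' : LinearMap.det (ρ.ρ σ) = x * z :=
    det_eq_mul_of_triangular b (ρ.ρ σ) x z c hx.symm (by rw [hc]; abel)
  refine ⟨x, z, ?_, hzv, ?_⟩
  · intro w hw
    rw [hb, Submodule.mem_span_singleton] at hw
    obtain ⟨d, rfl⟩ := hw
    rw [map_smul, ← hx, smul_comm]
  · intro n a ha
    have h2 := hdet.2 n σ a ha
    rw [hdet'] at h2
    have e : x - (a : A) * z = z * (x * z - (a : A)) := by linear_combination (-x) * hz1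
    rw [e]
    exact Ideal.mul_mem_left _ _ h2

end Fermat.Agent.ML
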