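/-
ML (S59) — helper1 — **[RHO-W] the nodal normal form, decomposition-group version**: helper3's
`S58.exists_gnode_model` (NORMF58) with the translation parameters `r, t` fixed by EVERY ring
endomorphism fixing the coefficients and preserving the maximal ideal (not only the inertia-like
ones); the proof is helper3's, the only change is in the last step (`σ A₆ ∈ 𝔪`).
-/
import Mathlib
import Fermat.Agent.S58.NORMF58_helper3

set_option autoImplicit false
set_option linter.unusedSectionVars false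

namespace Fermat.Agent.ML

open Fermat.Agent.Tate WeierstrassCurve Fermat.Agent.S58

variable {K : Type*} [Field K] {A : ValuationSubring K}

section Main

variable [CharZero K]

/-- **the normal form for one choice of the sign of `s = √c₄`** -/
theorem gnode_model_of_sign_dec [DecidableEq K] [IsAlgClosed K]
    (L : LogVal A) (W : WeierstrassCurve K)
    (h₁ : W.a₁ ∈ A) (h₂ : W.a₂ ∈ A) (h₃ : W.a₃ ∈ A) (h₄ : W.a₄ ∈ A) (h₆ : W.a₆ ∈ A)
    (hΔ0 : W.Δ ≠ 0) (hΔ : W.Δ ∈ A.nonunits) (hc₄ : W.c₄ ∉ A.nonunits)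
    (s : K) (hs : s ^ 2 = W.c₄) (hx : (-(W.c₆ - s ^ 3) / 2)⁻¹ ∈ A) :
    ∃ (r t α β : K) (C : S13.GNodeCtx K A), C.L = L ∧ r ∈ A ∧ t ∈ A ∧
      C.IsModel (WeierstrassCurve.VariableChange.mk 1 r 0 t • W).toAffine α β ∧
      ∀ σ : K →+* K, σ W.a₁ = W.a₁ → σ W.a₂ = W.a₂ → σ W.a₃ = W.a₃ → σ W.a₄ = W.a₄ →
        σ W.a₆ = W.a₆ → (∀ a ∈ A.nonunits, σ a ∈ A.nonunits) → σ r = r ∧ σ t = t := by
  classical
  have h2K : (2 : K) ≠ 0 := two_ne_zero
  -- integrality of the standard quantities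
  have two_mem : (2 : K) ∈ A := by exact_mod_cast natCast_mem A 2
  have three_mem : (3 : K) ∈ A := by exact_mod_cast natCast_mem A 3
  have four_mem : (4 : K) ∈ A := by exact_mod_cast natCast_mem A 4
  have hb₂A : W.b₂ ∈ A := by
    rw [b₂]; exact A.add_mem _ _ (A.pow_mem h₁ 2) (A.mul_mem _ _ four_mem h₂)
  have hb₄A : W.b₄ ∈ A := by
    rw [b₄]; exact A.add_mem _ _ (A.mul_mem _ _ two_mem h₄) (A.mul_mem _ _ h₁ h₃)
  have hb₆A : W.b₆ ∈ A := by
    rw [b₆]; exact A.add_mem _ _ (A.pow_mem h₃ 2) (A.mul_mem _ _ four_mem h₆)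
  have h24A : (24 : K) ∈ A := by exact_mod_cast natCast_mem A 24
  have hc₄A : W.c₄ ∈ A := by
    rw [c₄]; exact sub_mem (A.pow_mem hb₂A 2) (A.mul_mem _ _ h24A hb₄A)
  have hc₆A : W.c₆ ∈ A := by
    rw [c₆]
    have h36 : (36 : K) ∈ A := by exact_mod_cast natCast_mem A 36
    have h216 : (216 : K) ∈ A := by exact_mod_cast natCast_mem A 216
    exact sub_mem (A.add_mem _ _ (neg_mem (A.pow_mem hb₂A 3))
      (A.mul_mem _ _ (A.mul_mem _ _ h36 hb₂A) hb₄A)) (A.mul_mem _ _ h216 hb₆A)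
  -- `c₆` is a unit
  have hc₆u : W.c₆ ∉ A.nonunits := by
    intro h
    apply hc₄
    have h3 : W.c₄ ^ 3 ∈ A.nonunits := by
      have e : W.c₄ ^ 3 = 1728 * W.Δ + W.c₆ ^ 2 := by linear_combination -W.c_relation
      rw [e]
      have h1728 : (1728 : K) ∈ A := by exact_mod_cast natCast_mem A 1728
      exact A.nonunits.add_mem (mul_mem_nonunits_right h1728 hΔ) (pow_mem_nonunits h (by norm_num))
    exact mem_nonunits_of_pow_mem h3
  -- the parameters
  set x : K := -(W.c₆ - s ^ 3) / 2 with hxdef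
  set y : K := -(W.c₆ + s ^ 3) / 2 with hydef
  have hxy : x * y = -(432 * W.Δ) := by
    rw [hxdef, hydef]
    linear_combination (1 / 4 : K) * W.c_relation
      - (1 / 4 : K) * (s ^ 4 + s ^ 2 * W.c₄ + W.c₄ ^ 2) * hs
  have h432 : (432 : K) ≠ 0 := by norm_num
  have hx0 : x ≠ 0 := by
    intro h
    rw [h, zero_mul] at hxy
    exact hΔ0 (by
      have : 432 * W.Δ = 0 := by linear_combination hxy
      exact (mul_eq_zero.mp this).resolve_left h432)
  set r : K := (s - W.b₂) / 12 with hrdef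
  set t : K := -(W.a₁ * r + W.a₃) / 2 with htdef
  set A₆ : K := W.a₆ + r * W.a₄ + r ^ 2 * W.a₂ + r ^ 3 - t * W.a₃ - t ^ 2 - r * t * W.a₁ with hA₆def
  have hs12 : s = 12 * r + W.b₂ := by rw [hrdef]; ring
  -- the critical point equations
  have hr : 6 * r ^ 2 + W.b₂ * r + W.b₄ = 0 := by
    have hs' := hs
    rw [hs12, c₄] at hs'
    linear_combination (1 / 24 : K) * hs'
  have hB2 : W.a₃ + r * W.a₁ + 2 * t = 0 := by rw [htdef]; ring
  have hB3 : W.a₄ + 2 * r * W.a₂ - t * W.a₁ + 3 * r ^ 2 = 0 := by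
    have hr' := hr
    rw [b₂, b₄] at hr'
    rw [htdef]
    linear_combination (1 / 2 : K) * hr'
  have hB4 : 4 * A₆ = 4 * r ^ 3 + W.b₂ * r ^ 2 + 2 * W.b₄ * r + W.b₆ := by
    rw [hA₆def, htdef, b₂, b₄, b₆]; ring
  have hB6 : 8 * r ^ 3 + W.b₂ * r ^ 2 - W.b₆ + 4 * A₆ = 0 := by
    linear_combination hB4 + 2 * r * hr
  have hB7 : 864 * A₆ = -(W.c₆ + s ^ 3) := by
    rw [hs12, c₆]
    linear_combination 216 * hB4 + (432 * r + 36 * W.b₂) * hr
  have hA₆y : 432 * A₆ = y := by rw [hydef]; linear_combination (1 / 2 : K) * hB7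
  -- `A₆ = -Δ / x ∈ 𝔪`, `A₆ ≠ 0`
  have hA₆x : A₆ = -W.Δ * x⁻¹ := by
    field_simp
    linear_combination (1 / 432 : K) * hxy + (x / 432) * hA₆y
  have hA₆m : A₆ ∈ A.nonunits := by
    rw [hA₆x]
    exact mul_mem_nonunits_left (A.nonunits.neg_mem hΔ) hx
  have hA₆0 : A₆ ≠ 0 := by
    rw [hA₆x]
    exact mul_ne_zero (neg_ne_zero.mpr hΔ0) (inv_ne_zero hx0)
  have hA₆A : A₆ ∈ A := A.nonunits_le hA₆m
  -- `b₂` is a unit as soon as `24 ∈ 𝔪`
  have hb₂u : (24 : K) ∈ A.nonunits → W.b₂ ∉ A.nonunits := by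
    intro h24 hb
    apply hc₄
    rw [c₄]
    exact A.nonunits.sub_mem (pow_mem_nonunits hb (by norm_num)) (mul_mem_nonunits_left h24 hb₄A)
  -- `r ∈ A`
  have hrA : r ∈ A := by
    by_contra hrA
    have hr0 : r ≠ 0 := by rintro h; exact hrA (h ▸ A.zero_mem)
    set ρ := r⁻¹ with hρdef
    have hρ : ρ ∈ A.nonunits := normf_inv_mem_nonunits hrA
    have hρA : ρ ∈ A := A.nonunits_le hρ
    have h6e : (6 : K) + W.b₂ * ρ + W.b₄ * ρ ^ 2 = 0 := by
      rw [hρdef]; field_simp; linear_combination hr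
    have h8e : (8 : K) + W.b₂ * ρ + (4 * A₆ - W.b₆) * ρ ^ 3 = 0 := by
      rw [hρdef]; field_simp; linear_combination hB6
    set u' : K := -(W.b₂ + W.b₄ * ρ) with hu'def
    set c : K := W.b₄ - (4 * A₆ - W.b₆) * ρ with hcdef
    have hcA : c ∈ A :=
      sub_mem hb₄A (A.mul_mem _ _ (sub_mem (A.mul_mem _ _ four_mem hA₆A) hb₆A) hρA)
    have h6 : (6 : K) = ρ * u' := by rw [hu'def]; linear_combination h6e
    have h2 : (2 : K) = ρ ^ 2 * c := by rw [hcdef]; linear_combination h8e - h6e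
    have hu'A : u' ∈ A := neg_mem (A.add_mem _ _ hb₂A (A.mul_mem _ _ hb₄A hρA))
    have h6m : (6 : K) ∈ A.nonunits := by rw [h6]; exact mul_mem_nonunits_left hρ hu'A
    have h24m : (24 : K) ∈ A.nonunits := by
      have : (24 : K) = 4 * 6 := by norm_num
      rw [this]; exact mul_mem_nonunits_right four_mem h6m
    have h18m : (18 : K) ∈ A.nonunits := by
      have : (18 : K) = 3 * 6 := by norm_num
      rw [this]; exact mul_mem_nonunits_right three_mem h6m
    have hu'u : u' ∉ A.nonunits := by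
      intro h
      apply hb₂u h24m
      have e : W.b₂ = -u' + -(W.b₄ * ρ) := by rw [hu'def]; ring
      rw [e]
      exact A.nonunits.add_mem (A.nonunits.neg_mem h)
        (A.nonunits.neg_mem (mul_mem_nonunits_right hb₄A hρ))
    have hu'0 : u' ≠ 0 := by rintro h; exact hu'u (h ▸ A.nonunits.zero_mem)
    have hu'inv : u'⁻¹ ∈ A := normf_inv_mem hu'u
    have hρ6 : ρ = 6 * u'⁻¹ := by
      field_simp
      linear_combination -h6
    have h1 : (1 : K) = 18 * (u'⁻¹ ^ 2 * c) := by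
      have h2' : (2 : K) = 36 * u'⁻¹ ^ 2 * c := by rw [h2, hρ6]; ring
      have : (2 : K) * (1 - 18 * (u'⁻¹ ^ 2 * c)) = 0 := by linear_combination h2'
      have := (mul_eq_zero.mp this).resolve_left h2K
      linear_combination this
    apply normf_one_not_mem (A := A)
    rw [h1]
    exact mul_mem_nonunits_left h18m (A.mul_mem _ _ (A.pow_mem hu'inv 2) hcA)
  -- `t ∈ A`
  have htA : t ∈ A := by
    by_contra htA
    have ht0 : t ≠ 0 := by rintro h; exact htA (h ▸ A.zero_mem)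
    set τ := t⁻¹ with hτdef
    have hτ : τ ∈ A.nonunits := normf_inv_mem_nonunits htA
    have e2 : (2 : K) = -(W.a₁ * r + W.a₃) * τ := by
      rw [hτdef]; field_simp; linear_combination -hB2
    have e1 : W.a₁ = (3 * r ^ 2 + 2 * W.a₂ * r + W.a₄) * τ := by
      rw [hτdef]; field_simp; linear_combination -hB3
    have h2m : (2 : K) ∈ A.nonunits := by
      rw [e2]
      exact mul_mem_nonunits_right (neg_mem (A.add_mem _ _ (A.mul_mem _ _ h₁ hrA) h₃)) hτ
    have h1m : W.a₁ ∈ A.nonunits := by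
      rw [e1]
      exact mul_mem_nonunits_right (A.add_mem _ _ (A.add_mem _ _
        (A.mul_mem _ _ three_mem (A.pow_mem hrA 2)) (A.mul_mem _ _ (A.mul_mem _ _ two_mem h₂) hrA))
        h₄) hτ
    apply hc₄
    have hb₂m : W.b₂ ∈ A.nonunits := by
      rw [b₂]
      have : (4 : K) * W.a₂ = 2 * (2 * W.a₂) := by ring
      rw [this]
      exact A.nonunits.add_mem (pow_mem_nonunits h1m (by norm_num))
        (mul_mem_nonunits_left h2m (A.mul_mem _ _ two_mem h₂))
    rw [c₄]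
    have : (24 : K) * W.b₄ = 2 * (12 * W.b₄) := by ring
    rw [this]
    have h12 : (12 : K) ∈ A := by exact_mod_cast natCast_mem A 12
    exact A.nonunits.sub_mem (pow_mem_nonunits hb₂m (by norm_num))
      (mul_mem_nonunits_left h2m (A.mul_mem _ _ h12 hb₄A))
  -- the slopes
  obtain ⟨d, hd⟩ := IsAlgClosed.exists_pow_nat_eq s (by norm_num : 0 < 2)
  set α : K := (-W.a₁ + d) / 2 with hαdef
  set β : K := (-W.a₁ - d) / 2 with hβdef
  have hsum : α + β = -W.a₁ := by rw [hαdef, hβdef]; ring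
  have hprod : α * β = -(W.a₂ + 3 * r) := by
    have hs12' := hs12
    rw [b₂] at hs12'
    rw [hαdef, hβdef]
    linear_combination (-(1 / 4 : K)) * hd - (1 / 4 : K) * hs12'
  have hdiff : α - β = d := by rw [hαdef, hβdef]; ring
  have hαβA : ∀ z : K, z ^ 2 + W.a₁ * z + -(W.a₂ + 3 * r) = 0 → z ∈ A := by
    intro z hz
    by_contra hzA
    apply sq_add_not_mem hzA h₁ (neg_mem (A.add_mem _ _ h₂ (A.mul_mem _ _ three_mem hrA)))
    rw [hz]; exact A.zero_mem
  have hαA : α ∈ A := by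
    apply hαβA
    have : W.a₁ = -(α + β) := by rw [hsum]; ring
    linear_combination (-α) * this - hprod
  have hβA : β ∈ A := by
    apply hαβA
    have : W.a₁ = -(α + β) := by rw [hsum]; ring
    linear_combination (-β) * this - hprod
  have hdA : d ∈ A := by rw [← hdiff]; exact sub_mem hαA hβA
  have hd4 : d ^ 4 = W.c₄ := by rw [← hs, ← hd]; ring
  have hc₄0 : W.c₄ ≠ 0 := by rintro h; exact hc₄ (h ▸ A.nonunits.zero_mem)
  have hd0 : d ≠ 0 := by
    rintro h
    rw [h] at hd4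
    exact hc₄0 (by rw [← hd4]; ring)
  have hwd : L.w d = 0 := by
    have h1 : L.w (d ^ 4) = 0 := by rw [hd4]; exact L.eq_zero_of_unit hc₄A hc₄
    rw [L.map_pow hd0] at h1
    have : ((4 : ℕ) : ℚ) * L.w d = 0 := h1
    have h4 : ((4 : ℕ) : ℚ) ≠ 0 := by norm_num
    exact (mul_eq_zero.mp this).resolve_left h4
  -- the context and the model
  refine ⟨r, t, α, β,
    { L := L, γ := d, a₄ := 0, a₆ := A₆, γ_ne := hd0, γ_unit := hwd, a₆_ne := hA₆0,
      a₆_pos := L.pos_of_mem_nonunits hA₆0 hA₆m, a₄_le := Or.inl rfl }, rfl, hrA, htA, ?_, ?_⟩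
  · refine ⟨hαA, hβA, hdiff, ?_, ?_, ?_, ?_, ?_⟩
    · show (WeierstrassCurve.VariableChange.mk 1 r 0 t • W).a₁ = -(α + β)
      rw [variableChange_a₁, hsum]
      simp
    · show (WeierstrassCurve.VariableChange.mk 1 r 0 t • W).a₂ = -(α * β)
      rw [variableChange_a₂, hprod]
      simp
    · show (WeierstrassCurve.VariableChange.mk 1 r 0 t • W).a₃ = 0
      rw [variableChange_a₃]
      simp only [Units.val_one, inv_one, one_pow, one_mul]
      exact hB2
    · show (WeierstrassCurve.VariableChange.mk 1 r 0 t • W).a₄ = 0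
      rw [variableChange_a₄]
      simp only [Units.val_one, inv_one, one_pow, one_mul]
      linear_combination hB3
    · show (WeierstrassCurve.VariableChange.mk 1 r 0 t • W).a₆ = A₆
      rw [variableChange_a₆]
      simp only [Units.val_one, inv_one, one_pow, one_mul]
      exact hA₆def.symm
  · -- `r`, `t` are fixed
    intro σ f₁ f₂ f₃ f₄ f₆ hσ
    have fb₂ : σ W.b₂ = W.b₂ := by
      rw [b₂]; simp only [map_add, map_mul, map_pow, map_ofNat, f₁, f₂]
    have fb₄ : σ W.b₄ = W.b₄ := by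
      rw [b₄]; simp only [map_add, map_mul, map_ofNat, f₁, f₃, f₄]
    have fb₆ : σ W.b₆ = W.b₆ := by
      rw [b₆]; simp only [map_add, map_mul, map_pow, map_ofNat, f₃, f₆]
    have fc₄ : σ W.c₄ = W.c₄ := by
      rw [c₄]; simp only [map_sub, map_mul, map_pow, map_ofNat, fb₂, fb₄]
    have fc₆ : σ W.c₆ = W.c₆ := by
      rw [c₆]; simp only [map_sub, map_add, map_neg, map_mul, map_pow, map_ofNat, fb₂, fb₄, fb₆]
    have hσs : σ s = s := by
      have h1 : (σ s - s) * (σ s + s) = 0 := by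
        have : σ s ^ 2 = s ^ 2 := by rw [← map_pow, hs, fc₄]
        linear_combination this
      rcases mul_eq_zero.mp h1 with h | h
      · exact sub_eq_zero.mp h
      · exfalso
        have hneg : σ s = -s := by linear_combination h
        have hσA₆ : σ A₆ = x / 432 := by
          have e : A₆ = -(W.c₆ + s ^ 3) / 864 := by linear_combination (1 / 864 : K) * hB7
          rw [e, map_div₀, map_neg, map_add, map_pow, fc₆, hneg, hxdef, map_ofNat]
          ring
        have hσA₆m : σ A₆ ∈ A.nonunits := hσ A₆ hA₆m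
        apply hc₆u
        have e : W.c₆ = -(432 * (A₆ + σ A₆)) := by
          rw [hσA₆]
          have : x + y = -W.c₆ := by rw [hxdef, hydef]; ring
          linear_combination this + hA₆y
        rw [e]
        have h432A : (432 : K) ∈ A := by exact_mod_cast natCast_mem A 432
        exact A.nonunits.neg_mem (mul_mem_nonunits_right h432A (A.nonunits.add_mem hA₆m hσA₆m))
    have hσr : σ r = r := by
      rw [hrdef, map_div₀, map_sub, hσs, fb₂, map_ofNat]
    refine ⟨hσr, ?_⟩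
    rw [htdef, map_div₀, map_neg, map_add, map_mul, f₁, f₃, hσr, map_ofNat]

/-- **the nodal normal form of a Weierstrass curve with multiplicative reduction** (all residue
characteristics): a translation `(x, y) ↦ (x + r, y + t)` with `r, t ∈ A` fixed by inertia
brings `W` to the form `(y - α x)(y - β x) = x³ + a₆'`, `α - β` a unit, `a₆' ∈ 𝔪`. -/
theorem exists_gnode_model_dec [DecidableEq K] [IsAlgClosed K]
    (A : ValuationSubring K) (L : Tate.LogVal A) (W : WeierstrassCurve K)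
    (h₁ : W.a₁ ∈ A) (h₂ : W.a₂ ∈ A) (h₃ : W.a₃ ∈ A) (h₄ : W.a₄ ∈ A) (h₆ : W.a₆ ∈ A)
    (hΔ0 : W.Δ ≠ 0) (hΔ : W.Δ ∈ A.nonunits) (hc₄ : W.c₄ ∉ A.nonunits) :
    ∃ (r t α β : K) (C : S13.GNodeCtx K A), C.L = L ∧ r ∈ A ∧ t ∈ A ∧
      C.IsModel (WeierstrassCurve.VariableChange.mk 1 r 0 t • W).toAffine α β ∧
      ∀ σ : K →+* K, σ W.a₁ = W.a₁ → σ W.a₂ = W.a₂ → σ W.a₃ = W.a₃ → σ W.a₄ = W.a₄ →
        σ W.a₆ = W.a₆ → (∀ a ∈ A.nonunits, σ a ∈ A.nonunits) → σ r = r ∧ σ t = t := by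
  obtain ⟨s₀, hs₀⟩ := IsAlgClosed.exists_pow_nat_eq W.c₄ (by norm_num : 0 < 2)
  -- `c₆` is a unit
  have two_mem : (2 : K) ∈ A := by exact_mod_cast natCast_mem A 2
  have hc₆u : W.c₆ ∉ A.nonunits := by
    intro h
    apply hc₄
    have h3 : W.c₄ ^ 3 ∈ A.nonunits := by
      have e : W.c₄ ^ 3 = 1728 * W.Δ + W.c₆ ^ 2 := by linear_combination -W.c_relation
      rw [e]
      have h1728 : (1728 : K) ∈ A := by exact_mod_cast natCast_mem A 1728
      exact A.nonunits.add_mem (mul_mem_nonunits_right h1728 hΔ) (pow_mem_nonunits h (by norm_num))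
    exact mem_nonunits_of_pow_mem h3
  by_cases hx : (-(W.c₆ - s₀ ^ 3) / 2)⁻¹ ∈ A
  · exact gnode_model_of_sign_dec L W h₁ h₂ h₃ h₄ h₆ hΔ0 hΔ hc₄ s₀ hs₀ hx
  · have hy : (-(W.c₆ - (-s₀) ^ 3) / 2)⁻¹ ∈ A := by
      by_contra hy
      apply hc₆u
      have hxm : -(W.c₆ - s₀ ^ 3) / 2 ∈ A.nonunits := by
        have := normf_inv_mem_nonunits hx
        rwa [inv_inv] at this
      have hym : -(W.c₆ - (-s₀) ^ 3) / 2 ∈ A.nonunits := by
        have := normf_inv_mem_nonunits hy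
        rwa [inv_inv] at this
      have e : W.c₆ = -(-(W.c₆ - s₀ ^ 3) / 2 + -(W.c₆ - (-s₀) ^ 3) / 2) := by ring
      rw [e]
      exact A.nonunits.neg_mem (A.nonunits.add_mem hxm hym)
    exact gnode_model_of_sign_dec L W h₁ h₂ h₃ h₄ h₆ hΔ0 hΔ hc₄ (-s₀) (by rw [neg_pow_two]; exact hs₀) hy

end Main

end Fermat.Agent.ML
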