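/-
ML (S59) — helper7 — (e-STRICT), main file: `eStrict : EStrictStatement`.

Part 1: transport of (d)/(e) from the nodal model to the original model along a translation
`(r, t)` fixed by `σ` (via the fixed field of `σ`, as in `S58/ECTATE_helper7_Unip`).
Part 2: over `ℚ̄`: the kernel of reduction of `W⁄ℚ̄` at a place `P | p` has the properties
(a), (c), (d), (e).
Part 3: nontriviality of inertia from `det = ε`, and the assembly.
-/
import Mathlib
import Fermat.Agent.ML.ESTRICT_helper7_Gal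
import Fermat.Agent.ML.RHOW_helper1_NormF
import Fermat.Agent.ML.ESTRICT_helper7_AbsMain
import Fermat.Agent.ML.ESTRICT_helper7_Sign
import Fermat.Agent.ML.IFACE_helper7_EStrict
import Fermat.Agent.S58.ECTATE_helper7_Unip
import Fermat.Agent.RB.REPT_helper1_CycInertia

set_option autoImplicit false
set_option linter.unusedSectionVars false
set_option linter.unusedVariables false

open Polynomial WeierstrassCurve WeierstrassCurve.Affine IsLocalRing
open scoped WeierstrassCurve.Affine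

namespace Fermat.Agent.ML

open Fermat.Agent.Tate Fermat.Agent.EC Fermat.Agent.S13 Fermat.Agent.S58

section Transport

variable {K : Type*} [Field K] [DecidableEq K] [Algebra ℚ K] [CharZero K]
  {A : ValuationSubring K} {p : ℕ} [hp : Fact p.Prime]

/-- **transport of (d)/(e)**: if the translate of `W⁄K` by `(r, t)`, `r ∈ A`, is a nodal model and
`σ` (stabilising `A`) fixes `r`, `t` and an element of nonzero valuation, then `σ P - P ∈ E₁` for all
`p`-power torsion points of `W` (slopes fixed) or `σ P + P ∈ E₁` for all of them (slopes swapped). -/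
theorem transport_dec (W : WeierstrassCurve ℤ) (r t α β : K) (C : GNodeCtx K A) (hr : r ∈ A)
    (hM : C.IsModel (VariableChange.mk 1 r 0 t • (W.toAffine⁄K)).toAffine α β)
    (hpA : (p : K) ∈ A.nonunits) (hp2 : p ≠ 2) (hW : IsIntegralCurve A (W.toAffine⁄K))
    (σ : K ≃ₐ[ℚ] K) (hσA : ∀ a : K, a ∈ A ↔ σ a ∈ A) (hσr : σ r = r) (hσt : σ t = t)
    {π : K} (hπ0 : π ≠ 0) (hπ : C.L.w π ≠ 0) (hσπ : σ π = π) :
    (σ α = α ∧ ∀ P : (W.toAffine⁄K).Point, (∃ n : ℕ, p ^ n • P = 0) → σ • P - P ∈ kerRed hW) ∨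
    (σ α = β ∧ ∀ P : (W.toAffine⁄K).Point, (∃ n : ℕ, p ^ n • P = 0) → σ • P + P ∈ kerRed hW) := by
  -- the fixed field of `σ`
  let F₀ : IntermediateField ℚ K := FixedBy.intermediateField ℚ K σ
  let r' : F₀ := ⟨r, hσr⟩
  let t' : F₀ := ⟨t, hσt⟩
  let σ' : K ≃ₐ[F₀] K := { σ.toRingEquiv with commutes' := fun x => x.2 }
  have hσσ' : ∀ x : K, σ' x = σ x := fun x => rfl
  let W_F : WeierstrassCurve F₀ := W.map (algebraMap ℤ F₀)
  let C₀ : VariableChange F₀ := ⟨1, r', 0, t'⟩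
  have h1 : (W_F.toAffine⁄K) = (W.toAffine⁄K) := by
    show (W.map (algebraMap ℤ F₀)).map (algebraMap F₀ K) = W.map (algebraMap ℤ K)
    rw [WeierstrassCurve.map_map]
    congr 1
  have hC₀ : C₀.baseChange K = VariableChange.mk 1 r 0 t := by
    show VariableChange.mk (Units.map (algebraMap F₀ K : F₀ →* K) 1) (algebraMap F₀ K r')
      (algebraMap F₀ K 0) (algebraMap F₀ K t') = _
    rw [map_one, map_zero]
    rfl
  have h2 : ((C₀ • W_F).toAffine⁄K) = VariableChange.mk 1 r 0 t • (W.toAffine⁄K) := by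
    have := baseChange_variableChange W_F C₀ K
    rw [hC₀] at this
    rw [← h1]
    exact this
  have hM' : C.IsModel ((C₀ • W_F).toAffine⁄K) α β := by
    rw [h2]; exact hM
  have hW' : IsIntegralCurve A ((C₀ • W_F).toAffine⁄K) := gnode_isIntegralCurve58 hM'
  have hσA' : ∀ a : K, a ∈ A ↔ σ' a ∈ A := hσA
  have key := smul_sub_or_add_mem_kerRed (C₀ • W_F).toAffine C hM' σ' hσA' hπ0 hπ hσπ hpA hp2 hW'
  -- transport along the change of variables and the identification of the two base changes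
  let e := vcPtBaseChange W_F C₀ K
  have he : ∀ Q, σ' • e Q = e (σ' • Q) := fun Q => smul_vcPtBaseChange W_F C₀ σ' Q
  have hc : ∀ P' : (W_F.toAffine⁄K).Point, ptCast h1 (σ' • P') = σ • ptCast h1 P' :=
    fun P' => ptCast_smul W_F.toAffine W.toAffine h1 σ' σ hσσ' P'
  let E : ((C₀ • W_F).toAffine⁄K).Point ≃+ (W.toAffine⁄K).Point := e.trans (ptCast h1)
  have hE : ∀ Q, σ • E Q = E (σ' • Q) := by
    intro Q
    show σ • ptCast h1 (e Q) = ptCast h1 (e (σ' • Q))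
    rw [← he, hc]
  have hEk : ∀ Q, E Q ∈ kerRed hW ↔ Q ∈ kerRed hW' := by
    intro Q
    rcases Q with _ | ⟨x, y, h⟩
    · have h0 : (Point.zero : ((C₀ • W_F).toAffine⁄K).Point) = 0 := rfl
      rw [h0, map_zero]
      exact iff_of_true (kerRed hW).zero_mem (kerRed hW').zero_mem
    · show ptCast h1 (e (Point.some x y h)) ∈ kerRed hW ↔ _
      rw [vcPtBaseChange_some, ptCast_some, some_mem_kerRed_iff, some_mem_kerRed_iff, not_iff_not,
        hC₀]
      show ((1 : Kˣ) : K) ^ 2 * x + r ∈ A ↔ x ∈ A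
      rw [Units.val_one, one_pow, one_mul]
      constructor
      · intro hx
        have := sub_mem hx hr
        rwa [add_sub_cancel_right] at this
      · intro hx
        exact A.add_mem _ _ hx hr
  rcases key with ⟨hα, h⟩ | ⟨hα, h⟩
  · left
    refine ⟨hα, fun P hP => ?_⟩
    obtain ⟨Q, rfl⟩ := E.surjective P
    obtain ⟨n, hn⟩ := hP
    have hQ : p ^ n • Q = 0 := E.injective (by rw [map_nsmul, hn, map_zero])
    rw [hE, ← map_sub, hEk]
    exact h Q ⟨n, hQ⟩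
  · right
    refine ⟨hα, fun P hP => ?_⟩
    obtain ⟨Q, rfl⟩ := E.surjective P
    obtain ⟨n, hn⟩ := hP
    have hQ : p ^ n • Q = 0 := E.injective (by rw [map_nsmul, hn, map_zero])
    rw [hE, ← map_add, hEk]
    exact h Q ⟨n, hQ⟩

end Transport

section Concrete

/-- `Ω = AlgebraicClosure ℚ`. -/
local notation "Ω" => AlgebraicClosure ℚ

/-- the absolute Galois group. -/
local notation "GQ" => (AlgebraicClosure ℚ ≃ₐ[ℚ] AlgebraicClosure ℚ)

theorem mem_iff_of_mem_decomposition {P : ValuationSubring Ω} {σ : GQ}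
    (hσ : σ ∈ P.decompositionSubgroup ℚ) (a : Ω) : a ∈ P ↔ σ a ∈ P := by
  constructor
  · intro ha
    exact decomposition_map_mem (K := ℚ) (⟨σ, hσ⟩ : P.decompositionSubgroup ℚ) ha
  · intro ha
    have := decomposition_map_mem (K := ℚ) (⟨σ⁻¹, inv_mem hσ⟩ : P.decompositionSubgroup ℚ) ha
    have e : (σ⁻¹ : GQ) (σ a) = a := σ.symm_apply_apply a
    rw [← e]
    exact this

theorem mem_nonunits_of_mem_iff {K : Type*} [Field K] {A : ValuationSubring K} {σ : K →+* K}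
    (hσA : ∀ a : K, a ∈ A ↔ σ a ∈ A) {a : K} (ha : a ∈ A.nonunits) : σ a ∈ A.nonunits := by
  have h1 : a⁻¹⁻¹ ∈ A.nonunits := by rwa [inv_inv]
  rw [ValuationSubring.inv_mem_nonunits_iff] at h1
  have h2 : (σ a)⁻¹⁻¹ ∈ A.nonunits := by
    rw [ValuationSubring.inv_mem_nonunits_iff]
    rcases h1 with h | h
    · left
      rw [← map_inv₀, h, map_zero]
    · right
      rw [← map_inv₀]
      exact fun hc => h ((hσA _).mpr hc)
  rwa [inv_inv] at h2

theorem mem_decomposition_of_mem_inertia {P : ValuationSubring Ω} {σ : GQ}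
    (hσ : σ ∈ P.inertiaSubgroupIn ℚ) : σ ∈ P.decompositionSubgroup ℚ := by
  obtain ⟨τ, -, rfl⟩ := hσ
  exact τ.2

/-- **the kernel of reduction at a place over `p`** of a model with multiplicative reduction at
`p` (odd): properties (a), (c), (d), (e). -/
theorem estrict_geometric (W : WeierstrassCurve ℤ) (hΔ0 : W.Δ ≠ 0) {p : ℕ} [hp : Fact p.Prime]
    (hp2 : p ≠ 2) (hpΔ : (p : ℤ) ∣ W.Δ) (hpc₄ : ¬ (p : ℤ) ∣ W.c₄) (P : ValuationSubring Ω)
    (hP : P.LiesOverPrime p) :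
    ∃ hW : IsIntegralCurve P (W.toAffine⁄Ω),
      (∃ Q : (W.toAffine⁄Ω).Point, p • Q = 0 ∧ Q ∉ kerRed hW) ∧
      (∀ σ ∈ P.decompositionSubgroup ℚ, ∀ Q : (W.toAffine⁄Ω).Point,
        Q ∈ kerRed hW → σ • Q ∈ kerRed hW) ∧
      (∀ σ ∈ P.inertiaSubgroupIn ℚ, ∀ Q : (W.toAffine⁄Ω).Point,
        (∃ n : ℕ, p ^ n • Q = 0) → σ • Q - Q ∈ kerRed hW) ∧
      (∀ σ ∈ P.decompositionSubgroup ℚ,
        (∀ Q : (W.toAffine⁄Ω).Point, (∃ n : ℕ, p ^ n • Q = 0) → σ • Q - Q ∈ kerRed hW) ∨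
        (∀ Q : (W.toAffine⁄Ω).Point, (∃ n : ℕ, p ^ n • Q = 0) → σ • Q + Q ∈ kerRed hW)) := by
  have hpp : p.Prime := hp.out
  have hpA : ((p : ℕ) : Ω) ∈ P.nonunits := hP
  have : Algebra.IsAlgebraic ℚ Ω := AlgebraicClosure.isAlgebraic ℚ
  obtain ⟨L, hL⟩ := exists_logVal P hpp hpA
  have hcoe : ∀ z : ℤ, algebraMap ℤ Ω z = (z : Ω) := fun z => rfl
  have hint : ∀ z : ℤ, algebraMap ℤ Ω z ∈ P := fun z => by rw [hcoe]; exact intCast_mem P z
  have hΔmap : (W.toAffine⁄Ω).Δ = algebraMap ℤ Ω W.Δ := WeierstrassCurve.map_Δ W _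
  have hc₄map : (W.toAffine⁄Ω).c₄ = algebraMap ℤ Ω W.c₄ := WeierstrassCurve.map_c₄ W _
  have hΔΩ : (W.toAffine⁄Ω).Δ ≠ 0 := by rw [hΔmap, hcoe]; exact Int.cast_ne_zero.mpr hΔ0
  obtain ⟨r, t, α, β, C, hCL, hr, ht, hM, hfix⟩ := exists_gnode_model_dec P L (W.toAffine⁄Ω)
    (hint _) (hint _) (hint _) (hint _) (hint _) hΔΩ
    (by rw [hΔmap, hcoe]; exact intCast_mem_nonunits P hpA hpΔ)
    (by rw [hc₄map, hcoe]; exact intCast_notMem_nonunits P hpp hpA hpc₄)
  have hW : IsIntegralCurve P (W.toAffine⁄Ω) := ⟨hint _, hint _, hint _, hint _, hint _⟩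
  have hσcoe : ∀ (σ : GQ) (z : ℤ), (σ : Ω →+* Ω) (algebraMap ℤ Ω z) = algebraMap ℤ Ω z :=
    fun σ z => by rw [hcoe]; exact map_intCast _ z
  have hp0 : ((p : ℕ) : Ω) ≠ 0 := Nat.cast_ne_zero.mpr hpp.ne_zero
  have hwp : C.L.w ((p : ℕ) : Ω) ≠ 0 := by rw [hCL, hL]; exact one_ne_zero
  -- the dichotomy for the decomposition group
  have hdec : ∀ σ ∈ P.decompositionSubgroup ℚ,
      (σ α = α ∧ ∀ Q : (W.toAffine⁄Ω).Point, (∃ n : ℕ, p ^ n • Q = 0) →
        σ • Q - Q ∈ kerRed hW) ∨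
      (σ α = β ∧ ∀ Q : (W.toAffine⁄Ω).Point, (∃ n : ℕ, p ^ n • Q = 0) →
        σ • Q + Q ∈ kerRed hW) := by
    intro σ hσ
    have hσA : ∀ a : Ω, a ∈ P ↔ σ a ∈ P := mem_iff_of_mem_decomposition hσ
    obtain ⟨hσr, hσt⟩ := hfix (σ : Ω →+* Ω) (hσcoe σ _) (hσcoe σ _) (hσcoe σ _) (hσcoe σ _)
      (hσcoe σ _) (fun a ha => mem_nonunits_of_mem_iff (σ := (σ : Ω →+* Ω)) hσA ha)
    exact transport_dec W r t α β C hr hM hpA hp2 hW σ hσA hσr hσt hp0 hwp (map_natCast σ p)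
  refine ⟨hW, ?_, ?_, ?_, ?_⟩
  · -- (a)
    set W₁ : WeierstrassCurve Ω := VariableChange.mk 1 r 0 t • (W.toAffine⁄Ω) with hW₁
    have hΔ₁ : W₁.toAffine.Δ ≠ 0 := by
      show W₁.Δ ≠ 0
      rw [hW₁, WeierstrassCurve.variableChange_Δ]
      simpa using hΔΩ
    have hW₁i : IsIntegralCurve P W₁.toAffine := gnode_isIntegralCurve58 hM
    obtain ⟨Q, hQ, hQk⟩ := exists_torsion_not_mem_kerRed P W₁.toAffine (model_a₁_mem C hM)
      (model_a₂_mem C hM) hM.a₃ (model_a₄_mem C hM) (model_a₆_mem C hM) hΔ₁ hpA hp2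
      (model_b₂_unit C hM) hW₁i
    let E := vcPtEquiv (W.toAffine⁄Ω) (VariableChange.mk 1 r 0 t)
    refine ⟨E Q, by rw [← map_nsmul, hQ, map_zero], ?_⟩
    rcases Q with _ | ⟨x, y, h⟩
    · exfalso
      exact hQk (kerRed hW₁i).zero_mem
    · rw [some_mem_kerRed_iff, not_not] at hQk
      show vcPt _ _ (Point.some x y h) ∉ kerRed hW
      rw [vcPt_some, some_mem_kerRed_iff, not_not]
      show ((1 : Ωˣ) : Ω) ^ 2 * x + r ∈ P
      rw [Units.val_one, one_pow, one_mul]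
      exact P.add_mem _ _ hQk hr
  · -- (c)
    intro σ hσ Q hQ
    have hσA : ∀ a : Ω, a ∈ P ↔ σ a ∈ P := mem_iff_of_mem_decomposition hσ
    exact (smul_mem_kerRed_iff (S := ℚ) W.toAffine σ hσA hW Q).mpr hQ
  · -- (d)
    intro σ hσ Q hQ
    rcases hdec σ (mem_decomposition_of_mem_inertia hσ) with ⟨-, h⟩ | ⟨hα, -⟩
    · exact h Q hQ
    · exfalso
      have h4 : σ α - α ∈ P.nonunits := (inertia_map_mem_and_sub_mem hσ hM.hα).2
      have h5 : σ α - α = -C.γ := by rw [← hM.hγ, hα]; ring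
      rw [h5] at h4
      have := C.L.pos_of_mem_nonunits (neg_ne_zero.mpr C.γ_ne) h4
      rw [C.L.map_neg, C.γ_unit] at this
      exact lt_irrefl _ this
  · -- (e)
    intro σ hσ
    rcases hdec σ hσ with ⟨-, h⟩ | ⟨-, h⟩
    · exact Or.inl h
    · exact Or.inr h

/-- **nontrivial inertia from `det = ε`**: some element of the inertia group at a place over `p`
(odd) acts nontrivially. -/
theorem exists_inertia_rho_ne_one {p : ℕ} [hp : Fact p.Prime] (hp2 : p ≠ 2)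
    (ρ : GaloisRepAdic ℤ_[p]) (hdet : ρ.DetIsCyclotomic p) (P : ValuationSubring Ω)
    (hP : P.LiesOverPrime p) : ∃ σ ∈ P.inertiaSubgroupIn ℚ, ρ.ρ σ ≠ 1 := by
  have hpp : p.Prime := hp.out
  have : NeZero p := ⟨hpp.ne_zero⟩
  obtain ⟨σ, hσ, hcyc⟩ := Fermat.Agent.RB.REPT.exists_mem_inertia_cyc_prime p hP (-1 : (ZMod p)ˣ)
  refine ⟨σ, hσ, fun h1 => ?_⟩
  have hval : ((Fermat.Agent.TW.Kill.cyc p σ : (ZMod p)ˣ) : ZMod p).val = p - 1 := by
    rw [hcyc, Units.val_neg, Units.val_one]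
    obtain ⟨m, rfl⟩ : ∃ m, p = m + 1 := ⟨p - 1, by have := hpp.one_le; omega⟩
    rw [ZMod.val_neg_one]
    rfl
  have hspec : ∀ μ : Ω, μ ^ p ^ 1 = 1 → σ μ = μ ^ (p - 1) := by
    intro μ hμ
    rw [pow_one] at hμ
    rw [Fermat.Agent.TW.Kill.cyc_spec' p σ hμ, hval]
  have hmem := hdet.2 1 σ (p - 1) hspec
  rw [h1, map_one, pow_one] at hmem
  have h2 : (2 : ℤ_[p]) ∈ Ideal.span {((p : ℕ) : ℤ_[p])} := by
    have e : (2 : ℤ_[p]) = (1 - (((p - 1 : ℕ)) : ℤ_[p])) + ((p : ℕ) : ℤ_[p]) := by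
      rw [Nat.cast_sub hpp.one_le]
      push_cast
      ring
    rw [e]
    exact Ideal.add_mem _ hmem (Ideal.subset_span rfl)
  obtain ⟨c, hc⟩ := Ideal.mem_span_singleton'.mp h2
  have h3 := congrArg (PadicInt.toZMod (p := p)) hc
  rw [map_mul, map_natCast, ZMod.natCast_self, mul_zero] at h3
  have h4 : ((2 : ℕ) : ZMod p) = 0 := by
    rw [Nat.cast_ofNat, ← map_ofNat (PadicInt.toZMod (p := p)) 2]
    exact h3.symm
  rw [ZMod.natCast_eq_zero_iff] at h4
  exact hp2 ((Nat.prime_dvd_prime_iff_eq hpp Nat.prime_two).mp h4)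

/-- **(e-STRICT)**. -/
theorem eStrict : EStrictStatement := by
  intro p _ hp2 W hΔ hss hpΔ R hdet
  have hpp : p.Prime := Fact.out
  refine eStrictSign R.rep p hdet ?_
  intro P hP
  obtain ⟨hW, ha, hc, hd, he⟩ := estrict_geometric W hΔ hp2 hpΔ (hss p hpp hpΔ) P hP
  have hnt := exists_inertia_rho_ne_one hp2 R.rep hdet P hP
  exact exists_signed_line_of_nontrivial R.F (wAct W) (wCont W p) (P.decompositionSubgroup ℚ)
    (P.inertiaSubgroupIn ℚ) (kerRed hW) ha hnt (fun σ hσ Q hQ _ => hc σ hσ Q hQ) hd he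

/-- **leaf 3**. -/
theorem nodalDivPoly : NodalDivPolyStatement := fun k _ p _ _ hp2 W h3 h4 h6 hb =>
  preΨ_nodal hp2 W h3 h4 h6 hb

end Concrete

end Fermat.Agent.ML
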