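/-
ML (S59) — helper1 — **[RHO-W, flat] part 3: two integral points of a Weierstrass curve with good
reduction which are congruent modulo the maximal ideal differ by a point of the kernel of
reduction** (`K` a field, `A` a valuation subring, no hypothesis on torsion).
-/
import Mathlib
import Fermat.Agent.Tate.R1_helper8
import Fermat.Agent.Tate.Chord
import Fermat.Agent.Tate.NonsingRed

set_option autoImplicit false
set_option linter.unusedSectionVars false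
set_option linter.unusedVariables false

namespace Fermat.Agent.ML

open WeierstrassCurve WeierstrassCurve.Affine Fermat.Agent.Tate

section SameRed

variable {K : Type*} [Field K] [DecidableEq K] {A : ValuationSubring K}
  {W : WeierstrassCurve.Affine K}

theorem flat_sub_mem_of_add_not_mem {a b : K} (hab : a + b ∉ A.nonunits) (hb : b ∈ A.nonunits) :
    a ∉ A.nonunits := fun ha => hab (A.nonunits.add_mem ha hb)

/-- the slope of the chord/tangent through `P` and `-Q` is not integral when `P ≡ Q`, `P ≠ Q`. -/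
theorem flat_slope_not_mem (hW : IsIntegralCurve A W) (hΔ : W.Δ ∉ A.nonunits)
    {x₁ y₁ x₂ y₂ : K} (h₁ : W.Nonsingular x₁ y₁) (h₂ : W.Nonsingular x₂ y₂)
    (hx₁ : x₁ ∈ A) (hxx : x₁ - x₂ ∈ A.nonunits) (hyy : y₁ - y₂ ∈ A.nonunits)
    (hxy : ¬(x₁ = x₂ ∧ y₁ = W.negY x₂ (W.negY x₂ y₂))) :
    W.slope x₁ x₂ y₁ (W.negY x₂ y₂) ∉ A := by
  have hy₁ : y₁ ∈ A := y_mem_of_x_mem hW h₁.1 hx₁
  have hx₂ : x₂ ∈ A := by
    have : x₂ = x₁ - (x₁ - x₂) := by ring
    rw [this]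
    exact sub_mem hx₁ (A.nonunits_le hxx)
  have hy₂ : y₂ ∈ A := y_mem_of_x_mem hW h₂.1 hx₂
  have hpart := not_partials_mem_of_Δ hW.a₁ hW.a₂ hΔ hx₁ h₁.1
  have hnn : W.negY x₂ (W.negY x₂ y₂) = y₂ := negY_negY ..
  rw [hnn] at hxy
  by_cases hx : x₁ = x₂
  · -- the tangent at `P = -Q`
    subst hx
    have hyne : y₁ ≠ y₂ := fun h => hxy ⟨rfl, h⟩
    have hy1 : y₁ = W.negY x₁ y₂ := (Y_eq_of_X_eq h₁.1 h₂.1 rfl).resolve_left hyne
    have hne : y₁ ≠ W.negY x₁ (W.negY x₁ y₂) := by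
      rw [negY_negY]
      exact hyne
    rw [slope_of_Y_ne rfl hne]
    have hψ : 2 * y₁ + W.a₁ * x₁ + W.a₃ = y₁ - y₂ := by
      have := hy1
      rw [negY] at this
      linear_combination this
    have hden : y₁ - W.negY x₁ y₁ = y₁ - y₂ := by
      rw [negY]
      linear_combination hψ
    have hφ : 3 * x₁ ^ 2 + 2 * W.a₂ * x₁ + W.a₄ - W.a₁ * y₁ ∉ A.nonunits := fun h =>
      hpart ⟨h, by rw [hψ]; exact hyy⟩
    rw [hden]
    exact div_not_mem hφ hyy (sub_ne_zero.mpr hyne)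
  · rw [slope_of_X_ne hx]
    have hD0 : x₁ - x₂ ≠ 0 := sub_ne_zero.mpr hx
    by_cases hN : y₁ - W.negY x₂ y₂ ∈ A.nonunits
    · -- the numerator is small: use the other expression of the slope
      have hψ : 2 * y₁ + W.a₁ * x₁ + W.a₃ ∈ A.nonunits := by
        have e : 2 * y₁ + W.a₁ * x₁ + W.a₃ =
            (y₁ - W.negY x₂ y₂) + (y₁ - y₂) + W.a₁ * (x₁ - x₂) := by
          rw [negY]
          ring
        rw [e]
        exact A.nonunits.add_mem (A.nonunits.add_mem hN hyy) (mul_mem_nonunits_right hW.a₁ hxx)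
      have hφ : 3 * x₁ ^ 2 + 2 * W.a₂ * x₁ + W.a₄ - W.a₁ * y₁ ∉ A.nonunits := fun h =>
        hpart ⟨h, hψ⟩
      have hΦ : x₁ ^ 2 + x₁ * x₂ + x₂ ^ 2 + W.a₂ * (x₁ + x₂) + W.a₄ - W.a₁ * y₁ ∉ A.nonunits := by
        intro h
        apply hφ
        have e : 3 * x₁ ^ 2 + 2 * W.a₂ * x₁ + W.a₄ - W.a₁ * y₁ =
            (x₁ ^ 2 + x₁ * x₂ + x₂ ^ 2 + W.a₂ * (x₁ + x₂) + W.a₄ - W.a₁ * y₁) +
              (x₂ + 2 * x₁ + W.a₂) * (x₁ - x₂) := by ring
        rw [e]
        have h2 : (2 : K) ∈ A := by exact_mod_cast natCast_mem A 2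
        exact A.nonunits.add_mem h (mul_mem_nonunits_right
          (add_mem (add_mem hx₂ (mul_mem h2 hx₁)) hW.a₂) hxx)
      have hid : (y₁ - y₂) * (y₁ - W.negY x₂ y₂) = (x₁ - x₂) *
          (x₁ ^ 2 + x₁ * x₂ + x₂ ^ 2 + W.a₂ * (x₁ + x₂) + W.a₄ - W.a₁ * y₁) := by
        have e₁ := (equation_iff _ _).mp h₁.1
        have e₂ := (equation_iff _ _).mp h₂.1
        rw [negY]
        linear_combination e₁ - e₂
      have hyne : y₁ - y₂ ≠ 0 := by
        intro h0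
        rw [h0, zero_mul] at hid
        rcases mul_eq_zero.mp hid.symm with h | h
        · exact hD0 h
        · apply hΦ
          rw [h]
          exact A.mem_nonunits_iff.mpr (by rw [map_zero]; exact zero_lt_one)
      have e : (y₁ - W.negY x₂ y₂) / (x₁ - x₂) =
          (x₁ ^ 2 + x₁ * x₂ + x₂ ^ 2 + W.a₂ * (x₁ + x₂) + W.a₄ - W.a₁ * y₁) / (y₁ - y₂) := by
        rw [div_eq_div_iff hD0 hyne]
        linear_combination hid
      rw [e]
      exact div_not_mem hΦ hyy hyne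
    · exact div_not_mem hN hxx hD0

/-- **congruent integral points differ by a point of the kernel of reduction** (good
reduction). -/
theorem sub_mem_kerRed_of_congr (hW : IsIntegralCurve A W) (hΔ : W.Δ ∉ A.nonunits)
    {x₁ y₁ x₂ y₂ : K} (h₁ : W.Nonsingular x₁ y₁) (h₂ : W.Nonsingular x₂ y₂)
    (hx₁ : x₁ ∈ A) (hxx : x₁ - x₂ ∈ A.nonunits) (hyy : y₁ - y₂ ∈ A.nonunits) :
    Point.some x₁ y₁ h₁ - Point.some x₂ y₂ h₂ ∈ kerRed hW := by
  have hx₂ : x₂ ∈ A := by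
    have : x₂ = x₁ - (x₁ - x₂) := by ring
    rw [this]
    exact sub_mem hx₁ (A.nonunits_le hxx)
  rw [sub_eq_add_neg, Point.neg_some]
  by_cases hxy : x₁ = x₂ ∧ y₁ = W.negY x₂ (W.negY x₂ y₂)
  · rw [Point.add_of_Y_eq hxy.1 hxy.2]
    exact (kerRed hW).zero_mem
  · rw [Point.add_some hxy, some_mem_kerRed_iff]
    have hl := flat_slope_not_mem hW hΔ h₁ h₂ hx₁ hxx hyy hxy
    have hc : -W.a₂ - x₁ - x₂ ∈ A := sub_mem (sub_mem (neg_mem hW.a₂) hx₁) hx₂
    have hX := sq_add_not_mem hl hW.a₁ hc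
    have e : W.addX x₁ x₂ (W.slope x₁ x₂ y₁ (W.negY x₂ y₂)) =
        W.slope x₁ x₂ y₁ (W.negY x₂ y₂) ^ 2 + W.a₁ * W.slope x₁ x₂ y₁ (W.negY x₂ y₂) +
          (-W.a₂ - x₁ - x₂) := by
      simp only [Affine.addX]
      ring
    rw [e]
    exact hX

end SameRed

end Fermat.Agent.ML
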