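/-
ML (S59) — helper1 — **[HYG-L] part 4: the local input at `p`** for `W[p](ℚ̄)`, `W` semistable,
`p` odd: at every place `A ∣ p` of `ℚ̄` the kernel of reduction `E₁` (of the curve
`(W.map (Int.castRingHom ℚ))⁄ℚ̄`) satisfies

* `σ Q - Q ∈ E₁` for `σ ∈ I_A` and `Q ∈ E[p]`;
* if `E[p] ⊆ E₁` then `I_A` is transitive on `E[p] ∖ 0`.

Good reduction: congruent integral points differ by a point of `E₁` (`ML.sub_mem_kerRed_of_congr`),
and the equality case of `(†')` (helper5's `sum_logVal_zOf_eq_one`: every nonempty inertia-stable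
set of nonzero `p`-torsion points of `E₁` has total `z`-valuation `1`).  Multiplicative reduction:
helper7's `estrict_geometric` (transported along `pointCongr`).
-/
import Mathlib
import Fermat.Agent.FC.P_helper5_Line
import Fermat.Agent.EC.InertiaField_helper5
import Fermat.Agent.MP.ECPEU_helper4_Qbar
import Fermat.Agent.LR.NONEIS_helper3_Main
import Fermat.Agent.ML.FLAT_helper1_SameRed
import Fermat.Agent.ML.ESTRICT_helper7_Main

set_option autoImplicit false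
set_option linter.unusedSectionVars false
set_option linter.unusedVariables false
set_option linter.style.haveILetI false

open WeierstrassCurve WeierstrassCurve.Affine
open scoped WeierstrassCurve.Affine

namespace Fermat.Agent.ML

open Fermat.Agent.Tate Fermat.Agent.LR.NonEis

/-- `Ω = AlgebraicClosure ℚ`. -/
local notation "Ω" => AlgebraicClosure ℚ

/-- the absolute Galois group. -/
local notation "GQ" => (AlgebraicClosure ℚ ≃ₐ[ℚ] AlgebraicClosure ℚ)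

section Good

variable (W' : WeierstrassCurve ℚ) {A : ValuationSubring Ω}

/-- **good reduction: inertia is trivial modulo the kernel of reduction.** -/
theorem hyg_good_sub_mem (hW : IsIntegralCurve A (W'⁄Ω)) (hΔ : (W'⁄Ω).Δ ∉ A.nonunits) {σ : GQ}
    (hσ : σ ∈ A.inertiaSubgroupIn ℚ) (Q : (W'⁄Ω).Point) : σ • Q - Q ∈ kerRed hW := by
  rcases Q with _ | ⟨x, y, h⟩
  · have h0 : (Point.zero : (W'⁄Ω).Point) = 0 := rfl
    have h1 : σ • (0 : (W'⁄Ω).Point) = 0 := rfl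
    rw [h0, h1, sub_zero]
    exact (kerRed hW).zero_mem
  · by_cases hx : x ∈ A
    · have hy : y ∈ A := y_mem_of_x_mem hW h.1 hx
      obtain ⟨hx1, hx2⟩ := inertia_map_mem_and_sub_mem hσ hx
      obtain ⟨hy1, hy2⟩ := inertia_map_mem_and_sub_mem hσ hy
      rw [smul_some]
      exact sub_mem_kerRed_of_congr hW hΔ _ h hx1 hx2 hy2
    · have hQ : (Point.some x y h : (W'⁄Ω).Point) ∈ kerRed hW := by
        rw [some_mem_kerRed_iff]; exact hx
      exact (kerRed hW).sub_mem (Fermat.Agent.FC.smul_mem_kerRed_of_inertia hW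
        (fun a ha => inertia_map_mem_and_sub_mem hσ ha) hQ) hQ

/-- **the equality case of `(†')`: if all of `E[p]` reduces to zero, inertia is transitive on
`E[p] ∖ 0`.** -/
theorem hyg_good_transitive {p : ℕ} (hp : p.Prime) (hodd : p ≠ 2) (hA : A.LiesOverPrime p)
    (hW : IsIntegralCurve A (W'⁄Ω)) (hfin : {Q : (W'⁄Ω).Point | p • Q = 0}.Finite)
    (hall : ∀ Q : (W'⁄Ω).Point, p • Q = 0 → Q ∈ kerRed hW)
    (Q Q' : (W'⁄Ω).Point) (hQ : p • Q = 0) (hQ' : p • Q' = 0) (hQ0 : Q ≠ 0) (hQ'0 : Q' ≠ 0) :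
    ∃ σ ∈ A.inertiaSubgroupIn ℚ, σ • Q = Q' := by
  classical
  have hpA : ((p : ℕ) : Ω) ∈ A.nonunits := hA
  haveI : Algebra.IsAlgebraic ℚ Ω := AlgebraicClosure.isAlgebraic ℚ
  obtain ⟨L, hL⟩ := exists_logVal A hp hpA
  set I : Set GQ := (A.inertiaSubgroupIn ℚ : Set GQ) with hI
  have hval : ∀ y : Ω, y ≠ 0 → (∀ σ ∈ I, σ y = y) → ∃ m : ℤ, L.w y = m := fun y hy hfix =>
    Fermat.Agent.EC.logVal_eq_intCast_of_fixed L hp hA hL y hy hfix
  set T : Finset (W'⁄Ω).Point := hfin.toFinset.erase 0 with hT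
  have hmemT : ∀ R : (W'⁄Ω).Point, R ∈ T ↔ R ≠ 0 ∧ p • R = 0 := by
    intro R
    rw [hT, Finset.mem_erase, Set.Finite.mem_toFinset]
    rfl
  have hTfacts : ∀ R ∈ T, R ≠ 0 ∧ p • R = 0 ∧ Fermat.Agent.EC.xOf R ∉ A := by
    intro R hR
    obtain ⟨h0, h1⟩ := (hmemT R).mp hR
    exact ⟨h0, h1, Fermat.Agent.FC.xOf_notMem_of_mem_kerRed' hW h0 (hall R h1)⟩
  have hTI : ∀ σ ∈ I, ∀ R ∈ T, σ • R ∈ T := by
    intro σ _ R hR
    obtain ⟨h0, h1⟩ := (hmemT R).mp hR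
    exact (hmemT _).mpr ⟨Fermat.Agent.FC.pSmul_ne_zero σ h0, Tate.nsmul_smul_eq_zero σ h1⟩
  set S : Finset (W'⁄Ω).Point := T.filter (fun R => ∃ σ ∈ A.inertiaSubgroupIn ℚ, σ • Q = R)
    with hS
  have hQT : Q ∈ T := (hmemT Q).mpr ⟨hQ0, hQ⟩
  have hQS : Q ∈ S := by
    rw [hS, Finset.mem_filter]
    exact ⟨hQT, 1, Subgroup.one_mem _, one_smul _ _⟩
  have hSsub : S ⊆ T := Finset.filter_subset _ _
  have hSI : ∀ σ ∈ I, ∀ R ∈ S, σ • R ∈ S := by
    intro σ hσ R hR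
    rw [hS, Finset.mem_filter] at hR ⊢
    obtain ⟨hRT, τ, hτ, rfl⟩ := hR
    exact ⟨hTI σ hσ _ hRT, σ * τ, Subgroup.mul_mem _ hσ hτ, mul_smul _ _ _⟩
  have sumS := Fermat.Agent.FC.sum_logVal_zOf_eq_one L hW hp hodd hL I hval S ⟨Q, hQS⟩
    (fun R hR => hTfacts R (hSsub hR)) hSI
  have sumT := Fermat.Agent.FC.sum_logVal_zOf_eq_one L hW hp hodd hL I hval T ⟨Q, hQT⟩
    hTfacts hTI
  have hQ'T : Q' ∈ T := (hmemT Q').mpr ⟨hQ'0, hQ'⟩
  have hpos : ∀ R ∈ T, 0 < L.w (R1.zOf R) := fun R hR =>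
    (Fermat.Agent.S13.logVal_xOf_eq L hW (hTfacts R hR).1 (hTfacts R hR).2.2).2.1
  by_contra hcon
  have hQ'S : Q' ∉ S := by
    intro hmem
    rw [hS, Finset.mem_filter] at hmem
    exact hcon hmem.2
  have hlt := Finset.sum_lt_sum_of_subset (f := fun R => L.w (R1.zOf R)) hSsub hQ'T hQ'S
    (hpos Q' hQ'T) (fun R hR _ => (hpos R hR).le)
  rw [sumS, sumT] at hlt
  exact lt_irrefl _ hlt

end Good

section Main

variable (W : WeierstrassCurve ℤ) {p : ℕ} [Fact p.Prime]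

/-- membership in the kernel of reduction is transported by `pointCongr`. -/
theorem hyg_pointCongr_mem_kerRed {K : Type*} [Field K] [DecidableEq K] {A : ValuationSubring K}
    {W₁ W₂ : Affine K} (h : W₁ = W₂) (hW₁ : IsIntegralCurve A W₁) (hW₂ : IsIntegralCurve A W₂)
    (P : W₁.Point) : pointCongr h P ∈ kerRed hW₂ ↔ P ∈ kerRed hW₁ := by
  subst h
  rfl

/-- **[HYG-L] local input at `p`.** -/
theorem hyg_local_at_p (hΔ : W.Δ ≠ 0) (hss : W.IsSemistableModel) (hp2 : p ≠ 2)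
    (hfin : {Q : ((W.map (Int.castRingHom ℚ))⁄Ω).Point | p • Q = 0}.Finite)
    (A : ValuationSubring Ω) (hA : A.LiesOverPrime p) :
    ∃ E₁ : AddSubgroup ((W.map (Int.castRingHom ℚ))⁄Ω).Point,
      (∀ σ ∈ A.inertiaSubgroupIn ℚ, ∀ Q : ((W.map (Int.castRingHom ℚ))⁄Ω).Point, p • Q = 0 →
        σ • Q - Q ∈ E₁) ∧
      ((∀ Q : ((W.map (Int.castRingHom ℚ))⁄Ω).Point, p • Q = 0 → Q ∈ E₁) →
        ∀ Q Q' : ((W.map (Int.castRingHom ℚ))⁄Ω).Point, p • Q = 0 → p • Q' = 0 → Q ≠ 0 → Q' ≠ 0 →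
          ∃ σ ∈ A.inertiaSubgroupIn ℚ, σ • Q = Q') := by
  have hp : p.Prime := Fact.out
  by_cases hpΔ : (p : ℤ) ∣ W.Δ
  · -- multiplicative reduction
    obtain ⟨hW, ⟨Q₀, hQ₀, hQ₀k⟩, -, hd, -⟩ :=
      estrict_geometric W hΔ hp2 hpΔ (hss p hp hpΔ) A hA
    set e := pointCongr (baseChange_map_castRingHom W) with he
    refine ⟨(kerRed hW).comap e.toAddMonoidHom, ?_, ?_⟩
    · intro σ hσ Q hQ
      show e (σ • Q - Q) ∈ kerRed hW
      rw [map_sub, he, smul_pointCongr_castRingHom]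
      refine hd σ hσ _ ⟨1, ?_⟩
      rw [pow_one, ← map_nsmul, hQ, map_zero]
    · intro hall
      exfalso
      apply hQ₀k
      have h1 : p • e.symm Q₀ = 0 := by rw [← map_nsmul, hQ₀, map_zero]
      have h2 : e (e.symm Q₀) ∈ kerRed hW := hall _ h1
      rwa [AddEquiv.apply_symm_apply] at h2
  · -- good reduction
    obtain ⟨hW, hΔA⟩ := Fermat.Agent.MP.ecpeu_goodRed_intRat W hp hpΔ A hA
    refine ⟨kerRed hW, ?_, ?_⟩
    · intro σ hσ Q _
      exact hyg_good_sub_mem _ hW hΔA hσ Q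
    · intro hall Q Q' hQ hQ' hQ0 hQ'0
      exact hyg_good_transitive _ hp hp2 hA hW hfin hall Q Q' hQ hQ' hQ0 hQ'0

end Main

end Fermat.Agent.ML
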