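/-
ML (S59) — helper1 — **[RHO-W] clause `frob_bad`**: at a prime `q ≠ p` of multiplicative reduction
every Frobenius element at a place `A` over `q` has characteristic polynomial
`(X - s)(X - s q)` on the `p`-adic Tate module, with a sign `s = ± 1` depending only on `A`.

Proof: a Tate sequence in the toric part (`exists_toric_tateSeq`), on which Frobenius acts as
`s q` (`frob_toric_of_gnode_params`); the other eigenvalue from `det = q`.
-/
import Mathlib
import Fermat.Agent.ML.RHOW_helper1_FrobToric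
import Fermat.Agent.ML.RHOW_helper1_NormF
import Fermat.Agent.ML.RHOW_helper1_Frame
import Fermat.Agent.S52x.DET_helper3_Tate

set_option autoImplicit false
set_option linter.unusedSectionVars false
set_option linter.unusedVariables false
set_option linter.style.haveILetI false

namespace Fermat.Agent.ML

open Fermat.Agent.Tate Fermat.Agent.S13 Fermat.Agent.GR Fermat.Agent.S58
open WeierstrassCurve WeierstrassCurve.Affine IsLocalRing Polynomial
open scoped WeierstrassCurve.Affine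

/-- `Ω = AlgebraicClosure ℚ`. -/
local notation "Ω" => AlgebraicClosure ℚ

/-- the absolute Galois group. -/
local notation "GQ" => (AlgebraicClosure ℚ ≃ₐ[ℚ] AlgebraicClosure ℚ)

/-! ### the toric Tate sequence on `W⁄K` -/

section Exist

variable {K : Type*} [Field K] [DecidableEq K] [Algebra ℚ K] [CharZero K]
  {A : ValuationSubring K}

theorem exists_toric_tateSeq_of_gnode_params (W : WeierstrassCurve ℤ) (r t α β : K)
    (C : GNodeCtx K A)
    (hM : C.IsModel (VariableChange.mk 1 r 0 t • (W.toAffine⁄K)).toAffine α β)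
    {p : ℕ} (hp : p.Prime) (hpinv : ∀ n : ℕ, (((p ^ n : ℕ) : K))⁻¹ ∈ A)
    (hcard : Nat.card {P : (W.toAffine⁄K).Point // p • P = 0} = p ^ 2)
    (hdiv : ∀ P : (W.toAffine⁄K).Point, (∃ n : ℕ, p ^ n • P = 0) → ∃ Q, p • Q = P) :
    ∃ x : ↥(TateSeq (W.toAffine⁄K).Point p), x.1 1 ≠ 0 ∧ ∀ k, ToricAt A r (x.1 k) := by
  let VC : VariableChange K := VariableChange.mk 1 r 0 t
  let e := vcPtEquiv (W.toAffine⁄K) VC
  have hint : ∀ n : ℕ, IntTors A (VC • (W.toAffine⁄K)).toAffine (p ^ n) := fun n =>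
    intTors_of_hR1 fun h ht =>
      mem_of_nsmul_eq_zero' (gnode_isIntegralCurve58 hM) (pow_ne_zero n hp.ne_zero) (hpinv n) h ht
  have hcard' : Nat.card {Q : (VC • (W.toAffine⁄K)).toAffine.Point // p • Q = 0} = p ^ 2 := by
    rw [← hcard]
    refine Nat.card_congr (e.toEquiv.subtypeEquiv fun Q => ?_)
    show p • Q = 0 ↔ p • e Q = 0
    rw [← map_nsmul, EmbeddingLike.map_eq_zero_iff]
  have hdiv' : ∀ Q : (VC • (W.toAffine⁄K)).toAffine.Point, (∃ n : ℕ, p ^ n • Q = 0) →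
      ∃ Q', p • Q' = Q := by
    rintro Q ⟨n, hQ⟩
    obtain ⟨P', hP'⟩ := hdiv (e Q) ⟨n, by rw [← map_nsmul, hQ, map_zero]⟩
    refine ⟨e.symm P', ?_⟩
    apply e.injective
    rw [map_nsmul, AddEquiv.apply_symm_apply, hP']
  obtain ⟨x', hx1, hxd⟩ := exists_toric_tateSeq hM hp hint hcard' hdiv'
  refine ⟨⟨fun k => e (x'.1 k), ?_, ?_⟩, ?_, ?_⟩
  · show e (x'.1 0) = 0
    rw [TateSeq.zero_eq x', map_zero]
  · intro k
    show p • e (x'.1 (k + 1)) = e (x'.1 k)
    rw [← map_nsmul, TateSeq.smul_succ x' k]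
  · show e (x'.1 1) ≠ 0
    rw [Ne, EmbeddingLike.map_eq_zero_iff]
    exact hx1
  · intro k
    show ToricAt A r (e (x'.1 k))
    have hd := hxd k
    rcases hQ : x'.1 k with _ | ⟨x, y, h⟩
    · exact toricAt_zero r
    · rw [hQ, GNodeCtx.depthPt_some, GNodeCtx.depth_eq_zero_iff] at hd
      show ToricAt A r (vcPt (W.toAffine⁄K) VC (Point.some x y h))
      rw [vcPt_some, toricAt_some]
      have h4 : vcX VC x - r = x := by simp [vcX, VC]
      rwa [h4]

end Exist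

/-! ### linear algebra -/

section LinAlg

/-- an endomorphism of a free module of rank two over a domain with determinant `q`, and an
eigenvector of eigenvalue `s q`, `s² = 1`, has characteristic polynomial `(X - s)(X - s q)`. -/
theorem charpoly_of_eigenvector {R V : Type*} [CommRing R] [IsDomain R] [AddCommGroup V]
    [Module R V] [Module.Free R V] [Module.Finite R V] (b : Module.Basis (Fin 2) R V)
    (f : Module.End R V) {v : V} (hv : v ≠ 0)
    {s q : R} (hs : s ^ 2 = 1) (hq : q ≠ 0) (hf : f v = (s * q) • v)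
    (hdet : LinearMap.det f = q) : f.charpoly = (X - C s) * (X - C (s * q)) := by
  set M := LinearMap.toMatrix b b f with hM
  have h1 : f.charpoly = X ^ 2 - C M.trace * X + C q := by
    rw [← LinearMap.charpoly_toMatrix f b, Matrix.charpoly_fin_two, LinearMap.det_toMatrix, hdet]
  have h2 : f.charpoly.eval (s * q) = 0 := by
    rw [LinearMap.eval_charpoly, LinearMap.det_eq_zero_iff_ker_ne_bot]
    intro hker
    apply hv
    have hmem : v ∈ LinearMap.ker (algebraMap R (Module.End R V) (s * q) - f) := by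
      rw [LinearMap.mem_ker, LinearMap.sub_apply, Module.algebraMap_end_apply, hf, sub_self]
    rw [hker] at hmem
    exact (Submodule.mem_bot R).mp hmem
  have h3 : (s * q) ^ 2 - M.trace * (s * q) + q = 0 := by
    rw [h1] at h2
    simpa using h2
  have h4 : M.trace = s * (q + 1) := by
    have h5 : q * (q - s * M.trace + 1) = 0 := by
      linear_combination h3 - q ^ 2 * hs
    have h6 : q - s * M.trace + 1 = 0 := (mul_eq_zero.mp h5).resolve_left hq
    linear_combination (-M.trace) * hs - s * h6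
  have e1 : (C q : R[X]) = C s * C (s * q) := by
    rw [← C_mul, ← mul_assoc, ← sq, hs, one_mul]
  have e2 : (C (s * (q + 1)) : R[X]) = C s + C (s * q) := by
    rw [← C_add]
    congr 1
    ring
  rw [h1, h4, e1, e2]
  ring

variable {p : ℕ} [Fact p.Prime]

theorem padicInt_eq_zero_of_forall_mem {x : ℤ_[p]}
    (h : ∀ n : ℕ, x ∈ Ideal.span {((p ^ n : ℕ) : ℤ_[p])}) : x = 0 := by
  have h1 : x ∈ ⨅ n : ℕ, maximalIdeal ℤ_[p] ^ n := by
    rw [Ideal.mem_iInf]
    intro n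
    rw [PadicInt.maximalIdeal_eq_span_p, Ideal.span_singleton_pow]
    have := h n
    rwa [Nat.cast_pow] at this
  rwa [Ideal.iInf_pow_eq_bot_of_isLocalRing _ (maximalIdeal.isMaximal _).ne_top] at h1

end LinAlg

/-! ### Frobenius elements -/

section Frobenius

variable {P : ValuationSubring Ω} {q : ℕ}

/-- the congruence defining a Frobenius element, in elementwise form. -/
theorem rhow_frobenius_sub_pow_mem {φ : GQ} (hφ : P.IsFrobeniusAt φ q) {a : Ω} (ha : a ∈ P) :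
    φ a - a ^ q ∈ P.nonunits := by
  have h := hφ.smul_residue_eq (IsLocalRing.residue P ⟨a, ha⟩)
  rw [← IsLocalRing.ResidueField.residue_smul, ← map_pow, ← sub_eq_zero, ← map_sub,
    IsLocalRing.residue_eq_zero_iff, P.valuation_lt_one_iff] at h
  rw [P.mem_nonunits_iff]
  exact h

/-- the sign does not depend on the Frobenius element. -/
theorem nodeSign_eq_of_frobenius {φ φ' : GQ} (hφ : P.IsFrobeniusAt φ q)
    (hφ' : P.IsFrobeniusAt φ' q) {α β : Ω} (hα : α ∈ P) (hγ : α - β ∉ P.nonunits)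
    (h : (φ α = α ∧ φ β = β) ∨ (φ α = β ∧ φ β = α))
    (h' : (φ' α = α ∧ φ' β = β) ∨ (φ' α = β ∧ φ' β = α)) :
    nodeSign φ α = nodeSign φ' α := by
  have hd : φ α - φ' α ∈ P.nonunits := by
    have := P.nonunits.sub_mem (rhow_frobenius_sub_pow_mem hφ hα)
      (rhow_frobenius_sub_pow_mem hφ' hα)
    rwa [sub_sub_sub_cancel_right] at this
  have hne : α ≠ β := by
    intro h0
    apply hγ
    rw [h0, sub_self]
    exact P.nonunits.zero_mem
  rcases h with ⟨h1, -⟩ | ⟨h1, -⟩ <;> rcases h' with ⟨h2, -⟩ | ⟨h2, -⟩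
  · rw [nodeSign_of_eq h1, nodeSign_of_eq h2]
  · exfalso
    rw [h1, h2] at hd
    exact hγ hd
  · exfalso
    rw [h1, h2] at hd
    apply hγ
    have := P.nonunits.neg_mem hd
    rwa [neg_sub] at this
  · rw [nodeSign_of_ne (by rw [h1]; exact hne.symm), nodeSign_of_ne (by rw [h2]; exact hne.symm)]

end Frobenius

/-! ### the clause -/

section Final

variable {W : WeierstrassCurve ℤ} {p : ℕ} [Fact p.Prime] (R : RhoWFrame W p)

/-- **`det = ε`** (helper3's `S52x.tate_detIsCyclotomic`). -/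
theorem RhoWFrame.det_cyclotomic (hΔ : W.Δ ≠ 0) (hp2 : p ≠ 2) : R.rep.DetIsCyclotomic p :=
  Fermat.Agent.S52x.tate_detIsCyclotomic W hΔ hp2 R.F

/-- the determinant of a Frobenius element at `q ≠ p` is `q`. -/
theorem RhoWFrame.det_frobenius (hΔ : W.Δ ≠ 0) (hp2 : p ≠ 2) {q : ℕ} (hq : q.Prime)
    (hqp : q ≠ p) {A : ValuationSubring Ω} (hA : A.LiesOverPrime q) {σ : GQ}
    (hσ : A.IsFrobeniusAt σ q) : LinearMap.det (R.rep.ρ σ) = ((q : ℕ) : ℤ_[p]) := by
  rw [← sub_eq_zero]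
  apply padicInt_eq_zero_of_forall_mem
  intro n
  exact (R.det_cyclotomic hΔ hp2).2 n σ q fun μ hμ =>
    frobenius_apply_rootOfUnity hq (not_dvd_pow_of_ne hq hqp n) hA hσ hμ

/-- **the clause `frob_bad`.** -/
theorem RhoWFrame.frob_bad (hΔ : W.Δ ≠ 0) (hss : W.IsSemistableModel) (hp2 : p ≠ 2) (q : ℕ)
    (hq : q.Prime) (hqp : q ≠ p) (hqΔ : (q : ℤ) ∣ W.Δ) (A : ValuationSubring Ω)
    (hA : A.LiesOverPrime q) :
    ∃ s : ℤ_[p], s ^ 2 = 1 ∧ ∀ σ : GQ, A.IsFrobeniusAt σ q →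
      LinearMap.charpoly (R.rep.ρ σ) = (X - C s) * (X - C (s * ((q : ℕ) : ℤ_[p]))) := by
  have hp : p.Prime := Fact.out
  have hqA : ((q : ℕ) : Ω) ∈ A.nonunits := hA
  haveI : Algebra.IsAlgebraic ℚ Ω := AlgebraicClosure.isAlgebraic ℚ
  obtain ⟨L, hL⟩ := exists_logVal A hq hqA
  have hcoe : ∀ z : ℤ, algebraMap ℤ Ω z = (z : Ω) := fun z => rfl
  have hint : ∀ z : ℤ, algebraMap ℤ Ω z ∈ A := fun z => by rw [hcoe]; exact intCast_mem A z
  have hΔmap : (W.toAffine⁄Ω).Δ = algebraMap ℤ Ω W.Δ := WeierstrassCurve.map_Δ W _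
  have hc₄map : (W.toAffine⁄Ω).c₄ = algebraMap ℤ Ω W.c₄ := WeierstrassCurve.map_c₄ W _
  obtain ⟨r, t, α, β, C, hCL, hr, ht, hM, hfix⟩ := exists_gnode_model_dec A L (W.toAffine⁄Ω)
    (hint _) (hint _) (hint _) (hint _) (hint _)
    (by rw [hΔmap, hcoe]; exact Int.cast_ne_zero.mpr hΔ)
    (by rw [hΔmap, hcoe]; exact intCast_mem_nonunits A hqA hqΔ)
    (by rw [hc₄map, hcoe]; exact intCast_notMem_nonunits A hq hqA (hss q hq hqΔ))
  -- Frobenius elements fix `r`, `t` and stabilise `A`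
  have hfr : ∀ σ : GQ, A.IsFrobeniusAt σ q →
      (∀ a : Ω, σ a ∈ A ↔ a ∈ A) ∧ σ r = r ∧ σ t = t := by
    intro σ hσ
    have hdec := hσ.mem_decompositionSubgroup
    have hA' : ∀ a : Ω, σ a ∈ A ↔ a ∈ A := e2_decomp_map_mem_iff hdec
    have hσcoe : ∀ z : ℤ, (σ : Ω →+* Ω) (algebraMap ℤ Ω z) = algebraMap ℤ Ω z := fun z => by
      rw [hcoe]; exact map_intCast _ z
    have hnu : ∀ a ∈ A.nonunits, (σ : Ω →+* Ω) a ∈ A.nonunits := fun a ha =>
      (node_map_mem_nonunits_iff σ hA' a).mpr ha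
    obtain ⟨h1, h2⟩ := hfix (σ : Ω →+* Ω) (hσcoe _) (hσcoe _) (hσcoe _) (hσcoe _) (hσcoe _) hnu
    exact ⟨hA', h1, h2⟩
  obtain ⟨σ₀, hσ₀⟩ := Fermat.Agent.TW.Kill.exists_isFrobeniusAt A hq hA
  have hγ : α - β ∉ A.nonunits := by
    rw [hM.hγ]
    intro h
    have := C.L.pos_of_mem_nonunits C.γ_ne h
    rw [C.γ_unit] at this
    exact lt_irrefl _ this
  -- the toric Tate sequence
  have hpinv : ∀ n : ℕ, (((p ^ n : ℕ) : Ω))⁻¹ ∈ A := fun n =>
    inv_natCast_mem A hq hqA (not_dvd_pow_of_ne hq hqp n)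
  have hcard : Nat.card {P : (W⁄Ω).Point // p • P = 0} = p ^ 2 :=
    Fermat.Agent.EC.card_torsion_eq (discr_baseChange_ne_zero W hΔ) hp hp2
  obtain ⟨x, hx1, hxt⟩ := exists_toric_tateSeq_of_gnode_params W r t α β C hM hp hpinv hcard
    (fun P _ => Fermat.Agent.EC.qbar_divisible W hΔ hp hp2 P)
  obtain ⟨v, hv⟩ := R.F.psi_surjective x
  have hv0 : v ≠ 0 := by
    rintro rfl
    rw [map_zero] at hv
    apply hx1
    rw [← hv]
    rfl
  refine ⟨((nodeSign σ₀ α : ℤ) : ℤ_[p]), ?_, fun σ hσ => ?_⟩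
  · have := congrArg (Int.cast : ℤ → ℤ_[p]) (nodeSign_sq σ₀ α)
    push_cast at this
    exact this
  obtain ⟨hσA, hσr, hσt⟩ := hfr σ hσ
  obtain ⟨hσ₀A, hσ₀r, hσ₀t⟩ := hfr σ₀ hσ₀
  have hs : nodeSign σ α = nodeSign σ₀ α :=
    nodeSign_eq_of_frobenius hσ hσ₀ hM.hα hγ
      (map_slopes_of_gnode_params W r t α β C hM σ hσr hσt)
      (map_slopes_of_gnode_params W r t α β C hM σ₀ hσ₀r hσ₀t)
  have hact : ∀ k, σ • x.1 k = (nodeSign σ₀ α * q) • x.1 k := by
    intro k
    rw [← hs]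
    exact frob_toric_of_gnode_params W r t α β C hM (pow_ne_zero k hp.ne_zero) (hpinv k) σ hσA q
      (fun a ha => rhow_frobenius_sub_pow_mem hσ ha) hσr hσt (x.1 k) (TateSeq.pow_smul x k)
      (hxt k)
  have heig' : R.F.endo (wAct W σ) v =
      (((nodeSign σ₀ α : ℤ) : ℤ_[p]) * ((q : ℕ) : ℤ_[p])) • v := by
    apply R.F.psi_injective
    apply Subtype.ext
    funext k
    have e1 : (((nodeSign σ₀ α : ℤ) : ℤ_[p]) * ((q : ℕ) : ℤ_[p])) • v =
        (nodeSign σ₀ α * (q : ℤ)) • v := by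
      rw [← Int.cast_smul_eq_zsmul ℤ_[p]]
      push_cast
      rfl
    rw [TmodFrame.psi_endo_apply, hv, e1, map_zsmul, hv]
    exact hact k
  have heig : R.rep.ρ σ v = (((nodeSign σ₀ α : ℤ) : ℤ_[p]) * ((q : ℕ) : ℤ_[p])) • v := heig'
  have hq0 : ((q : ℕ) : ℤ_[p]) ≠ 0 := Nat.cast_ne_zero.mpr hq.ne_zero
  have hs2 : ((nodeSign σ₀ α : ℤ) : ℤ_[p]) ^ 2 = 1 := by
    have := congrArg (Int.cast : ℤ → ℤ_[p]) (nodeSign_sq σ₀ α)
    push_cast at this
    exact this
  exact charpoly_of_eigenvector (Pi.basisFun ℤ_[p] (Fin 2)) (R.rep.ρ σ) hv0 hs2 hq0 heig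
    (R.det_frobenius hΔ hp2 hq hqp hA hσ)

end Final

end Fermat.Agent.ML
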