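/-
ML (S59) — helper1 — **[RHO-W] assembly**: `RhoWData W p` from a frame of the Tate module, the
flatness statement at `p` (good reduction) and helper7's strictness statement (multiplicative
reduction).  All other clauses are proved (`RHOW_helper1_{Frame,Resid,FrobBad}`).
-/
import Mathlib
import Fermat.Agent.ML.RHOW_helper1_FrobBad
import Fermat.Agent.ML.RHOW_helper1_Resid

set_option autoImplicit false

open Polynomial IsLocalRing
open scoped WeierstrassCurve.Affine

namespace Fermat.Agent.ML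

/-- **(RHO-W, flat)**: the Tate module of a semistable model with good reduction at `p` is flat
at `p`. -/
def RhoWFlatStatement : Prop :=
  ∀ (p : ℕ) [Fact p.Prime], p ≠ 2 → ∀ W : WeierstrassCurve ℤ, W.Δ ≠ 0 → W.IsSemistableModel →
    ∀ R : RhoWFrame W p, W.IsGoodPrimeFor p → R.rep.IsFlatAt p

/-- **(e-STRICT)**: the Tate module of a semistable model with multiplicative reduction at `p` is
strictly ordinary at `p`. -/
def RhoWStrictStatement : Prop :=
  ∀ (p : ℕ) [Fact p.Prime], p ≠ 2 → ∀ W : WeierstrassCurve ℤ, W.Δ ≠ 0 → W.IsSemistableModel →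
    ∀ R : RhoWFrame W p, (p : ℤ) ∣ W.Δ → R.rep.IsStrictOrdinaryAt p

/-- the data attached to a frame. -/
noncomputable def rhoWData_of_frame {W : WeierstrassCurve ℤ} {p : ℕ} [Fact p.Prime]
    (R : RhoWFrame W p) (hΔ : W.Δ ≠ 0) (hss : W.IsSemistableModel) (hp2 : p ≠ 2)
    (hflat : W.IsGoodPrimeFor p → R.rep.IsFlatAt p)
    (hstrict : (p : ℤ) ∣ W.Δ → R.rep.IsStrictOrdinaryAt p) : RhoWData W p where
  ρ := R.rep
  charpoly_frob := fun ℓ hℓ hℓp hgood A hA σ hσ =>
    R.charpoly_frob hΔ hp2 ℓ hℓ hℓp hgood A hA σ hσ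
  det_cyclotomic := R.det_cyclotomic hΔ hp2
  unramified := fun q hq hqp hgood => R.unramified hp2 q hq hqp hgood
  unipotent := fun q hq hqp => R.unipotent hΔ hss hp2 q hq hqp
  frob_bad := fun q hq hqp hqΔ A hA => R.frob_bad hΔ hss hp2 q hq hqp hqΔ A hA
  flat := hflat
  strict := hstrict
  residual_torsion := R.residual_torsion

/-- **[RHO-W]** from its two remaining leaves. -/
theorem rhoWStatement_of (hF : RhoWFlatStatement) (hS : RhoWStrictStatement) : RhoWStatement := by
  intro p _ hp2 W hΔ hss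
  obtain ⟨R⟩ := nonempty_rhoWFrame W p hΔ hp2
  exact ⟨rhoWData_of_frame R hΔ hss hp2 (hF p hp2 W hΔ hss R) (hS p hp2 W hΔ hss R)⟩

end Fermat.Agent.ML
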