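/-
ML (S59) — helper7 — (e-STRICT) in helper1's form: `rhoWStrict : RhoWStrictStatement`
(`ML/RHOW_helper1_Asm.lean`), from `eStrict` and helper1's `RhoWFrame.det_cyclotomic`.
-/
import Mathlib
import Fermat.Agent.ML.ESTRICT_helper7_Main
import Fermat.Agent.ML.RHOW_helper1_Asm

set_option autoImplicit false

namespace Fermat.Agent.ML

/-- **(e-STRICT)**, helper1's literal. -/
theorem rhoWStrict : RhoWStrictStatement := fun p _ hp2 W hΔ hss R hpΔ =>
  eStrict p hp2 W hΔ hss hpΔ R (R.det_cyclotomic hΔ hp2)

/-- **[RHO-W]** from the flatness statement alone. -/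
theorem rhoWStatement_of_flat (hF : RhoWFlatStatement) : RhoWStatement :=
  rhoWStatement_of hF rhoWStrict

end Fermat.Agent.ML
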