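/-
ML (S59) — helper1 — **[RHO-W, flat] part 2: the chart `z = -x/y` on the kernel of reduction of an
integral Weierstrass curve** (`K` a field, `A` a valuation subring):

* `zOf_injOn_kerRed` : `z` is injective on the kernel of reduction;
* `flat_zw_add` : helper8's `R1.zw_add` with the line and the Vieta relations exported;
* `flat_add_system` : for two points of the kernel of reduction the implicit system of
  `FLAT_helper1_Sys` has a solution in the maximal ideal (no case distinction on the output: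
  doubling, opposite points and the origin are covered).
-/
import Mathlib
import Fermat.Agent.Tate.R1_helper8

set_option autoImplicit false
set_option linter.unusedSectionVars false
set_option linter.unusedVariables false

namespace Fermat.Agent.ML

open WeierstrassCurve WeierstrassCurve.Affine Fermat.Agent.Tate Fermat.Agent.Tate.R1

section General

variable {K : Type*} [Field K] [DecidableEq K] {Γ₀ : Type*} [LinearOrderedCommGroupWithZero Γ₀]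
  {v : Valuation K Γ₀} {W : WeierstrassCurve.Affine K}

/-- `R1.zw_add` with the line `w = l z + n` and the Vieta relations exported. -/
theorem flat_zw_add (hI : IntCoeffs v W.a₁ W.a₂ W.a₃ W.a₄ W.a₆) {r : Γ₀} (hr : r < 1)
    {z₁ w₁ z₂ w₂ : K} (hw₁0 : w₁ ≠ 0) (hw₂0 : w₂ ≠ 0)
    (h₁ : W.Equation (z₁ / w₁) (-1 / w₁)) (h₂ : W.Equation (z₂ / w₂) (-1 / w₂))
    (hc₁ : w₁ = fzw W.a₁ W.a₂ W.a₃ W.a₄ W.a₆ z₁ w₁)
    (hc₂ : w₂ = fzw W.a₁ W.a₂ W.a₃ W.a₄ W.a₆ z₂ w₂)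
    (hz₁ : v z₁ ≤ r) (hz₂ : v z₂ ≤ r) (hw₁ : v w₁ ≤ r * r) (hw₂ : v w₂ ≤ r * r)
    (hxy : ¬(z₁ / w₁ = z₂ / w₂ ∧ -1 / w₁ = W.negY (z₂ / w₂) (-1 / w₂))) :
    ∃ l n z₃ w₃ : K, v l ≤ r * r ∧ v n ≤ r * r ∧ w₃ = l * z₃ + n ∧ w₃ ≠ 0 ∧ v z₃ ≤ r ∧
      v w₃ ≤ r * r ∧
      cA3 W.a₂ W.a₄ W.a₆ l * (z₁ + z₂ + z₃) = -cA2 W.a₁ W.a₂ W.a₃ W.a₄ W.a₆ l n ∧
      cA3 W.a₂ W.a₄ W.a₆ l * (z₁ * z₂ + z₁ * z₃ + z₂ * z₃) = cA1 W.a₁ W.a₃ W.a₄ W.a₆ l n ∧
      cA3 W.a₂ W.a₄ W.a₆ l * (z₁ * z₂ * z₃) = -cA0 W.a₃ W.a₆ n ∧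
      W.addX (z₁ / w₁) (z₂ / w₂) (W.slope (z₁ / w₁) (z₂ / w₂) (-1 / w₁) (-1 / w₂)) = z₃ / w₃ ∧
      W.negAddY (z₁ / w₁) (z₂ / w₂) (-1 / w₁)
        (W.slope (z₁ / w₁) (z₂ / w₂) (-1 / w₁) (-1 / w₂)) = -1 / w₃ ∧
      v (1 - lin13 W.a₁ W.a₃ z₃ w₃) = 1 := by
  have hr1 : r ≤ 1 := hr.le
  have hrr : r * r ≤ r := sq_le_self_of_le_one hr1
  have hD := v_slopeD_eq hI hr hz₁ (hw₁.trans hrr) (hw₂.trans hrr)
  have hD0 : slopeD W.a₁ W.a₂ W.a₃ W.a₄ W.a₆ z₁ w₁ w₂ ≠ 0 := by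
    intro h
    rw [h, map_zero] at hD
    exact zero_ne_one hD
  obtain ⟨l, hl⟩ : ∃ l : K, l * slopeD W.a₁ W.a₂ W.a₃ W.a₄ W.a₆ z₁ w₁ w₂ =
      slopeN W.a₁ W.a₂ W.a₄ z₁ z₂ w₂ := ⟨_, div_mul_cancel₀ _ hD0⟩
  obtain ⟨n, hn⟩ : ∃ n : K, n = w₁ - l * z₁ := ⟨_, rfl⟩
  have hline₁ : w₁ = l * z₁ + n := by rw [hn]; ring
  have hline₂ : w₂ = l * z₂ + n := by
    have hid := slope_identity _ _ _ _ _ hc₁ hc₂
    have h0 : (w₂ - w₁ - l * (z₂ - z₁)) * slopeD W.a₁ W.a₂ W.a₃ W.a₄ W.a₆ z₁ w₁ w₂ = 0 := by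
      linear_combination hid - (z₂ - z₁) * hl
    have h1 := (mul_eq_zero.mp h0).resolve_right hD0
    rw [hn]
    linear_combination h1
  have hlv : v l ≤ r * r := by
    have := congrArg v hl
    rw [map_mul, hD, mul_one] at this
    rw [this]
    exact v_slopeN_le hI hr1 hz₁ hz₂ hw₂
  have hnv : v n ≤ r * r := by
    rw [hn]
    exact v.map_sub_le hw₁ (vle_rmul hlv (hz₁.trans hr1))
  have hA3 := v_cA3_eq hI hr (hlv.trans hrr)
  have hA30 : cA3 W.a₂ W.a₄ W.a₆ l ≠ 0 := by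
    intro h
    rw [h, map_zero] at hA3
    exact zero_ne_one hA3
  obtain ⟨z₃, hz₃⟩ : ∃ z₃ : K, cA3 W.a₂ W.a₄ W.a₆ l * (z₁ + z₂ + z₃) =
      -cA2 W.a₁ W.a₂ W.a₃ W.a₄ W.a₆ l n := by
    refine ⟨-cA2 W.a₁ W.a₂ W.a₃ W.a₄ W.a₆ l n / cA3 W.a₂ W.a₄ W.a₆ l - z₁ - z₂, ?_⟩
    field_simp
    ring
  obtain ⟨w₃, hw₃⟩ : ∃ w₃ : K, w₃ = l * z₃ + n := ⟨_, rfl⟩
  obtain ⟨-, hz₃v, hw₃v, hu, hfin⟩ := two_point_estimates hI hr hz₁ hz₂ hw₁ hw₂ hl hn hz₃ hw₃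
  have hr₁ : cA3 W.a₂ W.a₄ W.a₆ l * z₁ ^ 3 + cA2 W.a₁ W.a₂ W.a₃ W.a₄ W.a₆ l n * z₁ ^ 2 +
      cA1 W.a₁ W.a₃ W.a₄ W.a₆ l n * z₁ + cA0 W.a₃ W.a₆ n = 0 := by
    rw [← restrict_line, ← hline₁, ← hc₁, sub_self]
  have hr₂ : cA3 W.a₂ W.a₄ W.a₆ l * z₂ ^ 3 + cA2 W.a₁ W.a₂ W.a₃ W.a₄ W.a₆ l n * z₂ ^ 2 +
      cA1 W.a₁ W.a₃ W.a₄ W.a₆ l n * z₂ + cA0 W.a₃ W.a₆ n = 0 := by
    rw [← restrict_line, ← hline₂, ← hc₂, sub_self]
  have hmain : n ≠ 0 ∧ W.slope (z₁ / w₁) (z₂ / w₂) (-1 / w₁) (-1 / w₂) = l / n ∧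
      cA3 W.a₂ W.a₄ W.a₆ l * (z₁ ^ 2 + z₁ * z₂ + z₂ ^ 2) +
        cA2 W.a₁ W.a₂ W.a₃ W.a₄ W.a₆ l n * (z₁ + z₂) + cA1 W.a₁ W.a₃ W.a₄ W.a₆ l n = 0 := by
    by_cases hx : z₁ / w₁ = z₂ / w₂
    · have hy : -1 / w₁ ≠ W.negY (z₂ / w₂) (-1 / w₂) := fun h => hxy ⟨hx, h⟩
      have hyy : -1 / w₁ = -1 / w₂ := Y_eq_of_Y_ne h₁ h₂ hx hy
      have hww : w₁ = w₂ := by
        field_simp at hyy
        exact neg_injective hyy.symm
      subst hww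
      have hzz : z₁ = z₂ := by
        field_simp at hx
        exact hx
      subst hzz
      obtain ⟨hn0, hs⟩ := slope_tangent W hw₁0 hc₁ hy hl hn
      exact ⟨hn0, hs, relB_of_tangent hline₁ hl⟩
    · obtain ⟨hn0, hs⟩ := slope_chord W hw₁0 hw₂0 hx hline₁ hline₂
      have hne : z₁ ≠ z₂ := by
        rintro rfl
        apply hx
        rw [hline₁, hline₂]
      exact ⟨hn0, hs, relB_of_chord hne hr₁ hr₂⟩
  obtain ⟨hn0, hs, hB⟩ := hmain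
  obtain ⟨hw₃0, hc₃, hX, hY⟩ :=
    add_formulas W hw₁0 hw₂0 hn0 hline₁ hline₂ hw₃ hA30 hc₁ hB hz₃
  obtain ⟨hV1, hV2⟩ := vieta hB hr₁ hz₃
  exact ⟨l, n, z₃, w₃, hlv, hnv, hw₃, hw₃0, hz₃v, hw₃v, hz₃, hV1, hV2, by rw [hs]; exact hX,
    by rw [hs]; exact hY, hu⟩

/-- the line through the origin and a point `(z, w)` of the curve: slope `w / z`, third point of
intersection `-z / u`, `u = 1 - a₁ z - a₃ w`. -/
theorem flat_origin_line {a₁ a₂ a₃ a₄ a₆ z w u : K} (hc : w = fzw a₁ a₂ a₃ a₄ a₆ z w)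
    (hz : z ≠ 0) (hue : u = 1 - lin13 a₁ a₃ z w) (hu : u ≠ 0) :
    cA3 a₂ a₄ a₆ (w / z) * (z + -z / u) + cA2 a₁ a₂ a₃ a₄ a₆ (w / z) 0 = 0 ∧
      cA3 a₂ a₄ a₆ (w / z) * (z * (-z / u)) - cA1 a₁ a₃ a₄ a₆ (w / z) 0 = 0 ∧
      z * (1 - a₁ * (-z / u) - a₃ * (w / z * (-z / u) + 0)) + -z / u = 0 := by
  unfold fzw at hc
  unfold lin13 at hue
  unfold cA3 cA2 cA1
  refine ⟨?_, ?_, ?_⟩
  · field_simp
    linear_combination (z ^ 3 + a₂ * z ^ 2 * w + a₄ * z * w ^ 2 + a₆ * w ^ 3 +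
      (a₁ * z + a₃ * w) * w) * hue + (a₁ * z + a₃ * w) * hc
  · field_simp
    linear_combination hc + w * hue
  · field_simp
    linear_combination z * hue

theorem flat_cA0_zero (a₃ a₆ : K) : cA0 a₃ a₆ 0 = 0 := by
  unfold cA0
  ring

/-- the data of a nonzero point of the kernel of reduction in the `(z, w)`-plane. -/
theorem flat_zw_data (hI : IntCoeffs v W.a₁ W.a₂ W.a₃ W.a₄ W.a₆) {x y : K}
    (h : W.Nonsingular x y) (hx : 1 < v x) :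
    ∃ z w u : K, z = -x / y ∧ w = -1 / y ∧ y ≠ 0 ∧ z ≠ 0 ∧ w ≠ 0 ∧ v z < 1 ∧ v w < 1 ∧
      w = fzw W.a₁ W.a₂ W.a₃ W.a₄ W.a₆ z w ∧ v w = v z ^ 3 ∧ x = z / w ∧ y = -1 / w ∧
      u = 1 - lin13 W.a₁ W.a₃ z w ∧ v u = 1 ∧ u ≠ 0 := by
  obtain ⟨hy, hvz, hvw, hz0⟩ := zw_small hI ((equation_iff _ _).mp h.1) hx
  have hc := zw_equation W h.1 hy
  have hw0 : -1 / y ≠ 0 := div_ne_zero (neg_ne_zero.mpr one_ne_zero) hy
  have hm : v (lin13 W.a₁ W.a₃ (-x / y) (-1 / y)) ≤ max (v (-x / y)) (v (-1 / y)) := by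
    unfold lin13
    exact v.map_add_le (vle_lmul hI.h₁ (le_max_left _ _)) (vle_lmul hI.h₃ (le_max_right _ _))
  have hu := v_one_sub hm (max_lt hvz hvw)
  refine ⟨-x / y, -1 / y, 1 - lin13 W.a₁ W.a₃ (-x / y) (-1 / y), rfl, rfl, hy, hz0, hw0, hvz, hvw,
    hc, v_w_eq hI hvz hvw hc, ?_, ?_, rfl, hu, ?_⟩
  · field_simp
  · field_simp
  · intro h0
    rw [h0, map_zero] at hu
    exact zero_ne_one hu

end General

section Subring

variable {K : Type*} [Field K] [DecidableEq K] {A : ValuationSubring K}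
  {W : WeierstrassCurve.Affine K}

/-- **the chart is injective on the kernel of reduction.** -/
theorem zOf_injOn_kerRed (hW : IsIntegralCurve A W) {P Q : W.Point} (hP : P ∈ kerRed hW)
    (hQ : Q ∈ kerRed hW) (h : zOf P = zOf Q) : P = Q := by
  have hI := hW.intCoeffs
  rcases P with _ | ⟨x₁, y₁, h₁⟩
  · rcases Q with _ | ⟨x₂, y₂, h₂⟩
    · rfl
    · exfalso
      have hx₂ : 1 < A.valuation x₂ :=
        one_lt_valuation_iff_not_mem.mpr ((some_mem_kerRed_iff hW).mp hQ)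
      obtain ⟨-, -, -, hz0⟩ := zw_small hI ((equation_iff _ _).mp h₂.1) hx₂
      exact hz0 h.symm
  · have hx₁ : 1 < A.valuation x₁ :=
      one_lt_valuation_iff_not_mem.mpr ((some_mem_kerRed_iff hW).mp hP)
    rcases Q with _ | ⟨x₂, y₂, h₂⟩
    · exfalso
      obtain ⟨-, -, -, hz0⟩ := zw_small hI ((equation_iff _ _).mp h₁.1) hx₁
      exact hz0 h
    · have hx₂ : 1 < A.valuation x₂ :=
        one_lt_valuation_iff_not_mem.mpr ((some_mem_kerRed_iff hW).mp hQ)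
      obtain ⟨z₁, w₁, u₁, hz₁e, hw₁e, hy₁, hz₁0, hw₁0, hvz₁, hvw₁, hc₁, -, hxe₁, hye₁, -, -, -⟩ :=
        flat_zw_data hI h₁ hx₁
      obtain ⟨z₂, w₂, u₂, hz₂e, hw₂e, hy₂, hz₂0, hw₂0, hvz₂, hvw₂, hc₂, -, hxe₂, hye₂, -, -, -⟩ :=
        flat_zw_data hI h₂ hx₂
      have hzz : z₁ = z₂ := by
        rw [hz₁e, hz₂e]
        exact h
      subst hzz
      have hid := slope_identity _ _ _ _ _ hc₁ hc₂
      rw [sub_self, zero_mul] at hid
      have hr : max (A.valuation z₁) (max (A.valuation w₁) (A.valuation w₂)) < 1 :=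
        max_lt hvz₁ (max_lt hvw₁ hvw₂)
      have hD := v_slopeD_eq hI hr (le_max_left _ _)
        ((le_max_left _ _).trans (le_max_right _ _)) ((le_max_right _ _).trans (le_max_right _ _))
      have hD0 : slopeD W.a₁ W.a₂ W.a₃ W.a₄ W.a₆ z₁ w₁ w₂ ≠ 0 := by
        intro h0
        rw [h0, map_zero] at hD
        exact zero_ne_one hD
      have hww : w₂ = w₁ := sub_eq_zero.mp ((mul_eq_zero.mp hid).resolve_right hD0)
      subst hww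
      rw [Point.some.injEq]
      exact ⟨by rw [hxe₁, hxe₂], by rw [hye₁, hye₂]⟩

theorem flat_mem_nonunits_of_le {r : A.ValueGroup} (hr : r < 1) {a : K}
    (h : A.valuation a ≤ r) : a ∈ A.nonunits :=
  A.mem_nonunits_iff.mpr (h.trans_lt hr)

/-- **the implicit system has a small solution** for any two points of the kernel of reduction. -/
theorem flat_add_system (hW : IsIntegralCurve A W) {P₁ P₂ : W.Point} (h₁ : P₁ ∈ kerRed hW)
    (h₂ : P₂ ∈ kerRed hW) :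
    ∃ l n t : K, l ∈ A.nonunits ∧ n ∈ A.nonunits ∧ t ∈ A.nonunits ∧
      cA3 W.a₂ W.a₄ W.a₆ l * (zOf P₁ + zOf P₂ + t) + cA2 W.a₁ W.a₂ W.a₃ W.a₄ W.a₆ l n = 0 ∧
      cA3 W.a₂ W.a₄ W.a₆ l * (zOf P₁ * zOf P₂ + zOf P₁ * t + zOf P₂ * t) -
        cA1 W.a₁ W.a₃ W.a₄ W.a₆ l n = 0 ∧
      cA3 W.a₂ W.a₄ W.a₆ l * (zOf P₁ * zOf P₂ * t) + cA0 W.a₃ W.a₆ n = 0 ∧
      zOf (P₁ + P₂) * (1 - W.a₁ * t - W.a₃ * (l * t + n)) + t = 0 := by
  have hI := hW.intCoeffs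
  have h0mem : (0 : K) ∈ A.nonunits := A.mem_nonunits_iff.mpr (by rw [map_zero]; exact zero_lt_one)
  -- the solution attached to the line through the origin
  have horigin : ∀ {x y : K} (h : W.Nonsingular x y), x ∉ A →
      ∃ l t : K, l ∈ A.nonunits ∧ t ∈ A.nonunits ∧
        cA3 W.a₂ W.a₄ W.a₆ l * (-x / y + t) + cA2 W.a₁ W.a₂ W.a₃ W.a₄ W.a₆ l 0 = 0 ∧
        cA3 W.a₂ W.a₄ W.a₆ l * (-x / y * t) - cA1 W.a₁ W.a₃ W.a₄ W.a₆ l 0 = 0 ∧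
        -x / y * (1 - W.a₁ * t - W.a₃ * (l * t + 0)) + t = 0 ∧
        t = -(-x / y) / (1 - lin13 W.a₁ W.a₃ (-x / y) (-1 / y)) := by
    intro x y h hx
    have hx' : 1 < A.valuation x := one_lt_valuation_iff_not_mem.mpr hx
    obtain ⟨z, w, u, hze, hwe, hy, hz0, hw0, hvz, hvw, hc, hvw3, hxe, hye, hue, hvu, hu0⟩ :=
      flat_zw_data hI h hx'
    obtain ⟨e1, e2, e3⟩ := flat_origin_line hc hz0 hue hu0
    rw [← hze, ← hwe, ← hue]
    refine ⟨w / z, -z / u, ?_, ?_, e1, e2, e3, rfl⟩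
    · rw [A.mem_nonunits_iff, map_div₀, hvw3, pow_succ, mul_div_assoc,
        div_self ((A.valuation.ne_zero_iff).mpr hz0), mul_one, pow_two]
      exact mul_lt_one_of_nonneg_of_lt_one_left zero_le hvz hvz.le
    · rw [A.mem_nonunits_iff, map_div₀, hvu, div_one, Valuation.map_neg]
      exact hvz
  rcases P₁ with _ | ⟨x₁, y₁, hn₁⟩
  · -- `P₁ = 0`
    rcases P₂ with _ | ⟨x₂, y₂, hn₂⟩
    · refine ⟨0, 0, 0, h0mem, h0mem, h0mem, ?_, ?_, ?_, ?_⟩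
      · show cA3 W.a₂ W.a₄ W.a₆ 0 * ((0 : K) + 0 + 0) + cA2 W.a₁ W.a₂ W.a₃ W.a₄ W.a₆ 0 0 = 0
        unfold cA2
        ring
      · show cA3 W.a₂ W.a₄ W.a₆ 0 * ((0 : K) * 0 + 0 * 0 + 0 * 0) -
          cA1 W.a₁ W.a₃ W.a₄ W.a₆ 0 0 = 0
        unfold cA1
        ring
      · show cA3 W.a₂ W.a₄ W.a₆ 0 * ((0 : K) * 0 * 0) + cA0 W.a₃ W.a₆ 0 = 0
        rw [flat_cA0_zero]
        ring
      · show zOf ((0 : W.Point) + 0) * (1 - W.a₁ * 0 - W.a₃ * (0 * 0 + 0)) + 0 = 0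
        rw [show ((0 : W.Point) + 0) = 0 from add_zero 0, zOf_zero]
        ring
    · obtain ⟨l, t, hl, ht, e1, e2, e3, -⟩ := horigin hn₂ ((some_mem_kerRed_iff hW).mp h₂)
      refine ⟨l, 0, t, hl, h0mem, ht, ?_, ?_, ?_, ?_⟩
      · show cA3 W.a₂ W.a₄ W.a₆ l * ((0 : K) + -x₂ / y₂ + t) + _ = 0
        rw [zero_add]
        exact e1
      · show cA3 W.a₂ W.a₄ W.a₆ l * ((0 : K) * (-x₂ / y₂) + 0 * t + -x₂ / y₂ * t) - _ = 0
        rw [zero_mul, zero_mul, zero_add, zero_add]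
        exact e2
      · show cA3 W.a₂ W.a₄ W.a₆ l * ((0 : K) * (-x₂ / y₂) * t) + _ = 0
        rw [flat_cA0_zero]
        ring
      · show zOf ((0 : W.Point) + Point.some x₂ y₂ hn₂) * _ + t = 0
        rw [zero_add]
        exact e3
  · rcases P₂ with _ | ⟨x₂, y₂, hn₂⟩
    · -- `P₂ = 0`
      obtain ⟨l, t, hl, ht, e1, e2, e3, -⟩ := horigin hn₁ ((some_mem_kerRed_iff hW).mp h₁)
      refine ⟨l, 0, t, hl, h0mem, ht, ?_, ?_, ?_, ?_⟩
      · show cA3 W.a₂ W.a₄ W.a₆ l * (-x₁ / y₁ + (0 : K) + t) + _ = 0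
        rw [add_zero]
        exact e1
      · show cA3 W.a₂ W.a₄ W.a₆ l * (-x₁ / y₁ * (0 : K) + -x₁ / y₁ * t + 0 * t) - _ = 0
        rw [mul_zero, zero_mul, zero_add, add_zero]
        exact e2
      · show cA3 W.a₂ W.a₄ W.a₆ l * (-x₁ / y₁ * (0 : K) * t) + _ = 0
        rw [flat_cA0_zero]
        ring
      · show zOf (Point.some x₁ y₁ hn₁ + (0 : W.Point)) * _ + t = 0
        rw [add_zero]
        exact e3
    · -- two affine points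
      have hx₁ : 1 < A.valuation x₁ :=
        one_lt_valuation_iff_not_mem.mpr ((some_mem_kerRed_iff hW).mp h₁)
      have hx₂ : 1 < A.valuation x₂ :=
        one_lt_valuation_iff_not_mem.mpr ((some_mem_kerRed_iff hW).mp h₂)
      by_cases hxy : x₁ = x₂ ∧ y₁ = W.negY x₂ y₂
      · -- opposite points: the line through the origin and `P₂`
        obtain ⟨l, t, hl, ht, e1, e2, e3, hte⟩ := horigin hn₂ ((some_mem_kerRed_iff hW).mp h₂)
        have hz₁ : -x₁ / y₁ = t := by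
          rw [hte]
          obtain ⟨hx, hy⟩ := hxy
          obtain ⟨z, w, u, hze, hwe, hy₂0, hz0, hw0, hvz, hvw, hc, hvw3, hxe, hye, hue, hvu, hu0⟩ :=
            flat_zw_data hI hn₂ hx₂
          rw [← hze, ← hwe, ← hue, hx, hy, hxe, hye]
          simp only [negY]
          unfold lin13 at hue
          have hden : -(-1 / w) - W.a₁ * (z / w) - W.a₃ = u / w := by
            rw [hue]
            field_simp
            ring
          rw [hden]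
          field_simp
        refine ⟨l, 0, 0, hl, h0mem, h0mem, ?_, ?_, ?_, ?_⟩
        · show cA3 W.a₂ W.a₄ W.a₆ l * (-x₁ / y₁ + -x₂ / y₂ + 0) + _ = 0
          rw [hz₁, add_zero, add_comm t]
          exact e1
        · show cA3 W.a₂ W.a₄ W.a₆ l * (-x₁ / y₁ * (-x₂ / y₂) + -x₁ / y₁ * 0 + -x₂ / y₂ * 0) - _ = 0
          rw [hz₁, mul_zero, mul_zero, add_zero, add_zero, mul_comm t]
          exact e2
        · show cA3 W.a₂ W.a₄ W.a₆ l * (-x₁ / y₁ * (-x₂ / y₂) * 0) + _ = 0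
          rw [flat_cA0_zero]
          ring
        · rw [Point.add_of_Y_eq hxy.1 hxy.2, zOf_zero]
          ring
      · -- the generic case
        obtain ⟨z₁, w₁, u₁, hz₁e, hw₁e, hy₁, hz₁0, hw₁0, hvz₁, hvw₁, hc₁, hvw₁3, hxe₁, hye₁,
          -, -, -⟩ := flat_zw_data hI hn₁ hx₁
        obtain ⟨z₂, w₂, u₂, hz₂e, hw₂e, hy₂, hz₂0, hw₂0, hvz₂, hvw₂, hc₂, hvw₂3, hxe₂, hye₂,
          -, -, -⟩ := flat_zw_data hI hn₂ hx₂
        show ∃ l n t : K, l ∈ A.nonunits ∧ n ∈ A.nonunits ∧ t ∈ A.nonunits ∧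
          cA3 W.a₂ W.a₄ W.a₆ l * (-x₁ / y₁ + -x₂ / y₂ + t) + _ = 0 ∧
          cA3 W.a₂ W.a₄ W.a₆ l * (-x₁ / y₁ * (-x₂ / y₂) + -x₁ / y₁ * t + -x₂ / y₂ * t) - _ = 0 ∧
          cA3 W.a₂ W.a₄ W.a₆ l * (-x₁ / y₁ * (-x₂ / y₂) * t) + _ = 0 ∧ _
        rw [Point.add_some hxy, zOf_some, ← hz₁e, ← hz₂e]
        clear hz₁e hw₁e hz₂e hw₂e
        subst hxe₁ hye₁ hxe₂ hye₂
        set r := max (A.valuation z₁) (A.valuation z₂) with hr
        have hr1 : r < 1 := max_lt hvz₁ hvz₂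
        have hrle : r ≤ 1 := hr1.le
        have hrr : r * r ≤ r := sq_le_self_of_le_one hrle
        have hw₁r : A.valuation w₁ ≤ r * r := by
          rw [hvw₁3, pow_succ, pow_two]
          exact mul_le_of_le_of_le_one (mul_le_mul' (le_max_left _ _) (le_max_left _ _)) hvz₁.le
        have hw₂r : A.valuation w₂ ≤ r * r := by
          rw [hvw₂3, pow_succ, pow_two]
          exact mul_le_of_le_of_le_one (mul_le_mul' (le_max_right _ _) (le_max_right _ _)) hvz₂.le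
        obtain ⟨l, n, z₃, w₃, hlv, hnv, hw₃, hw₃0, hz₃v, hw₃v, hV0, hV1, hV2, hX, hY, hu⟩ :=
          flat_zw_add hI hr1 hw₁0 hw₂0 hn₁.1 hn₂.1 hc₁ hc₂ (le_max_left _ _) (le_max_right _ _)
            hw₁r hw₂r hxy
        refine ⟨l, n, z₃, flat_mem_nonunits_of_le hr1 (hlv.trans hrr),
          flat_mem_nonunits_of_le hr1 (hnv.trans hrr), flat_mem_nonunits_of_le hr1 hz₃v, ?_, ?_, ?_,
          ?_⟩
        · rw [hV0]
          ring
        · rw [hV1]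
          ring
        · rw [hV2]
          ring
        · rw [addY, hX, hY]
          have hu0 : 1 - lin13 W.a₁ W.a₃ z₃ w₃ ≠ 0 := by
            intro h
            rw [h, map_zero] at hu
            exact zero_ne_one hu
          have e2 : W.negY (z₃ / w₃) (-1 / w₃) = (1 - lin13 W.a₁ W.a₃ z₃ w₃) / w₃ := by
            simp only [negY, lin13]
            field_simp
            ring
          obtain ⟨u₃, hu₃⟩ : ∃ u₃ : K, u₃ = 1 - lin13 W.a₁ W.a₃ z₃ w₃ := ⟨_, rfl⟩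
          rw [← hu₃] at hu0 e2
          have e3 : 1 - W.a₁ * z₃ - W.a₃ * (l * z₃ + n) = u₃ := by
            rw [hu₃, hw₃]
            unfold lin13
            ring
          rw [e2, e3]
          field_simp
          ring

end Subring

end Fermat.Agent.ML
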