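/-
ML (S59) — helper1 — **[RHO-W, flat] part 1: the implicit polynomial system of the group law on the
kernel of reduction of a Weierstrass curve**, in the coordinate `z = -x/y`.

For two points with coordinates `z₁, z₂` the unknowns are `(l, n, t, u)`: the line `w = l z + n`
through the two points (in the `(z, w)`-plane), the `z`-coordinate `t` of the third intersection
point and the coordinate `u` of the sum.  The equations say that the restriction of the cubic to
the line is `cA3 l * (z - z₁) * (z - z₂) * (z - t)` (Vieta), and that `u` is the coordinate of the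
negative of the third point.  The Jacobian at the origin is unimodular.
-/
import Mathlib
import Fermat.Agent.FG.REFL_helper5_Lin
import Fermat.Agent.Tate.R1_helper8_Alg

set_option autoImplicit false
set_option linter.unusedSectionVars false

open MvPolynomial

namespace Fermat.Agent.ML

open Fermat.Agent.FG Fermat.Agent.Tate

section Sys

variable {R : Type*} [CommRing R] (a₁ a₂ a₃ a₄ a₆ : R)

/-- the index type of the variables: `z₁`, `z₂`, and the unknowns `l, n, t, u`. -/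
abbrev FlatVar : Type := (Unit ⊕ Unit) ⊕ Fin 4

/-- the system. -/
noncomputable def flatSys : Fin 4 → MvPolynomial FlatVar R :=
  let Z1 : MvPolynomial FlatVar R := X (Sum.inl (Sum.inl ()))
  let Z2 : MvPolynomial FlatVar R := X (Sum.inl (Sum.inr ()))
  let L : MvPolynomial FlatVar R := X (Sum.inr 0)
  let N : MvPolynomial FlatVar R := X (Sum.inr 1)
  let T : MvPolynomial FlatVar R := X (Sum.inr 2)
  let U : MvPolynomial FlatVar R := X (Sum.inr 3)
  let PA3 : MvPolynomial FlatVar R := 1 + C a₂ * L + C a₄ * L ^ 2 + C a₆ * L ^ 3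
  let PA2 : MvPolynomial FlatVar R :=
    C a₁ * L + C a₂ * N + C a₃ * L ^ 2 + 2 * C a₄ * L * N + 3 * C a₆ * L ^ 2 * N
  let PA1 : MvPolynomial FlatVar R :=
    C a₁ * N + 2 * C a₃ * L * N + C a₄ * N ^ 2 + 3 * C a₆ * L * N ^ 2 - L
  let PA0 : MvPolynomial FlatVar R := C a₃ * N ^ 2 + C a₆ * N ^ 3 - N
  ![PA3 * (Z1 + Z2 + T) + PA2,
    PA3 * (Z1 * Z2 + Z1 * T + Z2 * T) - PA1,
    PA3 * (Z1 * Z2 * T) + PA0,
    U * (1 - C a₁ * T - C a₃ * (L * T + N)) + T]

variable {B : Type*} [Field B] [Algebra R B] (v : FlatVar → B)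

theorem aeval_flatSys_zero : aeval v (flatSys a₁ a₂ a₃ a₄ a₆ 0) =
    R1.cA3 (algebraMap R B a₂) (algebraMap R B a₄) (algebraMap R B a₆) (v (Sum.inr 0)) *
      (v (Sum.inl (Sum.inl ())) + v (Sum.inl (Sum.inr ())) + v (Sum.inr 2)) +
    R1.cA2 (algebraMap R B a₁) (algebraMap R B a₂) (algebraMap R B a₃) (algebraMap R B a₄)
      (algebraMap R B a₆) (v (Sum.inr 0)) (v (Sum.inr 1)) := by
  simp [flatSys, R1.cA3, R1.cA2]

theorem aeval_flatSys_one : aeval v (flatSys a₁ a₂ a₃ a₄ a₆ 1) =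
    R1.cA3 (algebraMap R B a₂) (algebraMap R B a₄) (algebraMap R B a₆) (v (Sum.inr 0)) *
      (v (Sum.inl (Sum.inl ())) * v (Sum.inl (Sum.inr ())) +
        v (Sum.inl (Sum.inl ())) * v (Sum.inr 2) + v (Sum.inl (Sum.inr ())) * v (Sum.inr 2)) -
    R1.cA1 (algebraMap R B a₁) (algebraMap R B a₃) (algebraMap R B a₄)
      (algebraMap R B a₆) (v (Sum.inr 0)) (v (Sum.inr 1)) := by
  simp [flatSys, R1.cA3, R1.cA1]

theorem aeval_flatSys_two : aeval v (flatSys a₁ a₂ a₃ a₄ a₆ 2) =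
    R1.cA3 (algebraMap R B a₂) (algebraMap R B a₄) (algebraMap R B a₆) (v (Sum.inr 0)) *
      (v (Sum.inl (Sum.inl ())) * v (Sum.inl (Sum.inr ())) * v (Sum.inr 2)) +
    R1.cA0 (algebraMap R B a₃) (algebraMap R B a₆) (v (Sum.inr 1)) := by
  simp [flatSys, R1.cA3, R1.cA0]

theorem aeval_flatSys_three : aeval v (flatSys a₁ a₂ a₃ a₄ a₆ 3) =
    v (Sum.inr 3) * (1 - algebraMap R B a₁ * v (Sum.inr 2) -
      algebraMap R B a₃ * (v (Sum.inr 0) * v (Sum.inr 2) + v (Sum.inr 1))) + v (Sum.inr 2) := by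
  simp [flatSys]

/-- the Jacobian at the origin with respect to the unknowns. -/
def flatJac : Matrix (Fin 4) (Fin 4) R :=
  Matrix.of ![![a₁, a₂, 1, 0], ![1, -a₁, 0, 0], ![0, -1, 0, 0], ![0, 0, 1, 1]]

/-- its inverse. -/
def flatJacInv : Matrix (Fin 4) (Fin 4) R :=
  Matrix.of ![![0, 1, -a₁, 0], ![0, 0, -1, 0], ![1, -a₁, a₁ ^ 2 + a₂, 0],
    ![-1, a₁, -(a₁ ^ 2 + a₂), 1]]

theorem flatJacInv_mul : flatJacInv a₁ a₂ * flatJac a₁ a₂ = 1 := by
  ext i j
  fin_cases i <;> fin_cases j <;>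
    simp [flatJac, flatJacInv, Matrix.mul_apply, Fin.sum_univ_four] <;> ring

theorem flatSys_jacobian :
    (Matrix.of fun a b => coeff (Finsupp.single (Sum.inr b) 1) (flatSys a₁ a₂ a₃ a₄ a₆ a)) =
      flatJac a₁ a₂ := by
  classical
  ext a b
  rw [Matrix.of_apply, ← lin_eq_coeff]
  fin_cases a <;> fin_cases b <;>
    simp [flatSys, flatJac, lin_mul, lin_X, lin_add, lin_sub, pow_succ]

end Sys

end Fermat.Agent.ML
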