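/-
ML (S59) — helper1 — **[RHO-W, flat] part 6: finite Galois submodules of `W(ℚ̄)` carry Hopf orders
over `ℤ_(p)`** when `W/ℤ` has good reduction at `p` (helper1's front `FG.hasHopfOrder_of_front`
applied to the curve itself: `𝒦` = kernel of reduction at `padicPlace p`, chart `z = -x/y`, the
implicit system of `FLAT_helper1_Sys`, the coset lifts of `FLAT_helper1_Lift`).
-/
import Mathlib
import Fermat.Agent.ML.FLAT_helper1_Sys
import Fermat.Agent.ML.FLAT_helper1_Chart
import Fermat.Agent.ML.FLAT_helper1_Lift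
import Fermat.Agent.FG.HOPF_helper1_FrontD
import Fermat.Agent.MP.ECPEU_helper4_Qbar
import Fermat.Agent.S58.ECTATE_helper9_Asm

set_option autoImplicit false
set_option linter.unusedSectionVars false
set_option linter.unusedVariables false
set_option linter.style.haveILetI false

open scoped WeierstrassCurve.Affine

namespace Fermat.Agent.ML

open WeierstrassCurve WeierstrassCurve.Affine Fermat.Agent.Tate Fermat.Agent.FG IsLocalRing

/-- `Ω = AlgebraicClosure ℚ`. -/
local notation "Ω" => AlgebraicClosure ℚ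

/-- the absolute Galois group. -/
local notation "GQ" => (AlgebraicClosure ℚ ≃ₐ[ℚ] AlgebraicClosure ℚ)

section Maps

variable {K L F : Type*} [Field K] [Field L] [FunLike F K L] [RingHomClass F K L] (f : F)

theorem flat_map_cA3 (a₂ a₄ a₆ l : K) :
    f (R1.cA3 a₂ a₄ a₆ l) = R1.cA3 (f a₂) (f a₄) (f a₆) (f l) := by
  simp [R1.cA3]

theorem flat_map_cA2 (a₁ a₂ a₃ a₄ a₆ l n : K) :
    f (R1.cA2 a₁ a₂ a₃ a₄ a₆ l n) = R1.cA2 (f a₁) (f a₂) (f a₃) (f a₄) (f a₆) (f l) (f n) := by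
  simp [R1.cA2, map_ofNat]

theorem flat_map_cA1 (a₁ a₃ a₄ a₆ l n : K) :
    f (R1.cA1 a₁ a₃ a₄ a₆ l n) = R1.cA1 (f a₁) (f a₃) (f a₄) (f a₆) (f l) (f n) := by
  simp [R1.cA1, map_ofNat]

theorem flat_map_cA0 (a₃ a₆ n : K) : f (R1.cA0 a₃ a₆ n) = R1.cA0 (f a₃) (f a₆) (f n) := by
  simp [R1.cA0]

end Maps

variable (p : ℕ) [Fact p.Prime] (W : WeierstrassCurve ℤ)

/-- the `z`-coordinate is Galois equivariant. -/
theorem flat_zOf_smul (σ : GQ) (Q : (W⁄Ω).Point) : R1.zOf (σ • Q) = σ (R1.zOf Q) := by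
  rcases Q with _ | ⟨x, y, h⟩
  · show (0 : Ω) = σ 0
    rw [map_zero]
  · show -(σ x) / (σ y) = σ (-x / y)
    rw [map_div₀, map_neg]

theorem flat_coeffs :
    (W⁄Ω).a₁ = ((W.a₁ : ℤ) : Ω) ∧ (W⁄Ω).a₂ = ((W.a₂ : ℤ) : Ω) ∧ (W⁄Ω).a₃ = ((W.a₃ : ℤ) : Ω) ∧
      (W⁄Ω).a₄ = ((W.a₄ : ℤ) : Ω) ∧ (W⁄Ω).a₆ = ((W.a₆ : ℤ) : Ω) := by
  simp [WeierstrassCurve.baseChange]

/-- **finite Galois submodules of a curve with good reduction at `p` carry Hopf orders over
`ℤ_(p)`.** -/
theorem flat_hasHopfOrder_of_embedding (hgood : W.IsGoodPrimeFor p)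
    {G : Type} [AddCommGroup G] [DistribMulAction GQ G] [Finite G]
    (hcont : ∀ g : G, IsContAt g) (j : G →+ (W⁄Ω).Point) (hj : Function.Injective j)
    (hjσ : ∀ (σ : GQ) (g : G), j (σ • g) = σ • j g) : HasHopfOrder p G := by
  classical
  have hp : p.Prime := Fact.out
  have hA : (padicPlace p).LiesOverPrime p := glue_natCast_mem_nonunits p
  obtain ⟨hW, hΔ⟩ := Fermat.Agent.MP.ecpeu_goodRed_int W hp hgood (padicPlace p) hA
  have hI := hW.intCoeffs
  obtain ⟨ha₁, ha₂, ha₃, ha₄, ha₆⟩ := flat_coeffs W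
  -- stability of the kernel of reduction
  have h𝒦 : ∀ (τ : PadicAlgCl p ≃ₐ[ℚ_[p]] PadicAlgCl p), ∀ x ∈ kerRed hW,
      localGaloisToGlobal p τ • x ∈ kerRed hW := by
    intro τ x hx
    have hdec := localGaloisToGlobal_mem_decompositionSubgroup p τ
    rcases x with _ | ⟨x, y, h⟩
    · exact hx
    · obtain ⟨h', hsm⟩ := flat_exists_smul_some W (localGaloisToGlobal p τ) h
      rw [hsm, some_mem_kerRed_iff]
      rw [some_mem_kerRed_iff] at hx
      rw [Fermat.Agent.S58.e2_decomp_map_mem_iff hdec]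
      exact hx
  -- the coset lifts
  obtain ⟨m, hpm, ζ, hζ, c, hc𝒦, hcρ, hcc⟩ := flat_exists_coset_lifts p W hW hΔ j
  -- the chart
  have hzmem : ∀ x : ↥(kerRed hW), R1.zOf (x : (W⁄Ω).Point) ∈ (padicPlace p).nonunits := fun x =>
    (padicPlace p).mem_nonunits_iff.mpr (R1.v_zOf_lt_one hI x.2)
  have hpe : ∀ a : ℤ, padicEmbedding p ((a : ℤ) : Ω) =
      algebraMap (GaloisRep.ratLocalizedAt p) (PadicAlgCl p) ((a : ℤ) : GaloisRep.ratLocalizedAt p) := by
    intro a
    rw [map_intCast, map_intCast]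
  refine hasHopfOrder_of_front (𝒥 := (W⁄Ω).Point) hcont j hj hjσ (kerRed hW) h𝒦
    (ι := Unit) (fun x _ => padicEmbedding p (R1.zOf (x : (W⁄Ω).Point)))
    (fun x _ => (glue_mem_nonunits_iff p _).mp (hzmem x))
    (fun x x' h => Subtype.ext (zOf_injOn_kerRed hW x.2 x'.2
      ((padicEmbedding p).injective (congrFun h ()))))
    (fun τ x _ => ?_) (κ := Fin 4) (fun _ => 3)
    (flatSys ((W.a₁ : ℤ) : GaloisRep.ratLocalizedAt p) ((W.a₂ : ℤ) : GaloisRep.ratLocalizedAt p)
      ((W.a₃ : ℤ) : GaloisRep.ratLocalizedAt p) ((W.a₄ : ℤ) : GaloisRep.ratLocalizedAt p)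
      ((W.a₆ : ℤ) : GaloisRep.ratLocalizedAt p))
    (flatJacInv ((W.a₁ : ℤ) : GaloisRep.ratLocalizedAt p) ((W.a₂ : ℤ) : GaloisRep.ratLocalizedAt p))
    (by rw [flatSys_jacobian]; exact flatJacInv_mul _ _)
    (fun x x' => ?_) hpm ζ hζ c hc𝒦 hcρ hcc
  · show padicEmbedding p (R1.zOf (localGaloisToGlobal p τ • (x : (W⁄Ω).Point))) = _
    rw [flat_zOf_smul, padicEmbedding_localGaloisToGlobal]
  · obtain ⟨l, n, t, hl, hn, ht, e0, e1, e2, e3⟩ := flat_add_system hW x.2 x'.2
    have hsum : R1.zOf ((x : (W⁄Ω).Point) + (x' : (W⁄Ω).Point)) ∈ (padicPlace p).nonunits :=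
      hzmem (x + x')
    refine ⟨![padicEmbedding p l, padicEmbedding p n, padicEmbedding p t,
      padicEmbedding p (R1.zOf ((x : (W⁄Ω).Point) + (x' : (W⁄Ω).Point)))], fun b => ?_,
      fun _ => rfl, fun a => ?_⟩
    · fin_cases b
      · exact (glue_mem_nonunits_iff p _).mp hl
      · exact (glue_mem_nonunits_iff p _).mp hn
      · exact (glue_mem_nonunits_iff p _).mp ht
      · exact (glue_mem_nonunits_iff p _).mp hsum
    · simp only [ha₁, ha₂, ha₃, ha₄, ha₆] at e0 e1 e2 e3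
      fin_cases a
      · have := congrArg (padicEmbedding p) e0
        rw [map_zero, map_add, map_mul, map_add, map_add,
          flat_map_cA3 (padicEmbedding p), flat_map_cA2 (padicEmbedding p)] at this
        show MvPolynomial.aeval _ (flatSys _ _ _ _ _ 0) = 0
        rw [aeval_flatSys_zero, ← hpe, ← hpe, ← hpe, ← hpe, ← hpe]
        exact this
      · have := congrArg (padicEmbedding p) e1
        rw [map_zero, map_sub, map_mul, map_add, map_add, map_mul, map_mul, map_mul,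
          flat_map_cA3 (padicEmbedding p), flat_map_cA1 (padicEmbedding p)] at this
        show MvPolynomial.aeval _ (flatSys _ _ _ _ _ 1) = 0
        rw [aeval_flatSys_one, ← hpe, ← hpe, ← hpe, ← hpe, ← hpe]
        exact this
      · have := congrArg (padicEmbedding p) e2
        rw [map_zero, map_add, map_mul, map_mul, map_mul,
          flat_map_cA3 (padicEmbedding p), flat_map_cA0 (padicEmbedding p)] at this
        show MvPolynomial.aeval _ (flatSys _ _ _ _ _ 2) = 0
        rw [aeval_flatSys_two, ← hpe, ← hpe, ← hpe, ← hpe]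
        exact this
      · have := congrArg (padicEmbedding p) e3
        rw [map_zero, map_add, map_mul, map_sub, map_sub, map_one, map_mul, map_mul, map_add,
          map_mul] at this
        show MvPolynomial.aeval _ (flatSys _ _ _ _ _ 3) = 0
        rw [aeval_flatSys_three, ← hpe, ← hpe]
        exact this

end Fermat.Agent.ML
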