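/-
ML (S59) — helper1 — **[RHO-W, flat] part 7: the Tate module of a curve with good reduction at `p`
is flat at `p`** (`RhoWFlatStatement`): `V / p^k V ≅ W(ℚ̄)[p^k]` equivariantly (the frame), the
`p^k`-torsion carries a Hopf order over `ℤ_(p)` (`FLAT_helper1_Hopf`), and the ideals of finite
index of `ℤ_p` are the `(p^k)`.
-/
import Mathlib
import Fermat.Agent.ML.FLAT_helper1_Hopf
import Fermat.Agent.ML.RHOW_helper1_Asm
import Fermat.Agent.FG.HOPF_helper8_Closure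
import Fermat.Agent.TW.FlatModule_helper6
import Fermat.Agent.FC.M_helper1_Main

set_option autoImplicit false
set_option linter.unusedSectionVars false
set_option linter.unusedVariables false
set_option linter.style.haveILetI false

open scoped WeierstrassCurve.Affine

namespace Fermat.Agent.ML

open WeierstrassCurve WeierstrassCurve.Affine Fermat.Agent.Tate Fermat.Agent.FG IsLocalRing
  Fermat.Agent.S58 Fermat.Agent.GR Fermat.Agent.TW

/-- `Ω = AlgebraicClosure ℚ`. -/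
local notation "Ω" => AlgebraicClosure ℚ

/-- the absolute Galois group. -/
local notation "GQ" => (AlgebraicClosure ℚ ≃ₐ[ℚ] AlgebraicClosure ℚ)

variable {W : WeierstrassCurve ℤ} {p : ℕ} [Fact p.Prime] (R : RhoWFrame W p)

/-- the level-`k` component of the frame: `V → W(ℚ̄)[p^k]`. -/
noncomputable def flatLevelHom (k : ℕ) :
    (Fin 2 → ℤ_[p]) →+ ↥(Submodule.torsionBy ℤ (W⁄Ω).Point ((p ^ k : ℕ) : ℤ)) where
  toFun v := ⟨(R.F.psi v).1 k, by
    rw [Submodule.mem_torsionBy_iff, natCast_zsmul]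
    exact TateSeq.pow_smul (R.F.psi v) k⟩
  map_zero' := Subtype.ext (by rw [map_zero]; rfl)
  map_add' v w := Subtype.ext (by rw [map_add]; rfl)

theorem flatLevelHom_coe (k : ℕ) (v : Fin 2 → ℤ_[p]) :
    ((flatLevelHom R k v : ↥(Submodule.torsionBy ℤ (W⁄Ω).Point ((p ^ k : ℕ) : ℤ))) :
      (W⁄Ω).Point) = (R.F.psi v).1 k := rfl

theorem flatLevelHom_surjective (k : ℕ) : Function.Surjective (flatLevelHom R k) := by
  rintro ⟨z, hz⟩
  rw [Submodule.mem_torsionBy_iff, natCast_zsmul] at hz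
  obtain ⟨a, b, rfl⟩ := R.F.span_level k z hz
  refine ⟨![(a : ℤ_[p]), (b : ℤ_[p])], Subtype.ext ?_⟩
  rw [flatLevelHom_coe, TmodFrame.psi_apply]
  show _ = a • R.F.x.1 k + b • R.F.y.1 k
  have ha : PadicInt.toZModPow k ((a : ℤ) : ℤ_[p]) = ((a : ℤ) : ZMod (p ^ k)) := map_intCast _ a
  have hb : PadicInt.toZModPow k ((b : ℤ) : ℤ_[p]) = ((b : ℤ) : ZMod (p ^ k)) := map_intCast _ b
  have h0 : (![(a : ℤ_[p]), (b : ℤ_[p])] : Fin 2 → ℤ_[p]) 0 = (a : ℤ_[p]) := rfl
  have h1 : (![(a : ℤ_[p]), (b : ℤ_[p])] : Fin 2 → ℤ_[p]) 1 = (b : ℤ_[p]) := rfl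
  rw [h0, h1, tmod_zsmul_congr (TateSeq.pow_smul R.F.x k) (tmod_dvd_appr_sub ha),
    tmod_zsmul_congr (TateSeq.pow_smul R.F.y k) (tmod_dvd_appr_sub hb)]

theorem flatLevelHom_eq_zero_iff (k : ℕ) (v : Fin 2 → ℤ_[p]) :
    flatLevelHom R k v = 0 ↔
      v ∈ (Ideal.span {(p : ℤ_[p]) ^ k} • (⊤ : Submodule ℤ_[p] (Fin 2 → ℤ_[p]))) := by
  constructor
  · intro h
    have h' : (R.F.psi v).1 k = 0 := congrArg Subtype.val h
    obtain ⟨u, rfl⟩ := R.F.exists_eq_smul_of_psi_comp_eq_zero v k h'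
    exact Submodule.smul_mem_smul (Ideal.mem_span_singleton_self _) Submodule.mem_top
  · intro h
    refine Submodule.smul_induction_on h (fun r hr m _ => ?_) (fun x y hx hy => ?_)
    · obtain ⟨c, rfl⟩ := Ideal.mem_span_singleton'.mp hr
      apply Subtype.ext
      rw [flatLevelHom_coe]
      have e : (c * (p : ℤ_[p]) ^ k) • m = (p ^ k : ℕ) • (c • m) := by
        rw [← Nat.cast_smul_eq_nsmul ℤ_[p], Nat.cast_pow, smul_smul, mul_comm]
      rw [e, map_nsmul]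
      show (p ^ k) • (R.F.psi (c • m)).1 k = 0
      exact TateSeq.pow_smul _ k
    · rw [map_add, hx, hy, add_zero]

/-- equivariance. -/
theorem flatLevelHom_rho (k : ℕ) (σ : GQ) (v : Fin 2 → ℤ_[p]) :
    flatLevelHom R k (R.F.endo (wAct W σ) v) = σ • flatLevelHom R k v := by
  apply Subtype.ext
  rw [flatLevelHom_coe, TmodFrame.psi_endo_apply]
  rfl

/-- the equivalence `V / p^k V ≃ W(ℚ̄)[p^k]`. -/
theorem flat_exists_levelEquiv (k : ℕ) :
    ∃ φ : ((Fin 2 → ℤ_[p]) ⧸ (Ideal.span {(p : ℤ_[p]) ^ k} •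
        (⊤ : Submodule ℤ_[p] (Fin 2 → ℤ_[p])))) ≃+
        ↥(Submodule.torsionBy ℤ (W⁄Ω).Point ((p ^ k : ℕ) : ℤ)),
      ∀ v, φ (Submodule.Quotient.mk v) = flatLevelHom R k v := by
  set P : Submodule ℤ_[p] (Fin 2 → ℤ_[p]) :=
    Ideal.span {(p : ℤ_[p]) ^ k} • (⊤ : Submodule ℤ_[p] (Fin 2 → ℤ_[p])) with hP
  set f : (Fin 2 → ℤ_[p]) →ₗ[ℤ] ↥(Submodule.torsionBy ℤ (W⁄Ω).Point ((p ^ k : ℕ) : ℤ)) :=
    (flatLevelHom R k).toIntLinearMap with hf
  have hker : P.restrictScalars ℤ = LinearMap.ker f := by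
    ext v
    rw [Submodule.restrictScalars_mem, LinearMap.mem_ker, hP, ← flatLevelHom_eq_zero_iff]
    rfl
  have hsurj : Function.Surjective f := flatLevelHom_surjective R k
  refine ⟨((Submodule.Quotient.restrictScalarsEquiv ℤ P).symm ≪≫ₗ
    Submodule.quotEquivOfEq _ _ hker ≪≫ₗ f.quotKerEquivOfSurjective hsurj).toAddEquiv,
    fun v => rfl⟩

theorem flat_finite_tors (hΔ : W.Δ ≠ 0) (hp2 : p ≠ 2) (k : ℕ) :
    Finite ↥(Submodule.torsionBy ℤ (W⁄Ω).Point ((p ^ k : ℕ) : ℤ)) := by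
  have hp : p.Prime := Fact.out
  have hpF : ((p : ℕ) : Ω) ≠ 0 := Nat.cast_ne_zero.mpr hp.ne_zero
  have hfin := Fermat.Agent.FC.finite_torsion_prime_pow (W⁄Ω) hp hp2 hpF k
  haveI : Finite ↑{P : (W⁄Ω).Point | p ^ k • P = 0} := Set.finite_coe_iff.mpr hfin
  refine Finite.of_injective
    (fun x : ↥(Submodule.torsionBy ℤ (W⁄Ω).Point ((p ^ k : ℕ) : ℤ)) =>
      (⟨x.1, by
        have := x.2
        rw [Submodule.mem_torsionBy_iff, natCast_zsmul] at this
        exact this⟩ : ↑{P : (W⁄Ω).Point | p ^ k • P = 0})) ?_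
  intro x y h
  exact Subtype.ext (congrArg Subtype.val h)

/-- **[RHO-W, flat]**: the Tate module of a semistable model with good reduction at `p` is flat
at `p`. -/
theorem rhoWFlatStatement : RhoWFlatStatement := by
  intro p _ hp2 W hΔ hss R hgood
  rw [isFlatAt_iff]
  refine ⟨Finite.of_equiv _ (PadicInt.residueField (p := p)).symm.toEquiv, fun I hI => ?_⟩
  have hI0 : I ≠ ⊥ := by
    rintro rfl
    haveI : Finite ℤ_[p] := Finite.of_equiv _ (RingEquiv.quotientBot ℤ_[p]).toEquiv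
    exact not_finite ℤ_[p]
  obtain ⟨k, rfl⟩ := PadicInt.ideal_eq_span_pow_p hI0
  haveI : Finite ↥(Submodule.torsionBy ℤ (W⁄Ω).Point ((p ^ k : ℕ) : ℤ)) :=
    flat_finite_tors hΔ hp2 k
  have hH : HasHopfOrder p ↥(Submodule.torsionBy ℤ (W⁄Ω).Point ((p ^ k : ℕ) : ℤ)) := by
    refine flat_hasHopfOrder_of_embedding p W hgood (fun g => ?_)
      (Submodule.torsionBy ℤ (W⁄Ω).Point ((p ^ k : ℕ) : ℤ)).subtype.toAddMonoidHom
      Subtype.val_injective (fun σ g => rfl)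
    obtain ⟨L, hL, hfix⟩ := asm58_exists_fixingField W (g : (W⁄Ω).Point)
    exact ⟨L, hL, fun σ hσ => Subtype.ext (hfix σ hσ)⟩
  have hflat := hH.isFlatGaloisModule
  obtain ⟨φ, hφ⟩ := flat_exists_levelEquiv R k
  refine IsFlatGaloisModule.of_equiv φ.symm (fun σ g => ?_) hflat
  obtain ⟨v, rfl⟩ := flatLevelHom_surjective R k g
  have h1 : φ.symm (flatLevelHom R k v) = Submodule.Quotient.mk v := by
    rw [← hφ]
    exact φ.symm_apply_apply _
  have h2 : φ.symm (σ • flatLevelHom R k v) =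
      Submodule.Quotient.mk (R.F.endo (wAct W σ) v) := by
    rw [← flatLevelHom_rho, ← hφ]
    exact φ.symm_apply_apply _
  have h3 : R.rep.levelAction (Ideal.span {(p : ℤ_[p]) ^ k}) σ (Submodule.Quotient.mk v) =
      Submodule.Quotient.mk (R.F.endo (wAct W σ) v) := rfl
  exact h2.trans (h3.symm.trans (congrArg _ h1.symm))

/-- **[RHO-W]** from helper7's `(e-STRICT)` alone. -/
theorem rhoWStatement_of_strict (hS : RhoWStrictStatement) : RhoWStatement :=
  rhoWStatement_of rhoWFlatStatement hS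

end Fermat.Agent.ML
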