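/-
ML (S59) — helper1 — **[RHO-W] CLOSED**: `RhoWStatement` from helper1's flatness
(`FLAT_helper1_Wire`) and helper7's strictness (`ESTRICT_helper7_RhoW`).
-/
import Mathlib
import Fermat.Agent.ML.FLAT_helper1_Wire
import Fermat.Agent.ML.ESTRICT_helper7_RhoW

set_option autoImplicit false

namespace Fermat.Agent.ML

/-- **[RHO-W]**: for every odd prime `p` and every semistable model `W` with `Δ ≠ 0` the `p`-adic
Tate module of `W` carries all the data of `RhoWData W p`. -/
theorem rhoWStatement : RhoWStatement :=
  rhoWStatement_of rhoWFlatStatement rhoWStrict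

end Fermat.Agent.ML
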