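/-
ML (S59) — helper1 — **[HYG-L] part 5: assembly**.

For a semistable model `W`, `p ∈ {3, 5}`, `W[p]` irreducible, and any `D : RhoWData W p`:
`ρ₁ = W[p](ℚ̄)` (as a `ResidualGaloisRep (ZMod p)`) is intertwined with `D.ρ.residual`
(`hyg_resIntertwined`), satisfies `HygInput p ρ₁` (`hyg_input`: determinant and unipotent inertia
from `D`, the local input at `p` from `hyg_local_at_p`), complex conjugation is a split element, and
`hyg_transfer` gives `HygTWRhoStatement` and `HygTWStatement`.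
-/
import Mathlib
import Fermat.Agent.ML.HYG_helper1_Gen
import Fermat.Agent.ML.HYG_helper1_Local
import Fermat.Agent.ML.RHOW_helper1_Final
import Fermat.Agent.TW.Odd_helper1
import Fermat.Agent.RB.HYG_lead_Ker
import Fermat.Agent.S13.A_helper8_Qbar
import Fermat.Agent.GR.S34TOP_helper4

set_option autoImplicit false
set_option linter.unusedSectionVars false
set_option linter.unusedVariables false
set_option linter.style.haveILetI false

open Polynomial IsLocalRing WeierstrassCurve WeierstrassCurve.Affine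
open scoped WeierstrassCurve.Affine TensorProduct

namespace Fermat.Agent.ML

open Fermat.Agent.RB

/-- `Ω = AlgebraicClosure ℚ`. -/
local notation "Ω" => AlgebraicClosure ℚ

/-- the absolute Galois group. -/
local notation "GQ" => (AlgebraicClosure ℚ ≃ₐ[ℚ] AlgebraicClosure ℚ)

section Inter

variable {k₁ k₂ : Type} [Field k₁] [Field k₂]

/-- determinants correspond under an intertwiner. -/
theorem hyg_det_of_intertwined {ψ : k₁ →+* k₂} {ρ₁ : ResidualGaloisRep k₁}
    {ρ₂ : ResidualGaloisRep k₂} (h : ResIntertwined ψ ρ₁ ρ₂) (σ : GQ) :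
    LinearMap.det (ρ₂.ρ σ) = ψ (LinearMap.det (ρ₁.ρ σ)) := by
  obtain ⟨F, b₁, b₂, hequiv, hsemi, hb⟩ := h.exists_bases
  rw [← LinearMap.det_toMatrix b₂, ← LinearMap.det_toMatrix b₁,
    toMatrix_of_intertwiner F b₁ b₂ hequiv hsemi hb σ, Matrix.det_fin_two, Matrix.det_fin_two]
  simp only [Matrix.map_apply, map_sub, map_mul]

end Inter

section Assembly

variable {p : ℕ} [Fact p.Prime] {W : WeierstrassCurve ℤ}

/-- the coefficient map `𝔽_p → ℤ_p / p`. -/
noncomputable def hygPsi (p : ℕ) [Fact p.Prime] : ZMod p →+* ResidueField ℤ_[p] :=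
  (PadicInt.residueField (p := p)).symm.toRingHom

variable (hcard : Nat.card
    (Submodule.torsionBy ℤ ((W.map (Int.castRingHom ℚ))⁄Ω).Point p) = p ^ 2)
  (hker : GaloisFactorsThroughFiniteLevel
    (WeierstrassCurve.Affine.Point.galoisRepModuleEnd (K := Ω) ℚ
      (W.map (Int.castRingHom ℚ)) p))
  (D : RhoWData W p)

/-- **`W[p](ℚ̄)` is intertwined with the residual representation of the Tate module.** -/
theorem hyg_resIntertwined :
    ResIntertwined (hygPsi p)
      (WeierstrassCurve.residualGaloisRepOf (W.map (Int.castRingHom ℚ)) p hcard hker)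
      D.ρ.residual := by
  obtain ⟨e, he⟩ := D.residual_torsion
  refine ⟨e.symm.toAddMonoidHom, ?_, ?_, ?_⟩
  · intro σ (v : Submodule.torsionBy ℤ ((W.map (Int.castRingHom ℚ))⁄Ω).Point p)
    show e.symm (σ • v) = D.ρ.residual.ρ σ (e.symm v)
    apply e.injective
    rw [AddEquiv.apply_symm_apply, he, AddEquiv.apply_symm_apply]
  · intro c (v : Submodule.torsionBy ℤ ((W.map (Int.castRingHom ℚ))⁄Ω).Point p)
    show e.symm (c • v) = hygPsi p c • e.symm v
    obtain ⟨n, rfl⟩ : ∃ n : ℕ, (n : ZMod p) = c := ⟨c.val, ZMod.natCast_zmod_val c⟩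
    rw [map_natCast, Nat.cast_smul_eq_nsmul, Nat.cast_smul_eq_nsmul, map_nsmul]
  · intro Φ hΦ
    ext w
    have h1 : Φ (e.symm (e w)) = 0 := hΦ (e w)
    rw [AddEquiv.symm_apply_apply] at h1
    rw [h1]; rfl

/-- the residue of `p` vanishes. -/
theorem hyg_residue_p (p : ℕ) [Fact p.Prime] : residue ℤ_[p] ((p : ℕ) : ℤ_[p]) = 0 := by
  rw [residue_eq_zero_iff, PadicInt.maximalIdeal_eq_span_p]
  exact Ideal.mem_span_singleton_self _

include D in
/-- **the arithmetic input** for `W[p](ℚ̄)`. -/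
theorem hyg_input (hΔ : W.Δ ≠ 0) (hss : W.IsSemistableModel) (hp2 : p ≠ 2)
    (hirr : W.ModRepIsIrreducible p) :
    HygInput p (WeierstrassCurve.residualGaloisRepOf (W.map (Int.castRingHom ℚ)) p hcard hker) := by
  have hp : p.Prime := Fact.out
  set ρ₁ := WeierstrassCurve.residualGaloisRepOf (W.map (Int.castRingHom ℚ)) p hcard hker with hρ₁
  have hint := hyg_resIntertwined hcard hker D
  have hψinj : Function.Injective (hygPsi p) := (hygPsi p).injective
  have hΔQ : (W.map (Int.castRingHom ℚ)).Δ ≠ 0 := by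
    rw [WeierstrassCurve.map_Δ, eq_intCast]
    exact_mod_cast hΔ
  refine ⟨fun N hN => hirr.2 N (fun σ x hx => hN σ x hx), ?_, ?_, ?_⟩
  · -- determinant
    intro σ a hσ
    apply hψinj
    rw [← hyg_det_of_intertwined hint σ, map_natCast]
    have h1 := D.det_cyclotomic.2 1 σ a (fun μ hμ => hσ μ (by rwa [pow_one] at hμ))
    obtain ⟨c, hc⟩ := Ideal.mem_span_singleton'.mp h1
    have h2 : LinearMap.det (D.ρ.residual.ρ σ) = residue ℤ_[p] (LinearMap.det (D.ρ.ρ σ)) := by
      show LinearMap.det ((D.ρ.ρ σ).baseChange (ResidueField ℤ_[p])) = _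
      rw [LinearMap.det_baseChange]
      rfl
    have h3 : LinearMap.det (D.ρ.ρ σ) = c * ((p ^ 1 : ℕ) : ℤ_[p]) + (a : ℤ_[p]) := by
      rw [hc]; ring
    rw [h2, h3, map_add, map_mul, pow_one, hyg_residue_p p, mul_zero, zero_add, map_natCast]
  · -- unipotent inertia
    intro q hq hqp A hA σ hσ
    have hc := D.unipotent q hq hqp A hA σ hσ
    obtain ⟨ht, hd⟩ := Fermat.Agent.GR.trace_det_of_charpoly_eq_X_sub_one_sq D.ρ.finrank_eq _ hc
    have h2 : LinearMap.det (D.ρ.residual.ρ σ) = 1 := by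
      show LinearMap.det ((D.ρ.ρ σ).baseChange (ResidueField ℤ_[p])) = _
      rw [LinearMap.det_baseChange, hd, map_one]
    have h3 : LinearMap.trace (ResidueField ℤ_[p]) D.ρ.residual.V (D.ρ.residual.ρ σ) = 2 := by
      show LinearMap.trace (ResidueField ℤ_[p]) ((ResidueField ℤ_[p]) ⊗[ℤ_[p]] D.ρ.V)
        ((D.ρ.ρ σ).baseChange (ResidueField ℤ_[p])) = _
      rw [LinearMap.trace_baseChange, ht, map_ofNat]
    apply hyg_unipotent_of_trace_det ρ₁.finrank_eq
    · apply hψinj
      rw [← hyg_trace_of_intertwined hint σ, h3, map_ofNat]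
    · apply hψinj
      rw [← hyg_det_of_intertwined hint σ, h2, map_one]
  · -- the places over `p`
    intro A hA
    have hfin : {Q : ((W.map (Int.castRingHom ℚ))⁄Ω).Point | p • Q = 0}.Finite :=
      Fermat.Agent.S13.finite_setOf_nsmul_eq_Qbar _ hΔQ hp.ne_zero 0
    obtain ⟨E₁, h1, h2⟩ := hyg_local_at_p W hΔ hss hp2 hfin A hA
    have htors : ∀ x : Submodule.torsionBy ℤ ((W.map (Int.castRingHom ℚ))⁄Ω).Point p,
        p • (x : ((W.map (Int.castRingHom ℚ))⁄Ω).Point) = 0 := by
      intro x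
      have := x.2
      rw [Submodule.mem_torsionBy_iff, natCast_zsmul] at this
      exact this
    refine ⟨E₁.comap (Submodule.subtype
      (Submodule.torsionBy ℤ ((W.map (Int.castRingHom ℚ))⁄Ω).Point p)).toAddMonoidHom, ?_, ?_⟩
    · intro σ hσ (x : Submodule.torsionBy ℤ ((W.map (Int.castRingHom ℚ))⁄Ω).Point p)
      show ((σ • x - x : Submodule.torsionBy ℤ ((W.map (Int.castRingHom ℚ))⁄Ω).Point p) :
        ((W.map (Int.castRingHom ℚ))⁄Ω).Point) ∈ E₁
      exact h1 σ hσ _ (htors x)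
    · intro hall (x : Submodule.torsionBy ℤ ((W.map (Int.castRingHom ℚ))⁄Ω).Point p)
        (y : Submodule.torsionBy ℤ ((W.map (Int.castRingHom ℚ))⁄Ω).Point p) hx hy
      have hall' : ∀ Q : ((W.map (Int.castRingHom ℚ))⁄Ω).Point, p • Q = 0 → Q ∈ E₁ := by
        intro Q hQ
        have hQ' : Q ∈ Submodule.torsionBy ℤ ((W.map (Int.castRingHom ℚ))⁄Ω).Point p := by
          rw [Submodule.mem_torsionBy_iff, natCast_zsmul]; exact hQ
        exact hall ⟨Q, hQ'⟩
      obtain ⟨σ, hσ, hσx⟩ := h2 hall' x y (htors x) (htors y)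
        (fun h0 => hx (Subtype.ext h0)) (fun h0 => hy (Subtype.ext h0))
      exact ⟨σ, hσ, Subtype.ext hσx⟩

include D in
/-- **[HYG-L] for one `RhoWData`.** -/
theorem hyg_main (hp35 : p = 3 ∨ p = 5) (hΔ : W.Δ ≠ 0) (hss : W.IsSemistableModel)
    (hirr : W.ModRepIsIrreducible p) {k₂ : Type} [Field k₂] (ψ : ZMod p →+* k₂)
    (ρ₂ : ResidualGaloisRep k₂)
    (hint : ResIntertwined ψ
      (WeierstrassCurve.residualGaloisRepOf (W.map (Int.castRingHom ℚ)) p hcard hker) ρ₂) :
    ρ₂.IsAbsolutelyIrreducible ∧ ResTW ρ₂ := by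
  have hp : p.Prime := Fact.out
  have hp2 : p ≠ 2 := by rcases hp35 with rfl | rfl <;> norm_num
  set ρ₁ := WeierstrassCurve.residualGaloisRepOf (W.map (Int.castRingHom ℚ)) p hcard hker with hρ₁
  have hin := hyg_input hcard hker D hΔ hss hp2 hirr
  have hM := hygM_of_input hp35 hin
  -- complex conjugation
  set s := ρ₁.ρ complexConjugation with hs
  have hss' : s * s = 1 := by
    rw [hs, ← map_mul, complexConjugation_mul_self, map_one]
  have hds : LinearMap.det s = -1 := by
    rw [hs, hin.det complexConjugation (p - 1)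
      (fun μ hμ => Fermat.Agent.TW.Odd.complexConjugation_eq_pow hp.pos hμ),
      Nat.cast_sub hp.one_le, ZMod.natCast_self, Nat.cast_one, zero_sub]
  have h2ne : (2 : ZMod p) ≠ 0 := hyg_two_ne_zero hp2
  have hne1 : (1 : ZMod p) ≠ -1 := by
    intro h0
    apply h2ne
    linear_combination h0
  -- `s ≠ ± 1`
  let b : Module.Basis (Fin 2) (ZMod p) ρ₁.V := Module.finBasisOfFinrankEq _ _ ρ₁.finrank_eq
  have hs1 : s ≠ 1 := by
    intro h0
    rw [h0, map_one] at hds
    exact hne1 hds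
  have hs2 : s ≠ -1 := by
    intro h0
    have h3 := (hyg_trace_det_of_basis b s (a₀ := -1) (c₀ := 0) (a₁ := 0) (c₁ := -1)
      (by rw [h0]; simp) (by rw [h0]; simp)).2
    rw [hds] at h3
    apply hne1
    linear_combination -h3
  obtain ⟨v, hv⟩ : ∃ v : ρ₁.V, s v + v ≠ 0 := by
    by_contra hno
    apply hs2
    ext x
    have : s x + x = 0 := by
      by_contra h0
      exact hno ⟨x, h0⟩
    rw [LinearMap.neg_apply, Module.End.one_apply]
    exact eq_neg_of_add_eq_zero_left this
  obtain ⟨v', hv'⟩ : ∃ v' : ρ₁.V, s v' - v' ≠ 0 := by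
    by_contra hno
    apply hs1
    ext x
    have : s x - x = 0 := by
      by_contra h0
      exact hno ⟨x, h0⟩
    rw [Module.End.one_apply]
    exact sub_eq_zero.mp this
  have hssx : ∀ x : ρ₁.V, s (s x) = x := by
    intro x
    have := congrArg (fun g : Module.End (ZMod p) ρ₁.V => g x) hss'
    simpa using this
  refine hyg_transfer hint hin.irr complexConjugation (e₁ := s v + v) (e₂ := s v' - v')
    (l₁ := 1) (l₂ := -1) hne1 hv hv' ?_ ?_ hM
  · show s (s v + v) = (1 : ZMod p) • (s v + v)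
    rw [map_add, hssx, one_smul, add_comm]
  · show s (s v' - v') = (-1 : ZMod p) • (s v' - v')
    rw [map_sub, hssx, neg_smul, one_smul, neg_sub]

end Assembly

/-- **[HYG-L], consumer form.** -/
theorem hygTWRhoStatement : HygTWRhoStatement := by
  intro p _ hp35 W hΔ hss hirr D
  have hp : p.Prime := Fact.out
  have hΔQ : (W.map (Int.castRingHom ℚ)).Δ ≠ 0 := by
    rw [WeierstrassCurve.map_Δ, eq_intCast]
    exact_mod_cast hΔ
  have hcard : Nat.card
      (Submodule.torsionBy ℤ ((W.map (Int.castRingHom ℚ))⁄Ω).Point p) = p ^ 2 :=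
    Fermat.Agent.S13.card_torsionBy_Qbar _ hΔQ hp.ne_zero
  haveI : Finite (Submodule.torsionBy ℤ ((W.map (Int.castRingHom ℚ))⁄Ω).Point p) :=
    Nat.finite_of_card_ne_zero (by rw [hcard]; exact pow_ne_zero 2 hp.ne_zero)
  have hker := galoisFactorsThroughFiniteLevel_of_finite (W.map (Int.castRingHom ℚ)) p
  exact hyg_main hcard hker D hp35 hΔ hss hirr (hygPsi p) D.ρ.residual
    (hyg_resIntertwined hcard hker D)

/-- **[HYG-L], `E[p]` form.** -/
theorem hygTWStatement : HygTWStatement := by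
  intro p _ hp35 W hΔ hss hirr hcard hker
  have hp2 : p ≠ 2 := by rcases hp35 with rfl | rfl <;> norm_num
  obtain ⟨D⟩ := rhoWStatement p hp2 W hΔ hss
  refine (hyg_main hcard hker D hp35 hΔ hss hirr (RingHom.id _) _ ?_).2
  refine ⟨AddMonoidHom.id _, fun σ v => rfl, fun c v => rfl, fun Φ hΦ => ?_⟩
  ext w
  exact hΦ w

end Fermat.Agent.ML
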