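/-
PROJECT ML (S59) — lead — [AUX-PRIME], file 2: **`ML.auxPrimeStatement : AuxPrimeStatement`**:
for a semistable `W` with irreducible `W[3]` there are auxiliary primes (`r ≡ 2 mod 3`, good
reduction, `3 ∤ a_r`) outside every finite set.

Proof.  Let `ρ̄` be the residual representation of the `3`-adic Tate module (`RhoWData`).  If no
auxiliary prime exists outside `B`, every Frobenius at a good prime `ℓ ≡ 2 mod 3`, `ℓ ∉ B`, has trace
`0` and determinant `-1`; by Frobenius density (`GR.exists_frobenius_pow_conj`) every `σ` with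
`det ρ̄(σ) = -1` has `tr ρ̄(σ) = 0`.  Then (`AuxP.exists_stable_line`) the subgroup `ker det ρ̄` of
index two has a stable line over the algebraic closure, against [HYG-L] (`hygTWRhoStatement`).
-/
import Mathlib
import Fermat.Agent.ML.AUXP_lead_LinAlg
import Fermat.Agent.ML.IFACE_lead_LevelOpt
import Fermat.Agent.ML.HYG_helper1_Main
import Fermat.Agent.ML.RHOW_helper1_Final
import Fermat.Agent.GR.K9B_helper4_Pieces
import Fermat.Agent.GR.S29TOP_lead
import Fermat.Agent.RB.GLUE_helper9_Frob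

set_option autoImplicit false
set_option linter.unusedSectionVars false
set_option linter.unusedVariables false
set_option linter.style.haveILetI false

open scoped TensorProduct

namespace Fermat.Agent.ML.AuxP

open Polynomial IsLocalRing Fermat.Agent.GR

local notation "Ω" => AlgebraicClosure ℚ
local notation "GQ" => (AlgebraicClosure ℚ ≃ₐ[ℚ] AlgebraicClosure ℚ)

section Residue

variable {A : Type} [CommRing A] [IsLocalRing A]

/-- a natural number modulo `3` in a field in which `3 = 0` -/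
theorem natCast_eq_mod_three {k : Type*} [Field k] (h3 : (3 : k) = 0) (n : ℕ) :
    (n : k) = ((n % 3 : ℕ) : k) := by
  conv_lhs => rw [← Nat.div_add_mod n 3]
  push_cast
  rw [h3, zero_mul, zero_add]

end Residue

/-- **[AUX-PRIME]** -/
theorem auxPrimeStatement : AuxPrimeStatement := by
  intro W hyp B
  by_contra hno
  push Not at hno
  haveI : Fact (Nat.Prime 3) := ⟨Nat.prime_three⟩
  obtain ⟨D⟩ := rhoWStatement 3 (by norm_num) W hyp.disc_ne hyp.semistable
  obtain ⟨-, hTW⟩ := hygTWRhoStatement 3 (Or.inl rfl) W hyp.disc_ne hyp.semistable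
    hyp.irreducible D
  set ρbar := D.ρ.residual with hρbar
  set k := ResidueField ℤ_[3] with hk
  -- `3 = 0` in the residue field
  have h3k : (3 : k) = 0 := by
    have h1 : ((3 : ℕ) : ℤ_[3]) ∈ maximalIdeal ℤ_[3] := D.det_cyclotomic.1
    have h2 := (residue_eq_zero_iff _).2 h1
    rw [map_natCast] at h2
    exact_mod_cast h2
  have hne : (1 : k) ≠ -1 := by
    intro h
    have h2 : (2 : k) = 0 := by
      have : (1 : k) + 1 = 0 := by nth_rewrite 2 [h]; ring
      rw [← this]; norm_num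
    have : (1 : k) = 3 - 2 := by norm_num
    rw [h3k, h2, sub_zero] at this
    exact one_ne_zero this
  -- the finite set of excluded primes
  set T : Finset ℕ := B ∪ {3} ∪ W.Δ.natAbs.primeFactors with hT
  -- trace and determinant of a Frobenius at a prime outside `T`
  have hfrob : ∀ ℓ : ℕ, ℓ.Prime → ℓ ∉ T → ∀ P : ValuationSubring Ω, P.LiesOverPrime ℓ →
      ∀ φ : GQ, P.IsFrobeniusAt φ ℓ →
        (ℓ % 3 = 1 ∧ LinearMap.det (ρbar.ρ φ) = 1) ∨
        (ℓ % 3 = 2 ∧ LinearMap.det (ρbar.ρ φ) = -1 ∧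
          LinearMap.trace k ρbar.V (ρbar.ρ φ) = 0) := by
    intro ℓ hℓ hℓT P hP φ hφ
    have hℓB : ℓ ∉ B := fun h => hℓT (Finset.mem_union_left _ (Finset.mem_union_left _ h))
    have hℓ3 : ℓ ≠ 3 := fun h =>
      hℓT (Finset.mem_union_left _ (Finset.mem_union_right _ (by rw [h]; simp)))
    have hgood : W.IsGoodPrimeFor ℓ := by
      intro hdvd
      apply hℓT
      refine Finset.mem_union_right _ (Nat.mem_primeFactors.2 ⟨hℓ, ?_, ?_⟩)
      · exact Int.natCast_dvd.1 hdvd
      · exact Int.natAbs_ne_zero.2 hyp.disc_ne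
    have hcp := D.charpoly_frob ℓ hℓ hℓ3 hgood P hP φ hφ
    have hcp' : LinearMap.charpoly (ρbar.ρ φ) =
        X ^ 2 - C (residue ℤ_[3] ((W.apOfModel ℓ : ℤ) : ℤ_[3])) * X +
          C (residue ℤ_[3] ((ℓ : ℕ) : ℤ_[3])) := by
      rw [hρbar, residual_charpoly, hcp]
      simp only [Polynomial.map_add, Polynomial.map_sub, Polynomial.map_mul, Polynomial.map_pow,
        Polynomial.map_X, Polynomial.map_C]
    obtain ⟨htr, hdet⟩ := trace_det_of_charpoly_eq ρbar.finrank_eq (ρbar.ρ φ) _ _ hcp'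
    have hdet' : LinearMap.det (ρbar.ρ φ) = ((ℓ % 3 : ℕ) : k) := by
      rw [hdet, map_natCast]
      exact natCast_eq_mod_three h3k ℓ
    have hmod : ℓ % 3 = 1 ∨ ℓ % 3 = 2 := by
      have h0 : ℓ % 3 ≠ 0 := by
        intro h
        have := (Nat.prime_dvd_prime_iff_eq Nat.prime_three hℓ).1 (Nat.dvd_of_mod_eq_zero h)
        exact hℓ3 this.symm
      omega
    rcases hmod with h1 | h2
    · left
      refine ⟨h1, ?_⟩
      rw [hdet', h1, Nat.cast_one]
    · right
      refine ⟨h2, ?_, ?_⟩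
      · rw [hdet', h2]
        have : ((2 : ℕ) : k) = 3 - 1 := by norm_num
        rw [this, h3k, zero_sub]
      · -- no auxiliary prime: `3 ∣ a_ℓ`
        have h3a : (3 : ℤ) ∣ W.apOfModel ℓ := by
          by_contra h
          exact hno ℓ hℓB ⟨rfl, hℓ, hgood, h2, h⟩
        obtain ⟨b, hb⟩ := h3a
        rw [htr, hb]
        push_cast
        rw [map_mul]
        have h1 : residue ℤ_[3] (3 : ℤ_[3]) = 0 := by
          have := h3k
          rw [← map_ofNat (residue ℤ_[3]) 3] at this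
          exact this
        rw [h1, zero_mul]
  -- Frobenius density: every `σ` is conjugate to a power of a Frobenius outside `T`
  obtain ⟨L, hLfd, hL⟩ := ρbar.factorsThroughFiniteLevel
  haveI : FiniteDimensional ℚ L := hLfd
  have hconj : ∀ σ : GQ, ∃ (ℓ : ℕ) (_ : ℓ.Prime) (_ : ℓ ∉ T) (P : ValuationSubring Ω)
      (_ : P.LiesOverPrime ℓ) (φ : GQ) (_ : P.IsFrobeniusAt φ ℓ) (m : ℕ) (τ : GQ),
      ρbar.ρ (τ * σ * τ⁻¹) = ρbar.ρ φ ^ m := by
    intro σ
    obtain ⟨ℓ, hℓ, hℓT, P, hP, φ, hφ, m, τ, hx⟩ := exists_frobenius_pow_conj T L σ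
    refine ⟨ℓ, hℓ, hℓT, P, hP, φ, hφ, m, τ, ?_⟩
    have h1 : ρbar.ρ ((φ ^ m)⁻¹ * (τ * σ * τ⁻¹)) = 1 := by
      apply hL
      intro x hxL
      rw [AlgEquiv.mul_apply, hx x hxL]
      exact (φ ^ m).symm_apply_apply x
    have h2 : ρbar.ρ (τ * σ * τ⁻¹) = ρbar.ρ (φ ^ m) * ρbar.ρ ((φ ^ m)⁻¹ * (τ * σ * τ⁻¹)) := by
      rw [← map_mul, mul_inv_cancel_left]
    rw [h2, h1, mul_one, map_pow]
  -- conjugation invariance
  have hdetconj : ∀ σ τ : GQ,
      LinearMap.det (ρbar.ρ (τ * σ * τ⁻¹)) = LinearMap.det (ρbar.ρ σ) := by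
    intro σ τ
    have h1 : LinearMap.det (ρbar.ρ τ) * LinearMap.det (ρbar.ρ τ⁻¹) = 1 := by
      rw [← map_mul, ← map_mul, mul_inv_cancel, map_one, map_one]
    rw [map_mul, map_mul, map_mul, map_mul]
    calc LinearMap.det (ρbar.ρ τ) * LinearMap.det (ρbar.ρ σ) * LinearMap.det (ρbar.ρ τ⁻¹)
        = LinearMap.det (ρbar.ρ σ) *
          (LinearMap.det (ρbar.ρ τ) * LinearMap.det (ρbar.ρ τ⁻¹)) := by ring
      _ = LinearMap.det (ρbar.ρ σ) := by rw [h1, mul_one]
  have htrconj : ∀ σ τ : GQ, LinearMap.trace k ρbar.V (ρbar.ρ (τ * σ * τ⁻¹)) =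
      LinearMap.trace k ρbar.V (ρbar.ρ σ) := by
    intro σ τ
    rw [map_mul, LinearMap.trace_mul_comm, ← map_mul, inv_mul_cancel_left]
  -- all the determinants are `±1`
  have hdetpm : ∀ σ : GQ, LinearMap.det (ρbar.ρ σ) = 1 ∨ LinearMap.det (ρbar.ρ σ) = -1 := by
    intro σ
    obtain ⟨ℓ, hℓ, hℓT, P, hP, φ, hφ, m, τ, hm⟩ := hconj σ
    rw [← hdetconj σ τ, hm, map_pow]
    rcases hfrob ℓ hℓ hℓT P hP φ hφ with ⟨-, h⟩ | ⟨-, h, -⟩
    · left; rw [h, one_pow]
    · rw [h]
      rcases neg_one_pow_eq_or k m with h' | h'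
      · left; exact h'
      · right; exact h'
  -- every `σ` of determinant `-1` has trace `0`
  have hall : ∀ σ : GQ, LinearMap.det (ρbar.ρ σ) = -1 →
      LinearMap.trace k ρbar.V (ρbar.ρ σ) = 0 := by
    intro σ hσ
    obtain ⟨ℓ, hℓ, hℓT, P, hP, φ, hφ, m, τ, hm⟩ := hconj σ
    have hd : LinearMap.det (ρbar.ρ φ ^ m) = -1 := by rw [← hm, hdetconj, hσ]
    rcases hfrob ℓ hℓ hℓT P hP φ hφ with ⟨-, h⟩ | ⟨-, h, htr⟩
    · rw [map_pow, h, one_pow] at hd
      exact absurd hd hne
    · have hsq : ρbar.ρ φ * ρbar.ρ φ = 1 := mul_self_eq_one ρbar.finrank_eq _ htr h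
      rcases Nat.even_or_odd' m with ⟨j, hj | hj⟩
      · rw [hj, pow_mul, pow_two, hsq, one_pow, map_one] at hd
        exact absurd hd hne
      · have hpow : ρbar.ρ φ ^ m = ρbar.ρ φ := by
          rw [hj, pow_succ, pow_mul, pow_two, hsq, one_pow, one_mul]
        rw [← htrconj σ τ, hm, hpow, htr]
  -- complex conjugation has determinant `-1`
  have hc : LinearMap.det (ρbar.ρ complexConjugation) = -1 := by
    have h1 := Fermat.Agent.RB.GLUE.det_complexConjugation_eq D.ρ Nat.prime_three D.det_cyclotomic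
    have h2 : LinearMap.det (ρbar.ρ complexConjugation) =
        algebraMap ℤ_[3] k (LinearMap.det (D.ρ.ρ complexConjugation)) :=
      LinearMap.det_baseChange (D.ρ.ρ complexConjugation)
    rw [h2, h1, map_neg, map_one]
  -- the stable line
  obtain ⟨Lin, hbot, htop, hstab⟩ := exists_stable_line ρbar.ρ ρbar.finrank_eq complexConjugation
    hc hall (AlgebraicClosure k)
  -- the subgroup `ker det` has index two
  set detHom : GQ →* k := (LinearMap.det : Module.End k ρbar.V →* k).comp ρbar.ρ with hdetHom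
  have hmemH : ∀ σ : GQ, σ ∈ detHom.ker ↔ LinearMap.det (ρbar.ρ σ) = 1 := fun σ =>
    MonoidHom.mem_ker
  have hidx : (detHom.ker).index = 2 := by
    rw [Subgroup.index_eq_two_iff]
    refine ⟨complexConjugation, fun b => ?_⟩
    rw [hmemH, hmemH, map_mul, map_mul, hc]
    rcases hdetpm b with h | h
    · rw [h]
      refine Or.inr ⟨(hmemH b).2 h |> fun _ => rfl, ?_⟩
      rw [one_mul]
      exact fun h' => hne h'.symm
    · rw [h]
      refine Or.inl ⟨by ring, fun h' => hne h'.symm⟩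
  rcases hTW (AlgebraicClosure k) detHom.ker hidx Lin (fun σ hσ x hx =>
    hstab σ ((hmemH σ).1 hσ) x hx) with h | h
  · exact hbot h
  · exact htop h

end Fermat.Agent.ML.AuxP
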