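/-
PROJECT ML (S59) — [GLUE'] (helper7), file 1: **the generic Taylor–Wiles level** consumed by the
port of helper9's RB glue (`RB/GLUE_helper9_*`).

`GSide` / `GLevel` are RB's `TWSide` / `TWGaloisLevel` with
  * the deformation condition `isOfType : twCondition …` replaced by the TWO facts which the glue
    uses about it (`det_cyc`: cyclotomic determinant; `unr`: unramified outside `S ∪ Q`), and
  * the Hecke–Galois datum replaced by the level-zero representation `ρ₀ : GaloisRepAdic T`.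
So the glue becomes independent of the shape of the deformation condition (flat / strict at `p`,
auxiliary primes in `S`, …) and of the vocabulary of the level-zero Hecke ring: any producer literal
(`RB.TWGaloisLevel`, helper9's `TWGaloisLevelE`) maps to `GLevel` field by field.
-/
import Mathlib
import Fermat.Agent.RB.IFACE_helper9_TW

set_option autoImplicit false

open Polynomial IsLocalRing

namespace Fermat.Agent.ML.GLUEG

local notation "GQ" => (AlgebraicClosure ℚ ≃ₐ[ℚ] AlgebraicClosure ℚ)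

section

variable {𝒪 : Type} [CommRing 𝒪] [IsDomain 𝒪] [IsDiscreteValuationRing 𝒪]
  [IsAdicComplete (maximalIdeal 𝒪) 𝒪]

/-- one of the two Hecke–Galois modules of the Taylor–Wiles construction at `(n, Q)`
(generic form: no deformation condition beyond the determinant and the ramification set) -/
structure GSide (p : ℕ) (S : Finset ℕ) (ρbar : ResidualGaloisRep (ResidueField 𝒪))
    (r d n : ℕ) (Q : Fin r → ℕ) : Type 1 where
  /-- the Hecke algebra -/
  T : Type
  [instCommRing : CommRing T]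
  [instIsLocalRing : IsLocalRing T]
  [instIsNoetherianRing : IsNoetherianRing T]
  [instIsAdicComplete : IsAdicComplete (maximalIdeal T) T]
  [instAlgebra : Algebra 𝒪 T]
  [instIsLocalHom : IsLocalHom (algebraMap 𝒪 T)]
  [instFinite : Module.Finite 𝒪 T]
  residue_surjective : Function.Surjective (IsLocalRing.residue T ∘ algebraMap 𝒪 T)
  /-- the Galois representation -/
  ρ : GaloisRepAdic T
  residual_isEquiv : ρ.residual.IsEquiv
    (ρbar.baseChangeAlong (IsLocalRing.ResidueField.map (algebraMap 𝒪 T)))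
  det_cyc : ρ.DetIsCyclotomic p
  unr : ∀ ℓ : ℕ, ℓ.Prime → ℓ ∉ S ∪ Finset.univ.image Q → ρ.IsUnramifiedAt ℓ
  adjoin_trace : Algebra.adjoin 𝒪 (Set.range ρ.trace) = ⊤
  /-- the module -/
  H : Type
  [instAddCommGroup : AddCommGroup H]
  [instModule : Module 𝒪 H]
  /-- the Hecke action -/
  h : T →ₐ[𝒪] Module.End 𝒪 H
  /-- the (square roots of the) diamond operators at the Taylor–Wiles primes -/
  g : Fin r → Module.End 𝒪 H
  g_pow : ∀ q, g q ^ (p ^ n) = 1
  g_comm : ∀ q q', Commute (g q) (g q')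
  g_comm_h : ∀ q t, Commute (g q) (h t)
  /-- freeness of rank `d` over `𝒪[(ℤ/p^n)^r]` -/
  b : Fin d → H
  free : Function.Bijective fun c : (Fin d × (Fin r → Fin (p ^ n))) →₀ 𝒪 =>
    c.sum fun je a =>
      a • (((List.finRange r).map fun q => g q ^ ((je.2 q : Fin (p ^ n)) : ℕ)).prod (b je.1))
  /-- **(KEY-H)** at the Taylor–Wiles primes, unordered form -/
  keyH : ∀ q, ∃ (P : ValuationSubring (AlgebraicClosure ℚ)) (_ : P.LiesOverPrime (Q q))
    (σ : GQ) (_ : σ ∈ P.inertiaSubgroupIn ℚ),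
      h (ρ.trace σ) = g q + g q ^ (p ^ n - 1)

attribute [instance] GSide.instCommRing GSide.instIsLocalRing GSide.instIsNoetherianRing
  GSide.instIsAdicComplete GSide.instAlgebra GSide.instIsLocalHom GSide.instFinite
  GSide.instAddCommGroup GSide.instModule

/-- **The Taylor–Wiles data at `(n, Q)`** (generic form): the two sides, their common reduction and
the control map to the level-zero pair `(T, ρ₀, M0)`. -/
structure GLevel (p : ℕ) {T : Type} [CommRing T] [IsLocalRing T] [Algebra 𝒪 T]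
    (ρ₀ : GaloisRepAdic T) (S Sig : Finset ℕ) (ζ lam : 𝒪)
    (ρbar : ResidualGaloisRep (ResidueField 𝒪))
    (r d : ℕ) (M0 : Type) [AddCommGroup M0] [Module 𝒪 M0] [Module T M0]
    (n : ℕ) (Q : Fin r → ℕ) : Type 1 where
  /-- problem (1): unipotent at `Σ` -/
  side₁ : GSide (𝒪 := 𝒪) p S ρbar r d n Q
  /-- problem (2): `χ`-type at `Σ` -/
  side₂ : GSide (𝒪 := 𝒪) p S ρbar r d n Q
  type₁ : ∀ v ∈ Sig, side₁.ρ.IsUnipotentOnInertiaAt v
  type₂ : ∀ v ∈ Sig, ∀ P : ValuationSubring (AlgebraicClosure ℚ), P.LiesOverPrime v →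
    (∀ σ ∈ P.inertiaSubgroupIn ℚ, side₂.ρ.ρ σ ^ p = 1) ∧
    ∃ τ ∈ P.inertiaSubgroupIn ℚ, LinearMap.charpoly (side₂.ρ.ρ τ) =
      X ^ 2 - C (algebraMap 𝒪 side₂.T (ζ + ζ ^ (p - 1))) * X + 1
  /-- the common reduction modulo `λ` -/
  Hbar : Type
  [instAddCommGroupBar : AddCommGroup Hbar]
  [instModuleBar : Module 𝒪 Hbar]
  gbar : Fin r → Module.End 𝒪 Hbar
  trbar : GQ → Module.End 𝒪 Hbar
  red₁ : side₁.H →ₗ[𝒪] Hbar
  red₂ : side₂.H →ₗ[𝒪] Hbar
  red₁_surjective : Function.Surjective red₁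
  red₂_surjective : Function.Surjective red₂
  ker_red₁ : ∀ x, red₁ x = 0 ↔ ∃ y, x = lam • y
  ker_red₂ : ∀ x, red₂ x = 0 ↔ ∃ y, x = lam • y
  red₁_g : ∀ q x, red₁ (side₁.g q x) = gbar q (red₁ x)
  red₂_g : ∀ q x, red₂ (side₂.g q x) = gbar q (red₂ x)
  red₁_trace : ∀ σ x, red₁ (side₁.h (side₁.ρ.trace σ) x) = trbar σ (red₁ x)
  red₂_trace : ∀ σ x, red₂ (side₂.h (side₂.ρ.trace σ) x) = trbar σ (red₂ x)
  /-- control -/
  toT : side₁.T →ₐ[𝒪] T
  toT_trace : ∀ σ, toT (side₁.ρ.trace σ) = ρ₀.trace σ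
  ctl : side₁.H →ₗ[𝒪] M0
  ctl_surjective : Function.Surjective ctl
  ker_ctl : ∀ x, ctl x = 0 ↔
    x ∈ ⨆ q, LinearMap.range (side₁.g q - 1)
  ctl_h : ∀ t x, ctl (side₁.h t x) = toT t • ctl x

attribute [instance] GLevel.instAddCommGroupBar GLevel.instModuleBar

/-- RB's side is a generic side. -/
def GSide.ofTWSide {p : ℕ} {S Sig : Finset ℕ} {ρbar : ResidualGaloisRep (ResidueField 𝒪)}
    {r d n : ℕ} {Q : Fin r → ℕ} (Sd : RB.TWSide (𝒪 := 𝒪) p S Sig ρbar r d n Q) :
    GSide (𝒪 := 𝒪) p S ρbar r d n Q where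
  T := Sd.T
  residue_surjective := Sd.residue_surjective
  ρ := Sd.ρ
  residual_isEquiv := Sd.residual_isEquiv
  det_cyc := Sd.isOfType.1.1
  unr := Sd.isOfType.1.2.2
  adjoin_trace := Sd.adjoin_trace
  H := Sd.H
  h := Sd.h
  g := Sd.g
  g_pow := Sd.g_pow
  g_comm := Sd.g_comm
  g_comm_h := Sd.g_comm_h
  b := Sd.b
  free := Sd.free
  keyH := Sd.keyH

end

end Fermat.Agent.ML.GLUEG
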