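/-
PROJECT ML (S59) — [GLUE'] (helper7), file 3: port of `RB/GLUE_helper9_Sigma` to the generic
level `GLevel`: **local analysis of `ρM` at a prime `v ∈ Σ`** (place `padicPlace v`, Frobenius `frobElt v`, tame generator `τ` = the element of `type₂`).
-/
import Mathlib
import Fermat.Agent.ML.GLUEG_helper7_Data
import Fermat.Agent.RB.GLUE_helper9_Sigma

set_option autoImplicit false
set_option linter.unusedSectionVars false
set_option linter.unusedVariables false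
set_option linter.style.haveILetI false

namespace Fermat.Agent.ML.GLUEG

open Polynomial IsLocalRing Fermat.Agent.S53 Fermat.Agent.S53.L1 Fermat.Agent.RB.REPT
open Fermat.Agent.CFT.Arith Fermat.Agent.CFT.LocForm
open Fermat.Agent.RB Fermat.Agent.RB.GLUE

local notation "Ω" => AlgebraicClosure ℚ
local notation "GQ" => (AlgebraicClosure ℚ ≃ₐ[ℚ] AlgebraicClosure ℚ)

section

variable {𝒪 : Type} [CommRing 𝒪] [IsDomain 𝒪] [IsDiscreteValuationRing 𝒪]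
  [IsAdicComplete (maximalIdeal 𝒪) 𝒪]

/-- the Hecke algebra of a side acts faithfully: `𝒪 → T` is injective -/
theorem GSide.algebraMap_injective {p : ℕ} [hp : Fact p.Prime] {S : Finset ℕ}
    {ρbar : ResidualGaloisRep (ResidueField 𝒪)} {r d n : ℕ} {Q : Fin r → ℕ}
    (Sd : GSide (𝒪 := 𝒪) p S ρbar r d n Q) (hd : 0 < d) :
    Function.Injective (algebraMap 𝒪 Sd.T) := by
  rw [injective_iff_map_eq_zero]
  intro c hc
  have hpos : 0 < p ^ n := pow_pos hp.out.pos n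
  set je : Fin d × (Fin r → Fin (p ^ n)) := (⟨0, hd⟩, fun _ => ⟨0, hpos⟩) with hje
  have h1 : (Finsupp.single je c).sum (fun je a =>
      a • (((List.finRange r).map fun q => Sd.g q ^ ((je.2 q : Fin (p ^ n)) : ℕ)).prod
        (Sd.b je.1))) = c • Sd.b ⟨0, hd⟩ := by
    rw [Finsupp.sum_single_index (by rw [zero_smul])]
    have : ((List.finRange r).map fun q => Sd.g q ^ ((je.2 q : Fin (p ^ n)) : ℕ)).prod = 1 := by
      apply List.prod_eq_one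
      intro x hx
      obtain ⟨q, -, rfl⟩ := List.mem_map.1 hx
      rfl
    rw [this]
    rfl
  have h2 : c • Sd.b ⟨0, hd⟩ = 0 := by
    have := congrArg (fun e : Module.End 𝒪 Sd.H => e (Sd.b ⟨0, hd⟩)) (congrArg Sd.h hc)
    simp only [AlgHom.commutes, map_zero, Module.algebraMap_end_apply, LinearMap.zero_apply]
      at this
    exact this
  have h3 := Sd.free.1 (a₁ := Finsupp.single je c) (a₂ := 0) (by
    show (Finsupp.single je c).sum _ = (0 : _ →₀ 𝒪).sum _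
    rw [h1, h2, Finsupp.sum_zero_index])
  have := DFunLike.congr_fun h3 je
  rwa [Finsupp.single_eq_same, Finsupp.zero_apply] at this

end

section

variable {𝒪 : Type} [CommRing 𝒪] [IsDomain 𝒪] [IsDiscreteValuationRing 𝒪]
  [IsAdicComplete (maximalIdeal 𝒪) 𝒪]
  {S : Finset ℕ}
  {T : Type} [CommRing T] [IsLocalRing T] [Algebra 𝒪 T]
  {p : ℕ} {ρ₀ : GaloisRepAdic T}
  {Sig : Finset ℕ} {ζ lam : 𝒪} {ρbar : ResidualGaloisRep (ResidueField 𝒪)}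
  {r d : ℕ} {M0 : Type} [AddCommGroup M0] [Module 𝒪 M0] [Module T M0]
  {n : ℕ} {Q : Fin r → ℕ}
  {L : GLevel p ρ₀ S Sig ζ lam ρbar r d M0 n Q}

/-- the facts about `ρM` at a prime `v ∈ Σ` -/
structure SigmaFacts (G : GlueData L) (v : ℕ) [Fact v.Prime] (half alpha : 𝒪) (τ : GQ) : Prop where
  mem : τ ∈ (padicPlace v).inertiaSubgroupIn ℚ
  gen : ∀ k : ℕ, ∀ σ ∈ (padicPlace v).inertiaSubgroupIn ℚ, ∃ a : ℕ,
    EMem (maximalIdeal G.𝕋 ^ k) (G.ρM σ - G.ρM τ ^ a)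
  coordτ : G.ρM τ 0 0 - G.ρM τ 1 1 ∈ maximalIdeal G.𝕋 ∧ G.ρM τ 0 1 ∈ maximalIdeal G.𝕋 ∧
    G.ρM τ 1 0 ∈ maximalIdeal G.𝕋
  coordφ : G.ρM (frobElt v) 0 0 - G.ρM (frobElt v) 1 1 ∈ maximalIdeal G.𝕋 ∧
    G.ρM (frobElt v) 0 1 ∈ maximalIdeal G.𝕋 ∧ G.ρM (frobElt v) 1 0 ∈ maximalIdeal G.𝕋
  tr₁ : ((G.ρM τ).map G.pr₁).trace = 2
  det₁ : ((G.ρM τ).map G.pr₁).det = 1
  detφ₁ : ((G.ρM (frobElt v)).map G.pr₁).det = (v : L.side₁.T)
  trφ₁ : algebraMap 𝒪 L.side₁.T half * ((G.ρM (frobElt v)).map G.pr₁).trace -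
    algebraMap 𝒪 L.side₁.T alpha ∈ maximalIdeal L.side₁.T
  rel₁ : (G.ρM (frobElt v)).map G.pr₁ * ((G.ρM τ).map G.pr₁ - 1) =
    (v : L.side₁.T) • (((G.ρM τ).map G.pr₁ - 1) * (G.ρM (frobElt v)).map G.pr₁)
  tr₂ : ((G.ρM τ).map G.pr₂).trace = algebraMap 𝒪 L.side₂.T (ζ + ζ ^ (p - 1))
  det₂ : ((G.ρM τ).map G.pr₂).det = 1
  comm₂ : (G.ρM (frobElt v)).map G.pr₂ * (G.ρM τ).map G.pr₂ =
    (G.ρM τ).map G.pr₂ * (G.ρM (frobElt v)).map G.pr₂

variable (G : GlueData L)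

theorem GlueData.mem_maximalIdeal_iff₁ (t : G.𝕋) :
    t ∈ maximalIdeal G.𝕋 ↔ G.pr₁ t ∈ maximalIdeal L.side₁.T := by
  haveI := G.pr₁_local
  rw [mem_maximalIdeal, mem_maximalIdeal, mem_nonunits_iff, mem_nonunits_iff, not_iff_not]
  exact ⟨fun h => h.map G.pr₁, fun h => IsLocalHom.map_nonunit t h⟩

theorem GlueData.mem_maximalIdeal_iff₂ (t : G.𝕋) :
    t ∈ maximalIdeal G.𝕋 ↔ G.pr₂ t ∈ maximalIdeal L.side₂.T := by
  haveI := G.pr₂_local
  rw [mem_maximalIdeal, mem_maximalIdeal, mem_nonunits_iff, mem_nonunits_iff, not_iff_not]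
  exact ⟨fun h => h.map G.pr₂, fun h => IsLocalHom.map_nonunit t h⟩

theorem GlueData.natCast_mem (hp𝒪 : (p : 𝒪) ∈ maximalIdeal 𝒪) : (p : G.𝕋) ∈ maximalIdeal G.𝕋 := by
  rw [G.mem_maximalIdeal_iff₁, map_natCast]
  have : (p : L.side₁.T) = algebraMap 𝒪 L.side₁.T (p : 𝒪) := by rw [map_natCast]
  rw [this]
  exact map_nonunit (algebraMap 𝒪 L.side₁.T) _ hp𝒪

/-- `ρM` is trivial modulo `𝔪` where `ρ̄` is trivial -/
theorem GlueData.emem_sub_one {σ : GQ} (hσ : ρbar.ρ σ = 1) :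
    EMem (maximalIdeal G.𝕋) (G.ρM σ - 1) := by
  intro i j
  rw [G.mem_maximalIdeal_iff₁]
  have h1 := sub_one_mem_of_eq_one L.side₁.ρ G.bs₁ _ ρbar L.side₁.residual_isEquiv hσ i j
  have h2 : G.pr₁ ((G.ρM σ - 1) i j) = (LinearMap.toMatrix G.bs₁ G.bs₁ (L.side₁.ρ.ρ σ) - 1) i j := by
    have := congrFun (congrFun (G.map₁ σ) i) j
    rw [Matrix.map_apply, matRep_apply] at this
    rw [Matrix.sub_apply, Matrix.sub_apply, map_sub, this]
    congr 1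
    by_cases hij : i = j
    · rw [hij, Matrix.one_apply_eq, Matrix.one_apply_eq, map_one]
    · rw [Matrix.one_apply_ne hij, Matrix.one_apply_ne hij, map_zero]
  rw [h2]
  exact h1

/-- the traceless coordinates of `ρM(σ)` lie in `𝔪` where `ρ̄(σ)` is scalar -/
theorem GlueData.coords_mem {σ : GQ} {c : ResidueField 𝒪}
    (hc : ρbar.ρ σ = c • (1 : Module.End (ResidueField 𝒪) ρbar.V)) :
    G.ρM σ 0 0 - G.ρM σ 1 1 ∈ maximalIdeal G.𝕋 ∧ G.ρM σ 0 1 ∈ maximalIdeal G.𝕋 ∧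
      G.ρM σ 1 0 ∈ maximalIdeal G.𝕋 := by
  obtain ⟨h1, h2, h3, -, -⟩ := coords_mem_of_scalar L.side₁.ρ G.bs₁ _ ρbar
    L.side₁.residual_isEquiv hc
  have e : ∀ i j, G.pr₁ (G.ρM σ i j) = LinearMap.toMatrix G.bs₁ G.bs₁ (L.side₁.ρ.ρ σ) i j := by
    intro i j
    have := congrFun (congrFun (G.map₁ σ) i) j
    rwa [Matrix.map_apply, matRep_apply] at this
  refine ⟨?_, ?_, ?_⟩
  · rw [G.mem_maximalIdeal_iff₁, map_sub, e, e]; exact h1
  · rw [G.mem_maximalIdeal_iff₁, e]; exact h2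
  · rw [G.mem_maximalIdeal_iff₁, e]; exact h3

/-- **the local facts at `v ∈ Σ`.** -/
theorem exists_sigmaFacts [hp : Fact p.Prime] (hp2 : p ≠ 2) (hp𝒪 : (p : 𝒪) ∈ maximalIdeal 𝒪)
    (hζ : IsPrimitiveRoot ζ p) (hd : 0 < d) {v : ℕ} [hv : Fact v.Prime] (hvS : v ∈ Sig)
    (hvp : v ≠ p) (hv1 : v ≡ 1 [MOD p]) (hunr : ρbar.IsUnramifiedAt v)
    {half alpha : 𝒪} (hhalf : 2 * half = 1)
    (hc : ρbar.ρ (frobElt v) =
      residue 𝒪 alpha • (1 : Module.End (ResidueField 𝒪) ρbar.V)) :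
    ∃ τ : GQ, SigmaFacts G v half alpha τ := by
  have hP : (padicPlace v).LiesOverPrime v := Fermat.Agent.TW.Kill.padicPlace_liesOverPrime v
  have hφ := frobElt_spec v
  obtain ⟨hpow, τ, hτ, hchar⟩ := L.type₂ v hvS (padicPlace v) hP
  have hres : ∀ σ ∈ (padicPlace v).inertiaSubgroupIn ℚ,
      EMem (maximalIdeal G.𝕋) (G.ρM σ - 1) := fun σ hσ =>
    G.emem_sub_one (hunr (padicPlace v) hP σ hσ)
  have hpR := G.natCast_mem hp𝒪
  -- the two matrix ring homomorphisms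
  set mp₁ : Mat2 G.𝕋 →+* Mat2 L.side₁.T := (G.pr₁ : G.𝕋 →+* L.side₁.T).mapMatrix with hmp₁
  set mp₂ : Mat2 G.𝕋 →+* Mat2 L.side₂.T := (G.pr₂ : G.𝕋 →+* L.side₂.T).mapMatrix with hmp₂
  have e₁ : ∀ σ, mp₁ (G.ρM σ) = matRep L.side₁.ρ G.bs₁ σ := G.map₁
  have e₂ : ∀ σ, mp₂ (G.ρM σ) = matRep L.side₂.ρ G.bs₂ σ := G.map₂
  -- side 2: trace, determinant
  have hcp₂ : (matRep L.side₂.ρ G.bs₂ τ).charpoly =
      X ^ 2 - C (algebraMap 𝒪 L.side₂.T (ζ + ζ ^ (p - 1))) * X + C 1 := by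
    rw [charpoly_matRep, map_one]
    exact hchar
  obtain ⟨htr₂, hdet₂⟩ := trace_det_of_charpoly _ hcp₂
  have hp₂ : ∀ σ ∈ (padicPlace v).inertiaSubgroupIn ℚ, mp₂ (G.ρM σ) ^ p = 1 := by
    intro σ hσ
    rw [e₂, ← map_pow, matRep_apply, map_pow, hpow σ hσ]
    exact LinearMap.toMatrix_one G.bs₂
  have hne : mp₂ (G.ρM τ) ≠ 1 := by
    intro h1
    rw [e₂] at h1
    rw [h1, Matrix.trace_one, Fintype.card_fin] at htr₂
    have h2 : algebraMap 𝒪 L.side₂.T (ζ + ζ ^ (p - 1)) = algebraMap 𝒪 L.side₂.T 2 := by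
      rw [← htr₂, map_ofNat]; norm_num
    exact zeta_add_ne_two hp.out.one_lt hζ (GSide.algebraMap_injective L.side₂ hd h2)
  have hgen : ∀ k : ℕ, ∀ σ ∈ (padicPlace v).inertiaSubgroupIn ℚ, ∃ a : ℕ,
      EMem (maximalIdeal G.𝕋 ^ k) (G.ρM σ - G.ρM τ ^ a) := fun k σ hσ =>
    exists_pow_of_quotient G.ρM G.cont hp.out hv.out hvp hpR hP hres
      (G.pr₂ : G.𝕋 →+* L.side₂.T) ⟨fun a ha => G.pr₂_local.map_nonunit a ha⟩ hp₂ hτ hne k hσ
  -- the tame relation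
  have hconj := conj_frobenius G.ρM G.cont hp.out hv.out hvp hpR hP hres hφ hτ
  have hconj' : G.ρM (frobElt v) * G.ρM τ = G.ρM τ ^ v * G.ρM (frobElt v) := by
    rw [← hconj, ← map_mul, ← map_mul]
    congr 1
    group
  have hconj₁ : mp₁ (G.ρM (frobElt v)) * mp₁ (G.ρM τ) =
      mp₁ (G.ρM τ) ^ v * mp₁ (G.ρM (frobElt v)) := by
    rw [← map_mul, hconj', map_mul, map_pow]
  have hconj₂ : mp₂ (G.ρM (frobElt v)) * mp₂ (G.ρM τ) =
      mp₂ (G.ρM τ) ^ v * mp₂ (G.ρM (frobElt v)) := by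
    rw [← map_mul, hconj', map_mul, map_pow]
  -- side 1
  have hcp₁ : (matRep L.side₁.ρ G.bs₁ τ).charpoly = (X - 1) ^ 2 := by
    rw [charpoly_matRep]
    exact L.type₁ v hvS (padicPlace v) hP τ hτ
  obtain ⟨htr₁, hdet₁⟩ := trace_det_of_charpoly_unipotent _ hcp₁
  have hdetφ : (matRep L.side₁.ρ G.bs₁ (frobElt v)).det = (v : L.side₁.T) := by
    rw [det_matRep]
    exact det_frobenius_eq L.side₁.ρ hp.out L.side₁.det_cyc hv.out hvp hP hφ
  obtain ⟨-, -, -, h4, h5⟩ := coords_mem_of_scalar L.side₁.ρ G.bs₁ _ ρbar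
    L.side₁.residual_isEquiv hc
  have htrφ : algebraMap 𝒪 L.side₁.T half * (matRep L.side₁.ρ G.bs₁ (frobElt v)).trace -
      algebraMap 𝒪 L.side₁.T alpha ∈ maximalIdeal L.side₁.T := by
    rw [IsLocalRing.ResidueField.map_residue] at h4 h5
    have hm0 : matRep L.side₁.ρ G.bs₁ (frobElt v) 0 0 - algebraMap 𝒪 L.side₁.T alpha ∈
        maximalIdeal L.side₁.T := by
      rw [← residue_eq_zero_iff, map_sub, sub_eq_zero]; exact h4
    have hm1 : matRep L.side₁.ρ G.bs₁ (frobElt v) 1 1 - algebraMap 𝒪 L.side₁.T alpha ∈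
        maximalIdeal L.side₁.T := by
      rw [← residue_eq_zero_iff, map_sub, sub_eq_zero]; exact h5
    have e2 : (2 : L.side₁.T) * algebraMap 𝒪 L.side₁.T half = 1 := by
      have := congrArg (algebraMap 𝒪 L.side₁.T) hhalf
      rwa [map_mul, map_ofNat, map_one] at this
    have : algebraMap 𝒪 L.side₁.T half * (matRep L.side₁.ρ G.bs₁ (frobElt v)).trace -
        algebraMap 𝒪 L.side₁.T alpha = algebraMap 𝒪 L.side₁.T half *
          ((matRep L.side₁.ρ G.bs₁ (frobElt v) 0 0 - algebraMap 𝒪 L.side₁.T alpha) +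
            (matRep L.side₁.ρ G.bs₁ (frobElt v) 1 1 - algebraMap 𝒪 L.side₁.T alpha)) := by
      rw [Matrix.trace_fin_two]
      linear_combination (algebraMap 𝒪 L.side₁.T alpha) * e2
    rw [this]
    exact Ideal.mul_mem_left _ _ (Ideal.add_mem _ hm0 hm1)
  refine ⟨τ, ?_⟩
  refine
    { mem := hτ
      gen := hgen
      coordτ := ?_
      coordφ := G.coords_mem hc
      tr₁ := ?_
      det₁ := ?_
      detφ₁ := ?_
      trφ₁ := ?_
      rel₁ := ?_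
      tr₂ := ?_
      det₂ := ?_
      comm₂ := ?_ }
  · have h := hres τ hτ
    refine ⟨?_, ?_, ?_⟩
    · have := Ideal.sub_mem _ (h 0 0) (h 1 1)
      simpa using this
    · simpa using h 0 1
    · simpa using h 1 0
  · show (mp₁ (G.ρM τ)).trace = 2
    rw [e₁]; exact htr₁
  · show (mp₁ (G.ρM τ)).det = 1
    rw [e₁]; exact hdet₁
  · show (mp₁ (G.ρM (frobElt v))).det = _
    rw [e₁]; exact hdetφ
  · show algebraMap 𝒪 L.side₁.T half * (mp₁ (G.ρM (frobElt v))).trace - _ ∈ _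
    rw [e₁]; exact htrφ
  · show mp₁ (G.ρM (frobElt v)) * (mp₁ (G.ρM τ) - 1) =
      (v : L.side₁.T) • ((mp₁ (G.ρM τ) - 1) * mp₁ (G.ρM (frobElt v)))
    refine rel_of_conj_unipotent ?_ ?_ v hconj₁
    · rw [e₁]; exact htr₁
    · rw [e₁]; exact hdet₁
  · show (mp₂ (G.ρM τ)).trace = _
    rw [e₂]; exact htr₂
  · show (mp₂ (G.ρM τ)).det = 1
    rw [e₂]; exact hdet₂
  · show mp₂ (G.ρM (frobElt v)) * mp₂ (G.ρM τ) = mp₂ (G.ρM τ) * mp₂ (G.ρM (frobElt v))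
    exact comm_of_conj_of_pow hv1 hv.out.pos (hp₂ τ hτ) hconj₂

end

end Fermat.Agent.ML.GLUEG
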