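/-
PROJECT ML (S59) — [GLUE'] (helper7), file 4: port of `RB/GLUE_helper9_Level` to the generic
level `GLevel`: **from the glue data of a Taylor–Wiles level (+ [SEL]) to the algebraic level `AlgLevel`.**
-/
import Mathlib
import Fermat.Agent.ML.GLUEG_helper7_Sigma
import Fermat.Agent.RB.GLUE_helper9_Level

set_option autoImplicit false
set_option linter.unusedSectionVars false
set_option linter.unusedVariables false
set_option linter.style.haveILetI false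

namespace Fermat.Agent.ML.GLUEG

open Polynomial IsLocalRing Fermat.Agent.S53 Fermat.Agent.S53.L1 Fermat.Agent.RB.REPT
open Fermat.Agent.CFT.Arith Fermat.Agent.CFT.LocForm
open Fermat.Agent.RB Fermat.Agent.RB.GLUE

local notation "Ω" => AlgebraicClosure ℚ
local notation "GQ" => (AlgebraicClosure ℚ ≃ₐ[ℚ] AlgebraicClosure ℚ)

section

variable {𝒪 : Type} [CommRing 𝒪] [IsDomain 𝒪] [IsDiscreteValuationRing 𝒪]
  [IsAdicComplete (maximalIdeal 𝒪) 𝒪]
  {S : Finset ℕ}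
  {T : Type} [CommRing T] [IsLocalRing T] [Algebra 𝒪 T]
  {p : ℕ} {ρ₀ : GaloisRepAdic T}
  {Sig : Finset ℕ} {ζ lam : 𝒪} {ρbar : ResidualGaloisRep (ResidueField 𝒪)}
  {r d : ℕ} {M0 : Type} [AddCommGroup M0] [Module 𝒪 M0] [Module T M0]
  {n : ℕ} {Q : Fin r → ℕ}
  {L : GLevel p ρ₀ S Sig ζ lam ρbar r d M0 n Q}
  (G : GlueData L) [hF : ∀ v : ↥Sig, Fact ((v : ℕ).Prime)]
  (Rt : LOC.Roots 𝒪 ↥Sig) (τ : ↥Sig → GQ)
  (hτ : ∀ v : ↥Sig, SigmaFacts G (v : ℕ) Rt.half (Rt.alpha v) (τ v))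
  {g : ℕ} (y : Fin g → G.𝕋) (hy : ∀ j, y j ∈ maximalIdeal G.𝕋)

/-- the images of the tame generators -/
noncomputable def sgM : ↥Sig → Mat2 G.𝕋 := fun v => G.ρM (τ v)

/-- the images of the Frobenius elements -/
noncomputable def phM : ↥Sig → Mat2 G.𝕋 := fun v => G.ρM (frobElt (v : ℕ))

include hτ hy in
theorem matPoint_mem (t : LOC.Var ↥Sig g) :
    LOC.matPoint Rt.toData g (sgM G τ) (phM G) y t ∈ maximalIdeal G.𝕋 := by
  rcases t with ⟨v, i⟩ | ⟨v, i⟩ | j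
  · show LOC.tl (algebraMap 𝒪 G.𝕋 Rt.half) (G.ρM (τ v)) i ∈ _
    obtain ⟨h1, h2, h3⟩ := (hτ v).coordτ
    fin_cases i
    · exact Ideal.mul_mem_left _ _ h1
    · exact h2
    · exact h3
  · show LOC.tl (algebraMap 𝒪 G.𝕋 Rt.half) (G.ρM (frobElt (v : ℕ))) i ∈ _
    obtain ⟨h1, h2, h3⟩ := (hτ v).coordφ
    fin_cases i
    · exact Ideal.mul_mem_left _ _ h1
    · exact h2
    · exact h3
  · exact hy j

/-- the evaluation homomorphism `PS → 𝕋` -/
noncomputable def psi : LOC.PS 𝒪 ↥Sig g →ₐ[𝒪] G.𝕋 :=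
  LOC.evPS g (maximalIdeal G.𝕋) (LOC.matPoint Rt.toData g (sgM G τ) (phM G) y)
    (matPoint_mem G Rt τ hτ y hy)

theorem psi_X (t : LOC.Var ↥Sig g) :
    psi G Rt τ hτ y hy (MvPowerSeries.X t) = LOC.matPoint Rt.toData g (sgM G τ) (phM G) y t :=
  TK.evalAdic_X _ _ _ t

theorem map_pr₁_le : (maximalIdeal G.𝕋).map G.pr₁ ≤ maximalIdeal L.side₁.T := by
  rw [Ideal.map_le_iff_le_comap]
  intro x hx
  exact (G.mem_maximalIdeal_iff₁ x).1 hx

theorem map_pr₂_le : (maximalIdeal G.𝕋).map G.pr₂ ≤ maximalIdeal L.side₂.T := by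
  rw [Ideal.map_le_iff_le_comap]
  intro x hx
  exact (G.mem_maximalIdeal_iff₂ x).1 hx

/-- **problem (1): the local relations hold in `T₁`.** -/
theorem pr₁_psi_eq_zero (hRnv : ∀ v : ↥Sig, Rt.nv v = ((v : ℕ) : 𝒪))
    (hRd : ∀ v : ↥Sig, Rt.delta v = ((v : ℕ) : 𝒪)) (f : LOC.PS 𝒪 ↥Sig g)
    (hf : f ∈ LOC.I₁ Rt.toData g) : G.pr₁ (psi G Rt τ hτ y hy f) = 0 := by
  rw [psi, map_evPS g (maximalIdeal G.𝕋) (maximalIdeal L.side₁.T) G.pr₁ (map_pr₁_le G)]
  have hpt := map_matPoint G.pr₁ Rt.toData g (sgM G τ) (phM G) y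
  have hmem₁ : ∀ t, LOC.matPoint Rt.toData g (fun v => (sgM G τ v).map G.pr₁)
      (fun v => (phM G v).map G.pr₁) (fun j => G.pr₁ (y j)) t ∈ maximalIdeal L.side₁.T := by
    intro t
    rw [← hpt]
    exact map_pr₁_le G (Ideal.mem_map_of_mem _ (matPoint_mem G Rt τ hτ y hy t))
  rw [evPS_congr g (maximalIdeal L.side₁.T) hpt _ hmem₁]
  have key := LOC.Roots.I₁_le_ker Rt g (maximalIdeal L.side₁.T)
    (fun v => (sgM G τ v).map G.pr₁) (fun v => (phM G v).map G.pr₁) (fun j => G.pr₁ (y j)) hmem₁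
    (fun v => (hτ v).tr₁) (fun v => (hτ v).det₁)
    (fun v => by rw [hRd, map_natCast]; exact (hτ v).detφ₁)
    (fun v => (hτ v).trφ₁)
    (fun v => by rw [hRnv, map_natCast]; exact (hτ v).rel₁)
  exact key hf

/-- **problem (2): the local relations hold in `T₂`.** -/
theorem pr₂_psi_eq_zero (hRz : ∀ v : ↥Sig, Rt.zeta v = ζ)
    (hRzi : ∀ v : ↥Sig, Rt.zetaInv v = ζ ^ (p - 1)) (f : LOC.PS 𝒪 ↥Sig g)
    (hf : f ∈ LOC.I₂ Rt.toData g) : G.pr₂ (psi G Rt τ hτ y hy f) = 0 := by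
  rw [psi, map_evPS g (maximalIdeal G.𝕋) (maximalIdeal L.side₂.T) G.pr₂ (map_pr₂_le G)]
  have hpt := map_matPoint G.pr₂ Rt.toData g (sgM G τ) (phM G) y
  have hmem₂ : ∀ t, LOC.matPoint Rt.toData g (fun v => (sgM G τ v).map G.pr₂)
      (fun v => (phM G v).map G.pr₂) (fun j => G.pr₂ (y j)) t ∈ maximalIdeal L.side₂.T := by
    intro t
    rw [← hpt]
    exact map_pr₂_le G (Ideal.mem_map_of_mem _ (matPoint_mem G Rt τ hτ y hy t))
  rw [evPS_congr g (maximalIdeal L.side₂.T) hpt _ hmem₂]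
  have key := LOC.Roots.I₂_le_ker Rt g (maximalIdeal L.side₂.T)
    (fun v => (sgM G τ v).map G.pr₂) (fun v => (phM G v).map G.pr₂) (fun j => G.pr₂ (y j)) hmem₂
    (fun v => by rw [hRz, hRzi]; exact (hτ v).tr₂) (fun v => (hτ v).det₂)
    (fun v => (hτ v).comm₂)
  exact key hf

/-- surjectivity of `PS → T₁` from the generation of the maximal ideal -/
theorem pr₁_psi_surjective
    (hgen : (coordIdeal G.pr₁ Rt.toData (sgM G τ) (phM G) ⊔
      (maximalIdeal 𝒪).map (algebraMap 𝒪 L.side₁.T) ⊔ maximalIdeal L.side₁.T ^ 2) ⊔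
        Ideal.span (Set.range fun j => G.pr₁ (y j)) = maximalIdeal L.side₁.T) :
    Function.Surjective (G.pr₁.comp (psi G Rt τ hτ y hy)) := by
  refine Fermat.Agent.TW.algHom_surjective_of_gen L.side₁.residue_surjective _ ?_
  have e : (fun t => (G.pr₁.comp (psi G Rt τ hτ y hy)) (MvPowerSeries.X t)) =
      fun t => G.pr₁ (LOC.matPoint Rt.toData g (sgM G τ) (phM G) y t) := by
    funext t
    rw [AlgHom.comp_apply, psi_X]
  rw [e, span_range_matPoint]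
  refine Eq.trans ?_ hgen
  ac_rfl

/-- surjectivity of `PS → T₂` from the generation of the maximal ideal -/
theorem pr₂_psi_surjective
    (hgen : (coordIdeal G.pr₂ Rt.toData (sgM G τ) (phM G) ⊔
      (maximalIdeal 𝒪).map (algebraMap 𝒪 L.side₂.T) ⊔ maximalIdeal L.side₂.T ^ 2) ⊔
        Ideal.span (Set.range fun j => G.pr₂ (y j)) = maximalIdeal L.side₂.T) :
    Function.Surjective (G.pr₂.comp (psi G Rt τ hτ y hy)) := by
  refine Fermat.Agent.TW.algHom_surjective_of_gen L.side₂.residue_surjective _ ?_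
  have e : (fun t => (G.pr₂.comp (psi G Rt τ hτ y hy)) (MvPowerSeries.X t)) =
      fun t => G.pr₂ (LOC.matPoint Rt.toData g (sgM G τ) (phM G) y t) := by
    funext t
    rw [AlgHom.comp_apply, psi_X]
  rw [e, span_range_matPoint]
  refine Eq.trans ?_ hgen
  ac_rfl

end

section HF

variable {𝒪 : Type} [CommRing 𝒪] [IsDomain 𝒪] [IsDiscreteValuationRing 𝒪]
  [IsAdicComplete (maximalIdeal 𝒪) 𝒪]
  {p : ℕ} {S Sig : Finset ℕ} {ρbar : ResidualGaloisRep (ResidueField 𝒪)} {r d n : ℕ}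
  {Q : Fin r → ℕ}

/-- **(KEY-H) in the form used by the CORE**, from `keyH` and the surjectivity of `PS → T`. -/
theorem GSide.exists_hF (Sd : GSide (𝒪 := 𝒪) p S ρbar r d n Q) [hp : Fact p.Prime]
    (hp2 : p ≠ 2) (hp𝒪 : (p : 𝒪) ∈ maximalIdeal 𝒪)
    (hunrS : ∀ ℓ : ℕ, ℓ.Prime → ℓ ∉ S → ρbar.IsUnramifiedAt ℓ) (hQ : IsTWSet ρbar p S n Q)
    {P : Type} [CommRing P] [IsLocalRing P] [Algebra 𝒪 P] (γ : P →ₐ[𝒪] Sd.T)
    (hγ : Function.Surjective γ) (q : Fin r) :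
    ∃ Gq ∈ maximalIdeal P, (Sd.h.comp γ) Gq * (Sd.g q + 1) ^ 2 = (Sd.g q - 1) ^ 2 := by
  obtain ⟨Pl, hPl, σ, hσ, hkey⟩ := Sd.keyH q
  have hσbar : ρbar.ρ σ = 1 := hunrS (Q q) (hQ.prime q) (hQ.notMem q) Pl hPl σ hσ
  set t := Sd.ρ.trace σ with ht
  -- `t ≡ 2`
  have ht2 : t - 2 ∈ maximalIdeal Sd.T := by
    rw [← residue_eq_zero_iff, map_sub, sub_eq_zero,
      residue_trace Sd.ρ _ ρbar Sd.residual_isEquiv σ, hσbar, LinearMap.trace_one,
      ρbar.finrank_eq]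
    simp only [Nat.cast_ofNat, map_ofNat]
  have h2u : IsUnit (2 : Sd.T) := by
    have := (isUnit_two_of_odd hp.out hp2 hp𝒪).map (algebraMap 𝒪 Sd.T)
    rwa [map_ofNat] at this
  have hu : IsUnit (t + 2) := by
    by_contra hnu
    have h1 : t + 2 ∈ maximalIdeal Sd.T := (mem_maximalIdeal _).2 hnu
    have h4 : (2 : Sd.T) * 2 ∈ maximalIdeal Sd.T := by
      have := Ideal.sub_mem _ h1 ht2
      have e : t + 2 - (t - 2) = 2 * 2 := by ring
      rwa [e] at this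
    exact (mem_maximalIdeal _).1 h4 (h2u.mul h2u)
  obtain ⟨w, hw⟩ := hu.exists_right_inv
  have hz : w * (t - 2) ∈ maximalIdeal Sd.T := Ideal.mul_mem_left _ _ ht2
  obtain ⟨Gq, hGq⟩ := hγ (w * (t - 2))
  refine ⟨Gq, ?_, ?_⟩
  · rw [mem_maximalIdeal, mem_nonunits_iff]
    intro hGu
    have := hGu.map γ
    rw [hGq] at this
    exact (mem_maximalIdeal _).1 hz this
  · rw [AlgHom.comp_apply, hGq]
    have hpos : 0 < p ^ n := pow_pos hp.out.pos n
    set gq := Sd.g q with hgq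
    set gi := gq ^ (p ^ n - 1) with hgi
    have hgi1 : gq * gi = 1 := by
      rw [hgi, ← pow_succ', Nat.sub_add_cancel hpos, Sd.g_pow]
    have hht : Sd.h t = gq + gi := hkey
    have hc : ∀ t' : Sd.T, gq * Sd.h t' = Sd.h t' * gq := fun t' => (Sd.g_comm_h q t').eq
    have h2 : Sd.h (2 : Sd.T) = 2 := map_ofNat Sd.h 2
    have e1 : (gq + 1) ^ 2 = gq * Sd.h (t + 2) := by
      rw [map_add, hht, h2, mul_add, mul_add, hgi1, pow_two, add_mul, mul_add, mul_one, one_mul,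
        mul_two]
      abel
    have e2 : (gq - 1) ^ 2 = gq * Sd.h (t - 2) := by
      rw [map_sub, hht, h2, mul_sub, mul_add, hgi1, pow_two, sub_mul, mul_sub, mul_one, one_mul,
        mul_two]
      abel
    rw [e1, e2, ← mul_assoc, ← hc, mul_assoc, ← map_mul]
    congr 2
    calc w * (t - 2) * (t + 2) = ((t + 2) * w) * (t - 2) := by ring
      _ = t - 2 := by rw [hw, one_mul]

end HF

end Fermat.Agent.ML.GLUEG
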