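/-
PROJECT ML (S59) — [GLUE'] (helper7), file 6: port of `RB/GLUE_helper9_Ctl` to the generic
level `GLevel`: **the inertia ideals at `Σ` at level zero are generated by the images of the variables `s_{v,i}`** (the field `ctl_C` of `AlgLevel`).
-/
import Mathlib
import Fermat.Agent.ML.GLUEG_helper7_Gens
import Fermat.Agent.RB.GLUE_helper9_Ctl

set_option autoImplicit false
set_option linter.unusedSectionVars false
set_option linter.unusedVariables false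
set_option linter.style.haveILetI false

namespace Fermat.Agent.ML.GLUEG

open Polynomial IsLocalRing Fermat.Agent.S53 Fermat.Agent.S53.L1 Fermat.Agent.RB.REPT
open Fermat.Agent.CFT.Arith Fermat.Agent.CFT.LocForm
open Fermat.Agent.RB Fermat.Agent.RB.GLUE

local notation "Ω" => AlgebraicClosure ℚ
local notation "GQ" => (AlgebraicClosure ℚ ≃ₐ[ℚ] AlgebraicClosure ℚ)

section Apply

variable {𝒪 : Type} [CommRing 𝒪] [IsDomain 𝒪] [IsDiscreteValuationRing 𝒪]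
  [IsAdicComplete (maximalIdeal 𝒪) 𝒪]
  {S : Finset ℕ}
  {T : Type} [CommRing T] [IsLocalRing T] [Algebra 𝒪 T]
  {p : ℕ} {ρ₀ : GaloisRepAdic T}
  {Sig : Finset ℕ} {ζ lam : 𝒪} {ρbar : ResidualGaloisRep (ResidueField 𝒪)}
  {r d : ℕ} {M0 : Type} [AddCommGroup M0] [Module 𝒪 M0] [Module T M0]
  {n : ℕ} {Q : Fin r → ℕ}
  {L : GLevel p ρ₀ S Sig ζ lam ρbar r d M0 n Q}
  (G : GlueData L) [hF : ∀ v : ↥Sig, Fact ((v : ℕ).Prime)]
  (Rt : LOC.Roots 𝒪 ↥Sig) (τ : ↥Sig → GQ)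
  (hτ : ∀ v : ↥Sig, SigmaFacts G (v : ℕ) Rt.half (Rt.alpha v) (τ v))

/-- the ideal of `T` generated by the images of the `s_{v,i}` -/
def sIdeal : Ideal T :=
  Ideal.span {a | ∃ (v : ↥Sig) (i : Fin 3),
    a = L.toT (G.pr₁ (LOC.tl (algebraMap 𝒪 G.𝕋 Rt.half) (G.ρM (τ v)) i))}

theorem pr₁_trace (M : Mat2 G.𝕋) : G.pr₁ M.trace = (M.map G.pr₁).trace := by
  rw [Matrix.trace_fin_two, Matrix.trace_fin_two, Matrix.map_apply, Matrix.map_apply, map_add]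

include hτ in
theorem inertiaIdeal_le_sIdeal (habs₀ : ρ₀.residual.IsAbsolutelyIrreducible) (v : ↥Sig) :
    inertiaIdeal ρ₀ (v : ℕ) ≤ sIdeal G Rt τ := by
  set bT : Module.Basis (Fin 2) T ρ₀.V :=
    Module.finBasisOfFinrankEq T ρ₀.V ρ₀.finrank_eq with hbT
  refine inertiaIdeal_le ρ₀ bT v _ (fun P hP σ hσ => ?_)
  have hhalf : (2 : G.𝕋) * algebraMap 𝒪 G.𝕋 Rt.half = 1 := by
    have := congrArg (algebraMap 𝒪 G.𝕋) Rt.two_mul_half
    rwa [map_mul, map_ofNat, map_one] at this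
  have htr : ∀ σ, ((L.toT.comp G.pr₁ : G.𝕋 →ₐ[𝒪] T) : G.𝕋 →+* T) (G.ρM σ).trace =
      (matRep ρ₀ bT σ).trace := by
    intro σ
    show L.toT (G.pr₁ (G.ρM σ).trace) = _
    rw [pr₁_trace, G.map₁, trace_matRep, trace_matRep]
    exact L.toT_trace σ
  have htr2 : ((L.toT.comp G.pr₁ : G.𝕋 →ₐ[𝒪] T) : G.𝕋 →+* T) (G.ρM (τ v)).trace = 2 := by
    show L.toT (G.pr₁ (G.ρM (τ v)).trace) = _
    rw [pr₁_trace, (hτ v).tr₁, map_ofNat]
  exact emem_sub_one_of_gen_all ((L.toT.comp G.pr₁ : G.𝕋 →ₐ[𝒪] T) : G.𝕋 →+* T) G.ρM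
    (matRep ρ₀ bT) (fullSpan_matRep ρ₀ bT habs₀) htr _ hhalf (τ v)
    (hτ v).gen htr2 (sIdeal G Rt τ) (fun i => Ideal.subset_span ⟨v, i, rfl⟩) hP hσ

include hτ in
/-- **the field `ctl_C`** -/
theorem ctl_C_aux (habs₀ : ρ₀.residual.IsAbsolutelyIrreducible) [IsScalarTower 𝒪 T M0] {g : ℕ}
    (y : Fin g → G.𝕋)
    (hy : ∀ j, y j ∈ maximalIdeal G.𝕋) (m : M0)
    (hm : m ∈ (⨆ v ∈ Sig, inertiaIdeal ρ₀ v) • (⊤ : Submodule T M0)) :
    m ∈ Submodule.span 𝒪 {z | ∃ (v : ↥Sig) (i : Fin 3) (x : L.side₁.H),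
      z = L.ctl ((L.side₁.h.comp (G.pr₁.comp (psi G Rt τ hτ y hy))) (LOC.sX 𝒪 g v i) x)} := by
  have hle : (⨆ v ∈ Sig, inertiaIdeal ρ₀ v) ≤ sIdeal G Rt τ :=
    iSup₂_le fun v hv => inertiaIdeal_le_sIdeal G Rt τ hτ habs₀ ⟨v, hv⟩
  have hm' := Submodule.smul_mono_left hle hm
  set W : Submodule 𝒪 M0 := Submodule.span 𝒪 {z | ∃ (v : ↥Sig) (i : Fin 3) (x : L.side₁.H),
      z = L.ctl ((L.side₁.h.comp (G.pr₁.comp (psi G Rt τ hτ y hy))) (LOC.sX 𝒪 g v i) x)} with hW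
  have key : ∀ t ∈ sIdeal G Rt τ, ∀ m' : M0, t • m' ∈ W := by
    intro t ht
    induction ht using Submodule.span_induction with
    | mem t ht =>
      obtain ⟨v, i, rfl⟩ := ht
      intro m'
      obtain ⟨x, rfl⟩ := L.ctl_surjective m'
      refine Submodule.subset_span ⟨v, i, x, ?_⟩
      rw [AlgHom.comp_apply, AlgHom.comp_apply, L.ctl_h]
      congr 3
      exact (psi_X G Rt τ hτ y hy (Sum.inl (v, i))).symm
    | zero => intro m'; rw [zero_smul]; exact W.zero_mem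
    | add a b _ _ ha hb => intro m'; rw [add_smul]; exact W.add_mem (ha m') (hb m')
    | smul a b _ hb =>
      intro m'
      rw [smul_eq_mul, mul_comm, mul_smul]
      exact hb (a • m')
  refine Submodule.smul_induction_on hm' (fun t ht m' _ => key t ht m') ?_
  intro a b ha hb
  exact W.add_mem ha hb

end Apply

end Fermat.Agent.ML.GLUEG
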