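/-
PROJECT ML (S59) — [GLUE'] (helper7), file 7: port of `RB/GLUE_helper9_Assemble` to the generic
level `GLevel`: **the algebraic Taylor–Wiles level from a generic Galois level** (`GLevel` + glue data + `Σ`-facts + [SEL] ⇒ `AlgLevel` ⇒ `TWLevel`).
-/
import Mathlib
import Fermat.Agent.ML.GLUEG_helper7_Ctl
import Fermat.Agent.RB.GLUE_helper9_Assemble

set_option autoImplicit false
set_option linter.unusedSectionVars false
set_option linter.unusedVariables false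
set_option linter.style.haveILetI false

namespace Fermat.Agent.ML.GLUEG

open Polynomial IsLocalRing Fermat.Agent.S53 Fermat.Agent.S53.L1 Fermat.Agent.RB.REPT
open Fermat.Agent.CFT.Arith Fermat.Agent.CFT.LocForm
open Fermat.Agent.RB Fermat.Agent.RB.GLUE

local notation "Ω" => AlgebraicClosure ℚ
local notation "GQ" => (AlgebraicClosure ℚ ≃ₐ[ℚ] AlgebraicClosure ℚ)

section

variable {𝒪 : Type} [CommRing 𝒪] [IsDomain 𝒪] [IsDiscreteValuationRing 𝒪]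
  [IsAdicComplete (maximalIdeal 𝒪) 𝒪]
  {S : Finset ℕ}
  {T : Type} [CommRing T] [IsLocalRing T] [Algebra 𝒪 T]
  {p : ℕ} {ρ₀ : GaloisRepAdic T}
  {Sig : Finset ℕ} {ζ lam : 𝒪} {ρbar : ResidualGaloisRep (ResidueField 𝒪)}
  {r d : ℕ} {M0 : Type} [AddCommGroup M0] [Module 𝒪 M0] [Module T M0]
  {n : ℕ} {Q : Fin r → ℕ}
  {L : GLevel p ρ₀ S Sig ζ lam ρbar r d M0 n Q}
  (G : GlueData L) [hF : ∀ v : ↥Sig, Fact ((v : ℕ).Prime)]
  (Rt : LOC.Roots 𝒪 ↥Sig) (τ : ↥Sig → GQ)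
  (hτ : ∀ v : ↥Sig, SigmaFacts G (v : ℕ) Rt.half (Rt.alpha v) (τ v))

/-- the level-zero submodule `C0 = 𝔠 M0` -/
def cZero (ρ₀ : GaloisRepAdic T) (Sig : Finset ℕ)
    (M0 : Type) [AddCommGroup M0] [Module 𝒪 M0] [Module T M0] [IsScalarTower 𝒪 T M0] :
    Submodule 𝒪 M0 :=
  ((⨆ v ∈ Sig, inertiaIdeal ρ₀ v) • (⊤ : Submodule T M0)).restrictScalars 𝒪

include hτ in
theorem nonempty_algLevel [hp : Fact p.Prime] (hp2 : p ≠ 2) (hp𝒪 : (p : 𝒪) ∈ maximalIdeal 𝒪)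
    [IsScalarTower 𝒪 T M0]
    (hunrS : ∀ ℓ : ℕ, ℓ.Prime → ℓ ∉ S → ρbar.IsUnramifiedAt ℓ) (hQ : IsTWSet ρbar p S n Q)
    (hRlam : Rt.lam = lam) (hRnv : ∀ v : ↥Sig, Rt.nv v = ((v : ℕ) : 𝒪))
    (hRd : ∀ v : ↥Sig, Rt.delta v = ((v : ℕ) : 𝒪)) (hRz : ∀ v : ↥Sig, Rt.zeta v = ζ)
    (hRzi : ∀ v : ↥Sig, Rt.zetaInv v = ζ ^ (p - 1))
    (habs₀ : ρ₀.residual.IsAbsolutelyIrreducible)
    {g : ℕ} (hsel₁ : SelFor 𝒪 Sig g L.side₁.T L.side₁.ρ)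
    (hsel₂ : SelFor 𝒪 Sig g L.side₂.T L.side₂.ρ) :
    Nonempty (AlgLevel Rt.toData p g r d M0 (cZero (𝒪 := 𝒪) ρ₀ Sig M0) n) := by
  subst hRlam
  obtain ⟨y, hy, hg₁, hg₂⟩ := exists_gens G Rt τ hτ hsel₁ hsel₂
  have hs₁ := pr₁_psi_surjective G Rt τ hτ y hy hg₁
  have hs₂ := pr₂_psi_surjective G Rt τ hτ y hy hg₂
  exact ⟨{
    H₁ := L.side₁.H
    H₂ := L.side₂.H
    Hbar := L.Hbar
    g₁ := L.side₁.g
    g₁_pow := L.side₁.g_pow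
    g₁_comm := L.side₁.g_comm
    g₂ := L.side₂.g
    g₂_pow := L.side₂.g_pow
    g₂_comm := L.side₂.g_comm
    gbar := L.gbar
    b₁ := L.side₁.b
    free₁ := L.side₁.free
    b₂ := L.side₂.b
    free₂ := L.side₂.free
    red₁ := L.red₁
    red₂ := L.red₂
    red₁_surjective := L.red₁_surjective
    red₂_surjective := L.red₂_surjective
    ker_red₁ := L.ker_red₁
    ker_red₂ := L.ker_red₂
    red₁_g := L.red₁_g
    red₂_g := L.red₂_g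
    act₁ := L.side₁.h.comp (G.pr₁.comp (psi G Rt τ hτ y hy))
    act₂ := L.side₂.h.comp (G.pr₂.comp (psi G Rt τ hτ y hy))
    actbar := G.hbar.comp (psi G Rt τ hτ y hy)
    act₁_comm := fun f q => (L.side₁.g_comm_h q _).symm
    act₂_comm := fun f q => (L.side₂.g_comm_h q _).symm
    red₁_act := fun f x => G.red₁_hbar (psi G Rt τ hτ y hy f) x
    red₂_act := fun f x => G.red₂_hbar (psi G Rt τ hτ y hy f) x
    kill₁ := fun f hf => by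
      show L.side₁.h (G.pr₁ (psi G Rt τ hτ y hy f)) = 0
      rw [pr₁_psi_eq_zero G Rt τ hτ y hy hRnv hRd f hf, map_zero]
    kill₂ := fun f hf => by
      show L.side₂.h (G.pr₂ (psi G Rt τ hτ y hy f)) = 0
      rw [pr₂_psi_eq_zero G Rt τ hτ y hy hRz hRzi f hf, map_zero]
    hF₁ := fun q => GSide.exists_hF L.side₁ hp2 hp𝒪 hunrS hQ
      (G.pr₁.comp (psi G Rt τ hτ y hy)) hs₁ q
    hF₂ := fun q => GSide.exists_hF L.side₂ hp2 hp𝒪 hunrS hQ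
      (G.pr₂.comp (psi G Rt τ hτ y hy)) hs₂ q
    ctl := L.ctl
    ctl_surjective := L.ctl_surjective
    ctl_g := fun q x => by
      have h1 : L.ctl (L.side₁.g q x - x) = 0 := by
        rw [L.ker_ctl]
        refine Submodule.mem_iSup_of_mem q ⟨x, ?_⟩
        rw [LinearMap.sub_apply, Module.End.one_apply]
      rw [map_sub, sub_eq_zero] at h1
      exact h1
    ker_ctl := fun x hx => (L.ker_ctl x).1 hx
    ctl_C := fun m hm => ctl_C_aux G Rt τ hτ habs₀ y hy m hm }⟩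

include hτ in
/-- **the Taylor–Wiles level of the CORE from a Galois level** -/
theorem nonempty_twLevel_of_galois [hp : Fact p.Prime] (hp2 : p ≠ 2)
    (hp𝒪 : (p : 𝒪) ∈ maximalIdeal 𝒪) [IsScalarTower 𝒪 T M0]
    (hunrS : ∀ ℓ : ℕ, ℓ.Prime → ℓ ∉ S → ρbar.IsUnramifiedAt ℓ) (hQ : IsTWSet ρbar p S n Q)
    (hRlam : Rt.lam = lam) (hlam : maximalIdeal 𝒪 = Ideal.span {lam})
    (hRnv : ∀ v : ↥Sig, Rt.nv v = ((v : ℕ) : 𝒪))
    (hRd : ∀ v : ↥Sig, Rt.delta v = ((v : ℕ) : 𝒪)) (hRz : ∀ v : ↥Sig, Rt.zeta v = ζ)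
    (hRzi : ∀ v : ↥Sig, Rt.zetaInv v = ζ ^ (p - 1))
    (habs₀ : ρ₀.residual.IsAbsolutelyIrreducible)
    {g : ℕ} (hsel₁ : SelFor 𝒪 Sig g L.side₁.T L.side₁.ρ)
    (hsel₂ : SelFor 𝒪 Sig g L.side₂.T L.side₂.ρ) :
    Nonempty (TWLevel Rt.toData g r d M0 (cZero (𝒪 := 𝒪) ρ₀ Sig M0) n) := by
  obtain ⟨A⟩ := nonempty_algLevel G Rt τ hτ hp2 hp𝒪 hunrS hQ hRlam hRnv hRd hRz hRzi habs₀
    hsel₁ hsel₂
  refine nonempty_twLevel A hp2 hp𝒪 ?_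
  rw [hlam, ← hRlam]
  rfl

end

end Fermat.Agent.ML.GLUEG
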