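/-
PROJECT ML (S59) — [GLUE'] (helper7), file 8: **the generic glue**: if for every `n` there are an
admissible Taylor–Wiles set `Q` of level `n`, a generic level `GLevel` at `(n, Q)` and the
conclusion of [SEL] for its two sides, then (CORE) `p ^ k ∉ ⨆_{v ∈ Σ} inertiaIdeal ρ₀ v`.

This is the second half of `RB.GLUE.iharaAvoidanceDatum_of_producers`, with every use of the shape
of the deformation condition / of the Hecke–Galois datum removed: the hypotheses are `p ≠ 2`,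
`p ∈ 𝔪_𝒪`, `ζ` a primitive `p`-th root of unity, `λ` a uniformizer, `Σ` a finite set of primes
`≠ p` of type `ResFrobScalarAt`, `ρ̄` absolutely irreducible with cyclotomic determinant and
unramified outside `S`, and `ρ₀` residually absolutely irreducible.
-/
import Mathlib
import Fermat.Agent.ML.GLUEG_helper7_Assemble
import Fermat.Agent.RB.GLUE_helper9_Roots

set_option autoImplicit false
set_option linter.unusedSectionVars false
set_option linter.unusedVariables false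
set_option linter.style.haveILetI false

namespace Fermat.Agent.ML.GLUEG

open Polynomial IsLocalRing Fermat.Agent.S53 Fermat.Agent.S53.L1 Fermat.Agent.RB.REPT
open Fermat.Agent.CFT.Arith Fermat.Agent.CFT.LocForm
open Fermat.Agent.RB Fermat.Agent.RB.GLUE

local notation "Ω" => AlgebraicClosure ℚ
local notation "GQ" => (AlgebraicClosure ℚ ≃ₐ[ℚ] AlgebraicClosure ℚ)

/-- **[GLUE'] generic form.** -/
theorem not_pow_mem_iSup_inertiaIdeal_of_levels (hCore : CoreStatement)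
    {𝒪 : Type} [CommRing 𝒪] [IsDomain 𝒪] [IsDiscreteValuationRing 𝒪]
    [IsAdicComplete (maximalIdeal 𝒪) 𝒪] [Finite (ResidueField 𝒪)] [CharZero 𝒪]
    {p : ℕ} [hpF : Fact p.Prime] (hp2 : p ≠ 2) (hp𝒪 : (p : 𝒪) ∈ maximalIdeal 𝒪)
    {ζ : 𝒪} (hζ : IsPrimitiveRoot ζ p) {lam : 𝒪} (hlamirr : Irreducible lam)
    {T : Type} [CommRing T] [IsLocalRing T] [Algebra 𝒪 T]
    (ρ₀ : GaloisRepAdic T) (habs₀ : ρ₀.residual.IsAbsolutelyIrreducible)
    (ρbar : ResidualGaloisRep (ResidueField 𝒪)) (habs : ρbar.IsAbsolutelyIrreducible)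
    (hdetbar : (GaloisRepAdic.ofResidualGaloisRep ρbar).DetIsCyclotomic p)
    (S Sig : Finset ℕ) (hpS : p ∈ S) (hSigprime : ∀ v ∈ Sig, v.Prime) (hpSig : p ∉ Sig)
    (hSigscalar : ∀ v ∈ Sig, ResFrobScalarAt ρbar p v)
    (hunrS : ∀ ℓ : ℕ, ℓ.Prime → ℓ ∉ S → ρbar.IsUnramifiedAt ℓ)
    {g r d : ℕ} (hr : r = 3 * Sig.card + g) (hd : 0 < d)
    (M0 : Type) [AddCommGroup M0] [Module 𝒪 M0] [Module T M0] [IsScalarTower 𝒪 T M0]
    [Module.Free 𝒪 M0] [Module.Finite 𝒪 M0] (hfinrank : Module.finrank 𝒪 M0 = d)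
    (hlevels : ∀ n : ℕ, ∃ (Q : Fin r → ℕ) (_ : IsTWSet ρbar p S n Q)
      (L : GLevel p ρ₀ S Sig ζ lam ρbar r d M0 n Q),
        SelFor 𝒪 Sig g L.side₁.T L.side₁.ρ ∧ SelFor 𝒪 Sig g L.side₂.T L.side₂.ρ)
    (k : ℕ) : ((p : T) ^ k) ∉ ⨆ v ∈ Sig, inertiaIdeal ρ₀ v := by
  intro hk
  have hp : p.Prime := hpF.out
  have hlam : maximalIdeal 𝒪 = Ideal.span {lam} := hlamirr.maximalIdeal_eq
  -- the local data
  haveI hF : ∀ v : ↥Sig, Fact ((v : ℕ).Prime) := fun v => ⟨hSigprime v v.2⟩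
  obtain ⟨Rt, hRlam, hRnv, hRd, hRz, hRzi, hRα⟩ := exists_roots hp2 hp𝒪 hζ hlam ρbar hdetbar Sig
    (fun v => ⟨fun h => hpSig (h ▸ v.2), hSigscalar v v.2⟩)
  have hgood : Rt.toData.Good := by
    refine Rt.toData_good (by rw [hRlam]; exact hlamirr) (fun v => ?_) (fun v => ?_)
    · rw [hRz]
      intro h
      have h1 := hζ.dvd_of_pow_eq_one 2 h
      have h2 := Nat.le_of_dvd (by norm_num) h1
      have h3 := hp.two_le
      omega
    · rw [hRnv]
      intro h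
      have h1 : ((v : ℕ) : 𝒪) = ((1 : ℕ) : 𝒪) := by rw [h, Nat.cast_one]
      have := Nat.cast_injective h1
      exact (hF v).out.one_lt.ne' this
  -- all levels
  have hall : ∀ n, Nonempty (TWLevel Rt.toData g r d M0 (cZero (𝒪 := 𝒪) ρ₀ Sig M0) n) := by
    intro n
    obtain ⟨Q, hQ, L, hsel₁, hsel₂⟩ := hlevels n
    obtain ⟨G⟩ := nonempty_glueData L hp2 hp𝒪 hpS habs
    have hex : ∀ v : ↥Sig, ∃ τ, SigmaFacts G (v : ℕ) Rt.half (Rt.alpha v) τ := fun v =>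
      exists_sigmaFacts G hp2 hp𝒪 hζ hd v.2 (fun h => hpSig (h ▸ v.2)) (hSigscalar v v.2).1
        (hSigscalar v v.2).2.1 Rt.two_mul_half (hRα v)
    choose τ hτ using hex
    exact nonempty_twLevel_of_galois G Rt τ hτ hp2 hp𝒪 hunrS hQ hRlam hlam hRnv hRd hRz hRzi
      habs₀ hsel₁ hsel₂
  -- the core
  have hcore := hCore (O := 𝒪) (Sig := ↥Sig) Rt.toData hgood g r d
    (by rw [Fintype.card_coe]; exact hr) hd M0 hfinrank (cZero (𝒪 := 𝒪) ρ₀ Sig M0) hall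
  apply hcore
  intro m
  have hp0 : (p : 𝒪) ≠ 0 := Nat.cast_ne_zero.2 hp.ne_zero
  obtain ⟨e', u, hu⟩ := IsDiscreteValuationRing.eq_unit_mul_pow_irreducible hp0 hlamirr
  refine ⟨e' * k, ?_⟩
  have h1 : ((p : T) ^ k) • m ∈ (⨆ v ∈ Sig, inertiaIdeal ρ₀ v) • (⊤ : Submodule T M0) :=
    Submodule.smul_mem_smul hk Submodule.mem_top
  have h2 : ((p : T) ^ k) • m = ((p : 𝒪) ^ k) • m := by
    rw [← algebraMap_smul T ((p : 𝒪) ^ k) m, map_pow, map_natCast]
  have h3 : (Rt.toData.lam ^ (e' * k)) • m =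
      (((u⁻¹ : 𝒪ˣ) : 𝒪) ^ k) • (((p : 𝒪) ^ k) • m) := by
    have hl : Rt.toData.lam = lam := hRlam
    rw [smul_smul, ← mul_pow, hu, ← mul_assoc, Units.inv_mul, one_mul, ← pow_mul, hl]
  rw [h3]
  refine Submodule.smul_mem _ _ ?_
  rw [← h2]
  exact h1

end Fermat.Agent.ML.GLUEG
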