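/-
PROJECT ML (S59) — ARCHITECT (helper9) — INTERFACE FILE ML-IA: **Ihara avoidance at the scalar
primes (IA′)** = the RB pipeline with relaxed hypotheses IN THE PRODUCERS ONLY (lead 2420,
architecture (α) of helper9 2419).  `RB.coreStatement` (PATCH + CA + LOC) is reused VERBATIM.

What changes with respect to RB (`RB/IFACE_helper9_{TW,Sel,Datum}`):
  * `p ≠ 2` instead of `5 ≤ p`; no `2 ∣ N`; at `p = 3` a prime `≡ 2 mod 3` divides the level;
  * `p ∥ N` is allowed.  The situation at `p` is a `PMode`: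
      `flat`   : `p ∤ N`, the deformations are flat at `p`;
      `tres`   : `p ∣ N`, `ρ̄` ordinary and NOT peu ramifiée at `p`: the full localised modules,
                 every point is ordinary (S33) hence STRICTLY ordinary (`ML.strictOfTresStatement`);
      `peuNew` : `p ∣ N`, `ρ̄` ordinary, and `θ` does NOT occur at level `N / p`: the modules of
                 level `(N / p) Q` vanish (control + Nakayama), every point of level `N Q` is
                 `p`-new, hence strictly ordinary (`AtPNewPointStatement` +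
                 `REPTL.isStrictOrdinaryAt_of_frobenius_scalar_sq`).  This is the ADAPTER
                 (`IAPeuAdapterStatement`), a corner of a corner, done LAST.
    Both `tres` and `peuNew` give `PCase.strict`; the case `PCase.chain` does not occur in IA′;
  * the primes `ℓ ≠ p` of `N` outside `Σ` are primes where `ρ̄` is ramified OR unframed auxiliary
    primes under SEL-L's clause (A2) (`NoLevelRaisingAt ρ̄ ℓ` and `ℓ ≢ 1 mod p`);
  * the residual representation is an explicit `ρbar` over `ResidueField 𝒪` (no `descend` in the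
    glue, no transport to `datum.ρ.residual` in TOP′).

Literals:
  `iaCondition`              : the global deformation condition (replaces `RB.twCondition`);
  `TWSideE`, `TWGaloisLevelE`: RB's `TWSide`, `TWGaloisLevel` with `iaCondition`;
  `NotAtLevelDivP`, `PMode`, `PMode.pc`, `PMode.Holds`;
  `TWProducerStatementE mode`: [TWMOD-LX] (helper2) + [REPT-X] (helper1), for the modes allowed
                               by `mode : PMode → Prop`;
      `TWProducerMainStatement` = modes `flat`, `tres`;  `IAPeuAdapterStatement` = mode `peuNew`;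
      `twProducerE_of_main_of_adapter` (PROVED here) gives all modes;
  `SelStatementE`            : [SEL-E] (helper4): RB's `SelStatement` with `iaCondition`, (A2);
  `IharaAvoidanceDatumE`     : [GLUE′] (helper7, port of `RB/GLUE_helper9_*`) proves it from
                               `TWProducerStatementE (fun _ => True)`, `SelStatementE`,
                               `RB.coreStatement`;
  `NewRamifiedE`             : (LGC-St) for every odd `p` (lead, from the ML [NEW-TORIC] files);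
  `TopIAStatementE`          : [TOP′] (lead): `NewRamifiedE → IharaAvoidanceDatumE →
                               IAStepStatement` (lead's `ML/IFACE_lead_LevelOpt`).
-/
import Mathlib
import Fermat.Agent.RB.IFACE_helper9_Sel
import Fermat.Agent.RB.IFACE_helper9_Core
import Fermat.Agent.ML.IFACE_helper9_Chart
import Fermat.Agent.ML.IFACE_lead_Peu
import Fermat.Agent.ML.IFACE_lead_LevelOpt

set_option autoImplicit false

open Polynomial IsLocalRing

namespace Fermat.Agent.ML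

local notation "GQ" => (AlgebraicClosure ℚ ≃ₐ[ℚ] AlgebraicClosure ℚ)

/-! ### elementary consequences of `v ≡ 1 mod p` -/

theorem ne_of_modEq_one {p v : ℕ} (hp : p.Prime) (hv : v ≡ 1 [MOD p]) : v ≠ p := by
  rintro rfl
  have h0 : v ∣ 1 := (Nat.modEq_zero_iff_dvd.1 ((Nat.modEq_zero_iff_dvd.2 dvd_rfl).symm.trans hv).symm)
  exact hp.one_lt.ne' (Nat.dvd_one.1 h0)

theorem ne_two_of_modEq_one {p v : ℕ} (hp : p.Prime) (hv : v ≡ 1 [MOD p]) : v ≠ 2 := by
  rintro rfl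
  have h1 : p ∣ 2 - 1 := (Nat.modEq_iff_dvd' (by norm_num)).1 hv.symm
  exact hp.one_lt.ne' (Nat.dvd_one.1 (by simpa using h1))

/-! ### the deformation condition -/

/-- **the global deformation condition of IA′** (no condition at `Σ ∪ Q` beyond the determinant):
cyclotomic determinant, unramified outside `S ∪ Qs`, unipotent on inertia at the primes of `S`
other than `p` and the primes of `Σ`, flat resp. strictly ordinary at `p`. -/
def iaCondition (𝒪 : Type) [CommRing 𝒪] (p : ℕ) (S Sig Qs : Finset ℕ) (pc : PCase) :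
    ∀ ⦃A : Type⦄ [CommRing A] [IsLocalRing A] [Algebra 𝒪 A], GaloisRepAdic A → Prop :=
  fun _A _ _ _ ρ => ρ.DetIsCyclotomic p ∧
    (∀ q : ℕ, q.Prime → q ∉ S ∪ Qs → ρ.IsUnramifiedAt q) ∧
    (∀ ℓ ∈ S, ℓ.Prime → ℓ ≠ p → ℓ ∉ Sig → ρ.IsUnipotentOnInertiaAt ℓ) ∧
    (pc = PCase.flat → ρ.IsFlatAt p) ∧
    (pc = PCase.strict → ρ.IsStrictOrdinaryAt p)

/-- in the flat case `iaCondition` is RB's `twCondition`. -/
theorem iaCondition_flat_iff {𝒪 : Type} [CommRing 𝒪] {p : ℕ} {S Sig Qs : Finset ℕ}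
    {A : Type} [CommRing A] [IsLocalRing A] [Algebra 𝒪 A] (ρ : GaloisRepAdic A) :
    iaCondition 𝒪 p S Sig Qs PCase.flat ρ ↔ RB.twCondition 𝒪 p S Sig Qs ρ := by
  constructor
  · rintro ⟨h1, h2, h3, h4, -⟩
    exact ⟨⟨h1, h4 rfl, h2⟩, h3⟩
  · rintro ⟨⟨h1, h4, h2⟩, h3⟩
    exact ⟨h1, h2, h3, fun _ => h4, fun h => absurd h (by decide)⟩

section

variable {𝒪 : Type} [CommRing 𝒪] [IsDomain 𝒪] [IsDiscreteValuationRing 𝒪]
  [IsAdicComplete (maximalIdeal 𝒪) 𝒪]

/-- one of the two Hecke–Galois modules of the Taylor–Wiles construction at `(n, Q)`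
(= `RB.TWSide` with `iaCondition`). -/
structure TWSideE (p : ℕ) (S Sig : Finset ℕ) (pc : PCase)
    (ρbar : ResidualGaloisRep (ResidueField 𝒪)) (r d n : ℕ) (Q : Fin r → ℕ) : Type 1 where
  /-- the Hecke algebra -/
  T : Type
  [instCommRing : CommRing T]
  [instIsLocalRing : IsLocalRing T]
  [instIsNoetherianRing : IsNoetherianRing T]
  [instIsAdicComplete : IsAdicComplete (maximalIdeal T) T]
  [instAlgebra : Algebra 𝒪 T]
  [instIsLocalHom : IsLocalHom (algebraMap 𝒪 T)]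
  [instFinite : Module.Finite 𝒪 T]
  residue_surjective : Function.Surjective (IsLocalRing.residue T ∘ algebraMap 𝒪 T)
  /-- the Galois representation -/
  ρ : GaloisRepAdic T
  residual_isEquiv : ρ.residual.IsEquiv
    (ρbar.baseChangeAlong (IsLocalRing.ResidueField.map (algebraMap 𝒪 T)))
  isOfType : iaCondition 𝒪 p S Sig (Finset.univ.image Q) pc ρ
  adjoin_trace : Algebra.adjoin 𝒪 (Set.range ρ.trace) = ⊤
  /-- the module -/
  H : Type
  [instAddCommGroup : AddCommGroup H]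
  [instModule : Module 𝒪 H]
  /-- the Hecke action -/
  h : T →ₐ[𝒪] Module.End 𝒪 H
  /-- the (square roots of the) diamond operators at the Taylor–Wiles primes -/
  g : Fin r → Module.End 𝒪 H
  g_pow : ∀ q, g q ^ (p ^ n) = 1
  g_comm : ∀ q q', Commute (g q) (g q')
  g_comm_h : ∀ q t, Commute (g q) (h t)
  /-- freeness of rank `d` over `𝒪[(ℤ/p^n)^r]` -/
  b : Fin d → H
  free : Function.Bijective fun c : (Fin d × (Fin r → Fin (p ^ n))) →₀ 𝒪 =>
    c.sum fun je a =>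
      a • (((List.finRange r).map fun q => g q ^ ((je.2 q : Fin (p ^ n)) : ℕ)).prod (b je.1))
  /-- **(KEY-H)** at the Taylor–Wiles primes, unordered form -/
  keyH : ∀ q, ∃ (P : ValuationSubring (AlgebraicClosure ℚ)) (_ : P.LiesOverPrime (Q q))
    (σ : GQ) (_ : σ ∈ P.inertiaSubgroupIn ℚ),
      h (ρ.trace σ) = g q + g q ^ (p ^ n - 1)

attribute [instance] TWSideE.instCommRing TWSideE.instIsLocalRing TWSideE.instIsNoetherianRing
  TWSideE.instIsAdicComplete TWSideE.instAlgebra TWSideE.instIsLocalHom TWSideE.instFinite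
  TWSideE.instAddCommGroup TWSideE.instModule

variable {N : ℕ} [NeZero N] {S : Finset ℕ}
  {θ : CuspForm.heckeAlgebra N 2 (S : Set ℕ) →+* ResidueField 𝒪}
  {T : Type} [CommRing T] [IsLocalRing T] [IsNoetherianRing T]
  [IsAdicComplete (maximalIdeal T) T] [Algebra 𝒪 T] [IsLocalHom (algebraMap 𝒪 T)]
  [Module.Finite 𝒪 T] [Module.Free 𝒪 T]

/-- **The Taylor–Wiles data at `(n, Q)`** (= `RB.TWGaloisLevel` with `TWSideE`): the two sides
(side 1: unipotent at `Σ`; side 2: `χ`-type at `Σ`), their common reduction and the control map to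
level zero. -/
structure TWGaloisLevelE (p : ℕ) (pc : PCase)
    (datum : CuspForm.HeckeGaloisRepDatum N (S : Set ℕ) 𝒪 θ T)
    (Sig : Finset ℕ) (ζ lam : 𝒪) (ρbar : ResidualGaloisRep (ResidueField 𝒪))
    (r d : ℕ) (M0 : Type) [AddCommGroup M0] [Module 𝒪 M0] [Module T M0]
    (n : ℕ) (Q : Fin r → ℕ) : Type 1 where
  /-- problem (1): unipotent at `Σ` -/
  side₁ : TWSideE (𝒪 := 𝒪) p S Sig pc ρbar r d n Q
  /-- problem (2): `χ`-type at `Σ` -/
  side₂ : TWSideE (𝒪 := 𝒪) p S Sig pc ρbar r d n Q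
  type₁ : ∀ v ∈ Sig, side₁.ρ.IsUnipotentOnInertiaAt v
  type₂ : ∀ v ∈ Sig, ∀ P : ValuationSubring (AlgebraicClosure ℚ), P.LiesOverPrime v →
    (∀ σ ∈ P.inertiaSubgroupIn ℚ, side₂.ρ.ρ σ ^ p = 1) ∧
    ∃ τ ∈ P.inertiaSubgroupIn ℚ, LinearMap.charpoly (side₂.ρ.ρ τ) =
      X ^ 2 - C (algebraMap 𝒪 side₂.T (ζ + ζ ^ (p - 1))) * X + 1
  /-- the common reduction modulo `λ` -/
  Hbar : Type
  [instAddCommGroupBar : AddCommGroup Hbar]
  [instModuleBar : Module 𝒪 Hbar]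
  gbar : Fin r → Module.End 𝒪 Hbar
  trbar : GQ → Module.End 𝒪 Hbar
  red₁ : side₁.H →ₗ[𝒪] Hbar
  red₂ : side₂.H →ₗ[𝒪] Hbar
  red₁_surjective : Function.Surjective red₁
  red₂_surjective : Function.Surjective red₂
  ker_red₁ : ∀ x, red₁ x = 0 ↔ ∃ y, x = lam • y
  ker_red₂ : ∀ x, red₂ x = 0 ↔ ∃ y, x = lam • y
  red₁_g : ∀ q x, red₁ (side₁.g q x) = gbar q (red₁ x)
  red₂_g : ∀ q x, red₂ (side₂.g q x) = gbar q (red₂ x)
  red₁_trace : ∀ σ x, red₁ (side₁.h (side₁.ρ.trace σ) x) = trbar σ (red₁ x)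
  red₂_trace : ∀ σ x, red₂ (side₂.h (side₂.ρ.trace σ) x) = trbar σ (red₂ x)
  /-- control -/
  toT : side₁.T →ₐ[𝒪] T
  toT_trace : ∀ σ, toT (side₁.ρ.trace σ) = datum.ρ.trace σ
  ctl : side₁.H →ₗ[𝒪] M0
  ctl_surjective : Function.Surjective ctl
  ker_ctl : ∀ x, ctl x = 0 ↔
    x ∈ ⨆ q, LinearMap.range (side₁.g q - 1)
  ctl_h : ∀ t x, ctl (side₁.h t x) = toT t • ctl x

end

/-! ### the situation at `p` -/

/-- **`θ` does not occur at level `N / p`**: no character of the Hecke algebra of level `M`,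
`N = M * p`, has the values of `θ` at the Hecke operators `T_ℓ`, `ℓ ∉ S`. -/
def NotAtLevelDivP {N : ℕ} [NeZero N] {S : Set ℕ} {k : Type} [Field k]
    (θ : CuspForm.heckeAlgebra N 2 S →+* k) (p : ℕ) : Prop :=
  ∀ (M : ℕ) [NeZero M] (hM : N = M * p) (χ : CuspForm.heckeAlgebra M 2 S →+* k),
    ∃ (ℓ : ℕ) (hℓ : ℓ.Prime) (hℓN : ¬ ℓ ∣ N) (hℓS : ℓ ∉ S),
      χ (CuspForm.heckeAlgebra.T hℓ (fun h => hℓN (hM ▸ h.mul_right p)) hℓS) ≠
        θ (CuspForm.heckeAlgebra.T hℓ hℓN hℓS)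

/-- the situation at `p` in IA′ -/
inductive PMode : Type
  | flat
  | tres
  | peuNew
  deriving DecidableEq

/-- the local condition at `p` of a mode -/
def PMode.pc : PMode → PCase
  | PMode.flat => PCase.flat
  | PMode.tres => PCase.strict
  | PMode.peuNew => PCase.strict

theorem PMode.pc_ne_chain (md : PMode) : md.pc ≠ PCase.chain := by
  cases md <;> simp [PMode.pc]

/-- the hypotheses of a mode -/
def PMode.Holds (md : PMode) (p : ℕ) [Fact p.Prime] {N : ℕ} [NeZero N] {S : Set ℕ}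
    {k : Type} [Field k] (θ : CuspForm.heckeAlgebra N 2 S →+* k) (ρbar : ResidualGaloisRep k) :
    Prop :=
  match md with
  | PMode.flat => ¬ p ∣ N
  | PMode.tres => p ∣ N ∧ (GaloisRepAdic.ofResidualGaloisRep ρbar).IsOrdinaryAt p ∧
      ¬ IsPeuRamifieeAt ρbar p
  | PMode.peuNew => p ∣ N ∧ (GaloisRepAdic.ofResidualGaloisRep ρbar).IsOrdinaryAt p ∧
      NotAtLevelDivP θ p

/-! ### the producers -/

/-- **[TW-PRODUCERS-E]** (owners: helper2 [TWMOD-LX], helper1 [REPT-X]; (KEY-H) = `ML/KEYH_lead_Odd`):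
`RB.TWProducerStatement` for every odd `p`, `p ∥ N` allowed, auxiliary primes allowed, for the
modes at `p` selected by `mode`.  There are `d > 0` and a `T`-module `M0`, finite free of rank `d`
over `𝒪`, such that the Taylor–Wiles data exist for EVERY admissible set `Q` of Taylor–Wiles primes
(`r` and `n` arbitrary; at least one Taylor–Wiles prime: `Σ ≠ ∅`). -/
def TWProducerStatementE (mode : PMode → Prop) : Prop :=
  ∀ {𝒪 : Type} [CommRing 𝒪] [IsDomain 𝒪] [IsDiscreteValuationRing 𝒪]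
    [IsAdicComplete (maximalIdeal 𝒪) 𝒪] [Finite (ResidueField 𝒪)] [CharZero 𝒪]
    (p : ℕ) [Fact p.Prime] (_ : p ≠ 2) (_ : (p : 𝒪) ∈ maximalIdeal 𝒪)
    (ζ : 𝒪) (_ : IsPrimitiveRoot ζ p) (lam : 𝒪) (_ : Irreducible lam)
    (N : ℕ) [NeZero N] (_ : Squarefree N)
    (_ : p = 3 → ∃ r₀ : ℕ, r₀.Prime ∧ r₀ ∣ N ∧ r₀ % 3 = 2)
    (S : Finset ℕ) (_ : ∀ ℓ : ℕ, ℓ ∈ S ↔ ℓ.Prime ∧ (ℓ = p ∨ ℓ ∣ N))
    (θ : CuspForm.heckeAlgebra N 2 (S : Set ℕ) →+* ResidueField 𝒪)
    (T : Type) [CommRing T] [IsLocalRing T] [IsNoetherianRing T]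
    [IsAdicComplete (maximalIdeal T) T] [Algebra 𝒪 T] [IsLocalHom (algebraMap 𝒪 T)]
    [Module.Finite 𝒪 T] [Module.Free 𝒪 T]
    (datum : CuspForm.HeckeGaloisRepDatum N (S : Set ℕ) 𝒪 θ T)
    -- `T` is the FULL Hecke ring
    (_ : ∀ (B : Type) [CommRing B] [IsDomain B] [IsDiscreteValuationRing B] [Algebra 𝒪 B]
      [Module.Finite 𝒪 B] [IsLocalHom (algebraMap 𝒪 B)]
      (χ : CuspForm.heckeAlgebra N 2 (S : Set ℕ) →+* B),
      (∀ t, IsLocalRing.residue B (χ t) =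
        IsLocalRing.ResidueField.map (algebraMap 𝒪 B) (θ t)) →
        ∃ ψ : T →ₐ[𝒪] B, ∀ t, ψ (datum.π t) = χ t)
    (ρbar : ResidualGaloisRep (ResidueField 𝒪))
    (_ : datum.ρ.residual.IsEquiv
      (ρbar.baseChangeAlong (IsLocalRing.ResidueField.map (algebraMap 𝒪 T))))
    -- the situation at `p`
    (md : PMode) (_ : mode md) (_ : md.Holds p θ ρbar)
    -- the set `Σ`
    (Sig : Finset ℕ) (_ : Sig.Nonempty)
    (_ : ∀ v ∈ Sig, v.Prime ∧ v ∣ N ∧ RB.ResFrobScalarAt ρbar p v)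
    -- the other primes of the level: `ρ̄` ramified, or auxiliary (A2)
    (_ : ∀ ℓ : ℕ, ℓ.Prime → ℓ ∣ N → ℓ ≠ p → ℓ ∉ Sig → ¬ ρbar.IsUnramifiedAt ℓ ∨
      (NoLevelRaisingAt ρbar ℓ ∧ ((ℓ : ℕ) : ResidueField 𝒪) ≠ 1)),
    ∃ (d : ℕ) (_ : 0 < d) (M0 : Type) (_ : AddCommGroup M0) (_ : Module 𝒪 M0) (_ : Module T M0)
      (_ : IsScalarTower 𝒪 T M0) (_ : Module.Free 𝒪 M0) (_ : Module.Finite 𝒪 M0),
      Module.finrank 𝒪 M0 = d ∧
      ∀ (r n : ℕ) (Q : Fin r → ℕ), RB.IsTWSet ρbar p S n Q → (∀ j, p ∣ Q j - 1) → 0 < r →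
        Nonempty (TWGaloisLevelE p md.pc datum Sig ζ lam ρbar r d M0 n Q)

/-- the main case: `p ∤ N`, or `p ∣ N` and `ρ̄` très ramifiée. -/
def TWProducerMainStatement : Prop := TWProducerStatementE fun md => md ≠ PMode.peuNew

/-- **[IA-PEU-ADAPTER]** (LAST): `p ∣ N`, `θ` does not occur at level `N / p`. -/
def IAPeuAdapterStatement : Prop := TWProducerStatementE fun md => md = PMode.peuNew

/-- all modes from the main case and the adapter. -/
theorem twProducerE_of_main_of_adapter (hmain : TWProducerMainStatement)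
    (hpeu : IAPeuAdapterStatement) : TWProducerStatementE fun _ => True := by
  intro 𝒪 _ _ _ _ _ _ p _ hp2 hp𝒪 ζ hζ lam hlam N _ hN h3 S hS θ T _ _ _ _ _ _ _ _ datum hfull ρbar
    hequiv md _ hmd Sig hSigne hSig hram
  by_cases h : md = PMode.peuNew
  · exact hpeu p hp2 hp𝒪 ζ hζ lam hlam N hN h3 S hS θ T datum hfull ρbar hequiv md h hmd Sig hSigne
      hSig hram
  · exact hmain p hp2 hp𝒪 ζ hζ lam hlam N hN h3 S hS θ T datum hfull ρbar hequiv md h hmd Sig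
      hSigne hSig hram

/-! ### [SEL-E] -/

/-- **[SEL-E]** (owner helper4): `RB.SelStatement` with `iaCondition` (`pc ∈ {flat, strict}`) and
the clause (A2) at the unramified primes of `S` outside `Σ`.  Conclusion VERBATIM as in RB. -/
def SelStatementE : Prop :=
  ∀ {𝒪 : Type} [CommRing 𝒪] [IsDomain 𝒪] [IsDiscreteValuationRing 𝒪]
    [IsAdicComplete (maximalIdeal 𝒪) 𝒪] [Finite (ResidueField 𝒪)]
    (p : ℕ) [Fact p.Prime] (_ : p ≠ 2) (_ : (p : 𝒪) ∈ maximalIdeal 𝒪)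
    (ρbar : ResidualGaloisRep (ResidueField 𝒪))
    (_ : ρbar.IsAbsolutelyIrreducible)
    (_ : (GaloisRepAdic.ofResidualGaloisRep ρbar).DetIsCyclotomic p)
    (_ : ∀ σ : GQ, ∃ α β : ResidueField 𝒪,
      LinearMap.charpoly (ρbar.ρ σ) = (X - C α) * (X - C β))
    (_ : ∀ (K : Type) [Field K] [Algebra (ResidueField 𝒪) K] (G : Subgroup GQ), G.index = 2 →
      ∀ V : Submodule K (ρbar.baseChange K).V,
        (∀ σ ∈ G, ∀ x ∈ V, (ρbar.baseChange K).ρ σ x ∈ V) → V = ⊥ ∨ V = ⊤)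
    (S Sig : Finset ℕ) (_ : p ∈ S) (_ : ∀ q ∈ S, q.Prime) (_ : Sig ⊆ S) (_ : p ∉ Sig)
    (pc : PCase) (_ : pc ≠ PCase.chain)
    (_ : ∀ v ∈ Sig, RB.ResFrobScalarAt ρbar p v)
    (_ : ∀ ℓ ∈ S, ℓ ≠ p → ℓ ∉ Sig → ¬ ρbar.IsUnramifiedAt ℓ ∨
      (NoLevelRaisingAt ρbar ℓ ∧ ((ℓ : ℕ) : ResidueField 𝒪) ≠ 1))
    (_ : ∀ ℓ : ℕ, ℓ.Prime → ℓ ∉ S → ρbar.IsUnramifiedAt ℓ),
    ∃ g r : ℕ, r = 3 * Sig.card + g ∧ ∀ n : ℕ, ∃ Q : Fin r → ℕ, RB.IsTWSet ρbar p S n Q ∧
      ∀ (T : Type) [CommRing T] [IsLocalRing T] [IsNoetherianRing T]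
        [IsAdicComplete (maximalIdeal T) T] [Algebra 𝒪 T] [IsLocalHom (algebraMap 𝒪 T)]
        [Module.Finite 𝒪 T]
        (_ : Function.Surjective (IsLocalRing.residue T ∘ algebraMap 𝒪 T))
        (ρ : GaloisRepAdic T)
        (_ : ρ.residual.IsEquiv
          (ρbar.baseChangeAlong (IsLocalRing.ResidueField.map (algebraMap 𝒪 T))))
        (_ : iaCondition 𝒪 p S Sig (Finset.univ.image Q) pc ρ)
        (_ : Algebra.adjoin 𝒪 (Set.range ρ.trace) = ⊤)
        (β : Module.Basis (Fin 2) T ρ.V),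
        ∃ y : Fin g → T, (∀ j, y j ∈ maximalIdeal T) ∧
          maximalIdeal T = (maximalIdeal 𝒪).map (algebraMap 𝒪 T) ⊔ RB.locCoordIdeal ρ β Sig ⊔
            Ideal.span (Set.range y)

/-! ### the datum level -/

/-- **[IA-alg-E] Ihara avoidance for a Hecke–Galois datum, every odd `p`** (owner of the assembly
[GLUE′]: helper7, port of `RB/GLUE_helper9_*`): for the Hecke–Galois datum of a squarefree level
`N` (`p ∥ N` allowed, in one of the three modes), `Σ ≠ ∅` a set of primes of `N` of type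
`RB.ResFrobScalarAt`, all other primes `≠ p` of `N` being primes where `ρ̄` is ramified or auxiliary
primes (A2): the quotient `T ⧸ (inertia ideals at Σ)` is NOT `p`-power torsion. -/
def IharaAvoidanceDatumE : Prop :=
  ∀ {𝒪 : Type} [CommRing 𝒪] [IsDomain 𝒪] [IsDiscreteValuationRing 𝒪]
    [IsAdicComplete (maximalIdeal 𝒪) 𝒪] [Finite (ResidueField 𝒪)] [CharZero 𝒪]
    (p : ℕ) [Fact p.Prime] (_ : p ≠ 2) (_ : (p : 𝒪) ∈ maximalIdeal 𝒪)
    (_ : ∃ ζ : 𝒪, IsPrimitiveRoot ζ p)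
    (N : ℕ) [NeZero N] (_ : Squarefree N)
    (_ : p = 3 → ∃ r₀ : ℕ, r₀.Prime ∧ r₀ ∣ N ∧ r₀ % 3 = 2)
    (S : Finset ℕ) (_ : ∀ ℓ : ℕ, ℓ ∈ S ↔ ℓ.Prime ∧ (ℓ = p ∨ ℓ ∣ N))
    (θ : CuspForm.heckeAlgebra N 2 (S : Set ℕ) →+* ResidueField 𝒪)
    (T : Type) [CommRing T] [IsLocalRing T] [IsNoetherianRing T]
    [IsAdicComplete (maximalIdeal T) T] [Algebra 𝒪 T] [IsLocalHom (algebraMap 𝒪 T)]
    [Module.Finite 𝒪 T] [Module.Free 𝒪 T]
    (datum : CuspForm.HeckeGaloisRepDatum N (S : Set ℕ) 𝒪 θ T)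
    (_ : ∀ (B : Type) [CommRing B] [IsDomain B] [IsDiscreteValuationRing B] [Algebra 𝒪 B]
      [Module.Finite 𝒪 B] [IsLocalHom (algebraMap 𝒪 B)]
      (χ : CuspForm.heckeAlgebra N 2 (S : Set ℕ) →+* B),
      (∀ t, IsLocalRing.residue B (χ t) =
        IsLocalRing.ResidueField.map (algebraMap 𝒪 B) (θ t)) →
        ∃ ψ : T →ₐ[𝒪] B, ∀ t, ψ (datum.π t) = χ t)
    -- the residual representation, over the residue field of `𝒪`
    (ρbar : ResidualGaloisRep (ResidueField 𝒪))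
    (_ : datum.ρ.residual.IsEquiv
      (ρbar.baseChangeAlong (IsLocalRing.ResidueField.map (algebraMap 𝒪 T))))
    -- the Taylor–Wiles hypotheses (as in S56)
    (_ : ρbar.IsAbsolutelyIrreducible)
    (_ : ∀ σ : GQ, ∃ α β : ResidueField 𝒪,
      LinearMap.charpoly (ρbar.ρ σ) = (X - C α) * (X - C β))
    (_ : ∀ (K : Type) [Field K] [Algebra (ResidueField 𝒪) K] (G : Subgroup GQ), G.index = 2 →
      ∀ V : Submodule K (ρbar.baseChange K).V,
        (∀ σ ∈ G, ∀ x ∈ V, (ρbar.baseChange K).ρ σ x ∈ V) → V = ⊥ ∨ V = ⊤)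
    -- the situation at `p`
    (md : PMode) (_ : md.Holds p θ ρbar)
    -- the set `Σ`
    (Sig : Finset ℕ) (_ : Sig.Nonempty)
    (_ : ∀ v ∈ Sig, v.Prime ∧ v ∣ N ∧ RB.ResFrobScalarAt ρbar p v)
    (_ : ∀ ℓ : ℕ, ℓ.Prime → ℓ ∣ N → ℓ ≠ p → ℓ ∉ Sig → ¬ ρbar.IsUnramifiedAt ℓ ∨
      (NoLevelRaisingAt ρbar ℓ ∧ ((ℓ : ℕ) : ResidueField 𝒪) ≠ 1)),
    ∀ k : ℕ, ((p : T) ^ k) ∉ ⨆ v ∈ Sig, RB.inertiaIdeal datum.ρ v

/-- **[GLUE′]** (owner helper7; reviewer helper9): the port of `RB.GLUE.iharaAvoidanceDatum_of_producers`. -/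
def GlueEStatement : Prop :=
  TWProducerStatementE (fun _ => True) → SelStatementE → RB.CoreStatement → IharaAvoidanceDatumE

/-- **(LGC-St) for every odd `p`** (owner lead; geometric input: `ML.newToricAtStatementO` +
`ML.keyToricStatementO`, i.e. (KEY-I3W) for `p ≠ 2`, `q ≠ 2`; `p ∣ M` allowed). -/
def NewRamifiedE : Prop :=
  ∀ {𝒪 : Type} [CommRing 𝒪] [IsDomain 𝒪] [IsDiscreteValuationRing 𝒪]
    [IsAdicComplete (maximalIdeal 𝒪) 𝒪] [Finite (ResidueField 𝒪)] [CharZero 𝒪]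
    (p : ℕ) [Fact p.Prime] (_ : p ≠ 2) (_ : (p : 𝒪) ∈ maximalIdeal 𝒪)
    (M v : ℕ) [NeZero M] [NeZero (M * v)] (_ : v.Prime) (_ : ¬ v ∣ M) (_ : v ≠ p) (_ : v ≠ 2)
    (S : Finset ℕ) (_ : p ∈ S) (_ : ∀ ℓ : ℕ, ℓ.Prime → ℓ ∣ M * v → ℓ ∈ S)
    (θ : CuspForm.heckeAlgebra (M * v) 2 (S : Set ℕ) →+* ResidueField 𝒪)
    (T : Type) [CommRing T] [IsLocalRing T] [IsNoetherianRing T]
    [IsAdicComplete (maximalIdeal T) T] [Algebra 𝒪 T] [IsLocalHom (algebraMap 𝒪 T)]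
    [Module.Finite 𝒪 T] [Module.Free 𝒪 T]
    (datum : CuspForm.HeckeGaloisRepDatum (M * v) (S : Set ℕ) 𝒪 θ T)
    (𝔭 : Ideal T) (_ : 𝔭.IsPrime) (_ : (p : T) ∉ 𝔭) (_ : RB.inertiaIdeal datum.ρ v ≤ 𝔭),
    ∃ χ : CuspForm.heckeAlgebra M 2 (S : Set ℕ) →+* T ⧸ 𝔭,
      ∀ (ℓ : ℕ) (hℓ : ℓ.Prime) (hℓM : ¬ ℓ ∣ M * v) (hℓS : ℓ ∉ (S : Set ℕ)),
        χ (CuspForm.heckeAlgebra.T hℓ (fun h => hℓM (h.mul_right v)) hℓS) =
          Ideal.Quotient.mk 𝔭 (datum.π (CuspForm.heckeAlgebra.T hℓ hℓM hℓS))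

/-- **[TOP′]** (owner lead; port of `RB/TOPIA_helper1_*`, `RB/TOPD3_lead_*`): the curve-level step
`IAStepStatement` of `ML/IFACE_lead_LevelOpt` from the datum level.  Scheme: take the level
`N₁ = N' ∏ Σ₁`, `Σ₁ ⊆ Σ` MINIMAL with `IsResModAway W p N₁`; if `Σ₁ ≠ ∅`: datum of level `N₁`
(`RB.REPT.exists_heckeGaloisRepDatum'`), mode at `p` (`p ∤ N'`: `flat`; `p ∣ N'`, `ρ̄` not peu
ramifiée: `tres`; peu ramifiée and `IsResModAway W p (N₁ / p)`: run the step at the level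
`N₁ / p` in mode `flat` and go up; otherwise `peuNew`), `IharaAvoidanceDatumE` gives a prime
`𝔭 ∌ p` containing all inertia ideals at `Σ₁`, `NewRamifiedE` at ONE `v ∈ Σ₁` gives the level
`N₁ / v`: contradiction with the minimality. -/
def TopIAStatementE : Prop := NewRamifiedE → IharaAvoidanceDatumE → IAStepStatement

end Fermat.Agent.ML
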