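/-
PROJECT ML (S59) — [GLUE'] (helper7), file 9: **`glueEStatement : GlueEStatement`** =
`TWProducerStatementE (fun _ => True) → SelStatementE → RB.CoreStatement → IharaAvoidanceDatumE`
(helper9's literals of `ML/IFACE_helper9_IA`), from the generic glue
`GLUEG.not_pow_mem_iSup_inertiaIdeal_of_levels`.
-/
import Mathlib
import Fermat.Agent.ML.GLUEG_helper7_Main
import Fermat.Agent.ML.IFACE_helper9_IA
import Fermat.Agent.NP.S33TOP_helper2_DetH
import Fermat.Agent.GR.S29TOP_lead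
import Fermat.Agent.S31

set_option autoImplicit false
set_option linter.unusedSectionVars false
set_option linter.unusedVariables false
set_option linter.style.haveILetI false

namespace Fermat.Agent.ML.GLUEG

open Polynomial IsLocalRing Fermat.Agent.S53 Fermat.Agent.S53.L1 Fermat.Agent.RB.REPT
open Fermat.Agent.CFT.Arith Fermat.Agent.CFT.LocForm
open Fermat.Agent.RB Fermat.Agent.RB.GLUE

local notation "Ω" => AlgebraicClosure ℚ
local notation "GQ" => (AlgebraicClosure ℚ ≃ₐ[ℚ] AlgebraicClosure ℚ)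

section Unr

variable {k k' : Type} [Field k] [Field k']

/-- an endomorphism of a vector space whose base change to a field extension is the identity is
the identity. -/
theorem eq_one_of_baseChange_eq_one (φ : k →+* k') {V : Type} [AddCommGroup V] [Module k V]
    [Module.Free k V] (f : Module.End k V)
    (h : letI : Algebra k k' := φ.toAlgebra; f.baseChange k' = 1) : f = 1 := by
  letI : Algebra k k' := φ.toAlgebra
  have hinj : Function.Injective (algebraMap k k') := φ.injective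
  ext x
  have h1 : (1 : k') ⊗ₜ[k] (f x) = (1 : k') ⊗ₜ[k] x := by
    have := LinearMap.congr_fun h ((1 : k') ⊗ₜ[k] x)
    rwa [LinearMap.baseChange_tmul] at this
  haveI : Module.FaithfullyFlat k k' := inferInstance
  have hinj' : Function.Injective (TensorProduct.mk k k' V 1) :=
    Module.FaithfullyFlat.tensorProduct_mk_injective (A := k) (B := k') V
  exact hinj' h1

/-- unramifiedness descends along an equivalence with a base change. -/
theorem isUnramifiedAt_of_isEquiv_baseChangeAlong (φ : k →+* k') (ρbar : ResidualGaloisRep k)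
    (ρ' : ResidualGaloisRep k') (he : ρ'.IsEquiv (ρbar.baseChangeAlong φ)) {q : ℕ}
    (h : ρ'.IsUnramifiedAt q) : ρbar.IsUnramifiedAt q := by
  obtain ⟨e⟩ := he
  intro P hP σ hσ
  have h1 : ρ'.ρ σ = 1 := h P hP σ hσ
  refine eq_one_of_baseChange_eq_one φ (ρbar.ρ σ) ?_
  letI : Algebra k k' := φ.toAlgebra
  show (ρbar.baseChangeAlong φ).ρ σ = 1
  ext y
  obtain ⟨x, rfl⟩ := e.toLinearEquiv.surjective y
  rw [← e.map_apply, h1]
  rfl

end Unr

section Adapter

variable {𝒪 : Type} [CommRing 𝒪] [IsDomain 𝒪] [IsDiscreteValuationRing 𝒪]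
  [IsAdicComplete (maximalIdeal 𝒪) 𝒪]

/-- helper9's side is a generic side. -/
def GSide.ofTWSideE {p : ℕ} {S Sig : Finset ℕ} {pc : PCase}
    {ρbar : ResidualGaloisRep (ResidueField 𝒪)}
    {r d n : ℕ} {Q : Fin r → ℕ} (Sd : TWSideE (𝒪 := 𝒪) p S Sig pc ρbar r d n Q) :
    GSide (𝒪 := 𝒪) p S ρbar r d n Q where
  T := Sd.T
  residue_surjective := Sd.residue_surjective
  ρ := Sd.ρ
  residual_isEquiv := Sd.residual_isEquiv
  det_cyc := Sd.isOfType.1
  unr := Sd.isOfType.2.1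
  adjoin_trace := Sd.adjoin_trace
  H := Sd.H
  h := Sd.h
  g := Sd.g
  g_pow := Sd.g_pow
  g_comm := Sd.g_comm
  g_comm_h := Sd.g_comm_h
  b := Sd.b
  free := Sd.free
  keyH := Sd.keyH

variable {N : ℕ} [NeZero N] {S : Finset ℕ}
  {θ : CuspForm.heckeAlgebra N 2 (S : Set ℕ) →+* ResidueField 𝒪}
  {T : Type} [CommRing T] [IsLocalRing T] [IsNoetherianRing T]
  [IsAdicComplete (maximalIdeal T) T] [Algebra 𝒪 T] [IsLocalHom (algebraMap 𝒪 T)]
  [Module.Finite 𝒪 T] [Module.Free 𝒪 T]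
  {p : ℕ} {pc : PCase} {datum : CuspForm.HeckeGaloisRepDatum N (S : Set ℕ) 𝒪 θ T}
  {Sig : Finset ℕ} {ζ lam : 𝒪} {ρbar : ResidualGaloisRep (ResidueField 𝒪)}
  {r d : ℕ} {M0 : Type} [AddCommGroup M0] [Module 𝒪 M0] [Module T M0]
  {n : ℕ} {Q : Fin r → ℕ}

attribute [local instance] TWGaloisLevelE.instAddCommGroupBar TWGaloisLevelE.instModuleBar

/-- helper9's level is a generic level. -/
def GLevel.ofTWGaloisLevelE (L : TWGaloisLevelE p pc datum Sig ζ lam ρbar r d M0 n Q) :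
    GLevel p datum.ρ S Sig ζ lam ρbar r d M0 n Q where
  side₁ := GSide.ofTWSideE L.side₁
  side₂ := GSide.ofTWSideE L.side₂
  type₁ := L.type₁
  type₂ := L.type₂
  Hbar := L.Hbar
  gbar := L.gbar
  trbar := L.trbar
  red₁ := L.red₁
  red₂ := L.red₂
  red₁_surjective := L.red₁_surjective
  red₂_surjective := L.red₂_surjective
  ker_red₁ := L.ker_red₁
  ker_red₂ := L.ker_red₂
  red₁_g := L.red₁_g
  red₂_g := L.red₂_g
  red₁_trace := L.red₁_trace
  red₂_trace := L.red₂_trace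
  toT := L.toT
  toT_trace := L.toT_trace
  ctl := L.ctl
  ctl_surjective := L.ctl_surjective
  ker_ctl := L.ker_ctl
  ctl_h := L.ctl_h

end Adapter

/-- **[GLUE′]**: Ihara avoidance for a Hecke–Galois datum (every odd `p`, all modes at `p`) from
the Taylor–Wiles producers, [SEL-E] and the [CORE]. -/
theorem glueEStatement : GlueEStatement := by
  intro hTW hSel hCore
  intro 𝒪 _ _ _ _ _ _ p hpF hp2 hp𝒪 hζex N _ hNsq h3 S hS θ T _ _ _ _ _ _ _ _ datum hfull ρbar
    hequiv habs hsplit hidx2 md hmd Sig hSigne hSig hram k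
  obtain ⟨ζ, hζ⟩ := hζex
  have hp : p.Prime := hpF.out
  obtain ⟨lam, hlamirr⟩ := IsDiscreteValuationRing.exists_irreducible 𝒪
  -- membership in `S`
  have hNS : ∀ q : ℕ, q.Prime → q ∣ N → q ∈ S := fun q hq hqN => (hS q).2 ⟨hq, Or.inr hqN⟩
  have hpS : p ∈ S := (hS p).2 ⟨hp, Or.inl rfl⟩
  have hSprime : ∀ q ∈ S, q.Prime := fun q hq => ((hS q).1 hq).1
  have hSigS : Sig ⊆ S := fun v hv => (hS v).2 ⟨(hSig v hv).1, Or.inr (hSig v hv).2.1⟩
  have hSigscalar : ∀ v ∈ Sig, ResFrobScalarAt ρbar p v := fun v hv => (hSig v hv).2.2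
  have hpSig : p ∉ Sig := fun h => ne_of_modEq_one hp (hSigscalar p h).1 rfl
  -- the residual hypotheses
  have hdetT : datum.ρ.DetIsCyclotomic p :=
    Fermat.Agent.NP.heckeDatum_detIsCyclotomic hp hp𝒪 hNS datum
  have hdetbar : (GaloisRepAdic.ofResidualGaloisRep ρbar).DetIsCyclotomic p :=
    detIsCyclotomic_of_lift datum.ρ _ ρbar hequiv hdetT
  have hramS : ∀ ℓ ∈ S, ℓ ≠ p → ℓ ∉ Sig → ¬ ρbar.IsUnramifiedAt ℓ ∨
      (NoLevelRaisingAt ρbar ℓ ∧ ((ℓ : ℕ) : ResidueField 𝒪) ≠ 1) :=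
    fun ℓ hℓS hℓp hℓSig => hram ℓ ((hS ℓ).1 hℓS).1 (((hS ℓ).1 hℓS).2.resolve_left hℓp) hℓp hℓSig
  have hunrS : ∀ ℓ : ℕ, ℓ.Prime → ℓ ∉ S → ρbar.IsUnramifiedAt ℓ := fun ℓ hℓ hℓS =>
    isUnramifiedAt_of_isEquiv_baseChangeAlong _ ρbar _ hequiv
      (Fermat.Agent.GR.residual_isUnramifiedAt datum.ρ ℓ
        (Fermat.Agent.S31.result hp hp𝒪 hpS hNS datum ℓ hℓ hℓS))
  -- [SEL-E]
  obtain ⟨g, r, hr, hselQ⟩ := hSel p hp2 hp𝒪 ρbar habs hdetbar hsplit hidx2 S Sig hpS hSprime
    hSigS hpSig md.pc md.pc_ne_chain hSigscalar hramS hunrS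
  -- the producers
  obtain ⟨d, hd, M0, iACG, iMod𝒪, iModT, iST, iFree, iFin, hfinrank, hlevels⟩ :=
    hTW p hp2 hp𝒪 ζ hζ lam hlamirr N hNsq h3 S hS θ T datum hfull ρbar hequiv md trivial hmd Sig
      hSigne hSig hram
  have hrpos : 0 < r := by
    have := Finset.card_pos.2 hSigne
    omega
  -- the generic glue
  refine not_pow_mem_iSup_inertiaIdeal_of_levels hCore hp2 hp𝒪 hζ hlamirr datum.ρ
    datum.residual_absIrr ρbar habs hdetbar S Sig hpS (fun v hv => (hSig v hv).1) hpSig hSigscalar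
    hunrS hr hd M0 hfinrank (fun n => ?_) k
  -- the Taylor–Wiles set of level `n + 1`, used at level `n`
  obtain ⟨Q, hQ1, hselAt⟩ := hselQ (n + 1)
  have hQ : IsTWSet ρbar p S n Q :=
    { injective := hQ1.injective
      prime := hQ1.prime
      notMem := hQ1.notMem
      cong := fun j => (pow_dvd_pow p (Nat.le_succ n)).trans (hQ1.cong j)
      distinct := hQ1.distinct }
  have hQp : ∀ j, p ∣ Q j - 1 := fun j =>
    (dvd_pow_self p (Nat.succ_ne_zero n)).trans (hQ1.cong j)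
  obtain ⟨L⟩ := hlevels r n Q hQ hQp hrpos
  refine ⟨Q, hQ, GLevel.ofTWGaloisLevelE L, fun β => ?_, fun β => ?_⟩
  · exact hselAt L.side₁.T L.side₁.residue_surjective L.side₁.ρ L.side₁.residual_isEquiv
      L.side₁.isOfType L.side₁.adjoin_trace β
  · exact hselAt L.side₂.T L.side₂.residue_surjective L.side₂.ρ L.side₂.residual_isEquiv
      L.side₂.isOfType L.side₂.adjoin_trace β

end Fermat.Agent.ML.GLUEG
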