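/-
PROJECT ML (S59) — [LGC-St]-E (helper7): **`newRamifiedE : NewRamifiedE`** (helper9's literal of
`ML/IFACE_helper9_IA`): (LGC-St) "unramified at `v ∥ N` ⇒ `v`-old" for EVERY odd prime `p`
(`v ≠ 2`, `v ≠ p`, `p ∣ M` allowed).

Port of `RB/LGCBR_lead_Main.newRamifiedFin_of_keyI3W` (the bridge files `RB/LGCBR_lead_*` only use
`p ≠ 2`), the geometric input (KEY-I3W) for `p ≠ 2`, `q ≠ 2` being
`ML.newToricAtStatementO` ([NODE-I] at every place, every odd `p`) + helper6's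
`ML.keyToricStatementO` (`φ x + q • w_q x = 0` on toric classes of exponent `p ^ k`).
-/
import Mathlib
import Fermat.Agent.RB.LGCBR_lead_Main
import Fermat.Agent.ML.MAZ_helper6_KeyToricO
import Fermat.Agent.ML.NEWT_helper7_Wire
import Fermat.Agent.ML.IFACE_helper9_IA

set_option autoImplicit false
set_option linter.unusedSectionVars false
set_option linter.unusedVariables false
set_option linter.style.haveILetI false

namespace Fermat.Agent.ML

open CongruenceSubgroup ModularCurve ModularCurve.Period Polynomial IsLocalRing Fermat.Agent.GR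
  CuspForm Fermat.Agent.S35 Fermat.Agent.S32 Fermat.Agent.RB Fermat.Agent.RB.LGCBR

open Fermat.Agent.JA Fermat.Agent.FF Fermat.Agent.SS Fermat.Agent.S36 Fermat.Agent.X0N
  Fermat.Agent.FG

open scoped MatrixGroups

/-- **the geometric input of the bridge, weak form, every odd `p`**: (KEY-I3W) for `p ≠ 2` and odd
`q`. -/
def KeyI3WOdd : Prop :=
  ∀ (M q p : ℕ) [NeZero M] [NeZero q] [NeZero (M * q)], q.Prime → p.Prime → q ≠ p → ¬ q ∣ M →
    p ≠ 2 → q ≠ 2 → KeyI3W M q p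

/-- **(KEY-I3W) at one level from [NODE-I] at every place, every odd `p`.** -/
theorem keyI3W_of_newToricAtO {M q p : ℕ} [NeZero M] [NeZero q] [NeZero (M * q)] (hq : q.Prime)
    (hq2 : q ≠ 2) (hp : p.Prime) (hp2 : p ≠ 2) (hqp : q ≠ p) (hqM : ¬ q ∣ M)
    (H : ∀ A : ValuationSubring (AlgebraicClosure ℚ), A.LiesOverPrime q → NewToricAt M q p A) :
    KeyI3W M q p := by
  intro A hA
  obtain ⟨c, hc⟩ := H A hA
  refine ⟨c, fun φ hφ k x hx hI hα hβ => ?_⟩
  have htor := hc k x hx hI hα hβ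
  have hR := keyToricStatementO M q hq hq2 hqM A hA φ hφ p hp hp2 hqp k _ htor
  have h1 := frob_sq_eq_of_frob_add_al φ (atkinLehnerJ hq hqM) (atkinLehnerJ_atkinLehnerJ hq hqM)
    (fun z => (smul_atkinLehnerJ hq hqM φ z).symm) q hR
  exact (nsmul_frob_sq_sub φ (p ^ c) (q ^ 2) x).trans (by rw [h1, sub_self])

/-- **(KEY-I3W), all levels, `q ≠ 2`, every odd `p`.** -/
theorem keyI3WOdd : KeyI3WOdd :=
  fun M q p _ _ _ hq hp hqp hqM hp2 hq2 =>
    keyI3W_of_newToricAtO hq hq2 hp hp2 hqp hqM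
      (fun A hA => newToricAtStatementO M q p hq hq2 hp hp2 hqp hqM A hA)

/-- **the bridge**, from the weak form of (KEY-I3), every odd `p`. -/
theorem newRamifiedE_of_keyI3WO (hkey : KeyI3WOdd) : NewRamifiedE := by
  intro 𝒪 _ _ _ _ _ _ p hp hp2 hp𝒪 M v _ _ hv hvM hvp hv2 S hpS hNS θ T _ _ _ _ _ _ _ _ H 𝔭 h𝔭
    hp𝔭 hI
  classical
  haveI : NeZero v := ⟨hv.ne_zero⟩
  -- the point with kernel `𝔭`
  obtain ⟨P, hP⟩ := REPT.exists_point_of_prime (𝒪 := 𝒪) 𝔭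
    (comap_eq_bot_of_natCast_notMem hp𝒪 𝔭 hp𝔭)
  -- the full eigensystem
  obtain ⟨B, i1, i2, i3, i4, i5, i6, i7, i8, i9, hinj, L, j1, j2, j3, a, hocc, ha⟩ :=
    exists_system_of_character (N := M * v) S hNS P.B ((P.ψ : T →+* P.B).comp H.π)
  haveI : IsLocalHom (P.ψ : T →+* P.B) := isLocalHom_of_finite P.ψ
  set ψ : T →+* B := (algebraMap P.B B).comp (P.ψ : T →+* P.B) with hψdef
  haveI : IsLocalHom ψ := inferInstance
  have hker : RingHom.ker ψ = 𝔭 := by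
    rw [← hP]
    ext t
    rw [RingHom.mem_ker, RingHom.mem_ker]
    constructor
    · intro ht
      apply hinj
      rw [map_zero]
      exact ht
    · intro ht
      show algebraMap P.B B (P.ψ t) = 0
      rw [ht, map_zero]
  have hpT : (p : T) ∈ maximalIdeal T := by
    have := map_nonunit (algebraMap 𝒪 T) _ hp𝒪
    rwa [map_natCast] at this
  have hpB : (p : B) ∈ maximalIdeal B := by
    have := map_nonunit ψ _ hpT
    rwa [map_natCast] at this
  letI algB : Algebra ℤ_[p] B := (padicToComplete p (maximalIdeal B) hpB).toAlgebra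
  have ha' : ∀ (ℓ : ℕ) (hℓ : ℓ.Prime) (hℓN : ¬ ℓ ∣ M * v) (hℓS : ℓ ∉ (↑S : Set ℕ)),
      a ⟨ℓ, hℓ⟩ = ψ (H.π (CuspForm.heckeAlgebra.T hℓ hℓN hℓS)) := fun ℓ hℓ hℓN hℓS =>
    ha ℓ hℓ hℓN hℓS
  by_cases hnew : eigenParOn M L (primesNotDvd (M * v)) (mapSys B L a) = ⊥
  · -- the new case is contradictory
    exfalso
    exact false_of_new_weak (hkey M v p hv hp.out hvp hvM hp2 hv2) hv hvM hvp hp2 hpS hNS H B hpB ψ
      (by rw [hker]; exact hI) L a hocc ha' hnew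
  · -- the old case
    haveI : CharZero L := charZero_of_injective_algebraMap (IsFractionRing.injective B L)
    haveI : IsDomain (T ⧸ 𝔭) := Ideal.Quotient.isDomain 𝔭
    set χ' : CuspForm.heckeAlgebra (M * v) 2 (↑S : Set ℕ) →+* T ⧸ 𝔭 :=
      (Ideal.Quotient.mk 𝔭).comp H.π with hχ'
    -- `T ⧸ 𝔭 ↪ B`
    let ιB : T ⧸ 𝔭 →+* B := Ideal.Quotient.lift 𝔭 ψ (fun t ht => by
      rw [← hker] at ht; exact ht)
    have hιB : Function.Injective ιB :=
      RingHom.lift_injective_of_ker_le_ideal _ _ hker.le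
    -- the domain `D = χ'(𝕋)`
    let D : Subring (T ⧸ 𝔭) := χ'.range
    have hιD : Function.Injective (ιB.comp D.subtype) := by
      intro x y hxy
      exact Subtype.ext (hιB hxy)
    haveI : CharZero ↥D := ⟨fun m n hmn => by
      have h1 := congrArg (ιB.comp D.subtype) hmn
      rw [map_natCast, map_natCast] at h1
      exact_mod_cast h1⟩
    haveI : Algebra.IsIntegral ℤ ↥D := ⟨by
      rintro ⟨_, t, rfl⟩
      have h1 : IsIntegral ℤ (χ'.rangeRestrict t) := map_isIntegral_int χ'.rangeRestrict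
        (isIntegral_heckeAlgebra (↑S : Set ℕ) t)
      exact h1⟩
    let g : ↥D →+* L := (algebraMap B L).comp (ιB.comp D.subtype)
    have hg : Function.Injective g := by
      intro x y hxy
      exact hιD (IsFractionRing.injective B L hxy)
    have hnotdvd : ∀ ℓ : Nat.Primes, (ℓ : ℕ) ∉ (↑S : Set ℕ) → ¬ (ℓ : ℕ) ∣ M * v :=
      fun ℓ hℓS hdvd => hℓS (Finset.mem_coe.2 (hNS ℓ ℓ.2 hdvd))
    let d : Nat.Primes → ↥D := fun ℓ =>
      if h : (ℓ : ℕ) ∉ (↑S : Set ℕ) then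
        ⟨χ' (CuspForm.heckeAlgebra.T ℓ.2 (hnotdvd ℓ h) h), ⟨_, rfl⟩⟩ else 0
    have hd : ∀ (ℓ : Nat.Primes) (h : (ℓ : ℕ) ∉ (↑S : Set ℕ)),
        d ℓ = ⟨χ' (CuspForm.heckeAlgebra.T ℓ.2 (hnotdvd ℓ h) h), ⟨_, rfl⟩⟩ := fun ℓ h =>
      dif_pos h
    have hocc' : eigenParOn M L (primesOutside (↑S : Set ℕ)) (fun ℓ => g (d ℓ)) ≠ ⊥ := by
      have hsub : primesOutside (↑S : Set ℕ) ⊆ primesNotDvd (M * v) := fun ℓ hℓ =>
        hnotdvd ℓ hℓ
      have hcongr : eigenParOn M L (primesOutside (↑S : Set ℕ)) (fun ℓ => g (d ℓ)) =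
          eigenParOn M L (primesOutside (↑S : Set ℕ)) (mapSys B L a) := by
        refine eigenParOn_congr fun ℓ hℓ => ?_
        rw [hd ℓ hℓ]
        show algebraMap B L (ψ (H.π (CuspForm.heckeAlgebra.T ℓ.2 (hnotdvd ℓ hℓ) hℓ))) =
          algebraMap B L (a ℓ)
        rw [← ha' ℓ.1 ℓ.2 (hnotdvd ℓ hℓ) hℓ]
        rfl
      rw [hcongr]
      intro hbot
      apply hnew
      rw [eq_bot_iff]
      exact (eigenParOn_anti hsub (mapSys B L a)).trans hbot.le
    have hMS : ∀ ℓ : ℕ, ℓ.Prime → ℓ ∣ M → ℓ ∈ (↑S : Set ℕ) := fun ℓ hℓ hℓM =>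
      Finset.mem_coe.2 (hNS ℓ hℓ (hℓM.mul_right v))
    obtain ⟨χD, hχD⟩ := exists_character_of_eigenParOn (M := M) (↑S : Set ℕ) hMS g hg d hocc'
    refine ⟨D.subtype.comp χD, fun ℓ hℓ hℓM hℓS => ?_⟩
    rw [RingHom.comp_apply, hχD ℓ hℓ _ hℓS, hd ⟨ℓ, hℓ⟩ hℓS]
    rfl

/-- **(LGC-St) for every odd `p`.** -/
theorem newRamifiedE : NewRamifiedE := newRamifiedE_of_keyI3WO keyI3WOdd

end Fermat.Agent.ML
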