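/-
PROJECT ML (S59) — [SEL-L] (helper4), file 3: the local counts `|k|^{hh} ≤ #H⁰(G_q, ad⁰ρ̄)` at the
chain primes:
* `card_le_card_ext_zero_of_commute` : a NON-SCALAR matrix commuting with `ρ̄(G_q)` gives
  `|k| ≤ #H⁰(G_q, ad⁰ρ̄)` (`A - tr(A)/2` is a non-zero invariant of `ad⁰`);
* `exists_pow_of_unramified` : if `ρ̄` is unramified at `q`, `ρ̄(σ)` is a power of `ρ̄(Frob)` for
  every `σ` in a decomposition group;
* `card_le_card_ext_zero_ns`  (kind `ns`: `A = ρ̄(Frob_q)`),
  `card_le_card_ext_zero_psp` (kind `psp`: `A` = the projection onto one of the two stable lines).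
-/
import Mathlib
import Fermat.Agent.RB.SEL_helper4_Family
import Fermat.Agent.RB.SEL_helper4_Frob
import Fermat.Agent.ML.IFACE_helper9_Chart

set_option autoImplicit false
set_option linter.unusedSectionVars false
set_option linter.style.haveILetI false

open CategoryTheory CategoryTheory.Abelian groupCohomology ExtCitation Polynomial

namespace Fermat.Agent.ML.SelL

open Fermat.Agent.TW Fermat.Agent.CFT.Sm Fermat.Agent.CFT.Bridge Fermat.Agent.CFT.Arith
  Fermat.Agent.CFT Fermat.Agent.S53 Fermat.Agent.RB.SEL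

/-- `Ω = AlgebraicClosure ℚ`. -/
local notation "Ω" => AlgebraicClosure ℚ
/-- `GQ = Gal(ℚ̄/ℚ)`. -/
local notation "GQ" => (AlgebraicClosure ℚ ≃ₐ[ℚ] AlgebraicClosure ℚ)

section Commute

variable {k : Type} [Field k] [Finite k] (rbar : GQ →* Matrix (Fin 2) (Fin 2) k)

/-- an element of `ad⁰` commuting with `ρ̄(g)` is fixed by `g` -/
lemma adRep_ρ_apply_of_commute (g : GQ) (w : (adRep rbar).V)
    (hg : rbar g * (show sl2 k from w).1 = (show sl2 k from w).1 * rbar g) :
    (adRep rbar).ρ g w = w := by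
  apply Subtype.ext
  change rbar g * (show sl2 k from w).1 * rbar g⁻¹ = (show sl2 k from w).1
  have h1 : rbar g * rbar g⁻¹ = 1 := by rw [← map_mul, mul_inv_cancel, map_one]
  rw [hg, mul_assoc, h1, mul_one]

/-- **a non-scalar matrix commuting with `ρ̄(G_q)` gives `|k| ≤ #H⁰(G_q, ad⁰ρ̄)`.** -/
theorem card_le_card_ext_zero_of_commute (h2 : (2 : k) ≠ 0) (q : Nat.Primes)
    (hq : IsSmooth (locBasis q) (Rep.res (primeLocalToGlobal q) (adRep rbar)))
    (A : Matrix (Fin 2) (Fin 2) k) (hA : ¬ ∃ c : k, A = c • (1 : Matrix (Fin 2) (Fin 2) k))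
    (hcomm : ∀ τ : primeLocalGaloisGroup q,
      rbar (primeLocalToGlobal q τ) * A = A * rbar (primeLocalToGlobal q τ)) :
    Nat.card k ≤ Nat.card (Ext (smUnit ℤ (locBasis q)) (YLoc (adRep rbar) q hq) 0) := by
  -- the invariant element
  set W : Matrix (Fin 2) (Fin 2) k := A - (A.trace / 2) • (1 : Matrix (Fin 2) (Fin 2) k) with hW
  have hWtr : W ∈ sl2 k := by
    rw [mem_sl2_iff, hW, Matrix.trace_sub, Matrix.trace_smul, Matrix.trace_one, Fintype.card_fin,
      smul_eq_mul]
    push_cast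
    field_simp
    ring
  have hW0 : W ≠ 0 := by
    intro h0
    apply hA
    refine ⟨A.trace / 2, ?_⟩
    rw [hW, sub_eq_zero] at h0
    exact h0
  have hWcomm : ∀ τ : primeLocalGaloisGroup q,
      rbar (primeLocalToGlobal q τ) * W = W * rbar (primeLocalToGlobal q τ) := by
    intro τ
    rw [hW, mul_sub, sub_mul, hcomm τ, Matrix.mul_smul, Matrix.smul_mul, mul_one, one_mul]
  rw [natCard_ext_zero]
  have : Finite {y : (YLoc (adRep rbar) q hq).obj.V //
      ∀ g : primeLocalGaloisGroup q, (YLoc (adRep rbar) q hq).obj.ρ g y = y} :=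
    inferInstanceAs (Finite {y : sl2 k // _})
  refine Nat.card_le_card_of_injective
    (fun c : k => ⟨(c • (⟨W, hWtr⟩ : sl2 k) : sl2 k), fun g => ?_⟩) ?_
  · refine adRep_ρ_apply_of_commute rbar (primeLocalToGlobal q g) _ ?_
    show rbar (primeLocalToGlobal q g) * (c • W) = (c • W) * rbar (primeLocalToGlobal q g)
    rw [Matrix.mul_smul, Matrix.smul_mul, hWcomm g]
  · intro c c' h
    have h1 : c • W = c' • W := congrArg (fun y => ((y.1 : sl2 k) : Matrix (Fin 2) (Fin 2) k)) h
    by_contra hne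
    apply hW0
    have h3 : (c - c') • W = 0 := by rw [sub_smul, h1, sub_self]
    exact (smul_eq_zero.1 h3).resolve_left (sub_ne_zero.2 hne)

end Commute

section Unramified

variable {k : Type} [Field k]

/-- **`ρ̄` unramified at `v`: every element of a decomposition group over `v` acts as a power of
Frobenius.** -/
theorem exists_pow_of_unramified {ρbar : ResidualGaloisRep k} {v : ℕ} (hv : v.Prime)
    (hunr : ρbar.IsUnramifiedAt v) (P : ValuationSubring Ω) (hP : P.LiesOverPrime v)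
    {φ : GQ} (hφ : P.IsFrobeniusAt φ v) {σ : GQ} (hσ : σ ∈ P.decompositionSubgroup ℚ) :
    ∃ n : ℕ, ρbar.ρ σ = ρbar.ρ φ ^ n := by
  have hfac : GaloisFactorsThroughFiniteLevel ρbar.ρ.toHomUnits := by
    obtain ⟨L, hL, h1⟩ := ρbar.factorsThroughFiniteLevel
    exact ⟨L, hL, fun s hs => Units.ext (h1 s hs)⟩
  obtain ⟨n, hn⟩ := exists_pow_of_mem_decompositionSubgroup ρbar.ρ.toHomUnits hfac hv P hP
    (fun s hs => Units.ext (hunr P hP s hs)) hφ hσ
  have h1 := congrArg (fun u : (Module.End k ρbar.V)ˣ => (u : Module.End k ρbar.V)) hn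
  simp only [MonoidHom.coe_toHomUnits, Units.val_pow_eq_pow_val] at h1
  exact ⟨n, h1⟩

end Unramified

section Kinds

variable {k : Type} [Field k] [Finite k]

/-- **kind `ns`**: `|k| ≤ #H⁰(G_q, ad⁰ρ̄)`. -/
theorem card_le_card_ext_zero_ns (h2 : (2 : k) ≠ 0) (ρbar : ResidualGaloisRep k)
    (β : Module.Basis (Fin 2) k ρbar.V) (p : ℕ) (q : Nat.Primes)
    (hq : IsSmooth (locBasis q) (Rep.res (primeLocalToGlobal q) (adRep (resMatrixOf ρbar β))))
    (hkind : ChainKind.ns.Holds ρbar p (q : ℕ)) :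
    Nat.card k ≤
      Nat.card (Ext (smUnit ℤ (locBasis q)) (YLoc (adRep (resMatrixOf ρbar β)) q hq) 0) := by
  obtain ⟨-, hunr, hns⟩ := hkind
  have hP := primeLocalPlace_liesOverPrime q
  obtain ⟨φ, hφ⟩ := Fermat.Agent.CFT.LocForm.exists_isFrobeniusAt (primeLocalPlace q) q.2 hP
  refine card_le_card_ext_zero_of_commute (resMatrixOf ρbar β) h2 q hq (resMatrixOf ρbar β φ) ?_ ?_
  · rintro ⟨c, hc⟩
    apply hns (primeLocalPlace q) hP φ hφ
    refine ⟨c, ?_⟩
    apply (LinearMap.toMatrix β β).injective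
    rw [← resMatrixOf_eq_toMatrix, hc, map_smul, LinearMap.toMatrix_one]
  · intro τ
    obtain ⟨n, hn⟩ := exists_pow_of_unramified q.2 hunr (primeLocalPlace q) hP hφ
      (primeLocalToGlobal_mem_decompositionSubgroup q τ)
    have h1 : resMatrixOf ρbar β (primeLocalToGlobal q τ) = resMatrixOf ρbar β φ ^ n := by
      rw [resMatrixOf_eq_toMatrix, hn, resMatrixOf_eq_toMatrix]
      exact map_pow (LinearMap.toMatrixAlgEquiv β) _ n
    rw [h1]
    exact ((Commute.refl (resMatrixOf ρbar β φ)).pow_left n).eq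

/-- **kind `psp`**: `|k| ≤ #H⁰(G_p, ad⁰ρ̄)`. -/
theorem card_le_card_ext_zero_psp (h2 : (2 : k) ≠ 0) (ρbar : ResidualGaloisRep k)
    (β : Module.Basis (Fin 2) k ρbar.V) (p : ℕ) (q : Nat.Primes)
    (hq : IsSmooth (locBasis q) (Rep.res (primeLocalToGlobal q) (adRep (resMatrixOf ρbar β))))
    (hkind : ChainKind.psp.Holds ρbar p (q : ℕ)) :
    Nat.card k ≤
      Nat.card (Ext (smUnit ℤ (locBasis q)) (YLoc (adRep (resMatrixOf ρbar β)) q hq) 0) := by
  obtain ⟨hqp, hsplit⟩ := hkind
  have hP := primeLocalPlace_liesOverPrime q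
  rw [hqp] at hP
  obtain ⟨L₁, L₂, hcompl, hL₁, hL₂, hstab⟩ := hsplit (primeLocalPlace q) hP
  set e : Module.End k ρbar.V := L₁.projection L₂ hcompl with he
  have hidem : IsIdempotentElem e := Submodule.isIdempotentElem_projection hcompl
  refine card_le_card_ext_zero_of_commute (resMatrixOf ρbar β) h2 q hq
    (LinearMap.toMatrix β β e) ?_ ?_
  · rintro ⟨c, hc⟩
    have hec : e = c • (1 : Module.End k ρbar.V) := by
      apply (LinearMap.toMatrix β β).injective
      rw [hc, map_smul, LinearMap.toMatrix_one]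
    obtain ⟨v₁, hv₁, hv₁0⟩ := Submodule.exists_mem_ne_zero_of_ne_bot hL₁
    obtain ⟨v₂, hv₂, hv₂0⟩ := Submodule.exists_mem_ne_zero_of_ne_bot hL₂
    have h1 : e v₁ = v₁ := Submodule.projection_apply_of_mem_left hcompl hv₁
    have h2' : e v₂ = 0 := by
      rw [he, Submodule.projection_apply_eq_zero_iff]
      exact hv₂
    rw [hec] at h1 h2'
    simp only [LinearMap.smul_apply, Module.End.one_apply] at h1 h2'
    have hc0 : c = 0 := (smul_eq_zero.1 h2').resolve_right hv₂0
    rw [hc0, zero_smul] at h1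
    exact hv₁0 h1.symm
  · intro τ
    have hσ := primeLocalToGlobal_mem_decompositionSubgroup q τ
    obtain ⟨hs1, hs2⟩ := hstab _ hσ
    have hcomm : Commute e (ρbar.ρ (primeLocalToGlobal q τ)) := by
      rw [LinearMap.IsIdempotentElem.commute_iff hidem]
      constructor
      · rw [he, Submodule.range_projection, Module.End.mem_invtSubmodule]
        exact fun v hv => hs1 v hv
      · rw [he, Submodule.ker_projection, Module.End.mem_invtSubmodule]
        exact fun v hv => hs2 v hv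
    rw [resMatrixOf_eq_toMatrix, ← LinearMap.toMatrix_mul, ← LinearMap.toMatrix_mul, hcomm.eq]

end Kinds

end Fermat.Agent.ML.SelL
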