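/-
PROJECT ML (S59) — [SEL-L] (helper4), file 5: **a tangent vector killing a locally trivialising
ideal gives a cocycle which is a coboundary on the decomposition groups.**

* `sndM_conj_of_sndM_eq_zero` : over the dual numbers, `sndM (U C U⁻¹) = [Y, fstM (U C U⁻¹)]` with
  `Y = sndM U · fstM U⁻¹`, if `C` is constant (`sndM C = 0`);
* `exists_coboundary_of_isLocTrivIdeal` : for `f : T →ₐ[𝒪] k[ε]` killing `I`,
  `IsLocTrivIdeal 𝒪 ρ c I`, `P ∣ c`: there is `Y ∈ M₂(k)` with
  `sndM (f ρ(σ)) = Y · fstM (f ρ(σ)) - fstM (f ρ(σ)) · Y` for all `σ ∈ D_P`.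
-/
import Mathlib
import Fermat.Agent.ML.IFACE_helper9_Chart
import Fermat.Agent.TW.Deform_helper6
import Fermat.Agent.S53.Tangent

set_option autoImplicit false
set_option linter.unusedSectionVars false
set_option linter.style.haveILetI false

noncomputable section

namespace Fermat.Agent.ML.SelL

open Fermat.Agent.TW Fermat.Agent.S53 Matrix IsLocalRing

/-- `Ω = AlgebraicClosure ℚ`. -/
local notation "Ω" => AlgebraicClosure ℚ
/-- `GQ = Gal(ℚ̄/ℚ)`. -/
local notation "GQ" => (AlgebraicClosure ℚ ≃ₐ[ℚ] AlgebraicClosure ℚ)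

section Dual

variable {k : Type} [Field k]

/-- conjugating a constant matrix over the dual numbers -/
theorem sndM_conj_of_sndM_eq_zero (U U' C : M2 (DualNumber k)) (h1 : U * U' = 1)
    (hC : sndM C = 0) :
    sndM (U * C * U') =
      sndM U * fstM U' * fstM (U * C * U') - fstM (U * C * U') * (sndM U * fstM U') := by
  have e1 : fstM U * fstM U' = 1 := by
    have := congrArg fstM h1
    rwa [fstM_mul, fstM_one] at this
  have e2 : fstM U * sndM U' + sndM U * fstM U' = 0 := by
    have := congrArg sndM h1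
    rwa [sndM_mul, sndM_one] at this
  have e3 : fstM U' * fstM U = 1 := mul_eq_one_comm.1 e1
  have e4 : sndM U' = -(fstM U' * sndM U * fstM U') := by
    have h : fstM U' * (fstM U * sndM U' + sndM U * fstM U') = 0 := by rw [e2, mul_zero]
    rw [mul_add, ← mul_assoc, e3, one_mul, ← mul_assoc] at h
    exact eq_neg_of_add_eq_zero_left h
  rw [sndM_mul, sndM_mul, fstM_mul, fstM_mul, fstM_mul, hC, e4, mul_zero, zero_add]
  have e5 : sndM U * fstM U' * (fstM U * fstM C * fstM U') = sndM U * fstM C * fstM U' := by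
    calc sndM U * fstM U' * (fstM U * fstM C * fstM U')
        = sndM U * (fstM U' * fstM U) * fstM C * fstM U' := by noncomm_ring
      _ = sndM U * fstM C * fstM U' := by rw [e3, mul_one]
  rw [e5]
  noncomm_ring

end Dual

section LocTriv

attribute [local instance] PS.dualNumberAlgebra

variable {𝒪 : Type} [CommRing 𝒪] [IsLocalRing 𝒪]
  {T : Type} [CommRing T] [IsLocalRing T] [Algebra 𝒪 T]

/-- **a tangent vector killing a locally trivialising ideal is locally a coboundary.** -/
theorem exists_coboundary_of_isLocTrivIdeal (ρ : GaloisRepAdic T)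
    (b : Module.Basis (Fin 2) T ρ.V) (f : T →ₐ[𝒪] DualNumber (ResidueField 𝒪))
    (hf : IsLocalHom (f : T →+* DualNumber (ResidueField 𝒪)))
    (c : ℕ) (I : Ideal T) (hI : IsLocTrivIdeal 𝒪 ρ c I) (hkill : ∀ x ∈ I, f x = 0)
    (P : ValuationSubring Ω) (hP : P.LiesOverPrime c) :
    ∃ Y : M2 (ResidueField 𝒪), ∀ σ ∈ P.decompositionSubgroup ℚ,
      sndM ((matrixOf ρ b σ).map (f : T →+* DualNumber (ResidueField 𝒪))) =
        Y * fstM ((matrixOf ρ b σ).map (f : T →+* DualNumber (ResidueField 𝒪))) -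
          fstM ((matrixOf ρ b σ).map (f : T →+* DualNumber (ResidueField 𝒪))) * Y := by
  set φ : T →+* DualNumber (ResidueField 𝒪) := (f : T →+* DualNumber (ResidueField 𝒪)) with hφ
  set J : Ideal T := RingHom.ker φ with hJ
  have hIJ : I ≤ J := fun x hx => (RingHom.mem_ker).2 (hkill x hx)
  have hmJ : maximalIdeal T ^ 2 ≤ J := by
    rw [pow_two, Ideal.mul_le]
    intro x hx y hy
    rw [hJ, RingHom.mem_ker, map_mul]
    have h1 : φ x ∈ maximalIdeal (DualNumber (ResidueField 𝒪)) := map_nonunit φ x hx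
    have h2 : φ y ∈ maximalIdeal (DualNumber (ResidueField 𝒪)) := map_nonunit φ y hy
    have h3 : φ x * φ y ∈ maximalIdeal (DualNumber (ResidueField 𝒪)) ^ 2 := by
      rw [pow_two]
      exact Ideal.mul_mem_mul h1 h2
    rw [maximalIdeal_dualNumber_sq, Ideal.mem_bot] at h3
    exact h3
  have hOJ : (maximalIdeal 𝒪).map (algebraMap 𝒪 T) ≤ J := by
    rw [Ideal.map_le_iff_le_comap]
    intro a ha
    rw [Ideal.mem_comap, hJ, RingHom.mem_ker]
    have h1 : φ (algebraMap 𝒪 T a) = algebraMap 𝒪 (DualNumber (ResidueField 𝒪)) a := f.commutes a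
    rw [h1, PS.dualNumber_algebraMap_apply, (residue_eq_zero_iff a).2 ha, TrivSqZeroExt.inl_zero]
  obtain ⟨β', hβ'⟩ := hI J hIJ hmJ hOJ P hP
  -- the base change matrices
  set U : M2 T := b.toMatrix β' with hU
  set U' : M2 T := β'.toMatrix b with hU'
  have hUU' : U * U' = 1 := Module.Basis.toMatrix_mul_toMatrix_flip b β'
  have hconj : ∀ σ : GQ, matrixOf ρ b σ = U * LinearMap.toMatrix β' β' (ρ.ρ σ) * U' := by
    intro σ
    rw [matrixOf_eq_toMatrix, hU, hU', basis_toMatrix_mul_linearMap_toMatrix_mul_basis_toMatrix]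
  have hmapUU' : U.map φ * U'.map φ = 1 := by
    rw [← Matrix.map_mul, hUU', Matrix.map_one _ (map_zero φ) (map_one φ)]
  refine ⟨sndM (U.map φ) * fstM (U'.map φ), fun σ hσ => ?_⟩
  have hC : sndM ((LinearMap.toMatrix β' β' (ρ.ρ σ)).map φ) = 0 := by
    ext i j
    obtain ⟨a, ha⟩ := hβ' σ hσ i j
    rw [hJ, RingHom.mem_ker, map_sub, sub_eq_zero] at ha
    have h1 : φ (algebraMap 𝒪 T a) = algebraMap 𝒪 (DualNumber (ResidueField 𝒪)) a := f.commutes a
    rw [sndM_apply, Matrix.map_apply, ha, h1, PS.dualNumber_algebraMap_apply,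
      TrivSqZeroExt.snd_inl, Matrix.zero_apply]
  have h2 : (matrixOf ρ b σ).map φ =
      U.map φ * (LinearMap.toMatrix β' β' (ρ.ρ σ)).map φ * U'.map φ := by
    rw [hconj σ, Matrix.map_mul, Matrix.map_mul]
  rw [h2]
  exact sndM_conj_of_sndM_eq_zero _ _ _ hmapUU' hC

end LocTriv

end Fermat.Agent.ML.SelL
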