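/-
PROJECT ML (S59) — [SEL-L] (helper4), file 4: membership in the Selmer group of the family
`RB.SEL.selFamily`, with ABSTRACT local hypotheses:
* at `v ∈ Smin ∖ (SigP ∪ {p})` : the restricted class is unramified (hypothesis);
* at `v ∈ SigP` : the `ad`-cocycle `b σ ρ̄(σ)⁻¹` is, on `G_v`, the coboundary of a matrix `Y`
  (then the restricted class vanishes);
* at `p` : the restricted class lies in `𝓗p`.
(Generalises `RB/SEL_helper4_Mem`.)
-/
import Mathlib
import Fermat.Agent.RB.SEL_helper4_Mem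

set_option autoImplicit false
set_option linter.unusedSectionVars false
set_option linter.style.haveILetI false

noncomputable section

namespace Fermat.Agent.ML.SelL

open Fermat.Agent.TW Fermat.Agent.S53 Fermat.Agent.CFT.Sm Fermat.Agent.CFT.Bridge
  Fermat.Agent.CFT.Arith groupCohomology CategoryTheory CategoryTheory.Abelian Matrix ExtCitation
  IsLocalRing GaloisRepAdic GaloisRep Fermat.Agent.RB.SEL

/-- `Ω = AlgebraicClosure ℚ`. -/
local notation "Ω" => AlgebraicClosure ℚ

section Vanish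

variable {G G' : Type} [Group G] [Group G'] (ψ : G' →* G) (X : Rep.{0} ℤ G)

/-- a cocycle which is a coboundary on the image of `ψ` has trivial restriction along `ψ` -/
theorem map_H1π_eq_zero_of_coboundary (c : cocycles₁ X) (w : X.V)
    (hw : ∀ g : G', (c : G → X.V) (ψ g) + (X.ρ (ψ g) w - w) = 0) :
    (groupCohomology.map ψ (𝟙 (Rep.res ψ X)) 1).hom ((H1π X).hom c) = 0 := by
  obtain ⟨c', hc', hx⟩ := map_H1π_mem_vanishCond ψ X ⊤ c w (fun g _ => hw g)
  have h0 : c' = 0 := by
    apply Subtype.ext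
    funext g
    exact hc' g (Subgroup.mem_top g)
  rw [← hx, h0, map_zero]

end Vanish

section Mem

variable {k : Type} [Field k]

/-- **(I) for the family `selFamily`, abstract local hypotheses.** -/
theorem exists_clsOfCocycle_mem_selmer_selFamily_gen {p : ℕ} [hp : Fact p.Prime] (hp2 : p ≠ 2)
    (hpk : (p : k) = 0) (ρbar : ResidualGaloisRep k) (β : Module.Basis (Fin 2) k ρbar.V)
    (Smin SigP S : Finset Nat.Primes) (D : PTDatum (levelBasis S) p (locHom S) (locFine S))
    (hS : IsSmooth (levelBasis S) (adRep (resMatrixOf ρbar β)))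
    (hloc : ∀ q : Nat.Primes, IsSmooth (locBasis q)
      (Rep.res (primeLocalToGlobal q) (adRep (resMatrixOf ρbar β))))
    (𝓗p : AddSubgroup (H1 (Rep.res (primeLocalToGlobal (pPrime p))
      (adRep (resMatrixOf ρbar β)))))
    {b : Gal → M2 k} (hb : IsTwCocycle (resMatrixOf ρbar β) b) (hsm : IsSmoothFun b)
    (hdet : (ofMatrix (defOfCocycle (resMatrixOf ρbar β) b hb)
      (matCont_defOfCocycle (resMatrixOf_factors ρbar β) hb hsm)).DetIsCyclotomic p)
    (hur : ∀ v : Nat.Primes, v ∉ S → (ofMatrix (defOfCocycle (resMatrixOf ρbar β) b hb)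
      (matCont_defOfCocycle (resMatrixOf_factors ρbar β) hb hsm)).IsUnramifiedAt (v : ℕ))
    (hmin : ∀ v ∈ Smin, v ≠ pPrime p → v ∉ SigP →
      ∀ htr : ∀ σ, Matrix.trace (b σ * resMatrixOf ρbar β σ⁻¹) = 0,
        (groupCohomology.map (primeLocalToGlobal v)
          (𝟙 (Rep.res (primeLocalToGlobal v) (adRep (resMatrixOf ρbar β)))) 1).hom
        ((H1π (adRep (resMatrixOf ρbar β))).hom (adCocycle hb htr)) ∈
          unrCond v (Rep.res (primeLocalToGlobal v) (adRep (resMatrixOf ρbar β))))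
    (hsig : ∀ v ∈ SigP, ∃ Y : M2 k, ∀ τ : primeLocalGaloisGroup v,
      b (primeLocalToGlobal v τ) * resMatrixOf ρbar β (primeLocalToGlobal v τ)⁻¹ =
        Y - resMatrixOf ρbar β (primeLocalToGlobal v τ) * Y *
          resMatrixOf ρbar β (primeLocalToGlobal v τ)⁻¹)
    (hlocp : ∀ htr : ∀ σ, Matrix.trace (b σ * resMatrixOf ρbar β σ⁻¹) = 0,
      (groupCohomology.map (primeLocalToGlobal (pPrime p))
        (𝟙 (Rep.res (primeLocalToGlobal (pPrime p)) (adRep (resMatrixOf ρbar β)))) 1).hom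
      ((H1π (adRep (resMatrixOf ρbar β))).hom (adCocycle hb htr)) ∈ 𝓗p) :
    ∃ (htr : ∀ σ, Matrix.trace (b σ * resMatrixOf ρbar β σ⁻¹) = 0)
      (hlc : IsLC₁ (levelBasis S) (adCocycle hb htr : Gal → (adRep (resMatrixOf ρbar β)).V)),
      clsOfCocycle S hS hb htr hlc ∈ D.selmer (adSm S (resMatrixOf ρbar β) hS)
        (fun v : ↥S => selFamily p (resMatrixOf ρbar β) Smin SigP 𝓗p hloc v.1) := by
  haveI : CharP k p := (CharP.charP_iff_prime_eq_zero hp.out).mpr hpk
  have h2 : (2 : k) ≠ 0 := by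
    intro h
    have h3 : ((2 : ℕ) : k) = 0 := by exact_mod_cast h
    have h4 := (CharP.cast_eq_zero_iff k p 2).1 h3
    exact hp2 ((Nat.prime_dvd_prime_iff_eq hp.out Nat.prime_two).1 h4)
  have htr : ∀ σ, Matrix.trace (b σ * resMatrixOf ρbar β σ⁻¹) = 0 := by
    intro σ
    rw [map_inv_eq_inv]
    exact trace_mul_inv_eq_zero_of_detIsCyclotomic hb _ hpk hdet σ
  have hlc : IsLC₁ (levelBasis S)
      (adCocycle hb htr : Gal → (adRep (resMatrixOf ρbar β)).V) :=
    isLC₁_adCocycle S (resMatrixOf_factors ρbar β) hb hsm htr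
      (fun q hq => (isUnramifiedAt_defOfCocycle_iff hb _ (q : ℕ)).1 (hur q hq))
  refine ⟨htr, hlc, ?_⟩
  have hmem := clsOfCocycle_mem_selmer S D hS hb htr hlc
    (fun v => selCond p (resMatrixOf ρbar β) Smin SigP 𝓗p v.1) ?_
  · exact hmem
  rintro ⟨v, hvS⟩
  by_cases hv : v = pPrime p
  · subst hv
    show _ ∈ selCond p (resMatrixOf ρbar β) Smin SigP 𝓗p (pPrime p)
    rw [selCond_p]
    exact hlocp htr
  · show _ ∈ selCond p (resMatrixOf ρbar β) Smin SigP 𝓗p v
    by_cases hvSig : v ∈ SigP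
    · rw [selCond_of_mem_sig p _ Smin SigP 𝓗p hv hvSig, AddSubgroup.mem_bot]
      obtain ⟨Y, hY⟩ := hsig v hvSig
      refine map_H1π_eq_zero_of_coboundary (primeLocalToGlobal v) (adRep (resMatrixOf ρbar β))
        (adCocycle hb htr) (trZeroPart h2 Y) fun τ => ?_
      apply Subtype.ext
      set σ := primeLocalToGlobal v τ
      show b σ * resMatrixOf ρbar β σ⁻¹ +
        (resMatrixOf ρbar β σ * ((trZeroPart h2 Y : sl2 k) : M2 k) * resMatrixOf ρbar β σ⁻¹ -
          ((trZeroPart h2 Y : sl2 k) : M2 k)) = 0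
      rw [conj_trZeroPart_sub, hY τ]
      abel
    · by_cases hvm : v ∈ Smin
      · rw [selCond_of_mem p _ Smin SigP 𝓗p hv hvSig hvm]
        exact hmin v hvm hv hvSig htr
      · rw [selCond_of_not_mem p _ Smin SigP 𝓗p hv hvSig hvm]
        exact AddSubgroup.mem_top _

end Mem

end Fermat.Agent.ML.SelL
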