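/-
PROJECT ML (S59) — [SEL-L] (helper4), file 6: **no level raising at `ℓ ≢ 1 mod p`**: if `ρ̄` is
unramified at `ℓ ≠ p`, `ℓ ≢ 1 mod p`, `det ρ̄(Frob_ℓ) = ℓ` and `tr ρ̄(Frob_ℓ)² ≠ (ℓ + 1)²`, then every
first order deformation of `ρ̄` is unramified at `ℓ`; its `ad⁰`-class is unramified at `ℓ`.

* `eq_zero_of_mul_eq_smul_mul` : `Φ N = ℓ N Φ`, `det Φ = ℓ ≠ 0, 1`, `(tr Φ)² ≠ (ℓ + 1)²` ⟹ `N = 0`;
* `cocycle_eq_zero_on_inertia` ; `res_adCocycle_mem_unrCond_of_noLevelRaising`.
-/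
import Mathlib
import Fermat.Agent.ML.IFACE_helper9_Chart
import Fermat.Agent.RB.GLUE_helper9_Local
import Fermat.Agent.RB.GLUE_helper9_Frob
import Fermat.Agent.TW.LocalCond_helper6
import Fermat.Agent.TW.DefCount_helper6
import Fermat.Agent.TW.S56Bridge_helper9

set_option autoImplicit false
set_option linter.unusedSectionVars false
set_option linter.style.haveILetI false

noncomputable section

namespace Fermat.Agent.ML.SelL

open Fermat.Agent.TW Fermat.Agent.S53 Matrix IsLocalRing groupCohomology CategoryTheory ExtCitation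
  GaloisRepAdic

/-- `Ω = AlgebraicClosure ℚ`. -/
local notation "Ω" => AlgebraicClosure ℚ
/-- `GQ = Gal(ℚ̄/ℚ)`. -/
local notation "GQ" => (AlgebraicClosure ℚ ≃ₐ[ℚ] AlgebraicClosure ℚ)

section LinAlg

variable {k : Type} [Field k]

theorem mul_self_eq_trace_smul_sub (Φ : M2 k) :
    Φ * Φ = Φ.trace • Φ - Φ.det • (1 : M2 k) := by
  ext i j
  fin_cases i <;> fin_cases j <;>
    simp [Matrix.mul_apply, Fin.sum_univ_two, Matrix.trace_fin_two, Matrix.det_fin_two] <;> ring

/-- **the linear algebra of "no level raising".** -/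
theorem eq_zero_of_mul_eq_smul_mul (Φ N : M2 k) (l : k) (hl0 : l ≠ 0) (hl1 : l ≠ 1)
    (hdet : Φ.det = l) (htr : Φ.trace ^ 2 ≠ (l + 1) ^ 2) (h : Φ * N = l • (N * Φ)) : N = 0 := by
  have hCH := mul_self_eq_trace_smul_sub Φ
  rw [hdet] at hCH
  set t := Φ.trace with ht
  have e1 : Φ * Φ * N = (t * l) • (N * Φ) - l • N := by
    rw [hCH, sub_mul, smul_mul_assoc, h, smul_smul, smul_mul_assoc, one_mul]
  have e2 : Φ * Φ * N = (l ^ 2 * t) • (N * Φ) - (l ^ 2 * l) • N := by
    have h1 : Φ * Φ * N = (l * l) • (N * (Φ * Φ)) := by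
      rw [mul_assoc, h, mul_smul_comm, ← mul_assoc, h, smul_mul_assoc, smul_smul, mul_assoc]
    rw [h1, hCH, mul_sub, mul_smul_comm, mul_smul_comm, mul_one, smul_sub, smul_smul, smul_smul]
    congr 2 <;> ring
  have e3 : (l * (1 - l)) • (t • (N * Φ) - (1 + l) • N) = 0 := by
    have h1 : (t * l) • (N * Φ) - l • N = (l ^ 2 * t) • (N * Φ) - (l ^ 2 * l) • N := by
      rw [← e1, e2]
    have h2 : (l * (1 - l)) • (t • (N * Φ) - (1 + l) • N) =
        ((t * l) • (N * Φ) - l • N) - ((l ^ 2 * t) • (N * Φ) - (l ^ 2 * l) • N) := by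
      rw [smul_sub, smul_smul, smul_smul]
      have a1 : l * (1 - l) * t = t * l - l ^ 2 * t := by ring
      have a2 : l * (1 - l) * (1 + l) = l - l ^ 2 * l := by ring
      rw [a1, a2, sub_smul, sub_smul]
      abel
    rw [h2, h1, sub_self]
  have hne : l * (1 - l) ≠ 0 := mul_ne_zero hl0 (sub_ne_zero.2 (Ne.symm hl1))
  have e4 : N * (t • Φ - (1 + l) • (1 : M2 k)) = 0 := by
    have := (smul_eq_zero.1 e3).resolve_left hne
    rw [mul_sub, mul_smul_comm, mul_smul_comm, mul_one]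
    exact this
  have hdetM : (t • Φ - (1 + l) • (1 : M2 k)).det = (1 + l) ^ 2 - t ^ 2 := by
    have hd : Φ 0 0 * Φ 1 1 - Φ 0 1 * Φ 1 0 = l := by rw [← hdet, Matrix.det_fin_two]
    have ht' : t = Φ 0 0 + Φ 1 1 := by rw [ht, Matrix.trace_fin_two]
    rw [Matrix.det_fin_two]
    simp only [Matrix.sub_apply, Matrix.smul_apply, Matrix.one_apply_eq, smul_eq_mul,
      Matrix.one_apply_ne (show (0 : Fin 2) ≠ 1 by decide),
      Matrix.one_apply_ne (show (1 : Fin 2) ≠ 0 by decide), mul_zero, sub_zero, mul_one]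
    rw [ht']
    linear_combination (Φ 0 0 + Φ 1 1) ^ 2 * hd
  have hunit : IsUnit (t • Φ - (1 + l) • (1 : M2 k)).det := by
    rw [hdetM, isUnit_iff_ne_zero, sub_ne_zero, add_comm]
    exact Ne.symm htr
  have := Matrix.mul_nonsing_inv_cancel_right (t • Φ - (1 + l) • (1 : M2 k)) N hunit
  rw [← this, e4, zero_mul]

end LinAlg

section Inertia

variable {k : Type} [Field k]

theorem fstM_add' (P Q : M2 (DualNumber k)) : fstM (P + Q) = fstM P + fstM Q := by
  ext i j
  simp only [fstM_apply, Matrix.add_apply, TrivSqZeroExt.fst_add]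

theorem sndM_add' (P Q : M2 (DualNumber k)) : sndM (P + Q) = sndM P + sndM Q := by
  ext i j
  simp only [sndM_apply, Matrix.add_apply, TrivSqZeroExt.snd_add]

theorem sndM_nsmul' (n : ℕ) (P : M2 (DualNumber k)) : sndM (n • P) = (n : k) • sndM P := by
  induction n with
  | zero =>
    rw [zero_smul, Nat.cast_zero, zero_smul]
    ext i j
    simp only [sndM_apply, Matrix.zero_apply, TrivSqZeroExt.snd_zero]
  | succ n ih => rw [succ_nsmul, sndM_add', ih, Nat.cast_succ, add_smul, one_smul]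

/-- **every first order deformation is unramified at `ℓ`** (matrix form): the cocycle vanishes on
the inertia groups over `ℓ`. -/
theorem cocycle_eq_zero_on_inertia {p : ℕ} (hp : p.Prime) (hpk : (p : k) = 0)
    {rbar : GQ →* M2 k} (hfac : GaloisFactorsThroughFiniteLevel rbar)
    {b : GQ → M2 k} (hb : IsTwCocycle rbar b) (hsm : IsSmoothFun b)
    {l : ℕ} (hl : l.Prime) (hlp : l ≠ p) (hl1 : (l : k) ≠ 1)
    {P : ValuationSubring Ω} (hP : P.LiesOverPrime l)
    (hunr : ∀ σ ∈ P.inertiaSubgroupIn ℚ, rbar σ = 1)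
    {φ : GQ} (hφ : P.IsFrobeniusAt φ l) (hdet : (rbar φ).det = (l : k))
    (htr : (rbar φ).trace ^ 2 ≠ ((l : k) + 1) ^ 2)
    {τ : GQ} (hτ : τ ∈ P.inertiaSubgroupIn ℚ) : b τ = 0 := by
  haveI := isNoetherianRing_dualNumber k
  set r : GQ →* M2 (DualNumber k) := defOfCocycle rbar b hb with hr
  have hrc : MatCont r := matCont_defOfCocycle hfac hb hsm
  have hpR : ((p : ℕ) : DualNumber k) ∈ maximalIdeal (DualNumber k) := by
    rw [mem_maximalIdeal_dualNumber_iff]
    have : ((p : ℕ) : DualNumber k).fst = ((p : ℕ) : k) := by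
      rw [← TrivSqZeroExt.inl_natCast, TrivSqZeroExt.fst_inl]
    rw [this, hpk]
  have hfst : ∀ σ, fstM (r σ) = rbar σ := fun σ => fstM_defOfCocycle rbar b hb σ
  have hsnd : ∀ σ, sndM (r σ) = b σ := fun σ => by
    rw [hr, defOfCocycle_apply, sndM_ofParts]
  have hres : ∀ σ ∈ P.inertiaSubgroupIn ℚ,
      Fermat.Agent.RB.GLUE.EMem (maximalIdeal (DualNumber k)) (r σ - 1) := by
    intro σ hσ i j
    rw [mem_maximalIdeal_dualNumber_iff, Matrix.sub_apply, TrivSqZeroExt.fst_sub]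
    have h1 : (r σ i j).fst = rbar σ i j := by rw [← fstM_apply, hfst]
    have h2 : ((1 : M2 (DualNumber k)) i j).fst = (1 : M2 k) i j := by
      rw [← fstM_apply, fstM_one]
    rw [h1, h2, hunr σ hσ, sub_self]
  have hconj := Fermat.Agent.RB.GLUE.conj_frobenius r hrc hp hl hlp hpR hP hres hφ hτ
  -- `r τ = 1 + E`
  set N := b τ with hN
  set E : M2 (DualNumber k) := ofParts 0 N with hE
  have hrτ : r τ = 1 + E := by
    apply ext_parts
    · rw [hfst, hunr τ hτ, fstM_add', fstM_one, hE, fstM_ofParts, add_zero]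
    · rw [hsnd, sndM_add', sndM_one, hE, sndM_ofParts, zero_add]
  have hEE : E * E = 0 := by
    rw [hE, ofParts_mul, mul_zero, zero_mul, mul_zero, add_zero]
    apply ext_parts
    · rw [fstM_ofParts]
      ext i j
      simp only [fstM_apply, Matrix.zero_apply, TrivSqZeroExt.fst_zero]
    · rw [sndM_ofParts]
      ext i j
      simp only [sndM_apply, Matrix.zero_apply, TrivSqZeroExt.snd_zero]
  have hrφ : r φ * r φ⁻¹ = 1 := by rw [← map_mul, mul_inv_cancel, map_one]
  -- compare the `ε`-parts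
  have hL : sndM (r (φ * τ * φ⁻¹)) = rbar φ * N * rbar φ⁻¹ := by
    rw [map_mul, map_mul, hrτ, mul_add, mul_one, add_mul, hrφ, sndM_add', sndM_one, zero_add,
      sndM_mul, sndM_mul, fstM_mul, hE, fstM_ofParts, sndM_ofParts, mul_zero, zero_mul,
      mul_zero, zero_add, hfst, hfst, add_zero]
  have hR : sndM (r τ ^ l) = (l : k) • N := by
    rw [hrτ, one_add_pow_of_mul_self_eq_zero E hEE, sndM_add', sndM_one, zero_add, sndM_nsmul',
      hE, sndM_ofParts]
  have hrel : rbar φ * N * rbar φ⁻¹ = (l : k) • N := by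
    rw [← hL, hconj, hR]
  have hinv : rbar φ⁻¹ * rbar φ = 1 := by rw [← map_mul, inv_mul_cancel, map_one]
  have hrel' : rbar φ * N = (l : k) • (N * rbar φ) := by
    have h3 : rbar φ * N * rbar φ⁻¹ * rbar φ = (l : k) • N * rbar φ := by rw [hrel]
    rw [mul_assoc, hinv, mul_one, smul_mul_assoc] at h3
    exact h3
  have hl0 : (l : k) ≠ 0 := by
    intro h0
    haveI : CharP k p := (CharP.charP_iff_prime_eq_zero hp).mpr hpk
    have := (CharP.cast_eq_zero_iff k p l).1 h0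
    exact hlp ((Nat.prime_dvd_prime_iff_eq hp hl).1 this).symm
  exact eq_zero_of_mul_eq_smul_mul (rbar φ) N (l : k) hl0 hl1 hdet htr hrel'

end Inertia

section Class

variable {k : Type} [Field k]

/-- **no level raising at `q ≢ 1 mod p`**: the class of every first order deformation is
unramified at `q`. -/
theorem res_adCocycle_mem_unrCond_of_noLevelRaising {p : ℕ} (hp : p.Prime) (hpk : (p : k) = 0)
    (ρbar : ResidualGaloisRep k) (β : Module.Basis (Fin 2) k ρbar.V)
    (hdet : (GaloisRepAdic.ofResidualGaloisRep ρbar).DetIsCyclotomic p) {b : GQ → M2 k}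
    (hb : IsTwCocycle (resMatrixOf ρbar β) b) (hsm : IsSmoothFun b) (q : Nat.Primes)
    (hqp : (q : ℕ) ≠ p) (hq1 : ((q : ℕ) : k) ≠ 1) (hnl : NoLevelRaisingAt ρbar (q : ℕ))
    (htr : ∀ σ, Matrix.trace (b σ * resMatrixOf ρbar β σ⁻¹) = 0) :
    (groupCohomology.map (primeLocalToGlobal q)
        (𝟙 (Rep.res (primeLocalToGlobal q) (adRep (resMatrixOf ρbar β)))) 1).hom
      ((H1π (adRep (resMatrixOf ρbar β))).hom (adCocycle hb htr)) ∈
      unrCond q (Rep.res (primeLocalToGlobal q) (adRep (resMatrixOf ρbar β))) := by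
  have hP := primeLocalPlace_liesOverPrime q
  obtain ⟨φ, hφ⟩ := Fermat.Agent.CFT.LocForm.exists_isFrobeniusAt (primeLocalPlace q) q.2 hP
  have hunr := (isUnramifiedAt_iff_resMatrixOf ρbar β (q : ℕ)).1 hnl.1 (primeLocalPlace q) hP
  have hdetφ : (resMatrixOf ρbar β φ).det = ((q : ℕ) : k) := by
    refine det_resMatrixOf_of_detIsCyclotomic hpk ρbar β hdet φ (q : ℕ) fun μ hμ => ?_
    exact Fermat.Agent.RB.GLUE.frobenius_apply_root' q.2 hP hφ
      ((Nat.coprime_primes hp q.2).2 (Ne.symm hqp)) hμ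
  have htrφ : (resMatrixOf ρbar β φ).trace ^ 2 ≠ (((q : ℕ) : k) + 1) ^ 2 := by
    rw [resMatrixOf_eq_toMatrix, ← LinearMap.trace_eq_matrix_trace k β]
    exact hnl.2 (primeLocalPlace q) hP φ hφ
  refine map_H1π_mem_vanishCond (primeLocalToGlobal q) (adRep (resMatrixOf ρbar β))
    (locInertia q) (adCocycle hb htr) 0 fun τ hτ => ?_
  apply Subtype.ext
  have h0 : b (primeLocalToGlobal q τ) = 0 :=
    cocycle_eq_zero_on_inertia hp hpk (resMatrixOf_factors ρbar β) hb hsm q.2 hqp hq1 hP hunr hφ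
      hdetφ htrφ ((mem_locInertia q τ).1 hτ)
  set σ := primeLocalToGlobal q τ
  show b σ * resMatrixOf ρbar β σ⁻¹ +
    (resMatrixOf ρbar β σ * (((0 : sl2 k) : sl2 k) : M2 k) * resMatrixOf ρbar β σ⁻¹ -
      (((0 : sl2 k) : sl2 k) : M2 k)) = 0
  rw [h0, zero_mul, zero_add]
  simp

end Class

end Fermat.Agent.ML.SelL
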