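/-
PROJECT ML (S59) — [SEL-L] (helper4), file 7: **the number of `𝒪`-algebra maps `T → k[ε]` killing
a locally trivialising ideal `Kid` is at most `#Sel + 1`**, `Sel` the Selmer group of the family
`RB.SEL.selFamily` (generalises `RB/SEL_helper4_Inj`).  Local hypotheses on the deformation `ρ`:
* cyclotomic determinant, unramified outside `SP`;
* at `v ∈ Smin ∖ (SigP ∪ {p})` : either `ρ̄` is ramified at `v` and `ρ` is unipotent on inertia, or
  there is no level raising at `v` and `v ≢ 1 mod p`;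
* at `v ∈ SigP` : `Kid` trivialises `ρ` locally at `v`;
* at `p` : either `Kid` trivialises `ρ` locally at `p`, or the classes of the first order
  deformations which are base changes of `ρ` along surjections lie in `𝓗p` (hypothesis `hTp`).
-/
import Mathlib
import Fermat.Agent.RB.SEL_helper4_Inj
import Fermat.Agent.ML.SELL_helper4_Mem
import Fermat.Agent.ML.SELL_helper4_LocTriv
import Fermat.Agent.ML.SELL_helper4_NoRaise

set_option autoImplicit false
set_option linter.unusedSectionVars false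
set_option linter.style.haveILetI false

noncomputable section

namespace Fermat.Agent.ML.SelL

open Fermat.Agent.TW Fermat.Agent.S53 Fermat.Agent.CFT.Sm Fermat.Agent.CFT.Bridge
  Fermat.Agent.CFT.Arith groupCohomology CategoryTheory CategoryTheory.Abelian Matrix ExtCitation
  IsLocalRing GaloisRepAdic GaloisRep Fermat.Agent.RB.SEL

/-- `Ω = AlgebraicClosure ℚ`. -/
local notation "Ω" => AlgebraicClosure ℚ

attribute [local instance] PS.dualNumberAlgebra

variable {𝒪 : Type} [CommRing 𝒪] [IsDomain 𝒪] [IsDiscreteValuationRing 𝒪]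
  [IsAdicComplete (maximalIdeal 𝒪) 𝒪] [Finite (ResidueField 𝒪)]

/-- **the count of tangent vectors killing a locally trivialising ideal.** -/
theorem card_algHom_le_card_selmer_chain {p : ℕ} [hp : Fact p.Prime] (hp2 : p ≠ 2)
    (hp𝒪 : (p : 𝒪) ∈ maximalIdeal 𝒪) {ρbar : ResidualGaloisRep (ResidueField 𝒪)}
    (hdetbar : (GaloisRepAdic.ofResidualGaloisRep ρbar).DetIsCyclotomic p)
    (β₀ : Module.Basis (Fin 2) (ResidueField 𝒪) ρbar.V)
    (Smin SigP SP : Finset Nat.Primes) (hpSP : pPrime p ∈ SP)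
    (T : Type) [CommRing T] [IsLocalRing T] [Algebra 𝒪 T] [IsLocalHom (algebraMap 𝒪 T)]
    (hres : Function.Surjective (residue T ∘ algebraMap 𝒪 T))
    (ρ : GaloisRepAdic T)
    (hρ : ρ.residual.IsEquiv (ρbar.baseChangeAlong (ResidueField.map (algebraMap 𝒪 T))))
    (hdetρ : ρ.DetIsCyclotomic p)
    (hurρ : ∀ v : Nat.Primes, v ∉ SP → ρ.IsUnramifiedAt (v : ℕ))
    (Kid : Ideal T)
    (hSmin : ∀ v ∈ Smin, v ≠ pPrime p → v ∉ SigP →
      (¬ ρbar.IsUnramifiedAt (v : ℕ) ∧ ρ.IsUnipotentOnInertiaAt (v : ℕ)) ∨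
      (NoLevelRaisingAt ρbar (v : ℕ) ∧ ((v : ℕ) : ResidueField 𝒪) ≠ 1))
    (hSigP : ∀ v ∈ SigP, IsLocTrivIdeal 𝒪 ρ (v : ℕ) Kid)
    (hadj : Algebra.adjoin 𝒪 (Set.range ρ.trace) = ⊤)
    (hSP : IsSmooth (levelBasis SP) (adRep (resMatrixOf ρbar β₀)))
    (hloc : ∀ q : Nat.Primes, IsSmooth (locBasis q)
      (Rep.res (primeLocalToGlobal q) (adRep (resMatrixOf ρbar β₀))))
    (𝓗p : AddSubgroup (H1 (Rep.res (primeLocalToGlobal (pPrime p))
      (adRep (resMatrixOf ρbar β₀)))))
    (hTp : IsLocTrivIdeal 𝒪 ρ p Kid ∨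
      ∀ (b : Gal → M2 (ResidueField 𝒪)) (hb : IsTwCocycle (resMatrixOf ρbar β₀) b)
      (hs : IsSmoothFun b),
      (∃ (f : T →+* DualNumber (ResidueField 𝒪)) (hf : IsLocalHom f), Function.Surjective f ∧
        (ρ.baseChangeAlong f hf).IsEquiv (ofMatrix (defOfCocycle (resMatrixOf ρbar β₀) b hb)
          (matCont_defOfCocycle (resMatrixOf_factors ρbar β₀) hb hs))) →
      ∀ htr : ∀ σ, Matrix.trace (b σ * resMatrixOf ρbar β₀ σ⁻¹) = 0,
        (groupCohomology.map (primeLocalToGlobal (pPrime p))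
          (𝟙 (Rep.res (primeLocalToGlobal (pPrime p)) (adRep (resMatrixOf ρbar β₀)))) 1).hom
        ((H1π (adRep (resMatrixOf ρbar β₀))).hom (adCocycle hb htr)) ∈ 𝓗p)
    (s : Finset (T →ₐ[𝒪] DualNumber (ResidueField 𝒪)))
    (hs : ∀ f ∈ s, ∀ x ∈ Kid, f x = 0) :
    s.card ≤ Nat.card ((twDatum hp2 SP hpSP).selmer (adSm SP (resMatrixOf ρbar β₀) hSP)
      (fun v : ↥SP => selFamily p (resMatrixOf ρbar β₀) Smin SigP 𝓗p hloc v.1)) + 1 := by
  classical
  have hpk : ((p : ℕ) : ResidueField 𝒪) = 0 := by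
    have h1 : residue 𝒪 (p : 𝒪) = 0 := (residue_eq_zero_iff _).2 hp𝒪
    rwa [map_natCast] at h1
  haveI : CharP (ResidueField 𝒪) p := (CharP.charP_iff_prime_eq_zero hp.out).mpr hpk
  have h2 : (2 : ResidueField 𝒪) ≠ 0 := by
    intro h
    have h3 : ((2 : ℕ) : ResidueField 𝒪) = 0 := by exact_mod_cast h
    have h4 := (CharP.cast_eq_zero_iff (ResidueField 𝒪) p 2).1 h3
    exact hp2 ((Nat.prime_dvd_prime_iff_eq hp.out Nat.prime_two).1 h4)
  haveI : Finite (adSm SP (resMatrixOf ρbar β₀) hSP).obj.V :=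
    inferInstanceAs (Finite (sl2 (ResidueField 𝒪)))
  haveI : Finite (Ext (smUnit ℤ (levelBasis SP)) (adSm SP (resMatrixOf ρbar β₀) hSP) 1) :=
    global_finite_ext_one hp2 SP hpSP (adSm SP (resMatrixOf ρbar β₀) hSP)
      (fun x => nsmul_adRep p (resMatrixOf ρbar β₀) x)
  set Sel := (twDatum hp2 SP hpSP).selmer (adSm SP (resMatrixOf ρbar β₀) hSP)
      (fun v : ↥SP => selFamily p (resMatrixOf ρbar β₀) Smin SigP 𝓗p hloc v.1) with hSel
  have hfac := resMatrixOf_factors ρbar β₀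
  haveI := isLocalHom_algebraMap_dualNumber (𝒪 := 𝒪)
  have hresD := residue_dualNumber_surjective (𝒪 := 𝒪)
  have hlocf : ∀ f : T →ₐ[𝒪] DualNumber (ResidueField 𝒪),
      IsLocalHom (f : T →+* DualNumber (ResidueField 𝒪)) :=
    fun f => L6.isLocalHom_of_residue_surjective hresD f
  obtain ⟨b, hb⟩ := exists_basis_isStrictLift ρbar β₀ ρ hρ
  -- the matrix form of the deformation attached to `f`
  obtain ⟨rf, hrfdef⟩ : ∃ rf : (T →ₐ[𝒪] DualNumber (ResidueField 𝒪)) →
      (Gal →* M2 (DualNumber (ResidueField 𝒪))),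
      ∀ f, rf f = mapMat (f : T →+* DualNumber (ResidueField 𝒪)) (matrixOf ρ b) := ⟨_, fun _ => rfl⟩
  have hrfapp : ∀ f σ, rf f σ = (matrixOf ρ b σ).map (f : T →+* DualNumber (ResidueField 𝒪)) := by
    intro f σ; rw [hrfdef]; rfl
  have hrf : ∀ f, MatCont (rf f) := fun f => by
    rw [hrfdef]; exact (matCont_matrixOf ρ b).mapMat _ (hlocf f)
  have hstrict : ∀ f, IsStrictLift 𝒪 (resMatrixOf ρbar β₀) (rf f) := fun f => by
    rw [hrfdef]; exact hb.mapMat f (hlocf f)
  have hequiv : ∀ f : T →ₐ[𝒪] DualNumber (ResidueField 𝒪),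
      (ρ.baseChangeAlong (f : T →+* DualNumber (ResidueField 𝒪)) (hlocf f)).IsEquiv
      (ofMatrix (rf f) (hrf f)) := fun f => by
    have h1 := baseChangeAlong_isEquiv_ofMatrix (f : T →+* DualNumber (ResidueField 𝒪)) (hlocf f) ρ b
    exact isEquiv_trans h1 (by
      rw [isEquiv_ofMatrix_iff]
      exact ⟨1, fun σ => by rw [hrfdef, Units.val_one, one_mul, mul_one]⟩)
  have hfst : ∀ f σ, fstM (rf f σ) = (resMatrixOf ρbar β₀) σ := fun f =>
    (isStrictLift_dualNumber_iff _ _).1 (hstrict f)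
  have hcoc : ∀ f, IsTwCocycle (resMatrixOf ρbar β₀) (cocycleOf (rf f)) :=
    fun f => isTwCocycle_cocycleOf (hfst f)
  have hsm : ∀ f, IsSmoothFun (cocycleOf (rf f)) := fun f => isSmoothFun_cocycleOf (hrf f)
  have hdef : ∀ f, defOfCocycle (resMatrixOf ρbar β₀) (cocycleOf (rf f)) (hcoc f) = rf f :=
    fun f => defOfCocycle_cocycleOf (hfst f)
  have hmat : ∀ f, (ofMatrix (rf f) (hrf f)).IsEquiv
      (ofMatrix (defOfCocycle (resMatrixOf ρbar β₀) (cocycleOf (rf f)) (hcoc f))
        (matCont_defOfCocycle hfac (hcoc f) (hsm f))) := by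
    intro f
    rw [isEquiv_ofMatrix_iff]
    refine ⟨1, fun σ => ?_⟩
    rw [hdef f, Units.val_one, one_mul, mul_one]
  have hEq : ∀ f : T →ₐ[𝒪] DualNumber (ResidueField 𝒪),
      (ρ.baseChangeAlong (f : T →+* DualNumber (ResidueField 𝒪)) (hlocf f)).IsEquiv
      (ofMatrix (defOfCocycle (resMatrixOf ρbar β₀) (cocycleOf (rf f)) (hcoc f))
        (matCont_defOfCocycle hfac (hcoc f) (hsm f))) :=
    fun f => isEquiv_trans (hequiv f) (hmat f)
  -- local coboundaries from `IsLocTrivIdeal`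
  have hcob : ∀ (f : T →ₐ[𝒪] DualNumber (ResidueField 𝒪)), (∀ x ∈ Kid, f x = 0) →
      ∀ v : Nat.Primes, IsLocTrivIdeal 𝒪 ρ (v : ℕ) Kid →
      ∃ Y : M2 (ResidueField 𝒪), ∀ τ : primeLocalGaloisGroup v,
        cocycleOf (rf f) (primeLocalToGlobal v τ) *
            resMatrixOf ρbar β₀ (primeLocalToGlobal v τ)⁻¹ =
          Y - resMatrixOf ρbar β₀ (primeLocalToGlobal v τ) * Y *
            resMatrixOf ρbar β₀ (primeLocalToGlobal v τ)⁻¹ := by
    intro f hkill v hv
    obtain ⟨Y, hY⟩ := exists_coboundary_of_isLocTrivIdeal ρ b f (hlocf f) (v : ℕ) Kid hv hkill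
      (primeLocalPlace v) (primeLocalPlace_liesOverPrime v)
    refine ⟨Y, fun τ => ?_⟩
    have h1 := hY _ (primeLocalToGlobal_mem_decompositionSubgroup v τ)
    rw [← hrfapp, hfst] at h1
    set σ := primeLocalToGlobal v τ
    have h3 : resMatrixOf ρbar β₀ σ * resMatrixOf ρbar β₀ σ⁻¹ = 1 := map_mul_map_inv _ σ
    show sndM (rf f σ) * resMatrixOf ρbar β₀ σ⁻¹ = _
    rw [h1, sub_mul, mul_assoc Y, h3, mul_one]
  -- membership in the Selmer group
  have hmem : ∀ f : T →ₐ[𝒪] DualNumber (ResidueField 𝒪), Function.Surjective f →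
      (∀ x ∈ Kid, f x = 0) →
      ∃ (htr : ∀ σ, Matrix.trace (cocycleOf (rf f) σ * (resMatrixOf ρbar β₀) σ⁻¹) = 0)
        (hlc : IsLC₁ (levelBasis SP)
          (adCocycle (hcoc f) htr : Gal → (adRep (resMatrixOf ρbar β₀)).V)),
        clsOfCocycle SP hSP (hcoc f) htr hlc ∈ Sel := by
    intro f hf hkill
    obtain ⟨e⟩ := hEq f
    have hdet := detIsCyclotomic_of_equiv e
      (detIsCyclotomic_baseChangeAlong (f : T →+* DualNumber (ResidueField 𝒪)) (hlocf f) ρ hdetρ)
    refine exists_clsOfCocycle_mem_selmer_selFamily_gen hp2 hpk ρbar β₀ Smin SigP SP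
      (twDatum hp2 SP hpSP) hSP hloc 𝓗p (hcoc f) (hsm f) hdet
      (fun v hv => isUnramifiedAt_of_equiv e
        (isUnramifiedAt_baseChangeAlong (f : T →+* DualNumber (ResidueField 𝒪)) (hlocf f) ρ
          (hurρ v hv))) ?_ ?_ ?_
    · intro v hvm hvp hvSig htr
      have hvp' : (v : ℕ) ≠ p := fun h => hvp (Subtype.ext h)
      rcases hSmin v hvm hvp hvSig with ⟨hram, hunip⟩ | ⟨hnl, hv1⟩
      · exact res_adCocycle_mem_unrCond hpk h2 ρbar β₀ (hcoc f) (hsm f) v
          ((Nat.coprime_primes hp.out v.2).2 (Ne.symm hvp')) hram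
          (isUnipotentOnInertiaAt_of_equiv e
            (isUnipotentOnInertiaAt_baseChangeAlong (f : T →+* DualNumber (ResidueField 𝒪))
              (hlocf f) ρ hunip)) htr
      · exact res_adCocycle_mem_unrCond_of_noLevelRaising hp.out hpk ρbar β₀ hdetbar (hcoc f)
          (hsm f) v hvp' hv1 hnl htr
    · intro v hv
      exact hcob f hkill v (hSigP v hv)
    · intro htr
      rcases hTp with hTp | hTp
      · obtain ⟨Y, hY⟩ := hcob f hkill (pPrime p) hTp
        have h0 : (groupCohomology.map (primeLocalToGlobal (pPrime p))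
            (𝟙 (Rep.res (primeLocalToGlobal (pPrime p)) (adRep (resMatrixOf ρbar β₀)))) 1).hom
            ((H1π (adRep (resMatrixOf ρbar β₀))).hom (adCocycle (hcoc f) htr)) = 0 := by
          refine map_H1π_eq_zero_of_coboundary (primeLocalToGlobal (pPrime p))
            (adRep (resMatrixOf ρbar β₀)) (adCocycle (hcoc f) htr) (trZeroPart h2 Y) fun τ => ?_
          apply Subtype.ext
          set σ := primeLocalToGlobal (pPrime p) τ
          show cocycleOf (rf f) σ * resMatrixOf ρbar β₀ σ⁻¹ +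
            (resMatrixOf ρbar β₀ σ * ((trZeroPart h2 Y : sl2 (ResidueField 𝒪)) :
              M2 (ResidueField 𝒪)) * resMatrixOf ρbar β₀ σ⁻¹ -
              ((trZeroPart h2 Y : sl2 (ResidueField 𝒪)) : M2 (ResidueField 𝒪))) = 0
          rw [conj_trZeroPart_sub, hY τ]
          abel
        rw [h0]
        exact zero_mem _
      · exact hTp _ (hcoc f) (hsm f)
          ⟨(f : T →+* DualNumber (ResidueField 𝒪)), hlocf f, hf, ⟨e⟩⟩ htr
  -- the class map
  haveI : Finite Sel := inferInstance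
  haveI := Fintype.ofFinite Sel
  let Ψ : (T →ₐ[𝒪] DualNumber (ResidueField 𝒪)) → Option Sel := fun f =>
    if h : Function.Surjective f ∧ (∀ x ∈ Kid, f x = 0) then
      some ⟨clsOfCocycle SP hSP (hcoc f) (hmem f h.1 h.2).choose (hmem f h.1 h.2).choose_spec.choose,
        (hmem f h.1 h.2).choose_spec.choose_spec⟩
    else none
  have hΨ : Set.InjOn Ψ (s : Set (T →ₐ[𝒪] DualNumber (ResidueField 𝒪))) := by
    intro f hfs f' hfs' h
    have hk := hs f hfs
    have hk' := hs f' hfs'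
    by_cases hf : Function.Surjective f <;> by_cases hf' : Function.Surjective f'
    · simp only [Ψ, dif_pos (And.intro hf hk), dif_pos (And.intro hf' hk'), Option.some.injEq] at h
      have h1 := congrArg Subtype.val h
      obtain ⟨X, hX⟩ := exists_twCoboundary_of_clsOfCocycle_eq SP hSP _ _ _ _ _ _ h1
      -- equal traces
      apply AlgHom.ext_of_adjoin_eq_top hadj
      rintro _ ⟨σ, rfl⟩
      have h2 := congrArg Matrix.trace (hX σ)
      rw [Matrix.trace_sub, Matrix.trace_sub, Matrix.trace_mul_comm X, sub_self, sub_eq_zero,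
        cocycleOf, cocycleOf, trace_sndM, trace_sndM, hrfapp, hrfapp, trace_map_matrixOf,
        trace_map_matrixOf] at h2
      apply TrivSqZeroExt.ext
      · rw [algHom_fst hres f, algHom_fst hres f']
      · exact h2.symm
    · simp only [Ψ, dif_pos (And.intro hf hk), dif_neg (not_and_of_not_left _ hf')] at h
      exact absurd h (by simp)
    · simp only [Ψ, dif_neg (not_and_of_not_left _ hf), dif_pos (And.intro hf' hk')] at h
      exact absurd h (by simp)
    · exact algHom_dualNumber_eq_of_not_surjective hres f f' hf hf'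
  calc s.card ≤ (Finset.univ : Finset (Option Sel)).card :=
        Finset.card_le_card_of_injOn Ψ (fun _ _ => Finset.mem_univ _) hΨ
    _ = Fintype.card Sel + 1 := by rw [Finset.card_univ, Fintype.card_option]
    _ = Nat.card Sel + 1 := by rw [Nat.card_eq_fintype_card]

end Fermat.Agent.ML.SelL
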