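/-
PROJECT ML (S59) — [SEL-L] (helper4), file 1: the Greenberg–Wiles count for the family
`RB.SEL.selFamily` (`⊥` at the primes of `SigP`, `𝓗p` at `p`) with ARBITRARY deficits
`|k|^{dfc v}` at `p` and at the primes of `SigP`:
if `#𝓗p · |k|^{dfc p} ≤ #H⁰(G_p, ad⁰) · |k|` and `|k|^{dfc q} ≤ #H⁰(G_q, ad⁰)` for `q ∈ SigP`, then
`#Sel · |k|^{∑ dfc} ≤ |k|^{#Q}` once the dual Selmer group for `Smin ∪ Q` vanishes.
(Generalises `RB/SEL_helper4_Count`, where `dfc = 3` on `SigP` and `dfc p = 0`.)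
-/
import Mathlib
import Fermat.Agent.RB.SEL_helper4_Count

set_option autoImplicit false
set_option linter.unusedSectionVars false

open CategoryTheory CategoryTheory.Abelian groupCohomology ExtCitation Polynomial

namespace Fermat.Agent.ML.SelL

open Fermat.Agent.TW Fermat.Agent.CFT.Sm Fermat.Agent.CFT.Bridge Fermat.Agent.CFT.Arith
  Fermat.Agent.CFT.Local Fermat.Agent.CFT Fermat.Agent.RB.SEL

/-- `Ω = AlgebraicClosure ℚ`. -/
local notation "Ω" => AlgebraicClosure ℚ
/-- `GQ = Gal(Ω/ℚ)`. -/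
local notation "GQ" => (AlgebraicClosure ℚ ≃ₐ[ℚ] AlgebraicClosure ℚ)

section CountSel

variable {k : Type} [Field k] [Finite k] {p : ℕ} [Fact p.Prime] (hp2 : p ≠ 2) [CharP k p]
  (ρbar : ResidualGaloisRep k) (β : Module.Basis (Fin 2) k ρbar.V)

variable (Smin SigP Q : Finset Nat.Primes) (hdisj : Disjoint Q Smin) (hSig : SigP ⊆ Smin)
  (hpSig : pPrime p ∉ SigP) (n : ℕ)
  (hQ : ∀ q ∈ Q, IsTWPrime p ρbar n q)
  (hloc : ∀ q : Nat.Primes, IsSmooth (locBasis q)
    (Rep.res (primeLocalToGlobal q) (adRep (Fermat.Agent.S53.resMatrixOf ρbar β))))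
  (dfc : Nat.Primes → ℕ)
  (hH0 : ∀ q ∈ SigP, Nat.card k ^ dfc q ≤ Nat.card (Ext (smUnit ℤ (locBasis q))
      (YLoc (adRep (Fermat.Agent.S53.resMatrixOf ρbar β)) q (hloc q)) 0))
  (𝓗p : AddSubgroup (H1 (Rep.res (primeLocalToGlobal (pPrime p))
    (adRep (Fermat.Agent.S53.resMatrixOf ρbar β)))))
  (h𝓗p : Nat.card (locCond (YLoc (adRep (Fermat.Agent.S53.resMatrixOf ρbar β)) (pPrime p)
      (hloc (pPrime p))) 𝓗p) * Nat.card k ^ dfc (pPrime p) ≤
    Nat.card (Ext (smUnit ℤ (locBasis (pPrime p)))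
      (YLoc (adRep (Fermat.Agent.S53.resMatrixOf ρbar β)) (pPrime p) (hloc (pPrime p))) 0) *
      Nat.card k)

include hdisj hSig hpSig hQ hH0 h𝓗p in
open Classical in
/-- the local bounds `#L_q · e_q ≤ #H⁰(G_q, ad⁰) · c_q` for the family `selFamily` -/
lemma card_selFamily_le_dfc (q : Nat.Primes) (hq : q ∈ Smin ∪ Q) :
    Nat.card (selFamily p (Fermat.Agent.S53.resMatrixOf ρbar β) Smin SigP 𝓗p hloc q) *
        (if q ∈ insert (pPrime p) SigP then Nat.card k ^ dfc q else 1) ≤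
      Nat.card (Ext (smUnit ℤ (locBasis q))
        (YLoc (adRep (Fermat.Agent.S53.resMatrixOf ρbar β)) q (hloc q)) 0) *
        (if q = pPrime p ∨ q ∈ Q then Nat.card k else 1) := by
  by_cases hqp : q = pPrime p
  · subst hqp
    rw [selFamily_p, if_pos (Or.inl rfl), if_pos (Finset.mem_insert_self _ _)]
    exact h𝓗p
  · by_cases hqSig : q ∈ SigP
    · have hqQ : q ∉ Q := fun h => (Finset.disjoint_left.1 hdisj h) (hSig hqSig)
      rw [selFamily_of_mem_sig p _ Smin SigP 𝓗p hloc hqp hqSig,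
        if_pos (Finset.mem_insert_of_mem hqSig), if_neg (by tauto), mul_one,
        AddSubgroup.card_bot, one_mul]
      exact hH0 q hqSig
    · have hqA : q ∉ insert (pPrime p) SigP := by
        rw [Finset.mem_insert]
        tauto
      rw [if_neg hqA, mul_one]
      by_cases hqS : q ∈ Smin
      · have hqQ : q ∉ Q := fun h => (Finset.disjoint_left.1 hdisj h) hqS
        rw [selFamily_of_mem p _ Smin SigP 𝓗p hloc hqp hqSig hqS, if_neg (by tauto), mul_one]
        have : Finite (YLoc (adRep (Fermat.Agent.S53.resMatrixOf ρbar β)) q (hloc q)).obj.V :=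
          inferInstanceAs (Finite (adRep (Fermat.Agent.S53.resMatrixOf ρbar β)).V)
        exact card_locCond_unrCond_le q
          (YLoc (adRep (Fermat.Agent.S53.resMatrixOf ρbar β)) q (hloc q))
      · have hqQ : q ∈ Q := by
          rcases Finset.mem_union.1 hq with h | h
          · exact absurd h hqS
          · exact h
        obtain ⟨-, hdvd, hunr, hfrob⟩ := hQ q hqQ
        rw [selFamily_of_not_mem p _ Smin SigP 𝓗p hloc hqp hqSig hqS, if_pos (Or.inr hqQ),
          Nat.card_congr AddSubgroup.topEquiv.toEquiv]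
        exact loc_card_ext_one_le_ad_residual q p
          (dvd_trans (dvd_pow_self p (Nat.succ_ne_zero n)) hdvd) ρbar β hunr hfrob (hloc q)

include hdisj hSig hpSig hQ hH0 h𝓗p in
open Classical in
/-- **The bound of [SEL-L]**: `#Sel_{Smin ∪ Q} · |k|^{∑ dfc} ≤ |k|^{#Q}` when the dual Selmer group
for `Smin ∪ Q` vanishes. -/
theorem sel_card_selmer_le_dfc (habs : ρbar.IsAbsolutelyIrreducible)
    (hpS : pPrime p ∈ Smin ∪ Q)
    (hS : IsSmooth (levelBasis (Smin ∪ Q)) (adRep (Fermat.Agent.S53.resMatrixOf ρbar β)))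
    [Finite (Ext (XS (adRep (Fermat.Agent.S53.resMatrixOf ρbar β)) (Smin ∪ Q) hS)
      (ESSm (Smin ∪ Q)) 1)]
    [Finite (Ext (XS (adRep (Fermat.Agent.S53.resMatrixOf ρbar β)) (Smin ∪ Q) hS)
      (ESSm (Smin ∪ Q)) 2)]
    (hec : Nat.card (Ext (XS (adRep (Fermat.Agent.S53.resMatrixOf ρbar β)) (Smin ∪ Q) hS)
        (ESSm (Smin ∪ Q)) 1) =
      Nat.card (Ext (XS (adRep (Fermat.Agent.S53.resMatrixOf ρbar β)) (Smin ∪ Q) hS)
        (ESSm (Smin ∪ Q)) 0) *
      Nat.card (Ext (XS (adRep (Fermat.Agent.S53.resMatrixOf ρbar β)) (Smin ∪ Q) hS)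
        (ESSm (Smin ∪ Q)) 2) *
      Nat.card {z : (XS (adRep (Fermat.Agent.S53.resMatrixOf ρbar β)) (Smin ∪ Q) hS).obj.V //
        (XS (adRep (Fermat.Agent.S53.resMatrixOf ρbar β)) (Smin ∪ Q) hS).obj.ρ
          complexConjugation z = z})
    (hbot : twTS hp2 (adRep (Fermat.Agent.S53.resMatrixOf ρbar β))
      (nsmul_adRep p (Fermat.Agent.S53.resMatrixOf ρbar β)) hloc
      (selFamily p (Fermat.Agent.S53.resMatrixOf ρbar β) Smin SigP 𝓗p hloc) (Smin ∪ Q) hpS hS
        = ⊥) :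
    Nat.card ((twDatum hp2 (Smin ∪ Q) hpS).selmer
      (XS (adRep (Fermat.Agent.S53.resMatrixOf ρbar β)) (Smin ∪ Q) hS)
      (fun v => selFamily p (Fermat.Agent.S53.resMatrixOf ρbar β) Smin SigP 𝓗p hloc v.1)) *
        Nat.card k ^ (∑ q ∈ insert (pPrime p) SigP, dfc q) ≤
      Nat.card k ^ Q.card := by
  have hfinX : Finite (XS (adRep (Fermat.Agent.S53.resMatrixOf ρbar β)) (Smin ∪ Q) hS).obj.V :=
    inferInstanceAs (Finite (adRep (Fermat.Agent.S53.resMatrixOf ρbar β)).V)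
  have hk0 : 0 < Nat.card k := Nat.card_pos
  have hmain := twDatum_card_selmer_le_deficit hp2 (Smin ∪ Q) hpS
    (XS (adRep (Fermat.Agent.S53.resMatrixOf ρbar β)) (Smin ∪ Q) hS)
    (nsmul_adRep p (Fermat.Agent.S53.resMatrixOf ρbar β))
    (fun v => selFamily p (Fermat.Agent.S53.resMatrixOf ρbar β) Smin SigP 𝓗p hloc v.1)
    (dualSelmer_eq_bot_of_twTS hp2 _ _ hloc _ (Smin ∪ Q) hpS hS hbot) _ hec
    (card_ext_zero_adSm hp2 ρbar β habs (Smin ∪ Q) hS)
    (fun v => if v.1 = pPrime p ∨ v.1 ∈ Q then Nat.card k else 1)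
    (fun v => if v.1 ∈ insert (pPrime p) SigP then Nat.card k ^ dfc v.1 else 1)
    (fun v => card_selFamily_le_dfc ρbar β Smin SigP Q hdisj hSig hpSig n hQ hloc dfc hH0 𝓗p h𝓗p
      v.1 v.2)
    (Nat.card k) (Nat.card k ^ Q.card) hk0
    (card_le_card_adRep_fixed (two_ne_zero_of_charP hp2) _ complexConjugation) ?_
  · -- the product of the deficits
    have hA : insert (pPrime p) SigP ⊆ Smin ∪ Q := by
      intro q hq
      rcases Finset.mem_insert.1 hq with rfl | h
      · exact hpS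
      · exact Finset.mem_union_left _ (hSig h)
    have hE : (∏ v : ↥(Smin ∪ Q),
        if v.1 ∈ insert (pPrime p) SigP then Nat.card k ^ dfc v.1 else 1) =
        Nat.card k ^ (∑ q ∈ insert (pPrime p) SigP, dfc q) := by
      rw [Finset.prod_coe_sort (Smin ∪ Q)
        (fun q => if q ∈ insert (pPrime p) SigP then Nat.card k ^ dfc q else 1),
        Finset.prod_ite_mem, Finset.inter_eq_right.2 hA, Finset.prod_pow_eq_pow_sum]
    rw [hE] at hmain
    exact hmain
  -- the product of the local factors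
  rw [Finset.prod_ite, Finset.prod_const, Finset.prod_const_one, mul_one, ← pow_succ']
  apply Nat.pow_le_pow_right hk0
  have hinj : (Finset.univ.filter
      (fun v : ↥(Smin ∪ Q) => v.1 = pPrime p ∨ v.1 ∈ Q)).card ≤ (insert (pPrime p) Q).card := by
    apply Finset.card_le_card_of_injOn (fun v => v.1)
    · intro v hv
      rcases (Finset.mem_filter.1 hv).2 with h | h
      · exact Finset.mem_insert.2 (Or.inl h)
      · exact Finset.mem_insert.2 (Or.inr h)
    · intro a _ b _ hab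
      exact Subtype.ext hab
  exact hinj.trans (Finset.card_insert_le _ _)

end CountSel

end Fermat.Agent.ML.SelL
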