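/-
PROJECT ML (S59) — [SEL-L] (helper4), file 8: **the Selmer computation for the chain condition**
(`SelLStatement` of `ML/IFACE_helper9_Chart`, with the two amendments of helper4's message 2376:
`I j ≤ 𝔪_T`, and `ℓ ≢ 1 mod p` at the primes of `S` without level raising).

* `selL_generic` : generic in the local condition `𝓗p` at `p`;
* `selL_core` : the three cases `flat` (reducible / irreducible on `D_p`), `strict`, `chain`.
-/
import Mathlib
import Fermat.Agent.RB.SEL_helper4_Main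
import Fermat.Agent.ML.SELL_helper4_Primes
import Fermat.Agent.ML.SELL_helper4_H0
import Fermat.Agent.ML.SELL_helper4_Inj
import Fermat.Agent.TW.OrdLocal_helper6

set_option autoImplicit false
set_option linter.unusedSectionVars false
set_option linter.style.haveILetI false
set_option linter.unusedVariables false

open Polynomial IsLocalRing

namespace Fermat.Agent.ML.SelL

open Fermat.Agent.TW Fermat.Agent.S53 Fermat.Agent.CFT.Sm Fermat.Agent.CFT.Bridge
  Fermat.Agent.CFT.Arith groupCohomology CategoryTheory CategoryTheory.Abelian ExtCitation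
  GaloisRepAdic GaloisRep Fermat.Agent.RB.SEL

/-- `Ω = AlgebraicClosure ℚ`. -/
local notation "Ω" => AlgebraicClosure ℚ
/-- `GQ = Gal(Ω/ℚ)`. -/
local notation "GQ" => (AlgebraicClosure ℚ ≃ₐ[ℚ] AlgebraicClosure ℚ)

theorem isLocTrivIdeal_mono {𝒪 : Type} [CommRing 𝒪] [IsLocalRing 𝒪] {T : Type} [CommRing T]
    [IsLocalRing T] [Algebra 𝒪 T] {ρ : GaloisRepAdic T} {c : ℕ} {I I' : Ideal T} (h : I ≤ I')
    (hI : IsLocTrivIdeal 𝒪 ρ c I) : IsLocTrivIdeal 𝒪 ρ c I' :=
  fun J hJ h2 h3 P hP => hI J (h.trans hJ) h2 h3 P hP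

variable {𝒪 : Type} [CommRing 𝒪] [IsDomain 𝒪] [IsDiscreteValuationRing 𝒪]
  [IsAdicComplete (maximalIdeal 𝒪) 𝒪] [Finite (ResidueField 𝒪)]

/-- the kinds at the chain primes `≠ p` -/
theorem chainKind_cases_of_ne {k : Type} [Field k] {ρbar : ResidualGaloisRep k} {p q : ℕ}
    {K : ChainKind} (h : K.Holds ρbar p q) (hq : q ≠ p) : K = ChainKind.ns ∨ K = ChainKind.sc := by
  cases K with
  | ns => exact Or.inl rfl
  | sc => exact Or.inr rfl
  | pns => exact absurd h.1 hq
  | psp => exact absurd h.1 hq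

/-- the kinds at `p` -/
theorem chainKind_cases_of_eq {k : Type} [Field k] {ρbar : ResidualGaloisRep k} {p q : ℕ}
    {K : ChainKind} (h : K.Holds ρbar p q) (hq : q = p) :
    K = ChainKind.pns ∨ K = ChainKind.psp := by
  cases K with
  | ns => exact absurd hq h.1
  | sc => exact absurd hq h.1
  | pns => exact Or.inl rfl
  | psp => exact Or.inr rfl

/-- **[SEL-L], generic in the local condition at `p`.** -/
theorem selL_generic (p : ℕ) [hp : Fact p.Prime] (hp2 : p ≠ 2) (hp𝒪 : (p : 𝒪) ∈ maximalIdeal 𝒪)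
    (ρbar : ResidualGaloisRep (ResidueField 𝒪))
    (habs : ρbar.IsAbsolutelyIrreducible)
    (hdet : (GaloisRepAdic.ofResidualGaloisRep ρbar).DetIsCyclotomic p)
    (hsplit : ∀ σ : GQ, ∃ α β : ResidueField 𝒪,
      LinearMap.charpoly (ρbar.ρ σ) = (X - C α) * (X - C β))
    (hTW : ∀ (K : Type) [Field K] [Algebra (ResidueField 𝒪) K] (G : Subgroup GQ), G.index = 2 →
      ∀ V : Submodule K (ρbar.baseChange K).V,
        (∀ σ ∈ G, ∀ x ∈ V, (ρbar.baseChange K).ρ σ x ∈ V) → V = ⊥ ∨ V = ⊤)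
    (hEC : ECGlobal p)
    (S : Finset ℕ) (hpS : p ∈ S) (hSprime : ∀ q ∈ S, q.Prime)
    (pc : PCase) {m : ℕ} (cq : Fin m → ℕ) (sgn : Fin m → 𝒪) (K : Fin m → ChainKind)
    (hchain : IsResChain ρbar p pc cq sgn K) (hcS : ∀ j, cq j ≠ p → cq j ∉ S)
    (hS : ∀ ℓ ∈ S, ℓ ≠ p → ¬ ρbar.IsUnramifiedAt ℓ ∨
      (NoLevelRaisingAt ρbar ℓ ∧ ((ℓ : ℕ) : ResidueField 𝒪) ≠ 1))
    (hunr : ∀ ℓ : ℕ, ℓ.Prime → ℓ ∉ S → ρbar.IsUnramifiedAt ℓ)
    (β₀ : Module.Basis (Fin 2) (ResidueField 𝒪) ρbar.V)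
    (𝓗p : AddSubgroup (H1 (Rep.res (primeLocalToGlobal (pPrime p))
      (adRep (resMatrixOf ρbar β₀)))))
    (hTp : ∀ (T : Type) [CommRing T] [IsLocalRing T] [Algebra 𝒪 T] (ρ : GaloisRepAdic T),
      ρ.DetIsCyclotomic p → (pc = PCase.flat → ρ.IsFlatAt p) →
      (pc = PCase.strict → ρ.IsStrictOrdinaryAt p) →
      ∀ Kid : Ideal T, (pc = PCase.chain → IsLocTrivIdeal 𝒪 ρ p Kid) →
      IsLocTrivIdeal 𝒪 ρ p Kid ∨
      ∀ (b : GQ → Matrix (Fin 2) (Fin 2) (ResidueField 𝒪))
        (hb : IsTwCocycle (resMatrixOf ρbar β₀) b) (hs : IsSmoothFun b),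
        (∃ (f : T →+* DualNumber (ResidueField 𝒪)) (hf : IsLocalHom f), Function.Surjective f ∧
          (ρ.baseChangeAlong f hf).IsEquiv (ofMatrix (defOfCocycle (resMatrixOf ρbar β₀) b hb)
            (matCont_defOfCocycle (resMatrixOf_factors ρbar β₀) hb hs))) →
        ∀ htr : ∀ σ, Matrix.trace (b σ * resMatrixOf ρbar β₀ σ⁻¹) = 0,
          (groupCohomology.map (primeLocalToGlobal (pPrime p))
            (𝟙 (Rep.res (primeLocalToGlobal (pPrime p)) (adRep (resMatrixOf ρbar β₀)))) 1).hom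
          ((H1π (adRep (resMatrixOf ρbar β₀))).hom (adCocycle hb htr)) ∈ 𝓗p)
    (h𝓗p : ∀ hsm : IsSmooth (locBasis (pPrime p)) (Rep.res (primeLocalToGlobal (pPrime p))
        (adRep (resMatrixOf ρbar β₀))),
      Nat.card (locCond (YLoc (adRep (resMatrixOf ρbar β₀)) (pPrime p) hsm) 𝓗p) *
        Nat.card (ResidueField 𝒪) ^ (∑ j, if cq j = p then (K j).hh else 0) ≤
      Nat.card (Ext (smUnit ℤ (locBasis (pPrime p)))
        (YLoc (adRep (resMatrixOf ρbar β₀)) (pPrime p) hsm) 0) * Nat.card (ResidueField 𝒪)) :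
    ∃ g r : ℕ, r = g + ∑ j, (K j).hh ∧ ∀ n : ℕ, ∃ Q : Fin r → ℕ,
      RB.IsTWSet ρbar p (S ∪ Finset.univ.image cq) n Q ∧
      ∀ (T : Type) [CommRing T] [IsLocalRing T] [IsNoetherianRing T]
        [IsAdicComplete (maximalIdeal T) T] [Algebra 𝒪 T] [IsLocalHom (algebraMap 𝒪 T)]
        [Module.Finite 𝒪 T]
        (_ : Function.Surjective (IsLocalRing.residue T ∘ algebraMap 𝒪 T))
        (ρ : GaloisRepAdic T)
        (_ : ρ.residual.IsEquiv
          (ρbar.baseChangeAlong (IsLocalRing.ResidueField.map (algebraMap 𝒪 T))))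
        (_ : chainCondition 𝒪 p S (Finset.univ.image cq) (Finset.univ.image Q) pc ρ)
        (_ : Algebra.adjoin 𝒪 (Set.range ρ.trace) = ⊤)
        (I : Fin m → Ideal T) (_ : ∀ j, I j ≤ maximalIdeal T)
        (_ : ∀ j, IsLocTrivIdeal 𝒪 ρ (cq j) (I j)),
        ∃ y : Fin g → T, (∀ i, y i ∈ maximalIdeal T) ∧
          maximalIdeal T = (maximalIdeal 𝒪).map (algebraMap 𝒪 T) ⊔ (⨆ j, I j) ⊔
            Ideal.span (Set.range y) := by
  classical
  haveI : CharP (ResidueField 𝒪) p := charP_residueField_of_mem p hp𝒪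
  have hpk : ((p : ℕ) : ResidueField 𝒪) = 0 := CharP.cast_eq_zero (ResidueField 𝒪) p
  have h2 : (2 : ResidueField 𝒪) ≠ 0 := two_ne_zero_of_charP hp2
  have hk3 : 3 ≤ Nat.card (ResidueField 𝒪) := three_le_natCard_of_two_ne_zero h2
  have hk1 : 1 < Nat.card (ResidueField 𝒪) := by omega
  -- the sets of primes
  set C : Finset ℕ := Finset.univ.image cq with hC
  have hcqC : ∀ j, cq j ∈ C := fun j => Finset.mem_image_of_mem cq (Finset.mem_univ j)
  have hCprime : ∀ q ∈ C, q.Prime := by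
    intro q hq
    obtain ⟨j, -, rfl⟩ := Finset.mem_image.1 hq
    exact hchain.prime j
  have hpSmin : pPrime p ∈ primesOf (S ∪ C) := mem_primesOf.2 (Finset.mem_union_left _ hpS)
  have hSigSub : primesOf (C.erase p) ⊆ primesOf (S ∪ C) := fun q hq =>
    mem_primesOf.2 (Finset.mem_union_right _ (Finset.mem_of_mem_erase (mem_primesOf.1 hq)))
  have hpSigP : pPrime p ∉ primesOf (C.erase p) := fun h =>
    (Finset.mem_erase.1 (mem_primesOf.1 h)).1 rfl
  have hCS : ∀ q ∈ C, q ≠ p → q ∉ S := by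
    intro q hq hqp
    obtain ⟨j, -, rfl⟩ := Finset.mem_image.1 hq
    exact hcS j hqp
  have hunr' : ∀ q : Nat.Primes, q ∉ primesOf (S ∪ C) → ρbar.IsUnramifiedAt (q : ℕ) :=
    fun q hq => hunr q q.2 (fun h => hq (mem_primesOf.2 (Finset.mem_union_left _ h)))
  have hS0 := isSmooth_adRep_of_unramified ρbar β₀ (primesOf (S ∪ C)) hunr'
  have hloc : ∀ q : Nat.Primes, IsSmooth (locBasis q)
      (Rep.res (primeLocalToGlobal q) (adRep (resMatrixOf ρbar β₀))) :=
    fun q => isSmooth_resQ _ (primesOf (S ∪ C)) hS0 q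
  -- the deficits
  set dfc : Nat.Primes → ℕ := fun q => ∑ j, if cq j = (q : ℕ) then (K j).hh else 0 with hdfc
  have hdfc_eq : ∀ (q : Nat.Primes) (j : Fin m), cq j = (q : ℕ) → dfc q = (K j).hh := by
    intro q j hj
    rw [hdfc]
    show (∑ j', if cq j' = (q : ℕ) then (K j').hh else 0) = (K j).hh
    rw [Finset.sum_eq_single j]
    · rw [if_pos hj]
    · intro j' _ hj'
      rw [if_neg]
      intro h
      exact hj' (hchain.injective (h.trans hj.symm))
    · intro h
      exact absurd (Finset.mem_univ j) h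
  have hsum : (∑ q ∈ insert (pPrime p) (primesOf (C.erase p)), dfc q) = ∑ j, (K j).hh := by
    rw [hdfc]
    show (∑ q ∈ insert (pPrime p) (primesOf (C.erase p)),
      ∑ j, if cq j = (q : ℕ) then (K j).hh else 0) = ∑ j, (K j).hh
    rw [Finset.sum_comm]
    refine Finset.sum_congr rfl fun j _ => ?_
    have hmem : (⟨cq j, hchain.prime j⟩ : Nat.Primes) ∈
        insert (pPrime p) (primesOf (C.erase p)) := by
      by_cases hj : cq j = p
      · refine Finset.mem_insert.2 (Or.inl ?_)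
        exact Subtype.ext hj
      · exact Finset.mem_insert_of_mem (mem_primesOf.2 (Finset.mem_erase.2 ⟨hj, hcqC j⟩))
    refine (Finset.sum_eq_single_of_mem _ hmem ?_).trans ?_
    · intro q _ hq
      rw [if_neg]
      intro h
      exact hq (Subtype.ext h.symm)
    · rw [if_pos rfl]
  have hH0 : ∀ q ∈ primesOf (C.erase p), Nat.card (ResidueField 𝒪) ^ dfc q ≤
      Nat.card (Ext (smUnit ℤ (locBasis q))
        (YLoc (adRep (resMatrixOf ρbar β₀)) q (hloc q)) 0) := by
    intro q hq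
    obtain ⟨hqp, hqC⟩ := Finset.mem_erase.1 (mem_primesOf.1 hq)
    obtain ⟨j, -, hj⟩ := Finset.mem_image.1 hqC
    rw [hdfc_eq q j hj]
    have hkind := hchain.kind j
    rw [hj] at hkind
    rcases chainKind_cases_of_ne hkind hqp with hK | hK
    · rw [hK] at hkind ⊢
      show Nat.card (ResidueField 𝒪) ^ 1 ≤ _
      rw [pow_one]
      exact card_le_card_ext_zero_ns h2 ρbar β₀ p q (hloc q) hkind
    · rw [hK] at hkind ⊢
      show Nat.card (ResidueField 𝒪) ^ 3 ≤ _
      refine pow_three_le_card_ext_zero (resMatrixOf ρbar β₀) q (hloc q) fun τ => ?_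
      obtain ⟨c, hc⟩ := hkind.2.exists_smul_of_mem_decompositionSubgroup q.2 (primeLocalPlace q)
        (primeLocalPlace_liesOverPrime q) (primeLocalToGlobal_mem_decompositionSubgroup q τ)
      refine ⟨c, ?_⟩
      rw [resMatrixOf_eq_toMatrix, hc, map_smul, LinearMap.toMatrix_one]
  -- the Taylor–Wiles primes and the count
  obtain ⟨r, hr3, hr⟩ := sel_primes_and_count_dfc hp2 ρbar β₀ habs hdet hsplit hTW hEC
    (primesOf (S ∪ C)) (primesOf (C.erase p)) hpSmin hSigSub hpSigP hunr' hloc dfc hH0 𝓗p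
    (h𝓗p (hloc _)) (primesOf (S ∪ C))
  rw [hsum] at hr3 hr
  refine ⟨r - ∑ j, (K j).hh, r, by omega, fun n => ?_⟩
  obtain ⟨Q, hcard, hdisjA, hdisjS, hQ, hcount⟩ := hr n
  let e : Fin r → Nat.Primes := fun i => ((Q.equivFin.symm (Fin.cast hcard.symm i) : Q) : Nat.Primes)
  have he_mem : ∀ i, e i ∈ Q := fun i => (Q.equivFin.symm (Fin.cast hcard.symm i)).2
  have he_inj : Function.Injective e := by
    intro i j hij
    have h1 : Q.equivFin.symm (Fin.cast hcard.symm i) = Q.equivFin.symm (Fin.cast hcard.symm j) :=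
      Subtype.ext hij
    exact Fin.cast_injective _ (Q.equivFin.symm.injective h1)
  refine ⟨fun i => (e i : ℕ), ⟨?_, ?_, ?_, ?_, ?_⟩, ?_⟩
  · intro i j hij
    exact he_inj (Subtype.ext hij)
  · intro i
    exact (e i).2
  · intro i hS
    exact (Finset.disjoint_left.1 hdisjS (he_mem i)) (mem_primesOf.2 hS)
  · intro i
    exact dvd_trans (pow_dvd_pow p (Nat.le_succ n)) (hQ _ (he_mem i)).2.1
  · intro i P hP φ hφ
    exact (hQ _ (he_mem i)).2.2.2 P hP φ hφ
  -- the deformation side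
  intro T _ _ _ _ _ _ _ hres ρ hρ htype hadj I hIm hI
  obtain ⟨hdetρ, hurρ, hunipρ, hflatρ, hstrictρ, -⟩ := htype
  have hpS' : pPrime p ∈ primesOf (S ∪ C) ∪ Q := Finset.mem_union_left _ hpSmin
  have hS' : IsSmooth (levelBasis (primesOf (S ∪ C) ∪ Q)) (adRep (resMatrixOf ρbar β₀)) :=
    hS0.of_finer (levelBasis_finer_of_subset Finset.subset_union_left)
  have hST : ∀ v : Nat.Primes, v ∉ primesOf (S ∪ C) ∪ Q →
      (v : ℕ) ∉ S ∪ C ∪ Finset.univ.image (fun i => (e i : ℕ)) := by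
    intro v hv hmem
    rcases Finset.mem_union.1 hmem with h | h
    · exact hv (Finset.mem_union_left _ (mem_primesOf.2 h))
    · obtain ⟨i, -, hi⟩ := Finset.mem_image.1 h
      have : e i = v := Subtype.ext hi
      exact hv (Finset.mem_union_right _ (this ▸ he_mem i))
  have hK : (⨆ j, I j) ≤ maximalIdeal T := iSup_le hIm
  have hSelcard := hcount hpS' hS'
  -- `#Sel ≤ |k|^g`
  have hSel_le : Nat.card ((twDatum hp2 (primesOf (S ∪ C) ∪ Q) hpS').selmer
      (adSm (primesOf (S ∪ C) ∪ Q) (resMatrixOf ρbar β₀) hS')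
      (fun v => selFamily p (resMatrixOf ρbar β₀) (primesOf (S ∪ C)) (primesOf (C.erase p)) 𝓗p
        hloc v.1)) ≤
      Nat.card (ResidueField 𝒪) ^ (r - ∑ j, (K j).hh) := by
    have h3 : Nat.card (ResidueField 𝒪) ^ r =
        Nat.card (ResidueField 𝒪) ^ (r - ∑ j, (K j).hh) *
          Nat.card (ResidueField 𝒪) ^ (∑ j, (K j).hh) := by
      rw [← pow_add]
      congr 1
      omega
    rw [h3] at hSelcard
    exact Nat.le_of_mul_le_mul_right hSelcard (pow_pos (by omega) _)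
  refine exists_gen_rel hres (⨆ j, I j) hK (r - ∑ j, (K j).hh) hk3 (fun s hs => ?_)
  have hchainp : pc = PCase.chain → IsLocTrivIdeal 𝒪 ρ p (⨆ j, I j) := by
    intro hpc
    obtain ⟨j, hj⟩ := hchain.eq_p_iff.2 hpc
    have := isLocTrivIdeal_mono (le_iSup I j) (hI j)
    rwa [hj] at this
  have h4 := card_algHom_le_card_selmer_chain hp2 hp𝒪 hdet β₀ (primesOf (S ∪ C))
    (primesOf (C.erase p)) (primesOf (S ∪ C) ∪ Q) hpS' T hres ρ hρ hdetρ
    (fun v hv => hurρ (v : ℕ) v.2 (hST v hv)) (⨆ j, I j) ?_ ?_ hadj hS' hloc 𝓗p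
    (hTp T ρ hdetρ hflatρ hstrictρ (⨆ j, I j) hchainp) s hs
  · exact h4.trans (Nat.add_le_add_right hSel_le 1)
  · intro v hvm hvp hvSig
    have hvp' : (v : ℕ) ≠ p := fun h => hvp (Subtype.ext h)
    have hvC : (v : ℕ) ∉ C := fun h => hvSig (mem_primesOf.2 (Finset.mem_erase.2 ⟨hvp', h⟩))
    have hvS : (v : ℕ) ∈ S := (Finset.mem_union.1 (mem_primesOf.1 hvm)).resolve_right hvC
    rcases hS (v : ℕ) hvS hvp' with hram | hnl
    · exact Or.inl ⟨hram, hunipρ (v : ℕ) (Finset.mem_union_left _ hvS) v.2 hvp'⟩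
    · exact Or.inr hnl
  · intro v hv
    obtain ⟨-, hvC⟩ := Finset.mem_erase.1 (mem_primesOf.1 hv)
    obtain ⟨j, -, hj⟩ := Finset.mem_image.1 hvC
    have := isLocTrivIdeal_mono (le_iSup I j) (hI j)
    rwa [hj] at this

/-- **[SEL-L]** (amended literal: `I j ≤ 𝔪_T`; `ℓ ≢ 1 mod p` at the primes of `S` without level
raising). -/
theorem selL_core (p : ℕ) [hp : Fact p.Prime] (hp2 : p ≠ 2) (hp𝒪 : (p : 𝒪) ∈ maximalIdeal 𝒪)
    (ρbar : ResidualGaloisRep (ResidueField 𝒪))
    (habs : ρbar.IsAbsolutelyIrreducible)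
    (hdet : (GaloisRepAdic.ofResidualGaloisRep ρbar).DetIsCyclotomic p)
    (hsplit : ∀ σ : GQ, ∃ α β : ResidueField 𝒪,
      LinearMap.charpoly (ρbar.ρ σ) = (X - C α) * (X - C β))
    (hTW : ∀ (K : Type) [Field K] [Algebra (ResidueField 𝒪) K] (G : Subgroup GQ), G.index = 2 →
      ∀ V : Submodule K (ρbar.baseChange K).V,
        (∀ σ ∈ G, ∀ x ∈ V, (ρbar.baseChange K).ρ σ x ∈ V) → V = ⊥ ∨ V = ⊤)
    (S : Finset ℕ) (hpS : p ∈ S) (hSprime : ∀ q ∈ S, q.Prime)
    (pc : PCase) {m : ℕ} (cq : Fin m → ℕ) (sgn : Fin m → 𝒪) (K : Fin m → ChainKind)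
    (hchain : IsResChain ρbar p pc cq sgn K) (hcS : ∀ j, cq j ≠ p → cq j ∉ S)
    (hS : ∀ ℓ ∈ S, ℓ ≠ p → ¬ ρbar.IsUnramifiedAt ℓ ∨
      (NoLevelRaisingAt ρbar ℓ ∧ ((ℓ : ℕ) : ResidueField 𝒪) ≠ 1))
    (hunr : ∀ ℓ : ℕ, ℓ.Prime → ℓ ∉ S → ρbar.IsUnramifiedAt ℓ) :
    ∃ g r : ℕ, r = g + ∑ j, (K j).hh ∧ ∀ n : ℕ, ∃ Q : Fin r → ℕ,
      RB.IsTWSet ρbar p (S ∪ Finset.univ.image cq) n Q ∧
      ∀ (T : Type) [CommRing T] [IsLocalRing T] [IsNoetherianRing T]
        [IsAdicComplete (maximalIdeal T) T] [Algebra 𝒪 T] [IsLocalHom (algebraMap 𝒪 T)]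
        [Module.Finite 𝒪 T]
        (_ : Function.Surjective (IsLocalRing.residue T ∘ algebraMap 𝒪 T))
        (ρ : GaloisRepAdic T)
        (_ : ρ.residual.IsEquiv
          (ρbar.baseChangeAlong (IsLocalRing.ResidueField.map (algebraMap 𝒪 T))))
        (_ : chainCondition 𝒪 p S (Finset.univ.image cq) (Finset.univ.image Q) pc ρ)
        (_ : Algebra.adjoin 𝒪 (Set.range ρ.trace) = ⊤)
        (I : Fin m → Ideal T) (_ : ∀ j, I j ≤ maximalIdeal T)
        (_ : ∀ j, IsLocTrivIdeal 𝒪 ρ (cq j) (I j)),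
        ∃ y : Fin g → T, (∀ i, y i ∈ maximalIdeal T) ∧
          maximalIdeal T = (maximalIdeal 𝒪).map (algebraMap 𝒪 T) ⊔ (⨆ j, I j) ⊔
            Ideal.span (Set.range y) := by
  classical
  have hEC : ECGlobal p := fun S hpS Z _ hZ => Fermat.Agent.TW.EC.ec_global hp2 S hpS Z hZ
  have hchar : CharP (ResidueField 𝒪) p := charP_residueField_of_mem p hp𝒪
  have hpk : ((p : ℕ) : ResidueField 𝒪) = 0 := CharP.cast_eq_zero (ResidueField 𝒪) p
  have h2 : (2 : ResidueField 𝒪) ≠ 0 := two_ne_zero_of_charP hp2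
  have hk1 : 1 < Nat.card (ResidueField 𝒪) := Finite.one_lt_card
  obtain ⟨β⟩ : Nonempty (Module.Basis (Fin 2) (ResidueField 𝒪) ρbar.V) :=
    ⟨Module.finBasisOfFinrankEq (ResidueField 𝒪) ρbar.V ρbar.finrank_eq⟩
  have hdet' := det_resMatrixOf_of_detIsCyclotomic hpk ρbar β hdet
  have hsplit' := charpoly_resMatrixOf_split ρbar β hsplit
  -- the deficit at `p` vanishes outside the chain case
  have hsum0 : pc ≠ PCase.chain → (∑ j, if cq j = p then (K j).hh else 0) = 0 := by
    intro hpc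
    refine Finset.sum_eq_zero fun j _ => if_neg fun h => hpc (hchain.eq_p_iff.1 ⟨j, h⟩)
  by_cases hpc : pc = PCase.chain
  · -- the chain case: the trivial condition at `p`
    obtain ⟨j₀, hj₀⟩ := hchain.eq_p_iff.2 hpc
    have hsum1 : (∑ j, if cq j = p then (K j).hh else 0) = (K j₀).hh := by
      rw [Finset.sum_eq_single j₀]
      · rw [if_pos hj₀]
      · intro j' _ hj'
        rw [if_neg]
        intro h
        exact hj' (hchain.injective (h.trans hj₀.symm))
      · intro h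
        exact absurd (Finset.mem_univ j₀) h
    refine selL_generic p hp2 hp𝒪 ρbar habs hdet hsplit hTW hEC S hpS hSprime pc cq sgn K hchain
      hcS hS hunr β ⊥ ?_ ?_
    · intro T _ _ _ ρ _ _ _ Kid hKid
      exact Or.inl (hKid hpc)
    · intro hsm
      haveI : Finite (YLoc (adRep (resMatrixOf ρbar β)) (pPrime p) hsm).obj.V :=
        inferInstanceAs (Finite (adRep (resMatrixOf ρbar β)).V)
      have hbot : Nat.card (locCond (YLoc (adRep (resMatrixOf ρbar β)) (pPrime p) hsm) ⊥) = 1 := by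
        rw [Fermat.Agent.TW.locCond_bot, AddSubgroup.card_bot]
      have hpos : 1 ≤ Nat.card (Ext (smUnit ℤ (locBasis (pPrime p)))
          (YLoc (adRep (resMatrixOf ρbar β)) (pPrime p) hsm) 0) := by
        have := natCard_locCond_bot_le (YLoc (adRep (resMatrixOf ρbar β)) (pPrime p) hsm) 1
          Nat.one_pos
        rwa [hbot, mul_one] at this
      rw [hbot, one_mul, hsum1]
      have hkind := hchain.kind j₀
      rw [hj₀] at hkind
      rcases chainKind_cases_of_eq hkind rfl with hK | hK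
      · rw [hK]
        show Nat.card (ResidueField 𝒪) ^ 1 ≤ _
        rw [pow_one]
        exact Nat.le_mul_of_pos_left _ hpos
      · rw [hK] at hkind ⊢
        show Nat.card (ResidueField 𝒪) ^ 2 ≤ _
        rw [pow_two]
        exact Nat.mul_le_mul_right _
          (card_le_card_ext_zero_psp h2 ρbar β p (pPrime p) hsm hkind)
  · rw [← ne_eq] at hpc
    by_cases hpf : pc = PCase.flat
    · -- the flat case
      by_cases hline : ∃ e₁ : Fin 2 → ResidueField 𝒪, e₁ ≠ 0 ∧
          ∀ g ∈ (padicPlace p).decompositionSubgroup ℚ, ∃ t : ResidueField 𝒪,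
            (resMatrixOf ρbar β g).mulVec e₁ = t • e₁
      · -- reducible on the decomposition group at `p`
        refine selL_generic p hp2 hp𝒪 ρbar habs hdet hsplit hTW hEC S hpS hSprime pc cq sgn K
          hchain hcS hS hunr β (flatOrdCond p (resMatrixOf ρbar β)) ?_ ?_
        · intro T _ _ _ ρ hdetρ hflatρ _ Kid _
          refine Or.inr ?_
          rintro b hb hs ⟨f, hf, hsurj, ⟨e⟩⟩ htr
          have hdetb := detIsCyclotomic_of_equiv e (detIsCyclotomic_baseChangeAlong f hf ρ hdetρ)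
          have hflatb := isFlatAt_of_equiv e
            (isFlatAt_baseChangeAlong_of_surjective f hf ρ hsurj (hflatρ hpf))
          exact res_adCocycle_mem_flatOrdCond hp2 hpk hb _ hdetb hflatb htr hline
        · intro hsm
          rw [hsum0 hpc, pow_zero, mul_one]
          exact card_locCond_flatOrdCond_le p hp2 (resMatrixOf ρbar β) hdet' hsm
      · -- irreducible on the decomposition group at `p`
        have hnl : ¬ ∃ e₁ : Fin 2 → ResidueField 𝒪, e₁ ≠ 0 ∧
            ∀ τ : ExtCitation.primeLocalGaloisGroup (ExtCitation.pPrime p), ∃ t : ResidueField 𝒪,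
              (resMatrixOf ρbar β
                (ExtCitation.primeLocalToGlobal (ExtCitation.pPrime p) τ)).mulVec e₁ = t • e₁ :=
          fun h => hline (exists_decomposition_line_of_exists_local_line _
            (resMatrixOf_factors ρbar β) h)
        refine selL_generic p hp2 hp𝒪 ρbar habs hdet hsplit hTW hEC S hpS hSprime pc cq sgn K
          hchain hcS hS hunr β (flatIrrCond p (resMatrixOf ρbar β)) ?_ ?_
        · intro T _ _ _ ρ hdetρ hflatρ _ Kid _
          refine Or.inr ?_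
          rintro b hb hs ⟨f, hf, hsurj, ⟨e⟩⟩ htr
          have hflatb := isFlatAt_of_equiv e
            (isFlatAt_baseChangeAlong_of_surjective f hf ρ hsurj (hflatρ hpf))
          exact res_adCocycle_mem_flatIrrCond hpk hb _ hflatb htr
        · intro hsm
          rw [hsum0 hpc, pow_zero, mul_one]
          exact card_locCond_YLoc_le_of_card_le (resMatrixOf ρbar β) _
            (card_flatIrrCond_le hp2 (resMatrixOf ρbar β) hdet' hsplit' hnl) hsm
    · -- the strictly ordinary case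
      have hps : pc = PCase.strict := by
        cases pc with
        | flat => exact absurd rfl hpf
        | strict => rfl
        | chain => exact absurd rfl hpc
      refine selL_generic p hp2 hp𝒪 ρbar habs hdet hsplit hTW hEC S hpS hSprime pc cq sgn K
        hchain hcS hS hunr β (ordCond p (resMatrixOf ρbar β)) ?_ ?_
      · intro T _ _ _ ρ hdetρ _ hstrictρ Kid _
        refine Or.inr ?_
        rintro b hb hs ⟨f, hf, hsurj, ⟨e⟩⟩ htr
        have hdetb := detIsCyclotomic_of_equiv e (detIsCyclotomic_baseChangeAlong f hf ρ hdetρ)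
        have hordb := isStrictOrdinaryAt_of_equiv e
          (isStrictOrdinaryAt_baseChangeAlong f hf ρ (hstrictρ hps))
        exact res_adCocycle_mem_ordCond hp2 hpk ρbar β hb hs hdetb hordb htr
      · intro hsm
        rw [hsum0 hpc, pow_zero, mul_one]
        exact card_locCond_ordCond_le p hp2 (resMatrixOf ρbar β) hsm

end Fermat.Agent.ML.SelL
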