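/-
PROJECT ML (S59) — IA' / [SEL-E] (helper4), file 1: **the Selmer computation with "free" primes**:
the variant of `SelL.selL_generic` / `SelL.selL_core` (`ML/SELL_helper4_Main`) in which
* `p` is NOT a chain prime (`pc = flat` or `pc = strict`),
* the hypotheses on the deformation `ρ` are listed one by one, and NOTHING is assumed at the
  primes `cq j` (no unipotency on inertia there): only that the ideals `I j` trivialise `ρ`
  locally at `cq j`.
(The proof of `selL_generic` never used the unipotency at the chain primes.)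

* `selE_generic` : generic in the local condition `𝓗p` at `p`;
* `selE_core` : the cases `flat` (reducible / irreducible on `D_p`) and `strict`.
-/
import Mathlib
import Fermat.Agent.ML.SELL_helper4_Main

set_option autoImplicit false
set_option linter.unusedSectionVars false
set_option linter.style.haveILetI false
set_option linter.unusedVariables false

open Polynomial IsLocalRing

namespace Fermat.Agent.ML.SelE

open Fermat.Agent.TW Fermat.Agent.S53 Fermat.Agent.CFT.Sm Fermat.Agent.CFT.Bridge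
  Fermat.Agent.CFT.Arith groupCohomology CategoryTheory CategoryTheory.Abelian ExtCitation
  GaloisRepAdic GaloisRep Fermat.Agent.RB.SEL Fermat.Agent.ML.SelL

/-- `Ω = AlgebraicClosure ℚ`. -/
local notation "Ω" => AlgebraicClosure ℚ
/-- `GQ = Gal(Ω/ℚ)`. -/
local notation "GQ" => (AlgebraicClosure ℚ ≃ₐ[ℚ] AlgebraicClosure ℚ)

variable {𝒪 : Type} [CommRing 𝒪] [IsDomain 𝒪] [IsDiscreteValuationRing 𝒪]
  [IsAdicComplete (maximalIdeal 𝒪) 𝒪] [Finite (ResidueField 𝒪)]

/-- **[SEL-E], generic in the local condition at `p`.** -/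
theorem selE_generic (p : ℕ) [hp : Fact p.Prime] (hp2 : p ≠ 2) (hp𝒪 : (p : 𝒪) ∈ maximalIdeal 𝒪)
    (ρbar : ResidualGaloisRep (ResidueField 𝒪))
    (habs : ρbar.IsAbsolutelyIrreducible)
    (hdet : (GaloisRepAdic.ofResidualGaloisRep ρbar).DetIsCyclotomic p)
    (hsplit : ∀ σ : GQ, ∃ α β : ResidueField 𝒪,
      LinearMap.charpoly (ρbar.ρ σ) = (X - C α) * (X - C β))
    (hTW : ∀ (K : Type) [Field K] [Algebra (ResidueField 𝒪) K] (G : Subgroup GQ), G.index = 2 →
      ∀ V : Submodule K (ρbar.baseChange K).V,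
        (∀ σ ∈ G, ∀ x ∈ V, (ρbar.baseChange K).ρ σ x ∈ V) → V = ⊥ ∨ V = ⊤)
    (hEC : ECGlobal p)
    (S : Finset ℕ) (hpS : p ∈ S) (hSprime : ∀ q ∈ S, q.Prime)
    (pc : PCase) {m : ℕ} (cq : Fin m → ℕ) (K : Fin m → ChainKind)
    (hinj : Function.Injective cq) (hprime : ∀ j, (cq j).Prime)
    (hkind : ∀ j, (K j).Holds ρbar p (cq j)) (hcp : ∀ j, cq j ≠ p) (hcS : ∀ j, cq j ∉ S)
    (hS : ∀ ℓ ∈ S, ℓ ≠ p → ¬ ρbar.IsUnramifiedAt ℓ ∨
      (NoLevelRaisingAt ρbar ℓ ∧ ((ℓ : ℕ) : ResidueField 𝒪) ≠ 1))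
    (hunr : ∀ ℓ : ℕ, ℓ.Prime → ℓ ∉ S → ρbar.IsUnramifiedAt ℓ)
    (β₀ : Module.Basis (Fin 2) (ResidueField 𝒪) ρbar.V)
    (𝓗p : AddSubgroup (H1 (Rep.res (primeLocalToGlobal (pPrime p))
      (adRep (resMatrixOf ρbar β₀)))))
    (hTp : ∀ (T : Type) [CommRing T] [IsLocalRing T] [Algebra 𝒪 T] (ρ : GaloisRepAdic T),
      ρ.DetIsCyclotomic p → (pc = PCase.flat → ρ.IsFlatAt p) →
      (pc = PCase.strict → ρ.IsStrictOrdinaryAt p) →
      ∀ (b : GQ → Matrix (Fin 2) (Fin 2) (ResidueField 𝒪))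
        (hb : IsTwCocycle (resMatrixOf ρbar β₀) b) (hs : IsSmoothFun b),
        (∃ (f : T →+* DualNumber (ResidueField 𝒪)) (hf : IsLocalHom f), Function.Surjective f ∧
          (ρ.baseChangeAlong f hf).IsEquiv (ofMatrix (defOfCocycle (resMatrixOf ρbar β₀) b hb)
            (matCont_defOfCocycle (resMatrixOf_factors ρbar β₀) hb hs))) →
        ∀ htr : ∀ σ, Matrix.trace (b σ * resMatrixOf ρbar β₀ σ⁻¹) = 0,
          (groupCohomology.map (primeLocalToGlobal (pPrime p))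
            (𝟙 (Rep.res (primeLocalToGlobal (pPrime p)) (adRep (resMatrixOf ρbar β₀)))) 1).hom
          ((H1π (adRep (resMatrixOf ρbar β₀))).hom (adCocycle hb htr)) ∈ 𝓗p)
    (h𝓗p : ∀ hsm : IsSmooth (locBasis (pPrime p)) (Rep.res (primeLocalToGlobal (pPrime p))
        (adRep (resMatrixOf ρbar β₀))),
      Nat.card (locCond (YLoc (adRep (resMatrixOf ρbar β₀)) (pPrime p) hsm) 𝓗p) ≤
      Nat.card (Ext (smUnit ℤ (locBasis (pPrime p)))
        (YLoc (adRep (resMatrixOf ρbar β₀)) (pPrime p) hsm) 0) * Nat.card (ResidueField 𝒪)) :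
    ∃ g r : ℕ, r = g + ∑ j, (K j).hh ∧ ∀ n : ℕ, ∃ Q : Fin r → ℕ,
      RB.IsTWSet ρbar p (S ∪ Finset.univ.image cq) n Q ∧
      ∀ (T : Type) [CommRing T] [IsLocalRing T] [IsNoetherianRing T]
        [IsAdicComplete (maximalIdeal T) T] [Algebra 𝒪 T] [IsLocalHom (algebraMap 𝒪 T)]
        [Module.Finite 𝒪 T]
        (_ : Function.Surjective (IsLocalRing.residue T ∘ algebraMap 𝒪 T))
        (ρ : GaloisRepAdic T)
        (_ : ρ.residual.IsEquiv
          (ρbar.baseChangeAlong (IsLocalRing.ResidueField.map (algebraMap 𝒪 T))))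
        (_ : ρ.DetIsCyclotomic p)
        (_ : ∀ q : ℕ, q.Prime → q ∉ S ∪ Finset.univ.image cq ∪ Finset.univ.image Q →
          ρ.IsUnramifiedAt q)
        (_ : ∀ ℓ ∈ S, ℓ.Prime → ℓ ≠ p → ¬ ρbar.IsUnramifiedAt ℓ → ρ.IsUnipotentOnInertiaAt ℓ)
        (_ : pc = PCase.flat → ρ.IsFlatAt p)
        (_ : pc = PCase.strict → ρ.IsStrictOrdinaryAt p)
        (_ : Algebra.adjoin 𝒪 (Set.range ρ.trace) = ⊤)
        (I : Fin m → Ideal T) (_ : ∀ j, I j ≤ maximalIdeal T)
        (_ : ∀ j, IsLocTrivIdeal 𝒪 ρ (cq j) (I j)),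
        ∃ y : Fin g → T, (∀ i, y i ∈ maximalIdeal T) ∧
          maximalIdeal T = (maximalIdeal 𝒪).map (algebraMap 𝒪 T) ⊔ (⨆ j, I j) ⊔
            Ideal.span (Set.range y) := by
  classical
  haveI : CharP (ResidueField 𝒪) p := charP_residueField_of_mem p hp𝒪
  have hpk : ((p : ℕ) : ResidueField 𝒪) = 0 := CharP.cast_eq_zero (ResidueField 𝒪) p
  have h2 : (2 : ResidueField 𝒪) ≠ 0 := two_ne_zero_of_charP hp2
  have hk3 : 3 ≤ Nat.card (ResidueField 𝒪) := three_le_natCard_of_two_ne_zero h2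
  have hk1 : 1 < Nat.card (ResidueField 𝒪) := by omega
  -- the sets of primes
  set C : Finset ℕ := Finset.univ.image cq with hC
  have hcqC : ∀ j, cq j ∈ C := fun j => Finset.mem_image_of_mem cq (Finset.mem_univ j)
  have hCprime : ∀ q ∈ C, q.Prime := by
    intro q hq
    obtain ⟨j, -, rfl⟩ := Finset.mem_image.1 hq
    exact hprime j
  have hpC : p ∉ C := by
    intro h
    obtain ⟨j, -, hj⟩ := Finset.mem_image.1 h
    exact hcp j hj
  have hpSmin : pPrime p ∈ primesOf (S ∪ C) := mem_primesOf.2 (Finset.mem_union_left _ hpS)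
  have hSigSub : primesOf C ⊆ primesOf (S ∪ C) := fun q hq =>
    mem_primesOf.2 (Finset.mem_union_right _ (mem_primesOf.1 hq))
  have hpSigP : pPrime p ∉ primesOf C := fun h => hpC (mem_primesOf.1 h)
  have hCS : ∀ q ∈ C, q ∉ S := by
    intro q hq
    obtain ⟨j, -, rfl⟩ := Finset.mem_image.1 hq
    exact hcS j
  have hunr' : ∀ q : Nat.Primes, q ∉ primesOf (S ∪ C) → ρbar.IsUnramifiedAt (q : ℕ) :=
    fun q hq => hunr q q.2 (fun h => hq (mem_primesOf.2 (Finset.mem_union_left _ h)))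
  have hS0 := isSmooth_adRep_of_unramified ρbar β₀ (primesOf (S ∪ C)) hunr'
  have hloc : ∀ q : Nat.Primes, IsSmooth (locBasis q)
      (Rep.res (primeLocalToGlobal q) (adRep (resMatrixOf ρbar β₀))) :=
    fun q => isSmooth_resQ _ (primesOf (S ∪ C)) hS0 q
  -- the deficits
  set dfc : Nat.Primes → ℕ := fun q => ∑ j, if cq j = (q : ℕ) then (K j).hh else 0 with hdfc
  have hdfc_eq : ∀ (q : Nat.Primes) (j : Fin m), cq j = (q : ℕ) → dfc q = (K j).hh := by
    intro q j hj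
    rw [hdfc]
    show (∑ j', if cq j' = (q : ℕ) then (K j').hh else 0) = (K j).hh
    rw [Finset.sum_eq_single j]
    · rw [if_pos hj]
    · intro j' _ hj'
      rw [if_neg]
      intro h
      exact hj' (hinj (h.trans hj.symm))
    · intro h
      exact absurd (Finset.mem_univ j) h
  have hdfc_p : dfc (pPrime p) = 0 := by
    rw [hdfc]
    show (∑ j, if cq j = p then (K j).hh else 0) = 0
    exact Finset.sum_eq_zero fun j _ => if_neg (hcp j)
  have hsum : (∑ q ∈ insert (pPrime p) (primesOf C), dfc q) = ∑ j, (K j).hh := by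
    rw [hdfc]
    show (∑ q ∈ insert (pPrime p) (primesOf C),
      ∑ j, if cq j = (q : ℕ) then (K j).hh else 0) = ∑ j, (K j).hh
    rw [Finset.sum_comm]
    refine Finset.sum_congr rfl fun j _ => ?_
    have hmem : (⟨cq j, hprime j⟩ : Nat.Primes) ∈ insert (pPrime p) (primesOf C) :=
      Finset.mem_insert_of_mem (mem_primesOf.2 (hcqC j))
    refine (Finset.sum_eq_single_of_mem _ hmem ?_).trans ?_
    · intro q _ hq
      rw [if_neg]
      intro h
      exact hq (Subtype.ext h.symm)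
    · rw [if_pos rfl]
  have hH0 : ∀ q ∈ primesOf C, Nat.card (ResidueField 𝒪) ^ dfc q ≤
      Nat.card (Ext (smUnit ℤ (locBasis q))
        (YLoc (adRep (resMatrixOf ρbar β₀)) q (hloc q)) 0) := by
    intro q hq
    have hqC := mem_primesOf.1 hq
    obtain ⟨j, -, hj⟩ := Finset.mem_image.1 hqC
    have hqp : (q : ℕ) ≠ p := hj ▸ hcp j
    rw [hdfc_eq q j hj]
    have hkind' := hkind j
    rw [hj] at hkind'
    rcases chainKind_cases_of_ne hkind' hqp with hK | hK
    · rw [hK] at hkind' ⊢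
      show Nat.card (ResidueField 𝒪) ^ 1 ≤ _
      rw [pow_one]
      exact card_le_card_ext_zero_ns h2 ρbar β₀ p q (hloc q) hkind'
    · rw [hK] at hkind' ⊢
      show Nat.card (ResidueField 𝒪) ^ 3 ≤ _
      refine pow_three_le_card_ext_zero (resMatrixOf ρbar β₀) q (hloc q) fun τ => ?_
      obtain ⟨c, hc⟩ := hkind'.2.exists_smul_of_mem_decompositionSubgroup q.2 (primeLocalPlace q)
        (primeLocalPlace_liesOverPrime q) (primeLocalToGlobal_mem_decompositionSubgroup q τ)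
      refine ⟨c, ?_⟩
      rw [resMatrixOf_eq_toMatrix, hc, map_smul, LinearMap.toMatrix_one]
  -- the Taylor–Wiles primes and the count
  obtain ⟨r, hr3, hr⟩ := sel_primes_and_count_dfc hp2 ρbar β₀ habs hdet hsplit hTW hEC
    (primesOf (S ∪ C)) (primesOf C) hpSmin hSigSub hpSigP hunr' hloc dfc hH0 𝓗p
    (by rw [hdfc_p, pow_zero, mul_one]; exact h𝓗p (hloc _)) (primesOf (S ∪ C))
  rw [hsum] at hr3 hr
  refine ⟨r - ∑ j, (K j).hh, r, by omega, fun n => ?_⟩
  obtain ⟨Q, hcard, hdisjA, hdisjS, hQ, hcount⟩ := hr n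
  let e : Fin r → Nat.Primes := fun i => ((Q.equivFin.symm (Fin.cast hcard.symm i) : Q) : Nat.Primes)
  have he_mem : ∀ i, e i ∈ Q := fun i => (Q.equivFin.symm (Fin.cast hcard.symm i)).2
  have he_inj : Function.Injective e := by
    intro i j hij
    have h1 : Q.equivFin.symm (Fin.cast hcard.symm i) = Q.equivFin.symm (Fin.cast hcard.symm j) :=
      Subtype.ext hij
    exact Fin.cast_injective _ (Q.equivFin.symm.injective h1)
  refine ⟨fun i => (e i : ℕ), ⟨?_, ?_, ?_, ?_, ?_⟩, ?_⟩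
  · intro i j hij
    exact he_inj (Subtype.ext hij)
  · intro i
    exact (e i).2
  · intro i hS
    exact (Finset.disjoint_left.1 hdisjS (he_mem i)) (mem_primesOf.2 hS)
  · intro i
    exact dvd_trans (pow_dvd_pow p (Nat.le_succ n)) (hQ _ (he_mem i)).2.1
  · intro i P hP φ hφ
    exact (hQ _ (he_mem i)).2.2.2 P hP φ hφ
  -- the deformation side
  intro T _ _ _ _ _ _ _ hres ρ hρ hdetρ hurρ hunipρ hflatρ hstrictρ hadj I hIm hI
  have hpS' : pPrime p ∈ primesOf (S ∪ C) ∪ Q := Finset.mem_union_left _ hpSmin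
  have hS' : IsSmooth (levelBasis (primesOf (S ∪ C) ∪ Q)) (adRep (resMatrixOf ρbar β₀)) :=
    hS0.of_finer (levelBasis_finer_of_subset Finset.subset_union_left)
  have hST : ∀ v : Nat.Primes, v ∉ primesOf (S ∪ C) ∪ Q →
      (v : ℕ) ∉ S ∪ C ∪ Finset.univ.image (fun i => (e i : ℕ)) := by
    intro v hv hmem
    rcases Finset.mem_union.1 hmem with h | h
    · exact hv (Finset.mem_union_left _ (mem_primesOf.2 h))
    · obtain ⟨i, -, hi⟩ := Finset.mem_image.1 h
      have : e i = v := Subtype.ext hi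
      exact hv (Finset.mem_union_right _ (this ▸ he_mem i))
  have hK : (⨆ j, I j) ≤ maximalIdeal T := iSup_le hIm
  have hSelcard := hcount hpS' hS'
  -- `#Sel ≤ |k|^g`
  have hSel_le : Nat.card ((twDatum hp2 (primesOf (S ∪ C) ∪ Q) hpS').selmer
      (adSm (primesOf (S ∪ C) ∪ Q) (resMatrixOf ρbar β₀) hS')
      (fun v => selFamily p (resMatrixOf ρbar β₀) (primesOf (S ∪ C)) (primesOf C) 𝓗p
        hloc v.1)) ≤
      Nat.card (ResidueField 𝒪) ^ (r - ∑ j, (K j).hh) := by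
    have h3 : Nat.card (ResidueField 𝒪) ^ r =
        Nat.card (ResidueField 𝒪) ^ (r - ∑ j, (K j).hh) *
          Nat.card (ResidueField 𝒪) ^ (∑ j, (K j).hh) := by
      rw [← pow_add]
      congr 1
      omega
    rw [h3] at hSelcard
    exact Nat.le_of_mul_le_mul_right hSelcard (pow_pos (by omega) _)
  refine exists_gen_rel hres (⨆ j, I j) hK (r - ∑ j, (K j).hh) hk3 (fun s hs => ?_)
  have h4 := card_algHom_le_card_selmer_chain hp2 hp𝒪 hdet β₀ (primesOf (S ∪ C))
    (primesOf C) (primesOf (S ∪ C) ∪ Q) hpS' T hres ρ hρ hdetρ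
    (fun v hv => hurρ (v : ℕ) v.2 (hST v hv)) (⨆ j, I j) ?_ ?_ hadj hS' hloc 𝓗p
    (Or.inr (hTp T ρ hdetρ hflatρ hstrictρ)) s hs
  · exact h4.trans (Nat.add_le_add_right hSel_le 1)
  · intro v hvm hvp hvSig
    have hvp' : (v : ℕ) ≠ p := fun h => hvp (Subtype.ext h)
    have hvC : (v : ℕ) ∉ C := fun h => hvSig (mem_primesOf.2 h)
    have hvS : (v : ℕ) ∈ S := (Finset.mem_union.1 (mem_primesOf.1 hvm)).resolve_right hvC
    rcases hS (v : ℕ) hvS hvp' with hram | hnl
    · exact Or.inl ⟨hram, hunipρ (v : ℕ) hvS v.2 hvp' hram⟩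
    · exact Or.inr hnl
  · intro v hv
    have hvC := mem_primesOf.1 hv
    obtain ⟨j, -, hj⟩ := Finset.mem_image.1 hvC
    have := isLocTrivIdeal_mono (le_iSup I j) (hI j)
    rwa [hj] at this

/-- **[SEL-E]**: the cases `flat` and `strict` at `p`. -/
theorem selE_core (p : ℕ) [hp : Fact p.Prime] (hp2 : p ≠ 2) (hp𝒪 : (p : 𝒪) ∈ maximalIdeal 𝒪)
    (ρbar : ResidualGaloisRep (ResidueField 𝒪))
    (habs : ρbar.IsAbsolutelyIrreducible)
    (hdet : (GaloisRepAdic.ofResidualGaloisRep ρbar).DetIsCyclotomic p)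
    (hsplit : ∀ σ : GQ, ∃ α β : ResidueField 𝒪,
      LinearMap.charpoly (ρbar.ρ σ) = (X - C α) * (X - C β))
    (hTW : ∀ (K : Type) [Field K] [Algebra (ResidueField 𝒪) K] (G : Subgroup GQ), G.index = 2 →
      ∀ V : Submodule K (ρbar.baseChange K).V,
        (∀ σ ∈ G, ∀ x ∈ V, (ρbar.baseChange K).ρ σ x ∈ V) → V = ⊥ ∨ V = ⊤)
    (S : Finset ℕ) (hpS : p ∈ S) (hSprime : ∀ q ∈ S, q.Prime)
    (pc : PCase) (hpc : pc ≠ PCase.chain) {m : ℕ} (cq : Fin m → ℕ) (K : Fin m → ChainKind)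
    (hinj : Function.Injective cq) (hprime : ∀ j, (cq j).Prime)
    (hkind : ∀ j, (K j).Holds ρbar p (cq j)) (hcp : ∀ j, cq j ≠ p) (hcS : ∀ j, cq j ∉ S)
    (hS : ∀ ℓ ∈ S, ℓ ≠ p → ¬ ρbar.IsUnramifiedAt ℓ ∨
      (NoLevelRaisingAt ρbar ℓ ∧ ((ℓ : ℕ) : ResidueField 𝒪) ≠ 1))
    (hunr : ∀ ℓ : ℕ, ℓ.Prime → ℓ ∉ S → ρbar.IsUnramifiedAt ℓ) :
    ∃ g r : ℕ, r = g + ∑ j, (K j).hh ∧ ∀ n : ℕ, ∃ Q : Fin r → ℕ,
      RB.IsTWSet ρbar p (S ∪ Finset.univ.image cq) n Q ∧
      ∀ (T : Type) [CommRing T] [IsLocalRing T] [IsNoetherianRing T]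
        [IsAdicComplete (maximalIdeal T) T] [Algebra 𝒪 T] [IsLocalHom (algebraMap 𝒪 T)]
        [Module.Finite 𝒪 T]
        (_ : Function.Surjective (IsLocalRing.residue T ∘ algebraMap 𝒪 T))
        (ρ : GaloisRepAdic T)
        (_ : ρ.residual.IsEquiv
          (ρbar.baseChangeAlong (IsLocalRing.ResidueField.map (algebraMap 𝒪 T))))
        (_ : ρ.DetIsCyclotomic p)
        (_ : ∀ q : ℕ, q.Prime → q ∉ S ∪ Finset.univ.image cq ∪ Finset.univ.image Q →
          ρ.IsUnramifiedAt q)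
        (_ : ∀ ℓ ∈ S, ℓ.Prime → ℓ ≠ p → ¬ ρbar.IsUnramifiedAt ℓ → ρ.IsUnipotentOnInertiaAt ℓ)
        (_ : pc = PCase.flat → ρ.IsFlatAt p)
        (_ : pc = PCase.strict → ρ.IsStrictOrdinaryAt p)
        (_ : Algebra.adjoin 𝒪 (Set.range ρ.trace) = ⊤)
        (I : Fin m → Ideal T) (_ : ∀ j, I j ≤ maximalIdeal T)
        (_ : ∀ j, IsLocTrivIdeal 𝒪 ρ (cq j) (I j)),
        ∃ y : Fin g → T, (∀ i, y i ∈ maximalIdeal T) ∧
          maximalIdeal T = (maximalIdeal 𝒪).map (algebraMap 𝒪 T) ⊔ (⨆ j, I j) ⊔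
            Ideal.span (Set.range y) := by
  classical
  have hEC : ECGlobal p := fun S hpS Z _ hZ => Fermat.Agent.TW.EC.ec_global hp2 S hpS Z hZ
  have hchar : CharP (ResidueField 𝒪) p := charP_residueField_of_mem p hp𝒪
  have hpk : ((p : ℕ) : ResidueField 𝒪) = 0 := CharP.cast_eq_zero (ResidueField 𝒪) p
  have h2 : (2 : ResidueField 𝒪) ≠ 0 := two_ne_zero_of_charP hp2
  have hk1 : 1 < Nat.card (ResidueField 𝒪) := Finite.one_lt_card
  obtain ⟨β⟩ : Nonempty (Module.Basis (Fin 2) (ResidueField 𝒪) ρbar.V) :=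
    ⟨Module.finBasisOfFinrankEq (ResidueField 𝒪) ρbar.V ρbar.finrank_eq⟩
  have hdet' := det_resMatrixOf_of_detIsCyclotomic hpk ρbar β hdet
  have hsplit' := charpoly_resMatrixOf_split ρbar β hsplit
  by_cases hpf : pc = PCase.flat
  · -- the flat case
    by_cases hline : ∃ e₁ : Fin 2 → ResidueField 𝒪, e₁ ≠ 0 ∧
        ∀ g ∈ (padicPlace p).decompositionSubgroup ℚ, ∃ t : ResidueField 𝒪,
          (resMatrixOf ρbar β g).mulVec e₁ = t • e₁
    · -- reducible on the decomposition group at `p`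
      refine selE_generic p hp2 hp𝒪 ρbar habs hdet hsplit hTW hEC S hpS hSprime pc cq K
        hinj hprime hkind hcp hcS hS hunr β (flatOrdCond p (resMatrixOf ρbar β)) ?_ ?_
      · intro T _ _ _ ρ hdetρ hflatρ _
        rintro b hb hs ⟨f, hf, hsurj, ⟨e⟩⟩ htr
        have hdetb := detIsCyclotomic_of_equiv e (detIsCyclotomic_baseChangeAlong f hf ρ hdetρ)
        have hflatb := isFlatAt_of_equiv e
          (isFlatAt_baseChangeAlong_of_surjective f hf ρ hsurj (hflatρ hpf))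
        exact res_adCocycle_mem_flatOrdCond hp2 hpk hb _ hdetb hflatb htr hline
      · intro hsm
        exact card_locCond_flatOrdCond_le p hp2 (resMatrixOf ρbar β) hdet' hsm
    · -- irreducible on the decomposition group at `p`
      have hnl : ¬ ∃ e₁ : Fin 2 → ResidueField 𝒪, e₁ ≠ 0 ∧
          ∀ τ : ExtCitation.primeLocalGaloisGroup (ExtCitation.pPrime p), ∃ t : ResidueField 𝒪,
            (resMatrixOf ρbar β
              (ExtCitation.primeLocalToGlobal (ExtCitation.pPrime p) τ)).mulVec e₁ = t • e₁ :=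
        fun h => hline (exists_decomposition_line_of_exists_local_line _
          (resMatrixOf_factors ρbar β) h)
      refine selE_generic p hp2 hp𝒪 ρbar habs hdet hsplit hTW hEC S hpS hSprime pc cq K
        hinj hprime hkind hcp hcS hS hunr β (flatIrrCond p (resMatrixOf ρbar β)) ?_ ?_
      · intro T _ _ _ ρ hdetρ hflatρ _
        rintro b hb hs ⟨f, hf, hsurj, ⟨e⟩⟩ htr
        have hflatb := isFlatAt_of_equiv e
          (isFlatAt_baseChangeAlong_of_surjective f hf ρ hsurj (hflatρ hpf))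
        exact res_adCocycle_mem_flatIrrCond hpk hb _ hflatb htr
      · intro hsm
        exact card_locCond_YLoc_le_of_card_le (resMatrixOf ρbar β) _
          (card_flatIrrCond_le hp2 (resMatrixOf ρbar β) hdet' hsplit' hnl) hsm
  · -- the strictly ordinary case
    have hps : pc = PCase.strict := by
      cases pc with
      | flat => exact absurd rfl hpf
      | strict => rfl
      | chain => exact absurd rfl hpc
    refine selE_generic p hp2 hp𝒪 ρbar habs hdet hsplit hTW hEC S hpS hSprime pc cq K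
      hinj hprime hkind hcp hcS hS hunr β (ordCond p (resMatrixOf ρbar β)) ?_ ?_
    · intro T _ _ _ ρ hdetρ _ hstrictρ
      rintro b hb hs ⟨f, hf, hsurj, ⟨e⟩⟩ htr
      have hdetb := detIsCyclotomic_of_equiv e (detIsCyclotomic_baseChangeAlong f hf ρ hdetρ)
      have hordb := isStrictOrdinaryAt_of_equiv e
        (isStrictOrdinaryAt_baseChangeAlong f hf ρ (hstrictρ hps))
      exact res_adCocycle_mem_ordCond hp2 hpk ρbar β hb hs hdetb hordb htr
    · intro hsm
      exact card_locCond_ordCond_le p hp2 (resMatrixOf ρbar β) hsm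

end Fermat.Agent.ML.SelE
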