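/-
PROJECT ML (S59) — IA' / [SEL-E] (helper4), file 2: **the ideal of traceless coordinates at `Σ`
trivialises `ρ` locally at the primes of `Σ`** (`RB.locCoordIdeal` is an `IsLocTrivIdeal`).

Modulo `J ⊇ locCoordIdeal ρ β Σ + 𝔪² + λ T` the matrices of `ρ(σ)`, `σ ∈ D_v`, `v ∈ Σ`, in the basis
`β` are scalars `d`; `d² ≡ det ρ(σ) ≡ a` (a natural number: cyclotomic determinant), so `d` is
congruent to the lift to `𝒪` of its residue class (`p ≠ 2`).
-/
import Mathlib
import Fermat.Agent.RB.IFACE_helper9_Sel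
import Fermat.Agent.ML.IFACE_helper9_Chart
import Fermat.Agent.TW.CondCocycle_helper6

set_option autoImplicit false
set_option linter.unusedSectionVars false

open IsLocalRing

namespace Fermat.Agent.ML.SelE

/-- `Ω = AlgebraicClosure ℚ`. -/
local notation "Ω" => AlgebraicClosure ℚ
/-- `GQ = Gal(Ω/ℚ)`. -/
local notation "GQ" => (AlgebraicClosure ℚ ≃ₐ[ℚ] AlgebraicClosure ℚ)

variable {𝒪 : Type} [CommRing 𝒪] [IsLocalRing 𝒪]
  {T : Type} [CommRing T] [IsLocalRing T] [Algebra 𝒪 T] [IsLocalHom (algebraMap 𝒪 T)]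

/-- a nonunit of `𝒪` is mapped into `λ T` -/
theorem algebraMap_mem_map_of_algebraMap_mem {a : 𝒪} (h : algebraMap 𝒪 T a ∈ maximalIdeal T) :
    algebraMap 𝒪 T a ∈ (maximalIdeal 𝒪).map (algebraMap 𝒪 T) := by
  refine Ideal.mem_map_of_mem _ ?_
  rw [mem_maximalIdeal, mem_nonunits_iff]
  intro hu
  exact h (hu.map (algebraMap 𝒪 T))

/-- **`locCoordIdeal` trivialises `ρ` locally at the primes of `Σ`.** -/
theorem isLocTrivIdeal_locCoordIdeal {p : ℕ} [hp : Fact p.Prime] (hp2 : p ≠ 2)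
    (hres : Function.Surjective (residue T ∘ algebraMap 𝒪 T))
    (ρ : GaloisRepAdic T) (hdetρ : ρ.DetIsCyclotomic p)
    (β : Module.Basis (Fin 2) T ρ.V) (Sig : Finset ℕ) {v : ℕ} (hv : v ∈ Sig) :
    IsLocTrivIdeal 𝒪 ρ v (RB.locCoordIdeal ρ β Sig) := by
  intro J hIJ hm2 hlam P hP
  refine ⟨β, fun σ hσ i j => ?_⟩
  by_cases hJtop : J = ⊤
  · exact ⟨0, by rw [hJtop]; exact Submodule.mem_top⟩
  have hJm : J ≤ maximalIdeal T := le_maximalIdeal hJtop
  set M := LinearMap.toMatrix β β (ρ.ρ σ) with hM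
  have h1 : M 0 0 - M 1 1 ∈ J :=
    hIJ (Ideal.subset_span ⟨v, hv, P, hP, σ, hσ, Or.inl rfl⟩)
  have h2 : M 0 1 ∈ J :=
    hIJ (Ideal.subset_span ⟨v, hv, P, hP, σ, hσ, Or.inr (Or.inl rfl)⟩)
  have h3 : M 1 0 ∈ J :=
    hIJ (Ideal.subset_span ⟨v, hv, P, hP, σ, hσ, Or.inr (Or.inr rfl)⟩)
  -- the determinant
  have hdetM : M.det = LinearMap.det (ρ.ρ σ) := LinearMap.det_toMatrix β (ρ.ρ σ)
  have hdetU : IsUnit M.det := by
    rw [hdetM]
    have h : LinearMap.det (ρ.ρ σ) * LinearMap.det (ρ.ρ σ⁻¹) = 1 := by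
      rw [← map_mul, ← map_mul, mul_inv_cancel, map_one, map_one]
    exact IsUnit.of_mul_eq_one _ h
  obtain ⟨a, ha⟩ := Fermat.Agent.TW.exists_cyclotomic_exponent p σ
  have hdeta : M.det - (a : T) ∈ J := by
    have h4 := hdetρ.2 1 σ a (fun μ hμ => ha μ (by rwa [pow_one] at hμ))
    rw [← hdetM, pow_one] at h4
    have h5 : ((p : ℕ) : T) ∈ J := by
      have h6 : algebraMap 𝒪 T ((p : ℕ) : 𝒪) ∈ maximalIdeal T := by
        rw [map_natCast]
        exact hdetρ.1
      have h7 := algebraMap_mem_map_of_algebraMap_mem h6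
      rw [map_natCast] at h7
      exact hlam h7
    exact (Ideal.span_singleton_le_iff_mem J).2 h5 h4
  -- the scalar
  set d := M 1 1 with hd
  have hdd : M.det - d ^ 2 ∈ J := by
    have : M.det - d ^ 2 = d * (M 0 0 - M 1 1) - M 0 1 * M 1 0 := by
      rw [Matrix.det_fin_two]
      ring
    rw [this]
    exact J.sub_mem (J.mul_mem_left _ h1) (J.mul_mem_right _ h2)
  have hd2U : IsUnit (d ^ 2) := by
    have h4 : d ^ 2 ∉ maximalIdeal T := by
      intro h
      have h5 : M.det ∈ maximalIdeal T := by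
        have := (maximalIdeal T).add_mem (hJm hdd) h
        rwa [sub_add_cancel] at this
      exact h5 hdetU
    rwa [mem_maximalIdeal, mem_nonunits_iff, not_not] at h4
  have hdU : IsUnit d := (isUnit_pow_iff two_ne_zero).1 hd2U
  -- the lift to `𝒪` of the residue class of `d`
  obtain ⟨a₀, ha₀⟩ := hres (residue T d)
  set α := algebraMap 𝒪 T a₀ with hα
  have hαd : d - α ∈ maximalIdeal T := by
    rw [← residue_eq_zero_iff, map_sub, sub_eq_zero]
    exact ha₀.symm
  have hα2 : α ^ 2 - (a : T) ∈ J := by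
    have h4 : algebraMap 𝒪 T (a₀ ^ 2 - (a : 𝒪)) ∈ maximalIdeal T := by
      rw [map_sub, map_pow, map_natCast]
      have h5 : α ^ 2 - (a : T) = (M.det - (a : T)) - (M.det - d ^ 2) - (d - α) * (d + α) := by
        ring
      rw [h5]
      exact (maximalIdeal T).sub_mem ((maximalIdeal T).sub_mem (hJm hdeta) (hJm hdd))
        ((maximalIdeal T).mul_mem_right _ hαd)
    have h6 := hlam (algebraMap_mem_map_of_algebraMap_mem h4)
    rwa [map_sub, map_pow, map_natCast] at h6
  have hprod : (d - α) * (d + α) ∈ J := by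
    have h5 : (d - α) * (d + α) = (M.det - (a : T)) - (M.det - d ^ 2) - (α ^ 2 - (a : T)) := by
      ring
    rw [h5]
    exact J.sub_mem (J.sub_mem hdeta hdd) hα2
  have h2U : IsUnit (2 : T) := by
    by_contra h
    have h4 : (2 : T) ∈ maximalIdeal T := by rwa [mem_maximalIdeal, mem_nonunits_iff]
    have hcop : Nat.Coprime 2 p :=
      (Nat.coprime_primes Nat.prime_two hp.out).2 (Ne.symm hp2)
    have h5 : ((Nat.gcd 2 p : ℕ) : T) ∈ maximalIdeal T := by
      have hb := Nat.gcd_eq_gcd_ab 2 p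
      have h6 : ((Nat.gcd 2 p : ℕ) : T) = (2 : T) * ((Nat.gcdA 2 p : ℤ) : T) +
          ((p : ℕ) : T) * ((Nat.gcdB 2 p : ℤ) : T) := by
        have := congrArg (fun z : ℤ => (z : T)) hb
        simpa using this
      rw [h6]
      exact (maximalIdeal T).add_mem ((maximalIdeal T).mul_mem_right _ h4)
        ((maximalIdeal T).mul_mem_right _ hdetρ.1)
    rw [hcop, Nat.cast_one] at h5
    exact (maximalIdeal T).ne_top_iff_one.1 (maximalIdeal.isMaximal T).ne_top h5
  have hsumU : IsUnit (d + α) := by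
    have h4 : d + α ∉ maximalIdeal T := by
      intro h
      have h5 : 2 * d ∈ maximalIdeal T := by
        have := (maximalIdeal T).add_mem h hαd
        have h6 : d + α + (d - α) = 2 * d := by ring
        rwa [h6] at this
      exact h5 (h2U.mul hdU)
    rwa [mem_maximalIdeal, mem_nonunits_iff, not_not] at h4
  have hdα : d - α ∈ J := by
    obtain ⟨u, hu⟩ := hsumU
    have h4 : d - α = (d - α) * (d + α) * ((u⁻¹ : Tˣ) : T) := by
      rw [← hu, mul_assoc, Units.mul_inv, mul_one]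
    rw [h4]
    exact J.mul_mem_right _ hprod
  -- the four entries
  fin_cases i <;> fin_cases j
  · refine ⟨a₀, ?_⟩
    show M 0 0 - α ∈ J
    have : M 0 0 - α = (M 0 0 - M 1 1) + (d - α) := by ring
    rw [this]
    exact J.add_mem h1 hdα
  · refine ⟨0, ?_⟩
    show M 0 1 - algebraMap 𝒪 T 0 ∈ J
    rwa [map_zero, sub_zero]
  · refine ⟨0, ?_⟩
    show M 1 0 - algebraMap 𝒪 T 0 ∈ J
    rwa [map_zero, sub_zero]
  · exact ⟨a₀, hdα⟩

end Fermat.Agent.ML.SelE
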