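/-
PROJECT ML (S59) — IA' / [SEL-E] (helper4), file 3: **the Selmer computation of Ihara avoidance in
the ML setting** (`RB.SelStatement` with (i) `p = 3` allowed and the condition `flat | strict` at
`p`, (ii) the auxiliary primes `ℓ ∈ S` without level raising, `ℓ ≢ 1 mod p`, (iii) the hypotheses on
the deformation listed one by one: NOTHING is assumed at the primes of `Σ` and at the Taylor–Wiles
primes, unipotency on inertia only at the primes `ℓ ∈ S ∖ (Σ ∪ {p})` where `ρ̄` is ramified).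

`selE_sig` : `∃ g r, r = 3 |Σ| + g`, Taylor–Wiles sets `Q_n`, and
`𝔪_T = λ T + locCoordIdeal ρ β Σ + (y₁, …, y_g)`.
-/
import Mathlib
import Fermat.Agent.ML.SELE_helper4_Generic
import Fermat.Agent.ML.SELE_helper4_LocCoord

set_option autoImplicit false
set_option linter.unusedSectionVars false
set_option linter.style.haveILetI false
set_option linter.unusedVariables false

open Polynomial IsLocalRing

namespace Fermat.Agent.ML.SelE

open Fermat.Agent.TW Fermat.Agent.S53 Fermat.Agent.RB.SEL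

/-- `Ω = AlgebraicClosure ℚ`. -/
local notation "Ω" => AlgebraicClosure ℚ
/-- `GQ = Gal(Ω/ℚ)`. -/
local notation "GQ" => (AlgebraicClosure ℚ ≃ₐ[ℚ] AlgebraicClosure ℚ)

variable {𝒪 : Type} [CommRing 𝒪] [IsDomain 𝒪] [IsDiscreteValuationRing 𝒪]
  [IsAdicComplete (maximalIdeal 𝒪) 𝒪] [Finite (ResidueField 𝒪)]

/-- `locCoordIdeal` is monotone in `Σ` -/
theorem locCoordIdeal_mono {T : Type} [CommRing T] [IsLocalRing T] (ρ : GaloisRepAdic T)
    (β : Module.Basis (Fin 2) T ρ.V) {Sig Sig' : Finset ℕ} (h : Sig ⊆ Sig') :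
    RB.locCoordIdeal ρ β Sig ≤ RB.locCoordIdeal ρ β Sig' := by
  unfold RB.locCoordIdeal
  refine Ideal.span_mono ?_
  rintro a ⟨v, hv, P, hP, σ, hσ, ha⟩
  exact ⟨v, h hv, P, hP, σ, hσ, ha⟩

/-- `locCoordIdeal ρ β Σ` is the sum of the `locCoordIdeal ρ β {v}`, `v ∈ Σ` -/
theorem locCoordIdeal_eq_iSup {T : Type} [CommRing T] [IsLocalRing T] (ρ : GaloisRepAdic T)
    (β : Module.Basis (Fin 2) T ρ.V) (Sig : Finset ℕ) {m : ℕ} (cq : Fin m → ℕ)
    (hcq : ∀ j, cq j ∈ Sig) (hsurj : ∀ v ∈ Sig, ∃ j, cq j = v) :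
    (⨆ j, RB.locCoordIdeal ρ β {cq j}) = RB.locCoordIdeal ρ β Sig := by
  refine le_antisymm (iSup_le fun j => locCoordIdeal_mono ρ β ?_) ?_
  · intro v hv
    rw [Finset.mem_singleton] at hv
    exact hv ▸ hcq j
  · unfold RB.locCoordIdeal
    rw [Ideal.span_le]
    rintro a ⟨v, hv, P, hP, σ, hσ, ha⟩
    obtain ⟨j, rfl⟩ := hsurj v hv
    exact (le_iSup (fun j => Ideal.span {a : T | ∃ v ∈ ({cq j} : Finset ℕ),
      ∃ (P : ValuationSubring (AlgebraicClosure ℚ)) (_ : P.LiesOverPrime v) (σ : GQ)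
        (_ : σ ∈ P.decompositionSubgroup ℚ),
        a = LinearMap.toMatrix β β (ρ.ρ σ) 0 0 - LinearMap.toMatrix β β (ρ.ρ σ) 1 1 ∨
        a = LinearMap.toMatrix β β (ρ.ρ σ) 0 1 ∨
        a = LinearMap.toMatrix β β (ρ.ρ σ) 1 0}) j)
      (Ideal.subset_span ⟨cq j, Finset.mem_singleton_self _, P, hP, σ, hσ, ha⟩)

/-- **[SEL-E]**: the Selmer computation of Ihara avoidance, hypotheses on `ρ` listed one by one. -/
theorem selE_sig (p : ℕ) [hp : Fact p.Prime] (hp2 : p ≠ 2) (hp𝒪 : (p : 𝒪) ∈ maximalIdeal 𝒪)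
    (ρbar : ResidualGaloisRep (ResidueField 𝒪))
    (habs : ρbar.IsAbsolutelyIrreducible)
    (hdet : (GaloisRepAdic.ofResidualGaloisRep ρbar).DetIsCyclotomic p)
    (hsplit : ∀ σ : GQ, ∃ α β : ResidueField 𝒪,
      LinearMap.charpoly (ρbar.ρ σ) = (X - C α) * (X - C β))
    (hTW : ∀ (K : Type) [Field K] [Algebra (ResidueField 𝒪) K] (G : Subgroup GQ), G.index = 2 →
      ∀ V : Submodule K (ρbar.baseChange K).V,
        (∀ σ ∈ G, ∀ x ∈ V, (ρbar.baseChange K).ρ σ x ∈ V) → V = ⊥ ∨ V = ⊤)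
    (S Sig : Finset ℕ) (hpS : p ∈ S) (hSprime : ∀ q ∈ S, q.Prime) (hSigS : Sig ⊆ S)
    (hpSig : p ∉ Sig) (hscal : ∀ v ∈ Sig, RB.ResFrobScalarAt ρbar p v)
    (pc : PCase) (hpc : pc ≠ PCase.chain)
    (hS : ∀ ℓ ∈ S, ℓ ≠ p → ℓ ∉ Sig → ¬ ρbar.IsUnramifiedAt ℓ ∨
      (NoLevelRaisingAt ρbar ℓ ∧ ((ℓ : ℕ) : ResidueField 𝒪) ≠ 1))
    (hunr : ∀ ℓ : ℕ, ℓ.Prime → ℓ ∉ S → ρbar.IsUnramifiedAt ℓ) :
    ∃ g r : ℕ, r = 3 * Sig.card + g ∧ ∀ n : ℕ, ∃ Q : Fin r → ℕ, RB.IsTWSet ρbar p S n Q ∧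
      ∀ (T : Type) [CommRing T] [IsLocalRing T] [IsNoetherianRing T]
        [IsAdicComplete (maximalIdeal T) T] [Algebra 𝒪 T] [IsLocalHom (algebraMap 𝒪 T)]
        [Module.Finite 𝒪 T]
        (_ : Function.Surjective (IsLocalRing.residue T ∘ algebraMap 𝒪 T))
        (ρ : GaloisRepAdic T)
        (_ : ρ.residual.IsEquiv
          (ρbar.baseChangeAlong (IsLocalRing.ResidueField.map (algebraMap 𝒪 T))))
        (_ : ρ.DetIsCyclotomic p)
        (_ : ∀ q : ℕ, q.Prime → q ∉ S ∪ Finset.univ.image Q → ρ.IsUnramifiedAt q)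
        (_ : ∀ ℓ ∈ S, ℓ.Prime → ℓ ≠ p → ℓ ∉ Sig → ¬ ρbar.IsUnramifiedAt ℓ →
          ρ.IsUnipotentOnInertiaAt ℓ)
        (_ : pc = PCase.flat → ρ.IsFlatAt p)
        (_ : pc = PCase.strict → ρ.IsStrictOrdinaryAt p)
        (_ : Algebra.adjoin 𝒪 (Set.range ρ.trace) = ⊤)
        (β : Module.Basis (Fin 2) T ρ.V),
        ∃ y : Fin g → T, (∀ j, y j ∈ maximalIdeal T) ∧
          maximalIdeal T = (maximalIdeal 𝒪).map (algebraMap 𝒪 T) ⊔ RB.locCoordIdeal ρ β Sig ⊔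
            Ideal.span (Set.range y) := by
  classical
  -- the enumeration of `Σ`
  set m := Sig.card with hm
  set cq : Fin m → ℕ := fun j => ((Sig.equivFin.symm j : Sig) : ℕ) with hcq
  have hcqmem : ∀ j, cq j ∈ Sig := fun j => (Sig.equivFin.symm j).2
  have hcqsurj : ∀ v ∈ Sig, ∃ j, cq j = v := fun v hv =>
    ⟨Sig.equivFin ⟨v, hv⟩, by rw [hcq]; simp⟩
  have hinj : Function.Injective cq := fun i j hij =>
    Sig.equivFin.symm.injective (Subtype.ext hij)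
  have himage : Finset.univ.image cq = Sig := by
    ext v
    rw [Finset.mem_image]
    constructor
    · rintro ⟨j, -, rfl⟩
      exact hcqmem j
    · intro hv
      obtain ⟨j, hj⟩ := hcqsurj v hv
      exact ⟨j, Finset.mem_univ j, hj⟩
  have hunion : S \ Sig ∪ Finset.univ.image cq = S := by
    rw [himage]
    exact Finset.sdiff_union_of_subset hSigS
  have hcp : ∀ j, cq j ≠ p := fun j h => hpSig (h ▸ hcqmem j)
  obtain ⟨g, r, hr, hQ⟩ := selE_core p hp2 hp𝒪 ρbar habs hdet hsplit hTW (S \ Sig)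
    (Finset.mem_sdiff.2 ⟨hpS, hpSig⟩) (fun q hq => hSprime q (Finset.mem_sdiff.1 hq).1) pc hpc cq
    (fun _ => ChainKind.sc) hinj (fun j => hSprime _ (hSigS (hcqmem j)))
    (fun j => ⟨hcp j, hscal _ (hcqmem j)⟩) hcp
    (fun j h => (Finset.mem_sdiff.1 h).2 (hcqmem j))
    (fun ℓ hℓ hℓp => hS ℓ (Finset.mem_sdiff.1 hℓ).1 hℓp (Finset.mem_sdiff.1 hℓ).2)
    (fun ℓ hℓ hℓS => by
      by_cases hℓSig : ℓ ∈ Sig
      · exact (hscal ℓ hℓSig).2.1
      · exact hunr ℓ hℓ (fun h => hℓS (Finset.mem_sdiff.2 ⟨h, hℓSig⟩)))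
  have hsum : (∑ _j : Fin m, ChainKind.sc.hh) = 3 * Sig.card := by
    rw [Finset.sum_const, Finset.card_univ, Fintype.card_fin, smul_eq_mul, mul_comm]
    rfl
  rw [hsum] at hr
  refine ⟨g, r, by omega, fun n => ?_⟩
  obtain ⟨Q, hQtw, hQ⟩ := hQ n
  rw [hunion] at hQtw
  refine ⟨Q, hQtw, ?_⟩
  intro T _ _ _ _ _ _ _ hres ρ hρ hdetρ hurρ hunipρ hflatρ hstrictρ hadj β
  obtain ⟨β₀⟩ : Nonempty (Module.Basis (Fin 2) (ResidueField 𝒪) ρbar.V) :=
    ⟨Module.finBasisOfFinrankEq (ResidueField 𝒪) ρbar.V ρbar.finrank_eq⟩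
  obtain ⟨b, hb⟩ := exists_basis_isStrictLift ρbar β₀ ρ hρ
  have hscalD : ∀ v ∈ Sig, ∀ P : ValuationSubring Ω, P.LiesOverPrime v →
      ∀ σ ∈ P.decompositionSubgroup ℚ, ∃ c : ResidueField 𝒪,
        resMatrixOf ρbar β₀ σ = c • (1 : M2 (ResidueField 𝒪)) := by
    intro v hv P hP σ hσ
    obtain ⟨c, hc⟩ := (hscal v hv).exists_smul_of_mem_decompositionSubgroup
      (hSprime v (hSigS hv)) P hP hσ
    refine ⟨c, ?_⟩
    rw [resMatrixOf_eq_toMatrix, hc, map_smul, LinearMap.toMatrix_one]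
  have hKm : RB.locCoordIdeal ρ β Sig ≤ maximalIdeal T :=
    locCoordIdeal_le_maximalIdeal ρbar β₀ ρ b β Sig hb hscalD
  have hIsingle : ∀ j, RB.locCoordIdeal ρ β {cq j} ≤ RB.locCoordIdeal ρ β Sig := fun j =>
    locCoordIdeal_mono ρ β (Finset.singleton_subset_iff.2 (hcqmem j))
  obtain ⟨y, hy, hmax⟩ := hQ T hres ρ hρ hdetρ
    (fun q hq hqn => hurρ q hq (by rwa [hunion] at hqn))
    (fun ℓ hℓ hℓprime hℓp hram =>
      hunipρ ℓ (Finset.mem_sdiff.1 hℓ).1 hℓprime hℓp (Finset.mem_sdiff.1 hℓ).2 hram)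
    hflatρ hstrictρ hadj (fun j => RB.locCoordIdeal ρ β {cq j})
    (fun j => (hIsingle j).trans hKm)
    (fun j => isLocTrivIdeal_locCoordIdeal hp2 hres ρ hdetρ β {cq j}
      (Finset.mem_singleton_self _))
  rw [locCoordIdeal_eq_iSup ρ β Sig cq hcqmem hcqsurj] at hmax
  exact ⟨y, hy, hmax⟩

end Fermat.Agent.ML.SelE
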