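/-
PROJECT ML (S59) — IA' / [SEL-E] (helper4), file 4: **`selStatementE : SelStatementE`** — the literal
of `ML/IFACE_helper9_IA.lean` (origin/helper9 @ace46ea).
-/
import Mathlib
import Fermat.Agent.ML.IFACE_helper9_IA
import Fermat.Agent.ML.SELE_helper4_Main

set_option autoImplicit false

namespace Fermat.Agent.ML

/-- **[SEL-E]** -/
theorem selStatementE : SelStatementE := by
  intro 𝒪 _ _ _ _ _ p _ hp2 hp𝒪 ρbar habs hdet hsplit hTW S Sig hpS hSprime hSigS hpSig pc hpc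
    hscal hS hunr
  obtain ⟨g, r, hr, hQ⟩ := SelE.selE_sig p hp2 hp𝒪 ρbar habs hdet hsplit hTW S Sig hpS hSprime
    hSigS hpSig hscal pc hpc hS hunr
  refine ⟨g, r, hr, fun n => ?_⟩
  obtain ⟨Q, hQtw, hQ⟩ := hQ n
  refine ⟨Q, hQtw, ?_⟩
  intro T _ _ _ _ _ _ _ hres ρ hρ htype hadj β
  obtain ⟨hdetρ, hurρ, hunipρ, hflatρ, hstrictρ⟩ := htype
  exact hQ T hres ρ hρ hdetρ hurρ (fun ℓ hℓ hℓp hℓne hℓSig _ => hunipρ ℓ hℓ hℓp hℓne hℓSig)
    hflatρ hstrictρ hadj β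

end Fermat.Agent.ML
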