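/-
PROJECT ML (S59) — lead — **INTERFACE of [TOP′]: the residual-side dictionary** (owner of the proof:
helper4, `ML/TOPIA_helper4_Resid.lean`; shared with [TOP-L], helper9).

`ResidDictStatement`: for `CurveHyp p W` there is `ρ₀ : ResidualGaloisRep (ResidueField ℤ_[p])`
(`= D.ρ.residual` for `D : RhoWData W p`) with
  (v)   the Frobenius characteristic polynomials at the good primes `ℓ ≠ p`;
  (vi)  the eigenform bridge: if `a_ℓ(g) ≡ a_ℓ(W)` outside a finite set for a normalised eigenform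
        `g` of level `N`, the Frobenius characteristic polynomials of `ρ₀` at ALL primes `ℓ ∤ N p`
        are those of `g` (S29 + Chebotarev + Brauer–Nesbitt);
and, for every ring homomorphism `ψ₀ : ResidueField ℤ_[p] →+* k`, `ρbar := ρ₀.baseChangeAlong ψ₀`:
  (iii) absolutely irreducible, `det ρbar(c) = -1`, irreducible on the subgroups of index `2`;
  (i)   `ρbar` unramified at `q ≠ p` iff `UnrArith W p q`;  the scalar primes are `ResFrobScalarAt`;
  (ii)  the auxiliary primes are of type (A2);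
  (iv)  ordinary at `p` if `p ∣ Δ`.
-/
import Mathlib
import Fermat.Agent.ML.IFACE_helper9_IA
import Fermat.Prelude.Def_GaloisRep_ComplexConjugation

set_option autoImplicit false

open Polynomial IsLocalRing

namespace Fermat.Agent.ML

local notation "Ω" => AlgebraicClosure ℚ
local notation "GQ" => (AlgebraicClosure ℚ ≃ₐ[ℚ] AlgebraicClosure ℚ)
local notation "ℤbar" => integralClosure ℤ ℂ

/-- **the residual-side dictionary** of [TOP′] and [TOP-L]. -/
def ResidDictStatement : Prop :=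
  ∀ (p : ℕ) [Fact p.Prime] (W : WeierstrassCurve ℤ), CurveHyp p W →
    ∃ ρ₀ : ResidualGaloisRep (ResidueField ℤ_[p]),
      -- (v) Frobenius at the good primes
      (∀ ℓ : ℕ, ℓ.Prime → ℓ ≠ p → W.IsGoodPrimeFor ℓ →
        ∀ A : ValuationSubring Ω, A.LiesOverPrime ℓ → ∀ σ : GQ, A.IsFrobeniusAt σ ℓ →
          LinearMap.charpoly (ρ₀.ρ σ) =
            X ^ 2 - C (((W.apOfModel ℓ : ℤ)) : ResidueField ℤ_[p]) * X +
              C ((ℓ : ℕ) : ResidueField ℤ_[p])) ∧
      -- (vi) the eigenform bridge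
      (∀ (N : ℕ) [NeZero N] (g : CuspForm (CongruenceSubgroup.Gamma0 N) 2),
        g.IsNormalizedEigenform →
        ∀ (k' : Type) [Field k'] [CharP k' p] (φ : ℤbar →+* k')
          (ψ : ResidueField ℤ_[p] →+* k') (S₀ : Finset ℕ),
          (∀ ℓ : ℕ, ℓ.Prime → ℓ ∉ S₀ → ∃ a : ℤbar, (a : ℂ) = ModularFormClass.qCoeff g ℓ ∧
            φ a = ((W.apOfModel ℓ : ℤ) : k')) →
          ∀ ℓ : ℕ, ℓ.Prime → ¬ ℓ ∣ N → ℓ ≠ p →
            ∀ A : ValuationSubring Ω, A.LiesOverPrime ℓ → ∀ σ : GQ, A.IsFrobeniusAt σ ℓ →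
              ∃ a : ℤbar, (a : ℂ) = ModularFormClass.qCoeff g ℓ ∧
                (LinearMap.charpoly (ρ₀.ρ σ)).map ψ =
                  X ^ 2 - C (φ a) * X + C ((ℓ : ℕ) : k')) ∧
      -- for every coefficient field
      ∀ (k : Type) [Field k] (ψ₀ : ResidueField ℤ_[p] →+* k),
        (ρ₀.baseChangeAlong ψ₀).IsAbsolutelyIrreducible ∧
        LinearMap.det ((ρ₀.baseChangeAlong ψ₀).ρ complexConjugation) = -1 ∧
        (∀ (K : Type) [Field K] [Algebra k K] (G : Subgroup GQ), G.index = 2 →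
          ∀ V : Submodule K ((ρ₀.baseChangeAlong ψ₀).baseChange K).V,
            (∀ σ ∈ G, ∀ x ∈ V, ((ρ₀.baseChangeAlong ψ₀).baseChange K).ρ σ x ∈ V) →
              V = ⊥ ∨ V = ⊤) ∧
        (∀ q : ℕ, q.Prime → q ≠ p →
          ((ρ₀.baseChangeAlong ψ₀).IsUnramifiedAt q ↔ UnrArith W p q)) ∧
        (∀ v : ℕ, v.Prime → v ≠ p → UnrArith W p v → ScalarAt W p v →
          RB.ResFrobScalarAt (ρ₀.baseChangeAlong ψ₀) p v) ∧
        (∀ r : ℕ, IsAuxPrime W p r →
          NoLevelRaisingAt (ρ₀.baseChangeAlong ψ₀) r ∧ ((r : ℕ) : k) ≠ 1) ∧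
        ((p : ℤ) ∣ W.Δ →
          (GaloisRepAdic.ofResidualGaloisRep (ρ₀.baseChangeAlong ψ₀)).IsOrdinaryAt p)

end Fermat.Agent.ML
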