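/-
PROJECT ML (S59) — lead — **[TOP′]: `topIAStatementE_of : ResidDictStatement → TopIAStatementE`**
(`TopIAStatementE = NewRamifiedE → IharaAvoidanceDatumE → IAStepStatement`, helper9's
`ML/IFACE_helper9_IA.lean`): port of `RB/TOPIA_helper1_Main.topIA` from the Frey curve to a
semistable curve `W` with the residual-side dictionary `ResidDictStatement`
(`ML/IFACE_lead_TopIA.lean`, helper4).

* `iaOneStep_core` : one prime `v ∈ Σ` is removed from the level `N' ∏ Σ`, under the hypothesis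
  (used in the peu ramifiée case only) that `ρ̄` does not occur at the level `(N' / p) ∏ Σ`;
* `iaOneStep`      : the same without that hypothesis (if `ρ̄` occurs at the level `(N' / p) ∏ Σ`:
  work there, where the mode at `p` is `flat`, and go up by `p`);
* `topIAStatementE_of` : induction on `Σ`.
-/
import Mathlib
import Fermat.Agent.ML.IFACE_lead_TopIA
import Fermat.Agent.ML.LEVOPT_lead_Main
import Fermat.Agent.RB.TOPIA_helper1_Main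
import Fermat.Agent.RB.TOPD3_lead_Occur

set_option autoImplicit false
set_option linter.unusedSectionVars false
set_option linter.unusedVariables false
set_option linter.style.haveILetI false

open Polynomial IsLocalRing CuspForm

namespace Fermat.Agent.ML.TOPIA

open Fermat.Agent.RB Fermat.Agent.RB.TOPIA Fermat.Agent.MP Fermat.Agent.GR
  Fermat.Agent.ML.LevOpt

local notation "Ω" => AlgebraicClosure ℚ
local notation "GQ" => (AlgebraicClosure ℚ ≃ₐ[ℚ] AlgebraicClosure ℚ)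
local notation "ℤbar" => integralClosure ℤ ℂ

/-! ### the level `N' ∏ Σ` -/

theorem sqf_mul_prod {N' : ℕ} {Sig : Finset ℕ} (hN' : Squarefree N')
    (hSig : ∀ v ∈ Sig, v.Prime ∧ ¬ v ∣ N') :
    Squarefree (N' * ∏ v ∈ Sig, v) ∧
      ∀ ℓ : ℕ, ℓ.Prime → (ℓ ∣ N' * ∏ v ∈ Sig, v ↔ ℓ ∣ N' ∨ ℓ ∈ Sig) := by
  classical
  induction Sig using Finset.induction_on with
  | empty =>
    refine ⟨by simpa using hN', fun ℓ hℓ => by simp⟩
  | insert a s ha ih =>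
    have ih' := ih (fun v hv => hSig v (Finset.mem_insert_of_mem hv))
    obtain ⟨hap, haN⟩ := hSig a (Finset.mem_insert_self a s)
    rw [Finset.prod_insert ha]
    have e : N' * (a * ∏ v ∈ s, v) = (N' * ∏ v ∈ s, v) * a := by ring
    rw [e]
    have hnd : ¬ a ∣ N' * ∏ v ∈ s, v := by
      rw [ih'.2 a hap]
      rintro (h | h)
      · exact haN h
      · exact ha h
    refine ⟨?_, ?_⟩
    · rw [Nat.squarefree_mul_iff]
      exact ⟨((Nat.Prime.coprime_iff_not_dvd hap).2 hnd).symm, ih'.1, hap.prime.squarefree⟩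
    · intro ℓ hℓ
      rw [hℓ.dvd_mul, ih'.2 ℓ hℓ, Finset.mem_insert, Nat.prime_dvd_prime_iff_eq hℓ hap]
      tauto

/-! ### the core -/

set_option maxHeartbeats 1600000 in
/-- **one prime of `Σ` is removed** (in the peu ramifiée case: if `ρ̄` does not occur at the level
`(N' / p) ∏ Σ`). -/
theorem iaOneStep_core (hdict : ResidDictStatement) (hNR : NewRamifiedE)
    (hIAD : IharaAvoidanceDatumE)
    (p : ℕ) (W : WeierstrassCurve ℤ) (hyp : CurveHyp p W)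
    (N' : ℕ) (Sig : Finset ℕ) (hopt : IsOptimalLevel W p N')
    (hSig : ∀ v ∈ Sig, v.Prime ∧ v ≠ p ∧ ¬ v ∣ N' ∧ UnrArith W p v ∧ ScalarAt W p v)
    (hr : p = 3 → ∃ r : ℕ, r.Prime ∧ r ∣ N' ∧ r % 3 = 2)
    (v : ℕ) (hv : v ∈ Sig)
    (hnot : p ∣ N' → ¬ IsResModAway W p (N' / p * ∏ w ∈ Sig, w))
    (hres : IsResModAway W p (N' * ∏ w ∈ Sig, w)) :
    IsResModAway W p (N' * ∏ w ∈ Sig.erase v, w) := by
  classical
  have hpp : p.Prime := by rcases hyp.p_eq with rfl | rfl <;> norm_num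
  haveI : Fact p.Prime := ⟨hpp⟩
  have hp2 : p ≠ 2 := by rcases hyp.p_eq with rfl | rfl <;> norm_num
  obtain ⟨hN'pos, hN'sqf, hN'ram, hN'p⟩ := hopt
  obtain ⟨hvp, hvne, hvN', hvunr, hvsc⟩ := hSig v hv
  have hΔ : W.Δ ≠ 0 := hyp.disc_ne
  obtain ⟨hsqf, hdvd⟩ := sqf_mul_prod hN'sqf (fun w hw => ⟨(hSig w hw).1, (hSig w hw).2.2.1⟩)
  set M : ℕ := N' * ∏ w ∈ Sig.erase v, w with hM
  have hNM : N' * ∏ w ∈ Sig, w = M * v := by
    rw [hM, ← Finset.mul_prod_erase Sig (fun w => w) hv]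
    ring
  rw [hNM] at hsqf
  have hdvd' : ∀ ℓ : ℕ, ℓ.Prime → (ℓ ∣ M * v ↔ ℓ ∣ N' ∨ ℓ ∈ Sig) := by
    intro ℓ hℓ
    rw [← hNM]
    exact hdvd ℓ hℓ
  have hpos : 0 < M * v := Nat.pos_of_ne_zero hsqf.ne_zero
  have hM0 : M ≠ 0 := fun h => by rw [h, zero_mul] at hpos; exact lt_irrefl _ hpos
  haveI : NeZero M := ⟨hM0⟩
  haveI : NeZero (M * v) := ⟨hpos.ne'⟩
  have hvM : ¬ v ∣ M := by
    intro h
    exact (Nat.squarefree_iff_prime_squarefree.1 hsqf) v hvp (Nat.mul_dvd_mul h dvd_rfl)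
  have hv2 : v ≠ 2 := ne_two_of_modEq_one hpp hvsc.1
  have hres' : IsResModAway W p (M * v) := isResModAway_of_eq hNM hres
  obtain ⟨Sex, hfin, g, 𝔪, hg, h𝔪, hp𝔪, hcong⟩ := hres'
  haveI := h𝔪
  -- the set `S`
  let S : Finset ℕ := insert p (M * v).primeFactors
  have hS : ∀ ℓ : ℕ, ℓ ∈ S ↔ ℓ.Prime ∧ (ℓ = p ∨ ℓ ∣ M * v) := by
    intro ℓ
    simp only [S, Finset.mem_insert, Nat.mem_primeFactors]
    constructor
    · rintro (rfl | ⟨h1, h2, -⟩)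
      · exact ⟨hpp, Or.inl rfl⟩
      · exact ⟨h1, Or.inr h2⟩
    · rintro ⟨h1, rfl | h2⟩
      · exact Or.inl rfl
      · exact Or.inr ⟨h1, h2, hpos.ne'⟩
  have hpS : p ∈ S := (hS _).2 ⟨hpp, Or.inl rfl⟩
  have hNS : ∀ ℓ : ℕ, ℓ.Prime → ℓ ∣ M * v → ℓ ∈ S := fun ℓ h1 h2 => (hS ℓ).2 ⟨h1, Or.inr h2⟩
  -- the exceptional set of primes
  let S₀ : Finset ℕ := S ∪ W.Δ.natAbs.primeFactors ∪ hfin.toFinset
  have hS₀ : ∀ ℓ : ℕ, ℓ.Prime → ℓ ∉ S₀ →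
      ℓ ∉ (↑S : Set ℕ) ∧ ¬ ℓ ∣ M * v ∧ ℓ ≠ p ∧ W.IsGoodPrimeFor ℓ ∧ ℓ ∉ Sex := by
    intro ℓ hℓ hℓS₀
    have h1 : ℓ ∉ S := fun h => hℓS₀ (by simp [S₀, h])
    refine ⟨h1, fun h => h1 (hNS ℓ hℓ h), fun h => h1 (h ▸ hpS), ?_, ?_⟩
    · intro hd
      apply hℓS₀
      have : ℓ ∈ W.Δ.natAbs.primeFactors :=
        Nat.mem_primeFactors.2 ⟨hℓ, Int.natCast_dvd.mp hd, Int.natAbs_ne_zero.mpr hΔ⟩
      simp [S₀, this]
    · intro hd
      apply hℓS₀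
      have : ℓ ∈ hfin.toFinset := (Set.Finite.mem_toFinset hfin).2 ⟨hd, hℓ⟩
      simp [S₀, this]
  -- the `p`-adic setup
  obtain ⟨𝒪, i1, i2, i3, i4, i5, i6, hp𝒪, hζ, hquad, χ₀, θ', hχ₀⟩ :=
    exists_padic_setup hg (↑S : Set ℕ) hpp 𝔪 hp𝔪
  letI := i1
  haveI := i2
  haveI := i3
  haveI := i4
  haveI := i5
  haveI := i6
  let θ : heckeAlgebra (M * v) 2 (↑S : Set ℕ) →+* ResidueField 𝒪 := (residue 𝒪).comp χ₀
  have h0k : ((p : ℕ) : ResidueField 𝒪) = 0 := by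
    have := (residue_eq_zero_iff (p : 𝒪)).mpr hp𝒪
    rwa [map_natCast] at this
  haveI : CharP (ResidueField 𝒪) p := (CharP.charP_iff_prime_eq_zero hpp).mpr h0k
  let ψZ : ZMod p →+* ResidueField 𝒪 := ZMod.castHom (dvd_refl p) (ResidueField 𝒪)
  let e₀ : ResidueField ℤ_[p] →+* ZMod p := (PadicInt.residueField (p := p)).toRingHom
  let ψ₀ : ResidueField ℤ_[p] →+* ResidueField 𝒪 := ψZ.comp e₀
  -- the field `ℤ̄ ⧸ 𝔪`
  letI : Field (ℤbar ⧸ 𝔪) := Ideal.Quotient.field 𝔪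
  haveI : CharP (ℤbar ⧸ 𝔪) p := charP_quotient_of_mem 𝔪 hpp hp𝔪
  let φ : ℤbar →+* (ℤbar ⧸ 𝔪) := Ideal.Quotient.mk 𝔪
  have hφ : ∀ (a : ℤbar) (n : ℤ), φ a = ((n : ℤ) : ℤbar ⧸ 𝔪) ↔ a - ((n : ℤ) : ℤbar) ∈ 𝔪 := by
    intro a n
    rw [← Ideal.Quotient.eq_zero_iff_mem, map_sub, map_intCast, sub_eq_zero]
  have hcong' : ∀ ℓ : ℕ, ℓ.Prime → ℓ ∉ S₀ → ∃ a : ℤbar, (a : ℂ) = ModularFormClass.qCoeff g ℓ ∧
      φ a = ((W.apOfModel ℓ : ℤ) : ℤbar ⧸ 𝔪) := by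
    intro ℓ hℓ hℓS₀
    obtain ⟨-, -, -, -, hℓSex⟩ := hS₀ ℓ hℓ hℓS₀
    obtain ⟨a, ha, ha'⟩ := hcong ℓ hℓ hℓSex
    exact ⟨a, ha, (hφ a _).2 ha'⟩
  -- `θ` on the good primes
  have hθ : ∀ (ℓ : ℕ) (hℓ : ℓ.Prime) (hℓN : ¬ ℓ ∣ M * v) (hℓS : ℓ ∉ (↑S : Set ℕ)), ℓ ∉ S₀ →
      θ (heckeAlgebra.T hℓ hℓN hℓS) = ((W.apOfModel ℓ : ℤ) : ResidueField 𝒪) := by
    intro ℓ hℓ hℓN hℓS hℓS₀
    obtain ⟨a, ha, hθa⟩ := hχ₀ ℓ hℓ hℓN hℓS
    obtain ⟨a', ha', hcg⟩ := hcong' ℓ hℓ hℓS₀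
    have haa' : a = a' := zbar_ext (ha.trans ha'.symm)
    apply θ'.injective
    rw [map_intCast]
    show θ' (residue 𝒪 (χ₀ (heckeAlgebra.T hℓ hℓN hℓS))) = _
    rw [hθa, haa']
    exact hcg
  -- the residual representation
  obtain ⟨ρ₀, hgoodchar, hbridge, hfld⟩ := hdict p W hyp
  obtain ⟨habs, hbardet, hidx2, hunriff, hscal, haux, hord⟩ := hfld (ResidueField 𝒪) ψ₀
  set ρbar : ResidualGaloisRep (ResidueField 𝒪) := ρ₀.baseChangeAlong ψ₀ with hρbar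
  have hbarchar : ∀ (ℓ : ℕ) (hℓ : ℓ.Prime) (hℓN : ¬ ℓ ∣ M * v) (hℓS : ℓ ∉ (↑S : Set ℕ)),
      ∀ A' : ValuationSubring Ω, A'.LiesOverPrime ℓ → ∀ σ : GQ, A'.IsFrobeniusAt σ ℓ →
        LinearMap.charpoly (ρbar.ρ σ) =
          X ^ 2 - C (θ (heckeAlgebra.T hℓ hℓN hℓS)) * X + C ((ℓ : ResidueField 𝒪)) := by
    intro ℓ hℓ hℓN hℓS A' hA' σ hσ
    have hℓp : ℓ ≠ p := fun h => hℓS (h ▸ hpS)
    obtain ⟨a, ha, hchar⟩ := hbridge (M * v) g hg (ℤbar ⧸ 𝔪) φ (θ'.comp ψ₀) S₀ hcong' ℓ hℓ hℓN hℓp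
      A' hA' σ hσ
    obtain ⟨a₁, ha₁, hθa⟩ := hχ₀ ℓ hℓ hℓN hℓS
    have haa₁ : a₁ = a := zbar_ext (ha₁.trans ha.symm)
    apply Polynomial.map_injective θ' θ'.injective
    rw [hρbar, charpoly_baseChangeAlong, Polynomial.map_map, hchar]
    simp only [Polynomial.map_add, Polynomial.map_sub, Polynomial.map_mul, Polynomial.map_pow,
      Polynomial.map_X, Polynomial.map_C, map_natCast]
    have h1 : θ' (θ (heckeAlgebra.T hℓ hℓN hℓS)) = φ a := by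
      show θ' (residue 𝒪 (χ₀ (heckeAlgebra.T hℓ hℓN hℓS))) = _
      rw [hθa, haa₁]
    rw [h1, Polynomial.map_natCast]
  -- (A): the Hecke–Galois datum
  obtain ⟨T, j1, j2, j3, j4, j5, j6, j7, j8, H, hequiv, -, hfull⟩ :=
    Fermat.Agent.RB.REPT.exists_heckeGaloisRepDatum' (N := M * v) (S := S) (𝒪 := 𝒪) p hp2 hpS hNS
      hp𝒪 θ ρbar habs hbarchar hbardet
  letI := j1
  haveI := j2
  haveI := j3
  haveI := j4
  letI := j5
  haveI := j6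
  haveI := j7
  haveI := j8
  -- the splitting of the characteristic polynomials
  have hsplit : ∀ σ : GQ, ∃ α β : ResidueField 𝒪,
      LinearMap.charpoly (ρbar.ρ σ) = (X - C α) * (X - C β) := by
    intro σ
    have hmon : (LinearMap.charpoly (ρ₀.ρ σ)).Monic := LinearMap.charpoly_monic _
    have hdeg : (LinearMap.charpoly (ρ₀.ρ σ)).natDegree = 2 := by
      rw [LinearMap.charpoly_natDegree, ρ₀.finrank_eq]
    obtain ⟨α, β, hαβ⟩ := hquad ψZ ((LinearMap.charpoly (ρ₀.ρ σ)).map e₀) (hmon.map e₀)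
      (by rw [hmon.natDegree_map, hdeg])
    refine ⟨α, β, ?_⟩
    rw [hρbar, charpoly_baseChangeAlong, ← hαβ, Polynomial.map_map]
  -- the level
  have h3 : p = 3 → ∃ r₀ : ℕ, r₀.Prime ∧ r₀ ∣ M * v ∧ r₀ % 3 = 2 := by
    intro hp3
    obtain ⟨r, hrp, hrN', hr3⟩ := hr hp3
    exact ⟨r, hrp, (hdvd' r hrp).2 (Or.inl hrN'), hr3⟩
  have hSig1 : ∀ w ∈ Sig, w.Prime ∧ w ∣ M * v ∧ ResFrobScalarAt ρbar p w := by
    intro w hw
    obtain ⟨hwp, hwne, -, hwunr, hwsc⟩ := hSig w hw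
    exact ⟨hwp, (hdvd' w hwp).2 (Or.inr hw), hscal w hwp hwne hwunr hwsc⟩
  have hram : ∀ ℓ : ℕ, ℓ.Prime → ℓ ∣ M * v → ℓ ≠ p → ℓ ∉ Sig → ¬ ρbar.IsUnramifiedAt ℓ ∨
      (NoLevelRaisingAt ρbar ℓ ∧ ((ℓ : ℕ) : ResidueField 𝒪) ≠ 1) := by
    intro ℓ hℓ hℓd hℓp hℓSig
    have hℓN' : ℓ ∣ N' := by
      rcases (hdvd' ℓ hℓ).1 hℓd with h | h
      · exact h
      · exact absurd h hℓSig
    rcases hN'ram ℓ hℓ hℓN' hℓp with h | h
    · left
      intro hu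
      exact ((hunriff ℓ hℓ hℓp).1 hu) h
    · right
      exact haux ℓ h
  -- the mode at `p`
  have hmode : ∃ md : PMode, md.Holds p θ ρbar := by
    by_cases hpN : p ∣ M * v
    · have hpN' : p ∣ N' := by
        rcases (hdvd' p hpp).1 hpN with h | h
        · exact h
        · exact absurd rfl (hSig p h).2.1
      have hord' := hord (hN'p hpN')
      by_cases hpeu : IsPeuRamifieeAt ρbar p
      · refine ⟨PMode.peuNew, hpN, hord', ?_⟩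
        intro M₂ _ hM₂ χ
        by_contra hcon
        push Not at hcon
        apply hnot hpN'
        -- the level `M₂`
        have hM₂eq : N' / p * ∏ w ∈ Sig, w = M₂ := by
          obtain ⟨c, hc⟩ := hpN'
          have h1 : N' / p = c := by rw [hc]; exact Nat.mul_div_cancel_left c hpp.pos
          rw [h1]
          have h2 : p * (c * ∏ w ∈ Sig, w) = p * M₂ := by
            have : p * (c * ∏ w ∈ Sig, w) = N' * ∏ w ∈ Sig, w := by rw [hc]; ring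
            rw [this, hNM, hM₂]; ring
          exact Nat.eq_of_mul_eq_mul_left hpp.pos h2
        rw [hM₂eq]
        have hocc : ResOccurs M₂ p (↑S₀ : Set ℕ) (fun ℓ => W.apOfModel ℓ) := by
          refine resOccurs_of_heckeAlgebra_hom M₂ (S := (↑S : Set ℕ)) (S' := (↑S₀ : Set ℕ))
            (fun ℓ hℓ => by
              have hℓ' : ℓ ∈ S := hℓ
              show ℓ ∈ S₀
              simp [S₀, hℓ']) hpp χ (fun ℓ => W.apOfModel ℓ) (fun ℓ => ?_)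
          have hℓS₀ : (ℓ.1 : ℕ) ∉ S₀ := fun h => ℓ.2 h
          obtain ⟨hℓS, hℓN, -, -, -⟩ := hS₀ _ ℓ.1.2 hℓS₀
          have hℓM₂ : ¬ (ℓ.1 : ℕ) ∣ M₂ := fun h => hℓN (hM₂ ▸ h.mul_right p)
          have h1 : heckeGenS (N := M₂) (↑S : Set ℕ) ℓ.1 hℓS = heckeAlgebra.T ℓ.1.2 hℓM₂ hℓS :=
            heckeGenS_eq_T _ ℓ.1.2 hℓM₂ hℓS
          rw [h1]
          exact (hcon _ ℓ.1.2 hℓN hℓS).trans (hθ _ ℓ.1.2 hℓN hℓS hℓS₀)
        refine ⟨(↑S₀ : Set ℕ), ?_, hocc⟩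
        exact S₀.finite_toSet.subset (fun ℓ hℓ => hℓ.1)
      · exact ⟨PMode.tres, hpN, hord', hpeu⟩
    · exact ⟨PMode.flat, hpN⟩
  obtain ⟨md, hmd⟩ := hmode
  -- Ihara avoidance for the datum
  have key := hIAD p hp2 hp𝒪 hζ (M * v) hsqf h3 S hS θ T H
    (fun B _ _ _ _ _ _ χ hχ => hfull B injective_algebraMap_of_finite_dvr χ hχ)
    ρbar hequiv habs hsplit hidx2 md hmd Sig ⟨v, hv⟩ hSig1 hram
  -- a characteristic-zero prime containing the inertia ideals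
  have hdisj : Disjoint (↑(⨆ w ∈ Sig, inertiaIdeal H.ρ w) : Set T)
      (↑(Submonoid.powers (p : T)) : Set T) := by
    rw [Set.disjoint_left]
    rintro x hx ⟨k, rfl⟩
    exact key k hx
  obtain ⟨𝔭, h𝔭prime, hle, h𝔭disj⟩ := Ideal.exists_le_prime_disjoint _ _ hdisj
  haveI := h𝔭prime
  have hp𝔭 : (p : T) ∉ 𝔭 := fun h => Set.disjoint_left.1 h𝔭disj h ⟨1, pow_one _⟩
  have hv𝔭 : inertiaIdeal H.ρ v ≤ 𝔭 := le_trans (le_iSup₂_of_le v hv le_rfl) hle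
  -- (LGC-St)
  obtain ⟨χ, hχ⟩ := hNR p hp2 hp𝒪 M v hvp hvM hvne hv2 S hpS hNS θ T H 𝔭 h𝔭prime hp𝔭 hv𝔭
  -- the quotient `T ⧸ 𝔭`
  haveI : IsDomain (T ⧸ 𝔭) := Ideal.Quotient.isDomain 𝔭
  haveI : CharZero (T ⧸ 𝔭) := charZero_quotient_of_natCast_notMem hp𝒪 𝔭 hp𝔭
  let 𝔫 : Ideal (T ⧸ 𝔭) := (maximalIdeal T).map (Ideal.Quotient.mk 𝔭)
  haveI h𝔫 : 𝔫.IsPrime := by
    refine Ideal.map_isPrime_of_surjective Ideal.Quotient.mk_surjective ?_
    rw [Ideal.mk_ker]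
    exact IsLocalRing.le_maximalIdeal h𝔭prime.ne_top
  have hmem𝔫 : ∀ x : T, x ∈ maximalIdeal T → (Ideal.Quotient.mk 𝔭 x) ∈ 𝔫 := fun x hx =>
    Ideal.mem_map_of_mem _ hx
  have hpT : (p : T) ∈ maximalIdeal T := by
    have h1 : algebraMap 𝒪 T (p : 𝒪) ∈ maximalIdeal T := by
      rw [mem_maximalIdeal, mem_nonunits_iff]
      intro hu
      exact hp𝒪 (isUnit_of_map_unit (algebraMap 𝒪 T) _ hu)
    rwa [map_natCast] at h1
  have hp𝔫 : (p : T ⧸ 𝔭) ∈ 𝔫 := by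
    have := hmem𝔫 _ hpT
    rwa [map_natCast] at this
  have hχcong : ∀ (ℓ : ℕ) (hℓ : ℓ.Prime) (hℓM : ¬ ℓ ∣ M) (hℓS : ℓ ∉ (↑S : Set ℕ)), ℓ ∉ S₀ →
      χ (heckeAlgebra.T hℓ hℓM hℓS) - (((W.apOfModel ℓ : ℤ)) : T ⧸ 𝔭) ∈ 𝔫 := by
    intro ℓ hℓ hℓM hℓS hℓS₀
    obtain ⟨-, hℓN, -, -, -⟩ := hS₀ ℓ hℓ hℓS₀
    have h1 := hχ ℓ hℓ hℓN hℓS
    have h2 : χ (heckeAlgebra.T hℓ hℓM hℓS) =
        Ideal.Quotient.mk 𝔭 (H.π (heckeAlgebra.T hℓ hℓN hℓS)) := h1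
    rw [h2, ← map_intCast (Ideal.Quotient.mk 𝔭), ← map_sub]
    apply hmem𝔫
    rw [← residue_eq_zero_iff, map_sub, map_intCast, H.residue_π, hθ ℓ hℓ hℓN hℓS hℓS₀,
      map_intCast, sub_self]
  -- back to an eigenform of level `M`
  obtain ⟨g', 𝔪', hg', h𝔪', hnat, hcg⟩ := exists_eigenform_of_character χ 𝔫
  refine ⟨(↑S₀ : Set ℕ), S₀.finite_toSet.subset (fun ℓ hℓ => hℓ.1), g', 𝔪', hg', h𝔪',
    hnat _ hp𝔫, fun ℓ hℓ hℓS₀ => ?_⟩
  have hℓS₀' : ℓ ∉ S₀ := fun h => hℓS₀ h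
  obtain ⟨hℓS, hℓN, -, -, -⟩ := hS₀ ℓ hℓ hℓS₀'
  have hℓM : ¬ ℓ ∣ M := fun h => hℓN (h.mul_right v)
  exact hcg ℓ hℓ hℓM hℓS _ (hχcong ℓ hℓ hℓM hℓS hℓS₀')

/-! ### the one-prime step and the induction -/

/-- **one prime of `Σ` is removed.** -/
theorem iaOneStep (hdict : ResidDictStatement) (hNR : NewRamifiedE) (hIAD : IharaAvoidanceDatumE)
    (p : ℕ) (W : WeierstrassCurve ℤ) (hyp : CurveHyp p W)
    (N' : ℕ) (Sig : Finset ℕ) (hopt : IsOptimalLevel W p N')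
    (hSig : ∀ v ∈ Sig, v.Prime ∧ v ≠ p ∧ ¬ v ∣ N' ∧ UnrArith W p v ∧ ScalarAt W p v)
    (hr : p = 3 → ∃ r : ℕ, r.Prime ∧ r ∣ N' ∧ r % 3 = 2) (hne : Sig.Nonempty)
    (hres : IsResModAway W p (N' * ∏ w ∈ Sig, w)) :
    ∃ v ∈ Sig, IsResModAway W p (N' * ∏ w ∈ Sig.erase v, w) := by
  have hpp : p.Prime := by rcases hyp.p_eq with rfl | rfl <;> norm_num
  obtain ⟨v, hv⟩ := hne
  refine ⟨v, hv, ?_⟩
  by_cases hocc : p ∣ N' ∧ IsResModAway W p (N' / p * ∏ w ∈ Sig, w)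
  · obtain ⟨hpN', hres'⟩ := hocc
    obtain ⟨hN'pos, hN'sqf, hN'ram, hN'p⟩ := hopt
    obtain ⟨c, hc⟩ := hpN'
    have hdiv : N' / p = c := by rw [hc]; exact Nat.mul_div_cancel_left c hpp.pos
    rw [hdiv] at hres'
    have hcN' : c ∣ N' := ⟨p, by rw [hc]; ring⟩
    have hcpos : 0 < c := Nat.pos_of_dvd_of_pos hcN' hN'pos
    have hpc : ¬ p ∣ c := by
      intro h
      apply (Nat.squarefree_iff_prime_squarefree.1 hN'sqf) p hpp
      rw [hc]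
      exact Nat.mul_dvd_mul_left p h
    have hopt' : IsOptimalLevel W p c :=
      ⟨hcpos, hN'sqf.squarefree_of_dvd hcN',
        fun q hq hqc hqp => hN'ram q hq (hqc.trans hcN') hqp, fun h => absurd h hpc⟩
    have hstep := iaOneStep_core hdict hNR hIAD p W hyp c Sig hopt'
      (fun w hw => ⟨(hSig w hw).1, (hSig w hw).2.1, fun h => (hSig w hw).2.2.1 (h.trans hcN'),
        (hSig w hw).2.2.2⟩)
      (fun hp3 => by
        obtain ⟨r, hrp, hrN', hr3⟩ := hr hp3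
        refine ⟨r, hrp, ?_, hr3⟩
        have hrne : r ≠ p := by
          intro h
          rw [h, hp3] at hr3
          norm_num at hr3
        rw [hc] at hrN'
        rcases hrp.dvd_mul.1 hrN' with h | h
        · exact absurd ((Nat.prime_dvd_prime_iff_eq hrp hpp).1 h) hrne
        · exact h)
      v hv (fun h => absurd h hpc) hres'
    have h2 := isResModAway_mul_prime hpp hstep
    exact isResModAway_of_eq (by rw [hc]; ring) h2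
  · exact iaOneStep_core hdict hNR hIAD p W hyp N' Sig hopt hSig hr v hv
      (fun hpN' hres' => hocc ⟨hpN', hres'⟩) hres

/-- **[TOP′].** -/
theorem topIAStatementE_of (hdict : ResidDictStatement) : TopIAStatementE := by
  intro hNR hIAD p W hyp N' Sig hopt
  induction Sig using Finset.strongInduction with
  | _ Sig ih =>
    intro hSig hr hres
    rcases Sig.eq_empty_or_nonempty with h0 | hne
    · subst h0
      simpa using hres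
    · obtain ⟨v, hv, hres'⟩ := iaOneStep hdict hNR hIAD p W hyp N' Sig hopt hSig hr hne hres
      exact ih (Sig.erase v) (Finset.erase_ssubset hv)
        (fun w hw => hSig w (Finset.mem_of_mem_erase hw)) hr hres'

end Fermat.Agent.ML.TOPIA
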