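/-
PROJECT ML (S59) — lead — **[LEVEL-OPT], the final assembly**: `LevelOptStatement` from the leaves
which are still in progress
  `SqStepStatementO` (helper3/helper5), `SqTwoStepStatement` (route (C)),
  `MazurTwoStepStatement` (helper6), `ResidDictStatement` (helper4),
  `TWProducerMainStatement` (helper1, REPT-X), `IAPeuAdapterStatement` (helper7),
everything else being proved:
  `mazurOddStepStatement`, `auxPrimeStatement` (lead), `newRamifiedE`, `glueEStatement` (helper7),
  `selStatementE` (helper4), `RB.coreStatement` (helper9), `topIAStatementE_of` (lead).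
-/
import Mathlib
import Fermat.Agent.ML.LEVOPT_lead_Main2
import Fermat.Agent.ML.LEVOPT_lead_MazOdd
import Fermat.Agent.ML.AUXP_lead_Main
import Fermat.Agent.ML.TOPIA_lead_Main
import Fermat.Agent.ML.GLUEE_helper7_Main
import Fermat.Agent.ML.LGCBRE_helper7_Main
import Fermat.Agent.ML.SELE_helper4_Stmt
import Fermat.Agent.RB.PATCH_helper9_Core

set_option autoImplicit false

namespace Fermat.Agent.ML.LevOpt

/-- Ihara avoidance for a Hecke–Galois datum, from the two producers. -/
theorem iharaAvoidanceDatumE_of (hmain : TWProducerMainStatement)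
    (hpeu : IAPeuAdapterStatement) : IharaAvoidanceDatumE :=
  GLUEG.glueEStatement (twProducerE_of_main_of_adapter hmain hpeu) selStatementE
    Fermat.Agent.RB.coreStatement

/-- **the Ihara avoidance step** of [LEVEL-OPT]. -/
theorem iaStepStatement_of (hdict : ResidDictStatement) (hmain : TWProducerMainStatement)
    (hpeu : IAPeuAdapterStatement) : IAStepStatement :=
  TOPIA.topIAStatementE_of hdict newRamifiedE (iharaAvoidanceDatumE_of hmain hpeu)

/-- **[LEVEL-OPT]** from the six leaves in progress. -/
theorem levelOptStatement_of_leaves (hsq : SqStepStatementO) (hsq2 : SqTwoStepStatement)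
    (hm2 : MazurTwoStepStatement) (hdict : ResidDictStatement)
    (hmain : TWProducerMainStatement) (hpeu : IAPeuAdapterStatement) : LevelOptStatement :=
  levelOptStatement_of₂ hsq hsq2 mazurOddStepStatement hm2 AuxP.auxPrimeStatement
    (iaStepStatement_of hdict hmain hpeu)

end Fermat.Agent.ML.LevOpt
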