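/-
PROJECT ML (S59) — Mazur's principle at `(q, p) = (2, 3)` — [NOELL′], abstract part (helper4):
**a Hesse cover is tamely ramified of index prime to `3` over the places where `3 ∣ ord j`.**

`E = F(t) / F` a Hesse cover of function fields over an algebraically closed field `K` of
characteristic zero: `j (t³ − 1)³ = 27 t³ (t³ + 8)³`, `γ = t (t³ + 8)/(t³ − 1)`, `27 γ³ = j`.
Let `P` be a place of `E` (with residue field `K`) over the place `v` of `F`, with `3 ∣ ord_v j`.
An element `σ` of the stabiliser of `P` in `Gal(E/F)` acts trivially on the residue field, hence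
fixes the unit `γ₁ = γ / π^{ord_v(j)/3}` modulo `𝔪_P`; as `σ γ₁ = c γ₁`, `c ∈ μ₃`, `c = 1`: `σ`
fixes `γ`.  The stabiliser of `γ` has exponent `2` (helper8), so the stabiliser of `P` has no
element of order `3`, and its order is the ramification index (helper7's `FF.Gal.card_stabilizer`).

* `hesse_stab_sq` : `σ γ = γ ⇒ σ² = 1`;
* `apply_sub_ord_pos` : the inertia property;
* `three_dvd_ord_of_hesse` : `3 ∣ ord_P (f)` ⇒ `3 ∣ ord_v f` for `f ∈ F`.
-/
import Mathlib
import Fermat.Agent.FF.Gal_helper7_Stab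
import Fermat.Agent.FF.LocalDer
import Fermat.Agent.FF.Squeeze
import Fermat.Agent.FG.EGAL_helper8_A4
import Fermat.Agent.ML.HES3_helper8_Abs

set_option autoImplicit false
set_option linter.unusedSectionVars false
set_option linter.unusedVariables false
set_option linter.style.haveILetI false

open AlgebraicCurve Polynomial IntermediateField

namespace Fermat.Agent.ML.MAZ23

open Fermat.Agent.FF Fermat.Agent.FF.Gal Fermat.Agent.FG

section Abs

variable {K F E : Type*} [Field K] [Field F] [Field E] [Algebra K F] [Algebra K E] [Algebra F E]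
  [IsScalarTower K F E]

/-- automorphisms over `F` commute with the scalars of `K`. -/
theorem smulCommClass_algEquiv : SMulCommClass (E ≃ₐ[F] E) K E := ⟨by
  intro g c y
  rw [Algebra.smul_def, Algebra.smul_def, smul_mul', IsScalarTower.algebraMap_apply K F E]
  congr 1
  exact g.commutes _⟩

/-- **the stabiliser of `γ` in the group of a Hesse cover has exponent `2`.** -/
theorem hesse_stab_sq [CharZero F] {t : E} {j ω : F} (hω : ω ^ 2 + ω + 1 = 0)
    (ht3 : t ^ 3 - 1 ≠ 0)
    (hrel : algebraMap F E j * (t ^ 3 - 1) ^ 3 = 27 * t ^ 3 * (t ^ 3 + 8) ^ 3)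
    (htop : IntermediateField.adjoin F {t} = ⊤) (halg : IsIntegral F t)
    (g : E ≃ₐ[F] E) (hg : g (hesG t) = hesG t) (y : E) : g (g y) = y := by
  haveI : CharZero E := charZero_of_injective_algebraMap (algebraMap F E).injective
  have h3 : (3 : E) ≠ 0 := by norm_num
  set w : E := algebraMap F E ω with hwdef
  have hw : w ^ 2 + w + 1 = 0 := by
    rw [hwdef, ← map_pow, ← map_add, ← map_one (algebraMap F E), ← map_add, hω, map_zero]
  have hw3 : w ^ 3 = 1 := by linear_combination (w - 1) * hw
  have hw23 : (w ^ 2) ^ 3 = 1 := by rw [← pow_mul, mul_comm, pow_mul, hw3, one_pow]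
  have hgw : g w = w := g.commutes ω
  have hgw2 : g (w ^ 2) = w ^ 2 := by rw [map_pow, hgw]
  have hgt3 : (g t) ^ 3 - 1 ≠ 0 := by
    intro h0
    apply ht3
    have : g (t ^ 3 - 1) = 0 := by rw [map_sub, map_pow, map_one, h0]
    exact (map_eq_zero g).mp this
  have hgt : g (g t) = t := by
    have e1 : hesG (g t) = hesG t := by rw [← map_hesG, hg]
    rcases hesG_fibre w hw t (g t) ht3 hgt3 e1 with e | e | e | e
    · rw [e, e]
    · have hε : (1 : E) ^ 3 = 1 := one_pow 3
      exact HesRel.unique hε h3 (e.map g (map_one g)) e.symm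
    · exact HesRel.unique hw3 h3 (e.map g hgw) e.symm
    · exact HesRel.unique hw23 h3 (e.map g hgw2) e.symm
  exact algEquiv_eq_one_of_apply_generator htop halg (g * g) hgt y

end Abs

section Inertia

variable {K E : Type*} [Field K] [Field E] [Algebra K E]
  {G : Type*} [Group G] [MulSemiringAction G E] [SMulCommClass G K E]

/-- **the inertia property**: an automorphism stabilising a place with residue field `K` acts
trivially modulo the maximal ideal. -/
theorem apply_sub_ord_pos (P : Place K E) (hdeg : P.deg = 1) (σ : G) (hσ : σ • P = P)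
    {x : E} (hx : x ∈ P.toValuationSubring) : σ • x - x = 0 ∨ 0 < P.ord (σ • x - x) := by
  obtain ⟨a, ha⟩ := exists_const_sub_ordGE_one P hdeg hx
  have hσa : σ • algebraMap K E a = algebraMap K E a := smul_algebraMap σ a
  have hdiff : σ • x - x = σ • (x - algebraMap K E a) - (x - algebraMap K E a) := by
    rw [smul_sub, hσa]; ring
  rcases ha with h0 | h1
  · left
    rw [hdiff, h0, smul_zero, sub_zero]
  · by_cases hz : σ • x - x = 0
    · exact Or.inl hz
    right
    set y := x - algebraMap K E a with hy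
    have hσy : P.ord (σ • y) = P.ord y := by
      have := ord_smul_place σ P y
      rwa [hσ] at this
    have hne : σ • y + -y ≠ 0 := by
      rw [← sub_eq_add_neg, ← hdiff]; exact hz
    have := PlaceAux.ord_add_ge P hne (n := 1) (Or.inr (by rw [hσy]; exact h1))
      (Or.inr (by rw [PlaceAux.ord_neg]; exact h1))
    rw [← sub_eq_add_neg, ← hdiff] at this
    omega

end Inertia

section Main

variable {K F E : Type*} [Field K] [Field F] [Field E] [Algebra K F] [Algebra K E] [Algebra F E]
  [IsScalarTower K F E]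

attribute [local instance] smulCommClass_algEquiv

/-- **[NOELL′], abstract form**: over a place `v` with `3 ∣ ord_v j`, the ramification index of a
Hesse cover is prime to `3`: `3 ∣ ord_P f ⇒ 3 ∣ ord_v f` for `f ∈ F`. -/
theorem three_dvd_ord_of_hesse [CharZero K] [FiniteDimensional F E] [IsGalois F E]
    {t : E} {j : F} {ω : K} (hω : ω ^ 2 + ω + 1 = 0) (ht3 : t ^ 3 - 1 ≠ 0)
    (hrel : algebraMap F E j * (t ^ 3 - 1) ^ 3 = 27 * t ^ 3 * (t ^ 3 + 8) ^ 3)
    (htop : IntermediateField.adjoin F {t} = ⊤)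
    {v : Place K F} {P : Place K E} (hPv : LiesOver P v) (hdeg : P.deg = 1)
    (hj0 : j ≠ 0) (hj : (3 : ℤ) ∣ v.ord j)
    {f : F} (hf : (3 : ℤ) ∣ P.ord (algebraMap F E f)) : (3 : ℤ) ∣ v.ord f := by
  classical
  haveI : CharZero F := charZero_of_injective_algebraMap (algebraMap K F).injective
  haveI : CharZero E := charZero_of_injective_algebraMap (algebraMap K E).injective
  obtain ⟨π, hπ0, hπ⟩ := Gal.exists_ord_eq_one v
  obtain ⟨e, he, hord⟩ := hPv.exists_ord_eq
  have hres : ∀ x : E, x ∈ P.toValuationSubring →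
      ∃ c : K, x = algebraMap K E c ∨ 0 < P.ord (x - algebraMap K E c) := by
    intro x hx
    obtain ⟨a, ha⟩ := exists_const_sub_ordGE_one P hdeg hx
    refine ⟨a, ?_⟩
    rcases ha with h | h
    · exact Or.inl (sub_eq_zero.mp h)
    · exact Or.inr (by omega)
  have hcard := card_stabilizer (G := E ≃ₐ[F] E) hPv hres hπ
  rw [hord, hπ, mul_one] at hcard
  -- it suffices to see that `3` does not divide the order of the stabiliser
  suffices hn3 : ¬ 3 ∣ Nat.card (MulAction.stabilizer (E ≃ₐ[F] E) P) by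
    rw [hord, ← hcard] at hf
    rcases Int.Prime.dvd_mul' Nat.prime_three hf with h | h
    · exact absurd (by exact_mod_cast h) hn3
    · exact_mod_cast h
  intro h3
  haveI : Fact (Nat.Prime 3) := ⟨Nat.prime_three⟩
  obtain ⟨σ, hσ⟩ := exists_prime_orderOf_dvd_card' (G := MulAction.stabilizer (E ≃ₐ[F] E) P) 3 h3
  set s : E ≃ₐ[F] E := (σ : E ≃ₐ[F] E) with hs
  have hsP : s • P = P := σ.2
  have hs3 : s ^ 3 = 1 := by
    have h1 : σ ^ 3 = 1 := by rw [← hσ]; exact pow_orderOf_eq_one σ
    have := congrArg (fun y : MulAction.stabilizer (E ≃ₐ[F] E) P => (y : E ≃ₐ[F] E)) h1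
    simpa using this
  have hs1 : s ≠ 1 := by
    intro h1
    have : σ = 1 := Subtype.ext h1
    rw [this, orderOf_one] at hσ
    norm_num at hσ
  -- `γ`
  set γ : E := hesG t with hγ
  have hγ3 : 27 * γ ^ 3 = algebraMap F E j := by
    rw [hγ, hesG, div_pow, mul_div_assoc', div_eq_iff (pow_ne_zero 3 ht3)]
    linear_combination -hrel
  have hj0' : algebraMap F E j ≠ 0 := (_root_.map_ne_zero _).mpr hj0
  have hγ0 : γ ≠ 0 := by
    intro h0
    rw [h0] at hγ3
    apply hj0'
    rw [← hγ3]; ring
  have h27 : (27 : E) ≠ 0 := by norm_num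
  have h27o : P.ord (27 : E) = 0 := by
    have : (27 : E) = algebraMap K E 27 := (map_ofNat _ 27).symm
    rw [this]
    exact PlaceAux.ord_algebraMap P 27
  obtain ⟨m', hm'⟩ := hj
  have hγord : P.ord γ = e * m' := by
    have h1 := congrArg P.ord hγ3
    rw [P.ord_mul h27 (pow_ne_zero 3 hγ0), h27o, zero_add, PlaceAux.ord_pow, hord, hm'] at h1
    push_cast at h1
    linarith
  -- the unit `γ₁`
  set ϖ : E := algebraMap F E π with hϖ
  have hϖ0 : ϖ ≠ 0 := (_root_.map_ne_zero _).mpr hπ0
  have hϖord : P.ord ϖ = e := by rw [hϖ, hord, hπ, mul_one]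
  set γ₁ : E := γ * ϖ ^ (-m') with hγ₁
  have hγ₁0 : γ₁ ≠ 0 := mul_ne_zero hγ0 (zpow_ne_zero _ hϖ0)
  have hγ₁ord : P.ord γ₁ = 0 := by
    rw [hγ₁, P.ord_mul hγ0 (zpow_ne_zero _ hϖ0), P.ord_zpow, hγord, hϖord]
    ring
  have hγ₁mem : γ₁ ∈ P.toValuationSubring :=
    (PlaceAux.mem_iff_ord_nonneg' P hγ₁0).mpr (by rw [hγ₁ord])
  -- the multiplier
  set c : E := s γ / γ with hc
  have hsγ : s γ = c * γ := by rw [hc, div_mul_cancel₀ _ hγ0]
  have hc3 : c ^ 3 = (1 : E) ^ 3 := by
    have h1 := congrArg s hγ3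
    rw [map_mul, map_pow, map_ofNat, s.commutes] at h1
    rw [one_pow, hc, div_pow, div_eq_one_iff_eq (pow_ne_zero 3 hγ0)]
    apply mul_left_cancel₀ h27
    rw [h1, hγ3]
  have hsγ₁ : s • γ₁ = c * γ₁ := by
    show s γ₁ = c * γ₁
    rw [hγ₁, map_mul, map_zpow₀, hϖ, s.commutes, hsγ]
    ring
  set w : E := algebraMap K E ω with hw
  have hw2 : w ^ 2 + w + 1 = 0 := by
    rw [hw, ← map_pow, ← map_add, ← map_one (algebraMap K E), ← map_add, hω, map_zero]
  have hω1 : ω ≠ 1 := by
    intro h1
    rw [h1] at hω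
    norm_num at hω
  have hω21 : ω ^ 2 ≠ 1 := by
    intro h2
    apply hω1
    have hω3 : ω ^ 3 = 1 := by linear_combination (ω - 1) * hω
    have : ω ^ 3 = ω * ω ^ 2 := by ring
    rw [this, h2, mul_one] at hω3
    exact hω3
  -- a non-trivial multiplier contradicts the inertia property
  have hcontra : ∀ a : K, a ≠ 1 → c = algebraMap K E a → False := by
    intro a ha hca
    have hdiff : s • γ₁ - γ₁ = algebraMap K E (a - 1) * γ₁ := by
      rw [hsγ₁, hca, map_sub, map_one]; ring
    have ha0 : algebraMap K E (a - 1) ≠ 0 := (_root_.map_ne_zero _).mpr (sub_ne_zero.mpr ha)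
    have hne : s • γ₁ - γ₁ ≠ 0 := by
      rw [hdiff]; exact mul_ne_zero ha0 hγ₁0
    have ho : P.ord (s • γ₁ - γ₁) = 0 := by
      rw [hdiff, P.ord_mul ha0 hγ₁0, PlaceAux.ord_algebraMap, hγ₁ord, add_zero]
    rcases apply_sub_ord_pos P hdeg s hsP hγ₁mem with h | h
    · exact hne h
    · omega
  rcases hesA4_eq_or_of_cube_eq w hw2 hc3 with h1 | h1 | h1
  · -- `c = 1` : `s` fixes `γ`, so `s² = 1`
    rw [h1, one_mul] at hsγ
    have hωF : (algebraMap K F ω) ^ 2 + algebraMap K F ω + 1 = 0 := by
      rw [← map_pow, ← map_add, ← map_one (algebraMap K F), ← map_add, hω, map_zero]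
    have hsq := hesse_stab_sq (ω := algebraMap K F ω) hωF ht3 hrel htop
      (IsIntegral.of_finite F t) s hsγ
    apply hs1
    have hss : s * s = 1 := by
      ext y
      exact hsq y
    have : s ^ 3 = s * (s * s) := by rw [pow_succ', pow_two]
    rw [this, hss, mul_one] at hs3
    exact hs3
  · exact hcontra ω hω1 (by rw [h1, mul_one])
  · exact hcontra (ω ^ 2) hω21 (by rw [h1, mul_one, map_pow])

end Main

end Fermat.Agent.ML.MAZ23
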