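/-
PROJECT ML (S59) — Mazur's principle at `(q, p) = (2, 3)` — [NOELL] (helper4):
**`noEllThreeStatement : NoEllThreeStatement`** (helper6's literal, `ML/IFACE_helper6_Maz23.lean`):
if a prime `r ≡ 2 mod 3` divides `M`, every zero of `j` on `X₀(M)` (over `ℚ̄`) has order divisible
by `3` (no elliptic points of order three).

Route: helper8's squeeze theorem `X0N.fin_squeeze_zero` (the zeros of `j` are the `⟨ST⟩`-orbits on
`SL₂(ℤ)/Γ₀(M)`, with order the cardinality of the orbit), helper9's orbit–stabiliser formula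
`MW.card_stabilizer_mul_card_orbit` (`|Stab_{Γ₀(M)}(g ρ)| · |orbit| = 6`), Cauchy's theorem and
helper2's `RB.P3.Gamma0_eq_one_of_pow_three`.
-/
import Mathlib
import Fermat.Agent.ML.IFACE_helper6_Maz23
import Fermat.Agent.MW.ARCH_helper9_Stab
import Fermat.Agent.RB.P3_helper2_NoThree

set_option autoImplicit false
set_option linter.unusedSectionVars false
set_option linter.unusedVariables false
set_option linter.style.haveILetI false

open AlgebraicCurve CongruenceSubgroup MatrixGroups ModularGroup ModularCurve UpperHalfPlane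

namespace Fermat.Agent.ML.MAZ23

open Fermat.Agent.FF Fermat.Agent.X0N Fermat.Agent.MW Fermat.Agent.JA Fermat.Agent.FG

/-- `Ω = AlgebraicClosure ℚ`. -/
local notation "Ω" => AlgebraicClosure ℚ

/-- `3` does not divide the order of a (finite) stabiliser in `Γ₀(M)` when a prime `r ≡ 2 mod 3`
divides `M`. -/
theorem not_three_dvd_card_stabilizer {M r : ℕ} (hr : r.Prime) (hrM : r ∣ M) (hr3 : r % 3 = 2)
    (τ : ℍ) (h0 : Nat.card (MulAction.stabilizer (Gamma0 M) τ) ≠ 0) :
    ¬ 3 ∣ Nat.card (MulAction.stabilizer (Gamma0 M) τ) := by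
  intro h3
  haveI : Finite (MulAction.stabilizer (Gamma0 M) τ) := Nat.finite_of_card_ne_zero h0
  haveI : Fact (Nat.Prime 3) := ⟨Nat.prime_three⟩
  obtain ⟨x, hx⟩ := exists_prime_orderOf_dvd_card' (G := MulAction.stabilizer (Gamma0 M) τ) 3 h3
  have hx3 : x ^ 3 = 1 := by rw [← hx]; exact pow_orderOf_eq_one x
  have hx3' : ((x : Gamma0 M)) ^ 3 = 1 := by
    have := congrArg (fun y : MulAction.stabilizer (Gamma0 M) τ => (y : Gamma0 M)) hx3
    simpa using this
  have h1 := Fermat.Agent.RB.P3.Gamma0_eq_one_of_pow_three hr hrM hr3 _ hx3'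
  have hx1 : x = 1 := Subtype.ext h1
  rw [hx1, orderOf_one] at hx
  norm_num at hx

/-- **[NOELL]**: no elliptic points of order three on `X₀(M)` when a prime `r ≡ 2 mod 3` divides
`M`: the zeros of `j` have order divisible by `3`. -/
theorem three_dvd_ord_jGen {k : Type*} [Field k] [Algebra ℚ k] [Algebra k ℂ] [IsScalarTower ℚ k ℂ]
    [CharZero k] [IsAlgClosed k] (M : ℕ) [NeZero M] {r : ℕ} (hr : r.Prime) (hrM : r ∣ M)
    (hr3 : r % 3 = 2) (v : Place k ↥(laurentBaseChange k (modularFunctionFieldFull M)))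
    (hv : 0 < v.ord (jGen k M)) : (3 : ℤ) ∣ v.ord (jGen k M) := by
  have hreal : realN (algebraMap k ℂ) M (jCoordK k M).x = jM := realN_jGen_algebraMap_eq_jM
  obtain ⟨-, h2, -, h4⟩ := fin_squeeze_zero (algebraMap k ℂ) (jCoordK k M) rfl hX_jCoordK
    (fun _f _ hf => isIntegral_localSubring_of_regular' M (jCoordK k M) hreal
      (jFun_rhoH_eq_map _) (fun q => hf q))
  have hx0 : (jCoordK k M).x - algebraMap k _ 0 = jGen k M := by
    rw [map_zero, sub_zero]; rfl
  have hz : v ∈ (jCoordK k M).zeros 0 := by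
    rw [Coord.mem_zeros, hx0]; exact hv
  obtain ⟨q, hq⟩ := h4 v hz
  have h3 := h2 q
  rw [hq, hx0] at h3
  rw [h3]
  -- the orbit of `q`
  obtain ⟨g, rfl⟩ : ∃ g : SL(2, ℤ), ((g⁻¹ : SL(2, ℤ)) : SL(2, ℤ) ⧸ Gamma0 M) = q :=
    ⟨(q.out)⁻¹, by rw [inv_inv]; exact QuotientGroup.out_eq' q⟩
  have h5 := card_stabilizer_mul_card_orbit (N := M) (S * T) rhoH stab_rhoH_iff g
  rw [Nat.card_zpowers, orderOf_ST] at h5
  have h0 : Nat.card (MulAction.stabilizer (Gamma0 M) (g • rhoH)) ≠ 0 := by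
    intro h0
    rw [h0, zero_mul] at h5
    norm_num at h5
  have hn3 := not_three_dvd_card_stabilizer hr hrM hr3 (g • rhoH) h0
  have h6 : 3 ∣ Nat.card (MulAction.stabilizer (Gamma0 M) (g • rhoH)) *
      Nat.card {q' // MulAction.orbitRel (Subgroup.zpowers (S * T)) (SL(2, ℤ) ⧸ Gamma0 M) q'
        ((g⁻¹ : SL(2, ℤ)) : SL(2, ℤ) ⧸ Gamma0 M)} := by
    rw [h5]; norm_num
  have h7 := (Nat.Prime.dvd_mul Nat.prime_three).1 h6
  rcases h7 with h7 | h7
  · exact absurd h7 hn3
  · exact_mod_cast h7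

/-- **[NOELL]** (helper6's literal). -/
theorem noEllThreeStatement : NoEllThreeStatement := by
  intro M _ hr v hv
  obtain ⟨r, hr, hrM, hr3⟩ := hr
  have e : (egalJ M : ↥(keyFq Ω M)) = jGen Ω M :=
    Subtype.ext (Fermat.Agent.JA.coeffEmb_jq_eq_jqModC Ω).symm
  rw [e] at hv ⊢
  letI : Algebra Ω ℂ := complexEmbedding.toRingHom.toAlgebra
  haveI : IsScalarTower ℚ Ω ℂ :=
    IsScalarTower.of_algebraMap_eq fun r => (complexEmbedding.commutes r).symm
  exact three_dvd_ord_jGen M hr hrM hr3 v hv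

end Fermat.Agent.ML.MAZ23
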