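/-
PROJECT ML (S59) — Mazur's principle at `(q, p) = (2, 3)` — [NOELL′] (helper4):
**`hesOrdDescentStatement : HesOrdDescentStatement`** (helper6's literal,
`ML/IFACE_helper6_Maz23.lean`): if a prime `r ≡ 2 mod 3` divides `M`, a function `f` of `X₀(M)`
whose pull-back to the Hesse host has all orders divisible by `3` has order divisible by `3` at
every non-cuspidal place.

From [NOELL] (`noEllThreeStatement`: `3 ∣ ord_v j` at the non-cuspidal places) and the abstract
ramification lemma `three_dvd_ord_of_hesse` (`ML/MAZ23_helper4_HesRam.lean`).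
-/
import Mathlib
import Fermat.Agent.ML.MAZ23_helper4_NoEll
import Fermat.Agent.ML.MAZ23_helper4_HesRam
import Fermat.Agent.FG.EGAL_helper6_PullHes
import Fermat.Agent.JA.BCD_helper9_Host

set_option autoImplicit false
set_option linter.unusedSectionVars false
set_option linter.unusedVariables false
set_option linter.style.haveILetI false
set_option synthInstance.maxHeartbeats 400000

open AlgebraicCurve IntermediateField ModularCurve Polynomial

namespace Fermat.Agent.ML.MAZ23

open Fermat.Agent.FF Fermat.Agent.FF.Gal Fermat.Agent.X0N Fermat.Agent.JA Fermat.Agent.FG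
  Fermat.Agent.SS
open scoped Fermat.Agent.JA.Host

/-- `Ω = AlgebraicClosure ℚ`. -/
local notation "Ω" => AlgebraicClosure ℚ

/-- `j ≠ 0` on `X₀(M)`. -/
theorem egalJ_ne_zero (M : ℕ) [NeZero M] : (egalJ M : ↥(keyFq Ω M)) ≠ 0 := by
  intro h
  have h1 := congrArg (Subtype.val : ↥(keyFq Ω M) → LaurentSeries Ω) h
  exact jqModC_ne_zero_of_nontrivial Ω h1

/-- **[NOELL′]** (helper6's literal). -/
theorem hesOrdDescentStatement : HesOrdDescentStatement := by
  intro M _ hr f hf0 hf v hv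
  letI : Algebra ↥(keyFq Ω M) ↥(hesE Ω M) := algebraAlong (fullToHesE Ω M)
  haveI : IsScalarTower Ω ↥(keyFq Ω M) ↥(hesE Ω M) := isScalarTower_along (fullToHesE Ω M)
  haveI : Module.Finite ↥(keyFq Ω M) ↥(hesE Ω M) := finiteAlong_fullToHesE M
  haveI : IsGalois ↥(keyFq Ω M) ↥(hesE Ω M) := isGalois_fullToHesE M
  -- `3 ∣ ord_v j`
  have hj : (3 : ℤ) ∣ v.ord (egalJ M) := by
    rcases hv.lt_or_eq with h | h
    · exact noEllThreeStatement M hr v h
    · rw [← h]; exact dvd_zero _
  obtain ⟨P, hPv⟩ := exists_liesOver_of_place (L := ↥(hesE Ω M)) v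
  obtain ⟨ω, hω⟩ := exists_omega_bar
  have hrel : algebraMap ↥(keyFq Ω M) ↥(hesE Ω M) (egalJ M) * (hesTE Ω M ^ 3 - 1) ^ 3 =
      27 * hesTE Ω M ^ 3 * (hesTE Ω M ^ 3 + 8) ^ 3 := by
    have h1 : algebraMap ↥(keyFq Ω M) ↥(hesE Ω M) (egalJ M) = hesJE Ω M := fullToHesE_egalJ M
    rw [h1]
    exact hesTE_rel M
  exact three_dvd_ord_of_hesse (t := hesTE Ω M) (j := egalJ M) hω (hesTE_cube_sub_one_ne_zero M)
    hrel (adjoin_hesTE_eq_top M) hPv (bcd_deg_eq_one_hesE M P) (egalJ_ne_zero M) hj (hf P)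

end Fermat.Agent.ML.MAZ23
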