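/-
ML (S59) — helper1 — Mazur (2,3), leaf [HCUSP]: the cusps of `X₀(N)` over `Ω = ℚ̄` as PLACES.

* `exists_coset_of_pole`: a pole of `j` is the cusp place of a coset, and its width
  `- ord j` is the size of the `⟨T⟩`-orbit;
* `natAbs_ord_jBar_dvd`: the width divides `N`;
* `pole_eq_of_ord_jBar_eq`: for squarefree `N`, two poles of `j` with the same order are equal;
* `card_poles_jBar`: the number of poles of `j` is `cuspCount N`.
-/
import Mathlib
import Fermat.Agent.ML.MAZ23_helper1_CuspComb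
import Fermat.Agent.MW.ARCH_helper9_DictCusp

set_option autoImplicit false
set_option linter.unusedSectionVars false

open AlgebraicCurve CongruenceSubgroup MatrixGroups ModularGroup ModularCurve

namespace Fermat.Agent.ML.MAZ23C

open Fermat.Agent.FF Fermat.Agent.X0N Fermat.Agent.JA Fermat.Agent.MW

local notation "Ω" => AlgebraicClosure ℚ

attribute [local instance] algOmC isScalarTower_algOmC

variable (N : ℕ) [NeZero N]

/-- a pole of `j` on `X₀(N)` is the cusp place of some coset `q`, and `- ord j` is the size of the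
`⟨T⟩`-orbit of `q`. -/
theorem exists_coset_of_pole (P : PtN N) (hP : P.ord (Fermat.Agent.X0N.jBar N) < 0) :
    ∃ q : SL(2, ℤ) ⧸ Gamma0 N,
      (cuspOrdFn (algebraMap Ω ℂ) N q).toPlace = P ∧
      -(P.ord (Fermat.Agent.X0N.jBar N)) =
        Nat.card {q' // MulAction.orbitRel (Subgroup.zpowers T) (SL(2, ℤ) ⧸ Gamma0 N) q' q} := by
  have hsq := poles_jB_squeeze N (jCoordK Ω N) (jB_eq_jK (k := Ω) N).symm
    (hX_jCoordK (k := Ω) (N := N)).symm
  obtain ⟨q, hq⟩ := hsq.2.2.2 P ((jCoordK Ω N).mem_poles.mpr hP)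
  refine ⟨q, hq, ?_⟩
  have h := hsq.2.1 q
  rw [hq] at h
  exact h

/-- the width of a cusp divides the level. -/
theorem natAbs_ord_jBar_dvd (P : PtN N) (hP : P.ord (Fermat.Agent.X0N.jBar N) < 0) :
    (P.ord (Fermat.Agent.X0N.jBar N)).natAbs ∣ N := by
  obtain ⟨q, -, hq⟩ := exists_coset_of_pole N P hP
  have h1 : (P.ord (Fermat.Agent.X0N.jBar N)).natAbs =
      Nat.card {q' // MulAction.orbitRel (Subgroup.zpowers T) (SL(2, ℤ) ⧸ Gamma0 N) q' q} := by
    omega
  rw [h1]
  exact card_orbit_T_dvd N q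

/-- **for squarefree `N` the cusps of `X₀(N)` are separated by their widths.** -/
theorem pole_eq_of_ord_jBar_eq (hN : Squarefree N) (P P' : PtN N)
    (hP : P.ord (Fermat.Agent.X0N.jBar N) < 0)
    (h : P.ord (Fermat.Agent.X0N.jBar N) = P'.ord (Fermat.Agent.X0N.jBar N)) : P = P' := by
  have hP' : P'.ord (Fermat.Agent.X0N.jBar N) < 0 := h ▸ hP
  obtain ⟨q, hq, hw⟩ := exists_coset_of_pole N P hP
  obtain ⟨q', hq', hw'⟩ := exists_coset_of_pole N P' hP'
  have hcard : Nat.card {x // MulAction.orbitRel (Subgroup.zpowers T) (SL(2, ℤ) ⧸ Gamma0 N) x q} =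
      Nat.card {x // MulAction.orbitRel (Subgroup.zpowers T) (SL(2, ℤ) ⧸ Gamma0 N) x q'} := by
    have : ((Nat.card {x // MulAction.orbitRel (Subgroup.zpowers T)
        (SL(2, ℤ) ⧸ Gamma0 N) x q} : ℕ) : ℤ) =
        Nat.card {x // MulAction.orbitRel (Subgroup.zpowers T) (SL(2, ℤ) ⧸ Gamma0 N) x q'} := by
      rw [← hw, ← hw', h]
    exact_mod_cast this
  have hrel := orbitRel_of_card_orbit_eq N hN q q' hcard
  rw [← hq, ← hq']
  apply OrdFn.toPlace_eq_of_ord_eq
  intro f _
  exact cuspOrdFn_ord_eq_of_orbitRel (algebraMap Ω ℂ) N hrel f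

/-- the number of cusps of `X₀(N)`. -/
theorem card_poles_jBar : (jCoordK Ω N).poles.card = cuspCount N := by
  have hsq := poles_jB_squeeze N (jCoordK Ω N) (jB_eq_jK (k := Ω) N).symm
    (hX_jCoordK (k := Ω) (N := N)).symm
  rw [hsq.1, card_cusps]

/-- the same for any enumeration of the poles of `j`. -/
theorem card_eq_cuspCount_of_mem_iff (s : Finset (PtN N))
    (hs : ∀ v : PtN N, v ∈ s ↔ v.ord (Fermat.Agent.X0N.jBar N) < 0) : s.card = cuspCount N := by
  have h : s = (jCoordK Ω N).poles := by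
    ext v
    rw [hs, Coord.mem_poles]
    rfl
  rw [h, card_poles_jBar]

end Fermat.Agent.ML.MAZ23C

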