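/-
PROJECT ML (S59) — helper8 — **[HCUSP] support (a): the cusps of `X₀(M ℓ)` and the two
degeneracy maps.**

`L' = modularFunctionFieldBar (M * ℓ)`, `α, β : L_M → L'` the two degeneracy maps, `ℓ` prime.
For a place `w` of `L'`:

* `hcusp_ord_alpha_neg_iff_beta_neg` : `j ∘ α` has a pole at `w` iff `j ∘ β` has;
* `hcusp_ord_dichotomy` : at such a `w`, `ord_w (β j) = ℓ · ord_w (α j)` or
  `ℓ · ord_w (β j) = ord_w (α j)`;
* the same statements for the restrictions `w ∘ α`, `w ∘ β`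
  (`hcusp_restrictAlong_alpha_neg_iff`, `hcusp_restrictAlong_beta_neg_iff`).

From `SS/CUSPORD_helper9_Main.cuspord` applied to the restriction of `w` to
`F_ℓ = Ω(j, j_ℓ) ⊆ L'`.
-/
import Mathlib
import Fermat.Agent.SS.CUSPORD_helper9_Main
import Fermat.Agent.NP.BASEP_helper2_Old
import Fermat.Agent.FF.PlaceBasic
import Fermat.Agent.W1.BASE_helper7_Field

set_option autoImplicit false
set_option linter.unusedSectionVars false
set_option linter.unusedVariables false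
set_option linter.style.haveILetI false
set_option synthInstance.maxHeartbeats 400000

open AlgebraicCurve ModularCurve IntermediateField

noncomputable section

namespace Fermat.Agent.ML

open Fermat.Agent.SS Fermat.Agent.JA Fermat.Agent.X0N Fermat.Agent.FF

local notation "Ω" => AlgebraicClosure ℚ

section Dich

variable (M ℓ : ℕ) [NeZero M] [NeZero ℓ] [NeZero (M * ℓ)]

/-- the inclusion `F_ℓ = Ω(j, j_ℓ) ⊆ L_{M ℓ}`. -/
def hcuspIncl : ↥(laurentBaseChange Ω (modularFunctionFieldFull ℓ)) →ₐ[Ω]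
    ↥(laurentBaseChange Ω (modularFunctionFieldFull (M * ℓ))) :=
  IntermediateField.inclusion
    (Fermat.Agent.W1.laurentBaseChange_mono Ω (full_degeneracy_le (dvd_mul_left ℓ M)))

theorem coe_hcuspIncl (x : ↥(laurentBaseChange Ω (modularFunctionFieldFull ℓ))) :
    ((hcuspIncl M ℓ x : ↥(laurentBaseChange Ω (modularFunctionFieldFull (M * ℓ)))) :
      LaurentSeries Ω) = (x : LaurentSeries Ω) :=
  IntermediateField.coe_inclusion _ x

theorem hcuspIncl_jGen : hcuspIncl M ℓ (jGen Ω ℓ) = heckeAlphaBar Ω M ℓ (jBar M) := by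
  apply Subtype.ext
  rw [coe_hcuspIncl, coe_heckeAlphaBar]
  rfl

theorem hcuspIncl_jdBar :
    hcuspIncl M ℓ (jdBar (k := Ω) ℓ (dvd_refl ℓ)) = heckeBetaBar Ω M ℓ (jBar M) := by
  apply Subtype.ext
  rw [coe_hcuspIncl, coe_heckeBetaBar, cuspord_coe_jdBar]
  show jqNModC Ω ℓ = qExpand Ω ℓ (coeffEmb Ω jq)
  rw [jqNModC, coeffEmb_jq_eq_jqModC]

theorem hcusp_alpha_jBar_ne_zero : heckeAlphaBar Ω M ℓ (jBar M) ≠ 0 := by
  rw [← hcuspIncl_jGen]
  exact (map_ne_zero _).mpr (cuspord_jGen_ne_zero Ω ℓ)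

theorem hcusp_jdBar_ne_zero : (jdBar (k := Ω) ℓ (dvd_refl ℓ)) ≠ 0 := by
  intro h
  have h1 := cuspord_qOrd_jdBar Ω ℓ
  rw [h] at h1
  have h2 : qOrd (laurentBaseChange Ω (modularFunctionFieldFull ℓ)) 0 = 0 := by
    show ((0 : ↥(laurentBaseChange Ω (modularFunctionFieldFull ℓ))) : LaurentSeries Ω).order = 0
    simp
  rw [h2] at h1
  have : (ℓ : ℤ) ≠ 0 := by exact_mod_cast NeZero.ne ℓ
  omega

theorem hcusp_beta_jBar_ne_zero : heckeBetaBar Ω M ℓ (jBar M) ≠ 0 := by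
  rw [← hcuspIncl_jdBar]
  exact (map_ne_zero _).mpr (hcusp_jdBar_ne_zero ℓ)

variable {M ℓ}

/-- membership in the restriction of a place of `L_{M ℓ}` to `F_ℓ`. -/
theorem hcusp_mem_comap_iff (w : Place Ω ↥(modularFunctionFieldBar (M * ℓ)))
    {x : ↥(laurentBaseChange Ω (modularFunctionFieldFull ℓ))} (hx : x ≠ 0) :
    x ∈ w.toValuationSubring.comap (hcuspIncl M ℓ : _ →+* _) ↔ 0 ≤ w.ord (hcuspIncl M ℓ x) := by
  rw [ValuationSubring.mem_comap]
  exact PlaceAux.mem_iff_ord_nonneg' w ((map_ne_zero _).mpr hx)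

/-- **the dichotomy at the cusps of `X₀(M ℓ)`.** -/
theorem hcusp_ord_dichotomy (hℓ : ℓ.Prime) (w : Place Ω ↥(modularFunctionFieldBar (M * ℓ)))
    (hw : w.ord (heckeAlphaBar Ω M ℓ (jBar M)) < 0) :
    w.ord (heckeBetaBar Ω M ℓ (jBar M)) < 0 ∧
      (w.ord (heckeBetaBar Ω M ℓ (jBar M)) = ℓ * w.ord (heckeAlphaBar Ω M ℓ (jBar M)) ∨
        ℓ * w.ord (heckeBetaBar Ω M ℓ (jBar M)) = w.ord (heckeAlphaBar Ω M ℓ (jBar M))) := by
  set ι : Ω →+* ℂ := ((IsAlgClosed.lift : Ω →ₐ[ℚ] ℂ) : Ω →+* ℂ) with hι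
  set φ := hcuspIncl M ℓ with hφ
  set V : ValuationSubring ↥(laurentBaseChange Ω (modularFunctionFieldFull ℓ)) :=
    w.toValuationSubring.comap (φ : _ →+* _) with hV
  have hj0 := cuspord_jGen_ne_zero Ω ℓ
  have hjd0 := hcusp_jdBar_ne_zero ℓ
  have hK : ∀ c : Ω, algebraMap Ω ↥(laurentBaseChange Ω (modularFunctionFieldFull ℓ)) c ∈ V := by
    intro c
    rw [hV, ValuationSubring.mem_comap]
    show φ (algebraMap Ω _ c) ∈ _
    rw [AlgHom.commutes]
    exact w.algebraMap_mem' c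
  have hj : jGen Ω ℓ ∉ V := by
    rw [hV, hcusp_mem_comap_iff w hj0, hcuspIncl_jGen]
    omega
  obtain ⟨hcases, -, -, hjd⟩ := cuspord ι ℓ hℓ V hK hj
  have hb : w.ord (heckeBetaBar Ω M ℓ (jBar M)) < 0 := by
    rw [hV, hcusp_mem_comap_iff w hjd0, hcuspIncl_jdBar] at hjd
    omega
  refine ⟨hb, ?_⟩
  -- the two unit quotients
  set u : ↥(laurentBaseChange Ω (modularFunctionFieldFull ℓ)) :=
    jdBar (k := Ω) ℓ (dvd_refl ℓ) * (jGen Ω ℓ ^ ℓ)⁻¹ with hu
  have hu0 : u ≠ 0 := mul_ne_zero hjd0 (inv_ne_zero (pow_ne_zero ℓ hj0))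
  have hu_ord : ((u : ↥(laurentBaseChange Ω (modularFunctionFieldFull ℓ))) :
      LaurentSeries Ω).order = 0 := by
    have c1 : ((jdBar (k := Ω) ℓ (dvd_refl ℓ) : ↥(laurentBaseChange Ω (modularFunctionFieldFull ℓ))) :
        LaurentSeries Ω) ≠ 0 := fun h => hjd0 (Subtype.ext h)
    have c2 : ((jGen Ω ℓ : ↥(laurentBaseChange Ω (modularFunctionFieldFull ℓ))) :
        LaurentSeries Ω) ≠ 0 := fun h => hj0 (Subtype.ext h)
    have e1 : ((u : ↥(laurentBaseChange Ω (modularFunctionFieldFull ℓ))) : LaurentSeries Ω) =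
        ((jdBar (k := Ω) ℓ (dvd_refl ℓ) : ↥(laurentBaseChange Ω (modularFunctionFieldFull ℓ))) :
          LaurentSeries Ω) *
        (((jGen Ω ℓ : ↥(laurentBaseChange Ω (modularFunctionFieldFull ℓ))) :
          LaurentSeries Ω) ^ ℓ)⁻¹ := by
      rw [hu]
      push_cast
      rfl
    have e2 : ((jdBar (k := Ω) ℓ (dvd_refl ℓ) : ↥(laurentBaseChange Ω (modularFunctionFieldFull ℓ))) :
          LaurentSeries Ω) = ((u : ↥(laurentBaseChange Ω (modularFunctionFieldFull ℓ))) :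
            LaurentSeries Ω) * ((jGen Ω ℓ : ↥(laurentBaseChange Ω (modularFunctionFieldFull ℓ))) :
          LaurentSeries Ω) ^ ℓ := by
      rw [e1, inv_mul_cancel_right₀ (pow_ne_zero ℓ c2)]
    have c3 : ((u : ↥(laurentBaseChange Ω (modularFunctionFieldFull ℓ))) : LaurentSeries Ω) ≠ 0 :=
      fun h => hu0 (Subtype.ext h)
    have e3 := congrArg HahnSeries.order e2
    rw [HahnSeries.order_mul c3 (pow_ne_zero ℓ c2), HahnSeries.order_pow, cuspord_coe_jdBar,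
      cuspord_order_jqNModC, cuspord_coe_jGen, cuspord_order_jqModC] at e3
    simp only [nsmul_eq_mul] at e3
    omega
  have hu_mem : u ∈ cuspVinf Ω ℓ ∧ u⁻¹ ∈ cuspVinf Ω ℓ := by
    refine ⟨(mem_cuspVinf_iff Ω ℓ u).mpr (Or.inr hu_ord.ge), (mem_cuspVinf_iff Ω ℓ u⁻¹).mpr (Or.inr ?_)⟩
    have c3 : ((u : ↥(laurentBaseChange Ω (modularFunctionFieldFull ℓ))) : LaurentSeries Ω) ≠ 0 :=
      fun h => hu0 (Subtype.ext h)
    have e1 : ((u⁻¹ : ↥(laurentBaseChange Ω (modularFunctionFieldFull ℓ))) : LaurentSeries Ω) =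
        ((u : ↥(laurentBaseChange Ω (modularFunctionFieldFull ℓ))) : LaurentSeries Ω)⁻¹ := rfl
    have e2 : ((u : ↥(laurentBaseChange Ω (modularFunctionFieldFull ℓ))) : LaurentSeries Ω) *
        ((u : ↥(laurentBaseChange Ω (modularFunctionFieldFull ℓ))) : LaurentSeries Ω)⁻¹ = 1 :=
      mul_inv_cancel₀ c3
    have e3 := congrArg HahnSeries.order e2
    rw [HahnSeries.order_mul c3 (inv_ne_zero c3), hu_ord, HahnSeries.order_one, zero_add] at e3
    rw [e1, e3]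
  -- how a unit of `V` reads on `w`
  have hunit : ∀ x : ↥(laurentBaseChange Ω (modularFunctionFieldFull ℓ)), x ≠ 0 → x ∈ V →
      x⁻¹ ∈ V → w.ord (φ x) = 0 := by
    intro x hx0 hx hxi
    rw [hV, hcusp_mem_comap_iff w hx0] at hx
    rw [hV, hcusp_mem_comap_iff w (inv_ne_zero hx0), map_inv₀, w.ord_inv] at hxi
    have hx' : 0 ≤ w.ord (φ x) := hx
    have hxi' : 0 ≤ -w.ord (φ x) := hxi
    omega
  have ha0 : φ (jGen Ω ℓ) ≠ 0 := (map_ne_zero _).mpr hj0
  have hb0 : φ (jdBar (k := Ω) ℓ (dvd_refl ℓ)) ≠ 0 := (map_ne_zero _).mpr hjd0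
  rcases hcases with hc | hc
  · left
    have h1 := hunit u hu0 (by rw [hc]; exact hu_mem.1) (by rw [hc]; exact hu_mem.2)
    rw [hu, map_mul, map_inv₀, map_pow, w.ord_mul hb0 (inv_ne_zero (pow_ne_zero ℓ ha0)), w.ord_inv,
      PlaceAux.ord_pow, hcuspIncl_jGen, hcuspIncl_jdBar] at h1
    omega
  · right
    set u' : ↥(laurentBaseChange Ω (modularFunctionFieldFull ℓ)) :=
      jGen Ω ℓ * (jdBar (k := Ω) ℓ (dvd_refl ℓ) ^ ℓ)⁻¹ with hu'
    have hu'0 : u' ≠ 0 := mul_ne_zero hj0 (inv_ne_zero (pow_ne_zero ℓ hjd0))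
    have hfr : frickeN ι ℓ u' = u := by
      rw [hu', hu, map_mul, map_inv₀, map_pow, cuspord_frickeN_jGen, cuspord_frickeN_jdBar]
    have h1 := hunit u' hu'0
      (by rw [hc, ValuationSubring.mem_comap, hfr]; exact hu_mem.1)
      (by rw [hc, ValuationSubring.mem_comap, map_inv₀, hfr]; exact hu_mem.2)
    rw [hu', map_mul, map_inv₀, map_pow, w.ord_mul ha0 (inv_ne_zero (pow_ne_zero ℓ hb0)), w.ord_inv,
      PlaceAux.ord_pow, hcuspIncl_jGen, hcuspIncl_jdBar] at h1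
    omega

/-- `j ∘ β` has a pole at `w` only if `j ∘ α` has. -/
theorem hcusp_ord_alpha_neg_of_beta_neg (hℓ : ℓ.Prime)
    (w : Place Ω ↥(modularFunctionFieldBar (M * ℓ)))
    (hw : w.ord (heckeBetaBar Ω M ℓ (jBar M)) < 0) :
    w.ord (heckeAlphaBar Ω M ℓ (jBar M)) < 0 := by
  set ι : Ω →+* ℂ := ((IsAlgClosed.lift : Ω →ₐ[ℚ] ℂ) : Ω →+* ℂ) with hι
  set φ := hcuspIncl M ℓ with hφ
  set V : ValuationSubring ↥(laurentBaseChange Ω (modularFunctionFieldFull ℓ)) :=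
    w.toValuationSubring.comap (φ : _ →+* _) with hV
  set V' : ValuationSubring ↥(laurentBaseChange Ω (modularFunctionFieldFull ℓ)) :=
    V.comap (frickeN ι ℓ) with hV'
  have hj0 := cuspord_jGen_ne_zero Ω ℓ
  have hjd0 := hcusp_jdBar_ne_zero ℓ
  have hK : ∀ c : Ω, algebraMap Ω ↥(laurentBaseChange Ω (modularFunctionFieldFull ℓ)) c ∈ V' := by
    intro c
    rw [hV', ValuationSubring.mem_comap, frickeN_algebraMap, hV, ValuationSubring.mem_comap]
    show φ (algebraMap Ω _ c) ∈ _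
    rw [AlgHom.commutes]
    exact w.algebraMap_mem' c
  have hj : jGen Ω ℓ ∉ V' := by
    rw [hV', ValuationSubring.mem_comap, cuspord_frickeN_jGen, hV, hcusp_mem_comap_iff w hjd0,
      hcuspIncl_jdBar]
    omega
  obtain ⟨-, -, -, hjd⟩ := cuspord ι ℓ hℓ V' hK hj
  rw [hV', ValuationSubring.mem_comap, cuspord_frickeN_jdBar, hV, hcusp_mem_comap_iff w hj0,
    hcuspIncl_jGen] at hjd
  omega

/-- `j ∘ α` has a pole at `w` iff `j ∘ β` has. -/
theorem hcusp_ord_alpha_neg_iff_beta_neg (hℓ : ℓ.Prime)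
    (w : Place Ω ↥(modularFunctionFieldBar (M * ℓ))) :
    w.ord (heckeAlphaBar Ω M ℓ (jBar M)) < 0 ↔ w.ord (heckeBetaBar Ω M ℓ (jBar M)) < 0 :=
  ⟨fun h => (hcusp_ord_dichotomy hℓ w h).1, hcusp_ord_alpha_neg_of_beta_neg hℓ w⟩

end Dich

section Along

variable {K F F' : Type*} [Field K] [Field F] [Field F'] [Algebra K F] [Algebra K F']

theorem hcusp_ramificationIndexAlong_pos (φ : F →ₐ[K] F') (hφ : φ.toRingHom.IsIntegral)
    (w : Place K F') : (0 : ℤ) < (Place.ramificationIndexAlong φ w : ℤ) := by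
  letI := algebraAlong φ
  haveI := isScalarTower_along φ
  haveI := isIntegral_along φ hφ
  exact_mod_cast Place.ramificationIndex_pos (F := F) w

theorem hcusp_ord_restrictAlong_neg_iff (φ : F →ₐ[K] F') (hφ : φ.toRingHom.IsIntegral)
    (w : Place K F') (g : F) : (w.restrictAlong φ hφ).ord g < 0 ↔ w.ord (φ g) < 0 := by
  rw [Place.ord_restrictAlong φ hφ]
  have hpos := hcusp_ramificationIndexAlong_pos φ hφ w
  constructor
  · intro h
    exact mul_neg_of_pos_of_neg hpos h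
  · intro h
    by_contra hcon
    push Not at hcon
    have := mul_nonneg hpos.le hcon
    omega

theorem hcusp_ord_restrictAlong_nonneg_iff (φ : F →ₐ[K] F') (hφ : φ.toRingHom.IsIntegral)
    (w : Place K F') (g : F) : 0 ≤ (w.restrictAlong φ hφ).ord g ↔ 0 ≤ w.ord (φ g) := by
  have := hcusp_ord_restrictAlong_neg_iff φ hφ w g
  constructor
  · intro h
    by_contra hcon
    push Not at hcon
    have := this.mpr hcon
    omega
  · intro h
    by_contra hcon
    push Not at hcon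
    have := this.mp hcon
    omega

end Along

section Restrict

variable {M ℓ : ℕ} [NeZero M] [NeZero ℓ] [NeZero (M * ℓ)]

/-- the cusps of `X₀(M ℓ)` are the places over the cusps of `X₀(M)`, for both degeneracy maps. -/
theorem hcusp_restrictAlong_neg_iff (hℓ : ℓ.Prime) (hα : (heckeAlphaBar Ω M ℓ).toRingHom.IsIntegral)
    (hβ : (heckeBetaBar Ω M ℓ).toRingHom.IsIntegral) (w : Place Ω ↥(modularFunctionFieldBar (M * ℓ))) :
    (w.restrictAlong (heckeAlphaBar Ω M ℓ) hα).ord (jBar M) < 0 ↔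
      (w.restrictAlong (heckeBetaBar Ω M ℓ) hβ).ord (jBar M) < 0 := by
  rw [hcusp_ord_restrictAlong_neg_iff, hcusp_ord_restrictAlong_neg_iff]
  exact hcusp_ord_alpha_neg_iff_beta_neg hℓ w

/-- **the dichotomy in terms of ramification indices and widths**: at a cusp `w` of `X₀(M ℓ)`,
`e_β · ord_{β w} j = ℓ · e_α · ord_{α w} j` or `ℓ · e_β · ord_{β w} j = e_α · ord_{α w} j`. -/
theorem hcusp_restrictAlong_dichotomy (hℓ : ℓ.Prime) (hα : (heckeAlphaBar Ω M ℓ).toRingHom.IsIntegral)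
    (hβ : (heckeBetaBar Ω M ℓ).toRingHom.IsIntegral) (w : Place Ω ↥(modularFunctionFieldBar (M * ℓ)))
    (hw : (w.restrictAlong (heckeAlphaBar Ω M ℓ) hα).ord (jBar M) < 0) :
    (Place.ramificationIndexAlong (heckeBetaBar Ω M ℓ) w : ℤ) *
        (w.restrictAlong (heckeBetaBar Ω M ℓ) hβ).ord (jBar M) =
      ℓ * ((Place.ramificationIndexAlong (heckeAlphaBar Ω M ℓ) w : ℤ) *
        (w.restrictAlong (heckeAlphaBar Ω M ℓ) hα).ord (jBar M)) ∨
    ℓ * ((Place.ramificationIndexAlong (heckeBetaBar Ω M ℓ) w : ℤ) *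
        (w.restrictAlong (heckeBetaBar Ω M ℓ) hβ).ord (jBar M)) =
      (Place.ramificationIndexAlong (heckeAlphaBar Ω M ℓ) w : ℤ) *
        (w.restrictAlong (heckeAlphaBar Ω M ℓ) hα).ord (jBar M) := by
  rw [hcusp_ord_restrictAlong_neg_iff] at hw
  rw [← Place.ord_restrictAlong, ← Place.ord_restrictAlong]
  exact (hcusp_ord_dichotomy hℓ w hw).2

end Restrict

end Fermat.Agent.ML
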