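/-
PROJECT ML (S59) — helper8 — **[HCUSP] support (b): the order form of the norm formula and the
non-cuspidal half of [HCUSP].**

* `hcusp_ord_normAlong_eq_sum` : over an algebraically closed field of characteristic zero,
  `ord_v (N_φ g) = ∑_{w ∣ v} ord_w g`;
* `hcusp_ord_heckeFunBar_eq_sum` : `ord_v (T_ℓ f) = ∑_{w ∣_α v} e_β(w) · ord_{β w} f`;
* `hcusp_sum_ramificationIndexAlong` : `∑_{w ∣_φ v} e_φ(w) = [F' : φ F]`;
* `hcusp_dvd_of_noncusp` : the non-cuspidal half of `HeckeCuspStatement`.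
-/
import Mathlib
import Fermat.Agent.ML.MAZ23_helper8_CuspDich
import Fermat.Agent.MP.NORMP_helper3_PDiv
import Fermat.Agent.JA.H0_helper7_Main
import Fermat.Agent.JA.ES_helper4_Main

set_option autoImplicit false
set_option linter.unusedSectionVars false
set_option linter.unusedVariables false
set_option linter.style.haveILetI false
set_option synthInstance.maxHeartbeats 400000

open AlgebraicCurve ModularCurve IntermediateField

noncomputable section

namespace Fermat.Agent.ML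

open Fermat.Agent.SS Fermat.Agent.JA Fermat.Agent.X0N Fermat.Agent.FF Fermat.Agent.NP
  Fermat.Agent.MP

local notation "Ω" => AlgebraicClosure ℚ

section Abstract

variable {K F F' : Type*} [Field K] [Field F] [Field F'] [Algebra K F] [Algebra K F']
  [CharZero K] [IsAlgClosed K] [HasPrincipalDivisors K F']

/-- **the order form of the norm formula.** -/
theorem hcusp_ord_normAlong_eq_sum (c : Coord K F) (c' : Coord K F') (φ : F →ₐ[K] F')
    (hφ : φ.toRingHom.IsIntegral) {g : F'} (hg : g ≠ 0) (v : Place K F) :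
    v.ord (normAlong φ g) = ∑ w ∈ Place.fiberAlong φ hφ v, w.ord g := by
  classical
  have hfin : FiniteAlong K φ := finiteAlong_of_coord c c' φ
  have hN := normFormulaAlong_of_coord c c' φ hfin
  obtain ⟨D, hD, -⟩ := HasPrincipalDivisors.exists_divisor (K := K) g hg
  letI := algebraAlong φ
  haveI := isScalarTower_along φ
  haveI := isIntegral_along φ hφ
  haveI : Module.Finite F F' := hfin
  have h1 : Divisor.pushforward F D v = v.ord (Algebra.norm F g) := hN g hg D hD v
  show v.ord (Algebra.norm F g) = _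
  rw [← h1, Divisor.pushforward_apply]
  have hdeg : ∀ w : Place K F', (w.inertiaDeg F : ℤ) = 1 := by
    intro w
    have h := w.deg_restrict_mul_inertiaDeg (F := F)
    rw [c'.deg_eq_one w] at h
    have := Nat.eq_one_of_mul_eq_one_left h
    exact_mod_cast this
  rw [← Finset.sum_filter]
  have hsub : D.support.filter (fun w => w.restrict F = v) ⊆ Place.fiberAlong φ hφ v := by
    intro w hw
    rw [Finset.mem_filter] at hw
    exact Place.mem_fiberAlong.mpr hw.2
  rw [← Finset.sum_subset hsub]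
  · refine Finset.sum_congr rfl fun w _ => ?_
    rw [hdeg, mul_one, hD]
  · intro w hw hnot
    rw [Finset.mem_filter, not_and_or] at hnot
    rcases hnot with h | h
    · rw [Finsupp.mem_support_iff, not_not, hD] at h
      exact h
    · exact absurd (Place.mem_fiberAlong.mp hw) h

/-- **the sum of the ramification indices over a place.** -/
theorem hcusp_sum_ramificationIndexAlong (c : Coord K F) (c' : Coord K F') (φ : F →ₐ[K] F')
    (hφ : φ.toRingHom.IsIntegral) (v : Place K F) :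
    ∑ w ∈ Place.fiberAlong φ hφ v, (Place.ramificationIndexAlong φ w : ℤ) =
      (finrankAlong K φ : ℤ) := by
  have hFI := fundamentalIdentityAlong_of_coord c c' φ hφ
  letI := algebraAlong φ
  haveI := isScalarTower_along φ
  haveI := isIntegral_along φ hφ
  have hFI' : FundamentalIdentity K F F' := hFI
  have key := hFI'.sum_ramificationIndex_mul_deg v
  rw [c.deg_eq_one v, Nat.cast_one, mul_one] at key
  show ∑ w ∈ v.fiber F', (w.ramificationIndex F : ℤ) = (Module.finrank F F' : ℤ)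
  rw [← key]
  refine Finset.sum_congr rfl fun w _ => ?_
  rw [c'.deg_eq_one w, Nat.cast_one, mul_one]

end Abstract

section Concrete

variable (M ℓ : ℕ) [NeZero M] [NeZero ℓ] [NeZero (M * ℓ)]

instance hcusp_hasPrincipalDivisors :
    HasPrincipalDivisors Ω ↥(modularFunctionFieldBar (M * ℓ)) :=
  (jCoordBar (M * ℓ)).hasPrincipalDivisors

theorem hcusp_hα : (heckeAlphaBar Ω M ℓ).toRingHom.IsIntegral := heckeAlphaBarIntegral_bar M ℓ

theorem hcusp_hβ : (heckeBetaBar Ω M ℓ).toRingHom.IsIntegral := heckeBetaBarIntegral_bar M ℓ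

/-- **`ord_v (T_ℓ f) = ∑_{w ∣_α v} e_β(w) · ord_{β w} f`.** -/
theorem hcusp_ord_heckeFunBar_eq_sum {f : ↥(modularFunctionFieldBar M)} (hf : f ≠ 0)
    (v : Place Ω ↥(modularFunctionFieldBar M)) :
    v.ord (heckeFunBar M ℓ f) =
      ∑ w ∈ Place.fiberAlong (heckeAlphaBar Ω M ℓ) (hcusp_hα M ℓ) v,
        (Place.ramificationIndexAlong (heckeBetaBar Ω M ℓ) w : ℤ) *
          (w.restrictAlong (heckeBetaBar Ω M ℓ) (hcusp_hβ M ℓ)).ord f := by
  unfold heckeFunBar
  rw [hcusp_ord_normAlong_eq_sum (jCoordBar M) (jCoordBar (M * ℓ)) (heckeAlphaBar Ω M ℓ)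
    (hcusp_hα M ℓ) ((map_ne_zero _).mpr hf) v]
  refine Finset.sum_congr rfl fun w _ => ?_
  exact Place.ord_restrictAlong (heckeBetaBar Ω M ℓ) (hcusp_hβ M ℓ) w f

/-- **`∑_{w ∣_α v} e_α(w) = [L_{Mℓ} : α L_M]`.** -/
theorem hcusp_sum_eAlpha (v : Place Ω ↥(modularFunctionFieldBar M)) :
    ∑ w ∈ Place.fiberAlong (heckeAlphaBar Ω M ℓ) (hcusp_hα M ℓ) v,
        (Place.ramificationIndexAlong (heckeAlphaBar Ω M ℓ) w : ℤ) =
      (finrankAlong Ω (heckeAlphaBar Ω M ℓ) : ℤ) :=
  hcusp_sum_ramificationIndexAlong (jCoordBar M) (jCoordBar (M * ℓ)) _ _ v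

/-- **`∑_{w ∣_β v} e_β(w) = [L_{Mℓ} : β L_M]`.** -/
theorem hcusp_sum_eBeta (v : Place Ω ↥(modularFunctionFieldBar M)) :
    ∑ w ∈ Place.fiberAlong (heckeBetaBar Ω M ℓ) (hcusp_hβ M ℓ) v,
        (Place.ramificationIndexAlong (heckeBetaBar Ω M ℓ) w : ℤ) =
      (finrankAlong Ω (heckeBetaBar Ω M ℓ) : ℤ) :=
  hcusp_sum_ramificationIndexAlong (jCoordBar M) (jCoordBar (M * ℓ)) _ _ v

/-- **the non-cuspidal half of [HCUSP].** -/
theorem hcusp_dvd_of_noncusp (hℓ : ℓ.Prime) (m : ℤ) {f : ↥(modularFunctionFieldBar M)}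
    (hf : f ≠ 0)
    (h : ∀ v : Place Ω ↥(modularFunctionFieldBar M), 0 ≤ v.ord (jBar M) → m ∣ v.ord f)
    (v : Place Ω ↥(modularFunctionFieldBar M)) (hv : 0 ≤ v.ord (jBar M)) :
    m ∣ v.ord (heckeFunBar M ℓ f) - ((ℓ : ℤ) + 1) * v.ord f := by
  refine dvd_sub ?_ (Dvd.dvd.mul_left (h v hv) _)
  rw [hcusp_ord_heckeFunBar_eq_sum M ℓ hf v]
  refine Finset.dvd_sum fun w hw => Dvd.dvd.mul_left (h _ ?_) _
  have hw' := Place.mem_fiberAlong.mp hw
  rw [hcusp_ord_restrictAlong_nonneg_iff]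
  by_contra hcon
  push Not at hcon
  have h1 := hcusp_ord_alpha_neg_of_beta_neg hℓ w hcon
  rw [← hcusp_ord_restrictAlong_neg_iff (heckeAlphaBar Ω M ℓ) (hcusp_hα M ℓ),
    hw'] at h1
  omega

end Concrete

end Fermat.Agent.ML
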