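/-
PROJECT ML (S59) — helper8 — **[HCUSP]: the Hecke operators are Eisenstein on the cusps**
(`heckeCuspStatement : HeckeCuspStatement`, literal of `ML/IFACE_helper6_Maz23`).

`M` squarefree, `ℓ ∤ M` prime.  For every cusp `w` of `X₀(M ℓ)` the two degeneracy maps have
`(e_α, e_β) ∈ {(1, ℓ), (ℓ, 1)}` and `α(w) = β(w)`; hence `ord_v (T_ℓ f) = (ℓ + 1) ord_v f` at every
cusp `v` of `X₀(M)`.  Inputs: the dichotomy (`ML/MAZ23_helper8_CuspDich`), the order form of the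
norm formula (`ML/MAZ23_helper8_NormOrd`), helper1's cusp combinatorics
(`ML/MAZ23_helper1_{CuspComb,CuspPlaces}`: widths divide the level, distinct widths, number of
cusps, `ramification_squeeze`) and helper5's degrees of the degeneracy maps.
-/
import Mathlib
import Fermat.Agent.ML.MAZ23_helper8_NormOrd
import Fermat.Agent.ML.MAZ23_helper1_CuspPlaces
import Fermat.Agent.ML.IFACE_helper6_Maz23
import Fermat.Agent.GR.ANORM_helper5_Fricke

set_option autoImplicit false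
set_option linter.unusedSectionVars false
set_option linter.unusedVariables false
set_option linter.style.haveILetI false
set_option synthInstance.maxHeartbeats 400000

open AlgebraicCurve ModularCurve IntermediateField

noncomputable section

namespace Fermat.Agent.ML

open Fermat.Agent.SS Fermat.Agent.JA Fermat.Agent.X0N Fermat.Agent.FF Fermat.Agent.NP
  Fermat.Agent.MP Fermat.Agent.MW Fermat.Agent.ML.MAZ23C

local notation "Ω" => AlgebraicClosure ℚ

attribute [local instance] algOmC isScalarTower_algOmC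

section Fin

theorem hcusp_sum_fibres {A B : Type*} [DecidableEq A] [DecidableEq B] (C : Finset B)
    (C' : Finset A) (r : A → B) (fib : B → Finset A) (hfib : ∀ v w, w ∈ fib v ↔ r w = v)
    (hC : ∀ w, w ∈ C' ↔ r w ∈ C) (e : A → ℕ) (n : ℕ)
    (hsum : ∀ v ∈ C, ∑ w ∈ fib v, e w = n) : ∑ w ∈ C', e w = n * C.card := by
  have h1 : C' = C.biUnion fib := by
    ext w
    rw [Finset.mem_biUnion, hC]
    constructor
    · intro h
      exact ⟨r w, h, (hfib _ _).2 rfl⟩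
    · rintro ⟨v, hv, hw⟩
      rw [(hfib _ _).1 hw]
      exact hv
  rw [h1, Finset.sum_biUnion]
  · rw [Finset.sum_congr rfl hsum, Finset.sum_const, smul_eq_mul, mul_comm]
  · intro v _ v' _ hne
    rw [Function.onFun, Finset.disjoint_left]
    intro w hw hw'
    exact hne (((hfib _ _).1 hw).symm.trans ((hfib _ _).1 hw'))

end Fin

section Cusp

variable (M ℓ : ℕ) [NeZero M] [NeZero ℓ] [NeZero (M * ℓ)]

theorem hcusp_finrank_alpha (hℓ : ℓ.Prime) (hℓM : ¬ ℓ ∣ M) :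
    finrankAlong Ω (heckeAlphaBar Ω M ℓ) = ℓ + 1 := by
  rw [finrankAlong_heckeAlphaBar M ℓ hℓ, if_neg hℓM]

theorem hcusp_finrank_beta (hℓ : ℓ.Prime) (hℓM : ¬ ℓ ∣ M) :
    finrankAlong Ω (heckeBetaBar Ω M ℓ) = ℓ + 1 := by
  rw [finrankAlong_heckeBetaBar M ℓ hℓ, if_neg hℓM]

variable {M ℓ}

/-- **at a cusp of `X₀(M ℓ)` the two degeneracy maps agree** (`M` squarefree, `ℓ ∤ M`). -/
theorem hcusp_restrictAlong_beta_eq_alpha (hsq : Squarefree M) (hℓ : ℓ.Prime) (hℓM : ¬ ℓ ∣ M)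
    (w₀ : Place Ω ↥(modularFunctionFieldBar (M * ℓ)))
    (hw₀ : w₀.ord (heckeAlphaBar Ω M ℓ (jBar M)) < 0) :
    w₀.restrictAlong (heckeBetaBar Ω M ℓ) (hcusp_hβ M ℓ) =
      w₀.restrictAlong (heckeAlphaBar Ω M ℓ) (hcusp_hα M ℓ) := by
  classical
  set hα := hcusp_hα M ℓ with hαdef
  set hβ := hcusp_hβ M ℓ with hβdef
  set J := jBar M with hJ
  set C : Finset (Place Ω ↥(modularFunctionFieldBar M)) := (jCoordK Ω M).poles with hCdef
  set C' : Finset (Place Ω ↥(modularFunctionFieldBar (M * ℓ))) :=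
    (jCoordK Ω (M * ℓ)).poles with hC'def
  have hmemC : ∀ v, v ∈ C ↔ v.ord J < 0 := by
    intro v
    rw [hCdef, Coord.mem_poles]
    rfl
  have hmemC' : ∀ w, w ∈ C' ↔ w.ord (heckeAlphaBar Ω M ℓ J) < 0 := by
    intro w
    rw [hC'def, Coord.mem_poles, hJ, heckeAlphaBar_jBar]
    rfl
  have hCa : ∀ w, w ∈ C' ↔ w.restrictAlong (heckeAlphaBar Ω M ℓ) hα ∈ C := by
    intro w
    rw [hmemC', hmemC, hcusp_ord_restrictAlong_neg_iff]
  have hCb : ∀ w, w ∈ C' ↔ w.restrictAlong (heckeBetaBar Ω M ℓ) hβ ∈ C := by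
    intro w
    rw [hmemC', hmemC, hcusp_ord_restrictAlong_neg_iff]
    exact hcusp_ord_alpha_neg_iff_beta_neg hℓ w
  -- the ramification indices
  set eα : Place Ω ↥(modularFunctionFieldBar (M * ℓ)) → ℕ := fun w =>
    Place.ramificationIndexAlong (heckeAlphaBar Ω M ℓ) w with heα
  set eβ : Place Ω ↥(modularFunctionFieldBar (M * ℓ)) → ℕ := fun w =>
    Place.ramificationIndexAlong (heckeBetaBar Ω M ℓ) w with heβ
  have hα1 : ∀ w ∈ C', 1 ≤ eα w := fun w _ => by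
    have := hcusp_ramificationIndexAlong_pos (heckeAlphaBar Ω M ℓ) hα w
    have h2 : (0 : ℤ) < (eα w : ℤ) := this
    omega
  have hβ1 : ∀ w ∈ C', 1 ≤ eβ w := fun w _ => by
    have := hcusp_ramificationIndexAlong_pos (heckeBetaBar Ω M ℓ) hβ w
    have h2 : (0 : ℤ) < (eβ w : ℤ) := this
    omega
  -- the fibre sums
  have hsumα : ∑ w ∈ C', eα w = (ℓ + 1) * C.card := by
    refine hcusp_sum_fibres C C' (fun w => w.restrictAlong (heckeAlphaBar Ω M ℓ) hα)
      (fun v => Place.fiberAlong (heckeAlphaBar Ω M ℓ) hα v) (fun v w => Place.mem_fiberAlong)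
      hCa eα (ℓ + 1) (fun v _ => ?_)
    have h1 := hcusp_sum_eAlpha M ℓ v
    rw [hcusp_finrank_alpha M ℓ hℓ hℓM] at h1
    exact_mod_cast h1
  have hsumβ : ∑ w ∈ C', eβ w = (ℓ + 1) * C.card := by
    refine hcusp_sum_fibres C C' (fun w => w.restrictAlong (heckeBetaBar Ω M ℓ) hβ)
      (fun v => Place.fiberAlong (heckeBetaBar Ω M ℓ) hβ v) (fun v w => Place.mem_fiberAlong)
      hCb eβ (ℓ + 1) (fun v _ => ?_)
    have h1 := hcusp_sum_eBeta M ℓ v
    rw [hcusp_finrank_beta M ℓ hℓ hℓM] at h1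
    exact_mod_cast h1
  -- the number of cusps
  have hcard : 2 * C.card ≤ C'.card := by
    rw [hCdef, hC'def, card_poles_jBar, card_poles_jBar,
      cuspCount_mul_prime (NeZero.ne M) hℓ hℓM]
  -- widths
  have hwd : ∀ v ∈ C, ∃ d : ℕ, d ∣ M ∧ 0 < d ∧ v.ord J = -(d : ℤ) := by
    intro v hv
    rw [hmemC] at hv
    refine ⟨(v.ord J).natAbs, natAbs_ord_jBar_dvd M v hv, by omega, by omega⟩
  -- the dichotomy
  set plus : Place Ω ↥(modularFunctionFieldBar (M * ℓ)) → Prop := fun w =>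
    (eβ w : ℤ) * (w.restrictAlong (heckeBetaBar Ω M ℓ) hβ).ord J =
      ℓ * ((eα w : ℤ) * (w.restrictAlong (heckeAlphaBar Ω M ℓ) hα).ord J) with hplus
  have hdich : ∀ w ∈ C', plus w ∨
      (ℓ : ℤ) * ((eβ w : ℤ) * (w.restrictAlong (heckeBetaBar Ω M ℓ) hβ).ord J) =
        (eα w : ℤ) * (w.restrictAlong (heckeAlphaBar Ω M ℓ) hα).ord J := by
    intro w hw
    rw [hCa, hmemC] at hw
    exact hcusp_restrictAlong_dichotomy hℓ hα hβ w hw
  have hcop : ∀ d : ℕ, d ∣ M → Nat.Coprime ℓ d := by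
    intro d hd
    rw [Nat.Prime.coprime_iff_not_dvd hℓ]
    exact fun h => hℓM (h.trans hd)
  have hpl : ∀ w ∈ C', plus w → ℓ ∣ eβ w := by
    intro w hw hp
    obtain ⟨d, hd, hd0, hde⟩ := hwd _ ((hCb w).1 hw)
    have hp' : (eβ w : ℤ) * (w.restrictAlong (heckeBetaBar Ω M ℓ) hβ).ord J =
      ℓ * ((eα w : ℤ) * (w.restrictAlong (heckeAlphaBar Ω M ℓ) hα).ord J) := hp
    clear hp
    rename' hp' => hp
    rw [hde] at hp
    have h1 : (ℓ : ℤ) ∣ (eβ w : ℤ) * (d : ℤ) := by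
      refine ⟨-((eα w : ℤ) * (w.restrictAlong (heckeAlphaBar Ω M ℓ) hα).ord J), ?_⟩
      linear_combination -hp
    have h2 : ℓ ∣ eβ w * d := by exact_mod_cast h1
    exact (hcop d hd).dvd_of_dvd_mul_right h2
  have hmi : ∀ w ∈ C', ¬ plus w → ℓ ∣ eα w := by
    intro w hw hp
    have hm := (hdich w hw).resolve_left hp
    obtain ⟨d, hd, hd0, hde⟩ := hwd _ ((hCa w).1 hw)
    rw [hde] at hm
    have h1 : (ℓ : ℤ) ∣ (eα w : ℤ) * (d : ℤ) := by
      refine ⟨-((eβ w : ℤ) * (w.restrictAlong (heckeBetaBar Ω M ℓ) hβ).ord J), ?_⟩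
      linear_combination hm
    have h2 : ℓ ∣ eα w * d := by exact_mod_cast h1
    exact (hcop d hd).dvd_of_dvd_mul_right h2
  have hsqz := ramification_squeeze C' ℓ C.card eα eβ plus hα1 hβ1 hpl hmi hsumα hsumβ hcard
  -- conclusion
  have hw₀C' : w₀ ∈ C' := (hmemC' w₀).2 hw₀
  have hℓ0 : (ℓ : ℤ) ≠ 0 := by exact_mod_cast hℓ.ne_zero
  have hord : (w₀.restrictAlong (heckeAlphaBar Ω M ℓ) hα).ord J =
      (w₀.restrictAlong (heckeBetaBar Ω M ℓ) hβ).ord J := by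
    by_cases hp : plus w₀
    · obtain ⟨h1, h2⟩ := (hsqz w₀ hw₀C').1 hp
      have hp' : (eβ w₀ : ℤ) * (w₀.restrictAlong (heckeBetaBar Ω M ℓ) hβ).ord J =
        ℓ * ((eα w₀ : ℤ) * (w₀.restrictAlong (heckeAlphaBar Ω M ℓ) hα).ord J) := hp
      clear hp
      rename' hp' => hp
      rw [h1, h2] at hp
      have : (ℓ : ℤ) * (w₀.restrictAlong (heckeBetaBar Ω M ℓ) hβ).ord J =
          ℓ * (w₀.restrictAlong (heckeAlphaBar Ω M ℓ) hα).ord J := by
        rw [hp]; push_cast; ring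
      exact (mul_left_cancel₀ hℓ0 this).symm
    · obtain ⟨h1, h2⟩ := (hsqz w₀ hw₀C').2 hp
      have hm := (hdich w₀ hw₀C').resolve_left hp
      rw [h1, h2] at hm
      have : (ℓ : ℤ) * (w₀.restrictAlong (heckeBetaBar Ω M ℓ) hβ).ord J =
          ℓ * (w₀.restrictAlong (heckeAlphaBar Ω M ℓ) hα).ord J := by
        rw [← hm]; push_cast; ring
      exact (mul_left_cancel₀ hℓ0 this).symm
  have haC := (hmemC _).1 ((hCa w₀).1 hw₀C')
  exact (pole_eq_of_ord_jBar_eq M hsq _ _ haC hord).symm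

/-- **at a cusp `v` of `X₀(M)`: `ord_v (T_ℓ f) = (ℓ + 1) ord_v f`.** -/
theorem hcusp_ord_heckeFunBar_of_cusp (hsq : Squarefree M) (hℓ : ℓ.Prime) (hℓM : ¬ ℓ ∣ M)
    {f : ↥(modularFunctionFieldBar M)} (hf : f ≠ 0)
    (v : Place Ω ↥(modularFunctionFieldBar M)) (hv : v.ord (jBar M) < 0) :
    v.ord (heckeFunBar M ℓ f) = ((ℓ : ℤ) + 1) * v.ord f := by
  classical
  -- cusps above `v`
  have hcα : ∀ w : Place Ω ↥(modularFunctionFieldBar (M * ℓ)),
      w.restrictAlong (heckeAlphaBar Ω M ℓ) (hcusp_hα M ℓ) = v →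
      w.ord (heckeAlphaBar Ω M ℓ (jBar M)) < 0 := by
    intro w hw
    rw [← hcusp_ord_restrictAlong_neg_iff (heckeAlphaBar Ω M ℓ) (hcusp_hα M ℓ), hw]
    exact hv
  have hcβ : ∀ w : Place Ω ↥(modularFunctionFieldBar (M * ℓ)),
      w.restrictAlong (heckeBetaBar Ω M ℓ) (hcusp_hβ M ℓ) = v →
      w.ord (heckeAlphaBar Ω M ℓ (jBar M)) < 0 := by
    intro w hw
    rw [hcusp_ord_alpha_neg_iff_beta_neg hℓ w,
      ← hcusp_ord_restrictAlong_neg_iff (heckeBetaBar Ω M ℓ) (hcusp_hβ M ℓ), hw]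
    exact hv
  have hfib : Place.fiberAlong (heckeAlphaBar Ω M ℓ) (hcusp_hα M ℓ) v =
      Place.fiberAlong (heckeBetaBar Ω M ℓ) (hcusp_hβ M ℓ) v := by
    ext w
    rw [Place.mem_fiberAlong, Place.mem_fiberAlong]
    constructor
    · intro hw
      rw [hcusp_restrictAlong_beta_eq_alpha hsq hℓ hℓM w (hcα w hw)]
      exact hw
    · intro hw
      rw [← hcusp_restrictAlong_beta_eq_alpha hsq hℓ hℓM w (hcβ w hw)]
      exact hw
  rw [hcusp_ord_heckeFunBar_eq_sum M ℓ hf v]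
  have h1 : ∀ w ∈ Place.fiberAlong (heckeAlphaBar Ω M ℓ) (hcusp_hα M ℓ) v,
      (Place.ramificationIndexAlong (heckeBetaBar Ω M ℓ) w : ℤ) *
        (w.restrictAlong (heckeBetaBar Ω M ℓ) (hcusp_hβ M ℓ)).ord f =
      (Place.ramificationIndexAlong (heckeBetaBar Ω M ℓ) w : ℤ) * v.ord f := by
    intro w hw
    have hw' := Place.mem_fiberAlong.mp hw
    rw [hcusp_restrictAlong_beta_eq_alpha hsq hℓ hℓM w (hcα w hw'), hw']
  rw [Finset.sum_congr rfl h1, ← Finset.sum_mul, hfib, hcusp_sum_eBeta M ℓ v,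
    hcusp_finrank_beta M ℓ hℓ hℓM]
  push_cast
  ring

end Cusp

/-- **[HCUSP]** (literal of `ML/IFACE_helper6_Maz23`): for `M` squarefree and `ℓ ∤ M` the Hecke
operator `T_ℓ` is Eisenstein on the cusps. -/
theorem heckeCuspStatement : HeckeCuspStatement := by
  intro M _ ℓ _ _ hsq hℓ hℓM m f hf h v
  by_cases hv : 0 ≤ v.ord (jBar M)
  · exact hcusp_dvd_of_noncusp M ℓ hℓ m hf h v hv
  · rw [hcusp_ord_heckeFunBar_of_cusp hsq hℓ hℓM hf v (not_le.mp hv), sub_self]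
    exact dvd_zero m

end Fermat.Agent.ML
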