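/-
PROJECT ML (S59) — package [TWMOD-L] (owner helper2) — **INTERFACE ML4: the module side of the
Taylor–Wiles construction for a CHAIN of levels** (finding 441 §1 (I), §5 ML4), WITHOUT any Galois
representation.  Consumers: [REPT-L] (helper1), [KEYH-L], [GLUE-L] (helper9), [IHARA-L] (helper6).

Setting: `p ≠ 2`; a chain of squarefree levels `Nl 0 ∣ Nl 1 ∣ … ∣ Nl m`, `Nl (j+1) = Nl j * qc j`
(`qc j` the `j`-th chain prime; `qc j = p` is allowed, and `p ∣ Nl 0` is allowed); a system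
`c : Nat.Primes → 𝒪` of constants (lifts of the traces of Frobenius of `ρ̄`), non-Eisenstein (`hNE`);
for `p = 3` the side condition (W2′): a prime `≡ 2 mod 3` divides `Nl 0`, or an auxiliary prime
`r ≡ 2 mod 3` prime to `3 Nl m` is given together with a simple root `a` of `X² - c_r X + r` modulo
`𝔪` such that `a² - 1` is a unit (the auxiliary level is used INSIDE the construction and does not
appear in what is delivered).

For every chain level `i` the level-zero module is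
  `lvlMod 𝒪 p Ntop (Nl i) c` = the primary part of `Hom_par(Γ₀(Nl i), 𝒪)` at `c`, conditions at all
  primes outside `badSet p (Nl i)` (= `{p}` ∪ primes of `Nl i`),
free of rank `d i` over `𝒪`.  For a set `Q` of Taylor–Wiles primes of level `n` put
`Nt i = Nl i * ∏ Q`, `Nbig i = Nl i * (∏ Q)²`, `Sbig i = badSet p (Nl i) ∪ Q`.  [TWMOD-L] produces:

* `side i : RB.TWModSide 𝒪 p r (d i) n` : the FULL `𝔪`-part (no `U_p`-ordinary projection, no
  `p`-stabilisation: the prime `p` is a chain prime like the others) of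
  `H¹(Γ₀(Nt i), 𝒪[Δ_Q]) ≃ Hom_par(Γ_Q, 𝒪)`, with the twisted operators `Tt ℓ` (`ℓ ∉ Sbig i`; junk
  otherwise), the square roots `g q` of the diamond operators, free of rank `d i` over
  `𝒪[(ℤ/p^n)^r]`;
* `occ i` : reducedness, residual scalars, (OCC-a) (a character of `heckeAlgebra (Nbig i) 2 (Sbig i)`),
  (OCC-b) (the untwisted system in `W1.eigenPar (Nt i)`), as in RB with the `Σ`-side deleted;
* `Tq j` on `side j` : the (twisted) Hecke operator at the chain prime `qc j` (for `qc j ≠ p` it is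
  `Tt (qc j)`, not junk at the level `j`; for `qc j = p` it is `T_p` at the level prime to `p`), with
  its occurrence clause `Tq_occ` in FULL-SYSTEM form (input of `AtPOldPointStatement`);
* the two degeneracy maps `iota j c : side j → side (j+1)` and the two traces
  `beta j c : side (j+1) → side j` (`c : Fin 2`), commuting with the `g q` and with the `Tt ℓ`,
  `ℓ ∉ Sbig (j+1)`, with `beta j c ∘ iota j c' = (qc j + 1)` if `c = c'`, `= Tq j` otherwise;
* **Ihara at Taylor–Wiles level** (from LR's Ihara lemma + duality at level zero, control and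
  Nakayama over the local ring `𝒪[Δ_Q]`): `retr` (the `iota j c` are jointly SPLIT injective,
  compatibly with the `g q`) and `beta_surjective` (the `beta j c` are jointly surjective);
* `occ_new j` ("kill" form; input of the `_of_kill` statements at the chain primes and of
  `AtPNewPointStatement`): every point of the Hecke algebra of `side (j+1)` which occurs in
  `ker (beta j 0) ∩ ker (beta j 1)` has a full system of level `Nbig j * qc j` with a non-zero
  eigenvector killed by `pushA`, `pushB` (no newform theory, no strong multiplicity one);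
* `ctl i : side i → lvlMod 𝒪 p Ntop (Nl i) c`, onto with kernel `∑ (g q - 1)`, Hecke equivariant.

`TWModChainStatement` is the theorem [TWMOD-L] proves.

**v2 (helper2, 30 Nov)** — corrections found while proving it:
* ALL levels are localised with respect to the conditions at the primes outside the TOP bad set
  `badSet p (Nl (Fin.last m))` only (`lvlMod 𝒪 p Ntop N c`): with a condition at `qc j` on the level
  `j` the statement is false for a wrong constant `c (qc j)`, and the right one is only known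
  through `ρ̄` (Chebotarev).  Accordingly `OccL.residual` and `ctl_Tt` are stated outside
  `Sres = badSet p (Nl (Fin.last m)) ∪ Q`; `junk`, `occ` are unchanged (outside
  `badSet p (Nl i) ∪ Q`: at the level `i` the operator `Tt (qc j)`, `i ≤ j`, `qc j ≠ p`, is genuine
  and (OCC-a) gives `χ(T_{qc j})`, so `T_{qc j} = tr ρ(Frob)` there by S32 at the level `Nbig i`).
* `Tq_occ` is asked only for `qc j = p` (input of `AtPOldPointStatement`), together with
  `Tq_reduced` (the algebra with `T_p` adjoined is reduced).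
* new hypotheses: `Nl 0 ≠ 1`; (W2′) is now simply: for `p = 3` a prime `≡ 2 mod 3` divides `Nl 0`
  (the auxiliary prime of lead's D3 is IN the level).
-/
import Mathlib
import Fermat.Agent.RB.IFACE_helper2_TWMod
import Fermat.Agent.RB.TWMOD_helper2_Targets2
import Fermat.Agent.LR.XFER_helper4_Defs
import Fermat.Agent.GR.LATTICE_lead_Rank

set_option autoImplicit false
set_option linter.unusedSectionVars false
set_option linter.unusedVariables false

open Polynomial IsLocalRing CongruenceSubgroup ModularCurve.Period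

namespace Fermat.Agent.ML

open Fermat.Agent.GR Fermat.Agent.LR Fermat.Agent.RB

/-- the residue characteristic and the primes of the level. -/
def badSet (p N : ℕ) : Set ℕ := {ℓ | ℓ.Prime ∧ (ℓ = p ∨ ℓ ∣ N)}

section

variable {𝒪 : Type} [CommRing 𝒪] [IsDomain 𝒪] [IsDiscreteValuationRing 𝒪]

/-- **the module of level zero**: the primary part of `Hom_par(Γ₀(N), 𝒪)` at the system `c`,
conditions at all primes outside `badSet p Ntop` (`Ntop` the top level of the chain). -/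
noncomputable abbrev lvlMod (𝒪 : Type) [CommRing 𝒪] [IsDomain 𝒪] [IsDiscreteValuationRing 𝒪]
    (p Ntop N : ℕ) [NeZero N] (c : Nat.Primes → 𝒪) :
    Submodule 𝒪 ↥(parabolicHoms 𝒪 (Gamma0 N) 𝒪) :=
  TWM.primaryPart
    (fun ℓ : primesOutside (badSet p Ntop) => heckeParP N (ℓ : Nat.Primes) 𝒪 𝒪)
    (fun ℓ : primesOutside (badSet p Ntop) => c ℓ)

/-- **the occurrence contract of one chain level** (RB's `TWModSide.Occ` with the `Σ`-side deleted
and the residual scalars given by the system `c`). -/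
structure OccL {p r d n : ℕ} (X : TWModSide 𝒪 p r d n) (lam : 𝒪) (c : Nat.Primes → 𝒪)
    (Nt Nbig : ℕ) [NeZero Nt] [NeZero Nbig] (Sbig Sres : Set ℕ) (uQ : Fin r → (ZMod Nt)ˣ) :
    Prop where
  /-- (SS) -/
  reduced : ∀ t : X.alg, t ^ 2 = 0 → t = 0
  /-- the operators at the primes of `Sbig` are junk (zero) -/
  junk : ∀ ℓ : Nat.Primes, (ℓ : ℕ) ∈ Sbig → X.Tt ℓ = 0
  /-- the twisted Hecke operators at the primes outside `Sres` are residually `c ℓ` -/
  residual : ∀ ℓ : Nat.Primes, (ℓ : ℕ) ∉ Sres → ∃ k : ℕ, ∀ h : X.H, ∃ h' : X.H,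
    ((X.Tt ℓ - algebraMap 𝒪 (Module.End 𝒪 X.H) (c ℓ)) ^ k) h = lam • h'
  /-- (OCC-a) and (OCC-b) -/
  occ : ∀ (B : Type) [CommRing B] [IsDomain B] [IsDiscreteValuationRing B] [Algebra 𝒪 B]
    [Module.Finite 𝒪 B] (x : X.alg →ₐ[𝒪] B),
    (∃ χ : CuspForm.heckeAlgebra Nbig 2 Sbig →+* B,
      ∀ (ℓ : ℕ) (hℓ : ℓ.Prime) (hℓN : ¬ ℓ ∣ Nbig) (hℓS : ℓ ∉ Sbig),
        χ (CuspForm.heckeAlgebra.T hℓ hℓN hℓS) = x (X.TtA ⟨ℓ, hℓ⟩)) ∧
    ∀ (F : Type) [Field F] [IsAlgClosed F] [Algebra B F],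
      Function.Injective (algebraMap B F) →
      ∃ (a : Fermat.Agent.W1.HIdx Nt → F) (ψh : (ZMod Nt)ˣ →* Fˣ),
        Fermat.Agent.W1.eigenPar Nt F a ≠ ⊥ ∧
        (∃ k : ℕ, ∀ u, ψh u ^ (p ^ k) = 1) ∧
        (∀ u : (ZMod Nt)ˣ, a (Sum.inr u) = ((ψh u : Fˣ) : F) ^ 2) ∧
        (∀ (ℓ : ℕ) (hℓ : ℓ.Prime) (hℓN : ¬ ℓ ∣ Nt), ℓ ∉ Sbig →
          a (Sum.inl ⟨ℓ, hℓ⟩) =
            ((ψh (Fermat.Agent.DS48.primeUnit Nt hℓ hℓN) : Fˣ) : F) *
              algebraMap B F (x (X.TtA ⟨ℓ, hℓ⟩))) ∧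
        (∀ q : Fin r, algebraMap B F (x (X.gA q)) = ((ψh (uQ q) : Fˣ) : F))

/-- **the module data of the Taylor–Wiles construction at `(n, Q)` for a chain of levels.** -/
structure TWModChainLevel (p : ℕ) (lam : 𝒪) (c : Nat.Primes → 𝒪) {m : ℕ}
    (Nl : Fin (m + 1) → ℕ) [∀ i, NeZero (Nl i)] (qc : Fin m → ℕ) (hqc : ∀ j, (qc j).Prime)
    (d : Fin (m + 1) → ℕ) (r n : ℕ) (Q : Fin r → ℕ)
    (Nt Nbig : Fin (m + 1) → ℕ) [∀ i, NeZero (Nt i)] [∀ i, NeZero (Nbig i)]
    [∀ j : Fin m, NeZero (Nbig j.castSucc * qc j)]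
    (hqN : ∀ j : Fin m, ¬ qc j ∣ Nbig j.castSucc) : Type 1 where
  /-- the module of the chain level `i` -/
  side : ∀ i : Fin (m + 1), TWModSide 𝒪 p r (d i) n
  /-- `uQ i q ≡ 1 mod Nt i / Q q`: the class through which inertia at `Q q` is read -/
  uQ : ∀ i : Fin (m + 1), Fin r → (ZMod (Nt i))ˣ
  uQ_spec : ∀ (i : Fin (m + 1)) (q : Fin r),
    ((((uQ i q : (ZMod (Nt i))ˣ) : ZMod (Nt i)).val : ℕ) : ZMod (Nt i / Q q)) = 1
  occ : ∀ i : Fin (m + 1),
    OccL (side i) lam c (Nt i) (Nbig i) (badSet p (Nl i) ∪ Set.range Q)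
      (badSet p (Nl (Fin.last m)) ∪ Set.range Q) (uQ i)
  /-- the (twisted) Hecke operator at the chain prime `qc j` on the level `j` -/
  Tq : ∀ j : Fin m, Module.End 𝒪 (side j.castSucc).H
  Tq_eq : ∀ j : Fin m, qc j ≠ p → Tq j = (side j.castSucc).Tt ⟨qc j, hqc j⟩
  Tq_comm_Tt : ∀ (j : Fin m) (ℓ : Nat.Primes), Commute (Tq j) ((side j.castSucc).Tt ℓ)
  Tq_comm_g : ∀ (j : Fin m) (q : Fin r), Commute (Tq j) ((side j.castSucc).g q)
  /-- with `T_p` adjoined the algebra of the level prime to `p` is still reduced -/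
  Tq_reduced : ∀ j : Fin m, qc j = p →
    ∀ t : (Algebra.adjoin 𝒪 (Set.range (side j.castSucc).Tt ∪ Set.range (side j.castSucc).g ∪
        {Tq j}) : Subalgebra 𝒪 (Module.End 𝒪 (side j.castSucc).H)), t ^ 2 = 0 → t = 0
  /-- the occurrence clause of `Tq j = T_p`, full-system form -/
  Tq_occ : ∀ (j : Fin m), qc j = p →
    ∀ (B : Type) [CommRing B] [IsDomain B] [IsDiscreteValuationRing B]
    [Algebra 𝒪 B] [Module.Finite 𝒪 B]
    (x : (Algebra.adjoin 𝒪 (Set.range (side j.castSucc).Tt ∪ Set.range (side j.castSucc).g ∪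
        {Tq j}) : Subalgebra 𝒪 (Module.End 𝒪 (side j.castSucc).H)) →ₐ[𝒪] B),
    ∃ (B' : Type) (_ : CommRing B') (_ : IsDomain B') (_ : IsDiscreteValuationRing B')
      (_ : Algebra B B') (_ : Module.Finite B B') (_ : Function.Injective (algebraMap B B'))
      (L' : Type) (_ : Field L') (_ : Algebra B' L') (_ : IsFractionRing B' L')
      (a' : Nat.Primes → B'),
      eigenPar (Nbig j.castSucc) L' (mapSys B' L' a') ≠ ⊥ ∧
      (∀ (ℓ : Nat.Primes) (hℓ : (ℓ : ℕ) ∉ badSet p (Nl j.castSucc) ∪ Set.range Q),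
        a' ℓ = algebraMap B B' (x ⟨(side j.castSucc).Tt ℓ,
          Algebra.subset_adjoin (Or.inl (Or.inl ⟨ℓ, rfl⟩))⟩)) ∧
      a' ⟨qc j, hqc j⟩ = algebraMap B B' (x ⟨Tq j, Algebra.subset_adjoin (Or.inr rfl)⟩)
  /-- the two degeneracy maps -/
  iota : ∀ j : Fin m, Fin 2 → ((side j.castSucc).H →ₗ[𝒪] (side j.succ).H)
  /-- the two traces -/
  beta : ∀ j : Fin m, Fin 2 → ((side j.succ).H →ₗ[𝒪] (side j.castSucc).H)
  iota_g : ∀ (j : Fin m) (c' : Fin 2) (q : Fin r) (x : (side j.castSucc).H),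
    iota j c' ((side j.castSucc).g q x) = (side j.succ).g q (iota j c' x)
  beta_g : ∀ (j : Fin m) (c' : Fin 2) (q : Fin r) (x : (side j.succ).H),
    beta j c' ((side j.succ).g q x) = (side j.castSucc).g q (beta j c' x)
  iota_Tt : ∀ (j : Fin m) (c' : Fin 2) (ℓ : Nat.Primes),
    (ℓ : ℕ) ∉ badSet p (Nl j.succ) ∪ Set.range Q → ∀ x : (side j.castSucc).H,
    iota j c' ((side j.castSucc).Tt ℓ x) = (side j.succ).Tt ℓ (iota j c' x)
  beta_Tt : ∀ (j : Fin m) (c' : Fin 2) (ℓ : Nat.Primes),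
    (ℓ : ℕ) ∉ badSet p (Nl j.succ) ∪ Set.range Q → ∀ x : (side j.succ).H,
    beta j c' ((side j.succ).Tt ℓ x) = (side j.castSucc).Tt ℓ (beta j c' x)
  /-- `β ∘ α = [[q + 1, T_q], [T_q, q + 1]]` -/
  beta_iota : ∀ (j : Fin m) (c' c'' : Fin 2) (x : (side j.castSucc).H),
    beta j c' (iota j c'' x) = if c' = c'' then ((qc j : 𝒪) + 1) • x else Tq j x
  /-- **Ihara at Taylor–Wiles level**: jointly split injective, compatibly with the `g q` -/
  retr : ∀ j : Fin m, Fin 2 → ((side j.succ).H →ₗ[𝒪] (side j.castSucc).H)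
  retr_g : ∀ (j : Fin m) (c' : Fin 2) (q : Fin r) (x : (side j.succ).H),
    retr j c' ((side j.succ).g q x) = (side j.castSucc).g q (retr j c' x)
  retr_iota : ∀ (j : Fin m) (c' c'' : Fin 2) (x : (side j.castSucc).H),
    retr j c' (iota j c'' x) = if c' = c'' then x else 0
  /-- **dual Ihara at Taylor–Wiles level**: the traces are jointly surjective -/
  beta_surjective : ∀ (j : Fin m) (y : Fin 2 → (side j.castSucc).H),
    ∃ x : (side j.succ).H, ∀ c' : Fin 2, beta j c' x = y c'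
  /-- **the points of the `qc j`-new submodule, "kill" form** -/
  occ_new : ∀ (j : Fin m) (B : Type) [CommRing B] [IsDomain B] [IsDiscreteValuationRing B]
    [Algebra 𝒪 B] [Module.Finite 𝒪 B] (x : (side j.succ).alg →ₐ[𝒪] B),
    (∀ t : (side j.succ).alg,
      (∀ h : (side j.succ).H, (∀ c' : Fin 2, beta j c' h = 0) →
        (t : Module.End 𝒪 (side j.succ).H) h = 0) → x t = 0) →
    ∃ (B' : Type) (_ : CommRing B') (_ : IsDomain B') (_ : IsDiscreteValuationRing B')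
      (_ : Algebra B B') (_ : Module.Finite B B') (_ : Function.Injective (algebraMap B B'))
      (L' : Type) (_ : Field L') (_ : Algebra B' L') (_ : IsFractionRing B' L')
      (a' : Nat.Primes → B'),
      (∀ (ℓ : Nat.Primes), (ℓ : ℕ) ∉ badSet p (Nl j.succ) ∪ Set.range Q →
        a' ℓ = algebraMap B B' (x ((side j.succ).TtA ℓ))) ∧
      ∃ v ∈ eigenPar (Nbig j.castSucc * qc j) L' (mapSys B' L' a'), v ≠ 0 ∧
        pushA (Nbig j.castSucc) (qc j) (hqc j) (hqN j) L' v = 0 ∧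
        pushB (Nbig j.castSucc) (qc j) (hqc j) (hqN j) L' v = 0
  /-- control -/
  ctl : ∀ i : Fin (m + 1), (side i).H →ₗ[𝒪] ↥(lvlMod 𝒪 p (Nl (Fin.last m)) (Nl i) c)
  ctl_surjective : ∀ i, Function.Surjective (ctl i)
  ker_ctl : ∀ (i : Fin (m + 1)) (x : (side i).H),
    ctl i x = 0 ↔ x ∈ ⨆ q, LinearMap.range ((side i).g q - 1)
  ctl_Tt : ∀ (i : Fin (m + 1)) (ℓ : Nat.Primes),
    (ℓ : ℕ) ∉ badSet p (Nl (Fin.last m)) ∪ Set.range Q → ∀ x : (side i).H,
    ((ctl i ((side i).Tt ℓ x) : ↥(lvlMod 𝒪 p (Nl (Fin.last m)) (Nl i) c)) :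
        ↥(parabolicHoms 𝒪 (Gamma0 (Nl i)) 𝒪)) =
      heckeParP (Nl i) ℓ 𝒪 𝒪 ((ctl i x : ↥(lvlMod 𝒪 p (Nl (Fin.last m)) (Nl i) c)) :
        ↥(parabolicHoms 𝒪 (Gamma0 (Nl i)) 𝒪))

/-- **[TWMOD-L]** (owner helper2): the module side of the Taylor–Wiles construction for a chain of
levels.  The Taylor–Wiles primes enter only through: `Q j` prime, `∉ badSet p (Nl m)`,
`≡ 1 mod p ^ n`, `≡ 1 mod p`, and `X² - c_{Q j} X + Q j` has two DISTINCT roots in the residue
field. -/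
def TWModChainStatement : Prop :=
  ∀ {𝒪 : Type} [CommRing 𝒪] [IsDomain 𝒪] [IsDiscreteValuationRing 𝒪]
    [IsAdicComplete (maximalIdeal 𝒪) 𝒪] [Finite (ResidueField 𝒪)] [CharZero 𝒪]
    (p : ℕ) [Fact p.Prime] (_ : p ≠ 2) (_ : (p : 𝒪) ∈ maximalIdeal 𝒪)
    (lam : 𝒪) (_ : Irreducible lam)
    {m : ℕ} (Nl : Fin (m + 1) → ℕ) [∀ i, NeZero (Nl i)] (qc : Fin m → ℕ)
    (hqc : ∀ j, (qc j).Prime) (_ : ∀ j : Fin m, Nl j.succ = Nl j.castSucc * qc j)
    (_ : Squarefree (Nl (Fin.last m))) (_ : Nl 0 ≠ 1)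
    (c : Nat.Primes → 𝒪)
    -- non-Eisenstein
    (_ : ∀ (D : ℕ), 0 < D → ∀ Bad : Finset ℕ, ∃ ℓ : Nat.Primes,
      (ℓ : ℕ) ∉ badSet p (Nl (Fin.last m)) ∧ (ℓ : ℕ) ∉ Bad ∧ (ℓ : ℕ) ≡ 1 [MOD D] ∧
        c ℓ - ((ℓ : ℕ) + 1 : 𝒪) ∉ maximalIdeal 𝒪)
    -- (W2′)
    (_ : p = 3 → ∃ r₀ : ℕ, r₀.Prime ∧ r₀ ∣ Nl 0 ∧ r₀ % 3 = 2),
    ∃ d : Fin (m + 1) → ℕ,
      (∀ i, Module.Free 𝒪 ↥(lvlMod 𝒪 p (Nl (Fin.last m)) (Nl i) c) ∧
        Module.Finite 𝒪 ↥(lvlMod 𝒪 p (Nl (Fin.last m)) (Nl i) c) ∧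
        Module.finrank 𝒪 ↥(lvlMod 𝒪 p (Nl (Fin.last m)) (Nl i) c) = d i) ∧
      ∀ (r n : ℕ) (Q : Fin r → ℕ), Function.Injective Q → (∀ k, (Q k).Prime) →
        (∀ k, Q k ∉ badSet p (Nl (Fin.last m))) → (∀ k, p ^ n ∣ Q k - 1) → (∀ k, p ∣ Q k - 1) →
        (∀ k (hq : (Q k).Prime), ∃ α β : ResidueField 𝒪, α ≠ β ∧
          α + β = residue 𝒪 (c ⟨Q k, hq⟩) ∧ α * β = (Q k : ResidueField 𝒪)) →
        ∀ (Nt Nbig : Fin (m + 1) → ℕ) [∀ i, NeZero (Nt i)] [∀ i, NeZero (Nbig i)]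
          [∀ j : Fin m, NeZero (Nbig j.castSucc * qc j)]
          (hqN : ∀ j : Fin m, ¬ qc j ∣ Nbig j.castSucc),
          (∀ i, Nt i = Nl i * ∏ k, Q k) → (∀ i, Nbig i = Nl i * (∏ k, Q k) ^ 2) →
          Nonempty (TWModChainLevel p lam c Nl qc hqc d r n Q Nt Nbig hqN)

end

end Fermat.Agent.ML
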