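/-
PROJECT ML, block [CORE-L] (helper9): limits of compatible residues for rectangular matrices and
for algebra homs into an adically complete ring (complements to `RB.PATCH_helper9_Basic`).
-/
import Mathlib
import Fermat.Agent.RB.PATCH_helper9_Basic

set_option autoImplicit false

namespace Fermat.Agent.ML.CORE

open Fermat.Agent.RB.PATCH

section Rect

variable {B : Type*} [CommRing B] (J : Ideal B) {a b c : Type*}

/-- a compatible system of rectangular matrices of residues has a limit -/
theorem exists_limMatRect [IsPrecomplete J B] (A : ∀ n, Matrix a b (B ⧸ J ^ n))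
    (hA : ∀ n, (A (n + 1)).map (Ideal.Quotient.factorPowSucc J n) = A n) :
    ∃ M : Matrix a b B, ∀ n, M.map (Ideal.Quotient.mk (J ^ n)) = A n := by
  have h : ∀ (j : a) (k : b), ∃ x : B, ∀ n, Ideal.Quotient.mk (J ^ n) x = A n j k := by
    intro j k
    refine exists_lim J (fun n => A n j k) (fun n => ?_)
    have := congrFun (congrFun (hA n) j) k
    simpa [Matrix.map_apply] using this
  choose x hx using h
  exact ⟨Matrix.of x, fun n => by ext j k; simp [Matrix.map_apply, hx]⟩

/-- two rectangular matrices with the same residues are equal -/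
theorem matRect_ext_of_mk [IsHausdorff J B] {M N : Matrix a b B}
    (h : ∀ n, M.map (Ideal.Quotient.mk (J ^ n)) = N.map (Ideal.Quotient.mk (J ^ n))) : M = N := by
  ext j k
  refine eq_of_forall_mk_eq J (fun n => ?_)
  have := congrFun (congrFun (h n) j) k
  simpa [Matrix.map_apply] using this

end Rect

section LimAlgHom

variable (𝒪 : Type*) [CommRing 𝒪] {B : Type*} [CommRing B] [Algebra 𝒪 B] (J : Ideal B)
  {P : Type*} [Semiring P] [Algebra 𝒪 P]

/-- a compatible tower of algebra homs into the truncations `B ⧸ J ^ n` has a limit. -/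
theorem exists_limAlgHomRing [IsAdicComplete J B] (φ : ∀ n, P →ₐ[𝒪] B ⧸ J ^ n)
    (hφ : ∀ n f, Ideal.Quotient.factorPowSucc J n (φ (n + 1) f) = φ n f) :
    ∃ Φ : P →ₐ[𝒪] B, ∀ n f, Ideal.Quotient.mk (J ^ n) (Φ f) = φ n f := by
  have h : ∀ f : P, ∃ x : B, ∀ n, Ideal.Quotient.mk (J ^ n) x = φ n f := fun f =>
    exists_lim J (fun n => φ n f) (fun n => hφ n f)
  choose Φ₀ hΦ₀ using h
  refine ⟨{ toFun := Φ₀
            map_one' := ?_
            map_mul' := ?_
            map_zero' := ?_
            map_add' := ?_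
            commutes' := ?_ }, fun n f => hΦ₀ f n⟩
  · refine eq_of_forall_mk_eq J (fun n => ?_)
    rw [hΦ₀, map_one, map_one]
  · intro f g
    refine eq_of_forall_mk_eq J (fun n => ?_)
    rw [hΦ₀, map_mul, map_mul, hΦ₀, hΦ₀]
  · refine eq_of_forall_mk_eq J (fun n => ?_)
    rw [hΦ₀, map_zero, map_zero]
  · intro f g
    refine eq_of_forall_mk_eq J (fun n => ?_)
    rw [hΦ₀, map_add, map_add, hΦ₀, hΦ₀]
  · intro c
    refine eq_of_forall_mk_eq J (fun n => ?_)
    rw [hΦ₀, AlgHom.commutes]
    rfl

end LimAlgHom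

end Fermat.Agent.ML.CORE
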