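/-
PROJECT ML, block [CORE-L] (helper9): the abstract (matrix) patching theorem for a CHAIN.

`P = 𝒪⟦x_σ⟧` (the ring of the local problems), `S = 𝒪⟦y_τ⟧` (the ring of diamond operators),
`d i` (`i : Fin (m + 1)`) the ranks.  A *problem* consists of ideals `Ik i ⊆ P`, `Inew j ⊆ P`,
`Ist ⊆ P`, elements `th j ∈ P`, `u q ∈ S` (`q : κ`) and a submodule `C0 ⊆ 𝒪 ^ (d m)`.

A *solution at level `n`* consists of algebra homs `φ i : P →ₐ[𝒪] Mat_{d i}(S ⧸ 𝔫 ^ n)`, a point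
`w : P →ₐ[𝒪] 𝒪 ⧸ 𝔪 ^ n`, rectangular matrices `Im j c`, `Rt j c`, `Om j`, `Sg j`, `E j c` over
`S ⧸ 𝔫 ^ n` and elements `F i q ∈ P ⧸ 𝔐 ^ n` such that
  (K) `φ i` kills `Ik i`;
  (I) `Im j c` intertwines `φ j` and `φ (j + 1)`, `Rt j c * Im j c' = δ`;
  (N) `(1 - ∑ Im Rt) φ (j + 1) f = 0` for `f ∈ Inew j`;
  (O) `Om j` intertwines, `Om j * Sg j = 1`, `Om j * Im j c = φ j (th j) * E j c`;
  (W) `w` kills `Ist`;
  (C) `C0` is contained, modulo `𝔪 ^ n`, in the span of the columns of the constant terms of the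
      matrices `φ m f`, `w f = 0`;
  (F) every scalar matrix `u q` is of the form `φ i G` with `G ∈ 𝔐_P`, `w G = 0`.
`exists_patched`: if there is a solution at every level, there is a solution over `S` itself.
-/
import Mathlib
import Fermat.Agent.RB.PATCH_helper9_Tower
import Fermat.Agent.ML.CORE_helper9_Lim

set_option autoImplicit false

namespace Fermat.Agent.ML.CORE

open IsLocalRing MvPowerSeries Fermat.Agent.RB.PATCH

section Setup

variable (𝒪 : Type*) [CommRing 𝒪] (σ τ κ : Type*) (m : ℕ) (d : Fin (m + 1) → ℕ)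

/-- the data of a chain patching problem -/
structure Problem where
  /-- the relations of the level `i` -/
  Ik : Fin (m + 1) → Ideal (MvPowerSeries σ 𝒪)
  /-- the relations of the `j`-new quotient -/
  Inew : Fin m → Ideal (MvPowerSeries σ 𝒪)
  /-- the level raising elements -/
  th : Fin m → MvPowerSeries σ 𝒪
  /-- the ideal of the point -/
  Ist : Ideal (MvPowerSeries σ 𝒪)
  /-- the scalars which have to come from `P` -/
  u : κ → MvPowerSeries τ 𝒪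
  /-- the prescribed span at level zero -/
  C0 : Submodule 𝒪 (Fin (d (Fin.last m)) → 𝒪)

end Setup

variable {𝒪 : Type*} [CommRing 𝒪] [IsLocalRing 𝒪] {σ τ κ : Type*} {m : ℕ}
  {d : Fin (m + 1) → ℕ}

/-- `S ⧸ 𝔫 ^ n` -/
abbrev Sn (𝒪 : Type*) [CommRing 𝒪] [IsLocalRing 𝒪] (τ : Type*) (n : ℕ) : Type _ :=
  MvPowerSeries τ 𝒪 ⧸ maximalIdeal (MvPowerSeries τ 𝒪) ^ n

/-- entrywise truncation of rectangular matrices -/
noncomputable def truncMat {a b : Type*} (n : ℕ) (A : Matrix a b (Sn 𝒪 τ (n + 1))) :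
    Matrix a b (Sn 𝒪 τ n) :=
  A.map (Ideal.Quotient.factorPowSucc (maximalIdeal (MvPowerSeries τ 𝒪)) n)

theorem truncMat_apply {a b : Type*} (n : ℕ) (A : Matrix a b (Sn 𝒪 τ (n + 1))) (j : a) (k : b) :
    truncMat n A j k = Ideal.Quotient.factorPowSucc _ n (A j k) := rfl

theorem truncMat_mul {a b c : Type*} [Fintype b] (n : ℕ) (A : Matrix a b (Sn 𝒪 τ (n + 1)))
    (B : Matrix b c (Sn 𝒪 τ (n + 1))) : truncMat n (A * B) = truncMat n A * truncMat n B :=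
  Matrix.map_mul

theorem truncMat_one {a : Type*} [Fintype a] [DecidableEq a] (n : ℕ) :
    truncMat n (1 : Matrix a a (Sn 𝒪 τ (n + 1))) = 1 := by
  unfold truncMat
  rw [Matrix.map_one _ (map_zero _) (map_one _)]

theorem truncMat_zero {a b : Type*} (n : ℕ) :
    truncMat n (0 : Matrix a b (Sn 𝒪 τ (n + 1))) = 0 := by
  unfold truncMat
  rw [Matrix.map_zero _ (map_zero _)]

theorem truncMat_sub {a b : Type*} (n : ℕ) (A B : Matrix a b (Sn 𝒪 τ (n + 1))) :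
    truncMat n (A - B) = truncMat n A - truncMat n B :=
  Matrix.map_sub _ (map_sub _) A B

theorem truncMat_sum {a b ι : Type*} (n : ℕ) (s : Finset ι)
    (A : ι → Matrix a b (Sn 𝒪 τ (n + 1))) :
    truncMat n (∑ c ∈ s, A c) = ∑ c ∈ s, truncMat n (A c) := by
  classical
  induction s using Finset.induction_on with
  | empty => simp [truncMat_zero]
  | insert x s hx ih =>
    rw [Finset.sum_insert hx, Finset.sum_insert hx, ← ih]
    exact Matrix.map_add _ (map_add _) _ _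

theorem truncMat_facMat {a : Type*} [Fintype a] [DecidableEq a] (n : ℕ)
    (A : Matrix a a (Sn 𝒪 τ (n + 1))) :
    facMat 𝒪 (maximalIdeal (MvPowerSeries τ 𝒪)) n A = truncMat n A := rfl

/-- truncation of the point -/
noncomputable def truncW (n : ℕ) (w : MvPowerSeries σ 𝒪 →ₐ[𝒪] 𝒪 ⧸ maximalIdeal 𝒪 ^ (n + 1)) :
    MvPowerSeries σ 𝒪 →ₐ[𝒪] 𝒪 ⧸ maximalIdeal 𝒪 ^ n :=
  (Ideal.Quotient.factorₐ 𝒪 (Ideal.pow_le_pow_right (Nat.le_succ n))).comp w

theorem truncW_apply (n : ℕ) (w : MvPowerSeries σ 𝒪 →ₐ[𝒪] 𝒪 ⧸ maximalIdeal 𝒪 ^ (n + 1))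
    (f : MvPowerSeries σ 𝒪) :
    truncW n w f = Ideal.Quotient.factorPowSucc (maximalIdeal 𝒪) n (w f) := rfl

/-- a solution of the chain patching problem at level `n` -/
structure Sol (Pb : Problem 𝒪 σ τ κ m d) (kk : Fin m → ℕ) (n : ℕ) where
  /-- the actions -/
  φ : ∀ i, MvPowerSeries σ 𝒪 →ₐ[𝒪] Matrix (Fin (d i)) (Fin (d i)) (Sn 𝒪 τ n)
  /-- the elements realizing the scalars `u q`, modulo `𝔐 ^ n` -/
  F : Fin (m + 1) → κ → MvPowerSeries σ 𝒪 ⧸ maximalIdeal (MvPowerSeries σ 𝒪) ^ n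
  /-- the point -/
  w : MvPowerSeries σ 𝒪 →ₐ[𝒪] 𝒪 ⧸ maximalIdeal 𝒪 ^ n
  /-- level raising -/
  Im : ∀ j : Fin m, Fin (kk j) → Matrix (Fin (d j.succ)) (Fin (d j.castSucc)) (Sn 𝒪 τ n)
  /-- retractions -/
  Rt : ∀ j : Fin m, Fin (kk j) → Matrix (Fin (d j.castSucc)) (Fin (d j.succ)) (Sn 𝒪 τ n)
  /-- level lowering -/
  Om : ∀ j : Fin m, Matrix (Fin (d j.castSucc)) (Fin (d j.succ)) (Sn 𝒪 τ n)
  /-- sections -/
  Sg : ∀ j : Fin m, Matrix (Fin (d j.succ)) (Fin (d j.castSucc)) (Sn 𝒪 τ n)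
  /-- the quotients `Om * Im / th` -/
  E : ∀ j : Fin m, Fin (kk j) → Matrix (Fin (d j.castSucc)) (Fin (d j.castSucc)) (Sn 𝒪 τ n)
  kill : ∀ i, ∀ f ∈ Pb.Ik i, φ i f = 0
  Im_comm : ∀ j c f, Im j c * φ j.castSucc f = φ j.succ f * Im j c
  Rt_Im : ∀ j c c', Rt j c * Im j c' = if c = c' then 1 else 0
  new : ∀ j, ∀ f ∈ Pb.Inew j, (1 - ∑ c, Im j c * Rt j c) * φ j.succ f = 0
  Om_comm : ∀ j f, Om j * φ j.succ f = φ j.castSucc f * Om j
  Om_Sg : ∀ j, Om j * Sg j = 1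
  Om_Im : ∀ j c, Om j * Im j c = φ j.castSucc (Pb.th j) * E j c
  w_st : ∀ f ∈ Pb.Ist, w f = 0
  ctl_ge : ∀ c ∈ Pb.C0, ∃ (N : ℕ) (f : Fin N → MvPowerSeries σ 𝒪)
    (y : Fin N → Fin (d (Fin.last m)) → 𝒪 ⧸ maximalIdeal 𝒪 ^ n), (∀ t, w (f t) = 0) ∧ ∀ j,
      Ideal.Quotient.mk _ (c j) = ∑ t, ∑ k, augn 𝒪 τ n (φ (Fin.last m) (f t) j k) * y t k
  hF : ∀ i q, ∃ G : MvPowerSeries σ 𝒪, G ∈ maximalIdeal (MvPowerSeries σ 𝒪) ∧
    Ideal.Quotient.mk _ G = F i q ∧ w G = 0 ∧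
    ∀ j k, φ i G j k = if j = k then Ideal.Quotient.mk _ (Pb.u q) else 0

namespace Sol

variable {Pb : Problem 𝒪 σ τ κ m d} {kk : Fin m → ℕ}

/-- truncation from level `n + 1` to level `n` -/
noncomputable def trunc {n : ℕ} (s : Sol Pb kk (n + 1)) : Sol Pb kk n where
  φ i := (facMat 𝒪 (maximalIdeal (MvPowerSeries τ 𝒪)) n).comp (s.φ i)
  F i q := Ideal.Quotient.factorPowSucc _ n (s.F i q)
  w := truncW n s.w
  Im j c := truncMat n (s.Im j c)
  Rt j c := truncMat n (s.Rt j c)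
  Om j := truncMat n (s.Om j)
  Sg j := truncMat n (s.Sg j)
  E j c := truncMat n (s.E j c)
  kill i f hf := by
    rw [AlgHom.comp_apply, s.kill i f hf, map_zero]
  Im_comm j c f := by
    rw [AlgHom.comp_apply, AlgHom.comp_apply, truncMat_facMat, truncMat_facMat, ← truncMat_mul,
      ← truncMat_mul, s.Im_comm]
  Rt_Im j c c' := by
    rw [← truncMat_mul, s.Rt_Im]
    split_ifs
    · exact truncMat_one n
    · exact truncMat_zero n
  new j f hf := by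
    have h := congrArg (truncMat n) (s.new j f hf)
    rw [truncMat_mul, truncMat_sub, truncMat_one, truncMat_sum, truncMat_zero] at h
    rw [AlgHom.comp_apply, truncMat_facMat]
    simp only [truncMat_mul] at h
    exact h
  Om_comm j f := by
    rw [AlgHom.comp_apply, AlgHom.comp_apply, truncMat_facMat, truncMat_facMat, ← truncMat_mul,
      ← truncMat_mul, s.Om_comm]
  Om_Sg j := by
    rw [← truncMat_mul, s.Om_Sg, truncMat_one]
  Om_Im j c := by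
    rw [AlgHom.comp_apply, truncMat_facMat, ← truncMat_mul, ← truncMat_mul, s.Om_Im]
  w_st f hf := by
    rw [truncW_apply, s.w_st f hf, map_zero]
  ctl_ge c hc := by
    obtain ⟨N, f, y, hw, hy⟩ := s.ctl_ge c hc
    refine ⟨N, f, fun t k => Ideal.Quotient.factorPowSucc _ n (y t k), fun t => ?_, fun j => ?_⟩
    · rw [truncW_apply, hw t, map_zero]
    · have h := congrArg (Ideal.Quotient.factorPowSucc (maximalIdeal 𝒪) n) (hy j)
      rw [map_sum] at h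
      simp only [map_sum, map_mul] at h
      simp only [AlgHom.comp_apply, facMat_apply, augn_factorPowSucc]
      exact h
  hF i q := by
    obtain ⟨G, hG, hGF, hGw, hGφ⟩ := s.hF i q
    refine ⟨G, hG, ?_, ?_, fun j k => ?_⟩
    · rw [← hGF]; rfl
    · rw [truncW_apply, hGw, map_zero]
    · rw [AlgHom.comp_apply, facMat_apply, hGφ j k]
      split_ifs
      · rfl
      · exact map_zero _

theorem ext' {n : ℕ} {s t : Sol Pb kk n} (hφ : s.φ = t.φ) (hF : s.F = t.F) (hw : s.w = t.w)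
    (hIm : s.Im = t.Im) (hRt : s.Rt = t.Rt) (hOm : s.Om = t.Om) (hSg : s.Sg = t.Sg)
    (hE : s.E = t.E) : s = t := by
  cases s; cases t
  simp only at hφ hF hw hIm hRt hOm hSg hE
  subst hφ hF hw hIm hRt hOm hSg hE
  rfl

theorem trunc_φ {n : ℕ} (s : Sol Pb kk (n + 1)) (i : Fin (m + 1)) (f : MvPowerSeries σ 𝒪)
    (j k : Fin (d i)) :
    s.trunc.φ i f j k =
      Ideal.Quotient.factorPowSucc (maximalIdeal (MvPowerSeries τ 𝒪)) n (s.φ i f j k) := rfl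

instance finite [IsNoetherianRing 𝒪] [Finite (ResidueField 𝒪)] [Finite σ] [Finite τ] [Finite κ]
    (n : ℕ) : Finite (Sol Pb kk n) := by
  have h1 : Finite (Sn 𝒪 τ n) := finite_quotient_maximalIdeal_pow n
  have h2 : Finite (MvPowerSeries σ 𝒪 ⧸ maximalIdeal (MvPowerSeries σ 𝒪) ^ n) :=
    finite_quotient_maximalIdeal_pow n
  have h3 : ∀ a b : ℕ, Finite (Matrix (Fin a) (Fin b) (Sn 𝒪 τ n)) := fun a b =>
    inferInstanceAs (Finite (Fin a → Fin b → _))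
  have h4 : ∀ i, Finite (MvPowerSeries σ 𝒪 →ₐ[𝒪] Matrix (Fin (d i)) (Fin (d i)) (Sn 𝒪 τ n)) :=
    fun i => finite_algHom
  have h5' : Finite (𝒪 ⧸ maximalIdeal 𝒪) := inferInstanceAs (Finite (ResidueField 𝒪))
  have h5 : Finite (𝒪 ⧸ maximalIdeal 𝒪 ^ n) :=
    Ideal.finite_quotient_pow (IsNoetherian.noetherian _) n
  have h6 : Finite (MvPowerSeries σ 𝒪 →ₐ[𝒪] 𝒪 ⧸ maximalIdeal 𝒪 ^ n) := finite_algHom
  exact Finite.of_injective
    (fun s : Sol Pb kk n => (s.φ, s.F, s.w, s.Im, s.Rt, s.Om, s.Sg, s.E))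
    (fun s t h => by
      simp only [Prod.mk.injEq] at h
      obtain ⟨e1, e2, e3, e4, e5, e6, e7, e8⟩ := h
      exact ext' e1 e2 e3 e4 e5 e6 e7 e8)

end Sol

end Fermat.Agent.ML.CORE
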