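/-
PROJECT ML, block [CORE-L] (helper9): **the chain patching theorem**.  If the chain patching
problem has a solution at every finite level, it has a solution over `S = 𝒪⟦y_τ⟧`
(`Patched Pb kk`).
-/
import Mathlib
import Fermat.Agent.ML.CORE_helper9_Patch

set_option autoImplicit false

namespace Fermat.Agent.ML.CORE

open IsLocalRing MvPowerSeries Fermat.Agent.RB.PATCH

variable {𝒪 : Type*} [CommRing 𝒪] [IsLocalRing 𝒪] {σ τ κ : Type*} {m : ℕ}
  {d : Fin (m + 1) → ℕ}

/-- a solution of the chain patching problem over `S` -/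
structure Patched (Pb : Problem 𝒪 σ τ κ m d) (kk : Fin m → ℕ) where
  /-- the actions -/
  Φ : ∀ i, MvPowerSeries σ 𝒪 →ₐ[𝒪] Matrix (Fin (d i)) (Fin (d i)) (MvPowerSeries τ 𝒪)
  /-- the elements realizing the scalars `u q` -/
  F : Fin (m + 1) → κ → MvPowerSeries σ 𝒪
  /-- the point -/
  w : MvPowerSeries σ 𝒪 →ₐ[𝒪] 𝒪
  /-- level raising -/
  Im : ∀ j : Fin m, Fin (kk j) →
    Matrix (Fin (d j.succ)) (Fin (d j.castSucc)) (MvPowerSeries τ 𝒪)
  /-- retractions -/
  Rt : ∀ j : Fin m, Fin (kk j) →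
    Matrix (Fin (d j.castSucc)) (Fin (d j.succ)) (MvPowerSeries τ 𝒪)
  /-- level lowering -/
  Om : ∀ j : Fin m, Matrix (Fin (d j.castSucc)) (Fin (d j.succ)) (MvPowerSeries τ 𝒪)
  /-- sections -/
  Sg : ∀ j : Fin m, Matrix (Fin (d j.succ)) (Fin (d j.castSucc)) (MvPowerSeries τ 𝒪)
  /-- the quotients `Om * Im / th` -/
  E : ∀ j : Fin m, Fin (kk j) →
    Matrix (Fin (d j.castSucc)) (Fin (d j.castSucc)) (MvPowerSeries τ 𝒪)
  kill : ∀ i, ∀ f ∈ Pb.Ik i, Φ i f = 0
  Im_comm : ∀ j c f, Im j c * Φ j.castSucc f = Φ j.succ f * Im j c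
  Rt_Im : ∀ j c c', Rt j c * Im j c' = if c = c' then 1 else 0
  new : ∀ j, ∀ f ∈ Pb.Inew j, (1 - ∑ c, Im j c * Rt j c) * Φ j.succ f = 0
  Om_comm : ∀ j f, Om j * Φ j.succ f = Φ j.castSucc f * Om j
  Om_Sg : ∀ j, Om j * Sg j = 1
  Om_Im : ∀ j c, Om j * Im j c = Φ j.castSucc (Pb.th j) * E j c
  w_st : ∀ f ∈ Pb.Ist, w f = 0
  ctl_ge : ∀ c ∈ Pb.C0, c ∈ Submodule.span 𝒪 {v : Fin (d (Fin.last m)) → 𝒪 |
    ∃ (f : MvPowerSeries σ 𝒪) (k : Fin (d (Fin.last m))), w f = 0 ∧
      v = fun j => constantCoeff (Φ (Fin.last m) f j k)}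
  F_mem : ∀ i q, F i q ∈ maximalIdeal (MvPowerSeries σ 𝒪)
  w_F : ∀ i q, w (F i q) = 0
  hF : ∀ i q j k, Φ i (F i q) j k = if j = k then Pb.u q else 0

section Red

variable {a b c : Type*}

/-- entrywise reduction modulo `𝔫 ^ n` -/
noncomputable def red (n : ℕ) (A : Matrix a b (MvPowerSeries τ 𝒪)) : Matrix a b (Sn 𝒪 τ n) :=
  A.map (Ideal.Quotient.mk (maximalIdeal (MvPowerSeries τ 𝒪) ^ n))

theorem red_apply (n : ℕ) (A : Matrix a b (MvPowerSeries τ 𝒪)) (j : a) (k : b) :
    red n A j k = Ideal.Quotient.mk _ (A j k) := rfl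

theorem red_mul [Fintype b] (n : ℕ) (A : Matrix a b (MvPowerSeries τ 𝒪))
    (B : Matrix b c (MvPowerSeries τ 𝒪)) : red n (A * B) = red n A * red n B :=
  Matrix.map_mul

theorem red_one [Fintype a] [DecidableEq a] (n : ℕ) :
    red n (1 : Matrix a a (MvPowerSeries τ 𝒪)) = 1 := by
  unfold red
  rw [Matrix.map_one _ (map_zero _) (map_one _)]

theorem red_zero (n : ℕ) : red n (0 : Matrix a b (MvPowerSeries τ 𝒪)) = 0 := by
  unfold red
  rw [Matrix.map_zero _ (map_zero _)]

theorem red_sub (n : ℕ) (A B : Matrix a b (MvPowerSeries τ 𝒪)) :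
    red n (A - B) = red n A - red n B :=
  Matrix.map_sub _ (map_sub _) A B

theorem red_sum {ι : Type*} (n : ℕ) (s : Finset ι) (A : ι → Matrix a b (MvPowerSeries τ 𝒪)) :
    red n (∑ x ∈ s, A x) = ∑ x ∈ s, red n (A x) := by
  classical
  induction s using Finset.induction_on with
  | empty => simp [red_zero]
  | insert x s hx ih =>
    rw [Finset.sum_insert hx, Finset.sum_insert hx, ← ih]
    exact Matrix.map_add _ (map_add _) _ _

theorem red_injective [IsNoetherianRing 𝒪] [Finite τ] {A B : Matrix a b (MvPowerSeries τ 𝒪)}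
    (h : ∀ n, red n A = red n B) : A = B :=
  matRect_ext_of_mk (maximalIdeal (MvPowerSeries τ 𝒪)) h

end Red

/-- **The chain patching theorem.** -/
theorem exists_patched [IsNoetherianRing 𝒪] [IsAdicComplete (maximalIdeal 𝒪) 𝒪]
    [Finite (ResidueField 𝒪)] [Finite σ] [Finite τ] [Finite κ]
    (Pb : Problem 𝒪 σ τ κ m d) (kk : Fin m → ℕ) (h : ∀ n, Nonempty (Sol Pb kk n)) :
    Nonempty (Patched Pb kk) := by
  classical
  obtain ⟨s, hs⟩ := exists_compatible_of_finite (X := Sol Pb kk) (fun n => Sol.trunc)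
  -- the limits of the actions
  have hΦ : ∀ i, ∃ Φ : MvPowerSeries σ 𝒪 →ₐ[𝒪]
      Matrix (Fin (d i)) (Fin (d i)) (MvPowerSeries τ 𝒪),
      ∀ n f, red n (Φ f) = (s n).φ i f := by
    intro i
    obtain ⟨Φ, hΦ⟩ := exists_limAlgHom 𝒪 (maximalIdeal (MvPowerSeries τ 𝒪))
      (fun n => (s n).φ i) (fun n f => by rw [← hs n]; rfl)
    exact ⟨Φ, fun n f => hΦ n f⟩
  choose Φ hΦ using hΦ
  -- the limits of the `F`
  have hF : ∀ i q, ∃ G : MvPowerSeries σ 𝒪, ∀ n, Ideal.Quotient.mk _ G = (s n).F i q := by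
    intro i q
    refine exists_lim (maximalIdeal (MvPowerSeries σ 𝒪)) (fun n => (s n).F i q) (fun n => ?_)
    rw [← hs n]; rfl
  choose F hF using hF
  -- the limit of the point
  obtain ⟨w, hw⟩ := exists_limAlgHomRing 𝒪 (maximalIdeal 𝒪) (fun n => (s n).w)
    (fun n f => by rw [← hs n]; rfl)
  -- the limits of the matrices
  have hIm : ∀ j c, ∃ M : Matrix (Fin (d j.succ)) (Fin (d j.castSucc)) (MvPowerSeries τ 𝒪),
      ∀ n, red n M = (s n).Im j c := fun j c =>
    exists_limMatRect _ (fun n => (s n).Im j c) (fun n => by rw [← hs n]; rfl)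
  choose Im hIm using hIm
  have hRt : ∀ j c, ∃ M : Matrix (Fin (d j.castSucc)) (Fin (d j.succ)) (MvPowerSeries τ 𝒪),
      ∀ n, red n M = (s n).Rt j c := fun j c =>
    exists_limMatRect _ (fun n => (s n).Rt j c) (fun n => by rw [← hs n]; rfl)
  choose Rt hRt using hRt
  have hOm : ∀ j, ∃ M : Matrix (Fin (d j.castSucc)) (Fin (d j.succ)) (MvPowerSeries τ 𝒪),
      ∀ n, red n M = (s n).Om j := fun j =>
    exists_limMatRect _ (fun n => (s n).Om j) (fun n => by rw [← hs n]; rfl)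
  choose Om hOm using hOm
  have hSg : ∀ j, ∃ M : Matrix (Fin (d j.succ)) (Fin (d j.castSucc)) (MvPowerSeries τ 𝒪),
      ∀ n, red n M = (s n).Sg j := fun j =>
    exists_limMatRect _ (fun n => (s n).Sg j) (fun n => by rw [← hs n]; rfl)
  choose Sg hSg using hSg
  have hE : ∀ j c, ∃ M : Matrix (Fin (d j.castSucc)) (Fin (d j.castSucc)) (MvPowerSeries τ 𝒪),
      ∀ n, red n M = (s n).E j c := fun j c =>
    exists_limMatRect _ (fun n => (s n).E j c) (fun n => by rw [← hs n]; rfl)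
  choose E hE using hE
  -- compatibility along all truncations
  have hcompat : ∀ i f j k {n N : ℕ} (hnN : n ≤ N),
      Ideal.Quotient.factorPow (maximalIdeal (MvPowerSeries τ 𝒪)) hnN ((s N).φ i f j k) =
        (s n).φ i f j k := by
    intro i f j k n N hnN
    refine factorPow_eq_of_succ (maximalIdeal (MvPowerSeries τ 𝒪))
      (fun n => (s n).φ i f j k) (fun n => ?_) hnN
    rw [← hs n]; rfl
  have hwcompat : ∀ f {n N : ℕ} (hnN : n ≤ N),
      Ideal.Quotient.factorPow (maximalIdeal 𝒪) hnN ((s N).w f) = (s n).w f := by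
    intro f n N hnN
    refine factorPow_eq_of_succ (maximalIdeal 𝒪) (fun n => (s n).w f) (fun n => ?_) hnN
    rw [← hs n]; rfl
  have haug : ∀ n i f j k, augn 𝒪 τ n ((s n).φ i f j k) =
      Ideal.Quotient.mk _ (constantCoeff (Φ i f j k)) := by
    intro n i f j k
    rw [← hΦ i n f, red_apply, augn_mk]
  have hfinS : ∀ n, Finite (Sn 𝒪 τ n) := fun n => finite_quotient_maximalIdeal_pow n
  have hfinO' : Finite (𝒪 ⧸ maximalIdeal 𝒪) := inferInstanceAs (Finite (ResidueField 𝒪))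
  have hfinO : ∀ n, Finite (𝒪 ⧸ maximalIdeal 𝒪 ^ n) := fun n =>
    Ideal.finite_quotient_pow (IsNoetherian.noetherian _) n
  refine ⟨{
    Φ := Φ, F := F, w := w, Im := Im, Rt := Rt, Om := Om, Sg := Sg, E := E
    kill := ?_, Im_comm := ?_, Rt_Im := ?_, new := ?_, Om_comm := ?_, Om_Sg := ?_, Om_Im := ?_
    w_st := ?_, ctl_ge := ?_, F_mem := ?_, w_F := ?_, hF := ?_ }⟩
  · intro i f hf
    refine red_injective fun n => ?_
    rw [hΦ, (s n).kill i f hf, red_zero]
  · intro j c f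
    refine red_injective fun n => ?_
    rw [red_mul, red_mul, hΦ, hΦ, hIm, (s n).Im_comm]
  · intro j c c'
    refine red_injective fun n => ?_
    rw [red_mul, hRt, hIm, (s n).Rt_Im]
    split_ifs
    · rw [red_one]
    · rw [red_zero]
  · intro j f hf
    refine red_injective fun n => ?_
    rw [red_mul, red_sub, red_one, red_sum, hΦ, red_zero]
    simp only [red_mul, hIm, hRt]
    exact (s n).new j f hf
  · intro j f
    refine red_injective fun n => ?_
    rw [red_mul, red_mul, hΦ, hΦ, hOm, (s n).Om_comm]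
  · intro j
    refine red_injective fun n => ?_
    rw [red_mul, hOm, hSg, (s n).Om_Sg, red_one]
  · intro j c
    refine red_injective fun n => ?_
    rw [red_mul, red_mul, hΦ, hOm, hIm, hE, (s n).Om_Im]
  · intro f hf
    refine eq_of_forall_mk_eq (maximalIdeal 𝒪) fun n => ?_
    rw [hw, (s n).w_st f hf, map_zero]
  · -- the control condition
    intro c hc
    refine mem_submodule_of_forall _ _ (fun n => ?_)
    obtain ⟨N, f, y, hwf, hy⟩ := (s n).ctl_ge c hc
    choose y' hy' using fun t k => Ideal.Quotient.mk_surjective (y t k)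
    -- correct the `f t` by constants
    set f' : Fin N → MvPowerSeries σ 𝒪 := fun t => f t - C (w (f t)) with hf'
    have hwf' : ∀ t, w (f' t) = 0 := by
      intro t
      have h1 : w (C (w (f t)) : MvPowerSeries σ 𝒪) = w (f t) := by
        have h2 : (C (w (f t)) : MvPowerSeries σ 𝒪) = algebraMap 𝒪 _ (w (f t)) := rfl
        rw [h2, w.commutes]; rfl
      rw [hf', map_sub, h1, sub_self]
    have hmem : ∀ t, w (f t) ∈ maximalIdeal 𝒪 ^ n := by
      intro t
      rw [← Ideal.Quotient.eq_zero_iff_mem, hw, hwf t]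
    refine ⟨∑ t, ∑ k, y' t k • (fun j => constantCoeff (Φ (Fin.last m) (f' t) j k)), ?_, ?_⟩
    · refine Submodule.sum_mem _ fun t _ => Submodule.sum_mem _ fun k _ =>
        Submodule.smul_mem _ _ (Submodule.subset_span ⟨f' t, k, hwf' t, rfl⟩)
    · intro j
      rw [hy j]
      simp only [Finset.sum_apply, Pi.smul_apply, smul_eq_mul, map_sum, map_mul]
      refine Finset.sum_congr rfl fun t _ => Finset.sum_congr rfl fun k _ => ?_
      rw [haug n, hy' t k, mul_comm]
      congr 1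
      rw [Ideal.Quotient.eq]
      have h3 : Φ (Fin.last m) (f' t) j k = Φ (Fin.last m) (f t) j k -
          (if j = k then (C (w (f t)) : MvPowerSeries τ 𝒪) else 0) := by
        rw [hf', map_sub, Matrix.sub_apply]
        congr 1
        have h2 : (C (w (f t)) : MvPowerSeries σ 𝒪) = algebraMap 𝒪 _ (w (f t)) := rfl
        rw [h2, (Φ (Fin.last m)).commutes, Matrix.algebraMap_matrix_apply]
        rfl
      rw [h3, map_sub, sub_sub_cancel]
      split_ifs
      · rw [constantCoeff_C]; exact hmem t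
      · rw [map_zero]; exact zero_mem _
  · intro i q
    obtain ⟨G, hG, hGF, -, -⟩ := (s 1).hF i q
    rw [← hF i q 1, Ideal.Quotient.eq, pow_one] at hGF
    have : F i q = G - (G - F i q) := by ring
    rw [this]
    exact sub_mem hG hGF
  · intro i q
    refine eq_of_forall_mk_eq (maximalIdeal 𝒪) fun n => ?_
    rw [hw, map_zero]
    obtain ⟨N, hN⟩ := exists_maximalIdeal_pow_le_ker ((s n).w).toRingHom
    obtain ⟨G, -, hGF, hGw, -⟩ := (s (max n N)).hF i q
    rw [← hF i q (max n N), Ideal.Quotient.eq] at hGF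
    have h1 : G - F i q ∈ RingHom.ker ((s n).w).toRingHom :=
      hN (Ideal.pow_le_pow_right (le_max_right n N) hGF)
    rw [RingHom.mem_ker, AlgHom.toRingHom_eq_coe, RingHom.coe_coe, map_sub, sub_eq_zero] at h1
    rw [← h1, ← hwcompat G (le_max_left n N), hGw, map_zero]
  · intro i q j k
    refine eq_of_forall_mk_eq (maximalIdeal (MvPowerSeries τ 𝒪)) (fun n => ?_)
    rw [← red_apply, hΦ]
    have hfin2 : Finite (Matrix (Fin (d i)) (Fin (d i)) (Sn 𝒪 τ n)) :=
      inferInstanceAs (Finite (Fin (d i) → Fin (d i) → _))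
    obtain ⟨N, hN⟩ := exists_maximalIdeal_pow_le_ker ((s n).φ i).toRingHom
    obtain ⟨G, -, hGF, -, hGφ⟩ := (s (max n N)).hF i q
    rw [← hF i q (max n N), Ideal.Quotient.eq] at hGF
    have h1 : G - F i q ∈ RingHom.ker ((s n).φ i).toRingHom :=
      hN (Ideal.pow_le_pow_right (le_max_right n N) hGF)
    rw [RingHom.mem_ker, AlgHom.toRingHom_eq_coe, RingHom.coe_coe, map_sub, sub_eq_zero] at h1
    rw [← h1, ← hcompat i G j k (le_max_left n N), hGφ j k]
    split_ifs
    · rfl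
    · rw [map_zero, map_zero]

end Fermat.Agent.ML.CORE
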