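/-
PROJECT ML (S59) — ARCHITECT (helper9) — INTERFACE FILE ML2: the abstract input of the CORE of the
chain patching (finding 441 §1), pure commutative algebra.

Fixed data: a complete DVR `O` (finite residue field, uniformizer `lam`), a chain model
`D : ChainModel O m nv g` (ML1), `r` (number of Taylor–Wiles primes), the ranks `d i`
(`i = 0, …, m`: the level `i` contains the chain primes `j < i`), the multiplicities `kk j`
(`2` for a prime `q ≠ p`: two degeneracy maps; `1` at `p`: the `p`-stabilisation), the top module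
`M0` at level zero (finite free of rank `d m` over `O`) and a submodule `C0 ⊆ M0` (in the
application `C0 = 𝔭_W • M0`, `𝔭_W` the kernel of the point of `W` on the trace ring).

`S∞ = O⟦Z_1, …, Z_r⟧`; the diamond operator at the `q`-th Taylor–Wiles prime acts (after the
twist by its inverse square root) as `(1 + Z_q) / (1 - Z_q)`, so `Z_q²` is a power series without
constant term in the inertial trace minus `2`, which vanishes at the point of `W`.

`TWChainLevel n` is what the Taylor–Wiles construction provides at level `n`: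
  * modules `H i` (`i : Fin (m + 1)`), free of rank `d i` over `S∞ ⧸ J`, `J ≤ 𝔫 ^ n`, with an
    action of the ring `CPS` of the local problems (ONE ring for all levels: through the trace
    ring of the top level) killing `rel j` (`j < i`) and `unr j` (`i ≤ j`);
  * the level raising maps `iota j c : H j → H (j + 1)` (`c : Fin (kk j)`), `CPS`-linear, jointly
    split injective over `S∞` (Ihara's lemma + freeness), whose cokernel (the `j`-new quotient) is
    killed by `new j`;
  * `omega j : H (j + 1) → H j`, `CPS`-linear and surjective, with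
    `omega j ∘ iota j c ∈ (th j) · End(H j)` (the suitable eigen-combination of the dual
    degeneracy maps: `(π₁_* ∓ π_q_*)`, resp. the dual of the `p`-stabilisation);
  * the point of `W`: `w : CPS → O ⧸ λ ^ n` killing the `st j`, and the elements `G ∈ 𝔪_CPS` with
    `w G = 0` acting as `Z_q²` (KEY-H at the Taylor–Wiles primes);
  * control at the top level: `H m ⧸ (λ ^ n, Z) = M0 ⧸ λ ^ n`, and the image of `(ker w) H m`
    contains `C0`.
`CoreLiftStatement`: if all levels are inhabited, (`K0` and `d 0 > 0`) or (`d 1 > 0` and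
`D.Start`), then `M0 ⧸ C0` is not `λ`-power torsion.  Owner of the proof: helper9 ([CORE-L]).
-/
import Mathlib
import Fermat.Agent.ML.IFACE_helper9_Local

set_option autoImplicit false

namespace Fermat.Agent.ML

open MvPowerSeries IsLocalRing

/-- `S∞ = O⟦Z_1, …, Z_r⟧` -/
abbrev SInf (O : Type) [CommRing O] (r : ℕ) := MvPowerSeries (Fin r) O

/-- **The Taylor–Wiles data at level `n`** for a chain of levels.  All modules are modules over
`S∞` (through a finite quotient). -/
structure TWChainLevel {O : Type} [CommRing O] [IsLocalRing O] {m : ℕ} {nv : Fin m → ℕ} {g : ℕ}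
    (D : ChainModel O m nv g) (lam : O) (r : ℕ) (d : Fin (m + 1) → ℕ) (kk : Fin m → ℕ)
    (M0 : Type) [AddCommGroup M0] [Module O M0] (C0 : Submodule O M0) (K0 : Prop) (n : ℕ) :
    Type 1 where
  /-- the module of level `i` -/
  H : Fin (m + 1) → Type
  [instAddCommGroup : ∀ i, AddCommGroup (H i)]
  [instModule : ∀ i, Module (SInf O r) (H i)]
  /-- the actions of the ring of the local problems -/
  act : ∀ i, CPS O m nv g →+* Module.End (SInf O r) (H i)
  act_C : ∀ (i : Fin (m + 1)) (c : O) (x : H i), act i (C c) x = (C c : SInf O r) • x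
  /-- the local relations hold -/
  kill_rel : ∀ (i : Fin (m + 1)) (j : Fin m), j.val < i.val → ∀ f ∈ D.rel j, act i f = 0
  /-- at the level `0` the unramified relations are asked only under `K0` (amendment, lead 2335
  (R-c): in the chain case `cq 0 = p` nothing is asked about the module of level `0`) -/
  kill_unr : ∀ (i : Fin (m + 1)) (j : Fin m), i.val ≤ j.val → (i.val = 0 → K0) →
    ∀ f ∈ D.unr j, act i f = 0
  /-- freeness of rank `d i` over `S∞ ⧸ J`, `J ⊆ 𝔫 ^ n` -/
  J : Ideal (SInf O r)
  J_le : J ≤ maximalIdeal (SInf O r) ^ n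
  b : ∀ i, Fin (d i) → H i
  b_span : ∀ (i : Fin (m + 1)) (x : H i), ∃ c : Fin (d i) → SInf O r, x = ∑ k, c k • b i k
  b_rel : ∀ (i : Fin (m + 1)) (c : Fin (d i) → SInf O r),
    ∑ k, c k • b i k = 0 ↔ ∀ k, c k ∈ J
  /-- the level raising maps at the `j`-th chain prime -/
  iota : ∀ j : Fin m, Fin (kk j) → (H j.castSucc →ₗ[SInf O r] H j.succ)
  iota_act : ∀ (j : Fin m) (c : Fin (kk j)) (f : CPS O m nv g) (x : H j.castSucc),
    iota j c (act j.castSucc f x) = act j.succ f (iota j c x)
  /-- they are jointly split injective over `S∞` -/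
  retr : ∀ j : Fin m, Fin (kk j) → (H j.succ →ₗ[SInf O r] H j.castSucc)
  retr_iota : ∀ (j : Fin m) (c c' : Fin (kk j)) (x : H j.castSucc),
    retr j c (iota j c' x) = if c = c' then x else 0
  /-- the `j`-new quotient is killed by `new j` -/
  kill_new : ∀ (j : Fin m), ∀ f ∈ D.new j, ∀ x : H j.succ,
    ∃ y : Fin (kk j) → H j.castSucc, act j.succ f x = ∑ c, iota j c (y c)
  /-- the level lowering map at the `j`-th chain prime -/
  omega : ∀ j : Fin m, H j.succ →ₗ[SInf O r] H j.castSucc
  omega_act : ∀ (j : Fin m) (f : CPS O m nv g) (x : H j.succ),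
    omega j (act j.succ f x) = act j.castSucc f (omega j x)
  omega_surjective : ∀ j : Fin m, Function.Surjective (omega j)
  /-- `omega ∘ iota` is divisible by the level raising element -/
  omega_iota : ∀ (j : Fin m) (c : Fin (kk j)) (x : H j.castSucc),
    ∃ y : H j.castSucc, omega j (iota j c x) = act j.castSucc (D.th j) y
  /-- the point of `W` -/
  w : CPS O m nv g →ₐ[O] O ⧸ maximalIdeal O ^ n
  w_st : ∀ j : Fin m, ∀ f ∈ D.st j, w f = 0
  /-- **(KEY-H) in the unordered form**: `Z_q²` comes from the ring of the local problems, through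
  an element vanishing at the point of `W` -/
  hF : ∀ (i : Fin (m + 1)) (q : Fin r), ∃ G ∈ maximalIdeal (CPS O m nv g), w G = 0 ∧
    ∀ x : H i, act i G x = ((X q : SInf O r) ^ 2) • x
  /-- control at the top level: `H m ⧸ 𝔞 H m = M0 ⧸ λ ^ n` -/
  ctl : H (Fin.last m) →+ M0 ⧸ (maximalIdeal O ^ n • ⊤ : Submodule O M0)
  ctl_smul : ∀ (s : SInf O r) (x : H (Fin.last m)), ctl (s • x) = constantCoeff s • ctl x
  ctl_surjective : Function.Surjective ctl
  /-- the kernel of the control map is `(λ ^ n, Z_1, …, Z_r) H m` -/
  ker_ctl : ∀ x : H (Fin.last m), ctl x = 0 → ∃ (y : H (Fin.last m)) (z : Fin r → H (Fin.last m)),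
    x = (C (lam ^ n) : SInf O r) • y + ∑ q, (X q : SInf O r) • z q
  /-- the image of `(ker w) H m` at level zero contains `C0` -/
  ctl_C : ∀ y ∈ Submodule.map (Submodule.mkQ (maximalIdeal O ^ n • ⊤ : Submodule O M0)) C0,
      y ∈ Submodule.span O {z | ∃ (f : CPS O m nv g) (x : H (Fin.last m)),
        w f = 0 ∧ z = ctl (act (Fin.last m) f x)}

attribute [instance] TWChainLevel.instAddCommGroup TWChainLevel.instModule

/-- **[CORE-L]** (owner helper9): chain patching.  If the Taylor–Wiles data exist at every level
and the module of level `0` is non-zero and satisfies the unramified relations (`K0`), or the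
module of level `1` is non-zero and the model has `ChainModel.Start` (amendments, lead 2326,
2335 (R-c)), then `M0 ⧸ C0` is not `λ`-power torsion. -/
def CoreLiftStatement : Prop :=
  ∀ {O : Type} [CommRing O] [IsDomain O] [IsDiscreteValuationRing O]
    [IsAdicComplete (maximalIdeal O) O] [Finite (ResidueField O)]
    (lam : O) (_ : Irreducible lam)
    {m : ℕ} {nv : Fin m → ℕ} {g : ℕ} (D : ChainModel O m nv g) (r : ℕ) (_ : D.Good lam r)
    (d : Fin (m + 1) → ℕ) (kk : Fin m → ℕ) (K0 : Prop)
    (_ : (K0 ∧ 0 < d 0) ∨ (D.Start lam r ∧ ∃ i : Fin (m + 1), i.val = 1 ∧ 0 < d i))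
    (M0 : Type) [AddCommGroup M0] [Module O M0] [Module.Free O M0] [Module.Finite O M0]
    (_ : Module.finrank O M0 = d (Fin.last m)) (C0 : Submodule O M0)
    (_ : ∀ n : ℕ, Nonempty (TWChainLevel D lam r d kk M0 C0 K0 n)),
    ¬ ∀ x : M0, ∃ k : ℕ, lam ^ k • x ∈ C0

end Fermat.Agent.ML
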