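/-
PROJECT ML, block [CORE-L] (helper9): from the patched matrices to modules.

`coreProblem D r d K0 C0'`: the chain patching problem of the CORE.  For a solution
`P : Patched (coreProblem …) kk` over `𝒪⟦Z_1..Z_r⟧`:
* `Si P i = 𝒪⟦W_1..W_r⟧` with `Si P i → CPS`, `W_q ↦ P.F i q`;
* `Xi P i = 𝒪⟦Z⟧^(d i)`, free of rank `2^r d i` over `Si P i` (`W_q ↦ Z_q²`), a module over `CPS`
  through `P.Φ i`;
* the `CPS`-linear maps `iotaL j c`, `omegaL j`, the submodule `U j = ∑ range (iotaL j c)` of the
  old vectors and the `Si`-linear projector `eL j = 1 - ∑ Im Rt` killing it.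
-/
import Mathlib
import Fermat.Agent.RB.PATCH_helper9_MatEnd
import Fermat.Agent.TW.PSLift_helper6
import Fermat.Agent.ML.IFACE_helper9_Core
import Fermat.Agent.ML.CORE_helper9_PatchLim

set_option autoImplicit false
set_option linter.unusedSectionVars false

namespace Fermat.Agent.ML.CORE

open MvPowerSeries IsLocalRing Fermat.Agent.RB.PATCH

variable {O : Type} [CommRing O] [IsDomain O] [IsDiscreteValuationRing O]
  {m : ℕ} {nv : Fin m → ℕ} {g : ℕ}

/-- the chain patching problem of [CORE-L] -/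
noncomputable def coreProblem (D : ChainModel O m nv g) (r : ℕ) (d : Fin (m + 1) → ℕ)
    (K0 : Prop) (C0' : Submodule O (Fin (d (Fin.last m)) → O)) :
    Problem O (CVar m nv g) (Fin r) (Fin r) m d where
  Ik := fun i => ⨆ _ : i.val = 0 → K0, D.Jfull i.val
  Inew := D.new
  th := D.th
  Ist := D.Pst
  u := fun q => (X q : MvPowerSeries (Fin r) O) ^ 2
  C0 := C0'

variable {D : ChainModel O m nv g} {r : ℕ} {d : Fin (m + 1) → ℕ} {kk : Fin m → ℕ} {K0 : Prop}
  {C0' : Submodule O (Fin (d (Fin.last m)) → O)}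

/-! ### rectangular matrices as maps -/

section MatLin

variable {τ : Type*} {R : Type*} [CommRing R] {a b c : ℕ}

/-- a rectangular matrix over `R⟦Z⟧` as an additive map `R⟦Z⟧^b → R⟦Z⟧^a` -/
noncomputable def matMap (A : Matrix (Fin a) (Fin b) (MvPowerSeries τ R))
    (x : Fin b → EvenMod τ R) : Fin a → EvenMod τ R :=
  ofVec (A.mulVec (toVec x))

theorem toVec_matMap (A : Matrix (Fin a) (Fin b) (MvPowerSeries τ R)) (x : Fin b → EvenMod τ R) :
    toVec (matMap A x) = A.mulVec (toVec x) := rfl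

theorem matMap_add (A : Matrix (Fin a) (Fin b) (MvPowerSeries τ R)) (x y : Fin b → EvenMod τ R) :
    matMap A (x + y) = matMap A x + matMap A y := by
  apply toVec_injective
  rw [toVec_matMap, toVec_add, Matrix.mulVec_add, toVec_add, toVec_matMap, toVec_matMap]

theorem matMap_smul (A : Matrix (Fin a) (Fin b) (MvPowerSeries τ R)) (s : MvPowerSeries τ R)
    (x : Fin b → EvenMod τ R) : matMap A (s • x) = s • matMap A x := by
  apply toVec_injective
  rw [toVec_matMap, toVec_smul, Matrix.mulVec_smul, toVec_smul, toVec_matMap]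

theorem matMap_mul (A : Matrix (Fin a) (Fin b) (MvPowerSeries τ R))
    (B : Matrix (Fin b) (Fin c) (MvPowerSeries τ R)) (x : Fin c → EvenMod τ R) :
    matMap (A * B) x = matMap A (matMap B x) := by
  apply toVec_injective
  rw [toVec_matMap, toVec_matMap, toVec_matMap, Matrix.mulVec_mulVec]

theorem matMap_one (x : Fin a → EvenMod τ R) :
    matMap (1 : Matrix (Fin a) (Fin a) (MvPowerSeries τ R)) x = x := by
  apply toVec_injective
  rw [toVec_matMap, Matrix.one_mulVec]

theorem matMap_zero (x : Fin b → EvenMod τ R) :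
    matMap (0 : Matrix (Fin a) (Fin b) (MvPowerSeries τ R)) x = 0 := by
  apply toVec_injective
  rw [toVec_matMap, Matrix.zero_mulVec]; rfl

theorem matMap_sub (A B : Matrix (Fin a) (Fin b) (MvPowerSeries τ R)) (x : Fin b → EvenMod τ R) :
    matMap (A - B) x = matMap A x - matMap B x := by
  apply toVec_injective
  rw [toVec_matMap, Matrix.sub_mulVec]; rfl

theorem matMap_sum {ι : Type*} (s : Finset ι) (A : ι → Matrix (Fin a) (Fin b) (MvPowerSeries τ R))
    (x : Fin b → EvenMod τ R) : matMap (∑ i ∈ s, A i) x = ∑ i ∈ s, matMap (A i) x := by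
  classical
  induction s using Finset.induction_on with
  | empty => simp [matMap_zero]
  | insert i s hi ih =>
    rw [Finset.sum_insert hi, Finset.sum_insert hi, ← ih]
    apply toVec_injective
    rw [toVec_matMap, Matrix.add_mulVec]; rfl

theorem matEndHom_eq_matMap (A : Matrix (Fin a) (Fin a) (MvPowerSeries τ R))
    (x : Fin a → EvenMod τ R) : matEndHom A x = matMap A x := rfl

end MatLin

namespace Patched

variable (P : Patched (coreProblem D r d K0 C0') kk)

/-! ### The rings `Si P i = 𝒪⟦W_1, …, W_r⟧` -/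

/-- `𝒪⟦W_1, …, W_r⟧`, mapping to `CPS` through `W_q ↦ P.F i q` -/
def Si (_P : Patched (coreProblem D r d K0 C0') kk) (_i : Fin (m + 1)) : Type :=
  MvPowerSeries (Fin r) O

variable (i : Fin (m + 1))

noncomputable instance : CommRing (P.Si i) := inferInstanceAs (CommRing (MvPowerSeries (Fin r) O))
noncomputable instance : Algebra O (P.Si i) :=
  inferInstanceAs (Algebra O (MvPowerSeries (Fin r) O))
instance : IsDomain (P.Si i) := @NoZeroDivisors.to_isDomain (MvPowerSeries (Fin r) O) _ _ _
instance : IsNoetherianRing (P.Si i) :=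
  inferInstanceAs (IsNoetherianRing (MvPowerSeries (Fin r) O))
instance : IsLocalRing (P.Si i) := inferInstanceAs (IsLocalRing (MvPowerSeries (Fin r) O))

/-- the identity `𝒪⟦W⟧ → Si` -/
def toS (f : MvPowerSeries (Fin r) O) : P.Si i := f
/-- the identity `Si → 𝒪⟦W⟧` -/
def ofS (s : P.Si i) : MvPowerSeries (Fin r) O := s

@[simp] theorem ofS_toS (f : MvPowerSeries (Fin r) O) : P.ofS i (P.toS i f) = f := rfl
@[simp] theorem toS_ofS (s : P.Si i) : P.toS i (P.ofS i s) = s := rfl

/-! ### The modules -/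

/-- `Xi P i = 𝒪⟦Z⟧^(d i)` -/
def Xi (_P : Patched (coreProblem D r d K0 C0') kk) (i : Fin (m + 1)) : Type :=
  Fin (d i) → EvenMod (Fin r) O

noncomputable instance : AddCommGroup (P.Xi i) :=
  inferInstanceAs (AddCommGroup (Fin (d i) → EvenMod (Fin r) O))
noncomputable instance : Module (P.Si i) (P.Xi i) :=
  inferInstanceAs (Module (MvPowerSeries (Fin r) O) (Fin (d i) → EvenMod (Fin r) O))
instance : Module.Free (P.Si i) (P.Xi i) :=
  inferInstanceAs (Module.Free (MvPowerSeries (Fin r) O) (Fin (d i) → EvenMod (Fin r) O))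
instance : Module.Finite (P.Si i) (P.Xi i) :=
  inferInstanceAs (Module.Finite (MvPowerSeries (Fin r) O) (Fin (d i) → EvenMod (Fin r) O))

/-- the element of `Xi` with underlying vector `v` -/
def mkX (v : Fin (d i) → MvPowerSeries (Fin r) O) : P.Xi i :=
  (ofVec v : Fin (d i) → EvenMod (Fin r) O)

/-- the underlying vector of an element of `Xi` -/
def vecX (x : P.Xi i) : Fin (d i) → MvPowerSeries (Fin r) O :=
  toVec (show Fin (d i) → EvenMod (Fin r) O from x)

@[simp] theorem vecX_mkX (v : Fin (d i) → MvPowerSeries (Fin r) O) :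
    P.vecX i (P.mkX i v) = v := rfl
@[simp] theorem mkX_vecX (x : P.Xi i) : P.mkX i (P.vecX i x) = x := rfl
theorem vecX_injective : Function.Injective (P.vecX i) := fun _ _ h => h
theorem vecX_add (x y : P.Xi i) : P.vecX i (x + y) = P.vecX i x + P.vecX i y := rfl
theorem vecX_zero : P.vecX i 0 = 0 := rfl
theorem vecX_smul_S (s : P.Si i) (x : P.Xi i) :
    P.vecX i (s • x) = evenEmb (Fin r) O (P.ofS i s) • P.vecX i x := rfl

/-- the action of `CPS` on `Xi` -/
noncomputable def actR : CPS O m nv g →+* Module.End (P.Si i) (P.Xi i) :=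
  (matEndHom (τ := Fin r) (R := O) (d := d i)).comp (P.Φ i).toRingHom

noncomputable instance : Module (CPS O m nv g) (P.Xi i) := Module.compHom (P.Xi i) (P.actR i)

theorem smul_def (f : CPS O m nv g) (x : P.Xi i) : f • x = P.actR i f x := rfl

theorem vecX_smul (f : CPS O m nv g) (x : P.Xi i) :
    P.vecX i (f • x) = (P.Φ i f).mulVec (P.vecX i x) := rfl

/-! ### The maps `Si → CPS` and the scalar towers -/

section Algebra

variable [IsAdicComplete (maximalIdeal O) O]

/-- `𝒪⟦W⟧ → CPS`, `W_q ↦ P.F i q` -/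
noncomputable def rawPS : MvPowerSeries (Fin r) O →ₐ[O] CPS O m nv g :=
  TW.psLift (maximalIdeal (CPS O m nv g)) (P.F i) (P.F_mem i)

theorem rawPS_X (q : Fin r) : P.rawPS i (X q) = P.F i q := TW.psLift_X _ _ _ q

/-- `Si → CPS` -/
noncomputable def toCPS : P.Si i →ₐ[O] CPS O m nv g := P.rawPS i

noncomputable instance : Algebra (P.Si i) (CPS O m nv g) := (P.toCPS i).toRingHom.toAlgebra

theorem algebraMap_eq (s : P.Si i) :
    algebraMap (P.Si i) (CPS O m nv g) s = P.rawPS i (P.ofS i s) := rfl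

theorem algebraMap_C (c : O) :
    algebraMap (P.Si i) (CPS O m nv g) (P.toS i (C c)) = (C c : CPS O m nv g) := by
  rw [algebraMap_eq, ofS_toS]
  have h : (C c : MvPowerSeries (Fin r) O) = algebraMap O _ c := rfl
  rw [h, (P.rawPS i).commutes]
  rfl

variable [Finite (ResidueField O)]

/-- two algebra maps `𝒪⟦W⟧ → Mat_d(𝒪⟦Z⟧)` which agree on the variables are equal -/
theorem algHom_mat_ext' {e : ℕ} {f f' : MvPowerSeries (Fin r) O →ₐ[O]
      Matrix (Fin e) (Fin e) (MvPowerSeries (Fin r) O)}
    (h : ∀ q, f (X q) = f' (X q)) : f = f' := by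
  refine AlgHom.ext fun s =>
    mat_ext_of_mkMat O (maximalIdeal (MvPowerSeries (Fin r) O)) fun n => ?_
  have hfin : Finite (MvPowerSeries (Fin r) O ⧸ maximalIdeal (MvPowerSeries (Fin r) O) ^ n) :=
    finite_quotient_maximalIdeal_pow n
  have h1 : (mkMat O (maximalIdeal (MvPowerSeries (Fin r) O)) n).comp f =
      (mkMat O (maximalIdeal (MvPowerSeries (Fin r) O)) n).comp f' :=
    algHom_ext_of_finite (fun q => by rw [AlgHom.comp_apply, AlgHom.comp_apply, h q])
  exact DFunLike.congr_fun h1 s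

theorem Φ_rawPS (s : MvPowerSeries (Fin r) O) (j k : Fin (d i)) :
    P.Φ i (P.rawPS i s) j k = if j = k then evenEmb (Fin r) O s else 0 := by
  have key : (P.Φ i).comp (P.rawPS i) =
      (Matrix.scalarAlgHom (Fin (d i)) O).comp (evenEmb (Fin r) O) := by
    refine algHom_mat_ext' fun q => Matrix.ext fun j k => ?_
    rw [AlgHom.comp_apply, AlgHom.comp_apply, P.rawPS_X i q, P.hF i q j k, evenEmb_X]
    change _ = Matrix.scalar (Fin (d i)) ((X q : MvPowerSeries (Fin r) O) ^ 2) j k
    rw [Matrix.scalar_apply, Matrix.diagonal_apply]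
    rfl
  have h2 := DFunLike.congr_fun key s
  rw [AlgHom.comp_apply, AlgHom.comp_apply] at h2
  rw [h2]
  change Matrix.scalar (Fin (d i)) (evenEmb (Fin r) O s) j k = _
  rw [Matrix.scalar_apply, Matrix.diagonal_apply]

theorem actR_algebraMap (s : P.Si i) (x : P.Xi i) :
    P.actR i (algebraMap (P.Si i) (CPS O m nv g) s) x = s • x :=
  matEndHom_scalar (P.ofS i s) _ (P.Φ_rawPS i (P.ofS i s)) x

instance : IsScalarTower (P.Si i) (CPS O m nv g) (P.Xi i) where
  smul_assoc s a x := by
    rw [Algebra.smul_def, P.smul_def, map_mul, Module.End.mul_apply, P.actR_algebraMap,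
      P.smul_def]

end Algebra

end Patched

end Fermat.Agent.ML.CORE
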