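/-
PROJECT ML, block [CORE-L] (helper9): the chain maps on the patched modules.

* `iotaL j c : Xi j → Xi (j+1)`, `omegaL j : Xi (j+1) → Xi j` (`CPS`-linear);
* `U j = range (iotaSum j)` the old submodule, `eL j = 1 - ∑ Im Rt` (`Si`-linear) the projector
  killing it;
* `Jfull i ≤ Ann (Xi i)`, `Jnew j ≤ Ann (Xi (j+1) ⧸ U j)`, `omegaL j (U j) ⊆ (th j) Xi j`.
-/
import Mathlib
import Fermat.Agent.ML.CORE_helper9_Modules

set_option autoImplicit false
set_option linter.unusedSectionVars false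

namespace Fermat.Agent.ML.CORE

open MvPowerSeries IsLocalRing Fermat.Agent.RB.PATCH

variable {O : Type} [CommRing O] [IsDomain O] [IsDiscreteValuationRing O]
  {m : ℕ} {nv : Fin m → ℕ} {g : ℕ}
  {D : ChainModel O m nv g} {r : ℕ} {d : Fin (m + 1) → ℕ} {kk : Fin m → ℕ} {K0 : Prop}
  {C0' : Submodule O (Fin (d (Fin.last m)) → O)}

namespace Patched

variable (P : Patched (coreProblem D r d K0 C0') kk)

/-- a rectangular matrix commuting with the actions, as a `CPS`-linear map -/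
noncomputable def linOfMat (i i' : Fin (m + 1))
    (A : Matrix (Fin (d i')) (Fin (d i)) (MvPowerSeries (Fin r) O))
    (hA : ∀ f, A * P.Φ i f = P.Φ i' f * A) : P.Xi i →ₗ[CPS O m nv g] P.Xi i' where
  toFun x := P.mkX i' (A.mulVec (P.vecX i x))
  map_add' x y := by
    rw [P.vecX_add, Matrix.mulVec_add]; rfl
  map_smul' f x := by
    apply P.vecX_injective
    rw [RingHom.id_apply]
    change A.mulVec (P.vecX i (f • x)) = P.vecX i' (f • P.mkX i' (A.mulVec (P.vecX i x)))
    rw [P.vecX_smul, P.vecX_smul, P.vecX_mkX, Matrix.mulVec_mulVec, Matrix.mulVec_mulVec, hA]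

theorem vecX_linOfMat (i i' : Fin (m + 1))
    (A : Matrix (Fin (d i')) (Fin (d i)) (MvPowerSeries (Fin r) O))
    (hA : ∀ f, A * P.Φ i f = P.Φ i' f * A) (x : P.Xi i) :
    P.vecX i' (P.linOfMat i i' A hA x) = A.mulVec (P.vecX i x) := rfl

variable (j : Fin m)

/-- the level raising maps -/
noncomputable def iotaL (c : Fin (kk j)) : P.Xi j.castSucc →ₗ[CPS O m nv g] P.Xi j.succ :=
  P.linOfMat j.castSucc j.succ (P.Im j c) (P.Im_comm j c)

/-- the level lowering map -/
noncomputable def omegaL : P.Xi j.succ →ₗ[CPS O m nv g] P.Xi j.castSucc :=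
  P.linOfMat j.succ j.castSucc (P.Om j) (P.Om_comm j)

theorem vecX_iotaL (c : Fin (kk j)) (x : P.Xi j.castSucc) :
    P.vecX j.succ (P.iotaL j c x) = (P.Im j c).mulVec (P.vecX j.castSucc x) := rfl

theorem vecX_omegaL (x : P.Xi j.succ) :
    P.vecX j.castSucc (P.omegaL j x) = (P.Om j).mulVec (P.vecX j.succ x) := rfl

/-- all the level raising maps together -/
noncomputable def iotaSum : (Fin (kk j) → P.Xi j.castSucc) →ₗ[CPS O m nv g] P.Xi j.succ :=
  ∑ c, (P.iotaL j c).comp (LinearMap.proj c)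

theorem iotaSum_apply (y : Fin (kk j) → P.Xi j.castSucc) :
    P.iotaSum j y = ∑ c, P.iotaL j c (y c) := by
  rw [iotaSum, LinearMap.sum_apply]
  rfl

/-- the old submodule -/
noncomputable def U : Submodule (CPS O m nv g) (P.Xi j.succ) := LinearMap.range (P.iotaSum j)

theorem mem_U (u : P.Xi j.succ) :
    u ∈ P.U j ↔ ∃ y : Fin (kk j) → P.Xi j.castSucc, u = ∑ c, P.iotaL j c (y c) := by
  rw [U, LinearMap.mem_range]
  constructor
  · rintro ⟨y, rfl⟩; exact ⟨y, P.iotaSum_apply j y⟩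
  · rintro ⟨y, rfl⟩; exact ⟨y, P.iotaSum_apply j y⟩

theorem vecX_sum {ι : Type*} (i : Fin (m + 1)) (s : Finset ι) (x : ι → P.Xi i) :
    P.vecX i (∑ c ∈ s, x c) = ∑ c ∈ s, P.vecX i (x c) := by
  classical
  induction s using Finset.induction_on with
  | empty => simp [P.vecX_zero]
  | insert a s ha ih => rw [Finset.sum_insert ha, Finset.sum_insert ha, P.vecX_add, ih]

/-- the projector killing the old submodule -/
noncomputable def eMat : Matrix (Fin (d j.succ)) (Fin (d j.succ)) (MvPowerSeries (Fin r) O) :=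
  1 - ∑ c, P.Im j c * P.Rt j c

/-- the projector killing the old submodule, as an `Si`-linear map -/
noncomputable def eL : P.Xi j.succ →ₗ[P.Si j.succ] P.Xi j.succ :=
  (matEndHom (τ := Fin r) (R := O) (d := d j.succ) (P.eMat j) :
    Module.End (MvPowerSeries (Fin r) O) (Fin (d j.succ) → EvenMod (Fin r) O))

theorem vecX_eL (x : P.Xi j.succ) :
    P.vecX j.succ (P.eL j x) = (P.eMat j).mulVec (P.vecX j.succ x) := rfl

theorem eMat_mul_Im (c : Fin (kk j)) : P.eMat j * P.Im j c = 0 := by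
  classical
  rw [eMat, Matrix.sub_mul, Matrix.one_mul, Matrix.sum_mul, sub_eq_zero]
  rw [Finset.sum_eq_single c]
  · rw [Matrix.mul_assoc, P.Rt_Im j c c, if_pos rfl, Matrix.mul_one]
  · intro c' _ hc'
    rw [Matrix.mul_assoc, P.Rt_Im j c' c, if_neg hc', Matrix.mul_zero]
  · intro h; exact absurd (Finset.mem_univ c) h

theorem eL_of_mem_U (u : P.Xi j.succ) (hu : u ∈ P.U j) : P.eL j u = 0 := by
  obtain ⟨y, rfl⟩ := (P.mem_U j u).mp hu
  apply P.vecX_injective
  rw [P.vecX_eL, P.vecX_sum, Matrix.mulVec_sum, P.vecX_zero]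
  refine Finset.sum_eq_zero fun c _ => ?_
  rw [P.vecX_iotaL, Matrix.mulVec_mulVec, P.eMat_mul_Im, Matrix.zero_mulVec]

theorem sub_eL_mem_U (x : P.Xi j.succ) : x - P.eL j x ∈ P.U j := by
  rw [P.mem_U]
  refine ⟨fun c => P.mkX j.castSucc ((P.Rt j c).mulVec (P.vecX j.succ x)), ?_⟩
  apply P.vecX_injective
  rw [P.vecX_sum]
  have h1 : P.vecX j.succ (x - P.eL j x) = P.vecX j.succ x - P.vecX j.succ (P.eL j x) := rfl
  rw [h1, P.vecX_eL, eMat, Matrix.sub_mulVec, Matrix.one_mulVec, sub_sub_cancel,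
    Matrix.sum_mulVec]
  refine Finset.sum_congr rfl fun c _ => ?_
  rw [P.vecX_iotaL, P.vecX_mkX, Matrix.mulVec_mulVec]

/-! ### the annihilators -/

theorem smul_eq_zero_of_mem_Jfull (i : Fin (m + 1)) (hi : i.val = 0 → K0) (f : CPS O m nv g)
    (hf : f ∈ D.Jfull i.val) (x : P.Xi i) : f • x = 0 := by
  apply P.vecX_injective
  have hf' : f ∈ (coreProblem D r d K0 C0').Ik i := by
    change f ∈ ⨆ _ : i.val = 0 → K0, D.Jfull i.val
    rw [iSup_pos hi]; exact hf
  rw [P.vecX_smul, P.kill i f hf', Matrix.zero_mulVec]; rfl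

theorem smul_mem_U_of_mem_new (f : CPS O m nv g) (hf : f ∈ D.new j) (x : P.Xi j.succ) :
    f • x ∈ P.U j := by
  have h1 : P.eL j (f • x) = 0 := by
    apply P.vecX_injective
    rw [P.vecX_eL, P.vecX_smul, Matrix.mulVec_mulVec]
    have := P.new j f hf
    change P.eMat j * P.Φ j.succ f = 0 at this
    rw [this, Matrix.zero_mulVec]; rfl
  have h2 := P.sub_eL_mem_U j (f • x)
  rwa [h1, sub_zero] at h2

theorem omegaL_surjective : Function.Surjective (P.omegaL j) := by
  intro y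
  refine ⟨P.mkX j.succ ((P.Sg j).mulVec (P.vecX j.castSucc y)), ?_⟩
  apply P.vecX_injective
  rw [P.vecX_omegaL, P.vecX_mkX, Matrix.mulVec_mulVec, P.Om_Sg, Matrix.one_mulVec]

theorem omegaL_iotaL (c : Fin (kk j)) (y : P.Xi j.castSucc) :
    P.omegaL j (P.iotaL j c y) =
      D.th j • P.mkX j.castSucc ((P.E j c).mulVec (P.vecX j.castSucc y)) := by
  apply P.vecX_injective
  rw [P.vecX_omegaL, P.vecX_iotaL, Matrix.mulVec_mulVec, P.Om_Im, P.vecX_smul, P.vecX_mkX,
    Matrix.mulVec_mulVec]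
  rfl

theorem omegaL_mem_of_mem_U (u : P.Xi j.succ) (hu : u ∈ P.U j) :
    P.omegaL j u ∈ (Ideal.span {D.th j} • ⊤ : Submodule (CPS O m nv g) (P.Xi j.castSucc)) := by
  obtain ⟨y, rfl⟩ := (P.mem_U j u).mp hu
  rw [map_sum]
  refine Submodule.sum_mem _ fun c _ => ?_
  rw [P.omegaL_iotaL]
  exact Submodule.smul_mem_smul (Ideal.subset_span rfl) Submodule.mem_top

end Patched

end Fermat.Agent.ML.CORE
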