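/-
PROJECT ML, block [CORE-L] (helper9): the commutative algebra of the support induction (IV)
(on top of `RB.CA_helper4_*`).

`S` a noetherian domain (in the application `𝒪⟦W_1..W_r⟧`), `R` a noetherian `S`-algebra (the ring
`CPS` of the local problems), modules over `R` which are finite free over `S`.
-/
import Mathlib
import Fermat.Agent.RB.CA_helper4_Transfer

set_option autoImplicit false

namespace Fermat.Agent.ML.CORE

open Fermat.Agent.RB

section Assoc

variable {R M : Type*} [CommRing R] [IsNoetherianRing R] [AddCommGroup M] [Module R M]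

/-- an associated prime lies in the support -/
theorem mem_support_of_isAssociatedPrime {P : Ideal R} (hP : IsAssociatedPrime P M)
    (Q : PrimeSpectrum R) (hQ : P ≤ Q.asIdeal) : Q ∈ Module.support R M := by
  obtain ⟨-, f, hf⟩ := (isAssociatedPrime_iff_exists_injective_linearMap P M).mp hP
  rw [Module.mem_support_iff_exists_annihilator]
  refine ⟨f 1, ?_⟩
  intro r hr
  rw [Submodule.mem_annihilator_span_singleton] at hr
  apply hQ
  have : f (r • 1) = 0 := by rw [map_smul, hr]
  have h0 : (r • (1 : R ⧸ P)) = 0 := hf (by rw [this, map_zero])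
  rw [Algebra.smul_def, mul_one] at h0
  exact Ideal.Quotient.eq_zero_iff_mem.mp h0

end Assoc

section Main

variable {S : Type*} [CommRing S] [IsDomain S] [IsNoetherianRing S]
  {R : Type*} [CommRing R] [IsNoetherianRing R] [Algebra S R]

/-- **the minimal primes of the support below a point of the support**: if `𝔮 ∈ Supp M` and every
prime `𝔓 ≤ 𝔮` containing `Ann M`, of characteristic zero and of dimension `dim S`, contains the
prime `P'` with `dim R/P' ≤ dim S`, then `P'` is an associated prime of `M`. -/
theorem isAssociatedPrime_of_mem_support_of_key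
    {M : Type*} [AddCommGroup M] [Module S M] [Module R M] [IsScalarTower S R M]
    [Module.Finite S M] [Module.Free S M]
    (lam : S) (hlam : lam ≠ 0) (hSfin : ringKrullDim S ≠ ⊤)
    (P' : Ideal R) [P'.IsPrime] (hdim : ringKrullDim (R ⧸ P') ≤ ringKrullDim S)
    (𝔮 : PrimeSpectrum R) (h𝔮 : 𝔮 ∈ Module.support R M)
    (hkey : ∀ 𝔓 : Ideal R, 𝔓.IsPrime → Module.annihilator R M ≤ 𝔓 → 𝔓 ≤ 𝔮.asIdeal →
      algebraMap S R lam ∉ 𝔓 → ringKrullDim (R ⧸ 𝔓) = ringKrullDim S → P' ≤ 𝔓) :
    IsAssociatedPrime P' M := by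
  have : Module.Finite R M := Module.Finite.of_restrictScalars_finite S R M
  have hann : Module.annihilator R M ≤ 𝔮.asIdeal := Module.annihilator_le_of_mem_support h𝔮
  obtain ⟨P, hPmin, hPQ⟩ := Ideal.exists_minimalPrimes_le hann
  have hPass : P ∈ associatedPrimes R M :=
    Module.associatedPrimes.minimalPrimes_annihilator_subset_associatedPrimes R M hPmin
  have hP' : IsAssociatedPrime P M := hPass
  have : P.IsPrime := hP'.isPrime
  have hlamP : algebraMap S R lam ∉ P := by
    intro hmem
    have : lam ∈ P.comap (algebraMap S R) := hmem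
    rw [comap_eq_bot_of_isAssociatedPrime (S := S) hP'] at this
    exact hlam this
  have hd : ringKrullDim (R ⧸ P) = ringKrullDim S :=
    ringKrullDim_quotient_of_isAssociatedPrime hP'
  have hle : P' ≤ P := hkey P inferInstance hPmin.1.2 hPQ hlamP hd
  have : P' = P := by
    apply ideal_eq_of_le_of_ringKrullDim_le hle
    · intro htop
      rw [htop] at hdim
      exact hSfin (top_le_iff.mp hdim)
    · rw [hd]; exact hdim
  rw [this]; exact hP'

/-- **the start**: a non-zero module has an associated prime, of characteristic zero and of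
dimension `dim S`. -/
theorem exists_isAssociatedPrime_of_nontrivial
    {M : Type*} [AddCommGroup M] [Module S M] [Module R M] [IsScalarTower S R M]
    [Module.Finite S M] [Module.Free S M] [Nontrivial M] (lam : S) (hlam : lam ≠ 0) :
    ∃ 𝔓 : Ideal R, IsAssociatedPrime 𝔓 M ∧ 𝔓.IsPrime ∧ Module.annihilator R M ≤ 𝔓 ∧
      algebraMap S R lam ∉ 𝔓 ∧ ringKrullDim (R ⧸ 𝔓) = ringKrullDim S := by
  obtain ⟨𝔓, h𝔓⟩ := associatedPrimes.nonempty R M
  have h𝔓' : IsAssociatedPrime 𝔓 M := h𝔓
  have hann : Module.annihilator R M ≤ 𝔓 := by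
    rw [← Submodule.annihilator_top]; exact h𝔓'.annihilator_le
  refine ⟨𝔓, h𝔓', h𝔓'.isPrime, hann, ?_, ringKrullDim_quotient_of_isAssociatedPrime h𝔓'⟩
  intro hmem
  have : lam ∈ 𝔓.comap (algebraMap S R) := hmem
  rw [comap_eq_bot_of_isAssociatedPrime (S := S) h𝔓'] at this
  exact hlam this

end Main

section Quot

variable {R : Type*} [CommRing R]

/-- **(UP, first half)**: `Supp N ∩ V(θ) ⊆ Supp (M ⧸ U)` if `ω : M → N` is onto and maps `U`
into `θ N`. -/
theorem mem_support_quotient_of_surjective {M N : Type*} [AddCommGroup M] [Module R M]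
    [AddCommGroup N] [Module R N] [Module.Finite R N] (ω : M →ₗ[R] N)
    (hω : Function.Surjective ω) (U : Submodule R M) (θ : R)
    (hU : ∀ u ∈ U, ω u ∈ (Ideal.span {θ} • ⊤ : Submodule R N))
    (𝔮 : PrimeSpectrum R) (h𝔮 : 𝔮 ∈ Module.support R N) (hθ : θ ∈ 𝔮.asIdeal) :
    𝔮 ∈ Module.support R (M ⧸ U) := by
  have h1 : 𝔮 ∈ Module.support R (N ⧸ (Ideal.span {θ} • ⊤ : Submodule R N)) := by
    rw [Module.support_quotient]
    refine ⟨h𝔮, ?_⟩
    rw [PrimeSpectrum.mem_zeroLocus]
    exact (Ideal.span_singleton_le_iff_mem _).mpr hθ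
  let π : (M ⧸ U) →ₗ[R] N ⧸ (Ideal.span {θ} • ⊤ : Submodule R N) :=
    Submodule.mapQ U _ ω (fun u hu => hU u hu)
  have hπ : Function.Surjective π := by
    intro y
    obtain ⟨n, rfl⟩ := Submodule.Quotient.mk_surjective _ y
    obtain ⟨x, rfl⟩ := hω n
    exact ⟨Submodule.Quotient.mk x, rfl⟩
  exact Module.support_subset_of_surjective π hπ h1

/-- **(DOWN)**: `Supp M ⊆ Supp N ∪ Supp (M ⧸ U)` for `U = ∑ range (ι c)`, `ι c : N → M`. -/
theorem mem_support_of_not_mem_support_quotient {M N : Type*} [AddCommGroup M] [Module R M]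
    [AddCommGroup N] [Module R N] {k : ℕ} (ι : Fin k → (N →ₗ[R] M)) (U : Submodule R M)
    (hU : ∀ u ∈ U, ∃ y : Fin k → N, u = ∑ c, ι c (y c))
    (𝔓 : PrimeSpectrum R) (h𝔓 : 𝔓 ∈ Module.support R M)
    (hnew : 𝔓 ∉ Module.support R (M ⧸ U)) : 𝔓 ∈ Module.support R N := by
  have hex := Module.support_of_exact (f := U.subtype) (g := U.mkQ)
    (LinearMap.exact_subtype_mkQ U) U.injective_subtype (Submodule.mkQ_surjective U)
  rw [hex] at h𝔓
  rcases h𝔓 with h | h
  · -- `𝔓 ∈ Supp U`
    rw [Module.mem_support_iff_exists_annihilator] at h ⊢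
    obtain ⟨u, hu⟩ := h
    obtain ⟨y, hy⟩ := hU u.1 u.2
    by_contra hcon
    push Not at hcon
    -- for every `c` an element of `Ann (y c)` outside `𝔓`
    have h2 : ∀ c, ∃ a : R, a ∈ (Submodule.span R {y c}).annihilator ∧ a ∉ 𝔓.asIdeal := by
      intro c
      have := hcon (y c)
      rw [SetLike.not_le_iff_exists] at this
      exact this
    choose a ha ha' using h2
    have h3 : (∏ c, a c) ∈ (Submodule.span R {u}).annihilator := by
      rw [Submodule.mem_annihilator_span_singleton]
      apply Subtype.ext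
      rw [Submodule.coe_smul, hy, Submodule.coe_zero, Finset.smul_sum]
      refine Finset.sum_eq_zero fun c _ => ?_
      rw [← map_smul]
      have h4 : (∏ c, a c) • y c = 0 := by
        rw [← Finset.prod_erase_mul _ _ (Finset.mem_univ c), mul_smul]
        have := (Submodule.mem_annihilator_span_singleton _ _).mp (ha c)
        rw [this, smul_zero]
      rw [h4, map_zero]
    have h5 := hu h3
    exact (𝔓.isPrime.prod_mem_iff.mp h5).elim fun c hc => ha' c hc.2
  · exact absurd h hnew

end Quot

section Split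

variable {S : Type*} [CommRing S] [IsLocalRing S]
  {R : Type*} [CommRing R] [Algebra S R]

/-- the quotient of a finite free module by a direct summand (over `S`) is finite free over the
local ring `S`. -/
theorem free_quotient_of_split {M : Type*} [AddCommGroup M] [Module S M] [Module R M]
    [IsScalarTower S R M] [Module.Finite S M] [Module.Free S M] (U : Submodule R M)
    (e : M →ₗ[S] M) (he : ∀ u ∈ U, e u = 0) (he' : ∀ x, x - e x ∈ U) :
    Module.Finite S (M ⧸ U) ∧ Module.Free S (M ⧸ U) := by
  have hfin : Module.Finite S (M ⧸ U) :=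
    Module.Finite.of_surjective ((U.mkQ).restrictScalars S) (Submodule.mkQ_surjective U)
  refine ⟨hfin, ?_⟩
  -- the section induced by `e`
  have hle : U.restrictScalars S ≤ LinearMap.ker e := fun u hu => he u hu
  let i : (M ⧸ U) →ₗ[S] M :=
    ((U.restrictScalars S).liftQ e hle).comp
      (Submodule.Quotient.restrictScalarsEquiv S U).symm.toLinearMap
  have hi : ∀ x : M, i (Submodule.Quotient.mk x) = e x := by
    intro x
    change (U.restrictScalars S).liftQ e hle
      ((Submodule.Quotient.restrictScalarsEquiv S U).symm (Submodule.Quotient.mk x)) = e x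
    have : (Submodule.Quotient.restrictScalarsEquiv S U).symm (Submodule.Quotient.mk x) =
        Submodule.Quotient.mk x := by
      rw [LinearEquiv.symm_apply_eq, Submodule.Quotient.restrictScalarsEquiv_mk]
    rw [this, Submodule.liftQ_apply]
  have hsplit : ((U.mkQ).restrictScalars S).comp i = LinearMap.id := by
    refine LinearMap.ext fun y => ?_
    obtain ⟨x, rfl⟩ := Submodule.Quotient.mk_surjective _ y
    rw [LinearMap.comp_apply, hi, LinearMap.id_apply]
    change Submodule.Quotient.mk (e x) = Submodule.Quotient.mk x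
    rw [eq_comm, Submodule.Quotient.eq]
    exact he' x
  have : Module.Projective S (M ⧸ U) :=
    Module.Projective.of_split i ((U.mkQ).restrictScalars S) hsplit
  exact Module.free_of_flat_of_isLocalRing

end Split

end Fermat.Agent.ML.CORE
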