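/-
PROJECT ML, block [CORE-L] (helper9): **the support induction (IV)** on the patched modules:
`P k ∈ Supp (Xi k)` for `k₀ ≤ k ≤ m`, where `k₀ ∈ {0, 1}` is given by the start.
-/
import Mathlib
import Fermat.Agent.RB.CA_helper4_PowerSeriesDim
import Fermat.Agent.ML.CORE_helper9_Chain
import Fermat.Agent.ML.CORE_helper9_Supp

set_option autoImplicit false
set_option linter.unusedSectionVars false

namespace Fermat.Agent.ML.CORE

open MvPowerSeries IsLocalRing Fermat.Agent.RB.PATCH Fermat.Agent.RB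

variable {O : Type} [CommRing O] [IsDomain O] [IsDiscreteValuationRing O]
  [IsAdicComplete (maximalIdeal O) O] [Finite (ResidueField O)]
  {m : ℕ} {nv : Fin m → ℕ} {g : ℕ}
  {D : ChainModel O m nv g} {r : ℕ} {d : Fin (m + 1) → ℕ} {kk : Fin m → ℕ} {K0 : Prop}
  {C0' : Submodule O (Fin (d (Fin.last m)) → O)}

namespace Patched

variable (P : Patched (coreProblem D r d K0 C0') kk)

theorem ringKrullDim_Si (i : Fin (m + 1)) : ringKrullDim (P.Si i) = (r : WithBot ℕ∞) + 1 := by
  have h : ringKrullDim (MvPowerSeries (Fin r) O) = (Fintype.card (Fin r) + 1 : ℕ) :=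
    ringKrullDim_mvPowerSeries_of_isDiscreteValuationRing (A := O) (Fin r)
  rw [Fintype.card_fin] at h
  rw [show ringKrullDim (P.Si i) = ringKrullDim (MvPowerSeries (Fin r) O) from rfl, h]
  push_cast
  rfl

theorem ringKrullDim_Si_ne_top (i : Fin (m + 1)) : ringKrullDim (P.Si i) ≠ ⊤ := by
  rw [P.ringKrullDim_Si i]
  exact ne_of_beq_false rfl

instance (i : Fin (m + 1)) : Module.Finite (CPS O m nv g) (P.Xi i) :=
  Module.Finite.of_restrictScalars_finite (P.Si i) (CPS O m nv g) (P.Xi i)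

theorem toS_C_ne_zero (i : Fin (m + 1)) {lam : O} (hlam : lam ≠ 0) :
    P.toS i (C lam) ≠ 0 := by
  intro h
  have h2 : (C lam : MvPowerSeries (Fin r) O) = 0 := h
  rw [← map_zero (C (σ := Fin r) (R := O))] at h2
  exact hlam (MvPowerSeries.C_injective h2)

variable (j : Fin m)

theorem Jfull_succ_le_annihilator_quotient :
    D.Jfull (j.val + 1) ≤ Module.annihilator (CPS O m nv g) (P.Xi j.succ ⧸ P.U j) := by
  intro f hf
  rw [Module.mem_annihilator]
  intro y
  obtain ⟨x, rfl⟩ := Submodule.Quotient.mk_surjective _ y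
  rw [← Submodule.Quotient.mk_smul, P.smul_eq_zero_of_mem_Jfull j.succ
    (fun h => absurd h (Nat.succ_ne_zero _)) f (by rw [Fin.val_succ]; exact hf)]
  rfl

theorem Jnew_le_annihilator_quotient :
    D.Jnew j ≤ Module.annihilator (CPS O m nv g) (P.Xi j.succ ⧸ P.U j) := by
  rw [ChainModel.Jnew]
  refine sup_le (sup_le ?_ ?_) ?_
  · refine le_trans ?_ (P.Jfull_succ_le_annihilator_quotient j)
    rw [ChainModel.Jfull]
    refine le_trans ?_ le_sup_left
    refine iSup_le fun j' => iSup_le fun hj' => ?_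
    exact le_iSup_of_le j' (le_iSup_of_le (Nat.lt_succ_of_lt hj') le_rfl)
  · intro f hf
    rw [Module.mem_annihilator]
    intro y
    obtain ⟨x, rfl⟩ := Submodule.Quotient.mk_surjective _ y
    rw [← Submodule.Quotient.mk_smul, Submodule.Quotient.mk_eq_zero]
    exact P.smul_mem_U_of_mem_new j f hf x
  · refine le_trans ?_ (P.Jfull_succ_le_annihilator_quotient j)
    rw [ChainModel.Jfull]
    refine le_trans ?_ le_sup_right
    refine iSup_le fun j' => iSup_le fun hj' => ?_
    exact le_iSup_of_le j' (le_iSup_of_le (Nat.succ_le_of_lt hj') le_rfl)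

/-- **(IV), the step UP.** -/
theorem mem_support_succ {lam : O} (hlam : Irreducible lam) (hD : D.Good lam r)
    (h : (⟨D.P j.val, hD.P_isPrime j.val j.isLt.le⟩ : PrimeSpectrum (CPS O m nv g)) ∈
      Module.support (CPS O m nv g) (P.Xi j.castSucc)) :
    (⟨D.P (j.val + 1), hD.P_isPrime (j.val + 1) j.isLt⟩ : PrimeSpectrum (CPS O m nv g)) ∈
      Module.support (CPS O m nv g) (P.Xi j.succ) := by
  -- the point `Q j`
  let 𝔮 : PrimeSpectrum (CPS O m nv g) := ⟨D.Q j, hD.Q_isPrime j⟩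
  have h𝔮 : 𝔮 ∈ Module.support (CPS O m nv g) (P.Xi j.castSucc) := by
    refine Module.mem_support_mono ?_ h
    change D.P j.val ≤ D.Q j
    exact le_sup_left
  have hth : D.th j ∈ 𝔮.asIdeal := by
    change D.th j ∈ D.Q j
    exact Ideal.mem_sup_right (Ideal.subset_span rfl)
  have h1 : 𝔮 ∈ Module.support (CPS O m nv g) (P.Xi j.succ ⧸ P.U j) :=
    mem_support_quotient_of_surjective (P.omegaL j) (P.omegaL_surjective j) (P.U j) (D.th j)
      (P.omegaL_mem_of_mem_U j) 𝔮 h𝔮 hth
  -- the new quotient is finite free over `Si`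
  obtain ⟨hfin, hfree⟩ := free_quotient_of_split (S := P.Si j.succ) (R := CPS O m nv g) (P.U j)
    (P.eL j) (P.eL_of_mem_U j) (P.sub_eL_mem_U j)
  have := hD.P_isPrime (j.val + 1) j.isLt
  have hass : IsAssociatedPrime (D.P (j.val + 1)) (P.Xi j.succ ⧸ P.U j) := by
    refine isAssociatedPrime_of_mem_support_of_key (S := P.Si j.succ)
      (P.toS j.succ (C lam)) (P.toS_C_ne_zero j.succ hlam.ne_zero) (P.ringKrullDim_Si_ne_top _)
      (D.P (j.val + 1)) ?_ 𝔮 h1 ?_
    · rw [P.ringKrullDim_Si]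
      exact hD.dim_P (j.val + 1) j.isLt
    · intro 𝔓 h𝔓 hann hle hlam𝔓 hdim
      refine hD.step j 𝔓 h𝔓 ((P.Jnew_le_annihilator_quotient j).trans hann) hle ?_ ?_
      · rwa [P.algebraMap_C] at hlam𝔓
      · rw [hdim, P.ringKrullDim_Si]
  have h2 := mem_support_of_isAssociatedPrime hass
    (⟨D.P (j.val + 1), hD.P_isPrime (j.val + 1) j.isLt⟩ : PrimeSpectrum (CPS O m nv g)) le_rfl
  exact Module.support_subset_of_surjective (P.U j).mkQ (Submodule.mkQ_surjective _) h2

omit [IsAdicComplete (maximalIdeal O) O] [Finite (ResidueField O)] in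
theorem P_zero_eq_Jfull_zero (D : ChainModel O m nv g) : D.P 0 = D.Jfull 0 := by
  simp [ChainModel.P, ChainModel.Jfull]

instance nontrivial_Xi (i : Fin (m + 1)) [NeZero (d i)] : Nontrivial (P.Xi i) := by
  have : Nontrivial (EvenMod (Fin r) O) :=
    inferInstanceAs (Nontrivial (MvPowerSeries (Fin r) O))
  have : Nonempty (Fin (d i)) := ⟨⟨0, Nat.pos_of_ne_zero (NeZero.ne (d i))⟩⟩
  exact inferInstanceAs (Nontrivial (Fin (d i) → EvenMod (Fin r) O))

/-- a prime of the support of `Xi i` which is associated: characteristic zero, dimension `r + 1` -/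
theorem exists_assoc (i : Fin (m + 1)) (hi : i.val = 0 → K0) (hdi : 0 < d i) {lam : O}
    (hlam : Irreducible lam) :
    ∃ 𝔓 : Ideal (CPS O m nv g), IsAssociatedPrime 𝔓 (P.Xi i) ∧ 𝔓.IsPrime ∧ D.Jfull i.val ≤ 𝔓 ∧
      (C lam : CPS O m nv g) ∉ 𝔓 ∧
      ringKrullDim (CPS O m nv g ⧸ 𝔓) = (r : WithBot ℕ∞) + 1 := by
  have : NeZero (d i) := ⟨hdi.ne'⟩
  obtain ⟨𝔓, hass, hprime, hann, hlam𝔓, hdim⟩ :=
    exists_isAssociatedPrime_of_nontrivial (S := P.Si i) (R := CPS O m nv g) (M := P.Xi i)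
      (P.toS i (C lam)) (P.toS_C_ne_zero i hlam.ne_zero)
  refine ⟨𝔓, hass, hprime, ?_, ?_, ?_⟩
  · refine le_trans ?_ hann
    intro f hf
    rw [Module.mem_annihilator]
    exact P.smul_eq_zero_of_mem_Jfull i hi f hf
  · rwa [P.algebraMap_C] at hlam𝔓
  · rw [hdim, P.ringKrullDim_Si]

/-- a prime of dimension `r + 1` containing `P k` is `P k` -/
theorem eq_P_of_le {lam : O} (hD : D.Good lam r) (k : ℕ) (hk : k ≤ m)
    (𝔓 : Ideal (CPS O m nv g)) [𝔓.IsPrime] (hle : D.P k ≤ 𝔓)
    (hdim : ringKrullDim (CPS O m nv g ⧸ 𝔓) = (r : WithBot ℕ∞) + 1) : D.P k = 𝔓 := by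
  have := hD.P_isPrime k hk
  apply ideal_eq_of_le_of_ringKrullDim_le hle
  · intro htop
    have := hD.dim_P k hk
    rw [htop] at this
    exact absurd (top_le_iff.mp this) (ne_of_beq_false rfl)
  · rw [hdim]; exact hD.dim_P k hk

/-- **(IV), the start.** -/
theorem exists_start {lam : O} (hlam : Irreducible lam) (hD : D.Good lam r)
    (hd : (K0 ∧ 0 < d 0) ∨ (D.Start lam r ∧ ∃ i : Fin (m + 1), i.val = 1 ∧ 0 < d i)) :
    ((⟨D.P 0, hD.P_isPrime 0 (Nat.zero_le m)⟩ : PrimeSpectrum (CPS O m nv g)) ∈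
      Module.support (CPS O m nv g) (P.Xi 0)) ∨
    ∃ hm : 0 < m, ((⟨D.P 1, hD.P_isPrime 1 hm⟩ : PrimeSpectrum (CPS O m nv g)) ∈
      Module.support (CPS O m nv g) (P.Xi (⟨0, hm⟩ : Fin m).succ)) := by
  rcases hd with ⟨hK0, hd0⟩ | ⟨hS, i, h1, hdi⟩
  · -- level zero
    obtain ⟨𝔓, hass, hprime, hJ, hlam𝔓, hdim⟩ := P.exists_assoc 0 (fun _ => hK0) hd0 hlam
    have := hprime
    left
    have hle : D.P 0 ≤ 𝔓 := by rw [P_zero_eq_Jfull_zero]; exact hJ
    have heq := Patched.eq_P_of_le hD 0 (Nat.zero_le m) 𝔓 hle hdim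
    exact mem_support_of_isAssociatedPrime hass _ (le_of_eq heq.symm)
  · -- level one
    obtain ⟨𝔓, hass, hprime, hJ, hlam𝔓, hdim⟩ := P.exists_assoc i
      (fun h => absurd (h1.symm.trans h) one_ne_zero) hdi hlam
    have := hprime
    have hm : 0 < m := by
      have := i.isLt
      omega
    have hi1 : i = (⟨0, hm⟩ : Fin m).succ := Fin.ext h1
    subst hi1
    have hJ1 : D.Jfull 1 ≤ 𝔓 := hJ
    rcases hS.start hm 𝔓 hprime hJ1 hlam𝔓 (le_of_eq hdim.symm) with hle | hle
    · -- the component `P 0`: go down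
      left
      have heq := Patched.eq_P_of_le hD 0 (Nat.zero_le m) 𝔓 hle hdim
      have h1 : (⟨D.P 0, hD.P_isPrime 0 (Nat.zero_le m)⟩ : PrimeSpectrum (CPS O m nv g)) ∈
          Module.support (CPS O m nv g) (P.Xi (⟨0, hm⟩ : Fin m).succ) :=
        mem_support_of_isAssociatedPrime hass _ (le_of_eq heq.symm)
      refine mem_support_of_not_mem_support_quotient (P.iotaL ⟨0, hm⟩) (P.U ⟨0, hm⟩)
        (fun u hu => (P.mem_U ⟨0, hm⟩ u).mp hu) _ h1 ?_
      intro hcon
      have h2 := Module.annihilator_le_of_mem_support hcon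
      apply hS.new_not_le hm
      refine le_trans ?_ ((P.Jnew_le_annihilator_quotient ⟨0, hm⟩).trans h2)
      rw [ChainModel.Jnew]
      exact le_sup_of_le_left le_sup_right
    · right
      refine ⟨hm, ?_⟩
      have heq := Patched.eq_P_of_le hD 1 hm 𝔓 hle hdim
      exact mem_support_of_isAssociatedPrime hass _ (le_of_eq heq.symm)

/-- **(IV)**: the target component lies in the support of the top module. -/
theorem mem_support_top {lam : O} (hlam : Irreducible lam) (hD : D.Good lam r)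
    (hd : (K0 ∧ 0 < d 0) ∨ (D.Start lam r ∧ ∃ i : Fin (m + 1), i.val = 1 ∧ 0 < d i)) :
    (⟨D.P m, hD.P_isPrime m le_rfl⟩ : PrimeSpectrum (CPS O m nv g)) ∈
      Module.support (CPS O m nv g) (P.Xi (Fin.last m)) := by
  rcases P.exists_start hlam hD hd with h0 | ⟨hm, h1⟩
  · have key : ∀ i : Fin (m + 1),
        (⟨D.P i.val, hD.P_isPrime i.val (Nat.le_of_lt_succ i.isLt)⟩ :
          PrimeSpectrum (CPS O m nv g)) ∈ Module.support (CPS O m nv g) (P.Xi i) := by
      intro i
      induction i using Fin.induction with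
      | zero => exact h0
      | succ j ih => exact P.mem_support_succ j hlam hD ih
    exact key (Fin.last m)
  · have key : ∀ i : Fin (m + 1), 1 ≤ i.val →
        (⟨D.P i.val, hD.P_isPrime i.val (Nat.le_of_lt_succ i.isLt)⟩ :
          PrimeSpectrum (CPS O m nv g)) ∈ Module.support (CPS O m nv g) (P.Xi i) := by
      intro i
      induction i using Fin.induction with
      | zero => intro h; exact absurd h (by simp)
      | succ j ih =>
        intro _
        by_cases hj : j.val = 0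
        · have hj' : j = ⟨0, hm⟩ := Fin.ext hj
          subst hj'
          exact h1
        · exact P.mem_support_succ j hlam hD (ih (Nat.one_le_iff_ne_zero.mpr hj))
    refine key (Fin.last m) ?_
    change 1 ≤ m
    exact hm

end Patched

end Fermat.Agent.ML.CORE
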