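/-
PROJECT ML, block [CORE-L] (helper9): **the end of the chain patching argument**.

`X = Xi (last m)` is the top patched module, `w : CPS → O` the point of `W`, `𝔭 = ker w`.
* the support induction gives `P m ∈ Supp X`, and `P m = ∑ st j ⊆ 𝔭`, hence `𝔭 ∈ Supp X` and
  `𝔭 ∈ Supp (X ⧸ 𝔭 X)`;
* if `𝒪^d ⧸ C0` is killed by `λ^K`, the control condition gives
  `λ^K X ⊆ 𝔭 X + (Z) X`, hence `λ^{K (r+1)} X ⊆ 𝔭 X + (Z)^{r+1} X ⊆ 𝔭 X` because the `Z_q²` come
  from elements of `𝔭` (`hF`, `w_F`);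
* so `C (λ ^ K') ∈ Ann (X ⧸ 𝔭 X) ⊆ 𝔭`, which is absurd since `w (C λ ^ K') = λ ^ K' ≠ 0`.
-/
import Mathlib
import Fermat.Agent.RB.TK_helper4_KillVars
import Fermat.Agent.ML.CORE_helper9_Induct

set_option autoImplicit false
set_option linter.unusedSectionVars false

namespace Fermat.Agent.ML.CORE

open MvPowerSeries IsLocalRing Fermat.Agent.RB.PATCH Fermat.Agent.RB

section Abstract

/-- if `l ^ k` maps `V` into `U + 𝔟 V`, then `l ^ (k j)` maps `V` into `U + 𝔟 ^ j V` -/
theorem pow_smul_mem_sup_pow_smul' {B V : Type*} [CommRing B] [AddCommGroup V] [Module B V]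
    (U : Submodule B V) (𝔟 : Ideal B) (l : B) (k : ℕ)
    (h : ∀ v : V, l ^ k • v ∈ U ⊔ 𝔟 • (⊤ : Submodule B V)) :
    ∀ (j : ℕ) (v : V), l ^ (k * j) • v ∈ U ⊔ (𝔟 ^ j) • (⊤ : Submodule B V) := by
  intro j
  induction j with
  | zero =>
    intro v
    rw [pow_zero, Ideal.one_eq_top, Submodule.top_smul, sup_top_eq]
    exact Submodule.mem_top
  | succ j ih =>
    intro v
    have hstep : ∀ w ∈ U ⊔ (𝔟 ^ j) • (⊤ : Submodule B V),
        l ^ k • w ∈ U ⊔ (𝔟 ^ (j + 1)) • (⊤ : Submodule B V) := by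
      intro w hw
      obtain ⟨u, hu, w', hw', rfl⟩ := Submodule.mem_sup.mp hw
      rw [smul_add]
      refine Submodule.add_mem _ (Submodule.mem_sup_left (U.smul_mem _ hu)) ?_
      refine Submodule.smul_induction_on hw' (fun b hb x _ => ?_) (fun x y hx hy => ?_)
      · rw [smul_comm]
        obtain ⟨u', hu', w'', hw'', hsum⟩ := Submodule.mem_sup.mp (h x)
        rw [← hsum, smul_add]
        refine Submodule.add_mem _ (Submodule.mem_sup_left (U.smul_mem _ hu'))
          (Submodule.mem_sup_right ?_)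
        rw [pow_succ, Submodule.mul_smul]
        exact Submodule.smul_mem_smul hb hw''
      · rw [smul_add]
        exact Submodule.add_mem _ hx hy
    have : l ^ (k * (j + 1)) • v = l ^ k • (l ^ (k * j) • v) := by
      rw [smul_smul, ← pow_add]
      congr 2
      ring
    rw [this]
    exact hstep _ (ih v)

/-- pigeonhole: a product of `|τ| + 1` variables is divisible by the square of a variable -/
theorem span_X_pow_le' (R : Type*) [CommRing R] (τ : Type*) [Fintype τ] :
    (Ideal.span (Set.range (X : τ → MvPowerSeries τ R))) ^ (Fintype.card τ + 1) ≤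
      Ideal.span (Set.range fun q => (X q : MvPowerSeries τ R) ^ 2) := by
  classical
  change (Submodule.span (MvPowerSeries τ R) (Set.range (X : τ → MvPowerSeries τ R))) ^
    (Fintype.card τ + 1) ≤ _
  rw [Submodule.span_pow, Submodule.span_le]
  intro a ha
  obtain ⟨f, rfl⟩ := Set.mem_pow.mp ha
  choose q hq using fun i => (f i).2
  -- two equal indices
  obtain ⟨i, i', hne, heq⟩ := Fintype.exists_ne_map_eq_of_card_lt q (by
    rw [Fintype.card_fin]; exact Nat.lt_succ_self _)
  have hdvd : (X (q i) : MvPowerSeries τ R) ^ 2 ∣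
      (List.ofFn fun i => ((f i : MvPowerSeries τ R))).prod := by
    rw [List.prod_ofFn]
    have h1 : ∏ j, (f j : MvPowerSeries τ R) =
        (f i : MvPowerSeries τ R) * ((f i' : MvPowerSeries τ R) *
          ∏ j ∈ (Finset.univ.erase i).erase i', (f j : MvPowerSeries τ R)) := by
      rw [← Finset.mul_prod_erase Finset.univ _ (Finset.mem_univ i),
        ← Finset.mul_prod_erase (Finset.univ.erase i) _
          (Finset.mem_erase.mpr ⟨hne.symm, Finset.mem_univ i'⟩)]
    rw [h1, ← hq i, ← hq i', ← heq, ← mul_assoc, ← sq]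
    exact Dvd.intro _ rfl
  obtain ⟨c, hc⟩ := hdvd
  rw [hc]
  exact Ideal.mul_mem_right _ _ (Ideal.subset_span ⟨q i, rfl⟩)

end Abstract

variable {O : Type} [CommRing O] [IsDomain O] [IsDiscreteValuationRing O]
  [IsAdicComplete (maximalIdeal O) O] [Finite (ResidueField O)]
  {m : ℕ} {nv : Fin m → ℕ} {g : ℕ}
  {D : ChainModel O m nv g} {r : ℕ} {d : Fin (m + 1) → ℕ} {kk : Fin m → ℕ} {K0 : Prop}
  {C0' : Submodule O (Fin (d (Fin.last m)) → O)}

namespace Patched

variable (P : Patched (coreProblem D r d K0 C0') kk)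

local notation "B" => MvPowerSeries (Fin r) O
local notation "dt" => d (Fin.last m)
local notation "Xt" => P.Xi (Fin.last m)

/-- the kernel of the point -/
noncomputable def pw : Ideal (CPS O m nv g) := RingHom.ker (P.w : CPS O m nv g →+* O)

instance : P.pw.IsPrime := RingHom.ker_isPrime _

theorem mem_pw (f : CPS O m nv g) : f ∈ P.pw ↔ P.w f = 0 := Iff.rfl

/-- `𝔭 X` -/
noncomputable def UR : Submodule (CPS O m nv g) Xt := P.pw • (⊤ : Submodule (CPS O m nv g) Xt)

theorem mkX_add (i : Fin (m + 1)) (v v' : Fin (d i) → B) :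
    P.mkX i (v + v') = P.mkX i v + P.mkX i v' := rfl

theorem mkX_zero (i : Fin (m + 1)) : P.mkX i 0 = 0 := rfl

/-- multiplication by a power series, as a `CPS`-linear endomorphism of `Xi i` -/
noncomputable def mulB (i : Fin (m + 1)) (h : B) : P.Xi i →ₗ[CPS O m nv g] P.Xi i where
  toFun x := P.mkX i (h • P.vecX i x)
  map_add' x y := by
    rw [P.vecX_add, smul_add]; rfl
  map_smul' f x := by
    apply P.vecX_injective
    rw [RingHom.id_apply]
    change h • P.vecX i (f • x) = P.vecX i (f • P.mkX i (h • P.vecX i x))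
    rw [P.vecX_smul, P.vecX_smul, P.vecX_mkX, Matrix.mulVec_smul]

theorem mulB_mem_UR (h : B) {x : Xt} (hx : x ∈ P.UR) : P.mulB (Fin.last m) h x ∈ P.UR := by
  have h1 : P.mulB (Fin.last m) h x ∈ P.UR.map (P.mulB (Fin.last m) h) :=
    Submodule.mem_map_of_mem hx
  rw [UR, Submodule.map_smul''] at h1
  exact (smul_mono_right _ le_top : P.pw • Submodule.map (P.mulB (Fin.last m) h) ⊤ ≤ _) h1

/-- `𝔭 X` as a submodule of `𝒪⟦Z⟧^d` -/
noncomputable def UB : Submodule B (Fin dt → B) where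
  carrier := {v | P.mkX (Fin.last m) v ∈ P.UR}
  add_mem' {v v'} hv hv' := by
    change P.mkX (Fin.last m) (v + v') ∈ P.UR
    rw [mkX_add]; exact P.UR.add_mem hv hv'
  zero_mem' := by
    change P.mkX (Fin.last m) 0 ∈ P.UR
    rw [mkX_zero]; exact P.UR.zero_mem
  smul_mem' h v hv := P.mulB_mem_UR h hv

theorem mem_UB (v : Fin dt → B) : v ∈ P.UB ↔ P.mkX (Fin.last m) v ∈ P.UR := Iff.rfl

/-- elements of `𝔭` map everything into `UB` -/
theorem mulVec_mem_UB (f : CPS O m nv g) (hf : P.w f = 0) (v : Fin dt → B) :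
    (P.Φ (Fin.last m) f).mulVec v ∈ P.UB := by
  rw [mem_UB]
  have h1 : P.mkX (Fin.last m) ((P.Φ (Fin.last m) f).mulVec v) = f • P.mkX (Fin.last m) v := rfl
  rw [h1]
  exact Submodule.smul_mem_smul hf Submodule.mem_top

/-- Claim A: `Z_q² X ⊆ 𝔭 X` -/
theorem sq_smul_mem_UB (q : Fin r) (v : Fin dt → B) : ((X q : B) ^ 2) • v ∈ P.UB := by
  have h1 : ((X q : B) ^ 2) • v = (P.Φ (Fin.last m) (P.F (Fin.last m) q)).mulVec v := by
    funext j
    rw [Matrix.mulVec, dotProduct, Finset.sum_eq_single j]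
    · rw [P.hF (Fin.last m) q j j, if_pos rfl]; rfl
    · intro k _ hk
      rw [P.hF (Fin.last m) q j k, if_neg (Ne.symm hk), zero_mul]
    · intro hj; exact absurd (Finset.mem_univ j) hj
  rw [h1]
  exact P.mulVec_mem_UB _ (P.w_F (Fin.last m) q) v

theorem span_sq_smul_le_UB :
    (Ideal.span (Set.range fun q => (X q : B) ^ 2)) • (⊤ : Submodule B (Fin dt → B)) ≤ P.UB := by
  rw [Submodule.smul_le]
  intro b hb v _
  refine Submodule.span_induction (p := fun b _ => ∀ v : Fin dt → B, b • v ∈ P.UB)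
    ?_ ?_ ?_ ?_ hb v
  · rintro _ ⟨q, rfl⟩ v
    exact P.sq_smul_mem_UB q v
  · intro v
    rw [zero_smul]; exact zero_mem _
  · intro x y _ _ hx hy v
    rw [add_smul]; exact add_mem (hx v) (hy v)
  · intro a x _ hx v
    rw [smul_eq_mul, mul_smul]; exact P.UB.smul_mem a (hx v)

/-- a vector without constant terms lies in `(Z) 𝒪⟦Z⟧^d` -/
theorem mem_span_X_smul_top' {e : ℕ} (v : Fin e → B) (hv : ∀ j, constantCoeff (v j) = 0) :
    v ∈ (Ideal.span (Set.range (X : Fin r → B))) • (⊤ : Submodule B (Fin e → B)) := by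
  have h1 : v = ∑ j, (v j) • (Pi.single j (1 : B) : Fin e → B) := by
    funext k
    rw [Finset.sum_apply, Finset.sum_eq_single k]
    · rw [Pi.smul_apply, Pi.single_eq_same, smul_eq_mul, mul_one]
    · intro j _ hj
      rw [Pi.smul_apply, Pi.single_eq_of_ne (Ne.symm hj), smul_zero]
    · intro hk; exact absurd (Finset.mem_univ k) hk
  rw [h1]
  refine Submodule.sum_mem _ fun j _ => Submodule.smul_mem_smul ?_ Submodule.mem_top
  have h2 : v j ∈ RingHom.ker (constantCoeff (σ := Fin r) (R := O)) := hv j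
  rw [TK.ker_constantCoeff] at h2
  exact h2

/-- every element of `C0'` is the vector of constant terms of an element of `UB` -/
theorem exists_mem_UB_of_mem_C0 (c : Fin dt → O) (hc : c ∈ C0') :
    ∃ u ∈ P.UB, ∀ j, constantCoeff (u j) = c j := by
  have h0 := P.ctl_ge c hc
  refine Submodule.span_induction (p := fun c _ => ∃ u ∈ P.UB, ∀ j, constantCoeff (u j) = c j)
    ?_ ?_ ?_ ?_ h0
  · rintro _ ⟨f, k, hf, rfl⟩
    refine ⟨(P.Φ (Fin.last m) f).mulVec (Pi.single k 1), P.mulVec_mem_UB f hf _, fun j => ?_⟩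
    rw [Matrix.mulVec_single_one]
    rfl
  · exact ⟨0, zero_mem _, fun j => map_zero _⟩
  · rintro x y _ _ ⟨u, hu, hux⟩ ⟨u', hu', huy⟩
    refine ⟨u + u', add_mem hu hu', fun j => ?_⟩
    rw [Pi.add_apply, map_add, hux, huy, Pi.add_apply]
  · rintro a x _ ⟨u, hu, hux⟩
    refine ⟨(C a : B) • u, P.UB.smul_mem _ hu, fun j => ?_⟩
    rw [Pi.smul_apply, smul_eq_mul, map_mul, constantCoeff_C, hux, Pi.smul_apply, smul_eq_mul]

/-- Claim D -/
theorem lam_pow_smul_mem (lam : O) (K : ℕ) (hK : ∀ c : Fin dt → O, lam ^ K • c ∈ C0')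
    (v : Fin dt → B) :
    (C lam : B) ^ K • v ∈ P.UB ⊔
      (Ideal.span (Set.range (X : Fin r → B))) • (⊤ : Submodule B (Fin dt → B)) := by
  obtain ⟨u, huU, hu⟩ := P.exists_mem_UB_of_mem_C0 _ (hK (fun j => constantCoeff (v j)))
  have hdiff : (C lam : B) ^ K • v - u ∈
      (Ideal.span (Set.range (X : Fin r → B))) • (⊤ : Submodule B (Fin dt → B)) := by
    refine mem_span_X_smul_top' _ fun j => ?_
    rw [Pi.sub_apply, map_sub, Pi.smul_apply, smul_eq_mul, map_mul, map_pow, constantCoeff_C,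
      hu j, Pi.smul_apply, smul_eq_mul, sub_self]
  have h3 : (C lam : B) ^ K • v = u + ((C lam : B) ^ K • v - u) := by abel
  rw [h3]
  exact Submodule.add_mem_sup huU hdiff

theorem Φ_C_mulVec' {e : ℕ} (Φ : CPS O m nv g →ₐ[O] Matrix (Fin e) (Fin e) B) (c : O)
    (v : Fin e → B) : (Φ (C c)).mulVec v = (C c : B) • v := by
  have h : (C c : CPS O m nv g) = algebraMap O _ c := rfl
  rw [h, Φ.commutes]
  funext j
  rw [Matrix.mulVec, dotProduct, Finset.sum_eq_single j]
  · rw [Matrix.algebraMap_matrix_apply, if_pos rfl]; rfl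
  · intro k _ hk
    rw [Matrix.algebraMap_matrix_apply, if_neg (Ne.symm hk), zero_mul]
  · intro hj; exact absurd (Finset.mem_univ j) hj

/-- the target component is contained in the kernel of the point -/
theorem P_top_le_pw : D.P m ≤ P.pw := by
  rw [ChainModel.P]
  refine sup_le (iSup_le fun j => iSup_le fun _ => ?_) (iSup_le fun j => iSup_le fun hj => ?_)
  · intro f hf
    rw [mem_pw]
    exact P.w_st f (Ideal.mem_iSup_of_mem j hf)
  · exact absurd j.isLt (not_lt.mpr hj)

include P in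
/-- **[CORE-L], coordinate form.** -/
theorem not_torsion {lam : O} (hlam : Irreducible lam) (hD : D.Good lam r)
    (hd : (K0 ∧ 0 < d 0) ∨ (D.Start lam r ∧ ∃ i : Fin (m + 1), i.val = 1 ∧ 0 < d i)) :
    ¬ ∃ K : ℕ, ∀ c : Fin dt → O, lam ^ K • c ∈ C0' := by
  rintro ⟨K, hK⟩
  -- everything is killed by a power of `λ` modulo `𝔭 X`
  have hall : ∀ x : Xt, (C (lam ^ (K * (r + 1))) : CPS O m nv g) • x ∈ P.UR := by
    intro x
    have h1 := pow_smul_mem_sup_pow_smul' P.UB (Ideal.span (Set.range (X : Fin r → B)))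
      (C lam : B) K (P.lam_pow_smul_mem lam K hK) (r + 1) (P.vecX (Fin.last m) x)
    have h2 : (Ideal.span (Set.range (X : Fin r → B))) ^ (r + 1) •
        (⊤ : Submodule B (Fin dt → B)) ≤ P.UB := by
      refine le_trans (Submodule.smul_mono_left ?_) P.span_sq_smul_le_UB
      have h3 := span_X_pow_le' O (Fin r)
      rwa [Fintype.card_fin] at h3
    have h4 : (C lam : B) ^ (K * (r + 1)) • P.vecX (Fin.last m) x ∈ P.UB :=
      (sup_le le_rfl h2) h1
    rw [mem_UB] at h4
    have h5 : P.mkX (Fin.last m) ((C lam : B) ^ (K * (r + 1)) • P.vecX (Fin.last m) x) =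
        (C (lam ^ (K * (r + 1))) : CPS O m nv g) • x := by
      apply P.vecX_injective
      rw [P.vecX_mkX, P.vecX_smul, Φ_C_mulVec', map_pow]
    rw [← h5]
    exact h4
  -- `𝔭` lies in the support of `X ⧸ 𝔭 X`
  have hsupp : (⟨P.pw, inferInstance⟩ : PrimeSpectrum (CPS O m nv g)) ∈
      Module.support (CPS O m nv g) (Xt ⧸ P.UR) := by
    rw [UR, Module.support_quotient]
    refine ⟨Module.mem_support_mono ?_ (P.mem_support_top hlam hD hd), ?_⟩
    · exact P.P_top_le_pw
    · rw [PrimeSpectrum.mem_zeroLocus]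
  have hann : (C (lam ^ (K * (r + 1))) : CPS O m nv g) ∈
      Module.annihilator (CPS O m nv g) (Xt ⧸ P.UR) := by
    rw [Module.mem_annihilator]
    intro y
    obtain ⟨x, rfl⟩ := Submodule.Quotient.mk_surjective _ y
    rw [← Submodule.Quotient.mk_smul, Submodule.Quotient.mk_eq_zero]
    exact hall x
  have h1 := Module.annihilator_le_of_mem_support hsupp hann
  change P.w (C (lam ^ (K * (r + 1)))) = 0 at h1
  have h2 : (C (lam ^ (K * (r + 1))) : CPS O m nv g) = algebraMap O _ (lam ^ (K * (r + 1))) := rfl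
  rw [h2, P.w.commutes] at h1
  exact pow_ne_zero _ hlam.ne_zero h1

end Patched

end Fermat.Agent.ML.CORE
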