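/-
PROJECT ML, block [CORE-L] (helper9): **the adapter** `TWChainLevel n → Sol (coreProblem …) kk n`.

Given the Taylor–Wiles data at level `n ≥ 1`, a fixed basis `e` of `M0` and bases `bb i` of the
modules `H i` over `S∞ ⧸ J` (the basis of the top module lifting `e` under the control map):
* `φ i f`   : the matrix of `act i f` in the basis `bb i`, reduced modulo `𝔫 ^ n`;
* `Im, Rt, Om` : the matrices of `iota`, `retr`, `omega`;
* `Sg`      : the coordinates of preimages under `omega` of the basis vectors;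
* `E`       : the coordinates of the quotients `omega (iota b_k) / th`.
-/
import Mathlib
import Fermat.Agent.RB.PATCH_helper9_BasisMod
import Fermat.Agent.ML.CORE_helper9_End

set_option autoImplicit false
set_option linter.unusedSectionVars false

namespace Fermat.Agent.ML.CORE

open MvPowerSeries IsLocalRing Fermat.Agent.RB.PATCH

/-! ### rectangular matrices of linear maps between modules with a basis modulo `J` -/

section RMat

variable {S : Type*} [CommRing S] {J : Ideal S}
  {X X' X'' : Type*} [AddCommGroup X] [Module S X] [AddCommGroup X'] [Module S X']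
  [AddCommGroup X''] [Module S X'']
  {d d' d'' : ℕ} {b : Fin d → X} {b' : Fin d' → X'} {b'' : Fin d'' → X''}
  (h : IsBasisMod J b) (h' : IsBasisMod J b') (h'' : IsBasisMod J b'')

/-- the matrix whose columns are the coordinates of the vectors `y k` -/
noncomputable def cmat {e : ℕ} (y : Fin e → X') : Matrix (Fin d') (Fin e) (S ⧸ J) :=
  fun j k => h'.equiv (y k) j

/-- the matrix of a linear map -/
noncomputable def rmat (_h₀ : IsBasisMod J b) (h₁ : IsBasisMod J b') (T : X →ₗ[S] X') :
    Matrix (Fin d') (Fin d) (S ⧸ J) :=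
  cmat h₁ fun k => T (b k)

theorem rmat_apply (T : X →ₗ[S] X') (j : Fin d') (k : Fin d) :
    rmat h h' T j k = h'.equiv (T (b k)) j := rfl

theorem equiv_apply_lin (T : X →ₗ[S] X') (x : X) :
    h'.equiv (T x) = (rmat h h' T).mulVec (h.equiv x) := by
  obtain ⟨c, rfl⟩ := h.span x
  rw [map_sum, map_sum, h.equiv_comb]
  funext j
  rw [Finset.sum_apply, Matrix.mulVec, dotProduct]
  refine Finset.sum_congr rfl fun k _ => ?_
  rw [map_smul, map_smul, Pi.smul_apply, redJ_apply, rmat_apply, mul_comm]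
  rfl

theorem rmat_eq_of_forall (T : X →ₗ[S] X') (M : Matrix (Fin d') (Fin d) (S ⧸ J))
    (hM : ∀ x, h'.equiv (T x) = M.mulVec (h.equiv x)) : rmat h h' T = M := by
  classical
  refine Matrix.ext fun j k => ?_
  rw [rmat_apply, hM, h.equiv_b, Matrix.mulVec_single_one]
  rfl

theorem rmat_comp (T : X →ₗ[S] X') (T' : X' →ₗ[S] X'') :
    rmat h h'' (T' ∘ₗ T) = rmat h' h'' T' * rmat h h' T :=
  rmat_eq_of_forall h h'' _ _ fun x => by
    rw [LinearMap.comp_apply, equiv_apply_lin h' h'', equiv_apply_lin h h', Matrix.mulVec_mulVec]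

theorem rmat_id : rmat h h (LinearMap.id : X →ₗ[S] X) = 1 :=
  rmat_eq_of_forall h h _ _ fun x => by rw [Matrix.one_mulVec]; rfl

theorem rmat_zero : rmat h h' (0 : X →ₗ[S] X') = 0 :=
  rmat_eq_of_forall h h' _ _ fun x => by rw [Matrix.zero_mulVec, LinearMap.zero_apply, map_zero]

theorem rmat_sub (T T' : X →ₗ[S] X') : rmat h h' (T - T') = rmat h h' T - rmat h h' T' :=
  rmat_eq_of_forall h h' _ _ fun x => by
    rw [LinearMap.sub_apply, map_sub, equiv_apply_lin h h', equiv_apply_lin h h',
      Matrix.sub_mulVec]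

theorem rmat_sum {ι : Type*} (s : Finset ι) (T : ι → (X →ₗ[S] X')) :
    rmat h h' (∑ c ∈ s, T c) = ∑ c ∈ s, rmat h h' (T c) := by
  classical
  induction s using Finset.induction_on with
  | empty => simp [rmat_zero]
  | insert a s ha ih =>
    rw [Finset.sum_insert ha, Finset.sum_insert ha, ← ih]
    exact rmat_eq_of_forall h h' _ _ fun x => by
      rw [LinearMap.add_apply, map_add, equiv_apply_lin h h', equiv_apply_lin h h',
        Matrix.add_mulVec]

theorem rmat_end (T : Module.End S X) : rmat h h T = h.matHom T := rfl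

theorem rmat_mul_cmat {e : ℕ} (T : X' →ₗ[S] X'') (y : Fin e → X') :
    rmat h' h'' T * cmat h' y = cmat h'' fun k => T (y k) := by
  refine Matrix.ext fun j k => ?_
  rw [Matrix.mul_apply]
  have h1 := congrFun (equiv_apply_lin h' h'' T (y k)) j
  rw [Matrix.mulVec, dotProduct] at h1
  exact h1.symm

theorem cmat_basis : cmat h b = 1 := by
  classical
  refine Matrix.ext fun j k => ?_
  rw [cmat, h.equiv_b, Matrix.one_apply, Pi.single_apply]

end RMat

variable {O : Type} [CommRing O] [IsDomain O] [IsDiscreteValuationRing O]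
  {m : ℕ} {nv : Fin m → ℕ} {g : ℕ}
  {D : ChainModel O m nv g} {lam : O} {r : ℕ} {d : Fin (m + 1) → ℕ} {kk : Fin m → ℕ}
  {M0 : Type} [AddCommGroup M0] [Module O M0] {C0 : Submodule O M0} {n : ℕ}

section PhiOf

variable {σ : Type*} {e : ℕ} {X : Type} [AddCommGroup X] [Module (SInf O r) X]
  (act : MvPowerSeries σ O →+* Module.End (SInf O r) X)
  (hact : ∀ (c : O) (x : X), act (C c) x = (C c : SInf O r) • x)
  {J : Ideal (SInf O r)} (hJ : J ≤ maximalIdeal (SInf O r) ^ n)
  {b : Fin e → X} (hb : IsBasisMod J b)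

/-- the matrices of the action in a basis, modulo `𝔫 ^ n` -/
noncomputable def phiOf : MvPowerSeries σ O →ₐ[O]
    Matrix (Fin e) (Fin e) (SInf O r ⧸ maximalIdeal (SInf O r) ^ n) :=
  { toRingHom := (Ideal.Quotient.factor hJ).mapMatrix.comp (hb.matHom.comp act)
    commutes' := fun c => by
      refine Matrix.ext fun j k => ?_
      change Ideal.Quotient.factor hJ (hb.matHom (act (C c)) j k) = _
      rw [hb.matHom_of_smul _ (C c) (hact c), Matrix.algebraMap_matrix_apply]
      split_ifs
      · rfl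
      · exact map_zero _ }

theorem phiOf_eq (f : MvPowerSeries σ O) :
    phiOf act hact hJ hb f = (hb.matHom (act f)).map (Ideal.Quotient.factor hJ) := rfl

theorem phiOf_apply (f : MvPowerSeries σ O) (j k : Fin e) :
    phiOf act hact hJ hb f j k = Ideal.Quotient.factor hJ (hb.matHom (act f) j k) := rfl

theorem phiOf_spec (f : MvPowerSeries σ O) (c : Fin e → Fin e → SInf O r)
    (hc : ∀ k, act f (b k) = ∑ j, c j k • b j) (j k : Fin e) :
    phiOf act hact hJ hb f j k = Ideal.Quotient.mk _ (c j k) := by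
  rw [phiOf_apply, hb.matHom_apply, hc k, hb.equiv_comb, redJ_apply]
  rfl

include hb in
theorem exists_coeff (f : MvPowerSeries σ O) :
    ∃ c : Fin e → Fin e → SInf O r, ∀ k, act f (b k) = ∑ j, c j k • b j := by
  choose c hc using fun k => hb.span (act f (b k))
  exact ⟨fun j k => c k j, hc⟩

theorem phiOf_eq_zero (f : MvPowerSeries σ O) (hf : act f = 0) : phiOf act hact hJ hb f = 0 := by
  refine Matrix.ext fun j k => ?_
  rw [phiOf_apply, hf, map_zero]
  exact map_zero _

theorem phiOf_of_smul (f : MvPowerSeries σ O) (s : SInf O r) (hf : ∀ x, act f x = s • x)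
    (j k : Fin e) :
    phiOf act hact hJ hb f j k = if j = k then Ideal.Quotient.mk _ s else 0 := by
  rw [phiOf_apply, hb.matHom_of_smul _ s hf]
  split_ifs
  · rfl
  · exact map_zero _

end PhiOf

/-- reduction of matrices from `S∞ ⧸ J` to `S∞ ⧸ 𝔫 ^ n` -/
noncomputable def facJ {J : Ideal (SInf O r)} (hJ : J ≤ maximalIdeal (SInf O r) ^ n)
    {a b : Type*} (A : Matrix a b (SInf O r ⧸ J)) :
    Matrix a b (SInf O r ⧸ maximalIdeal (SInf O r) ^ n) :=
  A.map (Ideal.Quotient.factor hJ)

section FacJ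

variable {J : Ideal (SInf O r)} (hJ : J ≤ maximalIdeal (SInf O r) ^ n) {a b c : Type*}

theorem facJ_mul [Fintype b] (A : Matrix a b (SInf O r ⧸ J)) (B : Matrix b c (SInf O r ⧸ J)) :
    facJ hJ (A * B) = facJ hJ A * facJ hJ B := Matrix.map_mul

theorem facJ_one [Fintype a] [DecidableEq a] :
    facJ hJ (1 : Matrix a a (SInf O r ⧸ J)) = 1 := by
  unfold facJ
  rw [Matrix.map_one _ (map_zero _) (map_one _)]

theorem facJ_zero : facJ hJ (0 : Matrix a b (SInf O r ⧸ J)) = 0 := by
  unfold facJ
  rw [Matrix.map_zero _ (map_zero _)]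

theorem facJ_sub (A B : Matrix a b (SInf O r ⧸ J)) :
    facJ hJ (A - B) = facJ hJ A - facJ hJ B :=
  Matrix.map_sub _ (map_sub _) A B

theorem facJ_sum {ι : Type*} (s : Finset ι) (A : ι → Matrix a b (SInf O r ⧸ J)) :
    facJ hJ (∑ x ∈ s, A x) = ∑ x ∈ s, facJ hJ (A x) := by
  classical
  induction s using Finset.induction_on with
  | empty => simp [facJ_zero]
  | insert x s hx ih =>
    rw [Finset.sum_insert hx, Finset.sum_insert hx, ← ih]
    exact Matrix.map_add _ (map_add _) _ _

end FacJ

end Fermat.Agent.ML.CORE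

namespace Fermat.Agent.ML

open MvPowerSeries IsLocalRing Fermat.Agent.RB.PATCH Fermat.Agent.ML.CORE

variable {O : Type} [CommRing O] [IsDomain O] [IsDiscreteValuationRing O]
  {m : ℕ} {nv : Fin m → ℕ} {g : ℕ}
  {D : ChainModel O m nv g} {lam : O} {r : ℕ} {d : Fin (m + 1) → ℕ} {kk : Fin m → ℕ}
  {M0 : Type} [AddCommGroup M0] [Module O M0] {C0 : Submodule O M0} {K0 : Prop} {n : ℕ}

namespace TWChainLevel

variable (L : TWChainLevel D lam r d kk M0 C0 K0 n)

local notation "S∞" => SInf O r

theorem C_lam_mem (hlam : Irreducible lam) : (C lam : S∞) ∈ maximalIdeal S∞ := by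
  rw [Fermat.Agent.S53.PS.mem_maximalIdeal_iff, constantCoeff_C]
  exact (mem_maximalIdeal _).mpr hlam.not_isUnit

theorem C_lam_pow_mem (hlam : Irreducible lam) (hn : 1 ≤ n) :
    (C (lam ^ n) : S∞) ∈ maximalIdeal S∞ := by
  rw [map_pow]
  exact Ideal.pow_mem_of_mem _ (C_lam_mem hlam) n hn

theorem X_mem (q : Fin r) : (X q : S∞) ∈ maximalIdeal S∞ := by
  rw [Fermat.Agent.S53.PS.mem_maximalIdeal_iff, constantCoeff_X]
  exact zero_mem _

theorem isBasisMod (i : Fin (m + 1)) : IsBasisMod L.J (L.b i) := ⟨L.b_span i, L.b_rel i⟩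

theorem ctl_sum_C_smul (a : Fin (d (Fin.last m)) → O) (x : Fin (d (Fin.last m)) → L.H (Fin.last m)) :
    L.ctl (∑ k, (C (a k) : S∞) • x k) = ∑ k, a k • L.ctl (x k) := by
  rw [map_sum]
  refine Finset.sum_congr rfl fun k _ => ?_
  rw [L.ctl_smul, constantCoeff_C]

/-- lifts of a basis of `M0` under the control map form a basis of the top module -/
theorem isBasisMod_of_ctl (hlam : Irreducible lam) (hn : 1 ≤ n)
    (e : Module.Basis (Fin (d (Fin.last m))) O M0)
    (b' : Fin (d (Fin.last m)) → L.H (Fin.last m))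
    (hb' : ∀ k, L.ctl (b' k) = Submodule.Quotient.mk (e k)) :
    IsBasisMod L.J b' := by
  refine (L.isBasisMod (Fin.last m)).of_span_mod b' fun x => ?_
  obtain ⟨m', hm'⟩ := Submodule.Quotient.mk_surjective _ (L.ctl x)
  refine ⟨fun k => C (e.repr m' k), ?_⟩
  have h0 : L.ctl (x - ∑ k, (C (e.repr m' k) : S∞) • b' k) = 0 := by
    rw [map_sub, ctl_sum_C_smul, ← hm', sub_eq_zero]
    conv_lhs => rw [← e.sum_repr m']
    change Submodule.mkQ _ (∑ k, e.repr m' k • e k) = _
    rw [map_sum]
    refine Finset.sum_congr rfl fun k _ => ?_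
    rw [hb' k, map_smul]
    rfl
  obtain ⟨y, z, hyz⟩ := L.ker_ctl _ h0
  rw [hyz]
  refine Submodule.add_mem _ (Submodule.smul_mem_smul (C_lam_pow_mem hlam hn) Submodule.mem_top)
    (Submodule.sum_mem _ fun q _ => Submodule.smul_mem_smul (X_mem q) Submodule.mem_top)

/-- the kernel of the action contains `Jfull` -/
theorem act_eq_zero_of_mem_Jfull (i : Fin (m + 1)) (hi : i.val = 0 → K0) (f : CPS O m nv g)
    (hf : f ∈ D.Jfull i.val) : L.act i f = 0 := by
  have hle : D.Jfull i.val ≤ RingHom.ker (L.act i) := by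
    rw [ChainModel.Jfull]
    refine sup_le (iSup_le fun j => iSup_le fun hj => ?_) (iSup_le fun j => iSup_le fun hj => ?_)
    · exact fun f hf => L.kill_rel i j hj f hf
    · exact fun f hf => L.kill_unr i j hj hi f hf
  exact hle hf

theorem w_eq_zero_of_mem_Pst (f : CPS O m nv g) (hf : f ∈ D.Pst) : L.w f = 0 := by
  have hle : D.Pst ≤ RingHom.ker (L.w : CPS O m nv g →+* O ⧸ maximalIdeal O ^ n) := by
    rw [ChainModel.Pst]
    exact iSup_le fun j => fun f hf => L.w_st j f hf
  exact hle hf

section Sol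

variable (bb : ∀ i, Fin (d i) → L.H i) (hbb : ∀ i, IsBasisMod L.J (bb i))

/-- the action of `f` as a linear map -/
noncomputable def actL (i : Fin (m + 1)) (f : CPS O m nv g) : L.H i →ₗ[S∞] L.H i := L.act i f

theorem phiOf_eq_facJ (i : Fin (m + 1)) (f : CPS O m nv g) :
    phiOf (L.act i) (L.act_C i) L.J_le (hbb i) f =
      facJ L.J_le (rmat (hbb i) (hbb i) (L.actL i f)) := rfl

/-- the projector onto the new part -/
noncomputable def newL (j : Fin m) : L.H j.succ →ₗ[S∞] L.H j.succ :=
  LinearMap.id - ∑ c, (L.iota j c) ∘ₗ (L.retr j c)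

theorem newL_iota (j : Fin m) (c : Fin (kk j)) (x : L.H j.castSucc) :
    L.newL j (L.iota j c x) = 0 := by
  classical
  rw [newL, LinearMap.sub_apply, LinearMap.id_apply, LinearMap.sum_apply, sub_eq_zero]
  rw [Finset.sum_eq_single c]
  · rw [LinearMap.comp_apply, L.retr_iota, if_pos rfl]
  · intro c' _ hc'
    rw [LinearMap.comp_apply, L.retr_iota, if_neg hc', map_zero]
  · intro h; exact absurd (Finset.mem_univ c) h

theorem newL_act (j : Fin m) (f : CPS O m nv g) (hf : f ∈ D.new j) :
    (L.newL j) ∘ₗ (L.actL j.succ f) = 0 := by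
  refine LinearMap.ext fun x => ?_
  obtain ⟨y, hy⟩ := L.kill_new j f hf x
  rw [LinearMap.comp_apply, LinearMap.zero_apply]
  change L.newL j (L.act j.succ f x) = 0
  rw [hy, map_sum]
  exact Finset.sum_eq_zero fun c _ => L.newL_iota j c (y c)

end Sol

section Ctl

variable (e : Module.Basis (Fin (d (Fin.last m))) O M0)
  (b' : Fin (d (Fin.last m)) → L.H (Fin.last m))
  (h' : IsBasisMod L.J b') (hb' : ∀ k, L.ctl (b' k) = Submodule.Quotient.mk (e k))

omit [IsDomain O] [IsDiscreteValuationRing O] in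
/-- coordinates modulo an ideal -/
theorem repr_mem_of_mem_smul_top' {ι : Type*} (e : Module.Basis ι O M0) (I : Ideal O) (x : M0)
    (hx : x ∈ I • (⊤ : Submodule O M0)) (j : ι) : e.repr x j ∈ I := by
  refine Submodule.smul_induction_on hx (fun a ha x _ => ?_) (fun x y hx hy => ?_)
  · rw [map_smul, Finsupp.smul_apply, smul_eq_mul]
    exact I.mul_mem_right _ ha
  · rw [map_add, Finsupp.add_apply]
    exact I.add_mem hx hy

include hb' in
theorem ctl_ge_aux (x : M0) (hx : x ∈ C0) :
    ∃ (N : ℕ) (f : Fin N → CPS O m nv g)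
      (y : Fin N → Fin (d (Fin.last m)) → O ⧸ maximalIdeal O ^ n), (∀ t, L.w (f t) = 0) ∧ ∀ j,
      Ideal.Quotient.mk (maximalIdeal O ^ n) (e.repr x j) =
        ∑ t, ∑ k, augn O (Fin r) n
          (phiOf (L.act (Fin.last m)) (L.act_C (Fin.last m)) L.J_le h' (f t) j k) * y t k := by
  classical
  have hmem := L.ctl_C _ (Submodule.mem_map_of_mem hx)
  obtain ⟨N, a, z, hz⟩ := Submodule.mem_span_set'.mp hmem
  choose f x' hf hx' using fun t => (z t).2
  -- coordinates of the `x' t`
  choose s hs using fun t => h'.span (x' t)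
  -- matrices of the `f t`
  choose c hc using fun t => exists_coeff (L.act (Fin.last m)) h' (f t)
  have hw : ∀ t, ((z t : M0 ⧸ (maximalIdeal O ^ n • ⊤ : Submodule O M0))) =
      ∑ j, (∑ k, constantCoeff (c t j k) * constantCoeff (s t k)) •
        (Submodule.Quotient.mk (e j) : M0 ⧸ (maximalIdeal O ^ n • ⊤ : Submodule O M0)) := by
    intro t
    rw [hx' t]
    conv_lhs => rw [hs t]
    rw [map_sum, map_sum]
    have h1 : ∀ k, L.ctl ((L.act (Fin.last m)) (f t) (s t k • b' k)) =
        ∑ j, (constantCoeff (c t j k) * constantCoeff (s t k)) •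
          (Submodule.Quotient.mk (e j) : M0 ⧸ (maximalIdeal O ^ n • ⊤ : Submodule O M0)) := by
      intro k
      rw [map_smul, L.ctl_smul, hc t k, map_sum, Finset.smul_sum]
      refine Finset.sum_congr rfl fun j _ => ?_
      rw [L.ctl_smul, hb' j, smul_smul, mul_comm]
    rw [Finset.sum_congr rfl fun k _ => h1 k, Finset.sum_comm]
    refine Finset.sum_congr rfl fun j _ => ?_
    rw [Finset.sum_smul]
  set A : Fin (d (Fin.last m)) → O :=
    fun j => ∑ t, a t * ∑ k, constantCoeff (c t j k) * constantCoeff (s t k) with hA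
  have h1 : (Submodule.Quotient.mk x : M0 ⧸ (maximalIdeal O ^ n • ⊤ : Submodule O M0)) =
      Submodule.Quotient.mk (∑ j, A j • e j) := by
    change Submodule.mkQ _ x = Submodule.mkQ _ (∑ j, A j • e j)
    rw [← hz, map_sum]
    have h2 : ∀ t, a t • (z t : M0 ⧸ (maximalIdeal O ^ n • ⊤ : Submodule O M0)) =
        ∑ j, (a t * ∑ k, constantCoeff (c t j k) * constantCoeff (s t k)) •
          (Submodule.Quotient.mk (e j) : M0 ⧸ (maximalIdeal O ^ n • ⊤ : Submodule O M0)) := by
      intro t
      rw [hw t, Finset.smul_sum]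
      exact Finset.sum_congr rfl fun j _ => by rw [mul_smul]
    rw [Finset.sum_congr rfl fun t _ => h2 t, Finset.sum_comm]
    refine Finset.sum_congr rfl fun j _ => ?_
    rw [map_smul, hA, Finset.sum_smul]
    rfl
  have h3 : x - ∑ j, A j • e j ∈ (maximalIdeal O ^ n • ⊤ : Submodule O M0) :=
    (Submodule.Quotient.eq _).mp h1
  refine ⟨N, f, fun t k => Ideal.Quotient.mk _ (a t * constantCoeff (s t k)), hf, fun j => ?_⟩
  have h4 := repr_mem_of_mem_smul_top' e _ _ h3 j
  rw [map_sub, Finsupp.sub_apply, map_sum, Finsupp.finsetSum_apply] at h4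
  have h5 : ∑ i, (e.repr (A i • e i)) j = A j := by
    rw [Finset.sum_eq_single j]
    · rw [map_smul, e.repr_self, Finsupp.smul_apply, Finsupp.single_eq_same, smul_eq_mul, mul_one]
    · intro i _ hi
      rw [map_smul, e.repr_self, Finsupp.smul_apply, Finsupp.single_eq_of_ne (Ne.symm hi),
        smul_zero]
    · intro hj; exact absurd (Finset.mem_univ j) hj
  rw [h5] at h4
  rw [(Ideal.Quotient.eq).mpr h4, hA]
  simp only [map_sum, map_mul]
  refine Finset.sum_congr rfl fun t _ => ?_
  rw [Finset.mul_sum]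
  refine Finset.sum_congr rfl fun k _ => ?_
  rw [phiOf_spec (L.act (Fin.last m)) (L.act_C (Fin.last m)) L.J_le h' _ (c t) (hc t), augn_mk]
  ring

end Ctl

include L in
/-- **the adapter**: the Taylor–Wiles data at level `n ≥ 1` solve the chain patching problem at
level `n`. -/
theorem nonempty_sol (hlam : Irreducible lam) (hn : 1 ≤ n)
    (e : Module.Basis (Fin (d (Fin.last m))) O M0) :
    Nonempty (Sol (coreProblem D r d K0
      (C0.map (e.equivFun : M0 →ₗ[O] (Fin (d (Fin.last m)) → O)))) kk n) := by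
  classical
  choose b' hb' using fun k => L.ctl_surjective (Submodule.Quotient.mk (e k))
  have h' := L.isBasisMod_of_ctl hlam hn e b' hb'
  -- the bases
  let bb : ∀ i, Fin (d i) → L.H i := Function.update L.b (Fin.last m) b'
  have hbb : ∀ i, IsBasisMod L.J (bb i) := by
    intro i
    by_cases hi : i = Fin.last m
    · subst hi
      have : bb (Fin.last m) = b' := Function.update_self _ _ _
      rw [this]; exact h'
    · have : bb i = L.b i := Function.update_of_ne hi _ _
      rw [this]; exact L.isBasisMod i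
  have hbblast : bb (Fin.last m) = b' := Function.update_self _ _ _
  -- sections of `omega`
  choose sg hsg using fun (j : Fin m) (k : Fin (d j.castSucc)) =>
    L.omega_surjective j (bb j.castSucc k)
  -- the quotients `omega ∘ iota / th`
  choose yy hyy using fun (j : Fin m) (c : Fin (kk j)) (k : Fin (d j.castSucc)) =>
    L.omega_iota j c (bb j.castSucc k)
  choose G hGm hGw hG using L.hF
  refine ⟨{
    φ := fun i => phiOf (L.act i) (L.act_C i) L.J_le (hbb i)
    F := fun i q => Ideal.Quotient.mk _ (G i q)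
    w := L.w
    Im := fun j c => facJ L.J_le (rmat (hbb j.castSucc) (hbb j.succ) (L.iota j c))
    Rt := fun j c => facJ L.J_le (rmat (hbb j.succ) (hbb j.castSucc) (L.retr j c))
    Om := fun j => facJ L.J_le (rmat (hbb j.succ) (hbb j.castSucc) (L.omega j))
    Sg := fun j => facJ L.J_le (cmat (hbb j.succ) (sg j))
    E := fun j c => facJ L.J_le (cmat (hbb j.castSucc) (yy j c))
    kill := ?_
    Im_comm := ?_
    Rt_Im := ?_
    new := ?_
    Om_comm := ?_
    Om_Sg := ?_
    Om_Im := ?_
    w_st := ?_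
    ctl_ge := ?_
    hF := ?_ }⟩
  · -- kill
    intro i f hf
    change f ∈ ⨆ _ : i.val = 0 → K0, D.Jfull i.val at hf
    by_cases hi : i.val = 0 → K0
    · rw [iSup_pos hi] at hf
      exact phiOf_eq_zero (L.act i) (L.act_C i) L.J_le (hbb i) f
        (L.act_eq_zero_of_mem_Jfull i hi f hf)
    · rw [iSup_neg hi, Ideal.mem_bot] at hf
      rw [hf, map_zero]
  · -- Im_comm
    intro j c f
    rw [L.phiOf_eq_facJ bb hbb, L.phiOf_eq_facJ bb hbb, ← facJ_mul, ← facJ_mul, ← rmat_comp,
      ← rmat_comp]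
    congr 2
    refine LinearMap.ext fun x => ?_
    exact L.iota_act j c f x
  · -- Rt_Im
    intro j c c'
    rw [← facJ_mul, ← rmat_comp]
    split_ifs with hcc
    · subst hcc
      have : (L.retr j c) ∘ₗ (L.iota j c) = LinearMap.id := LinearMap.ext fun x => by
        rw [LinearMap.comp_apply, L.retr_iota, if_pos rfl]; rfl
      rw [this, rmat_id, facJ_one]
    · have : (L.retr j c) ∘ₗ (L.iota j c') = 0 := LinearMap.ext fun x => by
        rw [LinearMap.comp_apply, L.retr_iota, if_neg hcc]; rfl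
      rw [this, rmat_zero, facJ_zero]
  · -- new
    intro j f hf
    have h1 : (1 - ∑ c, facJ L.J_le (rmat (hbb j.castSucc) (hbb j.succ) (L.iota j c)) *
        facJ L.J_le (rmat (hbb j.succ) (hbb j.castSucc) (L.retr j c))) =
        facJ L.J_le (rmat (hbb j.succ) (hbb j.succ) (L.newL j)) := by
      rw [TWChainLevel.newL, rmat_sub, rmat_id, rmat_sum, facJ_sub, facJ_one, facJ_sum]
      congr 1
      refine Finset.sum_congr rfl fun c _ => ?_
      rw [rmat_comp (hbb j.succ) (hbb j.castSucc) (hbb j.succ), facJ_mul]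
    rw [h1, L.phiOf_eq_facJ bb hbb, ← facJ_mul, ← rmat_comp, L.newL_act j f hf, rmat_zero,
      facJ_zero]
  · -- Om_comm
    intro j f
    rw [L.phiOf_eq_facJ bb hbb, L.phiOf_eq_facJ bb hbb, ← facJ_mul, ← facJ_mul, ← rmat_comp,
      ← rmat_comp]
    congr 2
    refine LinearMap.ext fun x => ?_
    exact L.omega_act j f x
  · -- Om_Sg
    intro j
    rw [← facJ_mul, rmat_mul_cmat]
    have : (fun k => L.omega j (sg j k)) = bb j.castSucc := funext fun k => hsg j k
    rw [this, cmat_basis, facJ_one]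
  · -- Om_Im
    intro j c
    rw [L.phiOf_eq_facJ bb hbb, ← facJ_mul, ← facJ_mul, ← rmat_comp, rmat_mul_cmat]
    congr 1
    change cmat (hbb j.castSucc) (fun k => L.omega j (L.iota j c (bb j.castSucc k))) = _
    congr 1
    funext k
    exact hyy j c k
  · -- w_st
    intro f hf
    exact L.w_eq_zero_of_mem_Pst f hf
  · -- ctl_ge
    rintro c ⟨x, hx, rfl⟩
    have hb'' : ∀ k, L.ctl (bb (Fin.last m) k) = Submodule.Quotient.mk (e k) := by
      rw [hbblast]; exact hb'
    obtain ⟨N, f, y, hf, hy⟩ := L.ctl_ge_aux e (bb (Fin.last m)) (hbb (Fin.last m)) hb'' x hx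
    exact ⟨N, f, y, hf, fun j => hy j⟩
  · -- hF
    intro i q
    refine ⟨G i q, hGm i q, rfl, hGw i q, fun j k => ?_⟩
    exact phiOf_of_smul (L.act i) (L.act_C i) L.J_le (hbb i) (G i q) _ (hG i q) j k

end TWChainLevel

end Fermat.Agent.ML
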