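/-
PROJECT ML (S59) — ARCHITECT (helper9) — INTERFACE FILE ML3c: **the assembly of [LIFT]**.

* `LiftSetting W p` : everything the PRODUCERS deliver for a given `W` and optimal level
  (owners: [RHO-W]/[HYG-L] helper1 — `ρ_W`, `ρ̄`, the residual hypotheses, `IsWPoint`;
  [LEVEL-OPT]/lead — the chain `cq`, `sgn`, the kinds, `PCase`; [TWMOD-L] helper2 + [IHARA-L]
  helper6 + [REPT-L] helper1 + [KEYH-L] + [AT-P] — the ranks `d`, `kk`, the module `M0` at level
  zero with its trace operators and the Taylor–Wiles data `TWChainGalois` for ALL Taylor–Wiles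
  sets; [TOP-L] helper9 — the dictionary `modular`).
* `TWChainProducerStatement` : a `LiftSetting` exists for every semistable `W` with an optimal level.
* **`liftStatement_of`** (PROVED): `TWChainProducerStatement → ChainChartStatement → SelLStatement →
  LiftStatement`, through [GLUE-L] (`GLUE.nonempty_twChainLevel_of_galois`) and [CORE-L]
  (`coreLiftStatement`).
-/
import Mathlib
import Fermat.Agent.ML.IFACE_helper9_Top
import Fermat.Agent.ML.IFACE_helper9_Chart
import Fermat.Agent.ML.GLUE_helper9_ChainGlue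
import Fermat.Agent.ML.CORE_helper9_Main

set_option autoImplicit false

open Polynomial IsLocalRing

namespace Fermat.Agent.ML

local notation "GQ" => (AlgebraicClosure ℚ ≃ₐ[ℚ] AlgebraicClosure ℚ)

/-- **everything the producers deliver** for `W` (semistable, `W[p]` irreducible, residually
modular of an optimal level). -/
structure LiftSetting (W : WeierstrassCurve ℤ) (p : ℕ) [Fact p.Prime] : Type 1 where
  /-- the coefficient ring -/
  𝒪 : Type
  [instCommRing : CommRing 𝒪]
  [instIsDomain : IsDomain 𝒪]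
  [instDVR : IsDiscreteValuationRing 𝒪]
  [instComplete : IsAdicComplete (maximalIdeal 𝒪) 𝒪]
  [instFinite : Finite (ResidueField 𝒪)]
  [instCharZero : CharZero 𝒪]
  p_mem : (p : 𝒪) ∈ maximalIdeal 𝒪
  lam : 𝒪
  lam_irreducible : Irreducible lam
  /-- the representation of `W` and its reduction -/
  ρW : GaloisRepAdic 𝒪
  ρbar : ResidualGaloisRep (ResidueField 𝒪)
  /-- the residual hypotheses ([HYG-L], [RHO-W]) -/
  absIrr : ρbar.IsAbsolutelyIrreducible
  det_cyc : (GaloisRepAdic.ofResidualGaloisRep ρbar).DetIsCyclotomic p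
  split : ∀ σ : GQ, ∃ α β : ResidueField 𝒪,
    LinearMap.charpoly (ρbar.ρ σ) = (X - C α) * (X - C β)
  irr_index_two : ∀ (F : Type) [Field F] [Algebra (ResidueField 𝒪) F] (G : Subgroup GQ),
    G.index = 2 → ∀ V : Submodule F (ρbar.baseChange F).V,
      (∀ σ ∈ G, ∀ x ∈ V, (ρbar.baseChange F).ρ σ x ∈ V) → V = ⊥ ∨ V = ⊤
  /-- the primes of the optimal level (and `p`, and the auxiliary primes) -/
  S : Finset ℕ
  p_mem_S : p ∈ S
  S_prime : ∀ q ∈ S, q.Prime
  /-- the chain -/
  pc : PCase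
  m : ℕ
  cq : Fin m → ℕ
  sgn : Fin m → 𝒪
  K : Fin m → ChainKind
  resChain : IsResChain ρbar p pc cq sgn K
  /-- (R-e): in the chain case `ρ̄` is peu ramifiée at `p` (the assembly splits `by_cases`) -/
  peu : pc = PCase.chain → IsPeuRamifieeAt ρbar p
  cq_notMem : ∀ j, cq j ≠ p → cq j ∉ S
  S_ram : ∀ ℓ ∈ S, ℓ ≠ p → ¬ ρbar.IsUnramifiedAt ℓ ∨
    (NoLevelRaisingAt ρbar ℓ ∧ ((ℓ : ℕ) : ResidueField 𝒪) ≠ 1)
  unr_outside : ∀ ℓ : ℕ, ℓ.Prime → ℓ ∉ S → ρbar.IsUnramifiedAt ℓ
  /-- the point of `W` -/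
  wPoint : IsWPoint ρW p pc cq sgn
  ρW_unr : ∀ ℓ : ℕ, ℓ.Prime → ℓ ∉ S ∪ Finset.univ.image cq → ρW.IsUnramifiedAt ℓ
  /-- the ranks, the multiplicities and the module of level zero -/
  d : Fin (m + 1) → ℕ
  kk : Fin m → ℕ
  M0 : Type
  [instAddCommGroupM0 : AddCommGroup M0]
  [instModuleM0 : Module 𝒪 M0]
  [instFreeM0 : Module.Free 𝒪 M0]
  [instFiniteM0 : Module.Finite 𝒪 M0]
  finrank_M0 : Module.finrank 𝒪 M0 = d (Fin.last m)
  tr0 : GQ → Module.End 𝒪 M0
  /-- the module of level `0` is non-zero; in the chain case the module of level `1` -/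
  start : (pc ≠ PCase.chain ∧ 0 < d 0) ∨
    (pc = PCase.chain ∧ ∃ i : Fin (m + 1), i.val = 1 ∧ 0 < d i)
  /-- the Taylor–Wiles data for all Taylor–Wiles sets -/
  tw : ∀ (r n : ℕ) (Q : Fin r → ℕ), RB.IsTWSet ρbar p (S ∪ Finset.univ.image cq) n Q →
    (∀ q, p ∣ Q q - 1) →
    Nonempty (TWChainGalois p ρW ρbar S pc cq sgn r d kk M0 tr0 n Q)
  /-- **the dictionary** ([TOP-L]): if `M0 ⧸ 𝔭_W M0` is not torsion, `W` is modular of the top
  level -/
  modular : (¬ ∀ x : M0, ∃ k : ℕ, lam ^ k • x ∈ wSubmodule ρW M0 tr0) →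
    ∃ N' : ℕ, W.IsModularModelOfLevel N' ∧ ¬ p ^ 2 ∣ N' ∧
      (∀ ℓ : ℕ, ℓ.Prime → (ℓ : ℤ) ∣ W.Δ → ℓ ∣ N') ∧ (∀ q : ℕ, q.Prime → ¬ q ^ 3 ∣ N')

attribute [instance] LiftSetting.instCommRing LiftSetting.instIsDomain LiftSetting.instDVR
  LiftSetting.instComplete LiftSetting.instFinite LiftSetting.instCharZero
  LiftSetting.instAddCommGroupM0
  LiftSetting.instModuleM0 LiftSetting.instFreeM0 LiftSetting.instFiniteM0

/-- **the producers** ([RHO-W], [HYG-L], [TWMOD-L], [IHARA-L], [REPT-L], [KEYH-L], [AT-P],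
[TOP-L]). -/
def TWChainProducerStatement : Prop :=
  ∀ (p : ℕ) [Fact p.Prime] (_ : p = 3 ∨ p = 5)
    (W : WeierstrassCurve ℤ) (_ : W.Δ ≠ 0) (_ : W.IsSemistableModel)
    (_ : W.ModRepIsIrreducible p)
    (N : ℕ) (_ : IsOptimalLevel W p N) (_ : IsResModAway W p N),
    Nonempty (LiftSetting W p)

/-- **[LIFT] from the producers, the charts, the Selmer computation** (and the proved [GLUE-L],
[CORE-L]). -/
theorem liftStatement_of (hprod : TWChainProducerStatement) (hchart : ChainChartStatement)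
    (hsel : SelLStatement) : LiftStatement := by
  intro p hp W hΔ hss hirr N hopt hresN
  have hpp : p.Prime := by rcases hp with rfl | rfl <;> norm_num
  have : Fact p.Prime := ⟨hpp⟩
  have hp2 : p ≠ 2 := by rcases hp with rfl | rfl <;> norm_num
  obtain ⟨LS⟩ := hprod p hp W hΔ hss hirr N hopt hresN
  -- the Selmer computation
  obtain ⟨g, r, hr, hQ⟩ := hsel p hp2 LS.p_mem LS.ρbar LS.absIrr LS.det_cyc LS.split
    LS.irr_index_two LS.S LS.p_mem_S LS.S_prime LS.pc LS.cq LS.sgn LS.K LS.resChain LS.cq_notMem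
    LS.S_ram LS.unr_outside
  -- the chain model and its charts
  obtain ⟨nv, hnv⟩ := hchart p hp2 LS.p_mem LS.lam LS.lam_irreducible LS.ρbar LS.absIrr LS.S LS.pc
    LS.cq LS.sgn LS.K LS.resChain LS.cq_notMem LS.peu
  obtain ⟨D, hD, hDstart, hcharts⟩ := hnv g r hr
  have hlam : maximalIdeal LS.𝒪 = Ideal.span {LS.lam} := LS.lam_irreducible.maximalIdeal_eq
  -- the Taylor–Wiles levels of the CORE
  have hlevels : ∀ n : ℕ, Nonempty (TWChainLevel D LS.lam r LS.d LS.kk LS.M0
      (wSubmodule LS.ρW LS.M0 LS.tr0) (LS.pc ≠ PCase.chain) n) := by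
    intro n
    -- the Taylor–Wiles set of level `n + 1`, used at level `n` (so that `Q q ≡ 1 mod p` also
    -- at `n = 0`, as in RB)
    obtain ⟨Q, hQset1, hQgen⟩ := hQ (n + 1)
    have hQset : RB.IsTWSet LS.ρbar p (LS.S ∪ Finset.univ.image LS.cq) n Q :=
      { injective := hQset1.injective
        prime := hQset1.prime
        notMem := hQset1.notMem
        cong := fun j => (pow_dvd_pow p (Nat.le_succ n)).trans (hQset1.cong j)
        distinct := hQset1.distinct }
    have hQp : ∀ j, p ∣ Q j - 1 := fun j =>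
      (dvd_pow_self p (Nat.succ_ne_zero n)).trans (hQset1.cong j)
    obtain ⟨L⟩ := LS.tw r n Q hQset hQp
    have hQnot : ∀ j, LS.cq j ∉ Finset.univ.image Q := by
      intro j hj
      obtain ⟨q, -, hq⟩ := Finset.mem_image.mp hj
      exact hQset.notMem q (by
        rw [hq]
        exact Finset.mem_union_right _ (Finset.mem_image_of_mem _ (Finset.mem_univ j)))
    obtain ⟨c, hc, hE6, hE⟩ := hcharts L.T L.residue_surjective L.torsion_free L.ρ
      L.residual_isEquiv (Finset.univ.image Q) hQnot L.isOfType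
    obtain ⟨y, hy, hgen⟩ := hQgen L.T L.residue_surjective L.ρ L.residual_isEquiv L.isOfType
      L.adjoin_trace (fun j => Ideal.span (Set.range fun a : Fin (nv j) => c ⟨j, a⟩))
      (fun j => Ideal.span_le.2 (by rintro _ ⟨a, rfl⟩; exact hc _)) hE6
    obtain ⟨E1, E2, E3, E3p, E4, E5, E5p⟩ := hE y hy
    have hQS : ∀ q, Q q ∉ LS.S := fun q hq => hQset.notMem q (Finset.mem_union_left _ hq)
    refine GLUE.nonempty_twChainLevel_of_galois L D c hc y hy hp2 LS.p_mem hlam LS.resChain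
      (fun q => LS.unr_outside (Q q) (hQset.prime q) (hQS q))
      (fun q => LS.ρW_unr (Q q) (hQset.prime q) (hQset.notMem q))
      hgen E1 E2 E3 E3p (E4 LS.ρW LS.wPoint L.toO L.toO_trace) E5 ?_
    intro j hj hpc
    exact E5p j hj (L.Up hpc) (L.Up_spec hpc)
  -- the CORE
  have hcore := coreLiftStatement LS.lam LS.lam_irreducible D r hD LS.d LS.kk
    (LS.pc ≠ PCase.chain) (by
      rcases LS.start with ⟨h1, h2⟩ | ⟨h1, h2⟩
      · exact Or.inl ⟨h1, h2⟩
      · exact Or.inr ⟨hDstart h1, h2⟩)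
    LS.M0 LS.finrank_M0 (wSubmodule LS.ρW LS.M0 LS.tr0) hlevels
  exact LS.modular hcore

/-- **S59 from the four top-level leaves**: [LEVEL-OPT], the producers, [LOC-L], [SEL-L]. -/
theorem s59_of_leaves (hopt : LevelOptStatement) (hprod : TWChainProducerStatement)
    (hchart : ChainChartStatement) (hsel : SelLStatement) : S59Statement :=
  s59_of hopt (liftStatement_of hprod hchart hsel)

end Fermat.Agent.ML
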