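/-
PROJECT ML (S59) — ARCHITECT (helper9) — INTERFACE FILE ML5: **the PRODUCER**
(`TWChainProducerStatement`, the last unproved hypothesis of `liftStatement_of`) split in two.

* `ChainSetting W p` : the ARITHMETIC input of the producer — the coefficient ring, `ρ_W`, `ρ̄`,
  the chain of levels `Nl 0 ∣ … ∣ Nl m` (`Nl (j+1) = Nl j * cq j`), the kinds, the case at `p`, the
  system `c` of constants, the dictionary between `ρ̄`, `ρ_W` and `W`, and ONE occurrence statement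
  (`lvlMod ≠ ⊥` at the level `0`, resp. `1` in the chain case).  No Taylor–Wiles data, no modules.
* **[PR-1]** `ChainSettingStatement` (owners: lead — the `p`-adic setup, the levels, the
  occurrence; helper4 — the residual and `ρ_W` clauses): a `ChainSetting` exists for every
  semistable `W`, `W[p]` irreducible, with an optimal level.
* **[PR-2]** `ProducerOfSettingStatement` (owner helper9): `ChainSetting W p → Nonempty (LiftSetting
  W p)`, from the proved leaves `twModChainStatement`, `levelGaloisPlusStatement`,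
  `steinbergOfKillStatement`, `strictOfTresStatement`, `atPOldPointStatement`,
  `atPNewPointStatement`, (KEY-H) and `REPTL.nonempty_twChainGalois`.
* `twChainProducerStatement_of` (PROVED): [PR-1] + [PR-2] ⇒ `TWChainProducerStatement`.

HOW [PR-1] IS MEANT (normalisations the owner is free to make, all inside the proof):
  (a) `p ∣ N ↔ p ∣ Δ`: if `p ∣ Δ` and `p ∤ N` replace `N` by `N p` (`isResModAway_mul_prime`);
  (b) `p = 3`: if no prime `≡ 2 mod 3` divides `N`, replace `N` by `N r`, `r` an auxiliary prime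
      (`AuxP.auxPrimeStatement`); `r ∈ S` with the second alternative of `S_ram`;
  (c) the chain primes `cq` = the primes `q ∣ Δ`, `q ∤ N` (then `ρ̄` is unramified at `q`: `ρ̄` is
      the reduction of the representation of the eigenform of level `N`), and `p` FIRST if `p ∣ N`
      and `ρ̄` is peu ramifiée at `p` (`pc = chain`, `Nl 0 = N / p`, `Nl 1 = N`; then `Nl 0 ≠ 1`:
      for `p = 3` by (b), for `p = 5` because `S₂(Γ₀(5)) = 0`, `S20.result`);
      `pc = strict` if `p ∣ N` and `ρ̄` is très ramifiée; `pc = flat` if `p ∤ Δ`;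
  (d) `c ℓ` := any lift of `a_ℓ(W) mod p` for `ℓ ∉ badSet p (Nl m)`; at the other primes whatever
      makes the occurrence statement easy (e.g. a lift of `θ(T_ℓ)` at the chain primes, so that
      `REPTX.exists_level0_lvlMod` at the level `Nl i₀` applies and
      `lvlMod 𝒪 p (Nl i₀) (Nl i₀) c ≤ lvlMod 𝒪 p (Nl m) (Nl i₀) c`).
-/
import Mathlib
import Fermat.Agent.ML.IFACE_helper9_Lift
import Fermat.Agent.ML.IFACE_helper2_TWModL
import Fermat.Prelude.Def_GaloisRep_ComplexConjugation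

set_option autoImplicit false

open Polynomial IsLocalRing

namespace Fermat.Agent.ML

local notation "Ω" => AlgebraicClosure ℚ
local notation "GQ" => (AlgebraicClosure ℚ ≃ₐ[ℚ] AlgebraicClosure ℚ)

/-- **the arithmetic input of the producer.** -/
structure ChainSetting (W : WeierstrassCurve ℤ) (p : ℕ) [Fact p.Prime] : Type 1 where
  /-- the coefficient ring -/
  𝒪 : Type
  [instCommRing : CommRing 𝒪]
  [instIsDomain : IsDomain 𝒪]
  [instDVR : IsDiscreteValuationRing 𝒪]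
  [instComplete : IsAdicComplete (maximalIdeal 𝒪) 𝒪]
  [instFinite : Finite (ResidueField 𝒪)]
  [instCharZero : CharZero 𝒪]
  p_mem : (p : 𝒪) ∈ maximalIdeal 𝒪
  lam : 𝒪
  lam_irreducible : Irreducible lam
  /-- the representation of `W` and its reduction -/
  ρW : GaloisRepAdic 𝒪
  ρbar : ResidualGaloisRep (ResidueField 𝒪)
  /-- the residual hypotheses -/
  absIrr : ρbar.IsAbsolutelyIrreducible
  det_cyc : (GaloisRepAdic.ofResidualGaloisRep ρbar).DetIsCyclotomic p
  split : ∀ σ : GQ, ∃ α β : ResidueField 𝒪,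
    LinearMap.charpoly (ρbar.ρ σ) = (X - C α) * (X - C β)
  irr_index_two : ∀ (F : Type) [Field F] [Algebra (ResidueField 𝒪) F] (G : Subgroup GQ),
    G.index = 2 → ∀ V : Submodule F (ρbar.baseChange F).V,
      (∀ σ ∈ G, ∀ x ∈ V, (ρbar.baseChange F).ρ σ x ∈ V) → V = ⊥ ∨ V = ⊤
  det_conj : LinearMap.det (ρbar.ρ complexConjugation) = -1
  /-- the chain -/
  pc : PCase
  m : ℕ
  cq : Fin m → ℕ
  sgn : Fin m → 𝒪
  K : Fin m → ChainKind
  resChain : IsResChain ρbar p pc cq sgn K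
  peu : pc = PCase.chain → IsPeuRamifieeAt ρbar p
  tres : pc = PCase.strict → ¬ IsPeuRamifieeAt ρbar p
  /-- the levels -/
  Nl : Fin (m + 1) → ℕ
  [instNeZero : ∀ i, NeZero (Nl i)]
  Nl_succ : ∀ j : Fin m, Nl j.succ = Nl j.castSucc * cq j
  Nl_squarefree : Squarefree (Nl (Fin.last m))
  Nl_zero_ne_one : Nl 0 ≠ 1
  /-- (W2′) -/
  w2 : p = 3 → ∃ r₀ : ℕ, r₀.Prime ∧ r₀ ∣ Nl 0 ∧ r₀ % 3 = 2
  /-- `p` divides the top level exactly when `W` is bad at `p` -/
  p_dvd_iff : p ∣ Nl (Fin.last m) ↔ pc ≠ PCase.flat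
  /-- the levels where `ρ̄` is known to occur are `≥ 5` (all of them, except the level `0` of the
  chain case) -/
  five_le : ∀ i : Fin (m + 1), (pc = PCase.chain → i.val ≠ 0) → 5 ≤ Nl i
  /-- the set `S`: `p` and the primes of the level `0` -/
  S : Finset ℕ
  mem_S : ∀ ℓ : ℕ, ℓ ∈ S ↔ ℓ.Prime ∧ (ℓ = p ∨ ℓ ∣ Nl 0)
  S_ram : ∀ ℓ ∈ S, ℓ ≠ p → ¬ ρbar.IsUnramifiedAt ℓ ∨
    (NoLevelRaisingAt ρbar ℓ ∧ ((ℓ : ℕ) : ResidueField 𝒪) ≠ 1)
  unr_outside : ∀ ℓ : ℕ, ℓ.Prime → ℓ ∉ S → ρbar.IsUnramifiedAt ℓ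
  /-- the bad primes of `W` divide the top level -/
  bad_dvd : ∀ ℓ : ℕ, ℓ.Prime → (ℓ : ℤ) ∣ W.Δ → ℓ ∣ Nl (Fin.last m)
  /-- the system of constants -/
  c : Nat.Primes → 𝒪
  c_res : ∀ ℓ : Nat.Primes, (ℓ : ℕ) ∉ badSet p (Nl (Fin.last m)) →
    residue 𝒪 (c ℓ) = ((W.apOfModel ℓ : ℤ) : ResidueField 𝒪)
  /-- Frobenius outside the top level -/
  ρbar_charpoly : ∀ ℓ : ℕ, ℓ.Prime → ℓ ∉ badSet p (Nl (Fin.last m)) →
    ∀ A : ValuationSubring Ω, A.LiesOverPrime ℓ → ∀ σ : GQ, A.IsFrobeniusAt σ ℓ →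
      LinearMap.charpoly (ρbar.ρ σ) =
        X ^ 2 - C (((W.apOfModel ℓ : ℤ)) : ResidueField 𝒪) * X + C ((ℓ : ℕ) : ResidueField 𝒪)
  ρW_charpoly : ∀ ℓ : ℕ, ℓ.Prime → ℓ ∉ badSet p (Nl (Fin.last m)) →
    ∀ A : ValuationSubring Ω, A.LiesOverPrime ℓ → ∀ σ : GQ, A.IsFrobeniusAt σ ℓ →
      LinearMap.charpoly (ρW.ρ σ) = X ^ 2 - C (((W.apOfModel ℓ : ℤ)) : 𝒪) * X + C ((ℓ : ℕ) : 𝒪)
  /-- `ρ̄` is the reduction of `ρ_W` -/
  ρW_trace_residue : ∀ σ : GQ, residue 𝒪 (ρW.trace σ) =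
    LinearMap.trace (ResidueField 𝒪) ρbar.V (ρbar.ρ σ)
  ρW_absIrr : ρW.residual.IsAbsolutelyIrreducible
  /-- the local properties of `ρ_W` -/
  ρW_det : ρW.DetIsCyclotomic p
  ρW_unr : ∀ ℓ : ℕ, ℓ.Prime → ℓ ∉ S ∪ Finset.univ.image cq → ρW.IsUnramifiedAt ℓ
  ρW_unip : ∀ ℓ : ℕ, ℓ.Prime → ℓ ≠ p → ρW.IsUnipotentOnInertiaAt ℓ
  ρW_flat : pc = PCase.flat → ρW.IsFlatAt p
  ρW_ord : pc ≠ PCase.flat → ρW.IsOrdinaryAt p
  ρbar_ord : pc ≠ PCase.flat → (GaloisRepAdic.ofResidualGaloisRep ρbar).IsOrdinaryAt p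
  wPoint : IsWPoint ρW p pc cq sgn
  /-- **the occurrence**: the module of the level `0` (chain case: of the level `1`) is not zero -/
  occ : ∀ i : Fin (m + 1), (pc ≠ PCase.chain → i.val = 0) → (pc = PCase.chain → i.val = 1) →
    lvlMod 𝒪 p (Nl (Fin.last m)) (Nl i) c ≠ ⊥

attribute [instance] ChainSetting.instCommRing ChainSetting.instIsDomain ChainSetting.instDVR
  ChainSetting.instComplete ChainSetting.instFinite ChainSetting.instCharZero
  ChainSetting.instNeZero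

/-- **[PR-1]** (owners: lead, helper4): the arithmetic input exists. -/
def ChainSettingStatement : Prop :=
  ∀ (p : ℕ) [Fact p.Prime] (_ : p = 3 ∨ p = 5)
    (W : WeierstrassCurve ℤ) (_ : W.Δ ≠ 0) (_ : W.IsSemistableModel)
    (_ : W.ModRepIsIrreducible p)
    (N : ℕ) (_ : IsOptimalLevel W p N) (_ : IsResModAway W p N),
    Nonempty (ChainSetting W p)

/-- **[PR-2]** (owner helper9): the Taylor–Wiles producers for a chain setting. -/
def ProducerOfSettingStatement : Prop :=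
  ∀ (p : ℕ) [Fact p.Prime] (_ : p = 3 ∨ p = 5) (W : WeierstrassCurve ℤ),
    ChainSetting W p → Nonempty (LiftSetting W p)

/-- [PR-1] + [PR-2] ⇒ the producers. -/
theorem twChainProducerStatement_of (h1 : ChainSettingStatement)
    (h2 : ProducerOfSettingStatement) : TWChainProducerStatement := by
  intro p _ hp W hΔ hss hirr N hopt hres
  obtain ⟨CS⟩ := h1 p hp W hΔ hss hirr N hopt hres
  exact h2 p hp W CS

end Fermat.Agent.ML
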