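/-
PROJECT ML (S59) — ARCHITECT (helper9) — INTERFACE FILE ML5b: two SELF-CONTAINED leaves of [PR-2]
(`ProducerOfSettingStatement`, `ML/IFACE_helper9_Producer.lean`), farmed out.

* `FiveLeOfLvlModStatement` (proposed owner helper2): a squarefree level `N ∣ Ntop` whose localised
  module `lvlMod 𝒪 p Ntop N c` is not zero is `≥ 5`.  (Proof: the algebra generated by the `T_ℓ`,
  `ℓ ∉ badSet p Ntop`, on the finite free module `lvlMod` is a non-zero finite torsion-free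
  `𝒪`-algebra; take a point with values in a discrete valuation ring finite over `𝒪`
  (`RB.REPT.exists_point_of_prime` at a minimal prime), `RB.OCC.exists_character_of_point` gives a
  character of `heckeAlgebra N 2 (badSet p Ntop)`, and helper1's `REPTX.five_le_level` concludes.)
* `ModularOfLevel0Statement` (proposed owner helper5): the dictionary at the top of [LIFT] — if the
  quotient of `M0 = lvlMod 𝒪 p Ntop Ntop c` by the relations `tr0 σ = tr ρ_W(σ)` is not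
  `λ`-power torsion, `W` is modular.  (Proof: `TOP.exists_point_of_not_torsion` gives a point
  `x : 𝒪[tr0 σ] → 𝒪`, `x (tr0 σ) = tr ρ_W σ`; `RB.OCC.exists_character_of_point` (with
  `t ℓ := tr0 (Frob_ℓ)`, `S := badSet p Ntop`) gives `χ : heckeAlgebra Ntop 2 S → 𝒪`,
  `χ (T_ℓ) = tr ρ_W(Frob_ℓ) = a_ℓ(W)`; `TOP.modular_of_character` concludes.)
-/
import Mathlib
import Fermat.Agent.ML.IFACE_helper9_Producer

set_option autoImplicit false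

open Polynomial IsLocalRing CongruenceSubgroup ModularCurve.Period

namespace Fermat.Agent.ML

open Fermat.Agent.GR Fermat.Agent.LR Fermat.Agent.RB

local notation "Ω" => AlgebraicClosure ℚ
local notation "GQ" => (AlgebraicClosure ℚ ≃ₐ[ℚ] AlgebraicClosure ℚ)

/-- **a squarefree level whose localised module is not zero is at least `5`.** -/
def FiveLeOfLvlModStatement : Prop :=
  ∀ {𝒪 : Type} [CommRing 𝒪] [IsDomain 𝒪] [IsDiscreteValuationRing 𝒪]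
    [IsAdicComplete (maximalIdeal 𝒪) 𝒪] [Finite (ResidueField 𝒪)] [CharZero 𝒪]
    (p : ℕ) [Fact p.Prime] (Ntop N : ℕ) [NeZero N] (_ : Squarefree N) (_ : N ∣ Ntop)
    (c : Nat.Primes → 𝒪)
    (_ : Module.Free 𝒪 ↥(lvlMod 𝒪 p Ntop N c)) (_ : Module.Finite 𝒪 ↥(lvlMod 𝒪 p Ntop N c))
    (_ : lvlMod 𝒪 p Ntop N c ≠ ⊥),
    5 ≤ N

/-- **the dictionary at the top of [LIFT]**, on the module `lvlMod 𝒪 p Ntop Ntop c`. -/
def ModularOfLevel0Statement : Prop :=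
  ∀ {𝒪 : Type} [CommRing 𝒪] [IsDomain 𝒪] [IsDiscreteValuationRing 𝒪]
    [IsAdicComplete (maximalIdeal 𝒪) 𝒪] [Finite (ResidueField 𝒪)] [CharZero 𝒪]
    (p : ℕ) [Fact p.Prime] (W : WeierstrassCurve ℤ) (Ntop : ℕ) [NeZero Ntop]
    (_ : Squarefree Ntop) (_ : ∀ ℓ : ℕ, ℓ.Prime → (ℓ : ℤ) ∣ W.Δ → ℓ ∣ Ntop)
    (c : Nat.Primes → 𝒪) (lam : 𝒪) (_ : Irreducible lam)
    (_ : Module.Free 𝒪 ↥(lvlMod 𝒪 p Ntop Ntop c))
    (_ : Module.Finite 𝒪 ↥(lvlMod 𝒪 p Ntop Ntop c))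
    (tr0 : GQ → Module.End 𝒪 ↥(lvlMod 𝒪 p Ntop Ntop c))
    (_ : ∀ σ τ : GQ, Commute (tr0 σ) (tr0 τ))
    -- the trace operators at the Frobenius elements outside the level are the Hecke operators
    (_ : ∀ (ℓ : ℕ) (hℓ : ℓ.Prime), ℓ ∉ badSet p Ntop →
      ∀ A : ValuationSubring Ω, A.LiesOverPrime ℓ → ∀ σ : GQ, A.IsFrobeniusAt σ ℓ →
        ∀ x : ↥(lvlMod 𝒪 p Ntop Ntop c),
          ((tr0 σ x : ↥(lvlMod 𝒪 p Ntop Ntop c)) : ↥(parabolicHoms 𝒪 (Gamma0 Ntop) 𝒪)) =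
            heckeParP Ntop ⟨ℓ, hℓ⟩ 𝒪 𝒪 (x : ↥(parabolicHoms 𝒪 (Gamma0 Ntop) 𝒪)))
    (ρW : GaloisRepAdic 𝒪)
    (_ : ∀ ℓ : ℕ, ℓ.Prime → ℓ ∉ badSet p Ntop →
      ∀ A : ValuationSubring Ω, A.LiesOverPrime ℓ → ∀ σ : GQ, A.IsFrobeniusAt σ ℓ →
        LinearMap.charpoly (ρW.ρ σ) =
          X ^ 2 - C (((W.apOfModel ℓ : ℤ)) : 𝒪) * X + C ((ℓ : ℕ) : 𝒪))
    (_ : ¬ ∀ x : ↥(lvlMod 𝒪 p Ntop Ntop c), ∃ k : ℕ,
      lam ^ k • x ∈ wSubmodule ρW ↥(lvlMod 𝒪 p Ntop Ntop c) tr0),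
    ∃ N' : ℕ, W.IsModularModelOfLevel N' ∧ ¬ p ^ 2 ∣ N' ∧
      (∀ ℓ : ℕ, ℓ.Prime → (ℓ : ℤ) ∣ W.Δ → ℓ ∣ N') ∧ (∀ q : ℕ, q.Prime → ¬ q ^ 3 ∣ N')

end Fermat.Agent.ML
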