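/-
PROJECT ML (S59) — [REPT-L] Layer B (helper1), file 1: **an element of a finite flat algebra which is
topologically nilpotent at all characteristic-zero points is nilpotent modulo `𝔪_𝒪`.**

`A` finite and torsion-free over the complete discrete valuation ring `𝒪` (NOT assumed local),
`t : A` with `ψ t ∈ 𝔪_B` for every point `ψ : A → B` (`B` a discrete valuation ring finite over `𝒪`).
Then `t ^ k ∈ 𝔪_𝒪 A` for some `k`: every maximal ideal of `A` contains a minimal prime, which lies over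
`0` and is the kernel of a point; by lying over the maximal ideal is the pull back of `𝔪_B`; hence
`t` lies in the Jacobson radical, which is nilpotent modulo `𝔪_𝒪 A` (`A / 𝔪_𝒪 A` is a finite ring).
-/
import Mathlib
import Fermat.Agent.RB.REPT_helper1_Points

set_option autoImplicit false
set_option linter.unusedSectionVars false
set_option linter.unusedVariables false
set_option linter.style.haveILetI false

namespace Fermat.Agent.ML.REPTLB

open IsLocalRing Fermat.Agent.RB.REPT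
open scoped TensorProduct

section Jac

variable {𝒪 : Type} [CommRing 𝒪] [IsDomain 𝒪] [IsDiscreteValuationRing 𝒪]
  [IsAdicComplete (maximalIdeal 𝒪) 𝒪] [CharZero 𝒪] [Finite (ResidueField 𝒪)]
  {A : Type} [CommRing A] [Algebra 𝒪 A] [Module.Finite 𝒪 A]

/-- `A / 𝔪_𝒪 A` is a finite ring. -/
theorem finite_quot_map_maximalIdeal :
    Finite (A ⧸ (maximalIdeal 𝒪).map (algebraMap 𝒪 A)) := by
  haveI : Finite (𝒪 ⧸ maximalIdeal 𝒪) := ‹Finite (ResidueField 𝒪)›
  haveI : Module.Finite (𝒪 ⧸ maximalIdeal 𝒪) ((𝒪 ⧸ maximalIdeal 𝒪) ⊗[𝒪] A) := inferInstance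
  haveI : Finite ((𝒪 ⧸ maximalIdeal 𝒪) ⊗[𝒪] A) := Module.finite_of_finite (𝒪 ⧸ maximalIdeal 𝒪)
  have e := TensorProduct.quotTensorEquivQuotSMul A (maximalIdeal 𝒪)
  haveI : Finite (A ⧸ (maximalIdeal 𝒪 • ⊤ : Submodule 𝒪 A)) := Finite.of_equiv _ e.toEquiv
  let g : (A ⧸ (maximalIdeal 𝒪 • ⊤ : Submodule 𝒪 A)) →ₗ[𝒪]
      (A ⧸ (maximalIdeal 𝒪).map (algebraMap 𝒪 A)) :=
    Submodule.liftQ _ ((Ideal.Quotient.mkₐ 𝒪 ((maximalIdeal 𝒪).map (algebraMap 𝒪 A))).toLinearMap)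
      (by
        intro x hx
        rw [LinearMap.mem_ker]
        show Ideal.Quotient.mk _ x = 0
        rw [Ideal.Quotient.eq_zero_iff_mem]
        rw [Ideal.smul_top_eq_map] at hx
        exact hx)
  refine Finite.of_surjective g ?_
  intro y
  obtain ⟨x, rfl⟩ := Ideal.Quotient.mk_surjective y
  exact ⟨Submodule.Quotient.mk x, rfl⟩

/-- a minimal prime of a torsion-free `𝒪`-algebra lies over `0`. -/
theorem comap_eq_bot_of_mem_minimalPrimes' [Module.IsTorsionFree 𝒪 A] {𝔭 : Ideal A}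
    (h𝔭 : 𝔭 ∈ minimalPrimes A) : 𝔭.comap (algebraMap 𝒪 A) = ⊥ := by
  rw [eq_bot_iff]
  intro a ha
  rw [Ideal.mem_bot]
  by_contra ha0
  have hnzd : algebraMap 𝒪 A a ∈ nonZeroDivisors A := by
    rw [mem_nonZeroDivisors_iff_right]
    intro x hx
    have h1 : a • x = 0 := by rw [Algebra.smul_def, mul_comm]; exact hx
    exact (smul_eq_zero.mp h1).resolve_left ha0
  exact Set.disjoint_left.1 (Ideal.disjoint_nonZeroDivisors_of_mem_minimalPrimes h𝔭) ha hnzd

/-- **every maximal ideal of `A` is the pull back of the maximal ideal of a point.** -/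
theorem exists_point_comap_eq [Module.IsTorsionFree 𝒪 A] (𝔐 : Ideal A) [h𝔐 : 𝔐.IsMaximal] :
    ∃ P : DVRPoint 𝒪 A, (maximalIdeal P.B).comap (P.ψ : A →+* P.B) = 𝔐 := by
  obtain ⟨𝔭, h𝔭, hle⟩ := Ideal.exists_minimalPrimes_le (bot_le : (⊥ : Ideal A) ≤ 𝔐)
  haveI : 𝔭.IsPrime := h𝔭.1.1
  obtain ⟨P, hP⟩ := exists_point_of_prime (𝒪 := 𝒪) 𝔭 (comap_eq_bot_of_mem_minimalPrimes' h𝔭)
  refine ⟨P, ?_⟩
  letI : Algebra A P.B := P.ψ.toRingHom.toAlgebra
  haveI : IsScalarTower 𝒪 A P.B := IsScalarTower.of_algebraMap_eq fun a => (P.ψ.commutes a).symm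
  haveI : Algebra.IsIntegral A P.B :=
    ⟨fun b => (Algebra.IsIntegral.isIntegral (R := 𝒪) b).tower_top⟩
  have hker : RingHom.ker (algebraMap A P.B) ≤ 𝔐 := by
    have : RingHom.ker (algebraMap A P.B) = 𝔭 := hP
    rw [this]
    exact hle
  obtain ⟨Q, hQmax, hQ⟩ := Ideal.exists_ideal_over_maximal_of_isIntegral (S := P.B) 𝔐 hker
  have hQeq : Q = maximalIdeal P.B := IsLocalRing.eq_maximalIdeal hQmax
  rw [← hQeq]
  exact hQ

/-- **an element which lies in the maximal ideal at every point is nilpotent modulo `𝔪_𝒪 A`.** -/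
theorem exists_pow_mem_map_of_forall_point [Module.IsTorsionFree 𝒪 A] (t : A)
    (h : ∀ P : DVRPoint 𝒪 A, P.ψ t ∈ maximalIdeal P.B) :
    ∃ k : ℕ, t ^ k ∈ (maximalIdeal 𝒪).map (algebraMap 𝒪 A) := by
  -- `t` lies in the Jacobson radical
  have hjac : t ∈ Ideal.jacobson (⊥ : Ideal A) := by
    rw [Ideal.jacobson, Ideal.mem_sInf]
    rintro 𝔐 ⟨-, h𝔐⟩
    haveI := h𝔐
    obtain ⟨P, hP⟩ := exists_point_comap_eq (𝒪 := 𝒪) 𝔐
    rw [← hP, Ideal.mem_comap]
    exact h P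
  -- the quotient is a finite ring
  haveI := finite_quot_map_maximalIdeal (𝒪 := 𝒪) (A := A)
  haveI : IsArtinianRing (A ⧸ (maximalIdeal 𝒪).map (algebraMap 𝒪 A)) := inferInstance
  have hjac' : Ideal.Quotient.mk ((maximalIdeal 𝒪).map (algebraMap 𝒪 A)) t ∈
      Ideal.jacobson (⊥ : Ideal (A ⧸ (maximalIdeal 𝒪).map (algebraMap 𝒪 A))) := by
    rw [Ideal.mem_jacobson_bot]
    intro y
    obtain ⟨y, rfl⟩ := Ideal.Quotient.mk_surjective y
    have h1 := (Ideal.mem_jacobson_bot.1 hjac) y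
    have h2 := h1.map (Ideal.Quotient.mk ((maximalIdeal 𝒪).map (algebraMap 𝒪 A)))
    rwa [map_add, map_mul, map_one] at h2
  obtain ⟨k, hk⟩ := IsArtinianRing.isNilpotent_jacobson_bot
    (R := A ⧸ (maximalIdeal 𝒪).map (algebraMap 𝒪 A))
  refine ⟨k, ?_⟩
  rw [← Ideal.Quotient.eq_zero_iff_mem, map_pow]
  have h3 := Ideal.pow_mem_pow hjac' k
  rw [hk] at h3
  exact h3

/-- **a reduced finite torsion-free `𝒪`-algebra embeds into the product of its characteristic-zero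
points** (no locality assumption): the points attached to the minimal primes. -/
theorem exists_points_family_injective' [Module.IsTorsionFree 𝒪 A] [IsReduced A] [Nontrivial A] :
    ∃ (J : Type) (_ : Finite J) (_ : Nonempty J) (pt : J → DVRPoint 𝒪 A),
      ∀ a : A, (∀ j, (pt j).ψ a = 0) → a = 0 := by
  classical
  haveI : IsNoetherianRing A := IsNoetherianRing.of_finite 𝒪 A
  have hfin : (minimalPrimes A).Finite := minimalPrimes.finite_of_isNoetherianRing A
  have hex : ∀ 𝔭 : {𝔭 : Ideal A // 𝔭 ∈ minimalPrimes A}, ∃ P : DVRPoint 𝒪 A,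
      RingHom.ker P.ψ = 𝔭.1 := by
    rintro ⟨𝔭, h𝔭⟩
    haveI : 𝔭.IsPrime := h𝔭.1.1
    exact exists_point_of_prime (𝒪 := 𝒪) 𝔭 (comap_eq_bot_of_mem_minimalPrimes' h𝔭)
  choose pt hpt using hex
  obtain ⟨𝔐, h𝔐⟩ := Ideal.exists_maximal A
  obtain ⟨𝔭₀, h𝔭₀, -⟩ := Ideal.exists_minimalPrimes_le (bot_le : (⊥ : Ideal A) ≤ 𝔐)
  refine ⟨{𝔭 : Ideal A // 𝔭 ∈ minimalPrimes A}, hfin.to_subtype, ⟨⟨𝔭₀, h𝔭₀⟩⟩, pt, ?_⟩
  intro a ha
  have h1 : a ∈ sInf (minimalPrimes A) := by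
    rw [Ideal.mem_sInf]
    intro 𝔭 h𝔭
    have h2 : a ∈ RingHom.ker (pt ⟨𝔭, h𝔭⟩).ψ := by
      rw [RingHom.mem_ker]
      exact ha ⟨𝔭, h𝔭⟩
    rw [hpt ⟨𝔭, h𝔭⟩] at h2
    exact h2
  have h3 : sInf ((⊥ : Ideal A).minimalPrimes) = (⊥ : Ideal A).radical := Ideal.sInf_minimalPrimes
  have h4 : (⊥ : Ideal A).radical = ⊥ := nilradical_eq_zero A
  have h5 : a ∈ sInf ((⊥ : Ideal A).minimalPrimes) := h1
  rw [h3, h4] at h5
  exact h5

/-- two elements which agree at all points are equal. -/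
theorem eq_of_forall_point' [Module.IsTorsionFree 𝒪 A] [IsReduced A] {a b : A}
    (h : ∀ P : DVRPoint 𝒪 A, P.ψ a = P.ψ b) : a = b := by
  by_cases hA : Nontrivial A
  · haveI := hA
    obtain ⟨J, -, -, pt, hinj⟩ := exists_points_family_injective' (𝒪 := 𝒪) (A := A)
    rw [← sub_eq_zero]
    refine hinj _ fun j => ?_
    rw [map_sub, h (pt j), sub_self]
  · rw [not_nontrivial_iff_subsingleton] at hA
    exact Subsingleton.elim _ _

/-- an element of the Jacobson radical lies in the maximal ideal at every point. -/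
theorem point_mem_maximalIdeal_of_mem_jacobson {t : A} (ht : t ∈ Ideal.jacobson (⊥ : Ideal A))
    (P : DVRPoint 𝒪 A) : P.ψ t ∈ maximalIdeal P.B := by
  letI : Algebra A P.B := P.ψ.toRingHom.toAlgebra
  haveI : IsScalarTower 𝒪 A P.B := IsScalarTower.of_algebraMap_eq fun a => (P.ψ.commutes a).symm
  haveI : Algebra.IsIntegral A P.B :=
    ⟨fun b => (Algebra.IsIntegral.isIntegral (R := 𝒪) b).tower_top⟩
  have hmax : ((maximalIdeal P.B).comap (algebraMap A P.B)).IsMaximal :=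
    Ideal.isMaximal_comap_of_isIntegral_of_isMaximal (R := A) (maximalIdeal P.B)
  have h1 : t ∈ (maximalIdeal P.B).comap (algebraMap A P.B) := by
    rw [Ideal.jacobson, Ideal.mem_sInf] at ht
    exact ht ⟨bot_le, hmax⟩
  exact h1

end Jac

end Fermat.Agent.ML.REPTLB
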