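/-
PROJECT ML (S59) — [PR-2] leaf (A) (helper2): **`fiveLeOfLvlModStatement : FiveLeOfLvlModStatement`**
(helper9's literal, `ML/IFACE_helper9_Prod2.lean`).

`N` squarefree, `N ∣ Ntop`, `lvlMod 𝒪 p Ntop N c ≠ ⊥` ⇒ `5 ≤ N`.  Proof: `lvlMod 𝒪 p Ntop N c` is
helper3's `L0.M0 N (badSet p Ntop) c`; the algebra `(L0.fam N S c).alg` generated by the Hecke
operators away from `S = badSet p Ntop` on it is a non-zero, finite, torsion-free `𝒪`-algebra, so it
has a point with values in a discrete valuation ring finite over `𝒪`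
(`REPTLB.exists_point_comap_eq` at a maximal ideal); by helper1's `OCC.exists_character_of_point`
the point is a character of `heckeAlgebra N 2 S`, and helper1's `REPTX.five_le_level` concludes.

Also exported (for [PR-1]/[PR-2]): `nontrivial_alg_of_ne_bot`, `exists_dvrPoint_alg`,
`exists_character_of_dvrPoint`, `exists_character_of_M0_ne_bot`, `badSet_mono`, `lvlMod_mono`.
-/
import Mathlib
import Fermat.Agent.ML.IFACE_helper9_Prod2
import Fermat.Agent.ML.REPTX_helper1_Small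
import Fermat.Agent.ML.REPTLB_helper1_Jac
import Fermat.Agent.RB.LEVEL0_helper3_M0
import Fermat.Agent.RB.OCC_helper1_Level0

set_option autoImplicit false
set_option linter.unusedSectionVars false
set_option linter.unusedVariables false
set_option linter.style.haveILetI false
set_option maxSynthPendingDepth 2

namespace Fermat.Agent.ML

open CongruenceSubgroup ModularCurve.Period IsLocalRing CuspForm
  Fermat.Agent.GR Fermat.Agent.RB Fermat.Agent.RB.TWM Fermat.Agent.RB.L0 Fermat.Agent.RB.REPT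
open scoped MatrixGroups

section FiveLe

variable {𝒪 : Type} [CommRing 𝒪] [IsDomain 𝒪] [IsDiscreteValuationRing 𝒪]
  [IsAdicComplete (maximalIdeal 𝒪) 𝒪] [Finite (ResidueField 𝒪)] [CharZero 𝒪]

/-- the Hecke algebra of a non-zero `M0` is not the zero ring. -/
theorem nontrivial_alg_of_ne_bot (N : ℕ) [NeZero N] (S : Set ℕ) (c : Nat.Primes → 𝒪)
    (hne : M0 N S c ≠ ⊥) : Nontrivial (fam N S c).alg := by
  haveI : Nontrivial ↥(M0 N S c) := (Submodule.nontrivial_iff_ne_bot).2 hne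
  refine ⟨⟨1, 0, fun h => ?_⟩⟩
  obtain ⟨m, hm⟩ := exists_ne (0 : ↥(M0 N S c))
  have h1 : (1 : Module.End 𝒪 ↥(M0 N S c)) m = (0 : Module.End 𝒪 ↥(M0 N S c)) m :=
    congrArg (fun a : (fam N S c).alg => (a : Module.End 𝒪 ↥(M0 N S c)) m) h
  exact hm h1

/-- the Hecke algebra of a non-zero `M0` has a point with values in a discrete valuation ring
finite over `𝒪`. -/
theorem exists_dvrPoint_alg (N : ℕ) [NeZero N] (S : Set ℕ) (c : Nat.Primes → 𝒪)
    (hne : M0 N S c ≠ ⊥) : Nonempty (DVRPoint 𝒪 (fam N S c).alg) := by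
  haveI : Nontrivial (fam N S c).alg := nontrivial_alg_of_ne_bot N S c hne
  haveI : Module.Finite 𝒪 (fam N S c).alg := (fam N S c).finite_alg
  haveI : Module.IsTorsionFree 𝒪 (fam N S c).alg := (fam N S c).isTorsionFree_alg
  obtain ⟨𝔐, h𝔐⟩ := Ideal.exists_maximal (fam N S c).alg
  haveI := h𝔐
  obtain ⟨x, -⟩ := Fermat.Agent.ML.REPTLB.exists_point_comap_eq (𝒪 := 𝒪) 𝔐
  exact ⟨x⟩

/-- every point of the Hecke algebra of `M0 N S c` (`S ⊇` the primes of `N`) is a character of the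
Hecke algebra away from `S` (helper1's `OCC.exists_character_of_point`). -/
theorem exists_character_of_dvrPoint (N : ℕ) [NeZero N] (S : Set ℕ) (c : Nat.Primes → 𝒪)
    (hNS : ∀ q : ℕ, q.Prime → q ∣ N → q ∈ S) (x : DVRPoint 𝒪 (fam N S c).alg) :
    ∃ χ : heckeAlgebra N 2 S →+* x.B,
      ∀ (ℓ : ℕ) (hℓ : ℓ.Prime) (hℓN : ¬ ℓ ∣ N) (hℓS : ℓ ∉ S),
        χ (heckeAlgebra.T hℓ hℓN hℓS) = x.ψ (genP N S c ⟨ℓ, hℓ⟩) := by
  haveI : Module.Finite 𝒪 (fam N S c).alg := (fam N S c).finite_alg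
  haveI : Algebra.IsIntegral 𝒪 (fam N S c).alg := Algebra.IsIntegral.of_finite 𝒪 (fam N S c).alg
  refine OCC.exists_character_of_point S hNS
    ((parabolicHoms 𝒪 (Gamma0 N) 𝒪).subtype ∘ₗ (M0 N S c).subtype) ?_
    (fun h => h.1.2) (fam N S c).alg.val Subtype.val_injective
    (genP N S c) ?_ x.ψ
  · exact (Subtype.val_injective).comp Subtype.val_injective
  · intro ℓ hℓS h
    show ((((genP N S c ℓ : (fam N S c).alg) :
      Module.End 𝒪 ↥(M0 N S c)) h : ↥(M0 N S c)) :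
        ↥(parabolicHoms 𝒪 (Gamma0 N) 𝒪)).1 = _
    rw [coe_genP N S c ℓ hℓS]
    rfl

/-- **a level whose module `M0 N S c` (`S ⊇` the primes of `N`) is not zero carries a character of
the Hecke algebra away from `S`** with values in a discrete valuation ring finite over `𝒪`. -/
theorem exists_character_of_M0_ne_bot (N : ℕ) [NeZero N] (S : Set ℕ) (c : Nat.Primes → 𝒪)
    (hNS : ∀ q : ℕ, q.Prime → q ∣ N → q ∈ S) (hne : M0 N S c ≠ ⊥) :
    ∃ x : DVRPoint 𝒪 (fam N S c).alg, ∃ χ : heckeAlgebra N 2 S →+* x.B,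
      ∀ (ℓ : ℕ) (hℓ : ℓ.Prime) (hℓN : ¬ ℓ ∣ N) (hℓS : ℓ ∉ S),
        χ (heckeAlgebra.T hℓ hℓN hℓS) = x.ψ (genP N S c ⟨ℓ, hℓ⟩) := by
  obtain ⟨x⟩ := exists_dvrPoint_alg N S c hne
  exact ⟨x, exists_character_of_dvrPoint N S c hNS x⟩

end FiveLe

section Mono

/-- the bad set grows with the level. -/
theorem badSet_mono (p : ℕ) {N N' : ℕ} (h : N ∣ N') : badSet p N ⊆ badSet p N' := by
  rintro ℓ ⟨hℓ, h1⟩
  exact ⟨hℓ, h1.imp id fun h2 => h2.trans h⟩

variable {𝒪 : Type} [CommRing 𝒪] [IsDomain 𝒪] [IsDiscreteValuationRing 𝒪]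

/-- fewer conditions, bigger primary part: `lvlMod` grows with the top level. -/
theorem lvlMod_mono (p : ℕ) {Ntop Ntop' : ℕ} (h : Ntop ∣ Ntop') (N : ℕ) [NeZero N]
    (c : Nat.Primes → 𝒪) : lvlMod 𝒪 p Ntop N c ≤ lvlMod 𝒪 p Ntop' N c := by
  intro x hx i n
  exact hx ⟨(i : Nat.Primes), fun hi => i.2 (badSet_mono p h hi)⟩ n

end Mono

/-- **[PR-2] leaf (A)**: a squarefree level whose localised module is not zero is at least `5`. -/
theorem fiveLeOfLvlModStatement : FiveLeOfLvlModStatement := by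
  intro 𝒪 _ _ _ _ _ _ p _ Ntop N _ hsq hdvd c _ _ hne
  have hNS : ∀ q : ℕ, q.Prime → q ∣ N → q ∈ badSet p Ntop :=
    fun q hq hqN => ⟨hq, Or.inr (hqN.trans hdvd)⟩
  obtain ⟨x, χ, -⟩ := exists_character_of_M0_ne_bot N (badSet p Ntop) c hNS hne
  exact Fermat.Agent.ML.REPTX.five_le_level hsq χ

end Fermat.Agent.ML
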