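/-
PROJECT ML — [TOP-L] (helper9): **the dictionary at the top of [LIFT]**.

* `exists_point_of_not_torsion` (pure algebra): commuting operators `t i` on an `𝒪`-module `M0`
  and scalars `a i` such that `M0 ⧸ ∑ range (t i - a i)` is not `λ`-power torsion: there is an
  `𝒪`-algebra homomorphism `adjoin (t i) → 𝒪`, `t i ↦ a i`.
* `exists_eigenform_of_character_int` : a character `χ` of the Hecke algebra `𝕋_S` of level `M`
  with values in a domain of characteristic zero and INTEGRAL values `χ (T_ℓ) = a ℓ ∈ ℤ` gives a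
  normalised eigenform `g` of level `M` with `a_ℓ(g) = a ℓ` (`ℓ ∉ S`, `ℓ ∤ M`), exactly.
* `modular_of_character` : if moreover `a ℓ = a_ℓ(W)`, `M` is squarefree and divisible by the bad
  primes of `W`, and `S` contains finitely many primes, then `W` is modular of the squarefree
  level `N' = M · ∏ (primes of S not dividing M)` (stabilisation at the exceptional primes,
  helper1's `S58.exists_stab`): the conclusion of `LiftStatement`.
-/
import Mathlib
import Fermat.Agent.RB.TOPIA_helper1_Back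
import Fermat.Agent.S58.STAB_helper1_Main

set_option autoImplicit false
set_option linter.unusedSectionVars false

open Polynomial IsLocalRing

namespace Fermat.Agent.ML.TOP

section Point

variable {𝒪 : Type*} [CommRing 𝒪] [IsDomain 𝒪] [IsDiscreteValuationRing 𝒪]
  {M0 : Type*} [AddCommGroup M0] [Module 𝒪 M0] {ι : Type*}
  (t : ι → Module.End 𝒪 M0) (a : ι → 𝒪)

/-- the submodule `∑ range (t i - a i)` -/
def relSub : Submodule 𝒪 M0 :=
  ⨆ i, LinearMap.range (t i - algebraMap 𝒪 (Module.End 𝒪 M0) (a i))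

/-- the operators which preserve `relSub` and act on the quotient by a scalar -/
def IsScalarMod (T : Module.End 𝒪 M0) : Prop :=
  (∀ y ∈ relSub t a, T y ∈ relSub t a) ∧ ∃ c : 𝒪, ∀ x : M0, T x - c • x ∈ relSub t a

variable {t a}

theorem isScalarMod_gen (ht : ∀ i j, Commute (t i) (t j)) (i : ι) : IsScalarMod t a (t i) := by
  refine ⟨?_, a i, fun x => ?_⟩
  · intro y hy
    rw [relSub] at hy
    induction hy using Submodule.iSup_induction' with
    | mem j y hy =>
      obtain ⟨z, rfl⟩ := hy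
      refine Submodule.mem_iSup_of_mem j ⟨t i z, ?_⟩
      rw [LinearMap.sub_apply, LinearMap.sub_apply, Module.algebraMap_end_apply,
        Module.algebraMap_end_apply, map_sub, map_smul]
      have := congrArg (fun e : Module.End 𝒪 M0 => e z) (ht i j).eq
      simp only [Module.End.mul_apply] at this
      rw [this]
    | zero => rw [map_zero]; exact zero_mem _
    | add y y' _ _ h h' => rw [map_add]; exact add_mem h h'
  · refine Submodule.mem_iSup_of_mem i ⟨x, ?_⟩
    rw [LinearMap.sub_apply, Module.algebraMap_end_apply]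

theorem isScalarMod_algebraMap (r : 𝒪) :
    IsScalarMod t a (algebraMap 𝒪 (Module.End 𝒪 M0) r) := by
  refine ⟨fun y hy => ?_, r, fun x => ?_⟩
  · rw [Module.algebraMap_end_apply]; exact Submodule.smul_mem _ _ hy
  · rw [Module.algebraMap_end_apply, sub_self]; exact zero_mem _

theorem IsScalarMod.add {T T' : Module.End 𝒪 M0} (h : IsScalarMod t a T)
    (h' : IsScalarMod t a T') : IsScalarMod t a (T + T') := by
  obtain ⟨h1, c, hc⟩ := h
  obtain ⟨h1', c', hc'⟩ := h'
  refine ⟨fun y hy => ?_, c + c', fun x => ?_⟩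
  · rw [LinearMap.add_apply]; exact add_mem (h1 y hy) (h1' y hy)
  · have : (T + T') x - (c + c') • x = (T x - c • x) + (T' x - c' • x) := by
      rw [LinearMap.add_apply, add_smul]; abel
    rw [this]; exact add_mem (hc x) (hc' x)

theorem IsScalarMod.mul {T T' : Module.End 𝒪 M0} (h : IsScalarMod t a T)
    (h' : IsScalarMod t a T') : IsScalarMod t a (T * T') := by
  obtain ⟨h1, c, hc⟩ := h
  obtain ⟨h1', c', hc'⟩ := h'
  refine ⟨fun y hy => ?_, c * c', fun x => ?_⟩
  · rw [Module.End.mul_apply]; exact h1 _ (h1' y hy)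
  · have : (T * T') x - (c * c') • x = T (T' x - c' • x) + c' • (T x - c • x) := by
      rw [Module.End.mul_apply, map_sub, map_smul, smul_sub, smul_smul, mul_comm c' c]; abel
    rw [this]
    exact add_mem (h1 _ (hc' x)) (Submodule.smul_mem _ _ (hc x))

theorem isScalarMod_of_mem_adjoin (ht : ∀ i j, Commute (t i) (t j)) {T : Module.End 𝒪 M0}
    (hT : T ∈ Algebra.adjoin 𝒪 (Set.range t)) : IsScalarMod t a T := by
  induction hT using Algebra.adjoin_induction with
  | mem x hx => obtain ⟨i, rfl⟩ := hx; exact isScalarMod_gen ht i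
  | algebraMap r => exact isScalarMod_algebraMap r
  | add x y _ _ hx hy => exact hx.add hy
  | mul x y _ _ hx hy => exact hx.mul hy

/-- **from a non-torsion quotient to a point of the algebra of operators.** -/
theorem exists_point_of_not_torsion {lam : 𝒪} (hlam : Irreducible lam)
    (ht : ∀ i j, Commute (t i) (t j))
    (h : ¬ ∀ x : M0, ∃ k : ℕ, lam ^ k • x ∈ relSub t a) :
    ∃ x : Algebra.adjoin 𝒪 (Set.range t) →ₐ[𝒪] 𝒪,
      ∀ i, x ⟨t i, Algebra.subset_adjoin ⟨i, rfl⟩⟩ = a i := by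
  classical
  obtain ⟨x₀, hx₀'⟩ := not_forall.mp h
  have hx₀ : ∀ k : ℕ, lam ^ k • x₀ ∉ relSub t a := fun k hk => hx₀' ⟨k, hk⟩
  -- uniqueness of the scalar
  have huniq : ∀ c c' : 𝒪, (c - c') • x₀ ∈ relSub t a → c = c' := by
    intro c c' hcc
    by_contra hne
    have hne' : c - c' ≠ 0 := sub_ne_zero.mpr hne
    obtain ⟨k, u, hu⟩ := IsDiscreteValuationRing.eq_unit_mul_pow_irreducible hne' hlam
    apply hx₀ k
    have : lam ^ k • x₀ = ((u⁻¹ : 𝒪ˣ) : 𝒪) • ((c - c') • x₀) := by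
      rw [hu, smul_smul, ← mul_assoc, Units.inv_mul, one_mul]
    rw [this]
    exact Submodule.smul_mem _ _ hcc
  have hex : ∀ T : Algebra.adjoin 𝒪 (Set.range t), ∃ c : 𝒪,
      ∀ x : M0, (T : Module.End 𝒪 M0) x - c • x ∈ relSub t a :=
    fun T => (isScalarMod_of_mem_adjoin ht T.2).2
  choose χ hχ using hex
  have hχuniq : ∀ (T : Algebra.adjoin 𝒪 (Set.range t)) (c : 𝒪),
      (∀ x : M0, (T : Module.End 𝒪 M0) x - c • x ∈ relSub t a) → χ T = c := by
    intro T c hc
    apply huniq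
    have : (χ T - c) • x₀ = ((T : Module.End 𝒪 M0) x₀ - c • x₀) -
        ((T : Module.End 𝒪 M0) x₀ - χ T • x₀) := by
      rw [sub_smul]; abel
    rw [this]
    exact sub_mem (hc x₀) (hχ T x₀)
  have hpres : ∀ T : Algebra.adjoin 𝒪 (Set.range t), ∀ y ∈ relSub t a,
      (T : Module.End 𝒪 M0) y ∈ relSub t a :=
    fun T => (isScalarMod_of_mem_adjoin ht T.2).1
  refine ⟨{
    toFun := χ
    map_one' := hχuniq 1 1 fun x => by
      rw [Subalgebra.coe_one, Module.End.one_apply, one_smul, sub_self]; exact zero_mem _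
    map_mul' := fun T T' => hχuniq (T * T') (χ T * χ T') fun x => by
      have : ((T * T' : Algebra.adjoin 𝒪 (Set.range t)) : Module.End 𝒪 M0) x -
          (χ T * χ T') • x = (T : Module.End 𝒪 M0) ((T' : Module.End 𝒪 M0) x - χ T' • x) +
            χ T' • ((T : Module.End 𝒪 M0) x - χ T • x) := by
        rw [Subalgebra.coe_mul, Module.End.mul_apply, map_sub, map_smul, smul_sub, smul_smul,
          mul_comm (χ T') (χ T)]
        abel
      rw [this]
      exact add_mem (hpres T _ (hχ T' x)) (Submodule.smul_mem _ _ (hχ T x))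
    map_zero' := hχuniq 0 0 fun x => by
      rw [Subalgebra.coe_zero, LinearMap.zero_apply, zero_smul, sub_self]; exact zero_mem _
    map_add' := fun T T' => hχuniq (T + T') (χ T + χ T') fun x => by
      have : ((T + T' : Algebra.adjoin 𝒪 (Set.range t)) : Module.End 𝒪 M0) x -
          (χ T + χ T') • x = ((T : Module.End 𝒪 M0) x - χ T • x) +
            ((T' : Module.End 𝒪 M0) x - χ T' • x) := by
        rw [Subalgebra.coe_add, LinearMap.add_apply, add_smul]; abel
      rw [this]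
      exact add_mem (hχ T x) (hχ T' x)
    commutes' := fun r => hχuniq _ r fun x => by
      rw [Subalgebra.coe_algebraMap, Module.algebraMap_end_apply, sub_self]; exact zero_mem _ },
    fun i => ?_⟩
  refine hχuniq _ (a i) fun x => ?_
  refine Submodule.mem_iSup_of_mem i ⟨x, ?_⟩
  rw [LinearMap.sub_apply, Module.algebraMap_end_apply]

end Point

section Character

open Fermat.Agent.GR CuspForm

variable {M : ℕ} [NeZero M] {S : Set ℕ}

/-- **from an integral character to an eigenform with exactly these coefficients.** -/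
theorem exists_eigenform_of_character_int {D : Type} [CommRing D] [IsDomain D] [CharZero D]
    (χ : heckeAlgebra M 2 S →+* D) (a : ℕ → ℤ)
    (hχ : ∀ (ℓ : ℕ) (hℓ : ℓ.Prime) (hℓM : ¬ ℓ ∣ M) (hℓS : ℓ ∉ S),
      χ (heckeAlgebra.T hℓ hℓM hℓS) = (a ℓ : D)) :
    ∃ g : CuspForm (CongruenceSubgroup.Gamma0 M) 2, g.IsNormalizedEigenform ∧
      ∀ ℓ : ℕ, ℓ.Prime → ¬ ℓ ∣ M → ℓ ∉ S → ModularFormClass.qCoeff g ℓ = (a ℓ : ℂ) := by
  classical
  -- the range of `χ`, embedded in `ℂ`
  let A : Subring D := χ.range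
  have : Algebra.IsIntegral ℤ A := ⟨by
    rintro ⟨_, t, rfl⟩
    have h1 : IsIntegral ℤ (χ.rangeRestrict t) := map_isIntegral_int χ.rangeRestrict
      (isIntegral_heckeAlgebra S t)
    exact h1⟩
  have : Algebra.IsAlgebraic ℤ A := Algebra.IsIntegral.isAlgebraic
  let ι : A →ₐ[ℤ] ℂ := IsAlgClosed.lift
  let lam : heckeAlgebra M 2 S →+* ℂ := ι.toRingHom.comp χ.rangeRestrict
  obtain ⟨a', hocc, haT, -⟩ := exists_eigenPar_of_character (N := M) (F := ℂ) S lam
  obtain ⟨f₀, hf₀, hf₀mem⟩ := exists_eigenForm_of_eigenPar_ne_bot hocc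
  let lamP : ℕ → ℂ := fun p => if hp : p.Prime then a' ⟨p, hp⟩ else 0
  have hlamP : ∀ (p : ℕ) (hp : p.Prime), lamP p = a' ⟨p, hp⟩ := fun p hp => by
    show dite _ _ _ = _
    rw [dif_pos hp]
  obtain ⟨g, hg, hgq⟩ := Fermat.Agent.S49E.exists_isNormalizedEigenform_of_eigenvector f₀ hf₀ lamP
    (by
      intro p hp hpM
      have h := hf₀mem ⟨p, hp⟩
      rw [heckeOpP_of_not_dvd (ℓ := ⟨p, hp⟩) hpM] at h
      rw [hlamP p hp]
      exact h)
    (by
      intro p hp hpM
      have h := hf₀mem ⟨p, hp⟩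
      rw [heckeOpP_of_dvd (ℓ := ⟨p, hp⟩) hpM] at h
      rw [hlamP p hp]
      exact h)
  refine ⟨g, hg, fun ℓ hℓ hℓM hℓS => ?_⟩
  rw [hgq ℓ hℓ, hlamP ℓ hℓ, haT ℓ hℓ hℓM hℓS]
  show ι (χ.rangeRestrict (heckeAlgebra.T hℓ hℓM hℓS)) = _
  have h1 : χ.rangeRestrict (heckeAlgebra.T hℓ hℓM hℓS) = ((a ℓ : ℤ) : A) := by
    apply Subtype.ext
    rw [RingHom.coe_rangeRestrict, hχ ℓ hℓ hℓM hℓS]
    simp
  rw [h1, map_intCast]

end Character

section Modular

open Fermat.Agent.GR CuspForm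

/-- **the dictionary**: a character of the Hecke algebra of a squarefree level `M` divisible by
the bad primes of `W`, with values `a_ℓ(W)`, outside a set `S` containing finitely many primes:
`W` is modular of a squarefree level divisible by all bad primes. -/
theorem modular_of_character (W : WeierstrassCurve ℤ) {M : ℕ} [NeZero M] (hM : Squarefree M)
    {S : Set ℕ} (hS : {ℓ : ℕ | ℓ ∈ S ∧ ℓ.Prime}.Finite)
    {D : Type} [CommRing D] [IsDomain D] [CharZero D]
    (χ : heckeAlgebra M 2 S →+* D)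
    (hχ : ∀ (ℓ : ℕ) (hℓ : ℓ.Prime) (hℓM : ¬ ℓ ∣ M) (hℓS : ℓ ∉ S),
      χ (heckeAlgebra.T hℓ hℓM hℓS) = ((W.apOfModel ℓ : ℤ) : D))
    (hbad : ∀ ℓ : ℕ, ℓ.Prime → (ℓ : ℤ) ∣ W.Δ → ℓ ∣ M) (p : ℕ) (hp : p.Prime) :
    ∃ N' : ℕ, W.IsModularModelOfLevel N' ∧ ¬ p ^ 2 ∣ N' ∧
      (∀ ℓ : ℕ, ℓ.Prime → (ℓ : ℤ) ∣ W.Δ → ℓ ∣ N') ∧ (∀ q : ℕ, q.Prime → ¬ q ^ 3 ∣ N') := by
  classical
  obtain ⟨g, hg, hgq⟩ := exists_eigenform_of_character_int χ (fun ℓ => W.apOfModel ℓ) hχ
  -- the exceptional primes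
  set F : Finset ℕ := hS.toFinset.filter fun ℓ => ¬ ℓ ∣ M with hF
  have hFprime : ∀ ℓ ∈ F, ℓ.Prime := fun ℓ hℓ => by
    rw [hF, Finset.mem_filter, Set.Finite.mem_toFinset] at hℓ
    exact hℓ.1.2
  have hFM : ∀ ℓ ∈ F, ¬ ℓ ∣ M := fun ℓ hℓ => by
    rw [hF, Finset.mem_filter] at hℓ
    exact hℓ.2
  set e : ℕ := ∏ ℓ ∈ F, ℓ with he
  have hesq : Squarefree e := by
    refine Finset.squarefree_prod_of_pairwise_isCoprime (fun ℓ hℓ ℓ' hℓ' hne => ?_)
      fun ℓ hℓ => (hFprime ℓ hℓ).squarefree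
    show IsRelPrime ℓ ℓ'
    rw [← Nat.coprime_iff_isRelPrime]
    exact (Nat.coprime_primes (hFprime ℓ hℓ) (hFprime ℓ' hℓ')).mpr hne
  have hcop : M.Coprime e := by
    rw [he]
    refine Nat.Coprime.prod_right fun ℓ hℓ => ?_
    exact (Nat.Coprime.symm ((hFprime ℓ hℓ).coprime_iff_not_dvd.mpr (hFM ℓ hℓ)))
  have hN'sq : Squarefree (M * e) := by
    rw [Nat.squarefree_mul_iff]
    exact ⟨hcop, hM, hesq⟩
  obtain ⟨g', hg', hg'q⟩ := Fermat.Agent.S58.exists_stab g hg (M * e) (Dvd.intro _ rfl) hN'sq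
  refine ⟨M * e, ⟨g', hg', fun ℓ hℓ _ hℓN => ?_⟩, ?_, ?_, ?_⟩
  · have hℓM : ¬ ℓ ∣ M := fun h => hℓN (Dvd.dvd.mul_right h e)
    have hℓS : ℓ ∉ S := by
      intro hS'
      apply hℓN
      refine Dvd.dvd.mul_left ?_ M
      rw [he]
      refine Finset.dvd_prod_of_mem _ ?_
      rw [hF, Finset.mem_filter, Set.Finite.mem_toFinset]
      exact ⟨⟨hS', hℓ⟩, hℓM⟩
    rw [hg'q ℓ hℓ hℓN, hgq ℓ hℓ hℓM hℓS]
  · intro h
    have h1 : p * p ∣ M * e := by rw [← sq]; exact h
    exact hp.one_lt.ne' (Nat.isUnit_iff.mp (hN'sq p h1))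
  · intro ℓ hℓ hℓΔ
    exact Dvd.dvd.mul_right (hbad ℓ hℓ hℓΔ) e
  · intro q hq h
    have h1 : q * q ∣ M * e := by
      refine Dvd.dvd.trans ?_ h
      exact ⟨q, by ring⟩
    exact hq.one_lt.ne' (Nat.isUnit_iff.mp (hN'sq q h1))

end Modular

end Fermat.Agent.ML.TOP
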