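/-
PROJECT ML (S59) — helper5 — leaf (B) of [PR-2]: **`modularOfLevel0Statement :
ModularOfLevel0Statement`** (helper9's literal, `ML/IFACE_helper9_Prod2.lean`): the dictionary at
the top of [LIFT] on the module `M0 = lvlMod 𝒪 p Ntop Ntop c`.

Proof (helper9's recipe): `TOP.exists_point_of_not_torsion` gives a point
`x : 𝒪[tr0 σ] → 𝒪`, `x (tr0 σ) = tr ρ_W(σ)`; helper1's `RB.OCC.exists_character_of_point` with
`H := M0`, `R := 𝒪[tr0 σ]` (commutative: `Algebra.adjoinCommRingOfComm`; integral: a subalgebra of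
`End 𝒪 M0`), `t ℓ := tr0 (Frob_ℓ)` (a chosen Frobenius element, `S54.exists_frobenius`) and
`S := badSet p Ntop` gives `χ : heckeAlgebra Ntop 2 S → 𝒪` with
`χ (T_ℓ) = x (tr0 Frob_ℓ) = tr ρ_W(Frob_ℓ) = a_ℓ(W)` (`GR.trace_det_of_charpoly_eq`);
`TOP.modular_of_character` concludes.
-/
import Mathlib
import Fermat.Agent.ML.IFACE_helper9_Prod2
import Fermat.Agent.ML.TOP_helper9_Dict
import Fermat.Agent.RB.OCC_helper1_Level0
import Fermat.Agent.GR.S34TOP_helper4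
import Fermat.Agent.S54_Frobenius

set_option autoImplicit false
set_option linter.unusedSectionVars false
set_option linter.unusedVariables false
set_option linter.style.haveILetI false
set_option maxSynthPendingDepth 2

open Polynomial IsLocalRing CongruenceSubgroup ModularCurve.Period

namespace Fermat.Agent.ML.PRM

open Fermat.Agent.GR Fermat.Agent.LR Fermat.Agent.RB

local notation "Ω" => AlgebraicClosure ℚ
local notation "GQ" => (AlgebraicClosure ℚ ≃ₐ[ℚ] AlgebraicClosure ℚ)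

/-- the set `badSet p N` (primes only) is finite. -/
theorem finite_badSet_primes (p N : ℕ) [NeZero N] :
    {ℓ : ℕ | ℓ ∈ badSet p N ∧ ℓ.Prime}.Finite := by
  refine Set.Finite.subset ((Set.finite_singleton p).union (N.divisors : Set ℕ).toFinite) ?_
  rintro ℓ ⟨⟨-, h | h⟩, -⟩
  · exact Or.inl h
  · right
    simp only [Finset.mem_coe, Nat.mem_divisors]
    exact ⟨h, NeZero.ne N⟩

section Main

open scoped IsMulCommutative

variable {𝒪 : Type} [CommRing 𝒪] [IsDomain 𝒪] [IsDiscreteValuationRing 𝒪] [CharZero 𝒪]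

/-- **a point of the algebra of commuting operators `tr0 σ` on a finite free submodule of
`Hom_par(Γ₀(N), 𝒪)`, which at Frobenius elements outside `S` are the Hecke operators, is a
character of the Hecke algebra of level `N`.** -/
theorem exists_character_of_tr0 {N : ℕ} [NeZero N] (S : Set ℕ)
    (hNS : ∀ ℓ : ℕ, ℓ.Prime → ℓ ∣ N → ℓ ∈ S)
    (M0 : Submodule 𝒪 ↥(parabolicHoms 𝒪 (Gamma0 N) 𝒪))
    [Module.Free 𝒪 ↥M0] [Module.Finite 𝒪 ↥M0]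
    (tr0 : GQ → Module.End 𝒪 ↥M0) (hcomm : ∀ σ τ : GQ, Commute (tr0 σ) (tr0 τ))
    (hfrob : ∀ (ℓ : ℕ) (hℓ : ℓ.Prime), ℓ ∉ S →
      ∀ A : ValuationSubring Ω, A.LiesOverPrime ℓ → ∀ σ : GQ, A.IsFrobeniusAt σ ℓ →
        ∀ x : ↥M0, ((tr0 σ x : ↥M0) : ↥(parabolicHoms 𝒪 (Gamma0 N) 𝒪)) =
          heckeParP N ⟨ℓ, hℓ⟩ 𝒪 𝒪 (x : ↥(parabolicHoms 𝒪 (Gamma0 N) 𝒪)))
    (x : ↥(Algebra.adjoin 𝒪 (Set.range tr0)) →ₐ[𝒪] 𝒪) :
    ∃ χ : CuspForm.heckeAlgebra N 2 S →+* 𝒪,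
      ∀ (ℓ : ℕ) (hℓ : ℓ.Prime) (hℓN : ¬ ℓ ∣ N) (hℓS : ℓ ∉ S),
        ∃ (A : ValuationSubring Ω) (σ : GQ), A.LiesOverPrime ℓ ∧ A.IsFrobeniusAt σ ℓ ∧
          χ (CuspForm.heckeAlgebra.T hℓ hℓN hℓS) =
            x ⟨tr0 σ, Algebra.subset_adjoin ⟨σ, rfl⟩⟩ := by
  classical
  have hcomm' : ∀ a ∈ Set.range tr0, ∀ b ∈ Set.range tr0, a * b = b * a := by
    rintro _ ⟨σ, rfl⟩ _ ⟨τ, rfl⟩
    exact (hcomm σ τ).eq
  haveI : IsMulCommutative ↥(Algebra.adjoin 𝒪 (Set.range tr0)) :=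
    Algebra.isMulCommutative_adjoin 𝒪 hcomm'
  haveI : IsNoetherian 𝒪 (Module.End 𝒪 ↥M0) :=
    isNoetherian_of_isNoetherianRing_of_finite 𝒪 (Module.End 𝒪 ↥M0)
  haveI : Module.Finite 𝒪 ↥(Algebra.adjoin 𝒪 (Set.range tr0)) :=
    Module.Finite.of_injective (Algebra.adjoin 𝒪 (Set.range tr0)).val.toLinearMap
      Subtype.val_injective
  haveI : Algebra.IsIntegral 𝒪 ↥(Algebra.adjoin 𝒪 (Set.range tr0)) :=
    Algebra.IsIntegral.of_finite 𝒪 _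
  -- Frobenius elements
  have hfrobex : ∀ ℓ : Nat.Primes, ∃ (A : ValuationSubring Ω) (σ : GQ),
      A.LiesOverPrime (ℓ : ℕ) ∧ A.IsFrobeniusAt σ (ℓ : ℕ) :=
    fun ℓ => Fermat.Agent.S54.exists_frobenius ℓ ℓ.2
  choose Aℓ σℓ hAℓ hσℓ using hfrobex
  obtain ⟨χ, hχ⟩ := OCC.exists_character_of_point (𝒪 := 𝒪) (N := N) S (H := ↥M0)
    (R := ↥(Algebra.adjoin 𝒪 (Set.range tr0))) (B := 𝒪) hNS
    ((parabolicHoms 𝒪 (Gamma0 N) 𝒪).subtype ∘ₗ M0.subtype)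
    ((Subtype.val_injective).comp Subtype.val_injective)
    (fun h => h.1.2) (Algebra.adjoin 𝒪 (Set.range tr0)).val Subtype.val_injective
    (fun ℓ => ⟨tr0 (σℓ ℓ), Algebra.subset_adjoin ⟨σℓ ℓ, rfl⟩⟩)
    (fun ℓ hℓS h => by
      have h1 := hfrob (ℓ : ℕ) ℓ.2 hℓS (Aℓ ℓ) (hAℓ ℓ) (σℓ ℓ) (hσℓ ℓ) h
      exact congrArg Subtype.val h1)
    x
  refine ⟨χ, fun ℓ hℓ hℓN hℓS => ⟨Aℓ ⟨ℓ, hℓ⟩, σℓ ⟨ℓ, hℓ⟩, hAℓ ⟨ℓ, hℓ⟩, hσℓ ⟨ℓ, hℓ⟩, ?_⟩⟩
  exact hχ ℓ hℓ hℓN hℓS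

end Main

end Fermat.Agent.ML.PRM

namespace Fermat.Agent.ML

open Fermat.Agent.GR Fermat.Agent.LR Fermat.Agent.RB

local notation "Ω" => AlgebraicClosure ℚ
local notation "GQ" => (AlgebraicClosure ℚ ≃ₐ[ℚ] AlgebraicClosure ℚ)

/-- **the dictionary at the top of [LIFT]** (helper9's literal). -/
theorem modularOfLevel0Statement : ModularOfLevel0Statement := by
  intro 𝒪 _ _ _ _ _ _ p _ W Ntop _ hsq hbad c lam hlam hfree hfin tr0 hcomm hfrob ρW hchar hnt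
  classical
  have hp : p.Prime := Fact.out
  haveI := hfree
  haveI := hfin
  -- the point
  obtain ⟨x, hx⟩ := TOP.exists_point_of_not_torsion (t := tr0) (a := ρW.trace) hlam hcomm hnt
  -- the character
  obtain ⟨χ, hχ⟩ := PRM.exists_character_of_tr0 (badSet p Ntop)
    (fun ℓ hℓ hd => ⟨hℓ, Or.inr hd⟩) (lvlMod 𝒪 p Ntop Ntop c) tr0 hcomm hfrob x
  refine TOP.modular_of_character W hsq (PRM.finite_badSet_primes p Ntop) χ
    (fun ℓ hℓ hℓM hℓS => ?_) hbad p hp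
  obtain ⟨A, σ, hA, hσ, h1⟩ := hχ ℓ hℓ hℓM hℓS
  rw [h1, hx σ]
  exact (trace_det_of_charpoly_eq ρW.finrank_eq (ρW.ρ σ) _ _ (hchar ℓ hℓ hℓS A hA σ hσ)).1

end Fermat.Agent.ML
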