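/-
PROJECT ML (S59) — [REPT-X] (helper1), file 4: **the level-zero module `lvlMod 𝒪 p N N c` as a
faithful module over the coefficient ring `T` of a full Hecke–Galois datum**, every `p` (the lemmas
of helper3's `RB/LEVEL0_helper3_Main` do not use `5 ≤ p`).
-/
import Mathlib
import Fermat.Agent.RB.LEVEL0_helper3_Main
import Fermat.Agent.ML.IFACE_helper2_TWModL

set_option autoImplicit false
set_option linter.unusedSectionVars false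
set_option linter.unusedVariables false
set_option linter.style.haveILetI false
set_option maxSynthPendingDepth 2

namespace Fermat.Agent.ML.REPTX

open CongruenceSubgroup ModularCurve.Period IsLocalRing CuspForm
  Fermat.Agent.GR Fermat.Agent.RB Fermat.Agent.RB.TWM Fermat.Agent.RB.L0
open scoped MatrixGroups

section Level0

variable {𝒪 : Type} [CommRing 𝒪] [IsDomain 𝒪] [IsDiscreteValuationRing 𝒪]
  [IsAdicComplete (maximalIdeal 𝒪) 𝒪] [Finite (ResidueField 𝒪)] [CharZero 𝒪]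
  (N : ℕ) [NeZero N] (S : Finset ℕ) (c : Nat.Primes → 𝒪)
  (θ : heckeAlgebra N 2 (S : Set ℕ) →+* ResidueField 𝒪)
  (T : Type) [CommRing T] [IsLocalRing T] [IsNoetherianRing T]
  [IsAdicComplete (maximalIdeal T) T] [Algebra 𝒪 T] [IsLocalHom (algebraMap 𝒪 T)]
  [Module.Finite 𝒪 T] [Module.Free 𝒪 T]
  (datum : HeckeGaloisRepDatum N (S : Set ℕ) 𝒪 θ T)

set_option maxHeartbeats 4000000 in
/-- **[LEVEL0] for a set `Sb` equal to `S`.** -/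
theorem exists_level0 (Sb : Set ℕ) (hSb : Sb = (S : Set ℕ))
    (hfull : ∀ (B : Type) [CommRing B] [IsDomain B] [IsDiscreteValuationRing B] [Algebra 𝒪 B]
      [Module.Finite 𝒪 B] [IsLocalHom (algebraMap 𝒪 B)]
      (χ : heckeAlgebra N 2 (S : Set ℕ) →+* B),
      (∀ t, residue B (χ t) = ResidueField.map (algebraMap 𝒪 B) (θ t)) →
        ∃ ψ : T →ₐ[𝒪] B, ∀ t, ψ (datum.π t) = χ t)
    (hNS : ∀ q : ℕ, q.Prime → q ∣ N → q ∈ S)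
    (hc : ∀ (ℓ : ℕ) (hℓ : ℓ.Prime) (hℓN : ¬ ℓ ∣ N) (hℓS : ℓ ∉ (S : Set ℕ)),
      residue 𝒪 (c ⟨ℓ, hℓ⟩) = θ (heckeAlgebra.T hℓ hℓN hℓS)) :
    ∃ (_ : Module T ↥(M0 N Sb c)) (_ : IsScalarTower 𝒪 T ↥(M0 N Sb c)),
      Module.Free 𝒪 ↥(M0 N Sb c) ∧ Module.Finite 𝒪 ↥(M0 N Sb c) ∧
      0 < Module.finrank 𝒪 ↥(M0 N Sb c) ∧
      (∀ t : T, (∀ m : ↥(M0 N Sb c), t • m = 0) → t = 0) ∧
      ∀ (ℓ : ℕ) (hℓ : ℓ.Prime) (hℓN : ¬ ℓ ∣ N) (hℓS : ℓ ∉ (S : Set ℕ)) (x : ↥(M0 N Sb c)),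
        ((datum.π (heckeAlgebra.T hℓ hℓN hℓS) • x : ↥(M0 N Sb c)) :
          ↥(parabolicHoms 𝒪 (Gamma0 N) 𝒪)) =
          heckeParP N ⟨ℓ, hℓ⟩ 𝒪 𝒪 (x : ↥(parabolicHoms 𝒪 (Gamma0 N) 𝒪)) := by
  subst hSb
  haveI : Nontrivial ↥(M0 N (S : Set ℕ) c) := nontrivial_M0_of_datum N S c θ T datum hNS hc
  obtain ⟨g, hg⟩ := exists_algHom_M0 N S c θ T datum hfull hNS hc
  letI inst : Module T ↥(M0 N (S : Set ℕ) c) :=
    Module.compHom _ (g : T →+* Module.End 𝒪 ↥(M0 N (S : Set ℕ) c))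
  have hsmul : ∀ (t : T) (m : ↥(M0 N (S : Set ℕ) c)), t • m = g t m := fun t m => rfl
  refine ⟨inst, ⟨fun r t m => ?_⟩, inferInstance, inferInstance, Module.finrank_pos, ?_, ?_⟩
  · rw [hsmul, hsmul, map_smul]
    rfl
  · intro t ht
    refine eq_zero_of_algHom_eq_zero N S c θ T datum hNS hc g hg t ?_
    apply LinearMap.ext
    intro m
    rw [← hsmul, ht m]
    rfl
  · intro ℓ hℓ hℓN hℓS x
    rw [hsmul, hg ℓ hℓ hℓN hℓS]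
    rfl

/-- `S = badSet p N` as sets. -/
theorem badSet_eq_coe {p : ℕ} (hS : ∀ ℓ : ℕ, ℓ ∈ S ↔ ℓ.Prime ∧ (ℓ = p ∨ ℓ ∣ N)) :
    badSet p N = (S : Set ℕ) := by
  ext ℓ
  rw [Finset.mem_coe, hS ℓ]
  rfl

/-- **[LEVEL0] for `lvlMod 𝒪 p N N c`.** -/
theorem exists_level0_lvlMod {p : ℕ} (hS : ∀ ℓ : ℕ, ℓ ∈ S ↔ ℓ.Prime ∧ (ℓ = p ∨ ℓ ∣ N))
    (hfull : ∀ (B : Type) [CommRing B] [IsDomain B] [IsDiscreteValuationRing B] [Algebra 𝒪 B]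
      [Module.Finite 𝒪 B] [IsLocalHom (algebraMap 𝒪 B)]
      (χ : heckeAlgebra N 2 (S : Set ℕ) →+* B),
      (∀ t, residue B (χ t) = ResidueField.map (algebraMap 𝒪 B) (θ t)) →
        ∃ ψ : T →ₐ[𝒪] B, ∀ t, ψ (datum.π t) = χ t)
    (hc : ∀ (ℓ : ℕ) (hℓ : ℓ.Prime) (hℓN : ¬ ℓ ∣ N) (hℓS : ℓ ∉ (S : Set ℕ)),
      residue 𝒪 (c ⟨ℓ, hℓ⟩) = θ (heckeAlgebra.T hℓ hℓN hℓS)) :
    ∃ (_ : Module T ↥(lvlMod 𝒪 p N N c)) (_ : IsScalarTower 𝒪 T ↥(lvlMod 𝒪 p N N c)),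
      Module.Free 𝒪 ↥(lvlMod 𝒪 p N N c) ∧ Module.Finite 𝒪 ↥(lvlMod 𝒪 p N N c) ∧
      0 < Module.finrank 𝒪 ↥(lvlMod 𝒪 p N N c) ∧
      (∀ t : T, (∀ m : ↥(lvlMod 𝒪 p N N c), t • m = 0) → t = 0) ∧
      ∀ (ℓ : ℕ) (hℓ : ℓ.Prime) (hℓN : ¬ ℓ ∣ N) (hℓS : ℓ ∉ (S : Set ℕ))
        (x : ↥(lvlMod 𝒪 p N N c)),
        ((datum.π (heckeAlgebra.T hℓ hℓN hℓS) • x : ↥(lvlMod 𝒪 p N N c)) :
          ↥(parabolicHoms 𝒪 (Gamma0 N) 𝒪)) =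
          heckeParP N ⟨ℓ, hℓ⟩ 𝒪 𝒪 (x : ↥(parabolicHoms 𝒪 (Gamma0 N) 𝒪)) :=
  exists_level0 N S c θ T datum (badSet p N) (badSet_eq_coe N S hS) hfull
    (fun q hq hqN => (hS q).2 ⟨hq, Or.inr hqN⟩) hc

end Level0

end Fermat.Agent.ML.REPTX
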