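/-
PROJECT ML (S59) — [REPT-X] (helper1), file 5: **a squarefree level carrying a character of the
Hecke algebra is at least `5`** (there are no cusp forms of weight `2` on `Γ₀(N)`, `N ≤ 3`), and two
small facts on residual representations (unramifiedness descends along an equivalence with a
base change).
-/
import Mathlib
import Fermat.Agent.Helper2.Gamma0Small
import Fermat.Agent.X0N.Cosets_helper9_Count
import Fermat.Prelude.Def_CuspForm_HeckeAlgebra
import Fermat.Prelude.Def_GaloisRep_ResidualEquiv

set_option autoImplicit false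
set_option linter.unusedSectionVars false
set_option linter.unusedVariables false
set_option linter.style.haveILetI false

namespace Fermat.Agent.ML.REPTX

open Polynomial IsLocalRing

local notation "Ω" => AlgebraicClosure ℚ
local notation "GQ" => (AlgebraicClosure ℚ ≃ₐ[ℚ] AlgebraicClosure ℚ)

/-- there is no ring homomorphism from the Hecke algebra of a level with Sturm bound zero to a
nontrivial ring. -/
theorem six_le_index_of_character {N : ℕ} [NeZero N] {S : Set ℕ} {k : Type*} [Semiring k]
    [Nontrivial k] (θ : CuspForm.heckeAlgebra N 2 S →+* k) :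
    6 ≤ (CongruenceSubgroup.Gamma0 N).index := by
  by_contra hlt
  have hz : ∀ f : CuspForm (CongruenceSubgroup.Gamma0 N) 2, f = 0 := by
    intro f
    apply Fermat.Agent.Helper2.cuspForm_Gamma0_eq_zero_of_sturm_zero N 2 _ f
    omega
  have h01 : (1 : CuspForm.heckeAlgebra N 2 S) = 0 := by
    apply Subtype.ext
    apply LinearMap.ext
    intro f
    rw [hz f]
    simp
  have := congrArg θ h01
  rw [map_one, map_zero] at this
  exact one_ne_zero this

/-- **a squarefree level carrying a character of the Hecke algebra is at least `5`.** -/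
theorem five_le_level {N : ℕ} [NeZero N] (hN : Squarefree N) {S : Set ℕ} {k : Type*} [Semiring k]
    [Nontrivial k] (θ : CuspForm.heckeAlgebra N 2 S →+* k) : 5 ≤ N := by
  have h6 := six_le_index_of_character θ
  rw [Fermat.Agent.X0N.index_Gamma0 N] at h6
  have hN0 : N ≠ 0 := NeZero.ne N
  by_contra hlt
  have hcases : N = 1 ∨ N = 2 ∨ N = 3 ∨ N = 4 := by omega
  rcases hcases with rfl | rfl | rfl | rfl
  · rw [ModularCurve.dedekindPsi_one] at h6
    omega
  · have h := Fermat.Agent.X0N.dedekindPsi_prime_pow Nat.prime_two (n := 1) one_pos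
    rw [pow_one] at h
    rw [h] at h6
    norm_num at h6
  · have h := Fermat.Agent.X0N.dedekindPsi_prime_pow Nat.prime_three (n := 1) one_pos
    rw [pow_one] at h
    rw [h] at h6
    norm_num at h6
  · exact absurd (hN 2 ⟨1, rfl⟩) (by decide)

section Unr

variable {k k' : Type} [Field k] [Field k']

/-- an endomorphism of a vector space whose base change to a field extension is the identity is
the identity. -/
theorem eq_one_of_baseChange_eq_one_field (φ : k →+* k') {V : Type} [AddCommGroup V] [Module k V]
    [Module.Free k V] (f : Module.End k V)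
    (h : letI : Algebra k k' := φ.toAlgebra; f.baseChange k' = 1) : f = 1 := by
  letI : Algebra k k' := φ.toAlgebra
  ext x
  have h1 : (1 : k') ⊗ₜ[k] (f x) = (1 : k') ⊗ₜ[k] x := by
    have := LinearMap.congr_fun h ((1 : k') ⊗ₜ[k] x)
    rwa [LinearMap.baseChange_tmul] at this
  haveI : Module.FaithfullyFlat k k' := inferInstance
  have hinj' : Function.Injective (TensorProduct.mk k k' V 1) :=
    Module.FaithfullyFlat.tensorProduct_mk_injective (A := k) (B := k') V
  exact hinj' h1

/-- unramifiedness descends along an equivalence with a base change. -/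
theorem isUnramifiedAt_of_isEquiv_baseChange (φ : k →+* k') (ρbar : ResidualGaloisRep k)
    (ρ' : ResidualGaloisRep k') (he : ρ'.IsEquiv (ρbar.baseChangeAlong φ)) {q : ℕ}
    (h : ρ'.IsUnramifiedAt q) : ρbar.IsUnramifiedAt q := by
  obtain ⟨e⟩ := he
  intro P hP σ hσ
  have h1 : ρ'.ρ σ = 1 := h P hP σ hσ
  refine eq_one_of_baseChange_eq_one_field φ (ρbar.ρ σ) ?_
  letI : Algebra k k' := φ.toAlgebra
  show (ρbar.baseChangeAlong φ).ρ σ = 1
  ext y
  obtain ⟨x, rfl⟩ := e.toLinearEquiv.surjective y
  rw [← e.map_apply, h1]
  rfl

end Unr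

end Fermat.Agent.ML.REPTX
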