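/-
ML (S59) — helper1 — **[HYG-L] part 6: export forms for the producers**.

* `hyg_resIntertwined_baseChange` : an intertwiner `ρ₁ → ρ₂` gives an intertwiner
  `ρ₁ → ρ₂.baseChange K`;
* `hygTW_of_intertwined` : for `p ∈ {3, 5}`, `W` semistable with `W[p]` irreducible, EVERY residual
  representation `ρ₂` (over any field `k₂ ⊇ 𝔽_p`) intertwined with `W[p](ℚ̄)` is absolutely
  irreducible and satisfies `ResTW` (= the fields `absIrr`, `irr_index_two` of `LiftSetting`);
* `hyg_resIntertwined_residual_baseChange` : the intertwiner from `W[p](ℚ̄)` to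
  `D.ρ.residual.baseChange K` for any `D : RhoWData W p`.
-/
import Mathlib
import Fermat.Agent.ML.HYG_helper1_Main

set_option autoImplicit false
set_option linter.unusedSectionVars false
set_option linter.unusedVariables false
set_option linter.style.haveILetI false

open Polynomial IsLocalRing WeierstrassCurve WeierstrassCurve.Affine
open scoped WeierstrassCurve.Affine TensorProduct

namespace Fermat.Agent.ML

open Fermat.Agent.RB

/-- `Ω = AlgebraicClosure ℚ`. -/
local notation "Ω" => AlgebraicClosure ℚ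

/-- the absolute Galois group. -/
local notation "GQ" => (AlgebraicClosure ℚ ≃ₐ[ℚ] AlgebraicClosure ℚ)

/-- **intertwiners survive base change.** -/
theorem hyg_resIntertwined_baseChange {k₁ k₂ : Type} [Field k₁] [Field k₂] {ψ : k₁ →+* k₂}
    {ρ₁ : ResidualGaloisRep k₁} {ρ₂ : ResidualGaloisRep k₂} (h : ResIntertwined ψ ρ₁ ρ₂)
    (K : Type) [Field K] [Algebra k₂ K] :
    ResIntertwined ((algebraMap k₂ K).comp ψ) ρ₁ (ρ₂.baseChange K) := by
  obtain ⟨F, hequiv, hsemi, hsep⟩ := h
  let b₁ : Module.Basis (Fin 2) k₁ ρ₁.V := Module.finBasisOfFinrankEq k₁ ρ₁.V ρ₁.finrank_eq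
  have hspan₁ : ∀ x : ρ₁.V, ∃ c d : k₁, x = c • b₁ 0 + d • b₁ 1 := fun x =>
    ⟨b₁.repr x 0, b₁.repr x 1, hyg_expand b₁ x⟩
  have hspan₂ := span_pair_of_intertwiner F hsemi hsep hspan₁
  let F' : ρ₁.V →+ (ρ₂.baseChange K).V :=
    ((TensorProduct.mk k₂ K ρ₂.V 1 : ρ₂.V →ₗ[k₂] K ⊗[k₂] ρ₂.V).toAddMonoidHom).comp F
  have hF' : ∀ v, F' v = (1 : K) ⊗ₜ[k₂] F v := fun v => rfl
  refine ⟨F', ?_, ?_, ?_⟩
  · intro σ v
    rw [hF', hF', hequiv]
    show _ = (ρ₂.ρ σ).baseChange K ((1 : K) ⊗ₜ[k₂] F v)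
    rw [LinearMap.baseChange_tmul]
  · intro a v
    rw [hF', hF', hsemi, TensorProduct.tmul_smul, RingHom.comp_apply, algebraMap_smul]
  · intro Φ hΦ
    apply LinearMap.ext
    intro y
    show Φ y = 0
    induction y using TensorProduct.induction_on with
    | zero => rw [map_zero]
    | tmul z v =>
      obtain ⟨a, b, rfl⟩ := hspan₂ v
      have e : z ⊗ₜ[k₂] (a • F (b₁ 0) + b • F (b₁ 1)) =
          (z * algebraMap k₂ K a) • F' (b₁ 0) + (z * algebraMap k₂ K b) • F' (b₁ 1) := by
        rw [hF', hF', TensorProduct.tmul_add, TensorProduct.tmul_smul, TensorProduct.tmul_smul,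
          TensorProduct.smul_tmul', TensorProduct.smul_tmul', TensorProduct.smul_tmul',
          TensorProduct.smul_tmul', smul_eq_mul, smul_eq_mul, mul_one, mul_one,
          Algebra.smul_def, Algebra.smul_def, mul_comm (algebraMap k₂ K a),
          mul_comm (algebraMap k₂ K b)]
      rw [e, map_add, map_smul, map_smul, hΦ, hΦ, smul_zero, smul_zero, add_zero]
    | add x y hx hy => rw [map_add, hx, hy, add_zero]

/-- **[HYG-L], flexible form**: every residual representation intertwined with `W[p](ℚ̄)` is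
absolutely irreducible and satisfies `ResTW`. -/
theorem hygTW_of_intertwined (p : ℕ) [Fact p.Prime] (hp35 : p = 3 ∨ p = 5)
    (W : WeierstrassCurve ℤ) (hΔ : W.Δ ≠ 0) (hss : W.IsSemistableModel)
    (hirr : W.ModRepIsIrreducible p)
    (hcard : Nat.card
      (Submodule.torsionBy ℤ ((W.map (Int.castRingHom ℚ))⁄Ω).Point p) = p ^ 2)
    (hker : GaloisFactorsThroughFiniteLevel
      (WeierstrassCurve.Affine.Point.galoisRepModuleEnd (K := Ω) ℚ
        (W.map (Int.castRingHom ℚ)) p))
    {k₂ : Type} [Field k₂] (ψ : ZMod p →+* k₂) (ρ₂ : ResidualGaloisRep k₂)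
    (hint : ResIntertwined ψ
      (WeierstrassCurve.residualGaloisRepOf (W.map (Int.castRingHom ℚ)) p hcard hker) ρ₂) :
    ρ₂.IsAbsolutelyIrreducible ∧ ResTW ρ₂ := by
  have hp2 : p ≠ 2 := by rcases hp35 with rfl | rfl <;> norm_num
  obtain ⟨D⟩ := rhoWStatement p hp2 W hΔ hss
  exact hyg_main hcard hker D hp35 hΔ hss hirr ψ ρ₂ hint

/-- the cardinality and continuity hypotheses of `residualGaloisRepOf` for an integral model. -/
theorem hyg_card_ker (p : ℕ) [Fact p.Prime] (W : WeierstrassCurve ℤ) (hΔ : W.Δ ≠ 0) :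
    Nat.card (Submodule.torsionBy ℤ ((W.map (Int.castRingHom ℚ))⁄Ω).Point p) = p ^ 2 ∧
      GaloisFactorsThroughFiniteLevel
        (WeierstrassCurve.Affine.Point.galoisRepModuleEnd (K := Ω) ℚ
          (W.map (Int.castRingHom ℚ)) p) := by
  have hp : p.Prime := Fact.out
  have hΔQ : (W.map (Int.castRingHom ℚ)).Δ ≠ 0 := by
    rw [WeierstrassCurve.map_Δ, eq_intCast]
    exact_mod_cast hΔ
  have hcard : Nat.card
      (Submodule.torsionBy ℤ ((W.map (Int.castRingHom ℚ))⁄Ω).Point p) = p ^ 2 :=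
    Fermat.Agent.S13.card_torsionBy_Qbar _ hΔQ hp.ne_zero
  haveI : Finite (Submodule.torsionBy ℤ ((W.map (Int.castRingHom ℚ))⁄Ω).Point p) :=
    Nat.finite_of_card_ne_zero (by rw [hcard]; exact pow_ne_zero 2 hp.ne_zero)
  exact ⟨hcard, galoisFactorsThroughFiniteLevel_of_finite (W.map (Int.castRingHom ℚ)) p⟩

/-- **[HYG-L] for every base change of the residual representation of a `RhoWData`**: the form
needed when the coefficient ring `𝒪` of the lifting problem is larger than `ℤ_p`. -/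
theorem hygTW_residual_baseChange (p : ℕ) [Fact p.Prime] (hp35 : p = 3 ∨ p = 5)
    (W : WeierstrassCurve ℤ) (hΔ : W.Δ ≠ 0) (hss : W.IsSemistableModel)
    (hirr : W.ModRepIsIrreducible p) (D : RhoWData W p)
    (K : Type) [Field K] [Algebra (ResidueField ℤ_[p]) K] :
    (D.ρ.residual.baseChange K).IsAbsolutelyIrreducible ∧ ResTW (D.ρ.residual.baseChange K) := by
  obtain ⟨hcard, hker⟩ := hyg_card_ker p W hΔ
  exact hyg_main hcard hker D hp35 hΔ hss hirr _ _
    (hyg_resIntertwined_baseChange (hyg_resIntertwined hcard hker D) K)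

end Fermat.Agent.ML
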