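/-
ML (S59) — helper1 — **[TATE-DICT] interface**: the dictionary between the arithmetic of `Δ` and
the local types of `ρ̄ = W[p]` for a semistable model `W` (lead 2427, (T1)–(T4)).

For `D : RhoWData W p` (`p` odd, `W` semistable, `Δ ≠ 0`), `TateDict W p D` collects:
* `unr_iff` (T1 + T2): for a prime `q ≠ p`, the residual representation is unramified at `q` iff
  NOT (`q ∣ Δ` and `p ∤ v_q(Δ)`)  (the right hand side is lead's `UnrArith W p q`, by `Iff.rfl`);
* `unr_torsion_iff` : the same for the action on `W[p](ℚ̄)` (`GaloisRepUnramifiedAt`);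
* `sign` (T4): at a bad prime `q ≠ p` the sign `s` of `RhoWData.frob_bad` does not depend on the
  place; `res_sign`: its reduction;
* `ord_p` (T3): at `p ∣ Δ` the residual representation has the shape of `IsResChain.ord_p` with a
  sign `s` independent of the place.
-/
import Mathlib
import Fermat.Agent.ML.IFACE_helper1_RhoW

set_option autoImplicit false

open Polynomial IsLocalRing
open scoped WeierstrassCurve.Affine

namespace Fermat.Agent.ML

/-- `Ω = AlgebraicClosure ℚ`. -/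
local notation "Ω" => AlgebraicClosure ℚ

/-- the absolute Galois group. -/
local notation "GQ" => (AlgebraicClosure ℚ ≃ₐ[ℚ] AlgebraicClosure ℚ)

/-- **[TATE-DICT]** the local types of `ρ̄ = W[p]` in terms of the arithmetic of `Δ`. -/
structure TateDict (W : WeierstrassCurve ℤ) (p : ℕ) [Fact p.Prime] (D : RhoWData W p) : Prop where
  /-- (T1) + (T2): unramified at `q ≠ p` iff `q ∤ Δ` or `p ∣ v_q(Δ)`. -/
  unr_iff : ∀ q : ℕ, q.Prime → q ≠ p →
    (D.ρ.residual.IsUnramifiedAt q ↔ ¬ ((q : ℤ) ∣ W.Δ ∧ ¬ p ∣ padicValInt q W.Δ))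
  /-- the same for the action on `W[p](ℚ̄)`. -/
  unr_torsion_iff : ∀ q : ℕ, q.Prime → q ≠ p →
    (WeierstrassCurve.Affine.Point.GaloisRepUnramifiedAt (K := Ω) ℚ
        (W.map (Int.castRingHom ℚ)) p q ↔
      ¬ ((q : ℤ) ∣ W.Δ ∧ ¬ p ∣ padicValInt q W.Δ))
  /-- (T4): the sign at a bad prime `q ≠ p` does not depend on the place. -/
  sign : ∀ q : ℕ, q.Prime → q ≠ p → (q : ℤ) ∣ W.Δ → ∃ s : ℤ_[p], s ^ 2 = 1 ∧
    ∀ A : ValuationSubring Ω, A.LiesOverPrime q → ∀ σ : GQ, A.IsFrobeniusAt σ q →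
      LinearMap.charpoly (D.ρ.ρ σ) = (X - C s) * (X - C (s * ((q : ℕ) : ℤ_[p]))) ∧
      LinearMap.charpoly (D.ρ.residual.ρ σ) =
        (X - C (residue ℤ_[p] s)) *
          (X - C (residue ℤ_[p] s * ((q : ℕ) : ResidueField ℤ_[p])))
  /-- (T3): the residual shape at `p ∣ Δ` (`IsResChain.ord_p`), sign independent of the place. -/
  ord_p : (p : ℤ) ∣ W.Δ → ∃ s : ℤ_[p], s ^ 2 = 1 ∧
    ∀ A : ValuationSubring Ω, A.LiesOverPrime p →
      ∃ Lbar : Submodule (ResidueField ℤ_[p]) D.ρ.residual.V,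
        (∃ v : D.ρ.residual.V, v ≠ 0 ∧ Lbar = Submodule.span (ResidueField ℤ_[p]) {v}) ∧
        (∀ σ ∈ A.decompositionSubgroup ℚ, ∀ v ∈ Lbar, D.ρ.residual.ρ σ v ∈ Lbar) ∧
        (∀ σ ∈ A.inertiaSubgroupIn ℚ, ∀ v : D.ρ.residual.V, D.ρ.residual.ρ σ v - v ∈ Lbar) ∧
        ∀ φ : GQ, A.IsFrobeniusAt φ p → ∀ v : D.ρ.residual.V,
          D.ρ.residual.ρ φ v - residue ℤ_[p] s • v ∈ Lbar

/-- **[TATE-DICT] statement**. -/
def TateDictStatement : Prop :=
  ∀ (p : ℕ) [Fact p.Prime], p ≠ 2 → ∀ W : WeierstrassCurve ℤ, W.Δ ≠ 0 → W.IsSemistableModel →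
    ∀ D : RhoWData W p, TateDict W p D

end Fermat.Agent.ML
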