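/-
PROJECT ML (S59, modularity lifting at `p ∈ {3, 5}`) — package [AT-P] (architect helper2; geometry
helper5 + helper7; top helper2) — **INTERFACE: Eichler–Shimura at `p` for levels `M` and `M p`,
`p ∤ M`** ("the congruence relation at `p`"), finding 441 §2 (AT-P1).

What the chain patching needs at the prime `p` (`W` multiplicative at `p`): for the Hecke–Galois
representation `ρ` of a level `M p` (`p ∤ M`), ordinary at `p` by S33 with line `L ⊂ V`, and a
Frobenius lift `σ` at `p` acting on `V / L` through the scalar `z`: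
  (new)  at every point killed by both degeneracy traces `α_*`, `β_*` (the `p`-new part): `z² = 1`;
  (old)  at every point coming from level `M` with `T_p`-eigenvalue `a_p`:  `z² - a_p z + p = 0`
         (so `z` is the unit root and `(p+1)² - a_p² = -(z² - 1)(1 - p² z⁻²)`).
NO `U_p` operator, no Atkin–Lehner involution, no `p`-new Hecke algebra is needed.

PART A — the two geometric KEY statements (contract with the geometry; style of S35 `KeyI3` and of
NP33 `KeyNewAt` / `KeyOldAt`: only `JZero _`, the Galois action, `degPushAlpha/Beta`,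
`heckeOperatorBar`; no models, no charts).  `S` = the classes which are residually split at the
sheets (kernel of the residue maps `R_w : J[pⁿ] → κ_wˣ / (κ_wˣ)^{pⁿ} kˣ`, `x = [D]`, `pⁿ D = div f`,
`R_w(x) = f̄`); the residue maps are invariant under inertia and EQUIVARIANT under the
decomposition group (a Frobenius lift acts on `κ_w = 𝔽_p(Z_w) ⊗ k` through `1 ⊗ Frob`).
* `EsNewAt M p A` = `KeyNewAt M p A` + clause (f'): `(σ - 1)(σ² - 1) x ∈ S` for every `p`-power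
  torsion `x` killed by `α_*`, `β_*` and every Frobenius lift `σ` at `A` (helper5's form, msg 2338:
  the extra factor `σ - 1` makes `σ̄ g₀ / g₀` a unit on BOTH sheets, as `frobPolyMul` in S35; at the
  top nothing is lost: on the rank one quotient `V / L` over a domain
  `(z - 1)(z² - 1) = 0` gives `z² = 1`).
  PROOF SKETCH (mod `π` only, every step has a precedent): with `a = A⁻¹ R_∞(x)`, `b = B⁻¹ R_0(x)` in
  `𝒰(κ_M) = κ_Mˣ / (κ_Mˣ)^{pⁿ} kˣ` the norm formula mod `π` (NORMRED_helper9_Abs / `TwoLevel.normA`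
  at `j = 1`, general `f`) gives `R_M(α_* x) = a + Φ(b)`, `R_M(β_* x) = Φ'(a) + b`,
  `Φ = A⁻¹ ∘ Frob_abs ∘ B` through the sheet `0`, `Φ' = B⁻¹ ∘ Frob_abs ∘ A` through the sheet `∞`;
  by the Kronecker congruences (`kron_j_inf/kron_t_inf`, FROBKRON_helper6) `Φ = Φ' = σ̄` on `κ_M`
  (both fix the reductions of the `ℚ`-rational generators and are Frobenius on `k`).  So
  `α_* x = β_* x = 0` ⇒ `a = σ̄² a`, `b = -σ̄ a` ⇒ `R_w(σ² x - x) = 0` at both sheets.
* `EsOldAt M p hp A` = `KeyOldAt M p hp A` + clause (g): `σ² x - T_p (σ x) + p x ∈ S` for every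
  `p`-power torsion `x` of `J₀(M)`.  PROOF SKETCH: `T_p f = N_A (B f)`; `B f ≡ B f` on the sheet `0`
  and `≡ A (σ̄⁻¹ f̄)^p` on the sheet `∞` (KRON_∞), so `R_M(T_p x) = p σ̄⁻¹ R_M(x) + σ̄ R_M(x)`, hence
  `σ̄ R_M(T_p x) = (p + σ̄²) R_M(x)`.
PART B — the two point statements consumed by [REPT-L]/[GLUE-L] (proved by helper2 from Part A, as
`S33TOP_helper2_*`; the (new) one in "kill" form: no newform theory, no strong multiplicity one).
-/
import Mathlib
import Fermat.Agent.NP.KEY_helper2_Iface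
import Fermat.Agent.LR.XFER_helper4_Defs
import Fermat.Agent.GR.LATTICE_lead_Rank
import Fermat.Prelude.Def_CuspForm_HeckeGaloisRepDatum
import Fermat.Prelude.Def_GaloisRep_LocalConditions
import Fermat.Prelude.Def_EllipticCurve_FrobeniusTrace

set_option autoImplicit false
set_option linter.unusedSectionVars false
set_option linter.unusedVariables false

open AlgebraicCurve ModularCurve CongruenceSubgroup IsLocalRing

namespace Fermat.Agent.ML

open Fermat.Agent.S35 Fermat.Agent.NP Fermat.Agent.GR Fermat.Agent.LR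

/-- `Ω = AlgebraicClosure ℚ`. -/
local notation "Ω" => AlgebraicClosure ℚ

/-- the absolute Galois group. -/
local notation "GQ" => (AlgebraicClosure ℚ ≃ₐ[ℚ] AlgebraicClosure ℚ)

/-! ### Part A: the geometric KEY statements -/

/-- **(ES-NEW)** at one place `A ∣ p`: (KEY-NEW) with the SAME subgroup `S` + the congruence
relation on the `p`-new `p`-power torsion: `(σ - 1)(σ² - 1) ≡ 0` modulo `S` for every Frobenius
lift `σ`. -/
def EsNewAt (M p : ℕ) [NeZero M] [NeZero p] [NeZero (M * p)] (A : ValuationSubring Ω) : Prop :=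
  ∃ S : AddSubgroup (JZero (M * p)),
    (∀ (y : JZero (M * p)) (n : ℕ), p ^ n • y = 0 →
      ∀ τ ∈ A.inertiaSubgroupIn ℚ, τ • y - y ∈ S) ∧
    (∀ x ∈ S, p • x = 0 → degPushAlpha M p x = 0 → degPushBeta M p x = 0 →
      ∀ σ ∈ A.inertiaSubgroupIn ℚ, ∀ a : ℕ, CycAct p σ a → σ • x = a • x) ∧
    (∀ (x : JZero (M * p)) (n : ℕ), p ^ n • x = 0 → degPushAlpha M p x = 0 →
      degPushBeta M p x = 0 → ∀ σ : GQ, A.IsFrobeniusAt σ p →
        σ • (σ • σ • x - x) - (σ • σ • x - x) ∈ S)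

/-- **(ES-NEW)** at all places over `p`. -/
def EsNew (M p : ℕ) [NeZero M] [NeZero p] [NeZero (M * p)] : Prop :=
  ∀ A : ValuationSubring Ω, A.LiesOverPrime p → EsNewAt M p A

/-- **the geometric input at `p`, new part, all levels.** -/
def EsNewStatement : Prop :=
  ∀ (M p : ℕ) [NeZero M] [NeZero p] [NeZero (M * p)], p.Prime → p ≠ 2 → ¬ p ∣ M → EsNew M p

theorem EsNewAt.keyNewAt {M p : ℕ} [NeZero M] [NeZero p] [NeZero (M * p)]
    {A : ValuationSubring Ω} (h : EsNewAt M p A) : KeyNewAt M p A := by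
  obtain ⟨S, ha, hc, -⟩ := h
  exact ⟨S, ha, hc⟩

/-- **(ES-OLD)** at one place `A ∣ p`: (KEY-OLD) with the SAME subgroup `S` + the congruence
relation on the `p`-power torsion of `J₀(M)`: `σ² - T_p σ + p ≡ 0` modulo `S`. -/
def EsOldAt (M p : ℕ) [NeZero M] (hp : p.Prime) (A : ValuationSubring Ω) : Prop :=
  ∃ (S : AddSubgroup (JZero M)) (e : ℕ) (D : ℕ → AddSubgroup (JZero M)),
    1 ≤ e ∧
    (∀ (y : JZero M) (n : ℕ), p ^ n • y = 0 →
      ∀ τ ∈ A.inertiaSubgroupIn ℚ, τ • y - y ∈ S) ∧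
    (∀ x ∈ S, p • x = 0 → x ∈ D 1) ∧
    (∀ i : ℕ, 1 ≤ i → i < e → ∀ x ∈ D i, heckeOperatorBar M ⟨p, hp⟩ x ∈ D (i + 1)) ∧
    (∀ x ∈ D e, ∀ σ ∈ A.inertiaSubgroupIn ℚ, ∀ a : ℕ, CycAct p σ a → σ • x = a • x) ∧
    (∀ x ∈ S, p • x = 0 →
      (∀ σ ∈ A.inertiaSubgroupIn ℚ, ∀ a : ℕ, CycAct p σ a → σ • x = a • x) →
      heckeOperatorBar M ⟨p, hp⟩ x = 0 → x = 0) ∧
    (∀ (x : JZero M) (n : ℕ), p ^ n • x = 0 → ∀ σ : GQ, A.IsFrobeniusAt σ p →
      σ • σ • x - heckeOperatorBar M ⟨p, hp⟩ (σ • x) + p • x ∈ S)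

/-- **(ES-OLD)** at all places over `p`. -/
def EsOld (M p : ℕ) [NeZero M] (hp : p.Prime) : Prop :=
  ∀ A : ValuationSubring Ω, A.LiesOverPrime p → EsOldAt M p hp A

/-- **the geometric input at `p`, old part, all levels.** -/
def EsOldStatement : Prop :=
  ∀ (M p : ℕ) [NeZero M] (hp : p.Prime), p ≠ 2 → ¬ p ∣ M → EsOld M p hp

theorem EsOldAt.keyOldAt {M p : ℕ} [NeZero M] {hp : p.Prime}
    {A : ValuationSubring Ω} (h : EsOldAt M p hp A) : KeyOldAt M p hp A := by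
  obtain ⟨S, e, D, he, ha, h1, h2, h3, h4, -⟩ := h
  exact ⟨S, e, D, he, ha, h1, h2, h3, h4⟩

/-! ### Part B: the point statements -/

section Points

variable {p : ℕ} {S : Finset ℕ}
  {𝒪 : Type} [CommRing 𝒪] [IsDomain 𝒪] [IsDiscreteValuationRing 𝒪]
  [IsAdicComplete (IsLocalRing.maximalIdeal 𝒪) 𝒪]
  {T : Type} [CommRing T] [IsLocalRing T] [IsNoetherianRing T]
  [IsAdicComplete (IsLocalRing.maximalIdeal T) T] [Algebra 𝒪 T] [IsLocalHom (algebraMap 𝒪 T)]
  [Module.Finite 𝒪 T] [Module.Free 𝒪 T]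

/-- `L` is an ordinary line of `ρ` at the place `P`, and the element `σ` of the decomposition group
acts on `V / L` through the scalar `z`. -/
def OrdQuotScalar (ρ : GaloisRepAdic T) (P : ValuationSubring Ω) (σ : GQ) (z : T) : Prop :=
  ∃ L : Submodule T ρ.V,
    (∃ b : Module.Basis (Fin 2) T ρ.V, L = T ∙ b 0) ∧
    (∀ τ ∈ P.decompositionSubgroup ℚ, ∀ v ∈ L, ρ.ρ τ v ∈ L) ∧
    (∀ τ ∈ P.inertiaSubgroupIn ℚ, ∀ v : ρ.V, ρ.ρ τ v - v ∈ L) ∧
    ∀ v : ρ.V, ρ.ρ σ v - z • v ∈ L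

/-- **(AT-P1), new points** ("kill" form): at a point `ψ : T → B` of the Hecke ring of level `M p`
whose eigenvalues away from `S` are those of a full system `a` of a level `M' p`, `M' ∣ M`, which
has a non-zero eigenvector killed by both degeneracy traces `Γ₀(M' p) → Γ₀(M')`
(then all of them are: the Galois representation on the eigenlattice is irreducible and the traces
are Galois equivariant), the scalar of a Frobenius lift on the unramified quotient has square `1`. -/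
def AtPNewPointStatement : Prop :=
  ∀ {p : ℕ} {S : Finset ℕ}
    {𝒪 : Type} [CommRing 𝒪] [IsDomain 𝒪] [IsDiscreteValuationRing 𝒪]
    [IsAdicComplete (IsLocalRing.maximalIdeal 𝒪) 𝒪] [Finite (IsLocalRing.ResidueField 𝒪)]
    [CharZero 𝒪]
    {T : Type} [CommRing T] [IsLocalRing T] [IsNoetherianRing T]
    [IsAdicComplete (IsLocalRing.maximalIdeal T) T] [Algebra 𝒪 T] [IsLocalHom (algebraMap 𝒪 T)]
    [Module.Finite 𝒪 T] [Module.Free 𝒪 T]
    {M : ℕ} [NeZero M] [NeZero (M * p)] (hp : p.Prime) (hp2 : p ≠ 2) (hpM : ¬ p ∣ M)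
    (hp𝒪 : (p : 𝒪) ∈ IsLocalRing.maximalIdeal 𝒪)
    {θ : CuspForm.heckeAlgebra (M * p) 2 (↑S : Set ℕ) →+* IsLocalRing.ResidueField 𝒪}
    (hNS : ∀ q : ℕ, q.Prime → q ∣ M * p → q ∈ S)
    (H : CuspForm.HeckeGaloisRepDatum (M * p) (↑S : Set ℕ) 𝒪 θ T)
    (hres : (GaloisRepAdic.ofResidualGaloisRep H.ρ.residual).IsOrdinaryAt p)
    {P : ValuationSubring Ω} (hP : P.LiesOverPrime p) (σ : GQ) (hσ : P.IsFrobeniusAt σ p)
    (z : T) (hz : OrdQuotScalar H.ρ P σ z)
    (B : Type) [CommRing B] [IsDomain B] [IsDiscreteValuationRing B]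
    [IsAdicComplete (maximalIdeal B) B] [Finite (ResidueField B)] [CharZero B]
    (ψ : T →+* B) [IsLocalHom ψ]
    (L : Type) [Field L] [Algebra B L] [IsFractionRing B L]
    (M' : ℕ) [NeZero M'] [NeZero (M' * p)] (hM' : M' ∣ M) (hpM' : ¬ p ∣ M')
    (a : Nat.Primes → B)
    (ha : ∀ (ℓ : ℕ) (hℓ : ℓ.Prime) (hℓN : ¬ ℓ ∣ M * p) (hℓS : ℓ ∉ (↑S : Set ℕ)),
      a ⟨ℓ, hℓ⟩ = ψ (H.π (CuspForm.heckeAlgebra.T hℓ hℓN hℓS)))
    (hkill : ∃ v ∈ eigenPar (M' * p) L (mapSys B L a),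
      v ≠ 0 ∧ pushA M' p hp hpM' L v = 0 ∧ pushB M' p hp hpM' L v = 0),
    ψ z ^ 2 = 1

/-- **(AT-P1), old points**: at a point `ψ : T → B` of the Hecke ring of level `M p` whose system of
eigenvalues away from `S` is that of a full system `a'` of a level `M' ∣ M`, the scalar `z` of a Frobenius
lift on the unramified quotient is a root of `X² - a'_p X + p`. -/
def AtPOldPointStatement : Prop :=
  ∀ {p : ℕ} {S : Finset ℕ}
    {𝒪 : Type} [CommRing 𝒪] [IsDomain 𝒪] [IsDiscreteValuationRing 𝒪]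
    [IsAdicComplete (IsLocalRing.maximalIdeal 𝒪) 𝒪] [Finite (IsLocalRing.ResidueField 𝒪)]
    [CharZero 𝒪]
    {T : Type} [CommRing T] [IsLocalRing T] [IsNoetherianRing T]
    [IsAdicComplete (IsLocalRing.maximalIdeal T) T] [Algebra 𝒪 T] [IsLocalHom (algebraMap 𝒪 T)]
    [Module.Finite 𝒪 T] [Module.Free 𝒪 T]
    {M : ℕ} [NeZero M] [NeZero (M * p)] (hp : p.Prime) (hp2 : p ≠ 2) (hpM : ¬ p ∣ M)
    (hp𝒪 : (p : 𝒪) ∈ IsLocalRing.maximalIdeal 𝒪)
    {θ : CuspForm.heckeAlgebra (M * p) 2 (↑S : Set ℕ) →+* IsLocalRing.ResidueField 𝒪}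
    (hNS : ∀ q : ℕ, q.Prime → q ∣ M * p → q ∈ S)
    (H : CuspForm.HeckeGaloisRepDatum (M * p) (↑S : Set ℕ) 𝒪 θ T)
    (hres : (GaloisRepAdic.ofResidualGaloisRep H.ρ.residual).IsOrdinaryAt p)
    {P : ValuationSubring Ω} (hP : P.LiesOverPrime p) (σ : GQ) (hσ : P.IsFrobeniusAt σ p)
    (z : T) (hz : OrdQuotScalar H.ρ P σ z)
    (B : Type) [CommRing B] [IsDomain B] [IsDiscreteValuationRing B]
    [IsAdicComplete (maximalIdeal B) B] [Finite (ResidueField B)] [CharZero B]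
    (ψ : T →+* B) [IsLocalHom ψ]
    (L : Type) [Field L] [Algebra B L] [IsFractionRing B L]
    (M' : ℕ) [NeZero M'] (hM' : M' ∣ M) (a' : Nat.Primes → B)
    (hocc : eigenPar M' L (mapSys B L a') ≠ ⊥)
    (ha : ∀ (ℓ : ℕ) (hℓ : ℓ.Prime) (hℓN : ¬ ℓ ∣ M * p) (hℓS : ℓ ∉ (↑S : Set ℕ)),
      a' ⟨ℓ, hℓ⟩ = ψ (H.π (CuspForm.heckeAlgebra.T hℓ hℓN hℓS))),
    ψ z ^ 2 - a' ⟨p, hp⟩ * ψ z + (p : B) = 0

end Points

/-- the top of [AT-P]: the two point statements follow from the two geometric statements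
(target of helper2's `ML/ATPTOP_helper2_*`). -/
def AtPTopStatement : Prop :=
  EsNewStatement → EsOldStatement → AtPNewPointStatement ∧ AtPOldPointStatement

end Fermat.Agent.ML
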