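/-
PROJECT ML (S59) — [KEYH-L], lead: **guard-free (`p ≠ 2` instead of `5 ≤ p`) copies of the consumer
chain of RB/KEYHTR_lead_{Rep,Main,Final}.**

RB's `ThetaKills I` / `ThetaKillsJ1 M p` carry the guard `5 ≤ p`; the per-`σ` statements
(`ThetaKillsAt`, `RepTheta.rep_trace_inertia`) never used it.  For S59 the prime `p = 3` is needed
(helper5's `thetaKillsJ1_three_closed` proves the body of `ThetaKillsJ1 M 3`), so the two `∀`-level
literals are restated with the guard `p ≠ 2`: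

* `ThetaKillsOdd I`        : `ThetaKills I` with `p ≠ 2` in place of `5 ≤ p`;
* `ThetaKillsJ1Odd M p`    : `ThetaKillsJ1 M p` with `p ≠ 2` in place of `5 ≤ p`;
* `thetaKillsJ1Odd_of_five_le`, `thetaKillsJ1Odd_of_body` : producers;
* `exists_rep_of_system_of_thetaKillsJ1Odd` : the form consumed by REPT (`tr ρ(σ) = 1 + a⟨cyc σ⟩`
  on inertia at `r ∥ M`), guard `p ≠ 2`.
-/
import Fermat.Agent.RB.KEYHTR_lead_Final

set_option autoImplicit false
set_option linter.unusedSectionVars false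
set_option linter.unusedVariables false
set_option linter.style.haveILetI false

namespace Fermat.Agent.ML

open CongruenceSubgroup ModularCurve ModularCurve.Period Polynomial IsLocalRing Fermat.Agent.GR
  Fermat.Agent.W1 Fermat.Agent.W1.ES Fermat.Agent.TW.Kill Fermat.Agent.RB

open scoped MatrixGroups

local notation "Ω" => AlgebraicClosure ℚ
local notation "GQ" => (AlgebraicClosure ℚ ≃ₐ[ℚ] AlgebraicClosure ℚ)

section Defs

variable {M : ℕ} [NeZero M] {p : ℕ} [hp : Fact p.Prime]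

/-- `RB.ThetaKills` with the guard `p ≠ 2` instead of `5 ≤ p`. -/
def ThetaKillsOdd (I : StageIData₁ M p) : Prop :=
  p ≠ 2 → ∀ r : ℕ, r.Prime → r ∣ M → ¬ r ^ 2 ∣ M → r ≠ p → r ≠ 2 → 5 ≤ M / r →
    ∀ A : ValuationSubring Ω, A.LiesOverPrime r → ∀ σ ∈ A.inertiaSubgroupIn ℚ, ThetaKillsAt I σ

end Defs

/-- `RB.ThetaKillsJ1` with the guard `p ≠ 2` instead of `5 ≤ p`. -/
def ThetaKillsJ1Odd (M : ℕ) [NeZero M] (p : ℕ) : Prop :=
  p ≠ 2 → ∀ r : ℕ, r.Prime → r ∣ M → ¬ r ^ 2 ∣ M → r ≠ p → r ≠ 2 → 5 ≤ M / r →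
    ∀ A : ValuationSubring Ω, A.LiesOverPrime r → ∀ σ ∈ A.inertiaSubgroupIn ℚ,
      ∃ k l : ℕ, ∀ x : J₁ M, (∃ n : ℕ, p ^ n • x = 0) →
        ((DistribMulAction.toAddMonoidEnd GQ (J₁ M) σ - 1) ^ k *
          (DistribMulAction.toAddMonoidEnd GQ (J₁ M) σ - diaBarEnd M (cyc M σ)⁻¹) ^ l) x = 0

/-- for `p ≥ 5` the odd form follows from RB's. -/
theorem thetaKillsJ1Odd_of_five_le (M : ℕ) [NeZero M] (p : ℕ) (h5 : 5 ≤ p)
    (h : ThetaKillsJ1 M p) : ThetaKillsJ1Odd M p :=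
  fun _ => h h5

/-- the odd form from its body (the shape of helper5's `thetaKillsJ1_three_closed`). -/
theorem thetaKillsJ1Odd_of_body (M : ℕ) [NeZero M] (p : ℕ)
    (h : ∀ r : ℕ, r.Prime → r ∣ M → ¬ r ^ 2 ∣ M → r ≠ p → r ≠ 2 → 5 ≤ M / r →
      ∀ A : ValuationSubring Ω, A.LiesOverPrime r → ∀ σ ∈ A.inertiaSubgroupIn ℚ,
        ∃ k l : ℕ, ∀ x : J₁ M, (∃ n : ℕ, p ^ n • x = 0) →
          ((DistribMulAction.toAddMonoidEnd GQ (J₁ M) σ - 1) ^ k *
            (DistribMulAction.toAddMonoidEnd GQ (J₁ M) σ - diaBarEnd M (cyc M σ)⁻¹) ^ l) x = 0) :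
    ThetaKillsJ1Odd M p :=
  fun _ => h

/-- a prime `p ∉ {2, 3}` is `≥ 5`. -/
theorem five_le_of_prime_of_ne {p : ℕ} (hp : p.Prime) (h2 : p ≠ 2) (h3 : p ≠ 3) : 5 ≤ p := by
  have h2' := hp.two_le
  rcases Nat.lt_or_ge p 5 with h | h
  · interval_cases p
    · exact absurd rfl h2
    · exact absurd rfl h3
    · exact absurd hp (by decide)
  · exact h

/-- **the odd form at all odd primes**, from RB's form (all `p`) and the body at `p = 3`. -/
theorem thetaKillsJ1Odd_of_rb_of_three (M : ℕ) [NeZero M] (p : ℕ) [Fact p.Prime]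
    (hrb : ThetaKillsJ1 M p)
    (h3 : p = 3 → ∀ r : ℕ, r.Prime → r ∣ M → ¬ r ^ 2 ∣ M → r ≠ 3 → r ≠ 2 → 5 ≤ M / r →
      ∀ A : ValuationSubring Ω, A.LiesOverPrime r → ∀ σ ∈ A.inertiaSubgroupIn ℚ,
        ∃ k l : ℕ, ∀ x : J₁ M, (∃ n : ℕ, 3 ^ n • x = 0) →
          ((DistribMulAction.toAddMonoidEnd GQ (J₁ M) σ - 1) ^ k *
            (DistribMulAction.toAddMonoidEnd GQ (J₁ M) σ - diaBarEnd M (cyc M σ)⁻¹) ^ l) x = 0) :
    ThetaKillsJ1Odd M p := by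
  intro hp2
  by_cases hp3 : p = 3
  · subst hp3
    exact h3 rfl
  · exact hrb (five_le_of_prime_of_ne Fact.out hp2 hp3)

section Main

variable {M : ℕ} [NeZero M] {p : ℕ} [hp : Fact p.Prime]

theorem thetaKillsOdd_w1Stage (M : ℕ) [NeZero M] (hM5 : 5 ≤ M) (p : ℕ) [Fact p.Prime]
    (h : ThetaKillsJ1Odd M p) : ThetaKillsOdd (w1Stage M hM5 p) := by
  intro h2 r hr hrM hr2 hrp hr2' hMr A hA σ hσ
  exact h h2 r hr hrM hr2 hrp hr2' hMr A hA σ hσ

/-- the core of `RB.exists_rep_of_system_keyH`, guard `p ≠ 2`. -/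
theorem exists_rep_of_system_keyH_odd [ESHyp M] (I : StageIData₁ M p) (hΘ : ThetaKillsOdd I)
    (B : Type) [CommRing B] [IsDomain B] [IsDiscreteValuationRing B] [CharZero B]
    [IsAdicComplete (maximalIdeal B) B] (hpB : (p : B) ∈ maximalIdeal B)
    (L : Type) [Field L] [Algebra B L] [IsFractionRing B L]
    (a : HIdx M → B) (hocc : eigenPar M L (mapSys M B L a) ≠ ⊥) :
    ∃ ρ : GaloisRepAdic B,
      (∀ (q : ℕ) (hq : q.Prime) (hqM : ¬ q ∣ M), q ≠ p →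
        ∀ A : ValuationSubring Ω, A.LiesOverPrime q → ∀ σ : GQ, A.IsFrobeniusAt σ q →
          LinearMap.charpoly (ρ.ρ σ) = X ^ 2 - C (a (Sum.inl ⟨q, hq⟩)) * X +
            C ((q : B) * a (Sum.inr (DS48.primeUnit M hq hqM)))) ∧
      (∀ q : ℕ, q.Prime → ¬ q ∣ M → q ≠ p → ρ.IsUnramifiedAt q) ∧
      (p ≠ 2 → ∀ r : ℕ, r.Prime → r ∣ M → ¬ r ^ 2 ∣ M → r ≠ p → r ≠ 2 → 5 ≤ M / r →
        ∀ A : ValuationSubring Ω, A.LiesOverPrime r → ∀ σ ∈ A.inertiaSubgroupIn ℚ,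
          LinearMap.trace B ρ.V (ρ.ρ σ) = 1 + a (Sum.inr (cyc M σ))) := by
  letI : Algebra ℤ_[p] B := (padicToComplete p (maximalIdeal B) hpB).toAlgebra
  haveI : CharZero L := charZero_of_injective_algebraMap (IsFractionRing.injective B L)
  obtain ⟨_, _, hrank⟩ := mult1_field hocc
  obtain ⟨hplus, hminus⟩ := exists_plus_minus_of_occ L (mapSys M B L a) hocc
  refine ⟨I.rep B hpB a L hrank, ?_, ?_, ?_⟩
  · intro q hq hqM hqp A hA σ hσ
    exact I.rep_charpoly_frobenius B hpB a L hrank hplus hminus hocc hq hqM hqp hA hσ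
  · intro q hq hqM hqp
    refine I.rep_isUnramifiedAt B hpB a L hrank hq ?_
    intro h
    rcases (Nat.Prime.dvd_mul hq).1 h with h | h
    · exact hqM h
    · exact hqp ((Nat.prime_dvd_prime_iff_eq hq hp.out).1 h)
  · intro h2 r hr hrM hr2 hrp hr2' hMr A hA σ hσ
    exact RepTheta.rep_trace_inertia I B hpB a L hrank hplus hminus hocc hr hrp hA hσ
      (hΘ h2 r hr hrM hr2 hrp hr2' hMr A hA σ hσ)

end Main

open Polynomial IsLocalRing in
/-- **(KEY-H) for a system of eigenvalues, guard `p ≠ 2`** (the form consumed by REPT). -/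
theorem exists_rep_of_system_of_thetaKillsJ1Odd (M : ℕ) [NeZero M] (hM5 : 5 ≤ M) (p : ℕ)
    [Fact p.Prime] (h : ThetaKillsJ1Odd M p)
    (B : Type) [CommRing B] [IsDomain B] [IsDiscreteValuationRing B] [CharZero B]
    [IsAdicComplete (maximalIdeal B) B] (hpB : (p : B) ∈ maximalIdeal B)
    (L : Type) [Field L] [Algebra B L] [IsFractionRing B L]
    (a : HIdx M → B) (hocc : W1.eigenPar M L (W1.mapSys M B L a) ≠ ⊥) :
    ∃ ρ : GaloisRepAdic B,
      (∀ (q : ℕ) (hq : q.Prime) (hqM : ¬ q ∣ M), q ≠ p →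
        ∀ A : ValuationSubring Ω, A.LiesOverPrime q → ∀ σ : GQ, A.IsFrobeniusAt σ q →
          LinearMap.charpoly (ρ.ρ σ) = X ^ 2 - C (a (Sum.inl ⟨q, hq⟩)) * X +
            C ((q : B) * a (Sum.inr (DS48.primeUnit M hq hqM)))) ∧
      (∀ q : ℕ, q.Prime → ¬ q ∣ M → q ≠ p → ρ.IsUnramifiedAt q) ∧
      (p ≠ 2 → ∀ r : ℕ, r.Prime → r ∣ M → ¬ r ^ 2 ∣ M → r ≠ p → r ≠ 2 → 5 ≤ M / r →
        ∀ A : ValuationSubring Ω, A.LiesOverPrime r → ∀ σ ∈ A.inertiaSubgroupIn ℚ,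
          LinearMap.trace B ρ.V (ρ.ρ σ) = 1 + a (Sum.inr (cyc M σ))) := by
  haveI : ESHyp M := esHyp_of_ne_one M (by omega)
  exact exists_rep_of_system_keyH_odd (w1Stage M hM5 p) (thetaKillsOdd_w1Stage M hM5 p h)
    B hpB L a hocc

end Fermat.Agent.ML
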