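/-
PROJECT ML (S59) — [REPT-L] (helper9) — INTERFACE FILE: the two leaves consumed by the chain
algebra ([REPT-L] part A, helper9, `ML/REPTL_helper9_*`).

**Layer B = `LevelGaloisStatement`** (a PORT of `RB/REPT_helper1_{TWAlg,TWRep,TWPoint,TWInertia}`
from RB's `TWModSide.Occ` to helper2's `OccL`, `ML/IFACE_helper2_TWModL` v2): for ONE level of the
chain, i.e. one `X : TWModSide 𝒪 p r d n` with `O : OccL X lam c Nt Nbig Sb Sres uQ`,
  `Sb`   = the bad set of THIS level (`badSet p (Nl i) ∪ range Q`, as a `Finset`),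
  `Sres` = the bad set of the TOP level (`badSet p (Nl (Fin.last m)) ∪ range Q`), `Sb ⊆ Sres`,
the Hecke algebra `A = heckeAlg X Sres = 𝒪[Tt ℓ : ℓ ∉ Sres]` is local, and it is a quotient
`f : Tb ↠ A` of the big Hecke ring `Tb` of a `HeckeGaloisRepDatum Nbig Sres 𝒪 θ Tb` (S30), with
`f (π T_ℓ) = Tt ℓ`; moreover (KEY-H) at the Taylor–Wiles primes.  Differences with RB:
  * `p ≠ 2` instead of `5 ≤ p` ((KEY-H) through `ML.ThetaKillsJ1Odd`, `ML/KEYH_lead_Odd`);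
  * `p ∣ Nbig` is allowed (nothing about `p` is asked here: S32/S33 are applied to `datum` by the
    consumer);
  * `OccL.residual` is only known outside `Sres`, so `X.alg` is NOT known to be local: the points of
    `X.alg` have to be taken from its minimal primes (`RB.REPT.exists_point_of_prime`; `X.alg` is
    reduced, finite and flat over `𝒪`) instead of `exists_points_family_injective`; the points
    restricted to `heckeAlg X Sres` are local homomorphisms (`isLocalHom_of_finite`), so their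
    residual systems are `c`;
  * (OCC-a) gives `χ : heckeAlgebra Nbig 2 Sb → B`; restrict it along
    `heckeAlgebra_mono : heckeAlgebra Nbig 2 Sres ≤ heckeAlgebra Nbig 2 Sb`.
Everything else (determinant, unramifiedness, flat/ordinary at `p`, unipotent inertia, traces at the
chain primes above the level, Eichler–Shimura at `p`) is derived from `datum` by the consumer.

**`NewQPointStatement`** (the analogue at a chain prime `q ≠ p` of helper2's `AtPNewPointStatement`,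
"kill" form): at a point of the Hecke ring of level `M q` whose system has a non-zero eigenvector
killed by both degeneracy traces, `(tr ρ(Frob_q))² = (q + 1)²`.
-/
import Mathlib
import Fermat.Agent.ML.IFACE_helper2_TWModL
import Fermat.Agent.ML.IFACE_helper2_AtP
import Fermat.Agent.ML.KEYH_lead_Odd
import Fermat.Agent.RB.REPT_helper1_TWAlg

set_option autoImplicit false
set_option linter.unusedVariables false

open Polynomial IsLocalRing

namespace Fermat.Agent.ML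

open Fermat.Agent.RB Fermat.Agent.RB.REPT Fermat.Agent.GR Fermat.Agent.LR

local notation "Ω" => AlgebraicClosure ℚ
local notation "GQ" => (AlgebraicClosure ℚ ≃ₐ[ℚ] AlgebraicClosure ℚ)

section

variable {𝒪 : Type} [CommRing 𝒪] [IsDomain 𝒪] [IsDiscreteValuationRing 𝒪]
  [IsAdicComplete (maximalIdeal 𝒪) 𝒪]

/-- **what Layer B delivers for one level**: the Hecke algebra `heckeAlg X Sres` is local, a
quotient of the big Hecke ring of a Hecke–Galois datum of level `Nbig` (conditions outside `Sres`)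
lifting `ρ̄`, and (KEY-H) holds at the Taylor–Wiles primes. -/
structure LevelGalois {p r d n : ℕ} (X : TWModSide 𝒪 p r d n)
    (ρbar : ResidualGaloisRep (ResidueField 𝒪)) (Nbig : ℕ) [NeZero Nbig] (Sres : Finset ℕ)
    (Q : Fin r → ℕ) : Type 1 where
  /-- the residual system at level `Nbig` -/
  θ : CuspForm.heckeAlgebra Nbig 2 (↑Sres : Set ℕ) →+* ResidueField 𝒪
  /-- the big Hecke ring -/
  Tb : Type
  [instCommRing : CommRing Tb]
  [instIsLocalRing : IsLocalRing Tb]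
  [instIsNoetherianRing : IsNoetherianRing Tb]
  [instIsAdicComplete : IsAdicComplete (maximalIdeal Tb) Tb]
  [instAlgebra : Algebra 𝒪 Tb]
  [instIsLocalHom : IsLocalHom (algebraMap 𝒪 Tb)]
  [instFinite : Module.Finite 𝒪 Tb]
  [instFree : Module.Free 𝒪 Tb]
  datum : CuspForm.HeckeGaloisRepDatum Nbig (↑Sres : Set ℕ) 𝒪 θ Tb
  residual_isEquiv : datum.ρ.residual.IsEquiv
    (ρbar.baseChangeAlong (IsLocalRing.ResidueField.map (algebraMap 𝒪 Tb)))
  [isLocalRingA : IsLocalRing (heckeAlg X Sres)]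
  [isLocalHomA : IsLocalHom (algebraMap 𝒪 (heckeAlg X Sres))]
  residue_surjective :
    Function.Surjective (IsLocalRing.residue (heckeAlg X Sres) ∘ algebraMap 𝒪 (heckeAlg X Sres))
  /-- the surjection onto the Hecke algebra of the module -/
  f : Tb →ₐ[𝒪] heckeAlg X Sres
  f_surjective : Function.Surjective f
  f_T : ∀ (ℓ : ℕ) (hℓ : ℓ.Prime) (hℓN : ¬ ℓ ∣ Nbig) (hℓS : ℓ ∉ (↑Sres : Set ℕ)) (hℓS' : ℓ ∉ Sres),
    f (datum.π (CuspForm.heckeAlgebra.T hℓ hℓN hℓS)) = TtH X ⟨ℓ, hℓ⟩ hℓS'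
  /-- **(KEY-H)** at the Taylor–Wiles primes -/
  keyH : ∀ q : Fin r, ∃ (P : ValuationSubring Ω) (_ : P.LiesOverPrime (Q q)) (σ : GQ)
    (_ : σ ∈ P.inertiaSubgroupIn ℚ),
      ((f (datum.ρ.trace σ) : heckeAlg X Sres) : Module.End 𝒪 X.H) =
        X.g q + X.g q ^ (p ^ n - 1)

attribute [instance] LevelGalois.instCommRing LevelGalois.instIsLocalRing
  LevelGalois.instIsNoetherianRing LevelGalois.instIsAdicComplete LevelGalois.instAlgebra
  LevelGalois.instIsLocalHom LevelGalois.instFinite LevelGalois.instFree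

end

/-- **[REPT-L] Layer B** (port of RB's `exists_twRep` + `keyH_alg` to `OccL`, all odd `p`,
`p ∣ Nbig` allowed).  `Nt = N ∏ Q`, `Nbig = N (∏ Q)²` enter only through the listed hypotheses. -/
def LevelGaloisStatement : Prop :=
  ∀ {𝒪 : Type} [CommRing 𝒪] [IsDomain 𝒪] [IsDiscreteValuationRing 𝒪]
    [IsAdicComplete (maximalIdeal 𝒪) 𝒪] [Finite (ResidueField 𝒪)] [CharZero 𝒪]
    (p : ℕ) [Fact p.Prime] (_ : p ≠ 2) (_ : (p : 𝒪) ∈ maximalIdeal 𝒪)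
    (lam : 𝒪) (_ : Irreducible lam) (c : Nat.Primes → 𝒪)
    (ρbar : ResidualGaloisRep (ResidueField 𝒪)) (_ : ρbar.IsAbsolutelyIrreducible)
    (_ : LinearMap.det (ρbar.ρ complexConjugation) = -1)
    {r d n : ℕ} (Y : TWModSide 𝒪 p r d n) (_ : 0 < d)
    (Nt Nbig : ℕ) [NeZero Nt] [NeZero Nbig] (Sb Sres : Finset ℕ) (_ : Sb ⊆ Sres)
    (uQ : Fin r → (ZMod Nt)ˣ)
    (_ : OccL Y lam c Nt Nbig (↑Sb : Set ℕ) (↑Sres : Set ℕ) uQ)
    (_ : p ∈ Sb) (_ : ∀ q : ℕ, q.Prime → q ∣ Nbig → q ∈ Sb) (_ : ∀ q : ℕ, q.Prime → q ∣ Nt → q ∈ Sb)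
    -- the residual system `c` is the system of `ρ̄` outside `Sres`
    (_ : ∀ (ℓ : Nat.Primes), (ℓ : ℕ) ∉ Sres →
      ∀ A' : ValuationSubring Ω, A'.LiesOverPrime ℓ → ∀ σ : GQ, A'.IsFrobeniusAt σ ℓ →
        LinearMap.charpoly (ρbar.ρ σ) =
          X ^ 2 - C (residue 𝒪 (c ℓ)) * X + C (((ℓ : ℕ) : ResidueField 𝒪)))
    -- the Taylor–Wiles primes
    (Q : Fin r → ℕ) (_ : ∀ q, (Q q).Prime) (_ : ∀ q, Q q ∣ Nt) (_ : ∀ q, ¬ Q q ^ 2 ∣ Nt)
    (_ : ∀ q, Q q ≠ p) (_ : ∀ q, Q q ≠ 2) (_ : 5 ≤ Nt) (_ : ∀ q, 5 ≤ Nt / Q q)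
    (_ : ∀ q, ((((uQ q : (ZMod Nt)ˣ) : ZMod Nt).val : ℕ) : ZMod (Nt / Q q)) = 1)
    -- (KEY-H), [KEYH-L]
    (_ : ThetaKillsJ1Odd Nt p),
    Nonempty (LevelGalois Y ρbar Nbig Sres Q)

/-- **[REPT-L] Layer B, the form consumed by the chain algebra** (helper1 2384 (2)): besides the
`LevelGalois` also (a) `datum.ρ` is unramified at the primes `q ∤ Nbig p` where `ρ̄` is (in
particular at the chain primes above the level, which lie in `Sres ∖ Sb`), and (b) the Frobenius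
traces at ALL primes `ℓ ∉ Sb` are the Hecke operators of the module (for `ℓ ∈ Sres ∖ Sb` this is
S30 at the points of `Y.alg` + Chebotarev + reducedness).  Same hypotheses as
`LevelGaloisStatement`. -/
def LevelGaloisPlusStatement : Prop :=
  ∀ {𝒪 : Type} [CommRing 𝒪] [IsDomain 𝒪] [IsDiscreteValuationRing 𝒪]
    [IsAdicComplete (maximalIdeal 𝒪) 𝒪] [Finite (ResidueField 𝒪)] [CharZero 𝒪]
    (p : ℕ) [Fact p.Prime] (_ : p ≠ 2) (_ : (p : 𝒪) ∈ maximalIdeal 𝒪)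
    (lam : 𝒪) (_ : Irreducible lam) (c : Nat.Primes → 𝒪)
    (ρbar : ResidualGaloisRep (ResidueField 𝒪)) (_ : ρbar.IsAbsolutelyIrreducible)
    (_ : LinearMap.det (ρbar.ρ complexConjugation) = -1)
    {r d n : ℕ} (Y : TWModSide 𝒪 p r d n) (_ : 0 < d)
    (Nt Nbig : ℕ) [NeZero Nt] [NeZero Nbig] (Sb Sres : Finset ℕ) (_ : Sb ⊆ Sres)
    (uQ : Fin r → (ZMod Nt)ˣ)
    (_ : OccL Y lam c Nt Nbig (↑Sb : Set ℕ) (↑Sres : Set ℕ) uQ)
    (_ : p ∈ Sb) (_ : ∀ q : ℕ, q.Prime → q ∣ Nbig → q ∈ Sb) (_ : ∀ q : ℕ, q.Prime → q ∣ Nt → q ∈ Sb)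
    (_ : ∀ (ℓ : Nat.Primes), (ℓ : ℕ) ∉ Sres →
      ∀ A' : ValuationSubring Ω, A'.LiesOverPrime ℓ → ∀ σ : GQ, A'.IsFrobeniusAt σ ℓ →
        LinearMap.charpoly (ρbar.ρ σ) =
          X ^ 2 - C (residue 𝒪 (c ℓ)) * X + C (((ℓ : ℕ) : ResidueField 𝒪)))
    (Q : Fin r → ℕ) (_ : ∀ q, (Q q).Prime) (_ : ∀ q, Q q ∣ Nt) (_ : ∀ q, ¬ Q q ^ 2 ∣ Nt)
    (_ : ∀ q, Q q ≠ p) (_ : ∀ q, Q q ≠ 2) (_ : 5 ≤ Nt) (_ : ∀ q, 5 ≤ Nt / Q q)
    (_ : ∀ q, ((((uQ q : (ZMod Nt)ˣ) : ZMod Nt).val : ℕ) : ZMod (Nt / Q q)) = 1)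
    (_ : ThetaKillsJ1Odd Nt p),
    ∃ L : LevelGalois Y ρbar Nbig Sres Q,
      (∀ q : ℕ, q.Prime → ¬ q ∣ Nbig → q ≠ p → ρbar.IsUnramifiedAt q →
        L.datum.ρ.IsUnramifiedAt q) ∧
      (∀ (ℓ : ℕ) (hℓ : ℓ.Prime), ℓ ∉ Sb → ∀ P : ValuationSubring Ω, P.LiesOverPrime ℓ →
        ∀ σ : GQ, P.IsFrobeniusAt σ ℓ →
          ((L.f (L.datum.ρ.trace σ) : heckeAlg Y Sres) : Module.End 𝒪 Y.H) = Y.Tt ⟨ℓ, hℓ⟩)

/-- **the Steinberg relation at the `q`-new points, `q ≠ p`** ("kill" form, the analogue of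
`AtPNewPointStatement`): at a point `ψ : T → B` of the Hecke ring of level `M q` whose eigenvalues
away from `S` are those of a full system `a` of a level `M' q`, `M' ∣ M`, which has a non-zero
eigenvector killed by both degeneracy traces `Γ₀(M' q) → Γ₀(M')`, every Frobenius lift `σ` at `q`
has `(tr ρ(σ))² = (q + 1)²`. -/
def NewQPointStatement : Prop :=
  ∀ {p : ℕ} {S : Finset ℕ}
    {𝒪 : Type} [CommRing 𝒪] [IsDomain 𝒪] [IsDiscreteValuationRing 𝒪]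
    [IsAdicComplete (IsLocalRing.maximalIdeal 𝒪) 𝒪] [Finite (IsLocalRing.ResidueField 𝒪)]
    [CharZero 𝒪]
    {T : Type} [CommRing T] [IsLocalRing T] [IsNoetherianRing T]
    [IsAdicComplete (IsLocalRing.maximalIdeal T) T] [Algebra 𝒪 T] [IsLocalHom (algebraMap 𝒪 T)]
    [Module.Finite 𝒪 T] [Module.Free 𝒪 T]
    {M q : ℕ} [NeZero M] [NeZero (M * q)] (hp : p.Prime) (hp2 : p ≠ 2)
    (hq : q.Prime) (hqp : q ≠ p) (hqM : ¬ q ∣ M)
    (hp𝒪 : (p : 𝒪) ∈ IsLocalRing.maximalIdeal 𝒪)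
    {θ : CuspForm.heckeAlgebra (M * q) 2 (↑S : Set ℕ) →+* IsLocalRing.ResidueField 𝒪}
    (hpS : p ∈ S) (hNS : ∀ ℓ : ℕ, ℓ.Prime → ℓ ∣ M * q → ℓ ∈ S)
    (H : CuspForm.HeckeGaloisRepDatum (M * q) (↑S : Set ℕ) 𝒪 θ T)
    {P : ValuationSubring Ω} (hP : P.LiesOverPrime q) (σ : GQ) (hσ : P.IsFrobeniusAt σ q)
    (B : Type) [CommRing B] [IsDomain B] [IsDiscreteValuationRing B]
    [IsAdicComplete (maximalIdeal B) B] [Finite (ResidueField B)] [CharZero B]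
    (ψ : T →+* B) [IsLocalHom ψ]
    (L : Type) [Field L] [Algebra B L] [IsFractionRing B L]
    (M' : ℕ) [NeZero M'] [NeZero (M' * q)] (hM' : M' ∣ M) (hqM' : ¬ q ∣ M')
    (a : Nat.Primes → B)
    (ha : ∀ (ℓ : ℕ) (hℓ : ℓ.Prime) (hℓN : ¬ ℓ ∣ M * q) (hℓS : ℓ ∉ (↑S : Set ℕ)),
      a ⟨ℓ, hℓ⟩ = ψ (H.π (CuspForm.heckeAlgebra.T hℓ hℓN hℓS)))
    (hkill : ∃ v ∈ eigenPar (M' * q) L (mapSys B L a),
      v ≠ 0 ∧ pushA M' q hq hqM' L v = 0 ∧ pushB M' q hq hqM' L v = 0),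
    ψ (H.ρ.trace σ) ^ 2 = ((q : B) + 1) ^ 2

end Fermat.Agent.ML
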