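/-
PROJECT ML (S59) — [REPT-L] Layer B (helper1), file 3: **the Hecke algebra `heckeAlg X Sres` of one
level of helper2's ML4 module data** (`OccL`): it is LOCAL, finite and torsion-free over `𝒪`, with
residue field `k`, `𝒪 → ·` is local and `Tt ℓ ≡ c ℓ` modulo the maximal ideal (`ℓ ∉ Sres`); the
algebra `X.alg` is reduced, and two of its elements which agree at all discrete-valuation-ring
points are equal (it is NOT known to be local here: `OccL.residual` only speaks about `ℓ ∉ Sres`).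
Port of the section `Local` of `RB/REPT_helper1_TWAlg`.
-/
import Mathlib
import Fermat.Agent.ML.IFACE_helper2_TWModL
import Fermat.Agent.RB.REPT_helper1_TWAlg
import Fermat.Agent.ML.REPTLB_helper1_Jac

set_option autoImplicit false
set_option linter.unusedSectionVars false
set_option linter.unusedVariables false
set_option linter.style.haveILetI false

namespace Fermat.Agent.ML.REPTLB

open IsLocalRing Polynomial Fermat.Agent.RB Fermat.Agent.RB.REPT

section Local

variable {𝒪 : Type} [CommRing 𝒪] [IsDomain 𝒪] [IsDiscreteValuationRing 𝒪]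
  {p r d n : ℕ} (X : TWModSide 𝒪 p r d n) {lam : 𝒪} {c : Nat.Primes → 𝒪} {Nt Nbig : ℕ}
  [NeZero Nt] [NeZero Nbig] {Sb Sr : Finset ℕ} {uQ : Fin r → (ZMod Nt)ˣ}
  (O : OccL X lam c Nt Nbig (↑Sb : Set ℕ) (↑Sr : Set ℕ) uQ)
  (hlam : Irreducible lam) (hp : p.Prime) (hd : 0 < d)

include O hlam in
/-- `Tt ℓ - c ℓ` is nilpotent modulo `𝔪` (in `heckeAlg X Sr`). -/
theorem TtH_sub_mem_radicalL {ℓ : Nat.Primes} (hℓ : (ℓ : ℕ) ∉ Sr) :
    TtH X ℓ hℓ - algebraMap 𝒪 (heckeAlg X Sr) (c ℓ) ∈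
      (redKer 𝒪 (heckeAlg X Sr) X.H).radical := by
  obtain ⟨k, hk⟩ := O.residual ℓ (fun h => hℓ (Finset.mem_coe.1 h))
  refine ⟨k, fun h => ?_⟩
  obtain ⟨h', hh'⟩ := hk h
  have h1 : (TtH X ℓ hℓ - algebraMap 𝒪 (heckeAlg X Sr) (c ℓ)) ^ k • h =
      ((X.Tt ℓ - algebraMap 𝒪 (Module.End 𝒪 X.H) (c ℓ)) ^ k) h := rfl
  rw [h1, hh']
  exact lam_smul_mem X hlam h'

include O hlam in
theorem heckeGen_residualL : ∀ a ∈ heckeGen X Sr, ∃ c' : 𝒪,
    a - algebraMap 𝒪 (heckeAlg X Sr) c' ∈ (redKer 𝒪 (heckeAlg X Sr) X.H).radical := by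
  rintro ⟨a, ha⟩ ⟨ℓ, hℓS, hℓ⟩
  refine ⟨c ℓ, ?_⟩
  have h0 : (⟨a, ha⟩ : heckeAlg X Sr) = TtH X ℓ hℓS := Subtype.ext hℓ
  rw [h0]
  exact TtH_sub_mem_radicalL X O hlam hℓS

section LocalHecke

include O hlam hp hd

theorem isLocalRing_heckeAlgL : IsLocalRing (heckeAlg X Sr) := by
  haveI : Nontrivial X.H := side_nontrivial X hd hp.pos
  exact isLocalRing_of_generators (𝒪 := 𝒪) (H := X.H) (heckeGen X Sr) (adjoin_heckeGen X Sr)
    (heckeGen_residualL X O hlam)

theorem isLocalHom_algebraMap_heckeAlgL : IsLocalHom (algebraMap 𝒪 (heckeAlg X Sr)) := by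
  haveI : Nontrivial X.H := side_nontrivial X hd hp.pos
  exact isLocalHom_algebraMap_of_generators (𝒪 := 𝒪) (H := X.H) (heckeGen X Sr)
    (adjoin_heckeGen X Sr) (heckeGen_residualL X O hlam)

theorem residue_surjective_heckeAlgL [IsLocalRing (heckeAlg X Sr)] :
    Function.Surjective (residue (heckeAlg X Sr) ∘ algebraMap 𝒪 (heckeAlg X Sr)) := by
  haveI : Nontrivial X.H := side_nontrivial X hd hp.pos
  exact residue_surjective_of_generators (𝒪 := 𝒪) (H := X.H) (heckeGen X Sr)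
    (adjoin_heckeGen X Sr) (heckeGen_residualL X O hlam)

/-- `Tt ℓ ≡ c ℓ` in the residue field of `heckeAlg X Sr`. -/
theorem residue_TtHL [IsLocalRing (heckeAlg X Sr)] [IsLocalHom (algebraMap 𝒪 (heckeAlg X Sr))]
    {ℓ : Nat.Primes} (hℓ : (ℓ : ℕ) ∉ Sr) :
    residue (heckeAlg X Sr) (TtH X ℓ hℓ) =
      ResidueField.map (algebraMap 𝒪 (heckeAlg X Sr)) (residue 𝒪 (c ℓ)) := by
  haveI : Nontrivial X.H := side_nontrivial X hd hp.pos
  rw [ResidueField.map_residue]
  exact residue_eq_of_sub_mem_radical_redKer (𝒪 := 𝒪) (H := X.H) (heckeGen X Sr)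
    (adjoin_heckeGen X Sr) (heckeGen_residualL X O hlam) (TtH_sub_mem_radicalL X O hlam hℓ)

end LocalHecke

include O in
theorem isReduced_algL : IsReduced X.alg :=
  (isReduced_iff_pow_one_lt 2 one_lt_two).2 O.reduced

include O in
theorem isReduced_heckeAlgL : IsReduced (heckeAlg X Sr) := by
  refine (isReduced_iff_pow_one_lt 2 one_lt_two).2 fun t ht => ?_
  apply heckeIncl_injective X Sr
  rw [map_zero]
  apply O.reduced
  rw [← map_pow, ht, map_zero]

end Local

section Points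

variable {𝒪 : Type} [CommRing 𝒪] [IsDomain 𝒪] [IsDiscreteValuationRing 𝒪]
  [IsAdicComplete (maximalIdeal 𝒪) 𝒪] [CharZero 𝒪] [Finite (ResidueField 𝒪)]
  {p r d n : ℕ} (X : TWModSide 𝒪 p r d n) {lam : 𝒪} {c : Nat.Primes → 𝒪} {Nt Nbig : ℕ}
  [NeZero Nt] [NeZero Nbig] {Sb Sr : Finset ℕ} {uQ : Fin r → (ZMod Nt)ˣ}
  (O : OccL X lam c Nt Nbig (↑Sb : Set ℕ) (↑Sr : Set ℕ) uQ)

include O in
/-- **two elements of `alg` agreeing at all discrete-valuation-ring points are equal.** -/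
theorem eq_of_forall_pointL {a b : X.alg} (h : ∀ x : DVRPoint 𝒪 X.alg, x.ψ a = x.ψ b) : a = b := by
  haveI : IsReduced X.alg := isReduced_algL X O
  haveI : Module.Finite 𝒪 X.alg := finite_alg X
  haveI : Module.IsTorsionFree 𝒪 X.alg := isTorsionFree_alg X
  exact eq_of_forall_point' (𝒪 := 𝒪) h

include O in
/-- a jointly injective finite family of points of `alg`. -/
theorem exists_points_family_algL (hp : p.Prime) (hd : 0 < d) :
    ∃ (J : Type) (_ : Finite J) (_ : Nonempty J) (pt : J → DVRPoint 𝒪 X.alg),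
      ∀ a : X.alg, (∀ j, (pt j).ψ a = 0) → a = 0 := by
  haveI : IsReduced X.alg := isReduced_algL X O
  haveI : Module.Finite 𝒪 X.alg := finite_alg X
  haveI : Module.IsTorsionFree 𝒪 X.alg := isTorsionFree_alg X
  haveI : Nontrivial X.H := side_nontrivial X hd hp.pos
  haveI : Nontrivial X.alg := nontrivial_of_nontrivial_module X.alg X.H
  exact exists_points_family_injective' (𝒪 := 𝒪) (A := X.alg)

end Points

end Fermat.Agent.ML.REPTLB
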