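/-
PROJECT ML (S59) — [REPT-L] Layer B (helper1), file 5: **(KEY-H) at the Taylor–Wiles primes for one
level of helper2's ML4 module data**, all odd `p`.  Port of `RB/REPT_helper1_TWPoint` (section
`System`, `trace_inertia_point`) and of `RB.REPT.keyH_alg`, with lead's guard-free
`ML.exists_rep_of_system_of_thetaKillsJ1Odd` in place of `exists_rep_of_system_of_thetaKillsJ1`,
`OccL` in place of `Occ`, and `eq_of_forall_pointL` (points from the minimal primes).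
-/
import Mathlib
import Fermat.Agent.ML.REPTLB_helper1_Alg
import Fermat.Agent.ML.KEYH_lead_Odd
import Fermat.Agent.RB.REPT_helper1_TWInertia

set_option autoImplicit false
set_option linter.unusedSectionVars false
set_option linter.unusedVariables false
set_option linter.style.haveILetI false

namespace Fermat.Agent.ML.REPTLB

open Polynomial IsLocalRing CuspForm Fermat.Agent.GR Fermat.Agent.W1 Fermat.Agent.TW.Kill
  Fermat.Agent.RB Fermat.Agent.RB.REPT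

local notation "Ω" => AlgebraicClosure ℚ
local notation "GQ" => (AlgebraicClosure ℚ ≃ₐ[ℚ] AlgebraicClosure ℚ)

section System

variable {B : Type} [CommRing B] [IsDomain B] [IsDiscreteValuationRing B]
  [IsAdicComplete (maximalIdeal B) B] [Finite (ResidueField B)] [CharZero B]

/-- auxiliary form of `trace_inertia_of_system`: a finite subextension `L` containing the
eigenvalues is given. -/
theorem trace_inertia_of_system_auxL {p : ℕ} [Fact p.Prime] (hp2 : p ≠ 2)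
    (hpB : (p : B) ∈ maximalIdeal B) {Nt : ℕ} [NeZero Nt] (hM5 : 5 ≤ Nt)
    (hTh : ThetaKillsJ1Odd Nt p) (Sbig : Finset ℕ)
    (hSbigNt : ∀ ℓ : ℕ, ℓ.Prime → ℓ ∉ Sbig → ¬ ℓ ∣ Nt ∧ ℓ ≠ p)
    {R : Type} [CommRing R] [IsLocalRing R] (g : R →+* B) [IsLocalHom g] (ρ : GaloisRepAdic R)
    (a : HIdx Nt → AlgebraicClosure (FractionRing B))
    (ψh : (ZMod Nt)ˣ →* (AlgebraicClosure (FractionRing B))ˣ)
    (hocc : eigenPar Nt (AlgebraicClosure (FractionRing B)) a ≠ ⊥)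
    (m : ℕ) (hpow : ∀ u, ψh u ^ (p ^ m) = 1)
    (hdia : ∀ u : (ZMod Nt)ˣ, a (Sum.inr u) =
      ((ψh u : (AlgebraicClosure (FractionRing B))ˣ) : AlgebraicClosure (FractionRing B)) ^ 2)
    (hρ : ∀ (ℓ : ℕ) (hℓ : ℓ.Prime) (hℓN : ¬ ℓ ∣ Nt), ℓ ∉ Sbig → ∃ t : R,
      a (Sum.inl ⟨ℓ, hℓ⟩) =
        ((ψh (DS48.primeUnit Nt hℓ hℓN) : (AlgebraicClosure (FractionRing B))ˣ) :
          AlgebraicClosure (FractionRing B)) *
          algebraMap B (AlgebraicClosure (FractionRing B)) (g t) ∧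
      ∀ P : ValuationSubring Ω, P.LiesOverPrime ℓ → ∀ φ : GQ, P.IsFrobeniusAt φ ℓ →
        LinearMap.charpoly (ρ.ρ φ) = X ^ 2 - C t * X + C ((ℓ : ℕ) : R))
    (L : IntermediateField (FractionRing B) (AlgebraicClosure (FractionRing B)))
    [FiniteDimensional (FractionRing B) ↥L] (hmem : ∀ ℓ, a ℓ ∈ L) :
    ∀ r' : ℕ, r'.Prime → r' ∣ Nt → ¬ r' ^ 2 ∣ Nt → r' ≠ p → r' ≠ 2 → 5 ≤ Nt / r' →
      ∀ P : ValuationSubring Ω, P.LiesOverPrime r' → ∀ σ ∈ P.inertiaSubgroupIn ℚ,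
        algebraMap B (AlgebraicClosure (FractionRing B)) (g (ρ.trace σ)) =
          ((ψh (cyc Nt σ) : (AlgebraicClosure (FractionRing B))ˣ) :
            AlgebraicClosure (FractionRing B)) +
          (((ψh (cyc Nt σ))⁻¹ : (AlgebraicClosure (FractionRing B))ˣ) :
            AlgebraicClosure (FractionRing B)) := by
  classical
  have hp : p.Prime := Fact.out
  haveI : CharZero (FractionRing B) :=
    charZero_of_injective_algebraMap (IsFractionRing.injective B (FractionRing B))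
  have hint𝒪 : ∀ ℓ, IsIntegral B (a ℓ) := fun ℓ =>
    isIntegral_of_isIntegral_int (isIntegral_of_eigenPar_ne_bot hocc ℓ)
  haveI : IsScalarTower B (FractionRing B) ↥L :=
    IsScalarTower.of_algebraMap_eq fun x => Subtype.ext (by
      show algebraMap B (AlgebraicClosure (FractionRing B)) x = _
      rw [IsScalarTower.algebraMap_apply B (FractionRing B) (AlgebraicClosure (FractionRing B))]
      rfl)
  haveI : IsScalarTower B ↥L (AlgebraicClosure (FractionRing B)) :=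
    IsScalarTower.of_algebraMap_eq fun x => rfl
  let aL : HIdx Nt → ↥L := fun ℓ => ⟨a ℓ, hmem ℓ⟩
  have hintL : ∀ ℓ, IsIntegral B (aL ℓ) := by
    intro ℓ
    have h := hint𝒪 ℓ
    have h2 : a ℓ = algebraMap ↥L (AlgebraicClosure (FractionRing B)) (aL ℓ) := rfl
    rw [h2] at h
    exact (isIntegral_algebraMap_iff (RingHom.injective _)).1 h
  have hoccL : eigenPar Nt ↥L aL ≠ ⊥ := by
    rw [← W1.eigenPar_ne_bot_map_iff _ (AlgebraicClosure (FractionRing B))]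
    exact hocc
  -- the integral closure
  haveI : Algebra.IsSeparable (FractionRing B) ↥L := Algebra.IsAlgebraic.isSeparable_of_perfectField
  obtain ⟨i1, i2, i3, i4, i5, i6, i7⟩ :=
    Fermat.Agent.CFT.Local.exists_localExt_instances B (FractionRing B) ↥L ↥(integralClosure B ↥L)
  haveI := i1
  haveI := i2
  haveI := i3
  haveI := i4
  haveI := i5
  haveI := i6
  haveI hfinres : Finite (ResidueField ↥(integralClosure B ↥L)) := i7 inferInstance
  have hinjL : Function.Injective (algebraMap B ↥L) := by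
    rw [IsScalarTower.algebraMap_eq B (FractionRing B) ↥L]
    exact (algebraMap (FractionRing B) ↥L).injective.comp
      (IsFractionRing.injective B (FractionRing B))
  have hinj : Function.Injective (algebraMap B ↥(integralClosure B ↥L)) := by
    intro x y hxy
    apply hinjL
    exact congrArg Subtype.val hxy
  haveI : CharZero ↥(integralClosure B ↥L) := charZero_of_injective_algebraMap hinj
  have hpB' : (p : ↥(integralClosure B ↥L)) ∈ maximalIdeal ↥(integralClosure B ↥L) := by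
    have h1 : (p : ↥(integralClosure B ↥L)) = algebraMap B ↥(integralClosure B ↥L) (p : B) := by
      rw [map_natCast]
    rw [h1]
    exact map_nonunit (algebraMap B ↥(integralClosure B ↥L)) _ hpB
  let a'' : HIdx Nt → ↥(integralClosure B ↥L) := fun ℓ => ⟨aL ℓ, hintL ℓ⟩
  have hsys : mapSys Nt ↥(integralClosure B ↥L) ↥L a'' = aL := rfl
  obtain ⟨ρa, h1, h2, h3⟩ := exists_rep_of_system_of_thetaKillsJ1Odd Nt hM5 p hTh
    ↥(integralClosure B ↥L) hpB' ↥L a'' (by rw [hsys]; exact hoccL)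
  -- the embedding of `B'` into `F`
  let ι : ↥(integralClosure B ↥L) →+* AlgebraicClosure (FractionRing B) :=
    (algebraMap ↥L (AlgebraicClosure (FractionRing B))).comp
      (algebraMap ↥(integralClosure B ↥L) ↥L)
  have hιinj : Function.Injective ι := by
    intro x y hxy
    exact Subtype.ext (Subtype.ext hxy)
  let f : R →+* ↥(integralClosure B ↥L) := (algebraMap B ↥(integralClosure B ↥L)).comp g
  haveI : IsLocalHom f := RingHom.isLocalHom_comp _ _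
  intro r' hr' hr'N hr'2 hr'p hr'2' hr'3 P hP σ hσ
  exact trace_eq_of_twist_of_embedding ι hιinj f ρ ρa a'' ψh hp hp2 m hpow hdia Sbig
    (fun ℓ hℓ hℓS => (hSbigNt ℓ hℓ hℓS).1) hρ
    (fun ℓ hℓ hℓN hℓS => h1 ℓ hℓ hℓN (hSbigNt ℓ hℓ hℓS).2) σ
    (h3 hp2 r' hr' hr'N hr'2 hr'p hr'2' hr'3 P hP σ hσ)

/-- **the trace of inertia from an occurring system**: `B` a complete discrete valuation ring,
`F` the algebraic closure of its fraction field, `a : HIdx Nt → F` a system occurring in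
`eigenPar Nt F`, `ψh` a character of `p`-power order with `a(⟨u⟩) = ψh(u)²`; `ρ` a representation
over a local ring `R`, `g : R → B` a local homomorphism, such that the Frobenius characteristic
polynomials of `ρ` at the primes `ℓ ∉ Sbig` are `X² - t X + ℓ` with `a(T_ℓ) = ψh(ℓ) g(t)`.
Then `g (tr ρ(σ)) = ψh(cyc σ) + ψh(cyc σ)⁻¹` for `σ` in an inertia group at `r' ∥ Nt`. -/
theorem trace_inertia_of_systemL {p : ℕ} [Fact p.Prime] (hp2 : p ≠ 2)
    (hpB : (p : B) ∈ maximalIdeal B) {Nt : ℕ} [NeZero Nt] (hM5 : 5 ≤ Nt)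
    (hTh : ThetaKillsJ1Odd Nt p) (Sbig : Finset ℕ)
    (hSbigNt : ∀ ℓ : ℕ, ℓ.Prime → ℓ ∉ Sbig → ¬ ℓ ∣ Nt ∧ ℓ ≠ p)
    {R : Type} [CommRing R] [IsLocalRing R] (g : R →+* B) [IsLocalHom g] (ρ : GaloisRepAdic R)
    (a : HIdx Nt → AlgebraicClosure (FractionRing B))
    (ψh : (ZMod Nt)ˣ →* (AlgebraicClosure (FractionRing B))ˣ)
    (hocc : eigenPar Nt (AlgebraicClosure (FractionRing B)) a ≠ ⊥)
    (m : ℕ) (hpow : ∀ u, ψh u ^ (p ^ m) = 1)
    (hdia : ∀ u : (ZMod Nt)ˣ, a (Sum.inr u) =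
      ((ψh u : (AlgebraicClosure (FractionRing B))ˣ) : AlgebraicClosure (FractionRing B)) ^ 2)
    (hρ : ∀ (ℓ : ℕ) (hℓ : ℓ.Prime) (hℓN : ¬ ℓ ∣ Nt), ℓ ∉ Sbig → ∃ t : R,
      a (Sum.inl ⟨ℓ, hℓ⟩) =
        ((ψh (DS48.primeUnit Nt hℓ hℓN) : (AlgebraicClosure (FractionRing B))ˣ) :
          AlgebraicClosure (FractionRing B)) *
          algebraMap B (AlgebraicClosure (FractionRing B)) (g t) ∧
      ∀ P : ValuationSubring Ω, P.LiesOverPrime ℓ → ∀ φ : GQ, P.IsFrobeniusAt φ ℓ →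
        LinearMap.charpoly (ρ.ρ φ) = X ^ 2 - C t * X + C ((ℓ : ℕ) : R)) :
    ∀ r' : ℕ, r'.Prime → r' ∣ Nt → ¬ r' ^ 2 ∣ Nt → r' ≠ p → r' ≠ 2 → 5 ≤ Nt / r' →
      ∀ P : ValuationSubring Ω, P.LiesOverPrime r' → ∀ σ ∈ P.inertiaSubgroupIn ℚ,
        algebraMap B (AlgebraicClosure (FractionRing B)) (g (ρ.trace σ)) =
          ((ψh (cyc Nt σ) : (AlgebraicClosure (FractionRing B))ˣ) :
            AlgebraicClosure (FractionRing B)) +
          (((ψh (cyc Nt σ))⁻¹ : (AlgebraicClosure (FractionRing B))ˣ) :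
            AlgebraicClosure (FractionRing B)) := by
  classical
  have hp : p.Prime := Fact.out
  haveI : CharZero (FractionRing B) :=
    charZero_of_injective_algebraMap (IsFractionRing.injective B (FractionRing B))
  have hint𝒪 : ∀ ℓ, IsIntegral B (a ℓ) := fun ℓ =>
    isIntegral_of_isIntegral_int (isIntegral_of_eigenPar_ne_bot hocc ℓ)
  have hintK : ∀ ℓ, IsIntegral (FractionRing B) (a ℓ) := fun ℓ =>
    isIntegral_of_isIntegral_int (isIntegral_of_eigenPar_ne_bot hocc ℓ)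
  -- the finite extension generated by finitely many eigenvalues
  obtain ⟨s, hs⟩ := exists_finset_forall_mem_algebra_adjoin hocc
  haveI : Finite ↑(a '' (s : Set (HIdx Nt))) := (s.finite_toSet.image a).to_subtype
  haveI hfd : FiniteDimensional (FractionRing B)
      ↥(IntermediateField.adjoin (FractionRing B) (a '' (s : Set (HIdx Nt)))) :=
    IntermediateField.finiteDimensional_adjoin (by
      rintro _ ⟨ℓ, _, rfl⟩
      exact hintK ℓ)
  haveI : IsScalarTower B (FractionRing B)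
      ↥(IntermediateField.adjoin (FractionRing B) (a '' (s : Set (HIdx Nt)))) :=
    IsScalarTower.of_algebraMap_eq fun x => Subtype.ext (by
      show algebraMap B (AlgebraicClosure (FractionRing B)) x = _
      rw [IsScalarTower.algebraMap_apply B (FractionRing B) (AlgebraicClosure (FractionRing B))]
      rfl)
  have hmem : ∀ ℓ : HIdx Nt, a ℓ ∈
      IntermediateField.adjoin (FractionRing B) (a '' (s : Set (HIdx Nt))) := fun ℓ =>
    mem_adjoin_of_mem_algebra_adjoin_rat (hs ℓ)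
  haveI : IsScalarTower B
      ↥(IntermediateField.adjoin (FractionRing B) (a '' (s : Set (HIdx Nt))))
      (AlgebraicClosure (FractionRing B)) :=
    IsScalarTower.of_algebraMap_eq fun x => rfl
  exact trace_inertia_of_system_auxL hp2 hpB hM5 hTh Sbig hSbigNt g ρ a ψh hocc m hpow hdia hρ
    (IntermediateField.adjoin (FractionRing B) (a '' (s : Set (HIdx Nt)))) hmem

end System

section Point

variable {𝒪 : Type} [CommRing 𝒪] [IsDomain 𝒪] [IsDiscreteValuationRing 𝒪]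
  [IsAdicComplete (maximalIdeal 𝒪) 𝒪] [CharZero 𝒪] [Finite (ResidueField 𝒪)]
  {p r d n : ℕ} (Y : TWModSide 𝒪 p r d n) {lam : 𝒪} {c : Nat.Primes → 𝒪} {Nt Nbig : ℕ}
  [NeZero Nt] [NeZero Nbig] {Sb Sr : Finset ℕ} {uQ : Fin r → (ZMod Nt)ˣ}

/-- **the trace of inertia at a point.** -/
theorem trace_inertia_pointL [Fact p.Prime] (hp2 : p ≠ 2)
    (hp𝒪 : (p : 𝒪) ∈ maximalIdeal 𝒪) (hM5 : 5 ≤ Nt) (hTh : ThetaKillsJ1Odd Nt p)
    (hSbr : Sb ⊆ Sr)
    (O : OccL Y lam c Nt Nbig (↑Sb : Set ℕ) (↑Sr : Set ℕ) uQ)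
    (hSbigNt : ∀ ℓ : ℕ, ℓ.Prime → ℓ ∉ Sr → ¬ ℓ ∣ Nt ∧ ℓ ≠ p)
    [IsLocalRing (heckeAlg Y Sr)] [IsLocalHom (algebraMap 𝒪 (heckeAlg Y Sr))]
    [Module.Finite 𝒪 (heckeAlg Y Sr)]
    (ρ : GaloisRepAdic (heckeAlg Y Sr))
    (hρ : ∀ (ℓ : ℕ) (hℓ : ℓ.Prime) (hℓS : ℓ ∉ Sr), ∀ P : ValuationSubring Ω,
      P.LiesOverPrime ℓ → ∀ σ : GQ, P.IsFrobeniusAt σ ℓ →
        LinearMap.charpoly (ρ.ρ σ) =
          X ^ 2 - C (TtH Y ⟨ℓ, hℓ⟩ hℓS) * X + C ((ℓ : ℕ) : heckeAlg Y Sr))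
    (x : DVRPoint 𝒪 Y.alg) :
    ∃ ψh : (ZMod Nt)ˣ →* (AlgebraicClosure (FractionRing x.B))ˣ,
      (∃ m : ℕ, ∀ u, ψh u ^ (p ^ m) = 1) ∧
      (∀ q : Fin r, algebraMap x.B (AlgebraicClosure (FractionRing x.B)) (x.ψ (Y.gA q)) =
        ((ψh (uQ q) : (AlgebraicClosure (FractionRing x.B))ˣ) :
          AlgebraicClosure (FractionRing x.B))) ∧
      ∀ r' : ℕ, r'.Prime → r' ∣ Nt → ¬ r' ^ 2 ∣ Nt → r' ≠ p → r' ≠ 2 → 5 ≤ Nt / r' →
        ∀ P : ValuationSubring Ω, P.LiesOverPrime r' → ∀ σ ∈ P.inertiaSubgroupIn ℚ,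
          algebraMap x.B (AlgebraicClosure (FractionRing x.B))
              (x.ψ (heckeIncl Y Sr (ρ.trace σ))) =
            ((ψh (cyc Nt σ) : (AlgebraicClosure (FractionRing x.B))ˣ) :
              AlgebraicClosure (FractionRing x.B)) +
            (((ψh (cyc Nt σ))⁻¹ : (AlgebraicClosure (FractionRing x.B))ˣ) :
              AlgebraicClosure (FractionRing x.B)) := by
  classical
  have hp : p.Prime := Fact.out
  -- notation
  let B := x.B
  let K := FractionRing B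
  let F := AlgebraicClosure K
  haveI : CharZero K := charZero_of_injective_algebraMap (IsFractionRing.injective B K)
  have hinjBF : Function.Injective (algebraMap B F) := by
    rw [IsScalarTower.algebraMap_eq B K F]
    exact (algebraMap K F).injective.comp (IsFractionRing.injective B K)
  -- (OCC-b)
  obtain ⟨a, ψh, hocc, ⟨m, hpow⟩, hdia, hT, hg⟩ := (O.occ B x.ψ).2 F hinjBF
  refine ⟨ψh, ⟨m, hpow⟩, hg, ?_⟩
  have hpB : (p : B) ∈ maximalIdeal B := by
    have h1 : (p : B) = algebraMap 𝒪 B (p : 𝒪) := by rw [map_natCast]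
    rw [h1]
    exact map_nonunit (algebraMap 𝒪 B) _ hp𝒪
  let gg : heckeAlg Y Sr →ₐ[𝒪] B := x.ψ.comp (heckeIncl Y Sr)
  haveI : IsLocalHom (gg : heckeAlg Y Sr →+* B) := isLocalHom_of_finite gg
  have hmain := trace_inertia_of_systemL (B := B) hp2 hpB hM5 hTh Sr hSbigNt
    (gg : heckeAlg Y Sr →+* B) ρ a ψh hocc m hpow hdia ?_
  · exact hmain
  · intro ℓ hℓ hℓN hℓS
    refine ⟨TtH Y ⟨ℓ, hℓ⟩ hℓS, ?_, fun P hP φ hφ => hρ ℓ hℓ hℓS P hP φ hφ⟩
    rw [hT ℓ hℓ hℓN (fun h => hℓS (hSbr (Finset.mem_coe.1 h)))]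
    rfl

/-- **(KEY-H) at a Taylor–Wiles prime, in `alg`.** -/
theorem keyH_algL [Fact p.Prime] (hp2 : p ≠ 2)
    (hp𝒪 : (p : 𝒪) ∈ maximalIdeal 𝒪) (hM5 : 5 ≤ Nt)
    (hTh : ThetaKillsJ1Odd Nt p) (hSbr : Sb ⊆ Sr)
    (O : OccL Y lam c Nt Nbig (↑Sb : Set ℕ) (↑Sr : Set ℕ) uQ)
    (hSbigNt : ∀ ℓ : ℕ, ℓ.Prime → ℓ ∉ Sr → ¬ ℓ ∣ Nt ∧ ℓ ≠ p)
    [IsLocalRing (heckeAlg Y Sr)] [IsLocalHom (algebraMap 𝒪 (heckeAlg Y Sr))]
    (ρ : GaloisRepAdic (heckeAlg Y Sr))
    (hρ : ∀ (ℓ : ℕ) (hℓ : ℓ.Prime) (hℓS : ℓ ∉ Sr), ∀ P : ValuationSubring Ω,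
      P.LiesOverPrime ℓ → ∀ σ : GQ, P.IsFrobeniusAt σ ℓ →
        LinearMap.charpoly (ρ.ρ σ) =
          X ^ 2 - C (TtH Y ⟨ℓ, hℓ⟩ hℓS) * X + C ((ℓ : ℕ) : heckeAlg Y Sr))
    (q : Fin r) {r' : ℕ} (hr' : r'.Prime) (hr'N : r' ∣ Nt) (hr'2 : ¬ r' ^ 2 ∣ Nt) (hr'p : r' ≠ p)
    (hr'2' : r' ≠ 2) (hr'3 : 5 ≤ Nt / r')
    (huQ : (((((uQ q : (ZMod Nt)ˣ) : ZMod Nt).val : ℕ)) : ZMod (Nt / r')) = 1) :
    ∃ (P : ValuationSubring Ω) (_ : P.LiesOverPrime r') (σ : GQ)
      (_ : σ ∈ P.inertiaSubgroupIn ℚ),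
      heckeIncl Y Sr (ρ.trace σ) = Y.gA q + Y.gA q ^ (p ^ n - 1) := by
  classical
  have hp : p.Prime := Fact.out
  haveI : Module.Finite 𝒪 (heckeAlg Y Sr) := finite_heckeAlg Y Sr
  obtain ⟨P, -, hP, -⟩ := Fermat.Agent.S54.exists_frobenius r' hr'
  obtain ⟨σ, hσ, hcyc⟩ := exists_mem_inertia_cyc_eq hr' hr'N hr'2 hP (uQ q) huQ
  refine ⟨P, hP, σ, hσ, ?_⟩
  refine eq_of_forall_pointL Y O fun x => ?_
  have hinjBF : Function.Injective
      (algebraMap x.B (AlgebraicClosure (FractionRing x.B))) := by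
    rw [IsScalarTower.algebraMap_eq x.B (FractionRing x.B) (AlgebraicClosure (FractionRing x.B))]
    exact (algebraMap (FractionRing x.B) (AlgebraicClosure (FractionRing x.B))).injective.comp
      (IsFractionRing.injective x.B (FractionRing x.B))
  apply hinjBF
  obtain ⟨ψh, -, hg, htr⟩ := trace_inertia_pointL Y hp2 hp𝒪 hM5 hTh hSbr O hSbigNt ρ hρ x
  rw [htr r' hr' hr'N hr'2 hr'p hr'2' hr'3 P hP σ hσ, hcyc, map_add, map_add, map_pow, map_pow,
    hg q]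
  congr 1
  have h1 : ((ψh (uQ q) : (AlgebraicClosure (FractionRing x.B))ˣ) :
      AlgebraicClosure (FractionRing x.B)) ^ (p ^ n) = 1 := by
    rw [← hg q, ← map_pow, ← map_pow]
    have : Y.gA q ^ p ^ n = 1 := Subtype.ext (Y.g_pow q)
    rw [this, map_one, map_one]
  rw [Units.val_inv_eq_inv_val]
  symm
  apply eq_inv_of_mul_eq_one_left
  rw [← pow_succ, Nat.sub_add_cancel (Nat.one_le_pow _ _ hp.pos), h1]

end Point

end Fermat.Agent.ML.REPTLB
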