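/-
PROJECT ML (S59) — [REPT-L] Layer B (helper1), file 4: **the Hecke–Galois datum of level `Nbig`
(conditions outside `Sres`) and the surjection of its Hecke ring onto `heckeAlg Y Sres`**, for one
level of helper2's ML4 module data.  Port of `RB.REPT.exists_twRep` (first half): `Y.alg` is not
known to be local, its points come from the minimal primes; (OCC-a) is restricted from
`heckeAlgebra Nbig 2 Sb` to `heckeAlgebra Nbig 2 Sres`.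
-/
import Mathlib
import Fermat.Agent.ML.REPTLB_helper1_Alg
import Fermat.Agent.RB.REPT_helper1_TWRep
import Fermat.Agent.RB.REPT_helper1_Final

set_option autoImplicit false
set_option linter.unusedSectionVars false
set_option linter.unusedVariables false
set_option linter.style.haveILetI false

namespace Fermat.Agent.ML.REPTLB

open Polynomial IsLocalRing CuspForm Fermat.Agent.GR Fermat.Agent.RB Fermat.Agent.RB.REPT

local notation "Ω" => AlgebraicClosure ℚ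
local notation "GQ" => (AlgebraicClosure ℚ ≃ₐ[ℚ] AlgebraicClosure ℚ)

section Restrict

variable {N : ℕ} [NeZero N] {S S' : Set ℕ}

/-- the restriction of a character of the Hecke algebra away from `S` to the Hecke algebra away
from `S' ⊇ S`. -/
noncomputable def restrictChar (h : S ⊆ S') {B : Type*} [Semiring B]
    (χ : ↥(heckeAlgebra N 2 S) →+* B) : ↥(heckeAlgebra N 2 S') →+* B :=
  χ.comp (Subalgebra.inclusion (heckeAlgebra_mono (N := N) (k := 2) h)).toRingHom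

theorem restrictChar_T (h : S ⊆ S') {B : Type*} [Semiring B] (χ : ↥(heckeAlgebra N 2 S) →+* B)
    {ℓ : ℕ} (hℓ : ℓ.Prime) (hℓN : ¬ ℓ ∣ N) (hℓS' : ℓ ∉ S') :
    restrictChar h χ (heckeAlgebra.T hℓ hℓN hℓS') =
      χ (heckeAlgebra.T hℓ hℓN (fun hS => hℓS' (h hS))) := rfl

end Restrict

section Datum

variable {𝒪 : Type} [CommRing 𝒪] [IsDomain 𝒪] [IsDiscreteValuationRing 𝒪]
  [IsAdicComplete (maximalIdeal 𝒪) 𝒪] [CharZero 𝒪] [Finite (ResidueField 𝒪)]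
  {p r d n : ℕ} (Y : TWModSide 𝒪 p r d n) {lam : 𝒪} {c : Nat.Primes → 𝒪} {Nt Nbig : ℕ}
  [NeZero Nt] [NeZero Nbig] {Sb Sr : Finset ℕ} {uQ : Fin r → (ZMod Nt)ˣ}

/-- **the datum of level `Nbig` and the surjection onto `heckeAlg Y Sr`.** -/
theorem exists_datumL [Fact p.Prime] (hp2 : p ≠ 2) (hp𝒪 : (p : 𝒪) ∈ maximalIdeal 𝒪)
    (hlam : Irreducible lam) (hd : 0 < d) (hSbr : Sb ⊆ Sr)
    (O : OccL Y lam c Nt Nbig (↑Sb : Set ℕ) (↑Sr : Set ℕ) uQ)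
    (hpSb : p ∈ Sb) (hNbigS : ∀ q : ℕ, q.Prime → q ∣ Nbig → q ∈ Sb)
    (ρbar : ResidualGaloisRep (ResidueField 𝒪)) (habs : ρbar.IsAbsolutelyIrreducible)
    (hbarchar : ∀ (ℓ : Nat.Primes), (ℓ : ℕ) ∉ Sr →
      ∀ A' : ValuationSubring Ω, A'.LiesOverPrime ℓ → ∀ σ : GQ, A'.IsFrobeniusAt σ ℓ →
        LinearMap.charpoly (ρbar.ρ σ) =
          X ^ 2 - C (residue 𝒪 (c ℓ)) * X + C (((ℓ : ℕ) : ResidueField 𝒪)))
    (hbardet : LinearMap.det (ρbar.ρ complexConjugation) = -1) :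
    ∃ (θ : ↥(heckeAlgebra Nbig 2 (↑Sr : Set ℕ)) →+* ResidueField 𝒪)
      (Tb : Type) (_ : CommRing Tb) (_ : IsLocalRing Tb) (_ : IsNoetherianRing Tb)
      (_ : IsAdicComplete (maximalIdeal Tb) Tb) (_ : Algebra 𝒪 Tb)
      (_ : IsLocalHom (algebraMap 𝒪 Tb)) (_ : Module.Finite 𝒪 Tb) (_ : Module.Free 𝒪 Tb)
      (H : HeckeGaloisRepDatum Nbig (↑Sr : Set ℕ) 𝒪 θ Tb)
      (_ : IsLocalRing (heckeAlg Y Sr)) (_ : IsLocalHom (algebraMap 𝒪 (heckeAlg Y Sr))),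
      H.ρ.residual.IsEquiv (ρbar.baseChangeAlong (ResidueField.map (algebraMap 𝒪 Tb))) ∧
      (∀ q : ℕ, q.Prime → ¬ q ∣ Nbig → q ≠ p → ρbar.IsUnramifiedAt q → H.ρ.IsUnramifiedAt q) ∧
      (∀ (B : Type) [CommRing B] [IsDomain B] [IsLocalRing B] [Algebra 𝒪 B]
        [IsLocalHom (algebraMap 𝒪 B)] (_ : Function.Injective (algebraMap 𝒪 B))
        (χ : ↥(heckeAlgebra Nbig 2 (↑Sr : Set ℕ)) →+* B),
        (∀ t, residue B (χ t) = ResidueField.map (algebraMap 𝒪 B) (θ t)) →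
          ∃ ψ : Tb →ₐ[𝒪] B, ∀ t, ψ (H.π t) = χ t) ∧
      Function.Surjective (residue (heckeAlg Y Sr) ∘ algebraMap 𝒪 (heckeAlg Y Sr)) ∧
      ∃ f : Tb →ₐ[𝒪] heckeAlg Y Sr, Function.Surjective f ∧
        ∀ (ℓ : ℕ) (hℓ : ℓ.Prime) (hℓN : ¬ ℓ ∣ Nbig) (hℓS : ℓ ∉ (↑Sr : Set ℕ)) (hℓS' : ℓ ∉ Sr),
          f (H.π (heckeAlgebra.T hℓ hℓN hℓS)) = TtH Y ⟨ℓ, hℓ⟩ hℓS' := by
  classical
  have hp : p.Prime := Fact.out
  have hpSr : p ∈ Sr := hSbr hpSb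
  have hNbigSr : ∀ q : ℕ, q.Prime → q ∣ Nbig → q ∈ Sr := fun q hq hqN => hSbr (hNbigS q hq hqN)
  have hNbigSr' : ∀ q : ℕ, q.Prime → q ∣ Nbig → q ∈ (↑Sr : Set ℕ) := fun q hq hqN =>
    Finset.mem_coe.2 (hNbigSr q hq hqN)
  have hsub : (↑Sb : Set ℕ) ⊆ (↑Sr : Set ℕ) := Finset.coe_subset.2 hSbr
  -- the local structure of `heckeAlg`
  haveI hlocT : IsLocalRing (heckeAlg Y Sr) := isLocalRing_heckeAlgL Y O hlam hp hd
  haveI hlhT : IsLocalHom (algebraMap 𝒪 (heckeAlg Y Sr)) :=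
    isLocalHom_algebraMap_heckeAlgL Y O hlam hp hd
  have hsurjT := residue_surjective_heckeAlgL Y O hlam hp hd
  haveI : IsReduced (heckeAlg Y Sr) := isReduced_heckeAlgL Y O
  haveI : Module.Finite 𝒪 (heckeAlg Y Sr) := finite_heckeAlg Y Sr
  haveI : Module.IsTorsionFree 𝒪 (heckeAlg Y Sr) := isTorsionFree_heckeAlg Y Sr
  haveI : Module.Free 𝒪 (heckeAlg Y Sr) := Module.free_of_finite_type_torsion_free'
  -- the points of `alg`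
  obtain ⟨J, hJ, hJne, pt, hinj⟩ := exists_points_family_algL Y O hp hd
  obtain ⟨Θ, hΘres, hΘker⟩ :=
    exists_theta_of_residue_surjective (𝒪 := 𝒪) (A := heckeAlg Y Sr) hsurjT
  have hle : ∀ j, RingHom.ker ((restrictPoint Y (pt j) Sr).ψ :
      heckeAlg Y Sr →+* (restrictPoint Y (pt j) Sr).B) ≤
      RingHom.ker (Θ : heckeAlg Y Sr →+* ResidueField 𝒪) := by
    intro j
    rw [hΘker]
    refine IsLocalRing.le_maximalIdeal ?_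
    rw [Ne, Ideal.eq_top_iff_one, RingHom.mem_ker]
    show ¬ (restrictPoint Y (pt j) Sr).ψ 1 = 0
    rw [map_one]
    exact one_ne_zero
  have hΘTt : ∀ (ℓ : ℕ) (hℓ : ℓ.Prime) (hℓS : ℓ ∉ Sr),
      Θ (TtH Y ⟨ℓ, hℓ⟩ hℓS) = residue 𝒪 (c ⟨ℓ, hℓ⟩) := by
    intro ℓ hℓ hℓS
    apply (ResidueField.map (algebraMap 𝒪 (heckeAlg Y Sr))).injective
    rw [hΘres]
    exact residue_TtHL Y O hlam hp hd (ℓ := ⟨ℓ, hℓ⟩) hℓS
  -- (OCC-a) at all points, restricted to the Hecke algebra away from `Sr`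
  have hocc : ∀ j : J, ∃ χ : ↥(heckeAlgebra Nbig 2 (↑Sr : Set ℕ)) →+* (pt j).B,
      ∀ (ℓ : ℕ) (hℓ : ℓ.Prime) (hℓN : ¬ ℓ ∣ Nbig) (hℓS : ℓ ∉ (↑Sr : Set ℕ)),
        χ (heckeAlgebra.T hℓ hℓN hℓS) = (pt j).ψ (Y.TtA ⟨ℓ, hℓ⟩) := by
    intro j
    obtain ⟨χ, hχ⟩ := (O.occ (pt j).B (pt j).ψ).1
    refine ⟨restrictChar hsub χ, fun ℓ hℓ hℓN hℓS => ?_⟩
    rw [restrictChar_T]
    exact hχ ℓ hℓ hℓN _
  -- the residue of a point at `Tt ℓ`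
  have hresTt : ∀ (j : J) (ℓ : ℕ) (hℓ : ℓ.Prime) (hℓS : ℓ ∉ Sr),
      residue (pt j).B ((pt j).ψ (Y.TtA ⟨ℓ, hℓ⟩)) =
        ResidueField.map (algebraMap 𝒪 (pt j).B) (residue 𝒪 (c ⟨ℓ, hℓ⟩)) := by
    intro j ℓ hℓ hℓS
    have h1 := (restrictPoint Y (pt j) Sr).residue_ψ Θ (hle j) (TtH Y ⟨ℓ, hℓ⟩ hℓS)
    rw [hΘTt ℓ hℓ hℓS] at h1
    exact h1
  -- the residual character at level `Nbig`
  obtain ⟨j₀⟩ := hJne
  obtain ⟨χ₀, hχ₀⟩ := hocc j₀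
  obtain ⟨θbig, hθbig⟩ := exists_heckeAlgebra_factor hNbigSr'
    (ResidueField.map (algebraMap 𝒪 (pt j₀).B)) ((residue (pt j₀).B).comp χ₀) (by
      intro ℓ hℓ hℓN hℓS
      have hℓS' : ℓ ∉ Sr := fun h => hℓS (Finset.mem_coe.2 h)
      refine ⟨residue 𝒪 (c ⟨ℓ, hℓ⟩), ?_⟩
      rw [RingHom.comp_apply, hχ₀ ℓ hℓ hℓN hℓS, hresTt j₀ ℓ hℓ hℓS'])
  have hθbigT : ∀ (ℓ : ℕ) (hℓ : ℓ.Prime) (hℓN : ¬ ℓ ∣ Nbig) (hℓS : ℓ ∉ (↑Sr : Set ℕ)),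
      θbig (heckeAlgebra.T hℓ hℓN hℓS) = residue 𝒪 (c ⟨ℓ, hℓ⟩) := by
    intro ℓ hℓ hℓN hℓS
    have hℓS' : ℓ ∉ Sr := fun h => hℓS (Finset.mem_coe.2 h)
    apply (ResidueField.map (algebraMap 𝒪 (pt j₀).B)).injective
    rw [hθbig, RingHom.comp_apply, hχ₀ ℓ hℓ hℓN hℓS, hresTt j₀ ℓ hℓ hℓS']
  -- REP_T (A) at level `Nbig`
  obtain ⟨Tb, j1, j2, j3, j4, j5, j6, j7, j8, Hb, hresb, hunrb, hfull⟩ :=
    exists_heckeGaloisRepDatum' (N := Nbig) (S := Sr) (𝒪 := 𝒪) p hp2 hpSr hNbigSr hp𝒪 θbig ρbar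
      habs (by
        intro ℓ hℓ hℓN hℓS A' hA' σ hσ
        have hℓS' : ℓ ∉ Sr := fun h => hℓS (Finset.mem_coe.2 h)
        rw [hθbigT ℓ hℓ hℓN hℓS]
        exact hbarchar ⟨ℓ, hℓ⟩ hℓS' A' hA' σ hσ) hbardet
  letI := j1
  haveI := j2
  haveI := j3
  haveI := j4
  letI := j5
  haveI := j6
  haveI := j7
  haveI := j8
  -- the surjection `Tb → heckeAlg`
  obtain ⟨f, hfsurj, hft⟩ := exists_surjective_algHom_of_family (A := heckeAlg Y Sr) Hb hfull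
    hNbigSr hsurjT (TtFun Y Sr) (adjoin_TtFun Y Sr) (by
      intro ℓ hℓ hℓN hℓS
      have hℓS' : ℓ ∉ Sr := fun h => hℓS (Finset.mem_coe.2 h)
      rw [TtFun_eq Y hℓ hℓS', hθbigT ℓ hℓ hℓN hℓS]
      exact residue_TtHL Y O hlam hp hd (ℓ := ⟨ℓ, hℓ⟩) hℓS')
    (fun j => restrictPoint Y (pt j) Sr) (by
      intro a ha
      apply heckeIncl_injective Y Sr
      rw [map_zero]
      exact hinj _ fun j => ha j) (by
      intro j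
      obtain ⟨χ, hχ⟩ := hocc j
      refine ⟨χ, fun ℓ hℓ hℓN hℓS => ?_⟩
      have hℓS' : ℓ ∉ Sr := fun h => hℓS (Finset.mem_coe.2 h)
      rw [TtFun_eq Y hℓ hℓS']
      exact hχ ℓ hℓ hℓN hℓS)
  refine ⟨θbig, Tb, j1, j2, j3, j4, j5, j6, j7, j8, Hb, hlocT, hlhT, hresb, hunrb, hfull, hsurjT,
    f, hfsurj, fun ℓ hℓ hℓN hℓS hℓS' => ?_⟩
  rw [hft ℓ hℓ hℓN hℓS, TtFun_eq Y hℓ hℓS']

end Datum

end Fermat.Agent.ML.REPTLB
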