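/-
PROJECT ML (S59) — [REPT-L] Layer B (helper1), file 6: **`ML.LevelGaloisStatement`** (helper9's
literal, `ML/IFACE_helper9_Rept.lean`), with three extra facts about the datum which is constructed
(`exists_levelGalois_plus`):
 (a) `datum.ρ` is unramified at every prime `q ∤ Nbig`, `q ≠ p` at which `ρ̄` is unramified
     (in particular at the chain primes above the level, which lie in `Sres`);
 (b) for EVERY prime `ℓ ∉ Sb` (the bad set of THIS level) and every Frobenius lift `σ` at `ℓ`,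
     `f (tr datum.ρ(σ)) = Tt ℓ` as endomorphisms of the module (S30 at level `(Nbig, Sb)` at the
     points of `alg` + Chebotarev + reducedness);
 (c) every local point of the Hecke algebra of level `Nbig` lifting `θ` factors through `Tb`.
-/
import Mathlib
import Fermat.Agent.ML.IFACE_helper9_Rept
import Fermat.Agent.ML.REPTLB_helper1_Rep
import Fermat.Agent.ML.REPTLB_helper1_KeyH
import Fermat.Agent.RB.REPT_helper1_TraceCompare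

set_option autoImplicit false
set_option linter.unusedSectionVars false
set_option linter.unusedVariables false
set_option linter.style.haveILetI false

namespace Fermat.Agent.ML.REPTLB

open Polynomial IsLocalRing CuspForm Fermat.Agent.GR Fermat.Agent.RB Fermat.Agent.RB.REPT

local notation "Ω" => AlgebraicClosure ℚ
local notation "GQ" => (AlgebraicClosure ℚ ≃ₐ[ℚ] AlgebraicClosure ℚ)

section Level

variable {𝒪 : Type} [CommRing 𝒪] [IsDomain 𝒪] [IsDiscreteValuationRing 𝒪]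
  [IsAdicComplete (maximalIdeal 𝒪) 𝒪] [CharZero 𝒪] [Finite (ResidueField 𝒪)]
  {p r d n : ℕ} (Y : TWModSide 𝒪 p r d n) {lam : 𝒪} {c : Nat.Primes → 𝒪} {Nt Nbig : ℕ}
  [NeZero Nt] [NeZero Nbig] {Sb Sr : Finset ℕ} {uQ : Fin r → (ZMod Nt)ˣ}

omit [IsDomain 𝒪] [IsDiscreteValuationRing 𝒪] [IsAdicComplete (maximalIdeal 𝒪) 𝒪] [CharZero 𝒪]
  [Finite (ResidueField 𝒪)] in
theorem coe_heckeIncl (Sbig : Finset ℕ) (a : heckeAlg Y Sbig) :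
    ((heckeIncl Y Sbig a : Y.alg) : Module.End 𝒪 Y.H) = (a : Module.End 𝒪 Y.H) := by
  obtain ⟨a, ha⟩ := a
  rfl

omit [IsDomain 𝒪] [IsDiscreteValuationRing 𝒪] [IsAdicComplete (maximalIdeal 𝒪) 𝒪] [CharZero 𝒪]
  [Finite (ResidueField 𝒪)] in
theorem coe_TtA (ℓ : Nat.Primes) : ((Y.TtA ℓ : Y.alg) : Module.End 𝒪 Y.H) = Y.Tt ℓ := rfl

/-- **the traces of Frobenius at ALL primes outside the bad set of the level** (also at the chain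
primes above the level, which lie in `Sr`). -/
theorem trace_frobenius_eq_Tt [Fact p.Prime] (hSbr : Sb ⊆ Sr)
    (O : OccL Y lam c Nt Nbig (↑Sb : Set ℕ) (↑Sr : Set ℕ) uQ)
    (hp𝒪 : (p : 𝒪) ∈ maximalIdeal 𝒪)
    (hpSb : p ∈ Sb) (hNbigS : ∀ q : ℕ, q.Prime → q ∣ Nbig → q ∈ Sb)
    {θ : ↥(heckeAlgebra Nbig 2 (↑Sr : Set ℕ)) →+* ResidueField 𝒪}
    {Tb : Type} [CommRing Tb] [IsLocalRing Tb] [IsNoetherianRing Tb]
    [IsAdicComplete (maximalIdeal Tb) Tb] [Algebra 𝒪 Tb] [IsLocalHom (algebraMap 𝒪 Tb)]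
    [Module.Finite 𝒪 Tb] [Module.Free 𝒪 Tb]
    (H : HeckeGaloisRepDatum Nbig (↑Sr : Set ℕ) 𝒪 θ Tb)
    (f : Tb →ₐ[𝒪] heckeAlg Y Sr)
    (hfT : ∀ (ℓ : ℕ) (hℓ : ℓ.Prime) (hℓN : ¬ ℓ ∣ Nbig) (hℓS : ℓ ∉ (↑Sr : Set ℕ)) (hℓS' : ℓ ∉ Sr),
      f (H.π (heckeAlgebra.T hℓ hℓN hℓS)) = TtH Y ⟨ℓ, hℓ⟩ hℓS')
    (ℓ : ℕ) (hℓ : ℓ.Prime) (hℓS : ℓ ∉ Sb) (P : ValuationSubring Ω) (hP : P.LiesOverPrime ℓ)
    (σ : GQ) (hσ : P.IsFrobeniusAt σ ℓ) :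
    ((f (H.ρ.trace σ) : heckeAlg Y Sr) : Module.End 𝒪 Y.H) = Y.Tt ⟨ℓ, hℓ⟩ := by
  classical
  have hNbigSr : ∀ q : ℕ, q.Prime → q ∣ Nbig → q ∈ Sr := fun q hq hqN => hSbr (hNbigS q hq hqN)
  have key : heckeIncl Y Sr (f (H.ρ.trace σ)) = Y.TtA ⟨ℓ, hℓ⟩ := by
    refine eq_of_forall_pointL Y O fun x => ?_
    -- (OCC-a) and S30 at the point
    obtain ⟨χ, hχ⟩ := (O.occ x.B x.ψ).1
    have hpB : (p : x.B) ∈ maximalIdeal x.B := by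
      have h1 : (p : x.B) = algebraMap 𝒪 x.B (p : 𝒪) := by rw [map_natCast]
      rw [h1]
      exact map_nonunit (algebraMap 𝒪 x.B) _ hp𝒪
    obtain ⟨𝒪'', i1, i2, i3, i4, i5, i6, i7, i8, i9, hinj, ρ'', hchar, -⟩ :=
      Fermat.Agent.S30.result p Nbig Sb hpSb hNbigS x.B hpB χ
    letI := i1
    haveI := i2
    haveI := i3
    haveI := i4
    haveI := i5
    haveI := i6
    letI := i7
    haveI := i8
    haveI := i9
    apply hinj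
    -- the local homomorphism `Tb → 𝒪''`
    let gg : Tb →ₐ[𝒪] x.B := (x.ψ.comp (heckeIncl Y Sr)).comp f
    haveI : IsLocalHom (gg : Tb →+* x.B) := isLocalHom_of_finite gg
    let f₁ : Tb →+* 𝒪'' := (algebraMap x.B 𝒪'').comp (gg : Tb →+* x.B)
    haveI : IsLocalHom f₁ := RingHom.isLocalHom_comp _ _
    have hcmp := Fermat.Agent.S58.cheb_trace_det_eq f₁
      (Fermat.Agent.S58.cheb_separated_of_noetherian 𝒪'') H.ρ ρ'' Sr (by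
        intro ℓ' hℓ' hℓ'S P' hP' φ' hφ'
        have hℓ'Sc : ℓ' ∉ (↑Sr : Set ℕ) := fun h => hℓ'S (Finset.mem_coe.1 h)
        have hℓ'Sb : ℓ' ∉ (↑Sb : Set ℕ) := fun h => hℓ'S (hSbr (Finset.mem_coe.1 h))
        have hℓ'N : ¬ ℓ' ∣ Nbig := fun h => hℓ'S (hNbigSr ℓ' hℓ' h)
        rw [H.charpoly_frob ℓ' hℓ' hℓ'N hℓ'Sc P' hP' φ' hφ', hchar ℓ' hℓ' hℓ'N hℓ'Sb P' hP' φ' hφ']
        simp only [Polynomial.map_add, Polynomial.map_sub, Polynomial.map_mul, Polynomial.map_pow,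
          Polynomial.map_X, Polynomial.map_C, map_natCast, Polynomial.map_natCast]
        have h1 : f₁ (H.π (heckeAlgebra.T hℓ' hℓ'N hℓ'Sc)) =
            algebraMap x.B 𝒪'' (χ (heckeAlgebra.T hℓ' hℓ'N hℓ'Sb)) := by
          show algebraMap x.B 𝒪'' (x.ψ (heckeIncl Y Sr (f (H.π (heckeAlgebra.T hℓ' hℓ'N hℓ'Sc))))) = _
          rw [hfT ℓ' hℓ' hℓ'N hℓ'Sc hℓ'S, hχ ℓ' hℓ' hℓ'N hℓ'Sb]
          rfl
        rw [h1]) σ
    have hℓSc : ℓ ∉ (↑Sb : Set ℕ) := fun h => hℓS (Finset.mem_coe.1 h)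
    have hℓN : ¬ ℓ ∣ Nbig := fun h => hℓS (hNbigS ℓ hℓ h)
    have h2 := (Fermat.Agent.GR.trace_det_of_charpoly_eq ρ''.finrank_eq (ρ''.ρ σ) _ _
      (hchar ℓ hℓ hℓN hℓSc P hP σ hσ)).1
    have h3 : f₁ (LinearMap.trace Tb H.ρ.V (H.ρ.ρ σ)) =
        algebraMap x.B 𝒪'' (x.ψ (heckeIncl Y Sr (f (H.ρ.trace σ)))) := rfl
    rw [← h3, hcmp.1, h2, hχ ℓ hℓ hℓN hℓSc]
  have h4 := congrArg (Subtype.val : Y.alg → Module.End 𝒪 Y.H) key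
  rw [coe_heckeIncl] at h4
  exact h4.trans (coe_TtA Y ⟨ℓ, hℓ⟩)

/-- **[REPT-L] Layer B, with the extra facts (a), (b), (c).** -/
theorem exists_levelGalois_plus [Fact p.Prime] (hp2 : p ≠ 2) (hp𝒪 : (p : 𝒪) ∈ maximalIdeal 𝒪)
    (hlam : Irreducible lam) (ρbar : ResidualGaloisRep (ResidueField 𝒪))
    (habs : ρbar.IsAbsolutelyIrreducible)
    (hbardet : LinearMap.det (ρbar.ρ complexConjugation) = -1) (hd : 0 < d) (hSbr : Sb ⊆ Sr)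
    (O : OccL Y lam c Nt Nbig (↑Sb : Set ℕ) (↑Sr : Set ℕ) uQ)
    (hpSb : p ∈ Sb) (hNbigS : ∀ q : ℕ, q.Prime → q ∣ Nbig → q ∈ Sb)
    (hNtS : ∀ q : ℕ, q.Prime → q ∣ Nt → q ∈ Sb)
    (hbarchar : ∀ (ℓ : Nat.Primes), (ℓ : ℕ) ∉ Sr →
      ∀ A' : ValuationSubring Ω, A'.LiesOverPrime ℓ → ∀ σ : GQ, A'.IsFrobeniusAt σ ℓ →
        LinearMap.charpoly (ρbar.ρ σ) =
          X ^ 2 - C (residue 𝒪 (c ℓ)) * X + C (((ℓ : ℕ) : ResidueField 𝒪)))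
    (Q : Fin r → ℕ) (hQ : ∀ q, (Q q).Prime) (hQNt : ∀ q, Q q ∣ Nt) (hQ2 : ∀ q, ¬ Q q ^ 2 ∣ Nt)
    (hQp : ∀ q, Q q ≠ p) (hQ2' : ∀ q, Q q ≠ 2) (hNt5 : 5 ≤ Nt) (hNtQ : ∀ q, 5 ≤ Nt / Q q)
    (huQ : ∀ q, ((((uQ q : (ZMod Nt)ˣ) : ZMod Nt).val : ℕ) : ZMod (Nt / Q q)) = 1)
    (hTh : ThetaKillsJ1Odd Nt p) :
    ∃ L : LevelGalois Y ρbar Nbig Sr Q,
      (∀ q : ℕ, q.Prime → ¬ q ∣ Nbig → q ≠ p → ρbar.IsUnramifiedAt q →
        L.datum.ρ.IsUnramifiedAt q) ∧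
      (∀ (ℓ : ℕ) (hℓ : ℓ.Prime), ℓ ∉ Sb → ∀ P : ValuationSubring Ω, P.LiesOverPrime ℓ →
        ∀ σ : GQ, P.IsFrobeniusAt σ ℓ →
          ((L.f (L.datum.ρ.trace σ) : heckeAlg Y Sr) : Module.End 𝒪 Y.H) = Y.Tt ⟨ℓ, hℓ⟩) ∧
      (∀ (B : Type) [CommRing B] [IsDomain B] [IsLocalRing B] [Algebra 𝒪 B]
        [IsLocalHom (algebraMap 𝒪 B)] (_ : Function.Injective (algebraMap 𝒪 B))
        (χ : ↥(heckeAlgebra Nbig 2 (↑Sr : Set ℕ)) →+* B),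
        (∀ t, residue B (χ t) = ResidueField.map (algebraMap 𝒪 B) (L.θ t)) →
          ∃ ψ : L.Tb →ₐ[𝒪] B, ∀ t, ψ (L.datum.π t) = χ t) := by
  classical
  have hp : p.Prime := Fact.out
  obtain ⟨θ, Tb, j1, j2, j3, j4, j5, j6, j7, j8, H, hlocT, hlhT, hres, hunr, hfull, hsurj, f,
    hfsurj, hfT⟩ := exists_datumL Y hp2 hp𝒪 hlam hd hSbr O hpSb hNbigS ρbar habs hbarchar hbardet
  letI := j1
  haveI := j2
  haveI := j3
  haveI := j4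
  letI := j5
  haveI := j6
  haveI := j7
  haveI := j8
  haveI := hlocT
  haveI := hlhT
  have hNbigSr : ∀ q : ℕ, q.Prime → q ∣ Nbig → q ∈ Sr := fun q hq hqN => hSbr (hNbigS q hq hqN)
  -- the representation over `heckeAlg Y Sr`
  have hloc : IsLocalHom (f : Tb →+* heckeAlg Y Sr) :=
    IsLocalHom.of_surjective (f : Tb →+* heckeAlg Y Sr) hfsurj
  let ρ : GaloisRepAdic (heckeAlg Y Sr) := H.ρ.baseChangeAlong (f : Tb →+* heckeAlg Y Sr) hloc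
  have hρ : ∀ (ℓ : ℕ) (hℓ : ℓ.Prime) (hℓS : ℓ ∉ Sr), ∀ P : ValuationSubring Ω,
      P.LiesOverPrime ℓ → ∀ σ : GQ, P.IsFrobeniusAt σ ℓ →
        LinearMap.charpoly (ρ.ρ σ) =
          X ^ 2 - C (TtH Y ⟨ℓ, hℓ⟩ hℓS) * X + C ((ℓ : ℕ) : heckeAlg Y Sr) := by
    intro ℓ hℓ hℓS P hP σ hσ
    have hℓS' : ℓ ∉ (↑Sr : Set ℕ) := fun h => hℓS (Finset.mem_coe.1 h)
    have hℓN : ¬ ℓ ∣ Nbig := fun h => hℓS (hNbigSr ℓ hℓ h)
    rw [Fermat.Agent.TW.charpoly_baseChangeAlong, H.charpoly_frob ℓ hℓ hℓN hℓS' P hP σ hσ]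
    simp only [Polynomial.map_add, Polynomial.map_sub, Polynomial.map_mul, Polynomial.map_pow,
      Polynomial.map_X, Polynomial.map_C, map_natCast]
    rw [show (f : Tb →+* heckeAlg Y Sr) (H.π (heckeAlgebra.T hℓ hℓN hℓS')) = TtH Y ⟨ℓ, hℓ⟩ hℓS from
      hfT ℓ hℓ hℓN hℓS' hℓS, Polynomial.map_natCast]
  have hSbigNt : ∀ ℓ : ℕ, ℓ.Prime → ℓ ∉ Sr → ¬ ℓ ∣ Nt ∧ ℓ ≠ p := by
    intro ℓ hℓ hℓS
    refine ⟨fun h => hℓS (hSbr (hNtS ℓ hℓ h)), ?_⟩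
    rintro rfl
    exact hℓS (hSbr hpSb)
  -- (KEY-H)
  have hkey : ∀ q : Fin r, ∃ (P : ValuationSubring Ω) (_ : P.LiesOverPrime (Q q)) (σ : GQ)
      (_ : σ ∈ P.inertiaSubgroupIn ℚ),
      ((f (H.ρ.trace σ) : heckeAlg Y Sr) : Module.End 𝒪 Y.H) = Y.g q + Y.g q ^ (p ^ n - 1) := by
    intro q
    obtain ⟨P, hP, σ, hσ, h1⟩ := keyH_algL Y hp2 hp𝒪 hNt5 hTh hSbr O hSbigNt ρ hρ q (hQ q)
      (hQNt q) (hQ2 q) (hQp q) (hQ2' q) (hNtQ q) (huQ q)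
    refine ⟨P, hP, σ, hσ, ?_⟩
    have h2 : ρ.trace σ = f (H.ρ.trace σ) :=
      trace_baseChangeAlong (f : Tb →+* heckeAlg Y Sr) hloc H.ρ σ
    rw [← h2]
    have h3 := congrArg (Subtype.val : Y.alg → Module.End 𝒪 Y.H) h1
    rw [coe_heckeIncl] at h3
    exact h3
  refine ⟨{ θ := θ
            Tb := Tb
            datum := H
            residual_isEquiv := hres
            residue_surjective := hsurj
            f := f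
            f_surjective := hfsurj
            f_T := hfT
            keyH := hkey }, hunr, ?_, hfull⟩
  intro ℓ hℓ hℓS P hP σ hσ
  exact trace_frobenius_eq_Tt Y hSbr O hp𝒪 hpSb hNbigS H f hfT ℓ hℓ hℓS P hP σ hσ

end Level

/-- **[REPT-L] Layer B** (helper9's literal). -/
theorem levelGaloisStatement : LevelGaloisStatement := by
  intro 𝒪 _ _ _ _ _ _ p _ hp2 hp𝒪 lam hlam c ρbar habs hbardet r d n Y hd Nt Nbig _ _ Sb Sres hSbr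
    uQ O hpSb hNbigS hNtS hbarchar Q hQ hQNt hQ2 hQp hQ2' hNt5 hNtQ huQ hTh
  obtain ⟨L, -⟩ := exists_levelGalois_plus Y hp2 hp𝒪 hlam ρbar habs hbardet hd hSbr O hpSb hNbigS
    hNtS hbarchar Q hQ hQNt hQ2 hQp hQ2' hNt5 hNtQ huQ hTh
  exact ⟨L⟩

/-- **[REPT-L] Layer B, plus-form** (helper9's literal `LevelGaloisPlusStatement`). -/
theorem levelGaloisPlusStatement : LevelGaloisPlusStatement := by
  intro 𝒪 _ _ _ _ _ _ p _ hp2 hp𝒪 lam hlam c ρbar habs hbardet r d n Y hd Nt Nbig _ _ Sb Sres hSbr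
    uQ O hpSb hNbigS hNtS hbarchar Q hQ hQNt hQ2 hQp hQ2' hNt5 hNtQ huQ hTh
  obtain ⟨L, h1, h2, -⟩ := exists_levelGalois_plus Y hp2 hp𝒪 hlam ρbar habs hbardet hd hSbr O hpSb
    hNbigS hNtS hbarchar Q hQ hQNt hQ2 hQp hQ2' hNt5 hNtQ huQ hTh
  exact ⟨L, h1, h2⟩

end Fermat.Agent.ML.REPTLB
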