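/-
PROJECT ML (S59) — [REPT-L] part A (helper9), file 1: **transport of a generated algebra of
endomorphisms through an INJECTIVE linear map** (the mirror of `RB.REPT.exists_algHom_of_intertwine`)
and "intertwining on generators ⇒ intertwining everywhere".

* `intertwine_of_generators` : `u : H → H'` linear, `F`, `F'` algebra homomorphisms from a generated
  algebra to `End H`, `End H'`; if `u ∘ F a = F' a ∘ u` for the generators, then for all elements;
* `exists_algHom_of_injective_intertwine` : `ι : H → H'` injective, `s` a set of endomorphisms of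
  `H'` each of which restricts to `H` along `ι`; then `𝒪[s]` acts on `H` and `ι` is equivariant.
-/
import Mathlib

set_option autoImplicit false
set_option linter.unusedSectionVars false
set_option linter.unusedVariables false

namespace Fermat.Agent.ML.REPTL

section Intertwine

variable {𝒪 : Type*} [CommRing 𝒪] {H H' : Type*} [AddCommGroup H] [Module 𝒪 H]
  [AddCommGroup H'] [Module 𝒪 H']

/-- **intertwining on generators ⇒ intertwining everywhere.** -/
theorem intertwine_of_generators {A : Type*} [Semiring A] [Algebra 𝒪 A] (s : Set A)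
    (hs : Algebra.adjoin 𝒪 s = ⊤) (F : A →ₐ[𝒪] Module.End 𝒪 H) (F' : A →ₐ[𝒪] Module.End 𝒪 H')
    (u : H →ₗ[𝒪] H') (h : ∀ a ∈ s, ∀ x, u (F a x) = F' a (u x)) (a : A) (x : H) :
    u (F a x) = F' a (u x) := by
  have ha : a ∈ Algebra.adjoin 𝒪 s := by rw [hs]; trivial
  induction ha using Algebra.adjoin_induction generalizing x with
  | mem a ha => exact h a ha x
  | algebraMap c =>
    rw [AlgHom.commutes, AlgHom.commutes, Module.algebraMap_end_apply,
      Module.algebraMap_end_apply, map_smul]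
  | add a b _ _ iha ihb =>
    rw [map_add, map_add, LinearMap.add_apply, LinearMap.add_apply, map_add, iha, ihb]
  | mul a b _ _ iha ihb =>
    rw [map_mul, map_mul, Module.End.mul_apply, Module.End.mul_apply, iha, ihb]

/-- two algebra homomorphisms to `End H` which agree on generators agree. -/
theorem algHom_end_ext_of_generators {A : Type*} [Semiring A] [Algebra 𝒪 A] (s : Set A)
    (hs : Algebra.adjoin 𝒪 s = ⊤) (F F' : A →ₐ[𝒪] Module.End 𝒪 H)
    (h : ∀ a ∈ s, F a = F' a) : F = F' := by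
  refine AlgHom.ext fun a => LinearMap.ext fun x => ?_
  exact intertwine_of_generators s hs F F' LinearMap.id (fun a ha x => by
    rw [LinearMap.id_apply, LinearMap.id_apply, h a ha]) a x

/-- every element of the generated algebra restricts along `ι`. -/
theorem exists_restrict_of_mem_adjoin (ι : H →ₗ[𝒪] H')
    (s : Set (Module.End 𝒪 H')) (hs : ∀ a ∈ s, ∃ e : Module.End 𝒪 H, ∀ x, ι (e x) = a (ι x))
    {t : Module.End 𝒪 H'} (ht : t ∈ Algebra.adjoin 𝒪 s) :
    ∃ e : Module.End 𝒪 H, ∀ x, ι (e x) = t (ι x) := by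
  induction ht using Algebra.adjoin_induction with
  | mem a ha => exact hs a ha
  | algebraMap c =>
    refine ⟨algebraMap 𝒪 (Module.End 𝒪 H) c, fun x => ?_⟩
    rw [Module.algebraMap_end_apply, Module.algebraMap_end_apply, map_smul]
  | add a b _ _ ha hb =>
    obtain ⟨e₁, h₁⟩ := ha
    obtain ⟨e₂, h₂⟩ := hb
    refine ⟨e₁ + e₂, fun x => ?_⟩
    rw [LinearMap.add_apply, map_add, h₁, h₂, LinearMap.add_apply]
  | mul a b _ _ ha hb =>
    obtain ⟨e₁, h₁⟩ := ha
    obtain ⟨e₂, h₂⟩ := hb
    refine ⟨e₁ * e₂, fun x => ?_⟩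
    rw [Module.End.mul_apply, h₁, h₂, Module.End.mul_apply]

/-- **the restricted action.** -/
theorem exists_algHom_of_injective_intertwine (ι : H →ₗ[𝒪] H') (hι : Function.Injective ι)
    (s : Set (Module.End 𝒪 H')) (hs : ∀ a ∈ s, ∃ e : Module.End 𝒪 H, ∀ x, ι (e x) = a (ι x)) :
    ∃ f : Algebra.adjoin 𝒪 s →ₐ[𝒪] Module.End 𝒪 H,
      ∀ (t : Algebra.adjoin 𝒪 s) (x : H), ι (f t x) = (t : Module.End 𝒪 H') (ι x) := by
  classical
  have key : ∀ t : Algebra.adjoin 𝒪 s, ∃ e : Module.End 𝒪 H,
      ∀ x, ι (e x) = (t : Module.End 𝒪 H') (ι x) :=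
    fun t => exists_restrict_of_mem_adjoin ι s hs t.2
  have huniq : ∀ e e' : Module.End 𝒪 H, (∀ x : H, ι (e x) = ι (e' x)) → e = e' := by
    intro e e' h
    exact LinearMap.ext fun x => hι (h x)
  let f₀ : Algebra.adjoin 𝒪 s → Module.End 𝒪 H := fun t => (key t).choose
  have hf₀ : ∀ (t : Algebra.adjoin 𝒪 s) (x : H),
      ι (f₀ t x) = (t : Module.End 𝒪 H') (ι x) := fun t => (key t).choose_spec
  have h1 : f₀ 1 = 1 := by
    refine huniq _ _ fun x => ?_
    rw [hf₀]
    rfl
  have hmul : ∀ a b, f₀ (a * b) = f₀ a * f₀ b := by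
    intro a b
    refine huniq _ _ fun x => ?_
    rw [hf₀, Module.End.mul_apply, hf₀, hf₀]
    rfl
  have h0 : f₀ 0 = 0 := by
    refine huniq _ _ fun x => ?_
    rw [hf₀]
    show (0 : Module.End 𝒪 H') (ι x) = ι ((0 : Module.End 𝒪 H) x)
    rw [LinearMap.zero_apply, LinearMap.zero_apply, map_zero]
  have hadd : ∀ a b, f₀ (a + b) = f₀ a + f₀ b := by
    intro a b
    refine huniq _ _ fun x => ?_
    rw [hf₀, LinearMap.add_apply, map_add, hf₀, hf₀]
    rfl
  have hc : ∀ c : 𝒪, f₀ (algebraMap 𝒪 _ c) = algebraMap 𝒪 (Module.End 𝒪 H) c := by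
    intro c
    refine huniq _ _ fun x => ?_
    rw [hf₀, Module.algebraMap_end_apply, map_smul]
    show (algebraMap 𝒪 (Module.End 𝒪 H') c) (ι x) = _
    rw [Module.algebraMap_end_apply]
  exact ⟨{ toFun := f₀, map_one' := h1, map_mul' := hmul, map_zero' := h0, map_add' := hadd,
           commutes' := hc }, hf₀⟩

end Intertwine

end Fermat.Agent.ML.REPTL
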