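/-
PROJECT ML (S59) — [REPT-L] part A (helper9): **the Hecke algebra of the top level acts on every
level of the chain.**

`L : TWModChainLevel …` (helper2, `ML/IFACE_helper2_TWModL`), `Sres : Finset ℕ` the bad set of the top
level (together with the Taylor–Wiles primes).

* `up L i : H i → H (last)` : the composite of the degeneracy maps `iota j 0`; injective
  (`retr_iota`), commutes with `Tt ℓ` (`ℓ ∉ Sres`) and with the `g q`;
* `E L Sres hS i : heckeAlg (side last) Sres →ₐ End (H i)` : the restricted action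
  (`E_spec`, `E_TtH`); every linear map between two levels which intertwines the `Tt ℓ`, `ℓ ∉ Sres`,
  intertwines the `E`'s (`E_intertwine`); the `g q` commute with `E i a`;
* `EA L Sres hS i : heckeAlg (side last) Sres →ₐ heckeAlg (side i) Sres`, surjective.
-/
import Mathlib
import Fermat.Agent.ML.IFACE_helper2_TWModL
import Fermat.Agent.RB.REPT_helper1_TWAlg
import Fermat.Agent.RB.REPT_helper1_TWLevelAsm
import Fermat.Agent.ML.REPTL_helper9_Restrict

set_option autoImplicit false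
set_option linter.unusedSectionVars false
set_option linter.unusedVariables false
set_option linter.style.haveILetI false

namespace Fermat.Agent.ML.REPTL

open Polynomial IsLocalRing Fermat.Agent.RB Fermat.Agent.RB.REPT

section Chain

variable {𝒪 : Type} [CommRing 𝒪] [IsDomain 𝒪] [IsDiscreteValuationRing 𝒪]
  [IsAdicComplete (maximalIdeal 𝒪) 𝒪]
  {p : ℕ} {lam : 𝒪} {c : Nat.Primes → 𝒪} {m : ℕ} {Nl : Fin (m + 1) → ℕ} [∀ i, NeZero (Nl i)]
  {qc : Fin m → ℕ} {hqc : ∀ j, (qc j).Prime} {d : Fin (m + 1) → ℕ} {r n : ℕ} {Q : Fin r → ℕ}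
  {Nt Nbig : Fin (m + 1) → ℕ} [∀ i, NeZero (Nt i)] [∀ i, NeZero (Nbig i)]
  [∀ j : Fin m, NeZero (Nbig j.castSucc * qc j)] {hqN : ∀ j : Fin m, ¬ qc j ∣ Nbig j.castSucc}
  (L : TWModChainLevel p lam c Nl qc hqc d r n Q Nt Nbig hqN)

/-- the levels divide the top level -/
theorem Nl_dvd_last (hNl : ∀ j : Fin m, Nl j.succ = Nl j.castSucc * qc j) (i : Fin (m + 1)) :
    Nl i ∣ Nl (Fin.last m) := by
  induction i using Fin.reverseInduction with
  | last => exact dvd_rfl
  | cast j ih => exact Dvd.dvd.trans ⟨qc j, hNl j⟩ ih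

/-- the bad sets increase -/
theorem badSet_subset_last (hNl : ∀ j : Fin m, Nl j.succ = Nl j.castSucc * qc j)
    (i : Fin (m + 1)) : badSet p (Nl i) ⊆ badSet p (Nl (Fin.last m)) := by
  rintro ℓ ⟨hℓ, h⟩
  refine ⟨hℓ, h.imp id fun h' => h'.trans (Nl_dvd_last hNl i)⟩

/-- **the composite of the degeneracy maps `iota j 0`.** -/
noncomputable def up : ∀ i : Fin (m + 1), (L.side i).H →ₗ[𝒪] (L.side (Fin.last m)).H :=
  Fin.reverseInduction LinearMap.id (fun j f => f.comp (L.iota j 0))

theorem up_last : up L (Fin.last m) = LinearMap.id := by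
  unfold up
  rw [Fin.reverseInduction_last]

theorem up_castSucc (j : Fin m) : up L j.castSucc = (up L j.succ).comp (L.iota j 0) := by
  unfold up
  rw [Fin.reverseInduction_castSucc]

theorem iota_injective (j : Fin m) (c' : Fin 2) : Function.Injective (L.iota j c') := by
  intro x y hxy
  have := congrArg (L.retr j c') hxy
  rwa [L.retr_iota, L.retr_iota, if_pos rfl, if_pos rfl] at this

theorem up_injective (i : Fin (m + 1)) : Function.Injective (up L i) := by
  induction i using Fin.reverseInduction with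
  | last => rw [up_last]; exact Function.injective_id
  | cast j ih =>
    rw [up_castSucc]
    exact ih.comp (iota_injective L j 0)

theorem up_g (i : Fin (m + 1)) (q : Fin r) (x : (L.side i).H) :
    up L i ((L.side i).g q x) = (L.side (Fin.last m)).g q (up L i x) := by
  induction i using Fin.reverseInduction with
  | last => rw [up_last]; rfl
  | cast j ih =>
    rw [up_castSucc, LinearMap.comp_apply, LinearMap.comp_apply, L.iota_g, ih]

variable (Sres : Finset ℕ)
  (hS : ∀ ℓ : ℕ, ℓ ∉ Sres → ℓ ∉ badSet p (Nl (Fin.last m)) ∪ Set.range Q)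
  (hNl : ∀ j : Fin m, Nl j.succ = Nl j.castSucc * qc j)

include hS hNl in
theorem notMem_level {ℓ : ℕ} (hℓ : ℓ ∉ Sres) (i : Fin (m + 1)) :
    ℓ ∉ badSet p (Nl i) ∪ Set.range Q := by
  intro h
  refine hS ℓ hℓ ?_
  rcases h with h | h
  · exact Or.inl (badSet_subset_last hNl i h)
  · exact Or.inr h

include hS hNl in
theorem iota_Tt' (j : Fin m) (c' : Fin 2) (ℓ : Nat.Primes) (hℓ : (ℓ : ℕ) ∉ Sres)
    (x : (L.side j.castSucc).H) :
    L.iota j c' ((L.side j.castSucc).Tt ℓ x) = (L.side j.succ).Tt ℓ (L.iota j c' x) :=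
  L.iota_Tt j c' ℓ (notMem_level Sres hS hNl hℓ j.succ) x

include hS hNl in
theorem beta_Tt' (j : Fin m) (c' : Fin 2) (ℓ : Nat.Primes) (hℓ : (ℓ : ℕ) ∉ Sres)
    (x : (L.side j.succ).H) :
    L.beta j c' ((L.side j.succ).Tt ℓ x) = (L.side j.castSucc).Tt ℓ (L.beta j c' x) :=
  L.beta_Tt j c' ℓ (notMem_level Sres hS hNl hℓ j.succ) x

include hS hNl in
theorem up_Tt (i : Fin (m + 1)) (ℓ : Nat.Primes) (hℓ : (ℓ : ℕ) ∉ Sres) (x : (L.side i).H) :
    up L i ((L.side i).Tt ℓ x) = (L.side (Fin.last m)).Tt ℓ (up L i x) := by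
  induction i using Fin.reverseInduction with
  | last => rw [up_last]; rfl
  | cast j ih =>
    rw [up_castSucc, LinearMap.comp_apply, LinearMap.comp_apply,
      iota_Tt' L Sres hS hNl j 0 ℓ hℓ, ih]

include hS hNl in
/-- **the restricted action of the Hecke algebra of the top level.** -/
theorem exists_E (i : Fin (m + 1)) :
    ∃ f : heckeAlg (L.side (Fin.last m)) Sres →ₐ[𝒪] Module.End 𝒪 (L.side i).H,
      ∀ (t : heckeAlg (L.side (Fin.last m)) Sres) (x : (L.side i).H),
        up L i (f t x) = (t : Module.End 𝒪 (L.side (Fin.last m)).H) (up L i x) := by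
  refine exists_algHom_of_injective_intertwine (up L i) (up_injective L i)
    (heckeSet (L.side (Fin.last m)) Sres) ?_
  rintro _ ⟨ℓ, hℓ, rfl⟩
  exact ⟨(L.side i).Tt ℓ, fun x => up_Tt L Sres hS hNl i ℓ hℓ x⟩

/-- the action of the Hecke algebra of the top level on the level `i` -/
noncomputable def E (i : Fin (m + 1)) :
    heckeAlg (L.side (Fin.last m)) Sres →ₐ[𝒪] Module.End 𝒪 (L.side i).H :=
  (exists_E L Sres hS hNl i).choose

theorem E_spec (i : Fin (m + 1)) (t : heckeAlg (L.side (Fin.last m)) Sres) (x : (L.side i).H) :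
    up L i (E L Sres hS hNl i t x) = (t : Module.End 𝒪 (L.side (Fin.last m)).H) (up L i x) :=
  (exists_E L Sres hS hNl i).choose_spec t x

theorem E_TtH (i : Fin (m + 1)) (ℓ : Nat.Primes) (hℓ : (ℓ : ℕ) ∉ Sres) :
    E L Sres hS hNl i (TtH (L.side (Fin.last m)) ℓ hℓ) = (L.side i).Tt ℓ := by
  refine LinearMap.ext fun x => up_injective L i ?_
  rw [E_spec, up_Tt L Sres hS hNl i ℓ hℓ]
  rfl

/-- **every linear map between two levels which intertwines the Hecke operators outside `Sres`
intertwines the actions of the Hecke algebra of the top level.** -/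
theorem E_intertwine (i i' : Fin (m + 1)) (u : (L.side i).H →ₗ[𝒪] (L.side i').H)
    (hu : ∀ (ℓ : Nat.Primes), (ℓ : ℕ) ∉ Sres → ∀ x, u ((L.side i).Tt ℓ x) = (L.side i').Tt ℓ (u x))
    (t : heckeAlg (L.side (Fin.last m)) Sres) (x : (L.side i).H) :
    u (E L Sres hS hNl i t x) = E L Sres hS hNl i' t (u x) := by
  refine intertwine_of_generators (heckeGen (L.side (Fin.last m)) Sres)
    (adjoin_heckeGen (L.side (Fin.last m)) Sres) (E L Sres hS hNl i) (E L Sres hS hNl i') u ?_ t x
  rintro ⟨a, ha⟩ ⟨ℓ, hℓS, hℓ⟩ x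
  have h0 : (⟨a, ha⟩ : heckeAlg (L.side (Fin.last m)) Sres) =
      TtH (L.side (Fin.last m)) ℓ hℓS := Subtype.ext hℓ
  rw [h0, E_TtH, E_TtH]
  exact hu ℓ hℓS x

theorem E_last (t : heckeAlg (L.side (Fin.last m)) Sres) :
    E L Sres hS hNl (Fin.last m) t = (t : Module.End 𝒪 (L.side (Fin.last m)).H) := by
  refine LinearMap.ext fun x => ?_
  have := E_spec L Sres hS hNl (Fin.last m) t x
  rwa [up_last] at this

theorem iota_E (j : Fin m) (c' : Fin 2) (t : heckeAlg (L.side (Fin.last m)) Sres)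
    (x : (L.side j.castSucc).H) :
    L.iota j c' (E L Sres hS hNl j.castSucc t x) = E L Sres hS hNl j.succ t (L.iota j c' x) :=
  E_intertwine L Sres hS hNl j.castSucc j.succ (L.iota j c')
    (fun ℓ hℓ x => iota_Tt' L Sres hS hNl j c' ℓ hℓ x) t x

theorem beta_E (j : Fin m) (c' : Fin 2) (t : heckeAlg (L.side (Fin.last m)) Sres)
    (x : (L.side j.succ).H) :
    L.beta j c' (E L Sres hS hNl j.succ t x) = E L Sres hS hNl j.castSucc t (L.beta j c' x) :=
  E_intertwine L Sres hS hNl j.succ j.castSucc (L.beta j c')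
    (fun ℓ hℓ x => beta_Tt' L Sres hS hNl j c' ℓ hℓ x) t x

theorem g_E (i : Fin (m + 1)) (q : Fin r) (t : heckeAlg (L.side (Fin.last m)) Sres)
    (x : (L.side i).H) :
    (L.side i).g q (E L Sres hS hNl i t x) = E L Sres hS hNl i t ((L.side i).g q x) :=
  E_intertwine L Sres hS hNl i i ((L.side i).g q)
    (fun ℓ _ x => by
      have := (L.side i).g_comm_Tt q ℓ
      exact LinearMap.congr_fun this.eq x) t x

theorem commute_g_E (i : Fin (m + 1)) (q : Fin r) (t : heckeAlg (L.side (Fin.last m)) Sres) :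
    Commute ((L.side i).g q) (E L Sres hS hNl i t) :=
  LinearMap.ext fun x => g_E L Sres hS hNl i q t x

/-- the image of `E i` is the Hecke algebra of the level `i` -/
theorem range_E_le (i : Fin (m + 1)) :
    (E L Sres hS hNl i).range ≤ heckeAlg (L.side i) Sres :=
  range_le_of_TtH (L.side (Fin.last m)) Sres (E L Sres hS hNl i) (heckeAlg (L.side i) Sres)
    fun ℓ hℓS => by
      rw [E_TtH]
      exact Tt_mem_heckeAlg (L.side i) hℓS

/-- **the map of Hecke algebras `top → level i`** -/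
noncomputable def EA (i : Fin (m + 1)) :
    heckeAlg (L.side (Fin.last m)) Sres →ₐ[𝒪] heckeAlg (L.side i) Sres :=
  (E L Sres hS hNl i).codRestrict (heckeAlg (L.side i) Sres)
    (fun t => range_E_le L Sres hS hNl i ⟨t, rfl⟩)

theorem coe_EA (i : Fin (m + 1)) (t : heckeAlg (L.side (Fin.last m)) Sres) :
    ((EA L Sres hS hNl i t : heckeAlg (L.side i) Sres) : Module.End 𝒪 (L.side i).H) =
      E L Sres hS hNl i t := rfl

theorem EA_TtH (i : Fin (m + 1)) (ℓ : Nat.Primes) (hℓ : (ℓ : ℕ) ∉ Sres) :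
    EA L Sres hS hNl i (TtH (L.side (Fin.last m)) ℓ hℓ) = TtH (L.side i) ℓ hℓ :=
  Subtype.ext (E_TtH L Sres hS hNl i ℓ hℓ)

theorem EA_surjective (i : Fin (m + 1)) : Function.Surjective (EA L Sres hS hNl i) := by
  have h1 : (EA L Sres hS hNl i).range = ⊤ := by
    rw [eq_top_iff, ← adjoin_heckeGen (L.side i) Sres, Algebra.adjoin_le_iff]
    rintro ⟨a, ha⟩ ⟨ℓ, hℓS, hℓ⟩
    refine ⟨TtH (L.side (Fin.last m)) ℓ hℓS, ?_⟩
    show EA L Sres hS hNl i (TtH (L.side (Fin.last m)) ℓ hℓS) = _
    rw [EA_TtH]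
    exact Subtype.ext hℓ.symm
  intro y
  have : y ∈ (EA L Sres hS hNl i).range := by rw [h1]; trivial
  exact this

end Chain

end Fermat.Agent.ML.REPTL
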