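/-
PROJECT ML (S59) — [REPT-L] part A (helper9), file 2: **the ring of pairs** `T' = 𝒪[s] ⊂ B × 𝒪`.

`B` is a commutative `𝒪`-algebra acting faithfully on a finite free `𝒪`-module `H` (a Hecke algebra),
`s` a set of pairs `(a, c) ∈ B × 𝒪` with `a ≡ c` modulo the radical of `B` (`a - c` nilpotent on
`H / 𝔪 H`).  Then `pairRing s = 𝒪[s]` is a LOCAL ring, finite and torsion-free over `𝒪`, with residue
field `k`, and `𝒪 → pairRing s` is local (via `RB.REPT.isLocalRing_of_generators`, acting on `H × 𝒪`).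
-/
import Mathlib
import Fermat.Agent.RB.REPT_helper1_LocalEnd

set_option autoImplicit false
set_option linter.unusedSectionVars false
set_option linter.unusedVariables false
set_option linter.style.haveILetI false

namespace Fermat.Agent.ML.REPTL

open IsLocalRing Fermat.Agent.RB.REPT

section PairRing

variable {𝒪 : Type} [CommRing 𝒪] {B : Type} [CommRing B] [Algebra 𝒪 B]
  {H : Type} [AddCommGroup H] [Module 𝒪 H] [Module B H] [IsScalarTower 𝒪 B H]

/-- **the ring of pairs.** -/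
def pairRing (s : Set (B × 𝒪)) : Subalgebra 𝒪 (B × 𝒪) := Algebra.adjoin 𝒪 s

/-- the generating set of `pairRing s`, inside `pairRing s`. -/
def pairGen (s : Set (B × 𝒪)) : Set (pairRing s) :=
  (Subtype.val : pairRing s → B × 𝒪) ⁻¹' s

theorem adjoin_pairGen (s : Set (B × 𝒪)) : Algebra.adjoin 𝒪 (pairGen s) = ⊤ :=
  Algebra.adjoin_adjoin_coe_preimage

/-- the first projection. -/
def pairFst (s : Set (B × 𝒪)) : pairRing s →ₐ[𝒪] B :=
  (AlgHom.fst 𝒪 B 𝒪).comp (pairRing s).val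

/-- the second projection. -/
def pairSnd (s : Set (B × 𝒪)) : pairRing s →ₐ[𝒪] 𝒪 :=
  (AlgHom.snd 𝒪 B 𝒪).comp (pairRing s).val

theorem pairFst_apply (s : Set (B × 𝒪)) (t : pairRing s) : pairFst s t = (t : B × 𝒪).1 := rfl

theorem pairSnd_apply (s : Set (B × 𝒪)) (t : pairRing s) : pairSnd s t = (t : B × 𝒪).2 := rfl

theorem pair_ext {s : Set (B × 𝒪)} {t t' : pairRing s} (h1 : pairFst s t = pairFst s t')
    (h2 : pairSnd s t = pairSnd s t') : t = t' :=
  Subtype.ext (Prod.ext h1 h2)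

theorem pair_eq_zero {s : Set (B × 𝒪)} {t : pairRing s} (h1 : pairFst s t = 0)
    (h2 : pairSnd s t = 0) : t = 0 :=
  pair_ext (h1.trans (map_zero _).symm) (h2.trans (map_zero _).symm)

/-- an element of `s` as an element of `pairRing s`. -/
def pairMk (s : Set (B × 𝒪)) (x : B × 𝒪) (hx : x ∈ s) : pairRing s :=
  ⟨x, Algebra.subset_adjoin hx⟩

variable (H) in
/-- the action of `B × 𝒪` on `H × 𝒪`. -/
noncomputable def prodAct : (B × 𝒪) →ₐ[𝒪] Module.End 𝒪 (H × 𝒪) :=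
  (LinearMap.prodMapAlgHom 𝒪 H 𝒪).comp
    (AlgHom.prodMap (Algebra.lsmul 𝒪 𝒪 H : B →ₐ[𝒪] Module.End 𝒪 H)
      (Algebra.lsmul 𝒪 𝒪 𝒪 : 𝒪 →ₐ[𝒪] Module.End 𝒪 𝒪))

theorem prodAct_apply (x : B × 𝒪) (m : H × 𝒪) : prodAct H x m = (x.1 • m.1, x.2 * m.2) := rfl

theorem prodAct_injective [FaithfulSMul B H] : Function.Injective (prodAct (𝒪 := 𝒪) (B := B) H) := by
  intro x y hxy
  refine Prod.ext ?_ ?_
  · apply FaithfulSMul.eq_of_smul_eq_smul (α := H)
    intro h
    have := congrArg (fun f : Module.End 𝒪 (H × 𝒪) => (f (h, 0)).1) hxy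
    simpa [prodAct_apply] using this
  · have := congrArg (fun f : Module.End 𝒪 (H × 𝒪) => (f (0, 1)).2) hxy
    simpa [prodAct_apply] using this

variable (H) in
/-- the module structure of `pairRing s` on `H × 𝒪`. -/
@[reducible] noncomputable def pairModule (s : Set (B × 𝒪)) : Module (pairRing s) (H × 𝒪) :=
  Module.compHom (H × 𝒪)
    (((prodAct H).comp (pairRing s).val : pairRing s →ₐ[𝒪] Module.End 𝒪 (H × 𝒪)) :
      pairRing s →+* Module.End 𝒪 (H × 𝒪))

theorem pairModule_smul (s : Set (B × 𝒪)) (t : pairRing s) (m : H × 𝒪) :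
    letI := pairModule H s
    t • m = ((t : B × 𝒪).1 • m.1, (t : B × 𝒪).2 * m.2) := rfl

theorem pairModule_isScalarTower (s : Set (B × 𝒪)) :
    letI := pairModule H s
    IsScalarTower 𝒪 (pairRing s) (H × 𝒪) := by
  letI := pairModule H s
  refine ⟨fun c t m => ?_⟩
  rw [pairModule_smul, pairModule_smul]
  refine Prod.ext ?_ ?_
  · show ((c • t : pairRing s) : B × 𝒪).1 • m.1 = c • ((t : B × 𝒪).1 • m.1)
    rw [← smul_assoc]
    rfl
  · show ((c • t : pairRing s) : B × 𝒪).2 * m.2 = c • ((t : B × 𝒪).2 * m.2)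
    rw [smul_eq_mul, ← mul_assoc]
    rfl

theorem pairModule_faithfulSMul [FaithfulSMul B H] (s : Set (B × 𝒪)) :
    letI := pairModule H s
    FaithfulSMul (pairRing s) (H × 𝒪) := by
  letI := pairModule H s
  refine ⟨fun {t t'} h => ?_⟩
  apply Subtype.ext
  apply prodAct_injective (𝒪 := 𝒪) (B := B) (H := H)
  exact LinearMap.ext fun m => h m

end PairRing

section Local

variable {𝒪 : Type} [CommRing 𝒪] [IsDomain 𝒪] [IsDiscreteValuationRing 𝒪]
  {B : Type} [CommRing B] [Algebra 𝒪 B]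
  {H : Type} [AddCommGroup H] [Module 𝒪 H] [Module B H] [IsScalarTower 𝒪 B H]
  [Module.Free 𝒪 H] [Module.Finite 𝒪 H] [FaithfulSMul B H]

/-- `(x, 0) ∈ 𝔪 (H × 𝒪)` for `x ∈ 𝔪 H`. -/
theorem inl_mem_smul_top {x : H} (hx : x ∈ (maximalIdeal 𝒪 • ⊤ : Submodule 𝒪 H)) :
    ((x, 0) : H × 𝒪) ∈ (maximalIdeal 𝒪 • ⊤ : Submodule 𝒪 (H × 𝒪)) := by
  have h1 : (maximalIdeal 𝒪 • ⊤ : Submodule 𝒪 H).map (LinearMap.inl 𝒪 H 𝒪) ≤
      (maximalIdeal 𝒪 • ⊤ : Submodule 𝒪 (H × 𝒪)) := by
    rw [Submodule.map_smul'']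
    exact Submodule.smul_mono le_rfl le_top
  exact h1 ⟨x, hx, rfl⟩

/-- the generators of `pairRing s` are residually scalar. -/
theorem pairGen_residual (s : Set (B × 𝒪))
    (hs : ∀ x ∈ s, x.1 - algebraMap 𝒪 B x.2 ∈ (redKer 𝒪 B H).radical)
    [Module (pairRing s) (H × 𝒪)] [IsScalarTower 𝒪 (pairRing s) (H × 𝒪)]
    (hsmul : ∀ (t : pairRing s) (m : H × 𝒪),
      t • m = ((t : B × 𝒪).1 • m.1, (t : B × 𝒪).2 * m.2)) :
    ∀ a ∈ pairGen s, ∃ c : 𝒪,
      a - algebraMap 𝒪 (pairRing s) c ∈ (redKer 𝒪 (pairRing s) (H × 𝒪)).radical := by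
  rintro ⟨a, ha⟩ (has : a ∈ s)
  refine ⟨a.2, ?_⟩
  obtain ⟨k, hk⟩ := hs a has
  refine ⟨k + 1, fun m => ?_⟩
  rw [hsmul]
  have h1 : ((((⟨a, ha⟩ : pairRing s) - algebraMap 𝒪 (pairRing s) a.2) ^ (k + 1) :
      pairRing s) : B × 𝒪) = ((a.1 - algebraMap 𝒪 B a.2) ^ (k + 1), 0) := by
    refine Prod.ext ?_ ?_
    · show (pairFst s ((⟨a, ha⟩ - algebraMap 𝒪 (pairRing s) a.2) ^ (k + 1))) = _
      rw [map_pow, map_sub, AlgHom.commutes]
      rfl
    · show (pairSnd s ((⟨a, ha⟩ - algebraMap 𝒪 (pairRing s) a.2) ^ (k + 1))) = 0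
      rw [map_pow, map_sub, AlgHom.commutes]
      show (a.2 - a.2) ^ (k + 1) = 0
      rw [sub_self, zero_pow (Nat.succ_ne_zero k)]
  rw [h1]
  show ((a.1 - algebraMap 𝒪 B a.2) ^ (k + 1) • m.1, (0 : 𝒪) * m.2) ∈ _
  rw [zero_mul]
  refine inl_mem_smul_top ?_
  have h2 : (a.1 - algebraMap 𝒪 B a.2) ^ (k + 1) ∈ redKer 𝒪 B H := by
    rw [pow_succ]
    exact Ideal.mul_mem_right _ _ hk
  exact h2 m.1

section Main

variable (s : Set (B × 𝒪))
  (hs : ∀ x ∈ s, x.1 - algebraMap 𝒪 B x.2 ∈ (redKer 𝒪 B H).radical)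

include hs

theorem isLocalRing_pairRing : IsLocalRing (pairRing s) := by
  letI := pairModule H s
  haveI := pairModule_isScalarTower (H := H) s
  haveI := pairModule_faithfulSMul (H := H) s
  exact isLocalRing_of_generators (𝒪 := 𝒪) (H := H × 𝒪) (pairGen s) (adjoin_pairGen s)
    (pairGen_residual s hs (pairModule_smul s))

theorem isLocalHom_algebraMap_pairRing : IsLocalHom (algebraMap 𝒪 (pairRing s)) := by
  letI := pairModule H s
  haveI := pairModule_isScalarTower (H := H) s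
  haveI := pairModule_faithfulSMul (H := H) s
  exact isLocalHom_algebraMap_of_generators (𝒪 := 𝒪) (H := H × 𝒪) (pairGen s) (adjoin_pairGen s)
    (pairGen_residual s hs (pairModule_smul s))

theorem residue_surjective_pairRing [IsLocalRing (pairRing s)] :
    Function.Surjective (residue (pairRing s) ∘ algebraMap 𝒪 (pairRing s)) := by
  letI := pairModule H s
  haveI := pairModule_isScalarTower (H := H) s
  haveI := pairModule_faithfulSMul (H := H) s
  exact residue_surjective_of_generators (𝒪 := 𝒪) (H := H × 𝒪) (pairGen s) (adjoin_pairGen s)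
    (pairGen_residual s hs (pairModule_smul s))

end Main

theorem finite_pairRing (H : Type) [AddCommGroup H] [Module 𝒪 H] [Module B H]
    [IsScalarTower 𝒪 B H] [Module.Free 𝒪 H] [Module.Finite 𝒪 H] [FaithfulSMul B H]
    (s : Set (B × 𝒪)) : Module.Finite 𝒪 (pairRing s) := by
  letI := pairModule H s
  haveI := pairModule_isScalarTower (H := H) s
  haveI := pairModule_faithfulSMul (H := H) s
  exact finite_of_faithful (H × 𝒪)

theorem isTorsionFree_pairRing (H : Type) [AddCommGroup H] [Module 𝒪 H] [Module B H]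
    [IsScalarTower 𝒪 B H] [Module.Free 𝒪 H] [Module.Finite 𝒪 H] [FaithfulSMul B H]
    (s : Set (B × 𝒪)) : Module.IsTorsionFree 𝒪 (pairRing s) := by
  letI := pairModule H s
  haveI := pairModule_isScalarTower (H := H) s
  haveI := pairModule_faithfulSMul (H := H) s
  exact isTorsionFree_of_faithful (H × 𝒪)

end Local

end Fermat.Agent.ML.REPTL
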