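/-
PROJECT ML (S59) — [REPT-L] part A (helper9), file 3: **the representation over the trace ring with
one more point** `T' = 𝒪[(tr ρ₁ σ, tr ρ₂ σ)] ⊂ B × 𝒪`.

`ρ₁` over a finite local `𝒪`-algebra `B` (a Hecke algebra, acting faithfully on a finite free
`𝒪`-module `H`, maximal ideal = radical of `redKer`), `ρ₂` over `𝒪` (the representation of `W`), with
congruent traces.  By helper1's gluing theorem (GL) `RB.REPT.exists_galoisRepAdic_of_points` there is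
ONE representation `ρ'` over `T'` whose base changes along the two projections are `ρ₁`, `ρ₂`, and
`tr ρ'(σ) = (tr ρ₁ σ, tr ρ₂ σ)` (so `T'` is generated by the traces of `ρ'`).
-/
import Mathlib
import Fermat.Agent.ML.REPTL_helper9_PairRing
import Fermat.Agent.RB.REPT_helper1_Assemble
import Fermat.Agent.RB.REPT_helper1_TWPoint
import Fermat.Agent.RB.PATCH_helper9_Finite
import Fermat.Agent.S54_Frobenius

set_option autoImplicit false
set_option linter.unusedSectionVars false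
set_option linter.unusedVariables false
set_option linter.style.haveILetI false

namespace Fermat.Agent.ML.REPTL

open Polynomial IsLocalRing Fermat.Agent.RB.REPT
open scoped TensorProduct

local notation "Ω" => AlgebraicClosure ℚ
local notation "GQ" => (AlgebraicClosure ℚ ≃ₐ[ℚ] AlgebraicClosure ℚ)

section Finite

variable {𝒪 : Type} [CommRing 𝒪] [IsLocalRing 𝒪] [Finite (ResidueField 𝒪)]

/-- `B / 𝔪_𝒪 B` is finite for a finite `𝒪`-algebra `B`. -/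
theorem finite_quotient_map_maximalIdeal (B : Type) [CommRing B] [Algebra 𝒪 B]
    [Module.Finite 𝒪 B] : Finite (B ⧸ (maximalIdeal 𝒪).map (algebraMap 𝒪 B)) := by
  haveI : Finite (𝒪 ⧸ maximalIdeal 𝒪) := ‹Finite (ResidueField 𝒪)›
  haveI : Module.Finite (𝒪 ⧸ maximalIdeal 𝒪) ((𝒪 ⧸ maximalIdeal 𝒪) ⊗[𝒪] B) := inferInstance
  haveI : Finite ((𝒪 ⧸ maximalIdeal 𝒪) ⊗[𝒪] B) := Module.finite_of_finite (𝒪 ⧸ maximalIdeal 𝒪)
  have e := TensorProduct.quotTensorEquivQuotSMul B (maximalIdeal 𝒪)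
  haveI : Finite (B ⧸ (maximalIdeal 𝒪 • ⊤ : Submodule 𝒪 B)) := Finite.of_equiv _ e.toEquiv
  let g : (B ⧸ (maximalIdeal 𝒪 • ⊤ : Submodule 𝒪 B)) →ₗ[𝒪]
      (B ⧸ (maximalIdeal 𝒪).map (algebraMap 𝒪 B)) :=
    Submodule.liftQ _ ((Ideal.Quotient.mkₐ 𝒪 ((maximalIdeal 𝒪).map (algebraMap 𝒪 B))).toLinearMap)
      (by
        intro x hx
        rw [LinearMap.mem_ker]
        show Ideal.Quotient.mk _ x = 0
        rw [Ideal.Quotient.eq_zero_iff_mem]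
        rw [Ideal.smul_top_eq_map] at hx
        exact hx)
  refine Finite.of_surjective g ?_
  intro y
  obtain ⟨x, rfl⟩ := Ideal.Quotient.mk_surjective y
  exact ⟨Submodule.Quotient.mk x, rfl⟩

/-- a power of the maximal ideal of a finite local `𝒪`-algebra lies in `𝔪_𝒪 B`. -/
theorem exists_maximalIdeal_pow_le_map (B : Type) [CommRing B] [IsLocalRing B] [Algebra 𝒪 B]
    [Module.Finite 𝒪 B] :
    ∃ e : ℕ, maximalIdeal B ^ e ≤ (maximalIdeal 𝒪).map (algebraMap 𝒪 B) := by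
  haveI := finite_quotient_map_maximalIdeal (𝒪 := 𝒪) B
  obtain ⟨N, hN⟩ := Fermat.Agent.RB.PATCH.exists_maximalIdeal_pow_le_ker
    (Ideal.Quotient.mk ((maximalIdeal 𝒪).map (algebraMap 𝒪 B)))
  rw [Ideal.mk_ker] at hN
  exact ⟨N, hN⟩

end Finite

section Glue

variable {𝒪 : Type} [CommRing 𝒪] [IsDomain 𝒪] [IsDiscreteValuationRing 𝒪]
  [Finite (ResidueField 𝒪)]
  {B : Type} [CommRing B] [IsLocalRing B] [Algebra 𝒪 B] [IsLocalHom (algebraMap 𝒪 B)]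
  [Module.Finite 𝒪 B]
  {H : Type} [AddCommGroup H] [Module 𝒪 H] [Module B H] [IsScalarTower 𝒪 B H]
  [Module.Free 𝒪 H] [Module.Finite 𝒪 H] [FaithfulSMul B H]
  (ρ₁ : GaloisRepAdic B) (ρ₂ : GaloisRepAdic 𝒪)

/-- the pairs of traces. -/
def tracePairs : Set (B × 𝒪) := Set.range fun σ : GQ => (ρ₁.trace σ, ρ₂.trace σ)

/-- the pair of traces at `σ`, in the trace ring. -/
noncomputable def tracePair (σ : GQ) : pairRing (tracePairs ρ₁ ρ₂) :=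
  pairMk (tracePairs ρ₁ ρ₂) (ρ₁.trace σ, ρ₂.trace σ) ⟨σ, rfl⟩

theorem adjoin_tracePair :
    Algebra.adjoin 𝒪 (Set.range (tracePair ρ₁ ρ₂)) = ⊤ := by
  rw [← adjoin_pairGen (tracePairs ρ₁ ρ₂)]
  congr 1
  ext ⟨x, hx⟩
  constructor
  · rintro ⟨σ, hσ⟩
    show x ∈ tracePairs ρ₁ ρ₂
    have := congrArg Subtype.val hσ
    exact ⟨σ, this⟩
  · rintro ⟨σ, hσ⟩
    exact ⟨σ, Subtype.ext hσ⟩

/-- the hypothesis of `isLocalRing_pairRing` from the congruence of the traces. -/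
theorem tracePairs_residual (hrad : maximalIdeal B = (redKer 𝒪 B H).radical)
    (hcong : ∀ σ : GQ, ρ₁.trace σ - algebraMap 𝒪 B (ρ₂.trace σ) ∈ maximalIdeal B) :
    ∀ x ∈ tracePairs ρ₁ ρ₂, x.1 - algebraMap 𝒪 B x.2 ∈ (redKer 𝒪 B H).radical := by
  rintro _ ⟨σ, rfl⟩
  rw [← hrad]
  exact hcong σ

/-- the two pieces of the gluing family. -/
noncomputable def pairFamily : Bool → GluePiece (pairRing (tracePairs ρ₁ ρ₂))
  | true =>
    { B := B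
      f := (pairFst (tracePairs ρ₁ ρ₂) : pairRing (tracePairs ρ₁ ρ₂) →+* B)
      ρ := ρ₁ }
  | false =>
    { B := 𝒪
      f := (pairSnd (tracePairs ρ₁ ρ₂) : pairRing (tracePairs ρ₁ ρ₂) →+* 𝒪)
      ρ := ρ₂ }

/-- **the representation over the trace ring.** -/
theorem exists_rep_pairRing [IsLocalRing (pairRing (tracePairs ρ₁ ρ₂))]
    [IsLocalHom (algebraMap 𝒪 (pairRing (tracePairs ρ₁ ρ₂)))]
    [Module.Finite 𝒪 (pairRing (tracePairs ρ₁ ρ₂))]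
    (h2 : IsUnit (2 : 𝒪)) (S : Finset ℕ) (t₁ : ℕ → B) (t₂ : ℕ → 𝒪)
    (hchar₁ : ∀ ℓ : ℕ, ℓ.Prime → ℓ ∉ S → ∀ A : ValuationSubring Ω, A.LiesOverPrime ℓ →
      ∀ σ : GQ, A.IsFrobeniusAt σ ℓ →
        LinearMap.charpoly (ρ₁.ρ σ) = X ^ 2 - C (t₁ ℓ) * X + C ((ℓ : ℕ) : B))
    (hchar₂ : ∀ ℓ : ℕ, ℓ.Prime → ℓ ∉ S → ∀ A : ValuationSubring Ω, A.LiesOverPrime ℓ →
      ∀ σ : GQ, A.IsFrobeniusAt σ ℓ →
        LinearMap.charpoly (ρ₂.ρ σ) = X ^ 2 - C (t₂ ℓ) * X + C ((ℓ : ℕ) : 𝒪))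
    (c₀ : GQ) (hc₀ : c₀ * c₀ = 1) (hdet₁ : LinearMap.det (ρ₁.ρ c₀) = -1)
    (hdet₂ : LinearMap.det (ρ₂.ρ c₀) = -1)
    (hirr : ρ₂.residual.IsAbsolutelyIrreducible) :
    ∃ (ρ' : GaloisRepAdic (pairRing (tracePairs ρ₁ ρ₂)))
      (hl₁ : IsLocalHom (pairFst (tracePairs ρ₁ ρ₂) : pairRing (tracePairs ρ₁ ρ₂) →+* B))
      (hl₂ : IsLocalHom (pairSnd (tracePairs ρ₁ ρ₂) : pairRing (tracePairs ρ₁ ρ₂) →+* 𝒪)),
      (ρ'.baseChangeAlong (pairFst (tracePairs ρ₁ ρ₂) : pairRing (tracePairs ρ₁ ρ₂) →+* B)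
        hl₁).IsEquiv ρ₁ ∧
      (ρ'.baseChangeAlong (pairSnd (tracePairs ρ₁ ρ₂) : pairRing (tracePairs ρ₁ ρ₂) →+* 𝒪)
        hl₂).IsEquiv ρ₂ ∧
      (∀ σ : GQ, ρ'.trace σ = tracePair ρ₁ ρ₂ σ) ∧
      (∀ σ : GQ, ρ₁.ρ σ = 1 → ρ₂.ρ σ = 1 → ρ'.ρ σ = 1) ∧
      ρ'.residual.IsAbsolutelyIrreducible := by
  classical
  let s := tracePairs ρ₁ ρ₂
  haveI : IsNoetherianRing (pairRing s) := IsNoetherianRing.of_finite 𝒪 _
  have h2T : IsUnit (2 : pairRing s) := by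
    have := h2.map (algebraMap 𝒪 (pairRing s))
    rwa [map_ofNat] at this
  have hl₁ : IsLocalHom (pairFst s : pairRing s →+* B) := isLocalHom_of_finite (pairFst s)
  have hl₂ : IsLocalHom (pairSnd s : pairRing s →+* 𝒪) := isLocalHom_of_finite (pairSnd s)
  have hloc : ∀ o, IsLocalHom (pairFamily ρ₁ ρ₂ o).f := by
    rintro (_ | _)
    · exact hl₂
    · exact hl₁
  have hfin : ∀ o, ((pairFamily ρ₁ ρ₂ o).f).Finite := by
    rintro (_ | _)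
    · show (pairSnd s : pairRing s →+* 𝒪).Finite
      refine RingHom.Finite.of_comp_finite (f := algebraMap 𝒪 (pairRing s)) ?_
      have : (pairSnd s : pairRing s →+* 𝒪).comp (algebraMap 𝒪 (pairRing s)) =
          algebraMap 𝒪 𝒪 := (pairSnd s).comp_algebraMap
      rw [this]
      exact RingHom.finite_algebraMap.mpr inferInstance
    · show (pairFst s : pairRing s →+* B).Finite
      refine RingHom.Finite.of_comp_finite (f := algebraMap 𝒪 (pairRing s)) ?_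
      have : (pairFst s : pairRing s →+* B).comp (algebraMap 𝒪 (pairRing s)) =
          algebraMap 𝒪 B := (pairFst s).comp_algebraMap
      rw [this]
      exact RingHom.finite_algebraMap.mpr inferInstance
  have hinj : ∀ x : pairRing s, (∀ o, (pairFamily ρ₁ ρ₂ o).f x = 0) → x = 0 := by
    intro x hx
    exact pair_eq_zero (hx true) (hx false)
  have hmapmax : ∀ (C : Type) [CommRing C] [IsLocalRing C] [Algebra 𝒪 C]
      (f : pairRing s →ₐ[𝒪] C),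
      (maximalIdeal 𝒪).map (algebraMap 𝒪 C) ≤ (maximalIdeal (pairRing s)).map (f : pairRing s →+* C) := by
    intro C _ _ _ f
    rw [Ideal.map_le_iff_le_comap]
    intro a ha
    rw [Ideal.mem_comap, ← f.commutes]
    exact Ideal.mem_map_of_mem _ (map_nonunit (algebraMap 𝒪 (pairRing s)) a ha)
  have he : ∃ e : ℕ, ∀ o, maximalIdeal (pairFamily ρ₁ ρ₂ o).B ^ e ≤
      (maximalIdeal (pairRing s)).map (pairFamily ρ₁ ρ₂ o).f := by
    refine exists_uniform_pow_le (fun o => maximalIdeal (pairFamily ρ₁ ρ₂ o).B)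
      (fun o => (maximalIdeal (pairRing s)).map (pairFamily ρ₁ ρ₂ o).f) ?_
    rintro (_ | _)
    · refine ⟨1, ?_⟩
      rw [pow_one]
      show maximalIdeal 𝒪 ≤ (maximalIdeal (pairRing s)).map (pairSnd s : pairRing s →+* 𝒪)
      refine le_trans ?_ (hmapmax 𝒪 (pairSnd s))
      rw [Algebra.algebraMap_self, Ideal.map_id]
    · obtain ⟨e, he⟩ := exists_maximalIdeal_pow_le_map (𝒪 := 𝒪) B
      exact ⟨e, he.trans (hmapmax B (pairFst s))⟩
  obtain ⟨e, he⟩ := he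
  -- the Frobenius traces
  have hmem : ∀ ℓ : ℕ, ℓ.Prime → ℓ ∉ S → (t₁ ℓ, t₂ ℓ) ∈ pairRing s := by
    intro ℓ hℓ hℓS
    obtain ⟨A, φ, hA, hφ⟩ := Fermat.Agent.S54.exists_frobenius ℓ hℓ
    have h1 := (Fermat.Agent.GR.trace_det_of_charpoly_eq ρ₁.finrank_eq _ _ _
      (hchar₁ ℓ hℓ hℓS A hA φ hφ)).1
    have h2' := (Fermat.Agent.GR.trace_det_of_charpoly_eq ρ₂.finrank_eq _ _ _
      (hchar₂ ℓ hℓ hℓS A hA φ hφ)).1
    have : (t₁ ℓ, t₂ ℓ) = (ρ₁.trace φ, ρ₂.trace φ) := Prod.ext h1.symm h2'.symm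
    rw [this]
    exact Algebra.subset_adjoin ⟨φ, rfl⟩
  let t : ℕ → pairRing s := fun ℓ =>
    if h : ℓ.Prime ∧ ℓ ∉ S then ⟨(t₁ ℓ, t₂ ℓ), hmem ℓ h.1 h.2⟩ else 0
  have ht : ∀ ℓ : ℕ, ℓ.Prime → ℓ ∉ S → ((t ℓ : pairRing s) : B × 𝒪) = (t₁ ℓ, t₂ ℓ) := by
    intro ℓ hℓ hℓS
    show ((if h : ℓ.Prime ∧ ℓ ∉ S then (⟨(t₁ ℓ, t₂ ℓ), hmem ℓ h.1 h.2⟩ : pairRing s) else 0 :
      pairRing s) : B × 𝒪) = _
    rw [dif_pos ⟨hℓ, hℓS⟩]
  have hchar' : ∀ (o : Bool) (ℓ : ℕ), ℓ.Prime → ℓ ∉ S → ∀ A' : ValuationSubring Ω,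
      A'.LiesOverPrime ℓ → ∀ σ : GQ, A'.IsFrobeniusAt σ ℓ →
        LinearMap.charpoly ((pairFamily ρ₁ ρ₂ o).ρ.ρ σ) =
          X ^ 2 - C ((pairFamily ρ₁ ρ₂ o).f (t ℓ)) * X
            + C ((pairFamily ρ₁ ρ₂ o).f (((ℓ : ℕ) : pairRing s))) := by
    rintro (_ | _) ℓ hℓ hℓS A' hA' σ hσ
    · have key : LinearMap.charpoly (ρ₂.ρ σ) = X ^ 2 - C (pairSnd s (t ℓ)) * X
          + C (pairSnd s ((ℓ : ℕ) : pairRing s)) := by
        rw [map_natCast, pairSnd_apply, ht ℓ hℓ hℓS]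
        exact hchar₂ ℓ hℓ hℓS A' hA' σ hσ
      exact key
    · have key : LinearMap.charpoly (ρ₁.ρ σ) = X ^ 2 - C (pairFst s (t ℓ)) * X
          + C (pairFst s ((ℓ : ℕ) : pairRing s)) := by
        rw [map_natCast, pairFst_apply, ht ℓ hℓ hℓS]
        exact hchar₁ ℓ hℓ hℓS A' hA' σ hσ
      exact key
  have hdet' : ∀ o, LinearMap.det ((pairFamily ρ₁ ρ₂ o).ρ.ρ c₀) = -1 := by
    rintro (_ | _)
    · exact hdet₂
    · exact hdet₁
  obtain ⟨ρT, h1, h3, h4, h5, h6⟩ := exists_galoisRepAdic_of_points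
    (B := fun o => (pairFamily ρ₁ ρ₂ o).B) h2T
    (fun o => (pairFamily ρ₁ ρ₂ o).f) hloc hfin e he hinj
    (fun o => (pairFamily ρ₁ ρ₂ o).ρ) S t (fun ℓ => ((ℓ : ℕ) : pairRing s)) hchar' c₀ hc₀ hdet'
    false hirr
  refine ⟨ρT, hl₁, hl₂, h1 true, h1 false, fun σ => ?_, fun σ hσ₁ hσ₂ => h5 σ ?_, h4⟩
  · refine pair_ext ?_ ?_
    · exact h6 σ true
    · exact h6 σ false
  · rintro (_ | _)
    · exact hσ₂
    · exact hσ₁

end Glue

end Fermat.Agent.ML.REPTL
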