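/-
PROJECT ML (S59) — [REPT-L] part A (helper9): **the Hecke–Galois representation of one level, as the
chain algebra sees it** (`LevelRep`), the comparison of the traces of two levels, and a few general
facts on finite local `𝒪`-algebras acting faithfully on a free module.

* `maximalIdeal_eq_radical_redKer'` : for a finite local `𝒪`-algebra `A` acting faithfully on the
  finite free `𝒪`-module `H`: `𝔪_A = rad {a : a H ⊆ 𝔪_𝒪 H}` (no generators needed);
* `structure LevelRep X ρbar p Sb Sres Nlev Q` : a representation `ρ` over `heckeAlg Y Sres` lifting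
  `ρ̄`, with cyclotomic determinant, unramified outside `Sb`, unipotent at the primes `≠ p` of
  `Nlev`, flat / ordinary at `p`, Frobenius traces `Tt ℓ` (`ℓ ∉ Sb`), generated by traces, (KEY-H);
* `LevelRep.trace_EA` : the traces of the top level map to the traces of the level `i`.
-/
import Mathlib
import Fermat.Agent.ML.REPTL_helper9_Chain
import Fermat.Agent.ML.REPTL_helper9_PairGlue
import Fermat.Agent.RB.REPT_helper1_TraceCompare
import Fermat.Agent.RB.REPT_helper1_TWPoint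
import Fermat.Prelude.Def_GaloisRep_Flat

set_option autoImplicit false
set_option linter.unusedSectionVars false
set_option linter.unusedVariables false
set_option linter.style.haveILetI false

namespace Fermat.Agent.ML.REPTL

open Polynomial IsLocalRing Fermat.Agent.RB Fermat.Agent.RB.REPT

local notation "Ω" => AlgebraicClosure ℚ
local notation "GQ" => (AlgebraicClosure ℚ ≃ₐ[ℚ] AlgebraicClosure ℚ)

section General

variable {𝒪 : Type} [CommRing 𝒪] [IsDomain 𝒪] [IsDiscreteValuationRing 𝒪]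
  [Finite (ResidueField 𝒪)]
  {A : Type} [CommRing A] [IsLocalRing A] [Algebra 𝒪 A] [Module.Finite 𝒪 A]
  {H : Type} [AddCommGroup H] [Module 𝒪 H] [Module A H] [IsScalarTower 𝒪 A H]
  [Module.Free 𝒪 H] [Module.Finite 𝒪 H] [FaithfulSMul A H]

/-- **the maximal ideal of a finite local `𝒪`-algebra acting faithfully on `H`.** -/
theorem maximalIdeal_eq_radical_redKer' :
    maximalIdeal A = (redKer 𝒪 A H).radical := by
  apply le_antisymm
  · intro a ha
    obtain ⟨e, he⟩ := exists_maximalIdeal_pow_le_map (𝒪 := 𝒪) A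
    refine ⟨e, fun h => ?_⟩
    have h1 : a ^ e ∈ (maximalIdeal 𝒪).map (algebraMap 𝒪 A) := he (Ideal.pow_mem_pow ha e)
    have h2 : ∀ b ∈ (maximalIdeal 𝒪).map (algebraMap 𝒪 A),
        b • h ∈ (maximalIdeal 𝒪 • ⊤ : Submodule 𝒪 H) := by
      intro b hb
      refine Submodule.span_induction (p := fun b _ => b • h ∈
        (maximalIdeal 𝒪 • ⊤ : Submodule 𝒪 H)) ?_ ?_ ?_ ?_ hb
      · rintro _ ⟨r, hr, rfl⟩
        rw [algebraMap_smul]
        exact Submodule.smul_mem_smul hr Submodule.mem_top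
      · rw [zero_smul]; exact Submodule.zero_mem _
      · intro x y _ _ hx hy
        rw [add_smul]; exact Submodule.add_mem _ hx hy
      · intro x y _ hy
        rw [smul_eq_mul, mul_smul]
        exact smul_mem_maximalIdeal_smul_top x hy
    exact h2 _ h1
  · intro a ha
    by_contra hnot
    have hu : IsUnit a := by
      by_contra hu
      exact hnot ((mem_maximalIdeal a).2 hu)
    obtain ⟨u, rfl⟩ := hu
    have h1 : (-1 : A) ∈ (redKer 𝒪 A H).radical := by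
      have := Ideal.mul_mem_left (redKer 𝒪 A H).radical (-(↑u⁻¹ : A)) ha
      rwa [neg_mul, Units.inv_mul] at this
    have h2 := isUnit_one_add_of_mem_radical_redKer (𝒪 := 𝒪) (H := H) h1
    rw [add_neg_cancel] at h2
    exact not_isUnit_zero h2

end General

section LevelRep

variable {𝒪 : Type} [CommRing 𝒪] [IsDomain 𝒪] [IsDiscreteValuationRing 𝒪]
  [IsAdicComplete (maximalIdeal 𝒪) 𝒪]

/-- **the Hecke–Galois representation of one level.** -/
structure LevelRep {p r d n : ℕ} (Y : TWModSide 𝒪 p r d n)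
    (ρbar : ResidualGaloisRep (ResidueField 𝒪)) (Sb Sres : Finset ℕ) (Nlev : ℕ)
    (Q : Fin r → ℕ) : Type 1 where
  [isLocalRingA : IsLocalRing (heckeAlg Y Sres)]
  [isLocalHomA : IsLocalHom (algebraMap 𝒪 (heckeAlg Y Sres))]
  residue_surjective :
    Function.Surjective (IsLocalRing.residue (heckeAlg Y Sres) ∘ algebraMap 𝒪 (heckeAlg Y Sres))
  ρ : GaloisRepAdic (heckeAlg Y Sres)
  residual_isEquiv : ρ.residual.IsEquiv
    (ρbar.baseChangeAlong (IsLocalRing.ResidueField.map (algebraMap 𝒪 (heckeAlg Y Sres))))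
  det : ρ.DetIsCyclotomic p
  unr : ∀ q : ℕ, q.Prime → q ∉ Sb → ρ.IsUnramifiedAt q
  unip : ∀ q : ℕ, q.Prime → q ≠ p → q ∣ Nlev → ρ.IsUnipotentOnInertiaAt q
  flat : ¬ p ∣ Nlev → ρ.IsFlatAt p
  ord : p ∣ Nlev → ρ.IsOrdinaryAt p
  charpoly_frob : ∀ (ℓ : ℕ) (hℓ : ℓ.Prime) (hℓS : ℓ ∉ Sres), ∀ P : ValuationSubring Ω,
    P.LiesOverPrime ℓ → ∀ σ : GQ, P.IsFrobeniusAt σ ℓ →
      LinearMap.charpoly (ρ.ρ σ) =
        X ^ 2 - C (TtH Y ⟨ℓ, hℓ⟩ hℓS) * X + C ((ℓ : ℕ) : heckeAlg Y Sres)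
  trace_frob : ∀ (ℓ : ℕ) (hℓ : ℓ.Prime), ℓ ∉ Sb → ∀ P : ValuationSubring Ω,
    P.LiesOverPrime ℓ → ∀ σ : GQ, P.IsFrobeniusAt σ ℓ →
      ((ρ.trace σ : heckeAlg Y Sres) : Module.End 𝒪 Y.H) = Y.Tt ⟨ℓ, hℓ⟩
  adjoin_trace : Algebra.adjoin 𝒪 (Set.range ρ.trace) = ⊤
  keyH : ∀ q : Fin r, ∃ (P : ValuationSubring Ω) (_ : P.LiesOverPrime (Q q)) (σ : GQ)
    (_ : σ ∈ P.inertiaSubgroupIn ℚ),
      ((ρ.trace σ : heckeAlg Y Sres) : Module.End 𝒪 Y.H) = Y.g q + Y.g q ^ (p ^ n - 1)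

/-- the trace function of the level -/
noncomputable def LevelRep.tr {p r d n : ℕ} {Y : TWModSide 𝒪 p r d n}
    {ρbar : ResidualGaloisRep (ResidueField 𝒪)} {Sb Sres : Finset ℕ} {Nlev : ℕ}
    {Q : Fin r → ℕ} (R : LevelRep Y ρbar Sb Sres Nlev Q) (σ : GQ) : heckeAlg Y Sres :=
  @GaloisRepAdic.trace _ _ R.isLocalRingA R.ρ σ

end LevelRep

section Compare

variable {𝒪 : Type} [CommRing 𝒪] [IsDomain 𝒪] [IsDiscreteValuationRing 𝒪]
  [IsAdicComplete (maximalIdeal 𝒪) 𝒪]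
  {p : ℕ} {lam : 𝒪} {c : Nat.Primes → 𝒪} {m : ℕ} {Nl : Fin (m + 1) → ℕ} [∀ i, NeZero (Nl i)]
  {qc : Fin m → ℕ} {hqc : ∀ j, (qc j).Prime} {d : Fin (m + 1) → ℕ} {r n : ℕ} {Q : Fin r → ℕ}
  {Nt Nbig : Fin (m + 1) → ℕ} [∀ i, NeZero (Nt i)] [∀ i, NeZero (Nbig i)]
  [∀ j : Fin m, NeZero (Nbig j.castSucc * qc j)] {hqN : ∀ j : Fin m, ¬ qc j ∣ Nbig j.castSucc}
  (L : TWModChainLevel p lam c Nl qc hqc d r n Q Nt Nbig hqN)
  (Sres : Finset ℕ)
  (hS : ∀ ℓ : ℕ, ℓ ∉ Sres → ℓ ∉ badSet p (Nl (Fin.last m)) ∪ Set.range Q)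
  (hNl : ∀ j : Fin m, Nl j.succ = Nl j.castSucc * qc j)
  {ρbar : ResidualGaloisRep (ResidueField 𝒪)}

/-- **the traces of the top level map to the traces of the level `i`.** -/
theorem trace_EA {Sbt Sbi : Finset ℕ} {Nt' Ni' : ℕ}
    (Rt : LevelRep (L.side (Fin.last m)) ρbar Sbt Sres Nt' Q) (i : Fin (m + 1))
    (Ri : LevelRep (L.side i) ρbar Sbi Sres Ni' Q) (σ : GQ) :
    EA L Sres hS hNl i (Rt.tr σ) = Ri.tr σ := by
  classical
  haveI := Rt.isLocalRingA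
  haveI := Ri.isLocalRingA
  show EA L Sres hS hNl i (Rt.ρ.trace σ) = Ri.ρ.trace σ
  haveI : Module.Finite 𝒪 (heckeAlg (L.side i) Sres) := finite_heckeAlg _ _
  haveI : IsNoetherianRing (heckeAlg (L.side i) Sres) := IsNoetherianRing.of_finite 𝒪 _
  haveI : IsLocalHom (EA L Sres hS hNl i :
      heckeAlg (L.side (Fin.last m)) Sres →+* heckeAlg (L.side i) Sres) :=
    IsLocalHom.of_surjective _ (EA_surjective L Sres hS hNl i)
  refine (Fermat.Agent.S58.cheb_trace_det_eq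
    (EA L Sres hS hNl i : heckeAlg (L.side (Fin.last m)) Sres →+* heckeAlg (L.side i) Sres)
    (separated_of_noetherian_local _) Rt.ρ Ri.ρ Sres ?_ σ).1
  intro ℓ hℓ hℓS P hP φ hφ
  rw [Rt.charpoly_frob ℓ hℓ hℓS P hP φ hφ, Ri.charpoly_frob ℓ hℓ hℓS P hP φ hφ]
  simp only [Polynomial.map_add, Polynomial.map_sub, Polynomial.map_mul, Polynomial.map_pow,
    Polynomial.map_X, Polynomial.map_C, map_natCast, Polynomial.map_natCast]
  rw [show (EA L Sres hS hNl i : heckeAlg (L.side (Fin.last m)) Sres →+*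
      heckeAlg (L.side i) Sres) (TtH (L.side (Fin.last m)) ⟨ℓ, hℓ⟩ hℓS) =
      TtH (L.side i) ⟨ℓ, hℓ⟩ hℓS from EA_TtH L Sres hS hNl i ⟨ℓ, hℓ⟩ hℓS]

/-- the same, as endomorphisms of `H i` -/
theorem E_trace {Sbt Sbi : Finset ℕ} {Nt' Ni' : ℕ}
    (Rt : LevelRep (L.side (Fin.last m)) ρbar Sbt Sres Nt' Q) (i : Fin (m + 1))
    (Ri : LevelRep (L.side i) ρbar Sbi Sres Ni' Q) (σ : GQ) :
    E L Sres hS hNl i (Rt.tr σ) =
      ((Ri.tr σ : heckeAlg (L.side i) Sres) : Module.End 𝒪 (L.side i).H) := by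
  rw [← trace_EA L Sres hS hNl Rt i Ri σ]
  rfl

end Compare

end Fermat.Agent.ML.REPTL
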