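/-
PROJECT ML (S59) — [REPT-L] (helper1): **`LevelOf` — the `LevelRep` of one level from Layer B
(`exists_levelGalois_plus`) + S31–S34.**

`ρ := datum.ρ ⊗_f heckeAlg Y Sres`.  Fields of helper9's `REPTL.LevelRep`:
`residual_isEquiv` (S53), `det` (`heckeDatum_detIsCyclotomic`), `unr` (S31 outside `Sres`, the plus
clause (a) on `Sres ∖ Sb`), `unip` (S34), `flat` (S32), `ord` (S33 — the residual hypothesis is
transported from `ρ̄` through `residual_isEquiv`), `charpoly_frob`, `trace_frob` (plus clause (b)),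
`adjoin_trace`, `keyH`.
-/
import Mathlib
import Fermat.Agent.ML.REPTL_helper9_LevelRep
import Fermat.Agent.ML.REPTLB_helper1_Level
import Fermat.Agent.TW.CondBaseChange_helper6
import Fermat.Agent.S31
import Fermat.Agent.S32
import Fermat.Agent.S33
import Fermat.Agent.S34

set_option autoImplicit false
set_option linter.unusedSectionVars false
set_option linter.unusedVariables false
set_option linter.style.haveILetI false

namespace Fermat.Agent.ML.REPTLB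

open Polynomial IsLocalRing CuspForm Fermat.Agent.GR Fermat.Agent.RB Fermat.Agent.RB.REPT
open scoped TensorProduct

local notation "Ω" => AlgebraicClosure ℚ
local notation "GQ" => (AlgebraicClosure ℚ ≃ₐ[ℚ] AlgebraicClosure ℚ)

section Ord

/-- **ordinarity is stable under base change.** -/
theorem isOrdinaryAt_baseChangeAlong {A B : Type} [CommRing A] [IsLocalRing A] [CommRing B]
    [IsLocalRing B] (f : A →+* B) (hf : IsLocalHom f) (ρ : GaloisRepAdic A) {p : ℕ}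
    (h : ρ.IsOrdinaryAt p) : (ρ.baseChangeAlong f hf).IsOrdinaryAt p := by
  intro P hP
  obtain ⟨L, ⟨b, hb⟩, hD, hI⟩ := h P hP
  letI : Algebra A B := f.toAlgebra
  refine ⟨(Submodule.baseChange B L : Submodule B (B ⊗[A] ρ.V)),
    ⟨Fermat.Agent.S53.baseChangeBasis f hf ρ b, ?_⟩, ?_, ?_⟩
  · rw [hb]
    exact Fermat.Agent.TW.baseChange_span_basis_zero b
  · intro σ hσ v hv
    exact Fermat.Agent.TW.baseChange_mem_of_stable (ρ.ρ σ) L (hD σ hσ) v hv
  · intro σ hσ v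
    exact Fermat.Agent.TW.baseChange_sub_mem (ρ.ρ σ) L (hI σ hσ) v

variable {k k' : Type} [Field k] [Field k']

/-- ordinarity of a residual representation passes to its scalar extensions. -/
theorem residual_baseChangeAlong_isOrdinaryAt (φ : k →+* k') (ρbar : ResidualGaloisRep k) {p : ℕ}
    (h : (GaloisRepAdic.ofResidualGaloisRep ρbar).IsOrdinaryAt p) :
    (GaloisRepAdic.ofResidualGaloisRep (ρbar.baseChangeAlong φ)).IsOrdinaryAt p := by
  intro P hP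
  obtain ⟨L, ⟨b, hb⟩, hD, hI⟩ := h P hP
  letI : Algebra k k' := φ.toAlgebra
  have hb' : L = Submodule.span k {b 0} := hb
  refine ⟨(Submodule.baseChange k' L : Submodule k' (k' ⊗[k] ρbar.V)),
    ⟨Module.Basis.baseChange k' b, ?_⟩, ?_, ?_⟩
  · rw [hb']
    exact Fermat.Agent.TW.baseChange_span_basis_zero b
  · intro σ hσ v hv
    exact Fermat.Agent.TW.baseChange_mem_of_stable (ρbar.ρ σ) L (hD σ hσ) v hv
  · intro σ hσ v
    exact Fermat.Agent.TW.baseChange_sub_mem (ρbar.ρ σ) L (hI σ hσ) v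

/-- the ordinary datum is transported along an intertwining linear equivalence. -/
theorem ordinary_transfer {A : Type*} [CommRing A] {V₁ V₂ : Type*} [AddCommGroup V₁] [Module A V₁]
    [AddCommGroup V₂] [Module A V₂] {G : Type*} (r₁ : G → Module.End A V₁)
    (r₂ : G → Module.End A V₂) (e : V₁ ≃ₗ[A] V₂) (he : ∀ σ v, e (r₁ σ v) = r₂ σ (e v))
    (D I : Set G)
    (h : ∃ L : Submodule A V₂, (∃ b : Module.Basis (Fin 2) A V₂, L = Submodule.span A {b 0}) ∧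
      (∀ σ ∈ D, ∀ v ∈ L, r₂ σ v ∈ L) ∧ (∀ σ ∈ I, ∀ v, r₂ σ v - v ∈ L)) :
    ∃ L : Submodule A V₁, (∃ b : Module.Basis (Fin 2) A V₁, L = Submodule.span A {b 0}) ∧
      (∀ σ ∈ D, ∀ v ∈ L, r₁ σ v ∈ L) ∧ (∀ σ ∈ I, ∀ v, r₁ σ v - v ∈ L) := by
  obtain ⟨L, ⟨b, hb⟩, hD, hI⟩ := h
  have hmem : ∀ v : V₁, v ∈ Submodule.span A {(b.map e.symm) 0} ↔ e v ∈ L := by
    intro v
    rw [hb, Submodule.mem_span_singleton, Submodule.mem_span_singleton, Module.Basis.map_apply]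
    constructor
    · rintro ⟨c, rfl⟩
      exact ⟨c, by rw [map_smul, LinearEquiv.apply_symm_apply]⟩
    · rintro ⟨c, hc⟩
      refine ⟨c, ?_⟩
      apply e.injective
      rw [map_smul, LinearEquiv.apply_symm_apply, hc]
  refine ⟨Submodule.span A {(b.map e.symm) 0}, ⟨b.map e.symm, rfl⟩, ?_, ?_⟩
  · intro σ hσ v hv
    rw [hmem] at hv ⊢
    rw [he]
    exact hD σ hσ _ hv
  · intro σ hσ v
    rw [hmem, map_sub, he]
    exact hI σ hσ _

/-- ordinarity of a residual representation only depends on its isomorphism class. -/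
theorem residual_isOrdinaryAt_of_isEquiv {ρ₁ ρ₂ : ResidualGaloisRep k} (he : ρ₁.IsEquiv ρ₂)
    {p : ℕ} (h : (GaloisRepAdic.ofResidualGaloisRep ρ₂).IsOrdinaryAt p) :
    (GaloisRepAdic.ofResidualGaloisRep ρ₁).IsOrdinaryAt p := by
  obtain ⟨e⟩ := he
  intro P hP
  exact ordinary_transfer (fun σ : GQ => ρ₁.ρ σ) (fun σ : GQ => ρ₂.ρ σ) e.toLinearEquiv
    (fun σ v => e.map_apply σ v) (↑(P.decompositionSubgroup ℚ) : Set GQ)
    (↑(P.inertiaSubgroupIn ℚ) : Set GQ) (h P hP)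

/-- a non-zero vector of a plane is the first vector of a basis. -/
theorem exists_basis_zero_eq {V : Type} [AddCommGroup V] [Module k V]
    (hV : Module.finrank k V = 2) {v : V} (hv : v ≠ 0) :
    ∃ b : Module.Basis (Fin 2) k V, b 0 = v := by
  haveI : Module.Finite k V := Module.finite_of_finrank_eq_succ hV
  obtain ⟨w, hw⟩ : ∃ w : V, w ∉ Submodule.span k {v} := by
    by_contra hcon
    push Not at hcon
    have htop : Submodule.span k {v} = ⊤ := by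
      rw [eq_top_iff]
      intro w _
      exact hcon w
    have h1 : Module.finrank k (Submodule.span k {v}) ≤ 1 := by
      have := finrank_span_le_card (R := k) ({v} : Set V)
      simpa using this
    rw [htop, finrank_top, hV] at h1
    omega
  have hli : LinearIndependent k ![v, w] := by
    rw [LinearIndependent.pair_iff' hv]
    intro a ha
    apply hw
    rw [Submodule.mem_span_singleton]
    exact ⟨a, ha⟩
  refine ⟨basisOfLinearIndependentOfCardEqFinrank hli (by rw [Fintype.card_fin, hV]), ?_⟩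
  rw [coe_basisOfLinearIndependentOfCardEqFinrank]
  rfl

/-- **the residual ordinary shape in the vocabulary of `IsResChain.ord_p`** (a stable line spanned
by a non-zero vector, trivial inertia on the quotient) gives `IsOrdinaryAt`. -/
theorem residual_isOrdinaryAt_of_line (ρbar : ResidualGaloisRep k) {p : ℕ}
    (h : ∀ A : ValuationSubring Ω, A.LiesOverPrime p →
      ∃ Lbar : Submodule k ρbar.V,
        (∃ v : ρbar.V, v ≠ 0 ∧ Lbar = Submodule.span k {v}) ∧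
        (∀ σ ∈ A.decompositionSubgroup ℚ, ∀ v ∈ Lbar, ρbar.ρ σ v ∈ Lbar) ∧
        (∀ σ ∈ A.inertiaSubgroupIn ℚ, ∀ v : ρbar.V, ρbar.ρ σ v - v ∈ Lbar)) :
    (GaloisRepAdic.ofResidualGaloisRep ρbar).IsOrdinaryAt p := by
  intro P hP
  obtain ⟨Lbar, ⟨v, hv, hL⟩, hD, hI⟩ := h P hP
  obtain ⟨b, hb⟩ := exists_basis_zero_eq ρbar.finrank_eq hv
  have hL' : Lbar = Submodule.span k {b 0} := by rw [hL, hb]
  exact ⟨Lbar, ⟨b, hL'⟩, hD, hI⟩

end Ord

section LevelOf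

variable {𝒪 : Type} [CommRing 𝒪] [IsDomain 𝒪] [IsDiscreteValuationRing 𝒪]
  [IsAdicComplete (maximalIdeal 𝒪) 𝒪] [CharZero 𝒪] [Finite (ResidueField 𝒪)]
  {p r d n : ℕ} (Y : TWModSide 𝒪 p r d n) {lam : 𝒪} {c : Nat.Primes → 𝒪} {Nt Nbig : ℕ}
  [NeZero Nt] [NeZero Nbig] {Sb Sr : Finset ℕ} {uQ : Fin r → (ZMod Nt)ˣ}

/-- **`LevelOf`: the `LevelRep` of one level.** -/
theorem exists_levelRep [Fact p.Prime] (hp2 : p ≠ 2) (hp𝒪 : (p : 𝒪) ∈ maximalIdeal 𝒪)
    (hlam : Irreducible lam) (ρbar : ResidualGaloisRep (ResidueField 𝒪))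
    (habs : ρbar.IsAbsolutelyIrreducible)
    (hbardet : LinearMap.det (ρbar.ρ complexConjugation) = -1) (hd : 0 < d) (hSbr : Sb ⊆ Sr)
    (O : OccL Y lam c Nt Nbig (↑Sb : Set ℕ) (↑Sr : Set ℕ) uQ)
    (hpSb : p ∈ Sb) (hNbigS : ∀ q : ℕ, q.Prime → q ∣ Nbig → q ∈ Sb)
    (hNtS : ∀ q : ℕ, q.Prime → q ∣ Nt → q ∈ Sb)
    (hbarchar : ∀ (ℓ : Nat.Primes), (ℓ : ℕ) ∉ Sr →
      ∀ A' : ValuationSubring Ω, A'.LiesOverPrime ℓ → ∀ σ : GQ, A'.IsFrobeniusAt σ ℓ →
        LinearMap.charpoly (ρbar.ρ σ) =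
          X ^ 2 - C (residue 𝒪 (c ℓ)) * X + C (((ℓ : ℕ) : ResidueField 𝒪)))
    (Q : Fin r → ℕ) (hQ : ∀ q, (Q q).Prime) (hQNt : ∀ q, Q q ∣ Nt) (hQ2 : ∀ q, ¬ Q q ^ 2 ∣ Nt)
    (hQp : ∀ q, Q q ≠ p) (hQ2' : ∀ q, Q q ≠ 2) (hNt5 : 5 ≤ Nt) (hNtQ : ∀ q, 5 ≤ Nt / Q q)
    (huQ : ∀ q, ((((uQ q : (ZMod Nt)ˣ) : ZMod Nt).val : ℕ) : ZMod (Nt / Q q)) = 1)
    (hTh : ThetaKillsJ1Odd Nt p)
    (Nlev : ℕ)
    (hunipN : ∀ q : ℕ, q.Prime → q ≠ p → q ∣ Nlev → q ∣ Nbig ∧ ¬ q ^ 2 ∣ Nbig)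
    (hflatN : ¬ p ∣ Nlev → ¬ p ∣ Nbig)
    (hordN : p ∣ Nlev → p ∣ Nbig ∧ ¬ p ^ 2 ∣ Nbig)
    (hbar_unr : ∀ q : ℕ, q.Prime → q ∉ Sb → ρbar.IsUnramifiedAt q)
    (hbar_ord : p ∣ Nlev → (GaloisRepAdic.ofResidualGaloisRep ρbar).IsOrdinaryAt p) :
    Nonempty (Fermat.Agent.ML.REPTL.LevelRep Y ρbar Sb Sr Nlev Q) := by
  classical
  have hp : p.Prime := Fact.out
  obtain ⟨L, hplusa, hplusb, -⟩ := exists_levelGalois_plus Y hp2 hp𝒪 hlam ρbar habs hbardet hd hSbr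
    O hpSb hNbigS hNtS hbarchar Q hQ hQNt hQ2 hQp hQ2' hNt5 hNtQ huQ hTh
  haveI := L.isLocalRingA
  haveI := L.isLocalHomA
  have hNbigSr : ∀ q : ℕ, q.Prime → q ∣ Nbig → q ∈ Sr := fun q hq hqN => hSbr (hNbigS q hq hqN)
  have hpSr : p ∈ Sr := hSbr hpSb
  have hloc : IsLocalHom (L.f : L.Tb →+* heckeAlg Y Sr) :=
    IsLocalHom.of_surjective (L.f : L.Tb →+* heckeAlg Y Sr) L.f_surjective
  let ρ : GaloisRepAdic (heckeAlg Y Sr) :=
    L.datum.ρ.baseChangeAlong (L.f : L.Tb →+* heckeAlg Y Sr) hloc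
  have htr : ∀ σ : GQ, ρ.trace σ = L.f (L.datum.ρ.trace σ) := fun σ =>
    trace_baseChangeAlong (L.f : L.Tb →+* heckeAlg Y Sr) hloc L.datum.ρ σ
  have hchar : ∀ (ℓ : ℕ) (hℓ : ℓ.Prime) (hℓS : ℓ ∉ Sr), ∀ P : ValuationSubring Ω,
      P.LiesOverPrime ℓ → ∀ σ : GQ, P.IsFrobeniusAt σ ℓ →
        LinearMap.charpoly (ρ.ρ σ) =
          X ^ 2 - C (TtH Y ⟨ℓ, hℓ⟩ hℓS) * X + C ((ℓ : ℕ) : heckeAlg Y Sr) := by
    intro ℓ hℓ hℓS P hP σ hσ
    have hℓS' : ℓ ∉ (↑Sr : Set ℕ) := fun h => hℓS (Finset.mem_coe.1 h)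
    have hℓN : ¬ ℓ ∣ Nbig := fun h => hℓS (hNbigSr ℓ hℓ h)
    rw [Fermat.Agent.TW.charpoly_baseChangeAlong, L.datum.charpoly_frob ℓ hℓ hℓN hℓS' P hP σ hσ]
    simp only [Polynomial.map_add, Polynomial.map_sub, Polynomial.map_mul, Polynomial.map_pow,
      Polynomial.map_X, Polynomial.map_C, map_natCast]
    rw [show (L.f : L.Tb →+* heckeAlg Y Sr) (L.datum.π (heckeAlgebra.T hℓ hℓN hℓS')) =
      TtH Y ⟨ℓ, hℓ⟩ hℓS from L.f_T ℓ hℓ hℓN hℓS' hℓS, Polynomial.map_natCast]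
  refine ⟨{ residue_surjective := L.residue_surjective
            ρ := ρ
            residual_isEquiv := ?_
            det := ?_
            unr := ?_
            unip := ?_
            flat := ?_
            ord := ?_
            charpoly_frob := hchar
            trace_frob := ?_
            adjoin_trace := ?_
            keyH := ?_ }⟩
  · exact Fermat.Agent.S53.residual_baseChangeAlong_isEquiv ρbar L.f hloc L.datum.ρ
      L.residual_isEquiv
  · exact Fermat.Agent.TW.detIsCyclotomic_baseChangeAlong _ _ _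
      (Fermat.Agent.NP.heckeDatum_detIsCyclotomic hp hp𝒪 hNbigSr L.datum)
  · intro q hq hqS
    refine Fermat.Agent.TW.isUnramifiedAt_baseChangeAlong _ _ _ ?_
    by_cases hqSr : q ∈ Sr
    · refine hplusa q hq (fun h => hqS (hNbigS q hq h)) ?_ (hbar_unr q hq hqS)
      rintro rfl
      exact hqS hpSb
    · exact Fermat.Agent.S31.result hp hp𝒪 hpSr hNbigSr L.datum q hq hqSr
  · intro q hq hqp hqN
    obtain ⟨h1, h2⟩ := hunipN q hq hqp hqN
    exact Fermat.Agent.TW.isUnipotentOnInertiaAt_baseChangeAlong _ _ _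
      (Fermat.Agent.S34.result hp hp𝒪 hpSr hNbigSr L.datum q hq hqp h1 h2)
  · intro hpN
    exact Fermat.Agent.TW.isFlatAt_baseChangeAlong_of_surjective _ _ _ L.f_surjective
      (Fermat.Agent.S32.result hp hp2 hp𝒪 (hflatN hpN) hpSr hNbigSr L.datum)
  · intro hpN
    refine isOrdinaryAt_baseChangeAlong _ hloc _ ?_
    refine Fermat.Agent.S33.result hp hp2 hp𝒪 (hordN hpN) hNbigSr L.datum ?_
    exact residual_isOrdinaryAt_of_isEquiv L.residual_isEquiv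
      (residual_baseChangeAlong_isOrdinaryAt _ ρbar (hbar_ord hpN))
  · intro ℓ hℓ hℓS P hP σ hσ
    rw [htr]
    exact hplusb ℓ hℓ hℓS P hP σ hσ
  · rw [eq_top_iff, ← adjoin_TtFun Y Sr]
    refine Algebra.adjoin_le ?_
    rintro _ ⟨ℓ, ⟨hℓ, hℓS⟩, rfl⟩
    obtain ⟨P, σ, hP, hσ⟩ := Fermat.Agent.S54.exists_frobenius ℓ hℓ
    have h1 := (Fermat.Agent.GR.trace_det_of_charpoly_eq ρ.finrank_eq (ρ.ρ σ) _ _
      (hchar ℓ hℓ hℓS P hP σ hσ)).1
    rw [TtFun_eq Y hℓ hℓS, ← h1]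
    exact Algebra.subset_adjoin ⟨σ, rfl⟩
  · intro q
    obtain ⟨P, hP, σ, hσ, h1⟩ := L.keyH q
    refine ⟨P, hP, σ, hσ, ?_⟩
    rw [htr]
    exact h1

end LevelOf

end Fermat.Agent.ML.REPTLB
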