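/-
PROJECT ML (S59) — [LOC-L] at `p`, lead: **Hilbert 90 for cocycles on a subgroup of the local Galois
group** `GP = Gal(ℚ̄_p / ℚ_p)` which factor through a finite Galois level `L`.

`exists_kummerGen`: let `G₀ ≤ GP`, `L/ℚ_p` finite Galois inside `Ω = PadicAlgCl p`, and
`F : GP → Ω` with values in `L ∖ {0}` on `G₀`, `F (g h) = F g · g (F h)` on `G₀`, and `F g = 1`
for the `g ∈ G₀` fixing `L`.  Then there is `y ∈ L`, `y ≠ 0`, with `g y = F g · y` for all
`g ∈ G₀`.  (Dedekind independence of the finitely many restrictions of `G₀` to `L`.)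
-/
import Mathlib

set_option autoImplicit false
set_option linter.unusedSectionVars false
set_option linter.style.haveILetI false

namespace Fermat.Agent.ML.KP

variable {p : ℕ} [Fact p.Prime]

local notation "Ω" => PadicAlgCl p
local notation "GP" => (PadicAlgCl p ≃ₐ[ℚ_[p]] PadicAlgCl p)

/-- **Hilbert 90 at a finite level, for a subgroup.** -/
theorem exists_kummerGen (G₀ : Subgroup GP) (L : IntermediateField ℚ_[p] Ω)
    [FiniteDimensional ℚ_[p] L] [IsGalois ℚ_[p] L] (F : GP → Ω)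
    (hF0 : ∀ g ∈ G₀, F g ≠ 0) (hFL : ∀ g ∈ G₀, F g ∈ L)
    (hmul : ∀ g ∈ G₀, ∀ h ∈ G₀, F (g * h) = F g * g (F h))
    (htriv : ∀ g ∈ G₀, (∀ z ∈ L, g z = z) → F g = 1) :
    ∃ y ∈ L, y ≠ 0 ∧ ∀ g ∈ G₀, g y = F g * y := by
  classical
  -- restriction to `L`
  obtain ⟨res, hres⟩ : ∃ res : GP →* (L ≃ₐ[ℚ_[p]] L), res = AlgEquiv.restrictNormalHom L :=
    ⟨_, rfl⟩
  have hres_apply : ∀ (τ : GP) (x : L), ((res τ x : L) : Ω) = τ (x : Ω) := by
    intro τ x
    rw [hres]
    exact AlgEquiv.restrictNormal_commutes τ L x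
  have hfixL : ∀ ν : GP, res ν = 1 → ∀ z ∈ L, ν z = z := by
    intro ν hν z hz
    have := hres_apply ν ⟨z, hz⟩
    rw [hν] at this
    exact this.symm
  -- the finite group `H` of restrictions of `G₀`
  set H : Subgroup (L ≃ₐ[ℚ_[p]] L) := G₀.map res with hH
  have hlift : ∀ γ : H, ∃ g ∈ G₀, res g = γ.1 := fun γ => by
    obtain ⟨g, hg, hgγ⟩ := γ.2
    exact ⟨g, hg, hgγ⟩
  choose lift hliftmem hliftres using hlift
  -- `F` depends only on the restriction
  have hFres : ∀ g ∈ G₀, ∀ γ : H, res g = γ.1 → F g = F (lift γ) := by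
    intro g hg γ hgγ
    have hu : (lift γ)⁻¹ * g ∈ G₀ := G₀.mul_mem (G₀.inv_mem (hliftmem γ)) hg
    have hures : res ((lift γ)⁻¹ * g) = 1 := by
      rw [map_mul, map_inv, hliftres, hgγ, inv_mul_cancel]
    have h1 : F ((lift γ)⁻¹ * g) = 1 := htriv _ hu (hfixL _ hures)
    have h2 : g = lift γ * ((lift γ)⁻¹ * g) := by group
    rw [h2, hmul _ (hliftmem γ) _ hu, h1, map_one, mul_one]
  -- the coefficients, in `L`
  set c : H → L := fun γ => ⟨F (lift γ), hFL _ (hliftmem γ)⟩ with hc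
  -- Dedekind: the elements of `H` are linearly independent functions `L → L`
  have hindep : LinearIndependent L (fun γ : H => ((γ.1 : L ≃ₐ[ℚ_[p]] L) : L → L)) := by
    have h0 : LinearIndependent L (fun f : L →* L => (f : L → L)) :=
      linearIndependent_monoidHom L L
    refine LinearIndependent.comp (ι' := H) h0
      (fun γ : H => ((γ.1 : L ≃ₐ[ℚ_[p]] L) : L →ₐ[ℚ_[p]] L).toRingHom.toMonoidHom) ?_
    intro γ γ' h
    apply Subtype.ext
    ext x
    have := DFunLike.congr_fun h x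
    exact congrArg Subtype.val this
  -- a point where the resolvent does not vanish
  have hex : ∃ z : L, ∑ γ : H, c γ * γ.1 z ≠ 0 := by
    by_contra hcon
    push Not at hcon
    have h1 : ∑ γ : H, c γ • ((γ.1 : L ≃ₐ[ℚ_[p]] L) : L → L) = 0 := by
      funext z
      rw [Finset.sum_apply]
      simpa using hcon z
    have h2 := Fintype.linearIndependent_iff.1 hindep c h1
    have h3 := h2 1
    have h4 : F (lift (1 : H)) = 0 := by
      have := congrArg Subtype.val h3
      exact this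
    exact hF0 _ (hliftmem 1) h4
  obtain ⟨z, hz⟩ := hex
  set S : L := ∑ γ : H, c γ * γ.1 z with hS
  refine ⟨((S⁻¹ : L) : Ω), (S⁻¹ : L).2, ?_, ?_⟩
  · have : (S⁻¹ : L) ≠ 0 := inv_ne_zero hz
    exact fun h => this (Subtype.ext h)
  · intro g hg
    -- `g S = (F g)⁻¹ S`
    set γ₀ : H := ⟨res g, Subgroup.mem_map_of_mem res hg⟩ with hγ₀
    have hgS : g (S : Ω) * F g = (S : Ω) := by
      have h1 : g (S : Ω) = ((res g S : L) : Ω) := (hres_apply g S).symm
      rw [h1, hS, map_sum]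
      have h2 : ∀ γ : H, ((res g) (c γ * γ.1 z) : L) * ⟨F g, hFL g hg⟩ = c (γ₀ * γ) * (γ₀ * γ).1 z := by
        intro γ
        apply Subtype.ext
        have e1 : (((res g) (c γ * γ.1 z) : L) : Ω) = g (F (lift γ)) * g ((γ.1 z : L) : Ω) := by
          rw [hres_apply, hc]
          simp only [MulMemClass.coe_mul, map_mul]
        have e2 : F (g * lift γ) = F (lift (γ₀ * γ)) := by
          refine hFres _ (G₀.mul_mem hg (hliftmem γ)) (γ₀ * γ) ?_
          rw [map_mul, hliftres]
          rfl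
        have e3 : (((γ₀ * γ).1 z : L) : Ω) = g ((γ.1 z : L) : Ω) := by
          have : (γ₀ * γ).1 z = res g (γ.1 z) := rfl
          rw [this, hres_apply]
        have e4 := hmul g hg _ (hliftmem γ)
        rw [MulMemClass.coe_mul, e1, MulMemClass.coe_mul, e3]
        show g (F (lift γ)) * g ((γ.1 z : L) : Ω) * F g = F (lift (γ₀ * γ)) * g ((γ.1 z : L) : Ω)
        rw [← e2, e4]
        ring
      have h3 : ((∑ γ : H, (res g) (c γ * γ.1 z) : L) : Ω) * F g =
          ((∑ γ : H, c (γ₀ * γ) * (γ₀ * γ).1 z : L) : Ω) := by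
        have : (∑ γ : H, (res g) (c γ * γ.1 z) : L) * ⟨F g, hFL g hg⟩ =
            ∑ γ : H, c (γ₀ * γ) * (γ₀ * γ).1 z := by
          rw [Finset.sum_mul]
          exact Finset.sum_congr rfl fun γ _ => h2 γ
        have := congrArg Subtype.val this
        simpa using this
      rw [h3]
      congr 1
      exact Fintype.sum_bijective (fun γ => γ₀ * γ) (Group.mulLeft_bijective γ₀) _ _ (fun _ => rfl)
    have hS0 : (S : Ω) ≠ 0 := fun h => hz (Subtype.ext h)
    have hFg0 := hF0 g hg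
    have hinv : ((S⁻¹ : L) : Ω) = (S : Ω)⁻¹ := rfl
    rw [hinv, map_inv₀]
    have hgS0 : g (S : Ω) ≠ 0 := by
      rw [Ne, map_eq_zero]; exact hS0
    field_simp
    exact hgS.symm

end Fermat.Agent.ML.KP
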