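/-
PROJECT ML (S59) — [LOC-L] at `p`, lead: **the valuation of the Kummer generator of a cocycle on the
inertia group** `I = unrInertia p ≤ GP = Gal(ℚ̄_p / ℚ_p)`.

`IsKumVal n F a`: there is `y ≠ 0` with `g y = F g · y` for all `g ∈ I` and `‖y‖ ^ (p ^ n) = p ^ (-a)`
(`a = v_p(y ^ (p ^ n))`).  For a cocycle `F : I → μ_{p^n}` factoring through a finite level such an
`a` exists (`exists_isKumVal`, Hilbert 90 + the inertia field is unramified) and is unique modulo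
`p ^ n` (`IsKumVal.dvd_sub`); it is additive (`IsKumVal.mul`), vanishes on coboundaries of units
(`isKumVal_cob`) and is invariant under conjugation by `GP` (`IsKumVal.conj`).
-/
import Mathlib
import Fermat.Agent.ML.KP_lead_H90
import Fermat.Agent.TW.FlatLeaf_helper1_UNR

set_option autoImplicit false
set_option linter.unusedSectionVars false
set_option linter.style.haveILetI false

namespace Fermat.Agent.ML.KP

open Fermat.Agent.TW

variable {p : ℕ} [hp : Fact p.Prime]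

local notation "Ω" => PadicAlgCl p
local notation "GP" => (PadicAlgCl p ≃ₐ[ℚ_[p]] PadicAlgCl p)

/-- an element fixed by the inertia group has norm an integral power of `p`. -/
theorem exists_zpow_norm_eq_of_fixed {x : Ω} (hx : ∀ τ ∈ unrInertia p, τ x = x) (hx0 : x ≠ 0) :
    ∃ m : ℤ, ‖x‖ = (p : ℝ) ^ m := by
  have halg : IsIntegral ℚ_[p] x := (Algebra.IsAlgebraic.isAlgebraic x).isIntegral
  haveI : FiniteDimensional ℚ_[p] (IntermediateField.adjoin ℚ_[p] ({x} : Set Ω)) :=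
    IntermediateField.adjoin.finiteDimensional halg
  refine Fermat.Agent.TW.Flat.exists_zpow_norm_eq_of_unrInertia_fixed p
    (IntermediateField.adjoin ℚ_[p] ({x} : Set Ω)) ?_
    (IntermediateField.mem_adjoin_simple_self ℚ_[p] x) hx0
  intro τ hτ z hz
  have h1 : IntermediateField.adjoin ℚ_[p] ({x} : Set Ω) ≤
      IntermediateField.fixedField (Subgroup.zpowers τ) := by
    rw [IntermediateField.adjoin_le_iff]
    rintro _ rfl
    rw [SetLike.mem_coe, IntermediateField.mem_fixedField_iff]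
    intro g hg
    obtain ⟨k, rfl⟩ := Subgroup.mem_zpowers_iff.1 hg
    have hk : τ ^ k ∈ unrInertia p := Subgroup.zpow_mem _ hτ k
    exact hx _ hk
  have h2 := h1 hz
  rw [IntermediateField.mem_fixedField_iff] at h2
  exact h2 τ (Subgroup.mem_zpowers τ)

/-- **the valuation of the Kummer generator** -/
def IsKumVal (n : ℕ) (F : GP → Ω) (a : ℤ) : Prop :=
  ∃ y : Ω, y ≠ 0 ∧ (∀ g ∈ unrInertia p, g y = F g * y) ∧ ‖y‖ ^ (p ^ n) = (p : ℝ) ^ (-a)

theorem norm_pos_p : (0 : ℝ) < (p : ℝ) := by exact_mod_cast hp.out.pos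

theorem one_lt_p : (1 : ℝ) < (p : ℝ) := by exact_mod_cast hp.out.one_lt

theorem zpow_p_injective : Function.Injective fun m : ℤ => (p : ℝ) ^ m :=
  zpow_right_injective₀ norm_pos_p (ne_of_gt one_lt_p)

/-- existence -/
theorem exists_isKumVal (n : ℕ) (L : IntermediateField ℚ_[p] Ω)
    [FiniteDimensional ℚ_[p] L] [IsGalois ℚ_[p] L] (F : GP → Ω)
    (hFpow : ∀ g ∈ unrInertia p, F g ^ (p ^ n) = 1) (hFL : ∀ g ∈ unrInertia p, F g ∈ L)
    (hmul : ∀ g ∈ unrInertia p, ∀ h ∈ unrInertia p, F (g * h) = F g * g (F h))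
    (htriv : ∀ g ∈ unrInertia p, (∀ z ∈ L, g z = z) → F g = 1) :
    ∃ a : ℤ, IsKumVal n F a := by
  have hF0 : ∀ g ∈ unrInertia p, F g ≠ 0 := by
    intro g hg h0
    have := hFpow g hg
    rw [h0, zero_pow (pow_ne_zero n hp.out.ne_zero)] at this
    exact zero_ne_one this
  obtain ⟨y, -, hy0, hy⟩ := exists_kummerGen (unrInertia p) L F hF0 hFL hmul htriv
  have hfix : ∀ τ ∈ unrInertia p, τ (y ^ (p ^ n)) = y ^ (p ^ n) := by
    intro τ hτ
    rw [map_pow, hy τ hτ, mul_pow, hFpow τ hτ, one_mul]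
  obtain ⟨m, hm⟩ := exists_zpow_norm_eq_of_fixed hfix (pow_ne_zero _ hy0)
  refine ⟨-m, y, hy0, hy, ?_⟩
  rw [neg_neg, ← hm, norm_pow]

/-- uniqueness modulo `p ^ n` -/
theorem isKumVal_dvd_sub {n : ℕ} {F : GP → Ω} {a a' : ℤ} (h : IsKumVal n F a) (h' : IsKumVal n F a') : ((p : ℤ) ^ n) ∣ a - a' := by
  obtain ⟨y, hy0, hy, hya⟩ := h
  obtain ⟨y', hy0', hy', hya'⟩ := h'
  have hfix : ∀ τ ∈ unrInertia p, τ (y' / y) = y' / y := by
    intro τ hτ
    have hF0 : F τ ≠ 0 := by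
      intro h0
      have := hy τ hτ
      rw [h0, zero_mul, map_eq_zero] at this
      exact hy0 this
    rw [map_div₀, hy τ hτ, hy' τ hτ]
    field_simp
  obtain ⟨m, hm⟩ := exists_zpow_norm_eq_of_fixed hfix (div_ne_zero hy0' hy0)
  have h1 : ‖y' / y‖ ^ (p ^ n) = (p : ℝ) ^ (-a') / (p : ℝ) ^ (-a) := by
    rw [norm_div, div_pow, hya, hya']
  rw [hm, ← zpow_natCast, ← zpow_mul, ← zpow_sub₀ (ne_of_gt norm_pos_p)] at h1
  have h2 : m * ((p ^ n : ℕ) : ℤ) = -a' - -a := zpow_p_injective (p := p) h1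
  refine ⟨m, ?_⟩
  have h3 : a - a' = m * ((p ^ n : ℕ) : ℤ) := by linarith
  rw [h3]
  push_cast
  ring

theorem isKumVal_mul {n : ℕ} {F F' : GP → Ω} {a a' : ℤ} (h : IsKumVal n F a) (h' : IsKumVal n F' a') :
    IsKumVal n (fun g => F g * F' g) (a + a') := by
  obtain ⟨y, hy0, hy, hya⟩ := h
  obtain ⟨y', hy0', hy', hya'⟩ := h'
  refine ⟨y * y', mul_ne_zero hy0 hy0', fun g hg => ?_, ?_⟩
  · rw [map_mul, hy g hg, hy' g hg]; ring
  · rw [norm_mul, mul_pow, hya, hya', ← zpow_add₀ (ne_of_gt norm_pos_p)]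
    congr 1; ring

theorem isKumVal_congr {n : ℕ} {F F' : GP → Ω} {a : ℤ} (h : IsKumVal n F a) (hFF' : ∀ g ∈ unrInertia p, F g = F' g) : IsKumVal n F' a := by
  obtain ⟨y, hy0, hy, hya⟩ := h
  exact ⟨y, hy0, fun g hg => by rw [← hFF' g hg]; exact hy g hg, hya⟩

/-- invariance under conjugation -/
theorem isKumVal_conj {n : ℕ} {F : GP → Ω} {a : ℤ} (h : IsKumVal n F a) (φ : GP) :
    IsKumVal n (fun g => φ⁻¹ (F (φ * g * φ⁻¹))) a := by
  obtain ⟨y, hy0, hy, hya⟩ := h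
  refine ⟨φ⁻¹ y, ?_, fun g hg => ?_, ?_⟩
  · rw [Ne, map_eq_zero]; exact hy0
  · have hconj : φ * g * φ⁻¹ ∈ unrInertia p :=
      (unrInertia_normal (q := p)).conj_mem g hg φ
    have h1 := hy _ hconj
    have h2 : g (φ⁻¹ y) = φ⁻¹ ((φ * g * φ⁻¹) y) := by
      simp only [AlgEquiv.mul_apply]
      have : φ (φ⁻¹ y) = y := by
        rw [← AlgEquiv.mul_apply, mul_inv_cancel]; rfl
      have h3 : φ⁻¹ (φ (g (φ⁻¹ y))) = g (φ⁻¹ y) := by
        rw [← AlgEquiv.mul_apply, inv_mul_cancel]; rfl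
      rw [h3]
    rw [h2, h1, map_mul]
  · rw [norm_algEquiv_padicAlgCl]; exact hya

/-- change of level -/
theorem isKumVal_succ {n : ℕ} {F : GP → Ω} {a : ℤ} (h : IsKumVal n F a) : IsKumVal (n + 1) F (p * a) := by
  obtain ⟨y, hy0, hy, hya⟩ := h
  refine ⟨y, hy0, hy, ?_⟩
  rw [pow_succ, pow_mul, hya, ← zpow_natCast, ← zpow_mul]
  congr 1; ring

/-- coboundaries of elements of norm one have valuation `0` -/
theorem isKumVal_cob (n : ℕ) {u : Ω} (hu : ‖u‖ = 1) :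
    IsKumVal n (fun g => g u / u) 0 := by
  have hu0 : u ≠ 0 := by
    intro h0; rw [h0, norm_zero] at hu; exact zero_ne_one hu
  refine ⟨u, hu0, fun g _ => ?_, ?_⟩
  · field_simp
  · rw [hu, one_pow, neg_zero, zpow_zero]

end Fermat.Agent.ML.KP

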