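/-
PROJECT ML (S59) — [LOC-L] at `p`, lead: **the valuation coordinate of a cocycle on the inertia group**
`I = unrInertia p ≤ GP = Gal(ℚ̄_p / ℚ_p)` with values in a finite abelian group `M` killed by `p ^ n`
on which `I` acts through the cyclotomic character.

* `ActsOnMu n g a` : `g` acts on `μ_{p^n}` by the `a`-th power; `exists_actsOnMu`.
* `zetaSys n` : a compatible system of primitive `p ^ n`-th roots of unity.
* `IsInertiaCocycle n β` : `β : GP → M`, `β (g h) = β g + ε(g) β h` on `I`, finite level.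
* `kumC hβ : M` : the element with `ψ (kumC) = ζ_n ^ a` whenever the Kummer generator of the
  cocycle `ψ ∘ β : I → μ_{p^n}` has valuation `a` (`IsKumVal`), for all characters `ψ` of `M`
  (double duality).  `kumC_spec`, `kumC_unique`, `kumC_map` (functoriality), `kumC_add`,
  `kumC_of_cob`, `kumC_succ` (change of level), and
* `kumC_conj` : **(K-p), abstract form**: if `φ ∈ GP`, `D : M →+ M` and `m₀ : M` satisfy
  `b • β (φ g φ⁻¹) = D (β g) + m₀ - ε(g) m₀` (`φ⁻¹` acting on `μ_{p^n}` by the `b`-th power) then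
  `D (kumC) = kumC`.
-/
import Mathlib
import Fermat.Agent.ML.KP_lead_KumVal

set_option autoImplicit false
set_option linter.unusedSectionVars false
set_option linter.unusedVariables false
set_option linter.style.haveILetI false

namespace Fermat.Agent.ML.KP

open Fermat.Agent.TW Multiplicative

variable {p : ℕ} [hp : Fact p.Prime]

local notation "Ω" => PadicAlgCl p
local notation "GP" => (PadicAlgCl p ≃ₐ[ℚ_[p]] PadicAlgCl p)

/-! ### the action on roots of unity -/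

/-- `g` acts on the `p ^ n`-th roots of unity by the `a`-th power -/
def ActsOnMu (n : ℕ) (g : GP) (a : ℕ) : Prop := ∀ ζ : Ω, ζ ^ (p ^ n) = 1 → g ζ = ζ ^ a

theorem exists_primitiveRoot_padicAlgCl (N : ℕ) (hN : N ≠ 0) : ∃ ζ : Ω, IsPrimitiveRoot ζ N := by
  haveI : NeZero N := ⟨hN⟩
  exact HasEnoughRootsOfUnity.exists_primitiveRoot Ω N

theorem exists_actsOnMu (n : ℕ) (g : GP) : ∃ a : ℕ, ActsOnMu (p := p) n g a := by
  obtain ⟨ζ₀, hζ₀⟩ := exists_primitiveRoot_padicAlgCl (p := p) (p ^ n) (pow_ne_zero n hp.out.ne_zero)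
  have h1 : (g ζ₀) ^ (p ^ n) = 1 := by rw [← map_pow, hζ₀.pow_eq_one, map_one]
  obtain ⟨a, -, ha⟩ := hζ₀.eq_pow_of_pow_eq_one h1
  refine ⟨a, fun ζ hζ => ?_⟩
  obtain ⟨i, -, rfl⟩ := hζ₀.eq_pow_of_pow_eq_one hζ
  rw [map_pow, ← ha, ← pow_mul, ← pow_mul, mul_comm]

theorem ActsOnMu.one (n : ℕ) : ActsOnMu (p := p) n 1 1 := fun ζ _ => by simp

theorem ActsOnMu.mul {n : ℕ} {g h : GP} {a b : ℕ} (hg : ActsOnMu n g a) (hh : ActsOnMu n h b) :
    ActsOnMu n (g * h) (a * b) := by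
  intro ζ hζ
  rw [AlgEquiv.mul_apply, hh ζ hζ, map_pow, hg ζ hζ, ← pow_mul]

/-- two exponents of the same element are congruent modulo `p ^ n` -/
theorem ActsOnMu.modEq {n : ℕ} {g : GP} {a b : ℕ} (ha : ActsOnMu n g a) (hb : ActsOnMu n g b) :
    a ≡ b [MOD p ^ n] := by
  obtain ⟨ζ₀, hζ₀⟩ := exists_primitiveRoot_padicAlgCl (p := p) (p ^ n) (pow_ne_zero n hp.out.ne_zero)
  have h1 : ζ₀ ^ a = ζ₀ ^ b := by rw [← ha ζ₀ hζ₀.pow_eq_one, ← hb ζ₀ hζ₀.pow_eq_one]
  have hfin : IsOfFinOrder ζ₀ :=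
    isOfFinOrder_iff_pow_eq_one.2 ⟨p ^ n, pow_pos hp.out.pos n, hζ₀.pow_eq_one⟩
  have h2 := hfin.pow_eq_pow_iff_modEq.1 h1
  rwa [← hζ₀.eq_orderOf] at h2

/-! ### a compatible system of roots of unity -/

theorem exists_pow_p_eq (x : Ω) : ∃ y : Ω, y ^ p = x :=
  IsAlgClosed.exists_pow_nat_eq x hp.out.pos

/-- a compatible system of primitive `p ^ n`-th roots of unity -/
noncomputable def zetaSys : ℕ → Ω
  | 0 => 1
  | (n + 1) =>
    if n = 0 then (exists_primitiveRoot_padicAlgCl (p := p) p hp.out.ne_zero).choose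
    else (exists_pow_p_eq (zetaSys n)).choose

@[simp] theorem zetaSys_zero : zetaSys (p := p) 0 = 1 := rfl

theorem zetaSys_one : IsPrimitiveRoot (zetaSys (p := p) 1) p := by
  have : zetaSys (p := p) 1 =
      (exists_primitiveRoot_padicAlgCl (p := p) p hp.out.ne_zero).choose := by
    simp [zetaSys]
  rw [this]
  exact (exists_primitiveRoot_padicAlgCl (p := p) p hp.out.ne_zero).choose_spec

theorem zetaSys_succ_pow (n : ℕ) : zetaSys (p := p) (n + 1) ^ p = zetaSys n := by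
  rcases Nat.eq_zero_or_pos n with rfl | hn
  · rw [zetaSys_zero]
    exact zetaSys_one.pow_eq_one
  · have : zetaSys (p := p) (n + 1) = (exists_pow_p_eq (zetaSys n)).choose := by
      rw [zetaSys, if_neg hn.ne']
    rw [this]
    exact (exists_pow_p_eq (zetaSys n)).choose_spec

theorem zetaSys_isPrimitiveRoot (n : ℕ) : IsPrimitiveRoot (zetaSys (p := p) n) (p ^ n) := by
  induction n with
  | zero => simp
  | succ n ih =>
    rcases Nat.eq_zero_or_pos n with rfl | hn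
    · simpa using zetaSys_one (p := p)
    · have h1 : zetaSys (p := p) (n + 1) ^ p ^ (n + 1) = 1 := by
        rw [pow_succ', pow_mul, zetaSys_succ_pow, ih.pow_eq_one]
      have h2 : ¬ zetaSys (p := p) (n + 1) ^ p ^ n = 1 := by
        obtain ⟨k, rfl⟩ := Nat.exists_eq_succ_of_ne_zero hn.ne'
        rw [pow_succ', pow_mul, zetaSys_succ_pow]
        exact ih.pow_ne_one_of_pos_of_lt (pow_pos hp.out.pos k).ne'
          (Nat.pow_lt_pow_right hp.out.one_lt (Nat.lt_succ_self k))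
      have h3 := orderOf_eq_prime_pow h2 h1
      rw [← h3]
      exact IsPrimitiveRoot.orderOf _

theorem zetaSys_ne_zero (n : ℕ) : zetaSys (p := p) n ≠ 0 :=
  (zetaSys_isPrimitiveRoot n).ne_zero (pow_ne_zero n hp.out.ne_zero)

/-- the system as units -/
noncomputable def zetaUnit (n : ℕ) : Ωˣ := Units.mk0 (zetaSys n) (zetaSys_ne_zero n)

@[simp] theorem zetaUnit_val (n : ℕ) : (zetaUnit (p := p) n : Ω) = zetaSys n := rfl

theorem zetaUnit_pow (n : ℕ) : zetaUnit (p := p) n ^ (p ^ n) = 1 := by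
  ext
  simp [(zetaSys_isPrimitiveRoot (p := p) n).pow_eq_one]

theorem zetaUnit_succ_pow (n : ℕ) : zetaUnit (p := p) (n + 1) ^ p = zetaUnit n := by
  ext
  simp [zetaSys_succ_pow]

theorem zetaUnit_zpow_eq_one_iff (n : ℕ) (a : ℤ) :
    zetaUnit (p := p) n ^ a = 1 ↔ ((p : ℤ) ^ n) ∣ a := by
  have h := (zetaSys_isPrimitiveRoot (p := p) n)
  have h' : IsPrimitiveRoot (zetaUnit (p := p) n) (p ^ n) := by
    rw [← IsPrimitiveRoot.coe_units_iff]
    exact h
  rw [h'.zpow_eq_one_iff_dvd]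
  push_cast
  rfl

theorem zetaUnit_zpow_eq_iff (n : ℕ) (a b : ℤ) :
    zetaUnit (p := p) n ^ a = zetaUnit n ^ b ↔ ((p : ℤ) ^ n) ∣ a - b := by
  rw [← zetaUnit_zpow_eq_one_iff, zpow_sub, mul_inv_eq_one]

/-! ### finite Galois levels -/

/-- every finite level is contained in a finite Galois level containing a given finite set -/
theorem exists_finite_galois_ge (L₀ : IntermediateField ℚ_[p] Ω) [FiniteDimensional ℚ_[p] L₀]
    (S : Finset Ω) :
    ∃ L : IntermediateField ℚ_[p] Ω, FiniteDimensional ℚ_[p] L ∧ IsGalois ℚ_[p] L ∧ L₀ ≤ L ∧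
      ∀ s ∈ S, s ∈ L := by
  classical
  haveI : FiniteDimensional ℚ_[p] (IntermediateField.adjoin ℚ_[p] (S : Set Ω)) :=
    IntermediateField.finiteDimensional_adjoin
      (fun x _ => (Algebra.IsAlgebraic.isAlgebraic x).isIntegral)
  set L₁ : IntermediateField ℚ_[p] Ω := L₀ ⊔ IntermediateField.adjoin ℚ_[p] (S : Set Ω) with hL₁
  haveI : FiniteDimensional ℚ_[p] L₁ := IntermediateField.finiteDimensional_sup _ _
  refine ⟨IntermediateField.normalClosure ℚ_[p] L₁ Ω, normalClosure.is_finiteDimensional _ _ _,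
    ?_, ?_, ?_⟩
  · haveI : Normal ℚ_[p] (IntermediateField.normalClosure ℚ_[p] L₁ Ω) :=
      normalClosure.normal _ _ _
    exact IsGalois.mk
  · exact le_trans le_sup_left (IntermediateField.le_normalClosure L₁)
  · intro s hs
    exact IntermediateField.le_normalClosure L₁
      (le_sup_right (a := L₀) (IntermediateField.subset_adjoin ℚ_[p] _ hs))

/-! ### cocycles on the inertia group -/

/-- **a cocycle on the inertia group** with values in a group killed by `p ^ n`, for the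
cyclotomic action, factoring through a finite level. -/
structure IsInertiaCocycle (n : ℕ) {M : Type*} [AddCommGroup M] (β : GP → M) : Prop where
  pow_smul : ∀ x : M, (p ^ n) • x = 0
  map_mul : ∀ g ∈ unrInertia p, ∀ h ∈ unrInertia p, ∀ a : ℕ, ActsOnMu n g a →
    β (g * h) = β g + a • β h
  level : ∃ L : IntermediateField ℚ_[p] Ω, FiniteDimensional ℚ_[p] L ∧
    ∀ g ∈ unrInertia p, (∀ z ∈ L, g z = z) → β g = 0

section Coc

variable {n : ℕ} {M : Type*} [AddCommGroup M]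
  {β : (PadicAlgCl p ≃ₐ[ℚ_[p]] PadicAlgCl p) → M}

/-- the cocycle `ψ ∘ β` with values in `μ_{p^n}` -/
noncomputable def chi (ψ : Multiplicative M →* Ωˣ) (β : GP → M) : GP → Ω :=
  fun g => ((ψ (ofAdd (β g)) : Ωˣ) : Ω)

theorem chi_pow (hβ : IsInertiaCocycle n β) (ψ : Multiplicative M →* Ωˣ) (g : GP) :
    chi ψ β g ^ (p ^ n) = 1 := by
  unfold chi
  rw [← Units.val_pow_eq_pow_val, ← map_pow, ← ofAdd_nsmul, hβ.pow_smul, ofAdd_zero, map_one,
    Units.val_one]

theorem psi_nsmul (ψ : Multiplicative M →* Ωˣ) (a : ℕ) (x : M) :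
    ((ψ (ofAdd (a • x)) : Ωˣ) : Ω) = ((ψ (ofAdd x) : Ωˣ) : Ω) ^ a := by
  rw [ofAdd_nsmul, map_pow, Units.val_pow_eq_pow_val]

theorem chi_mul (hβ : IsInertiaCocycle n β) (ψ : Multiplicative M →* Ωˣ)
    (g : GP) (hg : g ∈ unrInertia p) (h : GP) (hh : h ∈ unrInertia p) :
    chi ψ β (g * h) = chi ψ β g * g (chi ψ β h) := by
  obtain ⟨a, ha⟩ := exists_actsOnMu (p := p) n g
  unfold chi
  have h1 := ha _ (chi_pow hβ ψ h)
  unfold chi at h1
  rw [hβ.map_mul g hg h hh a ha, ofAdd_add, map_mul, Units.val_mul, psi_nsmul, h1]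

theorem IsInertiaCocycle.exists_isKumVal (hβ : IsInertiaCocycle n β)
    (ψ : Multiplicative M →* Ωˣ) : ∃ a : ℤ, IsKumVal n (chi ψ β) a := by
  classical
  obtain ⟨L₀, hL₀, hL₀β⟩ := hβ.level
  obtain ⟨L, hLfin, hLgal, hL₀L, hLζ⟩ := exists_finite_galois_ge L₀ {zetaSys (p := p) n}
  refine KP.exists_isKumVal n L (chi ψ β) (fun g _ => chi_pow hβ ψ g) ?_
    (fun g hg h hh => chi_mul hβ ψ g hg h hh) ?_
  · intro g _
    obtain ⟨i, -, hi⟩ := (zetaSys_isPrimitiveRoot (p := p) n).eq_pow_of_pow_eq_one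
      (chi_pow hβ ψ g)
    rw [← hi]
    exact pow_mem (hLζ _ (Finset.mem_singleton_self _)) i
  · intro g hg hfix
    have : β g = 0 := hL₀β g hg (fun z hz => hfix z (hL₀L hz))
    unfold chi
    rw [this, ofAdd_zero, map_one, Units.val_one]

/-- the valuation of the Kummer generator of `ψ ∘ β` (a choice, well defined modulo `p ^ n`) -/
noncomputable def kumExp (hβ : IsInertiaCocycle n β) (ψ : Multiplicative M →* Ωˣ) : ℤ :=
  (hβ.exists_isKumVal ψ).choose

theorem kumExp_spec (hβ : IsInertiaCocycle n β) (ψ : Multiplicative M →* Ωˣ) :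
    IsKumVal n (chi ψ β) (kumExp hβ ψ) := (hβ.exists_isKumVal ψ).choose_spec

theorem zetaUnit_zpow_kumExp (hβ : IsInertiaCocycle n β) (ψ : Multiplicative M →* Ωˣ) {a : ℤ}
    (ha : IsKumVal n (chi ψ β) a) : zetaUnit (p := p) n ^ kumExp hβ ψ = zetaUnit n ^ a := by
  rw [zetaUnit_zpow_eq_iff]
  exact isKumVal_dvd_sub (kumExp_spec hβ ψ) ha

theorem isKumVal_one (n : ℕ) : IsKumVal (p := p) n (fun _ => (1 : Ω)) 0 := by
  refine ⟨1, one_ne_zero, fun g _ => by simp, ?_⟩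
  simp

/-- the character `ψ ↦ ζ_n ^ (valuation of the Kummer generator of ψ ∘ β)` of the dual group -/
noncomputable def kumChar (hβ : IsInertiaCocycle n β) : (Multiplicative M →* Ωˣ) →* Ωˣ where
  toFun ψ := zetaUnit (p := p) n ^ kumExp hβ ψ
  map_one' := by
    have h1 : IsKumVal n (chi (1 : Multiplicative M →* Ωˣ) β) 0 := by
      have : chi (1 : Multiplicative M →* Ωˣ) β = fun _ => (1 : Ω) := by
        funext g; simp [chi]
      rw [this]
      exact isKumVal_one n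
    rw [zetaUnit_zpow_kumExp hβ 1 h1, zpow_zero]
  map_mul' ψ ψ' := by
    have h1 : IsKumVal n (chi (ψ * ψ') β) (kumExp hβ ψ + kumExp hβ ψ') := by
      have : chi (ψ * ψ') β = fun g => chi ψ β g * chi ψ' β g := by
        funext g; simp [chi]
      rw [this]
      exact isKumVal_mul (kumExp_spec hβ ψ) (kumExp_spec hβ ψ')
    rw [zetaUnit_zpow_kumExp hβ _ h1, zpow_add]

variable [Finite M]

instance hasEnoughRootsOfUnity_padicAlgCl_exponent :
    HasEnoughRootsOfUnity Ω (Monoid.exponent (Multiplicative M)) := by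
  haveI : NeZero (Monoid.exponent (Multiplicative M)) := ⟨Monoid.exponent_ne_zero_of_finite⟩
  infer_instance

/-- **the valuation coordinate of the cocycle `β`** -/
noncomputable def kumC (hβ : IsInertiaCocycle n β) : M :=
  toAdd (CommGroup.monoidHomMonoidHomEquiv (Multiplicative M) Ω (kumChar hβ))

theorem kumC_spec (hβ : IsInertiaCocycle n β) (ψ : Multiplicative M →* Ωˣ) {a : ℤ}
    (ha : IsKumVal n (chi ψ β) a) : ψ (ofAdd (kumC hβ)) = zetaUnit (p := p) n ^ a := by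
  unfold kumC
  rw [ofAdd_toAdd, CommGroup.apply_monoidHomMonoidHomEquiv]
  exact zetaUnit_zpow_kumExp hβ ψ ha

/-- characters separate the points of `M` -/
theorem eq_of_forall_psi_eq (p : ℕ) [Fact p.Prime] {M : Type*} [AddCommGroup M] [Finite M] {x y : M}
    (h : ∀ ψ : Multiplicative M →* (PadicAlgCl p)ˣ, ψ (ofAdd x) = ψ (ofAdd y)) : x = y := by
  have := (CommGroup.forall_apply_eq_apply_iff (G := Multiplicative M) (M := PadicAlgCl p)
    (g := ofAdd x) (g' := ofAdd y)).1 h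
  exact Multiplicative.ofAdd.injective this

theorem kumC_unique (hβ : IsInertiaCocycle n β) (x : M)
    (hx : ∀ ψ : Multiplicative M →* Ωˣ, ∃ a : ℤ, IsKumVal n (chi ψ β) a ∧
      ψ (ofAdd x) = zetaUnit (p := p) n ^ a) : x = kumC hβ := by
  apply eq_of_forall_psi_eq p
  intro ψ
  obtain ⟨a, ha, hxa⟩ := hx ψ
  rw [hxa, kumC_spec hβ ψ ha]

theorem kumC_eq_zero_iff (hβ : IsInertiaCocycle n β) :
    kumC hβ = 0 ↔ ∀ (ψ : Multiplicative M →* Ωˣ) (a : ℤ), IsKumVal n (chi ψ β) a →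
      ((p : ℤ) ^ n) ∣ a := by
  constructor
  · intro h0 ψ a ha
    have := kumC_spec hβ ψ ha
    rw [h0, ofAdd_zero, map_one] at this
    exact (zetaUnit_zpow_eq_one_iff n a).1 this.symm
  · intro h
    symm
    apply kumC_unique hβ 0
    intro ψ
    refine ⟨kumExp hβ ψ, kumExp_spec hβ ψ, ?_⟩
    rw [ofAdd_zero, map_one]
    exact ((zetaUnit_zpow_eq_one_iff n _).2 (h ψ _ (kumExp_spec hβ ψ))).symm

end Coc

/-! ### functoriality -/

section Functor

variable {n : ℕ} {M M' : Type*} [AddCommGroup M] [AddCommGroup M']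
  {β β₁ β₂ : (PadicAlgCl p ≃ₐ[ℚ_[p]] PadicAlgCl p) → M}

theorem IsInertiaCocycle.comp (hβ : IsInertiaCocycle n β) (f : M →+ M')
    (hM' : ∀ x : M', (p ^ n) • x = 0) : IsInertiaCocycle n (fun g => f (β g)) where
  pow_smul := hM'
  map_mul g hg h hh a ha := by
    show f (β (g * h)) = f (β g) + a • f (β h)
    rw [hβ.map_mul g hg h hh a ha, map_add, map_nsmul]
  level := by
    obtain ⟨L, hL, hLβ⟩ := hβ.level
    exact ⟨L, hL, fun g hg hfix => by rw [hLβ g hg hfix, map_zero]⟩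

theorem IsInertiaCocycle.add (h₁ : IsInertiaCocycle n β₁) (h₂ : IsInertiaCocycle n β₂) :
    IsInertiaCocycle n (fun g => β₁ g + β₂ g) where
  pow_smul := h₁.pow_smul
  map_mul g hg h hh a ha := by
    show β₁ (g * h) + β₂ (g * h) = β₁ g + β₂ g + a • (β₁ h + β₂ h)
    rw [h₁.map_mul g hg h hh a ha, h₂.map_mul g hg h hh a ha, smul_add]
    abel
  level := by
    classical
    obtain ⟨L₁, hL₁, hLβ₁⟩ := h₁.level
    obtain ⟨L₂, hL₂, hLβ₂⟩ := h₂.level
    haveI := hL₁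
    haveI := hL₂
    refine ⟨L₁ ⊔ L₂, IntermediateField.finiteDimensional_sup _ _, fun g hg hfix => ?_⟩
    rw [hLβ₁ g hg (fun z hz => hfix z (le_sup_left (a := L₁) hz)),
      hLβ₂ g hg (fun z hz => hfix z (le_sup_right (a := L₁) hz)), add_zero]

theorem IsInertiaCocycle.congr (hβ : IsInertiaCocycle n β₁)
    (h : ∀ g ∈ unrInertia p, β₁ g = β₂ g) : IsInertiaCocycle n β₂ where
  pow_smul := hβ.pow_smul
  map_mul g hg h' hh a ha := by
    rw [← h g hg, ← h h' hh, ← h _ (Subgroup.mul_mem _ hg hh)]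
    exact hβ.map_mul g hg h' hh a ha
  level := by
    obtain ⟨L, hL, hLβ⟩ := hβ.level
    exact ⟨L, hL, fun g hg hfix => by rw [← h g hg, hLβ g hg hfix]⟩

variable [Finite M] [Finite M']

/-- **functoriality** of the valuation coordinate -/
theorem kumC_map (hβ : IsInertiaCocycle n β) (f : M →+ M')
    (hβ' : IsInertiaCocycle n (fun g => f (β g))) : kumC hβ' = f (kumC hβ) := by
  symm
  apply kumC_unique hβ'
  intro ψ'
  set ψ : Multiplicative M →* Ωˣ := ψ'.comp (AddMonoidHom.toMultiplicative f) with hψ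
  have hchi : chi ψ' (fun g => f (β g)) = chi ψ β := by
    funext g
    simp [chi, hψ]
  refine ⟨kumExp hβ ψ, ?_, ?_⟩
  · rw [hchi]
    exact kumExp_spec hβ ψ
  · have := kumC_spec hβ ψ (kumExp_spec hβ ψ)
    rw [← this, hψ]
    simp

theorem kumC_congr (h₁ : IsInertiaCocycle n β₁) (h₂ : IsInertiaCocycle n β₂)
    (h : ∀ g ∈ unrInertia p, β₁ g = β₂ g) : kumC h₁ = kumC h₂ := by
  apply kumC_unique h₂
  intro ψ
  refine ⟨kumExp h₁ ψ, ?_, kumC_spec h₁ ψ (kumExp_spec h₁ ψ)⟩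
  refine isKumVal_congr (kumExp_spec h₁ ψ) (fun g hg => ?_)
  simp only [chi, h g hg]

theorem kumC_add (h₁ : IsInertiaCocycle n β₁) (h₂ : IsInertiaCocycle n β₂)
    (h₁₂ : IsInertiaCocycle n (fun g => β₁ g + β₂ g)) :
    kumC h₁₂ = kumC h₁ + kumC h₂ := by
  symm
  apply kumC_unique h₁₂
  intro ψ
  refine ⟨kumExp h₁ ψ + kumExp h₂ ψ, ?_, ?_⟩
  · have : chi ψ (fun g => β₁ g + β₂ g) = fun g => chi ψ β₁ g * chi ψ β₂ g := by
      funext g; simp [chi]
    rw [this]
    exact isKumVal_mul (kumExp_spec h₁ ψ) (kumExp_spec h₂ ψ)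
  · rw [ofAdd_add, map_mul, kumC_spec h₁ ψ (kumExp_spec h₁ ψ),
      kumC_spec h₂ ψ (kumExp_spec h₂ ψ), zpow_add]

/-- a root of unity of `p`-power order in the image of a character has norm one -/
theorem norm_psi_eq_one (hM : ∀ x : M, (p ^ n) • x = 0) (ψ : Multiplicative M →* Ωˣ) (x : M) :
    ‖((ψ (ofAdd x) : Ωˣ) : Ω)‖ = 1 := by
  apply norm_eq_one_of_pow_eq_one (pow_pos hp.out.pos n)
  rw [← Units.val_pow_eq_pow_val, ← map_pow, ← ofAdd_nsmul, hM, ofAdd_zero, map_one,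
    Units.val_one]

/-- coboundaries have valuation coordinate `0` -/
theorem kumC_of_cob (hβ : IsInertiaCocycle n β) (x : M)
    (hx : ∀ g ∈ unrInertia p, ∀ a : ℕ, ActsOnMu n g a → β g = a • x - x) : kumC hβ = 0 := by
  symm
  apply kumC_unique hβ
  intro ψ
  refine ⟨0, ?_, by simp⟩
  have hξ := norm_psi_eq_one hβ.pow_smul ψ x
  refine isKumVal_congr (isKumVal_cob n hξ) (fun g hg => ?_)
  obtain ⟨a, ha⟩ := exists_actsOnMu (p := p) n g
  have hξpow : ((ψ (ofAdd x) : Ωˣ) : Ω) ^ (p ^ n) = 1 := by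
    rw [← Units.val_pow_eq_pow_val, ← map_pow, ← ofAdd_nsmul, hβ.pow_smul, ofAdd_zero, map_one,
      Units.val_one]
  show g ((ψ (ofAdd x) : Ωˣ) : Ω) / ((ψ (ofAdd x) : Ωˣ) : Ω) = chi ψ β g
  unfold chi
  rw [hx g hg a ha, ha _ hξpow, ofAdd_sub, map_div, Units.val_div_eq_div_val, psi_nsmul]

/-- change of level -/
theorem kumC_succ (hβ : IsInertiaCocycle n β) (hβ' : IsInertiaCocycle (n + 1) β) :
    kumC hβ' = kumC hβ := by
  symm
  apply kumC_unique hβ'
  intro ψ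
  refine ⟨p * kumExp hβ ψ, isKumVal_succ (kumExp_spec hβ ψ), ?_⟩
  rw [kumC_spec hβ ψ (kumExp_spec hβ ψ), ← zetaUnit_succ_pow, ← zpow_natCast, ← zpow_mul]

/-- **(K-p), abstract form.** -/
theorem kumC_conj (hβ : IsInertiaCocycle n β) (φ : PadicAlgCl p ≃ₐ[ℚ_[p]] PadicAlgCl p) (b : ℕ)
    (hb : ActsOnMu n φ⁻¹ b) (D : M →+ M) (m₀ : M)
    (hconj : ∀ g ∈ unrInertia p, ∀ a : ℕ, ActsOnMu n g a →
      b • β (φ * g * φ⁻¹) = D (β g) + m₀ - a • m₀) :
    D (kumC hβ) = kumC hβ := by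
  apply kumC_unique hβ
  intro ψ
  set ψD : Multiplicative M →* Ωˣ := ψ.comp (AddMonoidHom.toMultiplicative D) with hψD
  refine ⟨kumExp hβ ψ, kumExp_spec hβ ψ, ?_⟩
  have key : IsKumVal n (chi ψD β) (kumExp hβ ψ) := by
    have h1 := isKumVal_conj (kumExp_spec hβ ψ) φ
    have hξ := norm_psi_eq_one hβ.pow_smul ψ m₀
    have h2 := isKumVal_mul h1 (isKumVal_cob n hξ)
    rw [add_zero] at h2
    refine isKumVal_congr h2 (fun g hg => ?_)
    obtain ⟨a, ha⟩ := exists_actsOnMu (p := p) n g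
    have hξpow : ((ψ (ofAdd m₀) : Ωˣ) : Ω) ^ (p ^ n) = 1 := by
      rw [← Units.val_pow_eq_pow_val, ← map_pow, ← ofAdd_nsmul, hβ.pow_smul, ofAdd_zero, map_one,
        Units.val_one]
    have hξ0 : ((ψ (ofAdd m₀) : Ωˣ) : Ω) ≠ 0 := Units.ne_zero _
    show φ⁻¹ (chi ψ β (φ * g * φ⁻¹)) * (g ((ψ (ofAdd m₀) : Ωˣ) : Ω) / ((ψ (ofAdd m₀) : Ωˣ) : Ω)) =
      chi ψD β g
    rw [hb _ (chi_pow hβ ψ _), ha _ hξpow]
    unfold chi
    rw [← psi_nsmul, hconj g hg a ha, hψD]
    simp only [MonoidHom.coe_comp, Function.comp_apply, AddMonoidHom.toMultiplicative_apply_apply,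
      toAdd_ofAdd]
    rw [ofAdd_sub, ofAdd_add, map_div, map_mul, Units.val_div_eq_div_val, Units.val_mul, psi_nsmul]
    field_simp
  have := kumC_spec hβ ψD key
  rw [← this, hψD]
  simp

end Functor

end Fermat.Agent.ML.KP
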