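/-
PROJECT ML (S59) — [LOC-L] at `p`, lead: **the valuation coordinate `c` of an ordinary local
representation and the relation (K-p)**.

`OrdLoc T p`: upper triangular local data `g ↦ [[a g, b g], [0, d g]]` on `GP = Gal(ℚ̄_p / ℚ_p)` over
a complete noetherian local ring `T` (finite residue field of characteristic `p`): `a, d`
multiplicative, `d` unramified, `a d` = cyclotomic character, continuous.
`β = b / d` is a cocycle for `χ = a / d`; modulo `𝔪 ^ n` and on the inertia group `χ` is the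
cyclotomic character, so `KP.kumC` gives `c_n ∈ T ⧸ 𝔪 ^ n`; they are compatible and define
`D.c ∈ T` (`OrdLoc.exists_c`), with

  **(K-p)**  `(d φ ^ 2 - 1) * c = 0` for every `φ ∈ GP`.
-/
import Mathlib
import Fermat.Agent.ML.KP_lead_KumC

set_option autoImplicit false
set_option linter.unusedSectionVars false
set_option linter.unusedVariables false
set_option linter.style.haveILetI false

namespace Fermat.Agent.ML.KP

open Fermat.Agent.TW IsLocalRing

variable {p : ℕ} [hp : Fact p.Prime]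

local notation "Ω" => PadicAlgCl p
local notation "GP" => (PadicAlgCl p ≃ₐ[ℚ_[p]] PadicAlgCl p)

/-- **upper triangular local data at `p`** -/
structure OrdLoc (T : Type) [CommRing T] [IsLocalRing T] (p : ℕ) [Fact p.Prime] where
  a : (PadicAlgCl p ≃ₐ[ℚ_[p]] PadicAlgCl p) → T
  b : (PadicAlgCl p ≃ₐ[ℚ_[p]] PadicAlgCl p) → T
  d : (PadicAlgCl p ≃ₐ[ℚ_[p]] PadicAlgCl p) → T
  a_one : a 1 = 1
  d_one : d 1 = 1
  a_mul : ∀ g h, a (g * h) = a g * a h
  d_mul : ∀ g h, d (g * h) = d g * d h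
  b_mul : ∀ g h, b (g * h) = a g * b h + b g * d h
  d_inertia : ∀ g ∈ unrInertia p, d g = 1
  det_cyc : ∀ (n : ℕ) (g : PadicAlgCl p ≃ₐ[ℚ_[p]] PadicAlgCl p) (e : ℕ), ActsOnMu n g e →
    a g * d g - (e : T) ∈ Ideal.span {((p ^ n : ℕ) : T)}
  cont : ∀ n : ℕ, ∃ L : IntermediateField ℚ_[p] (PadicAlgCl p), FiniteDimensional ℚ_[p] L ∧
    ∀ g : PadicAlgCl p ≃ₐ[ℚ_[p]] PadicAlgCl p, (∀ z ∈ L, g z = z) →
      a g - 1 ∈ maximalIdeal T ^ n ∧ b g ∈ maximalIdeal T ^ n ∧ d g - 1 ∈ maximalIdeal T ^ n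

namespace OrdLoc

variable {T : Type} [CommRing T] [IsLocalRing T] (D : OrdLoc T p)

theorem a_mul_inv (g : GP) : D.a g * D.a g⁻¹ = 1 := by
  rw [← D.a_mul, mul_inv_cancel, D.a_one]

theorem d_mul_inv (g : GP) : D.d g * D.d g⁻¹ = 1 := by
  rw [← D.d_mul, mul_inv_cancel, D.d_one]

theorem isUnit_a (g : GP) : IsUnit (D.a g) := IsUnit.of_mul_eq_one _ (D.a_mul_inv g)

theorem isUnit_d (g : GP) : IsUnit (D.d g) := IsUnit.of_mul_eq_one _ (D.d_mul_inv g)

theorem b_one : D.b 1 = 0 := by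
  have := D.b_mul 1 1
  rw [mul_one, D.a_one, D.d_one, one_mul, mul_one] at this
  exact left_eq_add.mp this

/-- the cocycle `β = b / d` -/
noncomputable def beta (g : GP) : T := D.b g * D.d g⁻¹

/-- the character `χ = a / d` -/
noncomputable def chiT (g : GP) : T := D.a g * D.d g⁻¹

theorem beta_mul (g h : GP) : D.beta (g * h) = D.beta g + D.chiT g * D.beta h := by
  unfold beta chiT
  rw [D.b_mul, mul_inv_rev, D.d_mul]
  have h1 := D.d_mul_inv h
  have h1' : D.d h⁻¹ * D.d h = 1 := by rw [mul_comm]; exact h1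
  linear_combination (D.b g * D.d g⁻¹) * h1'

theorem beta_one : D.beta 1 = 0 := by
  unfold beta
  rw [D.b_one, zero_mul]

theorem chiT_mul_beta_inv (g : GP) : D.chiT g * D.beta g⁻¹ = -D.beta g := by
  have := D.beta_mul g g⁻¹
  rw [mul_inv_cancel, D.beta_one] at this
  linear_combination -this

/-- the conjugation formula for the cocycle -/
theorem beta_conj (φ g : GP) :
    D.beta (φ * g * φ⁻¹) = D.chiT φ * D.beta g + D.beta φ - D.chiT g * D.beta φ := by
  rw [mul_assoc, D.beta_mul, D.beta_mul]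
  have h1 := D.chiT_mul_beta_inv φ
  linear_combination D.chiT g * h1

variable (hpT : (p : T) ∈ maximalIdeal T)

include hpT in
theorem natCast_pow_mem (n : ℕ) : ((p ^ n : ℕ) : T) ∈ maximalIdeal T ^ n := by
  push_cast
  exact Ideal.pow_mem_pow hpT n

include hpT in
theorem span_le_pow (n : ℕ) : Ideal.span {((p ^ n : ℕ) : T)} ≤ maximalIdeal T ^ n := by
  rw [Ideal.span_singleton_le_iff_mem]
  exact natCast_pow_mem hpT n

/-- on the inertia group `χ` is the cyclotomic character modulo `𝔪 ^ n` -/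
theorem chiT_sub_mem (n : ℕ) (g : GP) (hg : g ∈ unrInertia p) (e : ℕ) (he : ActsOnMu n g e) :
    D.chiT g - (e : T) ∈ Ideal.span {((p ^ n : ℕ) : T)} := by
  have h1 := D.det_cyc n g e he
  have h2 : D.d g = 1 := D.d_inertia g hg
  have h3 : D.d g⁻¹ = 1 := D.d_inertia _ (Subgroup.inv_mem _ hg)
  unfold chiT
  rw [h3, mul_one]
  rwa [h2, mul_one] at h1

/-- the cocycle modulo `𝔪 ^ n` -/
noncomputable def betaN (n : ℕ) (g : GP) : T ⧸ maximalIdeal T ^ n :=
  Ideal.Quotient.mk _ (D.beta g)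

include hpT in
theorem isInertiaCocycle (n : ℕ) : IsInertiaCocycle n (D.betaN n) where
  pow_smul x := by
    obtain ⟨y, rfl⟩ := Ideal.Quotient.mk_surjective x
    rw [← map_nsmul, Ideal.Quotient.eq_zero_iff_mem, nsmul_eq_mul]
    exact Ideal.mul_mem_right _ _ (natCast_pow_mem hpT n)
  map_mul g hg h hh e he := by
    unfold betaN
    rw [D.beta_mul, map_add, ← map_nsmul, nsmul_eq_mul]
    congr 1
    rw [Ideal.Quotient.eq, ← sub_mul]
    exact Ideal.mul_mem_right _ _ (span_le_pow hpT n (D.chiT_sub_mem n g hg e he))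
  level := by
    obtain ⟨L, hL, hLg⟩ := D.cont n
    refine ⟨L, hL, fun g _ hfix => ?_⟩
    unfold betaN beta
    rw [Ideal.Quotient.eq_zero_iff_mem]
    exact Ideal.mul_mem_right _ _ (hLg g hfix).2.1

/-! ### the elements `c_n` and their limit -/

section Limit

variable [IsNoetherianRing T] [Finite (ResidueField T)]

instance finite_quotient_pow' (n : ℕ) : Finite (T ⧸ maximalIdeal T ^ n) := by
  haveI : Finite (T ⧸ maximalIdeal T) := inferInstanceAs (Finite (ResidueField T))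
  exact Ideal.finite_quotient_pow (IsNoetherian.noetherian _) n

/-- the valuation coordinate modulo `𝔪 ^ n` -/
noncomputable def cN (n : ℕ) : T ⧸ maximalIdeal T ^ n := kumC (D.isInertiaCocycle hpT n)

theorem actsOnMu_of_succ {n : ℕ} {g : GP} {e : ℕ} (h : ActsOnMu (n + 1) g e) : ActsOnMu n g e := by
  intro ζ hζ
  apply h
  rw [pow_succ, pow_mul, hζ, one_pow]

/-- compatibility of the `c_n` -/
theorem factor_cN (n : ℕ) :
    Ideal.Quotient.factor (Ideal.pow_le_pow_right (Nat.le_succ n)) (D.cN hpT (n + 1)) =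
      D.cN hpT n := by
  set f : (T ⧸ maximalIdeal T ^ (n + 1)) →+ (T ⧸ maximalIdeal T ^ n) :=
    (Ideal.Quotient.factor (Ideal.pow_le_pow_right (Nat.le_succ n))).toAddMonoidHom with hf
  have hfβ : (fun g => f (D.betaN (n + 1) g)) = D.betaN n := by
    funext g
    simp [hf, betaN]
  -- `betaN n` as a cocycle of level `n + 1`
  have h1 : IsInertiaCocycle (n + 1) (D.betaN n) :=
    { pow_smul := fun x => by
        rw [pow_succ, mul_comm, mul_smul, (D.isInertiaCocycle hpT n).pow_smul, smul_zero]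
      map_mul := fun g hg h hh e he =>
        (D.isInertiaCocycle hpT n).map_mul g hg h hh e (actsOnMu_of_succ he)
      level := (D.isInertiaCocycle hpT n).level }
  have h2 : IsInertiaCocycle (n + 1) (fun g => f (D.betaN (n + 1) g)) := by
    rw [hfβ]; exact h1
  have h3 := kumC_map (D.isInertiaCocycle hpT (n + 1)) f h2
  have h4 : kumC h2 = kumC h1 := kumC_congr h2 h1 (fun g _ => congrFun hfβ g)
  have h5 := kumC_succ (D.isInertiaCocycle hpT n) h1
  show f (D.cN hpT (n + 1)) = D.cN hpT n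
  unfold cN
  rw [← h3, h4, h5]

theorem factor_cN_le {m n : ℕ} (hmn : m ≤ n) :
    Ideal.Quotient.factor (Ideal.pow_le_pow_right hmn) (D.cN hpT n) = D.cN hpT m := by
  induction n, hmn using Nat.le_induction with
  | base => simp
  | succ n hmn ih =>
    rw [← ih, ← D.factor_cN hpT n, Ideal.Quotient.factor_comp_apply]

variable [IsAdicComplete (maximalIdeal T) T]

/-- **the valuation coordinate** exists -/
theorem exists_c : ∃ c : T, ∀ n : ℕ, Ideal.Quotient.mk (maximalIdeal T ^ n) c = D.cN hpT n := by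
  have hpre : IsPrecomplete (maximalIdeal T) T := inferInstance
  choose f hf using fun n => Ideal.Quotient.mk_surjective (D.cN hpT n)
  obtain ⟨c, hc⟩ := hpre.prec (f := f) (by
    intro m n hmn
    rw [SModEq, smul_eq_mul, Ideal.mul_top]
    show Ideal.Quotient.mk _ (f m) = Ideal.Quotient.mk _ (f n)
    rw [hf m, ← D.factor_cN_le hpT hmn, ← hf n, Ideal.Quotient.factor_mk])
  refine ⟨c, fun n => ?_⟩
  have := hc n
  rw [SModEq, smul_eq_mul, Ideal.mul_top] at this
  rw [← hf n]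
  exact this.symm

/-- the valuation coordinate -/
noncomputable def c : T := (D.exists_c hpT).choose

theorem mk_c (n : ℕ) : Ideal.Quotient.mk (maximalIdeal T ^ n) (D.c hpT) = D.cN hpT n :=
  (D.exists_c hpT).choose_spec n

include hpT in
/-- `b' · a(φ) · d(φ) ≡ 1` when `φ⁻¹` acts on `μ_{p^n}` by the `b'`-th power -/
theorem natCast_mul_det_sub_one_mem (n : ℕ) (φ : GP) (b' : ℕ) (hb' : ActsOnMu n φ⁻¹ b') :
    (b' : T) * (D.a φ * D.d φ) - 1 ∈ maximalIdeal T ^ n := by
  obtain ⟨e, he⟩ := exists_actsOnMu (p := p) n φ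
  have h1 : b' * e ≡ 1 [MOD p ^ n] := by
    have h2 : ActsOnMu n (φ⁻¹ * φ) (b' * e) := hb'.mul he
    rw [inv_mul_cancel] at h2
    exact h2.modEq (ActsOnMu.one n)
  have h3 : ((b' * e : ℕ) : T) - ((1 : ℕ) : T) ∈ Ideal.span {((p ^ n : ℕ) : T)} := by
    rw [Ideal.mem_span_singleton]
    have h4 := (Nat.modEq_iff_dvd.1 h1.symm)
    obtain ⟨k, hk⟩ := h4
    refine ⟨(k : T), ?_⟩
    have h5 : (((b' * e : ℕ) : ℤ) : T) - (((1 : ℕ) : ℤ) : T) = (((p ^ n : ℕ) : ℤ) : T) * (k : T) := by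
      rw [← Int.cast_sub, hk, Int.cast_mul]
    simpa using h5
  have h6 := D.det_cyc n φ e he
  have h7 : (b' : T) * (D.a φ * D.d φ) - 1 =
      (b' : T) * (D.a φ * D.d φ - (e : T)) + (((b' * e : ℕ) : T) - ((1 : ℕ) : T)) := by
    push_cast; ring
  rw [h7]
  exact Ideal.add_mem _ (Ideal.mul_mem_left _ _ (span_le_pow hpT n h6)) (span_le_pow hpT n h3)

/-- **(K-p)** -/
theorem kp (φ : GP) : (D.d φ ^ 2 - 1) * D.c hpT = 0 := by
  have hH : IsHausdorff (maximalIdeal T) T := inferInstance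
  apply hH.haus'
  intro n
  rw [SModEq.zero, smul_eq_mul, Ideal.mul_top, ← Ideal.Quotient.eq_zero_iff_mem]
  obtain ⟨b', hb'⟩ := exists_actsOnMu (p := p) n φ⁻¹
  set u : T ⧸ maximalIdeal T ^ n := Ideal.Quotient.mk _ ((b' : T) * D.chiT φ) with hu
  set m₀ : T ⧸ maximalIdeal T ^ n := Ideal.Quotient.mk _ ((b' : T) * D.beta φ) with hm₀
  have hconj : ∀ g ∈ unrInertia p, ∀ e : ℕ, ActsOnMu n g e →
      b' • D.betaN n (φ * g * φ⁻¹) = AddMonoidHom.mulLeft u (D.betaN n g) + m₀ - e • m₀ := by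
    intro g hg e he
    have h1 := D.chiT_sub_mem n g hg e he
    rw [AddMonoidHom.coe_mulLeft, hu, hm₀]
    unfold betaN
    rw [← map_nsmul, ← map_nsmul, ← map_mul, ← map_add, ← map_sub, Ideal.Quotient.eq,
      D.beta_conj, nsmul_eq_mul, nsmul_eq_mul]
    have h2 : (b' : T) * (D.chiT φ * D.beta g + D.beta φ - D.chiT g * D.beta φ) -
        ((b' : T) * D.chiT φ * D.beta g + (b' : T) * D.beta φ - (e : T) * ((b' : T) * D.beta φ)) =
        -((b' : T) * D.beta φ) * (D.chiT g - (e : T)) := by ring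
    rw [h2]
    exact Ideal.mul_mem_left _ _ (span_le_pow hpT n h1)
  have h3 := kumC_conj (D.isInertiaCocycle hpT n) φ b' hb' (AddMonoidHom.mulLeft u) m₀ hconj
  rw [AddMonoidHom.coe_mulLeft] at h3
  have h4 : Ideal.Quotient.mk (maximalIdeal T ^ n) (D.d φ ^ 2) * u = 1 := by
    rw [hu, ← map_mul, ← map_one (Ideal.Quotient.mk (maximalIdeal T ^ n)), Ideal.Quotient.eq]
    have h5 := D.natCast_mul_det_sub_one_mem hpT n φ b' hb'
    have h6 : D.d φ ^ 2 * ((b' : T) * D.chiT φ) - 1 =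
        ((b' : T) * (D.a φ * D.d φ) - 1) + (b' : T) * D.a φ * D.d φ * (D.d φ * D.d φ⁻¹ - 1) := by
      unfold chiT; ring
    rw [h6, D.d_mul_inv, sub_self, mul_zero, add_zero]
    exact h5
  have h7 : Ideal.Quotient.mk (maximalIdeal T ^ n) (D.d φ ^ 2) * D.cN hpT n = D.cN hpT n := by
    have : D.cN hpT n = u * D.cN hpT n := h3.symm
    calc Ideal.Quotient.mk (maximalIdeal T ^ n) (D.d φ ^ 2) * D.cN hpT n
        = Ideal.Quotient.mk (maximalIdeal T ^ n) (D.d φ ^ 2) * (u * D.cN hpT n) := by rw [← this]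
      _ = (Ideal.Quotient.mk (maximalIdeal T ^ n) (D.d φ ^ 2) * u) * D.cN hpT n := by ring
      _ = D.cN hpT n := by rw [h4, one_mul]
  rw [map_mul, map_sub, map_one, D.mk_c hpT n, sub_mul, one_mul, h7, sub_self]

end Limit

end OrdLoc

end Fermat.Agent.ML.KP
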