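/-
PROJECT ML (S59) — [LOC-L] at `p`, lead: **the local triangular data `OrdLoc` of a representation
which is ordinary at `p` with cyclotomic determinant**, in a basis adapted to the ordinary line at the
place `padicPlace p`.

`ordLocOf ρ hdet bb hD hI : OrdLoc T p` with
`ρ (loc g) (bb 0) = a g • bb 0`, `ρ (loc g) (bb 1) = b g • bb 0 + d g • bb 1`
(`loc = localGaloisToGlobal p`).
-/
import Mathlib
import Fermat.Agent.ML.KP_lead_Ord
import Fermat.Agent.CFT.Local.PadicLevels
import Fermat.Prelude.Def_GaloisRep_StrictOrdinary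

set_option autoImplicit false
set_option linter.unusedSectionVars false
set_option linter.unusedVariables false
set_option linter.style.haveILetI false

namespace Fermat.Agent.ML.KP

open Fermat.Agent.TW IsLocalRing Fermat.Agent.CFT.Local

variable {p : ℕ} [hp : Fact p.Prime]

local notation "Ω" => PadicAlgCl p
local notation "GP" => (PadicAlgCl p ≃ₐ[ℚ_[p]] PadicAlgCl p)
local notation "GQ" => (AlgebraicClosure ℚ ≃ₐ[ℚ] AlgebraicClosure ℚ)

/-- local and global actions on roots of unity -/
theorem global_acts_of_actsOnMu {n : ℕ} {g : GP} {e : ℕ} (he : ActsOnMu n g e)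
    (μ : AlgebraicClosure ℚ) (hμ : μ ^ p ^ n = 1) : localGaloisToGlobal p g μ = μ ^ e := by
  apply (padicEmbedding p).injective
  show padicEmbedding p _ = padicEmbedding p _
  rw [padicEmbedding_localGaloisToGlobal, map_pow]
  exact he _ (by rw [← map_pow, hμ, map_one])

section Rep

variable {T : Type} [CommRing T] [IsLocalRing T] (ρ : GaloisRepAdic T)
  (bb : Module.Basis (Fin 2) T ρ.V)

/-- the matrix of `ρ (loc g)` in the basis `bb` -/
noncomputable def locMat (g : PadicAlgCl p ≃ₐ[ℚ_[p]] PadicAlgCl p) : Matrix (Fin 2) (Fin 2) T :=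
  LinearMap.toMatrix bb bb (ρ.ρ (localGaloisToGlobal p g))

theorem locMat_one : locMat (p := p) ρ bb 1 = 1 := by
  unfold locMat
  rw [map_one, map_one]
  exact LinearMap.toMatrix_one bb

theorem locMat_mul (g h : GP) : locMat ρ bb (g * h) = locMat ρ bb g * locMat ρ bb h := by
  unfold locMat
  rw [map_mul, map_mul]
  exact LinearMap.toMatrix_mul bb _ _

theorem locMat_apply (g : GP) (i j : Fin 2) :
    locMat ρ bb g i j = bb.repr (ρ.ρ (localGaloisToGlobal p g) (bb j)) i := by
  unfold locMat
  rw [LinearMap.toMatrix_apply]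

theorem rho_basis (g : GP) (j : Fin 2) :
    ρ.ρ (localGaloisToGlobal p g) (bb j) = locMat ρ bb g 0 j • bb 0 + locMat ρ bb g 1 j • bb 1 := by
  conv_lhs => rw [← bb.sum_repr (ρ.ρ (localGaloisToGlobal p g) (bb j))]
  rw [Fin.sum_univ_two, locMat_apply, locMat_apply]

variable (hD : ∀ σ ∈ (padicPlace p).decompositionSubgroup ℚ, ∀ v ∈ (T ∙ bb 0), ρ.ρ σ v ∈ (T ∙ bb 0))
  (hI : ∀ σ ∈ (padicPlace p).inertiaSubgroupIn ℚ, ∀ v : ρ.V, ρ.ρ σ v - v ∈ (T ∙ bb 0))

include hD in
theorem locMat_one_zero (g : GP) : locMat ρ bb g 1 0 = 0 := by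
  have h1 := hD _ (localGaloisToGlobal_mem_decompositionSubgroup p g) (bb 0)
    (Submodule.mem_span_singleton_self _)
  obtain ⟨c, hc⟩ := Submodule.mem_span_singleton.1 h1
  rw [locMat_apply, ← hc]
  simp

include hI in
theorem locMat_one_one_of_inertia (g : GP) (hg : g ∈ unrInertia p) : locMat ρ bb g 1 1 = 1 := by
  have h1 := hI _ (localGaloisToGlobal_mem_inertiaSubgroupIn g hg) (bb 1)
  obtain ⟨c, hc⟩ := Submodule.mem_span_singleton.1 h1
  have h2 : bb.repr (ρ.ρ (localGaloisToGlobal p g) (bb 1) - bb 1) 1 = 0 := by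
    rw [← hc]; simp
  rw [map_sub, Finsupp.sub_apply, ← locMat_apply] at h2
  simpa [sub_eq_zero] using h2

theorem det_locMat (g : GP) :
    (locMat ρ bb g).det = LinearMap.det (ρ.ρ (localGaloisToGlobal p g)) := by
  unfold locMat
  rw [LinearMap.det_toMatrix]

variable (hdet : ρ.DetIsCyclotomic p)

include hD hI hdet in
/-- **the local triangular data** of an ordinary representation -/
theorem exists_ordLoc : ∃ D : OrdLoc T p, ∀ g : GP,
    ρ.ρ (localGaloisToGlobal p g) (bb 0) = D.a g • bb 0 ∧
    ρ.ρ (localGaloisToGlobal p g) (bb 1) = D.b g • bb 0 + D.d g • bb 1 := by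
  have h10 := locMat_one_zero ρ bb hD
  refine ⟨{
    a := fun g => locMat ρ bb g 0 0
    b := fun g => locMat ρ bb g 0 1
    d := fun g => locMat ρ bb g 1 1
    a_one := by rw [locMat_one]; simp
    d_one := by rw [locMat_one]; simp
    a_mul := fun g h => by
      rw [locMat_mul, Matrix.mul_apply, Fin.sum_univ_two, h10 h, mul_zero, add_zero]
    d_mul := fun g h => by
      rw [locMat_mul, Matrix.mul_apply, Fin.sum_univ_two, h10 g, zero_mul, zero_add]
    b_mul := fun g h => by
      rw [locMat_mul, Matrix.mul_apply, Fin.sum_univ_two]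
    d_inertia := fun g hg => locMat_one_one_of_inertia ρ bb hI g hg
    det_cyc := fun n g e he => by
      have h1 := hdet.2 n (localGaloisToGlobal p g) e (global_acts_of_actsOnMu he)
      rw [← det_locMat ρ bb g, Matrix.det_fin_two, h10 g, mul_zero, sub_zero] at h1
      exact h1
    cont := fun n => by
      obtain ⟨L, hL, hLσ⟩ := ρ.isAdicContinuous n
      haveI := hL
      refine ⟨localLevel p L, inferInstance, fun g hg => ?_⟩
      have hg' : localGaloisToGlobal p g ∈ L.fixingSubgroup := by
        rw [← mem_fixingSubgroup_localLevel_iff, IntermediateField.mem_fixingSubgroup_iff]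
        exact hg
      have hσ : ∀ x ∈ L, localGaloisToGlobal p g x = x :=
        (IntermediateField.mem_fixingSubgroup_iff _ _).1 hg'
      have key : ∀ (j i : Fin 2), bb.repr (ρ.ρ (localGaloisToGlobal p g) (bb j) - bb j) i ∈
          maximalIdeal T ^ n := by
        intro j i
        have h1 := hLσ _ hσ (bb j)
        refine Submodule.smul_induction_on h1 ?_ ?_
        · intro r hr v _
          rw [map_smul, Finsupp.smul_apply, smul_eq_mul]
          exact Ideal.mul_mem_right _ _ hr
        · intro x y hx hy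
          rw [map_add, Finsupp.add_apply]
          exact Ideal.add_mem _ hx hy
      refine ⟨?_, ?_, ?_⟩
      · have := key 0 0
        rw [map_sub, Finsupp.sub_apply, ← locMat_apply] at this
        simpa using this
      · have := key 1 0
        rw [map_sub, Finsupp.sub_apply, ← locMat_apply] at this
        simpa using this
      · have := key 1 1
        rw [map_sub, Finsupp.sub_apply, ← locMat_apply] at this
        simpa using this }, fun g => ⟨?_, ?_⟩⟩
  · rw [rho_basis, h10 g, zero_smul, add_zero]
  · rw [rho_basis]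

end Rep

end Fermat.Agent.ML.KP
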