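/-
PROJECT ML (S59) — [LOC-L] at `p`, lead: **the valuation coordinate detects "peu ramifiée"**.

`exists_zpow_norm_of_kumC_eq_zero`: let `β : GP → M` be an inertia cocycle of level `1` (`M` a finite
group killed by `p`) with `kumC = 0`.  If `y ≠ 0`, `y ^ p` is fixed by the inertia group and `y` is
fixed by every `g ∈ I` which acts trivially on `μ_p` and has `β g = 0`, then `‖y‖ ∈ p ^ ℤ`.

(`g ↦ g y / y` is a cocycle `I → μ_p`; on `I₁ = I ∩ ker ω` it is a character which factors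
through `β`, hence is `ψ ∘ β` for a character `ψ` of `M`; the quotient is a cocycle which is
trivial on `I₁`, hence a coboundary of a `p`-th root of unity because `I / I₁` has order prime to
`p`.)
-/
import Mathlib
import Fermat.Agent.ML.KP_lead_KumC

set_option autoImplicit false
set_option linter.unusedSectionVars false
set_option linter.unusedVariables false
set_option linter.style.haveILetI false

namespace Fermat.Agent.ML.KP

open Fermat.Agent.TW Multiplicative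

variable {p : ℕ} [hp : Fact p.Prime]

local notation "Ω" => PadicAlgCl p
local notation "GP" => (PadicAlgCl p ≃ₐ[ℚ_[p]] PadicAlgCl p)

/-- exponents of inverse elements are inverse modulo `p ^ n` -/
theorem ActsOnMu.inv_modEq {n : ℕ} {g : GP} {e e' : ℕ} (he : ActsOnMu n g e)
    (he' : ActsOnMu n g⁻¹ e') : e * e' ≡ 1 [MOD p ^ n] := by
  have h2 : ActsOnMu n (g * g⁻¹) (e * e') := he.mul he'
  rw [mul_inv_cancel] at h2
  exact h2.modEq (ActsOnMu.one n)

theorem pow_eq_of_modEq {n : ℕ} {ζ : Ω} (hζ : ζ ^ (p ^ n) = 1) {a b : ℕ}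
    (h : a ≡ b [MOD p ^ n]) : ζ ^ a = ζ ^ b := by
  have hfin : IsOfFinOrder ζ := isOfFinOrder_iff_pow_eq_one.2 ⟨p ^ n, pow_pos hp.out.pos n, hζ⟩
  rw [hfin.pow_eq_pow_iff_modEq]
  exact h.of_dvd (orderOf_dvd_of_pow_eq_one hζ)

theorem ActsOnMu.of_modEq {n : ℕ} {g : GP} {e e' : ℕ} (he : ActsOnMu n g e)
    (h : e ≡ e' [MOD p ^ n]) : ActsOnMu n g e' := by
  intro ζ hζ
  rw [he ζ hζ]
  exact pow_eq_of_modEq hζ h

/-- the subgroup of the inertia group acting trivially on `μ_{p^n}` -/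
def inertiaOne (p : ℕ) [Fact p.Prime] (n : ℕ) :
    Subgroup (PadicAlgCl p ≃ₐ[ℚ_[p]] PadicAlgCl p) where
  carrier := {g | g ∈ unrInertia p ∧ ActsOnMu n g 1}
  one_mem' := ⟨Subgroup.one_mem _, ActsOnMu.one n⟩
  mul_mem' := by
    rintro g h ⟨hg, hg1⟩ ⟨hh, hh1⟩
    exact ⟨Subgroup.mul_mem _ hg hh, by simpa using hg1.mul hh1⟩
  inv_mem' := by
    rintro g ⟨hg, hg1⟩
    refine ⟨Subgroup.inv_mem _ hg, ?_⟩
    obtain ⟨e', he'⟩ := exists_actsOnMu (p := p) n g⁻¹
    have := hg1.inv_modEq he'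
    rw [one_mul] at this
    exact he'.of_modEq this

theorem mem_inertiaOne {n : ℕ} {g : GP} :
    g ∈ inertiaOne p n ↔ g ∈ unrInertia p ∧ ActsOnMu n g 1 := Iff.rfl

/-- commutators act trivially on roots of unity -/
theorem commutator_mem_inertiaOne {n : ℕ} {g h : GP} (hg : g ∈ unrInertia p)
    (hh : h ∈ unrInertia p) : g⁻¹ * h⁻¹ * g * h ∈ inertiaOne p n := by
  refine ⟨Subgroup.mul_mem _ (Subgroup.mul_mem _ (Subgroup.mul_mem _ (Subgroup.inv_mem _ hg)
    (Subgroup.inv_mem _ hh)) hg) hh, ?_⟩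
  obtain ⟨e, he⟩ := exists_actsOnMu (p := p) n g
  obtain ⟨e', he'⟩ := exists_actsOnMu (p := p) n g⁻¹
  obtain ⟨f, hf⟩ := exists_actsOnMu (p := p) n h
  obtain ⟨f', hf'⟩ := exists_actsOnMu (p := p) n h⁻¹
  have h1 : ActsOnMu n (g⁻¹ * h⁻¹ * g * h) (e' * f' * e * f) := ((he'.mul hf').mul he).mul hf
  refine h1.of_modEq ?_
  have h2 := he.inv_modEq he'
  have h3 := hf.inv_modEq hf'
  calc e' * f' * e * f = (e * e') * (f * f') := by ring
    _ ≡ 1 * 1 [MOD p ^ n] := h2.mul h3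
    _ = 1 := by ring

/-- a character of a group which factors through a homomorphism to a finite abelian group comes
from a character of that group -/
theorem exists_char_of_ker_le {G : Type*} [Group G] {A : Type*} [CommGroup A] [Finite A]
    (R : Type*) [CommMonoid R] [HasEnoughRootsOfUnity R (Monoid.exponent A)]
    (f : G →* A) (F : G →* Rˣ) (hker : f.ker ≤ F.ker) :
    ∃ ψ : A →* Rˣ, ∀ g : G, ψ (f g) = F g := by
  have hk : f.rangeRestrict.ker ≤ F.ker := by rwa [MonoidHom.ker_rangeRestrict]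
  set ψ₀ : f.range →* Rˣ :=
    f.rangeRestrict.liftOfSurjective f.rangeRestrict_surjective ⟨F, hk⟩ with hψ₀
  obtain ⟨ψ, hψ⟩ := MonoidHom.domRestrict_surjective (M := R) f.range ψ₀
  refine ⟨ψ, fun g => ?_⟩
  have h1 : ψ (f g) = (MonoidHom.domRestrictHom f.range Rˣ ψ) (f.rangeRestrict g) := rfl
  rw [h1, hψ, hψ₀]
  exact MonoidHom.liftOfRightInverse_comp_apply _ _ _ ⟨F, hk⟩ g

/-- a `p`-th root of unity killed by an exponent prime to `p` is trivial -/
theorem eq_one_of_pow_eq_one_of_coprime {x : Ω} (hx : x ^ p = 1) {t : ℕ} (ht : x ^ t = 1)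
    (hcop : Nat.Coprime t p) : x = 1 := by
  have h1 : orderOf x ∣ p := orderOf_dvd_of_pow_eq_one hx
  have h2 : orderOf x ∣ t := orderOf_dvd_of_pow_eq_one ht
  have h3 : orderOf x ∣ Nat.gcd t p := Nat.dvd_gcd h2 h1
  rw [hcop.gcd_eq_one, Nat.dvd_one] at h3
  exact orderOf_eq_one_iff.1 h3

/-- **a cocycle `I → μ_p` which is trivial on `I₁` is the coboundary of a `p`-th root of unity**
(`I / I₁` has order prime to `p`). -/
theorem exists_cob_of_trivial_on_inertiaOne (F : (PadicAlgCl p ≃ₐ[ℚ_[p]] PadicAlgCl p) → Ω)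
    (hFpow : ∀ g ∈ unrInertia p, F g ^ p = 1)
    (hFmul : ∀ g ∈ unrInertia p, ∀ h ∈ unrInertia p, F (g * h) = F g * g (F h))
    (hF1 : ∀ g ∈ inertiaOne p 1, F g = 1) :
    ∃ ξ : Ω, ξ ^ p = 1 ∧ ∀ g ∈ unrInertia p, F g = g ξ / ξ := by
  by_cases hall : ∀ g ∈ unrInertia p, ActsOnMu 1 g 1
  · refine ⟨1, one_pow _, fun g hg => ?_⟩
    rw [hF1 g ⟨hg, hall g hg⟩, map_one, div_one]
  · push Not at hall
    obtain ⟨g₀, hg₀, hg₀1⟩ := hall
    obtain ⟨e₁, he₁⟩ := exists_actsOnMu (p := p) 1 g₀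
    -- an exponent `≥ 1`
    set e₀ : ℕ := e₁ + p with he₀
    have he₀' : ActsOnMu 1 g₀ e₀ := he₁.of_modEq (by
      rw [pow_one, he₀]
      exact (Nat.add_mod_right e₁ p).symm)
    have he₀pos : 1 ≤ e₀ := le_trans hp.out.one_lt.le (Nat.le_add_left _ _)
    obtain ⟨t, ht⟩ : ∃ t : ℕ, e₀ = t + 1 := ⟨e₀ - 1, by omega⟩
    have htp : ¬ p ∣ t := by
      intro hdvd
      apply hg₀1
      refine he₀'.of_modEq ?_
      rw [pow_one, ht]
      obtain ⟨k, rfl⟩ := hdvd
      show (p * k + 1) % p = 1 % p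
      rw [Nat.mul_add_mod]
    have hcop : Nat.Coprime t p := (Nat.Prime.coprime_iff_not_dvd hp.out).2 htp |>.symm
    -- `j t ≡ 1 mod p`
    obtain ⟨j, hj⟩ : ∃ j : ℕ, j * t ≡ 1 [MOD p] := by
      obtain ⟨j, -, hj⟩ := Nat.exists_mul_mod_eq_one_of_coprime hcop hp.out.one_lt
      refine ⟨j, ?_⟩
      show j * t % p = 1 % p
      rw [mul_comm, hj, Nat.mod_eq_of_lt hp.out.one_lt]
    set ξ : Ω := F g₀ ^ j with hξ
    have hξp : ξ ^ p = 1 := by rw [hξ, ← pow_mul, mul_comm, pow_mul, hFpow g₀ hg₀, one_pow]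
    have hξ0 : ξ ≠ 0 := by
      intro h0; rw [h0, zero_pow hp.out.ne_zero] at hξp; exact zero_ne_one hξp
    have hp1 : ∀ x : Ω, x ^ p = 1 → x ^ p ^ 1 = 1 := fun x hx => by rwa [pow_one]
    -- `F g₀ = g₀ ξ / ξ`
    have hg₀ξ : g₀ ξ / ξ = F g₀ := by
      rw [he₀' ξ (hp1 ξ hξp), ht, pow_succ, mul_div_assoc, div_self hξ0, mul_one, hξ, ← pow_mul]
      have : F g₀ ^ (j * t) = F g₀ ^ 1 :=
        pow_eq_of_modEq (n := 1) (hp1 _ (hFpow g₀ hg₀)) (by rwa [pow_one])
      rw [this, pow_one]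
    -- the twisted cocycle
    set G : (PadicAlgCl p ≃ₐ[ℚ_[p]] PadicAlgCl p) → Ω := fun g => F g * ξ / g ξ with hG
    have hgξ0 : ∀ g : PadicAlgCl p ≃ₐ[ℚ_[p]] PadicAlgCl p, g ξ ≠ 0 := fun g => by
      rw [Ne, map_eq_zero]; exact hξ0
    have hGmul : ∀ g ∈ unrInertia p, ∀ h ∈ unrInertia p, G (g * h) = G g * g (G h) := by
      intro g hg h hh
      simp only [hG]
      rw [hFmul g hg h hh, map_div₀, map_mul, AlgEquiv.mul_apply]
      have := hgξ0 g
      have := hgξ0 (g * h)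
      rw [AlgEquiv.mul_apply] at this
      field_simp
    have hGpow : ∀ g ∈ unrInertia p, G g ^ p = 1 := by
      intro g hg
      simp only [hG]
      rw [div_pow, mul_pow, hFpow g hg, hξp, ← map_pow, hξp, map_one, one_mul, div_one]
    have hG1 : ∀ g ∈ inertiaOne p 1, G g = 1 := by
      intro g hg
      simp only [hG]
      rw [hF1 g hg, hg.2 ξ (hp1 ξ hξp), pow_one, one_mul, div_self hξ0]
    have hGg₀ : G g₀ = 1 := by
      simp only [hG]
      rw [← hg₀ξ]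
      have := hgξ0 g₀
      field_simp
    -- triviality of `G`
    have hGall : ∀ g ∈ unrInertia p, G g = 1 := by
      intro g hg
      have hc := commutator_mem_inertiaOne (n := 1) hg hg₀
      have hcI : g⁻¹ * g₀⁻¹ * g * g₀ ∈ unrInertia p := hc.1
      have e1 : g * g₀ = g₀ * g * (g⁻¹ * g₀⁻¹ * g * g₀) := by group
      have h1 : G (g * g₀) = G g := by
        rw [hGmul g hg g₀ hg₀, hGg₀, map_one, mul_one]
      have h2 : G (g₀ * g * (g⁻¹ * g₀⁻¹ * g * g₀)) = G g ^ e₀ := by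
        rw [hGmul _ (Subgroup.mul_mem _ hg₀ hg) _ hcI, hG1 _ hc, map_one, mul_one,
          hGmul g₀ hg₀ g hg, hGg₀, one_mul, he₀' _ (hp1 _ (hGpow g hg))]
      rw [e1, h2] at h1
      have hG0 : G g ≠ 0 := by
        intro h0
        have := hGpow g hg
        rw [h0, zero_pow hp.out.ne_zero] at this
        exact zero_ne_one this
      have h3 : G g ^ t = 1 := by
        rw [ht, pow_succ] at h1
        have : G g ^ t * G g = 1 * G g := by rw [one_mul]; exact h1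
        exact mul_right_cancel₀ hG0 this
      exact eq_one_of_pow_eq_one_of_coprime (hGpow g hg) h3 hcop
    refine ⟨ξ, hξp, fun g hg => ?_⟩
    have := hGall g hg
    simp only [hG] at this
    have hgξ := hgξ0 g
    field_simp at this
    field_simp
    linear_combination this

/-- **the valuation coordinate detects peu ramifiée.** -/
theorem exists_zpow_norm_of_kumC_eq_zero {M : Type*} [AddCommGroup M] [Finite M]
    {β : (PadicAlgCl p ≃ₐ[ℚ_[p]] PadicAlgCl p) → M} (hβ : IsInertiaCocycle 1 β)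
    (hc : kumC hβ = 0) (y : Ω) (hy0 : y ≠ 0)
    (hyp : ∀ g ∈ unrInertia p, g (y ^ p) = y ^ p)
    (hyN : ∀ g ∈ inertiaOne p 1, β g = 0 → g y = y) : ∃ m : ℤ, ‖y‖ = (p : ℝ) ^ m := by
  have hp1 : ∀ x : Ω, x ^ p = 1 → x ^ p ^ 1 = 1 := fun x hx => by rwa [pow_one]
  have hgy0 : ∀ g : PadicAlgCl p ≃ₐ[ℚ_[p]] PadicAlgCl p, g y ≠ 0 := fun g => by
    rw [Ne, map_eq_zero]; exact hy0
  set F : (PadicAlgCl p ≃ₐ[ℚ_[p]] PadicAlgCl p) → Ω := fun g => g y / y with hF
  have hFpow : ∀ g ∈ unrInertia p, F g ^ p = 1 := by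
    intro g hg
    simp only [hF]
    rw [div_pow, ← map_pow, hyp g hg, div_self (pow_ne_zero _ hy0)]
  have hFmul : ∀ g h : PadicAlgCl p ≃ₐ[ℚ_[p]] PadicAlgCl p, F (g * h) = F g * g (F h) := by
    intro g h
    simp only [hF]
    rw [map_div₀, AlgEquiv.mul_apply]
    have := hgy0 g
    field_simp
  have hF0 : ∀ g, F g ≠ 0 := fun g => div_ne_zero (hgy0 g) hy0
  have hFy : ∀ g : PadicAlgCl p ≃ₐ[ℚ_[p]] PadicAlgCl p, g y = F g * y := by
    intro g
    simp only [hF]; field_simp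
  have hFone : ∀ g : PadicAlgCl p ≃ₐ[ℚ_[p]] PadicAlgCl p, g y = y → F g = 1 := by
    intro g hg
    simp only [hF]
    rw [hg, div_self hy0]
  clear_value F
  have hβ1 : β 1 = 0 := by
    have := hβ.map_mul 1 (Subgroup.one_mem _) 1 (Subgroup.one_mem _) 1 (ActsOnMu.one 1)
    rw [mul_one, one_smul] at this
    exact left_eq_add.mp this
  -- the two characters of `I₁`
  let fβ : ↥(inertiaOne p 1) →* Multiplicative M :=
    { toFun := fun g => ofAdd (β g.1)
      map_one' := by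
        show ofAdd (β 1) = 1
        rw [hβ1]; rfl
      map_mul' := fun g h => by
        show ofAdd (β (g.1 * h.1)) = ofAdd (β g.1) * ofAdd (β h.1)
        rw [hβ.map_mul g.1 g.2.1 h.1 h.2.1 1 g.2.2, one_smul, ofAdd_add] }
  let fF : ↥(inertiaOne p 1) →* Ωˣ :=
    { toFun := fun g => Units.mk0 (F g.1) (hF0 g.1)
      map_one' := by
        ext
        show F 1 = 1
        exact hFone 1 rfl
      map_mul' := fun g h => by
        ext
        show F (g.1 * h.1) = F g.1 * F h.1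
        rw [hFmul, g.2.2 _ (hp1 _ (hFpow h.1 h.2.1)), pow_one] }
  have hker : fβ.ker ≤ fF.ker := by
    intro g hg
    rw [MonoidHom.mem_ker] at hg ⊢
    have h1 : β g.1 = 0 := by
      have : ofAdd (β g.1) = ofAdd 0 := hg
      exact Multiplicative.ofAdd.injective this
    have h2 := hyN g.1 g.2 h1
    ext
    show F g.1 = 1
    exact hFone g.1 h2
  obtain ⟨ψ, hψ⟩ := exists_char_of_ker_le Ω fβ fF hker
  have hψ' : ∀ g ∈ inertiaOne p 1, chi ψ β g = F g := by
    intro g hg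
    have := hψ ⟨g, hg⟩
    show ((ψ (ofAdd (β g)) : Ωˣ) : Ω) = F g
    exact congrArg Units.val this
  -- the quotient cocycle
  have hchi0 : ∀ g, chi ψ β g ≠ 0 := fun g => Units.ne_zero _
  obtain ⟨ξ, hξp, hξ⟩ := exists_cob_of_trivial_on_inertiaOne (fun g => F g / chi ψ β g)
    (fun g hg => by
      show (F g / chi ψ β g) ^ p = 1
      have h1 := chi_pow hβ ψ g
      rw [pow_one] at h1
      rw [div_pow, hFpow g hg, h1, div_one])
    (fun g hg h hh => by
      show F (g * h) / chi ψ β (g * h) = F g / chi ψ β g * g (F h / chi ψ β h)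
      rw [hFmul, chi_mul hβ ψ g hg h hh, map_div₀, mul_div_mul_comm])
    (fun g hg => by
      show F g / chi ψ β g = 1
      rw [hψ' g hg, div_self (hF0 g)])
  have hξ0 : ξ ≠ 0 := by
    intro h0; rw [h0, zero_pow hp.out.ne_zero] at hξp; exact zero_ne_one hξp
  -- the Kummer generator of `ψ ∘ β`
  obtain ⟨yψ, hyψ0, hyψ, hnorm⟩ := kumExp_spec hβ ψ
  obtain ⟨a', ha'⟩ := (kumC_eq_zero_iff hβ).1 hc ψ _ (kumExp_spec hβ ψ)
  rw [pow_one] at ha' hnorm
  have hnorm' : ‖yψ‖ = (p : ℝ) ^ (-a') := by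
    have h1 : ((p : ℝ) ^ (-a')) ^ p = (p : ℝ) ^ (-kumExp hβ ψ) := by
      rw [← zpow_natCast, ← zpow_mul, ha']
      congr 1; ring
    have h2 : ‖yψ‖ ^ p = ((p : ℝ) ^ (-a')) ^ p := by rw [hnorm, h1]
    exact (pow_left_inj₀ (norm_nonneg _) (zpow_nonneg norm_pos_p.le _) hp.out.ne_zero).1 h2
  -- the fixed quotient
  have hu : ∀ g ∈ unrInertia p, g (y / (yψ * ξ)) = y / (yψ * ξ) := by
    intro g hg
    have h1 := hξ g hg
    have h2 : g y = F g * y := hFy g
    have hgξ0 : g ξ ≠ 0 := by rw [Ne, map_eq_zero]; exact hξ0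
    rw [map_div₀, map_mul, hyψ g hg, h2]
    have h3 : F g = chi ψ β g * (g ξ / ξ) := by
      rw [← h1]; field_simp [hchi0 g]
    rw [h3]
    have := hchi0 g
    field_simp
  obtain ⟨m₀, hm₀⟩ := exists_zpow_norm_eq_of_fixed hu
    (div_ne_zero hy0 (mul_ne_zero hyψ0 hξ0))
  have hξnorm : ‖ξ‖ = 1 := norm_eq_one_of_pow_eq_one hp.out.pos hξp
  refine ⟨m₀ - a', ?_⟩
  rw [norm_div, norm_mul, hξnorm, mul_one, hnorm'] at hm₀
  rw [zpow_sub₀ (ne_of_gt norm_pos_p), ← hm₀, zpow_neg]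
  have : (p : ℝ) ^ a' ≠ 0 := zpow_ne_zero _ (ne_of_gt norm_pos_p)
  field_simp

end Fermat.Agent.ML.KP
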