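/-
PROJECT ML (S59) — [LOC-L] at `p`, lead: **[STRICT-OF-TRÈS]**: `ML.strictOfTresStatement`.

If `ρ̄` is not peu ramifiée at `p`, the valuation coordinate `c` of an ordinary deformation `ρ`
(cyclotomic determinant) is a unit (`KP.exists_zpow_norm_of_kumC_eq_zero`), so (K-p) gives
`d(φ)² = 1` for all `φ` in the local Galois group; by continuity the unramified quotient character
of `ρ` at every place over `p` has square `1`, which is strict ordinarity.
-/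
import Mathlib
import Fermat.Agent.ML.IFACE_lead_Peu
import Fermat.Agent.ML.KP_lead_OrdRep
import Fermat.Agent.ML.KP_lead_Tres
import Fermat.Agent.RB.GLUE_helper9_Residual
import Fermat.Agent.TW.Kill_helper1_Frob
import Fermat.Agent.CFT.LocForm.DecLift_helper4
import Fermat.Agent.EC.Conjugacy_helper5

set_option autoImplicit false
set_option linter.unusedSectionVars false
set_option linter.unusedVariables false
set_option linter.style.haveILetI false

namespace Fermat.Agent.ML.KP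

open Fermat.Agent.TW IsLocalRing Fermat.Agent.CFT.Local

variable {p : ℕ} [hp : Fact p.Prime]

local notation "Ω" => PadicAlgCl p
local notation "GP" => (PadicAlgCl p ≃ₐ[ℚ_[p]] PadicAlgCl p)
local notation "GQ" => (AlgebraicClosure ℚ ≃ₐ[ℚ] AlgebraicClosure ℚ)

section Resid

variable {k : Type} [Field k] {A : Type} [CommRing A] [IsLocalRing A]
  (ρ : GaloisRepAdic A) (b : Module.Basis (Fin 2) A ρ.V)
  (ψ : k →+* ResidueField A) (ρbar : ResidualGaloisRep k)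
  (h : ρ.residual.IsEquiv (ρbar.baseChangeAlong ψ))

include h in
/-- if the matrix of `ρ(σ) - 1` has entries in the maximal ideal then `ρ̄(σ) = 1` -/
theorem rhobar_eq_one_of_sub_one_mem {σ : GQ}
    (hσ : ∀ i j : Fin 2, (LinearMap.toMatrix b b (ρ.ρ σ) - 1) i j ∈ maximalIdeal A) :
    ρbar.ρ σ = 1 := by
  set β := Fermat.Agent.S53.resSomeBasis ρbar
  obtain ⟨U, hU⟩ := RB.GLUE.exists_conj_residue ρ b ψ ρbar h β
  have h1 : (LinearMap.toMatrix b b (ρ.ρ σ)).map (residue A) = 1 := by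
    ext i j
    have := hσ i j
    rw [← residue_eq_zero_iff, Matrix.sub_apply, map_sub, sub_eq_zero] at this
    rw [Matrix.map_apply, this, Matrix.one_apply, Matrix.one_apply]
    split_ifs <;> simp
  have h2 := hU σ
  rw [h1, mul_one] at h2
  have h3 : (LinearMap.toMatrix β β (ρbar.ρ σ)).map ψ = 1 := by
    have : (LinearMap.toMatrix β β (ρbar.ρ σ)).map ψ * (U : Matrix (Fin 2) (Fin 2) _) =
        1 * (U : Matrix (Fin 2) (Fin 2) _) := by rw [one_mul, ← h2]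
    exact U.isUnit.mul_left_injective this
  have h4 : LinearMap.toMatrix β β (ρbar.ρ σ) = 1 := by
    ext i j
    have := congrFun (congrFun h3 i) j
    rw [Matrix.map_apply, Matrix.one_apply] at this
    rw [Matrix.one_apply]
    apply ψ.injective
    rw [this]
    split_ifs <;> simp
  have h5 : LinearMap.toMatrix β β (ρbar.ρ σ) = LinearMap.toMatrix β β 1 := by
    rw [h4, LinearMap.toMatrix_one]
  exact (LinearMap.toMatrix β β).injective h5

end Resid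

section LocMat

variable {T : Type} [CommRing T] [IsLocalRing T]
  (ρ : GaloisRepAdic T) (bb : Module.Basis (Fin 2) T ρ.V) (D : OrdLoc T p)
  (hDρ : ∀ g : PadicAlgCl p ≃ₐ[ℚ_[p]] PadicAlgCl p,
    ρ.ρ (localGaloisToGlobal p g) (bb 0) = D.a g • bb 0 ∧
    ρ.ρ (localGaloisToGlobal p g) (bb 1) = D.b g • bb 0 + D.d g • bb 1)

include hDρ in
theorem toMatrix_loc (g : GP) :
    LinearMap.toMatrix bb bb (ρ.ρ (localGaloisToGlobal p g)) = !![D.a g, D.b g; 0, D.d g] := by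
  ext i j
  rw [LinearMap.toMatrix_apply]
  fin_cases j
  · simp only [Fin.zero_eta, (hDρ g).1]
    fin_cases i <;> simp
  · simp only [Fin.mk_one, (hDρ g).2]
    fin_cases i <;> simp

end LocMat

/-! ### (A) `¬ Peu ⇒ d(φ)² = 1` -/

section DSq

variable {k : Type} [Field k] {T : Type} [CommRing T] [IsLocalRing T] [IsNoetherianRing T]
  [Finite (ResidueField T)] [IsAdicComplete (maximalIdeal T) T]
  (ρ : GaloisRepAdic T) (bb : Module.Basis (Fin 2) T ρ.V)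
  (ψ : k →+* ResidueField T) (ρbar : ResidualGaloisRep k)
  (h : ρ.residual.IsEquiv (ρbar.baseChangeAlong ψ))
  (hpT : (p : T) ∈ maximalIdeal T) (D : OrdLoc T p)
  (hDρ : ∀ g : PadicAlgCl p ≃ₐ[ℚ_[p]] PadicAlgCl p,
    ρ.ρ (localGaloisToGlobal p g) (bb 0) = D.a g • bb 0 ∧
    ρ.ρ (localGaloisToGlobal p g) (bb 1) = D.b g • bb 0 + D.d g • bb 1)

include h hDρ in
/-- if the first valuation coordinate vanishes then `ρ̄` is peu ramifiée -/
theorem isPeu_of_cN_one_eq_zero (hc : D.cN hpT 1 = 0) : IsPeuRamifieeAt ρbar p := by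
  intro y hy0 hyp hyN
  refine exists_zpow_norm_of_kumC_eq_zero (D.isInertiaCocycle hpT 1) hc y hy0 hyp ?_
  intro g hg hβ
  apply hyN g hg.1
  apply rhobar_eq_one_of_sub_one_mem ρ bb ψ ρbar h
  have hd : D.d g = 1 := D.d_inertia g hg.1
  have hd' : D.d g⁻¹ = 1 := D.d_inertia _ (Subgroup.inv_mem _ hg.1)
  have ha : D.a g - 1 ∈ maximalIdeal T := by
    have h1 := D.det_cyc 1 g 1 hg.2
    rw [hd, mul_one, Nat.cast_one] at h1
    have h2 := OrdLoc.span_le_pow hpT 1 h1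
    rwa [pow_one] at h2
  have hb : D.b g ∈ maximalIdeal T := by
    have h1 : Ideal.Quotient.mk (maximalIdeal T ^ 1) (D.beta g) = 0 := hβ
    rw [Ideal.Quotient.eq_zero_iff_mem, pow_one] at h1
    unfold OrdLoc.beta at h1
    rwa [hd', mul_one] at h1
  intro i j
  rw [toMatrix_loc ρ bb D hDρ g]
  fin_cases i <;> fin_cases j
  · simpa using ha
  · simpa using hb
  · simp
  · simp [hd]

include h hDρ hpT in
/-- **(A)** if `ρ̄` is not peu ramifiée, the unramified character `d` has square `1` -/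
theorem d_sq_eq_one (hpeu : ¬ IsPeuRamifieeAt ρbar p) (φ : GP) : D.d φ ^ 2 = 1 := by
  have hc1 : D.cN hpT 1 ≠ 0 := fun hc => hpeu (isPeu_of_cN_one_eq_zero ρ bb ψ ρbar h hpT D hDρ hc)
  have hcu : IsUnit (D.c hpT) := by
    by_contra hnu
    have hm : D.c hpT ∈ maximalIdeal T := (mem_maximalIdeal _).2 hnu
    apply hc1
    rw [← D.mk_c hpT 1, Ideal.Quotient.eq_zero_iff_mem, pow_one]
    exact hm
  have h1 := D.kp hpT φ
  have h2 := hcu.mul_left_eq_zero.1 h1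
  exact sub_eq_zero.1 h2

end DSq

/-! ### (B) triangular endomorphisms -/

section Tri

variable {R : Type} [CommRing R] {V : Type} [AddCommGroup V] [Module R V]
  (bb : Module.Basis (Fin 2) R V)

theorem tri_one_zero {f : V →ₗ[R] V} (hf : ∀ v ∈ (R ∙ bb 0), f v ∈ (R ∙ bb 0)) :
    LinearMap.toMatrix bb bb f 1 0 = 0 := by
  have h1 := hf (bb 0) (Submodule.mem_span_singleton_self _)
  obtain ⟨c, hc⟩ := Submodule.mem_span_singleton.1 h1
  rw [LinearMap.toMatrix_apply, ← hc]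
  simp

theorem tri_apply_basis (f : V →ₗ[R] V) (j : Fin 2) :
    f (bb j) = LinearMap.toMatrix bb bb f 0 j • bb 0 + LinearMap.toMatrix bb bb f 1 j • bb 1 := by
  conv_lhs => rw [← bb.sum_repr (f (bb j))]
  rw [Fin.sum_univ_two, LinearMap.toMatrix_apply, LinearMap.toMatrix_apply]

theorem tri_apply_of_mem {f : V →ₗ[R] V} (hf : ∀ v ∈ (R ∙ bb 0), f v ∈ (R ∙ bb 0))
    (w : V) (hw : w ∈ (R ∙ bb 0)) : f w = LinearMap.toMatrix bb bb f 0 0 • w := by
  obtain ⟨c, rfl⟩ := Submodule.mem_span_singleton.1 hw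
  rw [map_smul, tri_apply_basis bb f 0, tri_one_zero bb hf, zero_smul, add_zero, smul_comm]

theorem tri_sub_smul_mem {f : V →ₗ[R] V} (hf : ∀ v ∈ (R ∙ bb 0), f v ∈ (R ∙ bb 0)) (v : V) :
    f v - LinearMap.toMatrix bb bb f 1 1 • v ∈ (R ∙ bb 0) := by
  rw [Submodule.mem_span_singleton]
  set M := LinearMap.toMatrix bb bb f with hM
  refine ⟨bb.repr v 0 * (M 0 0 - M 1 1) + bb.repr v 1 * M 0 1, ?_⟩
  conv_rhs => rw [← bb.sum_repr v]
  have h10 : M 1 0 = 0 := tri_one_zero bb hf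
  rw [Fin.sum_univ_two, map_add, map_smul, map_smul, tri_apply_basis bb f 0, tri_apply_basis bb f 1,
    ← hM, h10]
  module

theorem tri_det {f : V →ₗ[R] V} (hf : ∀ v ∈ (R ∙ bb 0), f v ∈ (R ∙ bb 0)) :
    LinearMap.det f = LinearMap.toMatrix bb bb f 0 0 * LinearMap.toMatrix bb bb f 1 1 := by
  rw [← LinearMap.det_toMatrix bb, Matrix.det_fin_two, tri_one_zero bb hf, mul_zero, sub_zero]

theorem tri_mul_one_one {f g : V →ₗ[R] V} (hf : ∀ v ∈ (R ∙ bb 0), f v ∈ (R ∙ bb 0)) :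
    LinearMap.toMatrix bb bb (f * g) 1 1 =
      LinearMap.toMatrix bb bb f 1 1 * LinearMap.toMatrix bb bb g 1 1 := by
  rw [LinearMap.toMatrix_mul, Matrix.mul_apply, Fin.sum_univ_two, tri_one_zero bb hf, zero_mul,
    zero_add]

end Tri

/-! ### (B) strictness at the place `padicPlace p` -/

section AtPlace

variable {T : Type} [CommRing T] [IsLocalRing T] [IsHausdorff (maximalIdeal T) T]
  (ρ : GaloisRepAdic T) (bb : Module.Basis (Fin 2) T ρ.V)
  (hD : ∀ σ ∈ (padicPlace p).decompositionSubgroup ℚ, ∀ v ∈ (T ∙ bb 0), ρ.ρ σ v ∈ (T ∙ bb 0))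
  (D : OrdLoc T p)
  (hDρ : ∀ g : PadicAlgCl p ≃ₐ[ℚ_[p]] PadicAlgCl p,
    ρ.ρ (localGaloisToGlobal p g) (bb 0) = D.a g • bb 0 ∧
    ρ.ρ (localGaloisToGlobal p g) (bb 1) = D.b g • bb 0 + D.d g • bb 1)
  (hsq : ∀ φ : PadicAlgCl p ≃ₐ[ℚ_[p]] PadicAlgCl p, D.d φ ^ 2 = 1)

/-- the unramified quotient character on the whole decomposition group -/
noncomputable def zOf (σ : GQ) : T := LinearMap.toMatrix bb bb (ρ.ρ σ) 1 1

include hD in
theorem zOf_mul {σ τ : GQ} (hσ : σ ∈ (padicPlace p).decompositionSubgroup ℚ) :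
    zOf ρ bb (σ * τ) = zOf ρ bb σ * zOf ρ bb τ := by
  unfold zOf
  rw [map_mul]
  exact tri_mul_one_one bb (hD σ hσ)

include hDρ in
theorem zOf_loc (g : GP) : zOf ρ bb (localGaloisToGlobal p g) = D.d g := by
  unfold zOf
  rw [toMatrix_loc ρ bb D hDρ g]
  simp

theorem zOf_sub_one_mem {n : ℕ} {σ : GQ}
    (hσ : ∀ v : ρ.V, ρ.ρ σ v - v ∈ (maximalIdeal T ^ n) • (⊤ : Submodule T ρ.V)) :
    zOf ρ bb σ - 1 ∈ maximalIdeal T ^ n := by
  have key : bb.repr (ρ.ρ σ (bb 1) - bb 1) 1 ∈ maximalIdeal T ^ n := by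
    refine Submodule.smul_induction_on (hσ (bb 1)) ?_ ?_
    · intro r hr v _
      rw [map_smul, Finsupp.smul_apply, smul_eq_mul]
      exact Ideal.mul_mem_right _ _ hr
    · intro x y hx hy
      rw [map_add, Finsupp.add_apply]
      exact Ideal.add_mem _ hx hy
  rw [map_sub, Finsupp.sub_apply, ← LinearMap.toMatrix_apply] at key
  simpa [zOf] using key

include hD hDρ hsq in
/-- the unramified quotient character has square `1` on the decomposition group -/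
theorem zOf_sq {σ : GQ} (hσ : σ ∈ (padicPlace p).decompositionSubgroup ℚ) :
    zOf ρ bb σ ^ 2 = 1 := by
  have hH : IsHausdorff (maximalIdeal T) T := inferInstance
  rw [← sub_eq_zero]
  apply hH.haus'
  intro n
  rw [SModEq.zero, smul_eq_mul, Ideal.mul_top]
  obtain ⟨F, hF, hFσ⟩ := ρ.isAdicContinuous n
  haveI := hF
  obtain ⟨τ, hτ⟩ := Fermat.Agent.CFT.LocForm.exists_local_lift p σ hσ F
  set η : GQ := (localGaloisToGlobal p τ)⁻¹ * σ with hη
  have hτD : localGaloisToGlobal p τ ∈ (padicPlace p).decompositionSubgroup ℚ :=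
    localGaloisToGlobal_mem_decompositionSubgroup p τ
  have hηfix : ∀ x ∈ F, η x = x := by
    intro x hx
    rw [hη, AlgEquiv.mul_apply, ← hτ x hx]
    show ((localGaloisToGlobal p τ)⁻¹ * localGaloisToGlobal p τ) x = x
    rw [inv_mul_cancel]; rfl
  have h1 : σ = localGaloisToGlobal p τ * η := by rw [hη, mul_inv_cancel_left]
  have h2 : zOf ρ bb σ = D.d τ * zOf ρ bb η := by
    rw [h1, zOf_mul ρ bb hD hτD, zOf_loc ρ bb D hDρ]
  have h3 := zOf_sub_one_mem ρ bb (hFσ η hηfix)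
  have h4 : zOf ρ bb σ ^ 2 - 1 = (zOf ρ bb η - 1) * (zOf ρ bb η + 1) := by
    rw [h2, mul_pow, hsq τ]; ring
  rw [h4]
  exact Ideal.mul_mem_right _ _ h3

include hD hDρ hsq in
/-- **(B)** the strictness clause at the place `padicPlace p` -/
theorem strict_at_padicPlace (hdet : ρ.DetIsCyclotomic p) {σ : GQ}
    (hσ : σ ∈ (padicPlace p).decompositionSubgroup ℚ) :
    ∃ x z : T, (∀ w ∈ (T ∙ bb 0), ρ.ρ σ w = x • w) ∧ (∀ v : ρ.V, ρ.ρ σ v - z • v ∈ (T ∙ bb 0)) ∧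
      ∀ (n a : ℕ), (∀ μ : AlgebraicClosure ℚ, μ ^ p ^ n = 1 → σ μ = μ ^ a) →
        x - (a : T) * z ∈ Ideal.span {((p ^ n : ℕ) : T)} := by
  refine ⟨LinearMap.toMatrix bb bb (ρ.ρ σ) 0 0, zOf ρ bb σ, tri_apply_of_mem bb (hD σ hσ),
    tri_sub_smul_mem bb (hD σ hσ), ?_⟩
  intro n a ha
  have h1 := hdet.2 n σ a ha
  rw [tri_det bb (hD σ hσ)] at h1
  have h2 := zOf_sq ρ bb hD D hDρ hsq hσ
  have h3 : LinearMap.toMatrix bb bb (ρ.ρ σ) 0 0 - (a : T) * zOf ρ bb σ =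
      zOf ρ bb σ * (LinearMap.toMatrix bb bb (ρ.ρ σ) 0 0 * zOf ρ bb σ - (a : T)) := by
    have : zOf ρ bb σ * (LinearMap.toMatrix bb bb (ρ.ρ σ) 0 0 * zOf ρ bb σ - (a : T)) =
        LinearMap.toMatrix bb bb (ρ.ρ σ) 0 0 * zOf ρ bb σ ^ 2 - (a : T) * zOf ρ bb σ := by ring
    rw [this, h2, mul_one]
  rw [h3]
  exact Ideal.mul_mem_left _ _ h1

end AtPlace

/-! ### (C) transport to all places and the statement -/

section Transport

variable {T : Type} [CommRing T] [IsLocalRing T] (ρ : GaloisRepAdic T)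

/-- `ρ(τ)` as a linear equivalence -/
noncomputable def rhoLinEquiv (τ : GQ) : ρ.V ≃ₗ[T] ρ.V :=
  LinearEquiv.ofLinearMap (ρ.ρ τ) (ρ.ρ τ⁻¹)
    (by rw [← Module.End.mul_eq_comp, ← map_mul, mul_inv_cancel, map_one]; rfl)
    (by rw [← Module.End.mul_eq_comp, ← map_mul, inv_mul_cancel, map_one]; rfl)

theorem rhoLinEquiv_apply (τ : GQ) (v : ρ.V) : rhoLinEquiv ρ τ v = ρ.ρ τ v := rfl

theorem rho_inv_rho (τ : GQ) (v : ρ.V) : ρ.ρ τ⁻¹ (ρ.ρ τ v) = v := by
  rw [← Module.End.mul_apply, ← map_mul, inv_mul_cancel, map_one]; rfl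

theorem rho_rho_inv (τ : GQ) (v : ρ.V) : ρ.ρ τ (ρ.ρ τ⁻¹ v) = v := by
  rw [← Module.End.mul_apply, ← map_mul, mul_inv_cancel, map_one]; rfl

/-- the strictness data at one place -/
def StrictDataAt (p : ℕ) (P : ValuationSubring (AlgebraicClosure ℚ)) : Prop :=
  ∃ L : Submodule T ρ.V,
      (∃ b : Module.Basis (Fin 2) T ρ.V, L = T ∙ b 0) ∧
      (∀ σ ∈ P.decompositionSubgroup ℚ, ∀ v ∈ L, ρ.ρ σ v ∈ L) ∧
      (∀ σ ∈ P.inertiaSubgroupIn ℚ, ∀ v : ρ.V, ρ.ρ σ v - v ∈ L) ∧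
      (∀ σ ∈ P.decompositionSubgroup ℚ, ∃ x z : T,
        (∀ w ∈ L, ρ.ρ σ w = x • w) ∧ (∀ v : ρ.V, ρ.ρ σ v - z • v ∈ L) ∧
        ∀ (n a : ℕ), (∀ μ : AlgebraicClosure ℚ, μ ^ p ^ n = 1 → σ μ = μ ^ a) →
          x - (a : T) * z ∈ Ideal.span {((p ^ n : ℕ) : T)})

open scoped Pointwise in
/-- transport of the strictness data along conjugation -/
theorem StrictDataAt.smul {ℓ : ℕ} (hℓ : ℓ.Prime) {P : ValuationSubring (AlgebraicClosure ℚ)}
    (hP : P.LiesOverPrime ℓ) (h : StrictDataAt ρ ℓ P) (τ : GQ) : StrictDataAt ρ ℓ (τ • P) := by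
  obtain ⟨L, ⟨b, hb⟩, hD, hI, hS⟩ := h
  have hmem : ∀ v : ρ.V, v ∈ L.map (rhoLinEquiv ρ τ).toLinearMap ↔ ρ.ρ τ⁻¹ v ∈ L := by
    intro v
    constructor
    · rintro ⟨w, hw, rfl⟩
      show ρ.ρ τ⁻¹ (ρ.ρ τ w) ∈ L
      rwa [rho_inv_rho]
    · intro hv
      exact ⟨ρ.ρ τ⁻¹ v, hv, rho_rho_inv ρ τ v⟩
  have hconjD : ∀ σ ∈ (τ • P).decompositionSubgroup ℚ, τ⁻¹ * σ * τ ∈ P.decompositionSubgroup ℚ := by
    intro σ hσ
    rw [← Fermat.Agent.EC.conj_mem_decompositionSubgroup (A := P) τ]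
    have : τ * (τ⁻¹ * σ * τ) * τ⁻¹ = σ := by group
    rwa [this]
  have hconjI : ∀ σ ∈ (τ • P).inertiaSubgroupIn ℚ, τ⁻¹ * σ * τ ∈ P.inertiaSubgroupIn ℚ := by
    intro σ hσ
    rw [← Fermat.Agent.EC.conj_mem_inertiaSubgroupIn hℓ hP τ]
    have : τ * (τ⁻¹ * σ * τ) * τ⁻¹ = σ := by group
    rwa [this]
  have hρconj : ∀ (σ : GQ) (v : ρ.V), ρ.ρ τ⁻¹ (ρ.ρ σ v) = ρ.ρ (τ⁻¹ * σ * τ) (ρ.ρ τ⁻¹ v) := by
    intro σ v
    rw [map_mul, map_mul, Module.End.mul_apply, Module.End.mul_apply, rho_rho_inv]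
  refine ⟨L.map (rhoLinEquiv ρ τ).toLinearMap, ⟨b.map (rhoLinEquiv ρ τ), ?_⟩, ?_, ?_, ?_⟩
  · rw [hb, Submodule.map_span, Set.image_singleton]
    rfl
  · intro σ hσ v hv
    rw [hmem] at hv ⊢
    rw [hρconj]
    exact hD _ (hconjD σ hσ) _ hv
  · intro σ hσ v
    rw [hmem, map_sub, hρconj]
    exact hI _ (hconjI σ hσ) _
  · intro σ hσ
    obtain ⟨x, z, h1, h2, h3⟩ := hS _ (hconjD σ hσ)
    refine ⟨x, z, ?_, ?_, ?_⟩
    · intro w hw
      rw [hmem] at hw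
      have := h1 _ hw
      rw [← hρconj] at this
      have h4 := congrArg (ρ.ρ τ) this
      rwa [rho_rho_inv, map_smul, rho_rho_inv] at h4
    · intro v
      rw [hmem, map_sub, hρconj, map_smul]
      exact h2 _
    · intro n a ha
      apply h3 n a
      intro μ hμ
      have hτμ : (τ μ) ^ ℓ ^ n = 1 := by rw [← map_pow, hμ, map_one]
      have := ha (τ μ) hτμ
      show τ⁻¹ (σ (τ μ)) = μ ^ a
      rw [this, map_pow]
      congr 1
      show (τ⁻¹ * τ) μ = μ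
      rw [inv_mul_cancel]; rfl

end Transport

theorem finite_residueField_of_surjective {𝒪 T : Type} [CommRing 𝒪] [IsLocalRing 𝒪] [CommRing T]
    [IsLocalRing T] [Algebra 𝒪 T] [IsLocalHom (algebraMap 𝒪 T)] [Finite (ResidueField 𝒪)]
    (hs : Function.Surjective (IsLocalRing.residue T ∘ algebraMap 𝒪 T)) :
    Finite (ResidueField T) := by
  refine Finite.of_surjective (IsLocalRing.ResidueField.map (algebraMap 𝒪 T)) ?_
  intro y
  obtain ⟨a, ha⟩ := hs y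
  exact ⟨IsLocalRing.residue 𝒪 a, by rw [IsLocalRing.ResidueField.map_residue]; exact ha⟩

/-- **[STRICT-OF-TRÈS]** -/
theorem strictOfTresStatement : StrictOfTresStatement := by
  intro 𝒪 _ _ _ _ _ p _ hp2 hp𝒪 ρbar hpeu T _ _ _ _ _ _ _ hsurj ρ hres hdet hord
  haveI : Finite (ResidueField T) := finite_residueField_of_surjective hsurj
  have hpT : (p : T) ∈ maximalIdeal T := hdet.1
  have hℓ : p.Prime := Fact.out
  have hP0 := Fermat.Agent.TW.Kill.padicPlace_liesOverPrime p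
  obtain ⟨L, ⟨bb, rfl⟩, hD, hI⟩ := hord _ hP0
  obtain ⟨D, hDρ⟩ := exists_ordLoc ρ bb hD hI hdet
  have hsq := d_sq_eq_one ρ bb _ ρbar hres hpT D hDρ hpeu
  have h0 : StrictDataAt ρ p (padicPlace p) :=
    ⟨T ∙ bb 0, ⟨bb, rfl⟩, hD, hI, fun σ hσ => strict_at_padicPlace ρ bb hD D hDρ hsq hdet hσ⟩
  refine ⟨hpT, fun P hP => ?_⟩
  obtain ⟨τ, rfl⟩ := Fermat.Agent.EC.exists_smul_eq_of_liesOverPrime hℓ hP0 hP
  exact h0.smul ρ hℓ hP0 τ





end Fermat.Agent.ML.KP
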