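/-
PROJECT ML (S59) — [REPT-L] part A (helper9), file 4: **descent of the local conditions to a subring
of a product** (`T ↪ B₁ × B₂` through two local homomorphisms `f₁`, `f₂`, jointly injective).

Base change is not enough for the trace ring `T' ⊂ T_Q × 𝒪`; here the conditions of
`ρ ⊗ B₁`, `ρ ⊗ B₂` are brought back to `ρ`:
* `eq_zero_of_one_tmul_eq_zero`, `map_eq_one_of_pair` : joint injectivity on vectors, endomorphisms;
* `isUnramifiedAt_of_pair`, `isUnipotentOnInertiaAt_of_pair` ;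
* `detIsCyclotomic_of_pair` (with a section `𝒪 → T` of `f₂ : T → 𝒪`);
* `isFlatAt_of_pair` (Artin–Rees + closure of flat Galois modules under subquotients and products).
-/
import Mathlib
import Fermat.Agent.TW.CondBaseChange_helper6
import Fermat.Agent.TW.CondCocycle_helper6
import Fermat.Agent.FG.HOPF_helper8_Flat
import Fermat.Agent.RB.REPT_helper1_Top

set_option autoImplicit false
set_option linter.unusedSectionVars false
set_option linter.unusedVariables false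
set_option linter.style.haveILetI false

noncomputable section

namespace Fermat.Agent.ML.REPTL

open Polynomial IsLocalRing GaloisRepAdic Fermat.Agent.TW
open scoped TensorProduct

local notation "Ω" => AlgebraicClosure ℚ
local notation "GQ" => (AlgebraicClosure ℚ ≃ₐ[ℚ] AlgebraicClosure ℚ)

section Joint

variable {T B₁ B₂ : Type} [CommRing T] [IsLocalRing T] [CommRing B₁] [IsLocalRing B₁]
  [CommRing B₂] [IsLocalRing B₂]
  (f₁ : T →+* B₁) (hf₁ : IsLocalHom f₁) (f₂ : T →+* B₂) (hf₂ : IsLocalHom f₂)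
  (hinj : ∀ x : T, f₁ x = 0 → f₂ x = 0 → x = 0) (ρ : GaloisRepAdic T)

/-- a vector whose image in `B ⊗ V` vanishes has coordinates in the kernel. -/
theorem map_repr_eq_zero_of_one_tmul_eq_zero {B : Type} [CommRing B] [Algebra T B]
    (b : Module.Basis (Fin 2) T ρ.V) (v : ρ.V) (h : (1 : B) ⊗ₜ[T] v = 0) (i : Fin 2) :
    algebraMap T B (b.repr v i) = 0 := by
  have h1 := congrArg (fun w => (b.baseChange B).repr w i) h
  simp only [map_zero, Finsupp.coe_zero, Pi.zero_apply] at h1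
  rw [Module.Basis.baseChange_repr_tmul, Algebra.smul_def, mul_one] at h1
  exact h1

include hinj in
/-- **joint injectivity on vectors.** -/
theorem eq_zero_of_one_tmul_eq_zero (v : ρ.V)
    (h₁ : letI : Algebra T B₁ := f₁.toAlgebra; (1 : B₁) ⊗ₜ[T] v = 0)
    (h₂ : letI : Algebra T B₂ := f₂.toAlgebra; (1 : B₂) ⊗ₜ[T] v = 0) : v = 0 := by
  set b := Fermat.Agent.S53.someBasis ρ
  apply b.repr.injective
  ext i
  rw [map_zero, Finsupp.coe_zero, Pi.zero_apply]
  refine hinj _ ?_ ?_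
  · letI : Algebra T B₁ := f₁.toAlgebra
    exact map_repr_eq_zero_of_one_tmul_eq_zero ρ b v h₁ i
  · letI : Algebra T B₂ := f₂.toAlgebra
    exact map_repr_eq_zero_of_one_tmul_eq_zero ρ b v h₂ i

include hinj in
/-- joint injectivity on polynomials. -/
theorem poly_eq_of_map_eq {P Q : T[X]} (h₁ : P.map f₁ = Q.map f₁) (h₂ : P.map f₂ = Q.map f₂) :
    P = Q := by
  ext n
  rw [← sub_eq_zero]
  refine hinj _ ?_ ?_
  · have := congrArg (fun R => R.coeff n) h₁
    simp only [coeff_map] at this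
    rw [map_sub, this, sub_self]
  · have := congrArg (fun R => R.coeff n) h₂
    simp only [coeff_map] at this
    rw [map_sub, this, sub_self]

include hinj in
/-- **joint injectivity on the action.** -/
theorem map_eq_one_of_pair (σ : GQ) (h₁ : (ρ.baseChangeAlong f₁ hf₁).ρ σ = 1)
    (h₂ : (ρ.baseChangeAlong f₂ hf₂).ρ σ = 1) : ρ.ρ σ = 1 := by
  refine LinearMap.ext fun v => ?_
  rw [Module.End.one_apply, ← sub_eq_zero]
  refine eq_zero_of_one_tmul_eq_zero f₁ f₂ hinj ρ _ ?_ ?_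
  · letI : Algebra T B₁ := f₁.toAlgebra
    have := baseChangeAlong_ρ_tmul f₁ hf₁ ρ σ 1 v
    rw [h₁, Module.End.one_apply] at this
    show (1 : B₁) ⊗ₜ[T] (ρ.ρ σ v - v) = 0
    rw [TensorProduct.tmul_sub, ← this, sub_self]
  · letI : Algebra T B₂ := f₂.toAlgebra
    have := baseChangeAlong_ρ_tmul f₂ hf₂ ρ σ 1 v
    rw [h₂, Module.End.one_apply] at this
    show (1 : B₂) ⊗ₜ[T] (ρ.ρ σ v - v) = 0
    rw [TensorProduct.tmul_sub, ← this, sub_self]

include hinj in
theorem isUnramifiedAt_of_pair {q : ℕ} (h₁ : (ρ.baseChangeAlong f₁ hf₁).IsUnramifiedAt q)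
    (h₂ : (ρ.baseChangeAlong f₂ hf₂).IsUnramifiedAt q) : ρ.IsUnramifiedAt q :=
  fun P hP σ hσ => map_eq_one_of_pair f₁ hf₁ f₂ hf₂ hinj ρ σ (h₁ P hP σ hσ) (h₂ P hP σ hσ)

include hinj in
theorem isUnipotentOnInertiaAt_of_pair {q : ℕ}
    (h₁ : (ρ.baseChangeAlong f₁ hf₁).IsUnipotentOnInertiaAt q)
    (h₂ : (ρ.baseChangeAlong f₂ hf₂).IsUnipotentOnInertiaAt q) : ρ.IsUnipotentOnInertiaAt q := by
  intro P hP σ hσ
  refine poly_eq_of_map_eq f₁ f₂ hinj ?_ ?_
  · rw [← charpoly_baseChangeAlong f₁ hf₁, h₁ P hP σ hσ]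
    simp
  · rw [← charpoly_baseChangeAlong f₂ hf₂, h₂ P hP σ hσ]
    simp

include hinj in
/-- the trace and the determinant are determined by the two factors. -/
theorem eq_of_pair {x y : T} (h₁ : f₁ x = f₁ y) (h₂ : f₂ x = f₂ y) : x = y := by
  rw [← sub_eq_zero]
  exact hinj _ (by rw [map_sub, h₁, sub_self]) (by rw [map_sub, h₂, sub_self])

end Joint

section Det

variable {𝒪 : Type} [CommRing 𝒪] [IsLocalRing 𝒪]
  {T B₁ : Type} [CommRing T] [IsLocalRing T] [Algebra 𝒪 T] [CommRing B₁] [IsLocalRing B₁]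
  [Algebra 𝒪 B₁]
  (f₁ : T →ₐ[𝒪] B₁) (hf₁ : IsLocalHom (f₁ : T →+* B₁)) (f₂ : T →ₐ[𝒪] 𝒪)
  (hf₂ : IsLocalHom (f₂ : T →+* 𝒪))
  (hinj : ∀ x : T, f₁ x = 0 → f₂ x = 0 → x = 0) (ρ : GaloisRepAdic T)

include hinj in
/-- **the determinant is cyclotomic.** -/
theorem detIsCyclotomic_of_pair {p : ℕ} (hp : 0 < p)
    (hsep : ∀ b : B₁, (∀ n : ℕ, b ∈ Ideal.span {((p ^ n : ℕ) : B₁)}) → b = 0)
    (h₁ : (ρ.baseChangeAlong (f₁ : T →+* B₁) hf₁).DetIsCyclotomic p)
    (h₂ : (ρ.baseChangeAlong (f₂ : T →+* 𝒪) hf₂).DetIsCyclotomic p) : ρ.DetIsCyclotomic p := by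
  have hp𝒪 : (p : 𝒪) ∈ maximalIdeal 𝒪 := h₂.1
  have hpT : (p : T) ∈ maximalIdeal T := by
    by_contra hnot
    have hu : IsUnit (p : T) := by
      by_contra hu
      exact hnot hu
    have := hu.map (f₂ : T →+* 𝒪)
    rw [map_natCast] at this
    exact hp𝒪 this
  -- the determinant comes from `𝒪`
  have hd : ∀ σ : GQ, LinearMap.det (ρ.ρ σ) =
      algebraMap 𝒪 T (f₂ (LinearMap.det (ρ.ρ σ))) := by
    intro σ
    rw [← sub_eq_zero]
    refine hinj _ ?_ ?_
    · refine hsep _ fun n => ?_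
      haveI : NeZero (p ^ n) := ⟨(pow_pos hp n).ne'⟩
      obtain ⟨a, ha⟩ := exists_cyclotomic_exponent (p ^ n) σ
      have e1 := h₁.2 n σ a ha
      have e2 := h₂.2 n σ a ha
      rw [det_baseChangeAlong] at e1 e2
      have e3 := map_mem_span_natCast (algebraMap 𝒪 B₁) e2
      rw [map_sub, map_natCast] at e3
      have e4 : f₁ (LinearMap.det (ρ.ρ σ) - algebraMap 𝒪 T (f₂ (LinearMap.det (ρ.ρ σ)))) =
          ((f₁ : T →+* B₁) (LinearMap.det (ρ.ρ σ)) - (a : B₁)) -
            (algebraMap 𝒪 B₁ ((f₂ : T →+* 𝒪) (LinearMap.det (ρ.ρ σ))) - (a : B₁)) := by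
        rw [map_sub, AlgHom.commutes]
        simp only [RingHom.coe_coe]
        ring
      rw [e4]
      exact Ideal.sub_mem _ e1 e3
    · rw [map_sub, AlgHom.commutes, Algebra.algebraMap_self, RingHom.id_apply, sub_self]
  refine ⟨hpT, fun n σ a ha => ?_⟩
  have e2 := h₂.2 n σ a ha
  rw [det_baseChangeAlong] at e2
  have e3 := map_mem_span_natCast (algebraMap 𝒪 T) e2
  rw [map_sub, map_natCast] at e3
  rw [hd σ]
  exact e3

end Det

end Fermat.Agent.ML.REPTL
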