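/-
PROJECT ML (S59) — [REPT-L] part A (helper9), file 6: **linear algebra of rank two over a local
ring**: an idempotent `π ≠ 0, 1` of a free module of rank `2` has an eigenbasis; an endomorphism `f`
with `(f - 1)(f - e) = 0`, `e - 1` a unit, `det f = e` a unit, has a basis `b` with `f b₀ = e b₀`,
`f b₁ = b₁`; trace and determinant of a triangular endomorphism.
-/
import Mathlib
import Fermat.Agent.TW.CondBaseChange_helper6
import Fermat.Agent.TW.CondOrd_helper6

set_option autoImplicit false
set_option linter.unusedSectionVars false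
set_option linter.unusedVariables false
set_option linter.style.haveILetI false

noncomputable section

namespace Fermat.Agent.ML.REPTL

open IsLocalRing Fermat.Agent.TW
open scoped TensorProduct

section Triangular

variable {R : Type*} [CommRing R] {V : Type*} [AddCommGroup V] [Module R V]

/-- The trace of an endomorphism which is triangular in a basis. -/
theorem trace_eq_add_of_triangular (bs : Module.Basis (Fin 2) R V) (f : V →ₗ[R] V) (x z : R)
    (h0 : f (bs 0) = x • bs 0) (h1 : f (bs 1) - z • bs 1 ∈ Submodule.span R {bs 0}) :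
    LinearMap.trace R V f = x + z := by
  obtain ⟨μ, hμ⟩ := Submodule.mem_span_singleton.mp h1
  have h1' : f (bs 1) = μ • bs 0 + z • bs 1 := by rw [hμ]; abel
  rw [LinearMap.trace_eq_matrix_trace R bs, Matrix.trace_fin_two]
  simp only [LinearMap.toMatrix_apply, h0, h1', map_add, map_smul, Module.Basis.repr_self,
    Finsupp.smul_single, smul_eq_mul, mul_one, Finsupp.add_apply, Finsupp.single_apply]
  simp

/-- coordinates in a basis indexed by `Fin 2`. -/
theorem basis_fin_two_decomp (bs : Module.Basis (Fin 2) R V) (v : V) :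
    v = bs.repr v 0 • bs 0 + bs.repr v 1 • bs 1 := by
  conv_lhs => rw [← bs.sum_repr v]
  rw [Fin.sum_univ_two]

/-- `s b₀ + t b₁ ∈ R b₀ ↔ t = 0`. -/
theorem mem_span_basis_zero_iff (bs : Module.Basis (Fin 2) R V) (v : V) :
    v ∈ Submodule.span R {bs 0} ↔ bs.repr v 1 = 0 := by
  constructor
  · intro h
    obtain ⟨c, rfl⟩ := Submodule.mem_span_singleton.mp h
    rw [map_smul, Module.Basis.repr_self, Finsupp.smul_apply, Finsupp.single_apply]
    simp
  · intro h
    rw [basis_fin_two_decomp bs v, h, zero_smul, add_zero]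
    exact Submodule.smul_mem _ _ (Submodule.mem_span_singleton_self _)

end Triangular

section Idem

variable {T : Type} [CommRing T] [IsLocalRing T] {V : Type} [AddCommGroup V] [Module T V]
  [Module.Free T V] [Module.Finite T V]

/-- every element of `κ ⊗ V` is of the form `1 ⊗ v`. -/
theorem exists_one_tmul_eq' (z : ResidueField T ⊗[T] V) :
    ∃ v : V, (1 : ResidueField T) ⊗ₜ[T] v = z :=
  TensorProduct.mk_surjective T V (ResidueField T) residue_surjective z

/-- an idempotent with image in `𝔪 V` is zero. -/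
theorem idem_eq_zero_of_range_le (π : Module.End T V) (hπ : π * π = π)
    (h : LinearMap.range π ≤ (maximalIdeal T) • (⊤ : Submodule T V)) : π = 0 := by
  have hN : (LinearMap.range π).FG := Module.Finite.iff_fg.mp inferInstance
  have hle : LinearMap.range π ≤ maximalIdeal T • LinearMap.range π := by
    rintro _ ⟨v, rfl⟩
    have h1 : π v ∈ (maximalIdeal T • (⊤ : Submodule T V)).map π := by
      refine ⟨π v, h ⟨v, rfl⟩, ?_⟩
      rw [← Module.End.mul_apply, hπ]
    rw [Submodule.map_smul'', Submodule.map_top] at h1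
    exact h1
  have h0 := Submodule.eq_bot_of_le_smul_of_le_jacobson_bot (maximalIdeal T) _ hN hle
    (IsLocalRing.maximalIdeal_le_jacobson ⊥)
  refine LinearMap.ext fun v => ?_
  have : π v ∈ LinearMap.range π := ⟨v, rfl⟩
  rw [h0] at this
  exact (Submodule.mem_bot T).mp this

/-- the kernel of `V → κ ⊗ V` is `𝔪 V`. -/
theorem mem_smul_top_of_one_tmul_eq_zero (v : V)
    (h : (1 : ResidueField T) ⊗ₜ[T] v = 0) : v ∈ (maximalIdeal T) • (⊤ : Submodule T V) := by
  classical
  let b := Module.Free.chooseBasis T V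
  haveI : Fintype (Module.Free.ChooseBasisIndex T V) := Fintype.ofFinite _
  have h1 : (1 : ResidueField T) ⊗ₜ[T] v ∈
      (⊥ : Ideal (ResidueField T)) • (⊤ : Submodule (ResidueField T) (ResidueField T ⊗[T] V)) := by
    rw [h]
    exact Submodule.zero_mem _
  rw [one_tmul_mem_smul_top_iff b] at h1
  have h2 : (⊥ : Ideal (ResidueField T)).comap (algebraMap T (ResidueField T)) =
      maximalIdeal T := by
    ext x
    rw [Ideal.mem_comap, Ideal.mem_bot, IsLocalRing.ResidueField.algebraMap_eq,
      IsLocalRing.residue_eq_zero_iff]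
  rw [h2] at h1
  exact h1

/-- **an idempotent `≠ 0, 1` in rank two has an eigenbasis.** -/
theorem exists_basis_of_idempotent (hV : Module.finrank T V = 2) (π : Module.End T V)
    (hπ : π * π = π) (h0 : π ≠ 0) (h1 : π ≠ 1) :
    ∃ b : Module.Basis (Fin 2) T V, π (b 0) = b 0 ∧ π (b 1) = 0 := by
  classical
  set κ := ResidueField T
  -- the complementary idempotent
  have hπ' : (1 - π) * (1 - π) = 1 - π := by
    rw [mul_sub, mul_one, sub_mul, one_mul, hπ, sub_self, sub_zero]
  have h1' : (1 - π : Module.End T V) ≠ 0 := fun h => h1 (sub_eq_zero.mp h).symm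
  -- vectors with non-zero residual image
  have hx : ∃ x : V, (1 : κ) ⊗ₜ[T] (π x) ≠ 0 := by
    by_contra hcon
    rw [not_exists] at hcon
    refine h0 (idem_eq_zero_of_range_le π hπ ?_)
    rintro _ ⟨x, rfl⟩
    exact mem_smul_top_of_one_tmul_eq_zero _ (not_not.mp (hcon x))
  have hy : ∃ y : V, (1 : κ) ⊗ₜ[T] ((1 - π : Module.End T V) y) ≠ 0 := by
    by_contra hcon
    rw [not_exists] at hcon
    refine h1' (idem_eq_zero_of_range_le (1 - π) hπ' ?_)
    rintro _ ⟨x, rfl⟩
    exact mem_smul_top_of_one_tmul_eq_zero _ (not_not.mp (hcon x))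
  obtain ⟨x, hx⟩ := hx
  obtain ⟨y, hy⟩ := hy
  set v₀ := π x with hv₀
  set v₁ := (1 - π : Module.End T V) y with hv₁
  have hπv₀ : π v₀ = v₀ := by rw [hv₀, ← Module.End.mul_apply, hπ]
  have hπv₁ : π v₁ = 0 := by
    rw [hv₁, ← Module.End.mul_apply, mul_sub, mul_one, hπ, sub_self, LinearMap.zero_apply]
  -- linear independence of the residual images
  set πb : Module.End κ (κ ⊗[T] V) := π.baseChange κ with hπb
  have hπb0 : πb ((1 : κ) ⊗ₜ[T] v₀) = (1 : κ) ⊗ₜ[T] v₀ := by
    rw [hπb, LinearMap.baseChange_tmul, hπv₀]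
  have hπb1 : πb ((1 : κ) ⊗ₜ[T] v₁) = 0 := by
    rw [hπb, LinearMap.baseChange_tmul, hπv₁, TensorProduct.tmul_zero]
  have hli : LinearIndependent κ ![(1 : κ) ⊗ₜ[T] v₀, (1 : κ) ⊗ₜ[T] v₁] := by
    rw [LinearIndependent.pair_iff]
    intro s t hst
    have e1 := congrArg πb hst
    rw [map_add, map_smul, map_smul, hπb0, hπb1, smul_zero, add_zero, map_zero] at e1
    have hs : s = 0 := by
      rcases smul_eq_zero.mp e1 with h | h
      · exact h
      · exact absurd h hx
    rw [hs, zero_smul, zero_add] at hst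
    rcases smul_eq_zero.mp hst with h | h
    · exact ⟨hs, h⟩
    · exact absurd h hy
  have hfr : Module.finrank κ (κ ⊗[T] V) = 2 := by
    rw [Module.finrank_baseChange, hV]
  have hcardκ : Fintype.card (Fin 2) = Module.finrank κ (κ ⊗[T] V) := by
    rw [hfr, Fintype.card_fin]
  let bb : Module.Basis (Fin 2) κ (κ ⊗[T] V) :=
    basisOfLinearIndependentOfCardEqFinrank hli hcardκ
  have hbb : ⇑bb = ![(1 : κ) ⊗ₜ[T] v₀, (1 : κ) ⊗ₜ[T] v₁] :=
    coe_basisOfLinearIndependentOfCardEqFinrank hli hcardκ
  have hspan : Submodule.span T (Set.range ![v₀, v₁]) = ⊤ := by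
    apply IsLocalRing.span_eq_top_of_tmul_eq_basis ![v₀, v₁] bb
    intro i
    rw [hbb]
    fin_cases i <;> rfl
  have hcard : Fintype.card (Fin 2) = Module.finrank T V := by
    rw [hV, Fintype.card_fin]
  let b : Module.Basis (Fin 2) T V :=
    basisOfTopLeSpanOfCardEqFinrank ![v₀, v₁] (le_of_eq hspan.symm) hcard
  have hb : ⇑b = ![v₀, v₁] := coe_basisOfTopLeSpanOfCardEqFinrank _ _ _
  refine ⟨b, ?_, ?_⟩
  · rw [hb]
    exact hπv₀
  · rw [hb]
    exact hπv₁

/-- **the eigenbasis of an endomorphism with `(f - 1)(f - e) = 0`.** -/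
theorem exists_eigenbasis (hV : Module.finrank T V = 2) (f : Module.End T V) (e : T)
    (he1 : IsUnit (e - 1)) (he : IsUnit e)
    (hf : (f - 1) * (f - algebraMap T (Module.End T V) e) = 0) (hdet : LinearMap.det f = e) :
    ∃ b : Module.Basis (Fin 2) T V, f (b 0) = e • b 0 ∧ f (b 1) = b 1 := by
  obtain ⟨u, hu⟩ := he1.exists_left_inv
  haveI : Nontrivial T := inferInstance
  haveI : Nontrivial V := by
    apply Module.nontrivial_of_finrank_pos (R := T)
    rw [hV]; norm_num
  set π : Module.End T V := u • (f - 1) with hπdef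
  have hsq : (f - 1) * (f - 1) = (e - 1) • (f - 1) := by
    have key : (f - 1 : Module.End T V) = (f - algebraMap T (Module.End T V) e) +
        (e - 1) • (1 : Module.End T V) := by
      rw [Algebra.algebraMap_eq_smul_one, sub_smul, one_smul]; abel
    calc (f - 1) * (f - 1) = (f - 1) * ((f - algebraMap T (Module.End T V) e) +
          (e - 1) • (1 : Module.End T V)) := by rw [← key]
      _ = (f - 1) * (f - algebraMap T (Module.End T V) e) +
          (f - 1) * ((e - 1) • (1 : Module.End T V)) := mul_add _ _ _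
      _ = (e - 1) • (f - 1) := by rw [hf, zero_add, mul_smul_comm, mul_one]
  have hπ : π * π = π := by
    rw [hπdef, smul_mul_smul_comm, hsq, smul_smul, mul_assoc, hu, mul_one]
  have hfπ : ∀ v : V, f v = v + (e - 1) • π v := by
    intro v
    rw [hπdef, LinearMap.smul_apply, smul_smul, mul_comm, hu, one_smul, LinearMap.sub_apply,
      Module.End.one_apply]
    abel
  have h0 : π ≠ 0 := by
    intro h
    have hf1 : f = 1 := by
      refine LinearMap.ext fun v => ?_
      rw [hfπ v, h, LinearMap.zero_apply, smul_zero, add_zero, Module.End.one_apply]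
    rw [hf1, map_one] at hdet
    rw [← hdet, sub_self] at he1
    exact not_isUnit_zero he1
  have h1 : π ≠ 1 := by
    intro h
    have hfe : f = e • (1 : Module.End T V) := by
      refine LinearMap.ext fun v => ?_
      rw [hfπ v, h, Module.End.one_apply, LinearMap.smul_apply, Module.End.one_apply, sub_smul,
        one_smul]
      abel
    rw [hfe, LinearMap.det_smul, map_one, mul_one, hV] at hdet
    have h2 : e * (e - 1) = 0 := by linear_combination hdet
    have h3 : e - 1 = 0 := by
      obtain ⟨w, hw⟩ := he.exists_left_inv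
      calc e - 1 = w * e * (e - 1) := by rw [hw, one_mul]
        _ = w * (e * (e - 1)) := by ring
        _ = 0 := by rw [h2, mul_zero]
    rw [h3] at he1
    exact not_isUnit_zero he1
  obtain ⟨b, hb0, hb1⟩ := exists_basis_of_idempotent hV π hπ h0 h1
  refine ⟨b, ?_, ?_⟩
  · rw [hfπ, hb0, sub_smul, one_smul]
    abel
  · rw [hfπ, hb1, smul_zero, add_zero]

end Idem

end Fermat.Agent.ML.REPTL
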