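/-
PROJECT ML (S59) — [REPT-L] part A (helper9), file 7: **descent of (strict) ordinarity to a subring
of a product** `T ↪ B₁ × B₂`.

For `p` odd and `det ρ = ε`: choose `τ ∈ I_P` with `ε(τ) ≢ 1`; then `e = det ρ(τ)` has `e - 1 ∈ Tˣ`,
`tr ρ(τ) = 1 + e` (true in both factors, which are ordinary), so `(ρ(τ) - 1)(ρ(τ) - e) = 0` and `V`
has an eigenbasis `b` (`ρ(τ) b₀ = e b₀`, `ρ(τ) b₁ = b₁`).  In an ordinary representation the ordinary
line IS the `e`-eigenspace of `ρ(τ)`; hence `T b₀` is stable under the decomposition group and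
inertia is trivial modulo it, because this holds in both factors.  Strictness: `z² = 1` in both
factors, hence in `T`, and `x - a z = z (x z - a)`.
-/
import Mathlib
import Fermat.Agent.ML.REPTL_helper9_Descent
import Fermat.Agent.ML.REPTL_helper9_Idem
import Fermat.Agent.TW.CycloRam_helper6
import Fermat.Agent.RB.REPT_helper1_TraceCompare

set_option autoImplicit false
set_option linter.unusedSectionVars false
set_option linter.unusedVariables false
set_option linter.style.haveILetI false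

noncomputable section

namespace Fermat.Agent.ML.REPTL

open Polynomial IsLocalRing GaloisRepAdic Fermat.Agent.TW
open scoped TensorProduct

local notation "Ω" => AlgebraicClosure ℚ
local notation "GQ" => (AlgebraicClosure ℚ ≃ₐ[ℚ] AlgebraicClosure ℚ)

section Units

variable {R : Type*} [CommRing R] [IsLocalRing R]

/-- `a - 1` is a unit of a local ring of residue characteristic `p` if `a ≢ 1 mod p`. -/
theorem isUnit_natCast_sub_one {p a : ℕ} (hp : p.Prime) (hpR : (p : R) ∈ maximalIdeal R)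
    (ha : ¬ a ≡ 1 [MOD p]) : IsUnit ((a : R) - 1) := by
  by_contra h
  have h' : (a : R) - 1 ∈ maximalIdeal R := h
  have hpk : ((p : ℕ) : ResidueField R) = 0 := by
    rw [← map_natCast (residue R), residue_eq_zero_iff]
    exact hpR
  haveI : Fact p.Prime := ⟨hp⟩
  haveI : CharP (ResidueField R) p := (CharP.charP_iff_prime_eq_zero hp).mpr hpk
  apply ha
  rw [← CharP.natCast_eq_natCast (ResidueField R) p, Nat.cast_one]
  have := (residue_eq_zero_iff _).mpr h'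
  rw [map_sub, map_natCast, map_one, sub_eq_zero] at this
  exact this

/-- a unit plus an element of the maximal ideal is a unit. -/
theorem isUnit_of_sub_mem {x y : R} (hy : IsUnit y) (h : x - y ∈ maximalIdeal R) : IsUnit x := by
  by_contra hx
  have hx' : x ∈ maximalIdeal R := hx
  have : y ∈ maximalIdeal R := by
    have := Ideal.sub_mem _ hx' h
    rwa [sub_sub_cancel] at this
  exact this hy

/-- `(p^n) ⊆ 𝔪^n`. -/
theorem span_natCast_pow_le {p : ℕ} (hpR : (p : R) ∈ maximalIdeal R) (n : ℕ) :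
    Ideal.span {((p ^ n : ℕ) : R)} ≤ maximalIdeal R ^ n := by
  rw [Ideal.span_singleton_le_iff_mem, Nat.cast_pow]
  exact Ideal.pow_mem_pow hpR n

end Units

section Inertia

/-- an element of inertia at `p` acting non-trivially on `μ_p`. -/
theorem exists_mem_inertia_exponent {p : ℕ} (hp : p.Prime) (hp2 : p ≠ 2)
    {P : ValuationSubring Ω} (hP : P.LiesOverPrime p) :
    ∃ τ ∈ P.inertiaSubgroupIn ℚ, ∃ a : ℕ, (∀ μ : Ω, μ ^ p ^ 1 = 1 → τ μ = μ ^ a) ∧
      ¬ a ≡ 1 [MOD p] := by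
  haveI : Fact p.Prime := ⟨hp⟩
  obtain ⟨ζ, hζ⟩ := Fermat.Agent.CFT.S14.exists_primitiveRoot_Qbar p
  obtain ⟨τ, hτ, hτζ⟩ := exists_mem_inertia_map_ne hp hp2 hP hζ
  haveI : NeZero (p ^ 1) := ⟨by rw [pow_one]; exact hp.ne_zero⟩
  obtain ⟨a, ha⟩ := exists_cyclotomic_exponent (p ^ 1) τ
  refine ⟨τ, hτ, a, ha, fun hmod => hτζ ?_⟩
  rw [ha ζ (by rw [pow_one]; exact hζ.pow_eq_one), ← pow_mod_orderOf, ← hζ.eq_orderOf, hmod,
    Nat.mod_eq_of_lt hp.one_lt, pow_one]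

theorem mem_decomposition_of_mem_inertia {P : ValuationSubring Ω} {τ : GQ}
    (hτ : τ ∈ P.inertiaSubgroupIn ℚ) : τ ∈ P.decompositionSubgroup ℚ := by
  obtain ⟨σ', -, rfl⟩ := hτ
  exact σ'.2

end Inertia

section Line

variable {B : Type} [CommRing B] [IsLocalRing B] (ρ' : GaloisRepAdic B)

/-- **in an ordinary representation the ordinary line is the `det ρ(τ)`-eigenspace of `ρ(τ)`**,
for `τ` in inertia with `det ρ(τ) - 1` a unit; and `tr ρ(τ) = 1 + det ρ(τ)`. -/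
theorem ordinary_line_eq_eigenspace {P : ValuationSubring Ω} {τ : GQ}
    (hτ : τ ∈ P.inertiaSubgroupIn ℚ) (L : Submodule B ρ'.V)
    (hb : ∃ b : Module.Basis (Fin 2) B ρ'.V, L = B ∙ b 0)
    (hD : ∀ σ ∈ P.decompositionSubgroup ℚ, ∀ v ∈ L, ρ'.ρ σ v ∈ L)
    (hI : ∀ σ ∈ P.inertiaSubgroupIn ℚ, ∀ v : ρ'.V, ρ'.ρ σ v - v ∈ L)
    (he : IsUnit (LinearMap.det (ρ'.ρ τ) - 1)) :
    LinearMap.trace B ρ'.V (ρ'.ρ τ) = 1 + LinearMap.det (ρ'.ρ τ) ∧
      ∀ v : ρ'.V, v ∈ L ↔ ρ'.ρ τ v = LinearMap.det (ρ'.ρ τ) • v := by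
  obtain ⟨b, hL⟩ := hb
  have hb0L : b 0 ∈ L := by rw [hL]; exact Submodule.mem_span_singleton_self _
  have h0 := hD τ (mem_decomposition_of_mem_inertia hτ) (b 0) hb0L
  rw [hL] at h0
  obtain ⟨x, hx⟩ := Submodule.mem_span_singleton.mp h0
  have h1 : ρ'.ρ τ (b 1) - (1 : B) • b 1 ∈ Submodule.span B {b 0} := by
    rw [one_smul, ← hL]
    exact hI τ hτ (b 1)
  have hdet := det_eq_mul_of_triangular b (ρ'.ρ τ) x 1 hx.symm h1
  have htr := trace_eq_add_of_triangular b (ρ'.ρ τ) x 1 hx.symm h1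
  rw [mul_one] at hdet
  refine ⟨by rw [htr, hdet, add_comm], fun v => ?_⟩
  rw [hdet]
  obtain ⟨y, hy⟩ := Submodule.mem_span_singleton.mp h1
  have hb1 : ρ'.ρ τ (b 1) = y • b 0 + b 1 := by
    rw [one_smul] at hy
    rw [hy]; abel
  have hv := basis_fin_two_decomp b v
  set s := b.repr v 0
  set t := b.repr v 1
  constructor
  · intro hvL
    rw [hL, mem_span_basis_zero_iff] at hvL
    have ht : t = 0 := hvL
    rw [hv, ht, zero_smul, add_zero, map_smul, ← hx, smul_comm]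
  · intro heig
    rw [hL, mem_span_basis_zero_iff]
    show t = 0
    -- compare the coefficients of `b 1`
    have e1 : ρ'.ρ τ v = (s * x + t * y) • b 0 + t • b 1 := by
      rw [hv, map_add, map_smul, map_smul, ← hx, hb1, smul_add, smul_smul, smul_smul, add_smul]
      abel
    have e2 : x • v = (x * s) • b 0 + (x * t) • b 1 := by
      rw [hv, smul_add, smul_smul, smul_smul]
    rw [e1, e2] at heig
    have e3 := congrArg (fun w => b.repr w 1) heig
    simp only [map_add, map_smul, Module.Basis.repr_self, Finsupp.add_apply, Finsupp.smul_apply,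
      Finsupp.single_apply, smul_eq_mul] at e3
    simp only [Fin.isValue, zero_ne_one, mul_zero, mul_one, zero_add, ↓reduceIte] at e3
    have e4 : (x - 1) * t = 0 := by linear_combination -e3
    rw [hdet] at he
    obtain ⟨w, hw⟩ := he.exists_left_inv
    calc t = w * (x - 1) * t := by rw [hw, one_mul]
      _ = w * ((x - 1) * t) := by ring
      _ = 0 := by rw [e4, mul_zero]

end Line

section Ord

variable {T B₁ B₂ : Type} [CommRing T] [IsLocalRing T] [CommRing B₁] [IsLocalRing B₁]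
  [CommRing B₂] [IsLocalRing B₂]
  (f₁ : T →+* B₁) (hf₁ : IsLocalHom f₁) (f₂ : T →+* B₂) (hf₂ : IsLocalHom f₂)
  (hinj : ∀ x : T, f₁ x = 0 → f₂ x = 0 → x = 0) (ρ : GaloisRepAdic T)

/-- `1 ⊗ (e • w) = e • (1 ⊗ w)`. -/
theorem one_tmul_smul {B : Type} [CommRing B] [Algebra T B] (e : T) (w : ρ.V) :
    (1 : B) ⊗ₜ[T] (e • w) = algebraMap T B e • ((1 : B) ⊗ₜ[T] w) := by
  rw [TensorProduct.tmul_smul, TensorProduct.smul_tmul', Algebra.smul_def, mul_one,
    TensorProduct.smul_tmul', smul_eq_mul, mul_one]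

/-- a basis vector of the base change has trivial annihilator. -/
theorem smul_one_tmul_basis_eq_zero {B : Type} [CommRing B] [Algebra T B]
    (b : Module.Basis (Fin 2) T ρ.V) (i : Fin 2) (c : B) (h : c • ((1 : B) ⊗ₜ[T] b i) = 0) :
    c = 0 := by
  have h1 := congrArg (fun w => (b.baseChange B).repr w i) h
  simp only [map_smul, map_zero, Finsupp.coe_zero, Pi.zero_apply, Finsupp.smul_apply] at h1
  rw [Module.Basis.baseChange_repr_tmul, Module.Basis.repr_self, Finsupp.single_apply, if_pos rfl,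
    one_smul, smul_eq_mul, mul_one] at h1
  exact h1

/-- the `e`-eigenspace of `ρ(τ)` in an eigenbasis. -/
theorem mem_span_iff_eigen (b : Module.Basis (Fin 2) T ρ.V) (g : Module.End T ρ.V) (e : T)
    (he1 : IsUnit (e - 1)) (hb0 : g (b 0) = e • b 0) (hb1 : g (b 1) = b 1) (w : ρ.V) :
    w ∈ Submodule.span T {b 0} ↔ g w = e • w := by
  have hw := basis_fin_two_decomp b w
  set s := b.repr w 0
  set t := b.repr w 1
  rw [mem_span_basis_zero_iff]
  constructor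
  · intro ht
    have ht' : t = 0 := ht
    rw [hw, ht', zero_smul, add_zero, map_smul, hb0, smul_comm]
  · intro heig
    show t = 0
    have e1 : g w = (s * e) • b 0 + t • b 1 := by
      rw [hw, map_add, map_smul, map_smul, hb0, hb1, smul_smul]
    have e2 : e • w = (e * s) • b 0 + (e * t) • b 1 := by
      rw [hw, smul_add, smul_smul, smul_smul]
    rw [e1, e2] at heig
    have e3 := congrArg (fun w => b.repr w 1) heig
    simp only [map_add, map_smul, Module.Basis.repr_self, Finsupp.add_apply, Finsupp.smul_apply,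
      Finsupp.single_apply, smul_eq_mul] at e3
    simp only [Fin.isValue, zero_ne_one, mul_zero, mul_one, zero_add, ↓reduceIte] at e3
    have e4 : (e - 1) * t = 0 := by linear_combination -e3
    obtain ⟨u, hu⟩ := he1.exists_left_inv
    calc t = u * (e - 1) * t := by rw [hu, one_mul]
      _ = u * ((e - 1) * t) := by ring
      _ = 0 := by rw [e4, mul_zero]

/-- the ordinary datum of a factor, with the line described as an eigenspace. -/
theorem exists_eigen_line {B : Type} [CommRing B] [IsLocalRing B] (ρ' : GaloisRepAdic B) {p : ℕ}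
    (h : ρ'.IsOrdinaryAt p) {P : ValuationSubring Ω} (hP : P.LiesOverPrime p) {τ : GQ}
    (hτ : τ ∈ P.inertiaSubgroupIn ℚ) (he : IsUnit (LinearMap.det (ρ'.ρ τ) - 1)) :
    LinearMap.trace B ρ'.V (ρ'.ρ τ) = 1 + LinearMap.det (ρ'.ρ τ) ∧
    ∃ L : Submodule B ρ'.V,
      (∀ σ ∈ P.decompositionSubgroup ℚ, ∀ v ∈ L, ρ'.ρ σ v ∈ L) ∧
      (∀ σ ∈ P.inertiaSubgroupIn ℚ, ∀ v : ρ'.V, ρ'.ρ σ v - v ∈ L) ∧
      ∀ v : ρ'.V, v ∈ L ↔ ρ'.ρ τ v = LinearMap.det (ρ'.ρ τ) • v := by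
  obtain ⟨L, hb, hD, hI⟩ := h P hP
  obtain ⟨h1, h2⟩ := ordinary_line_eq_eigenspace ρ' hτ L hb hD hI he
  exact ⟨h1, L, hD, hI, h2⟩

include hinj in
/-- **the descended ordinary line, with its eigenbasis.** -/
theorem exists_ordinary_basis_of_pair {p : ℕ} (hp : p.Prime) (hp2 : p ≠ 2)
    (hdet : ρ.DetIsCyclotomic p)
    (h₁ : (ρ.baseChangeAlong f₁ hf₁).IsOrdinaryAt p)
    (h₂ : (ρ.baseChangeAlong f₂ hf₂).IsOrdinaryAt p)
    {P : ValuationSubring Ω} (hP : P.LiesOverPrime p) :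
    ∃ (τ : GQ) (_ : τ ∈ P.inertiaSubgroupIn ℚ) (e : T) (b : Module.Basis (Fin 2) T ρ.V),
      IsUnit (e - 1) ∧ IsUnit e ∧ e = LinearMap.det (ρ.ρ τ) ∧
      ρ.ρ τ (b 0) = e • b 0 ∧ ρ.ρ τ (b 1) = b 1 ∧
      (∀ σ ∈ P.decompositionSubgroup ℚ, ∀ v ∈ Submodule.span T {b 0},
        ρ.ρ σ v ∈ Submodule.span T {b 0}) ∧
      (∀ σ ∈ P.inertiaSubgroupIn ℚ, ∀ v : ρ.V, ρ.ρ σ v - v ∈ Submodule.span T {b 0}) := by
  obtain ⟨τ, hτ, a, ha, hmod⟩ := exists_mem_inertia_exponent hp hp2 hP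
  set e : T := LinearMap.det (ρ.ρ τ) with he
  -- `e - 1` is a unit
  have hea : e - (a : T) ∈ maximalIdeal T := by
    have h1 := hdet.2 1 τ a ha
    exact (span_natCast_pow_le hdet.1 1).trans (by rw [pow_one]) h1
  have ha1 : IsUnit ((a : T) - 1) := isUnit_natCast_sub_one hp hdet.1 hmod
  have he1 : IsUnit (e - 1) := by
    refine isUnit_of_sub_mem ha1 ?_
    have : e - 1 - ((a : T) - 1) = e - (a : T) := by ring
    rw [this]
    exact hea
  have heu : IsUnit e := by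
    have h1 : LinearMap.det (ρ.ρ τ) * LinearMap.det (ρ.ρ τ⁻¹) = 1 := by
      rw [← map_mul, ← map_mul, mul_inv_cancel, map_one, map_one]
    exact IsUnit.of_mul_eq_one _ h1
  -- the factors
  have hu₁ : IsUnit (LinearMap.det ((ρ.baseChangeAlong f₁ hf₁).ρ τ) - 1) := by
    rw [det_baseChangeAlong]
    have := he1.map f₁
    rwa [map_sub, map_one] at this
  have hu₂ : IsUnit (LinearMap.det ((ρ.baseChangeAlong f₂ hf₂).ρ τ) - 1) := by
    rw [det_baseChangeAlong]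
    have := he1.map f₂
    rwa [map_sub, map_one] at this
  obtain ⟨htr₁, L₁, hD₁, hI₁, hL₁⟩ := exists_eigen_line _ h₁ hP hτ hu₁
  obtain ⟨htr₂, L₂, hD₂, hI₂, hL₂⟩ := exists_eigen_line _ h₂ hP hτ hu₂
  rw [det_baseChangeAlong] at htr₁ htr₂ hL₁ hL₂
  -- the trace
  have htr : LinearMap.trace T ρ.V (ρ.ρ τ) = 1 + e := by
    refine eq_of_pair f₁ f₂ hinj ?_ ?_
    · have := Fermat.Agent.RB.REPT.trace_baseChangeAlong f₁ hf₁ ρ τ
      unfold GaloisRepAdic.trace at this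
      rw [← this, htr₁, map_add, map_one]
    · have := Fermat.Agent.RB.REPT.trace_baseChangeAlong f₂ hf₂ ρ τ
      unfold GaloisRepAdic.trace at this
      rw [← this, htr₂, map_add, map_one]
  -- Cayley–Hamilton
  have hCH : (ρ.ρ τ - 1) * (ρ.ρ τ - algebraMap T (Module.End T ρ.V) e) = 0 := by
    have h1 := LinearMap.aeval_self_charpoly (ρ.ρ τ)
    rw [Fermat.Agent.GR.charpoly_eq_of_finrank_eq_two ρ.finrank_eq (ρ.ρ τ), htr, ← he] at h1
    simp only [map_add, map_sub, map_mul, map_pow, aeval_X, aeval_C, map_one] at h1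
    have hcomm : ρ.ρ τ * algebraMap T (Module.End T ρ.V) e =
        algebraMap T (Module.End T ρ.V) e * ρ.ρ τ := (Algebra.commutes e (ρ.ρ τ)).symm
    calc (ρ.ρ τ - 1) * (ρ.ρ τ - algebraMap T (Module.End T ρ.V) e)
        = ρ.ρ τ * ρ.ρ τ - ρ.ρ τ * algebraMap T (Module.End T ρ.V) e - ρ.ρ τ +
          algebraMap T (Module.End T ρ.V) e := by noncomm_ring
      _ = ρ.ρ τ ^ 2 - (1 + algebraMap T (Module.End T ρ.V) e) * ρ.ρ τ +
          algebraMap T (Module.End T ρ.V) e := by rw [hcomm]; noncomm_ring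
      _ = 0 := h1
  obtain ⟨b, hb0, hb1⟩ := exists_eigenbasis ρ.finrank_eq (ρ.ρ τ) e he1 heu hCH he.symm
  -- the two factors see the eigenspace
  have key : ∀ w : ρ.V,
      (letI : Algebra T B₁ := f₁.toAlgebra; (1 : B₁) ⊗ₜ[T] w ∈ L₁) →
      (letI : Algebra T B₂ := f₂.toAlgebra; (1 : B₂) ⊗ₜ[T] w ∈ L₂) →
      w ∈ Submodule.span T {b 0} := by
    intro w hw₁ hw₂
    rw [mem_span_iff_eigen ρ b (ρ.ρ τ) e he1 hb0 hb1, ← sub_eq_zero]
    refine eq_zero_of_one_tmul_eq_zero f₁ f₂ hinj ρ _ ?_ ?_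
    · letI : Algebra T B₁ := f₁.toAlgebra
      have h1 := (hL₁ _).1 hw₁
      rw [baseChangeAlong_ρ_tmul f₁ hf₁ ρ τ 1 w] at h1
      show (1 : B₁) ⊗ₜ[T] (ρ.ρ τ w - e • w) = 0
      rw [TensorProduct.tmul_sub, h1, one_tmul_smul]
      exact sub_self _
    · letI : Algebra T B₂ := f₂.toAlgebra
      have h1 := (hL₂ _).1 hw₂
      rw [baseChangeAlong_ρ_tmul f₂ hf₂ ρ τ 1 w] at h1
      show (1 : B₂) ⊗ₜ[T] (ρ.ρ τ w - e • w) = 0
      rw [TensorProduct.tmul_sub, h1, one_tmul_smul]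
      exact sub_self _
  have hmem₁ : ∀ v ∈ Submodule.span T {b 0},
      (letI : Algebra T B₁ := f₁.toAlgebra; (1 : B₁) ⊗ₜ[T] v ∈ L₁) := by
    intro v hv
    letI : Algebra T B₁ := f₁.toAlgebra
    rw [mem_span_iff_eigen ρ b (ρ.ρ τ) e he1 hb0 hb1] at hv
    refine (hL₁ _).2 ?_
    refine (baseChangeAlong_ρ_tmul f₁ hf₁ ρ τ 1 v).trans ?_
    rw [hv, one_tmul_smul]
    rfl
  have hmem₂ : ∀ v ∈ Submodule.span T {b 0},
      (letI : Algebra T B₂ := f₂.toAlgebra; (1 : B₂) ⊗ₜ[T] v ∈ L₂) := by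
    intro v hv
    letI : Algebra T B₂ := f₂.toAlgebra
    rw [mem_span_iff_eigen ρ b (ρ.ρ τ) e he1 hb0 hb1] at hv
    refine (hL₂ _).2 ?_
    refine (baseChangeAlong_ρ_tmul f₂ hf₂ ρ τ 1 v).trans ?_
    rw [hv, one_tmul_smul]
    rfl
  refine ⟨τ, hτ, e, b, he1, heu, rfl, hb0, hb1, ?_, ?_⟩
  · intro σ hσ v hv
    refine key _ ?_ ?_
    · letI : Algebra T B₁ := f₁.toAlgebra
      have := hD₁ σ hσ _ (hmem₁ v hv)
      rw [baseChangeAlong_ρ_tmul f₁ hf₁ ρ σ 1 v] at this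
      exact this
    · letI : Algebra T B₂ := f₂.toAlgebra
      have := hD₂ σ hσ _ (hmem₂ v hv)
      rw [baseChangeAlong_ρ_tmul f₂ hf₂ ρ σ 1 v] at this
      exact this
  · intro σ hσ v
    refine key _ ?_ ?_
    · letI : Algebra T B₁ := f₁.toAlgebra
      have := hI₁ σ hσ ((1 : B₁) ⊗ₜ[T] v)
      rw [baseChangeAlong_ρ_tmul f₁ hf₁ ρ σ 1 v] at this
      have h3 : (1 : B₁) ⊗ₜ[T] (ρ.ρ σ v - v) =
          (1 : B₁) ⊗ₜ[T] (ρ.ρ σ v) - (1 : B₁) ⊗ₜ[T] v := TensorProduct.tmul_sub _ _ _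
      rw [h3]
      exact this
    · letI : Algebra T B₂ := f₂.toAlgebra
      have := hI₂ σ hσ ((1 : B₂) ⊗ₜ[T] v)
      rw [baseChangeAlong_ρ_tmul f₂ hf₂ ρ σ 1 v] at this
      have h3 : (1 : B₂) ⊗ₜ[T] (ρ.ρ σ v - v) =
          (1 : B₂) ⊗ₜ[T] (ρ.ρ σ v) - (1 : B₂) ⊗ₜ[T] v := TensorProduct.tmul_sub _ _ _
      rw [h3]
      exact this

include hinj in
/-- **ordinarity descends.** -/
theorem isOrdinaryAt_of_pair {p : ℕ} (hp : p.Prime) (hp2 : p ≠ 2) (hdet : ρ.DetIsCyclotomic p)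
    (h₁ : (ρ.baseChangeAlong f₁ hf₁).IsOrdinaryAt p)
    (h₂ : (ρ.baseChangeAlong f₂ hf₂).IsOrdinaryAt p) : ρ.IsOrdinaryAt p := by
  intro P hP
  obtain ⟨τ, hτ, e, b, -, -, -, -, -, hD, hI⟩ :=
    exists_ordinary_basis_of_pair f₁ hf₁ f₂ hf₂ hinj ρ hp hp2 hdet h₁ h₂ hP
  exact ⟨Submodule.span T {b 0}, ⟨b, rfl⟩, hD, hI⟩

end Ord

end Fermat.Agent.ML.REPTL
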