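/-
PROJECT ML (S59) — [REPT-L] part A (helper9): **the decomposition group is generated by a Frobenius
lift and inertia at every finite level** (the form without unramifiedness of helper4's
`RB.SEL.exists_pow_of_mem_decompositionSubgroup`).

* `exists_pow_mul_inertia_agree` : `L / ℚ` finite normal, `P ∣ q`, `φ` a Frobenius lift at `P`,
  `σ ∈ D_P`: there are `k : ℕ` and `ι ∈ I_P` such that `σ = φ ^ k ι` on `L`.
-/
import Mathlib
import Fermat.Agent.RB.SEL_helper4_Frob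

set_option autoImplicit false
set_option linter.unusedSectionVars false
set_option linter.unusedVariables false
set_option linter.style.haveILetI false

open scoped Pointwise

namespace Fermat.Agent.ML.REPTL

open Fermat.Agent.TW Fermat.Agent.CFT.Arith Fermat.Agent.CFT.LocForm IntermediateField
  Fermat.Agent.RB.SEL

local notation "Ω" => AlgebraicClosure ℚ
local notation "GQ" => (AlgebraicClosure ℚ ≃ₐ[ℚ] AlgebraicClosure ℚ)

/-- a normal subextension is stable under the Galois group. -/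
theorem map_mem_of_normal (L : IntermediateField ℚ Ω) [hL : Normal ℚ L] (σ : GQ) {x : Ω}
    (hx : x ∈ L) : σ x ∈ L := by
  have h : ((σ : Ω →ₐ[ℚ] Ω).comp L.val).fieldRange = L :=
    @AlgHom.fieldRange_of_normal ℚ Ω _ _ _ L hL ((σ : Ω →ₐ[ℚ] Ω).comp L.val)
  have h1 : σ x ∈ ((σ : Ω →ₐ[ℚ] Ω).comp L.val).fieldRange := ⟨⟨x, hx⟩, rfl⟩
  rwa [h] at h1

section Padic

variable {q : ℕ} [hq : Fact q.Prime]

/-- the statement at the place `padicPlace q`. -/
theorem exists_pow_mul_inertia_agree_padicPlace (L : IntermediateField ℚ Ω)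
    [FiniteDimensional ℚ L] [Normal ℚ L]
    {φ : GQ} (hφ : (padicPlace q).IsFrobeniusAt φ q) {σ : GQ}
    (hσ : σ ∈ (padicPlace q).decompositionSubgroup ℚ) :
    ∃ k : ℕ, ∃ ι ∈ (padicPlace q).inertiaSubgroupIn ℚ, ∀ x ∈ L, σ x = (φ ^ k * ι) x := by
  classical
  obtain ⟨K', hK'fin, hK'⟩ := exists_finiteDimensional_fixingSubgroup_le (q := q) L
  haveI := hK'fin
  obtain ⟨m, hmq, hm0, hle⟩ := exists_coprime_fixingSubgroup_le
    (L.fixingSubgroup.comap (localGaloisToGlobal q)) K' hK'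
  haveI : NeZero m := ⟨hm0.ne'⟩
  obtain ⟨ζ, hζ⟩ := HasEnoughRootsOfUnity.exists_primitiveRoot Ω m
  -- the level `L(ζ)`
  obtain ⟨F, hF⟩ : ∃ F : IntermediateField ℚ Ω, F = L ⊔ ℚ⟮ζ⟯ := ⟨_, rfl⟩
  haveI : FiniteDimensional ℚ ℚ⟮ζ⟯ :=
    adjoin.finiteDimensional (Algebra.IsIntegral.isIntegral ζ)
  haveI : FiniteDimensional ℚ F := by rw [hF]; exact IntermediateField.finiteDimensional_sup L _
  have hLF : L ≤ F := by rw [hF]; exact le_sup_left
  have hζF : ζ ∈ F := by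
    rw [hF]; exact (le_sup_right : ℚ⟮ζ⟯ ≤ L ⊔ ℚ⟮ζ⟯) (mem_adjoin_simple_self ℚ ζ)
  obtain ⟨τ, hτ⟩ := exists_local_lift q σ hσ F
  obtain ⟨τ₀, hτ₀⟩ := exists_local_lift q φ hφ.mem_decompositionSubgroup F
  -- the action on the primitive root
  set ω : PadicAlgCl q := padicEmbedding q ζ with hω
  have hωprim : IsPrimitiveRoot ω m := hζ.map_of_injective (padicEmbedding q).injective
  have hτ₀ω : τ₀ ω = ω ^ q := by
    rw [hω, ← padicEmbedding_localGaloisToGlobal, hτ₀ ζ hζF,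
      frobenius_apply_root hφ hmq hζ.pow_eq_one, map_pow]
  obtain ⟨k, hk⟩ := exists_pow_eq_of_isPrimitiveRoot hmq hωprim τ
  have hpow : ∀ j : ℕ, (τ₀ ^ j) ω = ω ^ (q ^ j) := by
    intro j
    induction j with
    | zero => rw [pow_zero, pow_zero, pow_one]; rfl
    | succ j ih =>
      rw [pow_succ', AlgEquiv.mul_apply, ih, map_pow, hτ₀ω, ← pow_mul, pow_succ']
  -- the correction term fixes the `m`-th roots of unity
  obtain ⟨n, hn⟩ : ∃ n : PadicAlgCl q ≃ₐ[ℚ_[q]] PadicAlgCl q, n = (τ₀ ^ k)⁻¹ * τ := ⟨_, rfl⟩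
  have hnω : n ω = ω := by
    rw [hn, AlgEquiv.mul_apply, hk, ← hpow k, ← AlgEquiv.mul_apply, inv_mul_cancel]
    rfl
  have hnmem : n ∈ unrInertia q ⊔ L.fixingSubgroup.comap (localGaloisToGlobal q) := by
    apply hle
    rw [fixingSubgroup_adjoin_iff]
    intro ξ hξ
    obtain ⟨i, -, rfl⟩ := hωprim.eq_pow_of_pow_eq_one (show ξ ^ m = 1 from hξ)
    rw [map_pow, hnω]
  obtain ⟨ι', hι', ν, hν, hιν⟩ := Subgroup.mem_sup_of_normal_left.mp hnmem
  have hτeq : τ = τ₀ ^ k * (ι' * ν) := by rw [hιν, hn]; group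
  refine ⟨k, localGaloisToGlobal q ι', localGaloisToGlobal_mem_inertiaSubgroupIn ι' hι', ?_⟩
  intro x hx
  -- `ν` fixes `L`
  have hνx : localGaloisToGlobal q ν x = x :=
    (IntermediateField.mem_fixingSubgroup_iff _ _).1 hν x hx
  -- the powers of `τ₀` and of `φ` agree on `L`
  have hpowL : ∀ (j : ℕ) (y : Ω), y ∈ L →
      localGaloisToGlobal q (τ₀ ^ j) y = (φ ^ j) y ∧ (φ ^ j) y ∈ L := by
    intro j
    induction j with
    | zero =>
      intro y hy
      rw [pow_zero, pow_zero, map_one]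
      exact ⟨rfl, hy⟩
    | succ j ih =>
      intro y hy
      obtain ⟨h1, h2⟩ := ih y hy
      rw [pow_succ', pow_succ', map_mul, AlgEquiv.mul_apply, AlgEquiv.mul_apply, h1,
        hτ₀ _ (hLF h2)]
      exact ⟨rfl, map_mem_of_normal L φ h2⟩
  have hιx : localGaloisToGlobal q ι' x ∈ L := map_mem_of_normal L _ hx
  calc σ x = localGaloisToGlobal q τ x := (hτ x (hLF hx)).symm
    _ = localGaloisToGlobal q (τ₀ ^ k) (localGaloisToGlobal q ι' (localGaloisToGlobal q ν x)) := by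
        rw [hτeq, map_mul, map_mul]; rfl
    _ = (φ ^ k) (localGaloisToGlobal q ι' x) := by rw [hνx, (hpowL k _ hιx).1]
    _ = (φ ^ k * localGaloisToGlobal q ι') x := rfl

end Padic

/-- **the decomposition group at a finite level**: `σ = φ ^ k ι` on `L`. -/
theorem exists_pow_mul_inertia_agree {q : ℕ} (hq : q.Prime) (L : IntermediateField ℚ Ω)
    [FiniteDimensional ℚ L] [Normal ℚ L] (P : ValuationSubring Ω) (hP : P.LiesOverPrime q)
    {φ : GQ} (hφ : P.IsFrobeniusAt φ q) {σ : GQ} (hσ : σ ∈ P.decompositionSubgroup ℚ) :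
    ∃ k : ℕ, ∃ ι ∈ P.inertiaSubgroupIn ℚ, ∀ x ∈ L, σ x = (φ ^ k * ι) x := by
  haveI : Fact q.Prime := ⟨hq⟩
  obtain ⟨g, hg⟩ := Fermat.Agent.EC.exists_smul_eq_of_liesOverPrime hq hP
    (Fermat.Agent.TW.Kill.padicPlace_liesOverPrime q)
  have hφ' : (padicPlace q).IsFrobeniusAt (g * φ * g⁻¹) q := by
    rw [hg]; exact isFrobeniusAt_conj g hφ
  have hσ' : g * σ * g⁻¹ ∈ (padicPlace q).decompositionSubgroup ℚ := by
    rw [hg, Fermat.Agent.EC.conj_mem_decompositionSubgroup]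
    exact hσ
  obtain ⟨k, ι', hι', hk⟩ := exists_pow_mul_inertia_agree_padicPlace L hφ' hσ'
  have hι : g⁻¹ * ι' * g ∈ P.inertiaSubgroupIn ℚ := by
    rw [← Fermat.Agent.EC.conj_mem_inertiaSubgroupIn hq hP g]
    have : g * (g⁻¹ * ι' * g) * g⁻¹ = ι' := by group
    rw [this, ← hg]
    exact hι'
  refine ⟨k, g⁻¹ * ι' * g, hι, fun x hx => ?_⟩
  have h1 := hk (g x) (map_mem_of_normal L g hx)
  have h2 : (g * σ * g⁻¹) (g x) = g (σ x) := by
    show g (σ (g⁻¹ (g x))) = g (σ x)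
    congr 2
    show (g⁻¹ * g) x = x
    rw [inv_mul_cancel]; rfl
  rw [h2] at h1
  have h3 : σ x = g⁻¹ (((g * φ * g⁻¹) ^ k * ι') (g x)) := by
    rw [← h1]
    show σ x = (g⁻¹ * g) (σ x)
    rw [inv_mul_cancel]; rfl
  rw [h3, conj_pow]
  show (g⁻¹ * (g * φ ^ k * g⁻¹ * ι') * g) x = (φ ^ k * (g⁻¹ * ι' * g)) x
  congr 1
  group

end Fermat.Agent.ML.REPTL
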