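/-
PROJECT ML (S59) — [REPT-L] part A (helper9): **the Frobenius scalar of the unramified quotient of an
ordinary representation** (helper2's `OrdQuotScalar`, `ML/IFACE_helper2_AtP`).

* `isOrdinaryAt_of_equiv` : ordinarity is invariant under equivalence;
* `quot_scalar_formula`, `ordQuotScalar_formula` : if `σ ∈ D_P` acts on `V / L` through `z` and
  `τ ∈ I_P`, then `z (det ρ(τ) - 1) = det ρ(τ) tr ρ(σ) - tr ρ(σ τ)`: the scalar is determined by
  traces and determinants;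
* `ordQuotScalar_map_eq` : hence a ring homomorphism compatible with traces and determinants maps
  the scalar to the scalar;
* `exists_mem_inertia_isUnit_det_sub_one` : `τ ∈ I_P` with `det ρ(τ) - 1` a unit (`p` odd,
  cyclotomic determinant);
* `exists_ordQuotScalar`, `ordQuotScalar_conj`, `ordQuotScalar_mul_inertia`;
* `exists_frobenius_scalar` : ONE element `U` which is the scalar of every Frobenius lift at every
  place over `p` (`TWChainGalois.Up`, `Up_spec`);
* `isStrictOrdinaryAt_of_frobenius_scalar_sq` : an ordinary representation with cyclotomic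
  determinant over a Hausdorff local ring whose Frobenius scalar has square `1` is strictly
  ordinary (Frobenius and inertia generate the decomposition group at every finite level).
-/
import Mathlib
import Fermat.Agent.ML.REPTL_helper9_DescentOrd
import Fermat.Agent.ML.REPTL_helper9_FrobDense
import Fermat.Agent.ML.IFACE_helper2_AtP
import Fermat.Agent.ML.KP_lead_Strict
import Fermat.Agent.ML.NSCH_helper7_Common
import Fermat.Agent.S54_Frobenius
import Fermat.Agent.TW.CondEquiv_helper6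

set_option autoImplicit false
set_option linter.unusedSectionVars false
set_option linter.unusedVariables false
set_option linter.style.haveILetI false

open scoped Pointwise

namespace Fermat.Agent.ML.REPTL

open Polynomial IsLocalRing GaloisRepAdic Fermat.Agent.TW Fermat.Agent.ML.KP

local notation "Ω" => AlgebraicClosure ℚ
local notation "GQ" => (AlgebraicClosure ℚ ≃ₐ[ℚ] AlgebraicClosure ℚ)

section Equiv

variable {A : Type} [CommRing A] [IsLocalRing A] {ρ ρ' : GaloisRepAdic A}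

/-- ordinarity is invariant under equivalence. -/
theorem isOrdinaryAt_of_equiv (e : GaloisRepAdic.Equiv ρ ρ') {p : ℕ}
    (h : ρ.IsOrdinaryAt p) : ρ'.IsOrdinaryAt p := by
  intro P hP
  obtain ⟨L, ⟨b, hb⟩, hD, hI⟩ := h P hP
  have hconj : ∀ σ (y : ρ'.V), ρ'.ρ σ y = e.toLinearEquiv (ρ.ρ σ (e.toLinearEquiv.symm y)) := by
    intro σ y
    rw [e.map_apply, LinearEquiv.apply_symm_apply]
  have hmem : ∀ y : ρ'.V, y ∈ L.map (e.toLinearEquiv : ρ.V →ₗ[A] ρ'.V) ↔
      e.toLinearEquiv.symm y ∈ L := by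
    intro y
    constructor
    · rintro ⟨x, hx, rfl⟩
      simpa using hx
    · intro hy
      exact ⟨_, hy, by simp⟩
  refine ⟨L.map (e.toLinearEquiv : ρ.V →ₗ[A] ρ'.V), ⟨b.map e.toLinearEquiv, ?_⟩, ?_, ?_⟩
  · rw [hb, Submodule.map_span, Set.image_singleton]
    simp
  · intro σ hσ v hv
    rw [hmem] at hv ⊢
    rw [hconj, LinearEquiv.symm_apply_apply]
    exact hD σ hσ _ hv
  · intro σ hσ v
    rw [hmem, hconj, map_sub, LinearEquiv.symm_apply_apply]
    exact hI σ hσ _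

end Equiv

section LinAlg

variable {R : Type*} [CommRing R] {V : Type*} [AddCommGroup V] [Module R V]

/-- the determinant of a triangular endomorphism. -/
theorem det_eq_mul_of_triangular (bs : Module.Basis (Fin 2) R V) (f : V →ₗ[R] V) (x z : R)
    (h0 : f (bs 0) = x • bs 0) (h1 : f (bs 1) - z • bs 1 ∈ Submodule.span R {bs 0}) :
    LinearMap.det f = x * z := by
  obtain ⟨μ, hμ⟩ := Submodule.mem_span_singleton.mp h1
  have h1' : f (bs 1) = μ • bs 0 + z • bs 1 := by rw [hμ]; abel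
  rw [← LinearMap.det_toMatrix bs, Matrix.det_fin_two]
  simp only [LinearMap.toMatrix_apply, h0, h1', map_add, map_smul, Module.Basis.repr_self,
    Finsupp.smul_single, smul_eq_mul, mul_one, Finsupp.add_apply, Finsupp.single_apply]
  simp

/-- **the scalar on the quotient from traces**: `f` (inertia) is `e` on the line and `1` on the
quotient, `g` is `x` on the line and `z` on the quotient. -/
theorem quot_scalar_formula (bs : Module.Basis (Fin 2) R V) (f g : V →ₗ[R] V) (e x z : R)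
    (hf0 : f (bs 0) = e • bs 0) (hf1 : f (bs 1) - bs 1 ∈ Submodule.span R {bs 0})
    (hg0 : g (bs 0) = x • bs 0) (hg1 : g (bs 1) - z • bs 1 ∈ Submodule.span R {bs 0}) :
    z * (e - 1) = e * LinearMap.trace R V g - LinearMap.trace R V (g * f) := by
  have h1 : LinearMap.trace R V g = x + z := trace_eq_add_of_triangular bs g x z hg0 hg1
  obtain ⟨μ, hμ⟩ := Submodule.mem_span_singleton.mp hf1
  obtain ⟨ν, hν⟩ := Submodule.mem_span_singleton.mp hg1
  have h2 : LinearMap.trace R V (g * f) = e * x + z := by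
    refine trace_eq_add_of_triangular bs (g * f) (e * x) z ?_ ?_
    · rw [Module.End.mul_apply, hf0, map_smul, hg0, smul_smul]
    · rw [Module.End.mul_apply]
      have hfb : f (bs 1) = bs 1 + μ • bs 0 := by rw [hμ]; abel
      rw [hfb, map_add, map_smul, hg0]
      have : g (bs 1) + μ • x • bs 0 - z • bs 1 = (ν + μ * x) • bs 0 := by
        rw [add_smul, hν, mul_smul]; abel
      rw [this]
      exact Submodule.smul_mem _ _ (Submodule.mem_span_singleton_self _)
  rw [h1, h2]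
  ring

end LinAlg

section Scalar

variable {A : Type} [CommRing A] [IsLocalRing A] (ρ : GaloisRepAdic A)

/-- the data of an ordinary line in a basis. -/
theorem ordinary_apply_basis {P : ValuationSubring Ω} (b : Module.Basis (Fin 2) A ρ.V)
    (hD : ∀ σ ∈ P.decompositionSubgroup ℚ, ∀ v ∈ Submodule.span A {b 0},
      ρ.ρ σ v ∈ Submodule.span A {b 0}) {σ : GQ} (hσ : σ ∈ P.decompositionSubgroup ℚ) :
    ∃ x : A, ρ.ρ σ (b 0) = x • b 0 := by
  obtain ⟨x, hx⟩ := Submodule.mem_span_singleton.mp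
    (hD σ hσ (b 0) (Submodule.mem_span_singleton_self _))
  exact ⟨x, hx.symm⟩

/-- **the scalar on the unramified quotient is determined by traces and determinants.** -/
theorem ordQuotScalar_formula {P : ValuationSubring Ω} {σ : GQ} {z : A}
    (h : OrdQuotScalar ρ P σ z) (hσ : σ ∈ P.decompositionSubgroup ℚ) {τ : GQ}
    (hτ : τ ∈ P.inertiaSubgroupIn ℚ) :
    z * (LinearMap.det (ρ.ρ τ) - 1) =
      LinearMap.det (ρ.ρ τ) * ρ.trace σ - ρ.trace (σ * τ) := by
  obtain ⟨L, ⟨b, rfl⟩, hD, hI, hz⟩ := h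
  obtain ⟨e, he⟩ := ordinary_apply_basis ρ b hD (mem_decomposition_of_mem_inertia hτ)
  obtain ⟨x, hx⟩ := ordinary_apply_basis ρ b hD hσ
  have hf1 : ρ.ρ τ (b 1) - b 1 ∈ Submodule.span A {b 0} := hI τ hτ (b 1)
  have hdet : LinearMap.det (ρ.ρ τ) = e := by
    rw [det_eq_mul_of_triangular b (ρ.ρ τ) e 1 he (by rwa [one_smul]), mul_one]
  rw [hdet]
  unfold GaloisRepAdic.trace
  rw [map_mul]
  exact quot_scalar_formula b (ρ.ρ τ) (ρ.ρ σ) e x z he hf1 hx (hz (b 1))

/-- the scalar is unique. -/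
theorem ordQuotScalar_unique {P : ValuationSubring Ω} {σ : GQ} {z z' : A}
    (h : OrdQuotScalar ρ P σ z) (h' : OrdQuotScalar ρ P σ z')
    (hσ : σ ∈ P.decompositionSubgroup ℚ) {τ : GQ}
    (hτ : τ ∈ P.inertiaSubgroupIn ℚ) (hu : IsUnit (LinearMap.det (ρ.ρ τ) - 1)) : z = z' := by
  have h1 := ordQuotScalar_formula ρ h hσ hτ
  have h2 := ordQuotScalar_formula ρ h' hσ hτ
  exact hu.mul_left_injective (h1.trans h2.symm)

/-- **a ring homomorphism compatible with traces and determinants maps the scalar to the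
scalar.** -/
theorem ordQuotScalar_map_eq {B : Type} [CommRing B] [IsLocalRing B] (ρ' : GaloisRepAdic B)
    (g : A →+* B) (htr : ∀ σ : GQ, g (ρ.trace σ) = ρ'.trace σ)
    (hdet : ∀ σ : GQ, g (LinearMap.det (ρ.ρ σ)) = LinearMap.det (ρ'.ρ σ))
    {P : ValuationSubring Ω} {σ τ : GQ} (hσ : σ ∈ P.decompositionSubgroup ℚ)
    (hτ : τ ∈ P.inertiaSubgroupIn ℚ) (hu : IsUnit (LinearMap.det (ρ'.ρ τ) - 1)) {z : A} {z' : B}
    (h : OrdQuotScalar ρ P σ z) (h' : OrdQuotScalar ρ' P σ z') : g z = z' := by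
  have h1 := congrArg g (ordQuotScalar_formula ρ h hσ hτ)
  rw [map_mul, map_sub, map_sub, map_mul, map_one, hdet, htr, htr] at h1
  have h2 := ordQuotScalar_formula ρ' h' hσ hτ
  exact hu.mul_left_injective (h1.trans h2.symm)

/-- an element of inertia at `p` on which the determinant is `≢ 1`. -/
theorem exists_mem_inertia_isUnit_det_sub_one {p : ℕ} (hp : p.Prime) (hp2 : p ≠ 2)
    (hdet : ρ.DetIsCyclotomic p) {P : ValuationSubring Ω} (hP : P.LiesOverPrime p) :
    ∃ τ ∈ P.inertiaSubgroupIn ℚ, IsUnit (LinearMap.det (ρ.ρ τ) - 1) := by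
  obtain ⟨τ, hτ, a, ha, hmod⟩ := exists_mem_inertia_exponent hp hp2 hP
  refine ⟨τ, hτ, ?_⟩
  have hea : LinearMap.det (ρ.ρ τ) - (a : A) ∈ maximalIdeal A := by
    have h1 := hdet.2 1 τ a ha
    exact (span_natCast_pow_le hdet.1 1).trans (by rw [pow_one]) h1
  have ha1 : IsUnit ((a : A) - 1) := isUnit_natCast_sub_one hp hdet.1 hmod
  refine isUnit_of_sub_mem ha1 ?_
  have : LinearMap.det (ρ.ρ τ) - 1 - ((a : A) - 1) = LinearMap.det (ρ.ρ τ) - (a : A) := by ring
  rw [this]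
  exact hea

/-- the scalar exists for every element of the decomposition group. -/
theorem exists_ordQuotScalar {p : ℕ} (h : ρ.IsOrdinaryAt p) {P : ValuationSubring Ω}
    (hP : P.LiesOverPrime p) {σ : GQ} (hσ : σ ∈ P.decompositionSubgroup ℚ) :
    ∃ z : A, OrdQuotScalar ρ P σ z := by
  obtain ⟨L, ⟨b, rfl⟩, hD, hI⟩ := h P hP
  refine ⟨LinearMap.toMatrix b b (ρ.ρ σ) 1 1, A ∙ b 0, ⟨b, rfl⟩, hD, hI, fun v => ?_⟩
  exact tri_sub_smul_mem b (hD σ hσ) v

/-- multiplying by an element of inertia does not change the scalar. -/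
theorem ordQuotScalar_mul_inertia {P : ValuationSubring Ω} {σ : GQ} {z : A}
    (h : OrdQuotScalar ρ P σ z) (hσ : σ ∈ P.decompositionSubgroup ℚ) {ι : GQ}
    (hι : ι ∈ P.inertiaSubgroupIn ℚ) : OrdQuotScalar ρ P (σ * ι) z := by
  obtain ⟨L, hb, hD, hI, hz⟩ := h
  refine ⟨L, hb, hD, hI, fun v => ?_⟩
  have h1 : ρ.ρ (σ * ι) v - z • v = ρ.ρ σ (ρ.ρ ι v - v) + (ρ.ρ σ v - z • v) := by
    rw [map_mul, Module.End.mul_apply, map_sub]; abel
  rw [h1]
  exact L.add_mem (hD σ hσ _ (hI ι hι v)) (hz v)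

/-- transport of the scalar along conjugation. -/
theorem ordQuotScalar_conj {ℓ : ℕ} (hℓ : ℓ.Prime) {P : ValuationSubring Ω}
    (hP : P.LiesOverPrime ℓ) {σ : GQ} {z : A} (h : OrdQuotScalar ρ P σ z) (τ : GQ) :
    OrdQuotScalar ρ (τ • P) (τ * σ * τ⁻¹) z := by
  obtain ⟨L, ⟨b, hb⟩, hD, hI, hz⟩ := h
  have hmem : ∀ v : ρ.V, v ∈ L.map (rhoLinEquiv ρ τ).toLinearMap ↔ ρ.ρ τ⁻¹ v ∈ L := by
    intro v
    constructor
    · rintro ⟨w, hw, rfl⟩
      show ρ.ρ τ⁻¹ (ρ.ρ τ w) ∈ L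
      rwa [rho_inv_rho]
    · intro hv
      exact ⟨ρ.ρ τ⁻¹ v, hv, rho_rho_inv ρ τ v⟩
  have hconjD : ∀ s ∈ (τ • P).decompositionSubgroup ℚ, τ⁻¹ * s * τ ∈ P.decompositionSubgroup ℚ := by
    intro s hs
    rw [← Fermat.Agent.EC.conj_mem_decompositionSubgroup (A := P) τ]
    have : τ * (τ⁻¹ * s * τ) * τ⁻¹ = s := by group
    rwa [this]
  have hconjI : ∀ s ∈ (τ • P).inertiaSubgroupIn ℚ, τ⁻¹ * s * τ ∈ P.inertiaSubgroupIn ℚ := by
    intro s hs
    rw [← Fermat.Agent.EC.conj_mem_inertiaSubgroupIn hℓ hP τ]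
    have : τ * (τ⁻¹ * s * τ) * τ⁻¹ = s := by group
    rwa [this]
  have hρconj : ∀ (s : GQ) (v : ρ.V), ρ.ρ τ⁻¹ (ρ.ρ s v) = ρ.ρ (τ⁻¹ * s * τ) (ρ.ρ τ⁻¹ v) := by
    intro s v
    rw [map_mul, map_mul, Module.End.mul_apply, Module.End.mul_apply, rho_rho_inv]
  refine ⟨L.map (rhoLinEquiv ρ τ).toLinearMap, ⟨b.map (rhoLinEquiv ρ τ), ?_⟩, ?_, ?_, ?_⟩
  · rw [hb, Submodule.map_span, Set.image_singleton]
    rfl
  · intro s hs v hv
    rw [hmem] at hv ⊢
    rw [hρconj]
    exact hD _ (hconjD s hs) _ hv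
  · intro s hs v
    rw [hmem, map_sub, hρconj]
    exact hI _ (hconjI s hs) _
  · intro v
    rw [hmem, map_sub, hρconj, map_smul]
    have : τ⁻¹ * (τ * σ * τ⁻¹) * τ = σ := by group
    rw [this]
    exact hz _

/-- **one element is the scalar of every Frobenius lift at every place over `p`.** -/
theorem exists_frobenius_scalar {p : ℕ} (hp : p.Prime) (h : ρ.IsOrdinaryAt p) :
    ∃ U : A, ∀ P : ValuationSubring Ω, P.LiesOverPrime p → ∀ φ : GQ, P.IsFrobeniusAt φ p →
      OrdQuotScalar ρ P φ U := by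
  obtain ⟨P₀, φ₀, hP₀, hφ₀⟩ := Fermat.Agent.S54.exists_frobenius p hp
  obtain ⟨U, hU⟩ := exists_ordQuotScalar ρ h hP₀ hφ₀.mem_decompositionSubgroup
  refine ⟨U, fun P hP φ hφ => ?_⟩
  obtain ⟨g, rfl⟩ := Fermat.Agent.EC.exists_smul_eq_of_liesOverPrime hp hP₀ hP
  have hφ' : (g • P₀).IsFrobeniusAt (g * φ₀ * g⁻¹) p :=
    Fermat.Agent.RB.SEL.isFrobeniusAt_conj g hφ₀
  have h1 := ordQuotScalar_conj ρ hp hP₀ hU g
  have hι : (g * φ₀ * g⁻¹)⁻¹ * φ ∈ (g • P₀).inertiaSubgroupIn ℚ :=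
    inv_mul_mem_inertia_of_isFrobeniusAt hφ hφ'
  have h2 := ordQuotScalar_mul_inertia ρ h1 hφ'.mem_decompositionSubgroup hι
  rwa [mul_inv_cancel_left] at h2

end Scalar

section Strict

variable {B : Type} [CommRing B] [IsLocalRing B] [IsHausdorff (maximalIdeal B) B]
  (ρ : GaloisRepAdic B)

/-- inertia has entry `1` on the quotient. -/
theorem toMatrix_one_one_of_inertia (b : Module.Basis (Fin 2) B ρ.V) {f : ρ.V →ₗ[B] ρ.V}
    (hf : f (b 1) - b 1 ∈ Submodule.span B {b 0}) : LinearMap.toMatrix b b f 1 1 = 1 := by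
  have h1 := (mem_span_basis_zero_iff b _).1 hf
  rw [map_sub, Finsupp.sub_apply, Module.Basis.repr_self, Finsupp.single_apply, if_pos rfl,
    sub_eq_zero] at h1
  rw [LinearMap.toMatrix_apply]
  exact h1

/-- the entry on the quotient is the scalar. -/
theorem toMatrix_one_one_eq (b : Module.Basis (Fin 2) B ρ.V) {f : ρ.V →ₗ[B] ρ.V} {z : B}
    (hf : f (b 1) - z • b 1 ∈ Submodule.span B {b 0}) : LinearMap.toMatrix b b f 1 1 = z := by
  have h1 := (mem_span_basis_zero_iff b _).1 hf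
  rw [map_sub, Finsupp.sub_apply, map_smul, Finsupp.smul_apply, Module.Basis.repr_self,
    Finsupp.single_apply, if_pos rfl, smul_eq_mul, mul_one, sub_eq_zero] at h1
  rw [LinearMap.toMatrix_apply]
  exact h1

/-- **an ordinary representation with cyclotomic determinant whose Frobenius scalar has square `1`
is strictly ordinary.** -/
theorem isStrictOrdinaryAt_of_frobenius_scalar_sq {p : ℕ} (hp : p.Prime)
    (hdet : ρ.DetIsCyclotomic p)
    (hsq : ∀ P : ValuationSubring Ω, P.LiesOverPrime p →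
      ∃ (φ : GQ) (z : B), P.IsFrobeniusAt φ p ∧ OrdQuotScalar ρ P φ z ∧ z ^ 2 = 1) :
    ρ.IsStrictOrdinaryAt p := by
  refine ⟨hdet.1, fun P hP => ?_⟩
  obtain ⟨φ, z, hφ, ⟨L, ⟨b, rfl⟩, hD, hI, hz⟩, hz2⟩ := hsq P hP
  refine ⟨B ∙ b 0, ⟨b, rfl⟩, hD, hI, fun σ hσ => ?_⟩
  -- the character on the quotient
  set Z : GQ → B := fun s => LinearMap.toMatrix b b (ρ.ρ s) 1 1 with hZ
  have hZmul : ∀ s t : GQ, s ∈ P.decompositionSubgroup ℚ → Z (s * t) = Z s * Z t := by
    intro s t hs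
    show LinearMap.toMatrix b b (ρ.ρ (s * t)) 1 1 = _
    rw [map_mul]
    exact tri_mul_one_one b (hD s hs)
  have hZφ : Z φ = z := toMatrix_one_one_eq ρ b (hz (b 1))
  have hZι : ∀ ι ∈ P.inertiaSubgroupIn ℚ, Z ι = 1 := fun ι hι =>
    toMatrix_one_one_of_inertia ρ b (hI ι hι (b 1))
  have hφD : φ ∈ P.decompositionSubgroup ℚ := hφ.mem_decompositionSubgroup
  have hZpow : ∀ k : ℕ, Z (φ ^ k) = z ^ k := by
    intro k
    induction k with
    | zero =>
      show LinearMap.toMatrix b b (ρ.ρ (φ ^ 0)) 1 1 = z ^ 0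
      rw [pow_zero, pow_zero, map_one]
      show LinearMap.toMatrix b b (1 : ρ.V →ₗ[B] ρ.V) 1 1 = 1
      rw [LinearMap.toMatrix_one, Matrix.one_apply_eq]
    | succ k ih => rw [pow_succ', hZmul φ _ hφD, ih, hZφ, pow_succ']
  have hZsq : Z σ ^ 2 = 1 := by
    have hH : IsHausdorff (maximalIdeal B) B := inferInstance
    rw [← sub_eq_zero]
    apply hH.haus'
    intro n
    rw [SModEq.zero, smul_eq_mul, Ideal.mul_top]
    obtain ⟨F, hF, hFσ⟩ := ρ.isAdicContinuous n
    haveI := hF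
    haveI : FiniteDimensional ℚ (IntermediateField.normalClosure ℚ F Ω) :=
      normalClosure.is_finiteDimensional ℚ F Ω
    haveI : Normal ℚ (IntermediateField.normalClosure ℚ F Ω) := normalClosure.normal ℚ F Ω
    obtain ⟨k, ι, hι, hk⟩ := exists_pow_mul_inertia_agree hp
      (IntermediateField.normalClosure ℚ F Ω) P hP hφ hσ
    set η : GQ := (φ ^ k * ι)⁻¹ * σ with hη
    have hηfix : ∀ x ∈ F, η x = x := by
      intro x hx
      rw [hη, AlgEquiv.mul_apply, hk x (IntermediateField.le_normalClosure F hx)]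
      show ((φ ^ k * ι)⁻¹ * (φ ^ k * ι)) x = x
      rw [inv_mul_cancel]; rfl
    have h1 : σ = φ ^ k * ι * η := by rw [hη, mul_inv_cancel_left]
    have hφkD : φ ^ k ∈ P.decompositionSubgroup ℚ := Subgroup.pow_mem _ hφD k
    have hιD : ι ∈ P.decompositionSubgroup ℚ := mem_decomposition_of_mem_inertia hι
    have h2 : Z σ = z ^ k * Z η := by
      rw [h1, hZmul _ _ (Subgroup.mul_mem _ hφkD hιD), hZmul _ _ hφkD, hZpow, hZι ι hι, mul_one]
    have h3 : Z η - 1 ∈ maximalIdeal B ^ n := by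
      have := zOf_sub_one_mem ρ b (hFσ η hηfix)
      simpa [zOf] using this
    have h4 : Z σ ^ 2 - 1 = (Z η - 1) * (Z η + 1) := by
      rw [h2, mul_pow, ← pow_mul, mul_comm k 2, pow_mul, hz2, one_pow]; ring
    rw [h4]
    exact Ideal.mul_mem_right _ _ h3
  refine ⟨LinearMap.toMatrix b b (ρ.ρ σ) 0 0, Z σ, tri_apply_of_mem b (hD σ hσ),
    tri_sub_smul_mem b (hD σ hσ), ?_⟩
  intro n a ha
  have h1 := hdet.2 n σ a ha
  rw [tri_det b (hD σ hσ)] at h1
  have h3 : LinearMap.toMatrix b b (ρ.ρ σ) 0 0 - (a : B) * Z σ =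
      Z σ * (LinearMap.toMatrix b b (ρ.ρ σ) 0 0 * Z σ - (a : B)) := by
    have : Z σ * (LinearMap.toMatrix b b (ρ.ρ σ) 0 0 * Z σ - (a : B)) =
        LinearMap.toMatrix b b (ρ.ρ σ) 0 0 * Z σ ^ 2 - (a : B) * Z σ := by ring
    rw [this, hZsq, mul_one]
  rw [h3]
  exact Ideal.mul_mem_left _ _ h1

end Strict

end Fermat.Agent.ML.REPTL
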