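/-
PROJECT ML (S59) — [REPT-L] part A (helper9): **the `LevelRep` of one level from Layer B**
(`LevelGalois` + the two "plus" facts of `LevelGaloisPlusStatement`) and the frozen statements
S31–S34 applied to the Hecke–Galois datum of level `Nbig`.

* `isOrdinaryAt_baseChangeAlong` : ordinarity is stable under base change;
* `isOrdinaryAt_ofResidual_of_isEquiv` : residual ordinarity is transported along a residual
  equivalence with a base change of fields (the hypothesis `hres` of S33);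
* `levelRep_of` : the `LevelRep`.
-/
import Mathlib
import Fermat.Agent.ML.REPTL_helper9_LevelRep
import Fermat.Agent.ML.REPTL_helper9_OrdAux
import Fermat.Agent.ML.IFACE_helper9_Rept
import Fermat.Agent.RB.REPT_helper1_SubRep
import Fermat.Agent.RB.REPT_helper1_TWRep
import Fermat.Agent.S33

set_option autoImplicit false
set_option linter.unusedSectionVars false
set_option linter.unusedVariables false
set_option linter.style.haveILetI false

namespace Fermat.Agent.ML.REPTL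

open Polynomial IsLocalRing Fermat.Agent.RB Fermat.Agent.RB.REPT CuspForm
open scoped TensorProduct

local notation "Ω" => AlgebraicClosure ℚ
local notation "GQ" => (AlgebraicClosure ℚ ≃ₐ[ℚ] AlgebraicClosure ℚ)

section BaseChange

variable {A B : Type} [CommRing A] [IsLocalRing A] [CommRing B] [IsLocalRing B]
  (f : A →+* B) (hf : IsLocalHom f) (ρ : GaloisRepAdic A)

/-- ordinarity is stable under base change. -/
theorem isOrdinaryAt_baseChangeAlong {p : ℕ} (h : ρ.IsOrdinaryAt p) :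
    (ρ.baseChangeAlong f hf).IsOrdinaryAt p := by
  intro P hP
  obtain ⟨L, ⟨b, hb⟩, hD, hI⟩ := h P hP
  letI : Algebra A B := f.toAlgebra
  refine ⟨(Submodule.baseChange B L : Submodule B (B ⊗[A] ρ.V)),
    ⟨Fermat.Agent.S53.baseChangeBasis f hf ρ b, ?_⟩, ?_, ?_⟩
  · rw [hb]
    exact Fermat.Agent.TW.baseChange_span_basis_zero b
  · intro σ hσ v hv
    exact Fermat.Agent.TW.baseChange_mem_of_stable (ρ.ρ σ) L (hD σ hσ) v hv
  · intro σ hσ v
    exact Fermat.Agent.TW.baseChange_sub_mem (ρ.ρ σ) L (hI σ hσ) v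

/-- the scalar of the unramified quotient is compatible with base change. -/
theorem ordQuotScalar_baseChangeAlong {P : ValuationSubring Ω} {σ : GQ} {z : A}
    (h : OrdQuotScalar ρ P σ z) : OrdQuotScalar (ρ.baseChangeAlong f hf) P σ (f z) := by
  obtain ⟨L, ⟨b, hb⟩, hD, hI, hz⟩ := h
  letI : Algebra A B := f.toAlgebra
  refine ⟨(Submodule.baseChange B L : Submodule B (B ⊗[A] ρ.V)),
    ⟨Fermat.Agent.S53.baseChangeBasis f hf ρ b, ?_⟩, ?_, ?_, ?_⟩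
  · rw [hb]
    exact Fermat.Agent.TW.baseChange_span_basis_zero b
  · intro τ hτ v hv
    exact Fermat.Agent.TW.baseChange_mem_of_stable (ρ.ρ τ) L (hD τ hτ) v hv
  · intro τ hτ v
    exact Fermat.Agent.TW.baseChange_sub_mem (ρ.ρ τ) L (hI τ hτ) v
  · intro v
    exact Fermat.Agent.TW.baseChange_sub_smul_mem (ρ.ρ σ) L z hz v

end BaseChange

section Residual

variable {k k' : Type} [Field k] [Field k']

/-- a residual equivalence, as an equivalence of the associated `GaloisRepAdic`. -/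
def equivOfResidual {ρ₁ ρ₂ : ResidualGaloisRep k} (e : ResidualGaloisRep.Equiv ρ₁ ρ₂) :
    GaloisRepAdic.Equiv (GaloisRepAdic.ofResidualGaloisRep ρ₁)
      (GaloisRepAdic.ofResidualGaloisRep ρ₂) where
  toLinearEquiv := e.toLinearEquiv
  map_apply := e.map_apply

/-- residual ordinarity is stable under base change of fields. -/
theorem isOrdinaryAt_ofResidual_baseChangeAlong (ι : k →+* k') (ρbar : ResidualGaloisRep k)
    {p : ℕ} (h : (GaloisRepAdic.ofResidualGaloisRep ρbar).IsOrdinaryAt p) :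
    (GaloisRepAdic.ofResidualGaloisRep (ρbar.baseChangeAlong ι)).IsOrdinaryAt p := by
  intro P hP
  obtain ⟨L, ⟨b, hb⟩, hD, hI⟩ := h P hP
  letI : Algebra k k' := ι.toAlgebra
  have hb' : L = Submodule.span k {b 0} := hb
  refine ⟨(Submodule.baseChange k' L : Submodule k' (k' ⊗[k] ρbar.V)),
    ⟨(b.baseChange k' : Module.Basis (Fin 2) k' (k' ⊗[k] ρbar.V)), ?_⟩, ?_, ?_⟩
  · rw [hb']
    exact Fermat.Agent.TW.baseChange_span_basis_zero b
  · intro σ hσ v hv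
    exact Fermat.Agent.TW.baseChange_mem_of_stable (ρbar.ρ σ) L (hD σ hσ) v hv
  · intro σ hσ v
    exact Fermat.Agent.TW.baseChange_sub_mem (ρbar.ρ σ) L (hI σ hσ) v

/-- **the hypothesis `hres` of S33** from the ordinarity of `ρ̄`. -/
theorem isOrdinaryAt_ofResidual_of_isEquiv (ι : k →+* k') (ρbar : ResidualGaloisRep k)
    (ρ' : ResidualGaloisRep k') (he : ρ'.IsEquiv (ρbar.baseChangeAlong ι))
    {p : ℕ} (h : (GaloisRepAdic.ofResidualGaloisRep ρbar).IsOrdinaryAt p) :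
    (GaloisRepAdic.ofResidualGaloisRep ρ').IsOrdinaryAt p := by
  obtain ⟨e⟩ := he
  exact isOrdinaryAt_of_equiv (equivOfResidual e.symm)
    (isOrdinaryAt_ofResidual_baseChangeAlong ι ρbar h)

end Residual

section LevelOf

variable {𝒪 : Type} [CommRing 𝒪] [IsDomain 𝒪] [IsDiscreteValuationRing 𝒪]
  [IsAdicComplete (maximalIdeal 𝒪) 𝒪] [Finite (ResidueField 𝒪)] [CharZero 𝒪]
  {p r d n : ℕ} {Y : TWModSide 𝒪 p r d n} {ρbar : ResidualGaloisRep (ResidueField 𝒪)}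
  {Nbig : ℕ} [NeZero Nbig] {Sres : Finset ℕ} {Q : Fin r → ℕ}

/-- **the `LevelRep` of one level from Layer B and S31–S34**: the base change of the Hecke–Galois
representation of level `Nbig` along `LG.f`. -/
noncomputable def levelRepOf (hp : p.Prime) (hp2 : p ≠ 2) (hp𝒪 : (p : 𝒪) ∈ maximalIdeal 𝒪)
    (LG : LevelGalois Y ρbar Nbig Sres Q) (Sb : Finset ℕ) (hSb : Sb ⊆ Sres) (Nlev : ℕ)
    (hpSb : p ∈ Sb) (hNbigSb : ∀ q : ℕ, q.Prime → q ∣ Nbig → q ∈ Sb)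
    (ha : ∀ q : ℕ, q.Prime → ¬ q ∣ Nbig → q ≠ p → ρbar.IsUnramifiedAt q →
      LG.datum.ρ.IsUnramifiedAt q)
    (hb : ∀ (ℓ : ℕ) (hℓ : ℓ.Prime), ℓ ∉ Sb → ∀ P : ValuationSubring Ω, P.LiesOverPrime ℓ →
      ∀ σ : GQ, P.IsFrobeniusAt σ ℓ →
        ((LG.f (LG.datum.ρ.trace σ) : heckeAlg Y Sres) : Module.End 𝒪 Y.H) = Y.Tt ⟨ℓ, hℓ⟩)
    (hunrbar : ∀ q : ℕ, q.Prime → q ∉ Sb → ρbar.IsUnramifiedAt q)
    (hNlev : ∀ q : ℕ, q.Prime → q ∣ Nlev → q ∣ Nbig ∧ ¬ q ^ 2 ∣ Nbig)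
    (hpN : ¬ p ∣ Nlev → ¬ p ∣ Nbig)
    (hord : p ∣ Nlev → (GaloisRepAdic.ofResidualGaloisRep ρbar).IsOrdinaryAt p) :
    LevelRep Y ρbar Sb Sres Nlev Q := by
  haveI := LG.isLocalRingA
  haveI := LG.isLocalHomA
  have hloc : IsLocalHom (LG.f : LG.Tb →+* heckeAlg Y Sres) :=
    IsLocalHom.of_surjective _ LG.f_surjective
  have hpS : p ∈ Sres := hSb hpSb
  have hNS : ∀ q : ℕ, q.Prime → q ∣ Nbig → q ∈ Sres := fun q hq hqN => hSb (hNbigSb q hq hqN)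
  have htr : ∀ σ : GQ, (LG.datum.ρ.baseChangeAlong (LG.f : LG.Tb →+* heckeAlg Y Sres) hloc).trace σ
      = LG.f (LG.datum.ρ.trace σ) := fun σ => trace_baseChangeAlong _ hloc LG.datum.ρ σ
  have hchar : ∀ (ℓ : ℕ) (hℓ : ℓ.Prime) (hℓS : ℓ ∉ Sres), ∀ P : ValuationSubring Ω,
      P.LiesOverPrime ℓ → ∀ σ : GQ, P.IsFrobeniusAt σ ℓ →
      LinearMap.charpoly
        ((LG.datum.ρ.baseChangeAlong (LG.f : LG.Tb →+* heckeAlg Y Sres) hloc).ρ σ) =
        X ^ 2 - C (TtH Y ⟨ℓ, hℓ⟩ hℓS) * X + C ((ℓ : ℕ) : heckeAlg Y Sres) := by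
    intro ℓ hℓ hℓS P hP σ hσ
    have hℓS' : ℓ ∉ (↑Sres : Set ℕ) := by simpa using hℓS
    have hℓN : ¬ ℓ ∣ Nbig := fun h => hℓS (hNS ℓ hℓ h)
    rw [Fermat.Agent.TW.charpoly_baseChangeAlong, LG.datum.charpoly_frob ℓ hℓ hℓN hℓS' P hP σ hσ]
    simp only [Polynomial.map_add, Polynomial.map_sub, Polynomial.map_mul, Polynomial.map_pow,
      Polynomial.map_X, Polynomial.map_C, map_natCast]
    rw [show (LG.f : LG.Tb →+* heckeAlg Y Sres) (LG.datum.π (heckeAlgebra.T hℓ hℓN hℓS')) =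
        TtH Y ⟨ℓ, hℓ⟩ hℓS from LG.f_T ℓ hℓ hℓN hℓS' hℓS, Polynomial.map_natCast]
  refine {
    isLocalRingA := LG.isLocalRingA
    isLocalHomA := LG.isLocalHomA
    residue_surjective := LG.residue_surjective
    ρ := LG.datum.ρ.baseChangeAlong (LG.f : LG.Tb →+* heckeAlg Y Sres) hloc
    residual_isEquiv := Fermat.Agent.S53.residual_baseChangeAlong_isEquiv ρbar LG.f hloc
      LG.datum.ρ LG.residual_isEquiv
    det := Fermat.Agent.TW.detIsCyclotomic_baseChangeAlong _ _ _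
      (Fermat.Agent.NP.heckeDatum_detIsCyclotomic hp hp𝒪 hNS LG.datum)
    unr := ?_
    unip := ?_
    flat := ?_
    ord := ?_
    charpoly_frob := hchar
    trace_frob := ?_
    adjoin_trace := ?_
    keyH := ?_ }
  · intro q hq hqSb
    apply Fermat.Agent.TW.isUnramifiedAt_baseChangeAlong
    by_cases hqS : q ∈ Sres
    · refine ha q hq (fun h => hqSb (hNbigSb q hq h)) (fun h => hqSb (h ▸ hpSb))
        (hunrbar q hq hqSb)
    · exact Fermat.Agent.S31.result hp hp𝒪 hpS hNS LG.datum q hq hqS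
  · intro q hq hqp hqN
    exact Fermat.Agent.TW.isUnipotentOnInertiaAt_baseChangeAlong _ _ _
      (Fermat.Agent.S34.result hp hp𝒪 hpS hNS LG.datum q hq hqp (hNlev q hq hqN).1
        (hNlev q hq hqN).2)
  · intro hpNl
    exact Fermat.Agent.TW.isFlatAt_baseChangeAlong_of_surjective _ _ _ LG.f_surjective
      (Fermat.Agent.S32.result hp hp2 hp𝒪 (hpN hpNl) hpS hNS LG.datum)
  · intro hpNl
    apply isOrdinaryAt_baseChangeAlong
    exact Fermat.Agent.S33.result hp hp2 hp𝒪 (hNlev p hp hpNl) hNS LG.datum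
      (isOrdinaryAt_ofResidual_of_isEquiv _ ρbar _ LG.residual_isEquiv (hord hpNl))
  · intro ℓ hℓ hℓSb P hP σ hσ
    rw [htr]
    exact hb ℓ hℓ hℓSb P hP σ hσ
  · -- generated by the traces
    have hgen := adjoin_TtFun Y Sres
    rw [eq_top_iff, ← hgen]
    refine Algebra.adjoin_le ?_
    rintro _ ⟨ℓ, ⟨hℓ, hℓS⟩, rfl⟩
    obtain ⟨P, σ, hP, hσ⟩ := Fermat.Agent.S54.exists_frobenius ℓ hℓ
    have h1 := (Fermat.Agent.GR.trace_det_of_charpoly_eq
      (LG.datum.ρ.baseChangeAlong (LG.f : LG.Tb →+* heckeAlg Y Sres) hloc).finrank_eq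
      ((LG.datum.ρ.baseChangeAlong (LG.f : LG.Tb →+* heckeAlg Y Sres) hloc).ρ σ) _ _
      (hchar ℓ hℓ hℓS P hP σ hσ)).1
    rw [TtFun_eq Y hℓ hℓS, ← h1]
    exact Algebra.subset_adjoin ⟨σ, rfl⟩
  · intro q
    obtain ⟨P, hP, σ, hσ, h⟩ := LG.keyH q
    refine ⟨P, hP, σ, hσ, ?_⟩
    rw [htr]
    exact h

/-- the scalars of the unramified quotient of the big Hecke ring map to those of the level. -/
theorem levelRepOf_ordQuotScalar (hp : p.Prime) (hp2 : p ≠ 2) (hp𝒪 : (p : 𝒪) ∈ maximalIdeal 𝒪)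
    (LG : LevelGalois Y ρbar Nbig Sres Q) (Sb : Finset ℕ) (hSb : Sb ⊆ Sres) (Nlev : ℕ)
    (hpSb : p ∈ Sb) (hNbigSb : ∀ q : ℕ, q.Prime → q ∣ Nbig → q ∈ Sb)
    (ha : ∀ q : ℕ, q.Prime → ¬ q ∣ Nbig → q ≠ p → ρbar.IsUnramifiedAt q →
      LG.datum.ρ.IsUnramifiedAt q)
    (hb : ∀ (ℓ : ℕ) (hℓ : ℓ.Prime), ℓ ∉ Sb → ∀ P : ValuationSubring Ω, P.LiesOverPrime ℓ →
      ∀ σ : GQ, P.IsFrobeniusAt σ ℓ →
        ((LG.f (LG.datum.ρ.trace σ) : heckeAlg Y Sres) : Module.End 𝒪 Y.H) = Y.Tt ⟨ℓ, hℓ⟩)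
    (hunrbar : ∀ q : ℕ, q.Prime → q ∉ Sb → ρbar.IsUnramifiedAt q)
    (hNlev : ∀ q : ℕ, q.Prime → q ∣ Nlev → q ∣ Nbig ∧ ¬ q ^ 2 ∣ Nbig)
    (hpN : ¬ p ∣ Nlev → ¬ p ∣ Nbig)
    (hord : p ∣ Nlev → (GaloisRepAdic.ofResidualGaloisRep ρbar).IsOrdinaryAt p)
    {P : ValuationSubring Ω} {σ : GQ} {z : LG.Tb} (h : OrdQuotScalar LG.datum.ρ P σ z) :
    @OrdQuotScalar (heckeAlg Y Sres) _
      (levelRepOf hp hp2 hp𝒪 LG Sb hSb Nlev hpSb hNbigSb ha hb hunrbar hNlev hpN hord).isLocalRingA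
      (levelRepOf hp hp2 hp𝒪 LG Sb hSb Nlev hpSb hNbigSb ha hb hunrbar hNlev hpN hord).ρ P σ
      (LG.f z) := by
  haveI := LG.isLocalRingA
  exact ordQuotScalar_baseChangeAlong (LG.f : LG.Tb →+* heckeAlg Y Sres)
    (IsLocalHom.of_surjective _ LG.f_surjective) LG.datum.ρ h

/-- the traces of the level are the images of the traces of the big Hecke ring. -/
theorem levelRepOf_tr (hp : p.Prime) (hp2 : p ≠ 2) (hp𝒪 : (p : 𝒪) ∈ maximalIdeal 𝒪)
    (LG : LevelGalois Y ρbar Nbig Sres Q) (Sb : Finset ℕ) (hSb : Sb ⊆ Sres) (Nlev : ℕ)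
    (hpSb : p ∈ Sb) (hNbigSb : ∀ q : ℕ, q.Prime → q ∣ Nbig → q ∈ Sb)
    (ha : ∀ q : ℕ, q.Prime → ¬ q ∣ Nbig → q ≠ p → ρbar.IsUnramifiedAt q →
      LG.datum.ρ.IsUnramifiedAt q)
    (hb : ∀ (ℓ : ℕ) (hℓ : ℓ.Prime), ℓ ∉ Sb → ∀ P : ValuationSubring Ω, P.LiesOverPrime ℓ →
      ∀ σ : GQ, P.IsFrobeniusAt σ ℓ →
        ((LG.f (LG.datum.ρ.trace σ) : heckeAlg Y Sres) : Module.End 𝒪 Y.H) = Y.Tt ⟨ℓ, hℓ⟩)
    (hunrbar : ∀ q : ℕ, q.Prime → q ∉ Sb → ρbar.IsUnramifiedAt q)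
    (hNlev : ∀ q : ℕ, q.Prime → q ∣ Nlev → q ∣ Nbig ∧ ¬ q ^ 2 ∣ Nbig)
    (hpN : ¬ p ∣ Nlev → ¬ p ∣ Nbig)
    (hord : p ∣ Nlev → (GaloisRepAdic.ofResidualGaloisRep ρbar).IsOrdinaryAt p) (σ : GQ) :
    (levelRepOf hp hp2 hp𝒪 LG Sb hSb Nlev hpSb hNbigSb ha hb hunrbar hNlev hpN hord).tr σ =
      LG.f (LG.datum.ρ.trace σ) := by
  haveI := LG.isLocalRingA
  exact trace_baseChangeAlong (LG.f : LG.Tb →+* heckeAlg Y Sres)
    (IsLocalHom.of_surjective _ LG.f_surjective) LG.datum.ρ σ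

end LevelOf

end Fermat.Agent.ML.REPTL
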