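/-
PROJECT ML (S59) — [REPT-L] part A (helper9), file 8: **descent of strict ordinarity to a subring of
a product** `T ↪ B₁ × B₂`.

With the eigenbasis `b` of `REPTL_helper9_DescentOrd` (`ρ(τ) b₀ = e b₀`, `ρ(τ) b₁ = b₁`) and
`ρ(σ) b₀ = x b₀`, `ρ(σ) b₁ = y b₀ + z b₁` for `σ` in the decomposition group: in each factor the
strict datum is `(f x, f z)`, so `f x ≡ a f z`, `f x f z ≡ a` modulo `pⁿ` give `f z² = 1` (separated
factors); hence `z² = 1` in `T` and `x - a z = z (x z - a) ∈ (pⁿ)` since `det ρ = ε`.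
-/
import Mathlib
import Fermat.Agent.ML.REPTL_helper9_DescentOrd

set_option autoImplicit false
set_option linter.unusedSectionVars false
set_option linter.unusedVariables false
set_option linter.style.haveILetI false

noncomputable section

namespace Fermat.Agent.ML.REPTL

open Polynomial IsLocalRing GaloisRepAdic Fermat.Agent.TW
open scoped TensorProduct

local notation "Ω" => AlgebraicClosure ℚ
local notation "GQ" => (AlgebraicClosure ℚ ≃ₐ[ℚ] AlgebraicClosure ℚ)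

section Strict

variable {T : Type} [CommRing T] [IsLocalRing T] (ρ : GaloisRepAdic T)

/-- the determinant of a Galois element is a unit. -/
theorem isUnit_det (σ : GQ) : IsUnit (LinearMap.det (ρ.ρ σ)) := by
  have h1 : LinearMap.det (ρ.ρ σ) * LinearMap.det (ρ.ρ σ⁻¹) = 1 := by
    rw [← map_mul, ← map_mul, mul_inv_cancel, map_one, map_one]
  exact IsUnit.of_mul_eq_one _ h1

/-- the strict datum of a factor is `(f x, f z)` (linear algebra in `B ⊗ V`). -/
theorem strict_factor_aux {B : Type} [CommRing B] [Algebra T B]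
    (b : Module.Basis (Fin 2) T ρ.V) (gτ gσ : Module.End T ρ.V) (e x y z : T)
    (hb0 : gτ (b 0) = e • b 0) (hb1 : gτ (b 1) = b 1)
    (hx : gσ (b 0) = x • b 0) (hz : gσ (b 1) = y • b 0 + z • b 1)
    (he1 : IsUnit (algebraMap T B e - 1))
    (Lw : Submodule B (B ⊗[T] ρ.V))
    (hLw : ∀ v : B ⊗[T] ρ.V, v ∈ Lw ↔ gτ.baseChange B v = algebraMap T B e • v)
    (x' z' : B) (hxw : ∀ w ∈ Lw, gσ.baseChange B w = x' • w)
    (hzw : ∀ v : B ⊗[T] ρ.V, gσ.baseChange B v - z' • v ∈ Lw) :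
    x' = algebraMap T B x ∧ z' = algebraMap T B z := by
  have hsm : ∀ (c : T) (w : ρ.V),
      (1 : B) ⊗ₜ[T] (c • w) = algebraMap T B c • ((1 : B) ⊗ₜ[T] w) :=
    fun c w => one_tmul_smul ρ c w
  -- `1 ⊗ b₀ ∈ L'`
  have hb0L : (1 : B) ⊗ₜ[T] b 0 ∈ Lw := by
    rw [hLw, LinearMap.baseChange_tmul, hb0, hsm]
  constructor
  · have h1 := hxw _ hb0L
    rw [LinearMap.baseChange_tmul, hx, hsm] at h1
    have h2 : (x' - algebraMap T B x) • ((1 : B) ⊗ₜ[T] b 0) = 0 := by
      rw [sub_smul x' (algebraMap T B x) ((1 : B) ⊗ₜ[T] b 0), sub_eq_zero]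
      exact h1.symm
    exact sub_eq_zero.mp (smul_one_tmul_basis_eq_zero ρ b 0 _ h2)
  · have h1 := hzw ((1 : B) ⊗ₜ[T] b 1)
    rw [LinearMap.baseChange_tmul, hz, TensorProduct.tmul_add, hsm, hsm] at h1
    have h3 : (algebraMap T B z - z') • ((1 : B) ⊗ₜ[T] b 1) ∈ Lw := by
      have h4 := Submodule.sub_mem _ h1 (Submodule.smul_mem Lw (algebraMap T B y) hb0L)
      have h5 : algebraMap T B y • ((1 : B) ⊗ₜ[T] b 0) + algebraMap T B z • ((1 : B) ⊗ₜ[T] b 1) -
          z' • ((1 : B) ⊗ₜ[T] b 1) - algebraMap T B y • ((1 : B) ⊗ₜ[T] b 0) =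
          (algebraMap T B z - z') • ((1 : B) ⊗ₜ[T] b 1) := by
        module
      rw [h5] at h4
      exact h4
    have h6 := (hLw _).1 h3
    rw [map_smul, LinearMap.baseChange_tmul, hb1] at h6
    have h7 : ((algebraMap T B e - 1) * (algebraMap T B z - z')) • ((1 : B) ⊗ₜ[T] b 1) = 0 := by
      have e1 : ((algebraMap T B e - 1) * (algebraMap T B z - z')) • ((1 : B) ⊗ₜ[T] b 1) =
          algebraMap T B e • ((algebraMap T B z - z') • ((1 : B) ⊗ₜ[T] b 1)) -
            (algebraMap T B z - z') • ((1 : B) ⊗ₜ[T] b 1) := by module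
      rw [e1, ← h6, sub_self]
    have h8 := smul_one_tmul_basis_eq_zero ρ b 1 _ h7
    obtain ⟨w, hw⟩ := he1.exists_left_inv
    have h9 : algebraMap T B z - z' = 0 := by
      calc algebraMap T B z - z' = w * (algebraMap T B e - 1) * (algebraMap T B z - z') := by
            rw [hw, one_mul]
        _ = w * ((algebraMap T B e - 1) * (algebraMap T B z - z')) := by ring
        _ = 0 := by rw [h8, mul_zero]
    exact (sub_eq_zero.mp h9).symm

/-- **one factor**: `f (z² - 1) = 0`. -/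
theorem map_sq_sub_one_eq_zero_of_strict {B : Type} [CommRing B] [IsLocalRing B] (f : T →+* B)
    (hf : IsLocalHom f) {p : ℕ} (hp : p.Prime)
    (hsep : ∀ c : B, (∀ n : ℕ, c ∈ maximalIdeal B ^ n) → c = 0)
    (hdet : ρ.DetIsCyclotomic p) (hstrict : (ρ.baseChangeAlong f hf).IsStrictOrdinaryAt p)
    {P : ValuationSubring Ω} (hP : P.LiesOverPrime p) {τ : GQ}
    (hτ : τ ∈ P.inertiaSubgroupIn ℚ) (e : T) (b : Module.Basis (Fin 2) T ρ.V)
    (he1 : IsUnit (e - 1)) (hedet : e = LinearMap.det (ρ.ρ τ))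
    (hb0 : ρ.ρ τ (b 0) = e • b 0) (hb1 : ρ.ρ τ (b 1) = b 1)
    {σ : GQ} (hσ : σ ∈ P.decompositionSubgroup ℚ) (x y z : T)
    (hx : ρ.ρ σ (b 0) = x • b 0) (hz : ρ.ρ σ (b 1) = y • b 0 + z • b 1) :
    f (z ^ 2 - 1) = 0 := by
  letI : Algebra T B := f.toAlgebra
  obtain ⟨hpB, hst⟩ := hstrict
  obtain ⟨L', hb', hD', hI', hchar'⟩ := hst P hP
  -- the line is the eigenspace
  have hu : IsUnit (LinearMap.det ((ρ.baseChangeAlong f hf).ρ τ) - 1) := by
    rw [det_baseChangeAlong, ← hedet]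
    have := he1.map f
    rwa [map_sub, map_one] at this
  obtain ⟨-, hL'⟩ := ordinary_line_eq_eigenspace (ρ.baseChangeAlong f hf) hτ L' hb' hD' hI' hu
  rw [det_baseChangeAlong, ← hedet] at hL'
  obtain ⟨x', z', hx', hz', hxz'⟩ := hchar' σ hσ
  -- everything in `B ⊗ V` with its canonical structure
  have hu' : IsUnit (algebraMap T B e - 1) := by
    have := he1.map f
    rwa [map_sub, map_one] at this
  obtain ⟨hxx, hzz⟩ : x' = f x ∧ z' = f z :=
    strict_factor_aux ρ b (ρ.ρ τ) (ρ.ρ σ) e x y z hb0 hb1 hx hz hu' L' hL' x' z' hx' hz'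
  -- the determinant
  have hdetσ : LinearMap.det (ρ.ρ σ) = x * z := by
    refine det_eq_mul_of_triangular b (ρ.ρ σ) x z hx ?_
    rw [hz, add_sub_cancel_right]
    exact Submodule.smul_mem _ _ (Submodule.mem_span_singleton_self _)
  have hXZu : IsUnit (f x * f z) := by
    rw [← map_mul, ← hdetσ]
    exact (isUnit_det ρ σ).map f
  -- separatedness
  rw [map_sub, map_pow, map_one]
  refine hsep _ fun n => ?_
  rcases Nat.eq_zero_or_pos n with rfl | hn
  · rw [pow_zero, Ideal.one_eq_top]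
    trivial
  haveI : NeZero (p ^ n) := ⟨(pow_pos hp.pos n).ne'⟩
  obtain ⟨a, ha⟩ := exists_cyclotomic_exponent (p ^ n) σ
  have h1 : f x - (a : B) * f z ∈ Ideal.span {((p ^ n : ℕ) : B)} := by
    have := hxz' n a ha
    rwa [hxx, hzz] at this
  have h2 : f x * f z - (a : B) ∈ Ideal.span {((p ^ n : ℕ) : B)} := by
    have := map_mem_span_natCast f (hdet.2 n σ a ha)
    rwa [map_sub, map_natCast, hdetσ, map_mul] at this
  have h3 : (a : B) * (f z ^ 2 - 1) ∈ Ideal.span {((p ^ n : ℕ) : B)} := by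
    have : (a : B) * (f z ^ 2 - 1) =
        (f x * f z - (a : B)) - f z * (f x - (a : B) * f z) := by ring
    rw [this]
    exact Ideal.sub_mem _ h2 (Ideal.mul_mem_left _ _ h1)
  -- `a` is a unit
  have hspan_le : Ideal.span {((p ^ n : ℕ) : B)} ≤ maximalIdeal B :=
    (span_natCast_pow_le hpB n).trans (Ideal.pow_le_self (Nat.pos_iff_ne_zero.mp hn))
  have hAZ : IsUnit ((a : B) * f z) := by
    refine isUnit_of_sub_mem (isUnit_of_mul_isUnit_left hXZu) ?_
    have : (a : B) * f z - f x = -(f x - (a : B) * f z) := by ring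
    rw [this]
    exact Ideal.neg_mem_iff _ |>.mpr (hspan_le h1)
  have hA : IsUnit (a : B) := isUnit_of_mul_isUnit_left hAZ
  obtain ⟨w, hw⟩ := hA.exists_left_inv
  have h4 : f z ^ 2 - 1 = w * ((a : B) * (f z ^ 2 - 1)) := by
    rw [← mul_assoc, hw, one_mul]
  rw [h4]
  exact span_natCast_pow_le hpB n (Ideal.mul_mem_left _ _ h3)

end Strict

section Pair

variable {T B₁ B₂ : Type} [CommRing T] [IsLocalRing T] [CommRing B₁] [IsLocalRing B₁]
  [CommRing B₂] [IsLocalRing B₂]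
  (f₁ : T →+* B₁) (hf₁ : IsLocalHom f₁) (f₂ : T →+* B₂) (hf₂ : IsLocalHom f₂)
  (hinj : ∀ x : T, f₁ x = 0 → f₂ x = 0 → x = 0) (ρ : GaloisRepAdic T)

include hinj in
/-- **strict ordinarity descends.** -/
theorem isStrictOrdinaryAt_of_pair {p : ℕ} (hp : p.Prime) (hp2 : p ≠ 2)
    (hdet : ρ.DetIsCyclotomic p)
    (hsep₁ : ∀ c : B₁, (∀ n : ℕ, c ∈ maximalIdeal B₁ ^ n) → c = 0)
    (hsep₂ : ∀ c : B₂, (∀ n : ℕ, c ∈ maximalIdeal B₂ ^ n) → c = 0)
    (h₁ : (ρ.baseChangeAlong f₁ hf₁).IsStrictOrdinaryAt p)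
    (h₂ : (ρ.baseChangeAlong f₂ hf₂).IsStrictOrdinaryAt p) : ρ.IsStrictOrdinaryAt p := by
  refine ⟨hdet.1, fun P hP => ?_⟩
  obtain ⟨τ, hτ, e, b, he1, heu, hedet, hb0, hb1, hD, hI⟩ :=
    exists_ordinary_basis_of_pair f₁ hf₁ f₂ hf₂ hinj ρ hp hp2 hdet h₁.isOrdinaryAt h₂.isOrdinaryAt hP
  refine ⟨Submodule.span T {b 0}, ⟨b, rfl⟩, hD, hI, fun σ hσ => ?_⟩
  -- the matrix of `ρ(σ)`
  have h0 := hD σ hσ (b 0) (Submodule.mem_span_singleton_self _)
  obtain ⟨x, hx⟩ := Submodule.mem_span_singleton.mp h0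
  have hdec := basis_fin_two_decomp b (ρ.ρ σ (b 1))
  set y := b.repr (ρ.ρ σ (b 1)) 0
  set z := b.repr (ρ.ρ σ (b 1)) 1
  have hz2 : z ^ 2 = 1 := by
    rw [← sub_eq_zero]
    exact hinj _
      (map_sq_sub_one_eq_zero_of_strict ρ f₁ hf₁ hp hsep₁ hdet h₁ hP hτ e b he1 hedet hb0 hb1 hσ
        x y z hx.symm hdec)
      (map_sq_sub_one_eq_zero_of_strict ρ f₂ hf₂ hp hsep₂ hdet h₂ hP hτ e b he1 hedet hb0 hb1 hσ
        x y z hx.symm hdec)
  have hdetσ : LinearMap.det (ρ.ρ σ) = x * z := by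
    refine det_eq_mul_of_triangular b (ρ.ρ σ) x z hx.symm ?_
    rw [hdec, add_sub_cancel_right]
    exact Submodule.smul_mem _ _ (Submodule.mem_span_singleton_self _)
  refine ⟨x, z, ?_, ?_, ?_⟩
  · intro w hw
    obtain ⟨c, rfl⟩ := Submodule.mem_span_singleton.mp hw
    rw [map_smul, ← hx, smul_comm]
  · intro v
    have hv := basis_fin_two_decomp b v
    set s := b.repr v 0
    set t := b.repr v 1
    have : ρ.ρ σ v - z • v = (s * x + t * y - z * s) • b 0 := by
      rw [hv, map_add, map_smul, map_smul, ← hx, hdec]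
      simp only [smul_add, smul_smul, add_smul, sub_smul]
      rw [mul_comm z t]
      abel
    rw [this]
    exact Submodule.smul_mem _ _ (Submodule.mem_span_singleton_self _)
  · intro n a ha
    have h1 := hdet.2 n σ a ha
    rw [hdetσ] at h1
    have : x - (a : T) * z = z * (x * z - (a : T)) - x * (z ^ 2 - 1) := by ring
    rw [this, hz2, sub_self, mul_zero, sub_zero]
    exact Ideal.mul_mem_left _ _ h1

end Pair

end Fermat.Agent.ML.REPTL
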