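/-
PROJECT ML (S59) — [LOC-L] at `p`, lead: **the unramified quotient character of an ordinary
representation through traces** and the consequences of strict ordinarity.

* `tri_trace_formula` : for triangular `f, g` with `g ≡ 1` on the quotient,
  `(e - 1) z = e · tr f - tr (f g)` (`e = det g`, `z` = the eigenvalue of `f` on the quotient);
* `quot_char_formula` : the same for a Galois representation, an element `τ` of the inertia group and
  `σ` of the decomposition group at a place over `p`: the quotient character at `σ` is determined by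
  traces as soon as `det ρ(τ) - 1` is a unit;
* `sq_eq_one_of_strict_datum` : a strict datum `(x, z)` at `σ` has `z² = 1` (separated ring).
-/
import Mathlib
import Fermat.Agent.ML.KP_lead_Strict
import Fermat.Agent.ML.REPTL_helper9_DescentStrict
import Fermat.Agent.RB.SEL_helper4_Frob

set_option autoImplicit false
set_option linter.unusedSectionVars false
set_option linter.unusedVariables false
set_option linter.style.haveILetI false

namespace Fermat.Agent.ML.KP

open Fermat.Agent.TW IsLocalRing Fermat.Agent.CFT.Local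

local notation "GQ" => (AlgebraicClosure ℚ ≃ₐ[ℚ] AlgebraicClosure ℚ)

section Tri2

variable {R : Type*} [CommRing R] {V : Type*} [AddCommGroup V] [Module R V]

/-- **the trace formula for the quotient eigenvalue** -/
theorem tri_trace_formula (bs : Module.Basis (Fin 2) R V) (f g : V →ₗ[R] V) (x z e : R)
    (hf0 : f (bs 0) = x • bs 0) (hf1 : f (bs 1) - z • bs 1 ∈ Submodule.span R {bs 0})
    (hg0 : g (bs 0) = e • bs 0) (hg1 : g (bs 1) - bs 1 ∈ Submodule.span R {bs 0}) :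
    (e - 1) * z = e * LinearMap.trace R V f - LinearMap.trace R V (f * g) := by
  have h1 := Fermat.Agent.ML.REPTL.trace_eq_add_of_triangular bs f x z hf0 hf1
  obtain ⟨μ, hμ⟩ := Submodule.mem_span_singleton.mp hg1
  have hg1' : g (bs 1) = μ • bs 0 + bs 1 := by rw [hμ]; abel
  have h2 : LinearMap.trace R V (f * g) = e * x + z := by
    refine Fermat.Agent.ML.REPTL.trace_eq_add_of_triangular bs (f * g) (e * x) z ?_ ?_
    · rw [Module.End.mul_apply, hg0, map_smul, hf0, smul_smul]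
    · rw [Module.End.mul_apply, hg1', map_add, map_smul, hf0]
      have : μ • x • bs 0 + f (bs 1) - z • bs 1 = (μ * x) • bs 0 + (f (bs 1) - z • bs 1) := by
        rw [smul_smul]; abel
      rw [this]
      exact Submodule.add_mem _ (Submodule.smul_mem _ _ (Submodule.mem_span_singleton_self _)) hf1
  rw [h1, h2]
  ring

end Tri2

section QuotChar

variable {R : Type} [CommRing R] [IsLocalRing R] (ρ' : GaloisRepAdic R)

/-- **the quotient character through traces** -/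
theorem quot_char_formula {P : ValuationSubring (AlgebraicClosure ℚ)} {τ σ : GQ}
    (hτ : τ ∈ P.inertiaSubgroupIn ℚ) (hσ : σ ∈ P.decompositionSubgroup ℚ)
    (L : Submodule R ρ'.V) (hb : ∃ b : Module.Basis (Fin 2) R ρ'.V, L = R ∙ b 0)
    (hD : ∀ σ ∈ P.decompositionSubgroup ℚ, ∀ v ∈ L, ρ'.ρ σ v ∈ L)
    (hI : ∀ σ ∈ P.inertiaSubgroupIn ℚ, ∀ v : ρ'.V, ρ'.ρ σ v - v ∈ L)
    (z : R) (hz : ∀ v : ρ'.V, ρ'.ρ σ v - z • v ∈ L) :
    (LinearMap.det (ρ'.ρ τ) - 1) * z =
      LinearMap.det (ρ'.ρ τ) * ρ'.trace σ - ρ'.trace (σ * τ) := by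
  obtain ⟨b, rfl⟩ := hb
  have hb0 : b 0 ∈ (R ∙ b 0) := Submodule.mem_span_singleton_self _
  have hτD : τ ∈ P.decompositionSubgroup ℚ :=
    Fermat.Agent.ML.REPTL.mem_decomposition_of_mem_inertia hτ
  obtain ⟨x, hx⟩ := Submodule.mem_span_singleton.mp (hD σ hσ _ hb0)
  obtain ⟨e, he⟩ := Submodule.mem_span_singleton.mp (hD τ hτD _ hb0)
  have hg1 : ρ'.ρ τ (b 1) - b 1 ∈ Submodule.span R {b 0} := hI τ hτ (b 1)
  have hdet : LinearMap.det (ρ'.ρ τ) = e := by
    have := det_eq_mul_of_triangular b (ρ'.ρ τ) e 1 he.symm (by rw [one_smul]; exact hg1)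
    rw [this, mul_one]
  rw [hdet]
  have := tri_trace_formula b (ρ'.ρ σ) (ρ'.ρ τ) x z e hx.symm (hz (b 1)) he.symm hg1
  rw [this, GaloisRepAdic.trace, GaloisRepAdic.trace,
    show ρ'.ρ (σ * τ) = ρ'.ρ σ * ρ'.ρ τ from map_mul _ _ _]

/-- **a strict datum has `z² = 1`** -/
theorem sq_eq_one_of_strict_datum {p : ℕ} (hp : p.Prime)
    (hsep : ∀ c : R, (∀ n : ℕ, c ∈ maximalIdeal R ^ n) → c = 0)
    (hdet : ρ'.DetIsCyclotomic p) {σ : GQ}
    (L : Submodule R ρ'.V) (hb : ∃ b : Module.Basis (Fin 2) R ρ'.V, L = R ∙ b 0)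
    (x z : R) (hx : ∀ w ∈ L, ρ'.ρ σ w = x • w) (hz : ∀ v : ρ'.V, ρ'.ρ σ v - z • v ∈ L)
    (hxz : ∀ (n a : ℕ), (∀ μ : AlgebraicClosure ℚ, μ ^ p ^ n = 1 → σ μ = μ ^ a) →
      x - (a : R) * z ∈ Ideal.span {((p ^ n : ℕ) : R)}) : z ^ 2 = 1 := by
  obtain ⟨b, rfl⟩ := hb
  have hpR := hdet.1
  have hb0 : b 0 ∈ (R ∙ b 0) := Submodule.mem_span_singleton_self _
  have hdetσ : LinearMap.det (ρ'.ρ σ) = x * z :=
    det_eq_mul_of_triangular b (ρ'.ρ σ) x z (hx _ hb0) (hz (b 1))
  have hXZu : IsUnit (x * z) := by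
    rw [← hdetσ]
    exact Fermat.Agent.ML.REPTL.isUnit_det ρ' σ
  rw [← sub_eq_zero]
  refine hsep _ fun n => ?_
  rcases Nat.eq_zero_or_pos n with rfl | hn
  · rw [pow_zero, Ideal.one_eq_top]
    trivial
  haveI : NeZero (p ^ n) := ⟨(pow_pos hp.pos n).ne'⟩
  obtain ⟨a, ha⟩ := exists_cyclotomic_exponent (p ^ n) σ
  have h1 := hxz n a ha
  have h2 : x * z - (a : R) ∈ Ideal.span {((p ^ n : ℕ) : R)} := by
    have := hdet.2 n σ a ha
    rwa [hdetσ] at this
  have h3 : (a : R) * (z ^ 2 - 1) ∈ Ideal.span {((p ^ n : ℕ) : R)} := by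
    have : (a : R) * (z ^ 2 - 1) = (x * z - (a : R)) - z * (x - (a : R) * z) := by ring
    rw [this]
    exact Ideal.sub_mem _ h2 (Ideal.mul_mem_left _ _ h1)
  have hspan_le : Ideal.span {((p ^ n : ℕ) : R)} ≤ maximalIdeal R :=
    (Fermat.Agent.ML.REPTL.span_natCast_pow_le hpR n).trans
      (Ideal.pow_le_self (Nat.pos_iff_ne_zero.mp hn))
  have hAZ : IsUnit ((a : R) * z) := by
    refine Fermat.Agent.ML.REPTL.isUnit_of_sub_mem (isUnit_of_mul_isUnit_left hXZu) ?_
    have : (a : R) * z - x = -(x - (a : R) * z) := by ring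
    rw [this]
    exact Ideal.neg_mem_iff _ |>.mpr (hspan_le h1)
  have hA : IsUnit (a : R) := isUnit_of_mul_isUnit_left hAZ
  obtain ⟨w, hw⟩ := hA.exists_left_inv
  have h4 : z ^ 2 - 1 = w * ((a : R) * (z ^ 2 - 1)) := by
    rw [← mul_assoc, hw, one_mul]
  rw [h4]
  exact Fermat.Agent.ML.REPTL.span_natCast_pow_le hpR n (Ideal.mul_mem_left _ _ h3)

end QuotChar

section Inertia

variable {R : Type} [CommRing R] [IsLocalRing R] (ρ' : GaloisRepAdic R)

/-- an element of the inertia group at `p` whose determinant is not congruent to `1` -/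
theorem exists_inertia_det_sub_one_isUnit {p : ℕ} (hp : p.Prime) (hp2 : p ≠ 2)
    (hdet : ρ'.DetIsCyclotomic p) {P : ValuationSubring (AlgebraicClosure ℚ)}
    (hP : P.LiesOverPrime p) :
    ∃ τ ∈ P.inertiaSubgroupIn ℚ, IsUnit (LinearMap.det (ρ'.ρ τ) - 1) := by
  obtain ⟨τ, hτ, a, ha, hmod⟩ := Fermat.Agent.ML.REPTL.exists_mem_inertia_exponent hp hp2 hP
  refine ⟨τ, hτ, ?_⟩
  have hea : LinearMap.det (ρ'.ρ τ) - (a : R) ∈ maximalIdeal R := by
    have h1 := hdet.2 1 τ a ha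
    exact (Fermat.Agent.ML.REPTL.span_natCast_pow_le hdet.1 1).trans (by rw [pow_one]) h1
  have ha1 : IsUnit ((a : R) - 1) := Fermat.Agent.ML.REPTL.isUnit_natCast_sub_one hp hdet.1 hmod
  refine Fermat.Agent.ML.REPTL.isUnit_of_sub_mem ha1 ?_
  have : LinearMap.det (ρ'.ρ τ) - 1 - ((a : R) - 1) = LinearMap.det (ρ'.ρ τ) - (a : R) := by ring
  rw [this]
  exact hea

end Inertia

section Approx

variable {p : ℕ} [hp : Fact p.Prime]

local notation "GP" => (PadicAlgCl p ≃ₐ[ℚ_[p]] PadicAlgCl p)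

variable {T : Type} [CommRing T] [IsLocalRing T] (ρ : GaloisRepAdic T)

/-- the entries of two endomorphisms which are congruent modulo `I` -/
theorem toMatrix_sub_mem {I : Ideal T} (bb : Module.Basis (Fin 2) T ρ.V) {f g : ρ.V →ₗ[T] ρ.V}
    (h : ∀ v : ρ.V, f v - g v ∈ I • (⊤ : Submodule T ρ.V)) (i j : Fin 2) :
    LinearMap.toMatrix bb bb f i j - LinearMap.toMatrix bb bb g i j ∈ I := by
  have key : bb.repr (f (bb j) - g (bb j)) i ∈ I := by
    refine Submodule.smul_induction_on (h (bb j)) ?_ ?_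
    · intro r hr v _
      rw [map_smul, Finsupp.smul_apply, smul_eq_mul]
      exact Ideal.mul_mem_right _ _ hr
    · intro x y hx hy
      rw [map_add, Finsupp.add_apply]
      exact Ideal.add_mem _ hx hy
  rw [map_sub, Finsupp.sub_apply] at key
  rw [LinearMap.toMatrix_apply, LinearMap.toMatrix_apply]
  exact key

/-- **approximation of the decomposition group by the local Galois group** -/
theorem exists_loc_approx (n : ℕ) (F : IntermediateField ℚ (AlgebraicClosure ℚ))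
    [FiniteDimensional ℚ F] {σ : GQ} (hσ : σ ∈ (padicPlace p).decompositionSubgroup ℚ) :
    ∃ τ : GP, (∀ x ∈ F, localGaloisToGlobal p τ x = σ x) ∧
      ∀ v : ρ.V, ρ.ρ σ v - ρ.ρ (localGaloisToGlobal p τ) v ∈
        (maximalIdeal T ^ n) • (⊤ : Submodule T ρ.V) := by
  obtain ⟨F₀, hF₀, hF₀σ⟩ := ρ.isAdicContinuous n
  haveI := hF₀
  haveI : FiniteDimensional ℚ (F ⊔ F₀ : IntermediateField ℚ (AlgebraicClosure ℚ)) :=
    IntermediateField.finiteDimensional_sup F F₀
  obtain ⟨τ, hτ⟩ := Fermat.Agent.CFT.LocForm.exists_local_lift p σ hσ (F ⊔ F₀)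
  refine ⟨τ, fun x hx => hτ x ((le_sup_left : F ≤ F ⊔ F₀) hx), fun v => ?_⟩
  set η : GQ := (localGaloisToGlobal p τ)⁻¹ * σ with hη
  have hηfix : ∀ x ∈ F₀, η x = x := by
    intro x hx
    rw [hη, AlgEquiv.mul_apply, ← hτ x ((le_sup_right : F₀ ≤ F ⊔ F₀) hx)]
    show ((localGaloisToGlobal p τ)⁻¹ * localGaloisToGlobal p τ) x = x
    rw [inv_mul_cancel]; rfl
  have h1 : σ = localGaloisToGlobal p τ * η := by rw [hη, mul_inv_cancel_left]
  have h2 := hF₀σ η hηfix v
  have h3 : ρ.ρ σ v - ρ.ρ (localGaloisToGlobal p τ) v =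
      ρ.ρ (localGaloisToGlobal p τ) (ρ.ρ η v - v) := by
    conv_lhs => rw [h1, map_mul, Module.End.mul_apply]
    rw [map_sub]
  rw [h3]
  refine Submodule.smul_induction_on h2 ?_ ?_
  · intro r hr w _
    rw [map_smul]
    exact Submodule.smul_mem_smul hr Submodule.mem_top
  · intro x y hx hy
    rw [map_add]
    exact Submodule.add_mem _ hx hy

end Approx

section FrobPow

variable {p : ℕ} [hp : Fact p.Prime]

local notation "GP" => (PadicAlgCl p ≃ₐ[ℚ_[p]] PadicAlgCl p)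

variable {T : Type} [CommRing T] [IsLocalRing T] (D : OrdLoc T p)

/-- the subgroup on which the unramified character is trivial modulo `𝔪 ^ n` -/
def OrdLoc.dKer (n : ℕ) : Subgroup (PadicAlgCl p ≃ₐ[ℚ_[p]] PadicAlgCl p) where
  carrier := {g | D.d g - 1 ∈ maximalIdeal T ^ n}
  one_mem' := by
    show D.d 1 - 1 ∈ maximalIdeal T ^ n
    rw [D.d_one, sub_self]; exact Ideal.zero_mem _
  mul_mem' := by
    intro g h hg hh
    show D.d (g * h) - 1 ∈ maximalIdeal T ^ n
    have : D.d (g * h) - 1 = (D.d g - 1) * D.d h + (D.d h - 1) := by rw [D.d_mul]; ring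
    rw [this]
    exact Ideal.add_mem _ (Ideal.mul_mem_right _ _ hg) hh
  inv_mem' := by
    intro g hg
    show D.d g⁻¹ - 1 ∈ maximalIdeal T ^ n
    have : D.d g⁻¹ - 1 = -(D.d g⁻¹ * (D.d g - 1)) := by
      have := D.d_mul_inv g
      linear_combination this
    rw [this]
    exact Ideal.neg_mem_iff _ |>.mpr (Ideal.mul_mem_left _ _ hg)

/-- **the unramified character is a power of its value at a Frobenius lift**, modulo `𝔪 ^ n` -/
theorem OrdLoc.exists_level_d_eq_pow (n : ℕ) :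
    ∃ F : IntermediateField ℚ (AlgebraicClosure ℚ), FiniteDimensional ℚ F ∧
      ∀ (φ : GQ), (padicPlace p).IsFrobeniusAt φ p → ∀ τ₀ : GP,
        (∀ x ∈ F, localGaloisToGlobal p τ₀ x = φ x) → ∀ g : GP, ∃ k : ℕ,
          D.d g - D.d τ₀ ^ k ∈ maximalIdeal T ^ n := by
  classical
  obtain ⟨K', hK'fin, hK'⟩ := D.cont n
  haveI := hK'fin
  have hK'U : K'.fixingSubgroup ≤ D.dKer n := by
    intro g hg
    exact (hK' g (fun z hz => (IntermediateField.mem_fixingSubgroup_iff _ _).1 hg z hz)).2.2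
  obtain ⟨m, hmq, hm0, hle⟩ := exists_coprime_fixingSubgroup_le (D.dKer n) K' hK'U
  haveI : NeZero m := ⟨hm0.ne'⟩
  obtain ⟨ζ, hζ⟩ := HasEnoughRootsOfUnity.exists_primitiveRoot (AlgebraicClosure ℚ) m
  refine ⟨IntermediateField.adjoin ℚ {ζ},
    IntermediateField.adjoin.finiteDimensional (Algebra.IsIntegral.isIntegral ζ), ?_⟩
  intro φ hφ τ₀ hτ₀ g
  have hζF : ζ ∈ IntermediateField.adjoin ℚ ({ζ} : Set (AlgebraicClosure ℚ)) :=
    IntermediateField.mem_adjoin_simple_self ℚ ζ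
  set ω : PadicAlgCl p := padicEmbedding p ζ with hω
  have hωprim : IsPrimitiveRoot ω m := hζ.map_of_injective (padicEmbedding p).injective
  have hτ₀ω : τ₀ ω = ω ^ p := by
    rw [hω, ← padicEmbedding_localGaloisToGlobal, hτ₀ ζ hζF,
      Fermat.Agent.RB.SEL.frobenius_apply_root hφ hmq hζ.pow_eq_one, map_pow]
  obtain ⟨k, hk⟩ := exists_pow_eq_of_isPrimitiveRoot hmq hωprim g
  have hpow : ∀ j : ℕ, (τ₀ ^ j) ω = ω ^ (p ^ j) := by
    intro j
    induction j with
    | zero => rw [pow_zero, pow_zero, pow_one]; rfl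
    | succ j ih =>
      rw [pow_succ', AlgEquiv.mul_apply, ih, map_pow, hτ₀ω, ← pow_mul, pow_succ']
  obtain ⟨n', hn'⟩ : ∃ n' : GP, n' = (τ₀ ^ k)⁻¹ * g := ⟨_, rfl⟩
  have hn'ω : n' ω = ω := by
    rw [hn', AlgEquiv.mul_apply, hk, ← hpow k, ← AlgEquiv.mul_apply, inv_mul_cancel]
    rfl
  have hn'mem : n' ∈ unrInertia p ⊔ D.dKer n := by
    apply hle
    rw [fixingSubgroup_adjoin_iff]
    intro ξ hξ
    obtain ⟨i, -, rfl⟩ := hωprim.eq_pow_of_pow_eq_one (show ξ ^ m = 1 from hξ)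
    rw [map_pow, hn'ω]
  have hIU : unrInertia p ≤ D.dKer n := by
    intro g hg
    show D.d g - 1 ∈ maximalIdeal T ^ n
    rw [D.d_inertia g hg, sub_self]
    exact Ideal.zero_mem _
  have hn'U : n' ∈ D.dKer n := (sup_le hIU le_rfl) hn'mem
  have hgeq : g = τ₀ ^ k * n' := by rw [hn']; group
  refine ⟨k, ?_⟩
  have hdpow : ∀ j : ℕ, D.d (τ₀ ^ j) = D.d τ₀ ^ j := by
    intro j
    induction j with
    | zero => rw [pow_zero, pow_zero, D.d_one]
    | succ j ih => rw [pow_succ, D.d_mul, ih, pow_succ]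
  have : D.d g - D.d τ₀ ^ k = D.d τ₀ ^ k * (D.d n' - 1) := by
    rw [hgeq, D.d_mul, hdpow]; ring
  rw [this]
  exact Ideal.mul_mem_left _ _ hn'U

end FrobPow

end Fermat.Agent.ML.KP
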