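/-
ML (S59) — helper1 — **[TATE-DICT] (T2)**: if the inertia at `q ≠ p` acts trivially on `W[p](ℚ̄)`,
`W` with multiplicative reduction at `q`, then `p ∣ v_q(Δ)`.

Proof: at the place `padicPlace q`, in the nodal model there is a `p`-torsion point near the node
(`exists_nontoric`), of depth `w(x) = m n / p` with `0 < 2 m < p`; its abscissa is fixed by the
inertia, hence `w(x) ∈ ℤ` (`exists_int_logVal_of_fixed`), so `p ∣ n = v_q(Δ)`.
-/
import Mathlib
import Fermat.Agent.ML.TATED_helper1_IntVal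
import Fermat.Agent.ML.TATED_helper1_UnrT
import Fermat.Agent.ML.RHOW_helper1_FrobBad

set_option autoImplicit false
set_option linter.unusedSectionVars false
set_option linter.unusedVariables false

namespace Fermat.Agent.ML.TATED

open Fermat.Agent.Tate Fermat.Agent.S13 Fermat.Agent.S58 Fermat.Agent.GR Fermat.Agent.TW
open Fermat.Agent.LR.NonEis
open WeierstrassCurve WeierstrassCurve.Affine
open scoped WeierstrassCurve.Affine

/-- `Ω = AlgebraicClosure ℚ`. -/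
local notation "Ω" => AlgebraicClosure ℚ

/-- **(T2) at the `q`-adic place.** -/
theorem dvd_padicValInt_of_fixed (W : WeierstrassCurve ℤ) (hΔ0 : W.Δ ≠ 0) {q : ℕ}
    [hq : Fact q.Prime] (hqΔ : (q : ℤ) ∣ W.Δ) (hqc₄ : ¬ (q : ℤ) ∣ W.c₄) {p : ℕ} (hp : p.Prime)
    (hp2 : p ≠ 2) (hqp : q ≠ p)
    (hfix : ∀ g ∈ unrInertia q, ∀ P : (W.toAffine⁄Ω).Point, p • P = 0 →
      localGaloisToGlobal q g • P = P) :
    p ∣ padicValInt q W.Δ := by
  classical
  set A : ValuationSubring Ω := padicPlace q with hAdef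
  have hqA : ((q : ℕ) : Ω) ∈ A.nonunits := natCast_mem_nonunits_padicPlace
  have : Algebra.IsAlgebraic ℚ Ω := AlgebraicClosure.isAlgebraic ℚ
  obtain ⟨L, hL⟩ := exists_logVal A hq.out hqA
  have hcoe : ∀ z : ℤ, algebraMap ℤ Ω z = (z : Ω) := fun z => rfl
  have hint : ∀ z : ℤ, algebraMap ℤ Ω z ∈ A := fun z => by rw [hcoe]; exact intCast_mem A z
  have hΔmap : (W.toAffine⁄Ω).Δ = algebraMap ℤ Ω W.Δ := WeierstrassCurve.map_Δ W _
  have hc₄map : (W.toAffine⁄Ω).c₄ = algebraMap ℤ Ω W.c₄ := WeierstrassCurve.map_c₄ W _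
  obtain ⟨r, t, α, β, C, hCL, hr, ht, hM, hfixrt⟩ := gNodeNormalForm_qbar A L (W.toAffine⁄Ω)
    (hint _) (hint _) (hint _) (hint _) (hint _)
    (by rw [hΔmap, hcoe]; exact Int.cast_ne_zero.mpr hΔ0)
    (by rw [hΔmap, hcoe]; exact intCast_mem_nonunits A hqA hqΔ)
    (by rw [hc₄map, hcoe]; exact intCast_notMem_nonunits A hq.out hqA hqc₄)
  have hqp' : ¬ q ∣ p := fun hd => hqp ((Nat.prime_dvd_prime_iff_eq hq.out hp).mp hd)
  have hpinv : ((p : ℕ) : Ω)⁻¹ ∈ A := inv_natCast_mem A hq.out hqA hqp'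
  let VC : VariableChange Ω := VariableChange.mk 1 r 0 t
  let e := vcPtEquiv (W.toAffine⁄Ω) VC
  have hR1 : ∀ {x y : Ω} (h : (VC • (W.toAffine⁄Ω)).toAffine.Nonsingular x y),
      p • Point.some x y h = 0 → x ∈ A ∧ y ∈ A := fun h ht =>
    mem_of_nsmul_eq_zero' (gnode_isIntegralCurve58 hM) hp.ne_zero hpinv h ht
  have hintT : IntTors A (VC • (W.toAffine⁄Ω)).toAffine p := intTors_of_hR1 hR1
  have hcard : Nat.card {Q : (VC • (W.toAffine⁄Ω)).toAffine.Point // p • Q = 0} = p ^ 2 :=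
    Fermat.Agent.EC.card_torsion_eq (gnode_w_disc hM).1 hp hp2
  -- a torsion point near the node
  obtain ⟨R₀, hR₀, hdepth⟩ := exists_nontoric hM hp hintT hcard
  rcases R₀ with _ | ⟨x₁, y₁, h₁⟩
  · exact absurd rfl hdepth
  rw [GNodeCtx.depthPt_some] at hdepth
  have hx₁ : x₁ ∈ A.nonunits := by
    by_contra hx
    exact hdepth (GNodeCtx.depth_eq_zero_iff.mpr hx)
  obtain ⟨hx0, hlt, m, hm⟩ := hM.torsion_near_node (hp.odd_of_ne_two hp2) hR1 h₁ hR₀ hx₁
  have hpos : 0 < C.L.w x₁ := C.L.pos_of_mem_nonunits hx0 hx₁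
  -- its abscissa is fixed by the inertia
  have hP : p • e (Point.some x₁ y₁ h₁) = 0 := by rw [← map_nsmul, hR₀, map_zero]
  have hxfix : ∀ g ∈ unrInertia q, localGaloisToGlobal q g x₁ = x₁ := by
    intro g hg
    set σ := localGaloisToGlobal q g with hσdef
    have hσ : σ ∈ A.inertiaSubgroupIn ℚ := localGaloisToGlobal_mem_inertiaSubgroupIn g hg
    have hin : ∀ a ∈ A, σ a ∈ A ∧ σ a - a ∈ A.nonunits :=
      fun a ha => inertia_map_mem_and_sub_mem hσ ha
    have hσcoe : ∀ z : ℤ, (σ : Ω →+* Ω) (algebraMap ℤ Ω z) = algebraMap ℤ Ω z := fun z => by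
      rw [hcoe]; exact map_intCast _ z
    obtain ⟨hσr, hσt⟩ :=
      hfixrt (σ : Ω →+* Ω) (hσcoe _) (hσcoe _) (hσcoe _) (hσcoe _) (hσcoe _) hin
    have h1 := hfix g hg _ hP
    have h2 : e (Point.some x₁ y₁ h₁) = Point.some (vcX VC x₁) (vcY VC x₁ y₁)
        ((nonsingular_vc (W.toAffine⁄Ω) VC x₁ y₁).mp h₁) := rfl
    rw [h2, smul_some] at h1
    have h3 : vcX VC x₁ = x₁ + r := by simp [vcX, VC]
    injection h1 with h4 h4'
    rw [h3, map_add] at h4
    have h5 : σ r = r := hσr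
    rw [h5] at h4
    exact add_right_cancel h4
  obtain ⟨j, hj⟩ := exists_int_logVal_of_fixed L hL hx0 hxfix
  have hj' : C.L.w x₁ = j := by
    rw [hCL, hj]
  -- `n = v_q(Δ)`
  have hn : C.n = padicValInt q W.Δ := by
    have h1 := (gnode_w_disc hM).2
    have h2 : (VariableChange.mk 1 r 0 t • (W.toAffine⁄Ω)).Δ = (W.toAffine⁄Ω).Δ := by
      rw [WeierstrassCurve.variableChange_Δ]
      simp
    have h3 : (VariableChange.mk 1 r 0 t • (W.toAffine⁄Ω)).toAffine.Δ =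
        (VariableChange.mk 1 r 0 t • (W.toAffine⁄Ω)).Δ := rfl
    rw [h3, h2, hΔmap, hcoe, hCL, logVal_intCast hq.out hqA L hL hΔ0] at h1
    exact h1.symm
  -- arithmetic
  set v : ℕ := padicValInt q W.Δ with hv
  rw [hj', hn] at hm hlt
  rw [hj'] at hpos
  have hjpos : 0 < j := by exact_mod_cast hpos
  have hlt' : 2 * j < v := by exact_mod_cast hlt
  have hm' : (p : ℤ) * j = m * v := by exact_mod_cast hm
  by_contra hnd
  have hcop : IsCoprime (p : ℤ) (v : ℤ) := by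
    rw [Int.isCoprime_iff_gcd_eq_one, Int.gcd_natCast_natCast]
    exact (Nat.Prime.coprime_iff_not_dvd hp).mpr hnd
  have hdvd : (p : ℤ) ∣ m := by
    have : (p : ℤ) ∣ m * v := ⟨j, hm'.symm⟩
    exact hcop.dvd_of_dvd_mul_right this
  obtain ⟨m', rfl⟩ := hdvd
  have hp0 : (p : ℤ) ≠ 0 := by exact_mod_cast hp.ne_zero
  have hj2 : j = m' * v := by
    have : (p : ℤ) * j = p * (m' * v) := by rw [hm']; ring
    exact mul_left_cancel₀ hp0 this
  have hvpos : (0 : ℤ) < v := by omega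
  have hm'pos : 0 < m' := by
    by_contra hle
    push Not at hle
    have : m' * (v : ℤ) ≤ 0 := mul_nonpos_of_nonpos_of_nonneg hle hvpos.le
    omega
  have : (v : ℤ) ≤ m' * v := le_mul_of_one_le_left hvpos.le hm'pos
  omega

end Fermat.Agent.ML.TATED
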