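/-
ML (S59) — helper1 — **[TATE-DICT] CLOSED**: `tateDictStatement : TateDictStatement`.

* `unr_torsion_iff`, `unr_iff`: (T1) `TATED_helper1_UnrT` + (T2) `TATED_helper1_Ram`;
* `sign` (T4): `RhoWData.frob_bad` at one place + conjugacy of places and of Frobenius elements;
* `ord_p` (T3): `RhoWData.strict` at one place, `z² = 1` (lead's `KP.sq_eq_one_of_strict_datum`),
  two Frobenius elements differ by inertia, conjugacy of places, reduction modulo `p`.
-/
import Mathlib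
import Fermat.Agent.ML.IFACE_helper1_TateDict
import Fermat.Agent.ML.TATED_helper1_Ram
import Fermat.Agent.ML.KP_lead_PLine
import Fermat.Agent.GR.S29TOP_lead

set_option autoImplicit false
set_option linter.unusedSectionVars false
set_option linter.unusedVariables false

open Polynomial IsLocalRing
open scoped WeierstrassCurve.Affine TensorProduct Pointwise

namespace Fermat.Agent.ML.TATED

open Fermat.Agent.Tate Fermat.Agent.S58 Fermat.Agent.GR Fermat.Agent.TW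
open Fermat.Agent.LR.NonEis
open WeierstrassCurve WeierstrassCurve.Affine

/-- `Ω = AlgebraicClosure ℚ`. -/
local notation "Ω" => AlgebraicClosure ℚ

/-- the absolute Galois group. -/
local notation "GQ" => (AlgebraicClosure ℚ ≃ₐ[ℚ] AlgebraicClosure ℚ)

/-! ### (T1) + (T2) -/

/-- **(T2)**: unramified ⇒ arithmetic. -/
theorem unrArith_of_galoisRepUnramifiedAt (W : WeierstrassCurve ℤ) (hΔ : W.Δ ≠ 0)
    (hss : W.IsSemistableModel) {p : ℕ} (hp : p.Prime) (hp2 : p ≠ 2) {q : ℕ} (hq : q.Prime)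
    (hqp : q ≠ p)
    (h : WeierstrassCurve.Affine.Point.GaloisRepUnramifiedAt (K := Ω) ℚ
      (W.map (Int.castRingHom ℚ)) p q) :
    ¬ ((q : ℤ) ∣ W.Δ ∧ ¬ p ∣ padicValInt q W.Δ) := by
  rintro ⟨hbad, hnd⟩
  have : Fact q.Prime := ⟨hq⟩
  apply hnd
  refine dvd_padicValInt_of_fixed W hΔ hbad (hss q hq hbad) hp hp2 hqp ?_
  intro g hg P hP
  have hσ := localGaloisToGlobal_mem_inertiaSubgroupIn g hg
  have hA : (padicPlace q).LiesOverPrime q := natCast_mem_nonunits_padicPlace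
  set σ := localGaloisToGlobal q g with hσdef
  have hx : (pointCongr (baseChange_map_castRingHom W)).symm P ∈
      Submodule.torsionBy ℤ ((W.map (Int.castRingHom ℚ))⁄Ω).Point p := by
    rw [Submodule.mem_torsionBy_iff, ← map_zsmul, natCast_zsmul, hP, map_zero]
  have h1 := h (padicPlace q) hA σ hσ ⟨_, hx⟩
  have h2 := congrArg Subtype.val h1
  have h3 : σ • (pointCongr (baseChange_map_castRingHom W)).symm P =
      (pointCongr (baseChange_map_castRingHom W)).symm P := h2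
  have h4 := congrArg (pointCongr (baseChange_map_castRingHom W)) h3
  rwa [smul_pointCongr_castRingHom, AddEquiv.apply_symm_apply] at h4

/-- the residual representation of a `RhoWData` is unramified at `q` iff `W[p](ℚ̄)` is. -/
theorem residual_isUnramifiedAt_iff {W : WeierstrassCurve ℤ} {p : ℕ} [Fact p.Prime]
    (D : RhoWData W p) (q : ℕ) :
    D.ρ.residual.IsUnramifiedAt q ↔
      WeierstrassCurve.Affine.Point.GaloisRepUnramifiedAt (K := Ω) ℚ
        (W.map (Int.castRingHom ℚ)) p q := by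
  obtain ⟨e, he⟩ := D.residual_torsion
  constructor
  · intro h A hA σ hσ x
    obtain ⟨y, rfl⟩ := e.surjective x
    rw [← he, h A hA σ hσ]
    rfl
  · intro h A hA σ hσ
    apply LinearMap.ext
    intro y
    apply e.injective
    rw [he, h A hA σ hσ (e y)]
    rfl

/-! ### conjugation -/

/-- two Frobenius elements at the same place differ by an element of the inertia group. -/
theorem inv_mul_mem_inertia_of_frobenius {A : ValuationSubring Ω} {φ φ' : GQ} {q : ℕ}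
    (hφ : A.IsFrobeniusAt φ q) (hφ' : A.IsFrobeniusAt φ' q) :
    φ'⁻¹ * φ ∈ A.inertiaSubgroupIn ℚ := by
  obtain ⟨hφD, hφx⟩ := hφ
  obtain ⟨hφD', hφx'⟩ := hφ'
  obtain ⟨f, hf⟩ : ∃ f : A.decompositionSubgroup ℚ, f = ⟨φ, hφD⟩ := ⟨_, rfl⟩
  obtain ⟨f', hf'⟩ : ∃ f' : A.decompositionSubgroup ℚ, f' = ⟨φ', hφD'⟩ := ⟨_, rfl⟩
  rw [← hf] at hφx
  rw [← hf'] at hφx'
  have h1 : MulSemiringAction.toRingAut (A.decompositionSubgroup ℚ) (IsLocalRing.ResidueField A)
      f = MulSemiringAction.toRingAut (A.decompositionSubgroup ℚ)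
        (IsLocalRing.ResidueField A) f' := RingEquiv.ext fun x => by
    show f • x = f' • x
    rw [hφx, hφx']
  have hker : f'⁻¹ * f ∈ A.inertiaSubgroup ℚ := by
    change MulSemiringAction.toRingAut (A.decompositionSubgroup ℚ) (IsLocalRing.ResidueField A)
      (f'⁻¹ * f) = 1
    rw [map_mul, map_inv, h1, inv_mul_cancel]
  refine ⟨f'⁻¹ * f, hker, ?_⟩
  rw [hf, hf']
  rfl

/-- the characteristic polynomial is invariant under conjugation. -/
theorem charpoly_conj {R : Type} [CommRing R] [IsLocalRing R] (ρ : GaloisRepAdic R) (τ σ : GQ) :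
    LinearMap.charpoly (ρ.ρ (τ⁻¹ * σ * τ)) = LinearMap.charpoly (ρ.ρ σ) := by
  have h1 : ρ.ρ τ⁻¹ * ρ.ρ τ = 1 := by rw [← map_mul, inv_mul_cancel, map_one]
  have h2 : ρ.ρ τ * ρ.ρ τ⁻¹ = 1 := by rw [← map_mul, mul_inv_cancel, map_one]
  let e : ρ.V ≃ₗ[R] ρ.V := LinearEquiv.ofLinearMap (ρ.ρ τ⁻¹) (ρ.ρ τ) h1 h2
  have h3 : ρ.ρ (τ⁻¹ * σ * τ) = e.conj (ρ.ρ σ) := by
    rw [map_mul, map_mul]
    apply LinearMap.ext
    intro v
    rfl
  rw [h3, LinearEquiv.charpoly_conj]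

/-! ### (T4) -/

/-- **(T4)**: the sign at a bad prime `q ≠ p` does not depend on the place. -/
theorem sign_uniform {W : WeierstrassCurve ℤ} {p : ℕ} [Fact p.Prime] (D : RhoWData W p)
    (q : ℕ) (hq : q.Prime) (hqp : q ≠ p) (hqΔ : (q : ℤ) ∣ W.Δ) :
    ∃ s : ℤ_[p], s ^ 2 = 1 ∧
      ∀ A : ValuationSubring Ω, A.LiesOverPrime q → ∀ σ : GQ, A.IsFrobeniusAt σ q →
        LinearMap.charpoly (D.ρ.ρ σ) = (X - C s) * (X - C (s * ((q : ℕ) : ℤ_[p]))) ∧
        LinearMap.charpoly (D.ρ.residual.ρ σ) =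
          (X - C (residue ℤ_[p] s)) *
            (X - C (residue ℤ_[p] s * ((q : ℕ) : ResidueField ℤ_[p]))) := by
  have : Fact q.Prime := ⟨hq⟩
  have hA₀ : (padicPlace q).LiesOverPrime q := natCast_mem_nonunits_padicPlace
  obtain ⟨s, hs2, hs⟩ := D.frob_bad q hq hqp hqΔ (padicPlace q) hA₀
  refine ⟨s, hs2, fun A hA σ hσ => ?_⟩
  obtain ⟨τ, hτ⟩ := Fermat.Agent.EC.exists_smul_eq_of_liesOverPrime hq hA₀ hA
  have h1 := Fermat.Agent.RB.SEL.isFrobeniusAt_conj (τ⁻¹ : GQ) hσ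
  rw [hτ, inv_smul_smul, inv_inv] at h1
  have h2 := hs _ h1
  rw [charpoly_conj] at h2
  refine ⟨h2, ?_⟩
  rw [residual_charpoly, h2, Polynomial.map_mul, Polynomial.map_sub, Polynomial.map_sub,
    Polynomial.map_X, Polynomial.map_C, Polynomial.map_C, map_mul, map_natCast]

/-! ### reduction of a line -/

section Reduce

variable {R : Type} [CommRing R] [IsLocalRing R] {V : Type} [AddCommGroup V] [Module R V]

/-- the reduction of the line spanned by `v₀`. -/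
noncomputable def redLine (v₀ : V) : Submodule (ResidueField R) (ResidueField R ⊗[R] V) :=
  Submodule.span (ResidueField R) {(1 : ResidueField R) ⊗ₜ[R] v₀}

theorem tmul_mem_redLine {v₀ v : V} (hv : v ∈ Submodule.span R {v₀}) (c : ResidueField R) :
    c ⊗ₜ[R] v ∈ redLine v₀ := by
  obtain ⟨a, rfl⟩ := Submodule.mem_span_singleton.mp hv
  have h1 : c ⊗ₜ[R] (a • v₀) = (a • c) • ((1 : ResidueField R) ⊗ₜ[R] v₀) := by
    rw [TensorProduct.tmul_smul, TensorProduct.smul_tmul', TensorProduct.smul_tmul', smul_eq_mul,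
      mul_one]
  rw [h1]
  exact Submodule.smul_mem _ _ (Submodule.mem_span_singleton_self _)

/-- if `f - s` maps into the line, so does its reduction. -/
theorem baseChange_sub_smul_mem_redLine {v₀ : V} (f : V →ₗ[R] V) (s : R)
    (hf : ∀ v, f v - s • v ∈ Submodule.span R {v₀}) (x : ResidueField R ⊗[R] V) :
    f.baseChange (ResidueField R) x - residue R s • x ∈ redLine v₀ := by
  induction x using TensorProduct.induction_on with
  | zero => simp
  | tmul c v =>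
    have h1 : f.baseChange (ResidueField R) (c ⊗ₜ[R] v) - residue R s • (c ⊗ₜ[R] v) =
        c ⊗ₜ[R] (f v - s • v) := by
      rw [LinearMap.baseChange_tmul, TensorProduct.tmul_sub, TensorProduct.tmul_smul,
        TensorProduct.smul_tmul', TensorProduct.smul_tmul']
      rfl
    rw [h1]
    exact tmul_mem_redLine (hf v) c
  | add x y hx hy =>
    have : f.baseChange (ResidueField R) (x + y) - residue R s • (x + y) =
        (f.baseChange (ResidueField R) x - residue R s • x) +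
          (f.baseChange (ResidueField R) y - residue R s • y) := by
      rw [map_add, smul_add]; abel
    rw [this]
    exact Submodule.add_mem _ hx hy

/-- if `f - 1` maps into the line, so does its reduction. -/
theorem baseChange_sub_mem_redLine {v₀ : V} (f : V →ₗ[R] V)
    (hf : ∀ v, f v - v ∈ Submodule.span R {v₀}) (x : ResidueField R ⊗[R] V) :
    f.baseChange (ResidueField R) x - x ∈ redLine v₀ := by
  have h := baseChange_sub_smul_mem_redLine f 1 (fun v => by rw [one_smul]; exact hf v) x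
  rwa [map_one, one_smul] at h

/-- the reduction of a stable line is stable. -/
theorem baseChange_mem_redLine {v₀ : V} (f : V →ₗ[R] V)
    (hf : ∀ v ∈ Submodule.span R {v₀}, f v ∈ Submodule.span R {v₀}) :
    ∀ x ∈ redLine (R := R) v₀, f.baseChange (ResidueField R) x ∈ redLine v₀ := by
  intro x hx
  obtain ⟨c, rfl⟩ := Submodule.mem_span_singleton.mp hx
  rw [map_smul, LinearMap.baseChange_tmul]
  exact Submodule.smul_mem _ _
    (tmul_mem_redLine (hf _ (Submodule.mem_span_singleton_self _)) 1)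

theorem one_tmul_basis_ne_zero [Module.Free R V] (b : Module.Basis (Fin 2) R V) :
    (1 : ResidueField R) ⊗ₜ[R] b 0 ≠ 0 := by
  have h := (Module.Basis.baseChange (ResidueField R) b).ne_zero 0
  rwa [Module.Basis.baseChange_apply] at h

end Reduce

/-! ### (T3) -/

section OrdP

variable {p : ℕ} [hpF : Fact p.Prime]

/-- `ℤ_p` is separated. -/
theorem padicInt_separated (c : ℤ_[p]) (h : ∀ n : ℕ, c ∈ maximalIdeal ℤ_[p] ^ n) : c = 0 := by
  have h1 : c ∈ (⨅ n : ℕ, maximalIdeal ℤ_[p] ^ n) := by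
    rw [Ideal.mem_iInf]; exact h
  rw [Ideal.iInf_pow_eq_bot_of_isLocalRing (maximalIdeal ℤ_[p])
    (Ideal.IsMaximal.ne_top inferInstance)] at h1
  exact h1

/-- the shape at one place: a basis, a sign. -/
theorem ordP_base (ρ : GaloisRepAdic ℤ_[p]) (hstrict : ρ.IsStrictOrdinaryAt p)
    (hdet : ρ.DetIsCyclotomic p) (A₀ : ValuationSubring Ω) (hA₀ : A₀.LiesOverPrime p) :
    ∃ (b : Module.Basis (Fin 2) ℤ_[p] ρ.V) (s : ℤ_[p]), s ^ 2 = 1 ∧
      (∀ σ ∈ A₀.decompositionSubgroup ℚ, ∀ v ∈ Submodule.span ℤ_[p] {b 0},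
        ρ.ρ σ v ∈ Submodule.span ℤ_[p] {b 0}) ∧
      (∀ σ ∈ A₀.inertiaSubgroupIn ℚ, ∀ v : ρ.V, ρ.ρ σ v - v ∈ Submodule.span ℤ_[p] {b 0}) ∧
      ∀ φ : GQ, A₀.IsFrobeniusAt φ p → ∀ v : ρ.V,
        ρ.ρ φ v - s • v ∈ Submodule.span ℤ_[p] {b 0} := by
  obtain ⟨L, ⟨b, hb⟩, hD, hI, hS⟩ := hstrict.2 A₀ hA₀
  obtain ⟨φ₀, hφ₀⟩ := Fermat.Agent.TW.Kill.exists_isFrobeniusAt A₀ hpF.out hA₀
  obtain ⟨x, z, hx, hz, hxz⟩ := hS φ₀ hφ₀.mem_decompositionSubgroup
  have hz2 : z ^ 2 = 1 := KP.sq_eq_one_of_strict_datum ρ hpF.out padicInt_separated hdet L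
    ⟨b, hb⟩ x z hx hz hxz
  subst hb
  refine ⟨b, z, hz2, hD, hI, fun φ hφ v => ?_⟩
  have hι := inv_mul_mem_inertia_of_frobenius hφ hφ₀
  have h1 : φ = φ₀ * (φ₀⁻¹ * φ) := by group
  have h2 : ρ.ρ φ v - z • v =
      ρ.ρ φ₀ (ρ.ρ (φ₀⁻¹ * φ) v - v) + (ρ.ρ φ₀ v - z • v) := by
    conv_lhs => rw [h1, map_mul]
    rw [Module.End.mul_apply, map_sub]
    abel
  rw [h2]
  exact Submodule.add_mem _ (hD φ₀ hφ₀.mem_decompositionSubgroup _ (hI _ hι v)) (hz v)

/-- transport of the shape to a conjugate place. -/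
theorem ordP_conj (ρ : GaloisRepAdic ℤ_[p]) (A₀ : ValuationSubring Ω) (τ : GQ)
    (b : Module.Basis (Fin 2) ℤ_[p] ρ.V) (s : ℤ_[p])
    (hD : ∀ σ ∈ A₀.decompositionSubgroup ℚ, ∀ v ∈ Submodule.span ℤ_[p] {b 0},
      ρ.ρ σ v ∈ Submodule.span ℤ_[p] {b 0})
    (hI : ∀ σ ∈ A₀.inertiaSubgroupIn ℚ, ∀ v : ρ.V, ρ.ρ σ v - v ∈ Submodule.span ℤ_[p] {b 0})
    (hF : ∀ φ : GQ, A₀.IsFrobeniusAt φ p → ∀ v : ρ.V,
      ρ.ρ φ v - s • v ∈ Submodule.span ℤ_[p] {b 0})
    (hA₀ : A₀.LiesOverPrime p) :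
    ∃ b' : Module.Basis (Fin 2) ℤ_[p] ρ.V,
      (∀ σ ∈ (τ • A₀).decompositionSubgroup ℚ, ∀ v ∈ Submodule.span ℤ_[p] {b' 0},
        ρ.ρ σ v ∈ Submodule.span ℤ_[p] {b' 0}) ∧
      (∀ σ ∈ (τ • A₀).inertiaSubgroupIn ℚ, ∀ v : ρ.V,
        ρ.ρ σ v - v ∈ Submodule.span ℤ_[p] {b' 0}) ∧
      ∀ φ : GQ, (τ • A₀).IsFrobeniusAt φ p → ∀ v : ρ.V,
        ρ.ρ φ v - s • v ∈ Submodule.span ℤ_[p] {b' 0} := by
  have h1 : ρ.ρ τ⁻¹ * ρ.ρ τ = 1 := by rw [← map_mul, inv_mul_cancel, map_one]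
  have h2 : ρ.ρ τ * ρ.ρ τ⁻¹ = 1 := by rw [← map_mul, mul_inv_cancel, map_one]
  let e : ρ.V ≃ₗ[ℤ_[p]] ρ.V := LinearEquiv.ofLinearMap (ρ.ρ τ) (ρ.ρ τ⁻¹) h2 h1
  have he : ∀ v, e v = ρ.ρ τ v := fun v => rfl
  have hes : ∀ v, e.symm v = ρ.ρ τ⁻¹ v := fun v => rfl
  -- the image of the line
  have hmap : ∀ w, w ∈ Submodule.span ℤ_[p] {b 0} → e w ∈ Submodule.span ℤ_[p] {e (b 0)} := by
    intro w hw
    obtain ⟨a, rfl⟩ := Submodule.mem_span_singleton.mp hw
    rw [map_smul]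
    exact Submodule.smul_mem _ _ (Submodule.mem_span_singleton_self _)
  have hpre : ∀ v, v ∈ Submodule.span ℤ_[p] {e (b 0)} →
      e.symm v ∈ Submodule.span ℤ_[p] {b 0} := by
    intro v hv
    obtain ⟨a, rfl⟩ := Submodule.mem_span_singleton.mp hv
    rw [map_smul, LinearEquiv.symm_apply_apply]
    exact Submodule.smul_mem _ _ (Submodule.mem_span_singleton_self _)
  -- conjugation of the representation
  have hconj : ∀ (σ : GQ) (v : ρ.V), ρ.ρ σ v = e (ρ.ρ (τ⁻¹ * σ * τ) (e.symm v)) := by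
    intro σ v
    rw [he, hes, ← Module.End.mul_apply, ← Module.End.mul_apply, ← map_mul, ← map_mul]
    congr 2
    group
  have hself : ∀ v : ρ.V, v = e (e.symm v) := fun v => (e.apply_symm_apply v).symm
  refine ⟨b.map e, ?_, ?_, ?_⟩
  · intro σ hσ v hv
    rw [Module.Basis.map_apply] at hv ⊢
    have hσ' : τ⁻¹ * σ * τ ∈ A₀.decompositionSubgroup ℚ := by
      rw [← Fermat.Agent.EC.conj_mem_decompositionSubgroup (A := A₀) τ]
      have : τ * (τ⁻¹ * σ * τ) * τ⁻¹ = σ := by group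
      rw [this]; exact hσ
    rw [hconj σ v]
    exact hmap _ (hD _ hσ' _ (hpre v hv))
  · intro σ hσ v
    rw [Module.Basis.map_apply]
    have hσ' : τ⁻¹ * σ * τ ∈ A₀.inertiaSubgroupIn ℚ := by
      rw [← Fermat.Agent.EC.conj_mem_inertiaSubgroupIn hpF.out hA₀ τ]
      have : τ * (τ⁻¹ * σ * τ) * τ⁻¹ = σ := by group
      rw [this]; exact hσ
    have : ρ.ρ σ v - v = e (ρ.ρ (τ⁻¹ * σ * τ) (e.symm v) - e.symm v) := by
      rw [map_sub, ← hconj, ← hself]
    rw [this]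
    exact hmap _ (hI _ hσ' _)
  · intro φ hφ v
    rw [Module.Basis.map_apply]
    have hφ' : A₀.IsFrobeniusAt (τ⁻¹ * φ * τ) p := by
      have := Fermat.Agent.RB.SEL.isFrobeniusAt_conj (τ⁻¹ : GQ) hφ
      rwa [inv_smul_smul, inv_inv] at this
    have : ρ.ρ φ v - s • v = e (ρ.ρ (τ⁻¹ * φ * τ) (e.symm v) - s • e.symm v) := by
      rw [map_sub, ← hconj, map_smul, ← hself]
    rw [this]
    exact hmap _ (hF _ hφ' _)

/-- **(T3)**: the residual shape at `p` for a strictly ordinary representation with cyclotomic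
determinant, with a sign independent of the place. -/
theorem ordP_residual (ρ : GaloisRepAdic ℤ_[p]) (hstrict : ρ.IsStrictOrdinaryAt p)
    (hdet : ρ.DetIsCyclotomic p) :
    ∃ s : ℤ_[p], s ^ 2 = 1 ∧
      ∀ A : ValuationSubring Ω, A.LiesOverPrime p →
        ∃ Lbar : Submodule (ResidueField ℤ_[p]) ρ.residual.V,
          (∃ v : ρ.residual.V, v ≠ 0 ∧ Lbar = Submodule.span (ResidueField ℤ_[p]) {v}) ∧
          (∀ σ ∈ A.decompositionSubgroup ℚ, ∀ v ∈ Lbar, ρ.residual.ρ σ v ∈ Lbar) ∧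
          (∀ σ ∈ A.inertiaSubgroupIn ℚ, ∀ v : ρ.residual.V, ρ.residual.ρ σ v - v ∈ Lbar) ∧
          ∀ φ : GQ, A.IsFrobeniusAt φ p → ∀ v : ρ.residual.V,
            ρ.residual.ρ φ v - residue ℤ_[p] s • v ∈ Lbar := by
  have hA₀ : (padicPlace p).LiesOverPrime p := natCast_mem_nonunits_padicPlace
  obtain ⟨b, s, hs2, hD, hI, hF⟩ := ordP_base ρ hstrict hdet (padicPlace p) hA₀
  refine ⟨s, hs2, fun A hA => ?_⟩
  obtain ⟨τ, rfl⟩ := Fermat.Agent.EC.exists_smul_eq_of_liesOverPrime hpF.out hA₀ hA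
  obtain ⟨b', hD', hI', hF'⟩ := ordP_conj ρ (padicPlace p) τ b s hD hI hF hA₀
  refine ⟨redLine (b' 0), ⟨_, one_tmul_basis_ne_zero b', rfl⟩, ?_, ?_, ?_⟩
  · intro σ hσ v hv
    exact baseChange_mem_redLine (ρ.ρ σ) (hD' σ hσ) v hv
  · intro σ hσ v
    exact baseChange_sub_mem_redLine (R := ℤ_[p]) (ρ.ρ σ) (hI' σ hσ) v
  · intro φ hφ v
    exact baseChange_sub_smul_mem_redLine (R := ℤ_[p]) (ρ.ρ φ) s (hF' φ hφ) v

end OrdP

/-! ### the record -/

/-- **[TATE-DICT]**. -/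
theorem tateDictStatement : TateDictStatement := by
  intro p _ hp2 W hΔ hss D
  have hp : p.Prime := Fact.out
  have hT : ∀ q : ℕ, q.Prime → q ≠ p →
      (WeierstrassCurve.Affine.Point.GaloisRepUnramifiedAt (K := Ω) ℚ
          (W.map (Int.castRingHom ℚ)) p q ↔
        ¬ ((q : ℤ) ∣ W.Δ ∧ ¬ p ∣ padicValInt q W.Δ)) := fun q hq hqp =>
    ⟨unrArith_of_galoisRepUnramifiedAt W hΔ hss hp hp2 hq hqp,
      galoisRepUnramifiedAt_of_unrArith W hΔ hss hp hp2 hq hqp⟩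
  exact
    { unr_iff := fun q hq hqp => (residual_isUnramifiedAt_iff D q).trans (hT q hq hqp)
      unr_torsion_iff := hT
      sign := fun q hq hqp hqΔ => sign_uniform D q hq hqp hqΔ
      ord_p := fun hpΔ => ordP_residual D.ρ (D.strict hpΔ) D.det_cyclotomic }

end Fermat.Agent.ML.TATED
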