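/-
PROJECT ML (S59) — [TOP′] / [TOP-L] (helper4): **the residual-side dictionary**: the hypotheses on
`ρ̄ = W[p] ⊗ k` consumed by `IharaAvoidanceDatumE`, `SelStatementE`, `TWProducerStatementE`
(IA′) and by `LiftSetting` (TOP-L), from the curve-level hypotheses (`CurveHyp`, `UnrArith`,
`ScalarAt`, `IsAuxPrime`, `IsOptimalLevel`) and helper1's `TateDict`.

Setting: `D : RhoWData W p`, `ψ₀ : ResidueField ℤ_[p] →+* k` an ARBITRARY ring homomorphism into a
field, `ρ̄ := D.ρ.residual.baseChangeAlong ψ₀`.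

General (residual representations, `ψ : k₁ →+* k₂`):
* `isUnramifiedAt_of_baseChangeAlong` : unramifiedness descends along field extensions;
* `baseChangeAlong_eq_smul_one` : scalars stay scalars.

For `W`:
* (i)   `resFrobScalarAt_of_scalarAt` : `RB.ResFrobScalarAt ρ̄ p v` from `UnrArith`, `ScalarAt`;
* (ii)  `not_isUnramifiedAt_of_ramArith`, `noLevelRaisingAt_of_isAuxPrime`,
        `hram_of_isOptimalLevel`, `isUnramifiedAt_of_unrArith`;
* (iii) `isAbsolutelyIrreducible_rhobar`, `resTW_rhobar`, `split_rhobar` (`k ⊇ 𝔽_{p²}`),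
        `det_rhobar_complexConjugation`, `detIsCyclotomic_rhobar`;
* (iv)  `isOrdinaryAt_rhobar` (from `TateDict.ord_p`);
* (v)   `charpoly_frob_rhobar` : `X² - a_ℓ(W) X + ℓ` at the good primes `ℓ ≠ p`;
* (vi)  `resIntertwined_of_frob_of_absIrr`, `exists_attached_intertwined`,
        `charpoly_residual_of_attached`, `eigenform_bridge` : the eigenform bridge (S29 +
        Chebotarev + Brauer–Nesbitt) for `D.ρ.residual`.

Final: `residDictStatement : ResidDictStatement` (lead's literal, `ML/IFACE_lead_TopIA.lean`).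
-/
import Mathlib
import Fermat.Agent.ML.IFACE_helper1_TateDict
import Fermat.Agent.ML.IFACE_helper9_IA
import Fermat.Agent.ML.HYG_helper1_Export
import Fermat.Agent.ML.REPTLB_helper1_LevelOf
import Fermat.Agent.ML.REPTL_helper9_LevelOf
import Fermat.Agent.GR.S29TOP_lead
import Fermat.Agent.GR.S42TOP_helper7
import Fermat.Agent.TW.Odd_helper1
import Fermat.Agent.ML.IFACE_lead_TopIA
import Fermat.Agent.ML.TATED_helper1_Final
import Fermat.Agent.RB.REPT_helper1_Irr2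
import Fermat.Agent.RB.HYG_lead_Bridge
import Fermat.Agent.S29

set_option autoImplicit false
set_option linter.unusedSectionVars false
set_option linter.unusedVariables false
set_option linter.style.haveILetI false

open Polynomial IsLocalRing
open scoped WeierstrassCurve.Affine TensorProduct

namespace Fermat.Agent.ML.TOPR

open Fermat.Agent.GR

/-- `Ω = AlgebraicClosure ℚ`. -/
local notation "Ω" => AlgebraicClosure ℚ

/-- the absolute Galois group. -/
local notation "GQ" => (AlgebraicClosure ℚ ≃ₐ[ℚ] AlgebraicClosure ℚ)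

/-! ### general facts on base changes of residual representations -/

section General

variable {k₁ k₂ : Type} [Field k₁] [Field k₂]

/-- **unramifiedness descends along a field extension.** -/
theorem isUnramifiedAt_of_baseChangeAlong (ψ : k₁ →+* k₂) (ρ : ResidualGaloisRep k₁) (q : ℕ)
    (h : (ρ.baseChangeAlong ψ).IsUnramifiedAt q) : ρ.IsUnramifiedAt q := by
  letI : Algebra k₁ k₂ := ψ.toAlgebra
  intro P hP σ hσ
  have h1 : (ρ.ρ σ).baseChange k₂ = 1 := h P hP σ hσ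
  have hinj := LinearMap.baseChangeHom_injective (R := k₁) (S := k₂) (M := ρ.V) (N := ρ.V)
  apply hinj
  show (ρ.ρ σ).baseChange k₂ = (1 : Module.End k₁ ρ.V).baseChange k₂
  rw [h1, LinearMap.baseChange_one]

/-- **scalars stay scalars.** -/
theorem baseChangeAlong_eq_smul_one (ψ : k₁ →+* k₂) (ρ : ResidualGaloisRep k₁) {σ : GQ} {c : k₁}
    (h : ρ.ρ σ = c • (1 : Module.End k₁ ρ.V)) :
    (ρ.baseChangeAlong ψ).ρ σ = ψ c • (1 : Module.End k₂ (ρ.baseChangeAlong ψ).V) := by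
  letI : Algebra k₁ k₂ := ψ.toAlgebra
  show (ρ.ρ σ).baseChange k₂ = ψ c • (1 : Module.End k₂ (k₂ ⊗[k₁] ρ.V))
  rw [h]
  apply LinearMap.ext
  intro x
  induction x using TensorProduct.induction_on with
  | zero => rw [map_zero, map_zero]
  | tmul a v =>
    rw [LinearMap.baseChange_tmul, LinearMap.smul_apply, LinearMap.smul_apply,
      Module.End.one_apply, Module.End.one_apply, TensorProduct.tmul_smul,
      TensorProduct.smul_tmul', TensorProduct.smul_tmul', Algebra.smul_def, smul_eq_mul]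
    rfl
  | add x y hx hy => rw [map_add, map_add, hx, hy]

end General

/-! ### the residual representation of `W` over `k` -/

section Curve

variable {p : ℕ} [hp : Fact p.Prime] {W : WeierstrassCurve ℤ} (D : RhoWData W p)
  {k : Type} [Field k] (ψ₀ : ResidueField ℤ_[p] →+* k)

/-- `p = 0` in `k`. -/
theorem natCast_p_eq_zero (ψ₀ : ResidueField ℤ_[p] →+* k) : ((p : ℕ) : k) = 0 := by
  have h1 : residue ℤ_[p] ((p : ℕ) : ℤ_[p]) = 0 := hyg_residue_p p
  have h2 := congrArg ψ₀ h1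
  rwa [map_natCast, map_natCast, map_zero] at h2

/-- `k` has characteristic `p`. -/
theorem charP_of_hom (ψ₀ : ResidueField ℤ_[p] →+* k) : CharP k p :=
  (CharP.charP_iff_prime_eq_zero hp.out).mpr (natCast_p_eq_zero ψ₀)

/-! #### (v) the Frobenius characteristic polynomials at the good primes -/

/-- **(v)** `charpoly ρ̄(Frob_ℓ) = X² - a_ℓ(W) X + ℓ` at the good primes `ℓ ≠ p`. -/
theorem charpoly_frob_rhobar {ℓ : ℕ} (hℓ : ℓ.Prime) (hℓp : ℓ ≠ p) (hgood : W.IsGoodPrimeFor ℓ)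
    (A : ValuationSubring Ω) (hA : A.LiesOverPrime ℓ) (σ : GQ) (hσ : A.IsFrobeniusAt σ ℓ) :
    LinearMap.charpoly ((D.ρ.residual.baseChangeAlong ψ₀).ρ σ) =
      X ^ 2 - C ((W.apOfModel ℓ : ℤ) : k) * X + C ((ℓ : ℕ) : k) := by
  rw [baseChangeAlong_charpoly, residual_charpoly, D.charpoly_frob ℓ hℓ hℓp hgood A hA σ hσ]
  simp only [Polynomial.map_add, Polynomial.map_sub, Polynomial.map_mul, Polynomial.map_pow,
    Polynomial.map_X, map_intCast, map_natCast, Polynomial.map_intCast,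
    Polynomial.map_natCast]

/-! #### (ii) ramification -/

/-- `ρ̄` is unramified at the primes `q ≠ p` with `q ∤ Δ` or `p ∣ v_q(Δ)`. -/
theorem isUnramifiedAt_of_unrArith (hT : TateDict W p D) {q : ℕ} (hq : q.Prime) (hqp : q ≠ p)
    (h : UnrArith W p q) : (D.ρ.residual.baseChangeAlong ψ₀).IsUnramifiedAt q :=
  baseChangeAlong_isUnramifiedAt ψ₀ _ q ((hT.unr_iff q hq hqp).2 h)

/-- **(ii-a)** `ρ̄` is ramified at the primes `q ≠ p` with `q ∣ Δ` and `p ∤ v_q(Δ)`. -/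
theorem not_isUnramifiedAt_of_ramArith (hT : TateDict W p D) {q : ℕ} (hq : q.Prime) (hqp : q ≠ p)
    (h : (q : ℤ) ∣ W.Δ ∧ ¬ p ∣ padicValInt q W.Δ) :
    ¬ (D.ρ.residual.baseChangeAlong ψ₀).IsUnramifiedAt q := fun hu =>
  ((hT.unr_iff q hq hqp).1 (isUnramifiedAt_of_baseChangeAlong ψ₀ _ q hu)) h

/-- **(ii-b)** an auxiliary prime `r` (`p = 3`, `r ≡ 2 mod 3`, `3 ∤ a_r`): no level raising at `r`,
and `r ≢ 1 mod p`. -/
theorem noLevelRaisingAt_of_isAuxPrime {r : ℕ} (h : IsAuxPrime W p r) :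
    NoLevelRaisingAt (D.ρ.residual.baseChangeAlong ψ₀) r ∧ ((r : ℕ) : k) ≠ 1 := by
  obtain ⟨hp3, hr, hgood, hr3, ha⟩ := h
  haveI : CharP k p := charP_of_hom ψ₀
  have hrp : r ≠ p := by
    rintro rfl
    rw [hp3] at hr3
    norm_num at hr3
  have h3r : ((r : ℕ) : k) + 1 = 0 := by
    have h1 : (((r + 1 : ℕ) : ℕ) : k) = 0 := by
      rw [CharP.cast_eq_zero_iff k p, hp3]
      omega
    rwa [Nat.cast_add, Nat.cast_one] at h1
  refine ⟨⟨baseChangeAlong_isUnramifiedAt ψ₀ _ r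
    (residual_isUnramifiedAt D.ρ r (D.unramified r hr hrp hgood)), fun A hA φ hφ => ?_⟩, ?_⟩
  · have hch := charpoly_frob_rhobar D ψ₀ hr hrp hgood A hA φ hφ
    have htr := Fermat.Agent.GR.S42Top.trace_of_charpoly_eq
      (D.ρ.residual.baseChangeAlong ψ₀).finrank_eq _ _ _ hch
    rw [htr, h3r]
    have ha0 : ((W.apOfModel r : ℤ) : k) ≠ 0 := by
      rw [Ne, CharP.intCast_eq_zero_iff k p, hp3]
      exact ha
    rw [zero_pow two_ne_zero]
    exact pow_ne_zero 2 ha0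
  · intro h1
    have h2 : ((2 : ℕ) : k) = 0 := by
      have : ((r : ℕ) : k) + 1 = ((2 : ℕ) : k) := by rw [h1]; norm_num
      rw [← this, h3r]
    rw [CharP.cast_eq_zero_iff k p, hp3] at h2
    omega

/-- **(ii-c)** the hypothesis `hram` of IA′ / `S_ram` of `LiftSetting` at the primes `≠ p` of an
optimal level. -/
theorem hram_of_isOptimalLevel (hT : TateDict W p D) {N : ℕ} (hopt : IsOptimalLevel W p N)
    (ℓ : ℕ) (hℓ : ℓ.Prime) (hℓN : ℓ ∣ N) (hℓp : ℓ ≠ p) :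
    ¬ (D.ρ.residual.baseChangeAlong ψ₀).IsUnramifiedAt ℓ ∨
      (NoLevelRaisingAt (D.ρ.residual.baseChangeAlong ψ₀) ℓ ∧ ((ℓ : ℕ) : k) ≠ 1) := by
  rcases hopt.2.2.1 ℓ hℓ hℓN hℓp with h | h
  · exact Or.inl (not_isUnramifiedAt_of_ramArith D ψ₀ hT hℓ hℓp h)
  · exact Or.inr (noLevelRaisingAt_of_isAuxPrime D ψ₀ h)

/-- **(i-a)** `ρ̄` is unramified at `q ≠ p` iff `q ∤ Δ` or `p ∣ v_q(Δ)`. -/
theorem isUnramifiedAt_iff_unrArith (hT : TateDict W p D) {q : ℕ} (hq : q.Prime) (hqp : q ≠ p) :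
    (D.ρ.residual.baseChangeAlong ψ₀).IsUnramifiedAt q ↔ UnrArith W p q :=
  ⟨fun h => (hT.unr_iff q hq hqp).1 (isUnramifiedAt_of_baseChangeAlong ψ₀ _ q h),
    fun h => isUnramifiedAt_of_unrArith D ψ₀ hT hq hqp h⟩

/-! #### (i) the scalar primes -/

/-- an element of `G_ℚ` acting on `W[p](ℚ̄)` by the integer `c` acts on `D.ρ.residual` by `c`. -/
theorem residual_eq_smul_one_of_torsion {φ : GQ} {c : ℤ}
    (hc : ∀ Q : ((W.map (Int.castRingHom ℚ))⁄Ω).Point, p • Q = 0 → φ • Q = c • Q) :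
    D.ρ.residual.ρ φ =
      ((c : ℤ) : ResidueField ℤ_[p]) • (1 : Module.End (ResidueField ℤ_[p]) D.ρ.residual.V) := by
  obtain ⟨e, he⟩ := D.residual_torsion
  apply LinearMap.ext
  intro x
  apply e.injective
  rw [he, LinearMap.smul_apply, Module.End.one_apply, Int.cast_smul_eq_zsmul, map_zsmul]
  apply Subtype.ext
  have htors : p • ((e x : Submodule.torsionBy ℤ ((W.map (Int.castRingHom ℚ))⁄Ω).Point p) :
      ((W.map (Int.castRingHom ℚ))⁄Ω).Point) = 0 := by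
    have := (e x).2
    rw [Submodule.mem_torsionBy_iff, natCast_zsmul] at this
    exact this
  exact hc _ htors

/-- **(i-b)** the scalar primes are of type `RB.ResFrobScalarAt`. -/
theorem resFrobScalarAt_of_scalarAt (hT : TateDict W p D) {v : ℕ} (hv : v.Prime) (hvp : v ≠ p)
    (hunr : UnrArith W p v) (hs : ScalarAt W p v) :
    RB.ResFrobScalarAt (D.ρ.residual.baseChangeAlong ψ₀) p v := by
  refine ⟨hs.1, isUnramifiedAt_of_unrArith D ψ₀ hT hv hvp hunr, fun A hA φ hφ => ?_⟩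
  obtain ⟨c, hc⟩ := hs.2 A hA φ hφ
  exact ⟨ψ₀ ((c : ℤ) : ResidueField ℤ_[p]),
    baseChangeAlong_eq_smul_one ψ₀ _ (residual_eq_smul_one_of_torsion D hc)⟩

/-! #### (iii) the Taylor–Wiles hypotheses -/

/-- **(iii-a)** `ρ̄` is absolutely irreducible and satisfies `hTW` (helper1's [HYG-L]). -/
theorem absIrr_resTW_rhobar (hyp : CurveHyp p W) :
    (D.ρ.residual.baseChangeAlong ψ₀).IsAbsolutelyIrreducible ∧
      ResTW (D.ρ.residual.baseChangeAlong ψ₀) := by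
  letI : Algebra (ResidueField ℤ_[p]) k := ψ₀.toAlgebra
  exact hygTW_residual_baseChange p hyp.p_eq W hyp.disc_ne hyp.semistable hyp.irreducible D k

/-- the determinant of `D.ρ.residual` is the mod `p` cyclotomic character. -/
theorem det_residual_eq {σ : GQ} {a : ℕ} (hσ : ∀ μ : Ω, μ ^ p = 1 → σ μ = μ ^ a) :
    LinearMap.det (D.ρ.residual.ρ σ) = ((a : ℕ) : ResidueField ℤ_[p]) := by
  have h1 := D.det_cyclotomic.2 1 σ a (fun μ hμ => hσ μ (by rwa [pow_one] at hμ))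
  obtain ⟨c, hc⟩ := Ideal.mem_span_singleton'.mp h1
  have h2 : LinearMap.det (D.ρ.residual.ρ σ) = residue ℤ_[p] (LinearMap.det (D.ρ.ρ σ)) := by
    show LinearMap.det ((D.ρ.ρ σ).baseChange (ResidueField ℤ_[p])) = _
    rw [LinearMap.det_baseChange]
    rfl
  have h3 : LinearMap.det (D.ρ.ρ σ) = c * ((p ^ 1 : ℕ) : ℤ_[p]) + (a : ℤ_[p]) := by
    rw [hc]; ring
  rw [h2, h3, map_add, map_mul, pow_one, hyg_residue_p p, mul_zero, zero_add, map_natCast]

/-- the determinant of `ρ̄` is the mod `p` cyclotomic character. -/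
theorem det_rhobar_eq {σ : GQ} {a : ℕ} (hσ : ∀ μ : Ω, μ ^ p = 1 → σ μ = μ ^ a) :
    LinearMap.det ((D.ρ.residual.baseChangeAlong ψ₀).ρ σ) = ((a : ℕ) : k) := by
  letI : Algebra (ResidueField ℤ_[p]) k := ψ₀.toAlgebra
  show LinearMap.det ((D.ρ.residual.ρ σ).baseChange k) = _
  rw [LinearMap.det_baseChange, det_residual_eq D hσ, map_natCast]

/-- **(iii-b)** `det ρ̄(c) = -1`. -/
theorem det_rhobar_complexConjugation :
    LinearMap.det ((D.ρ.residual.baseChangeAlong ψ₀).ρ complexConjugation) = -1 := by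
  rw [det_rhobar_eq D ψ₀ (σ := complexConjugation) (a := p - 1)
    (fun μ hμ => Fermat.Agent.TW.Odd.complexConjugation_eq_pow hp.out.pos hμ),
    Nat.cast_sub hp.out.one_le, natCast_p_eq_zero ψ₀, Nat.cast_one, zero_sub]

/-- **(iii-c)** the determinant of `ρ̄` is cyclotomic (the field `det_cyc` of `LiftSetting`). -/
theorem detIsCyclotomic_rhobar :
    (GaloisRepAdic.ofResidualGaloisRep (D.ρ.residual.baseChangeAlong ψ₀)).DetIsCyclotomic p := by
  refine ⟨?_, fun n σ a hσ => ?_⟩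
  · rw [natCast_p_eq_zero ψ₀]
    exact Ideal.zero_mem _
  · rcases Nat.eq_zero_or_pos n with rfl | hn
    · rw [pow_zero, Nat.cast_one, Ideal.span_singleton_one]
      exact Submodule.mem_top
    · have hσ' : ∀ μ : Ω, μ ^ p = 1 → σ μ = μ ^ a := by
        intro μ hμ
        apply hσ μ
        obtain ⟨m, rfl⟩ : ∃ m, n = m + 1 := ⟨n - 1, by omega⟩
        rw [pow_succ', pow_mul, hμ, one_pow]
      have h1 : LinearMap.det ((GaloisRepAdic.ofResidualGaloisRep
          (D.ρ.residual.baseChangeAlong ψ₀)).ρ σ) = ((a : ℕ) : k) := det_rhobar_eq D ψ₀ hσ'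
      rw [h1, sub_self]
      exact Ideal.zero_mem _

/-- **(iii-d)** the characteristic polynomials of `ρ̄` split over `k` as soon as the monic
quadratic polynomials over `ResidueField ℤ_[p]` do. -/
theorem split_rhobar
    (hquad : ∀ f : (ResidueField ℤ_[p])[X], f.Monic → f.natDegree = 2 →
      ∃ α β : k, f.map ψ₀ = (X - C α) * (X - C β)) (σ : GQ) :
    ∃ α β : k, LinearMap.charpoly ((D.ρ.residual.baseChangeAlong ψ₀).ρ σ) =
      (X - C α) * (X - C β) := by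
  rw [baseChangeAlong_charpoly]
  refine hquad _ (LinearMap.charpoly_monic _) ?_
  rw [LinearMap.charpoly_natDegree, D.ρ.residual.finrank_eq]

/-! #### (iv) ordinarity at `p` -/

/-- **(iv)** `ρ̄` is ordinary at `p` when `p ∣ Δ` (from `TateDict.ord_p`). -/
theorem isOrdinaryAt_rhobar (hT : TateDict W p D) (hpΔ : (p : ℤ) ∣ W.Δ) :
    (GaloisRepAdic.ofResidualGaloisRep (D.ρ.residual.baseChangeAlong ψ₀)).IsOrdinaryAt p := by
  obtain ⟨s, -, hs⟩ := hT.ord_p hpΔ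
  refine Fermat.Agent.ML.REPTL.isOrdinaryAt_ofResidual_baseChangeAlong ψ₀ _
    (Fermat.Agent.ML.REPTLB.residual_isOrdinaryAt_of_line _ fun A hA => ?_)
  obtain ⟨Lbar, h1, h2, h3, -⟩ := hs A hA
  exact ⟨Lbar, h1, h2, h3⟩

end Curve

/-! ### (vi) the eigenform bridge -/

/-- the ring of algebraic integers of `ℂ`. -/
local notation "ℤbar" => integralClosure ℤ ℂ

section Bridge

variable {k₁ k₂ : Type} [Field k₁] [Field k₂]

/-- **Chebotarev + Brauer–Nesbitt, intertwiner form**, for an absolutely irreducible `ρ₁`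
(`RB.resIntertwined_of_frob` asks for two transvections). -/
theorem resIntertwined_of_frob_of_absIrr (ψ : k₁ →+* k₂) (h2 : (2 : k₂) ≠ 0)
    (ρ₁ : ResidualGaloisRep k₁) (ρ₂ : ResidualGaloisRep k₂) (habs : ρ₁.IsAbsolutelyIrreducible)
    (S : Finset ℕ)
    (hfrob : ∀ ℓ : ℕ, ℓ.Prime → ℓ ∉ S → ∀ P : ValuationSubring Ω, P.LiesOverPrime ℓ →
      ∀ φ : GQ, P.IsFrobeniusAt φ ℓ →
        (LinearMap.charpoly (ρ₁.ρ φ)).map ψ = LinearMap.charpoly (ρ₂.ρ φ)) :
    RB.ResIntertwined ψ ρ₁ ρ₂ := by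
  obtain ⟨F, hFσ, hFt, hFΦ, -, -⟩ := Fermat.Agent.NP.exists_semilinear_of_frob
    (GaloisRepAdic.ofResidualGaloisRep ρ₁) ψ (GaloisRepAdic.ofResidualGaloisRep ρ₂)
    (Fermat.Agent.RB.REPT.residual_ofResidualGaloisRep_isAbsolutelyIrreducible ρ₁ habs)
    (isUnit_iff_ne_zero.mpr h2) S hfrob
  exact ⟨F, hFσ, hFt, hFΦ⟩

end Bridge

section CurveBridge

variable {p : ℕ} [hp : Fact p.Prime] {W : WeierstrassCurve ℤ} (D : RhoWData W p)
  {N : ℕ} [NeZero N] {g : CuspForm (CongruenceSubgroup.Gamma0 N) 2}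
  {k' : Type} [Field k'] [CharP k' p]

/-- two elements of `ℤ̄` with the same complex value are equal. -/
theorem zbar_ext' {a b : ℤbar} (h : (a : ℂ) = (b : ℂ)) : a = b := Subtype.ext h

/-- a prime `ℓ ≠ p` is non-zero in a field of characteristic `p`. -/
theorem natCast_prime_ne_zero {ℓ : ℕ} (hℓ : ℓ.Prime) (hℓp : ℓ ≠ p) : ((ℓ : ℕ) : k') ≠ 0 := by
  intro h0
  have := (CharP.cast_eq_zero_iff k' p ℓ).1 h0
  exact hℓp ((Nat.prime_dvd_prime_iff_eq hp.out hℓ).1 this).symm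

/-- **(vi-a)** the residual representation of `g` (S29) is intertwined with `D.ρ.residual` as soon
as `a_ℓ(g) ≡ a_ℓ(W)` outside a finite set. -/
theorem exists_attached_intertwined (hyp : CurveHyp p W) (hg : g.IsNormalizedEigenform)
    (φ : ℤbar →+* k') (ψ : ResidueField ℤ_[p] →+* k') (S₀ : Finset ℕ)
    (hcong : ∀ ℓ : ℕ, ℓ.Prime → ℓ ∉ S₀ → ∃ a : ℤbar, (a : ℂ) = ModularFormClass.qCoeff g ℓ ∧
      φ a = ((W.apOfModel ℓ : ℤ) : k')) :
    ∃ ρ : ResidualGaloisRep k', ρ.IsAttachedTo g φ ∧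
      (∀ ℓ : ℕ, ℓ.Prime → ¬ ℓ ∣ N * p → ρ.IsUnramifiedAt ℓ) ∧
      RB.ResIntertwined ψ D.ρ.residual ρ := by
  classical
  obtain ⟨ρ, hatt, hunr⟩ := Fermat.Agent.S29.result hg hp.out φ
  refine ⟨ρ, hatt, hunr, ?_⟩
  have hΔ : W.Δ ≠ 0 := hyp.disc_ne
  have hp2 : p ≠ 2 := by rcases hyp.p_eq with h | h <;> omega
  have h2 : (2 : k') ≠ 0 := by
    have h := natCast_prime_ne_zero (p := p) (k' := k') Nat.prime_two (Ne.symm hp2)
    exact_mod_cast h
  have habs : D.ρ.residual.IsAbsolutelyIrreducible :=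
    (hygTWRhoStatement p hyp.p_eq W hyp.disc_ne hyp.semistable hyp.irreducible D).1
  -- the exceptional set
  let S₁ : Finset ℕ := S₀ ∪ N.primeFactors ∪ W.Δ.natAbs.primeFactors ∪ {p}
  refine resIntertwined_of_frob_of_absIrr ψ h2 D.ρ.residual ρ habs S₁ ?_
  intro ℓ hℓ hℓS₁ A hA σ hσ
  have hℓS₀ : ℓ ∉ S₀ := fun h => hℓS₁ (by simp [S₁, h])
  have hℓp : ℓ ≠ p := fun h => hℓS₁ (by simp [S₁, h])
  have hℓN : ¬ ℓ ∣ N := fun h => hℓS₁ (by
    have : ℓ ∈ N.primeFactors := Nat.mem_primeFactors.2 ⟨hℓ, h, NeZero.ne N⟩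
    simp [S₁, this])
  have hgood : W.IsGoodPrimeFor ℓ := by
    intro hdvd
    apply hℓS₁
    have : ℓ ∈ W.Δ.natAbs.primeFactors :=
      Nat.mem_primeFactors.2 ⟨hℓ, Int.natCast_dvd.mp hdvd, Int.natAbs_ne_zero.mpr hΔ⟩
    simp [S₁, this]
  obtain ⟨a, ha, hchar⟩ := hatt ℓ hℓ hℓN (natCast_prime_ne_zero hℓ hℓp) A hA σ hσ
  obtain ⟨a', ha', hφa'⟩ := hcong ℓ hℓ hℓS₀
  have haa' : a = a' := zbar_ext' (ha.trans ha'.symm)
  rw [hchar, haa', hφa', residual_charpoly, D.charpoly_frob ℓ hℓ hℓp hgood A hA σ hσ]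
  simp only [Polynomial.map_add, Polynomial.map_sub, Polynomial.map_mul, Polynomial.map_pow,
    Polynomial.map_X, map_intCast, map_natCast, Polynomial.map_intCast,
    Polynomial.map_natCast]

/-- **(vi-b)** the Frobenius characteristic polynomials of `D.ρ.residual` at ALL primes `ℓ ∤ N p`,
in terms of the eigenform. -/
theorem charpoly_residual_of_attached {ρ : ResidualGaloisRep k'} {φ : ℤbar →+* k'}
    {ψ : ResidueField ℤ_[p] →+* k'} (hatt : ρ.IsAttachedTo g φ)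
    (hI : RB.ResIntertwined ψ D.ρ.residual ρ)
    {ℓ : ℕ} (hℓ : ℓ.Prime) (hℓN : ¬ ℓ ∣ N) (hℓp : ℓ ≠ p)
    (A : ValuationSubring Ω) (hA : A.LiesOverPrime ℓ) (σ : GQ) (hσ : A.IsFrobeniusAt σ ℓ) :
    ∃ a : ℤbar, (a : ℂ) = ModularFormClass.qCoeff g ℓ ∧
      (LinearMap.charpoly (D.ρ.residual.ρ σ)).map ψ =
        X ^ 2 - C (φ a) * X + C ((ℓ : ℕ) : k') := by
  obtain ⟨a, ha, hchar⟩ := hatt ℓ hℓ hℓN (natCast_prime_ne_zero hℓ hℓp) A hA σ hσ
  exact ⟨a, ha, by rw [← hI.charpoly_eq σ, hchar]⟩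

/-- **(vi)** the eigenform bridge, in the form of `ResidDictStatement`. -/
theorem eigenform_bridge (hyp : CurveHyp p W) (hg : g.IsNormalizedEigenform)
    (φ : ℤbar →+* k') (ψ : ResidueField ℤ_[p] →+* k') (S₀ : Finset ℕ)
    (hcong : ∀ ℓ : ℕ, ℓ.Prime → ℓ ∉ S₀ → ∃ a : ℤbar, (a : ℂ) = ModularFormClass.qCoeff g ℓ ∧
      φ a = ((W.apOfModel ℓ : ℤ) : k'))
    {ℓ : ℕ} (hℓ : ℓ.Prime) (hℓN : ¬ ℓ ∣ N) (hℓp : ℓ ≠ p)
    (A : ValuationSubring Ω) (hA : A.LiesOverPrime ℓ) (σ : GQ) (hσ : A.IsFrobeniusAt σ ℓ) :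
    ∃ a : ℤbar, (a : ℂ) = ModularFormClass.qCoeff g ℓ ∧
      (LinearMap.charpoly (D.ρ.residual.ρ σ)).map ψ =
        X ^ 2 - C (φ a) * X + C ((ℓ : ℕ) : k') := by
  obtain ⟨ρ, hatt, -, hI⟩ := exists_attached_intertwined D hyp hg φ ψ S₀ hcong
  exact charpoly_residual_of_attached D hatt hI hℓ hℓN hℓp A hA σ hσ

/-- **(vi-c)** the congruences at ALL good primes `ℓ ∤ N p`. -/
theorem congr_of_attached {ρ : ResidualGaloisRep k'} {φ : ℤbar →+* k'}
    {ψ : ResidueField ℤ_[p] →+* k'} (hatt : ρ.IsAttachedTo g φ)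
    (hI : RB.ResIntertwined ψ D.ρ.residual ρ)
    {ℓ : ℕ} (hℓ : ℓ.Prime) (hgood : W.IsGoodPrimeFor ℓ) (hℓN : ¬ ℓ ∣ N) (hℓp : ℓ ≠ p) :
    ∃ a : ℤbar, (a : ℂ) = ModularFormClass.qCoeff g ℓ ∧ φ a = ((W.apOfModel ℓ : ℤ) : k') := by
  obtain ⟨A, σ, hA, hσ⟩ := Fermat.Agent.S54.exists_frobenius ℓ hℓ
  obtain ⟨a, ha, hchar⟩ := charpoly_residual_of_attached D hatt hI hℓ hℓN hℓp A hA σ hσ
  refine ⟨a, ha, ?_⟩
  have h1 : (X ^ 2 - C (((W.apOfModel ℓ : ℤ) : k')) * X + C ((ℓ : ℕ) : k') : k'[X]) =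
      X ^ 2 - C (φ a) * X + C ((ℓ : ℕ) : k') := by
    rw [← hchar, residual_charpoly, D.charpoly_frob ℓ hℓ hℓp hgood A hA σ hσ]
    simp only [Polynomial.map_add, Polynomial.map_sub, Polynomial.map_mul, Polynomial.map_pow,
      Polynomial.map_X, map_intCast, map_natCast, Polynomial.map_intCast,
      Polynomial.map_natCast]
  exact (Fermat.Agent.RB.REPT.coeffs_eq_of_quadratic_eq h1).1.symm

end CurveBridge

/-! ### the statement -/

/-- **the residual-side dictionary** (lead's literal `ResidDictStatement`). -/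
theorem residDictStatement : ResidDictStatement := by
  intro p _ W hyp
  have hp2 : p ≠ 2 := by rcases hyp.p_eq with h | h <;> omega
  obtain ⟨D⟩ := rhoWStatement p hp2 W hyp.disc_ne hyp.semistable
  have hT : TateDict W p D :=
    Fermat.Agent.ML.TATED.tateDictStatement p hp2 W hyp.disc_ne hyp.semistable D
  refine ⟨D.ρ.residual, ?_, ?_, ?_⟩
  · -- (v)
    intro ℓ hℓ hℓp hgood A hA σ hσ
    rw [residual_charpoly, D.charpoly_frob ℓ hℓ hℓp hgood A hA σ hσ]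
    simp only [Polynomial.map_add, Polynomial.map_sub, Polynomial.map_mul, Polynomial.map_pow,
      Polynomial.map_X, map_intCast, map_natCast, Polynomial.map_intCast,
      Polynomial.map_natCast]
  · -- (vi)
    intro N _ g hg k' _ _ φ ψ S₀ hcong ℓ hℓ hℓN hℓp A hA σ hσ
    exact eigenform_bridge D hyp hg φ ψ S₀ hcong hℓ hℓN hℓp A hA σ hσ
  · intro k _ ψ₀
    obtain ⟨habs, hTW⟩ := absIrr_resTW_rhobar D ψ₀ hyp
    exact ⟨habs, det_rhobar_complexConjugation D ψ₀, hTW,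
      fun q hq hqp => isUnramifiedAt_iff_unrArith D ψ₀ hT hq hqp,
      fun v hv hvp hunr hs => resFrobScalarAt_of_scalarAt D ψ₀ hT hv hvp hunr hs,
      fun r hr => noLevelRaisingAt_of_isAuxPrime D ψ₀ hr,
      fun hpΔ => isOrdinaryAt_rhobar D ψ₀ hT hpΔ⟩

end Fermat.Agent.ML.TOPR
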