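/-
PROJECT ML (S59) — [PR-1c] (helper1): **the Hecke side at the level where `ρ̄` occurs**
(a piece of [PR-1] `ChainSettingStatement`, `ML/IFACE_helper9_Producer.lean`; literal of lead 2485).

`exists_occ_setup`: `W` semistable with `W[p]` irreducible (`CurveHyp`), `D : RhoWData W p`,
`TateDict W p D`, `N` squarefree with `IsResModAway W p N`.  Then there are a coefficient ring `𝒪`
(complete DVR, finite residue field, characteristic `0`) with the canonical local homomorphism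
`ι : ℤ_[p] →+* 𝒪`, over whose residue field all monic quadratic polynomials over `𝔽_p` split, and a
system `c : Nat.Primes → 𝒪` of lifts of the `a_ℓ(W) mod p` at ALL good primes `ℓ ∤ N p`, such that
the module of level zero `lvlMod 𝒪 p N N c` is not zero; moreover `5 ≤ N`, and `W[p]` is unramified
(arithmetic form) at every prime `q ∤ N p`.

Recipe (lead): `RB.TOPIA.exists_padic_setup`, `GR.padicToComplete`, helper4's
`TOPR.exists_attached_intertwined` / `charpoly_residual_of_attached` / `congr_of_attached`,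
`RB.REPT.exists_heckeGaloisRepDatum'`, `REPTX.exists_level0_lvlMod`, `REPTX.five_le_level`.
-/
import Mathlib
import Fermat.Agent.ML.TOPIA_helper4_Resid
import Fermat.Agent.ML.REPTX_helper1_Level0
import Fermat.Agent.ML.REPTX_helper1_Small
import Fermat.Agent.RB.TOPIA_helper1_Main
import Fermat.Agent.RB.REPT_helper1_Final
import Fermat.Agent.S58.TOP58_helper9_Cmp
import Fermat.Agent.GR.PADICALG_lead

set_option autoImplicit false
set_option linter.unusedSectionVars false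
set_option linter.unusedVariables false
set_option linter.style.haveILetI false

open Polynomial IsLocalRing CuspForm

namespace Fermat.Agent.ML.PR1

open Fermat.Agent.RB Fermat.Agent.RB.TOPIA Fermat.Agent.MP Fermat.Agent.GR

local notation "Ω" => AlgebraicClosure ℚ
local notation "GQ" => (AlgebraicClosure ℚ ≃ₐ[ℚ] AlgebraicClosure ℚ)
local notation "ℤbar" => integralClosure ℤ ℂ

set_option maxHeartbeats 1600000 in
/-- **[PR-1c]: the Hecke side at the level where `ρ̄` occurs.** -/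
theorem exists_occ_setup (p : ℕ) [Fact p.Prime] (W : WeierstrassCurve ℤ) (hyp : CurveHyp p W)
    (D : RhoWData W p) (hT : TateDict W p D)
    (N : ℕ) [NeZero N] (hsqf : Squarefree N) (hres : IsResModAway W p N) :
    ∃ (𝒪 : Type) (_ : CommRing 𝒪) (_ : IsDomain 𝒪) (_ : IsDiscreteValuationRing 𝒪)
      (_ : IsAdicComplete (maximalIdeal 𝒪) 𝒪) (_ : Finite (ResidueField 𝒪)) (_ : CharZero 𝒪)
      (ι : ℤ_[p] →+* 𝒪) (_ : IsLocalHom ι),
      (∀ f : (ResidueField ℤ_[p])[X], f.Monic → f.natDegree = 2 →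
        ∃ α β : ResidueField 𝒪, f.map (ResidueField.map ι) = (X - C α) * (X - C β)) ∧
      5 ≤ N ∧
      (∀ q : ℕ, q.Prime → ¬ q ∣ N * p → UnrArith W p q) ∧
      ∃ c : Nat.Primes → 𝒪,
        (∀ ℓ : Nat.Primes, (ℓ : ℕ) ≠ p → ¬ (ℓ : ℕ) ∣ N → W.IsGoodPrimeFor ℓ →
          residue 𝒪 (c ℓ) = ((W.apOfModel ℓ : ℤ) : ResidueField 𝒪)) ∧
        lvlMod 𝒪 p N N c ≠ ⊥ := by
  classical
  have hpp : p.Prime := Fact.out
  have hp2 : p ≠ 2 := by rcases hyp.p_eq with rfl | rfl <;> norm_num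
  have hΔ : W.Δ ≠ 0 := hyp.disc_ne
  have hpos : 0 < N := Nat.pos_of_ne_zero (NeZero.ne N)
  obtain ⟨Sex, hfin, g, 𝔪, hg, h𝔪, hp𝔪, hcong⟩ := hres
  haveI := h𝔪
  -- the set `S`
  let S : Finset ℕ := insert p N.primeFactors
  have hS : ∀ ℓ : ℕ, ℓ ∈ S ↔ ℓ.Prime ∧ (ℓ = p ∨ ℓ ∣ N) := by
    intro ℓ
    simp only [S, Finset.mem_insert, Nat.mem_primeFactors]
    constructor
    · rintro (rfl | ⟨h1, h2, -⟩)
      · exact ⟨hpp, Or.inl rfl⟩
      · exact ⟨h1, Or.inr h2⟩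
    · rintro ⟨h1, rfl | h2⟩
      · exact Or.inl rfl
      · exact Or.inr ⟨h1, h2, hpos.ne'⟩
  have hpS : p ∈ S := (hS _).2 ⟨hpp, Or.inl rfl⟩
  have hNS : ∀ ℓ : ℕ, ℓ.Prime → ℓ ∣ N → ℓ ∈ S := fun ℓ h1 h2 => (hS ℓ).2 ⟨h1, Or.inr h2⟩
  -- the exceptional set of primes
  let S₀ : Finset ℕ := S ∪ W.Δ.natAbs.primeFactors ∪ hfin.toFinset
  have hS₀ : ∀ ℓ : ℕ, ℓ.Prime → ℓ ∉ S₀ → ℓ ∉ Sex := by
    intro ℓ hℓ hℓS₀ hd
    apply hℓS₀
    have : ℓ ∈ hfin.toFinset := (Set.Finite.mem_toFinset hfin).2 ⟨hd, hℓ⟩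
    simp [S₀, this]
  -- the `p`-adic setup
  obtain ⟨𝒪, i1, i2, i3, i4, i5, i6, hp𝒪, hζ, hquad, χ₀, θ', hχ₀⟩ :=
    exists_padic_setup hg (↑S : Set ℕ) hpp 𝔪 hp𝔪
  letI := i1
  haveI := i2
  haveI := i3
  haveI := i4
  haveI := i5
  haveI := i6
  let θ : heckeAlgebra N 2 (↑S : Set ℕ) →+* ResidueField 𝒪 := (residue 𝒪).comp χ₀
  have h0k : ((p : ℕ) : ResidueField 𝒪) = 0 := by
    have := (residue_eq_zero_iff (p : 𝒪)).mpr hp𝒪
    rwa [map_natCast] at this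
  haveI : CharP (ResidueField 𝒪) p := (CharP.charP_iff_prime_eq_zero hpp).mpr h0k
  -- the canonical homomorphism
  let ι : ℤ_[p] →+* 𝒪 := padicToComplete p (maximalIdeal 𝒪) hp𝒪
  have hι : IsLocalHom ι := Fermat.Agent.S58.isLocalHom_padicToComplete p hp𝒪
  haveI := hι
  let ψ₀ : ResidueField ℤ_[p] →+* ResidueField 𝒪 := ResidueField.map ι
  let e₀ : ResidueField ℤ_[p] ≃+* ZMod p := PadicInt.residueField (p := p)
  -- the splitting of the quadratic polynomials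
  have hsplit : ∀ f : (ResidueField ℤ_[p])[X], f.Monic → f.natDegree = 2 →
      ∃ α β : ResidueField 𝒪, f.map ψ₀ = (X - C α) * (X - C β) := by
    intro f hmon hdeg
    obtain ⟨α, β, hαβ⟩ := hquad (ψ₀.comp e₀.symm.toRingHom) (f.map e₀.toRingHom)
      (hmon.map _) (by rw [hmon.natDegree_map, hdeg])
    refine ⟨α, β, ?_⟩
    rw [← hαβ, Polynomial.map_map]
    congr 1
    ext x
    simp
  -- the field `ℤ̄ ⧸ 𝔪`
  letI : Field (ℤbar ⧸ 𝔪) := Ideal.Quotient.field 𝔪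
  haveI : CharP (ℤbar ⧸ 𝔪) p := charP_quotient_of_mem 𝔪 hpp hp𝔪
  let φ : ℤbar →+* (ℤbar ⧸ 𝔪) := Ideal.Quotient.mk 𝔪
  have hφ : ∀ (a : ℤbar) (n : ℤ), φ a = ((n : ℤ) : ℤbar ⧸ 𝔪) ↔ a - ((n : ℤ) : ℤbar) ∈ 𝔪 := by
    intro a n
    rw [← Ideal.Quotient.eq_zero_iff_mem, map_sub, map_intCast, sub_eq_zero]
  have hcong' : ∀ ℓ : ℕ, ℓ.Prime → ℓ ∉ S₀ → ∃ a : ℤbar, (a : ℂ) = ModularFormClass.qCoeff g ℓ ∧
      φ a = ((W.apOfModel ℓ : ℤ) : ℤbar ⧸ 𝔪) := by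
    intro ℓ hℓ hℓS₀
    obtain ⟨a, ha, ha'⟩ := hcong ℓ hℓ (hS₀ ℓ hℓ hℓS₀)
    exact ⟨a, ha, (hφ a _).2 ha'⟩
  -- the residual representation of the eigenform
  obtain ⟨ρg, hatt, hunrg, hI⟩ :=
    TOPR.exists_attached_intertwined D hyp hg φ (θ'.comp ψ₀) S₀ hcong'
  -- `θ` at ALL good primes outside `N p`
  have hθ : ∀ (ℓ : ℕ) (hℓ : ℓ.Prime) (hℓN : ¬ ℓ ∣ N) (hℓS : ℓ ∉ (↑S : Set ℕ)),
      W.IsGoodPrimeFor ℓ →
      θ (heckeAlgebra.T hℓ hℓN hℓS) = ((W.apOfModel ℓ : ℤ) : ResidueField 𝒪) := by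
    intro ℓ hℓ hℓN hℓS hgood
    have hℓp : ℓ ≠ p := fun h => hℓS (h ▸ hpS)
    obtain ⟨a, ha, hθa⟩ := hχ₀ ℓ hℓ hℓN hℓS
    obtain ⟨a', ha', hcg⟩ := TOPR.congr_of_attached D hatt hI hℓ hgood hℓN hℓp
    have haa' : a = a' := zbar_ext (ha.trans ha'.symm)
    apply θ'.injective
    rw [map_intCast]
    show θ' (residue 𝒪 (χ₀ (heckeAlgebra.T hℓ hℓN hℓS))) = _
    rw [hθa, haa']
    exact hcg
  -- the residual representation
  obtain ⟨habs, -⟩ := TOPR.absIrr_resTW_rhobar D ψ₀ hyp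
  have hbardet := TOPR.det_rhobar_complexConjugation D ψ₀
  set ρbar : ResidualGaloisRep (ResidueField 𝒪) := D.ρ.residual.baseChangeAlong ψ₀ with hρbar
  have hbarchar : ∀ (ℓ : ℕ) (hℓ : ℓ.Prime) (hℓN : ¬ ℓ ∣ N) (hℓS : ℓ ∉ (↑S : Set ℕ)),
      ∀ A' : ValuationSubring Ω, A'.LiesOverPrime ℓ → ∀ σ : GQ, A'.IsFrobeniusAt σ ℓ →
        LinearMap.charpoly (ρbar.ρ σ) =
          X ^ 2 - C (θ (heckeAlgebra.T hℓ hℓN hℓS)) * X + C ((ℓ : ResidueField 𝒪)) := by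
    intro ℓ hℓ hℓN hℓS A' hA' σ hσ
    have hℓp : ℓ ≠ p := fun h => hℓS (h ▸ hpS)
    obtain ⟨a, ha, hchar⟩ := TOPR.charpoly_residual_of_attached D hatt hI hℓ hℓN hℓp A' hA' σ hσ
    obtain ⟨a₁, ha₁, hθa⟩ := hχ₀ ℓ hℓ hℓN hℓS
    have haa₁ : a₁ = a := zbar_ext (ha₁.trans ha.symm)
    apply Polynomial.map_injective θ' θ'.injective
    rw [hρbar, charpoly_baseChangeAlong, Polynomial.map_map, hchar]
    simp only [Polynomial.map_add, Polynomial.map_sub, Polynomial.map_mul, Polynomial.map_pow,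
      Polynomial.map_X, Polynomial.map_C, map_natCast]
    have h1 : θ' (θ (heckeAlgebra.T hℓ hℓN hℓS)) = φ a := by
      show θ' (residue 𝒪 (χ₀ (heckeAlgebra.T hℓ hℓN hℓS))) = _
      rw [hθa, haa₁]
    rw [h1, Polynomial.map_natCast]
  -- (A): the Hecke–Galois datum
  obtain ⟨T, j1, j2, j3, j4, j5, j6, j7, j8, H, hequiv, -, hfull⟩ :=
    Fermat.Agent.RB.REPT.exists_heckeGaloisRepDatum' (N := N) (S := S) (𝒪 := 𝒪) p hp2 hpS hNS
      hp𝒪 θ ρbar habs hbarchar hbardet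
  letI := j1
  haveI := j2
  haveI := j3
  haveI := j4
  letI := j5
  haveI := j6
  haveI := j7
  haveI := j8
  -- the system `c`
  let c : Nat.Primes → 𝒪 := fun ℓ =>
    if h : ¬ (ℓ : ℕ) ∣ N ∧ (ℓ : ℕ) ∉ (↑S : Set ℕ) then χ₀ (heckeAlgebra.T ℓ.2 h.1 h.2) else 0
  have hc : ∀ (ℓ : ℕ) (hℓ : ℓ.Prime) (hℓN : ¬ ℓ ∣ N) (hℓS : ℓ ∉ (↑S : Set ℕ)),
      residue 𝒪 (c ⟨ℓ, hℓ⟩) = θ (heckeAlgebra.T hℓ hℓN hℓS) := by
    intro ℓ hℓ hℓN hℓS
    show residue 𝒪 (if h : ¬ ℓ ∣ N ∧ ℓ ∉ (↑S : Set ℕ) then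
      χ₀ (heckeAlgebra.T hℓ h.1 h.2) else 0) = _
    rw [dif_pos ⟨hℓN, hℓS⟩]
    rfl
  -- the module of level zero
  obtain ⟨instM, instST, hfree0, hfin0, hpos0, -, -⟩ :=
    REPTX.exists_level0_lvlMod (p := p) N S c θ T H hS
      (fun B _ _ _ _ _ _ χ hχ => hfull B injective_algebraMap_of_finite_dvr χ hχ) hc
  refine ⟨𝒪, i1, i2, i3, i4, i5, i6, ι, hι, hsplit, REPTX.five_le_level hsqf θ, ?_, c, ?_, ?_⟩
  · -- unramified outside `N p`
    intro q hq hqNp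
    have hqp : q ≠ p := fun h => hqNp (h ▸ dvd_mul_left q N)
    have h1 : D.ρ.residual.IsUnramifiedAt q := (hI.isUnramifiedAt_iff q).1 (hunrg q hq hqNp)
    exact (hT.unr_iff q hq hqp).1 h1
  · intro ℓ hℓp hℓN hgood
    have hℓS : (ℓ : ℕ) ∉ (↑S : Set ℕ) := by
      intro h
      rcases ((hS ℓ).1 (Finset.mem_coe.1 h)).2 with h1 | h1
      · exact hℓp h1
      · exact hℓN h1
    have := hc ℓ ℓ.2 hℓN hℓS
    rw [hθ ℓ ℓ.2 hℓN hℓS hgood] at this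
    exact this
  · intro hbot
    have h1 : Module.finrank 𝒪 ↥(lvlMod 𝒪 p N N c) = 0 := by
      rw [hbot]
      exact finrank_bot 𝒪 _
    omega

end Fermat.Agent.ML.PR1
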