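/-
ML — helper3 — **[PR-1d]: no curve is residually modular of level `5`** (`S₂(Γ₀(5)) = 0`).

`dim S₂(Γ₀(5)) = genusFormula 5` (`S20.result`), `genusFormula 5 = 1 + 6/12 - 2/4 - 0/3 - 2/2 = 0`
(`dedekindPsi 5 = 6`, `nuTwo 5 = 2`, `nuThree 5 = 0`, `cuspCount 5 = 2`), and `S₂(Γ₀(5))` is finite
dimensional, so it has no normalised eigenform.
-/
import Mathlib
import Fermat.Agent.S20
import Fermat.Agent.MZ.CUSP_helper9_Genus
import Fermat.Agent.Helper2.CuspLattice
import Fermat.Agent.ML.IFACE_helper9_Top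

set_option autoImplicit false
set_option linter.unusedSectionVars false
set_option linter.unusedVariables false

open ModularCurve

namespace Fermat.Agent.ML

namespace PR1

theorem nuTwo_five : nuTwo 5 = 2 := by
  unfold nuTwo
  rw [Nat.card_eq_fintype_card]
  decide

theorem nuThree_five : nuThree 5 = 0 := by
  unfold nuThree
  rw [Nat.card_eq_zero]
  left
  rw [isEmpty_subtype]
  decide

theorem genusFormula_five : genusFormula 5 = 0 := by
  unfold genusFormula
  rw [Fermat.Agent.MZ.dedekindPsi_prime Nat.prime_five, nuTwo_five, nuThree_five,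
    Fermat.Agent.MZ.cuspCount_prime Nat.prime_five]
  norm_num

/-- **`S₂(Γ₀(5)) = 0`.** -/
theorem cuspForm_gamma0_five_eq_zero (g : CuspForm (CongruenceSubgroup.Gamma0 5) 2) : g = 0 := by
  haveI : FiniteDimensional ℂ (CuspForm (CongruenceSubgroup.Gamma0 5) 2) :=
    Fermat.Agent.Helper2.cuspForm_Gamma0_finiteDimensional 5 2
  have h := Fermat.Agent.S20.result 5
  rw [genusFormula_five] at h
  have hz : Module.finrank ℂ (CuspForm (CongruenceSubgroup.Gamma0 5) 2) = 0 := by
    exact_mod_cast h
  haveI : Subsingleton (CuspForm (CongruenceSubgroup.Gamma0 5) 2) :=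
    Module.finrank_zero_iff.mp hz
  exact Subsingleton.elim _ _

/-- **[PR-1d]: no curve is residually modular of level `5`.** -/
theorem not_isResModAway_five (W : WeierstrassCurve ℤ) (p : ℕ) : ¬ IsResModAway W p 5 := by
  rintro ⟨S, -, g, 𝔪, hg, -⟩
  exact hg.ne_zero (cuspForm_gamma0_five_eq_zero g)

end PR1

end Fermat.Agent.ML
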