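/-
PROJECT ML (S59) — [PR-1] (helper4): **the `ρbar` / `ρ_W` clauses of `ChainSetting`**
(`ML/IFACE_helper9_Producer.lean`), for `D : RhoWData W p`, a local homomorphism
`ι : ℤ_[p] →+* 𝒪`, `ρ_W := D.ρ.baseChangeAlong ι hι`, `ψ₀ := ResidueField.map ι`,
`ρbar := D.ρ.residual.baseChangeAlong ψ₀`.

General:
* `isFlatAt_baseChangeAlong` : flatness at `p` is stable under base change along ANY local
  homomorphism (finite residue field at the target);
* `residual_baseChangeAlong_isAbsolutelyIrreducible`, `residue_trace_baseChangeAlong`;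
* `frobenius_eq_smul_one_of_unramified` : scalar at ONE Frobenius ⇒ the same scalar at all
  Frobenius elements of all places;
* `decomposition_split_of_split` : a splitting under one decomposition group at `p` gives a
  splitting under all of them.

For `W` (`namespace PRR`): `rhoW_charpoly`, `rhoW_trace_residue`, `rhoW_residual_absIrr`,
`rhoW_det`, `rhoW_unr`, `rhoW_unip`, `rhoW_flat`, `rhoW_strict`, `rhoW_ord`, `rhoW_frob_bad`,
`rhobar_frob_bad`, `rhobar_ord_p`, `kind_ns_or_sc`, `kind_pns_or_psp`.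
-/
import Mathlib
import Fermat.Agent.ML.TOPIA_helper4_Resid
import Fermat.Agent.ML.IFACE_helper9_Producer
import Fermat.Agent.TW.CondBaseChange_helper6
import Fermat.Agent.FG.HOPF_helper8_Flat
import Fermat.Agent.RB.REPT_helper1_TraceCompare
import Fermat.Agent.RB.GLUE_helper9_Frob
import Fermat.Agent.RB.SEL_helper4_Frob
import Fermat.Agent.EC.Conjugacy_helper5

set_option autoImplicit false
set_option linter.unusedSectionVars false
set_option linter.unusedVariables false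
set_option linter.style.haveILetI false

open Polynomial IsLocalRing
open scoped TensorProduct Pointwise

namespace Fermat.Agent.ML.PRR

/-- `Ω = AlgebraicClosure ℚ`. -/
local notation "Ω" => AlgebraicClosure ℚ

/-- the absolute Galois group. -/
local notation "GQ" => (AlgebraicClosure ℚ ≃ₐ[ℚ] AlgebraicClosure ℚ)

/-! ### flatness and base change -/

section Flat

variable {A B : Type} [CommRing A] [IsLocalRing A] [CommRing B] [IsLocalRing B]
  (f : A →+* B) (hf : IsLocalHom f) (ρ : GaloisRepAdic A)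

/-- the pure tensor `b ⊗ v` as an element of `(ρ.baseChangeAlong f hf).V`. -/
noncomputable def tm (b : B) (v : ρ.V) : (ρ.baseChangeAlong f hf).V :=
  letI : Algebra A B := f.toAlgebra
  b ⊗ₜ[A] v

theorem tm_add_right (b : B) (v w : ρ.V) : tm f hf ρ b (v + w) = tm f hf ρ b v + tm f hf ρ b w := by
  letI : Algebra A B := f.toAlgebra
  exact TensorProduct.tmul_add b v w

theorem tm_smul_right (b : B) (a : A) (v : ρ.V) : tm f hf ρ b (a • v) = f a • tm f hf ρ b v := by
  letI : Algebra A B := f.toAlgebra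
  show b ⊗ₜ[A] (a • v) = f a • (b ⊗ₜ[A] v)
  rw [TensorProduct.tmul_smul, TensorProduct.smul_tmul', TensorProduct.smul_tmul',
    Algebra.smul_def, smul_eq_mul]
  rfl

theorem tm_sub_left (b c : B) (v : ρ.V) :
    tm f hf ρ b v - tm f hf ρ c v = (b - c) • tm f hf ρ 1 v := by
  letI : Algebra A B := f.toAlgebra
  show b ⊗ₜ[A] v - c ⊗ₜ[A] v = (b - c) • ((1 : B) ⊗ₜ[A] v)
  rw [TensorProduct.smul_tmul', smul_eq_mul, mul_one, TensorProduct.sub_tmul]

theorem rho_tm (σ : GQ) (b : B) (v : ρ.V) :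
    (ρ.baseChangeAlong f hf).ρ σ (tm f hf ρ b v) = tm f hf ρ b (ρ.ρ σ v) :=
  Fermat.Agent.TW.baseChangeAlong_ρ_tmul f hf ρ σ b v

theorem tm_induction {P : (ρ.baseChangeAlong f hf).V → Prop} (x : (ρ.baseChangeAlong f hf).V)
    (h0 : P 0) (h1 : ∀ b v, P (tm f hf ρ b v)) (h2 : ∀ x y, P x → P y → P (x + y)) : P x := by
  letI : Algebra A B := f.toAlgebra
  have : ∀ x : B ⊗[A] ρ.V, P x := by
    intro x
    induction x using TensorProduct.induction_on with
    | zero => exact h0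
    | tmul b v => exact h1 b v
    | add x y hx hy => exact h2 x y hx hy
  exact this x

/-- the additive map `V / J V → (B ⊗ V) / I (B ⊗ V)`, `v ↦ b ⊗ v`, for `J = f⁻¹ I`. -/
noncomputable def tmulQuot (I : Ideal B) (b : B) :
    (ρ.V ⧸ ((I.comap f) • (⊤ : Submodule A ρ.V))) →+
      ((ρ.baseChangeAlong f hf).V ⧸ (I • (⊤ : Submodule B (ρ.baseChangeAlong f hf).V))) :=
  QuotientAddGroup.lift _
    (((Submodule.mkQ (I • (⊤ : Submodule B (ρ.baseChangeAlong f hf).V))).toAddMonoidHom).comp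
      (AddMonoidHom.mk' (tm f hf ρ b) (tm_add_right f hf ρ b)))
    (by
      intro x hx
      have hx' : x ∈ (I.comap f) • (⊤ : Submodule A ρ.V) := hx
      show Submodule.mkQ (I • (⊤ : Submodule B (ρ.baseChangeAlong f hf).V)) (tm f hf ρ b x) = 0
      rw [Submodule.mkQ_apply, Submodule.Quotient.mk_eq_zero]
      refine Submodule.smul_induction_on
        (p := fun x => tm f hf ρ b x ∈ I • (⊤ : Submodule B (ρ.baseChangeAlong f hf).V)) hx' ?_ ?_
      · intro a ha v _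
        rw [tm_smul_right]
        exact Submodule.smul_mem_smul ha Submodule.mem_top
      · intro x y hx hy
        rw [tm_add_right]
        exact Submodule.add_mem _ hx hy)

theorem tmulQuot_mk (I : Ideal B) (b : B) (v : ρ.V) :
    tmulQuot f hf ρ I b (Submodule.Quotient.mk v) =
      Submodule.Quotient.mk (p := I • (⊤ : Submodule B (ρ.baseChangeAlong f hf).V))
        (tm f hf ρ b v) := rfl

theorem levelAction_mk {A : Type} [CommRing A] [IsLocalRing A] (ρ : GaloisRepAdic A) (I : Ideal A)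
    (σ : GQ) (v : ρ.V) :
    ρ.levelAction I σ (Submodule.Quotient.mk v) = Submodule.Quotient.mk (ρ.ρ σ v) := rfl

/-- **flatness at `p` is stable under base change along a local homomorphism.** -/
theorem isFlatAt_baseChangeAlong [Finite (ResidueField B)] {p : ℕ} [Fact p.Prime]
    (h : ρ.IsFlatAt p) : (ρ.baseChangeAlong f hf).IsFlatAt p := by
  rw [Fermat.Agent.TW.isFlatAt_iff] at h ⊢
  refine ⟨inferInstance, fun I hI => ?_⟩
  haveI := hI
  have hJfin : Finite (A ⧸ I.comap f) :=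
    Finite.of_injective _ (Ideal.quotientMap_injective (I := I) (f := f))
  have hJ := h.2 (I.comap f) hJfin
  -- representatives of `B / I`
  obtain ⟨r, ⟨e⟩⟩ : ∃ r, Nonempty (Fin r ≃ B ⧸ I) := ⟨_, ⟨(Finite.equivFin (B ⧸ I)).symm⟩⟩
  have hb : ∀ i, ∃ b : B, Ideal.Quotient.mk I b = e i := fun i => Ideal.Quotient.mk_surjective (e i)
  choose b hb using hb
  have hpow := hJ.pi_fin r
  let π : (Fin r → ρ.V ⧸ ((I.comap f) • (⊤ : Submodule A ρ.V))) →+
      ((ρ.baseChangeAlong f hf).V ⧸ (I • (⊤ : Submodule B (ρ.baseChangeAlong f hf).V))) :=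
    ∑ i, (tmulQuot f hf ρ I (b i)).comp (Pi.evalAddMonoidHom _ i)
  have hπ : ∀ v, π v = ∑ i, tmulQuot f hf ρ I (b i) (v i) := by
    intro v
    show (∑ i, (tmulQuot f hf ρ I (b i)).comp (Pi.evalAddMonoidHom _ i)) v = _
    rw [AddMonoidHom.finsetSum_apply]
    rfl
  refine hpow.of_surjective π ?_ ?_
  · -- surjectivity
    intro y
    obtain ⟨x, rfl⟩ := Submodule.Quotient.mk_surjective _ y
    refine tm_induction f hf ρ (P := fun x => ∃ a, π a = Submodule.Quotient.mk x) x ?_ ?_ ?_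
    · exact ⟨0, by rw [map_zero]; rfl⟩
    · intro c v
      obtain ⟨i, hi⟩ := e.surjective (Ideal.Quotient.mk I c)
      refine ⟨Pi.single i (Submodule.Quotient.mk v), ?_⟩
      rw [hπ, Finset.sum_eq_single i]
      · rw [Pi.single_eq_same, tmulQuot_mk, Submodule.Quotient.eq, tm_sub_left]
        have hmem : b i - c ∈ I := by
          rw [← Ideal.Quotient.eq, hb, hi]
        exact Submodule.smul_mem_smul hmem Submodule.mem_top
      · intro j _ hj
        rw [Pi.single_eq_of_ne hj, map_zero]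
      · intro hi'
        exact absurd (Finset.mem_univ i) hi'
    · rintro x y ⟨vx, hvx⟩ ⟨vy, hvy⟩
      exact ⟨vx + vy, by rw [map_add, hvx, hvy]; rfl⟩
  · -- equivariance
    intro σ v
    rw [hπ, hπ, map_sum]
    refine Finset.sum_congr rfl fun i _ => ?_
    obtain ⟨w, hw⟩ := Submodule.Quotient.mk_surjective _ (v i)
    rw [← hw, levelAction_mk, tmulQuot_mk, tmulQuot_mk, levelAction_mk, rho_tm]

end Flat

/-! ### the residual representation of a base change -/

section Residual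

variable {A B : Type} [CommRing A] [IsLocalRing A] [CommRing B] [IsLocalRing B]
  (f : A →+* B) (hf : IsLocalHom f) (ρ : GaloisRepAdic A)

open Fermat.Agent.S53 Fermat.Agent.S53.L1 Fermat.Agent.RB.REPT in
/-- **absolute irreducibility of the residual representation survives base change.** -/
theorem residual_baseChangeAlong_isAbsolutelyIrreducible
    (h : ρ.residual.IsAbsolutelyIrreducible) :
    (ρ.baseChangeAlong f hf).residual.IsAbsolutelyIrreducible := by
  haveI := hf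
  let b : Module.Basis (Fin 2) A ρ.V := Module.finBasisOfFinrankEq A ρ.V ρ.finrank_eq
  let β₀ : Module.Basis (Fin 2) (ResidueField A) ρ.residual.V :=
    Algebra.TensorProduct.basis (ResidueField A) b
  have h1 : FullSpan (mapRep (residue A) (matRep ρ b)) :=
    fullSpan_of_absIrr ρ.residual β₀ h _ (fun σ => by
      rw [mapRep_apply, matRep_apply]
      exact (LinearMap.toMatrix_baseChange (ResidueField A) (ρ.ρ σ) b b).symm)
  have h2 := fullSpan_mapRep (ResidueField.map f) _ h1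
  let b' : Module.Basis (Fin 2) B (ρ.baseChangeAlong f hf).V :=
    letI : Algebra A B := f.toAlgebra
    Algebra.TensorProduct.basis B b
  let β' : Module.Basis (Fin 2) (ResidueField B) (ρ.baseChangeAlong f hf).residual.V :=
    Algebra.TensorProduct.basis (ResidueField B) b'
  refine isAbsolutelyIrreducible_of_fullSpan _ β' _ (fun σ => ?_) h2
  rw [mapRep_apply, mapRep_apply, matRep_apply]
  have e1 : LinearMap.toMatrix β' β' ((ρ.baseChangeAlong f hf).residual.ρ σ) =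
      (LinearMap.toMatrix b' b' ((ρ.baseChangeAlong f hf).ρ σ)).map (residue B) :=
    LinearMap.toMatrix_baseChange (ResidueField B) ((ρ.baseChangeAlong f hf).ρ σ) b' b'
  have e2 : LinearMap.toMatrix b' b' ((ρ.baseChangeAlong f hf).ρ σ) =
      (LinearMap.toMatrix b b (ρ.ρ σ)).map f := by
    letI : Algebra A B := f.toAlgebra
    show LinearMap.toMatrix (Algebra.TensorProduct.basis B b) (Algebra.TensorProduct.basis B b)
        ((ρ.ρ σ).baseChange B) = (LinearMap.toMatrix b b (ρ.ρ σ)).map (algebraMap A B)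
    exact LinearMap.toMatrix_baseChange B (ρ.ρ σ) b b
  rw [e1, e2, Matrix.map_map, Matrix.map_map]
  rfl

/-- the trace of the residual representation of a base change. -/
theorem residue_trace_baseChangeAlong (σ : GQ) :
    haveI := hf
    residue B ((ρ.baseChangeAlong f hf).trace σ) =
      LinearMap.trace (ResidueField B) (ρ.residual.baseChangeAlong (ResidueField.map f)).V
        ((ρ.residual.baseChangeAlong (ResidueField.map f)).ρ σ) := by
  haveI := hf
  rw [Fermat.Agent.RB.REPT.trace_baseChangeAlong]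
  letI : Algebra (ResidueField A) (ResidueField B) := (ResidueField.map f).toAlgebra
  have h1 : LinearMap.trace (ResidueField B) (ρ.residual.baseChangeAlong (ResidueField.map f)).V
      ((ρ.residual.baseChangeAlong (ResidueField.map f)).ρ σ) =
      ResidueField.map f (LinearMap.trace (ResidueField A) ρ.residual.V (ρ.residual.ρ σ)) :=
    LinearMap.trace_baseChange (ρ.residual.ρ σ) (ResidueField B)
  have h2 : LinearMap.trace (ResidueField A) ρ.residual.V (ρ.residual.ρ σ) =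
      residue A (ρ.trace σ) :=
    LinearMap.trace_baseChange (ρ.ρ σ) (ResidueField A)
  rw [h1, h2]
  rfl

end Residual

/-! ### Frobenius elements and decomposition groups at different places -/

section Conj

variable {k : Type} [Field k] (ρbar : ResidualGaloisRep k)

/-- **scalar at one Frobenius ⇒ the same scalar at all Frobenius elements of all places.** -/
theorem frobenius_eq_smul_one_of_unramified {q : ℕ} (hq : q.Prime) (hunr : ρbar.IsUnramifiedAt q)
    {P P' : ValuationSubring Ω} (hP : P.LiesOverPrime q) (hP' : P'.LiesOverPrime q)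
    {φ φ' : GQ} (hφ : P.IsFrobeniusAt φ q) (hφ' : P'.IsFrobeniusAt φ' q) {c : k}
    (h : ρbar.ρ φ = c • (1 : Module.End k ρbar.V)) :
    ρbar.ρ φ' = c • (1 : Module.End k ρbar.V) := by
  obtain ⟨g, hg⟩ := Fermat.Agent.EC.exists_smul_eq_of_liesOverPrime hq hP hP'
  have h1 := Fermat.Agent.RB.SEL.isFrobeniusAt_conj (g⁻¹ : GQ) hφ'
  rw [hg, inv_smul_smul, inv_inv] at h1
  have h2 := Fermat.Agent.RB.GLUE.map_eq_of_isFrobeniusAt P ρbar.ρ (hunr P hP) hφ h1
  have h3 : ρbar.ρ φ' = ρbar.ρ g * ρbar.ρ (g⁻¹ * φ' * g) * ρbar.ρ g⁻¹ := by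
    rw [← map_mul, ← map_mul]
    congr 1
    group
  rw [h3, ← h2, h, mul_smul_comm, mul_one, smul_mul_assoc, ← map_mul, mul_inv_cancel, map_one]

/-- the decomposition group of a conjugate place. -/
theorem mem_decompositionSubgroup_smul_iff (P : ValuationSubring Ω) (g σ : GQ) :
    σ ∈ (g • P).decompositionSubgroup ℚ ↔ g⁻¹ * σ * g ∈ P.decompositionSubgroup ℚ := by
  show σ ∈ MulAction.stabilizer GQ (g • P) ↔ g⁻¹ * σ * g ∈ MulAction.stabilizer GQ P
  rw [MulAction.mem_stabilizer_iff, MulAction.mem_stabilizer_iff, mul_smul, mul_smul,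
    inv_smul_eq_iff]

/-- **a splitting under one decomposition group at `p` gives a splitting under all of them.** -/
theorem decomposition_split_of_split {p : ℕ} (hp : p.Prime) {P P' : ValuationSubring Ω}
    (hP : P.LiesOverPrime p) (hP' : P'.LiesOverPrime p)
    (h : ∃ L₁ L₂ : Submodule k ρbar.V, IsCompl L₁ L₂ ∧ L₁ ≠ ⊥ ∧ L₂ ≠ ⊥ ∧
      ∀ σ ∈ P.decompositionSubgroup ℚ, (∀ v ∈ L₁, ρbar.ρ σ v ∈ L₁) ∧ ∀ v ∈ L₂, ρbar.ρ σ v ∈ L₂) :
    ∃ L₁ L₂ : Submodule k ρbar.V, IsCompl L₁ L₂ ∧ L₁ ≠ ⊥ ∧ L₂ ≠ ⊥ ∧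
      ∀ σ ∈ P'.decompositionSubgroup ℚ, (∀ v ∈ L₁, ρbar.ρ σ v ∈ L₁) ∧
        ∀ v ∈ L₂, ρbar.ρ σ v ∈ L₂ := by
  obtain ⟨L₁, L₂, hc, h1, h2, hst⟩ := h
  obtain ⟨g, hg⟩ := Fermat.Agent.EC.exists_smul_eq_of_liesOverPrime hp hP hP'
  -- the automorphism `ρbar g`
  have hgg : ρbar.ρ g * ρbar.ρ g⁻¹ = 1 := by rw [← map_mul, mul_inv_cancel, map_one]
  have hgg' : ρbar.ρ g⁻¹ * ρbar.ρ g = 1 := by rw [← map_mul, inv_mul_cancel, map_one]
  let e : ρbar.V ≃ₗ[k] ρbar.V :=
    { ρbar.ρ g with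
      invFun := ρbar.ρ g⁻¹
      left_inv := fun v => by
        show (ρbar.ρ g⁻¹ * ρbar.ρ g) v = v
        rw [hgg']; rfl
      right_inv := fun v => by
        show (ρbar.ρ g * ρbar.ρ g⁻¹) v = v
        rw [hgg]; rfl }
  have he : ∀ v, e v = ρbar.ρ g v := fun v => rfl
  have hmap_ne : ∀ L : Submodule k ρbar.V, L ≠ ⊥ → L.map (e : ρbar.V →ₗ[k] ρbar.V) ≠ ⊥ := by
    intro L hL h0
    apply hL
    rw [Submodule.map_eq_bot_iff] at h0
    · exact h0
  have hstab : ∀ (L : Submodule k ρbar.V),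
      (∀ σ ∈ P.decompositionSubgroup ℚ, ∀ v ∈ L, ρbar.ρ σ v ∈ L) →
      ∀ σ ∈ P'.decompositionSubgroup ℚ, ∀ v ∈ L.map (e : ρbar.V →ₗ[k] ρbar.V),
        ρbar.ρ σ v ∈ L.map (e : ρbar.V →ₗ[k] ρbar.V) := by
    intro L hL σ hσ v hv
    obtain ⟨w, hw, rfl⟩ := hv
    rw [hg, mem_decompositionSubgroup_smul_iff] at hσ
    refine ⟨ρbar.ρ (g⁻¹ * σ * g) w, hL _ hσ w hw, ?_⟩
    show ρbar.ρ g (ρbar.ρ (g⁻¹ * σ * g) w) = ρbar.ρ σ (ρbar.ρ g w)
    rw [← Module.End.mul_apply, ← Module.End.mul_apply, ← map_mul, ← map_mul]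
    congr 2
    group
  refine ⟨L₁.map (e : ρbar.V →ₗ[k] ρbar.V), L₂.map (e : ρbar.V →ₗ[k] ρbar.V), ?_,
    hmap_ne L₁ h1, hmap_ne L₂ h2, fun σ hσ =>
      ⟨hstab L₁ (fun σ hσ => (hst σ hσ).1) σ hσ, hstab L₂ (fun σ hσ => (hst σ hσ).2) σ hσ⟩⟩
  have := (Submodule.orderIsoMapComap e).isCompl hc
  simpa using this

end Conj

/-! ### the representations `ρ_W` and `ρ̄` of `W` over `𝒪` -/

section Curve

open Fermat.Agent.ML.TOPR Fermat.Agent.GR

variable {p : ℕ} [hp : Fact p.Prime] {W : WeierstrassCurve ℤ} (D : RhoWData W p)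
  {𝒪 : Type} [CommRing 𝒪] [IsLocalRing 𝒪] (ι : ℤ_[p] →+* 𝒪) (hι : IsLocalHom ι)

/-- `ρ_W` over `𝒪`. -/
noncomputable abbrev rhoW : GaloisRepAdic 𝒪 := D.ρ.baseChangeAlong ι hι

/-- the map of residue fields. -/
noncomputable abbrev psi0 : ResidueField ℤ_[p] →+* ResidueField 𝒪 :=
  haveI := hι
  ResidueField.map ι

/-- `ρ̄` over the residue field of `𝒪`. -/
noncomputable abbrev rhobar : ResidualGaloisRep (ResidueField 𝒪) :=
  D.ρ.residual.baseChangeAlong (psi0 ι hι)

theorem psi0_residue (x : ℤ_[p]) : psi0 ι hι (residue ℤ_[p] x) = residue 𝒪 (ι x) := by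
  haveI := hι
  exact ResidueField.map_residue ι x

/-- `p ∈ 𝔪_𝒪`. -/
theorem p_mem_maximalIdeal (D : RhoWData W p) (ι : ℤ_[p] →+* 𝒪) (hι : IsLocalHom ι) :
    ((p : ℕ) : 𝒪) ∈ maximalIdeal 𝒪 :=
  Fermat.Agent.TW.natCast_mem_maximalIdeal_of_isLocalHom ι hι D.det_cyclotomic.1

/-- the Frobenius characteristic polynomials of `ρ_W` at the good primes `ℓ ≠ p`. -/
theorem rhoW_charpoly {ℓ : ℕ} (hℓ : ℓ.Prime) (hℓp : ℓ ≠ p) (hgood : W.IsGoodPrimeFor ℓ)
    (A : ValuationSubring Ω) (hA : A.LiesOverPrime ℓ) (σ : GQ) (hσ : A.IsFrobeniusAt σ ℓ) :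
    LinearMap.charpoly ((rhoW D ι hι).ρ σ) =
      X ^ 2 - C ((W.apOfModel ℓ : ℤ) : 𝒪) * X + C ((ℓ : ℕ) : 𝒪) := by
  rw [Fermat.Agent.TW.charpoly_baseChangeAlong, D.charpoly_frob ℓ hℓ hℓp hgood A hA σ hσ]
  simp only [Polynomial.map_add, Polynomial.map_sub, Polynomial.map_mul, Polynomial.map_pow,
    Polynomial.map_X, map_intCast, map_natCast, Polynomial.map_intCast,
    Polynomial.map_natCast]

/-- the Frobenius characteristic polynomials of `ρ̄` at the good primes `ℓ ≠ p`. -/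
theorem rhobar_charpoly {ℓ : ℕ} (hℓ : ℓ.Prime) (hℓp : ℓ ≠ p) (hgood : W.IsGoodPrimeFor ℓ)
    (A : ValuationSubring Ω) (hA : A.LiesOverPrime ℓ) (σ : GQ) (hσ : A.IsFrobeniusAt σ ℓ) :
    LinearMap.charpoly ((rhobar D ι hι).ρ σ) =
      X ^ 2 - C ((W.apOfModel ℓ : ℤ) : ResidueField 𝒪) * X + C ((ℓ : ℕ) : ResidueField 𝒪) :=
  charpoly_frob_rhobar D (psi0 ι hι) hℓ hℓp hgood A hA σ hσ

/-- `ρ̄` is the reduction of `ρ_W`. -/
theorem rhoW_trace_residue (σ : GQ) :
    residue 𝒪 ((rhoW D ι hι).trace σ) =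
      LinearMap.trace (ResidueField 𝒪) (rhobar D ι hι).V ((rhobar D ι hι).ρ σ) :=
  residue_trace_baseChangeAlong ι hι D.ρ σ

/-- the residual representation of `ρ_W` is absolutely irreducible. -/
theorem rhoW_residual_absIrr (hyp : CurveHyp p W) :
    (rhoW D ι hι).residual.IsAbsolutelyIrreducible :=
  residual_baseChangeAlong_isAbsolutelyIrreducible ι hι D.ρ
    (hygTWRhoStatement p hyp.p_eq W hyp.disc_ne hyp.semistable hyp.irreducible D).1

theorem rhoW_det : (rhoW D ι hι).DetIsCyclotomic p :=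
  Fermat.Agent.TW.detIsCyclotomic_baseChangeAlong ι hι D.ρ D.det_cyclotomic

theorem rhoW_unr {q : ℕ} (hq : q.Prime) (hqp : q ≠ p) (hgood : W.IsGoodPrimeFor q) :
    (rhoW D ι hι).IsUnramifiedAt q :=
  Fermat.Agent.TW.isUnramifiedAt_baseChangeAlong ι hι D.ρ (D.unramified q hq hqp hgood)

theorem rhoW_unip {q : ℕ} (hq : q.Prime) (hqp : q ≠ p) :
    (rhoW D ι hι).IsUnipotentOnInertiaAt q :=
  Fermat.Agent.TW.isUnipotentOnInertiaAt_baseChangeAlong ι hι D.ρ (D.unipotent q hq hqp)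

theorem rhoW_flat [Finite (ResidueField 𝒪)] (hgood : W.IsGoodPrimeFor p) :
    (rhoW D ι hι).IsFlatAt p :=
  isFlatAt_baseChangeAlong ι hι D.ρ (D.flat hgood)

theorem rhoW_strict (hpΔ : (p : ℤ) ∣ W.Δ) : (rhoW D ι hι).IsStrictOrdinaryAt p :=
  Fermat.Agent.TW.isStrictOrdinaryAt_baseChangeAlong ι hι D.ρ (D.strict hpΔ)

theorem rhoW_ord (hpΔ : (p : ℤ) ∣ W.Δ) : (rhoW D ι hι).IsOrdinaryAt p :=
  (rhoW_strict D ι hι hpΔ).isOrdinaryAt

/-- **the sign at a bad prime `q ≠ p`** (the fields `IsWPoint.frob` and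
`IsResChain.charpoly_frob`): one `s : 𝒪`, `s² = 1`, for `ρ_W` and `ρ̄` and all places. -/
theorem exists_sign_bad (hT : TateDict W p D) {q : ℕ} (hq : q.Prime) (hqp : q ≠ p)
    (hqΔ : (q : ℤ) ∣ W.Δ) :
    ∃ s : 𝒪, s ^ 2 = 1 ∧
      ∀ A : ValuationSubring Ω, A.LiesOverPrime q → ∀ φ : GQ, A.IsFrobeniusAt φ q →
        LinearMap.charpoly ((rhoW D ι hι).ρ φ) = (X - C s) * (X - C (s * ((q : ℕ) : 𝒪))) ∧
        LinearMap.charpoly ((rhobar D ι hι).ρ φ) =
          (X - C (residue 𝒪 s)) * (X - C (residue 𝒪 s * ((q : ℕ) : ResidueField 𝒪))) := by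
  obtain ⟨s, hs, h⟩ := hT.sign q hq hqp hqΔ
  refine ⟨ι s, by rw [← map_pow, hs, map_one], fun A hA φ hφ => ⟨?_, ?_⟩⟩
  · rw [Fermat.Agent.TW.charpoly_baseChangeAlong, (h A hA φ hφ).1]
    simp only [Polynomial.map_sub, Polynomial.map_mul, Polynomial.map_X, Polynomial.map_C,
      map_mul, map_natCast, Polynomial.map_natCast]
  · rw [baseChangeAlong_charpoly, (h A hA φ hφ).2]
    simp only [Polynomial.map_sub, Polynomial.map_mul, Polynomial.map_X, Polynomial.map_C,
      map_mul, map_natCast, Polynomial.map_natCast, psi0_residue]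

/-- **the residual shape at `p ∣ Δ`** (the field `IsResChain.ord_p`), with a sign `s : 𝒪`
independent of the place. -/
theorem exists_sign_p (hT : TateDict W p D) (hpΔ : (p : ℤ) ∣ W.Δ) :
    ∃ s : 𝒪, s ^ 2 = 1 ∧
      ∀ A : ValuationSubring Ω, A.LiesOverPrime p →
        ∃ Lbar : Submodule (ResidueField 𝒪) (rhobar D ι hι).V,
          (∃ v : (rhobar D ι hι).V, v ≠ 0 ∧ Lbar = Submodule.span (ResidueField 𝒪) {v}) ∧
          (∀ σ ∈ A.decompositionSubgroup ℚ, ∀ v ∈ Lbar, (rhobar D ι hι).ρ σ v ∈ Lbar) ∧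
          (∀ σ ∈ A.inertiaSubgroupIn ℚ, ∀ v : (rhobar D ι hι).V,
            (rhobar D ι hι).ρ σ v - v ∈ Lbar) ∧
          ∀ φ : GQ, A.IsFrobeniusAt φ p → ∀ v : (rhobar D ι hι).V,
            (rhobar D ι hι).ρ φ v - residue 𝒪 s • v ∈ Lbar := by
  obtain ⟨s, hs, h⟩ := hT.ord_p hpΔ
  refine ⟨ι s, by rw [← map_pow, hs, map_one], fun A hA => ?_⟩
  obtain ⟨L, ⟨v, hv0, hLv⟩, hD, hI, hF⟩ := h A hA
  letI : Algebra (ResidueField ℤ_[p]) (ResidueField 𝒪) := (psi0 ι hι).toAlgebra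
  refine ⟨(Submodule.baseChange (ResidueField 𝒪) L :
      Submodule (ResidueField 𝒪) (ResidueField 𝒪 ⊗[ResidueField ℤ_[p]] D.ρ.residual.V)),
    ⟨(1 : ResidueField 𝒪) ⊗ₜ[ResidueField ℤ_[p]] v, ?_, ?_⟩, ?_, ?_, ?_⟩
  · intro h0
    exact hv0 ((Module.FaithfullyFlat.one_tmul_eq_zero_iff (ResidueField ℤ_[p])
      D.ρ.residual.V (A := ResidueField 𝒪) v).1 h0)
  · rw [hLv, Submodule.baseChange_span, Set.image_singleton]
    rfl
  · intro σ hσ w hw
    exact Fermat.Agent.TW.baseChange_mem_of_stable (D.ρ.residual.ρ σ) L (hD σ hσ) w hw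
  · intro σ hσ w
    exact Fermat.Agent.TW.baseChange_sub_mem (D.ρ.residual.ρ σ) L (hI σ hσ) w
  · intro φ hφ w
    have := Fermat.Agent.TW.baseChange_sub_smul_mem (B := ResidueField 𝒪) (D.ρ.residual.ρ φ) L
      (residue ℤ_[p] s) (hF φ hφ) w
    have e : algebraMap (ResidueField ℤ_[p]) (ResidueField 𝒪) (residue ℤ_[p] s) =
        residue 𝒪 (ι s) := psi0_residue ι hι s
    rw [e] at this
    exact this

/-- the residue field of `𝒪` has characteristic `p`. -/
theorem charP_residueField (ι : ℤ_[p] →+* 𝒪) (hι : IsLocalHom ι) : CharP (ResidueField 𝒪) p :=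
  charP_of_hom (psi0 ι hι)

/-- **the kinds at the unramified bad primes `q ≠ p`**: `ns` or `sc`. -/
theorem kind_ns_or_sc (hT : TateDict W p D) {q : ℕ} (hq : q.Prime) (hqp : q ≠ p)
    (hqΔ : (q : ℤ) ∣ W.Δ) (hunr : UnrArith W p q) :
    ChainKind.ns.Holds (rhobar D ι hι) p q ∨ ChainKind.sc.Holds (rhobar D ι hι) p q := by
  have hu : (rhobar D ι hι).IsUnramifiedAt q :=
    isUnramifiedAt_of_unrArith D (psi0 ι hι) hT hq hqp hunr
  by_cases hsc : ∃ A : ValuationSubring Ω, A.LiesOverPrime q ∧ ∃ φ : GQ, A.IsFrobeniusAt φ q ∧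
      ∃ c : ResidueField 𝒪, (rhobar D ι hι).ρ φ =
        c • (1 : Module.End (ResidueField 𝒪) (rhobar D ι hι).V)
  · right
    obtain ⟨A, hA, φ, hφ, c, hc⟩ := hsc
    refine ⟨hqp, ?_, hu, fun A' hA' φ' hφ' =>
      ⟨c, frobenius_eq_smul_one_of_unramified _ hq hu hA hA' hφ hφ' hc⟩⟩
    -- `q ≡ 1 mod p`
    obtain ⟨s, hs, h⟩ := exists_sign_bad D ι hι hT hq hqp hqΔ
    have hch := (h A hA φ hφ).2
    have hch2 : LinearMap.charpoly ((rhobar D ι hι).ρ φ) = (X - C c) ^ 2 := by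
      rw [hc]
      have h1 : LinearMap.charpoly (c • (1 : Module.End (ResidueField 𝒪) (rhobar D ι hι).V)) =
          (X - C c) ^ Module.finrank (ResidueField 𝒪) (rhobar D ι hι).V := by
        have := LinearMap.charpoly_sub_smul
          (0 : Module.End (ResidueField 𝒪) (rhobar D ι hι).V) (-c)
        rw [zero_sub, neg_smul, neg_neg, LinearMap.charpoly_zero, pow_comp, X_comp, map_neg,
          ← sub_eq_add_neg] at this
        exact this
      rw [h1, (rhobar D ι hι).finrank_eq]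
    rw [hch2] at hch
    set sb : ResidueField 𝒪 := residue 𝒪 s with hsb
    have hsb2 : sb ^ 2 = 1 := by rw [hsb, ← map_pow, hs, map_one]
    have e1 : sb = c := by
      have := congrArg (Polynomial.eval sb) hch
      simp only [eval_pow, eval_sub, eval_X, eval_C, eval_mul, sub_self, zero_mul] at this
      exact sub_eq_zero.mp ((pow_eq_zero_iff (two_ne_zero)).mp this)
    have e2 : sb * ((q : ℕ) : ResidueField 𝒪) = c := by
      have := congrArg (Polynomial.eval (sb * ((q : ℕ) : ResidueField 𝒪))) hch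
      simp only [eval_pow, eval_sub, eval_X, eval_C, eval_mul, sub_self, mul_zero] at this
      exact sub_eq_zero.mp ((pow_eq_zero_iff (two_ne_zero)).mp this)
    have e3 : ((q : ℕ) : ResidueField 𝒪) = ((1 : ℕ) : ResidueField 𝒪) := by
      have : sb * ((q : ℕ) : ResidueField 𝒪) = sb * 1 := by rw [e2, mul_one, e1]
      have hsb0 : sb ≠ 0 := by
        intro h0
        rw [h0] at hsb2
        norm_num at hsb2
      rw [Nat.cast_one]
      exact mul_left_cancel₀ hsb0 this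
    haveI : CharP (ResidueField 𝒪) p := charP_residueField ι hι
    exact (CharP.natCast_eq_natCast (ResidueField 𝒪) p).1 e3
  · left
    refine ⟨hqp, hu, fun A hA φ hφ hc => hsc ⟨A, hA, φ, hφ, hc⟩⟩

/-- **the kinds at `p`**: `pns` or `psp`. -/
theorem kind_pns_or_psp :
    ChainKind.pns.Holds (rhobar D ι hι) p p ∨ ChainKind.psp.Holds (rhobar D ι hι) p p := by
  by_cases hsp : ∃ A : ValuationSubring Ω, A.LiesOverPrime p ∧
      ∃ L₁ L₂ : Submodule (ResidueField 𝒪) (rhobar D ι hι).V, IsCompl L₁ L₂ ∧ L₁ ≠ ⊥ ∧ L₂ ≠ ⊥ ∧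
        ∀ σ ∈ A.decompositionSubgroup ℚ, (∀ v ∈ L₁, (rhobar D ι hι).ρ σ v ∈ L₁) ∧
          ∀ v ∈ L₂, (rhobar D ι hι).ρ σ v ∈ L₂
  · right
    obtain ⟨A, hA, h⟩ := hsp
    exact ⟨rfl, fun A' hA' => decomposition_split_of_split _ hp.out hA hA' h⟩
  · left
    exact ⟨rfl, fun A hA h => hsp ⟨A, hA, h⟩⟩

end Curve

end Fermat.Agent.ML.PRR
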