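/-
PROJECT ML (S59) — lead — [PR-1], part A: **the levels of a chain** (pure arithmetic).

`chainLevel N₀ cq i = N₀ * ∏_{j < i} cq j` for `cq : Fin m → ℕ`, `i : Fin (m + 1)`.
-/
import Mathlib

set_option autoImplicit false

namespace Fermat.Agent.ML.PR1

/-- the `i`-th level of the chain `N₀, N₀ cq₀, N₀ cq₀ cq₁, …` -/
def chainLevel {m : ℕ} (N₀ : ℕ) (cq : Fin m → ℕ) (i : Fin (m + 1)) : ℕ :=
  N₀ * ∏ j : Fin m with j.val < i.val, cq j

theorem chainLevel_zero {m : ℕ} (N₀ : ℕ) (cq : Fin m → ℕ) : chainLevel N₀ cq 0 = N₀ := by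
  unfold chainLevel
  have : (Finset.univ.filter fun j : Fin m => j.val < (0 : Fin (m + 1)).val) = ∅ := by
    ext j
    simp
  rw [this, Finset.prod_empty, mul_one]

theorem chainLevel_succ {m : ℕ} (N₀ : ℕ) (cq : Fin m → ℕ) (j : Fin m) :
    chainLevel N₀ cq j.succ = chainLevel N₀ cq j.castSucc * cq j := by
  unfold chainLevel
  have h : (Finset.univ.filter fun j' : Fin m => j'.val < j.succ.val) =
      insert j (Finset.univ.filter fun j' : Fin m => j'.val < j.castSucc.val) := by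
    ext j'
    simp only [Finset.mem_filter, Finset.mem_univ, true_and, Fin.val_succ, Fin.val_castSucc,
      Finset.mem_insert]
    constructor
    · intro h
      rcases Nat.lt_succ_iff_lt_or_eq.1 h with h | h
      · exact Or.inr h
      · exact Or.inl (Fin.ext h)
    · rintro (rfl | h)
      · exact Nat.lt_succ_self _
      · exact Nat.lt_succ_of_lt h
  have hnot : j ∉ (Finset.univ.filter fun j' : Fin m => j'.val < j.castSucc.val) := by
    simp
  rw [h, Finset.prod_insert hnot]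
  ring

theorem chainLevel_last {m : ℕ} (N₀ : ℕ) (cq : Fin m → ℕ) :
    chainLevel N₀ cq (Fin.last m) = N₀ * ∏ j, cq j := by
  unfold chainLevel
  have : (Finset.univ.filter fun j : Fin m => j.val < (Fin.last m).val) = Finset.univ := by
    ext j
    simp
  rw [this]

theorem dvd_chainLevel {m : ℕ} (N₀ : ℕ) (cq : Fin m → ℕ) (i : Fin (m + 1)) :
    N₀ ∣ chainLevel N₀ cq i := Dvd.intro _ rfl

theorem chainLevel_dvd_last {m : ℕ} (N₀ : ℕ) (cq : Fin m → ℕ) (i : Fin (m + 1)) :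
    chainLevel N₀ cq i ∣ chainLevel N₀ cq (Fin.last m) := by
  rw [chainLevel_last]
  unfold chainLevel
  exact Nat.mul_dvd_mul_left _ (Finset.prod_dvd_prod_of_subset _ _ _ (Finset.filter_subset _ _))

theorem chainLevel_mono {m : ℕ} (N₀ : ℕ) (cq : Fin m → ℕ) {i i' : Fin (m + 1)} (h : i ≤ i') :
    chainLevel N₀ cq i ∣ chainLevel N₀ cq i' := by
  unfold chainLevel
  refine Nat.mul_dvd_mul_left _ (Finset.prod_dvd_prod_of_subset _ _ _ ?_)
  intro j hj
  simp only [Finset.mem_filter, Finset.mem_univ, true_and] at hj ⊢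
  exact lt_of_lt_of_le hj h

theorem chainLevel_pos {m : ℕ} {N₀ : ℕ} {cq : Fin m → ℕ} (hN₀ : 0 < N₀) (hcq : ∀ j, 0 < cq j)
    (i : Fin (m + 1)) : 0 < chainLevel N₀ cq i :=
  Nat.mul_pos hN₀ (Finset.prod_pos fun j _ => hcq j)

/-- the primes of the top level -/
theorem prime_dvd_chainLevel_last {m : ℕ} {N₀ : ℕ} {cq : Fin m → ℕ} (hcq : ∀ j, (cq j).Prime)
    {ℓ : ℕ} (hℓ : ℓ.Prime) :
    ℓ ∣ chainLevel N₀ cq (Fin.last m) ↔ ℓ ∣ N₀ ∨ ∃ j, cq j = ℓ := by
  rw [chainLevel_last, hℓ.dvd_mul, (Nat.prime_iff.1 hℓ).dvd_finsetProd_iff]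
  constructor
  · rintro (h | ⟨j, -, hj⟩)
    · exact Or.inl h
    · exact Or.inr ⟨j, ((Nat.prime_dvd_prime_iff_eq hℓ (hcq j)).1 hj).symm⟩
  · rintro (h | ⟨j, rfl⟩)
    · exact Or.inl h
    · exact Or.inr ⟨j, Finset.mem_univ _, dvd_rfl⟩

/-- the top level is squarefree -/
theorem squarefree_chainLevel_last {m : ℕ} {N₀ : ℕ} {cq : Fin m → ℕ} (hN₀ : Squarefree N₀)
    (hinj : Function.Injective cq) (hcq : ∀ j, (cq j).Prime) (hndvd : ∀ j, ¬ cq j ∣ N₀) :
    Squarefree (chainLevel N₀ cq (Fin.last m)) := by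
  rw [chainLevel_last]
  have hprod : ∀ s : Finset (Fin m), Squarefree (∏ j ∈ s, cq j) ∧
      ∀ ℓ : ℕ, ℓ.Prime → (ℓ ∣ ∏ j ∈ s, cq j ↔ ∃ j ∈ s, cq j = ℓ) := by
    intro s
    induction s using Finset.induction_on with
    | empty =>
      refine ⟨by simp, fun ℓ hℓ => ?_⟩
      simp only [Finset.prod_empty, Nat.dvd_one, Finset.notMem_empty, false_and, exists_false,
        iff_false]
      exact hℓ.ne_one
    | insert a s ha ih =>
      obtain ⟨ih1, ih2⟩ := ih
      rw [Finset.prod_insert ha]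
      refine ⟨?_, fun ℓ hℓ => ?_⟩
      · rw [Nat.squarefree_mul_iff]
        refine ⟨?_, (hcq a).squarefree, ih1⟩
        rw [Nat.Prime.coprime_iff_not_dvd (hcq a)]
        intro hd
        obtain ⟨j, hj, hja⟩ := (ih2 _ (hcq a)).1 hd
        exact ha (hinj hja ▸ hj)
      · rw [hℓ.dvd_mul, ih2 ℓ hℓ, Nat.prime_dvd_prime_iff_eq hℓ (hcq a)]
        constructor
        · rintro (h | ⟨j, hj, hjℓ⟩)
          · exact ⟨a, Finset.mem_insert_self _ _, h.symm⟩
          · exact ⟨j, Finset.mem_insert_of_mem hj, hjℓ⟩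
        · rintro ⟨j, hj, hjℓ⟩
          rcases Finset.mem_insert.1 hj with rfl | hj
          · exact Or.inl hjℓ.symm
          · exact Or.inr ⟨j, hj, hjℓ⟩
  obtain ⟨h1, h2⟩ := hprod Finset.univ
  rw [Nat.squarefree_mul_iff]
  refine ⟨?_, hN₀, h1⟩
  apply Nat.Coprime.symm
  apply Nat.Coprime.prod_left
  intro j _
  rw [Nat.Prime.coprime_iff_not_dvd (hcq j)]
  exact hndvd j

end Fermat.Agent.ML.PR1
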