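/-
PROJECT ML (S59) — lead — [PR-1], part C: **the packaging of a `ChainSetting`** from the data of the
chain primes (`PrimeData`), the levels `PR1.chainLevel` and the clauses on `ρ̄`, `ρ_W`.
-/
import Mathlib
import Fermat.Agent.ML.IFACE_helper9_Producer
import Fermat.Agent.ML.PROD_lead_Levels

set_option autoImplicit false

open Polynomial IsLocalRing

namespace Fermat.Agent.ML.PR1

local notation "Ω" => AlgebraicClosure ℚ
local notation "GQ" => (AlgebraicClosure ℚ ≃ₐ[ℚ] AlgebraicClosure ℚ)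

section

variable {𝒪 : Type} [CommRing 𝒪] [IsLocalRing 𝒪]

/-- **the data of one chain prime `q`**: the sign, the kind, and the clauses of `IsResChain`,
`IsWPoint` at `q`. -/
structure PrimeData (ρbar : ResidualGaloisRep (ResidueField 𝒪)) (ρW : GaloisRepAdic 𝒪)
    (p q : ℕ) : Type where
  sgn : 𝒪
  K : ChainKind
  prime : q.Prime
  kind : K.Holds ρbar p q
  sgn_sq : sgn ^ 2 = 1
  charpoly_frob : q ≠ p →
    ∀ A : ValuationSubring Ω, A.LiesOverPrime q → ∀ φ : GQ, A.IsFrobeniusAt φ q →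
      LinearMap.charpoly (ρbar.ρ φ) =
        (X - C (residue 𝒪 sgn)) * (X - C (residue 𝒪 sgn * ((q : ℕ) : ResidueField 𝒪)))
  ord_p : q = p →
    ∀ A : ValuationSubring Ω, A.LiesOverPrime p →
      ∃ Lbar : Submodule (ResidueField 𝒪) ρbar.V,
        (∃ v : ρbar.V, v ≠ 0 ∧ Lbar = Submodule.span (ResidueField 𝒪) {v}) ∧
        (∀ σ ∈ A.decompositionSubgroup ℚ, ∀ v ∈ Lbar, ρbar.ρ σ v ∈ Lbar) ∧
        (∀ σ ∈ A.inertiaSubgroupIn ℚ, ∀ v : ρbar.V, ρbar.ρ σ v - v ∈ Lbar) ∧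
        ∀ φ : GQ, A.IsFrobeniusAt φ p → ∀ v : ρbar.V, ρbar.ρ φ v - residue 𝒪 sgn • v ∈ Lbar
  unipotent : q ≠ p → ρW.IsUnipotentOnInertiaAt q
  frob : q ≠ p →
    ∀ A : ValuationSubring Ω, A.LiesOverPrime q → ∀ φ : GQ, A.IsFrobeniusAt φ q →
      LinearMap.charpoly (ρW.ρ φ) = (X - C sgn) * (X - C (sgn * ((q : ℕ) : 𝒪)))

variable {ρbar : ResidualGaloisRep (ResidueField 𝒪)} {ρW : GaloisRepAdic 𝒪} {p : ℕ}

/-- the residual chain of a family of chain primes with data -/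
theorem isResChain_of_primeData {pc : PCase} {m : ℕ} (cq : Fin m → ℕ)
    (pd : ∀ j, PrimeData ρbar ρW p (cq j)) (hinj : Function.Injective cq)
    (heqp : (∃ j, cq j = p) ↔ pc = PCase.chain) (heqp0 : ∀ j : Fin m, cq j = p → j.val = 0) :
    IsResChain ρbar p pc cq (fun j => (pd j).sgn) (fun j => (pd j).K) where
  injective := hinj
  prime j := (pd j).prime
  kind j := (pd j).kind
  sgn_sq j := (pd j).sgn_sq
  eq_p_iff := heqp
  eq_p_zero := heqp0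
  charpoly_frob j := (pd j).charpoly_frob
  ord_p j := (pd j).ord_p

/-- the `W`-point of a family of chain primes with data -/
theorem isWPoint_of_primeData {pc : PCase} {m : ℕ} (cq : Fin m → ℕ)
    (pd : ∀ j, PrimeData ρbar ρW p (cq j))
    (hstrict : pc = PCase.chain → ρW.IsStrictOrdinaryAt p) :
    IsWPoint ρW p pc cq (fun j => (pd j).sgn) where
  unipotent j := (pd j).unipotent
  frob j := (pd j).frob
  strict := hstrict

end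

/-- transport of the occurrence along an equality of levels -/
theorem lvlMod_ne_bot_of_eq {𝒪 : Type} [CommRing 𝒪] [IsDomain 𝒪] [IsDiscreteValuationRing 𝒪]
    (p Ntop : ℕ) (c : Nat.Primes → 𝒪) {M M' : ℕ} [NeZero M] [NeZero M'] (h : M = M')
    (hM : lvlMod 𝒪 p Ntop M c ≠ ⊥) : lvlMod 𝒪 p Ntop M' c ≠ ⊥ := by
  subst h
  exact hM

/-- the occurrence at a level passes to a larger top level (fewer conditions) -/
theorem lvlMod_ne_bot_of_dvd {𝒪 : Type} [CommRing 𝒪] [IsDomain 𝒪] [IsDiscreteValuationRing 𝒪]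
    (p : ℕ) {N Ntop : ℕ} [NeZero N] (c : Nat.Primes → 𝒪) (h : N ∣ Ntop)
    (hM : lvlMod 𝒪 p N N c ≠ ⊥) : lvlMod 𝒪 p Ntop N c ≠ ⊥ := by
  intro h0
  apply hM
  rw [Submodule.eq_bot_iff] at h0 ⊢
  intro x hx
  apply h0 x
  rw [Fermat.Agent.RB.TWM.mem_primaryPart] at hx ⊢
  intro i n
  have hi : (i : Nat.Primes) ∈ Fermat.Agent.GR.primesOutside (badSet p N) := by
    intro hmem
    apply i.2
    exact ⟨hmem.1, hmem.2.imp id (fun hd => hd.trans h)⟩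
  exact hx ⟨i, hi⟩ n

end Fermat.Agent.ML.PR1

namespace Fermat.Agent.ML.PR1

local notation "Ω" => AlgebraicClosure ℚ
local notation "GQ" => (AlgebraicClosure ℚ ≃ₐ[ℚ] AlgebraicClosure ℚ)

set_option maxHeartbeats 800000 in
/-- **the packaging**: a `ChainSetting` from a bottom level `N₀`, chain primes with data, and the
clauses on `ρ̄`, `ρ_W`, `c` (the levels are `chainLevel N₀ cq`). -/
theorem nonempty_chainSetting_core {W : WeierstrassCurve ℤ} {p : ℕ} [Fact p.Prime]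
    {𝒪 : Type} [CommRing 𝒪] [IsDomain 𝒪] [IsDiscreteValuationRing 𝒪]
    [IsAdicComplete (maximalIdeal 𝒪) 𝒪] [Finite (ResidueField 𝒪)] [CharZero 𝒪]
    (hp𝒪 : (p : 𝒪) ∈ maximalIdeal 𝒪)
    (ρW : GaloisRepAdic 𝒪) (ρbar : ResidualGaloisRep (ResidueField 𝒪))
    (habs : ρbar.IsAbsolutelyIrreducible)
    (hdet : (GaloisRepAdic.ofResidualGaloisRep ρbar).DetIsCyclotomic p)
    (hsplit : ∀ σ : GQ, ∃ α β : ResidueField 𝒪,
      LinearMap.charpoly (ρbar.ρ σ) = (X - C α) * (X - C β))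
    (hidx2 : ∀ (F : Type) [Field F] [Algebra (ResidueField 𝒪) F] (G : Subgroup GQ),
      G.index = 2 → ∀ V : Submodule F (ρbar.baseChange F).V,
        (∀ σ ∈ G, ∀ x ∈ V, (ρbar.baseChange F).ρ σ x ∈ V) → V = ⊥ ∨ V = ⊤)
    (hconj : LinearMap.det (ρbar.ρ complexConjugation) = -1)
    (pc : PCase) (hpeu : pc = PCase.chain → IsPeuRamifieeAt ρbar p)
    (htres : pc = PCase.strict → ¬ IsPeuRamifieeAt ρbar p)
    (N₀ : ℕ) (hN₀pos : 0 < N₀) (hN₀sqf : Squarefree N₀) (hN₀ne : N₀ ≠ 1)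
    {m : ℕ} (cq : Fin m → ℕ) (hinj : Function.Injective cq)
    (pd : ∀ j, PrimeData ρbar ρW p (cq j)) (hndvd : ∀ j, ¬ cq j ∣ N₀)
    (heqp : (∃ j, cq j = p) ↔ pc = PCase.chain) (heqp0 : ∀ j : Fin m, cq j = p → j.val = 0)
    (hw2 : p = 3 → ∃ r₀ : ℕ, r₀.Prime ∧ r₀ ∣ N₀ ∧ r₀ % 3 = 2)
    (hpdvd : p ∣ chainLevel N₀ cq (Fin.last m) ↔ pc ≠ PCase.flat)
    (h5 : ∀ i : Fin (m + 1), (pc = PCase.chain → i.val ≠ 0) → 5 ≤ chainLevel N₀ cq i)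
    (hSram : ∀ ℓ : ℕ, ℓ.Prime → ℓ ∣ N₀ → ℓ ≠ p → ¬ ρbar.IsUnramifiedAt ℓ ∨
      (NoLevelRaisingAt ρbar ℓ ∧ ((ℓ : ℕ) : ResidueField 𝒪) ≠ 1))
    (hunr : ∀ ℓ : ℕ, ℓ.Prime → ℓ ≠ p → ¬ ℓ ∣ N₀ → ρbar.IsUnramifiedAt ℓ)
    (hbad : ∀ ℓ : ℕ, ℓ.Prime → (ℓ : ℤ) ∣ W.Δ → ℓ ∣ chainLevel N₀ cq (Fin.last m))
    (c : Nat.Primes → 𝒪)
    (hc : ∀ ℓ : Nat.Primes, (ℓ : ℕ) ≠ p → ¬ (ℓ : ℕ) ∣ chainLevel N₀ cq (Fin.last m) →
      residue 𝒪 (c ℓ) = ((W.apOfModel ℓ : ℤ) : ResidueField 𝒪))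
    (hbarchar : ∀ ℓ : ℕ, ℓ.Prime → ℓ ≠ p → W.IsGoodPrimeFor ℓ →
      ∀ A : ValuationSubring Ω, A.LiesOverPrime ℓ → ∀ σ : GQ, A.IsFrobeniusAt σ ℓ →
        LinearMap.charpoly (ρbar.ρ σ) =
          X ^ 2 - C (((W.apOfModel ℓ : ℤ)) : ResidueField 𝒪) * X + C ((ℓ : ℕ) : ResidueField 𝒪))
    (hWchar : ∀ ℓ : ℕ, ℓ.Prime → ℓ ≠ p → W.IsGoodPrimeFor ℓ →
      ∀ A : ValuationSubring Ω, A.LiesOverPrime ℓ → ∀ σ : GQ, A.IsFrobeniusAt σ ℓ →
        LinearMap.charpoly (ρW.ρ σ) = X ^ 2 - C (((W.apOfModel ℓ : ℤ)) : 𝒪) * X + C ((ℓ : ℕ) : 𝒪))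
    (hWres : ∀ σ : GQ, residue 𝒪 (ρW.trace σ) =
      LinearMap.trace (ResidueField 𝒪) ρbar.V (ρbar.ρ σ))
    (hWabs : ρW.residual.IsAbsolutelyIrreducible)
    (hWdet : ρW.DetIsCyclotomic p)
    (hWunr : ∀ ℓ : ℕ, ℓ.Prime → ℓ ≠ p → W.IsGoodPrimeFor ℓ → ρW.IsUnramifiedAt ℓ)
    (hWunip : ∀ ℓ : ℕ, ℓ.Prime → ℓ ≠ p → ρW.IsUnipotentOnInertiaAt ℓ)
    (hWflat : pc = PCase.flat → ρW.IsFlatAt p)
    (hWord : pc ≠ PCase.flat → ρW.IsOrdinaryAt p)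
    (hbarord : pc ≠ PCase.flat → (GaloisRepAdic.ofResidualGaloisRep ρbar).IsOrdinaryAt p)
    (hWstrict : pc = PCase.chain → ρW.IsStrictOrdinaryAt p)
    (hocc : ∀ i : Fin (m + 1), (pc ≠ PCase.chain → i.val = 0) → (pc = PCase.chain → i.val = 1) →
      ∀ _ : NeZero (chainLevel N₀ cq i),
        lvlMod 𝒪 p (chainLevel N₀ cq (Fin.last m)) (chainLevel N₀ cq i) c ≠ ⊥) :
    Nonempty (ChainSetting W p) := by
  classical
  have hpp : p.Prime := Fact.out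
  obtain ⟨lam, hlam⟩ := IsDiscreteValuationRing.exists_irreducible 𝒪
  have hcqprime : ∀ j, (cq j).Prime := fun j => (pd j).prime
  have hNe : ∀ i, NeZero (chainLevel N₀ cq i) := fun i =>
    ⟨(chainLevel_pos hN₀pos (fun j => (hcqprime j).pos) i).ne'⟩
  -- the primes of the top level
  have htop : ∀ ℓ : ℕ, ℓ.Prime → (ℓ ∣ chainLevel N₀ cq (Fin.last m) ↔ ℓ ∣ N₀ ∨ ∃ j, cq j = ℓ) :=
    fun ℓ hℓ => prime_dvd_chainLevel_last hcqprime hℓ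
  let S : Finset ℕ := insert p N₀.primeFactors
  have hS : ∀ ℓ : ℕ, ℓ ∈ S ↔ ℓ.Prime ∧ (ℓ = p ∨ ℓ ∣ chainLevel N₀ cq 0) := by
    intro ℓ
    rw [chainLevel_zero]
    simp only [S, Finset.mem_insert, Nat.mem_primeFactors]
    constructor
    · rintro (rfl | ⟨h1, h2, -⟩)
      · exact ⟨hpp, Or.inl rfl⟩
      · exact ⟨h1, Or.inr h2⟩
    · rintro ⟨h1, rfl | h2⟩
      · exact Or.inl rfl
      · exact Or.inr ⟨h1, h2, hN₀pos.ne'⟩
  have hnotbad : ∀ ℓ : ℕ, ℓ.Prime → ℓ ∉ badSet p (chainLevel N₀ cq (Fin.last m)) →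
      ℓ ≠ p ∧ ¬ ℓ ∣ chainLevel N₀ cq (Fin.last m) ∧ W.IsGoodPrimeFor ℓ := by
    intro ℓ hℓ hnb
    have h1 : ℓ ≠ p := fun h => hnb ⟨hℓ, Or.inl h⟩
    have h2 : ¬ ℓ ∣ chainLevel N₀ cq (Fin.last m) := fun h => hnb ⟨hℓ, Or.inr h⟩
    exact ⟨h1, h2, fun hd => h2 (hbad ℓ hℓ hd)⟩
  exact ⟨{
    𝒪 := 𝒪
    p_mem := hp𝒪
    lam := lam
    lam_irreducible := hlam
    ρW := ρW
    ρbar := ρbar
    absIrr := habs
    det_cyc := hdet
    split := hsplit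
    irr_index_two := hidx2
    det_conj := hconj
    pc := pc
    m := m
    cq := cq
    sgn := fun j => (pd j).sgn
    K := fun j => (pd j).K
    resChain := isResChain_of_primeData cq pd hinj heqp heqp0
    peu := hpeu
    tres := htres
    Nl := chainLevel N₀ cq
    instNeZero := hNe
    Nl_succ := chainLevel_succ N₀ cq
    Nl_squarefree := squarefree_chainLevel_last hN₀sqf hinj hcqprime hndvd
    Nl_zero_ne_one := by rw [chainLevel_zero]; exact hN₀ne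
    w2 := by rw [chainLevel_zero]; exact hw2
    p_dvd_iff := hpdvd
    five_le := h5
    S := S
    mem_S := hS
    S_ram := by
      intro ℓ hℓS hℓp
      obtain ⟨hℓ, h⟩ := (hS ℓ).1 hℓS
      rw [chainLevel_zero] at h
      exact hSram ℓ hℓ (h.resolve_left hℓp) hℓp
    unr_outside := by
      intro ℓ hℓ hℓS
      have h1 : ℓ ≠ p := fun h => hℓS ((hS ℓ).2 ⟨hℓ, Or.inl h⟩)
      have h2 : ¬ ℓ ∣ N₀ := fun h => hℓS ((hS ℓ).2 ⟨hℓ, Or.inr (by rw [chainLevel_zero]; exact h)⟩)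
      exact hunr ℓ hℓ h1 h2
    bad_dvd := hbad
    c := c
    c_res := by
      intro ℓ hℓ
      obtain ⟨h1, h2, -⟩ := hnotbad ℓ ℓ.2 hℓ
      exact hc ℓ h1 h2
    ρbar_charpoly := by
      intro ℓ hℓ hnb A hA σ hσ
      obtain ⟨h1, -, h3⟩ := hnotbad ℓ hℓ hnb
      exact hbarchar ℓ hℓ h1 h3 A hA σ hσ
    ρW_charpoly := by
      intro ℓ hℓ hnb A hA σ hσ
      obtain ⟨h1, -, h3⟩ := hnotbad ℓ hℓ hnb
      exact hWchar ℓ hℓ h1 h3 A hA σ hσ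
    ρW_trace_residue := hWres
    ρW_absIrr := hWabs
    ρW_det := hWdet
    ρW_unr := by
      intro ℓ hℓ hℓS
      have hℓS' : ℓ ∉ S := fun h => hℓS (Finset.mem_union_left _ h)
      have hℓcq : ∀ j, cq j ≠ ℓ := fun j h => hℓS (Finset.mem_union_right _
        (Finset.mem_image.2 ⟨j, Finset.mem_univ _, h⟩))
      have h1 : ℓ ≠ p := fun h => hℓS' ((hS ℓ).2 ⟨hℓ, Or.inl h⟩)
      have h2 : ¬ ℓ ∣ N₀ := fun h => hℓS' ((hS ℓ).2 ⟨hℓ, Or.inr (by rw [chainLevel_zero]; exact h)⟩)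
      refine hWunr ℓ hℓ h1 (fun hd => ?_)
      rcases (htop ℓ hℓ).1 (hbad ℓ hℓ hd) with h | ⟨j, hj⟩
      · exact h2 h
      · exact hℓcq j hj
    ρW_unip := hWunip
    ρW_flat := hWflat
    ρW_ord := hWord
    ρbar_ord := hbarord
    wPoint := isWPoint_of_primeData cq pd hWstrict
    occ := fun i h1 h2 => hocc i h1 h2 (hNe i) }⟩

end Fermat.Agent.ML.PR1
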