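/-
PROJECT ML (S59) — lead — **INTERFACE of [PR-1]** (`ChainSettingStatement`, helper9's
`ML/IFACE_helper9_Producer.lean`): the three inputs of the assembly `ML/PROD_lead_Main.lean`.

* `RhoClauses W p D ι` (owner helper4, `ML/PROD_helper4_Rho.lean`): the clauses on
  `ρ_W := D.ρ.baseChangeAlong ι` and `ρ̄ := D.ρ.residual.baseChangeAlong (ResidueField.map ι)` which are
  not already lemmas of `TOPR` — including the data `PR1.PrimeData` of a chain prime (sign, kind,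
  the clauses of `IsResChain` and `IsWPoint`);  `RhoClausesStatement`.
* `OccSetupStatement` (owner helper1, `ML/PROD_helper1_Occ.lean`): the coefficient ring, `ι`, the
  system `c` and the occurrence at the level `N`.
* `NoLevelFiveStatement` (owner helper3, `ML/PROD_helper3_Five.lean`): `ρ̄` does not occur at level `5`.
-/
import Mathlib
import Fermat.Agent.ML.PROD_lead_Setting
import Fermat.Agent.ML.IFACE_helper1_TateDict
import Fermat.Agent.ML.IFACE_lead_LevelOpt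

set_option autoImplicit false

open Polynomial IsLocalRing

namespace Fermat.Agent.ML

local notation "Ω" => AlgebraicClosure ℚ
local notation "GQ" => (AlgebraicClosure ℚ ≃ₐ[ℚ] AlgebraicClosure ℚ)

/-- **the clauses on `ρ_W` and `ρ̄`** needed by the assembly of [PR-1]. -/
structure RhoClauses (W : WeierstrassCurve ℤ) (p : ℕ) [Fact p.Prime] (D : RhoWData W p)
    {𝒪 : Type} [CommRing 𝒪] [IsLocalRing 𝒪] (ι : ℤ_[p] →+* 𝒪) [hι : IsLocalHom ι] : Prop where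
  ρW_charpoly : ∀ ℓ : ℕ, ℓ.Prime → ℓ ≠ p → W.IsGoodPrimeFor ℓ →
    ∀ A : ValuationSubring Ω, A.LiesOverPrime ℓ → ∀ σ : GQ, A.IsFrobeniusAt σ ℓ →
      LinearMap.charpoly ((D.ρ.baseChangeAlong ι hι).ρ σ) =
        X ^ 2 - C (((W.apOfModel ℓ : ℤ)) : 𝒪) * X + C ((ℓ : ℕ) : 𝒪)
  ρW_trace_residue : ∀ σ : GQ, residue 𝒪 ((D.ρ.baseChangeAlong ι hι).trace σ) =
    LinearMap.trace (ResidueField 𝒪) (D.ρ.residual.baseChangeAlong (ResidueField.map ι)).V
      ((D.ρ.residual.baseChangeAlong (ResidueField.map ι)).ρ σ)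
  ρW_absIrr : (D.ρ.baseChangeAlong ι hι).residual.IsAbsolutelyIrreducible
  ρW_det : (D.ρ.baseChangeAlong ι hι).DetIsCyclotomic p
  ρW_unr : ∀ ℓ : ℕ, ℓ.Prime → ℓ ≠ p → W.IsGoodPrimeFor ℓ →
    (D.ρ.baseChangeAlong ι hι).IsUnramifiedAt ℓ
  ρW_unip : ∀ ℓ : ℕ, ℓ.Prime → ℓ ≠ p → (D.ρ.baseChangeAlong ι hι).IsUnipotentOnInertiaAt ℓ
  ρW_flat : W.IsGoodPrimeFor p → (D.ρ.baseChangeAlong ι hι).IsFlatAt p
  ρW_ord : (p : ℤ) ∣ W.Δ → (D.ρ.baseChangeAlong ι hι).IsOrdinaryAt p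
  ρW_strict : (p : ℤ) ∣ W.Δ → (D.ρ.baseChangeAlong ι hι).IsStrictOrdinaryAt p
  /-- the data of a chain prime `q ≠ p`: a bad prime of `W` at which `ρ̄` is unramified -/
  primeData_bad : ∀ q : ℕ, q.Prime → q ≠ p → (q : ℤ) ∣ W.Δ →
    (D.ρ.residual.baseChangeAlong (ResidueField.map ι)).IsUnramifiedAt q →
    Nonempty (PR1.PrimeData (D.ρ.residual.baseChangeAlong (ResidueField.map ι))
      (D.ρ.baseChangeAlong ι hι) p q)
  /-- the data of the chain prime `p` (`W` bad at `p`) -/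
  primeData_p : (p : ℤ) ∣ W.Δ →
    Nonempty (PR1.PrimeData (D.ρ.residual.baseChangeAlong (ResidueField.map ι))
      (D.ρ.baseChangeAlong ι hι) p p)

/-- **[PR-1b]** (owner helper4). -/
def RhoClausesStatement : Prop :=
  ∀ (p : ℕ) [Fact p.Prime] (W : WeierstrassCurve ℤ) (_ : CurveHyp p W) (D : RhoWData W p)
    (_ : TateDict W p D)
    {𝒪 : Type} [CommRing 𝒪] [IsDomain 𝒪] [IsDiscreteValuationRing 𝒪]
    [IsAdicComplete (maximalIdeal 𝒪) 𝒪] [Finite (ResidueField 𝒪)] [CharZero 𝒪]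
    (ι : ℤ_[p] →+* 𝒪) [IsLocalHom ι], RhoClauses W p D ι

/-- **[PR-1c]** (owner helper1): the coefficient ring, the system of constants and the occurrence
at the level `N`. -/
def OccSetupStatement : Prop :=
  ∀ (p : ℕ) [Fact p.Prime] (W : WeierstrassCurve ℤ) (_ : CurveHyp p W) (D : RhoWData W p)
    (_ : TateDict W p D) (N : ℕ) [NeZero N] (_ : Squarefree N) (_ : IsResModAway W p N),
    ∃ (𝒪 : Type) (_ : CommRing 𝒪) (_ : IsDomain 𝒪) (_ : IsDiscreteValuationRing 𝒪)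
      (_ : IsAdicComplete (maximalIdeal 𝒪) 𝒪) (_ : Finite (ResidueField 𝒪)) (_ : CharZero 𝒪)
      (ι : ℤ_[p] →+* 𝒪) (_ : IsLocalHom ι),
      (∀ f : (ResidueField ℤ_[p])[X], f.Monic → f.natDegree = 2 →
        ∃ α β : ResidueField 𝒪, f.map (ResidueField.map ι) = (X - C α) * (X - C β)) ∧
      5 ≤ N ∧
      (∀ q : ℕ, q.Prime → ¬ q ∣ N * p → UnrArith W p q) ∧
      ∃ c : Nat.Primes → 𝒪,
        (∀ ℓ : Nat.Primes, (ℓ : ℕ) ≠ p → ¬ (ℓ : ℕ) ∣ N → W.IsGoodPrimeFor ℓ →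
          residue 𝒪 (c ℓ) = ((W.apOfModel ℓ : ℤ) : ResidueField 𝒪)) ∧
        lvlMod 𝒪 p N N c ≠ ⊥

/-- **[PR-1d]** (owner helper3): nothing occurs at level `5` (`S₂(Γ₀(5)) = 0`). -/
def NoLevelFiveStatement : Prop :=
  ∀ (W : WeierstrassCurve ℤ) (p : ℕ), ¬ IsResModAway W p 5

end Fermat.Agent.ML
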