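/-
PROJECT ML (S59) — lead — [PR-1], part B: **the normalisations of the optimal level**
(helper9's (a), (b) of `ML/IFACE_helper9_Producer.lean`):
(a) `p ∣ N ↔ p ∣ Δ` (if `p ∣ Δ`, `p ∤ N` pass to `N p`);
(b) for `p = 3` a prime `≡ 2 mod 3` divides `N` (adjoin an auxiliary prime).
-/
import Mathlib
import Fermat.Agent.ML.LEVOPT_lead_Main
import Fermat.Agent.ML.AUXP_lead_Main

set_option autoImplicit false

namespace Fermat.Agent.ML.PR1

open Fermat.Agent.ML.LevOpt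

/-- multiplying a squarefree number by a prime which does not divide it -/
theorem squarefree_mul_prime {N q : ℕ} (hN : Squarefree N) (hq : q.Prime) (hqN : ¬ q ∣ N) :
    Squarefree (N * q) := by
  rw [Nat.squarefree_mul_iff]
  refine ⟨?_, hN, hq.squarefree⟩
  exact ((Nat.Prime.coprime_iff_not_dvd hq).2 hqN).symm

/-- **(a)**: the level contains `p` exactly when `W` is bad at `p`. -/
theorem exists_level_p_iff (p : ℕ) (hp : p.Prime) (W : WeierstrassCurve ℤ)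
    (N : ℕ) (hopt : IsOptimalLevel W p N) (hres : IsResModAway W p N) :
    ∃ N' : ℕ, IsOptimalLevel W p N' ∧ IsResModAway W p N' ∧ (p ∣ N' ↔ (p : ℤ) ∣ W.Δ) := by
  obtain ⟨hpos, hsqf, hram, hpN⟩ := hopt
  by_cases hcase : (p : ℤ) ∣ W.Δ ∧ ¬ p ∣ N
  · obtain ⟨hpΔ, hpnN⟩ := hcase
    refine ⟨N * p, ⟨Nat.mul_pos hpos hp.pos, squarefree_mul_prime hsqf hp hpnN, ?_, fun _ => hpΔ⟩,
      isResModAway_mul_prime hp hres, ⟨fun _ => hpΔ, fun _ => Dvd.intro_left N rfl⟩⟩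
    intro q hq hqd hqp
    rcases hq.dvd_mul.1 hqd with h | h
    · exact hram q hq h hqp
    · exact absurd ((Nat.prime_dvd_prime_iff_eq hq hp).1 h) hqp
  · refine ⟨N, ⟨hpos, hsqf, hram, hpN⟩, hres, ⟨hpN, fun hpΔ => ?_⟩⟩
    by_contra hpnN
    exact hcase ⟨hpΔ, hpnN⟩

/-- **(a) + (b)**: the normalised level. -/
theorem exists_normalised_level (p : ℕ) (hp : p.Prime) (W : WeierstrassCurve ℤ)
    (hyp : CurveHyp p W) (N : ℕ) (hopt : IsOptimalLevel W p N) (hres : IsResModAway W p N) :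
    ∃ N' : ℕ, IsOptimalLevel W p N' ∧ IsResModAway W p N' ∧ (p ∣ N' ↔ (p : ℤ) ∣ W.Δ) ∧
      (p = 3 → ∃ r₀ : ℕ, r₀.Prime ∧ r₀ ∣ N' ∧ r₀ % 3 = 2) := by
  obtain ⟨N₁, hopt₁, hres₁, hiff₁⟩ := exists_level_p_iff p hp W N hopt hres
  by_cases hcase : p = 3 ∧ ¬ ∃ r₀ : ℕ, r₀.Prime ∧ r₀ ∣ N₁ ∧ r₀ % 3 = 2
  · obtain ⟨hp3, -⟩ := hcase
    subst hp3
    obtain ⟨hpos, hsqf, hram, hpN⟩ := hopt₁
    obtain ⟨r, hrB, haux⟩ := AuxP.auxPrimeStatement W hyp (N₁.primeFactors ∪ {3})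
    have hr := haux
    obtain ⟨-, hrp, hrgood, hr3, -⟩ := hr
    have hrN : ¬ r ∣ N₁ := fun h => hrB (by
      have : r ∈ N₁.primeFactors := Nat.mem_primeFactors.2 ⟨hrp, h, hpos.ne'⟩
      simp [this])
    have hr3' : r ≠ 3 := fun h => hrB (by simp [h])
    refine ⟨N₁ * r, ⟨Nat.mul_pos hpos hrp.pos, squarefree_mul_prime hsqf hrp hrN, ?_, ?_⟩,
      isResModAway_mul_prime hrp hres₁, ⟨?_, ?_⟩, fun _ => ⟨r, hrp, Dvd.intro_left N₁ rfl, hr3⟩⟩
    · intro q hq hqd hqp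
      rcases hq.dvd_mul.1 hqd with h | h
      · exact hram q hq h hqp
      · have : q = r := (Nat.prime_dvd_prime_iff_eq hq hrp).1 h
        subst this
        exact Or.inr haux
    · intro h
      rcases Nat.prime_three.dvd_mul.1 h with h | h
      · exact hpN h
      · exact absurd ((Nat.prime_dvd_prime_iff_eq Nat.prime_three hrp).1 h).symm hr3'
    · intro h
      rcases Nat.prime_three.dvd_mul.1 h with h | h
      · exact hiff₁.1 h
      · exact absurd ((Nat.prime_dvd_prime_iff_eq Nat.prime_three hrp).1 h).symm hr3'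
    · intro h
      exact (hiff₁.2 h).mul_right r
  · refine ⟨N₁, hopt₁, hres₁, hiff₁, fun hp3 => ?_⟩
    by_contra hno
    exact hcase ⟨hp3, hno⟩

end Fermat.Agent.ML.PR1
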