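/-
PROJECT ML (S59) — lead — **[PR-1] `ChainSettingStatement`, the assembly**:
`PR1.chainSettingStatement_of : RhoClausesStatement → OccSetupStatement → NoLevelFiveStatement →
ChainSettingStatement`.

The level is normalised (`PR1.exists_normalised_level`), the chain primes `≠ p` are the primes of
`Δ` which do not divide the level; `pc = flat` if `p ∤ Δ`, `pc = chain` (bottom level `N / p`, first
chain prime `p`) if `p ∣ Δ` and `ρ̄` is peu ramifiée, `pc = strict` otherwise.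
-/
import Mathlib
import Fermat.Agent.ML.IFACE_lead_Prod
import Fermat.Agent.ML.PROD_lead_Norm
import Fermat.Agent.ML.TOPIA_helper4_Resid
import Fermat.Agent.ML.RHOW_helper1_Final
import Fermat.Agent.ML.TATED_helper1_Final

set_option autoImplicit false
set_option linter.style.haveILetI false

open Polynomial IsLocalRing

namespace Fermat.Agent.ML.PR1

local notation "Ω" => AlgebraicClosure ℚ
local notation "GQ" => (AlgebraicClosure ℚ ≃ₐ[ℚ] AlgebraicClosure ℚ)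

/-- enumeration of a finite set of natural numbers -/
theorem exists_enum (s : Finset ℕ) : ∃ (m : ℕ) (f : Fin m → ℕ), Function.Injective f ∧
    ∀ x, x ∈ s ↔ ∃ j, f j = x := by
  refine ⟨s.card, fun j => s.orderEmbOfFin rfl j, (s.orderEmbOfFin rfl).injective, fun x => ?_⟩
  rw [← Finset.mem_coe, ← Finset.range_orderEmbOfFin s rfl, Set.mem_range]

/-- a level which divides a larger positive level is at most it -/
theorem le_of_dvd_chainLevel {a b : ℕ} (h : a ∣ b) (hb : 0 < b) : a ≤ b := Nat.le_of_dvd hb h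

section Main

variable {W : WeierstrassCurve ℤ} {p : ℕ} [hpF : Fact p.Prime]

set_option maxHeartbeats 1600000 in
/-- **the case `pc ≠ chain`**: bottom level `N`. -/
theorem nonempty_chainSetting_nonchain (hyp : CurveHyp p W) (D : RhoWData W p)
    (hT : TateDict W p D)
    {𝒪 : Type} [CommRing 𝒪] [IsDomain 𝒪] [IsDiscreteValuationRing 𝒪]
    [IsAdicComplete (maximalIdeal 𝒪) 𝒪] [Finite (ResidueField 𝒪)] [CharZero 𝒪]
    (ι : ℤ_[p] →+* 𝒪) [hι : IsLocalHom ι] (RC : RhoClauses W p D ι)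
    (hquad : ∀ f : (ResidueField ℤ_[p])[X], f.Monic → f.natDegree = 2 →
      ∃ α β : ResidueField 𝒪, f.map (ResidueField.map ι) = (X - C α) * (X - C β))
    (N : ℕ) [NeZero N] (hopt : IsOptimalLevel W p N) (hpiff : p ∣ N ↔ (p : ℤ) ∣ W.Δ)
    (hw2 : p = 3 → ∃ r₀ : ℕ, r₀.Prime ∧ r₀ ∣ N ∧ r₀ % 3 = 2)
    (h5N : 5 ≤ N) (hunrOut : ∀ q : ℕ, q.Prime → ¬ q ∣ N * p → UnrArith W p q)
    (c : Nat.Primes → 𝒪)
    (hc : ∀ ℓ : Nat.Primes, (ℓ : ℕ) ≠ p → ¬ (ℓ : ℕ) ∣ N → W.IsGoodPrimeFor ℓ →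
      residue 𝒪 (c ℓ) = ((W.apOfModel ℓ : ℤ) : ResidueField 𝒪))
    (hoccN : lvlMod 𝒪 p N N c ≠ ⊥)
    (pc : PCase) (hpc : pc ≠ PCase.chain) (hflat : pc = PCase.flat ↔ ¬ (p : ℤ) ∣ W.Δ)
    (htres : pc = PCase.strict →
      ¬ IsPeuRamifieeAt (D.ρ.residual.baseChangeAlong (ResidueField.map ι)) p) :
    Nonempty (ChainSetting W p) := by
  classical
  have hpp : p.Prime := hpF.out
  have hΔ : W.Δ ≠ 0 := hyp.disc_ne
  obtain ⟨hNpos, hNsqf, hNram, hNp⟩ := id hopt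
  set ψ₀ : ResidueField ℤ_[p] →+* ResidueField 𝒪 := ResidueField.map ι with hψ₀
  set ρbar : ResidualGaloisRep (ResidueField 𝒪) := D.ρ.residual.baseChangeAlong ψ₀ with hρbar
  set ρW : GaloisRepAdic 𝒪 := D.ρ.baseChangeAlong ι hι with hρW
  have hp𝒪 : (p : 𝒪) ∈ maximalIdeal 𝒪 := by
    have h1 : ((p : ℕ) : ℤ_[p]) ∈ maximalIdeal ℤ_[p] := D.det_cyclotomic.1
    rw [mem_maximalIdeal, mem_nonunits_iff] at h1 ⊢
    intro hu
    apply h1
    have : ι ((p : ℕ) : ℤ_[p]) = ((p : ℕ) : 𝒪) := map_natCast ι p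
    rw [← this] at hu
    exact isUnit_of_map_unit ι _ hu
  obtain ⟨habs, hidx2⟩ := TOPR.absIrr_resTW_rhobar D ψ₀ hyp
  -- the chain primes
  obtain ⟨m, cq, hinj, hcq⟩ := exists_enum (W.Δ.natAbs.primeFactors.filter fun q => ¬ q ∣ N)
  have hcqmem : ∀ j, (cq j).Prime ∧ ((cq j : ℕ) : ℤ) ∣ W.Δ ∧ ¬ cq j ∣ N := by
    intro j
    have h := (hcq (cq j)).2 ⟨j, rfl⟩
    rw [Finset.mem_filter, Nat.mem_primeFactors] at h
    exact ⟨h.1.1, Int.natCast_dvd.mpr h.1.2.1, h.2⟩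
  have hcqp : ∀ j, cq j ≠ p := by
    intro j h
    obtain ⟨-, h2, h3⟩ := hcqmem j
    rw [h] at h2 h3
    exact h3 (hpiff.2 h2)
  have hunrN : ∀ ℓ : ℕ, ℓ.Prime → ℓ ≠ p → ¬ ℓ ∣ N → ρbar.IsUnramifiedAt ℓ := by
    intro ℓ hℓ hℓp hℓN
    refine TOPR.isUnramifiedAt_of_unrArith D ψ₀ hT hℓ hℓp (hunrOut ℓ hℓ fun h => ?_)
    rcases hℓ.dvd_mul.1 h with h | h
    · exact hℓN h
    · exact hℓp ((Nat.prime_dvd_prime_iff_eq hℓ hpp).1 h)
  have pd : ∀ j, PrimeData ρbar ρW p (cq j) := fun j =>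
    Classical.choice (RC.primeData_bad (cq j) (hcqmem j).1 (hcqp j) (hcqmem j).2.1
      (hunrN _ (hcqmem j).1 (hcqp j) (hcqmem j).2.2))
  have hcqprime : ∀ j, (cq j).Prime := fun j => (hcqmem j).1
  have htop : ∀ ℓ : ℕ, ℓ.Prime → (ℓ ∣ chainLevel N cq (Fin.last m) ↔ ℓ ∣ N ∨ ∃ j, cq j = ℓ) :=
    fun ℓ hℓ => prime_dvd_chainLevel_last hcqprime hℓ
  have hbad : ∀ ℓ : ℕ, ℓ.Prime → (ℓ : ℤ) ∣ W.Δ → ℓ ∣ chainLevel N cq (Fin.last m) := by
    intro ℓ hℓ hd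
    rw [htop ℓ hℓ]
    by_cases hℓN : ℓ ∣ N
    · exact Or.inl hℓN
    · right
      apply (hcq ℓ).1
      rw [Finset.mem_filter, Nat.mem_primeFactors]
      exact ⟨⟨hℓ, Int.natCast_dvd.mp hd, Int.natAbs_ne_zero.mpr hΔ⟩, hℓN⟩
  have hpΔ_of : pc ≠ PCase.flat → (p : ℤ) ∣ W.Δ := fun h => by
    by_contra hcon
    exact h (hflat.2 hcon)
  refine nonempty_chainSetting_core (W := W) hp𝒪 ρW ρbar habs (TOPR.detIsCyclotomic_rhobar D ψ₀)
    (TOPR.split_rhobar D ψ₀ hquad) hidx2 (TOPR.det_rhobar_complexConjugation D ψ₀) pc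
    (fun h => absurd h hpc) htres N hNpos hNsqf (by omega) cq hinj pd (fun j => (hcqmem j).2.2)
    ⟨fun ⟨j, hj⟩ => absurd hj (hcqp j), fun h => absurd h hpc⟩
    (fun j hj => absurd hj (hcqp j)) hw2 ?_ ?_ ?_ hunrN hbad c ?_ ?_ ?_ RC.ρW_trace_residue
    RC.ρW_absIrr RC.ρW_det RC.ρW_unr RC.ρW_unip ?_ ?_ ?_ (fun h => absurd h hpc) ?_
  · -- `p ∣ top ↔ pc ≠ flat`
    rw [htop p hpp]
    constructor
    · rintro (h | ⟨j, hj⟩)
      · intro hf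
        exact (hflat.1 hf) (hpiff.1 h)
      · exact absurd hj (hcqp j)
    · intro h
      exact Or.inl (hpiff.2 (hpΔ_of h))
  · -- `5 ≤` the levels
    intro i _
    exact le_trans h5N (Nat.le_of_dvd
      (chainLevel_pos hNpos (fun j => (hcqprime j).pos) i) (dvd_chainLevel N cq i))
  · -- `S_ram`
    intro ℓ hℓ hℓN hℓp
    exact TOPR.hram_of_isOptimalLevel D ψ₀ hT hopt ℓ hℓ hℓN hℓp
  · -- `c`
    intro ℓ hℓp hℓtop
    have hℓN : ¬ (ℓ : ℕ) ∣ N := fun h => hℓtop (h.trans (dvd_chainLevel N cq _))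
    exact hc ℓ hℓp hℓN (fun hd => hℓtop (hbad ℓ ℓ.2 hd))
  · -- `ρ̄` at the good primes
    intro ℓ hℓ hℓp hgood A hA σ hσ
    exact TOPR.charpoly_frob_rhobar D ψ₀ hℓ hℓp hgood A hA σ hσ
  · exact RC.ρW_charpoly
  · -- flat
    intro h
    exact RC.ρW_flat (hflat.1 h)
  · -- ordinary
    intro h
    exact RC.ρW_ord (hpΔ_of h)
  · intro h
    exact TOPR.isOrdinaryAt_rhobar D ψ₀ hT (hpΔ_of h)
  · -- the occurrence
    intro i hi0 _ hne
    have hi : i = 0 := Fin.ext (hi0 hpc)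
    subst hi
    haveI := hne
    have h1 : lvlMod 𝒪 p (chainLevel N cq (Fin.last m)) N c ≠ ⊥ :=
      lvlMod_ne_bot_of_dvd p c (dvd_chainLevel N cq _) hoccN
    exact lvlMod_ne_bot_of_eq p _ c (chainLevel_zero N cq).symm h1

set_option maxHeartbeats 1600000 in
/-- **the case `pc = chain`**: bottom level `N₀ = N / p`, first chain prime `p`. -/
theorem nonempty_chainSetting_chain (hyp : CurveHyp p W) (D : RhoWData W p)
    (hT : TateDict W p D)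
    {𝒪 : Type} [CommRing 𝒪] [IsDomain 𝒪] [IsDiscreteValuationRing 𝒪]
    [IsAdicComplete (maximalIdeal 𝒪) 𝒪] [Finite (ResidueField 𝒪)] [CharZero 𝒪]
    (ι : ℤ_[p] →+* 𝒪) [hι : IsLocalHom ι] (RC : RhoClauses W p D ι)
    (hquad : ∀ f : (ResidueField ℤ_[p])[X], f.Monic → f.natDegree = 2 →
      ∃ α β : ResidueField 𝒪, f.map (ResidueField.map ι) = (X - C α) * (X - C β))
    (N : ℕ) [NeZero N] (hopt : IsOptimalLevel W p N) (hpN : p ∣ N) (hpΔ : (p : ℤ) ∣ W.Δ)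
    (hw2 : p = 3 → ∃ r₀ : ℕ, r₀.Prime ∧ r₀ ∣ N ∧ r₀ % 3 = 2)
    (hN5 : p = 5 → N ≠ 5)
    (h5N : 5 ≤ N) (hunrOut : ∀ q : ℕ, q.Prime → ¬ q ∣ N * p → UnrArith W p q)
    (c : Nat.Primes → 𝒪)
    (hc : ∀ ℓ : Nat.Primes, (ℓ : ℕ) ≠ p → ¬ (ℓ : ℕ) ∣ N → W.IsGoodPrimeFor ℓ →
      residue 𝒪 (c ℓ) = ((W.apOfModel ℓ : ℤ) : ResidueField 𝒪))
    (hoccN : lvlMod 𝒪 p N N c ≠ ⊥)
    (hpeu : IsPeuRamifieeAt (D.ρ.residual.baseChangeAlong (ResidueField.map ι)) p) :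
    Nonempty (ChainSetting W p) := by
  classical
  have hpp : p.Prime := hpF.out
  have hΔ : W.Δ ≠ 0 := hyp.disc_ne
  obtain ⟨hNpos, hNsqf, hNram, hNp⟩ := id hopt
  set ψ₀ : ResidueField ℤ_[p] →+* ResidueField 𝒪 := ResidueField.map ι with hψ₀
  set ρbar : ResidualGaloisRep (ResidueField 𝒪) := D.ρ.residual.baseChangeAlong ψ₀ with hρbar
  set ρW : GaloisRepAdic 𝒪 := D.ρ.baseChangeAlong ι hι with hρW
  have hp𝒪 : (p : 𝒪) ∈ maximalIdeal 𝒪 := by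
    have h1 : ((p : ℕ) : ℤ_[p]) ∈ maximalIdeal ℤ_[p] := D.det_cyclotomic.1
    rw [mem_maximalIdeal, mem_nonunits_iff] at h1 ⊢
    intro hu
    apply h1
    have : ι ((p : ℕ) : ℤ_[p]) = ((p : ℕ) : 𝒪) := map_natCast ι p
    rw [← this] at hu
    exact isUnit_of_map_unit ι _ hu
  obtain ⟨habs, hidx2⟩ := TOPR.absIrr_resTW_rhobar D ψ₀ hyp
  -- the bottom level
  obtain ⟨N₀, hN₀⟩ : ∃ N₀, N = N₀ * p := by
    obtain ⟨a, ha⟩ := hpN
    exact ⟨a, by rw [ha, mul_comm]⟩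
  have hN₀dvd : N₀ ∣ N := Dvd.intro _ hN₀.symm
  have hN₀pos : 0 < N₀ := Nat.pos_of_dvd_of_pos hN₀dvd hNpos
  have hN₀sqf : Squarefree N₀ := hNsqf.squarefree_of_dvd hN₀dvd
  have hpN₀ : ¬ p ∣ N₀ := by
    intro h
    apply (Nat.squarefree_iff_prime_squarefree.1 hNsqf) p hpp
    rw [hN₀]
    exact Nat.mul_dvd_mul_right h p
  have hdvdN : ∀ ℓ : ℕ, ℓ.Prime → (ℓ ∣ N ↔ ℓ ∣ N₀ ∨ ℓ = p) := by
    intro ℓ hℓ
    rw [hN₀, hℓ.dvd_mul, Nat.prime_dvd_prime_iff_eq hℓ hpp]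
  have hN₀ne : N₀ ≠ 1 := by
    intro h1
    have hNp' : N = p := by rw [hN₀, h1, one_mul]
    rcases hyp.p_eq with h3 | h5
    · obtain ⟨r₀, hr₀, hr₀N, hr₀3⟩ := hw2 h3
      rw [hNp', Nat.prime_dvd_prime_iff_eq hr₀ hpp] at hr₀N
      rw [hr₀N, h3] at hr₀3
      norm_num at hr₀3
    · exact hN5 h5 (by rw [hNp', h5])
  -- the chain primes `≠ p`
  obtain ⟨m, cq, hinj, hcq⟩ := exists_enum (W.Δ.natAbs.primeFactors.filter fun q => ¬ q ∣ N)
  have hcqmem : ∀ j, (cq j).Prime ∧ ((cq j : ℕ) : ℤ) ∣ W.Δ ∧ ¬ cq j ∣ N := by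
    intro j
    have h := (hcq (cq j)).2 ⟨j, rfl⟩
    rw [Finset.mem_filter, Nat.mem_primeFactors] at h
    exact ⟨h.1.1, Int.natCast_dvd.mpr h.1.2.1, h.2⟩
  have hcqp : ∀ j, cq j ≠ p := by
    intro j h
    obtain ⟨-, -, h3⟩ := hcqmem j
    rw [h] at h3
    exact h3 hpN
  have hunrN : ∀ ℓ : ℕ, ℓ.Prime → ℓ ≠ p → ¬ ℓ ∣ N → ρbar.IsUnramifiedAt ℓ := by
    intro ℓ hℓ hℓp hℓN
    refine TOPR.isUnramifiedAt_of_unrArith D ψ₀ hT hℓ hℓp (hunrOut ℓ hℓ fun h => ?_)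
    rcases hℓ.dvd_mul.1 h with h | h
    · exact hℓN h
    · exact hℓp ((Nat.prime_dvd_prime_iff_eq hℓ hpp).1 h)
  have pd' : ∀ j, PrimeData ρbar ρW p (cq j) := fun j =>
    Classical.choice (RC.primeData_bad (cq j) (hcqmem j).1 (hcqp j) (hcqmem j).2.1
      (hunrN _ (hcqmem j).1 (hcqp j) (hcqmem j).2.2))
  have pdp : PrimeData ρbar ρW p p := Classical.choice (RC.primeData_p hpΔ)
  -- the full chain
  let cqa : Fin (m + 1) → ℕ := Fin.cons p cq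
  have hcqa0 : cqa 0 = p := rfl
  have hcqas : ∀ j : Fin m, cqa j.succ = cq j := fun j => rfl
  have pd : ∀ j, PrimeData ρbar ρW p (cqa j) := fun j =>
    Fin.cases (motive := fun j => PrimeData ρbar ρW p (cqa j)) pdp pd' j
  have hinja : Function.Injective cqa := by
    rw [Fin.cons_injective_iff]
    refine ⟨?_, hinj⟩
    rintro ⟨j, hj⟩
    exact hcqp j hj
  have hcqaprime : ∀ j, (cqa j).Prime := fun j => (pd j).prime
  have hndvd : ∀ j, ¬ cqa j ∣ N₀ := by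
    intro j
    refine Fin.cases ?_ (fun j => ?_) j
    · exact hpN₀
    · intro h
      exact (hcqmem j).2.2 (h.trans hN₀dvd)
  have hex : ∀ ℓ : ℕ, (∃ j, cqa j = ℓ) ↔ ℓ = p ∨ ∃ j, cq j = ℓ := by
    intro ℓ
    constructor
    · rintro ⟨j, hj⟩
      revert hj
      refine Fin.cases ?_ (fun j => ?_) j
      · intro hj
        exact Or.inl hj.symm
      · intro hj
        exact Or.inr ⟨j, hj⟩
    · rintro (rfl | ⟨j, hj⟩)
      · exact ⟨0, rfl⟩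
      · exact ⟨j.succ, hj⟩
  have htop : ∀ ℓ : ℕ, ℓ.Prime →
      (ℓ ∣ chainLevel N₀ cqa (Fin.last (m + 1)) ↔ ℓ ∣ N ∨ ∃ j, cq j = ℓ) := by
    intro ℓ hℓ
    rw [prime_dvd_chainLevel_last hcqaprime hℓ, hex ℓ, hdvdN ℓ hℓ]
    tauto
  have hlev1 : chainLevel N₀ cqa (0 : Fin (m + 1)).succ = N := by
    rw [chainLevel_succ, Fin.castSucc_zero, chainLevel_zero, hcqa0, hN₀]
  have hNdvd : ∀ i : Fin (m + 2), i.val ≠ 0 → N ∣ chainLevel N₀ cqa i := by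
    intro i hi
    rw [← hlev1]
    apply chainLevel_mono
    rw [Fin.le_def]
    have : ((0 : Fin (m + 1)).succ).val = 1 := by simp
    rw [this]
    omega
  have hNtop : N ∣ chainLevel N₀ cqa (Fin.last (m + 1)) := by
    apply hNdvd
    simp
  have hbad : ∀ ℓ : ℕ, ℓ.Prime → (ℓ : ℤ) ∣ W.Δ → ℓ ∣ chainLevel N₀ cqa (Fin.last (m + 1)) := by
    intro ℓ hℓ hd
    rw [htop ℓ hℓ]
    by_cases hℓN : ℓ ∣ N
    · exact Or.inl hℓN
    · right
      apply (hcq ℓ).1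
      rw [Finset.mem_filter, Nat.mem_primeFactors]
      exact ⟨⟨hℓ, Int.natCast_dvd.mp hd, Int.natAbs_ne_zero.mpr hΔ⟩, hℓN⟩
  refine nonempty_chainSetting_core (W := W) hp𝒪 ρW ρbar habs (TOPR.detIsCyclotomic_rhobar D ψ₀)
    (TOPR.split_rhobar D ψ₀ hquad) hidx2 (TOPR.det_rhobar_complexConjugation D ψ₀) PCase.chain
    (fun _ => hpeu) (fun h => by cases h) N₀ hN₀pos hN₀sqf hN₀ne cqa hinja pd hndvd
    ⟨fun _ => rfl, fun _ => ⟨0, rfl⟩⟩ ?_ ?_ ?_ ?_ ?_ ?_ hbad c ?_ ?_ ?_ RC.ρW_trace_residue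
    RC.ρW_absIrr RC.ρW_det RC.ρW_unr RC.ρW_unip (fun h => by cases h) (fun _ => RC.ρW_ord hpΔ)
    (fun _ => TOPR.isOrdinaryAt_rhobar D ψ₀ hT hpΔ) (fun _ => RC.ρW_strict hpΔ) ?_
  · -- `cqa j = p → j = 0`
    intro j
    refine Fin.cases ?_ (fun j => ?_) j
    · intro _
      rfl
    · intro hj
      exact absurd hj (hcqp j)
  · -- (W2′)
    intro h3
    obtain ⟨r₀, hr₀, hr₀N, hr₀3⟩ := hw2 h3
    refine ⟨r₀, hr₀, ?_, hr₀3⟩
    rcases (hdvdN r₀ hr₀).1 hr₀N with h | h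
    · exact h
    · rw [h, h3] at hr₀3
      norm_num at hr₀3
  · -- `p ∣ top ↔ pc ≠ flat`
    constructor
    · intro _ h
      cases h
    · intro _
      exact (htop p hpp).2 (Or.inl hpN)
  · -- `5 ≤` the levels
    intro i hi
    exact le_trans h5N (Nat.le_of_dvd
      (chainLevel_pos hN₀pos (fun j => (hcqaprime j).pos) i) (hNdvd i (hi rfl)))
  · -- `S_ram`
    intro ℓ hℓ hℓN₀ hℓp
    exact TOPR.hram_of_isOptimalLevel D ψ₀ hT hopt ℓ hℓ (hℓN₀.trans hN₀dvd) hℓp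
  · -- unramified outside
    intro ℓ hℓ hℓp hℓN₀
    refine hunrN ℓ hℓ hℓp (fun h => ?_)
    rcases (hdvdN ℓ hℓ).1 h with h | h
    · exact hℓN₀ h
    · exact hℓp h
  · -- `c`
    intro ℓ hℓp hℓtop
    have hℓN : ¬ (ℓ : ℕ) ∣ N := fun h => hℓtop (h.trans hNtop)
    exact hc ℓ hℓp hℓN (fun hd => hℓtop (hbad ℓ ℓ.2 hd))
  · -- `ρ̄` at the good primes
    intro ℓ hℓ hℓp hgood A hA σ hσ
    exact TOPR.charpoly_frob_rhobar D ψ₀ hℓ hℓp hgood A hA σ hσ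
  · exact RC.ρW_charpoly
  · -- the occurrence
    intro i _ hi1 hne
    have hi : i = (0 : Fin (m + 1)).succ := Fin.ext (by rw [hi1 rfl]; simp)
    subst hi
    haveI := hne
    have h1 : lvlMod 𝒪 p (chainLevel N₀ cqa (Fin.last (m + 1))) N c ≠ ⊥ :=
      lvlMod_ne_bot_of_dvd p c hNtop hoccN
    exact lvlMod_ne_bot_of_eq p _ c hlev1.symm h1

end Main

/-- **[PR-1]** from its three inputs. -/
theorem chainSettingStatement_of (hρ : RhoClausesStatement) (hocc : OccSetupStatement)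
    (h5 : NoLevelFiveStatement) : ChainSettingStatement := by
  intro p hpF hp W hΔ hss hirr N hopt hres
  classical
  have hyp : CurveHyp p W := ⟨hp, hΔ, hss, hirr⟩
  have hpp : p.Prime := hpF.out
  have hp2 : p ≠ 2 := by rcases hp with rfl | rfl <;> norm_num
  -- the normalised level
  obtain ⟨N', hopt', hres', hpiff, hw2⟩ := exists_normalised_level p hpp W hyp N hopt hres
  haveI : NeZero N' := ⟨hopt'.1.ne'⟩
  -- the representation of `W`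
  obtain ⟨D⟩ := rhoWStatement p hp2 W hΔ hss
  have hT : TateDict W p D := TATED.tateDictStatement p hp2 W hΔ hss D
  -- the coefficient ring and the occurrence
  obtain ⟨𝒪, i1, i2, i3, i4, i5, i6, ι, hι, hquad, h5N, hunrOut, c, hc, hoccN⟩ :=
    hocc p W hyp D hT N' hopt'.2.1 hres'
  letI := i1
  haveI := i2
  haveI := i3
  haveI := i4
  haveI := i5
  haveI := i6
  haveI := hι
  have RC : RhoClauses W p D ι := hρ p W hyp D hT ι
  by_cases hpΔ : (p : ℤ) ∣ W.Δ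
  · by_cases hpeu : IsPeuRamifieeAt (D.ρ.residual.baseChangeAlong (ResidueField.map ι)) p
    · -- the chain case
      refine nonempty_chainSetting_chain hyp D hT ι RC hquad N' hopt' (hpiff.2 hpΔ) hpΔ hw2 ?_ h5N
        hunrOut c hc hoccN hpeu
      intro hp5 hN5
      subst hp5
      rw [hN5] at hres'
      exact h5 W 5 hres'
    · -- the strict case
      exact nonempty_chainSetting_nonchain hyp D hT ι RC hquad N' hopt' hpiff hw2 h5N hunrOut c hc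
        hoccN PCase.strict (by decide) ⟨fun h => (by cases h), fun h => absurd hpΔ h⟩ (fun _ => hpeu)
  · -- the flat case
    exact nonempty_chainSetting_nonchain hyp D hT ι RC hquad N' hopt' hpiff hw2 h5N hunrOut c hc
      hoccN PCase.flat (by decide) ⟨fun _ => hpΔ, fun _ => rfl⟩ (fun h => by cases h)

end Fermat.Agent.ML.PR1
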