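/-
PROJECT ML (S59) — lead — [PR-1b]: **`RhoClausesStatement` from helper4's `PRR` lemmas**
(`ML/PROD_helper4_Rho.lean`), and the closed [PR-1] `chainSettingStatement`.
-/
import Mathlib
import Fermat.Agent.ML.PROD_lead_Main
import Fermat.Agent.ML.PROD_helper4_Rho
import Fermat.Agent.ML.PROD_helper1_Occ
import Fermat.Agent.ML.PROD_helper3_Five

set_option autoImplicit false

open Polynomial IsLocalRing

namespace Fermat.Agent.ML.PR1

/-- **[PR-1b]**: the clauses on `ρ_W`, `ρ̄`. -/
theorem rhoClausesStatement : RhoClausesStatement := by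
  intro p hpF W hyp D hT 𝒪 _ _ _ _ _ _ ι hι
  have hpp : p.Prime := hpF.out
  refine
    { ρW_charpoly := fun ℓ hℓ hℓp hgood A hA σ hσ =>
        PRR.rhoW_charpoly D ι hι hℓ hℓp hgood A hA σ hσ
      ρW_trace_residue := PRR.rhoW_trace_residue D ι hι
      ρW_absIrr := PRR.rhoW_residual_absIrr D ι hι hyp
      ρW_det := PRR.rhoW_det D ι hι
      ρW_unr := fun ℓ hℓ hℓp hgood => PRR.rhoW_unr D ι hι hℓ hℓp hgood
      ρW_unip := fun ℓ hℓ hℓp => PRR.rhoW_unip D ι hι hℓ hℓp
      ρW_flat := PRR.rhoW_flat D ι hι
      ρW_ord := PRR.rhoW_ord D ι hι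
      ρW_strict := PRR.rhoW_strict D ι hι
      primeData_bad := ?_
      primeData_p := ?_ }
  · intro q hq hqp hqΔ hu
    obtain ⟨s, hs, h⟩ := PRR.exists_sign_bad D ι hι hT hq hqp hqΔ
    have hunr : UnrArith W p q :=
      (TOPR.isUnramifiedAt_iff_unrArith D (PRR.psi0 ι hι) hT hq hqp).1 hu
    rcases PRR.kind_ns_or_sc D ι hι hT hq hqp hqΔ hunr with hk | hk
    · exact ⟨{ sgn := s, K := ChainKind.ns, prime := hq, kind := hk, sgn_sq := hs
               charpoly_frob := fun _ A hA φ hφ => (h A hA φ hφ).2
               ord_p := fun h' => absurd h' hqp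
               unipotent := fun _ => PRR.rhoW_unip D ι hι hq hqp
               frob := fun _ A hA φ hφ => (h A hA φ hφ).1 }⟩
    · exact ⟨{ sgn := s, K := ChainKind.sc, prime := hq, kind := hk, sgn_sq := hs
               charpoly_frob := fun _ A hA φ hφ => (h A hA φ hφ).2
               ord_p := fun h' => absurd h' hqp
               unipotent := fun _ => PRR.rhoW_unip D ι hι hq hqp
               frob := fun _ A hA φ hφ => (h A hA φ hφ).1 }⟩
  · intro hpΔ
    obtain ⟨s, hs, h⟩ := PRR.exists_sign_p D ι hι hT hpΔ
    rcases PRR.kind_pns_or_psp D ι hι with hk | hk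
    · exact ⟨{ sgn := s, K := ChainKind.pns, prime := hpp, kind := hk, sgn_sq := hs
               charpoly_frob := fun h' => absurd rfl h'
               ord_p := fun _ => h
               unipotent := fun h' => absurd rfl h'
               frob := fun h' => absurd rfl h' }⟩
    · exact ⟨{ sgn := s, K := ChainKind.psp, prime := hpp, kind := hk, sgn_sq := hs
               charpoly_frob := fun h' => absurd rfl h'
               ord_p := fun _ => h
               unipotent := fun h' => absurd rfl h'
               frob := fun h' => absurd rfl h' }⟩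

/-- **[PR-1]**: the arithmetic input of the producer exists ([PR-1c] = helper1's
`exists_occ_setup`, [PR-1d] = helper3's `not_isResModAway_five`). -/
theorem chainSettingStatement : ChainSettingStatement :=
  chainSettingStatement_of rhoClausesStatement
    (fun p _ W hyp D hT N _ hsqf hres => exists_occ_setup p W hyp D hT N hsqf hres)
    not_isResModAway_five

end Fermat.Agent.ML.PR1
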