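/-
PROJECT ML (S59) — package [TWMOD-LX] (owner helper2) — **INTERFACE: the module side of the
Taylor–Wiles construction for Ihara avoidance (IA′)**: ONE level `N`, TWO sides (`z = 1`: trivial
nebentypus at the primes of `Sig`;  `z = ζ`: nebentypus of order `p` at `Sig`), WITHOUT any Galois
representation.  It is RB's `TWModStatement` (`RB/IFACE_helper2_TWMod.lean`) in the datum-free
vocabulary of [TWMOD-L] (`ML/IFACE_helper2_TWModL.lean`), with the relaxed hypotheses of project ML: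

* `p ≠ 2` (RB: `5 ≤ p`); for `p = 3` the side condition (W2′): a prime `≡ 2 mod 3` divides `N`;
* `N` squarefree, `N ≠ 1` (RB: `2 ∣ N`); `p ∣ N` is allowed (RB: `p ∤ N`);
* no Hecke–Galois datum: the module of level zero is
  `lvlModP 𝒪 P N c` = the primary part of `Hom_par(Γ₀(N), 𝒪)` at the system `c`, conditions at the
  primes of an index family `P ⊇ {ℓ ∉ badSet p N}` (`P = primesOutside (badSet p N)` gives
  `lvlMod 𝒪 p N N c`; a larger `P` adds conditions `U_ℓ ≡ c ℓ` at primes of the level, e.g. the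
  `U_p`-ordinary localisation at `p ∥ N`), free of rank `d` over `𝒪`;
* `Sig` : a finite set of primes `v ∥ N`, `v ≡ 1 mod p`.

For a set `Q` of Taylor–Wiles primes of level `n` put `Nt = N * ∏ Q`, `M = ∏ Sig * ∏ Q`,
`Nbig = (N / ∏ Sig) * M ^ 2`, `Sbig = badSet p N ∪ Q`.  [TWMOD-LX] produces the two sides (free of
rank `d` over `𝒪[(ℤ/p^n)^r]`), their occurrence contracts `OccX` (= `OccL` + the two clauses at
`Sig`: `ψh(uS v) = z`, and `ψh(u) ∈ z^ℤ` for `u ≡ 1 mod Nt / v`), the common reduction `Hbar`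
modulo `lam`, and the control map of side 1 onto `lvlModP 𝒪 P N c`.

`TWModXStatement` is the theorem [TWMOD-LX] proves.
-/
import Mathlib
import Fermat.Agent.ML.IFACE_helper2_TWModL

set_option autoImplicit false
set_option linter.unusedSectionVars false
set_option linter.unusedVariables false

open Polynomial IsLocalRing CongruenceSubgroup ModularCurve.Period

namespace Fermat.Agent.ML

open Fermat.Agent.GR Fermat.Agent.LR Fermat.Agent.RB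

section

variable {𝒪 : Type} [CommRing 𝒪] [IsDomain 𝒪] [IsDiscreteValuationRing 𝒪]

/-- **the module of level zero for a general index family** `P` of localisation conditions. -/
noncomputable abbrev lvlModP (𝒪 : Type) [CommRing 𝒪] [IsDomain 𝒪] [IsDiscreteValuationRing 𝒪]
    (P : Set Nat.Primes) (N : ℕ) [NeZero N] (c : Nat.Primes → 𝒪) :
    Submodule 𝒪 ↥(parabolicHoms 𝒪 (Gamma0 N) 𝒪) :=
  TWM.primaryPart (fun ℓ : P => heckeParP N (ℓ : Nat.Primes) 𝒪 𝒪) (fun ℓ : P => c ℓ)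

/-- **the occurrence contract of one side** (RB's `TWModSide.Occ` with the residual scalars given
by the system `c`).  `z = 1` on side 1, `z = ζ` on side 2. -/
structure OccX {p r d n : ℕ} (X : TWModSide 𝒪 p r d n) (lam z : 𝒪) (c : Nat.Primes → 𝒪)
    (Sig : Finset ℕ) (Nt Nbig : ℕ) [NeZero Nt] [NeZero Nbig] (Sbig : Set ℕ)
    (uQ : Fin r → (ZMod Nt)ˣ) (uS : ℕ → (ZMod Nt)ˣ) : Prop where
  /-- (SS) -/
  reduced : ∀ t : X.alg, t ^ 2 = 0 → t = 0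
  /-- the operators at the primes of `Sbig` are junk (zero) -/
  junk : ∀ ℓ : Nat.Primes, (ℓ : ℕ) ∈ Sbig → X.Tt ℓ = 0
  /-- the twisted Hecke operators at the primes outside `Sbig` are residually `c ℓ` -/
  residual : ∀ ℓ : Nat.Primes, (ℓ : ℕ) ∉ Sbig → ∃ k : ℕ, ∀ h : X.H, ∃ h' : X.H,
    ((X.Tt ℓ - algebraMap 𝒪 (Module.End 𝒪 X.H) (c ℓ)) ^ k) h = lam • h'
  /-- (OCC-a) and (OCC-b) -/
  occ : ∀ (B : Type) [CommRing B] [IsDomain B] [IsDiscreteValuationRing B] [Algebra 𝒪 B]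
    [Module.Finite 𝒪 B] (x : X.alg →ₐ[𝒪] B),
    (∃ χ : CuspForm.heckeAlgebra Nbig 2 Sbig →+* B,
      ∀ (ℓ : ℕ) (hℓ : ℓ.Prime) (hℓN : ¬ ℓ ∣ Nbig) (hℓS : ℓ ∉ Sbig),
        χ (CuspForm.heckeAlgebra.T hℓ hℓN hℓS) = x (X.TtA ⟨ℓ, hℓ⟩)) ∧
    ∀ (F : Type) [Field F] [IsAlgClosed F] [Algebra B F],
      Function.Injective (algebraMap B F) →
      ∃ (a : Fermat.Agent.W1.HIdx Nt → F) (ψh : (ZMod Nt)ˣ →* Fˣ),
        Fermat.Agent.W1.eigenPar Nt F a ≠ ⊥ ∧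
        (∃ k : ℕ, ∀ u, ψh u ^ (p ^ k) = 1) ∧
        (∀ u : (ZMod Nt)ˣ, a (Sum.inr u) = ((ψh u : Fˣ) : F) ^ 2) ∧
        (∀ (ℓ : ℕ) (hℓ : ℓ.Prime) (hℓN : ¬ ℓ ∣ Nt), ℓ ∉ Sbig →
          a (Sum.inl ⟨ℓ, hℓ⟩) =
            ((ψh (Fermat.Agent.DS48.primeUnit Nt hℓ hℓN) : Fˣ) : F) *
              algebraMap B F (x (X.TtA ⟨ℓ, hℓ⟩))) ∧
        (∀ q : Fin r, algebraMap B F (x (X.gA q)) = ((ψh (uQ q) : Fˣ) : F)) ∧
        (∀ v ∈ Sig, ((ψh (uS v) : Fˣ) : F) = algebraMap B F (algebraMap 𝒪 B z) ∧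
          ∀ u : (ZMod Nt)ˣ, (((u : ZMod Nt).val : ℕ) : ZMod (Nt / v)) = 1 →
            ∃ j : ℕ, ((ψh u : Fˣ) : F) = algebraMap B F (algebraMap 𝒪 B z) ^ j)

/-- the contract of a side of [TWMOD-LX] contains the contract `OccL` of [TWMOD-L]. -/
theorem OccX.toOccL {p r d n : ℕ} {X : TWModSide 𝒪 p r d n} {lam z : 𝒪} {c : Nat.Primes → 𝒪}
    {Sig : Finset ℕ} {Nt Nbig : ℕ} [NeZero Nt] [NeZero Nbig] {Sbig : Set ℕ}
    {uQ : Fin r → (ZMod Nt)ˣ} {uS : ℕ → (ZMod Nt)ˣ}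
    (h : OccX X lam z c Sig Nt Nbig Sbig uQ uS) : OccL X lam c Nt Nbig Sbig Sbig uQ where
  reduced := h.reduced
  junk := h.junk
  residual := h.residual
  occ := by
    intro B _ _ _ _ _ x
    obtain ⟨h1, h2⟩ := h.occ B x
    refine ⟨h1, fun F _ _ _ hBF => ?_⟩
    obtain ⟨a, ψh, ha1, ha2, ha3, ha4, ha5, -⟩ := h2 F hBF
    exact ⟨a, ψh, ha1, ha2, ha3, ha4, ha5⟩

/-- **the module data of the Taylor–Wiles construction at `(n, Q)`, two sides** (RB's `TWModLevel`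
without the Hecke–Galois datum). -/
structure TWModLevelX (p : ℕ) (lam ζ : 𝒪) (c : Nat.Primes → 𝒪) (P : Set Nat.Primes)
    (Sig : Finset ℕ) (r d n : ℕ) (Q : Fin r → ℕ) (N Nt Nbig : ℕ) [NeZero N] [NeZero Nt]
    [NeZero Nbig] : Type 1 where
  side₁ : TWModSide 𝒪 p r d n
  side₂ : TWModSide 𝒪 p r d n
  /-- `uQ q ≡ 1 mod Nt / Q q`: the class through which inertia at `Q q` is read -/
  uQ : Fin r → (ZMod Nt)ˣ
  uQ_spec : ∀ q, ((((uQ q : (ZMod Nt)ˣ) : ZMod Nt).val : ℕ) : ZMod (Nt / Q q)) = 1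
  /-- `uS v ≡ 1 mod Nt / v` -/
  uS : ℕ → (ZMod Nt)ˣ
  uS_spec : ∀ v ∈ Sig, ((((uS v : (ZMod Nt)ˣ) : ZMod Nt).val : ℕ) : ZMod (Nt / v)) = 1
  occ₁ : OccX side₁ lam 1 c Sig Nt Nbig (badSet p N ∪ Set.range Q) uQ uS
  occ₂ : OccX side₂ lam ζ c Sig Nt Nbig (badSet p N ∪ Set.range Q) uQ uS
  /-- the common reduction modulo `lam` -/
  Hbar : Type
  [instAddCommGroupBar : AddCommGroup Hbar]
  [instModuleBar : Module 𝒪 Hbar]
  gbar : Fin r → Module.End 𝒪 Hbar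
  Ttbar : Nat.Primes → Module.End 𝒪 Hbar
  red₁ : side₁.H →ₗ[𝒪] Hbar
  red₂ : side₂.H →ₗ[𝒪] Hbar
  red₁_surjective : Function.Surjective red₁
  red₂_surjective : Function.Surjective red₂
  ker_red₁ : ∀ x, red₁ x = 0 ↔ ∃ y, x = lam • y
  ker_red₂ : ∀ x, red₂ x = 0 ↔ ∃ y, x = lam • y
  red₁_g : ∀ q x, red₁ (side₁.g q x) = gbar q (red₁ x)
  red₂_g : ∀ q x, red₂ (side₂.g q x) = gbar q (red₂ x)
  red₁_Tt : ∀ ℓ x, red₁ (side₁.Tt ℓ x) = Ttbar ℓ (red₁ x)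
  red₂_Tt : ∀ ℓ x, red₂ (side₂.Tt ℓ x) = Ttbar ℓ (red₂ x)
  /-- control -/
  ctl : side₁.H →ₗ[𝒪] ↥(lvlModP 𝒪 P N c)
  ctl_surjective : Function.Surjective ctl
  ker_ctl : ∀ x, ctl x = 0 ↔ x ∈ ⨆ q, LinearMap.range (side₁.g q - 1)
  ctl_Tt : ∀ ℓ : Nat.Primes, (ℓ : ℕ) ∉ badSet p N ∪ Set.range Q → ∀ x : side₁.H,
    ((ctl (side₁.Tt ℓ x) : ↥(lvlModP 𝒪 P N c)) : ↥(parabolicHoms 𝒪 (Gamma0 N) 𝒪)) =
      heckeParP N ℓ 𝒪 𝒪 ((ctl x : ↥(lvlModP 𝒪 P N c)) : ↥(parabolicHoms 𝒪 (Gamma0 N) 𝒪))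

/-- **[TWMOD-LX]** (owner helper2): the module side of the Taylor–Wiles construction for Ihara
avoidance.  The Taylor–Wiles primes enter only through: `Q j` prime, `∉ badSet p N`,
`≡ 1 mod p ^ n`, `≡ 1 mod p`, and `X² - c_{Q j} X + Q j` has two DISTINCT roots in the residue
field. -/
def TWModXStatement : Prop :=
  ∀ {𝒪 : Type} [CommRing 𝒪] [IsDomain 𝒪] [IsDiscreteValuationRing 𝒪]
    [IsAdicComplete (maximalIdeal 𝒪) 𝒪] [Finite (ResidueField 𝒪)] [CharZero 𝒪]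
    (p : ℕ) [Fact p.Prime] (_ : p ≠ 2) (_ : (p : 𝒪) ∈ maximalIdeal 𝒪)
    (ζ : 𝒪) (_ : IsPrimitiveRoot ζ p) (lam : 𝒪) (_ : Irreducible lam)
    (N : ℕ) [NeZero N] (_ : Squarefree N) (_ : N ≠ 1)
    (P : Set Nat.Primes) (_ : primesOutside (badSet p N) ⊆ P)
    (c : Nat.Primes → 𝒪)
    -- non-Eisenstein
    (_ : ∀ (D : ℕ), 0 < D → ∀ Bad : Finset ℕ, ∃ ℓ : Nat.Primes,
      (ℓ : ℕ) ∉ badSet p N ∧ (ℓ : ℕ) ∉ Bad ∧ (ℓ : ℕ) ≡ 1 [MOD D] ∧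
        c ℓ - ((ℓ : ℕ) + 1 : 𝒪) ∉ maximalIdeal 𝒪)
    -- (W2′)
    (_ : p = 3 → ∃ r₀ : ℕ, r₀.Prime ∧ r₀ ∣ N ∧ r₀ % 3 = 2)
    (Sig : Finset ℕ) (_ : ∀ v ∈ Sig, v.Prime ∧ v ∣ N ∧ v ≡ 1 [MOD p]),
    ∃ d : ℕ,
      (Module.Free 𝒪 ↥(lvlModP 𝒪 P N c) ∧ Module.Finite 𝒪 ↥(lvlModP 𝒪 P N c) ∧
        Module.finrank 𝒪 ↥(lvlModP 𝒪 P N c) = d) ∧
      ∀ (r n : ℕ) (Q : Fin r → ℕ), Function.Injective Q → (∀ k, (Q k).Prime) →
        (∀ k, Q k ∉ badSet p N) → (∀ k, p ^ n ∣ Q k - 1) → (∀ k, p ∣ Q k - 1) →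
        (∀ k (hq : (Q k).Prime), ∃ α β : ResidueField 𝒪, α ≠ β ∧
          α + β = residue 𝒪 (c ⟨Q k, hq⟩) ∧ α * β = (Q k : ResidueField 𝒪)) →
        ∀ (Nt Nbig : ℕ) [NeZero Nt] [NeZero Nbig], Nt = N * ∏ k, Q k →
          Nbig = N / (∏ v ∈ Sig, v) * ((∏ v ∈ Sig, v) * ∏ k, Q k) ^ 2 →
          Nonempty (TWModLevelX p lam ζ c P Sig r d n Q N Nt Nbig)

end

end Fermat.Agent.ML
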