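/-
PROJECT ML (S59) — package [IA-PEU-ADAPTER] (helper7), part (P2): **`θ` does not occur at level
`N / p`  ⇒  the module of level zero of level `N / p` vanishes.**

`lvlModP_eq_bot_of_notAtLevelDivP`: `N = N₀ * p`, `S` = the primes of `N` and `p`, `c` a lift of
the values of `θ` at the `T_ℓ`, `ℓ ∉ S`; if `θ` does not occur at level `N₀`
(`NotAtLevelDivP θ p`, `ML/IFACE_helper9_IA.lean`) then `lvlModP 𝒪 P₀ N₀ c = ⊥` for every index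
family `P₀ ⊇ primesOutside (badSet p N)` — the input `∀ x ∈ lvlModP 𝒪 P M₀ c, x = 0` of helper2's
`TWModXPeuStatement` (`ML/IFACE_helper2_TWModXPeu.lean`).

Proof: otherwise `M0 = RB.L0.M0 N₀ S c ≠ 0`, its Hecke algebra `𝕋₀ = (RB.L0.fam N₀ S c).alg` is a
finite flat reduced local `𝒪`-algebra with residue field `k`, hence has a point
`x : 𝕋₀ → B` (`B` a DVR finite over `𝒪`) lying over the reduction; by `OCC.exists_character_of_point`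
the point is a character `χ` of `heckeAlgebra N₀ 2 S` with `χ(T_ℓ) = x(T_ℓ)`, whose reduction has
the values `θ(T_ℓ)` and descends to `k` (`REPT.exists_heckeAlgebra_factor`): contradiction.
-/
import Mathlib
import Fermat.Agent.RB.LEVEL0_helper3_Main
import Fermat.Agent.ML.IFACE_helper9_IA
import Fermat.Agent.ML.IFACE_helper2_TWModX

set_option autoImplicit false
set_option linter.unusedSectionVars false
set_option linter.unusedVariables false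
set_option linter.style.haveILetI false
set_option maxSynthPendingDepth 2

namespace Fermat.Agent.ML.IAPEU

open CongruenceSubgroup ModularCurve.Period IsLocalRing CuspForm
  Fermat.Agent.GR Fermat.Agent.LR Fermat.Agent.RB Fermat.Agent.RB.REPT Fermat.Agent.RB.L0
open scoped MatrixGroups

section

variable {𝒪 : Type} [CommRing 𝒪] [IsDomain 𝒪] [IsDiscreteValuationRing 𝒪]

/-- more conditions, smaller primary part. -/
theorem lvlModP_anti (P P' : Set Nat.Primes) (h : P ⊆ P') (N : ℕ) [NeZero N]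
    (c : Nat.Primes → 𝒪) : lvlModP 𝒪 P' N c ≤ lvlModP 𝒪 P N c := by
  intro x hx i n
  exact hx ⟨(i : Nat.Primes), h i.2⟩ n

end

section

variable {𝒪 : Type} [CommRing 𝒪] [IsDomain 𝒪] [IsDiscreteValuationRing 𝒪]
  [IsAdicComplete (maximalIdeal 𝒪) 𝒪] [Finite (ResidueField 𝒪)] [CharZero 𝒪]

/-- **a non-zero module of level zero gives a character of the Hecke algebra with the residual
values `c`**: `N₀` any level, `S ⊇` the primes of `N₀`. -/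
theorem exists_character_of_M0_nontrivial (N₀ : ℕ) [NeZero N₀] (S : Set ℕ)
    (hNS : ∀ q : ℕ, q.Prime → q ∣ N₀ → q ∈ S) (c : Nat.Primes → 𝒪)
    [Nontrivial ↥(M0 N₀ S c)] :
    ∃ χ : heckeAlgebra N₀ 2 S →+* ResidueField 𝒪,
      ∀ (ℓ : ℕ) (hℓ : ℓ.Prime) (hℓN : ¬ ℓ ∣ N₀) (hℓS : ℓ ∉ S),
        χ (heckeAlgebra.T hℓ hℓN hℓS) = residue 𝒪 (c ⟨ℓ, hℓ⟩) := by
  classical
  have hSN : ∀ ℓ : Nat.Primes, (ℓ : ℕ) ∉ S → ¬ (ℓ : ℕ) ∣ N₀ :=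
    fun ℓ h hd => h (hNS ℓ ℓ.2 hd)
  haveI : IsLocalRing (fam N₀ S c).alg := fam_isLocalRing N₀ S c
  haveI : IsLocalHom (algebraMap 𝒪 (fam N₀ S c).alg) := fam_isLocalHom N₀ S c
  haveI : Module.Finite 𝒪 (fam N₀ S c).alg := (fam N₀ S c).finite_alg
  haveI : Module.Flat 𝒪 (fam N₀ S c).alg := (fam N₀ S c).flat_alg
  haveI : IsReduced (fam N₀ S c).alg := fam_isReduced N₀ S c hSN
  have hsurj : Function.Surjective (residue (fam N₀ S c).alg ∘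
      algebraMap 𝒪 (fam N₀ S c).alg) := fam_residue_surjective N₀ S c
  obtain ⟨Θ, hΘres, hΘker⟩ := exists_theta_of_residue_surjective (𝒪 := 𝒪)
    (A := (fam N₀ S c).alg) hsurj
  obtain ⟨J, hJ, ⟨j⟩, pt, hle, -⟩ := exists_points_family_injective Θ hΘker
  -- the point is a character
  obtain ⟨χ, hχ⟩ : ∃ χ : heckeAlgebra N₀ 2 S →+* (pt j).B,
      ∀ (ℓ : ℕ) (hℓ : ℓ.Prime) (hℓN : ¬ ℓ ∣ N₀) (hℓS : ℓ ∉ S),
        χ (heckeAlgebra.T hℓ hℓN hℓS) = (pt j).ψ (genP N₀ S c ⟨ℓ, hℓ⟩) := by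
    haveI : Algebra.IsIntegral 𝒪 (fam N₀ S c).alg :=
      Algebra.IsIntegral.of_finite 𝒪 (fam N₀ S c).alg
    refine OCC.exists_character_of_point S hNS
      ((parabolicHoms 𝒪 (Gamma0 N₀) 𝒪).subtype ∘ₗ (M0 N₀ S c).subtype) ?_
      (fun h => h.1.2) (fam N₀ S c).alg.val Subtype.val_injective
      (genP N₀ S c) ?_ (pt j).ψ
    · exact (Subtype.val_injective).comp Subtype.val_injective
    · intro ℓ hℓS h
      show ((((genP N₀ S c ℓ : (fam N₀ S c).alg) :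
        Module.End 𝒪 ↥(M0 N₀ S c)) h : ↥(M0 N₀ S c)) :
          ↥(parabolicHoms 𝒪 (Gamma0 N₀) 𝒪)).1 = _
      rw [coe_genP N₀ S c ℓ hℓS]
      rfl
  -- its reduction
  have hΘgen : ∀ (ℓ : Nat.Primes), (ℓ : ℕ) ∉ S → Θ (genP N₀ S c ℓ) = residue 𝒪 (c ℓ) := by
    intro ℓ hℓS
    apply (ResidueField.map (algebraMap 𝒪 (fam N₀ S c).alg)).injective
    exact (hΘres (genP N₀ S c ℓ)).trans (fam_residue_genP N₀ S c ℓ hℓS)
  have hres : ∀ (ℓ : ℕ) (hℓ : ℓ.Prime) (hℓN : ¬ ℓ ∣ N₀) (hℓS : ℓ ∉ S),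
      ((residue (pt j).B).comp χ) (heckeAlgebra.T hℓ hℓN hℓS) =
        ResidueField.map (algebraMap 𝒪 (pt j).B) (residue 𝒪 (c ⟨ℓ, hℓ⟩)) := by
    intro ℓ hℓ hℓN hℓS
    have h1 : residue (pt j).B ((pt j).ψ (genP N₀ S c ⟨ℓ, hℓ⟩)) =
        ResidueField.map (algebraMap 𝒪 (pt j).B) (Θ (genP N₀ S c ⟨ℓ, hℓ⟩)) :=
      (pt j).residue_ψ Θ (hle j) (genP N₀ S c ⟨ℓ, hℓ⟩)
    exact ((congrArg (residue (pt j).B) (hχ ℓ hℓ hℓN hℓS)).trans h1).trans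
      (congrArg (ResidueField.map (algebraMap 𝒪 (pt j).B)) (hΘgen ⟨ℓ, hℓ⟩ hℓS))
  obtain ⟨χ₀, hχ₀⟩ := exists_heckeAlgebra_factor hNS
    (ResidueField.map (algebraMap 𝒪 (pt j).B)) ((residue (pt j).B).comp χ)
    (fun ℓ hℓ hℓN hℓS => ⟨residue 𝒪 (c ⟨ℓ, hℓ⟩), (hres ℓ hℓ hℓN hℓS).symm⟩)
  refine ⟨χ₀, fun ℓ hℓ hℓN hℓS => ?_⟩
  apply (ResidueField.map (algebraMap 𝒪 (pt j).B)).injective
  exact (hχ₀ _).trans (hres ℓ hℓ hℓN hℓS)

/-- **(P2) of [IA-PEU-ADAPTER]**: if `θ` does not occur at level `N₀ = N / p`, the module of level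
zero of level `N₀` at a lift `c` of the values of `θ` vanishes. -/
theorem lvlModP_eq_bot_of_notAtLevelDivP (p : ℕ) (N N₀ : ℕ) [NeZero N] [NeZero N₀]
    (hN : N = N₀ * p) (S : Finset ℕ) (hS : ∀ ℓ : ℕ, ℓ ∈ S ↔ ℓ.Prime ∧ (ℓ = p ∨ ℓ ∣ N))
    (θ : heckeAlgebra N 2 (S : Set ℕ) →+* ResidueField 𝒪) (c : Nat.Primes → 𝒪)
    (hc : ∀ (ℓ : ℕ) (hℓ : ℓ.Prime) (hℓN : ¬ ℓ ∣ N) (hℓS : ℓ ∉ (S : Set ℕ)),
      residue 𝒪 (c ⟨ℓ, hℓ⟩) = θ (heckeAlgebra.T hℓ hℓN hℓS))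
    (hnot : NotAtLevelDivP θ p)
    (P₀ : Set Nat.Primes) (hP₀ : primesOutside (badSet p N) ⊆ P₀) :
    lvlModP 𝒪 P₀ N₀ c = ⊥ := by
  have hSbad : (S : Set ℕ) = badSet p N := Set.ext fun ℓ => by
    rw [Finset.mem_coe, hS ℓ]
    rfl
  have hNS : ∀ q : ℕ, q.Prime → q ∣ N₀ → q ∈ (S : Set ℕ) := fun q hq hqN => by
    rw [Finset.mem_coe, hS q]
    exact ⟨hq, Or.inr (hN ▸ hqN.mul_right p)⟩
  have hSN : ∀ ℓ : ℕ, ℓ.Prime → ℓ ∉ (S : Set ℕ) → ¬ ℓ ∣ N := fun ℓ hℓ hℓS hd =>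
    hℓS (by rw [Finset.mem_coe, hS ℓ]; exact ⟨hℓ, Or.inr hd⟩)
  rw [eq_bot_iff]
  refine (lvlModP_anti _ _ (hSbad ▸ hP₀) N₀ c).trans ?_
  show M0 N₀ (S : Set ℕ) c ≤ ⊥
  rw [← eq_bot_iff]
  by_contra hne
  haveI : Nontrivial ↥(M0 N₀ (S : Set ℕ) c) := Submodule.nontrivial_iff_ne_bot.2 hne
  obtain ⟨χ, hχ⟩ := exists_character_of_M0_nontrivial N₀ (S : Set ℕ) hNS c
  obtain ⟨ℓ, hℓ, hℓN, hℓS, hne'⟩ := hnot N₀ hN χ
  exact hne' ((hχ ℓ hℓ _ hℓS).trans (hc ℓ hℓ hℓN hℓS))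

end

end Fermat.Agent.ML.IAPEU
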