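/-
PROJECT ML (S59) — [REPT-X] (helper1), file 1: **elementary number theory of the Taylor–Wiles levels
of IA′**: `Nt = N * ∏ Q`, `Nbig = N / ∏ Σ * (∏ Σ * ∏ Q) ^ 2`, `Sbig = S ∪ Q`, for every odd `p`,
`p ∣ N` allowed, no `2 ∣ N` (port of `RB/REPT_helper1_TWNum`).
-/
import Mathlib

set_option autoImplicit false
set_option linter.unusedSectionVars false
set_option linter.unusedVariables false

namespace Fermat.Agent.ML.REPTX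

/-- the standing hypotheses on `(N, p, S, Σ, Q)`. -/
structure NumSetup (N p : ℕ) (S Sig : Finset ℕ) {r : ℕ} (Q : Fin r → ℕ) : Prop where
  sqN : Squarefree N
  N5 : 5 ≤ N
  pprime : p.Prime
  p2 : p ≠ 2
  hS : ∀ ℓ : ℕ, ℓ ∈ S ↔ ℓ.Prime ∧ (ℓ = p ∨ ℓ ∣ N)
  hSig : ∀ v ∈ Sig, v.Prime ∧ v ∣ N ∧ v ≠ 2 ∧ v ≠ p
  Qinj : Function.Injective Q
  Qprime : ∀ j, (Q j).Prime
  QS : ∀ j, Q j ∉ S
  Q1 : ∀ j, p ∣ Q j - 1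

namespace NumSetup

variable {N p : ℕ} {S Sig : Finset ℕ} {r : ℕ} {Q : Fin r → ℕ} (h : NumSetup N p S Sig Q)

include h

theorem N_ne_zero : N ≠ 0 := by have := h.N5; omega

theorem N_pos : 0 < N := Nat.pos_of_ne_zero h.N_ne_zero

theorem p_mem : p ∈ S := (h.hS p).2 ⟨h.pprime, Or.inl rfl⟩

theorem not_dvd_of_notMem {ℓ : ℕ} (hℓ : ℓ.Prime) (hℓS : ℓ ∉ S) : ¬ ℓ ∣ N :=
  fun hd => hℓS ((h.hS ℓ).2 ⟨hℓ, Or.inr hd⟩)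

theorem Q_not_dvd (j : Fin r) : ¬ Q j ∣ N := h.not_dvd_of_notMem (h.Qprime j) (h.QS j)

theorem Q_ne_p (j : Fin r) : Q j ≠ p := fun e => h.QS j (e ▸ h.p_mem)

theorem three_le_p : 3 ≤ p := by
  have h2 := h.pprime.two_le
  have := h.p2
  omega

theorem four_le_Q (j : Fin r) : 4 ≤ Q j := by
  have h2 := (h.Qprime j).two_le
  have h3 := h.three_le_p
  have h4 : 0 < Q j - 1 := by omega
  have := Nat.le_of_dvd h4 (h.Q1 j)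
  omega

theorem Q_ne_two (j : Fin r) : Q j ≠ 2 := by
  have := h.four_le_Q j
  omega

theorem prodQ_pos : 0 < ∏ j, Q j := Finset.prod_pos fun j _ => (h.Qprime j).pos

theorem prodSig_pos : 0 < ∏ v ∈ Sig, v := Finset.prod_pos fun v hv => (h.hSig v hv).1.pos

theorem prodSig_dvd : ∏ v ∈ Sig, v ∣ N :=
  Finset.prod_primes_dvd N (fun v hv => (h.hSig v hv).1.prime) fun v hv => (h.hSig v hv).2.1

theorem mem_Sig_of_dvd_prodSig {ℓ : ℕ} (hℓ : ℓ.Prime) (hd : ℓ ∣ ∏ v ∈ Sig, v) : ℓ ∈ Sig := by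
  obtain ⟨v, hv, hdv⟩ := (Prime.dvd_finsetProd_iff hℓ.prime _).1 hd
  rwa [(Nat.prime_dvd_prime_iff_eq hℓ (h.hSig v hv).1).1 hdv]

theorem exists_eq_Q_of_dvd_prodQ {ℓ : ℕ} (hℓ : ℓ.Prime) (hd : ℓ ∣ ∏ j, Q j) : ∃ j, ℓ = Q j := by
  obtain ⟨j, -, hdv⟩ := (Prime.dvd_finsetProd_iff hℓ.prime _).1 hd
  exact ⟨j, (Nat.prime_dvd_prime_iff_eq hℓ (h.Qprime j)).1 hdv⟩

theorem coprime_N_prodQ : Nat.Coprime N (∏ j, Q j) :=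
  Nat.Coprime.prod_right fun j _ =>
    (Nat.Coprime.symm ((Nat.Prime.coprime_iff_not_dvd (h.Qprime j)).2 (h.Q_not_dvd j)))

theorem squarefree_prodQ : Squarefree (∏ j, Q j) := by
  refine Finset.squarefree_prod_of_pairwise_isCoprime (fun i _ j _ hij => ?_)
    fun j _ => (h.Qprime j).prime.squarefree
  show IsRelPrime (Q i) (Q j)
  rw [← Nat.coprime_iff_isRelPrime]
  exact (Nat.coprime_primes (h.Qprime i) (h.Qprime j)).2 fun e => hij (h.Qinj e)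

theorem squarefree_Nt : Squarefree (N * ∏ j, Q j) :=
  Nat.squarefree_mul_iff.2 ⟨h.coprime_N_prodQ, h.sqN, h.squarefree_prodQ⟩

theorem not_sq_dvd_Nt {ℓ : ℕ} (hℓ : ℓ.Prime) : ¬ ℓ ^ 2 ∣ N * ∏ j, Q j := fun hd => by
  have := h.squarefree_Nt ℓ (by rwa [← sq])
  exact hℓ.one_lt.ne' (Nat.isUnit_iff.1 this)

theorem Nt_pos : 0 < N * ∏ j, Q j := Nat.mul_pos h.N_pos h.prodQ_pos

theorem N_le_Nt : N ≤ N * ∏ j, Q j := Nat.le_mul_of_pos_right _ h.prodQ_pos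

theorem Q_dvd_Nt (j : Fin r) : Q j ∣ N * ∏ j, Q j :=
  Dvd.dvd.mul_left (Finset.dvd_prod_of_mem Q (Finset.mem_univ j)) _

theorem five_le_Nt : 5 ≤ N * ∏ j, Q j := le_trans h.N5 h.N_le_Nt

theorem five_le_Nt_div_Q (j : Fin r) : 5 ≤ N * (∏ j, Q j) / Q j := by
  obtain ⟨c, hc⟩ := Finset.dvd_prod_of_mem Q (Finset.mem_univ j)
  have hQpos := (h.Qprime j).pos
  have hcpos : 0 < c := by
    rcases Nat.eq_zero_or_pos c with e | e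
    · have := h.prodQ_pos; rw [hc, e, mul_zero] at this; exact absurd this (lt_irrefl _)
    · exact e
  have e : N * (∏ j, Q j) / Q j = N * c := by
    rw [hc, mul_comm (Q j) c, ← mul_assoc, Nat.mul_div_cancel _ hQpos]
  rw [e]
  have := h.N5
  nlinarith

theorem v_dvd_Nt {v : ℕ} (hv : v ∈ Sig) : v ∣ N * ∏ j, Q j :=
  Dvd.dvd.mul_right (h.hSig v hv).2.1 _

theorem v_ne_p {v : ℕ} (hv : v ∈ Sig) : v ≠ p := (h.hSig v hv).2.2.2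

theorem p_notMem_Sig : p ∉ Sig := fun hp => h.v_ne_p hp rfl

theorem five_le_Nt_div_v {v : ℕ} (hv : v ∈ Sig) (hr : 0 < r) : 5 ≤ N * (∏ j, Q j) / v := by
  obtain ⟨hvp, ⟨c, hc⟩, hv2, -⟩ := h.hSig v hv
  have hvpos := hvp.pos
  have e : N * (∏ j, Q j) / v = c * ∏ j, Q j := by
    rw [hc, mul_assoc, Nat.mul_div_cancel_left _ hvpos]
  rw [e]
  have hcpos : 0 < c := by
    rcases Nat.eq_zero_or_pos c with e0 | e0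
    · exact absurd (by rw [hc, e0, mul_zero]) h.N_ne_zero
    · exact e0
  have hQ4 : 5 ≤ ∏ j, Q j := by
    have h1 : Q ⟨0, hr⟩ ∣ ∏ j, Q j := Finset.dvd_prod_of_mem Q (Finset.mem_univ _)
    have h4 := h.four_le_Q ⟨0, hr⟩
    have h5 : Q ⟨0, hr⟩ ≠ 4 := fun e4 => by
      have := h.Qprime ⟨0, hr⟩
      rw [e4] at this
      exact absurd this (by decide)
    exact le_trans (by omega) (Nat.le_of_dvd h.prodQ_pos h1)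
  nlinarith

/-! ### the big level -/

theorem Nbig_pos :
    0 < N / (∏ v ∈ Sig, v) * ((∏ v ∈ Sig, v) * ∏ j, Q j) ^ 2 := by
  refine Nat.mul_pos (Nat.div_pos (Nat.le_of_dvd h.N_pos h.prodSig_dvd) h.prodSig_pos) ?_
  exact pow_pos (Nat.mul_pos h.prodSig_pos h.prodQ_pos) 2

theorem not_sbig_iff {ℓ : ℕ} : ℓ ∉ S ∪ Finset.univ.image Q ↔ ℓ ∉ S ∧ ∀ j, ℓ ≠ Q j := by
  rw [Finset.mem_union, not_or]
  refine and_congr Iff.rfl ?_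
  rw [Finset.mem_image]
  constructor
  · intro h1 j e; exact h1 ⟨j, Finset.mem_univ j, e.symm⟩
  · rintro h1 ⟨j, -, e⟩; exact h1 j e.symm

theorem sbig_N {ℓ : ℕ} (hℓ : ℓ.Prime) (hℓS : ℓ ∉ S ∪ Finset.univ.image Q) :
    ¬ ℓ ∣ N ∧ ℓ ∉ (S : Set ℕ) := by
  have h1 := (h.not_sbig_iff.1 hℓS).1
  exact ⟨h.not_dvd_of_notMem hℓ h1, fun h2 => h1 (Finset.mem_coe.1 h2)⟩

theorem sbig_Nt {ℓ : ℕ} (hℓ : ℓ.Prime) (hℓS : ℓ ∉ S ∪ Finset.univ.image Q) :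
    ¬ ℓ ∣ N * ∏ j, Q j ∧ ℓ ≠ p := by
  obtain ⟨h1, h2⟩ := h.not_sbig_iff.1 hℓS
  refine ⟨fun hd => ?_, fun e => h1 (e ▸ h.p_mem)⟩
  rcases (Nat.Prime.dvd_mul hℓ).1 hd with h3 | h3
  · exact h.not_dvd_of_notMem hℓ h1 h3
  · obtain ⟨j, hj⟩ := h.exists_eq_Q_of_dvd_prodQ hℓ h3
    exact h2 j hj

theorem p_mem_sbig : p ∈ S ∪ Finset.univ.image Q := Finset.mem_union_left _ h.p_mem

theorem mem_sbig_of_dvd_Nt {ℓ : ℕ} (hℓ : ℓ.Prime) (hd : ℓ ∣ N * ∏ j, Q j) :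
    ℓ ∈ S ∪ Finset.univ.image Q := by
  by_contra hn
  exact (h.sbig_Nt hℓ hn).1 hd

theorem dvd_Nbig_cases {ℓ : ℕ} (hℓ : ℓ.Prime)
    (hd : ℓ ∣ N / (∏ v ∈ Sig, v) * ((∏ v ∈ Sig, v) * ∏ j, Q j) ^ 2) :
    ℓ ∣ N ∨ ∃ j, ℓ = Q j := by
  rcases (Nat.Prime.dvd_mul hℓ).1 hd with h1 | h1
  · exact Or.inl (h1.trans (Nat.div_dvd_of_dvd h.prodSig_dvd))
  · have h2 := hℓ.dvd_of_dvd_pow h1
    rcases (Nat.Prime.dvd_mul hℓ).1 h2 with h3 | h3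
    · exact Or.inl (h3.trans h.prodSig_dvd)
    · exact Or.inr (h.exists_eq_Q_of_dvd_prodQ hℓ h3)

theorem mem_sbig_of_dvd_Nbig {ℓ : ℕ} (hℓ : ℓ.Prime)
    (hd : ℓ ∣ N / (∏ v ∈ Sig, v) * ((∏ v ∈ Sig, v) * ∏ j, Q j) ^ 2) :
    ℓ ∈ S ∪ Finset.univ.image Q := by
  rcases h.dvd_Nbig_cases hℓ hd with h1 | ⟨j, hj⟩
  · exact Finset.mem_union_left _ ((h.hS ℓ).2 ⟨hℓ, Or.inr h1⟩)
  · exact Finset.mem_union_right _ (Finset.mem_image.2 ⟨j, Finset.mem_univ j, hj.symm⟩)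

/-- a prime of `N`, not in `Σ`, divides `Nbig` exactly once. -/
theorem exactly_dvd_Nbig_of_dvd {ℓ : ℕ} (hℓ : ℓ.Prime) (hℓN : ℓ ∣ N) (hℓSig : ℓ ∉ Sig) :
    ℓ ∣ N / (∏ v ∈ Sig, v) * ((∏ v ∈ Sig, v) * ∏ j, Q j) ^ 2 ∧
    ¬ ℓ ^ 2 ∣ N / (∏ v ∈ Sig, v) * ((∏ v ∈ Sig, v) * ∏ j, Q j) ^ 2 := by
  have hℓS : ℓ ∈ S := (h.hS ℓ).2 ⟨hℓ, Or.inr hℓN⟩
  obtain ⟨c, hc⟩ := h.prodSig_dvd
  have hdiv : N / (∏ v ∈ Sig, v) = c := by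
    rw [hc, Nat.mul_div_cancel_left _ h.prodSig_pos]
  have hnS : ¬ ℓ ∣ ∏ v ∈ Sig, v := fun hd => hℓSig (h.mem_Sig_of_dvd_prodSig hℓ hd)
  have hnQ : ¬ ℓ ∣ ∏ j, Q j := fun hd => by
    obtain ⟨j, hj⟩ := h.exists_eq_Q_of_dvd_prodQ hℓ hd
    exact h.QS j (hj ▸ hℓS)
  have hℓc : ℓ ∣ c := by
    rw [hc] at hℓN
    exact ((Nat.Prime.dvd_mul hℓ).1 hℓN).resolve_left hnS
  rw [hdiv]
  refine ⟨Dvd.dvd.mul_right hℓc _, fun hd => ?_⟩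
  have hcop : Nat.Coprime (ℓ ^ 2) (((∏ v ∈ Sig, v) * ∏ j, Q j) ^ 2) := by
    refine Nat.Coprime.pow _ _ ?_
    rw [Nat.Prime.coprime_iff_not_dvd hℓ]
    intro hd'
    rcases (Nat.Prime.dvd_mul hℓ).1 hd' with h3 | h3
    · exact hnS h3
    · exact hnQ h3
  have h4 : ℓ ^ 2 ∣ c := hcop.dvd_of_dvd_mul_right hd
  have h5 : ℓ ^ 2 ∣ N := h4.trans ⟨∏ v ∈ Sig, v, by rw [hc, mul_comm]⟩
  have := h.sqN ℓ (by rwa [← sq])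
  exact hℓ.one_lt.ne' (Nat.isUnit_iff.1 this)

/-- a prime of `S` other than `p`, not in `Σ`, divides `Nbig` exactly once. -/
theorem exactly_dvd_Nbig {ℓ : ℕ} (hℓS : ℓ ∈ S) (hℓp : ℓ ≠ p) (hℓSig : ℓ ∉ Sig) :
    ℓ ∣ N / (∏ v ∈ Sig, v) * ((∏ v ∈ Sig, v) * ∏ j, Q j) ^ 2 ∧
    ¬ ℓ ^ 2 ∣ N / (∏ v ∈ Sig, v) * ((∏ v ∈ Sig, v) * ∏ j, Q j) ^ 2 := by
  obtain ⟨hℓ, h1⟩ := (h.hS ℓ).1 hℓS
  exact h.exactly_dvd_Nbig_of_dvd hℓ (h1.resolve_left hℓp) hℓSig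

/-- `p ∣ Nbig ↔ p ∣ N`. -/
theorem p_dvd_Nbig_iff :
    p ∣ N / (∏ v ∈ Sig, v) * ((∏ v ∈ Sig, v) * ∏ j, Q j) ^ 2 ↔ p ∣ N := by
  constructor
  · intro hd
    rcases h.dvd_Nbig_cases h.pprime hd with h1 | ⟨j, hj⟩
    · exact h1
    · exact absurd hj.symm (h.Q_ne_p j)
  · intro hd
    exact (h.exactly_dvd_Nbig_of_dvd h.pprime hd h.p_notMem_Sig).1

/-! ### the level `N / ∏ Σ` -/

/-- a prime divisor of `N / ∏ Σ` divides `N` and is not in `Σ`. -/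
theorem of_dvd_Nlev {ℓ : ℕ} (hℓ : ℓ.Prime) (hd : ℓ ∣ N / (∏ v ∈ Sig, v)) : ℓ ∣ N ∧ ℓ ∉ Sig := by
  obtain ⟨c, hc⟩ := h.prodSig_dvd
  have hdiv : N / (∏ v ∈ Sig, v) = c := by
    rw [hc, Nat.mul_div_cancel_left _ h.prodSig_pos]
  rw [hdiv] at hd
  refine ⟨hd.trans ⟨∏ v ∈ Sig, v, by rw [hc, mul_comm]⟩, fun hS => ?_⟩
  have h1 : ℓ ∣ ∏ v ∈ Sig, v := Finset.dvd_prod_of_mem (fun v => v) hS
  have h2 : ℓ * ℓ ∣ N := by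
    rw [hc]
    exact Nat.mul_dvd_mul h1 hd
  have := h.sqN ℓ h2
  exact hℓ.one_lt.ne' (Nat.isUnit_iff.1 this)

/-- a prime divisor of `N` outside `Σ` divides `N / ∏ Σ`. -/
theorem dvd_Nlev {ℓ : ℕ} (hℓ : ℓ.Prime) (hℓN : ℓ ∣ N) (hℓSig : ℓ ∉ Sig) :
    ℓ ∣ N / (∏ v ∈ Sig, v) := by
  obtain ⟨c, hc⟩ := h.prodSig_dvd
  have hdiv : N / (∏ v ∈ Sig, v) = c := by
    rw [hc, Nat.mul_div_cancel_left _ h.prodSig_pos]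
  rw [hdiv]
  have hnS : ¬ ℓ ∣ ∏ v ∈ Sig, v := fun hd => hℓSig (h.mem_Sig_of_dvd_prodSig hℓ hd)
  rw [hc] at hℓN
  exact ((Nat.Prime.dvd_mul hℓ).1 hℓN).resolve_left hnS

theorem p_dvd_Nlev_iff : p ∣ N / (∏ v ∈ Sig, v) ↔ p ∣ N :=
  ⟨fun hd => (h.of_dvd_Nlev h.pprime hd).1, fun hd => h.dvd_Nlev h.pprime hd h.p_notMem_Sig⟩

end NumSetup

end Fermat.Agent.ML.REPTX
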