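/-
PROJECT ML (S59) — [REPT-X] (helper1), file 2: **inertia at `Σ` for the representation over the
Hecke algebra of one side of the module data of IA′.**

(helper2's `OccX` = `OccL` + the `Σ`-clause, `ML/IFACE_helper2_TWModX`.)
* `trace_inertia_pointX` : the traces of inertia at all discrete-valuation-ring points of `alg`,
  together with the `Σ`-clause of the same character `ψh`;
* `unipotent_of_z_eq_oneX` : (`z = 1`) `ρ` is unipotent on inertia at `v ∈ Σ`;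
* `type_of_z_eq_zetaX`     : (`z = ζ`) `ρ(σ) ^ p = 1` on inertia at `v ∈ Σ`, and some `τ` has
  characteristic polynomial `X² - (ζ + ζ ^ (p - 1)) X + 1`.
Port of `RB/REPT_helper1_TWInertia` to every odd `p` ((KEY-H) through `ML.ThetaKillsJ1Odd`).
-/
import Mathlib
import Fermat.Agent.ML.REPTLB_helper1_KeyH
import Fermat.Agent.ML.IFACE_helper2_TWModX

set_option autoImplicit false
set_option linter.unusedSectionVars false
set_option linter.unusedVariables false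
set_option linter.style.haveILetI false

namespace Fermat.Agent.ML.REPTX

open Polynomial IsLocalRing CuspForm Fermat.Agent.GR Fermat.Agent.W1 Fermat.Agent.TW.Kill
  Fermat.Agent.RB Fermat.Agent.RB.REPT Fermat.Agent.ML.REPTLB

local notation "Ω" => AlgebraicClosure ℚ
local notation "GQ" => (AlgebraicClosure ℚ ≃ₐ[ℚ] AlgebraicClosure ℚ)

section Point

variable {𝒪 : Type} [CommRing 𝒪] [IsDomain 𝒪] [IsDiscreteValuationRing 𝒪]
  [IsAdicComplete (maximalIdeal 𝒪) 𝒪] [CharZero 𝒪] [Finite (ResidueField 𝒪)]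
  {p r d n : ℕ} (Y : TWModSide 𝒪 p r d n) {lam z : 𝒪} {c : Nat.Primes → 𝒪} {Sig : Finset ℕ}
  {Nt Nbig : ℕ} [NeZero Nt] [NeZero Nbig] {Sr : Finset ℕ} {uQ : Fin r → (ZMod Nt)ˣ}
  {uS : ℕ → (ZMod Nt)ˣ}

/-- **the trace of inertia at a point, with the `Σ`-clause.** -/
theorem trace_inertia_pointX [Fact p.Prime] (hp2 : p ≠ 2)
    (hp𝒪 : (p : 𝒪) ∈ maximalIdeal 𝒪) (hM5 : 5 ≤ Nt) (hTh : ThetaKillsJ1Odd Nt p)
    (O : OccX Y lam z c Sig Nt Nbig (↑Sr : Set ℕ) uQ uS)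
    (hSbigNt : ∀ ℓ : ℕ, ℓ.Prime → ℓ ∉ Sr → ¬ ℓ ∣ Nt ∧ ℓ ≠ p)
    [IsLocalRing (heckeAlg Y Sr)] [IsLocalHom (algebraMap 𝒪 (heckeAlg Y Sr))]
    [Module.Finite 𝒪 (heckeAlg Y Sr)]
    (ρ : GaloisRepAdic (heckeAlg Y Sr))
    (hρ : ∀ (ℓ : ℕ) (hℓ : ℓ.Prime) (hℓS : ℓ ∉ Sr), ∀ P : ValuationSubring Ω,
      P.LiesOverPrime ℓ → ∀ σ : GQ, P.IsFrobeniusAt σ ℓ →
        LinearMap.charpoly (ρ.ρ σ) =
          X ^ 2 - C (TtH Y ⟨ℓ, hℓ⟩ hℓS) * X + C ((ℓ : ℕ) : heckeAlg Y Sr))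
    (x : DVRPoint 𝒪 Y.alg) :
    ∃ ψh : (ZMod Nt)ˣ →* (AlgebraicClosure (FractionRing x.B))ˣ,
      (∃ m : ℕ, ∀ u, ψh u ^ (p ^ m) = 1) ∧
      (∀ q : Fin r, algebraMap x.B (AlgebraicClosure (FractionRing x.B)) (x.ψ (Y.gA q)) =
        ((ψh (uQ q) : (AlgebraicClosure (FractionRing x.B))ˣ) :
          AlgebraicClosure (FractionRing x.B))) ∧
      (∀ v ∈ Sig, ((ψh (uS v) : (AlgebraicClosure (FractionRing x.B))ˣ) :
          AlgebraicClosure (FractionRing x.B)) =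
          algebraMap x.B (AlgebraicClosure (FractionRing x.B)) (algebraMap 𝒪 x.B z) ∧
        ∀ u : (ZMod Nt)ˣ, (((u : ZMod Nt).val : ℕ) : ZMod (Nt / v)) = 1 →
          ∃ j : ℕ, ((ψh u : (AlgebraicClosure (FractionRing x.B))ˣ) :
            AlgebraicClosure (FractionRing x.B)) =
            algebraMap x.B (AlgebraicClosure (FractionRing x.B)) (algebraMap 𝒪 x.B z) ^ j) ∧
      ∀ r' : ℕ, r'.Prime → r' ∣ Nt → ¬ r' ^ 2 ∣ Nt → r' ≠ p → r' ≠ 2 → 5 ≤ Nt / r' →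
        ∀ P : ValuationSubring Ω, P.LiesOverPrime r' → ∀ σ ∈ P.inertiaSubgroupIn ℚ,
          algebraMap x.B (AlgebraicClosure (FractionRing x.B))
              (x.ψ (heckeIncl Y Sr (ρ.trace σ))) =
            ((ψh (cyc Nt σ) : (AlgebraicClosure (FractionRing x.B))ˣ) :
              AlgebraicClosure (FractionRing x.B)) +
            (((ψh (cyc Nt σ))⁻¹ : (AlgebraicClosure (FractionRing x.B))ˣ) :
              AlgebraicClosure (FractionRing x.B)) := by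
  classical
  have hp : p.Prime := Fact.out
  let B := x.B
  let K := FractionRing B
  let F := AlgebraicClosure K
  haveI : CharZero K := charZero_of_injective_algebraMap (IsFractionRing.injective B K)
  have hinjBF : Function.Injective (algebraMap B F) := by
    rw [IsScalarTower.algebraMap_eq B K F]
    exact (algebraMap K F).injective.comp (IsFractionRing.injective B K)
  obtain ⟨a, ψh, hocc, ⟨m, hpow⟩, hdia, hT, hg, hSig⟩ := (O.occ B x.ψ).2 F hinjBF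
  refine ⟨ψh, ⟨m, hpow⟩, hg, hSig, ?_⟩
  have hpB : (p : B) ∈ maximalIdeal B := by
    have h1 : (p : B) = algebraMap 𝒪 B (p : 𝒪) := by rw [map_natCast]
    rw [h1]
    exact map_nonunit (algebraMap 𝒪 B) _ hp𝒪
  let gg : heckeAlg Y Sr →ₐ[𝒪] B := x.ψ.comp (heckeIncl Y Sr)
  haveI : IsLocalHom (gg : heckeAlg Y Sr →+* B) := isLocalHom_of_finite gg
  have hmain := trace_inertia_of_systemL (B := B) hp2 hpB hM5 hTh Sr hSbigNt
    (gg : heckeAlg Y Sr →+* B) ρ a ψh hocc m hpow hdia ?_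
  · exact hmain
  · intro ℓ hℓ hℓN hℓS
    refine ⟨TtH Y ⟨ℓ, hℓ⟩ hℓS, ?_, fun P hP φ hφ => hρ ℓ hℓ hℓS P hP φ hφ⟩
    rw [hT ℓ hℓ hℓN (fun h => hℓS (Finset.mem_coe.1 h))]
    rfl

/-- the trace of `ρ(σ)`, `σ` in an inertia group at `v ∈ Σ`, at a point: `μ + μ⁻¹` with `μ` a
power of `z`. -/
theorem trace_sig_pointX [Fact p.Prime] (hp2 : p ≠ 2)
    (hp𝒪 : (p : 𝒪) ∈ maximalIdeal 𝒪) (hM5 : 5 ≤ Nt) (hTh : ThetaKillsJ1Odd Nt p)
    (O : OccX Y lam z c Sig Nt Nbig (↑Sr : Set ℕ) uQ uS)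
    (hSbigNt : ∀ ℓ : ℕ, ℓ.Prime → ℓ ∉ Sr → ¬ ℓ ∣ Nt ∧ ℓ ≠ p)
    [IsLocalRing (heckeAlg Y Sr)] [IsLocalHom (algebraMap 𝒪 (heckeAlg Y Sr))]
    (ρ : GaloisRepAdic (heckeAlg Y Sr))
    (hρ : ∀ (ℓ : ℕ) (hℓ : ℓ.Prime) (hℓS : ℓ ∉ Sr), ∀ P : ValuationSubring Ω,
      P.LiesOverPrime ℓ → ∀ σ : GQ, P.IsFrobeniusAt σ ℓ →
        LinearMap.charpoly (ρ.ρ σ) =
          X ^ 2 - C (TtH Y ⟨ℓ, hℓ⟩ hℓS) * X + C ((ℓ : ℕ) : heckeAlg Y Sr))
    {v : ℕ} (hvS : v ∈ Sig) (hv : v.Prime) (hvN : v ∣ Nt) (hv2 : ¬ v ^ 2 ∣ Nt) (hvp : v ≠ p)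
    (hv2' : v ≠ 2) (hv3 : 5 ≤ Nt / v) {P : ValuationSubring Ω} (hP : P.LiesOverPrime v)
    {σ : GQ} (hσ : σ ∈ P.inertiaSubgroupIn ℚ) (x : DVRPoint 𝒪 Y.alg) :
    ∃ j : ℕ, algebraMap x.B (AlgebraicClosure (FractionRing x.B))
        (x.ψ (heckeIncl Y Sr (ρ.trace σ))) =
      algebraMap x.B (AlgebraicClosure (FractionRing x.B)) (algebraMap 𝒪 x.B z) ^ j +
        (algebraMap x.B (AlgebraicClosure (FractionRing x.B)) (algebraMap 𝒪 x.B z) ^ j)⁻¹ := by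
  classical
  haveI : Module.Finite 𝒪 (heckeAlg Y Sr) := finite_heckeAlg Y Sr
  obtain ⟨ψh, -, -, hSig, htr⟩ := trace_inertia_pointX Y hp2 hp𝒪 hM5 hTh O hSbigNt ρ hρ x
  obtain ⟨j, hj⟩ := (hSig v hvS).2 (cyc Nt σ) (cyc_val_cast_eq_one_of_mem_inertia hv hvN hv2 hP hσ)
  refine ⟨j, ?_⟩
  rw [htr v hv hvN hv2 hvp hv2' hv3 P hP σ hσ, Units.val_inv_eq_inv_val, hj]

/-- **type (1)**: for `z = 1`, `ρ` is unipotent on inertia at the primes of `Σ`. -/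
theorem unipotent_of_z_eq_oneX [Fact p.Prime] (hp2 : p ≠ 2)
    (hp𝒪 : (p : 𝒪) ∈ maximalIdeal 𝒪) (hM5 : 5 ≤ Nt) (hTh : ThetaKillsJ1Odd Nt p)
    (O : OccX Y lam 1 c Sig Nt Nbig (↑Sr : Set ℕ) uQ uS)
    (hSbigNt : ∀ ℓ : ℕ, ℓ.Prime → ℓ ∉ Sr → ¬ ℓ ∣ Nt ∧ ℓ ≠ p)
    [IsLocalRing (heckeAlg Y Sr)] [IsLocalHom (algebraMap 𝒪 (heckeAlg Y Sr))]
    (ρ : GaloisRepAdic (heckeAlg Y Sr))
    (hρ : ∀ (ℓ : ℕ) (hℓ : ℓ.Prime) (hℓS : ℓ ∉ Sr), ∀ P : ValuationSubring Ω,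
      P.LiesOverPrime ℓ → ∀ σ : GQ, P.IsFrobeniusAt σ ℓ →
        LinearMap.charpoly (ρ.ρ σ) =
          X ^ 2 - C (TtH Y ⟨ℓ, hℓ⟩ hℓS) * X + C ((ℓ : ℕ) : heckeAlg Y Sr))
    (hdet : ρ.DetIsCyclotomic p)
    {v : ℕ} (hvS : v ∈ Sig) (hv : v.Prime) (hvN : v ∣ Nt) (hv2 : ¬ v ^ 2 ∣ Nt) (hvp : v ≠ p)
    (hv2' : v ≠ 2) (hv3 : 5 ≤ Nt / v) : ρ.IsUnipotentOnInertiaAt v := by
  classical
  have hp : p.Prime := Fact.out
  haveI : Module.Finite 𝒪 (heckeAlg Y Sr) := finite_heckeAlg Y Sr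
  haveI : IsNoetherianRing (heckeAlg Y Sr) := IsNoetherianRing.of_finite 𝒪 _
  intro P hP σ hσ
  refine charpoly_eq_X_sub_one_sq_of_trace_det ρ.finrank_eq _ ?_
    (det_eq_one_of_mem_inertia ρ hp hv hvp hdet hP hσ)
  apply heckeIncl_injective Y Sr
  refine eq_of_forall_pointL Y O.toOccL fun x => ?_
  apply algebraMap_point_injective Y x
  obtain ⟨j, hj⟩ := trace_sig_pointX Y hp2 hp𝒪 hM5 hTh O hSbigNt ρ hρ hvS hv hvN hv2 hvp hv2'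
    hv3 hP hσ x
  have h1 : heckeIncl Y Sr (LinearMap.trace (heckeAlg Y Sr) ρ.V (ρ.ρ σ)) =
      heckeIncl Y Sr (ρ.trace σ) := rfl
  rw [h1, hj, map_one, map_one, one_pow, inv_one, map_ofNat, map_ofNat, map_ofNat]
  norm_num

/-- an element of `heckeAlg` vanishing at all points is zero. -/
theorem eq_zero_of_forall_pointHomX
    (O : OccX Y lam z c Sig Nt Nbig (↑Sr : Set ℕ) uQ uS)
    (a : heckeAlg Y Sr) (ha : ∀ x : DVRPoint 𝒪 Y.alg, pointHom Y x Sr a = 0) : a = 0 := by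
  apply heckeIncl_injective Y Sr
  rw [map_zero]
  refine eq_of_forall_pointL Y O.toOccL fun x => ?_
  apply algebraMap_point_injective Y x
  rw [map_zero, map_zero]
  exact ha x

/-- **type (2)**: for `z = ζ` a primitive `p`-th root of unity, inertia at `v ∈ Σ` acts through a
quotient killed by `p`, and some `τ` has characteristic polynomial `X² - (ζ + ζ⁻¹) X + 1`. -/
theorem type_of_z_eq_zetaX [Fact p.Prime] (hp2 : p ≠ 2)
    (hp𝒪 : (p : 𝒪) ∈ maximalIdeal 𝒪) (hM5 : 5 ≤ Nt) (hTh : ThetaKillsJ1Odd Nt p)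
    {ζ : 𝒪} (hζ : IsPrimitiveRoot ζ p)
    (O : OccX Y lam ζ c Sig Nt Nbig (↑Sr : Set ℕ) uQ uS)
    (hSbigNt : ∀ ℓ : ℕ, ℓ.Prime → ℓ ∉ Sr → ¬ ℓ ∣ Nt ∧ ℓ ≠ p)
    [IsLocalRing (heckeAlg Y Sr)] [IsLocalHom (algebraMap 𝒪 (heckeAlg Y Sr))]
    (ρ : GaloisRepAdic (heckeAlg Y Sr))
    (hρ : ∀ (ℓ : ℕ) (hℓ : ℓ.Prime) (hℓS : ℓ ∉ Sr), ∀ P : ValuationSubring Ω,
      P.LiesOverPrime ℓ → ∀ σ : GQ, P.IsFrobeniusAt σ ℓ →
        LinearMap.charpoly (ρ.ρ σ) =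
          X ^ 2 - C (TtH Y ⟨ℓ, hℓ⟩ hℓS) * X + C ((ℓ : ℕ) : heckeAlg Y Sr))
    (hdet : ρ.DetIsCyclotomic p)
    {v : ℕ} (hvS : v ∈ Sig) (hv : v.Prime) (hvN : v ∣ Nt) (hv2 : ¬ v ^ 2 ∣ Nt) (hvp : v ≠ p)
    (hv2' : v ≠ 2) (hv3 : 5 ≤ Nt / v)
    (huS : (((((uS v : (ZMod Nt)ˣ) : ZMod Nt).val : ℕ)) : ZMod (Nt / v)) = 1)
    {P : ValuationSubring Ω} (hP : P.LiesOverPrime v)
    (hres : ∀ σ ∈ P.inertiaSubgroupIn ℚ, ∀ x : ρ.V,
      ρ.ρ σ x - x ∈ (maximalIdeal (heckeAlg Y Sr) • ⊤ : Submodule (heckeAlg Y Sr) ρ.V)) :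
    (∀ σ ∈ P.inertiaSubgroupIn ℚ, ρ.ρ σ ^ p = 1) ∧
    ∃ τ ∈ P.inertiaSubgroupIn ℚ, LinearMap.charpoly (ρ.ρ τ) =
      X ^ 2 - C (algebraMap 𝒪 (heckeAlg Y Sr) (ζ + ζ ^ (p - 1))) * X + 1 := by
  classical
  have hp : p.Prime := Fact.out
  haveI : Module.Finite 𝒪 (heckeAlg Y Sr) := finite_heckeAlg Y Sr
  haveI : IsNoetherianRing (heckeAlg Y Sr) := IsNoetherianRing.of_finite 𝒪 _
  have hpT : ((p : ℕ) : heckeAlg Y Sr) ∈ maximalIdeal (heckeAlg Y Sr) := hdet.1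
  obtain ⟨τ, hτ, hcyc⟩ := exists_mem_inertia_cyc_eq hv hvN hv2 hP (uS v) huS
  -- `ζ` at the points
  have hζ1 : ζ * ζ ^ (p - 1) = 1 := by
    rw [← pow_succ', Nat.sub_add_cancel hp.pos, hζ.pow_eq_one]
  have hζx : ∀ x : DVRPoint 𝒪 Y.alg,
      algebraMap x.B (AlgebraicClosure (FractionRing x.B)) (algebraMap 𝒪 x.B ζ) ^ p = 1 := by
    intro x
    rw [← map_pow, ← map_pow, hζ.pow_eq_one, map_one, map_one]
  have hζinv : ∀ x : DVRPoint 𝒪 Y.alg,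
      (algebraMap x.B (AlgebraicClosure (FractionRing x.B)) (algebraMap 𝒪 x.B ζ))⁻¹ =
      algebraMap x.B (AlgebraicClosure (FractionRing x.B)) (algebraMap 𝒪 x.B (ζ ^ (p - 1))) := by
    intro x
    symm
    apply eq_inv_of_mul_eq_one_right
    rw [← map_mul, ← map_mul, hζ1, map_one, map_one]
  -- the trace of `ρ(τ)`
  have htrτ : ρ.trace τ = algebraMap 𝒪 (heckeAlg Y Sr) (ζ + ζ ^ (p - 1)) := by
    rw [← sub_eq_zero]
    refine eq_zero_of_forall_pointHomX Y O _ fun x => ?_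
    rw [map_sub, sub_eq_zero, pointHom_algebraMap, pointHom_apply]
    obtain ⟨ψh, -, -, hSig, htr⟩ := trace_inertia_pointX Y hp2 hp𝒪 hM5 hTh O hSbigNt ρ hρ x
    rw [htr v hv hvN hv2 hvp hv2' hv3 P hP τ hτ, hcyc, Units.val_inv_eq_inv_val, (hSig v hvS).1,
      hζinv x, map_add, map_add]
  have hdetτ : LinearMap.det (ρ.ρ τ) = 1 := det_eq_one_of_mem_inertia ρ hp hv hvp hdet hP hτ
  have htrmat : ∀ σ : GQ, (matHom ρ σ).trace = ρ.trace σ := fun σ =>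
    (LinearMap.trace_eq_matrix_trace (heckeAlg Y Sr) (gBasis ρ) (ρ.ρ σ)).symm
  refine ⟨?_, τ, hτ, ?_⟩
  · -- the order of inertia
    intro σ hσ
    have hmat : matHom ρ σ ^ p = 1 := by
      refine pow_eq_one_of_points (fun x : DVRPoint 𝒪 Y.alg => pointHom Y x Sr)
        (eq_zero_of_forall_pointHomX Y O)
        (matHom ρ σ) (matHom ρ τ) ?_ ?_ (hp.odd_of_ne_two hp2) ?_ ?_
      · rw [matHom_apply, matHom_apply, ← LinearMap.toMatrix_mul, ← LinearMap.toMatrix_mul,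
          commute_of_mem_inertia ρ hp hv hvp hpT hP hres hσ hτ]
      · rw [det_matHom]
        exact det_eq_one_of_mem_inertia ρ hp hv hvp hdet hP hσ
      · intro x
        rw [htrmat, det_matHom, hdetτ, htrτ, map_one]
        exact disc_zeta_ne_zero Y hp hp2 hζ x Sr
      · intro x
        obtain ⟨j, hj⟩ := trace_sig_pointX Y hp2 hp𝒪 hM5 hTh O hSbigNt ρ hρ hvS hv hvN hv2 hvp
          hv2' hv3 hP hσ x
        refine ⟨algebraMap x.B (AlgebraicClosure (FractionRing x.B)) (algebraMap 𝒪 x.B ζ) ^ j, ?_,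
          ?_⟩
        · rw [← pow_mul, mul_comm, pow_mul, hζx x, one_pow]
        · rw [htrmat]
          exact hj
    have h1 : matHom ρ σ ^ p = matHom ρ (σ ^ p) := (map_pow (matHom ρ) σ p).symm
    rw [h1, matHom_apply] at hmat
    have h2 : LinearMap.toMatrix (gBasis ρ) (gBasis ρ) (ρ.ρ (σ ^ p)) =
        LinearMap.toMatrix (gBasis ρ) (gBasis ρ) (1 : Module.End (heckeAlg Y Sr) ρ.V) := by
      rw [hmat]
      exact (LinearMap.toMatrix_one (gBasis ρ)).symm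
    have h3 := (LinearMap.toMatrix (gBasis ρ) (gBasis ρ)).injective h2
    rw [← map_pow]
    exact h3
  · have htr' : LinearMap.trace (heckeAlg Y Sr) ρ.V (ρ.ρ τ) =
        algebraMap 𝒪 (heckeAlg Y Sr) (ζ + ζ ^ (p - 1)) := htrτ
    rw [charpoly_eq_of_finrank_eq_two ρ.finrank_eq, hdetτ, map_one, htr']

end Point

end Fermat.Agent.ML.REPTX
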