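/-
PROJECT ML (S59) — [REPT-X] (helper1), FINAL ASSEMBLY:
**helper2's `TWModXStatement` + (KEY-H) in the form `ML.ThetaKillsJ1Odd` ⇒ `TWProducerMainStatement`**
(helper9's literal of `ML/IFACE_helper9_IA`: the Taylor–Wiles producers of IA′ in the modes `flat`
and `tres`).  Port of `RB/REPT_helper1_TWProducer`.
-/
import Mathlib
import Fermat.Agent.ML.REPTX_helper1_Num
import Fermat.Agent.ML.REPTX_helper1_Occ
import Fermat.Agent.ML.REPTX_helper1_Asm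
import Fermat.Agent.ML.REPTX_helper1_Level0
import Fermat.Agent.ML.REPTX_helper1_Small
import Fermat.Agent.ML.REPTLB_helper1_LevelOf
import Fermat.Agent.ML.KP_lead_Strict
import Fermat.Agent.RB.REPT_helper1_TWHyps
import Fermat.Agent.RB.REPT_helper1_ResFacts
import Fermat.Agent.GR.S29TOP_lead
import Fermat.Agent.S31

set_option autoImplicit false
set_option linter.unusedSectionVars false
set_option linter.unusedVariables false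
set_option linter.style.haveILetI false

namespace Fermat.Agent.ML.REPTX

open Polynomial IsLocalRing CuspForm CongruenceSubgroup ModularCurve.Period
  Fermat.Agent.GR Fermat.Agent.LR Fermat.Agent.RB Fermat.Agent.RB.REPT Fermat.Agent.ML.REPTLB

local notation "Ω" => AlgebraicClosure ℚ
local notation "GQ" => (AlgebraicClosure ℚ ≃ₐ[ℚ] AlgebraicClosure ℚ)

attribute [local instance] TWModLevelX.instAddCommGroupBar TWModLevelX.instModuleBar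

section Cond

variable {𝒪 : Type} [CommRing 𝒪] [IsDomain 𝒪] [IsDiscreteValuationRing 𝒪]
  [IsAdicComplete (maximalIdeal 𝒪) 𝒪] [Finite (ResidueField 𝒪)]
  {p r d n : ℕ} [Fact p.Prime] {Y : TWModSide 𝒪 p r d n}
  {ρbar : ResidualGaloisRep (ResidueField 𝒪)} {Sr : Finset ℕ} {Nlev : ℕ} {Q : Fin r → ℕ}

/-- **the deformation condition of IA′ for the representation of a level**, the strictness at `p`
being a hypothesis. -/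
theorem iaCondition_of_levelRep
    (R : REPTL.LevelRep Y ρbar Sr Sr Nlev Q) (S Sig : Finset ℕ)
    (hSr : Sr = S ∪ Finset.univ.image Q)
    (hunip : ∀ ℓ ∈ S, ℓ.Prime → ℓ ≠ p → ℓ ∉ Sig → ℓ ∣ Nlev)
    (pc : PCase) (hflat : pc = PCase.flat → ¬ p ∣ Nlev)
    (hstrict : pc = PCase.strict →
      @GaloisRepAdic.IsStrictOrdinaryAt (heckeAlg Y Sr) _ R.isLocalRingA R.ρ p) :
    @iaCondition 𝒪 _ p S Sig (Finset.univ.image Q) pc (heckeAlg Y Sr) _ R.isLocalRingA _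
      R.ρ := by
  haveI := R.isLocalRingA
  haveI := R.isLocalHomA
  exact ⟨R.det, fun q hq hqS => R.unr q hq (by rw [hSr]; exact hqS),
    fun ℓ hℓS hℓ hℓp hℓSig => R.unip ℓ hℓ hℓp (hunip ℓ hℓS hℓ hℓp hℓSig),
    fun hpc => R.flat (hflat hpc), hstrict⟩

/-- **strictness in the mode `tres`**: `ρ̄` is not peu ramifiée at `p ∣ Nlev`. -/
theorem isStrictOrdinaryAt_of_tres (hp2 : p ≠ 2) (hp𝒪 : (p : 𝒪) ∈ maximalIdeal 𝒪)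
    (R : REPTL.LevelRep Y ρbar Sr Sr Nlev Q) (hpN : p ∣ Nlev)
    (hpeu : ¬ IsPeuRamifieeAt ρbar p) :
    @GaloisRepAdic.IsStrictOrdinaryAt (heckeAlg Y Sr) _ R.isLocalRingA R.ρ p := by
  haveI := R.isLocalRingA
  haveI := R.isLocalHomA
  haveI : Module.Finite 𝒪 (heckeAlg Y Sr) := finite_heckeAlg Y Sr
  haveI : IsNoetherianRing (heckeAlg Y Sr) := IsNoetherianRing.of_finite 𝒪 _
  haveI : IsAdicComplete (maximalIdeal (heckeAlg Y Sr)) (heckeAlg Y Sr) :=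
    IsLocalRing.isAdicComplete_of_module_finite (𝒪 := 𝒪)
  exact KP.strictOfTresStatement p hp2 hp𝒪 ρbar hpeu (heckeAlg Y Sr) R.residue_surjective R.ρ
    R.residual_isEquiv R.det (R.ord hpN)

end Cond

section Level

variable {𝒪 : Type} [CommRing 𝒪] [IsDomain 𝒪] [IsDiscreteValuationRing 𝒪]
  [IsAdicComplete (maximalIdeal 𝒪) 𝒪] [Finite (ResidueField 𝒪)] [CharZero 𝒪]
  {N : ℕ} [NeZero N] {S : Finset ℕ}
  {θ : heckeAlgebra N 2 (S : Set ℕ) →+* ResidueField 𝒪}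
  {T : Type} [CommRing T] [IsLocalRing T] [IsNoetherianRing T]
  [IsAdicComplete (maximalIdeal T) T] [Algebra 𝒪 T] [IsLocalHom (algebraMap 𝒪 T)]
  [Module.Finite 𝒪 T] [Module.Free 𝒪 T]
  {p : ℕ} [Fact p.Prime] {datum : HeckeGaloisRepDatum N (S : Set ℕ) 𝒪 θ T}
  {Sig : Finset ℕ} {ζ lam : 𝒪} {r d : ℕ} {n : ℕ} {Q : Fin r → ℕ} {c : Nat.Primes → 𝒪}

/-- `Sbig` as a set. -/
theorem sbig_coe (hS : ∀ ℓ : ℕ, ℓ ∈ S ↔ ℓ.Prime ∧ (ℓ = p ∨ ℓ ∣ N)) :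
    badSet p N ∪ Set.range Q = (↑(S ∪ Finset.univ.image Q) : Set ℕ) := by
  ext ℓ
  simp only [Set.mem_union, Set.mem_range, Finset.coe_union, Finset.mem_coe, Finset.coe_image,
    Finset.coe_univ, Set.image_univ, hS ℓ]
  rfl

/-- the residual characteristic polynomials in terms of the system `c`. -/
theorem hbarchar_c (hnum : NumSetup N p S Sig Q)
    (hc : ∀ (ℓ : ℕ) (hℓ : ℓ.Prime) (hℓN : ¬ ℓ ∣ N) (hℓS : ℓ ∉ (S : Set ℕ)),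
      residue 𝒪 (c ⟨ℓ, hℓ⟩) = θ (heckeAlgebra.T hℓ hℓN hℓS))
    (ρbar : ResidualGaloisRep (ResidueField 𝒪))
    (hbarchar : ∀ (ℓ : ℕ) (hℓ : ℓ.Prime) (hℓN : ¬ ℓ ∣ N) (hℓS : ℓ ∉ (S : Set ℕ))
      (A' : ValuationSubring Ω), A'.LiesOverPrime ℓ → ∀ σ : GQ, A'.IsFrobeniusAt σ ℓ →
      LinearMap.charpoly (ρbar.ρ σ) =
        X ^ 2 - C (θ (heckeAlgebra.T hℓ hℓN hℓS)) * X + C (ℓ : ResidueField 𝒪)) :
    ∀ (ℓ : Nat.Primes), (ℓ : ℕ) ∉ S ∪ Finset.univ.image Q →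
      ∀ A' : ValuationSubring Ω, A'.LiesOverPrime ℓ → ∀ σ : GQ, A'.IsFrobeniusAt σ ℓ →
        LinearMap.charpoly (ρbar.ρ σ) =
          X ^ 2 - C (residue 𝒪 (c ℓ)) * X + C (((ℓ : ℕ) : ResidueField 𝒪)) := by
  intro ℓ hℓS A' hA' σ hσ
  obtain ⟨h1, h2⟩ := hnum.sbig_N ℓ.2 hℓS
  rw [hbarchar ℓ ℓ.2 h1 h2 A' hA' σ hσ, ← hc ℓ ℓ.2 h1 h2]
  rfl

/-- **the representation of one side** (Layer B + `LevelOf`). -/
theorem nonempty_levelRepX (hp2 : p ≠ 2) (hp𝒪 : (p : 𝒪) ∈ maximalIdeal 𝒪)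
    (hlam : Irreducible lam) (hnum : NumSetup N p S Sig Q) (hd : 0 < d)
    (ρbar : ResidualGaloisRep (ResidueField 𝒪))
    (habs : ρbar.IsAbsolutelyIrreducible)
    (hbardet : LinearMap.det (ρbar.ρ complexConjugation) = -1)
    (hbarchar' : ∀ (ℓ : Nat.Primes), (ℓ : ℕ) ∉ S ∪ Finset.univ.image Q →
      ∀ A' : ValuationSubring Ω, A'.LiesOverPrime ℓ → ∀ σ : GQ, A'.IsFrobeniusAt σ ℓ →
        LinearMap.charpoly (ρbar.ρ σ) =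
          X ^ 2 - C (residue 𝒪 (c ℓ)) * X + C (((ℓ : ℕ) : ResidueField 𝒪)))
    (hbarunr : ∀ q : ℕ, q.Prime → q ∉ S → ρbar.IsUnramifiedAt q)
    (hbar_ordN : p ∣ N → (GaloisRepAdic.ofResidualGaloisRep ρbar).IsOrdinaryAt p)
    [NeZero (N * ∏ j, Q j)]
    [NeZero (N / (∏ v ∈ Sig, v) * ((∏ v ∈ Sig, v) * ∏ j, Q j) ^ 2)]
    (hTh : ThetaKillsJ1Odd (N * ∏ j, Q j) p)
    (Y : TWModSide 𝒪 p r d n) {z : 𝒪} {uQ : Fin r → (ZMod (N * ∏ j, Q j))ˣ}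
    {uS : ℕ → (ZMod (N * ∏ j, Q j))ˣ}
    (O : OccX Y lam z c Sig (N * ∏ j, Q j)
      (N / (∏ v ∈ Sig, v) * ((∏ v ∈ Sig, v) * ∏ j, Q j) ^ 2)
      (↑(S ∪ Finset.univ.image Q) : Set ℕ) uQ uS)
    (huQ : ∀ q, ((((uQ q : (ZMod (N * ∏ j, Q j))ˣ) : ZMod (N * ∏ j, Q j)).val : ℕ) :
      ZMod (N * (∏ j, Q j) / Q q)) = 1) :
    Nonempty (REPTL.LevelRep Y ρbar (S ∪ Finset.univ.image Q) (S ∪ Finset.univ.image Q)
      (N / (∏ v ∈ Sig, v)) Q) := by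
  have hp : p.Prime := Fact.out
  have hpNlev : p ∣ N / (∏ v ∈ Sig, v) ↔ p ∣ N := hnum.p_dvd_Nlev_iff
  exact exists_levelRep Y hp2 hp𝒪 hlam ρbar habs hbardet hd (Finset.Subset.refl _) O.toOccL
    hnum.p_mem_sbig (fun q hq hqd => hnum.mem_sbig_of_dvd_Nbig hq hqd)
    (fun q hq hqd => hnum.mem_sbig_of_dvd_Nt hq hqd) hbarchar' Q hnum.Qprime hnum.Q_dvd_Nt
    (fun q => hnum.not_sq_dvd_Nt (hnum.Qprime q)) hnum.Q_ne_p hnum.Q_ne_two hnum.five_le_Nt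
    hnum.five_le_Nt_div_Q huQ hTh (N / (∏ v ∈ Sig, v))
    (fun q hq _ hqd => hnum.exactly_dvd_Nbig_of_dvd hq (hnum.of_dvd_Nlev hq hqd).1
      (hnum.of_dvd_Nlev hq hqd).2)
    (fun h1 h2 => h1 (hpNlev.2 (hnum.p_dvd_Nbig_iff.1 h2)))
    (fun h1 => hnum.exactly_dvd_Nbig_of_dvd hp (hpNlev.1 h1) hnum.p_notMem_Sig)
    (fun q hq hqS => hbarunr q hq (fun h => hqS (Finset.mem_union_left _ h)))
    (fun hpd => hbar_ordN (hpNlev.1 hpd))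

set_option maxHeartbeats 1600000 in
/-- **the Taylor–Wiles data at `(n, Q)` from the module data and the representations of the two
sides**, for a local condition `pc` at `p`; the strictness at `p` of the two representations is a
hypothesis. -/
theorem nonempty_twGaloisLevelE_of_levelReps (hp2 : p ≠ 2) (hp𝒪 : (p : 𝒪) ∈ maximalIdeal 𝒪)
    (hζ : IsPrimitiveRoot ζ p) (hlam : Irreducible lam)
    (hnum : NumSetup N p S Sig Q) (hr : 0 < r) (hd : 0 < d)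
    (hc : ∀ (ℓ : ℕ) (hℓ : ℓ.Prime) (hℓN : ¬ ℓ ∣ N) (hℓS : ℓ ∉ (S : Set ℕ)),
      residue 𝒪 (c ⟨ℓ, hℓ⟩) = θ (heckeAlgebra.T hℓ hℓN hℓS))
    [Module T ↥(lvlModP 𝒪 (primesOutside (badSet p N)) N c)]
    [IsScalarTower 𝒪 T ↥(lvlModP 𝒪 (primesOutside (badSet p N)) N c)]
    (hfaith : ∀ t : T,
      (∀ m : ↥(lvlModP 𝒪 (primesOutside (badSet p N)) N c), t • m = 0) → t = 0)
    (hTact : ∀ (ℓ : ℕ) (hℓ : ℓ.Prime) (hℓN : ¬ ℓ ∣ N) (hℓS : ℓ ∉ (S : Set ℕ))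
      (x : ↥(lvlModP 𝒪 (primesOutside (badSet p N)) N c)),
      ((datum.π (heckeAlgebra.T hℓ hℓN hℓS) • x :
          ↥(lvlModP 𝒪 (primesOutside (badSet p N)) N c)) :
        ↥(parabolicHoms 𝒪 (Gamma0 N) 𝒪)) =
        heckeParP N ⟨ℓ, hℓ⟩ 𝒪 𝒪 (x : ↥(parabolicHoms 𝒪 (Gamma0 N) 𝒪)))
    (ρbar : ResidualGaloisRep (ResidueField 𝒪))
    (hSigunr : ∀ v ∈ Sig, ρbar.IsUnramifiedAt v)
    (pc : PCase) (hflat : pc = PCase.flat → ¬ p ∣ N)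
    [NeZero (N * ∏ j, Q j)]
    [NeZero (N / (∏ v ∈ Sig, v) * ((∏ v ∈ Sig, v) * ∏ j, Q j) ^ 2)]
    (hTh : ThetaKillsJ1Odd (N * ∏ j, Q j) p)
    (L : TWModLevelX p lam ζ c (primesOutside (badSet p N)) Sig r d n Q N (N * ∏ j, Q j)
      (N / (∏ v ∈ Sig, v) * ((∏ v ∈ Sig, v) * ∏ j, Q j) ^ 2))
    (Sr : Finset ℕ) (hSrdef : Sr = S ∪ Finset.univ.image Q)
    (R₁ : REPTL.LevelRep L.side₁ ρbar Sr Sr (N / (∏ v ∈ Sig, v)) Q)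
    (R₂ : REPTL.LevelRep L.side₂ ρbar Sr Sr (N / (∏ v ∈ Sig, v)) Q)
    (hstrict₁ : pc = PCase.strict →
      @GaloisRepAdic.IsStrictOrdinaryAt (heckeAlg L.side₁ Sr) _ R₁.isLocalRingA R₁.ρ p)
    (hstrict₂ : pc = PCase.strict →
      @GaloisRepAdic.IsStrictOrdinaryAt (heckeAlg L.side₂ Sr) _ R₂.isLocalRingA R₂.ρ p) :
    Nonempty (TWGaloisLevelE p pc datum Sig ζ lam ρbar r d
      ↥(lvlModP 𝒪 (primesOutside (badSet p N)) N c) n Q) := by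
  classical
  have hp : p.Prime := Fact.out
  have hSrset : badSet p N ∪ Set.range Q = (↑Sr : Set ℕ) := by
    rw [hSrdef]; exact sbig_coe hnum.hS
  have hsbN : ∀ {ℓ : ℕ}, ℓ.Prime → ℓ ∉ Sr → ¬ ℓ ∣ N ∧ ℓ ∉ (S : Set ℕ) :=
    fun hℓ hℓS => hnum.sbig_N hℓ (hSrdef ▸ hℓS)
  have O₁ : OccX L.side₁ lam 1 c Sig (N * ∏ j, Q j)
      (N / (∏ v ∈ Sig, v) * ((∏ v ∈ Sig, v) * ∏ j, Q j) ^ 2) (↑Sr : Set ℕ) L.uQ L.uS :=
    hSrset ▸ L.occ₁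
  have O₂ : OccX L.side₂ lam ζ c Sig (N * ∏ j, Q j)
      (N / (∏ v ∈ Sig, v) * ((∏ v ∈ Sig, v) * ∏ j, Q j) ^ 2) (↑Sr : Set ℕ) L.uQ L.uS :=
    hSrset ▸ L.occ₂
  have hSbigNt : ∀ ℓ : ℕ, ℓ.Prime → ℓ ∉ Sr → ¬ ℓ ∣ N * ∏ j, Q j ∧ ℓ ≠ p :=
    fun ℓ hℓ hℓS => hnum.sbig_Nt hℓ (hSrdef ▸ hℓS)
  -- the prime `p`
  have hpNlev : p ∣ N / (∏ v ∈ Sig, v) ↔ p ∣ N := hnum.p_dvd_Nlev_iff
  have hflat' : pc = PCase.flat → ¬ p ∣ N / (∏ v ∈ Sig, v) :=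
    fun hpc h => hflat hpc (hpNlev.1 h)
  haveI := R₁.isLocalRingA
  haveI := R₁.isLocalHomA
  haveI := R₂.isLocalRingA
  haveI := R₂.isLocalHomA
  -- the global deformation condition
  have hunipS : ∀ ℓ ∈ S, ℓ.Prime → ℓ ≠ p → ℓ ∉ Sig → ℓ ∣ N / (∏ v ∈ Sig, v) :=
    fun ℓ hℓS hℓ hℓp hℓSig =>
      hnum.dvd_Nlev hℓ (((hnum.hS ℓ).1 hℓS).2.resolve_left hℓp) hℓSig
  have hcond₁ := iaCondition_of_levelRep R₁ S Sig hSrdef hunipS pc hflat' hstrict₁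
  have hcond₂ := iaCondition_of_levelRep R₂ S Sig hSrdef hunipS pc hflat' hstrict₂
  -- the types at `Σ`
  have hSigfacts : ∀ v ∈ Sig, v.Prime ∧ v ∣ N * ∏ j, Q j ∧ ¬ v ^ 2 ∣ N * ∏ j, Q j ∧ v ≠ p ∧
      v ≠ 2 ∧ 5 ≤ N * (∏ j, Q j) / v := fun v hv =>
    ⟨(hnum.hSig v hv).1, hnum.v_dvd_Nt hv, hnum.not_sq_dvd_Nt (hnum.hSig v hv).1, hnum.v_ne_p hv,
      (hnum.hSig v hv).2.2.1, hnum.five_le_Nt_div_v hv hr⟩
  have htype₁ : ∀ v ∈ Sig, R₁.ρ.IsUnipotentOnInertiaAt v := by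
    intro v hv
    obtain ⟨h1, h2, h3, h4, h5, h6⟩ := hSigfacts v hv
    exact unipotent_of_z_eq_oneX L.side₁ hp2 hp𝒪 hnum.five_le_Nt hTh O₁ hSbigNt R₁.ρ
      R₁.charpoly_frob R₁.det hv h1 h2 h3 h4 h5 h6
  have htype₂ : ∀ v ∈ Sig, ∀ P : ValuationSubring Ω, P.LiesOverPrime v →
      (∀ σ ∈ P.inertiaSubgroupIn ℚ, R₂.ρ.ρ σ ^ p = 1) ∧
      ∃ τ ∈ P.inertiaSubgroupIn ℚ, LinearMap.charpoly (R₂.ρ.ρ τ) =
        X ^ 2 - C (algebraMap 𝒪 (heckeAlg L.side₂ Sr) (ζ + ζ ^ (p - 1))) * X + 1 := by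
    intro v hv P hP
    obtain ⟨h1, h2, h3, h4, h5, h6⟩ := hSigfacts v hv
    refine type_of_z_eq_zetaX L.side₂ hp2 hp𝒪 hnum.five_le_Nt hTh hζ O₂ hSbigNt R₂.ρ
      R₂.charpoly_frob R₂.det hv h1 h2 h3 h4 h5 h6 (L.uS_spec v hv) hP ?_
    intro σ hσ x
    exact sub_mem_smul_top_of_rhobar_eq_one R₂.ρ _ ρbar R₂.residual_isEquiv
      (hSigunr v hv P hP σ hσ) x
  -- control
  let τ : Nat.Primes → T := fun ℓ =>
    if h : ¬ (ℓ : ℕ) ∣ N ∧ (ℓ : ℕ) ∉ (S : Set ℕ) then datum.π (heckeAlgebra.T ℓ.2 h.1 h.2) else 0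
  have hτ : ∀ (ℓ : ℕ) (hℓ : ℓ.Prime) (hℓN : ¬ ℓ ∣ N) (hℓS : ℓ ∉ (S : Set ℕ)),
      τ ⟨ℓ, hℓ⟩ = datum.π (heckeAlgebra.T hℓ hℓN hℓS) := by
    intro ℓ hℓ hℓN hℓS
    show (if h : ¬ ℓ ∣ N ∧ ℓ ∉ (S : Set ℕ) then datum.π (heckeAlgebra.T hℓ h.1 h.2) else 0) = _
    rw [dif_pos ⟨hℓN, hℓS⟩]
  have hτctl : ∀ ℓ : Nat.Primes, (ℓ : ℕ) ∉ Sr → ∀ x, L.ctl (L.side₁.Tt ℓ x) = τ ℓ • L.ctl x := by
    intro ℓ hℓS x
    obtain ⟨h1, h2⟩ := hsbN ℓ.2 hℓS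
    apply Subtype.ext
    have h3 : (ℓ : ℕ) ∉ badSet p N ∪ Set.range Q := by rw [hSrset]; exact_mod_cast hℓS
    rw [L.ctl_Tt ℓ h3 x, hτ ℓ ℓ.2 h1 h2, hTact ℓ ℓ.2 h1 h2]
    rfl
  obtain ⟨toT, htoTctl, htoT⟩ := exists_toT_gen L.side₁ Sr L.ctl L.ctl_surjective hfaith τ hτctl
  have htoTtr : ∀ σ : GQ, toT (R₁.ρ.trace σ) = datum.ρ.trace σ := by
    intro σ
    refine toT_trace_gen L.side₁ Sr toT τ htoT datum.ρ ?_ R₁.ρ R₁.charpoly_frob σ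
    intro ℓ hℓ hℓS P hP φ hφ
    obtain ⟨h1, h2⟩ := hsbN hℓ hℓS
    rw [datum.charpoly_frob ℓ hℓ h1 h2 P hP φ hφ, hτ ℓ hℓ h1 h2]
  -- common reduction
  obtain ⟨trbar, htr₁, htr₂⟩ := exists_trbar_gen L.side₁ L.side₂ Sr hd hp.pos hlam L.red₁ L.red₂
    L.red₁_surjective L.red₂_surjective L.ker_red₁ L.Ttbar L.red₁_Tt L.red₂_Tt R₁.ρ R₂.ρ
    R₁.charpoly_frob R₂.charpoly_frob
  exact ⟨{
    side₁ := mkSideE L.side₁ S Sig pc ρbar Q Sr R₁.residue_surjective R₁.ρ R₁.residual_isEquiv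
      hcond₁ R₁.adjoin_trace R₁.keyH
    side₂ := mkSideE L.side₂ S Sig pc ρbar Q Sr R₂.residue_surjective R₂.ρ R₂.residual_isEquiv
      hcond₂ R₂.adjoin_trace R₂.keyH
    type₁ := htype₁
    type₂ := htype₂
    Hbar := L.Hbar
    gbar := L.gbar
    trbar := trbar
    red₁ := L.red₁
    red₂ := L.red₂
    red₁_surjective := L.red₁_surjective
    red₂_surjective := L.red₂_surjective
    ker_red₁ := L.ker_red₁
    ker_red₂ := L.ker_red₂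
    red₁_g := L.red₁_g
    red₂_g := L.red₂_g
    red₁_trace := htr₁
    red₂_trace := htr₂
    toT := toT
    toT_trace := htoTtr
    ctl := L.ctl
    ctl_surjective := L.ctl_surjective
    ker_ctl := L.ker_ctl
    ctl_h := htoTctl }⟩

/-- **the Taylor–Wiles data at `(n, Q)` from the module data, modes `flat` and `tres`.** -/
theorem nonempty_twGaloisLevelE (hp2 : p ≠ 2) (hp𝒪 : (p : 𝒪) ∈ maximalIdeal 𝒪)
    (hζ : IsPrimitiveRoot ζ p) (hlam : Irreducible lam)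
    (hnum : NumSetup N p S Sig Q) (hr : 0 < r) (hd : 0 < d)
    (hc : ∀ (ℓ : ℕ) (hℓ : ℓ.Prime) (hℓN : ¬ ℓ ∣ N) (hℓS : ℓ ∉ (S : Set ℕ)),
      residue 𝒪 (c ⟨ℓ, hℓ⟩) = θ (heckeAlgebra.T hℓ hℓN hℓS))
    [Module T ↥(lvlModP 𝒪 (primesOutside (badSet p N)) N c)]
    [IsScalarTower 𝒪 T ↥(lvlModP 𝒪 (primesOutside (badSet p N)) N c)]
    (hfaith : ∀ t : T,
      (∀ m : ↥(lvlModP 𝒪 (primesOutside (badSet p N)) N c), t • m = 0) → t = 0)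
    (hTact : ∀ (ℓ : ℕ) (hℓ : ℓ.Prime) (hℓN : ¬ ℓ ∣ N) (hℓS : ℓ ∉ (S : Set ℕ))
      (x : ↥(lvlModP 𝒪 (primesOutside (badSet p N)) N c)),
      ((datum.π (heckeAlgebra.T hℓ hℓN hℓS) • x :
          ↥(lvlModP 𝒪 (primesOutside (badSet p N)) N c)) :
        ↥(parabolicHoms 𝒪 (Gamma0 N) 𝒪)) =
        heckeParP N ⟨ℓ, hℓ⟩ 𝒪 𝒪 (x : ↥(parabolicHoms 𝒪 (Gamma0 N) 𝒪)))
    (ρbar : ResidualGaloisRep (ResidueField 𝒪))
    (habs : ρbar.IsAbsolutelyIrreducible)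
    (hbarchar : ∀ (ℓ : ℕ) (hℓ : ℓ.Prime) (hℓN : ¬ ℓ ∣ N) (hℓS : ℓ ∉ (S : Set ℕ))
      (A' : ValuationSubring Ω), A'.LiesOverPrime ℓ → ∀ σ : GQ, A'.IsFrobeniusAt σ ℓ →
      LinearMap.charpoly (ρbar.ρ σ) =
        X ^ 2 - C (θ (heckeAlgebra.T hℓ hℓN hℓS)) * X + C (ℓ : ResidueField 𝒪))
    (hbardet : LinearMap.det (ρbar.ρ complexConjugation) = -1)
    (hSigunr : ∀ v ∈ Sig, ρbar.IsUnramifiedAt v)
    (hbarunr : ∀ q : ℕ, q.Prime → q ∉ S → ρbar.IsUnramifiedAt q)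
    (md : PMode) (hmd : md ≠ PMode.peuNew) (hHolds : md.Holds p θ ρbar)
    [NeZero (N * ∏ j, Q j)]
    [NeZero (N / (∏ v ∈ Sig, v) * ((∏ v ∈ Sig, v) * ∏ j, Q j) ^ 2)]
    (hTh : ThetaKillsJ1Odd (N * ∏ j, Q j) p)
    (L : TWModLevelX p lam ζ c (primesOutside (badSet p N)) Sig r d n Q N (N * ∏ j, Q j)
      (N / (∏ v ∈ Sig, v) * ((∏ v ∈ Sig, v) * ∏ j, Q j) ^ 2)) :
    Nonempty (TWGaloisLevelE p md.pc datum Sig ζ lam ρbar r d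
      ↥(lvlModP 𝒪 (primesOutside (badSet p N)) N c) n Q) := by
  have hpNlev : p ∣ N / (∏ v ∈ Sig, v) ↔ p ∣ N := hnum.p_dvd_Nlev_iff
  have hflat : md.pc = PCase.flat → ¬ p ∣ N := by
    intro hpc
    cases md with
    | flat => exact hHolds
    | tres => exact absurd hpc (by simp [PMode.pc])
    | peuNew => exact absurd rfl hmd
  have hbar_ord : p ∣ N → (GaloisRepAdic.ofResidualGaloisRep ρbar).IsOrdinaryAt p := by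
    intro hpd
    cases md with
    | flat => exact absurd hpd hHolds
    | tres => exact hHolds.2.1
    | peuNew => exact absurd rfl hmd
  have hstrict : md.pc = PCase.strict → p ∣ N / (∏ v ∈ Sig, v) ∧ ¬ IsPeuRamifieeAt ρbar p := by
    intro hpc
    cases md with
    | flat => exact absurd hpc (by simp [PMode.pc])
    | tres => exact ⟨hpNlev.2 hHolds.1, hHolds.2.2⟩
    | peuNew => exact absurd rfl hmd
  have hbarchar' := hbarchar_c hnum hc ρbar hbarchar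
  have hSrset : badSet p N ∪ Set.range Q = (↑(S ∪ Finset.univ.image Q) : Set ℕ) :=
    sbig_coe hnum.hS
  obtain ⟨R₁⟩ := nonempty_levelRepX hp2 hp𝒪 hlam hnum hd ρbar habs hbardet hbarchar' hbarunr
    hbar_ord hTh L.side₁ (hSrset ▸ L.occ₁) L.uQ_spec
  obtain ⟨R₂⟩ := nonempty_levelRepX hp2 hp𝒪 hlam hnum hd ρbar habs hbardet hbarchar' hbarunr
    hbar_ord hTh L.side₂ (hSrset ▸ L.occ₂) L.uQ_spec
  exact nonempty_twGaloisLevelE_of_levelReps hp2 hp𝒪 hζ hlam hnum hr hd hc hfaith hTact ρbar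
    hSigunr md.pc hflat hTh L _ rfl R₁ R₂
    (fun hpc => isStrictOrdinaryAt_of_tres hp2 hp𝒪 R₁ (hstrict hpc).1 (hstrict hpc).2)
    (fun hpc => isStrictOrdinaryAt_of_tres hp2 hp𝒪 R₂ (hstrict hpc).1 (hstrict hpc).2)

/-- **everything the producers need before calling the module side** (mode-free): facts on `ρ̄`,
`5 ≤ N`, the system `c` of lifts of `θ(T_ℓ)`, not Eisenstein, and the faithful `T`-module structure
on the module of level zero. -/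
theorem exists_producer_setup (hp2 : p ≠ 2) (hp𝒪 : (p : 𝒪) ∈ maximalIdeal 𝒪)
    (hNsq : Squarefree N) (hS : ∀ ℓ : ℕ, ℓ ∈ S ↔ ℓ.Prime ∧ (ℓ = p ∨ ℓ ∣ N))
    (hfull : ∀ (B : Type) [CommRing B] [IsDomain B] [IsDiscreteValuationRing B] [Algebra 𝒪 B]
      [Module.Finite 𝒪 B] [IsLocalHom (algebraMap 𝒪 B)]
      (χ : heckeAlgebra N 2 (S : Set ℕ) →+* B),
      (∀ t, residue B (χ t) = ResidueField.map (algebraMap 𝒪 B) (θ t)) →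
        ∃ ψ : T →ₐ[𝒪] B, ∀ t, ψ (datum.π t) = χ t)
    (ρbar : ResidualGaloisRep (ResidueField 𝒪))
    (hres : datum.ρ.residual.IsEquiv
      (ρbar.baseChangeAlong (ResidueField.map (algebraMap 𝒪 T))))
    (hSig : ∀ v ∈ Sig, v.Prime ∧ v ∣ N ∧ RB.ResFrobScalarAt ρbar p v) :
    5 ≤ N ∧ ρbar.IsAbsolutelyIrreducible ∧
    (∀ (ℓ : ℕ) (hℓ : ℓ.Prime) (hℓN : ¬ ℓ ∣ N) (hℓS : ℓ ∉ (S : Set ℕ))
      (A' : ValuationSubring Ω), A'.LiesOverPrime ℓ → ∀ σ : GQ, A'.IsFrobeniusAt σ ℓ →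
      LinearMap.charpoly (ρbar.ρ σ) =
        X ^ 2 - C (θ (heckeAlgebra.T hℓ hℓN hℓS)) * X + C (ℓ : ResidueField 𝒪)) ∧
    LinearMap.det (ρbar.ρ complexConjugation) = -1 ∧
    (∀ q : ℕ, q.Prime → q ∉ S → ρbar.IsUnramifiedAt q) ∧
    (∀ v ∈ Sig, ρbar.IsUnramifiedAt v) ∧
    (∀ v ∈ Sig, v.Prime ∧ v ∣ N ∧ v ≡ 1 [MOD p]) ∧
    ∃ (c : Nat.Primes → 𝒪)
      (_ : Module T ↥(lvlModP 𝒪 (primesOutside (badSet p N)) N c))
      (_ : IsScalarTower 𝒪 T ↥(lvlModP 𝒪 (primesOutside (badSet p N)) N c)),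
      (∀ (ℓ : ℕ) (hℓ : ℓ.Prime) (hℓN : ¬ ℓ ∣ N) (hℓS : ℓ ∉ (S : Set ℕ)),
        residue 𝒪 (c ⟨ℓ, hℓ⟩) = θ (heckeAlgebra.T hℓ hℓN hℓS)) ∧
      Module.Free 𝒪 ↥(lvlModP 𝒪 (primesOutside (badSet p N)) N c) ∧
      Module.Finite 𝒪 ↥(lvlModP 𝒪 (primesOutside (badSet p N)) N c) ∧
      0 < Module.finrank 𝒪 ↥(lvlModP 𝒪 (primesOutside (badSet p N)) N c) ∧
      (∀ t : T,
        (∀ m : ↥(lvlModP 𝒪 (primesOutside (badSet p N)) N c), t • m = 0) → t = 0) ∧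
      (∀ (ℓ : ℕ) (hℓ : ℓ.Prime) (hℓN : ¬ ℓ ∣ N) (hℓS : ℓ ∉ (S : Set ℕ))
        (x : ↥(lvlModP 𝒪 (primesOutside (badSet p N)) N c)),
        ((datum.π (heckeAlgebra.T hℓ hℓN hℓS) • x :
            ↥(lvlModP 𝒪 (primesOutside (badSet p N)) N c)) :
          ↥(parabolicHoms 𝒪 (Gamma0 N) 𝒪)) =
          heckeParP N ⟨ℓ, hℓ⟩ 𝒪 𝒪 (x : ↥(parabolicHoms 𝒪 (Gamma0 N) 𝒪))) ∧
      (∀ (D : ℕ), 0 < D → ∀ Bad : Finset ℕ, ∃ ℓ : Nat.Primes,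
        (ℓ : ℕ) ∉ badSet p N ∧ (ℓ : ℕ) ∉ Bad ∧ (ℓ : ℕ) ≡ 1 [MOD D] ∧
          c ℓ - ((ℓ : ℕ) + 1 : 𝒪) ∉ maximalIdeal 𝒪) := by
  classical
  have hp : p.Prime := Fact.out
  -- the residue field of `T`
  have hψbij : Function.Bijective (ResidueField.map (algebraMap 𝒪 T)) := by
    refine ⟨(ResidueField.map (algebraMap 𝒪 T)).injective, fun y => ?_⟩
    obtain ⟨a, ha⟩ := datum.residue_surjective y
    exact ⟨residue 𝒪 a, by rw [ResidueField.map_residue]; exact ha⟩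
  have hpk : ((p : ℕ) : ResidueField 𝒪) = 0 := by
    rw [← map_natCast (residue 𝒪), residue_eq_zero_iff]; exact hp𝒪
  have hNS : ∀ q : ℕ, q.Prime → q ∣ N → q ∈ S := fun q hq hqN => (hS q).2 ⟨hq, Or.inr hqN⟩
  have hSN : ∀ ℓ : ℕ, ℓ.Prime → ℓ ∉ S → ¬ ℓ ∣ N := fun ℓ hℓ hℓS hd => hℓS (hNS ℓ hℓ hd)
  have hpS : p ∈ S := (hS p).2 ⟨hp, Or.inl rfl⟩
  -- facts about `ρ̄`
  have habs : ρbar.IsAbsolutelyIrreducible :=
    isAbsolutelyIrreducible_of_lift datum.ρ _ ρbar hres hψbij datum.residual_absIrr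
  have hbarchar : ∀ (ℓ : ℕ) (hℓ : ℓ.Prime) (hℓN : ¬ ℓ ∣ N) (hℓS : ℓ ∉ (S : Set ℕ))
      (A' : ValuationSubring Ω), A'.LiesOverPrime ℓ → ∀ σ : GQ, A'.IsFrobeniusAt σ ℓ →
      LinearMap.charpoly (ρbar.ρ σ) =
        X ^ 2 - C (θ (heckeAlgebra.T hℓ hℓN hℓS)) * X + C (ℓ : ResidueField 𝒪) := by
    intro ℓ hℓ hℓN hℓS A' hA' σ hσ
    refine charpoly_rhobar_of_lift datum.ρ _ ρbar hres
      (datum.charpoly_frob ℓ hℓ hℓN hℓS A' hA' σ hσ) (datum.residue_π _) ?_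
    rw [map_natCast, map_natCast]
  have hbardet : LinearMap.det (ρbar.ρ complexConjugation) = -1 := by
    refine det_resid_complexConjugation ρbar p hpk S hpS fun q hq hqS P hP φ hφ => ?_
    have h1 := hbarchar q hq (hSN q hq hqS) (fun h' => hqS (Finset.mem_coe.1 h')) P hP φ hφ
    exact (Fermat.Agent.GR.trace_det_of_charpoly_eq ρbar.finrank_eq _ _ _ h1).2
  have hbarunr : ∀ q : ℕ, q.Prime → q ∉ S → ρbar.IsUnramifiedAt q := fun q hq hqS =>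
    isUnramifiedAt_of_isEquiv_baseChange _ ρbar _ hres
      (Fermat.Agent.GR.residual_isUnramifiedAt datum.ρ q
        (Fermat.Agent.S31.result hp hp𝒪 hpS hNS datum q hq hqS))
  have hNE := not_eisenstein_of_absIrr hp hpk θ ρbar habs hbarchar hSN
  have hN5 : 5 ≤ N := five_le_level hNsq θ
  have hSigunr : ∀ v ∈ Sig, ρbar.IsUnramifiedAt v := fun v hv => (hSig v hv).2.2.2.1
  have hSig' : ∀ v ∈ Sig, v.Prime ∧ v ∣ N ∧ v ≡ 1 [MOD p] := fun v hv =>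
    ⟨(hSig v hv).1, (hSig v hv).2.1, (hSig v hv).2.2.1⟩
  -- the system `c`
  have hcex : ∀ ℓ : Nat.Primes, ∃ c₀ : 𝒪, ∀ (hℓN : ¬ (ℓ : ℕ) ∣ N)
      (hℓS : (ℓ : ℕ) ∉ (S : Set ℕ)),
      residue 𝒪 c₀ = θ (CuspForm.heckeAlgebra.T ℓ.2 hℓN hℓS) := by
    intro ℓ
    by_cases h : ¬ (ℓ : ℕ) ∣ N ∧ (ℓ : ℕ) ∉ (S : Set ℕ)
    · obtain ⟨c₀, hc₀⟩ := residue_surjective (θ (CuspForm.heckeAlgebra.T ℓ.2 h.1 h.2))
      exact ⟨c₀, fun _ _ => hc₀⟩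
    · exact ⟨0, fun h1 h2 => absurd ⟨h1, h2⟩ h⟩
  choose c hc' using hcex
  have hc : ∀ (ℓ : ℕ) (hℓ : ℓ.Prime) (hℓN : ¬ ℓ ∣ N) (hℓS : ℓ ∉ (S : Set ℕ)),
      residue 𝒪 (c ⟨ℓ, hℓ⟩) = θ (CuspForm.heckeAlgebra.T hℓ hℓN hℓS) :=
    fun ℓ hℓ hℓN hℓS => hc' ⟨ℓ, hℓ⟩ hℓN hℓS
  -- the module of level zero
  obtain ⟨instM, instST, hfree0, hfin0, hpos, hfaith, hTact⟩ :=
    exists_level0_lvlMod N S c θ T datum hS hfull hc
  -- `c` is not Eisenstein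
  have hNE' : ∀ (D : ℕ), 0 < D → ∀ Bad : Finset ℕ, ∃ ℓ : Nat.Primes,
      (ℓ : ℕ) ∉ badSet p N ∧ (ℓ : ℕ) ∉ Bad ∧ (ℓ : ℕ) ≡ 1 [MOD D] ∧
        c ℓ - ((ℓ : ℕ) + 1 : 𝒪) ∉ maximalIdeal 𝒪 := by
    intro D hD Bad
    obtain ⟨ℓ, hℓ, hℓN, hℓS, hℓB, hℓD, hne⟩ := hNE D hD Bad
    refine ⟨⟨ℓ, hℓ⟩, ?_, hℓB, hℓD, fun hmem => hne ?_⟩
    · rw [badSet_eq_coe N S hS]
      exact hℓS
    · have h1 := (residue_eq_zero_iff _).2 hmem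
      rw [map_sub, sub_eq_zero, hc ℓ hℓ hℓN hℓS] at h1
      rw [h1, map_add, map_natCast, map_one]
  exact ⟨hN5, habs, hbarchar, hbardet, hbarunr, hSigunr, hSig', c, instM, instST, hc, hfree0,
    hfin0, hpos, hfaith, hTact, hNE'⟩

/-- the numerical setup of an admissible set of Taylor–Wiles primes. -/
theorem numSetup_of_isTWSet (hp2 : p ≠ 2) (hNsq : Squarefree N) (hN5 : 5 ≤ N)
    (hS : ∀ ℓ : ℕ, ℓ ∈ S ↔ ℓ.Prime ∧ (ℓ = p ∨ ℓ ∣ N))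
    (hSig' : ∀ v ∈ Sig, v.Prime ∧ v ∣ N ∧ v ≡ 1 [MOD p])
    {ρbar : ResidualGaloisRep (ResidueField 𝒪)} (hQ : RB.IsTWSet ρbar p S n Q)
    (hp1 : ∀ j, p ∣ Q j - 1) : NumSetup N p S Sig Q :=
  have hp : p.Prime := Fact.out
  ⟨hNsq, hN5, hp, hp2, hS, fun v hv => ⟨(hSig' v hv).1, (hSig' v hv).2.1,
    ne_two_of_modEq_one hp (hSig' v hv).2.2, ne_of_modEq_one hp (hSig' v hv).2.2⟩,
    hQ.injective, hQ.prime, hQ.notMem, hp1⟩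

/-- the Taylor–Wiles primes are not in `badSet p N`. -/
theorem notMem_badSet_of_isTWSet (hS : ∀ ℓ : ℕ, ℓ ∈ S ↔ ℓ.Prime ∧ (ℓ = p ∨ ℓ ∣ N))
    {ρbar : ResidualGaloisRep (ResidueField 𝒪)} (hQ : RB.IsTWSet ρbar p S n Q) (k : Fin r) :
    Q k ∉ badSet p N := by
  intro hk
  rw [badSet_eq_coe N S hS] at hk
  exact hQ.notMem k (by exact_mod_cast hk)

/-- distinct Frobenius eigenvalues at the Taylor–Wiles primes, in terms of the system `c`. -/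
theorem exists_roots_of_isTWSet (hnum : NumSetup N p S Sig Q)
    (hc : ∀ (ℓ : ℕ) (hℓ : ℓ.Prime) (hℓN : ¬ ℓ ∣ N) (hℓS : ℓ ∉ (S : Set ℕ)),
      residue 𝒪 (c ⟨ℓ, hℓ⟩) = θ (heckeAlgebra.T hℓ hℓN hℓS))
    {ρbar : ResidualGaloisRep (ResidueField 𝒪)}
    (hbarchar : ∀ (ℓ : ℕ) (hℓ : ℓ.Prime) (hℓN : ¬ ℓ ∣ N) (hℓS : ℓ ∉ (S : Set ℕ))
      (A' : ValuationSubring Ω), A'.LiesOverPrime ℓ → ∀ σ : GQ, A'.IsFrobeniusAt σ ℓ →
      LinearMap.charpoly (ρbar.ρ σ) =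
        X ^ 2 - C (θ (heckeAlgebra.T hℓ hℓN hℓS)) * X + C (ℓ : ResidueField 𝒪))
    (hQ : RB.IsTWSet ρbar p S n Q) (j : Fin r) (hq : (Q j).Prime) :
    ∃ α β : ResidueField 𝒪, α ≠ β ∧
      α + β = residue 𝒪 (c ⟨Q j, hq⟩) ∧ α * β = (Q j : ResidueField 𝒪) := by
  have hqN : ¬ Q j ∣ N := hnum.Q_not_dvd j
  have hqS : Q j ∉ (S : Set ℕ) := fun h => hQ.notMem j (Finset.mem_coe.1 h)
  have := exists_roots_of_distinct ρbar hq _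
    (fun P hP φ hφ => hbarchar (Q j) hq hqN hqS P hP φ hφ) (hQ.distinct j)
  rwa [← hc (Q j) hq hqN hqS] at this

/-- **[REPT-X]**: the Taylor–Wiles producers of IA′ in the modes `flat` and `tres`, from the module
side [TWMOD-LX] and the geometric form of (KEY-H). -/
theorem twProducerMainStatement_of (hMod : TWModXStatement)
    (hTh : ∀ (M : ℕ) [NeZero M], 5 ≤ M → ∀ (p : ℕ) [Fact p.Prime], ThetaKillsJ1Odd M p) :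
    TWProducerMainStatement := by
  intro 𝒪 _ _ _ _ _ _ p _ hp2 hp𝒪 ζ hζ lam hlam N _ hNsq h3 S hS θ T _ _ _ _ _ _ _ _ datum
    hfull ρbar hres md hmode hHolds Sig hSigne hSig hram
  classical
  obtain ⟨hN5, habs, hbarchar, hbardet, hbarunr, hSigunr, hSig', c, instM, instST, hc, -, -,
    hpos, hfaith, hTact, hNE'⟩ :=
    exists_producer_setup (datum := datum) hp2 hp𝒪 hNsq hS hfull ρbar hres hSig
  have hN1 : N ≠ 1 := by omega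
  obtain ⟨d, ⟨hfree, hfin, hrank⟩, hlev⟩ :=
    hMod p hp2 hp𝒪 ζ hζ lam hlam N hNsq hN1 (primesOutside (badSet p N)) (Set.Subset.refl _) c
      hNE' h3 Sig hSig'
  have hd : 0 < d := by rw [← hrank]; exact hpos
  refine ⟨d, hd, ↥(lvlModP 𝒪 (primesOutside (badSet p N)) N c), inferInstance, inferInstance,
    instM, instST, hfree, hfin, hrank, fun r n Q hQ hp1 hr => ?_⟩
  have hnum : NumSetup N p S Sig Q := numSetup_of_isTWSet hp2 hNsq hN5 hS hSig' hQ hp1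
  haveI : NeZero (N * ∏ j, Q j) := ⟨hnum.Nt_pos.ne'⟩
  haveI : NeZero (N / (∏ v ∈ Sig, v) * ((∏ v ∈ Sig, v) * ∏ j, Q j) ^ 2) := ⟨hnum.Nbig_pos.ne'⟩
  obtain ⟨L⟩ := hlev r n Q hQ.injective hQ.prime (notMem_badSet_of_isTWSet hS hQ) hQ.cong hp1
    (fun j hq => exists_roots_of_isTWSet hnum hc hbarchar hQ j hq)
    (N * ∏ j, Q j) (N / (∏ v ∈ Sig, v) * ((∏ v ∈ Sig, v) * ∏ j, Q j) ^ 2) rfl rfl
  exact nonempty_twGaloisLevelE hp2 hp𝒪 hζ hlam hnum hr hd hc hfaith hTact ρbar habs hbarchar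
    hbardet hSigunr hbarunr md hmode hHolds (hTh _ hnum.five_le_Nt p) L

end Level

end Fermat.Agent.ML.REPTX
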