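/-
PROJECT ML (S59) — [TWMOD-L] (helper2), part 6: **the primary part of `𝓜 = H¹(Γ₀(N), 𝒪[Δ])` in odd
residue characteristic**: freeness over `𝒪[Δ]`, control, the control map to level zero with its
explicit formula — the theorems of `RB/TWMOD_helper2_Base`, `RB/TWMOD_helper2_Ctl` with `5 ≤ p`
replaced by `p ≠ 2` and (for `p = 3`) a prime `≡ 2 mod 3` dividing the level.
-/
import Mathlib
import Fermat.Agent.RB.TWMOD_helper2_Ctl
import Fermat.Agent.RB.P3_helper2_T2Main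
import Fermat.Agent.RB.TWMOD_lead_ZeroPrim

set_option autoImplicit false
set_option linter.unusedSectionVars false
set_option linter.unusedVariables false
set_option linter.style.haveILetI false

namespace Fermat.Agent.ML

open CongruenceSubgroup Matrix ModularCurve.Period IsLocalRing
open scoped MatrixGroups
open Fermat.Agent.GR Fermat.Agent.W1 Fermat.Agent.W1.ES Fermat.Agent.RB Fermat.Agent.RB.TWM

section Base

variable (N M : ℕ) [NeZero N] (hM : M ∣ N) {Δ : Type} [CommGroup Δ] [Fintype Δ]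
  (π : (ZMod M)ˣ →* Δ) (hπ : Function.Surjective π)
variable (O : Type) [CommRing O] [IsDomain O] [CharZero O] [IsLocalRing O] [IsNoetherianRing O]
  [IsAdicComplete (maximalIdeal O) O]
variable {I : Type*} (ι : I → Nat.Primes)

/-- **(CD1) for the Taylor–Wiles character of `Γ₀(N)`**, odd residue characteristic. -/
theorem liftsCocycles_chiOf {p : ℕ} (hp : p.Prime) (hp2 : p ≠ 2) (hpO : (p : O) ∈ maximalIdeal O)
    (h3 : p = 3 → ∃ r : ℕ, r.Prime ∧ r ∣ N ∧ r % 3 = 2) :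
    LiftsCocycles (grpRingChar O (chiOf N M hM π)) := by
  refine P3.liftsCocycles_grpRingChar_of_odd (chiOf N M hM π) hp hp2 hpO (Gamma0 N).subtype
    Subtype.val_injective ?_
  intro hp3 δ hδ
  obtain ⟨r, hr, hrN, hr3⟩ := h3 hp3
  exact P3.Gamma0_eq_one_of_pow_three hr hrN hr3 δ hδ

/-- **`H₀` is free over `𝒪[Δ]`**, odd residue characteristic. -/
theorem free_HZero_MM_odd {p : ℕ} (hp : p.Prime) (hpO : (p : O) ∈ maximalIdeal O)
    (hL : LiftsCocycles (grpRingChar O (chiOf N M hM π)))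
    (hΔ : IsPGroup p Δ) (c : I → O) (i₀ : I)
    (hℓ₀N : ¬ ((ι i₀ : Nat.Primes) : ℕ) ∣ N)
    (hunit : IsUnit (c i₀ - ((((ι i₀ : Nat.Primes) : ℕ) : O) + 1))) :
    Module.Free (MonoidAlgebra O Δ) ↥(HZero (fun i => opM N M hM π O (ι i)) c i₀) := by
  set ℓ₀ : Nat.Primes := ι i₀ with hℓ₀
  obtain ⟨ε₀, h₀⟩ := exists_isFamIdem (O := O) (stageOne (fun i => opM N M hM π O (ι i)) i₀)
    (stageOne_commute (fun i => opM N M hM π O (ι i)) i₀) (fun _ => c i₀)
  set α := famHom (O := O) (stageOne (fun i => opM N M hM π O (ι i)) i₀)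
    (stageOne_commute (fun i => opM N M hM π O (ι i)) i₀) with hα
  set t : MvPolynomial Unit O := MvPolynomial.X () - MvPolynomial.C (((ℓ₀ : ℕ) : O) + 1) with ht
  have htm : t ∉ famIdeal (fun _ : Unit => c i₀) := by
    apply notMem_famIdeal_of_isUnit
    rw [ht, map_sub, MvPolynomial.eval_X, MvPolynomial.eval_C]
    exact hunit
  have hfree := P3.free_idemRange_cocH1_of_lifts (O := O) (chiOf N M hM π) hL hp hpO hΔ
    α (famIdeal (fun _ : Unit => c i₀))
    (datum0 N (intRepsT N ℓ₀.2 hℓ₀N)) (chiOf_cocycle (intRepsT N ℓ₀.2 hℓ₀N) M hM π) t htm (by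
      rw [ht, map_sub, hα, famHom_X, ← MvPolynomial.algebraMap_eq, AlgHom.commutes]
      apply LinearMap.ext
      intro x
      rw [cocEta_apply, LinearMap.sub_apply, Module.algebraMap_end_apply]
      show opM N M hM π O ℓ₀ x - _ = cocOp N M hM π O (intRepsT N ℓ₀.2 hℓ₀N) x - _
      rw [opM_of_not_dvd N M hM π O hℓ₀N, Fintype.card_option, Fintype.card_fin]
      congr 1
      rw [← algebraMap_smul (MonoidAlgebra O Δ) (((ℓ₀ : ℕ) : O) + 1) x]
      congr 1
      push_cast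
      rfl) ε₀ h₀.idem h₀.inv
  have e : idemRange (α ε₀) = HZero (fun i => opM N M hM π O (ι i)) c i₀ := h₀.range_eq
  rw [e] at hfree
  exact hfree

include hπ in
/-- **the primary part `H` of `𝓜` is free over `𝒪[Δ]`**, odd residue characteristic. -/
theorem free_primary_MM_odd {p : ℕ} (hp : p.Prime) (hpO : (p : O) ∈ maximalIdeal O)
    (hL : LiftsCocycles (grpRingChar O (chiOf N M hM π)))
    (hΔ : IsPGroup p Δ) (hN : N ≠ 1) (hπ1 : π (-1) = 1) (c : I → O) (i₀ : I)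
    (hℓ₀N : ¬ ((ι i₀ : Nat.Primes) : ℕ) ∣ N) (hℓ₀1 : ((ι i₀ : Nat.Primes) : ℕ) ≡ 1 [MOD N])
    (hunit : IsUnit (c i₀ - ((((ι i₀ : Nat.Primes) : ℕ) : O) + 1))) :
    Module.Free (MonoidAlgebra O Δ) ↥(primaryPartR (fun i => opM N M hM π O (ι i)) c) := by
  haveI : IsLocalRing (MonoidAlgebra O Δ) := isLocalRing_monoidAlgebra hp hpO hΔ
  exact (twoStage_MM N M hM π hπ O ι hN hπ1 c i₀ hℓ₀N hℓ₀1 hunit).free_primaryPartR
    (free_HZero_MM_odd N M hM π O ι hp hpO hL hΔ c i₀ hℓ₀N hunit)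

end Base

section Control

variable (N M : ℕ) [NeZero N] (hM : M ∣ N) {Δ : Type} [CommGroup Δ] [Fintype Δ]
  (π : (ZMod M)ˣ →* Δ) (hπ : Function.Surjective π)
variable {Δ'' : Type} [CommGroup Δ''] [Fintype Δ''] (π'' : Δ →* Δ'')
  (hπ'' : Function.Surjective π'')
variable (O : Type) [CommRing O] [IsDomain O] [CharZero O] [IsLocalRing O] [IsNoetherianRing O]
  [IsAdicComplete (maximalIdeal O) O]
variable {I : Type*} (ι : I → Nat.Primes)

include hπ hπ'' in
/-- **control for the primary part of `𝓜`**, with (CD1) as a hypothesis. -/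
theorem control_primary_MM_odd (hL : LiftsCocycles (grpRingChar O (chiOf N M hM π)))
    (hN : N ≠ 1) (hπ1 : π (-1) = 1) (c : I → O) (i₀ : I)
    (hℓ₀N : ¬ ((ι i₀ : Nat.Primes) : ℕ) ∣ N) (hℓ₀1 : ((ι i₀ : Nat.Primes) : ℕ) ≡ 1 [MOD N])
    (hunit : IsUnit (c i₀ - ((((ι i₀ : Nat.Primes) : ℕ) : O) + 1))) :
    ∃ fe : ↥(primaryPartR (fun i => opM N M hM π O (ι i)) c) →ₛₗ[
          MonoidAlgebra.mapDomainRingHom O π'']
        ↥(primaryPartR (fun i => opM N M hM (π''.comp π) O (ι i)) c),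
      (∀ x, ((fe x : ↥(primaryPartR (fun i => opM N M hM (π''.comp π) O (ι i)) c)) :
        MM N M hM (π''.comp π) O) = ctlMM N M hM π π'' O x) ∧ Function.Surjective fe ∧
      ∀ x, fe x = 0 ↔ x ∈ Ideal.span {a : MonoidAlgebra O Δ |
          ∃ δ ∈ π''.ker, a = MonoidAlgebra.of O Δ δ - 1} •
        (⊤ : Submodule (MonoidAlgebra O Δ)
          ↥(primaryPartR (fun i => opM N M hM π O (ι i)) c)) := by
  have hπ1'' : (π''.comp π) (-1) = 1 := by rw [MonoidHom.comp_apply, hπ1, map_one]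
  have h := twoStage_MM N M hM π hπ O ι hN hπ1 c i₀ hℓ₀N hℓ₀1 hunit
  have h'' := twoStage_MM N M hM (π''.comp π) (hπ''.comp hπ) O ι hN hπ1'' c i₀ hℓ₀N hℓ₀1 hunit
  exact h.control h'' (ctlMM N M hM π π'' O) (ctlMM_smul N M hM π π'' O)
    (P3.ctlMap_surjective_of_lifts (chiOf N M hM π) π'' hL hπ'') _
    (P3.ctlMap_eq_zero_iff_of_lifts (chiOf N M hM π) π'' hL hπ'')
    (fun i => ctlMM_opM N M hM π π'' O (ι i))

end Control

section Ctl

variable (Nt M : ℕ) [NeZero Nt] (hM : M ∣ Nt) {Δ : Type} [CommGroup Δ] [Fintype Δ]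
  (π : (ZMod M)ˣ →* Δ) (hπ : Function.Surjective π)
variable (O : Type) [CommRing O] [IsDomain O] [CharZero O] [IsDiscreteValuationRing O]
  [IsAdicComplete (maximalIdeal O) O]
variable {I : Type} (ι : I → Nat.Primes) (c : I → O)

/-- the trivial quotient of `Δ`. -/
abbrev trivQuot (Δ : Type) [CommGroup Δ] : Δ →* Unit := 1

theorem trivQuot_surjective : Function.Surjective (trivQuot Δ) := fun _ => ⟨1, rfl⟩

include hπ in
/-- **the control map** from the primary part of `𝓜` onto the primary part of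
`Hom_par(Γ₀(Nt), 𝒪)`, odd residue characteristic, **with its formula**:
`κ₁ x = zeroEquiv (ctlMM x)`. -/
theorem exists_ctl_zeroL (hL : LiftsCocycles (grpRingChar O (chiOf Nt M hM π)))
    (hN : Nt ≠ 1) (hπ1 : π (-1) = 1) (i₀ : I)
    (hℓ₀N : ¬ ((ι i₀ : Nat.Primes) : ℕ) ∣ Nt) (hℓ₀1 : ((ι i₀ : Nat.Primes) : ℕ) ≡ 1 [MOD Nt])
    (hunit : IsUnit (c i₀ - ((((ι i₀ : Nat.Primes) : ℕ) : O) + 1))) :
    ∃ κ₁ : ↥(primaryPartR (fun i => opM Nt M hM π O (ι i)) c) →ₗ[O]
        ↥(primaryPart (fun i : I => GR.heckeParP Nt (ι i) O O) c),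
      Function.Surjective κ₁ ∧
      (∀ x, κ₁ x = 0 ↔ x ∈ augIdeal O Δ ⊤ •
        (⊤ : Submodule (MonoidAlgebra O Δ) ↥(primaryPartR (fun i => opM Nt M hM π O (ι i)) c))) ∧
      (∀ (i : I) (x y : ↥(primaryPartR (fun i => opM Nt M hM π O (ι i)) c)),
        (y : MM Nt M hM π O) = opM Nt M hM π O (ι i) (x : MM Nt M hM π O) →
        ((κ₁ y : ↥(primaryPart (fun i : I => GR.heckeParP Nt (ι i) O O) c)) :
          ↥(parabolicHoms O (Gamma0 Nt) O)) = GR.heckeParP Nt (ι i) O O (κ₁ x)) ∧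
      ∀ x : ↥(primaryPartR (fun i => opM Nt M hM π O (ι i)) c),
        (((κ₁ x : ↥(primaryPart (fun i : I => GR.heckeParP Nt (ι i) O O) c)) :
          ↥(parabolicHoms O (Gamma0 Nt) O)) : Additive ↥(Gamma0 Nt) →+ O) =
        zeroEquiv Nt M hM ((trivQuot Δ).comp π) ((trivQuot_surjective (Δ := Δ)).comp hπ)
          (fun _ => rfl) O (ctlMM Nt M hM π (trivQuot Δ) O (x : MM Nt M hM π O)) := by
  have hπ'' : Function.Surjective (trivQuot Δ) := trivQuot_surjective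
  obtain ⟨fe, hfe, hfes, hfek⟩ := control_primary_MM_odd Nt M hM π hπ (trivQuot Δ) hπ'' O ι hL
    hN hπ1 c i₀ hℓ₀N hℓ₀1 hunit
  have hπ₁ : Function.Surjective ((trivQuot Δ).comp π) := hπ''.comp hπ
  have htriv : ∀ u, ((trivQuot Δ).comp π) u = 1 := fun _ => rfl
  have hπ1'' : ((trivQuot Δ).comp π) (-1) = 1 := rfl
  have hTS'' := twoStage_MM Nt M hM ((trivQuot Δ).comp π) hπ₁ O ι hN hπ1'' c i₀ hℓ₀N hℓ₀1 hunit
  obtain ⟨e, he⟩ := zeroPrimStatement Nt M hM ((trivQuot Δ).comp π) hπ₁ htriv ι c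
    hTS''.primaryPartR_le
  let feO : ↥(primaryPartR (fun i => opM Nt M hM π O (ι i)) c) →ₗ[O]
      ↥(primaryPartR (fun i => opM Nt M hM ((trivQuot Δ).comp π) O (ι i)) c) :=
    { toFun := fe
      map_add' := map_add fe
      map_smul' := fun a x => by
        apply Subtype.ext
        rw [RingHom.id_apply, hfe]
        show ctlMM Nt M hM π (trivQuot Δ) O (a • (x : MM Nt M hM π O)) =
          a • ((fe x : _) : MM Nt M hM _ O)
        rw [ctlMM_smul, hfe] }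
  refine ⟨e.toLinearMap ∘ₗ feO, e.surjective.comp hfes, fun x => ?_, fun i x y hxy => ?_,
    fun x => ?_⟩
  · show e (fe x) = 0 ↔ _
    rw [e.map_eq_zero_iff, hfek x]
    have : (trivQuot Δ).ker = ⊤ := MonoidHom.ker_one
    rw [this]
    rfl
  · apply Subtype.ext
    show (((e (fe y) : _) : ↥(parabolicHoms O (Gamma0 Nt) O)) : Additive ↥(Gamma0 Nt) →+ O) =
      GR.heckeGrpP Nt (ι i) O (((e (fe x) : _) : ↥(parabolicHoms O (Gamma0 Nt) O)) :
        Additive ↥(Gamma0 Nt) →+ O)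
    rw [he, he, hfe, hfe, hxy, ctlMM_opM, zeroEquiv_opM]
  · show (((e (fe x) : _) : ↥(parabolicHoms O (Gamma0 Nt) O)) : Additive ↥(Gamma0 Nt) →+ O) = _
    rw [he, hfe]

end Ctl

end Fermat.Agent.ML
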