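/-
PROJECT ML (S59) — [TWMOD-L] (helper2), part 1: **pull-backs and transfers of `1`-cocycles with
coefficients through a character** (abstract).

`u' : Γ' →* Λˣ`, `u : Γ →* Λˣ` characters, `X` a `Λ`-module.
* `cocPull f hf X : cocZ1 u X → cocZ1 u' X`, `c ↦ c ∘ f`, for `f : Γ' →* Γ` with `u ∘ f = u'`, and
  `cocPullH1`;
* `cocXfer T hT X : cocZ1 u' X → cocZ1 u X`, `(T c)(γ) = ∑ᵢ c (T.cocycle γ i)`, for a
  `GR.TransferDatum` `T` from `Γ'` to `Γ` whose cocycle satisfies `u' (T.cocycle γ i) = u γ`, and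
  `cocXferH1`;
* naturality in the coefficients (linear and semilinear);
* **Shapiro**: under `shapiroH1` they become `LR.pullHom` of the restriction of `f` to the kernels
  and the transfer of the restricted datum `T.restrictKer`.
-/
import Mathlib
import Fermat.Agent.RB.T2_helper3_Shapiro
import Fermat.Agent.GR.XFERD_helper4_Abstract
import Fermat.Agent.LR.XFER_helper4_Defs

set_option autoImplicit false
set_option linter.unusedSectionVars false

namespace Fermat.Agent.ML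

open Fermat.Agent.GR Fermat.Agent.RB Fermat.Agent.LR

universe v w w'

/-! ### Pull-back -/

section Pull

variable {Γ' : Type w'} [Group Γ'] {Γ : Type w} [Group Γ] {Λ : Type v} [CommRing Λ]
variable (u' : Γ' →* Λˣ) (u : Γ →* Λˣ) (f : Γ' →* Γ) (hf : ∀ γ', u (f γ') = u' γ')
variable (X : Type*) [AddCommGroup X] [Module Λ X]

/-- the pull-back of cocycles along `f`. -/
def cocPull : ↥(cocZ1 u X) →ₗ[Λ] ↥(cocZ1 u' X) where
  toFun c := ⟨fun γ' => c.1 (f γ'), fun γ γ' => by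
    show c.1 (f (γ * γ')) = c.1 (f γ) + ((u' γ : Λˣ) : Λ) • c.1 (f γ')
    rw [map_mul, c.2 (f γ) (f γ'), hf]⟩
  map_add' _ _ := rfl
  map_smul' _ _ := rfl

variable {X}

@[simp] theorem cocPull_apply (c : ↥(cocZ1 u X)) (γ' : Γ') :
    (cocPull u' u f hf X c).1 γ' = c.1 (f γ') := rfl

variable (X)

/-- the pull-back on `H¹`. -/
def cocPullH1 : cocH1 u X →ₗ[Λ] cocH1 u' X :=
  Submodule.mapQ _ _ (cocPull u' u f hf X) (by
    rintro ⟨c, hc⟩ hcB
    rw [mem_cocB1_submoduleOf] at hcB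
    obtain ⟨x, rfl⟩ := hcB
    rw [Submodule.mem_comap, mem_cocB1_submoduleOf]
    refine ⟨x, ?_⟩
    funext γ'
    show ((u' γ' : Λˣ) : Λ) • x - x = ((u (f γ') : Λˣ) : Λ) • x - x
    rw [hf])

variable {X}

@[simp] theorem cocPullH1_mk (c : ↥(cocZ1 u X)) :
    cocPullH1 u' u f hf X (cocH1Mk u X c) = cocH1Mk u' X (cocPull u' u f hf X c) := rfl

/-- naturality of the pull-back in the coefficients. -/
theorem cocPullH1_map {Y : Type*} [AddCommGroup Y] [Module Λ Y] (g : X →ₗ[Λ] Y)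
    (x : cocH1 u X) :
    cocH1Map u' g (cocPullH1 u' u f hf X x) = cocPullH1 u' u f hf Y (cocH1Map u g x) := by
  obtain ⟨c, rfl⟩ := cocH1Mk_surjective u x
  rfl

end Pull

/-! ### Transfer -/

section Xfer

variable {Γ' : Type w'} [Group Γ'] {Γ : Type w} [Group Γ] {Λ : Type v} [CommRing Λ]
variable (u' : Γ' →* Λˣ) (u : Γ →* Λˣ)
variable {G ι : Type*} [Group G] [Fintype ι] (T : TransferDatum Γ' Γ G ι)
variable (hT : ∀ γ i, u' (T.cocycle γ i) = u γ)
variable (X : Type*) [AddCommGroup X] [Module Λ X]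

include hT in
theorem cocXfer_mem (c : ↥(cocZ1 u' X)) :
    (fun γ => ∑ i, c.1 (T.cocycle γ i)) ∈ cocZ1 u X := by
  intro γ γ'
  have h1 : ∀ i, c.1 (T.cocycle (γ * γ') i) =
      c.1 (T.cocycle γ i) + ((u γ : Λˣ) : Λ) • c.1 (T.cocycle γ' (T.perm γ i)) := by
    intro i
    rw [T.cocycle_mul, c.2, hT]
  show ∑ i, c.1 (T.cocycle (γ * γ') i) =
    ∑ i, c.1 (T.cocycle γ i) + ((u γ : Λˣ) : Λ) • ∑ i, c.1 (T.cocycle γ' i)
  rw [Finset.sum_congr rfl fun i _ => h1 i, Finset.sum_add_distrib, ← Finset.smul_sum]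
  congr 2
  exact Equiv.sum_comp (T.permEquiv γ) (fun i => c.1 (T.cocycle γ' i))

/-- the transfer of cocycles. -/
noncomputable def cocXfer : ↥(cocZ1 u' X) →ₗ[Λ] ↥(cocZ1 u X) where
  toFun c := ⟨fun γ => ∑ i, c.1 (T.cocycle γ i), cocXfer_mem u' u T hT X c⟩
  map_add' c d := by
    ext γ
    simp [Finset.sum_add_distrib]
  map_smul' r c := by
    ext γ
    simp [Finset.smul_sum]

variable {X}

@[simp] theorem cocXfer_apply (c : ↥(cocZ1 u' X)) (γ : Γ) :
    (cocXfer u' u T hT X c).1 γ = ∑ i, c.1 (T.cocycle γ i) := rfl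

variable (X)

/-- the transfer on `H¹`. -/
noncomputable def cocXferH1 : cocH1 u' X →ₗ[Λ] cocH1 u X :=
  Submodule.mapQ _ _ (cocXfer u' u T hT X) (by
    rintro ⟨c, hc⟩ hcB
    rw [mem_cocB1_submoduleOf] at hcB
    obtain ⟨x, rfl⟩ := hcB
    rw [Submodule.mem_comap, mem_cocB1_submoduleOf]
    refine ⟨Fintype.card ι • x, ?_⟩
    funext γ
    show cocCobd u X (Fintype.card ι • x) γ = ∑ i, cocCobd u' X x (T.cocycle γ i)
    simp only [cocCobd_apply, hT, Finset.sum_const, Finset.card_univ, smul_sub]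
    rw [smul_comm])

variable {X}

@[simp] theorem cocXferH1_mk (c : ↥(cocZ1 u' X)) :
    cocXferH1 u' u T hT X (cocH1Mk u' X c) = cocH1Mk u X (cocXfer u' u T hT X c) := rfl

/-- naturality of the transfer in the coefficients. -/
theorem cocXferH1_map {Y : Type*} [AddCommGroup Y] [Module Λ Y] (g : X →ₗ[Λ] Y)
    (x : cocH1 u' X) :
    cocH1Map u g (cocXferH1 u' u T hT X x) = cocXferH1 u' u T hT Y (cocH1Map u' g x) := by
  obtain ⟨c, rfl⟩ := cocH1Mk_surjective u' x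
  rw [cocXferH1_mk, cocH1Map_mk, cocH1Map_mk, cocXferH1_mk]
  congr 1
  apply Subtype.ext
  funext γ
  simp [map_sum]

end Xfer

/-! ### Semilinear naturality -/

section Semilinear

variable {Γ' : Type w'} [Group Γ'] {Γ : Type w} [Group Γ] {Λ : Type v} [CommRing Λ]
  {Λ₂ : Type*} [CommRing Λ₂]
variable (u' : Γ' →* Λˣ) (u : Γ →* Λˣ) (u₂' : Γ' →* Λ₂ˣ) (u₂ : Γ →* Λ₂ˣ)
variable {X : Type*} [AddCommGroup X] [Module Λ X] {X₂ : Type*} [AddCommGroup X₂] [Module Λ₂ X₂]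
variable {σ : Λ →+* Λ₂}
  (hu' : ∀ γ, ((u₂' γ : Λ₂ˣ) : Λ₂) = σ ((u' γ : Λˣ) : Λ))
  (hu : ∀ γ, ((u₂ γ : Λ₂ˣ) : Λ₂) = σ ((u γ : Λˣ) : Λ))
  (g : X →ₛₗ[σ] X₂)

/-- semilinear naturality of the pull-back. -/
theorem cocH1MapSL_pull (f : Γ' →* Γ) (hf : ∀ γ', u (f γ') = u' γ')
    (hf₂ : ∀ γ', u₂ (f γ') = u₂' γ') (x : cocH1 u X) :
    cocH1MapSL u' u₂' hu' g (cocPullH1 u' u f hf X x) =
      cocPullH1 u₂' u₂ f hf₂ X₂ (cocH1MapSL u u₂ hu g x) := by
  obtain ⟨c, rfl⟩ := cocH1Mk_surjective u x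
  rfl

/-- semilinear naturality of the transfer. -/
theorem cocH1MapSL_xfer {G ι : Type*} [Group G] [Fintype ι] (T : TransferDatum Γ' Γ G ι)
    (hT : ∀ γ i, u' (T.cocycle γ i) = u γ) (hT₂ : ∀ γ i, u₂' (T.cocycle γ i) = u₂ γ)
    (x : cocH1 u' X) :
    cocH1MapSL u u₂ hu g (cocXferH1 u' u T hT X x) =
      cocXferH1 u₂' u₂ T hT₂ X₂ (cocH1MapSL u' u₂' hu' g x) := by
  obtain ⟨c, rfl⟩ := cocH1Mk_surjective u' x
  rw [cocXferH1_mk, cocH1MapSL_mk, cocH1MapSL_mk, cocXferH1_mk]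
  congr 1
  apply Subtype.ext
  funext γ
  simp [map_sum]

end Semilinear

/-! ### Shapiro -/

section Shapiro

variable {Γ' : Type w'} [Group Γ'] {Γ : Type w} [Group Γ] {O : Type v} [CommRing O]
  {Δ : Type v} [CommGroup Δ]
variable (χ' : Γ' →* Δ) (χ : Γ →* Δ)

/-- the restriction of a group homomorphism compatible with two characters to their kernels. -/
def kerMap (f : Γ' →* Γ) (hf : ∀ γ', χ (f γ') = χ' γ') : ↥χ'.ker →* ↥χ.ker where
  toFun h := ⟨f h.1, by rw [MonoidHom.mem_ker, hf, MonoidHom.mem_ker.mp h.2]⟩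
  map_one' := Subtype.ext (map_one f)
  map_mul' a b := Subtype.ext (map_mul f a.1 b.1)

@[simp] theorem coe_kerMap (f : Γ' →* Γ) (hf : ∀ γ', χ (f γ') = χ' γ') (h : ↥χ'.ker) :
    ((kerMap χ' χ f hf h : ↥χ.ker) : Γ) = f h.1 := rfl

/-- compatibility of the tautological characters along `f`. -/
theorem grpRingChar_map (f : Γ' →* Γ) (hf : ∀ γ', χ (f γ') = χ' γ') (γ' : Γ') :
    grpRingChar O χ (f γ') = grpRingChar O χ' γ' :=
  Units.ext (by rw [grpRingChar_val, grpRingChar_val, hf])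

/-- **Shapiro's map carries the pull-back of cocycles to the pull-back of homomorphisms.** -/
theorem shapiroH1_pull (f : Γ' →* Γ) (hf : ∀ γ', χ (f γ') = χ' γ')
    (x : cocH1 (grpRingChar O χ) (MonoidAlgebra O Δ)) :
    shapiroH1 χ' (cocPullH1 (grpRingChar O χ') (grpRingChar O χ) f
      (grpRingChar_map χ' χ f hf) (MonoidAlgebra O Δ) x) =
      pullHom (kerMap χ' χ f hf) O (shapiroH1 χ x) := by
  obtain ⟨c, rfl⟩ := cocH1Mk_surjective (grpRingChar O χ) x
  rfl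

variable {G ι : Type*} [Group G] (T : TransferDatum Γ' Γ G ι)

/-- the restriction of a transfer datum to the kernels of two characters with
`χ' (T.cocycle γ i) = χ γ`: same representatives. -/
def _root_.Fermat.Agent.GR.TransferDatum.restrictKer
    (hT : ∀ γ i, χ' (T.cocycle γ i) = χ γ) : TransferDatum ↥χ'.ker ↥χ.ker G ι where
  e' := T.e'.comp χ'.ker.subtype
  e'_inj := T.e'_inj.comp χ'.ker.subtype_injective
  e := T.e.comp χ.ker.subtype
  α := T.α
  exists_eq h i := ⟨T.perm h.1 i, ⟨T.cocycle h.1 i, by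
    rw [MonoidHom.mem_ker, hT, MonoidHom.mem_ker.mp h.2]⟩, T.spec h.1 i⟩
  index_eq i j h' h := T.index_eq i j h'.1 h

theorem restrictKer_xfer_cocycle (hT : ∀ γ i, χ' (T.cocycle γ i) = χ γ) (h : ↥χ.ker) (i : ι) :
    (((T.restrictKer χ' χ hT).cocycle h i : ↥χ'.ker) : Γ') = T.cocycle h.1 i := by
  have hmem : T.cocycle h.1 i ∈ χ'.ker := by
    rw [MonoidHom.mem_ker, hT, MonoidHom.mem_ker.mp h.2]
  have := (T.restrictKer χ' χ hT).cocycle_eq (γ := h) (γ' := ⟨T.cocycle h.1 i, hmem⟩) (i := i)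
    (j := T.perm h.1 i) (T.spec h.1 i)
  rw [this]

theorem restrictKer_xfer_perm (hT : ∀ γ i, χ' (T.cocycle γ i) = χ γ) (h : ↥χ.ker) (i : ι) :
    (T.restrictKer χ' χ hT).perm h i = T.perm h.1 i := by
  have hmem : T.cocycle h.1 i ∈ χ'.ker := by
    rw [MonoidHom.mem_ker, hT, MonoidHom.mem_ker.mp h.2]
  exact (T.restrictKer χ' χ hT).perm_eq (γ := h) (γ' := ⟨T.cocycle h.1 i, hmem⟩) (i := i)
    (j := T.perm h.1 i) (T.spec h.1 i)

/-- compatibility of the tautological characters with the cocycle of a transfer datum. -/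
theorem grpRingChar_xfer (hT : ∀ γ i, χ' (T.cocycle γ i) = χ γ) (γ : Γ) (i : ι) :
    grpRingChar O χ' (T.cocycle γ i) = grpRingChar O χ γ :=
  Units.ext (by rw [grpRingChar_val, grpRingChar_val, hT])

variable [Fintype ι]

/-- **Shapiro's map carries the transfer of cocycles to the transfer of the restricted datum.** -/
theorem shapiroH1_xfer (hT : ∀ γ i, χ' (T.cocycle γ i) = χ γ)
    (x : cocH1 (grpRingChar O χ') (MonoidAlgebra O Δ)) :
    shapiroH1 χ (cocXferH1 (grpRingChar O χ') (grpRingChar O χ) T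
      (grpRingChar_xfer χ' χ T hT) (MonoidAlgebra O Δ) x) =
      (T.restrictKer χ' χ hT).transferGrp O (shapiroH1 χ' x) := by
  obtain ⟨c, rfl⟩ := cocH1Mk_surjective (grpRingChar O χ') x
  rw [cocXferH1_mk, shapiroH1_mk, shapiroH1_mk]
  refine AddMonoidHom.ext fun h => ?_
  obtain ⟨h, rfl⟩ := Additive.ofMul.surjective h
  rw [shapiroZ1_apply, cocXfer_apply, TransferDatum.transferGrp_apply, MonoidAlgebra.coeff_sum,
    Finsupp.finsetSum_apply]
  refine Finset.sum_congr rfl fun i _ => ?_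
  rw [shapiroZ1_apply, restrictKer_xfer_cocycle]

end Shapiro

end Fermat.Agent.ML
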