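/-
PROJECT ML (S59) — [TWMOD-L] (helper2), part 2: **the degeneracy data at a chain prime `q ∤ N` for
the groups `Γ_H`** (`M ∣ N`, `χ = chiOf N M _ π` the character "lower right entry modulo `M`").

* `ConjReps.chi_cocycle` (abstract): if the conjugation of a `ConjReps` preserves two characters and
  the representatives are in the kernel, the cocycle of its transfer datum preserves the characters;
* `xferOn` : the restriction of a transfer datum between two subgroups of `SL₂(ℤ)` to smaller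
  subgroups containing the values of the cocycle;
* `chiOf_xferAlpha_cocycle` : helper4's `xferAlpha` (representatives in `Γ₁(N)`) preserves `χ`;
* `betaRepN`, `conjRepsBetaN`, `xferBetaN` : the `β`-datum with representatives in `Γ₁(N)`
  (`(1 b; 0 1)` and `(q x, -y; N, 1)`), and `chiOf_xferBetaN_cocycle`;
* `xferBetaN_transferGrp_eq_pushB` : on `Hom(Γ₀(N q), A)` it is LR's `pushB`.
-/
import Mathlib
import Fermat.Agent.ML.TWMODL_helper2_CocXfer
import Fermat.Agent.RB.TWMOD_helper2_Core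

set_option autoImplicit false
set_option linter.unusedSectionVars false
set_option linter.unnecessarySeqFocus false
set_option linter.style.haveILetI false

namespace Fermat.Agent.ML

open CongruenceSubgroup ModularForm Matrix ModularCurve.Period Fermat.Agent.X0N
open scoped MatrixGroups
open Fermat.Agent.GR Fermat.Agent.RB Fermat.Agent.LR Fermat.Agent.W1 Fermat.Agent.RB.TWM

/-! ### Abstract: characters and `ConjReps` -/

section AbstractChar

variable {Γ' Γ G ι Δ : Type*} [Group Γ'] [Group Γ] [Group G] [CommGroup Δ]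
  (C : ConjReps Γ' Γ G ι) (χ' : Γ' →* Δ) (χ : Γ →* Δ)

/-- the cocycle of the transfer datum of a `ConjReps` in terms of the representatives. -/
theorem _root_.Fermat.Agent.GR.ConjReps.exists_cocycle_eq (γ : Γ) (i : ι) :
    ∃ j : ι, C.P (C.g i * γ * (C.g j)⁻¹) ∧ C.toTransferDatum.perm γ i = j ∧
      C.σ * C.e (C.g i * γ * (C.g j)⁻¹) = C.e' (C.toTransferDatum.cocycle γ i) * C.σ := by
  obtain ⟨j, hj⟩ := C.cover (C.g i * γ)
  obtain ⟨γ', hγ'⟩ := C.conj _ hj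
  have key : C.toTransferDatum.α i * C.toTransferDatum.e γ =
      C.toTransferDatum.e' γ' * C.toTransferDatum.α j := by
    show C.σ * C.e (C.g i) * C.e γ = C.e' γ' * (C.σ * C.e (C.g j))
    calc C.σ * C.e (C.g i) * C.e γ
        = C.σ * C.e (C.g i * γ * (C.g j)⁻¹) * C.e (C.g j) := by
          rw [mul_assoc, mul_assoc, ← map_mul, ← map_mul, inv_mul_cancel_right]
      _ = C.e' γ' * (C.σ * C.e (C.g j)) := by rw [hγ', mul_assoc]
  obtain ⟨h1, h2⟩ := C.toTransferDatum.eq_of_eq key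
  exact ⟨j, hj, h1, by rw [h2]; exact hγ'⟩

/-- **the cocycle of a `ConjReps` preserves characters** which are preserved by the conjugation
and trivial on the representatives. -/
theorem _root_.Fermat.Agent.GR.ConjReps.chi_cocycle
    (hconj : ∀ (m : Γ) (γ' : Γ'), C.P m → C.σ * C.e m = C.e' γ' * C.σ → χ' γ' = χ m)
    (hg : ∀ i, χ (C.g i) = 1) (γ : Γ) (i : ι) :
    χ' (C.toTransferDatum.cocycle γ i) = χ γ := by
  obtain ⟨j, hj, -, h⟩ := C.exists_cocycle_eq γ i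
  rw [hconj _ _ hj h, map_mul, map_mul, map_inv, hg, hg, one_mul, inv_one, mul_one]

end AbstractChar

/-! ### Restriction of a transfer datum to subgroups -/

section XferOn

variable {Γ₀' Γ₀ : Subgroup SL(2, ℤ)} {ι : Type*}
  (T : TransferDatum ↥Γ₀' ↥Γ₀ (GL (Fin 2) ℝ) ι) (hT' : T.e' = slEmb Γ₀') (hT : T.e = slEmb Γ₀)
  (Γ' Γ : Subgroup SL(2, ℤ)) (h' : Γ' ≤ Γ₀') (h : Γ ≤ Γ₀)
  (hcoc : ∀ (γ : ↥Γ₀), (γ : SL(2, ℤ)) ∈ Γ → ∀ i, ((T.cocycle γ i : ↥Γ₀') : SL(2, ℤ)) ∈ Γ')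

/-- **the restriction of a transfer datum** from `Γ₀'` to `Γ₀` to subgroups `Γ' ≤ Γ₀'`, `Γ ≤ Γ₀`
such that the cocycle maps `Γ` to `Γ'`: same representatives. -/
noncomputable def xferOn : TransferDatum ↥Γ' ↥Γ (GL (Fin 2) ℝ) ι where
  e' := slEmb Γ'
  e'_inj := slEmb_injective Γ'
  e := slEmb Γ
  α := T.α
  exists_eq γ i := by
    refine ⟨T.perm ⟨γ, h γ.2⟩ i, ⟨T.cocycle ⟨γ, h γ.2⟩ i, hcoc ⟨γ, h γ.2⟩ γ.2 i⟩, ?_⟩
    have h1 := T.spec ⟨γ, h γ.2⟩ i
    rw [hT', hT] at h1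
    exact h1
  index_eq i j γ' hij := by
    refine T.index_eq i j ⟨γ', h' γ'.2⟩ ?_
    rw [hT']
    exact hij

@[simp] theorem xferOn_e' : (xferOn T hT' hT Γ' Γ h' h hcoc).e' = slEmb Γ' := rfl

@[simp] theorem xferOn_e : (xferOn T hT' hT Γ' Γ h' h hcoc).e = slEmb Γ := rfl

@[simp] theorem xferOn_α (i : ι) : (xferOn T hT' hT Γ' Γ h' h hcoc).α i = T.α i := rfl

theorem xferOn_spec (γ : ↥Γ) (i : ι) :
    (xferOn T hT' hT Γ' Γ h' h hcoc).α i * (xferOn T hT' hT Γ' Γ h' h hcoc).e γ =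
      (xferOn T hT' hT Γ' Γ h' h hcoc).e'
        ⟨T.cocycle ⟨γ, h γ.2⟩ i, hcoc ⟨γ, h γ.2⟩ γ.2 i⟩ *
        (xferOn T hT' hT Γ' Γ h' h hcoc).α (T.perm ⟨γ, h γ.2⟩ i) := by
  have h1 := T.spec ⟨γ, h γ.2⟩ i
  rw [hT', hT] at h1
  exact h1

theorem xferOn_perm (γ : ↥Γ) (i : ι) :
    (xferOn T hT' hT Γ' Γ h' h hcoc).perm γ i = T.perm ⟨γ, h γ.2⟩ i :=
  (xferOn T hT' hT Γ' Γ h' h hcoc).perm_eq (xferOn_spec T hT' hT Γ' Γ h' h hcoc γ i)

theorem coe_xferOn_cocycle (γ : ↥Γ) (i : ι) :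
    (((xferOn T hT' hT Γ' Γ h' h hcoc).cocycle γ i : ↥Γ') : SL(2, ℤ)) =
      ((T.cocycle ⟨γ, h γ.2⟩ i : ↥Γ₀') : SL(2, ℤ)) := by
  rw [(xferOn T hT' hT Γ' Γ h' h hcoc).cocycle_eq (xferOn_spec T hT' hT Γ' Γ h' h hcoc γ i)]

end XferOn

/-! ### The characters at the levels `N` and `N q` -/

section Levels

variable (N q M : ℕ) (hM : M ∣ N) {Δ : Type*} [CommGroup Δ] (π : (ZMod M)ˣ →* Δ)

include hM in
theorem dvd_mul_level : M ∣ N * q := Dvd.dvd.mul_right hM q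

include hM in
/-- `χ` at two levels only depends on the lower right entry modulo `M`. -/
theorem chiOf_eq_chiOf {N' : ℕ} (hM' : M ∣ N') (γ' : Gamma0 N') (γ : Gamma0 N)
    (hγ : ((((γ' : SL(2, ℤ)) 1 1 : ℤ)) : ZMod M) = ((((γ : SL(2, ℤ)) 1 1 : ℤ)) : ZMod M)) :
    chiOf N' M hM' π γ' = chiOf N M hM π γ := by
  rw [chiOf_apply, chiOf_apply]
  congr 1
  apply Units.ext
  rw [coe_chiD, coe_chiD, hγ]

theorem chiOf_inclHom (γ' : Gamma0 (N * q)) :
    chiOf N M hM π (inclHom N q γ') = chiOf (N * q) M (dvd_mul_level N q M hM) π γ' :=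
  (chiOf_eq_chiOf N M hM π (dvd_mul_level N q M hM) γ' (inclHom N q γ') rfl).symm

theorem chiOf_conjDownHom (hq : q.Prime) (γ' : Gamma0 (N * q)) :
    chiOf N M hM π (conjDownHom N q hq γ') = chiOf (N * q) M (dvd_mul_level N q M hM) π γ' :=
  (chiOf_eq_chiOf N M hM π (dvd_mul_level N q M hM) γ' (conjDownHom N q hq γ')
    (by rw [conjDownHom_one_one])).symm

end Levels

/-! ### The datum `α` -/

section Alpha

variable (N q M : ℕ) (hM : M ∣ N) {Δ : Type*} [CommGroup Δ] (π : (ZMod M)ˣ →* Δ)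
variable {x y : ℤ} (h : (q : ℤ) * x + N * y = 1)

include h in
theorem alGammaOne_mem_Gamma1 : alGammaOne N q x y h ∈ Gamma1 N := by
  rw [Gamma1_mem]
  refine ⟨?_, ?_, ?_⟩
  · show (((1 : ℤ) : ℤ) : ZMod N) = 1
    simp
  · show ((((q : ℤ) * x : ℤ)) : ZMod N) = 1
    have h1 : (q : ℤ) * x = 1 - N * y := by linarith
    rw [h1]
    simp
  · show ((((N : ℤ) : ℤ)) : ZMod N) = 0
    simp

theorem lowerUni_mem_Gamma1 (b : ℤ) : lowerUni ((N : ℤ) * b) ∈ Gamma1 N := by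
  rw [Gamma1_mem]
  refine ⟨?_, ?_, ?_⟩
  · show (((1 : ℤ) : ℤ) : ZMod N) = 1
    simp
  · show (((1 : ℤ) : ℤ) : ZMod N) = 1
    simp
  · show ((((N : ℤ) * b : ℤ)) : ZMod N) = 0
    simp

theorem upperUni_mem_Gamma1 (b : ℤ) : upperUni b ∈ Gamma1 N := by
  rw [Gamma1_mem]
  refine ⟨?_, ?_, ?_⟩
  · show (((1 : ℤ) : ℤ) : ZMod N) = 1
    simp
  · show (((1 : ℤ) : ℤ) : ZMod N) = 1
    simp
  · show (((0 : ℤ) : ℤ) : ZMod N) = 0
    simp

theorem alphaRep_mem_Gamma1 (i : Option (Fin q)) :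
    ((alphaRep N q h i : Gamma0 N) : SL(2, ℤ)) ∈ Gamma1 N := by
  cases i with
  | none => exact alGammaOne_mem_Gamma1 N q h
  | some b => exact lowerUni_mem_Gamma1 N _

/-- **`xferAlpha` preserves the characters.** -/
theorem chiOf_xferAlpha_cocycle (hq : q.Prime) (γ : Gamma0 N) (i : Option (Fin q)) :
    chiOf (N * q) M (dvd_mul_level N q M hM) π ((xferAlpha N q h hq).cocycle γ i) =
      chiOf N M hM π γ := by
  refine (conjRepsAlpha N q h hq).chi_cocycle (chiOf (N * q) M (dvd_mul_level N q M hM) π)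
    (chiOf N M hM π) ?_ ?_ γ i
  · intro m γ' _ hmγ
    have h1 : gammaEmb N m = gammaEmb (N * q) γ' := by
      have h2 : (1 : GL (Fin 2) ℝ) * gammaEmb N m = gammaEmb (N * q) γ' * 1 := hmγ
      rwa [one_mul, mul_one] at h2
    have h3 : ((γ' : Gamma0 (N * q)) : SL(2, ℤ)) = ((m : Gamma0 N) : SL(2, ℤ)) :=
      (Matrix.SpecialLinearGroup.mapGL_injective h1).symm
    exact chiOf_eq_chiOf N M hM π (dvd_mul_level N q M hM) γ' m (by rw [h3])
  · intro j
    exact chiOf_eq_one_of_mem_Gamma1 N M hM π _ (alphaRep_mem_Gamma1 N q h j)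

end Alpha

/-! ### The datum `β`, with representatives in `Γ₁(N)` -/

section Beta

variable (N q : ℕ) {x y : ℤ} (h : (q : ℤ) * x + N * y = 1)

/-- `γ₂' = (q x, -y; N, 1) ∈ Γ₁(N)`. -/
def gammaTwoN : SL(2, ℤ) :=
  ⟨!![(q : ℤ) * x, -y; (N : ℤ), 1], by rw [Matrix.det_fin_two_of]; linear_combination h⟩

theorem gammaTwoN_mem_Gamma1 : gammaTwoN N q h ∈ Gamma1 N := by
  rw [Gamma1_mem]
  refine ⟨?_, ?_, ?_⟩
  · show ((((q : ℤ) * x : ℤ)) : ZMod N) = 1
    have h1 : (q : ℤ) * x = 1 - N * y := by linarith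
    rw [h1]
    simp
  · show (((1 : ℤ) : ℤ) : ZMod N) = 1
    simp
  · show ((((N : ℤ) : ℤ)) : ZMod N) = 0
    simp

theorem gammaTwoN_mem : gammaTwoN N q h ∈ Gamma0 N :=
  Gamma1_in_Gamma0 N (gammaTwoN_mem_Gamma1 N q h)

/-- the representatives of `(Γ₀(N) ∩ Γ⁰(q)) \ Γ₀(N)` in `Γ₁(N)`: `(1 b; 0 1)` (`b < q`) and
`γ₂' = (q x, -y; N, 1)`. -/
def betaRepN : Option (Fin q) → Gamma0 N
  | none => ⟨gammaTwoN N q h, gammaTwoN_mem N q h⟩
  | some b => ⟨upperUni ((b : ℕ) : ℤ), upperUni_mem N _⟩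

/-- the upper left entries of the representatives. -/
def betaAN (x : ℤ) : Option (Fin q) → ℤ
  | none => (q : ℤ) * x
  | some _ => 1

theorem betaRepN_zero_zero (i : Option (Fin q)) :
    ((betaRepN N q h i : Gamma0 N) : SL(2, ℤ)) 0 0 = betaAN q x i := by
  cases i <;> rfl

theorem betaRepN_zero_one (i : Option (Fin q)) :
    ((betaRepN N q h i : Gamma0 N) : SL(2, ℤ)) 0 1 = betaB q y i := by
  cases i <;> rfl

theorem betaRepN_mem_Gamma1 (i : Option (Fin q)) :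
    ((betaRepN N q h i : Gamma0 N) : SL(2, ℤ)) ∈ Gamma1 N := by
  cases i with
  | none => exact gammaTwoN_mem_Gamma1 N q h
  | some b => exact upperUni_mem_Gamma1 N _

variable {N q}

theorem betaN_cover (hq : q.Prime) (g₀ : Gamma0 N) :
    ∃ j : Option (Fin q), (q : ℤ) ∣ ((g₀ * (betaRepN N q h j)⁻¹ : Gamma0 N) : SL(2, ℤ)) 0 1 := by
  by_cases ha : (q : ℤ) ∣ (g₀ : SL(2, ℤ)) 0 0
  · refine ⟨none, ?_⟩
    rw [Subgroup.coe_mul, Subgroup.coe_inv, SL2_mul_inv_zero_one, betaRepN_zero_zero,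
      betaRepN_zero_one]
    exact dvd_sub (Dvd.dvd.mul_left (dvd_mul_right _ _) _) (Dvd.dvd.mul_right ha _)
  · obtain ⟨b, hb⟩ := exists_fin_dvd_sub_mul hq ((g₀ : SL(2, ℤ)) 0 1) _ ha
    refine ⟨some b, ?_⟩
    rw [Subgroup.coe_mul, Subgroup.coe_inv, SL2_mul_inv_zero_one, betaRepN_zero_zero,
      betaRepN_zero_one]
    have : (g₀ : SL(2, ℤ)) 0 1 * betaAN q x (some b) - (g₀ : SL(2, ℤ)) 0 0 * betaB q y (some b) =
        (g₀ : SL(2, ℤ)) 0 1 - (g₀ : SL(2, ℤ)) 0 0 * ((b : ℕ) : ℤ) := by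
      simp only [betaAN, betaB]; ring
    rw [this]
    exact hb

theorem betaN_distinct (hq : q.Prime) (i j : Option (Fin q))
    (hP : (q : ℤ) ∣ ((betaRepN N q h i * (betaRepN N q h j)⁻¹ : Gamma0 N) : SL(2, ℤ)) 0 1) :
    i = j := by
  have hy := xferd_not_dvd_y_of_bezout N q h hq
  rw [Subgroup.coe_mul, Subgroup.coe_inv, SL2_mul_inv_zero_one, betaRepN_zero_zero,
    betaRepN_zero_one, betaRepN_zero_zero, betaRepN_zero_one] at hP
  cases i with
  | none =>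
    cases j with
    | none => rfl
    | some b' =>
      exfalso
      simp only [betaAN, betaB] at hP
      have h2 : -y * 1 - (q : ℤ) * x * ((b' : ℕ) : ℤ) =
          -(y + (q : ℤ) * (x * ((b' : ℕ) : ℤ))) := by ring
      rw [h2, dvd_neg] at hP
      exact hy ((dvd_add_left (dvd_mul_right _ _)).mp hP)
  | some b =>
    cases j with
    | none =>
      exfalso
      simp only [betaAN, betaB] at hP
      have h2 : ((b : ℕ) : ℤ) * ((q : ℤ) * x) - 1 * -y =
          y + (q : ℤ) * (((b : ℕ) : ℤ) * x) := by ring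
      rw [h2] at hP
      exact hy ((dvd_add_left (dvd_mul_right _ _)).mp hP)
    | some b' =>
      simp only [betaAN, betaB] at hP
      have h2 : ((b : ℕ) : ℤ) * 1 - 1 * ((b' : ℕ) : ℤ) = ((b : ℕ) : ℤ) - ((b' : ℕ) : ℤ) := by ring
      rw [h2] at hP
      rw [fin_eq_of_dvd_sub b b' hP]

variable (N q)

/-- **the coset representatives of the degeneracy map `β`, in `Γ₁(N)`**, as a `ConjReps`
(`σ = diag(1, q)`): helper4's `conjRepsBeta` with `γ₂` replaced by `γ₂'`. -/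
noncomputable def conjRepsBetaN (hq : q.Prime) :
    ConjReps (Gamma0 (N * q)) (Gamma0 N) (GL (Fin 2) ℝ) (Option (Fin q)) where
  e' := gammaEmb (N * q)
  e'_inj := gammaEmb_injective (N * q)
  e := gammaEmb N
  e_inj := gammaEmb_injective N
  σ := heckeMatrix q 0
  g := betaRepN N q h
  P m := (q : ℤ) ∣ (m : SL(2, ℤ)) 0 1
  conj := (conjRepsBeta N q h hq).conj
  cover g₀ := betaN_cover h hq g₀
  distinct i j hP := betaN_distinct h hq i j hP
  conj_back := (conjRepsBeta N q h hq).conj_back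

/-- **the transfer datum of the degeneracy map `β`** with representatives
`diag(1, q) · Γ₁(N)`. -/
noncomputable def xferBetaN (hq : q.Prime) :
    TransferDatum (Gamma0 (N * q)) (Gamma0 N) (GL (Fin 2) ℝ) (Option (Fin q)) :=
  (conjRepsBetaN N q h hq).toTransferDatum

@[simp] theorem xferBetaN_e' (hq : q.Prime) : (xferBetaN N q h hq).e' = GR.gammaEmb (N * q) := rfl

@[simp] theorem xferBetaN_e (hq : q.Prime) : (xferBetaN N q h hq).e = GR.gammaEmb N := rfl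

theorem xferBetaN_α (hq : q.Prime) (i : Option (Fin q)) :
    (xferBetaN N q h hq).α i = heckeMatrix q 0 * GR.gammaEmb N (betaRepN N q h i) := rfl

end Beta

section BetaChar

variable (N q M : ℕ) (hM : M ∣ N) {Δ : Type*} [CommGroup Δ] (π : (ZMod M)ˣ →* Δ)
variable {x y : ℤ} (h : (q : ℤ) * x + N * y = 1)

/-- the conjugation by `diag(1, q)` preserves the lower right entry. -/
theorem lowerRight_eq_of_heckeMatrix_mul (hq : q.Prime) (m : Gamma0 N) (γ' : Gamma0 (N * q))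
    (hmγ : heckeMatrix q 0 * gammaEmb N m = gammaEmb (N * q) γ' * heckeMatrix q 0) :
    (γ' : SL(2, ℤ)) 1 1 = (m : SL(2, ℤ)) 1 1 := by
  have h1 := (((isZMat_heckeMatrix_zero hq.ne_zero).mul (isZMat_gammaEmb m)).eq_iff
    ((isZMat_gammaEmb γ').mul (isZMat_heckeMatrix_zero hq.ne_zero))).mp hmγ
  rw [utZ_mul_eq_iff] at h1
  obtain ⟨-, -, -, h11⟩ := h1
  have hq0 : (q : ℤ) ≠ 0 := by exact_mod_cast hq.ne_zero
  have h2 : (q : ℤ) * (m : SL(2, ℤ)) 1 1 = (q : ℤ) * (γ' : SL(2, ℤ)) 1 1 := by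
    linarith
  exact (mul_left_cancel₀ hq0 h2).symm

/-- **`xferBetaN` preserves the characters.** -/
theorem chiOf_xferBetaN_cocycle (hq : q.Prime) (γ : Gamma0 N) (i : Option (Fin q)) :
    chiOf (N * q) M (dvd_mul_level N q M hM) π ((xferBetaN N q h hq).cocycle γ i) =
      chiOf N M hM π γ := by
  refine (conjRepsBetaN N q h hq).chi_cocycle (chiOf (N * q) M (dvd_mul_level N q M hM) π)
    (chiOf N M hM π) ?_ ?_ γ i
  · intro m γ' _ hmγ
    exact chiOf_eq_chiOf N M hM π (dvd_mul_level N q M hM) γ' m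
      (by rw [lowerRight_eq_of_heckeMatrix_mul N q hq m γ' hmγ])
  · intro j
    exact chiOf_eq_one_of_mem_Gamma1 N M hM π _ (betaRepN_mem_Gamma1 N q h j)

end BetaChar

end Fermat.Agent.ML
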