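/-
PROJECT ML (S59) — [TWMOD-L] (helper2), part 3: **the degeneracy maps at a chain prime `q ∤ N` on
the twisted modules `𝓜 = H¹(Γ₀(N), 𝒪[Δ])`** and their relations.

* `ConjReps.restrictKer` : the restriction of a `ConjReps` to the kernels of two characters;
* `pullAM`, `pullBM` : `𝓜(N) → 𝓜(N q)` (`Λ`-linear), `pushAM`, `pushBM` : `𝓜(N q) → 𝓜(N)`;
* `shapiroH1_pullAM`, … : under Shapiro's map they are the restriction along `ker χ' → ker χ` and
  the transfer of the restricted data;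
* `pushAM_pullAM`, `pushBM_pullBM` : `= q + 1`;
* `pushBM_pullAM` : `= T_q`;  `pushAM_pullBM` : `= [π q]⁻¹ T_q`.
-/
import Mathlib
import Fermat.Agent.ML.TWMODL_helper2_DegData
import Fermat.Agent.LR.XFER_helper4_Abstract

set_option autoImplicit false
set_option linter.unusedSectionVars false
set_option linter.unnecessarySeqFocus false
set_option linter.style.haveILetI false

namespace Fermat.Agent.ML

open CongruenceSubgroup ModularForm Matrix ModularCurve.Period Fermat.Agent.X0N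
open scoped MatrixGroups
open Fermat.Agent.GR Fermat.Agent.RB Fermat.Agent.LR Fermat.Agent.W1 Fermat.Agent.RB.TWM

/-! ### Restriction of a `ConjReps` to the kernels of two characters -/

section ConjRestrict

variable {Γ' Γ G ι Δ : Type*} [Group Γ'] [Group Γ] [Group G] [CommGroup Δ]
  (C : ConjReps Γ' Γ G ι) (χ' : Γ' →* Δ) (χ : Γ →* Δ)
  (hconj : ∀ (m : Γ) (γ' : Γ'), C.P m → C.σ * C.e m = C.e' γ' * C.σ → χ' γ' = χ m)
  (hg : ∀ i, χ (C.g i) = 1)

/-- the restriction of a `ConjReps` to the kernels of two characters preserved by the conjugation,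
the representatives being in the kernel. -/
def _root_.Fermat.Agent.GR.ConjReps.restrictKer : ConjReps ↥χ'.ker ↥χ.ker G ι where
  e' := C.e'.comp χ'.ker.subtype
  e'_inj := C.e'_inj.comp χ'.ker.subtype_injective
  e := C.e.comp χ.ker.subtype
  e_inj := C.e_inj.comp χ.ker.subtype_injective
  σ := C.σ
  g i := ⟨C.g i, MonoidHom.mem_ker.mpr (hg i)⟩
  P m := C.P m.1
  conj m hm := by
    obtain ⟨γ', hγ'⟩ := C.conj m.1 hm
    exact ⟨⟨γ', by rw [MonoidHom.mem_ker, hconj m.1 γ' hm hγ', MonoidHom.mem_ker.mp m.2]⟩, hγ'⟩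
  cover g₀ := C.cover g₀.1
  distinct i j hP := C.distinct i j hP
  conj_back γ' := by
    obtain ⟨m, hm, hm'⟩ := C.conj_back γ'.1
    refine ⟨⟨m, ?_⟩, hm, hm'⟩
    rw [MonoidHom.mem_ker, ← hconj m γ'.1 hm hm'.symm, MonoidHom.mem_ker.mp γ'.2]

theorem _root_.Fermat.Agent.GR.ConjReps.restrictKer_toTransferDatum :
    (C.restrictKer χ' χ hconj hg).toTransferDatum =
      C.toTransferDatum.restrictKer χ' χ (C.chi_cocycle χ' χ hconj hg) := rfl

end ConjRestrict

/-! ### The four degeneracy maps -/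

section Maps

variable (N q M : ℕ) [NeZero N] [NeZero (N * q)] (hM : M ∣ N) (hq : q.Prime) (hqN : ¬ q ∣ N)
  {Δ : Type} [CommGroup Δ] (π : (ZMod M)ˣ →* Δ) (O : Type) [CommRing O]

/-- **`α^*`** on the twisted modules. -/
noncomputable def pullAM :
    MM N M hM π O →ₗ[MonoidAlgebra O Δ] MM (N * q) M (dvd_mul_level N q M hM) π O :=
  cocPullH1 (grpRingChar O (chiOf (N * q) M (dvd_mul_level N q M hM) π))
    (grpRingChar O (chiOf N M hM π)) (inclHom N q)
    (grpRingChar_map (chiOf (N * q) M (dvd_mul_level N q M hM) π) (chiOf N M hM π) (inclHom N q)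
      (chiOf_inclHom N q M hM π)) (MonoidAlgebra O Δ)

/-- **`β^*`** on the twisted modules. -/
noncomputable def pullBM :
    MM N M hM π O →ₗ[MonoidAlgebra O Δ] MM (N * q) M (dvd_mul_level N q M hM) π O :=
  cocPullH1 (grpRingChar O (chiOf (N * q) M (dvd_mul_level N q M hM) π))
    (grpRingChar O (chiOf N M hM π)) (conjDownHom N q hq)
    (grpRingChar_map (chiOf (N * q) M (dvd_mul_level N q M hM) π) (chiOf N M hM π)
      (conjDownHom N q hq) (chiOf_conjDownHom N q M hM π hq)) (MonoidAlgebra O Δ)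

/-- **`α_*`** on the twisted modules. -/
noncomputable def pushAM :
    MM (N * q) M (dvd_mul_level N q M hM) π O →ₗ[MonoidAlgebra O Δ] MM N M hM π O :=
  cocXferH1 (grpRingChar O (chiOf (N * q) M (dvd_mul_level N q M hM) π))
    (grpRingChar O (chiOf N M hM π)) (xferAlpha N q (bez_eq hq hqN) hq)
    (grpRingChar_xfer (chiOf (N * q) M (dvd_mul_level N q M hM) π) (chiOf N M hM π) _
      (chiOf_xferAlpha_cocycle N q M hM π (bez_eq hq hqN) hq)) (MonoidAlgebra O Δ)

/-- **`β_*`** on the twisted modules. -/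
noncomputable def pushBM :
    MM (N * q) M (dvd_mul_level N q M hM) π O →ₗ[MonoidAlgebra O Δ] MM N M hM π O :=
  cocXferH1 (grpRingChar O (chiOf (N * q) M (dvd_mul_level N q M hM) π))
    (grpRingChar O (chiOf N M hM π)) (xferBetaN N q (bez_eq hq hqN) hq)
    (grpRingChar_xfer (chiOf (N * q) M (dvd_mul_level N q M hM) π) (chiOf N M hM π) _
      (chiOf_xferBetaN_cocycle N q M hM π (bez_eq hq hqN) hq)) (MonoidAlgebra O Δ)

/-! ### Under Shapiro's map -/

/-- the inclusion `ker χ' → ker χ`. -/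
noncomputable def kerIncl : ↥(chiOf (N * q) M (dvd_mul_level N q M hM) π).ker →* ↥(chiOf N M hM π).ker :=
  kerMap (chiOf (N * q) M (dvd_mul_level N q M hM) π) (chiOf N M hM π) (inclHom N q)
    (chiOf_inclHom N q M hM π)

/-- the conjugation `ker χ' → ker χ`. -/
noncomputable def kerConj : ↥(chiOf (N * q) M (dvd_mul_level N q M hM) π).ker →* ↥(chiOf N M hM π).ker :=
  kerMap (chiOf (N * q) M (dvd_mul_level N q M hM) π) (chiOf N M hM π) (conjDownHom N q hq)
    (chiOf_conjDownHom N q M hM π hq)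

/-- the transfer datum `α` between the kernels. -/
noncomputable def xferAlphaK : TransferDatum ↥(chiOf (N * q) M (dvd_mul_level N q M hM) π).ker
    ↥(chiOf N M hM π).ker (GL (Fin 2) ℝ) (Option (Fin q)) :=
  (xferAlpha N q (bez_eq hq hqN) hq).restrictKer (chiOf (N * q) M (dvd_mul_level N q M hM) π)
    (chiOf N M hM π) (chiOf_xferAlpha_cocycle N q M hM π (bez_eq hq hqN) hq)

/-- the transfer datum `β` between the kernels. -/
noncomputable def xferBetaK : TransferDatum ↥(chiOf (N * q) M (dvd_mul_level N q M hM) π).ker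
    ↥(chiOf N M hM π).ker (GL (Fin 2) ℝ) (Option (Fin q)) :=
  (xferBetaN N q (bez_eq hq hqN) hq).restrictKer (chiOf (N * q) M (dvd_mul_level N q M hM) π)
    (chiOf N M hM π) (chiOf_xferBetaN_cocycle N q M hM π (bez_eq hq hqN) hq)

theorem shapiroH1_pullAM (x : MM N M hM π O) :
    shapiroH1 (chiOf (N * q) M (dvd_mul_level N q M hM) π) (pullAM N q M hM π O x) =
      pullHom (kerIncl N q M hM π) O (shapiroH1 (chiOf N M hM π) x) :=
  shapiroH1_pull _ _ _ _ x

theorem shapiroH1_pullBM (x : MM N M hM π O) :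
    shapiroH1 (chiOf (N * q) M (dvd_mul_level N q M hM) π) (pullBM N q M hM hq π O x) =
      pullHom (kerConj N q M hM hq π) O (shapiroH1 (chiOf N M hM π) x) :=
  shapiroH1_pull _ _ _ _ x

theorem shapiroH1_pushAM (y : MM (N * q) M (dvd_mul_level N q M hM) π O) :
    shapiroH1 (chiOf N M hM π) (pushAM N q M hM hq hqN π O y) =
      (xferAlphaK N q M hM hq hqN π).transferGrp O
        (shapiroH1 (chiOf (N * q) M (dvd_mul_level N q M hM) π) y) :=
  shapiroH1_xfer _ _ _ _ y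

theorem shapiroH1_pushBM (y : MM (N * q) M (dvd_mul_level N q M hM) π O) :
    shapiroH1 (chiOf N M hM π) (pushBM N q M hM hq hqN π O y) =
      (xferBetaK N q M hM hq hqN π).transferGrp O
        (shapiroH1 (chiOf (N * q) M (dvd_mul_level N q M hM) π) y) :=
  shapiroH1_xfer _ _ _ _ y

end Maps

/-! ### The relations -/

section Relations

variable (N q M : ℕ) [NeZero N] [NeZero (N * q)] (hM : M ∣ N) (hq : q.Prime) (hqN : ¬ q ∣ N)
  {Δ : Type} [CommGroup Δ] [Fintype Δ] (π : (ZMod M)ˣ →* Δ) (hπ : Function.Surjective π)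
  (O : Type) [CommRing O]

/-- the embedding of `ker χ` in `GL₂(ℝ)`. -/
noncomputable def kerEmb : ↥(chiOf N M hM π).ker →* GL (Fin 2) ℝ :=
  (GR.gammaEmb N).comp (chiOf N M hM π).ker.subtype

theorem kerEmb_injective : Function.Injective (kerEmb N M hM π) :=
  (GR.gammaEmb_injective N).comp (chiOf N M hM π).ker.subtype_injective

/-- an element of `Γ₁(N)` as an element of `ker χ`. -/
def kerOfGamma1 (g : Gamma0 N) (hg : (g : SL(2, ℤ)) ∈ Gamma1 N) : ↥(chiOf N M hM π).ker :=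
  ⟨g, MonoidHom.mem_ker.mpr (chiOf_eq_one_of_mem_Gamma1 N M hM π g hg)⟩

include hπ in
/-- **`α_* α^* = q + 1`** on the twisted modules. -/
theorem pushAM_pullAM (x : MM N M hM π O) :
    pushAM N q M hM hq hqN π O (pullAM N q M hM π O x) = (q + 1) • x := by
  apply shapiroH1_injective (O := O) (chiOf N M hM π) (chiOf_surjective N M hM π hπ)
  rw [shapiroH1_pushAM, shapiroH1_pullAM, map_nsmul]
  have h := transferGrp_pullHom_eq_card (xferAlphaK N q M hM hq hqN π) (kerEmb N M hM π)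
    (kerEmb_injective N M hM π) (MonoidHom.id _) (fun _ => rfl) (kerIncl N q M hM π) 1
    (fun γ' => by rw [mul_one, one_mul]; rfl)
    (fun i => kerOfGamma1 N M hM π (alphaRep N q (bez_eq hq hqN) i)
      (alphaRep_mem_Gamma1 N q (bez_eq hq hqN) i)) (fun _ => rfl)
    (shapiroH1 (chiOf N M hM π) x)
  rw [Fintype.card_option, Fintype.card_fin] at h
  exact h

include hπ in
/-- **`β_* β^* = q + 1`** on the twisted modules. -/
theorem pushBM_pullBM (x : MM N M hM π O) :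
    pushBM N q M hM hq hqN π O (pullBM N q M hM hq π O x) = (q + 1) • x := by
  apply shapiroH1_injective (O := O) (chiOf N M hM π) (chiOf_surjective N M hM π hπ)
  rw [shapiroH1_pushBM, shapiroH1_pullBM, map_nsmul]
  have h := transferGrp_pullHom_eq_card (xferBetaK N q M hM hq hqN π) (kerEmb N M hM π)
    (kerEmb_injective N M hM π) (MonoidHom.id _) (fun _ => rfl) (kerConj N q M hM hq π)
    (heckeMatrix q 0)
    (fun γ' => (heckeMatrix_mul_conjDownHom N q hq γ'.1).symm)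
    (fun i => kerOfGamma1 N M hM π (betaRepN N q (bez_eq hq hqN) i)
      (betaRepN_mem_Gamma1 N q (bez_eq hq hqN) i)) (fun _ => rfl)
    (shapiroH1 (chiOf N M hM π) x)
  rw [Fintype.card_option, Fintype.card_fin] at h
  exact h

/-! #### `T_q` -/

/-- the Hecke datum of a system of representatives on `ker χ`. -/
noncomputable def datumK {p : ℕ} {ι : Type*} (S : IntReps N p ι) :
    HeckeDatum ↥(chiOf N M hM π).ker (GL (Fin 2) ℝ) ι :=
  (datum0 N S).restrictKer (chiOf N M hM π) (chiOf_cocycle S M hM π)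

@[simp] theorem datumK_α {p : ℕ} {ι : Type*} (S : IntReps N p ι) (i : ι) :
    (datumK N M hM π S).α i = S.r i := rfl

theorem datumK_e {p : ℕ} {ι : Type*} (S : IntReps N p ι) :
    (datumK N M hM π S).e = kerEmb N M hM π := rfl

/-- **Shapiro's map carries `cocOp` to the Hecke operator of `datumK`.** -/
theorem shapiroH1_cocOp {p : ℕ} {ι : Type*} [Fintype ι] (S : IntReps N p ι) (x : MM N M hM π O) :
    shapiroH1 (O := O) (chiOf N M hM π) (cocOp N M hM π O S x) =
      (datumK N M hM π S).heckeGrp O (shapiroH1 (chiOf N M hM π) x) :=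
  shapiroH1_hecke (O := O) (chiOf N M hM π) (datum0 N S) (chiOf_cocycle S M hM π) x

theorem utZ_eq_repJ (q : ℕ) : utZ 1 0 q = DS48.repJ q 0 := by
  simp [utZ, DS48.repJ]

/-- an element of `GL₂(ℝ)` with integral matrix in `Δ` is `δ r_j` with `δ ∈ ker χ`. -/
theorem exists_eq_kerEmb_mul {p : ℕ} {ι : Type*} (S : IntReps N p ι) {x : GL (Fin 2) ℝ}
    {A : Matrix (Fin 2) (Fin 2) ℤ} (hx : IsZMat x A) (hA : A ∈ DS48.DeltaInt N p) :
    ∃ (j : ι) (δ : ↥(chiOf N M hM π).ker), x = kerEmb N M hM π δ * S.r j := by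
  obtain ⟨j, δ, h⟩ := exists_eq_of_mem_on S (Gamma1 N) le_rfl hx hA
  exact ⟨j, kerOfGamma1 N M hM π ⟨δ.1, Gamma1_in_Gamma0 N δ.2⟩ δ.2, h⟩

include hπ in
/-- **`β_* α^* = T_q`** on the twisted modules. -/
theorem pushBM_pullAM (x : MM N M hM π O) :
    pushBM N q M hM hq hqN π O (pullAM N q M hM π O x) = opM N M hM π O ⟨q, hq⟩ x := by
  apply shapiroH1_injective (O := O) (chiOf N M hM π) (chiOf_surjective N M hM π hπ)
  rw [shapiroH1_pushBM, shapiroH1_pullAM, opM_of_not_dvd N M hM π O (ℓ := ⟨q, hq⟩) hqN,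
    shapiroH1_cocOp]
  refine transferGrp_pullHom_eq_heckeGrp_of_exists (xferBetaK N q M hM hq hqN π)
    (datumK N M hM π (intRepsT N hq hqN)) rfl (kerIncl N q M hM π) 1
    (fun γ' => by rw [mul_one, one_mul]; rfl) rfl ?_ ?_ _
  · intro i
    rw [one_mul]
    have hx : IsZMat ((xferBetaK N q M hM hq hqN π).α i)
        (utZ 1 0 q * ((betaRepN N q (bez_eq hq hqN) i : Gamma0 N) : SL(2, ℤ))) :=
      (isZMat_heckeMatrix_zero hq.ne_zero).mul (isZMat_gammaEmb _)
    have hA : utZ 1 0 q * (((betaRepN N q (bez_eq hq hqN) i : Gamma0 N) : SL(2, ℤ)) :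
        Matrix (Fin 2) (Fin 2) ℤ) ∈ DS48.DeltaInt N q := by
      rw [utZ_eq_repJ]
      exact DS48.DeltaInt.mul_mem (DS48.repJ_mem N q 0) (betaRepN_mem_Gamma1 N q (bez_eq hq hqN) i)
    exact exists_eq_kerEmb_mul N M hM π (intRepsT N hq hqN) hx hA
  · intro i i' γ h
    rw [one_mul, one_mul] at h
    apply betaN_distinct (bez_eq hq hqN) hq
    have hσ := isZMat_heckeMatrix_zero hq.ne_zero
    have h1 : heckeMatrix q 0 * GR.gammaEmb N (betaRepN N q (bez_eq hq hqN) i *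
        (betaRepN N q (bez_eq hq hqN) i')⁻¹) = GR.gammaEmb N γ.1 * heckeMatrix q 0 := by
      have h0 : heckeMatrix q 0 * GR.gammaEmb N (betaRepN N q (bez_eq hq hqN) i) =
          GR.gammaEmb N γ.1 * (heckeMatrix q 0 * GR.gammaEmb N (betaRepN N q (bez_eq hq hqN) i')) :=
        h
      rw [map_mul, map_inv, ← mul_assoc, h0]
      group
    have h2 := ((hσ.mul (isZMat_gammaEmb _)).eq_iff ((isZMat_gammaEmb γ.1).mul hσ)).mp h1
    rw [utZ_mul_eq_iff] at h2
    obtain ⟨-, h01, -, -⟩ := h2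
    rw [one_mul, zero_mul, add_zero, mul_zero, zero_add] at h01
    rw [h01]
    exact dvd_mul_left _ _

/-! #### `[π q]⁻¹ T_q` -/

/-- `g₀⁻¹ (diag(q,1) γ' diag(q,1)⁻¹) g₀`, from `ker χ'` to `ker χ`. -/
noncomputable def kerConjBy (g₀ : Gamma0 N) :
    ↥(chiOf (N * q) M (dvd_mul_level N q M hM) π).ker →* ↥(chiOf N M hM π).ker :=
  kerMap (chiOf (N * q) M (dvd_mul_level N q M hM) π) (chiOf N M hM π)
    ((MulAut.conj g₀⁻¹).toMonoidHom.comp (conjDownHom N q hq)) (fun γ' => by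
      show chiOf N M hM π (g₀⁻¹ * conjDownHom N q hq γ' * g₀⁻¹⁻¹) = _
      rw [inv_inv, map_mul, map_mul, map_inv, mul_comm, ← mul_assoc, mul_inv_cancel, one_mul]
      exact chiOf_conjDownHom N q M hM π hq γ')

theorem coe_kerConjBy (g₀ : Gamma0 N)
    (γ' : ↥(chiOf (N * q) M (dvd_mul_level N q M hM) π).ker) :
    ((kerConjBy N q M hM hq π g₀ γ' : ↥(chiOf N M hM π).ker) : Gamma0 N) =
      g₀⁻¹ * conjDownHom N q hq γ'.1 * g₀⁻¹⁻¹ := rfl

/-- restriction along `kerConjBy g₀` is restriction along `kerConj` after `[χ g₀]⁻¹`. -/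
theorem pullHom_kerConjBy (g₀ : Gamma0 N) (x : MM N M hM π O) :
    pullHom (kerConjBy N q M hM hq π g₀) O (shapiroH1 (chiOf N M hM π) x) =
      pullHom (kerConj N q M hM hq π) O
        (shapiroH1 (chiOf N M hM π) (MonoidAlgebra.of O Δ (chiOf N M hM π g₀⁻¹) • x)) := by
  refine AddMonoidHom.ext fun γ' => ?_
  obtain ⟨γ', rfl⟩ := Additive.ofMul.surjective γ'
  rw [pullHom_apply, pullHom_apply, shapiroH1_of_smul]
  rfl

theorem mem_DeltaInt_of_conjDiag {g₀ a : SL(2, ℤ)} (hg₀ : g₀ ∈ Gamma0 N)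
    (h00 : ((g₀ 0 0 : ℤ) : ZMod N) = (q : ZMod N)) (ha : a ∈ Gamma1 N) :
    ((g₀⁻¹ : SL(2, ℤ)) : Matrix (Fin 2) (Fin 2) ℤ) * utZ q 0 1 *
      (a : Matrix (Fin 2) (Fin 2) ℤ) ∈ DS48.DeltaInt N q := by
  refine DS48.DeltaInt.mul_mem ?_ ha
  have h10 : ((g₀ 1 0 : ℤ) : ZMod N) = 0 := (Gamma0_mem).mp hg₀
  have hdet : g₀ 0 0 * g₀ 1 1 - g₀ 0 1 * g₀ 1 0 = 1 := by
    have := g₀.2
    rwa [Matrix.det_fin_two] at this
  refine ⟨?_, ?_, ?_⟩
  · rw [Matrix.det_mul, (g₀⁻¹).2, one_mul]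
    simp [utZ, Matrix.det_fin_two_of]
  · rw [Matrix.SpecialLinearGroup.coe_inv, Matrix.adjugate_fin_two, Matrix.mul_apply,
      Fin.sum_univ_two]
    simp [utZ, h10]
  · rw [Matrix.SpecialLinearGroup.coe_inv, Matrix.adjugate_fin_two, Matrix.mul_apply,
      Fin.sum_univ_two]
    have h2 := congrArg (fun z : ℤ => (z : ZMod N)) hdet
    simp only [Int.cast_sub, Int.cast_mul, h10, mul_zero, sub_zero, Int.cast_one, h00] at h2
    simp [utZ]
    rw [mul_comm]
    exact h2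

include hπ in
/-- **`α_* β^* = [χ g₀] T_q`** on the twisted modules, for every `g₀ ∈ Γ₀(N)` with upper left entry
`≡ q` modulo `N` (so `χ g₀ = (π q)⁻¹`). -/
theorem pushAM_pullBM (g₀ : Gamma0 N)
    (h00 : ((((g₀ : SL(2, ℤ)) 0 0 : ℤ)) : ZMod N) = (q : ZMod N)) (x : MM N M hM π O) :
    pushAM N q M hM hq hqN π O (pullBM N q M hM hq π O x) =
      MonoidAlgebra.of O Δ (chiOf N M hM π g₀) • opM N M hM π O ⟨q, hq⟩ x := by
  -- it suffices to treat `[χ g₀]⁻¹ x`
  suffices hkey : ∀ x : MM N M hM π O, pushAM N q M hM hq hqN π O (pullBM N q M hM hq π O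
      (MonoidAlgebra.of O Δ (chiOf N M hM π g₀⁻¹) • x)) = opM N M hM π O ⟨q, hq⟩ x by
    have h1 := hkey (MonoidAlgebra.of O Δ (chiOf N M hM π g₀) • x)
    rw [← mul_smul, ← map_mul, ← map_mul, inv_mul_cancel, map_one, MonoidAlgebra.of_apply,
      ← MonoidAlgebra.one_def, one_smul, map_smul] at h1
    exact h1
  intro x
  apply shapiroH1_injective (O := O) (chiOf N M hM π) (chiOf_surjective N M hM π hπ)
  rw [shapiroH1_pushAM, shapiroH1_pullBM, ← pullHom_kerConjBy,
    opM_of_not_dvd N M hM π O (ℓ := ⟨q, hq⟩) hqN, shapiroH1_cocOp]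
  have hs := isZMat_heckeDiagMatrix hq.ne_zero
  have hg : IsZMat ((GR.gammaEmb N g₀)⁻¹)
      (((g₀⁻¹ : Gamma0 N) : SL(2, ℤ)) : Matrix (Fin 2) (Fin 2) ℤ) := by
    rw [← map_inv]
    exact isZMat_gammaEmb _
  refine transferGrp_pullHom_eq_heckeGrp_of_exists (xferAlphaK N q M hM hq hqN π)
    (datumK N M hM π (intRepsT N hq hqN)) rfl (kerConjBy N q M hM hq π g₀)
    ((GR.gammaEmb N g₀)⁻¹ * heckeDiagMatrix q) ?_ rfl ?_ ?_ _
  · intro γ'
    show (GR.gammaEmb N g₀)⁻¹ * heckeDiagMatrix q * GR.gammaEmb (N * q) γ'.1 =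
      GR.gammaEmb N (g₀⁻¹ * conjDownHom N q hq γ'.1 * g₀⁻¹⁻¹) *
        ((GR.gammaEmb N g₀)⁻¹ * heckeDiagMatrix q)
    rw [mul_assoc, heckeDiagMatrix_mul_gammaEmb N q hq γ'.1, inv_inv, map_mul, map_mul, map_inv]
    group
  · intro i
    have hx : IsZMat ((GR.gammaEmb N g₀)⁻¹ * heckeDiagMatrix q *
        (xferAlphaK N q M hM hq hqN π).α i)
        ((((g₀⁻¹ : Gamma0 N) : SL(2, ℤ)) : Matrix (Fin 2) (Fin 2) ℤ) * utZ q 0 1 *
          (((alphaRep N q (bez_eq hq hqN) i : Gamma0 N) : SL(2, ℤ)) :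
            Matrix (Fin 2) (Fin 2) ℤ)) := by
      refine (hg.mul hs).mul ?_
      show IsZMat (1 * GR.gammaEmb N (alphaRep N q (bez_eq hq hqN) i)) _
      rw [one_mul]
      exact isZMat_gammaEmb _
    have hA := mem_DeltaInt_of_conjDiag N q g₀.2 h00 (alphaRep_mem_Gamma1 N q (bez_eq hq hqN) i)
    exact exists_eq_kerEmb_mul N M hM π (intRepsT N hq hqN) hx hA
  · intro i i' γ h
    apply alpha_distinct (bez_eq hq hqN) hq
    have h0 : (GR.gammaEmb N g₀)⁻¹ * heckeDiagMatrix q *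
        (1 * GR.gammaEmb N (alphaRep N q (bez_eq hq hqN) i)) =
        GR.gammaEmb N γ.1 * ((GR.gammaEmb N g₀)⁻¹ * heckeDiagMatrix q *
          (1 * GR.gammaEmb N (alphaRep N q (bez_eq hq hqN) i'))) := h
    rw [one_mul, one_mul] at h0
    have h1 : heckeDiagMatrix q * GR.gammaEmb N (alphaRep N q (bez_eq hq hqN) i *
        (alphaRep N q (bez_eq hq hqN) i')⁻¹) =
        GR.gammaEmb N (g₀ * γ.1 * g₀⁻¹) * heckeDiagMatrix q := by
      have h3 : heckeDiagMatrix q * GR.gammaEmb N (alphaRep N q (bez_eq hq hqN) i) =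
          GR.gammaEmb N g₀ * (GR.gammaEmb N γ.1 * ((GR.gammaEmb N g₀)⁻¹ * heckeDiagMatrix q *
            GR.gammaEmb N (alphaRep N q (bez_eq hq hqN) i'))) := by
        rw [← h0]
        group
      rw [map_mul, map_inv, ← mul_assoc, h3, map_mul, map_mul, map_inv]
      group
    have h2 := ((hs.mul (isZMat_gammaEmb _)).eq_iff ((isZMat_gammaEmb _).mul hs)).mp h1
    rw [utZ_mul_eq_iff] at h2
    obtain ⟨-, -, h10, -⟩ := h2
    rw [one_mul] at h10
    rw [h10]
    exact dvd_mul_left _ _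

end Relations

end Fermat.Agent.ML
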