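/-
PROJECT ML (S59) — [TWMOD-L] (helper2), part 4: **the degeneracy maps on the twisted modules commute
with the Hecke operators at the primes `ℓ ≠ q`** (`T_ℓ` as well as `U_ℓ`).

Generic argument with systems of representatives `S' : IntReps (N q) ℓ κ`, `S : IntReps N ℓ κ`
(same index type): integral matrices, `Δ₁(N q) ⊆ Δ₁(N)`, `A diag(1,q) = diag(1,q) A°` with
`A° ∈ Δ₁(N)`, uniqueness of the cosets `SL₂(ℤ) r_j` among the representatives.
-/
import Mathlib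
import Fermat.Agent.ML.TWMODL_helper2_DegMaps
import Fermat.Agent.LR.XFER_helper4_Hecke

set_option autoImplicit false
set_option linter.unusedSectionVars false
set_option linter.unnecessarySeqFocus false
set_option linter.style.haveILetI false

namespace Fermat.Agent.ML

open CongruenceSubgroup ModularForm Matrix ModularCurve.Period Fermat.Agent.X0N
open scoped MatrixGroups
open Fermat.Agent.GR Fermat.Agent.RB Fermat.Agent.LR Fermat.Agent.W1 Fermat.Agent.RB.TWM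

/-! ### Integral matrices -/

section IntMat

variable {N q ℓ : ℕ}

theorem mul_apply2 (A B : Matrix (Fin 2) (Fin 2) ℤ) (i j : Fin 2) :
    (A * B) i j = A i 0 * B 0 j + A i 1 * B 1 j := by
  rw [Matrix.mul_apply, Fin.sum_univ_two]

/-- `Δ₁(N q) ⊆ Δ₁(N)`. -/
theorem DeltaInt_of_mul {A : Matrix (Fin 2) (Fin 2) ℤ} (hA : A ∈ DS48.DeltaInt (N * q) ℓ) :
    A ∈ DS48.DeltaInt N ℓ := by
  obtain ⟨hdet, h10, h00⟩ := hA
  refine ⟨hdet, ?_, ?_⟩
  · have := congrArg (ZMod.castHom (dvd_mul_right N q) (ZMod N)) h10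
    rwa [map_intCast, map_zero] at this
  · have := congrArg (ZMod.castHom (dvd_mul_right N q) (ZMod N)) h00
    rwa [map_intCast, map_one] at this

theorem dvd_one_zero_of_mem {A : Matrix (Fin 2) (Fin 2) ℤ} (hA : A ∈ DS48.DeltaInt (N * q) ℓ) :
    (q : ℤ) ∣ A 1 0 := by
  obtain ⟨-, h10, -⟩ := hA
  rw [ZMod.intCast_zmod_eq_zero_iff_dvd] at h10
  exact dvd_trans (by push_cast; exact dvd_mul_left _ _) h10

theorem not_dvd_zero_zero_of_mem (hq : q.Prime) {A : Matrix (Fin 2) (Fin 2) ℤ}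
    (hA : A ∈ DS48.DeltaInt (N * q) ℓ) : ¬ (q : ℤ) ∣ A 0 0 := by
  obtain ⟨-, -, h00⟩ := hA
  intro hd
  have h1 : ((A 0 0 : ℤ) : ZMod q) = 1 := by
    have := congrArg (ZMod.castHom (dvd_mul_left q N) (ZMod q)) h00
    rwa [map_intCast, map_one] at this
  have h2 : ((A 0 0 : ℤ) : ZMod q) = 0 := (ZMod.intCast_zmod_eq_zero_iff_dvd _ _).mpr hd
  rw [h2] at h1
  haveI : Fact q.Prime := ⟨hq⟩
  exact zero_ne_one h1

theorem not_dvd_one_one_of_mem (hq : q.Prime) (hℓ : ℓ.Prime) (hℓq : ℓ ≠ q)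
    {A : Matrix (Fin 2) (Fin 2) ℤ} (hA : A ∈ DS48.DeltaInt (N * q) ℓ) : ¬ (q : ℤ) ∣ A 1 1 := by
  have h10 := dvd_one_zero_of_mem hA
  obtain ⟨hdet, -, -⟩ := hA
  rw [Matrix.det_fin_two] at hdet
  intro hd
  have h1 : (q : ℤ) ∣ (ℓ : ℤ) := by
    rw [← hdet]
    exact dvd_sub (Dvd.dvd.mul_left hd _) (Dvd.dvd.mul_left h10 _)
  have h2 : q ∣ ℓ := by exact_mod_cast h1
  exact hℓq ((Nat.prime_dvd_prime_iff_eq hq hℓ).mp h2).symm

/-- `A° = diag(1,q)⁻¹ A diag(1,q) = diag(q,1) A diag(q,1)⁻¹`. -/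
def conjQ (q : ℕ) (A : Matrix (Fin 2) (Fin 2) ℤ) : Matrix (Fin 2) (Fin 2) ℤ :=
  !![A 0 0, (q : ℤ) * A 0 1; A 1 0 / (q : ℤ), A 1 1]

theorem mul_utZ_eq {A : Matrix (Fin 2) (Fin 2) ℤ} (h : (q : ℤ) ∣ A 1 0) :
    A * utZ 1 0 q = utZ 1 0 q * conjQ q A := by
  ext i j
  fin_cases i <;> fin_cases j <;>
    simp [mul_apply2, utZ, conjQ, Int.mul_ediv_cancel' h, mul_comm]

theorem utZ_mul_eq {A : Matrix (Fin 2) (Fin 2) ℤ} (h : (q : ℤ) ∣ A 1 0) :
    utZ q 0 1 * A = conjQ q A * utZ q 0 1 := by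
  ext i j
  fin_cases i <;> fin_cases j <;>
    simp [mul_apply2, utZ, conjQ, Int.ediv_mul_cancel h, mul_comm]

theorem conjQ_mem (hq : q.Prime) {A : Matrix (Fin 2) (Fin 2) ℤ}
    (hA : A ∈ DS48.DeltaInt (N * q) ℓ) : conjQ q A ∈ DS48.DeltaInt N ℓ := by
  have hq0 : (q : ℤ) ≠ 0 := by exact_mod_cast hq.ne_zero
  have h10' := dvd_one_zero_of_mem hA
  obtain ⟨hdet, h10, h00⟩ := hA
  refine ⟨?_, ?_, ?_⟩
  · rw [Matrix.det_fin_two] at hdet ⊢
    simp only [conjQ, Matrix.of_apply, Matrix.cons_val', Matrix.cons_val_zero,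
      Matrix.cons_val_one, Matrix.cons_val_fin_one]
    rw [mul_assoc, mul_comm (A 0 1), ← mul_assoc, Int.mul_ediv_cancel' h10', mul_comm (A 1 0)]
    exact hdet
  · show (((A 1 0 / (q : ℤ) : ℤ)) : ZMod N) = 0
    rw [ZMod.intCast_zmod_eq_zero_iff_dvd] at h10 ⊢
    obtain ⟨t, ht⟩ := h10
    rw [ht]
    push_cast
    rw [mul_comm (N : ℤ) (q : ℤ), mul_assoc, Int.mul_ediv_cancel_left _ hq0]
    exact dvd_mul_right _ _
  · show ((A 0 0 : ℤ) : ZMod N) = 1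
    have := congrArg (ZMod.castHom (dvd_mul_right N q) (ZMod N)) h00
    rwa [map_intCast, map_one] at this

/-- `conjQ A = γ conjQ A'` with `γ ∈ SL₂(ℤ)` implies `A = g A'` with `g ∈ SL₂(ℤ)`. -/
theorem exists_SL2_of_conjQ_eq (hq : q.Prime) {A A' : Matrix (Fin 2) (Fin 2) ℤ}
    (hA : (q : ℤ) ∣ A 1 0) (hA' : (q : ℤ) ∣ A' 1 0) (hd' : ¬ (q : ℤ) ∣ A' 1 1) (γ : SL(2, ℤ))
    (h : conjQ q A = (γ : Matrix (Fin 2) (Fin 2) ℤ) * conjQ q A') :
    ∃ g : SL(2, ℤ), A = (g : Matrix (Fin 2) (Fin 2) ℤ) * A' := by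
  have hqp : Prime (q : ℤ) := Nat.prime_iff_prime_int.mp hq
  have hq0 : (q : ℤ) ≠ 0 := by exact_mod_cast hq.ne_zero
  obtain ⟨c₁, hc₁⟩ := hA
  obtain ⟨c₁', hc₁'⟩ := hA'
  have e00 := congrFun (congrFun h 0) 0
  have e01 := congrFun (congrFun h 0) 1
  have e10 := congrFun (congrFun h 1) 0
  have e11 := congrFun (congrFun h 1) 1
  rw [mul_apply2] at e00 e01 e10 e11
  simp only [conjQ, Matrix.of_apply, Matrix.cons_val', Matrix.cons_val_zero, Matrix.cons_val_one,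
    Matrix.cons_val_fin_one] at e00 e01 e10 e11
  rw [hc₁', Int.mul_ediv_cancel_left _ hq0] at e00 e10
  rw [hc₁, Int.mul_ediv_cancel_left _ hq0] at e10
  have hx : (q : ℤ) ∣ γ 0 1 := by
    have h1 : (q : ℤ) ∣ γ 0 1 * A' 1 1 := by
      have h2 : γ 0 1 * A' 1 1 = (q : ℤ) * A 0 1 - γ 0 0 * ((q : ℤ) * A' 0 1) := by linarith
      rw [h2]
      exact dvd_sub (dvd_mul_right _ _) (Dvd.dvd.mul_left (dvd_mul_right _ _) _)
    exact (hqp.dvd_or_dvd h1).resolve_right hd'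
  obtain ⟨x₁, hx₁⟩ := hx
  have hdet : γ 0 0 * γ 1 1 - γ 0 1 * γ 1 0 = 1 := by
    have := γ.2
    rwa [Matrix.det_fin_two] at this
  refine ⟨⟨!![γ 0 0, x₁; (q : ℤ) * γ 1 0, γ 1 1], ?_⟩, ?_⟩
  · rw [Matrix.det_fin_two_of]
    rw [hx₁] at hdet
    linear_combination hdet
  · ext i j
    fin_cases i <;> fin_cases j
    · show A 0 0 = _
      rw [mul_apply2]
      show A 0 0 = γ 0 0 * A' 0 0 + x₁ * A' 1 0
      rw [hc₁', e00, hx₁]; ring
    · show A 0 1 = _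
      rw [mul_apply2]
      show A 0 1 = γ 0 0 * A' 0 1 + x₁ * A' 1 1
      apply mul_left_cancel₀ hq0
      rw [e01, hx₁]; ring
    · show A 1 0 = _
      rw [mul_apply2]
      show A 1 0 = (q : ℤ) * γ 1 0 * A' 0 0 + γ 1 1 * A' 1 0
      rw [hc₁, e10, hc₁']; ring
    · show A 1 1 = _
      rw [mul_apply2]
      show A 1 1 = (q : ℤ) * γ 1 0 * A' 0 1 + γ 1 1 * A' 1 1
      rw [e11]; ring

/-- conjugation by `diag(q, 1)` on integral matrices. -/
theorem isZMat_conjDiagHom (hq : q ≠ 0) {x : GL (Fin 2) ℝ} {A A₀ : Matrix (Fin 2) (Fin 2) ℤ}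
    (hx : IsZMat x A) (h : utZ q 0 1 * A = A₀ * utZ q 0 1) : IsZMat (conjDiagHom q x) A₀ := by
  have hs := isZMat_heckeDiagMatrix hq
  have h1 : conjDiagHom q x * heckeDiagMatrix q = heckeDiagMatrix q * x := by
    rw [conjDiagHom_apply, inv_mul_cancel_right]
  have h2 : ((conjDiagHom q x : GL (Fin 2) ℝ) : Matrix (Fin 2) (Fin 2) ℝ) *
      ((heckeDiagMatrix q : GL (Fin 2) ℝ) : Matrix (Fin 2) (Fin 2) ℝ) =
      A₀.map (Int.castRingHom ℝ) *
        ((heckeDiagMatrix q : GL (Fin 2) ℝ) : Matrix (Fin 2) (Fin 2) ℝ) := by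
    rw [← Units.val_mul, h1, (hs.mul hx), h, Matrix.map_mul, ← hs]
  have h3 := congrArg (fun m => m * ((heckeDiagMatrix q)⁻¹ : GL (Fin 2) ℝ).val) h2
  simp only [Matrix.mul_assoc, ← Units.val_mul, mul_inv_cancel, Units.val_one, Matrix.mul_one]
    at h3
  rw [mul_inv_cancel_right] at h3
  exact h3

end IntMat

/-! ### The `ConjReps` between the kernels -/

section KerConjReps

variable (N q M : ℕ) [NeZero N] [NeZero (N * q)] (hM : M ∣ N) (hq : q.Prime) (hqN : ¬ q ∣ N)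
  {Δ : Type} [CommGroup Δ] (π : (ZMod M)ˣ →* Δ)

/-- the `ConjReps` of `α` between the kernels. -/
noncomputable def conjRepsAlphaK :
    ConjReps ↥(chiOf (N * q) M (dvd_mul_level N q M hM) π).ker ↥(chiOf N M hM π).ker
      (GL (Fin 2) ℝ) (Option (Fin q)) :=
  (conjRepsAlpha N q (bez_eq hq hqN) hq).restrictKer
    (chiOf (N * q) M (dvd_mul_level N q M hM) π) (chiOf N M hM π)
    (fun m γ' _ hmγ => by
      have h1 : GR.gammaEmb N m = GR.gammaEmb (N * q) γ' := by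
        have h2 : (1 : GL (Fin 2) ℝ) * GR.gammaEmb N m = GR.gammaEmb (N * q) γ' * 1 := hmγ
        rwa [one_mul, mul_one] at h2
      have h3 : ((γ' : Gamma0 (N * q)) : SL(2, ℤ)) = ((m : Gamma0 N) : SL(2, ℤ)) :=
        (Matrix.SpecialLinearGroup.mapGL_injective h1).symm
      exact chiOf_eq_chiOf N M hM π (dvd_mul_level N q M hM) γ' m (by rw [h3]))
    (fun j => chiOf_eq_one_of_mem_Gamma1 N M hM π _ (alphaRep_mem_Gamma1 N q (bez_eq hq hqN) j))

theorem conjRepsAlphaK_toTransferDatum :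
    (conjRepsAlphaK N q M hM hq hqN π).toTransferDatum = xferAlphaK N q M hM hq hqN π := rfl

/-- the `ConjReps` of `β` between the kernels. -/
noncomputable def conjRepsBetaK :
    ConjReps ↥(chiOf (N * q) M (dvd_mul_level N q M hM) π).ker ↥(chiOf N M hM π).ker
      (GL (Fin 2) ℝ) (Option (Fin q)) :=
  (conjRepsBetaN N q (bez_eq hq hqN) hq).restrictKer
    (chiOf (N * q) M (dvd_mul_level N q M hM) π) (chiOf N M hM π)
    (fun m γ' _ hmγ => chiOf_eq_chiOf N M hM π (dvd_mul_level N q M hM) γ' m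
      (by rw [lowerRight_eq_of_heckeMatrix_mul N q hq m γ' hmγ]))
    (fun j => chiOf_eq_one_of_mem_Gamma1 N M hM π _ (betaRepN_mem_Gamma1 N q (bez_eq hq hqN) j))

theorem conjRepsBetaK_toTransferDatum :
    (conjRepsBetaK N q M hM hq hqN π).toTransferDatum = xferBetaK N q M hM hq hqN π := rfl

end KerConjReps

/-! ### The transfers commute with the Hecke operators -/

section PushComm

variable (N q M : ℕ) [NeZero N] [NeZero (N * q)] (hM : M ∣ N) (hq : q.Prime) (hqN : ¬ q ∣ N)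
  {Δ : Type} [CommGroup Δ] (π : (ZMod M)ˣ →* Δ)
  {ℓ : ℕ} (hℓ : ℓ.Prime) (hℓq : ℓ ≠ q) {κ : Type*} [Fintype κ]
  (S' : IntReps (N * q) ℓ κ) (S : IntReps N ℓ κ) {A : Type*} [AddCommGroup A]

include hℓ hℓq in
/-- **`α_*` commutes with the Hecke operators at `ℓ ≠ q`** (between the kernels). -/
theorem xferAlphaK_heckeGrp_comm
    (ψ : Additive ↥(chiOf (N * q) M (dvd_mul_level N q M hM) π).ker →+ A) :
    (xferAlphaK N q M hM hq hqN π).transferGrp A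
        ((datumK (N * q) M (dvd_mul_level N q M hM) π S').heckeGrp A ψ) =
      (datumK N M hM π S).heckeGrp A ((xferAlphaK N q M hM hq hqN π).transferGrp A ψ) := by
  have hqp : Prime (q : ℤ) := Nat.prime_iff_prime_int.mp hq
  refine (conjRepsAlphaK N q M hM hq hqN π).transferGrp_heckeGrp_comm
    (datumK (N * q) M (dvd_mul_level N q M hM) π S') (datumK N M hM π S) rfl rfl ?_ ?_ ψ
  · intro k g₀
    obtain ⟨j, g, hg, h⟩ := exists_conj_mul_eq S (DeltaInt_of_mul (S'.mem k)) g₀.1.2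
    refine ⟨j, g₀ * kerOfGamma1 N M hM π ⟨g, Gamma1_in_Gamma0 N hg⟩ hg, ?_⟩
    show S'.r k * 1 * GR.gammaEmb N g₀.1 =
      1 * GR.gammaEmb N (g₀.1 * ⟨g, Gamma1_in_Gamma0 N hg⟩) * S.r j
    rw [mul_one, one_mul]
    exact (IsZMat.eq_iff (IsZMat.mul (S'.val_r k) (isZMat_gammaEmb g₀.1))
      (IsZMat.mul (isZMat_gammaEmb _) (S.val_r j))).mpr h
  · intro k k₂ g₀ δ h
    have h0 : S'.r k * 1 * GR.gammaEmb N g₀.1 = GR.gammaEmb (N * q) δ.1 * S'.r k₂ * 1 := h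
    rw [mul_one, mul_one] at h0
    have h1 := (IsZMat.eq_iff (IsZMat.mul (S'.val_r k) (isZMat_gammaEmb g₀.1))
      (IsZMat.mul (isZMat_gammaEmb δ.1) (S'.val_r k₂))).mp h0
    have h2 := congrFun (congrFun h1 1) 0
    rw [mul_apply2, mul_apply2] at h2
    have hδ : (q : ℤ) ∣ ((δ.1 : Gamma0 (N * q)) : SL(2, ℤ)) 1 0 :=
      dvd_one_zero_of_mem_Gamma0_mul δ.1
    have h3 : (q : ℤ) ∣ S'.rZ k 1 1 * ((g₀.1 : Gamma0 N) : SL(2, ℤ)) 1 0 := by
      have h4 : S'.rZ k 1 1 * ((g₀.1 : Gamma0 N) : SL(2, ℤ)) 1 0 =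
          ((δ.1 : Gamma0 (N * q)) : SL(2, ℤ)) 1 0 * S'.rZ k₂ 0 0 +
            ((δ.1 : Gamma0 (N * q)) : SL(2, ℤ)) 1 1 * S'.rZ k₂ 1 0 -
          S'.rZ k 1 0 * ((g₀.1 : Gamma0 N) : SL(2, ℤ)) 0 0 := by
        linarith
      rw [h4]
      exact dvd_sub (dvd_add (Dvd.dvd.mul_right hδ _)
        (Dvd.dvd.mul_left (dvd_one_zero_of_mem (S'.mem k₂)) _))
        (Dvd.dvd.mul_right (dvd_one_zero_of_mem (S'.mem k)) _)
    exact (hqp.dvd_or_dvd h3).resolve_left (not_dvd_one_one_of_mem hq hℓ hℓq (S'.mem k))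

include hℓ hℓq in
/-- **`β_*` commutes with the Hecke operators at `ℓ ≠ q`** (between the kernels). -/
theorem xferBetaK_heckeGrp_comm
    (ψ : Additive ↥(chiOf (N * q) M (dvd_mul_level N q M hM) π).ker →+ A) :
    (xferBetaK N q M hM hq hqN π).transferGrp A
        ((datumK (N * q) M (dvd_mul_level N q M hM) π S').heckeGrp A ψ) =
      (datumK N M hM π S).heckeGrp A ((xferBetaK N q M hM hq hqN π).transferGrp A ψ) := by
  have hqp : Prime (q : ℤ) := Nat.prime_iff_prime_int.mp hq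
  have hσ := isZMat_heckeMatrix_zero hq.ne_zero
  refine (conjRepsBetaK N q M hM hq hqN π).transferGrp_heckeGrp_comm
    (datumK (N * q) M (dvd_mul_level N q M hM) π S') (datumK N M hM π S) rfl rfl ?_ ?_ ψ
  · intro k g₀
    obtain ⟨j, g, hg, h⟩ := exists_conj_mul_eq S (conjQ_mem hq (S'.mem k)) g₀.1.2
    refine ⟨j, g₀ * kerOfGamma1 N M hM π ⟨g, Gamma1_in_Gamma0 N hg⟩ hg, ?_⟩
    show S'.r k * heckeMatrix q 0 * GR.gammaEmb N g₀.1 =
      heckeMatrix q 0 * GR.gammaEmb N (g₀.1 * ⟨g, Gamma1_in_Gamma0 N hg⟩) * S.r j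
    refine (IsZMat.eq_iff (IsZMat.mul (IsZMat.mul (S'.val_r k) hσ) (isZMat_gammaEmb g₀.1))
      (IsZMat.mul (IsZMat.mul hσ (isZMat_gammaEmb _)) (S.val_r j))).mpr ?_
    rw [mul_utZ_eq (dvd_one_zero_of_mem (S'.mem k)), Matrix.mul_assoc, h, Matrix.mul_assoc]
    rfl
  · intro k k₂ g₀ δ h
    have h0 : S'.r k * heckeMatrix q 0 * GR.gammaEmb N g₀.1 =
        GR.gammaEmb (N * q) δ.1 * S'.r k₂ * heckeMatrix q 0 := h
    have h1 := (IsZMat.eq_iff (IsZMat.mul (IsZMat.mul (S'.val_r k) hσ) (isZMat_gammaEmb g₀.1))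
      (IsZMat.mul (IsZMat.mul (isZMat_gammaEmb δ.1) (S'.val_r k₂)) hσ)).mp h0
    have h2 := congrFun (congrFun h1 0) 1
    rw [mul_apply2, mul_apply2 _ (utZ 1 0 q), mul_apply2 _ (utZ 1 0 q),
      mul_apply2 _ (utZ 1 0 q)] at h2
    simp only [utZ, Matrix.of_apply, Matrix.cons_val', Matrix.cons_val_zero, Matrix.cons_val_one,
      Matrix.cons_val_fin_one, mul_one, mul_zero, add_zero, zero_add] at h2
    have h3 : (q : ℤ) ∣ S'.rZ k 0 0 * ((g₀.1 : Gamma0 N) : SL(2, ℤ)) 0 1 := by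
      have h4 : S'.rZ k 0 0 * ((g₀.1 : Gamma0 N) : SL(2, ℤ)) 0 1 =
          ((((δ.1 : Gamma0 (N * q)) : SL(2, ℤ)) : Matrix (Fin 2) (Fin 2) ℤ) * S'.rZ k₂) 0 1 *
            (q : ℤ) - S'.rZ k 0 1 * (q : ℤ) * ((g₀.1 : Gamma0 N) : SL(2, ℤ)) 1 1 := by
        linarith
      rw [h4]
      exact dvd_sub (dvd_mul_left _ _) (Dvd.dvd.mul_right (dvd_mul_left _ _) _)
    exact (hqp.dvd_or_dvd h3).resolve_left (not_dvd_zero_zero_of_mem hq (S'.mem k))

end PushComm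

/-! ### The restrictions commute with the Hecke operators -/

section PullComm

variable (N q M : ℕ) [NeZero N] [NeZero (N * q)] (hM : M ∣ N) (hq : q.Prime) (hqN : ¬ q ∣ N)
  {Δ : Type} [CommGroup Δ] [Fintype Δ] (π : (ZMod M)ˣ →* Δ)
  {ℓ : ℕ} (hℓ : ℓ.Prime) (hℓq : ℓ ≠ q) {κ : Type*} [Fintype κ]
  (S' : IntReps (N * q) ℓ κ) (S : IntReps N ℓ κ) {A : Type*} [AddCommGroup A]

/-- **`α^*` commutes with the Hecke operators** (between the kernels). -/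
theorem heckeGrp_pullHom_kerIncl (ψ : Additive ↥(chiOf N M hM π).ker →+ A) :
    (datumK (N * q) M (dvd_mul_level N q M hM) π S').heckeGrp A
        (pullHom (kerIncl N q M hM π) A ψ) =
      pullHom (kerIncl N q M hM π) A ((datumK N M hM π S).heckeGrp A ψ) := by
  refine heckeGrp_pullHom_of_exists (datumK (N * q) M (dvd_mul_level N q M hM) π S')
    (datumK N M hM π S) (kerIncl N q M hM π) (MonoidHom.id _) (fun _ => rfl) rfl ?_ ?_ ψ
  · intro k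
    exact exists_eq_kerEmb_mul N M hM π S (S'.val_r k) (DeltaInt_of_mul (S'.mem k))
  · intro k k' γ h
    have h0 : S'.r k = GR.gammaEmb N γ.1 * S'.r k' := h
    exact S'.uniq k k' _ ((IsZMat.eq_iff (S'.val_r k)
      (IsZMat.mul (isZMat_gammaEmb γ.1) (S'.val_r k'))).mp h0)

include hℓ hℓq in
/-- **`β^*` commutes with the Hecke operators at `ℓ ≠ q`** (between the kernels). -/
theorem heckeGrp_pullHom_kerConj (ψ : Additive ↥(chiOf N M hM π).ker →+ A) :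
    (datumK (N * q) M (dvd_mul_level N q M hM) π S').heckeGrp A
        (pullHom (kerConj N q M hM hq π) A ψ) =
      pullHom (kerConj N q M hM hq π) A ((datumK N M hM π S).heckeGrp A ψ) := by
  have hz : ∀ k, IsZMat (conjDiagHom q (S'.r k)) (conjQ q (S'.rZ k)) := fun k =>
    isZMat_conjDiagHom hq.ne_zero (S'.val_r k) (utZ_mul_eq (dvd_one_zero_of_mem (S'.mem k)))
  refine heckeGrp_pullHom_of_exists (datumK (N * q) M (dvd_mul_level N q M hM) π S')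
    (datumK N M hM π S) (kerConj N q M hM hq π) (conjDiagHom q)
    (fun γ' => conjDiagHom_gammaEmb N q hq γ'.1) rfl ?_ ?_ ψ
  · intro k
    exact exists_eq_kerEmb_mul N M hM π S (hz k) (conjQ_mem hq (S'.mem k))
  · intro k k' γ h
    have h0 : conjDiagHom q (S'.r k) = GR.gammaEmb N γ.1 * conjDiagHom q (S'.r k') := h
    have h1 := (IsZMat.eq_iff (hz k) (IsZMat.mul (isZMat_gammaEmb γ.1) (hz k'))).mp h0
    obtain ⟨g, hg⟩ := exists_SL2_of_conjQ_eq hq (dvd_one_zero_of_mem (S'.mem k))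
      (dvd_one_zero_of_mem (S'.mem k')) (not_dvd_one_one_of_mem hq hℓ hℓq (S'.mem k')) _ h1
    exact S'.uniq k k' g hg

end PullComm

/-! ### On the twisted modules -/

section MMComm

variable (N q M : ℕ) [NeZero N] [NeZero (N * q)] (hM : M ∣ N) (hq : q.Prime) (hqN : ¬ q ∣ N)
  {Δ : Type} [CommGroup Δ] [Fintype Δ] (π : (ZMod M)ˣ →* Δ) (hπ : Function.Surjective π)
  (O : Type) [CommRing O]

section Reps

variable {ℓ : ℕ} (hℓ : ℓ.Prime) (hℓq : ℓ ≠ q) {κ : Type*} [Fintype κ]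
  (S' : IntReps (N * q) ℓ κ) (S : IntReps N ℓ κ)

include hπ hℓ hℓq in
theorem pushAM_cocOp (y : MM (N * q) M (dvd_mul_level N q M hM) π O) :
    pushAM N q M hM hq hqN π O (cocOp (N * q) M (dvd_mul_level N q M hM) π O S' y) =
      cocOp N M hM π O S (pushAM N q M hM hq hqN π O y) := by
  apply shapiroH1_injective (O := O) (chiOf N M hM π) (chiOf_surjective N M hM π hπ)
  rw [shapiroH1_pushAM, shapiroH1_cocOp, shapiroH1_cocOp, shapiroH1_pushAM]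
  exact xferAlphaK_heckeGrp_comm N q M hM hq hqN π hℓ hℓq S' S _

include hπ hℓ hℓq in
theorem pushBM_cocOp (y : MM (N * q) M (dvd_mul_level N q M hM) π O) :
    pushBM N q M hM hq hqN π O (cocOp (N * q) M (dvd_mul_level N q M hM) π O S' y) =
      cocOp N M hM π O S (pushBM N q M hM hq hqN π O y) := by
  apply shapiroH1_injective (O := O) (chiOf N M hM π) (chiOf_surjective N M hM π hπ)
  rw [shapiroH1_pushBM, shapiroH1_cocOp, shapiroH1_cocOp, shapiroH1_pushBM]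
  exact xferBetaK_heckeGrp_comm N q M hM hq hqN π hℓ hℓq S' S _

include hπ in
theorem cocOp_pullAM (x : MM N M hM π O) :
    cocOp (N * q) M (dvd_mul_level N q M hM) π O S' (pullAM N q M hM π O x) =
      pullAM N q M hM π O (cocOp N M hM π O S x) := by
  apply shapiroH1_injective (O := O) (chiOf (N * q) M (dvd_mul_level N q M hM) π)
    (chiOf_surjective (N * q) M (dvd_mul_level N q M hM) π hπ)
  rw [shapiroH1_cocOp, shapiroH1_pullAM, shapiroH1_pullAM, shapiroH1_cocOp]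
  exact heckeGrp_pullHom_kerIncl N q M hM π S' S _

include hπ hℓ hℓq in
theorem cocOp_pullBM (x : MM N M hM π O) :
    cocOp (N * q) M (dvd_mul_level N q M hM) π O S' (pullBM N q M hM hq π O x) =
      pullBM N q M hM hq π O (cocOp N M hM π O S x) := by
  apply shapiroH1_injective (O := O) (chiOf (N * q) M (dvd_mul_level N q M hM) π)
    (chiOf_surjective (N * q) M (dvd_mul_level N q M hM) π hπ)
  rw [shapiroH1_cocOp, shapiroH1_pullBM, shapiroH1_pullBM, shapiroH1_cocOp]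
  exact heckeGrp_pullHom_kerConj N q M hM hq π hℓ hℓq S' S _

end Reps

include hπ in
/-- **`α_*` commutes with `T_ℓ`, `U_ℓ` for `ℓ ≠ q`.** -/
theorem pushAM_opM (ℓ : Nat.Primes) (hℓq : (ℓ : ℕ) ≠ q)
    (y : MM (N * q) M (dvd_mul_level N q M hM) π O) :
    pushAM N q M hM hq hqN π O (opM (N * q) M (dvd_mul_level N q M hM) π O ℓ y) =
      opM N M hM π O ℓ (pushAM N q M hM hq hqN π O y) := by
  by_cases h : (ℓ : ℕ) ∣ N
  · have h' : (ℓ : ℕ) ∣ N * q := Dvd.dvd.mul_right h q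
    rw [opM_of_dvd _ _ _ _ _ h', opM_of_dvd _ _ _ _ _ h]
    exact pushAM_cocOp N q M hM hq hqN π hπ O ℓ.2 hℓq _ _ y
  · have h' : ¬ (ℓ : ℕ) ∣ N * q := not_dvd_mul_of_ne N q hq ℓ.2 hℓq h
    rw [opM_of_not_dvd _ _ _ _ _ h', opM_of_not_dvd _ _ _ _ _ h]
    exact pushAM_cocOp N q M hM hq hqN π hπ O ℓ.2 hℓq _ _ y

include hπ in
/-- **`β_*` commutes with `T_ℓ`, `U_ℓ` for `ℓ ≠ q`.** -/
theorem pushBM_opM (ℓ : Nat.Primes) (hℓq : (ℓ : ℕ) ≠ q)
    (y : MM (N * q) M (dvd_mul_level N q M hM) π O) :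
    pushBM N q M hM hq hqN π O (opM (N * q) M (dvd_mul_level N q M hM) π O ℓ y) =
      opM N M hM π O ℓ (pushBM N q M hM hq hqN π O y) := by
  by_cases h : (ℓ : ℕ) ∣ N
  · have h' : (ℓ : ℕ) ∣ N * q := Dvd.dvd.mul_right h q
    rw [opM_of_dvd _ _ _ _ _ h', opM_of_dvd _ _ _ _ _ h]
    exact pushBM_cocOp N q M hM hq hqN π hπ O ℓ.2 hℓq _ _ y
  · have h' : ¬ (ℓ : ℕ) ∣ N * q := not_dvd_mul_of_ne N q hq ℓ.2 hℓq h
    rw [opM_of_not_dvd _ _ _ _ _ h', opM_of_not_dvd _ _ _ _ _ h]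
    exact pushBM_cocOp N q M hM hq hqN π hπ O ℓ.2 hℓq _ _ y

include hπ hq in
/-- **`α^*` commutes with `T_ℓ`, `U_ℓ` for `ℓ ≠ q`.** -/
theorem opM_pullAM (ℓ : Nat.Primes) (hℓq : (ℓ : ℕ) ≠ q) (x : MM N M hM π O) :
    opM (N * q) M (dvd_mul_level N q M hM) π O ℓ (pullAM N q M hM π O x) =
      pullAM N q M hM π O (opM N M hM π O ℓ x) := by
  by_cases h : (ℓ : ℕ) ∣ N
  · have h' : (ℓ : ℕ) ∣ N * q := Dvd.dvd.mul_right h q
    rw [opM_of_dvd _ _ _ _ _ h', opM_of_dvd _ _ _ _ _ h]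
    exact cocOp_pullAM N q M hM π hπ O _ _ x
  · have h' : ¬ (ℓ : ℕ) ∣ N * q := not_dvd_mul_of_ne N q hq ℓ.2 hℓq h
    rw [opM_of_not_dvd _ _ _ _ _ h', opM_of_not_dvd _ _ _ _ _ h]
    exact cocOp_pullAM N q M hM π hπ O _ _ x

include hπ in
/-- **`β^*` commutes with `T_ℓ`, `U_ℓ` for `ℓ ≠ q`.** -/
theorem opM_pullBM (ℓ : Nat.Primes) (hℓq : (ℓ : ℕ) ≠ q) (x : MM N M hM π O) :
    opM (N * q) M (dvd_mul_level N q M hM) π O ℓ (pullBM N q M hM hq π O x) =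
      pullBM N q M hM hq π O (opM N M hM π O ℓ x) := by
  by_cases h : (ℓ : ℕ) ∣ N
  · have h' : (ℓ : ℕ) ∣ N * q := Dvd.dvd.mul_right h q
    rw [opM_of_dvd _ _ _ _ _ h', opM_of_dvd _ _ _ _ _ h]
    exact cocOp_pullBM N q M hM hq π hπ O ℓ.2 hℓq _ _ x
  · have h' : ¬ (ℓ : ℕ) ∣ N * q := not_dvd_mul_of_ne N q hq ℓ.2 hℓq h
    rw [opM_of_not_dvd _ _ _ _ _ h', opM_of_not_dvd _ _ _ _ _ h]
    exact cocOp_pullBM N q M hM hq π hπ O ℓ.2 hℓq _ _ x

end MMComm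

end Fermat.Agent.ML
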