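/-
PROJECT ML (S59) — [TWMOD-L] (helper2), part 9: **the two degeneracy maps and the two traces of one
chain step**, on the twisted modules `𝓜`, on their primary parts `H`, and on the sides.

Normalisation (`σ² = π`): `ι₀ = α^*`, `ι₁ = [σ q] β^*`, `β₀ = α_*`, `β₁ = [σ q]⁻¹ β_*`, so that
`β_c ∘ ι_c = q + 1` and `β_c ∘ ι_{c'} = [σ q]⁻¹ T_q` for `c ≠ c'`.
-/
import Mathlib
import Fermat.Agent.ML.TWMODL_helper2_DegHecke
import Fermat.Agent.ML.TWMODL_helper2_Side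
import Fermat.Agent.RB.TW_lead_Hecke

set_option autoImplicit false
set_option linter.unusedSectionVars false
set_option linter.unusedVariables false
set_option linter.style.haveILetI false

namespace Fermat.Agent.ML

open CongruenceSubgroup Matrix ModularCurve.Period IsLocalRing
open scoped MatrixGroups
open Fermat.Agent.GR Fermat.Agent.LR Fermat.Agent.W1 Fermat.Agent.W1.ES Fermat.Agent.RB
  Fermat.Agent.RB.TWM

/-! ### On the twisted modules -/

section OnMM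

variable (N q M : ℕ) [NeZero N] [NeZero (N * q)] (hM : M ∣ N) (hq : q.Prime) (hqN : ¬ q ∣ N)
  {Δ₁ Δ₂ : Type} [CommGroup Δ₁] [CommGroup Δ₂] [Fintype Δ₁] [Fintype Δ₂]
  (π σ : (ZMod M)ˣ →* Δ₁ × Δ₂) (hπ : Function.Surjective π) (O : Type) [CommRing O]

/-- the two degeneracy maps, normalised. -/
noncomputable def iotaM (c' : Fin 2) :
    MM N M hM π O →ₗ[MonoidAlgebra O (Δ₁ × Δ₂)] MM (N * q) M (dvd_mul_level N q M hM) π O :=
  if c' = 0 then pullAM N q M hM π O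
  else MonoidAlgebra.of O (Δ₁ × Δ₂) (sigAt M σ q) • pullBM N q M hM hq π O

/-- the two traces, normalised. -/
noncomputable def betaM (c' : Fin 2) :
    MM (N * q) M (dvd_mul_level N q M hM) π O →ₗ[MonoidAlgebra O (Δ₁ × Δ₂)] MM N M hM π O :=
  if c' = 0 then pushAM N q M hM hq hqN π O
  else MonoidAlgebra.of O (Δ₁ × Δ₂) (sigAt M σ q)⁻¹ • pushBM N q M hM hq hqN π O

theorem iotaM_zero : iotaM N q M hM hq π σ O 0 = pullAM N q M hM π O := if_pos rfl

theorem iotaM_one : iotaM N q M hM hq π σ O 1 =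
    MonoidAlgebra.of O (Δ₁ × Δ₂) (sigAt M σ q) • pullBM N q M hM hq π O := if_neg (by decide)

theorem betaM_zero : betaM N q M hM hq hqN π σ O 0 = pushAM N q M hM hq hqN π O := if_pos rfl

theorem betaM_one : betaM N q M hM hq hqN π σ O 1 =
    MonoidAlgebra.of O (Δ₁ × Δ₂) (sigAt M σ q)⁻¹ • pushBM N q M hM hq hqN π O := if_neg (by decide)

include hπ in
theorem opM_iotaM (c' : Fin 2) (ℓ : Nat.Primes) (hℓq : (ℓ : ℕ) ≠ q) (x : MM N M hM π O) :
    opM (N * q) M (dvd_mul_level N q M hM) π O ℓ (iotaM N q M hM hq π σ O c' x) =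
      iotaM N q M hM hq π σ O c' (opM N M hM π O ℓ x) := by
  fin_cases c'
  · show opM _ _ _ _ _ ℓ (iotaM N q M hM hq π σ O 0 x) = iotaM N q M hM hq π σ O 0 _
    rw [iotaM_zero]
    exact opM_pullAM N q M hM hq π hπ O ℓ hℓq x
  · show opM _ _ _ _ _ ℓ (iotaM N q M hM hq π σ O 1 x) = iotaM N q M hM hq π σ O 1 _
    rw [iotaM_one, LinearMap.smul_apply, LinearMap.smul_apply, map_smul,
      opM_pullBM N q M hM hq π hπ O ℓ hℓq x]

include hπ in
theorem betaM_opM (c' : Fin 2) (ℓ : Nat.Primes) (hℓq : (ℓ : ℕ) ≠ q)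
    (y : MM (N * q) M (dvd_mul_level N q M hM) π O) :
    betaM N q M hM hq hqN π σ O c' (opM (N * q) M (dvd_mul_level N q M hM) π O ℓ y) =
      opM N M hM π O ℓ (betaM N q M hM hq hqN π σ O c' y) := by
  fin_cases c'
  · show betaM N q M hM hq hqN π σ O 0 _ = opM _ _ _ _ _ ℓ (betaM N q M hM hq hqN π σ O 0 y)
    rw [betaM_zero]
    exact pushAM_opM N q M hM hq hqN π hπ O ℓ hℓq y
  · show betaM N q M hM hq hqN π σ O 1 _ = opM _ _ _ _ _ ℓ (betaM N q M hM hq hqN π σ O 1 y)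
    rw [betaM_one, LinearMap.smul_apply, LinearMap.smul_apply, map_smul,
      pushBM_opM N q M hM hq hqN π hπ O ℓ hℓq y]

include hM hq hqN in
/-- `q` is prime to `M`. -/
theorem coprime_chainPrime_level : Nat.Coprime q M :=
  (Nat.Prime.coprime_iff_not_dvd hq).mpr fun h => hqN (h.trans hM)

include hπ in
/-- **`β ∘ ι = [[q + 1, T̃_q], [T̃_q, q + 1]]`** on the twisted modules, `T̃_q = [σ q]⁻¹ T_q`. -/
theorem betaM_iotaM [NeZero M] (hσ : ∀ u, σ u ^ 2 = π u) (c' c'' : Fin 2) (x : MM N M hM π O) :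
    betaM N q M hM hq hqN π σ O c' (iotaM N q M hM hq π σ O c'' x) =
      if c' = c'' then (q + 1) • x
      else MonoidAlgebra.of O (Δ₁ × Δ₂) (sigAt M σ q)⁻¹ • opM N M hM π O ⟨q, hq⟩ x := by
  have hqM : Nat.Coprime q M := coprime_chainPrime_level N q M hM hq hqN
  have hsig : sigAt M σ q = σ (ZMod.unitOfCoprime q hqM) := sigAt_of_coprime M σ hqM
  fin_cases c' <;> fin_cases c''
  · show betaM N q M hM hq hqN π σ O 0 (iotaM N q M hM hq π σ O 0 x) = _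
    rw [if_pos rfl, betaM_zero, iotaM_zero]
    exact pushAM_pullAM N q M hM hq hqN π hπ O x
  · show betaM N q M hM hq hqN π σ O 0 (iotaM N q M hM hq π σ O 1 x) = _
    rw [if_neg (by decide), betaM_zero, iotaM_one, LinearMap.smul_apply, map_smul]
    set g₀ : Gamma0 N := (⟨sigmaP N hq hqN, sigmaP_mem N hq hqN⟩ : Gamma0 N)⁻¹ with hg₀
    have h00 : ((((g₀ : SL(2, ℤ)) 0 0 : ℤ)) : ZMod N) = (q : ZMod N) := by
      have h1 : ((g₀ : SL(2, ℤ)) 0 0 : ℤ) = (sigmaP N hq hqN) 1 1 := by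
        rw [hg₀]
        show ((sigmaP N hq hqN)⁻¹ : SL(2, ℤ)) 0 0 = _
        rw [Matrix.SpecialLinearGroup.SL2_inv_expl]
        simp
      rw [h1]
      exact sigmaP_lowerRight N hq hqN
    have hχ : chiOf N M hM π g₀ = (π (ZMod.unitOfCoprime q hqM))⁻¹ := by
      rw [hg₀, map_inv, TWL.chiOf_sigmaP N M hM π q hq hqN hqM]
    rw [pushAM_pullBM N q M hM hq hqN π hπ O g₀ h00 x, hχ, ← mul_smul, ← map_mul, hsig,
      ← hσ, pow_two, mul_inv, ← mul_assoc, mul_inv_cancel, one_mul]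
  · show betaM N q M hM hq hqN π σ O 1 (iotaM N q M hM hq π σ O 0 x) = _
    rw [if_neg (by decide), betaM_one, iotaM_zero, LinearMap.smul_apply,
      pushBM_pullAM N q M hM hq hqN π hπ O x]
  · show betaM N q M hM hq hqN π σ O 1 (iotaM N q M hM hq π σ O 1 x) = _
    rw [if_pos rfl, betaM_one, iotaM_one, LinearMap.smul_apply, LinearMap.smul_apply, map_smul,
      pushBM_pullBM N q M hM hq hqN π hπ O x, ← mul_smul, ← map_mul, inv_mul_cancel, map_one,
      one_smul]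

end OnMM

/-! ### On the primary parts -/

section OnHH

variable (N q M : ℕ) [NeZero N] [NeZero (N * q)] (hM : M ∣ N) (hq : q.Prime) (hqN : ¬ q ∣ N)
  {Δ₁ Δ₂ : Type} [CommGroup Δ₁] [CommGroup Δ₂] [Fintype Δ₁] [Fintype Δ₂]
  (π σ : (ZMod M)ˣ →* Δ₁ × Δ₂) (hπ : Function.Surjective π)
variable (O : Type) [CommRing O] [IsDomain O] [CharZero O] [IsLocalRing O] [IsNoetherianRing O]
  [IsAdicComplete (maximalIdeal O) O]
variable {I : Type} (ι : I → Nat.Primes) (c : I → O) (hιq : ∀ i, ((ι i : Nat.Primes) : ℕ) ≠ q)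
variable {i₀ : I} {n₀ : O}
  (hTS : TwoStage (fun i => opM N M hM π O (ι i)) (parM N M hM π O hπ) c i₀ n₀)
variable {i₀' : I} {n₀' : O}
  (hTS' : TwoStage (fun i => opM (N * q) M (dvd_mul_level N q M hM) π O (ι i))
    (parM (N * q) M (dvd_mul_level N q M hM) π O hπ) c i₀' n₀')

include hιq hTS in
theorem iotaM_mem (c' : Fin 2) (x : MM N M hM π O)
    (hx : x ∈ primaryPartR (fun i => opM N M hM π O (ι i)) c) :
    iotaM N q M hM hq π σ O c' x ∈
      primaryPartR (fun i => opM (N * q) M (dvd_mul_level N q M hM) π O (ι i)) c :=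
  hTS.map_mem_primaryPartR (fun i => opM (N * q) M (dvd_mul_level N q M hM) π O (ι i))
    ((iotaM N q M hM hq π σ O c').restrictScalars O)
    (fun i y _ => (opM_iotaM N q M hM hq π σ hπ O c' (ι i) (hιq i) y).symm) hx

include hιq hTS' in
theorem betaM_mem (c' : Fin 2) (y : MM (N * q) M (dvd_mul_level N q M hM) π O)
    (hy : y ∈ primaryPartR (fun i => opM (N * q) M (dvd_mul_level N q M hM) π O (ι i)) c) :
    betaM N q M hM hq hqN π σ O c' y ∈ primaryPartR (fun i => opM N M hM π O (ι i)) c :=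
  hTS'.map_mem_primaryPartR (fun i => opM N M hM π O (ι i))
    ((betaM N q M hM hq hqN π σ O c').restrictScalars O)
    (fun i y _ => betaM_opM N q M hM hq hqN π σ hπ O c' (ι i) (hιq i) y) hy

/-- the degeneracy maps on the primary parts. -/
noncomputable def iotaH (c' : Fin 2) :
    HH N M hM π O ι c →ₗ[MonoidAlgebra O (Δ₁ × Δ₂)]
      HH (N * q) M (dvd_mul_level N q M hM) π O ι c :=
  (iotaM N q M hM hq π σ O c').restrict
    fun x hx => iotaM_mem N q M hM hq π σ hπ O ι c hιq hTS c' x hx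

/-- the traces on the primary parts. -/
noncomputable def betaH (c' : Fin 2) :
    HH (N * q) M (dvd_mul_level N q M hM) π O ι c →ₗ[MonoidAlgebra O (Δ₁ × Δ₂)]
      HH N M hM π O ι c :=
  (betaM N q M hM hq hqN π σ O c').restrict
    fun y hy => betaM_mem N q M hM hq hqN π σ hπ O ι c hιq hTS' c' y hy

@[simp] theorem coe_iotaH (c' : Fin 2) (x : HH N M hM π O ι c) :
    ((iotaH N q M hM hq π σ hπ O ι c hιq hTS c' x :
      HH (N * q) M (dvd_mul_level N q M hM) π O ι c) :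
        MM (N * q) M (dvd_mul_level N q M hM) π O) =
      iotaM N q M hM hq π σ O c' (x : MM N M hM π O) := rfl

@[simp] theorem coe_betaH (c' : Fin 2) (y : HH (N * q) M (dvd_mul_level N q M hM) π O ι c) :
    ((betaH N q M hM hq hqN π σ hπ O ι c hιq hTS' c' y : HH N M hM π O ι c) : MM N M hM π O) =
      betaM N q M hM hq hqN π σ O c'
        (y : MM (N * q) M (dvd_mul_level N q M hM) π O) := rfl

variable (hst : StabHyp N M hM π hπ O ι c)
  (hst' : StabHyp (N * q) M (dvd_mul_level N q M hM) π hπ O ι c)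

theorem iotaH_TopAny (c' : Fin 2) (ℓ : Nat.Primes) (hℓq : (ℓ : ℕ) ≠ q)
    (x : HH N M hM π O ι c) :
    iotaH N q M hM hq π σ hπ O ι c hιq hTS c' (TopAny hst ℓ x) =
      TopAny hst' ℓ (iotaH N q M hM hq π σ hπ O ι c hιq hTS c' x) :=
  Subtype.ext (opM_iotaM N q M hM hq π σ hπ O c' ℓ hℓq (x : MM N M hM π O)).symm

theorem betaH_TopAny (c' : Fin 2) (ℓ : Nat.Primes) (hℓq : (ℓ : ℕ) ≠ q)
    (y : HH (N * q) M (dvd_mul_level N q M hM) π O ι c) :
    betaH N q M hM hq hqN π σ hπ O ι c hιq hTS' c' (TopAny hst' ℓ y) =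
      TopAny hst ℓ (betaH N q M hM hq hqN π σ hπ O ι c hιq hTS' c' y) :=
  Subtype.ext (betaM_opM N q M hM hq hqN π σ hπ O c' ℓ hℓq
    (y : MM (N * q) M (dvd_mul_level N q M hM) π O))

theorem iotaH_TqL (c' : Fin 2) (ℓ : Nat.Primes) (hℓq : (ℓ : ℕ) ≠ q)
    (x : HH N M hM π O ι c) :
    iotaH N q M hM hq π σ hπ O ι c hιq hTS c' (TqL σ hst ℓ x) =
      TqL σ hst' ℓ (iotaH N q M hM hq π σ hπ O ι c hιq hTS c' x) := by
  unfold TqL
  rw [Module.End.mul_apply, Module.End.mul_apply, smulEnd_apply, smulEnd_apply, map_smul,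
    iotaH_TopAny N q M hM hq π σ hπ O ι c hιq hTS hst hst' c' ℓ hℓq]

theorem betaH_TqL (c' : Fin 2) (ℓ : Nat.Primes) (hℓq : (ℓ : ℕ) ≠ q)
    (y : HH (N * q) M (dvd_mul_level N q M hM) π O ι c) :
    betaH N q M hM hq hqN π σ hπ O ι c hιq hTS' c' (TqL σ hst' ℓ y) =
      TqL σ hst ℓ (betaH N q M hM hq hqN π σ hπ O ι c hιq hTS' c' y) := by
  unfold TqL
  rw [Module.End.mul_apply, Module.End.mul_apply, smulEnd_apply, smulEnd_apply, map_smul,
    betaH_TopAny N q M hM hq hqN π σ hπ O ι c hιq hTS' hst hst' c' ℓ hℓq]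

/-- **`β ∘ ι = [[q + 1, T̃_q], [T̃_q, q + 1]]`** on the primary parts. -/
theorem betaH_iotaH [NeZero M] (hσ : ∀ u, σ u ^ 2 = π u) (c' c'' : Fin 2)
    (x : HH N M hM π O ι c) :
    betaH N q M hM hq hqN π σ hπ O ι c hιq hTS' c'
        (iotaH N q M hM hq π σ hπ O ι c hιq hTS c'' x) =
      if c' = c'' then (q + 1) • x else TqL σ hst ⟨q, hq⟩ x := by
  apply Subtype.ext
  rw [coe_betaH, coe_iotaH, betaM_iotaM N q M hM hq hqN π σ hπ O hσ c' c'' (x : MM N M hM π O)]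
  split_ifs
  · rfl
  · rfl

end OnHH

/-! ### On the sides -/

section OnSides

variable (N q M : ℕ) [NeZero N] [NeZero (N * q)] (hM : M ∣ N) (hq : q.Prime) (hqN : ¬ q ∣ N)
  {Δ₁ Δ₂ : Type} [CommGroup Δ₁] [CommGroup Δ₂] [Fintype Δ₁] [Fintype Δ₂]
  (π σ : (ZMod M)ˣ →* Δ₁ × Δ₂) (hπ : Function.Surjective π)
variable (O : Type) [CommRing O] [IsDomain O] [CharZero O] [IsLocalRing O] [IsNoetherianRing O]
  [IsAdicComplete (maximalIdeal O) O]
variable {I : Type} (ι : I → Nat.Primes) (c : I → O) (hιq : ∀ i, ((ι i : Nat.Primes) : ℕ) ≠ q)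
variable {i₀ : I} {n₀ : O}
  (hTS : TwoStage (fun i => opM N M hM π O (ι i)) (parM N M hM π O hπ) c i₀ n₀)
variable {i₀' : I} {n₀' : O}
  (hTS' : TwoStage (fun i => opM (N * q) M (dvd_mul_level N q M hM) π O (ι i))
    (parM (N * q) M (dvd_mul_level N q M hM) π O hπ) c i₀' n₀')
variable (hst : StabHyp N M hM π hπ O ι c)
  (hst' : StabHyp (N * q) M (dvd_mul_level N q M hM) π hπ O ι c)
variable (Sbig Sbig' : Finset ℕ)
variable {p r d d' n : ℕ} (δ : Fin r → Δ₂)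
  (hδ : Function.Bijective fun e : Fin r → Fin (p ^ n) => ∏ k, δ k ^ ((e k : Fin (p ^ n)) : ℕ))
  (hδpow : ∀ k, δ k ^ (p ^ n) = 1)
  (b : Module.Basis (Fin d) (MonoidAlgebra O (Δ₁ × Δ₂)) (HH N M hM π O ι c))
  (b' : Module.Basis (Fin d') (MonoidAlgebra O (Δ₁ × Δ₂))
    (HH (N * q) M (dvd_mul_level N q M hM) π O ι c))

/-- the degeneracy maps on the sides. -/
noncomputable def iotaS (c' : Fin 2) :
    (sideL σ hst Sbig δ hδ hδpow b).H →ₗ[O] (sideL σ hst' Sbig' δ hδ hδpow b').H :=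
  sideMap (specHom O Δ₂ (1 : Δ₁ →* Oˣ)) (secHom O Δ₁ Δ₂)
    (iotaH N q M hM hq π σ hπ O ι c hιq hTS c')

/-- the traces on the sides. -/
noncomputable def betaS (c' : Fin 2) :
    (sideL σ hst' Sbig' δ hδ hδpow b').H →ₗ[O] (sideL σ hst Sbig δ hδ hδpow b).H :=
  sideMap (specHom O Δ₂ (1 : Δ₁ →* Oˣ)) (secHom O Δ₁ Δ₂)
    (betaH N q M hM hq hqN π σ hπ O ι c hιq hTS' c')

theorem iotaS_g (c' : Fin 2) (k : Fin r) (x : (sideL σ hst Sbig δ hδ hδpow b).H) :
    iotaS N q M hM hq π σ hπ O ι c hιq hTS hst hst' Sbig Sbig' δ hδ hδpow b b' c'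
        ((sideL σ hst Sbig δ hδ hδpow b).g k x) =
      (sideL σ hst' Sbig' δ hδ hδpow b').g k
        (iotaS N q M hM hq π σ hπ O ι c hιq hTS hst hst' Sbig Sbig' δ hδ hδpow b b' c' x) :=
  sideMap_sideEnd _ _ _ _ _ (fun y => by rw [smulEnd_apply, smulEnd_apply, map_smul]) x

theorem betaS_g (c' : Fin 2) (k : Fin r) (x : (sideL σ hst' Sbig' δ hδ hδpow b').H) :
    betaS N q M hM hq hqN π σ hπ O ι c hιq hTS' hst hst' Sbig Sbig' δ hδ hδpow b b' c'
        ((sideL σ hst' Sbig' δ hδ hδpow b').g k x) =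
      (sideL σ hst Sbig δ hδ hδpow b).g k
        (betaS N q M hM hq hqN π σ hπ O ι c hιq hTS' hst hst' Sbig Sbig' δ hδ hδpow b b' c' x) :=
  sideMap_sideEnd _ _ _ _ _ (fun y => by rw [smulEnd_apply, smulEnd_apply, map_smul]) x

theorem iotaS_TqSide (c' : Fin 2) (ℓ : Nat.Primes) (hℓq : (ℓ : ℕ) ≠ q)
    (x : (sideL σ hst Sbig δ hδ hδpow b).H) :
    iotaS N q M hM hq π σ hπ O ι c hιq hTS hst hst' Sbig Sbig' δ hδ hδpow b b' c'
        (TqSide σ hst Sbig δ hδ hδpow b ℓ x) =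
      TqSide σ hst' Sbig' δ hδ hδpow b' ℓ
        (iotaS N q M hM hq π σ hπ O ι c hιq hTS hst hst' Sbig Sbig' δ hδ hδpow b b' c' x) :=
  sideMap_sideEnd _ _ _ _ _
    (iotaH_TqL N q M hM hq π σ hπ O ι c hιq hTS hst hst' c' ℓ hℓq) x

theorem betaS_TqSide (c' : Fin 2) (ℓ : Nat.Primes) (hℓq : (ℓ : ℕ) ≠ q)
    (x : (sideL σ hst' Sbig' δ hδ hδpow b').H) :
    betaS N q M hM hq hqN π σ hπ O ι c hιq hTS' hst hst' Sbig Sbig' δ hδ hδpow b b' c'
        (TqSide σ hst' Sbig' δ hδ hδpow b' ℓ x) =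
      TqSide σ hst Sbig δ hδ hδpow b ℓ
        (betaS N q M hM hq hqN π σ hπ O ι c hιq hTS' hst hst' Sbig Sbig' δ hδ hδpow b b' c' x) :=
  sideMap_sideEnd _ _ _ _ _
    (betaH_TqL N q M hM hq hqN π σ hπ O ι c hιq hTS' hst hst' c' ℓ hℓq) x

/-- **`β ∘ ι = [[q + 1, T̃_q], [T̃_q, q + 1]]`** on the sides. -/
theorem betaS_iotaS [NeZero M] (hσ : ∀ u, σ u ^ 2 = π u) (c' c'' : Fin 2)
    (x : (sideL σ hst Sbig δ hδ hδpow b).H) :
    betaS N q M hM hq hqN π σ hπ O ι c hιq hTS' hst hst' Sbig Sbig' δ hδ hδpow b b' c'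
        (iotaS N q M hM hq π σ hπ O ι c hιq hTS hst hst' Sbig Sbig' δ hδ hδpow b b' c'' x) =
      if c' = c'' then ((q : O) + 1) • x else TqSide σ hst Sbig δ hδ hδpow b ⟨q, hq⟩ x := by
  obtain ⟨y, rfl⟩ := sideMk_surjective (specHom O Δ₂ (1 : Δ₁ →* Oˣ)) (secHom O Δ₁ Δ₂) x
  show sideMk (specHom O Δ₂ (1 : Δ₁ →* Oˣ)) (secHom O Δ₁ Δ₂)
    (betaH N q M hM hq hqN π σ hπ O ι c hιq hTS' c'
      (iotaH N q M hM hq π σ hπ O ι c hιq hTS c'' y)) = _
  rw [betaH_iotaH N q M hM hq hqN π σ hπ O ι c hιq hTS hTS' hst hσ c' c'' y]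
  split_ifs
  · have e : (q + 1) • y = ((q : O) + 1) • y := by
      rw [← Nat.cast_smul_eq_nsmul O (q + 1)]
      push_cast
      rfl
    rw [e]
    exact sideMk_smul_O _ _ _ _
  · rfl

end OnSides

end Fermat.Agent.ML
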