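/-
PROJECT ML (S59) — [TWMOD-L] (helper2), part 10: **the control map is compatible with the degeneracy
maps and the traces**.

* `ctlMM` (the control map `𝓜(π) → 𝓜(π'' ∘ π)`) commutes with `pullAM`, `pullBM`, `pushAM`, `pushBM`;
* for a trivial character, `zeroEquiv : 𝓜 ≃ Hom(Γ₀(N), 𝒪)` carries them to LR's `pullA`, `pullB`,
  `pushA`, `pushB`;
* hence the formula `κ₁ x = zeroEquiv (ctlMM x)` of `exists_ctl_zeroL` turns `iotaM`, `betaM` into
  `pullA/pullB`, `pushA/pushB` (the twists `[σ q]^{±1}` die under the augmentation).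
-/
import Mathlib
import Fermat.Agent.ML.TWMODL_helper2_Chain
import Fermat.Agent.ML.TWMODL_helper2_BaseOdd

set_option autoImplicit false
set_option linter.unusedSectionVars false
set_option linter.unusedVariables false
set_option linter.style.haveILetI false

namespace Fermat.Agent.ML

open CongruenceSubgroup Matrix ModularCurve.Period IsLocalRing
open scoped MatrixGroups
open Fermat.Agent.GR Fermat.Agent.LR Fermat.Agent.W1 Fermat.Agent.W1.ES Fermat.Agent.RB
  Fermat.Agent.RB.TWM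

/-! ### The restriction of a transfer to the kernels of two characters -/

section RestrictKer

universe w w'

variable {Γ' : Type w'} [Group Γ'] {Γ : Type w} [Group Γ] {Δ : Type*} [CommGroup Δ]
  (χ' : Γ' →* Δ) (χ : Γ →* Δ) {G ι : Type*} [Group G] [Fintype ι] (T : TransferDatum Γ' Γ G ι)

/-- the transfer of the restricted datum is the restriction of the transfer. -/
theorem restrictKer_transferGrp (hT : ∀ γ i, χ' (T.cocycle γ i) = χ γ) (A : Type*)
    [AddCommGroup A] (ψ : Additive Γ' →+ A) :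
    (T.restrictKer χ' χ hT).transferGrp A (pullHom χ'.ker.subtype A ψ) =
      pullHom χ.ker.subtype A (T.transferGrp A ψ) := by
  refine AddMonoidHom.ext fun h => ?_
  obtain ⟨h, rfl⟩ := Additive.ofMul.surjective h
  rw [TransferDatum.transferGrp_apply, pullHom_apply, TransferDatum.transferGrp_apply]
  refine Finset.sum_congr rfl fun i _ => ?_
  rw [pullHom_apply]
  congr 2
  exact restrictKer_xfer_cocycle χ' χ T hT h i

end RestrictKer

/-! ### `ctlMM` and the four maps -/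

section Ctl

variable (N q M : ℕ) [NeZero N] [NeZero (N * q)] (hM : M ∣ N) (hq : q.Prime) (hqN : ¬ q ∣ N)
  {Δ Δ'' : Type} [CommGroup Δ] [CommGroup Δ''] (π : (ZMod M)ˣ →* Δ) (π'' : Δ →* Δ'')
  (O : Type) [CommRing O]

theorem ctlMM_pullAM (x : MM N M hM π O) :
    ctlMM (N * q) M (dvd_mul_level N q M hM) π π'' O (pullAM N q M hM π O x) =
      pullAM N q M hM (π''.comp π) O (ctlMM N M hM π π'' O x) :=
  cocH1MapSL_pull _ _ _ _ _ _ _ _ _ _ x

theorem ctlMM_pullBM (x : MM N M hM π O) :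
    ctlMM (N * q) M (dvd_mul_level N q M hM) π π'' O (pullBM N q M hM hq π O x) =
      pullBM N q M hM hq (π''.comp π) O (ctlMM N M hM π π'' O x) :=
  cocH1MapSL_pull _ _ _ _ _ _ _ _ _ _ x

theorem ctlMM_pushAM (y : MM (N * q) M (dvd_mul_level N q M hM) π O) :
    ctlMM N M hM π π'' O (pushAM N q M hM hq hqN π O y) =
      pushAM N q M hM hq hqN (π''.comp π) O
        (ctlMM (N * q) M (dvd_mul_level N q M hM) π π'' O y) :=
  cocH1MapSL_xfer _ _ _ _ _ _ _ _ _ _ y

theorem ctlMM_pushBM (y : MM (N * q) M (dvd_mul_level N q M hM) π O) :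
    ctlMM N M hM π π'' O (pushBM N q M hM hq hqN π O y) =
      pushBM N q M hM hq hqN (π''.comp π) O
        (ctlMM (N * q) M (dvd_mul_level N q M hM) π π'' O y) :=
  cocH1MapSL_xfer _ _ _ _ _ _ _ _ _ _ y

end Ctl

/-! ### `zeroEquiv` and the four maps, trivial character -/

section Zero

variable (N q M : ℕ) [NeZero N] [NeZero (N * q)] (hM : M ∣ N) (hq : q.Prime) (hqN : ¬ q ∣ N)
  {Δ : Type} [CommGroup Δ] [Fintype Δ] (π₁ : (ZMod M)ˣ →* Δ) (hπ₁ : Function.Surjective π₁)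
  (htriv : ∀ u, π₁ u = 1) (O : Type) [CommRing O]

/-- Shapiro's map in terms of `zeroEquiv`. -/
theorem shapiroH1_eq_zeroEquiv (x : MM N M hM π₁ O) :
    shapiroH1 (chiOf N M hM π₁) x =
      pullHom (chiOf N M hM π₁).ker.subtype O (zeroEquiv N M hM π₁ hπ₁ htriv O x) := by
  refine AddMonoidHom.ext fun h => ?_
  obtain ⟨h, rfl⟩ := Additive.ofMul.surjective h
  have h1 := DFunLike.congr_fun (resH_zeroEquiv N M hM π₁ hπ₁ htriv O x)
    (Additive.ofMul (kerEquivGammaH N M hM π₁ h))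
  rw [resH_apply] at h1
  rw [pullHom_apply]
  have h2 : Subgroup.inclusion (GammaH_le_Gamma0 N M hM π₁) (kerEquivGammaH N M hM π₁ h) =
      (h : ↥(Gamma0 N)) := Subtype.ext (coe_kerEquivGammaH N M hM π₁ h)
  rw [h2] at h1
  rw [show (chiOf N M hM π₁).ker.subtype h = (h : ↥(Gamma0 N)) from rfl, h1]
  show _ = shapiroH1 (chiOf N M hM π₁) x
    (Additive.ofMul ((kerEquivGammaH N M hM π₁).symm (kerEquivGammaH N M hM π₁ h)))
  rw [MulEquiv.symm_apply_apply]

include htriv in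
theorem ker_chiOf_eq_top : (chiOf N M hM π₁).ker = ⊤ := by
  rw [eq_top_iff]
  intro g _
  rw [MonoidHom.mem_ker]
  rw [chiOf_apply, htriv]

include htriv in
theorem pullHom_ker_subtype_injective :
    Function.Injective (pullHom (chiOf N M hM π₁).ker.subtype O) := by
  intro ψ φ h
  refine AddMonoidHom.ext fun g => ?_
  obtain ⟨g, rfl⟩ := Additive.ofMul.surjective g
  have hg : g ∈ (chiOf N M hM π₁).ker := by
    rw [ker_chiOf_eq_top N M hM π₁ htriv]
    exact Subgroup.mem_top g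
  have h1 := DFunLike.congr_fun h (Additive.ofMul (⟨g, hg⟩ : ↥(chiOf N M hM π₁).ker))
  rw [pullHom_apply, pullHom_apply] at h1
  exact h1

/-- `xferBetaN` computes `β_*`. -/
theorem xferBetaN_transferGrp_eq_pushB (A : Type*) [AddCommGroup A]
    (ψ : Additive ↥(Gamma0 (N * q)) →+ A) :
    (xferBetaN N q (bez_eq hq hqN) hq).transferGrp A ψ = pushB N q hq hqN A ψ :=
  ConjReps.transferGrp_eq_of_same (conjRepsBeta N q (bez_eq hq hqN) hq)
    (conjRepsBetaN N q (bez_eq hq hqN) hq) rfl rfl rfl rfl ψ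

theorem zeroEquiv_pullAM (x : MM N M hM π₁ O) :
    zeroEquiv (N * q) M (dvd_mul_level N q M hM) π₁ hπ₁ htriv O (pullAM N q M hM π₁ O x) =
      pullA N q O (zeroEquiv N M hM π₁ hπ₁ htriv O x) := by
  apply pullHom_ker_subtype_injective (N * q) M (dvd_mul_level N q M hM) π₁ htriv O
  rw [← shapiroH1_eq_zeroEquiv, shapiroH1_pullAM, shapiroH1_eq_zeroEquiv N M hM π₁ hπ₁ htriv O x]
  rfl

theorem zeroEquiv_pullBM (x : MM N M hM π₁ O) :
    zeroEquiv (N * q) M (dvd_mul_level N q M hM) π₁ hπ₁ htriv O (pullBM N q M hM hq π₁ O x) =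
      pullB N q hq O (zeroEquiv N M hM π₁ hπ₁ htriv O x) := by
  apply pullHom_ker_subtype_injective (N * q) M (dvd_mul_level N q M hM) π₁ htriv O
  rw [← shapiroH1_eq_zeroEquiv, shapiroH1_pullBM, shapiroH1_eq_zeroEquiv N M hM π₁ hπ₁ htriv O x]
  rfl

theorem zeroEquiv_pushAM (y : MM (N * q) M (dvd_mul_level N q M hM) π₁ O) :
    zeroEquiv N M hM π₁ hπ₁ htriv O (pushAM N q M hM hq hqN π₁ O y) =
      pushA N q hq hqN O (zeroEquiv (N * q) M (dvd_mul_level N q M hM) π₁ hπ₁ htriv O y) := by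
  apply pullHom_ker_subtype_injective N M hM π₁ htriv O
  rw [← shapiroH1_eq_zeroEquiv, shapiroH1_pushAM,
    shapiroH1_eq_zeroEquiv (N * q) M (dvd_mul_level N q M hM) π₁ hπ₁ htriv O y]
  exact restrictKer_transferGrp _ _ _ _ O _

theorem zeroEquiv_pushBM (y : MM (N * q) M (dvd_mul_level N q M hM) π₁ O) :
    zeroEquiv N M hM π₁ hπ₁ htriv O (pushBM N q M hM hq hqN π₁ O y) =
      pushB N q hq hqN O (zeroEquiv (N * q) M (dvd_mul_level N q M hM) π₁ hπ₁ htriv O y) := by
  apply pullHom_ker_subtype_injective N M hM π₁ htriv O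
  rw [← shapiroH1_eq_zeroEquiv, shapiroH1_pushBM,
    shapiroH1_eq_zeroEquiv (N * q) M (dvd_mul_level N q M hM) π₁ hπ₁ htriv O y,
    ← xferBetaN_transferGrp_eq_pushB]
  exact restrictKer_transferGrp _ _ _ _ O _

end Zero

/-! ### The formula of `κ₁` and the maps of a chain step -/

section Kappa

variable (N q M : ℕ) [NeZero N] [NeZero (N * q)] (hM : M ∣ N) (hq : q.Prime) (hqN : ¬ q ∣ N)
  {Δ₁ Δ₂ : Type} [CommGroup Δ₁] [CommGroup Δ₂] [Fintype Δ₁] [Fintype Δ₂]
  (π σ : (ZMod M)ˣ →* Δ₁ × Δ₂) (hπ : Function.Surjective π) (O : Type) [CommRing O]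

/-- the formula of the control map `κ₁` of `exists_ctl_zeroL`. -/
noncomputable def kappaF (N' : ℕ) [NeZero N'] (hM' : M ∣ N') (x : MM N' M hM' π O) :
    Additive ↥(Gamma0 N') →+ O :=
  zeroEquiv N' M hM' ((trivQuot (Δ₁ × Δ₂)).comp π)
    ((trivQuot_surjective (Δ := Δ₁ × Δ₂)).comp hπ) (fun _ => rfl) O
    (ctlMM N' M hM' π (trivQuot (Δ₁ × Δ₂)) O x)

theorem ctlMM_of_smul (N' : ℕ) [NeZero N'] (hM' : M ∣ N') (δ : Δ₁ × Δ₂) (x : MM N' M hM' π O) :
    ctlMM N' M hM' π (trivQuot (Δ₁ × Δ₂)) O (MonoidAlgebra.of O (Δ₁ × Δ₂) δ • x) =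
      ctlMM N' M hM' π (trivQuot (Δ₁ × Δ₂)) O x := by
  rw [map_smulₛₗ]
  have h1 : MonoidAlgebra.mapDomainRingHom O (trivQuot (Δ₁ × Δ₂))
      (MonoidAlgebra.of O (Δ₁ × Δ₂) δ) = 1 := by
    rw [MonoidAlgebra.of_apply, MonoidAlgebra.mapDomainRingHom_apply,
      MonoidAlgebra.mapDomain_single]
    rfl
  rw [h1, one_smul]

theorem kappaF_iotaM (c' : Fin 2) (x : MM N M hM π O) :
    kappaF M π hπ O (N * q) (dvd_mul_level N q M hM) (iotaM N q M hM hq π σ O c' x) =
      if c' = 0 then pullA N q O (kappaF M π hπ O N hM x)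
      else pullB N q hq O (kappaF M π hπ O N hM x) := by
  unfold kappaF
  by_cases hc : c' = 0
  · subst hc
    rw [iotaM_zero, if_pos rfl, ctlMM_pullAM, zeroEquiv_pullAM]
  · have hc1 : c' = 1 := Fin.eq_one_of_ne_zero c' hc
    subst hc1
    rw [iotaM_one, if_neg (by decide), LinearMap.smul_apply, ctlMM_of_smul, ctlMM_pullBM,
      zeroEquiv_pullBM]

theorem kappaF_betaM (c' : Fin 2) (y : MM (N * q) M (dvd_mul_level N q M hM) π O) :
    kappaF M π hπ O N hM (betaM N q M hM hq hqN π σ O c' y) =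
      if c' = 0 then pushA N q hq hqN O (kappaF M π hπ O (N * q) (dvd_mul_level N q M hM) y)
      else pushB N q hq hqN O (kappaF M π hπ O (N * q) (dvd_mul_level N q M hM) y) := by
  unfold kappaF
  by_cases hc : c' = 0
  · subst hc
    rw [betaM_zero, if_pos rfl, ctlMM_pushAM, zeroEquiv_pushAM]
  · have hc1 : c' = 1 := Fin.eq_one_of_ne_zero c' hc
    subst hc1
    rw [betaM_one, if_neg (by decide), LinearMap.smul_apply, ctlMM_of_smul, ctlMM_pushBM,
      zeroEquiv_pushBM]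

end Kappa

end Fermat.Agent.ML
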