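/-
PROJECT ML (S59) — [TWMOD-L]/[IHARA-L] — **the level-zero leaf of "Ihara at Taylor–Wiles level"**
(finding 441 §1 (I)): what [IHARA-L] (helper6) delivers to [TWMOD-L] (helper2), in the vocabulary of
LR (`pullAPar`, `pullBPar`, `pushAPar`, `pushBPar` between `Hom_par(Γ₀(N), 𝒪)` and
`Hom_par(Γ₀(N q), 𝒪)`) and of the level-zero modules `lvlMod 𝒪 p N N c` of `IFACE_helper2_TWModL`.

`q` a prime, `q ∤ N` (`q = p` allowed: LR's chain is prime independent, helper6 msg 2313), `c` a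
non-Eisenstein system of constants.
* `IharaPrimInj` : on the primary part, `α^* ⊕ β^*` is injective modulo `λ` (its image is
  saturated): `α^* x + β^* y ∈ λ · Hom_par(Γ₀(N q), 𝒪)` ⇒ `x, y ∈ λ · Hom_par(Γ₀(N), 𝒪)`;
* `IharaPrimSurj` : on the primary parts, `(α_*, β_*)` is surjective (dual statement: `cupZ`
  duality + adjointness + Ihara).
The transport to Taylor–Wiles level (control + Nakayama over the local ring `𝒪[Δ_Q]`) is done inside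
[TWMOD-L] (`TWModChainLevel.retr`, `.beta_surjective`).
-/
import Mathlib
import Fermat.Agent.ML.IFACE_helper2_TWModL

set_option autoImplicit false
set_option linter.unusedSectionVars false
set_option linter.unusedVariables false

open IsLocalRing CongruenceSubgroup ModularCurve.Period

namespace Fermat.Agent.ML

open Fermat.Agent.GR Fermat.Agent.LR Fermat.Agent.RB

/-- **(I0-inj)**: Ihara's lemma on the primary part, all levels. -/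
def IharaPrimInj : Prop :=
  ∀ {𝒪 : Type} [CommRing 𝒪] [IsDomain 𝒪] [IsDiscreteValuationRing 𝒪]
    [IsAdicComplete (maximalIdeal 𝒪) 𝒪] [Finite (ResidueField 𝒪)] [CharZero 𝒪]
    (p : ℕ) [Fact p.Prime] (_ : p ≠ 2) (_ : (p : 𝒪) ∈ maximalIdeal 𝒪)
    (lam : 𝒪) (_ : Irreducible lam)
    (N q : ℕ) [NeZero N] [NeZero (N * q)] (hq : q.Prime) (hqN : ¬ q ∣ N)
    (c : Nat.Primes → 𝒪)
    (_ : ∀ (D : ℕ), 0 < D → ∀ Bad : Finset ℕ, ∃ ℓ : Nat.Primes,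
      (ℓ : ℕ) ∉ badSet p (N * q) ∧ (ℓ : ℕ) ∉ Bad ∧ (ℓ : ℕ) ≡ 1 [MOD D] ∧
        c ℓ - ((ℓ : ℕ) + 1 : 𝒪) ∉ maximalIdeal 𝒪)
    (x y : ↥(parabolicHoms 𝒪 (Gamma0 N) 𝒪)), x ∈ lvlMod 𝒪 p N N c → y ∈ lvlMod 𝒪 p N N c →
    (∃ w : ↥(parabolicHoms 𝒪 (Gamma0 (N * q)) 𝒪),
      pullAPar N q 𝒪 𝒪 x + pullBPar N q hq 𝒪 𝒪 y = lam • w) →
    (∃ x' : ↥(parabolicHoms 𝒪 (Gamma0 N) 𝒪), x = lam • x') ∧
      ∃ y' : ↥(parabolicHoms 𝒪 (Gamma0 N) 𝒪), y = lam • y'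

/-- **(I0-surj)**: the two traces are jointly surjective on the primary parts, all levels. -/
def IharaPrimSurj : Prop :=
  ∀ {𝒪 : Type} [CommRing 𝒪] [IsDomain 𝒪] [IsDiscreteValuationRing 𝒪]
    [IsAdicComplete (maximalIdeal 𝒪) 𝒪] [Finite (ResidueField 𝒪)] [CharZero 𝒪]
    (p : ℕ) [Fact p.Prime] (_ : p ≠ 2) (_ : (p : 𝒪) ∈ maximalIdeal 𝒪)
    (lam : 𝒪) (_ : Irreducible lam)
    (N q : ℕ) [NeZero N] [NeZero (N * q)] (hq : q.Prime) (hqN : ¬ q ∣ N)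
    (c : Nat.Primes → 𝒪)
    (_ : ∀ (D : ℕ), 0 < D → ∀ Bad : Finset ℕ, ∃ ℓ : Nat.Primes,
      (ℓ : ℕ) ∉ badSet p (N * q) ∧ (ℓ : ℕ) ∉ Bad ∧ (ℓ : ℕ) ≡ 1 [MOD D] ∧
        c ℓ - ((ℓ : ℕ) + 1 : 𝒪) ∉ maximalIdeal 𝒪)
    (x y : ↥(parabolicHoms 𝒪 (Gamma0 N) 𝒪)), x ∈ lvlMod 𝒪 p N N c → y ∈ lvlMod 𝒪 p N N c →
    ∃ w : ↥(parabolicHoms 𝒪 (Gamma0 (N * q)) 𝒪), w ∈ lvlMod 𝒪 p (N * q) (N * q) c ∧
      pushAPar N q hq hqN 𝒪 𝒪 w = x ∧ pushBPar N q hq hqN 𝒪 𝒪 w = y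

end Fermat.Agent.ML
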