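/-
ML (S59) — helper6 — [IHARA-L], part 1: **`IharaPrimInj`, PROVED** (helper2's literal of
`ML/IFACE_helper2_IharaPrim.lean`): on the primary part at a non-Eisenstein system `c`,
`α^* x + β^* y ∈ λ · Hom_par(Γ₀(N q), 𝒪)` ⇒ `x, y ∈ λ · Hom_par(Γ₀(N), 𝒪)`; `q = p` allowed.

Route: reduce modulo `λ`; the residue field `𝔽` is a finite elementary abelian `p`-group, so LR's
[CSP] + [AMALG] (`ihara_eisenstein_of_cspPar`, coefficients `𝔽_p`) applied to the coordinates of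
`𝔽` shows that `x̄`, `ȳ` are Eisenstein: `T_ℓ x̄ = (ℓ + 1) x̄` for the primes `ℓ ∤ N`, `ℓ ≡ 1 mod D`.
On the primary part `T_ℓ - c_ℓ` is topologically nilpotent and `c_ℓ - (ℓ + 1)` is a unit for a
suitable such `ℓ`, hence `x̄ = ȳ = 0`.
-/
import Mathlib
import Fermat.Agent.ML.IFACE_helper2_IharaPrim
import Fermat.Agent.LR.CSP_helper9_Final
import Fermat.Agent.RB.TWMOD_lead_ZeroPrim

set_option autoImplicit false
set_option linter.unusedSectionVars false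
set_option linter.unusedVariables false
set_option linter.style.haveILetI false

open IsLocalRing CongruenceSubgroup ModularCurve.Period Matrix

open scoped MatrixGroups

namespace Fermat.Agent.ML

open Fermat.Agent.GR Fermat.Agent.LR Fermat.Agent.RB

section Coord

/-- a finite `𝔽_p`-vector space is separated by finitely many homomorphisms to `𝔽_p`. -/
theorem exists_coords_of_module_h6 {p : ℕ} [Fact p.Prime] (A : Type*) [AddCommGroup A]
    [Module (ZMod p) A] [Finite A] :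
    ∃ (ι : Type) (_ : Fintype ι) (θ : ι → A →+ ZMod p), ∀ a : A, (∀ i, θ i a = 0) → a = 0 := by
  haveI : Module.Finite (ZMod p) A := Module.Finite.of_finite
  let b := Module.finBasis (ZMod p) A
  refine ⟨Fin (Module.finrank (ZMod p) A), inferInstance,
    fun i => (b.coord i).toAddMonoidHom, fun a ha => ?_⟩
  exact (b.forall_coord_eq_zero_iff).mp ha

/-- a finite abelian group killed by a prime `p` is separated by finitely many homomorphisms to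
`𝔽_p`. -/
theorem exists_coords_of_nsmul_eq_zero_h6 {p : ℕ} [Fact p.Prime] (A : Type*) [AddCommGroup A]
    [Finite A] (hA : ∀ a : A, p • a = 0) :
    ∃ (ι : Type) (_ : Fintype ι) (θ : ι → A →+ ZMod p), ∀ a : A, (∀ i, θ i a = 0) → a = 0 := by
  letI : Module (ZMod p) A := AddCommGroup.zmodModule hA
  exact exists_coords_of_module_h6 A

end Coord

section Eis

variable {N q p : ℕ} [NeZero q]

/-- **(I) with coefficients in a finite abelian group killed by `p`**: the kernel of `α^* + β^*`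
on pairs `(x, y)` with `x` killing `u(1)`, `l(N)` is Eisenstein. -/
theorem ihara_eisenstein_of_cspPar_fin_h6 [Fact p.Prime] (hq : q.Prime) (hcop : Nat.Coprime N q)
    (hcsp : CSPHypPar N q p) (A : Type*) [AddCommGroup A] [Finite A] (hA : ∀ a : A, p • a = 0)
    (x y : Additive ↥(Gamma0 N) →+ A)
    (hxu : x (Additive.ofMul (uOne N)) = 0) (hxl : x (Additive.ofMul (lN N)) = 0)
    (hxy : ∀ (γ : SL(2, ℤ)) (hγN : γ ∈ Gamma0 N) (hγ : (q : ℤ) ∣ γ 1 0),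
      x (Additive.ofMul (⟨γ, hγN⟩ : ↥(Gamma0 N))) +
        y (Additive.ofMul (⟨conjDownSL q γ hγ, conjDownSL_mem N q hγN hγ hcop⟩ : ↥(Gamma0 N))) =
          0) :
    ∃ D : ℕ, 0 < D ∧ ∀ ℓ : Nat.Primes, ¬ (ℓ : ℕ) ∣ N → (ℓ : ℕ) ≡ 1 [MOD D] →
      heckeGrpP N ℓ A x = ((ℓ : ℕ) + 1) • x ∧ heckeGrpP N ℓ A y = ((ℓ : ℕ) + 1) • y := by
  classical
  obtain ⟨ι, _, θ, hθ⟩ := exists_coords_of_nsmul_eq_zero_h6 A hA
  have h1 : ∀ i : ι, ∃ D : ℕ, 0 < D ∧ ∀ ℓ : Nat.Primes, ¬ (ℓ : ℕ) ∣ N → (ℓ : ℕ) ≡ 1 [MOD D] →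
      heckeGrpP N ℓ (ZMod p) ((θ i).comp x) = ((ℓ : ℕ) + 1) • (θ i).comp x ∧
        heckeGrpP N ℓ (ZMod p) ((θ i).comp y) = ((ℓ : ℕ) + 1) • (θ i).comp y := by
    intro i
    refine ihara_eisenstein_of_cspPar hq hcop hcsp ((θ i).comp x) ((θ i).comp y)
      (by rw [AddMonoidHom.comp_apply, hxu, map_zero])
      (by rw [AddMonoidHom.comp_apply, hxl, map_zero]) ?_
    intro γ hγN hγ
    rw [AddMonoidHom.comp_apply, AddMonoidHom.comp_apply, ← map_add, hxy γ hγN hγ, map_zero]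
  choose Di hDi hDℓ using h1
  refine ⟨∏ i, Di i, Finset.prod_pos fun i _ => hDi i, fun ℓ hℓN hℓD => ?_⟩
  have hmod : ∀ i, (ℓ : ℕ) ≡ 1 [MOD Di i] := fun i =>
    Nat.ModEq.of_dvd (Finset.dvd_prod_of_mem Di (Finset.mem_univ i)) hℓD
  have key : ∀ z : Additive ↥(Gamma0 N) →+ A,
      (∀ i, heckeGrpP N ℓ (ZMod p) ((θ i).comp z) = ((ℓ : ℕ) + 1) • (θ i).comp z) →
      heckeGrpP N ℓ A z = ((ℓ : ℕ) + 1) • z := by
    intro z hz
    refine AddMonoidHom.ext fun γ => ?_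
    rw [← sub_eq_zero]
    refine hθ _ fun i => ?_
    have h2 := DFunLike.congr_fun (hz i) γ
    rw [heckeGrpP_comp] at h2
    rw [map_sub, sub_eq_zero]
    simpa using h2
  exact ⟨key x fun i => (hDℓ i ℓ hℓN (hmod i)).1, key y fun i => (hDℓ i ℓ hℓN (hmod i)).2⟩

end Eis

section Nilp

variable {O : Type*} [CommRing O] {P : Type*} [AddCommGroup P] [Module O P]

/-- if `(E - a) x ∈ S` and `(E - c) ^ k x ∈ S` for a submodule `S` stable under `E`, then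
`(a - c) ^ k x ∈ S`. -/
theorem pow_smul_mem_of_sub_mem_h6 (E : Module.End O P) (S : Submodule O P)
    (hS : ∀ z ∈ S, E z ∈ S) (a c : O) (x : P)
    (h1 : (E - algebraMap O (Module.End O P) a) x ∈ S) (k : ℕ)
    (h2 : ((E - algebraMap O (Module.End O P) c) ^ k) x ∈ S) : (a - c) ^ k • x ∈ S := by
  have hS' : ∀ z ∈ S, (E - algebraMap O (Module.End O P) c) z ∈ S := by
    intro z hz
    rw [LinearMap.sub_apply, Module.algebraMap_end_apply]
    exact S.sub_mem (hS z hz) (S.smul_mem _ hz)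
  have key : ∀ k : ℕ, ((E - algebraMap O (Module.End O P) c) ^ k) x - (a - c) ^ k • x ∈ S := by
    intro k
    induction k with
    | zero => simp
    | succ k ih =>
      have e : ((E - algebraMap O (Module.End O P) c) ^ (k + 1)) x - (a - c) ^ (k + 1) • x =
          (E - algebraMap O (Module.End O P) c)
            (((E - algebraMap O (Module.End O P) c) ^ k) x - (a - c) ^ k • x) +
          (a - c) ^ k • ((E - algebraMap O (Module.End O P) a) x) := by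
        rw [pow_succ', Module.End.mul_apply, map_sub, map_smul, pow_succ, mul_smul]
        simp only [LinearMap.sub_apply, Module.algebraMap_end_apply, sub_smul, smul_sub]
        abel
      rw [e]
      exact S.add_mem (hS' _ ih) (S.smul_mem _ h1)
  have := S.sub_mem h2 (key k)
  rwa [sub_sub_cancel] at this

end Nilp

section Main

variable {𝒪 : Type} [CommRing 𝒪] [IsDomain 𝒪] [IsDiscreteValuationRing 𝒪]

/-- membership of `𝔪 • ⊤` in `Hom_par(Γ, 𝒪)` is divisibility by a uniformiser. -/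
theorem exists_eq_smul_of_mem_smul_top_h6 (Γ : Subgroup SL(2, ℤ)) {lam : 𝒪}
    (hlam : Irreducible lam) (y : ↥(parabolicHoms 𝒪 Γ 𝒪))
    (hy : y ∈ (maximalIdeal 𝒪 ^ 1 • ⊤ : Submodule 𝒪 ↥(parabolicHoms 𝒪 Γ 𝒪))) :
    ∃ y' : ↥(parabolicHoms 𝒪 Γ 𝒪), y = lam • y' := by
  rw [pow_one, hlam.maximalIdeal_eq, Submodule.ideal_span_singleton_smul,
    Submodule.mem_smul_pointwise_iff_exists] at hy
  obtain ⟨y', -, hy'⟩ := hy
  exact ⟨y', hy'.symm⟩

/-- a parabolic homomorphism whose reduction modulo `𝔪` vanishes lies in `𝔪 • Hom_par`. -/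
theorem mem_smul_top_of_residue_comp_eq_zero_h6 (Γ : Subgroup SL(2, ℤ))
    (y : ↥(parabolicHoms 𝒪 Γ 𝒪))
    (hy : (residue 𝒪).toAddMonoidHom.comp (y : Additive ↥Γ →+ 𝒪) = 0) :
    y ∈ (maximalIdeal 𝒪 ^ 1 • ⊤ : Submodule 𝒪 ↥(parabolicHoms 𝒪 Γ 𝒪)) := by
  obtain ⟨ϖ, hϖ⟩ := IsDiscreteValuationRing.exists_irreducible 𝒪
  obtain ⟨y', hy'⟩ := exists_eq_smul_of_comp_eq_zero 𝒪 Γ 𝒪 (residue 𝒪).toAddMonoidHom ϖ
    (fun a b hab => mul_left_cancel₀ hϖ.ne_zero hab)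
    (fun a ha => by
      have h1 : a ∈ maximalIdeal 𝒪 := (residue_eq_zero_iff a).mp ha
      rw [hϖ.maximalIdeal_eq, Ideal.mem_span_singleton] at h1
      obtain ⟨a', rfl⟩ := h1
      exact ⟨a', rfl⟩) y hy
  rw [pow_one, hϖ.maximalIdeal_eq, Submodule.ideal_span_singleton_smul,
    Submodule.mem_smul_pointwise_iff_exists]
  exact ⟨y', Submodule.mem_top, hy'.symm⟩

/-- the Eisenstein consequence for one element of the primary part. -/
theorem eq_smul_of_eisenstein_of_mem_lvlMod_h6 {p : ℕ} {lam : 𝒪} (hlam : Irreducible lam)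
    (N : ℕ) [NeZero N] (c : Nat.Primes → 𝒪) (ℓ : Nat.Primes) (hℓ : (ℓ : ℕ) ∉ badSet p N)
    (hu : c ℓ - ((ℓ : ℕ) + 1 : 𝒪) ∉ maximalIdeal 𝒪)
    (x : ↥(parabolicHoms 𝒪 (Gamma0 N) 𝒪)) (hx : x ∈ lvlMod 𝒪 p N N c)
    (heis : heckeGrpP N ℓ (ResidueField 𝒪)
        ((residue 𝒪).toAddMonoidHom.comp (x : Additive ↥(Gamma0 N) →+ 𝒪)) =
      ((ℓ : ℕ) + 1) • (residue 𝒪).toAddMonoidHom.comp (x : Additive ↥(Gamma0 N) →+ 𝒪)) :
    ∃ x' : ↥(parabolicHoms 𝒪 (Gamma0 N) 𝒪), x = lam • x' := by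
  set E : Module.End 𝒪 ↥(parabolicHoms 𝒪 (Gamma0 N) 𝒪) := heckeParP N ℓ 𝒪 𝒪 with hE
  set S : Submodule 𝒪 ↥(parabolicHoms 𝒪 (Gamma0 N) 𝒪) :=
    (maximalIdeal 𝒪 ^ 1 • ⊤ : Submodule 𝒪 ↥(parabolicHoms 𝒪 (Gamma0 N) 𝒪)) with hS
  have hSst : ∀ z ∈ S, E z ∈ S := fun z hz => Submodule.smul_top_le_comap_smul_top _ E hz
  -- `(E - (ℓ + 1)) x ∈ S`
  have h1 : (E - algebraMap 𝒪 (Module.End 𝒪 ↥(parabolicHoms 𝒪 (Gamma0 N) 𝒪))
      ((ℓ : ℕ) + 1 : 𝒪)) x ∈ S := by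
    refine mem_smul_top_of_residue_comp_eq_zero_h6 (Gamma0 N) _ ?_
    rw [heckeGrpP_comp] at heis
    refine AddMonoidHom.ext fun γ => ?_
    have h2 : residue 𝒪 ((heckeGrpP N ℓ 𝒪 (x : Additive ↥(Gamma0 N) →+ 𝒪)) γ) =
        ((ℓ : ℕ) + 1) • residue 𝒪 ((x : Additive ↥(Gamma0 N) →+ 𝒪) γ) :=
      DFunLike.congr_fun heis γ
    show residue 𝒪 ((((E - algebraMap 𝒪 (Module.End 𝒪 ↥(parabolicHoms 𝒪 (Gamma0 N) 𝒪))
      ((ℓ : ℕ) + 1 : 𝒪)) x : ↥(parabolicHoms 𝒪 (Gamma0 N) 𝒪)) : Additive ↥(Gamma0 N) →+ 𝒪) γ) = 0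
    rw [LinearMap.sub_apply, Module.algebraMap_end_apply, Submodule.coe_sub, Submodule.coe_smul,
      AddMonoidHom.sub_apply, AddMonoidHom.smul_apply, hE, coe_heckeParP, map_sub, h2,
      smul_eq_mul, map_mul, nsmul_eq_mul, map_add, map_natCast, map_one]
    push_cast
    ring
  -- primary
  obtain ⟨k, hk⟩ := (TWM.mem_primaryPart).mp hx ⟨ℓ, hℓ⟩ 1
  have hk' : ((E - algebraMap 𝒪 (Module.End 𝒪 ↥(parabolicHoms 𝒪 (Gamma0 N) 𝒪)) (c ℓ)) ^ k) x ∈ S :=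
    hk
  have h3 := pow_smul_mem_of_sub_mem_h6 E S hSst ((ℓ : ℕ) + 1 : 𝒪) (c ℓ) x h1 k hk'
  have hunit : IsUnit (((ℓ : ℕ) + 1 : 𝒪) - c ℓ) := by
    have h4 : IsUnit (c ℓ - ((ℓ : ℕ) + 1 : 𝒪)) := by
      by_contra h
      exact hu ((mem_maximalIdeal _).mpr h)
    have e : ((ℓ : ℕ) + 1 : 𝒪) - c ℓ = -(c ℓ - ((ℓ : ℕ) + 1 : 𝒪)) := by ring
    rw [e]
    exact h4.neg
  obtain ⟨v, hv⟩ := hunit.pow k
  have h5 : x ∈ S := by
    have h6 : x = ((v⁻¹ : 𝒪ˣ) : 𝒪) • ((((ℓ : ℕ) + 1 : 𝒪) - c ℓ) ^ k • x) := by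
      rw [← hv, smul_smul, Units.inv_mul, one_smul]
    rw [h6]
    exact S.smul_mem _ h3
  exact exists_eq_smul_of_mem_smul_top_h6 (Gamma0 N) hlam x h5

/-- **[IHARA-L] (I0-inj)**: helper2's `IharaPrimInj`. -/
theorem iharaPrimInj : IharaPrimInj := by
  intro 𝒪 _ _ _ _ _ _ p _ hp2 hp𝔪 lam hlam N q _ _ hq hqN c hNE x y hx hy hw
  obtain ⟨w, hw⟩ := hw
  classical
  haveI : NeZero q := ⟨hq.ne_zero⟩
  have hp : p.Prime := Fact.out
  have hcop : Nat.Coprime N q := ((Nat.Prime.coprime_iff_not_dvd hq).mpr hqN).symm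
  have hcsp : CSPHypPar N q p := cspHypPar hq hqN hp hp2
  have hA : ∀ a : ResidueField 𝒪, p • a = 0 := by
    intro a
    have h0 : ((p : ℕ) : ResidueField 𝒪) = 0 := by
      rw [← map_natCast (residue 𝒪) p]
      exact (residue_eq_zero_iff _).mpr hp𝔪
    rw [nsmul_eq_mul, h0, zero_mul]
  have hlam𝔪 : lam ∈ maximalIdeal 𝒪 := by
    rw [hlam.maximalIdeal_eq]
    exact Ideal.mem_span_singleton_self lam
  obtain ⟨D, hD, hDℓ⟩ := ihara_eisenstein_of_cspPar_fin_h6 hq hcop hcsp (ResidueField 𝒪) hA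
    ((residue 𝒪).toAddMonoidHom.comp (x : Additive ↥(Gamma0 N) →+ 𝒪))
    ((residue 𝒪).toAddMonoidHom.comp (y : Additive ↥(Gamma0 N) →+ 𝒪))
    (by rw [AddMonoidHom.comp_apply, mem_parabolicHoms_iff.mp x.2 (uOne N) (trace_uOne N),
      map_zero])
    (by rw [AddMonoidHom.comp_apply, mem_parabolicHoms_iff.mp x.2 (lN N) (trace_lN N),
      map_zero])
    (by
      intro γ hγN hγ
      have hmem := mem_Gamma0_mul_of_dvd hcop hγN hγ
      have h1 := congrArg (fun z : ↥(parabolicHoms 𝒪 (Gamma0 (N * q)) 𝒪) =>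
        (z : Additive ↥(Gamma0 (N * q)) →+ 𝒪) (Additive.ofMul ⟨γ, hmem⟩)) hw
      simp only [Submodule.coe_add, coe_pullAPar, coe_pullBPar, AddMonoidHom.add_apply,
        Submodule.coe_smul, AddMonoidHom.smul_apply, pullA_apply, pullB_apply] at h1
      have h2 := congrArg (residue 𝒪) h1
      rw [map_add, smul_eq_mul, map_mul, (residue_eq_zero_iff lam).mpr hlam𝔪, zero_mul] at h2
      exact h2)
  obtain ⟨ℓ, hℓbad, -, hℓD, hℓu⟩ := hNE D hD ∅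
  have hℓN : ¬ (ℓ : ℕ) ∣ N := fun h => hℓbad ⟨ℓ.2, Or.inr (Dvd.dvd.mul_right h q)⟩
  have hℓbadN : (ℓ : ℕ) ∉ badSet p N := fun h =>
    hℓbad ⟨h.1, h.2.imp id fun h' => Dvd.dvd.mul_right h' q⟩
  obtain ⟨e1, e2⟩ := hDℓ ℓ hℓN hℓD
  exact ⟨eq_smul_of_eisenstein_of_mem_lvlMod_h6 hlam N c ℓ hℓbadN hℓu x hx e1,
    eq_smul_of_eisenstein_of_mem_lvlMod_h6 hlam N c ℓ hℓbadN hℓu y hy e2⟩

end Main

end Fermat.Agent.ML
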