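/-
ML (S59) — helper6 — [IHARA-L], part 2: **Ihara's lemma in characteristic zero**: on the parabolic
`ℤ`-lattices `α^* + β^* : Hom_par(Γ₀(N), ℤ)² → Hom_par(Γ₀(N q), ℤ)` is injective (`q ∤ N` prime).

Route: LR's [CSP] holds with the explicit modulus `D = N q` for every odd prime `p'`
(`cspHypPar_explicit_h6`, the proof of `LR.cspHypPar_of_abstract`); hence for `(φ₁, φ₂)` in the kernel
the values of `φᵢ` on `Γ₀(N) ∩ Γ(N q)` are divisible by every odd prime, so they vanish, and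
`Γ₀(N) ∩ Γ(N q)` has finite index in `Γ₀(N)`.
-/
import Mathlib
import Fermat.Agent.LR.CSP_helper9_Final
import Fermat.Agent.LR.RAISE_helper2_Hecke

set_option autoImplicit false
set_option linter.unusedSectionVars false
set_option linter.unusedVariables false
set_option linter.style.haveILetI false

open Matrix CongruenceSubgroup ModularCurve.Period

open scoped MatrixGroups

namespace Fermat.Agent.ML

open Fermat.Agent.GR Fermat.Agent.LR

variable {N q p : ℕ} [NeZero N] [NeZero q]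

/-- **[CSP] with the explicit modulus `N q`** (the proof of `LR.cspHypPar_of_abstract`). -/
theorem cspHypPar_explicit_h6 (hq : q.Prime) (hqN : ¬ q ∣ N) (hp : p.Prime) (hp2 : p ≠ 2)
    (Φ : ↥(Delta N q) →* Multiplicative (ZMod p))
    (hu : Φ ⟨embA N (uOne N), embA_mem_Delta N q (uOne N)⟩ = 1)
    (hl : Φ ⟨embA N (lN N), embA_mem_Delta N q (lN N)⟩ = 1)
    (γ : ↥(Gamma0 N)) (hγ : (γ : SL(2, ℤ)) ∈ Gamma (N * q)) :
    Φ ⟨embA N γ, embA_mem_Delta N q γ⟩ = 1 ∧ Φ ⟨embB N q γ, embB_mem_Delta N q γ⟩ = 1 := by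
  have hcop : Nat.Coprime N q := ((Nat.Prime.coprime_iff_not_dvd hq).mpr hqN).symm
  set φ : ↥(Gamma0 N) →* Multiplicative (ZMod p) :=
    Φ.comp ((embA N).codRestrict (Delta N q) (embA_mem_Delta N q)) with hφ
  have hφu : φ (uOne N) = 1 := hu
  have hφl : φ (lN N) = 1 := hl
  have hsym : IsQSymbol N q p (rowSym φ) :=
    isQSymbol_rowSym hp hp2 φ hφu hφl (twistHom_of_Delta hq hcop Φ)
  have hkill : ∀ γ : ↥(Gamma0 N), (N : ℤ) ∣ (γ : SL(2, ℤ)) 1 1 - 1 → φ γ = 1 := by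
    intro γ hd
    have h1 := csp_abstract hq hqN hp hp2 hsym ((γ : SL(2, ℤ)) 1 0) ((γ : SL(2, ℤ)) 1 1)
      ((mem_Gamma0_iff_dvd' _).mp γ.2) (isCoprime_bottom_row _) hd
    rw [rowSym_eq φ hφu γ] at h1
    exact h1
  obtain ⟨-, h01, -, h11⟩ := Gamma_entries hγ
  have hN11 : (N : ℤ) ∣ (γ : SL(2, ℤ)) 1 1 - 1 := by
    refine dvd_trans ?_ h11
    push_cast
    exact Dvd.intro _ rfl
  have hq01 : (q : ℤ) ∣ (γ : SL(2, ℤ)) 0 1 := by
    refine dvd_trans ?_ h01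
    push_cast
    exact Dvd.intro_left _ rfl
  refine ⟨hkill γ hN11, ?_⟩
  have h2 : (⟨embB N q γ, embB_mem_Delta N q γ⟩ : ↥(Delta N q)) =
      ⟨embA N ⟨conjUpSL q (γ : SL(2, ℤ)) hq01, conjUpSL_mem N q γ.2 hq01⟩,
        embA_mem_Delta N q _⟩ := by
    apply Subtype.ext
    exact embB_eq_embA_conjUp N q γ.2 hq01
  rw [h2]
  exact hkill ⟨conjUpSL q (γ : SL(2, ℤ)) hq01, conjUpSL_mem N q γ.2 hq01⟩ hN11

/-- an integer divisible by every odd prime vanishes. -/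
theorem int_eq_zero_of_forall_odd_prime_dvd_h6 (n : ℤ)
    (h : ∀ p : ℕ, p.Prime → p ≠ 2 → (p : ℤ) ∣ n) : n = 0 := by
  by_contra hn
  obtain ⟨p, hp1, hp⟩ := Nat.exists_infinite_primes (n.natAbs + 3)
  have hp2 : p ≠ 2 := by omega
  have h1 := h p hp hp2
  have h2 : p ∣ n.natAbs := Int.natCast_dvd.mp h1
  have h3 : p ≤ n.natAbs := Nat.le_of_dvd (Int.natAbs_pos.mpr hn) h2
  omega

/-- a homomorphism to `ℤ` vanishing on `Γ₀(N) ∩ Γ(D)` vanishes. -/
theorem hom_eq_zero_of_forall_Gamma_h6 {D : ℕ} [NeZero D] (φ : Additive ↥(Gamma0 N) →+ ℤ)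
    (h : ∀ γ : ↥(Gamma0 N), (γ : SL(2, ℤ)) ∈ Gamma D → φ (Additive.ofMul γ) = 0) : φ = 0 := by
  refine AddMonoidHom.ext fun γ => ?_
  obtain ⟨γ, rfl⟩ : ∃ γ' : ↥(Gamma0 N), Additive.ofMul γ' = γ := ⟨Additive.toMul γ, rfl⟩
  haveI : Fintype (SL(2, ZMod D)) := Fintype.ofFinite _
  set k := Fintype.card (SL(2, ZMod D)) with hk
  have hk0 : 0 < k := Fintype.card_pos
  have hmem : ((γ ^ k : ↥(Gamma0 N)) : SL(2, ℤ)) ∈ Gamma D := by
    rw [Gamma, MonoidHom.mem_ker, Subgroup.coe_pow, map_pow, hk]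
    exact pow_card_eq_one
  have h1 := h (γ ^ k) hmem
  rw [ofMul_pow, map_nsmul, nsmul_eq_mul] at h1
  rcases mul_eq_zero.mp h1 with h2 | h2
  · exact absurd h2 (by exact_mod_cast hk0.ne')
  · simpa using h2

/-- **Ihara's lemma in characteristic zero**: `α^* + β^*` is injective on `Hom(Γ₀(N), ℤ)²`
restricted to pairs whose first component kills `u(1)`, `l(N)`. -/
theorem pull_injective_h6 (hq : q.Prime) (hqN : ¬ q ∣ N)
    (φ₁ φ₂ : Additive ↥(Gamma0 N) →+ ℤ)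
    (hu : φ₁ (Additive.ofMul (uOne N)) = 0) (hl : φ₁ (Additive.ofMul (lN N)) = 0)
    (h : pullA N q ℤ φ₁ + pullB N q hq ℤ φ₂ = 0) : φ₁ = 0 ∧ φ₂ = 0 := by
  have hcop : Nat.Coprime N q := ((Nat.Prime.coprime_iff_not_dvd hq).mpr hqN).symm
  haveI : NeZero (N * q) := ⟨Nat.mul_ne_zero (NeZero.ne N) hq.ne_zero⟩
  have key : ∀ γ : ↥(Gamma0 N), (γ : SL(2, ℤ)) ∈ Gamma (N * q) →
      φ₁ (Additive.ofMul γ) = 0 ∧ φ₂ (Additive.ofMul γ) = 0 := by
    intro γ hγ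
    have hp' : ∀ p : ℕ, p.Prime → p ≠ 2 →
        (p : ℤ) ∣ φ₁ (Additive.ofMul γ) ∧ (p : ℤ) ∣ φ₂ (Additive.ofMul γ) := by
      intro p hp hp2
      set c : ℤ →+ ZMod p := Int.castAddHom (ZMod p) with hc
      obtain ⟨Φ, hΦA, hΦB⟩ := exists_hom_Delta N q hq hcop
        (AddMonoidHom.toMultiplicativeRight (c.comp φ₁))
        (AddMonoidHom.toMultiplicativeRight (-(c.comp φ₂))) (by
          intro δ hδN hδ
          show Multiplicative.ofAdd ((c.comp φ₁) (Additive.ofMul (⟨δ, hδN⟩ : ↥(Gamma0 N)))) =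
            Multiplicative.ofAdd ((-(c.comp φ₂)) (Additive.ofMul
              (⟨conjDownSL q δ hδ, conjDownSL_mem N q hδN hδ hcop⟩ : ↥(Gamma0 N))))
          congr 1
          rw [AddMonoidHom.neg_apply, eq_neg_iff_add_eq_zero]
          have hmem := mem_Gamma0_mul_of_dvd hcop hδN hδ
          have h1 := DFunLike.congr_fun h (Additive.ofMul (⟨δ, hmem⟩ : ↥(Gamma0 (N * q))))
          rw [AddMonoidHom.add_apply, pullA_apply, pullB_apply, AddMonoidHom.zero_apply] at h1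
          have h2 : c (φ₁ (Additive.ofMul (inclHom N q ⟨δ, hmem⟩)) +
              φ₂ (Additive.ofMul (conjDownHom N q hq ⟨δ, hmem⟩))) = 0 := by
            rw [h1, map_zero]
          rw [map_add] at h2
          exact h2)
      obtain ⟨e1, e2⟩ := cspHypPar_explicit_h6 hq hqN hp hp2 Φ
        (by
          rw [hΦA]
          show Multiplicative.ofAdd ((c.comp φ₁) (Additive.ofMul (uOne N))) = 1
          rw [AddMonoidHom.comp_apply, hu, map_zero]; rfl)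
        (by
          rw [hΦA]
          show Multiplicative.ofAdd ((c.comp φ₁) (Additive.ofMul (lN N))) = 1
          rw [AddMonoidHom.comp_apply, hl, map_zero]; rfl) γ hγ
      rw [hΦA] at e1
      rw [hΦB] at e2
      have e1' : ((φ₁ (Additive.ofMul γ) : ℤ) : ZMod p) = 0 := e1
      have e2' : -((φ₂ (Additive.ofMul γ) : ℤ) : ZMod p) = 0 := e2
      rw [neg_eq_zero] at e2'
      exact ⟨(ZMod.intCast_zmod_eq_zero_iff_dvd _ _).mp e1',
        (ZMod.intCast_zmod_eq_zero_iff_dvd _ _).mp e2'⟩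
    exact ⟨int_eq_zero_of_forall_odd_prime_dvd_h6 _ fun p hp hp2 => (hp' p hp hp2).1,
      int_eq_zero_of_forall_odd_prime_dvd_h6 _ fun p hp hp2 => (hp' p hp hp2).2⟩
  exact ⟨hom_eq_zero_of_forall_Gamma_h6 (D := N * q) φ₁ fun γ hγ => (key γ hγ).1,
    hom_eq_zero_of_forall_Gamma_h6 (D := N * q) φ₂ fun γ hγ => (key γ hγ).2⟩

/-- **Ihara's lemma in characteristic zero, parabolic lattices.** -/
theorem pullPar_injective_h6 (hq : q.Prime) (hqN : ¬ q ∣ N) (φ₁ φ₂ : LPar N)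
    (h : pullAPar N q ℤ ℤ φ₁ + pullBPar N q hq ℤ ℤ φ₂ = 0) : φ₁ = 0 ∧ φ₂ = 0 := by
  have h1 := pull_injective_h6 hq hqN (φ₁ : Additive ↥(Gamma0 N) →+ ℤ)
    (φ₂ : Additive ↥(Gamma0 N) →+ ℤ)
    (mem_parabolicHoms_iff.mp φ₁.2 (uOne N) (trace_uOne N))
    (mem_parabolicHoms_iff.mp φ₁.2 (lN N) (trace_lN N)) (by
      have h2 := congrArg (fun z : LPar (N * q) => (z : Additive ↥(Gamma0 (N * q)) →+ ℤ)) h
      simpa using h2)
  exact ⟨Subtype.ext h1.1, Subtype.ext h1.2⟩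

end Fermat.Agent.ML
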