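/-
ML (S59) — helper6 — [IHARA-L], part 3: **the dual of Ihara's lemma on the `ℤ`-lattices, for an
arbitrary family of primes**: for a family `ι : σ → Nat.Primes` of primes `≠ q`, `∤ N`, a prime ideal
`𝔪 ∋ p` of `ℤ[X_i : i ∈ σ]` which is non-Eisenstein (`X_i - (ι i + 1) ∉ 𝔪` for some `ι i ≡ 1 mod D`,
every `D`), and every `z ∈ Hom_par(Γ₀(N), ℤ)²` there is `s ∉ 𝔪` with
`s • z ∈ (α_*, β_*) Hom_par(Γ₀(N q), ℤ)`.

(`LR.IharaHyp.exists_adjoint_preimage` with `R = ℤ[X_i]`, [CSP] + [AMALG] + [EIS] = `ihara_par_of_cspPar`,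
[DUAL] = `dualHyp`, and the injectivity of `α^* + β^*` of `IHARA_helper6_KerI`.)
-/
import Mathlib
import Fermat.Agent.ML.IHARA_helper6_KerI
import Fermat.Agent.LR.RAISE_helper2_Final

set_option autoImplicit false
set_option linter.unusedSectionVars false
set_option linter.unusedVariables false
set_option linter.style.haveILetI false

open Matrix CongruenceSubgroup ModularCurve.Period MvPolynomial

open scoped MatrixGroups

namespace Fermat.Agent.ML

open Fermat.Agent.GR Fermat.Agent.LR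

variable {N q p : ℕ} [NeZero N] [NeZero q]

set_option maxHeartbeats 1600000 in
/-- **the dual of Ihara's lemma on the `ℤ`-lattices.** -/
theorem exists_push_eq_smul_h6 (hq : q.Prime) (hqN : ¬ q ∣ N) (hp : p.Prime) (hp2 : p ≠ 2)
    {σ : Type} (ι : σ → Nat.Primes) (hιq : ∀ i, ((ι i : Nat.Primes) : ℕ) ≠ q)
    (hιN : ∀ i, ¬ ((ι i : Nat.Primes) : ℕ) ∣ N)
    (𝔪 : Ideal (MvPolynomial σ ℤ)) (h𝔪 : 𝔪.IsPrime) (hp𝔪 : (p : MvPolynomial σ ℤ) ∈ 𝔪)
    (hNE : ∀ D : ℕ, 0 < D → ∃ i : σ, ((ι i : Nat.Primes) : ℕ) ≡ 1 [MOD D] ∧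
      (X i - C ((((ι i : Nat.Primes) : ℕ) + 1 : ℕ) : ℤ) : MvPolynomial σ ℤ) ∉ 𝔪)
    (z₁ z₂ : LPar N) :
    ∃ s : MvPolynomial σ ℤ, s ∉ 𝔪 ∧ ∃ x' : LPar (N * q),
      pushAPar N q hq hqN ℤ ℤ x' = heckeRingHomZ N ι s z₁ ∧
      pushBPar N q hq hqN ℤ ℤ x' = heckeRingHomZ N ι s z₂ := by
  classical
  letI mL : Module (MvPolynomial σ ℤ) (LPar N) := Module.compHom (LPar N) (heckeRingHomZ N ι)
  letI mH : Module (MvPolynomial σ ℤ) (LPar (N * q)) :=
    Module.compHom (LPar (N * q)) (heckeRingHomZ (N * q) ι)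
  have smulL : ∀ (r : MvPolynomial σ ℤ) (x : LPar N), r • x = heckeRingHomZ N ι r x :=
    fun r x => rfl
  have smulH : ∀ (r : MvPolynomial σ ℤ) (x : LPar (N * q)),
      r • x = heckeRingHomZ (N * q) ι r x := fun r x => rfl
  -- equivariance
  have hpullA : ∀ (r : MvPolynomial σ ℤ) (x : LPar N),
      pullAPar N q ℤ ℤ (r • x) = r • pullAPar N q ℤ ℤ x := fun r x =>
    polyHom_intertwine (fun i : σ => heckeZ N (ι i)) (fun i j => heckeZ_commute N (ι i) (ι j))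
      (fun i : σ => heckeZ (N * q) (ι i)) (fun i j => heckeZ_commute (N * q) (ι i) (ι j))
      (pullAPar N q ℤ ℤ).toAddMonoidHom
      (fun i x => (heckeParP_pullAPar N q hq ℤ ℤ (ι i) (hιq i) x).symm) r x
  have hpullB : ∀ (r : MvPolynomial σ ℤ) (x : LPar N),
      pullBPar N q hq ℤ ℤ (r • x) = r • pullBPar N q hq ℤ ℤ x := fun r x =>
    polyHom_intertwine (fun i : σ => heckeZ N (ι i)) (fun i j => heckeZ_commute N (ι i) (ι j))
      (fun i : σ => heckeZ (N * q) (ι i)) (fun i j => heckeZ_commute (N * q) (ι i) (ι j))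
      (pullBPar N q hq ℤ ℤ).toAddMonoidHom
      (fun i x => (heckeParP_pullBPar N q hq ℤ ℤ (ι i) (hιq i) x).symm) r x
  have hpushA : ∀ (r : MvPolynomial σ ℤ) (x : LPar (N * q)),
      pushAPar N q hq hqN ℤ ℤ (r • x) = r • pushAPar N q hq hqN ℤ ℤ x := fun r x =>
    polyHom_intertwine (fun i : σ => heckeZ (N * q) (ι i))
      (fun i j => heckeZ_commute (N * q) (ι i) (ι j))
      (fun i : σ => heckeZ N (ι i)) (fun i j => heckeZ_commute N (ι i) (ι j))
      (pushAPar N q hq hqN ℤ ℤ).toAddMonoidHom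
      (fun i x => pushAPar_heckeParP N q hq hqN ℤ ℤ (ι i) (hιq i) x) r x
  have hpushB : ∀ (r : MvPolynomial σ ℤ) (x : LPar (N * q)),
      pushBPar N q hq hqN ℤ ℤ (r • x) = r • pushBPar N q hq hqN ℤ ℤ x := fun r x =>
    polyHom_intertwine (fun i : σ => heckeZ (N * q) (ι i))
      (fun i j => heckeZ_commute (N * q) (ι i) (ι j))
      (fun i : σ => heckeZ N (ι i)) (fun i j => heckeZ_commute N (ι i) (ι j))
      (pushBPar N q hq hqN ℤ ℤ).toAddMonoidHom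
      (fun i x => pushBPar_heckeParP N q hq hqN ℤ ℤ (ι i) (hιq i) x) r x
  let iR : LPar N × LPar N →ₗ[MvPolynomial σ ℤ] LPar (N * q) :=
    { toFun := degI N q hq ℤ ℤ
      map_add' := map_add _
      map_smul' := fun r a => by
        rw [RingHom.id_apply, degI_apply, degI_apply, Prod.smul_fst, Prod.smul_snd, hpullA, hpullB,
          smul_add] }
  let jR : LPar (N * q) →ₗ[MvPolynomial σ ℤ] LPar N × LPar N :=
    { toFun := degJ N q hq hqN ℤ ℤ
      map_add' := map_add _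
      map_smul' := fun r x => by
        rw [RingHom.id_apply, degJ_apply, degJ_apply, hpushA, hpushB, Prod.smul_mk] }
  have hiR : ∀ a, iR a = pullAPar N q ℤ ℤ a.1 + pullBPar N q hq ℤ ℤ a.2 := fun a => rfl
  have hjR : ∀ x, jR x = (pushAPar N q hq hqN ℤ ℤ x, pushBPar N q hq hqN ℤ ℤ x) := fun x => rfl
  -- (IHARA)
  have hI : IharaHyp p 𝔪 iR := by
    rintro ⟨φ₁, φ₂⟩ ⟨y, hy⟩
    rw [hiR] at hy
    obtain ⟨D, hD, hDℓ⟩ := ihara_par_of_cspPar hq hqN hp.ne_zero (cspHypPar hq hqN hp hp2)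
      φ₁ φ₂ y hy
    obtain ⟨i, hiD, hi𝔪⟩ := hNE D hD
    obtain ⟨ψ₁, ψ₂, h1, h2⟩ := hDℓ (ι i) (hιN i) hiD
    refine ⟨X i - C ((((ι i : Nat.Primes) : ℕ) + 1 : ℕ) : ℤ), hi𝔪, (ψ₁, ψ₂), ?_⟩
    refine Prod.ext ?_ ?_
    · show (X i - C ((((ι i : Nat.Primes) : ℕ) + 1 : ℕ) : ℤ) : MvPolynomial σ ℤ) • φ₁ =
        (p : ℤ) • ψ₁
      rw [smulL, map_sub, heckeRingHomZ_X, heckeRingHomZ_C, LinearMap.sub_apply,
        Module.End.intCast_apply]
      exact h1
    · show (X i - C ((((ι i : Nat.Primes) : ℕ) + 1 : ℕ) : ℤ) : MvPolynomial σ ℤ) • φ₂ =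
        (p : ℤ) • ψ₂
      rw [smulL, map_sub, heckeRingHomZ_X, heckeRingHomZ_C, LinearMap.sub_apply,
        Module.End.intCast_apply]
      exact h2
  -- (DUAL)
  obtain ⟨B, B', hsa, hnd, hB', hadj⟩ := dualHyp N q p hq hqN hp hp2
  have hBsa : ∀ (r : MvPolynomial σ ℤ) (x y : LPar N), B (r • x) y = B x (r • y) := fun r x y =>
    polyHom_selfAdjoint (fun i : σ => heckeZ N (ι i)) (fun i j => heckeZ_commute N (ι i) (ι j)) B
      (fun i x y => hsa (ι i) (hιN i) x y) r x y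
  obtain ⟨s, hs, x', hx'⟩ := hI.exists_adjoint_preimage hp h𝔪 hp𝔪 jR B B' hBsa hnd hB'
    (fun a x' => by rw [hiR, hjR]; exact hadj a.1 a.2 x') (z₁, z₂) (fun a ha => by
      rw [hiR] at ha
      obtain ⟨e1, e2⟩ := pullPar_injective_h6 hq hqN a.1 a.2 ha
      rw [e1, e2, map_zero, LinearMap.zero_apply, LinearMap.zero_apply, add_zero])
  refine ⟨s, hs, x', ?_, ?_⟩
  · have := congrArg Prod.fst hx'
    rw [hjR] at this
    exact this
  · have := congrArg Prod.snd hx'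
    rw [hjR] at this
    exact this

end Fermat.Agent.ML
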