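/-
ML (S59) — helper6 — [IHARA-L], part 4: **`IharaPrimSurj`, PROVED** (helper2's literal of
`ML/IFACE_helper2_IharaPrim.lean`): on the primary parts at a non-Eisenstein system `c` the two
traces `(α_*, β_*) : Hom_par(Γ₀(N q), 𝒪) → Hom_par(Γ₀(N), 𝒪)²` are jointly surjective; `q = p`
allowed.

Route: the `ℤ`-lattice statement `exists_push_eq_smul_h6` (dual Ihara: for every `z` there is
`s ∉ 𝔪` with `s z ∈ im (α_*, β_*)`), base change `ℤ → 𝒪` (`GR.parMapAlg_span`), and the idempotent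
of the maximal ideal `(𝔪_𝒪, X_i - c_i)` acting on `Hom_par(Γ₀(N q), 𝒪) × Hom_par(Γ₀(N), 𝒪)²`
(`RB.TWM.exists_isFamIdem`): `s` is invertible on the primary part.
-/
import Mathlib
import Fermat.Agent.ML.IFACE_helper2_IharaPrim
import Fermat.Agent.ML.IHARA_helper6_SurjZ
import Fermat.Agent.RB.TWMOD_helper2_Fam
import Fermat.Agent.RB.T3_helper3_Statement
import Fermat.Agent.GR.BETTI_lead_BaseChange

set_option autoImplicit false
set_option linter.unusedSectionVars false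
set_option linter.unusedVariables false
set_option linter.style.haveILetI false

open IsLocalRing CongruenceSubgroup ModularCurve.Period Matrix

open scoped MatrixGroups

namespace Fermat.Agent.ML

open Fermat.Agent.GR Fermat.Agent.LR Fermat.Agent.RB Fermat.Agent.RB.TWM

section ProdFam

variable {O : Type*} [CommRing O]
variable {P : Type*} [AddCommGroup P] [Module O P] {P'' : Type*} [AddCommGroup P''] [Module O P'']
variable {I : Type*} (T : I → Module.End O P) (hT : ∀ i j, Commute (T i) (T j))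
  (T'' : I → Module.End O P'') (hT'' : ∀ i j, Commute (T'' i) (T'' j))

/-- the product of two families of operators. -/
def prodFam_h6 : I → Module.End O (P × P'') := fun i => (T i).prodMap (T'' i)

include hT hT'' in
theorem prodFam_commute_h6 (i j : I) : Commute (prodFam_h6 T T'' i) (prodFam_h6 T T'' j) := by
  apply LinearMap.ext
  rintro ⟨a, b⟩
  show ((T i) ((T j) a), (T'' i) ((T'' j) b)) = ((T j) ((T i) a), (T'' j) ((T'' i) b))
  have h1 := LinearMap.congr_fun (hT i j).eq a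
  have h2 := LinearMap.congr_fun (hT'' i j).eq b
  rw [Module.End.mul_apply, Module.End.mul_apply] at h1 h2
  rw [h1, h2]

theorem famHom_prodFam_h6 (s : MvPolynomial I O) (v : P × P'') :
    famHom (O := O) (prodFam_h6 T T'') (prodFam_commute_h6 T hT T'' hT'') s v =
      (famHom (O := O) T hT s v.1, famHom (O := O) T'' hT'' s v.2) := by
  refine Prod.ext ?_ ?_
  · exact famHom_intertwine (O := O) (prodFam_h6 T T'') (prodFam_commute_h6 T hT T'' hT'') T hT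
      (LinearMap.fst O P P'').toAddMonoidHom (fun a x => rfl) (fun i x => rfl) s v
  · exact famHom_intertwine (O := O) (prodFam_h6 T T'') (prodFam_commute_h6 T hT T'' hT'') T'' hT''
      (LinearMap.snd O P P'').toAddMonoidHom (fun a x => rfl) (fun i x => rfl) s v

end ProdFam

section Abstract

variable {O : Type*} [CommRing O] [IsLocalRing O] [IsNoetherianRing O]
  [IsAdicComplete (maximalIdeal O) O]
variable {P' : Type*} [AddCommGroup P'] [Module O P'] [Module.Finite O P']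
variable {Q : Type*} [AddCommGroup Q] [Module O Q] [Module.Finite O Q]
variable {I : Type*} (T' : I → Module.End O P') (hT' : ∀ i j, Commute (T' i) (T' j))
  (TQ : I → Module.End O Q) (hTQ : ∀ i j, Commute (TQ i) (TQ j)) (c : I → O)

/-- a common idempotent for two families. -/
theorem exists_isFamIdem_pair_h6 :
    ∃ ε : MvPolynomial I O, IsFamIdem T' hT' c ε ∧ IsFamIdem TQ hTQ c ε := by
  obtain ⟨ε, hε⟩ := exists_isFamIdem (prodFam_h6 T' TQ) (prodFam_commute_h6 T' hT' TQ hTQ) c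
  refine ⟨ε, ?_, ?_⟩
  · exact hε.of_surjective (prodFam_h6 T' TQ) (prodFam_commute_h6 T' hT' TQ hTQ) c T' hT'
      (LinearMap.fst O P' Q).toAddMonoidHom (fun a x => rfl)
      (fun x => ⟨(x, 0), rfl⟩) (fun i x => rfl)
  · exact hε.of_surjective (prodFam_h6 T' TQ) (prodFam_commute_h6 T' hT' TQ hTQ) c TQ hTQ
      (LinearMap.snd O P' Q).toAddMonoidHom (fun a x => rfl)
      (fun x => ⟨(0, x), rfl⟩) (fun i x => rfl)

include hT' hTQ in
/-- the primary part of a product contains the product of the primary parts. -/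
theorem mem_primaryPartR_prod_h6 {a : P'} {b : Q} (ha : a ∈ primaryPartR T' c)
    (hb : b ∈ primaryPartR TQ c) :
    (a, b) ∈ primaryPartR (prodFam_h6 T' TQ) c := by
  obtain ⟨ε, hε⟩ := exists_isFamIdem (prodFam_h6 T' TQ) (prodFam_commute_h6 T' hT' TQ hTQ) c
  have h1 : IsFamIdem T' hT' c ε :=
    hε.of_surjective (prodFam_h6 T' TQ) (prodFam_commute_h6 T' hT' TQ hTQ) c T' hT'
      (LinearMap.fst O P' Q).toAddMonoidHom (fun a x => rfl)
      (fun x => ⟨(x, 0), rfl⟩) (fun i x => rfl)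
  have h2 : IsFamIdem TQ hTQ c ε :=
    hε.of_surjective (prodFam_h6 T' TQ) (prodFam_commute_h6 T' hT' TQ hTQ) c TQ hTQ
      (LinearMap.snd O P' Q).toAddMonoidHom (fun a x => rfl)
      (fun x => ⟨(0, x), rfl⟩) (fun i x => rfl)
  rw [← hε.range_eq]
  refine ⟨(a, b), ?_⟩
  rw [famHom_prodFam_h6 T' hT' TQ hTQ, h1.apply_of_mem T' hT' c ha, h2.apply_of_mem TQ hTQ c hb]

include hT' in
/-- **from "up to `s ∉ 𝔪`" on a spanning set to surjectivity on the primary parts.** -/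
theorem exists_primary_preimage_h6 (j : P' →ₗ[O] Q) (hj : ∀ i x, j (T' i x) = TQ i (j x))
    (G : Set Q) (hG : Submodule.span O G = ⊤)
    (hgen : ∀ g ∈ G, ∃ s : MvPolynomial I O, s ∉ famIdeal c ∧
      ∃ w : P', j w = famHom (O := O) TQ hTQ s g)
    (v : Q) (hv : v ∈ primaryPartR TQ c) :
    ∃ w ∈ primaryPartR T' c, j w = v := by
  have hint : ∀ (s : MvPolynomial I O) (x : P'),
      j (famHom (O := O) T' hT' s x) = famHom (O := O) TQ hTQ s (j x) :=
    famHom_intertwine (O := O) T' hT' TQ hTQ j.toAddMonoidHom (fun a x => map_smul j a x) hj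
  -- all of `Q`
  have hall : ∀ v : Q, ∃ s : MvPolynomial I O, s ∉ famIdeal c ∧
      ∃ w : P', j w = famHom (O := O) TQ hTQ s v := by
    intro v
    have hv : v ∈ Submodule.span O G := by rw [hG]; exact Submodule.mem_top
    induction hv using Submodule.span_induction with
    | mem g hg => exact hgen g hg
    | zero =>
      refine ⟨1, fun h => ?_, 0, by rw [map_zero, map_zero]⟩
      exact (famIdeal_isMaximal c).ne_top ((Ideal.eq_top_iff_one _).mpr h)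
    | add v₁ v₂ _ _ h₁ h₂ =>
      obtain ⟨s₁, hs₁, w₁, hw₁⟩ := h₁
      obtain ⟨s₂, hs₂, w₂, hw₂⟩ := h₂
      refine ⟨s₁ * s₂, fun h => ?_,
        famHom (O := O) T' hT' s₂ w₁ + famHom (O := O) T' hT' s₁ w₂, ?_⟩
      · rcases (famIdeal_isMaximal c).isPrime.mem_or_mem h with h | h
        · exact hs₁ h
        · exact hs₂ h
      · rw [map_add, hint, hint, hw₁, hw₂, map_add, ← Module.End.mul_apply,
          ← Module.End.mul_apply, ← map_mul, ← map_mul, mul_comm s₂ s₁]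
    | smul a v _ h =>
      obtain ⟨s, hs, w, hw⟩ := h
      exact ⟨s, hs, a • w, by rw [map_smul, hw, map_smul]⟩
  obtain ⟨ε, hε', hεQ⟩ := exists_isFamIdem_pair_h6 T' hT' TQ hTQ c
  obtain ⟨s, hs, w₀, hw₀⟩ := hall v
  obtain ⟨s', hs'⟩ := hεQ.inv s hs
  have hεv : famHom (O := O) TQ hTQ ε v = v := hεQ.apply_of_mem TQ hTQ c hv
  have h1 : v = famHom (O := O) TQ hTQ s' (famHom (O := O) TQ hTQ s v) := by
    have h2 := LinearMap.congr_fun hs' v
    rw [Module.End.mul_apply, hεv, mul_comm s s', map_mul, Module.End.mul_apply] at h2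
    exact h2.symm
  refine ⟨famHom (O := O) T' hT' ε (famHom (O := O) T' hT' s' w₀),
    hε'.apply_mem T' hT' c _, ?_⟩
  rw [hint, hint, hw₀, ← h1, hεv]

end Abstract

section BaseChange

variable {𝒪 : Type} [CommRing 𝒪] [IsDomain 𝒪] [CharZero 𝒪]

theorem heckeParP_parMapAlg_h6 (N : ℕ) (ℓ : Nat.Primes) (φ : LPar N) :
    heckeParP N ℓ 𝒪 𝒪 (parMapAlg ℤ 𝒪 (Gamma0 N) φ) =
      parMapAlg ℤ 𝒪 (Gamma0 N) (heckeZ N ℓ φ) := by
  apply Subtype.ext
  show heckeGrpP N ℓ 𝒪 ((algebraMap ℤ 𝒪).toAddMonoidHom.comp (φ : Additive ↥(Gamma0 N) →+ ℤ)) =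
    (algebraMap ℤ 𝒪).toAddMonoidHom.comp (heckeGrpP N ℓ ℤ (φ : Additive ↥(Gamma0 N) →+ ℤ))
  exact heckeGrpP_comp N ℓ _ _

theorem pushAPar_parMapAlg_h6 (N q : ℕ) (hq : q.Prime) (hqN : ¬ q ∣ N) (x' : LPar (N * q)) :
    pushAPar N q hq hqN 𝒪 𝒪 (parMapAlg ℤ 𝒪 (Gamma0 (N * q)) x') =
      parMapAlg ℤ 𝒪 (Gamma0 N) (pushAPar N q hq hqN ℤ ℤ x') := by
  apply Subtype.ext
  show pushA N q hq hqN 𝒪 ((algebraMap ℤ 𝒪).toAddMonoidHom.comp
      (x' : Additive ↥(Gamma0 (N * q)) →+ ℤ)) =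
    (algebraMap ℤ 𝒪).toAddMonoidHom.comp (pushA N q hq hqN ℤ (x' : Additive ↥(Gamma0 (N * q)) →+ ℤ))
  exact pushA_comp N q hq hqN _ _

theorem pushBPar_parMapAlg_h6 (N q : ℕ) (hq : q.Prime) (hqN : ¬ q ∣ N) (x' : LPar (N * q)) :
    pushBPar N q hq hqN 𝒪 𝒪 (parMapAlg ℤ 𝒪 (Gamma0 (N * q)) x') =
      parMapAlg ℤ 𝒪 (Gamma0 N) (pushBPar N q hq hqN ℤ ℤ x') := by
  apply Subtype.ext
  show pushB N q hq hqN 𝒪 ((algebraMap ℤ 𝒪).toAddMonoidHom.comp
      (x' : Additive ↥(Gamma0 (N * q)) →+ ℤ)) =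
    (algebraMap ℤ 𝒪).toAddMonoidHom.comp (pushB N q hq hqN ℤ (x' : Additive ↥(Gamma0 (N * q)) →+ ℤ))
  exact pushB_comp N q hq hqN _ _

/-- the polynomial actions over `ℤ` and over `𝒪` correspond under base change. -/
theorem parMapAlg_heckeRingHomZ_h6 (N : ℕ) [NeZero N] {σ : Type} (ι : σ → Nat.Primes)
    (s : MvPolynomial σ ℤ) (φ : LPar N) :
    parMapAlg ℤ 𝒪 (Gamma0 N) (heckeRingHomZ N ι s φ) =
      famHom (O := 𝒪) (fun i : σ => heckeParP N (ι i) 𝒪 𝒪)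
        (fun i j => heckeParP_commute_domain 𝒪 (ι i) (ι j))
        (MvPolynomial.map (Int.castRingHom 𝒪) s) (parMapAlg ℤ 𝒪 (Gamma0 N) φ) := by
  induction s using MvPolynomial.induction_on generalizing φ with
  | C n =>
    rw [heckeRingHomZ_C, Module.End.intCast_apply, map_zsmul, MvPolynomial.map_C,
      ← MvPolynomial.algebraMap_eq, AlgHom.commutes, Module.algebraMap_end_apply,
      eq_intCast, Int.cast_smul_eq_zsmul]
  | add a b ha hb =>
    rw [map_add, LinearMap.add_apply, map_add, ha, hb, map_add, map_add, LinearMap.add_apply]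
  | mul_X a i ha =>
    rw [map_mul, heckeRingHomZ_X, Module.End.mul_apply, ha, ← heckeParP_parMapAlg_h6, map_mul,
      MvPolynomial.map_X, map_mul, famHom_X, Module.End.mul_apply]

end BaseChange

section Main

variable {𝒪 : Type} [CommRing 𝒪] [IsDomain 𝒪] [IsDiscreteValuationRing 𝒪]

/-- `famEval` after base change from `ℤ`. -/
theorem famEval_map_h6 {σ : Type} (c : σ → 𝒪) (s : MvPolynomial σ ℤ) :
    famEval c (MvPolynomial.map (Int.castRingHom 𝒪) s) =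
      MvPolynomial.eval₂Hom (Int.castRingHom (ResidueField 𝒪)) (fun i => residue 𝒪 (c i)) s := by
  unfold famEval
  rw [MvPolynomial.coe_eval₂Hom, MvPolynomial.eval₂_map, MvPolynomial.coe_eval₂Hom]
  congr 1

/-- the images of the `ℤ`-lattice span `Hom_par(Γ₀(N), 𝒪)²`. -/
theorem span_range_parMapAlg_prod_h6 [CharZero 𝒪] (N : ℕ) [NeZero N] :
    Submodule.span 𝒪 (Set.range fun z : LPar N × LPar N =>
      ((parMapAlg ℤ 𝒪 (Gamma0 N) z.1, parMapAlg ℤ 𝒪 (Gamma0 N) z.2) :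
        ↥(parabolicHoms 𝒪 (Gamma0 N) 𝒪) × ↥(parabolicHoms 𝒪 (Gamma0 N) 𝒪))) = ⊤ := by
  rw [eq_top_iff]
  rintro ⟨a, b⟩ -
  have hspan := parMapAlg_span ℤ 𝒪 (Gamma0 N)
  have ha : a ∈ Submodule.span 𝒪 (Set.range (parMapAlg ℤ 𝒪 (Gamma0 N))) := by
    rw [hspan]; exact Submodule.mem_top
  have hb : b ∈ Submodule.span 𝒪 (Set.range (parMapAlg ℤ 𝒪 (Gamma0 N))) := by
    rw [hspan]; exact Submodule.mem_top
  set S := Submodule.span 𝒪 (Set.range fun z : LPar N × LPar N =>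
      ((parMapAlg ℤ 𝒪 (Gamma0 N) z.1, parMapAlg ℤ 𝒪 (Gamma0 N) z.2) :
        ↥(parabolicHoms 𝒪 (Gamma0 N) 𝒪) × ↥(parabolicHoms 𝒪 (Gamma0 N) 𝒪))) with hS
  have h1 : ∀ a ∈ Submodule.span 𝒪 (Set.range (parMapAlg ℤ 𝒪 (Gamma0 N))),
      ((a, 0) : ↥(parabolicHoms 𝒪 (Gamma0 N) 𝒪) × ↥(parabolicHoms 𝒪 (Gamma0 N) 𝒪)) ∈ S := by
    intro a ha
    induction ha using Submodule.span_induction with
    | mem g hg =>
      obtain ⟨φ, rfl⟩ := hg
      exact Submodule.subset_span ⟨(φ, 0), by simp⟩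
    | zero => exact S.zero_mem
    | add u v _ _ hu hv =>
      have e : ((u + v, 0) : ↥(parabolicHoms 𝒪 (Gamma0 N) 𝒪) × ↥(parabolicHoms 𝒪 (Gamma0 N) 𝒪)) =
          (u, 0) + (v, 0) := by simp
      rw [e]; exact S.add_mem hu hv
    | smul r u _ hu =>
      have e : ((r • u, 0) : ↥(parabolicHoms 𝒪 (Gamma0 N) 𝒪) × ↥(parabolicHoms 𝒪 (Gamma0 N) 𝒪)) =
          r • (u, 0) := by simp
      rw [e]; exact S.smul_mem r hu
  have h2 : ∀ b ∈ Submodule.span 𝒪 (Set.range (parMapAlg ℤ 𝒪 (Gamma0 N))),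
      ((0, b) : ↥(parabolicHoms 𝒪 (Gamma0 N) 𝒪) × ↥(parabolicHoms 𝒪 (Gamma0 N) 𝒪)) ∈ S := by
    intro b hb
    induction hb using Submodule.span_induction with
    | mem g hg =>
      obtain ⟨φ, rfl⟩ := hg
      exact Submodule.subset_span ⟨(0, φ), by simp⟩
    | zero => exact S.zero_mem
    | add u v _ _ hu hv =>
      have e : ((0, u + v) : ↥(parabolicHoms 𝒪 (Gamma0 N) 𝒪) × ↥(parabolicHoms 𝒪 (Gamma0 N) 𝒪)) =
          (0, u) + (0, v) := by simp
      rw [e]; exact S.add_mem hu hv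
    | smul r u _ hu =>
      have e : ((0, r • u) : ↥(parabolicHoms 𝒪 (Gamma0 N) 𝒪) × ↥(parabolicHoms 𝒪 (Gamma0 N) 𝒪)) =
          r • (0, u) := by simp
      rw [e]; exact S.smul_mem r hu
  have e : ((a, b) : ↥(parabolicHoms 𝒪 (Gamma0 N) 𝒪) × ↥(parabolicHoms 𝒪 (Gamma0 N) 𝒪)) =
      (a, 0) + (0, b) := by simp
  rw [e]
  exact S.add_mem (h1 a ha) (h2 b hb)

set_option maxHeartbeats 3200000 in
/-- **[IHARA-L] (I0-surj)**: helper2's `IharaPrimSurj`. -/
theorem iharaPrimSurj : IharaPrimSurj := by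
  intro 𝒪 _ _ _ _ _ _ p _ hp2 hp𝔪 lam hlam N q _ _ hq hqN c hNE x y hx hy
  classical
  haveI : NeZero q := ⟨hq.ne_zero⟩
  have hp : p.Prime := Fact.out
  -- the index set
  let ι : ↥(primesOutside (badSet p (N * q))) → Nat.Primes := Subtype.val
  have hιbad : ∀ i : ↥(primesOutside (badSet p (N * q))),
      ((ι i : Nat.Primes) : ℕ) ∉ badSet p (N * q) := fun i => i.2
  have hιq : ∀ i : ↥(primesOutside (badSet p (N * q))), ((ι i : Nat.Primes) : ℕ) ≠ q := by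
    intro i h
    exact hιbad i ⟨(ι i).2, Or.inr (h ▸ Dvd.intro_left N rfl)⟩
  have hιN : ∀ i : ↥(primesOutside (badSet p (N * q))), ¬ ((ι i : Nat.Primes) : ℕ) ∣ N :=
    fun i h => hιbad i ⟨(ι i).2, Or.inr (Dvd.dvd.mul_right h q)⟩
  have hιbadN : ∀ i : ↥(primesOutside (badSet p (N * q))),
      ((ι i : Nat.Primes) : ℕ) ∉ badSet p N := fun i h =>
    hιbad i ⟨h.1, h.2.imp id fun h' => Dvd.dvd.mul_right h' q⟩
  -- the prime ideal of `ℤ[X]`
  set φ : MvPolynomial ↥(primesOutside (badSet p (N * q))) ℤ →+* ResidueField 𝒪 :=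
    MvPolynomial.eval₂Hom (Int.castRingHom (ResidueField 𝒪))
      (fun i => residue 𝒪 (c (ι i))) with hφ
  have h𝔪 : (RingHom.ker φ).IsPrime := RingHom.ker_isPrime φ
  have hp𝔪' : (p : MvPolynomial ↥(primesOutside (badSet p (N * q))) ℤ) ∈ RingHom.ker φ := by
    rw [RingHom.mem_ker, map_natCast, ← map_natCast (residue 𝒪) p]
    exact (residue_eq_zero_iff _).mpr hp𝔪
  have hNE' : ∀ D : ℕ, 0 < D → ∃ i : ↥(primesOutside (badSet p (N * q))),
      ((ι i : Nat.Primes) : ℕ) ≡ 1 [MOD D] ∧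
      (MvPolynomial.X i - MvPolynomial.C ((((ι i : Nat.Primes) : ℕ) + 1 : ℕ) : ℤ) :
        MvPolynomial ↥(primesOutside (badSet p (N * q))) ℤ) ∉ RingHom.ker φ := by
    intro D hD
    obtain ⟨ℓ, hℓbad, -, hℓD, hℓu⟩ := hNE D hD ∅
    refine ⟨⟨ℓ, hℓbad⟩, hℓD, fun hmem => hℓu ?_⟩
    rw [RingHom.mem_ker, map_sub, hφ, MvPolynomial.coe_eval₂Hom, MvPolynomial.eval₂_X,
      MvPolynomial.eval₂_C] at hmem
    rw [← residue_eq_zero_iff, map_sub, map_add, map_natCast, map_one]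
    simpa using hmem
  -- the families over `𝒪`
  set T : ↥(primesOutside (badSet p (N * q))) →
      Module.End 𝒪 ↥(parabolicHoms 𝒪 (Gamma0 N) 𝒪) := fun i => heckeParP N (ι i) 𝒪 𝒪 with hTdef
  have hT : ∀ i j, Commute (T i) (T j) := fun i j => heckeParP_commute_domain 𝒪 (ι i) (ι j)
  set T' : ↥(primesOutside (badSet p (N * q))) →
      Module.End 𝒪 ↥(parabolicHoms 𝒪 (Gamma0 (N * q)) 𝒪) :=
    fun i => heckeParP (N * q) (ι i) 𝒪 𝒪 with hT'def
  have hT' : ∀ i j, Commute (T' i) (T' j) := fun i j => heckeParP_commute_domain 𝒪 (ι i) (ι j)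
  set c' : ↥(primesOutside (badSet p (N * q))) → 𝒪 := fun i => c (ι i) with hc'
  have hTQ := prodFam_commute_h6 T hT T hT
  set j : ↥(parabolicHoms 𝒪 (Gamma0 (N * q)) 𝒪) →ₗ[𝒪]
      ↥(parabolicHoms 𝒪 (Gamma0 N) 𝒪) × ↥(parabolicHoms 𝒪 (Gamma0 N) 𝒪) :=
    degJ N q hq hqN 𝒪 𝒪 with hjdef
  have hj : ∀ i w, j (T' i w) = prodFam_h6 T T i (j w) := by
    intro i w
    refine Prod.ext ?_ ?_
    · exact pushAPar_heckeParP N q hq hqN 𝒪 𝒪 (ι i) (hιq i) w
    · exact pushBPar_heckeParP N q hq hqN 𝒪 𝒪 (ι i) (hιq i) w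
  -- generators
  have hgen : ∀ g ∈ (Set.range fun z : LPar N × LPar N =>
      ((parMapAlg ℤ 𝒪 (Gamma0 N) z.1, parMapAlg ℤ 𝒪 (Gamma0 N) z.2) :
        ↥(parabolicHoms 𝒪 (Gamma0 N) 𝒪) × ↥(parabolicHoms 𝒪 (Gamma0 N) 𝒪))),
      ∃ s : MvPolynomial ↥(primesOutside (badSet p (N * q))) 𝒪, s ∉ famIdeal c' ∧
        ∃ w : ↥(parabolicHoms 𝒪 (Gamma0 (N * q)) 𝒪),
          j w = famHom (O := 𝒪) (prodFam_h6 T T) hTQ s g := by
    rintro _ ⟨⟨z₁, z₂⟩, rfl⟩
    obtain ⟨s, hs, x', hA, hB⟩ := exists_push_eq_smul_h6 hq hqN hp hp2 ι hιq hιN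
      (RingHom.ker φ) h𝔪 hp𝔪' hNE' z₁ z₂
    refine ⟨MvPolynomial.map (Int.castRingHom 𝒪) s, fun hmem => hs ?_,
      parMapAlg ℤ 𝒪 (Gamma0 (N * q)) x', ?_⟩
    · rw [famIdeal, RingHom.mem_ker, famEval_map_h6] at hmem
      exact hmem
    · rw [famHom_prodFam_h6 T hT T hT]
      refine Prod.ext ?_ ?_
      · show pushAPar N q hq hqN 𝒪 𝒪 (parMapAlg ℤ 𝒪 (Gamma0 (N * q)) x') = _
        rw [pushAPar_parMapAlg_h6, hA, parMapAlg_heckeRingHomZ_h6]
      · show pushBPar N q hq hqN 𝒪 𝒪 (parMapAlg ℤ 𝒪 (Gamma0 (N * q)) x') = _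
        rw [pushBPar_parMapAlg_h6, hB, parMapAlg_heckeRingHomZ_h6]
  -- `(x, y)` is primary
  have hprim : ∀ z : ↥(parabolicHoms 𝒪 (Gamma0 N) 𝒪), z ∈ lvlMod 𝒪 p N N c →
      z ∈ primaryPartR T c' := by
    intro z hz i n
    exact (TWM.mem_primaryPart).mp hz ⟨ι i, hιbadN i⟩ n
  have hxy : (x, y) ∈ primaryPartR (prodFam_h6 T T) c' :=
    mem_primaryPartR_prod_h6 T hT T hT c' (hprim x hx) (hprim y hy)
  obtain ⟨w, hw, hjw⟩ := exists_primary_preimage_h6 T' hT' (prodFam_h6 T T) hTQ c' j hj _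
    (span_range_parMapAlg_prod_h6 N) hgen (x, y) hxy
  refine ⟨w, ?_, congrArg Prod.fst hjw, congrArg Prod.snd hjw⟩
  intro i n
  exact hw i n

end Main

end Fermat.Agent.ML
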