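/-
PROJECT ML (S59) — [TWMOD-L] (helper2), part 11: **Ihara's lemma and its dual on the primary parts
of level zero, for an arbitrary family of Hecke operators** (`T_ℓ` and `U_ℓ`): helper6's proofs of
`iharaPrimInj`, `iharaPrimSurj` (`ML/IHARA_helper6_{Inj,Surj}`) with the family
`primesOutside (badSet p N)` replaced by any family `ι : I → Nat.Primes` of primes `≠ q` containing
enough non-Eisenstein primes `∤ N`.  (At Taylor–Wiles level the family contains the primes of `Q`,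
which divide the level.)
-/
import Mathlib
import Fermat.Agent.ML.IHARA_helper6_Inj
import Fermat.Agent.ML.IHARA_helper6_Surj

set_option autoImplicit false
set_option linter.unusedSectionVars false
set_option linter.unusedVariables false
set_option linter.style.haveILetI false

open IsLocalRing CongruenceSubgroup ModularCurve.Period Matrix

open scoped MatrixGroups

namespace Fermat.Agent.ML

open Fermat.Agent.GR Fermat.Agent.LR Fermat.Agent.RB Fermat.Agent.RB.TWM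

section Rename

variable {O : Type*} [CommRing O]
variable {P : Type*} [AddCommGroup P] [Module O P]
variable {I J : Type*} (T : I → Module.End O P) (hT : ∀ i j, Commute (T i) (T j)) (f : J → I)

/-- the polynomial action of a subfamily. -/
theorem famHom_rename (s : MvPolynomial J O) :
    famHom (O := O) T hT (MvPolynomial.rename f s) =
      famHom (O := O) (fun j => T (f j)) (fun i j => hT (f i) (f j)) s := by
  induction s using MvPolynomial.induction_on with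
  | C a =>
    rw [MvPolynomial.rename_C, ← MvPolynomial.algebraMap_eq, ← MvPolynomial.algebraMap_eq,
      AlgHom.commutes, AlgHom.commutes]
  | add a b ha hb => rw [map_add, map_add, map_add, ha, hb]
  | mul_X a j ha =>
    rw [map_mul, map_mul, map_mul, ha, MvPolynomial.rename_X, famHom_X, famHom_X]

theorem famEval_rename [IsLocalRing O] (c : I → O) (s : MvPolynomial J O) :
    famEval c (MvPolynomial.rename f s) = famEval (fun j => c (f j)) s := by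
  unfold famEval
  rw [MvPolynomial.coe_eval₂Hom, MvPolynomial.eval₂_rename, MvPolynomial.coe_eval₂Hom]
  rfl

end Rename

section Inj

variable {𝒪 : Type} [CommRing 𝒪] [IsDomain 𝒪] [IsDiscreteValuationRing 𝒪]

/-- the Eisenstein consequence for one element which is primary at one non-Eisenstein prime. -/
theorem eq_smul_of_eisenstein_of_primary {lam : 𝒪} (hlam : Irreducible lam)
    (N : ℕ) [NeZero N] (ℓ : Nat.Primes) (cℓ : 𝒪)
    (hu : cℓ - ((ℓ : ℕ) + 1 : 𝒪) ∉ maximalIdeal 𝒪)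
    (x : ↥(parabolicHoms 𝒪 (Gamma0 N) 𝒪))
    (hx : ∃ k : ℕ, ((heckeParP N ℓ 𝒪 𝒪 -
      algebraMap 𝒪 (Module.End 𝒪 ↥(parabolicHoms 𝒪 (Gamma0 N) 𝒪)) cℓ) ^ k) x ∈
        (maximalIdeal 𝒪 ^ 1 • ⊤ : Submodule 𝒪 ↥(parabolicHoms 𝒪 (Gamma0 N) 𝒪)))
    (heis : heckeGrpP N ℓ (ResidueField 𝒪)
        ((residue 𝒪).toAddMonoidHom.comp (x : Additive ↥(Gamma0 N) →+ 𝒪)) =
      ((ℓ : ℕ) + 1) • (residue 𝒪).toAddMonoidHom.comp (x : Additive ↥(Gamma0 N) →+ 𝒪)) :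
    ∃ x' : ↥(parabolicHoms 𝒪 (Gamma0 N) 𝒪), x = lam • x' := by
  set E : Module.End 𝒪 ↥(parabolicHoms 𝒪 (Gamma0 N) 𝒪) := heckeParP N ℓ 𝒪 𝒪 with hE
  set S : Submodule 𝒪 ↥(parabolicHoms 𝒪 (Gamma0 N) 𝒪) :=
    (maximalIdeal 𝒪 ^ 1 • ⊤ : Submodule 𝒪 ↥(parabolicHoms 𝒪 (Gamma0 N) 𝒪)) with hS
  have hSst : ∀ z ∈ S, E z ∈ S := fun z hz => Submodule.smul_top_le_comap_smul_top _ E hz
  have h1 : (E - algebraMap 𝒪 (Module.End 𝒪 ↥(parabolicHoms 𝒪 (Gamma0 N) 𝒪))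
      ((ℓ : ℕ) + 1 : 𝒪)) x ∈ S := by
    refine mem_smul_top_of_residue_comp_eq_zero_h6 (Gamma0 N) _ ?_
    rw [heckeGrpP_comp] at heis
    refine AddMonoidHom.ext fun γ => ?_
    have h2 : residue 𝒪 ((heckeGrpP N ℓ 𝒪 (x : Additive ↥(Gamma0 N) →+ 𝒪)) γ) =
        ((ℓ : ℕ) + 1) • residue 𝒪 ((x : Additive ↥(Gamma0 N) →+ 𝒪) γ) :=
      DFunLike.congr_fun heis γ
    show residue 𝒪 ((((E - algebraMap 𝒪 (Module.End 𝒪 ↥(parabolicHoms 𝒪 (Gamma0 N) 𝒪))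
      ((ℓ : ℕ) + 1 : 𝒪)) x : ↥(parabolicHoms 𝒪 (Gamma0 N) 𝒪)) : Additive ↥(Gamma0 N) →+ 𝒪) γ) = 0
    rw [LinearMap.sub_apply, Module.algebraMap_end_apply, Submodule.coe_sub, Submodule.coe_smul,
      AddMonoidHom.sub_apply, AddMonoidHom.smul_apply, hE, coe_heckeParP, map_sub, h2,
      smul_eq_mul, map_mul, nsmul_eq_mul, map_add, map_natCast, map_one]
    push_cast
    ring
  obtain ⟨k, hk⟩ := hx
  have h3 := pow_smul_mem_of_sub_mem_h6 E S hSst ((ℓ : ℕ) + 1 : 𝒪) cℓ x h1 k hk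
  have hunit : IsUnit (((ℓ : ℕ) + 1 : 𝒪) - cℓ) := by
    have h4 : IsUnit (cℓ - ((ℓ : ℕ) + 1 : 𝒪)) := by
      by_contra h
      exact hu ((mem_maximalIdeal _).mpr h)
    have e : ((ℓ : ℕ) + 1 : 𝒪) - cℓ = -(cℓ - ((ℓ : ℕ) + 1 : 𝒪)) := by ring
    rw [e]
    exact h4.neg
  obtain ⟨v, hv⟩ := hunit.pow k
  have h5 : x ∈ S := by
    have h6 : x = ((v⁻¹ : 𝒪ˣ) : 𝒪) • ((((ℓ : ℕ) + 1 : 𝒪) - cℓ) ^ k • x) := by
      rw [← hv, smul_smul, Units.inv_mul, one_smul]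
    rw [h6]
    exact S.smul_mem _ h3
  exact exists_eq_smul_of_mem_smul_top_h6 (Gamma0 N) hlam x h5

/-- **Ihara's lemma on the primary part, any family.** -/
theorem ihara_inj_zero [Finite (ResidueField 𝒪)] {p : ℕ} [Fact p.Prime] (hp2 : p ≠ 2)
    (hp𝔪 : (p : 𝒪) ∈ maximalIdeal 𝒪) {lam : 𝒪} (hlam : Irreducible lam)
    (N q : ℕ) [NeZero N] [NeZero (N * q)] (hq : q.Prime) (hqN : ¬ q ∣ N)
    {I : Type*} (ι : I → Nat.Primes) (c : I → 𝒪)
    (hNE : ∀ D : ℕ, 0 < D → ∃ i : I, ¬ ((ι i : Nat.Primes) : ℕ) ∣ N ∧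
      ((ι i : Nat.Primes) : ℕ) ≡ 1 [MOD D] ∧
      c i - ((((ι i : Nat.Primes) : ℕ) : 𝒪) + 1) ∉ maximalIdeal 𝒪)
    (x y : ↥(parabolicHoms 𝒪 (Gamma0 N) 𝒪))
    (hx : x ∈ primaryPart (fun i => heckeParP N (ι i) 𝒪 𝒪) c)
    (hy : y ∈ primaryPart (fun i => heckeParP N (ι i) 𝒪 𝒪) c)
    (hw : ∃ w : ↥(parabolicHoms 𝒪 (Gamma0 (N * q)) 𝒪),
      pullAPar N q 𝒪 𝒪 x + pullBPar N q hq 𝒪 𝒪 y = lam • w) :
    (∃ x' : ↥(parabolicHoms 𝒪 (Gamma0 N) 𝒪), x = lam • x') ∧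
      ∃ y' : ↥(parabolicHoms 𝒪 (Gamma0 N) 𝒪), y = lam • y' := by
  obtain ⟨w, hw⟩ := hw
  classical
  haveI : NeZero q := ⟨hq.ne_zero⟩
  have hp : p.Prime := Fact.out
  have hcop : Nat.Coprime N q := ((Nat.Prime.coprime_iff_not_dvd hq).mpr hqN).symm
  have hcsp : CSPHypPar N q p := cspHypPar hq hqN hp hp2
  have hA : ∀ a : ResidueField 𝒪, p • a = 0 := by
    intro a
    have h0 : ((p : ℕ) : ResidueField 𝒪) = 0 := by
      rw [← map_natCast (residue 𝒪) p]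
      exact (residue_eq_zero_iff _).mpr hp𝔪
    rw [nsmul_eq_mul, h0, zero_mul]
  have hlam𝔪 : lam ∈ maximalIdeal 𝒪 := by
    rw [hlam.maximalIdeal_eq]
    exact Ideal.mem_span_singleton_self lam
  obtain ⟨D, hD, hDℓ⟩ := ihara_eisenstein_of_cspPar_fin_h6 hq hcop hcsp (ResidueField 𝒪) hA
    ((residue 𝒪).toAddMonoidHom.comp (x : Additive ↥(Gamma0 N) →+ 𝒪))
    ((residue 𝒪).toAddMonoidHom.comp (y : Additive ↥(Gamma0 N) →+ 𝒪))
    (by rw [AddMonoidHom.comp_apply, mem_parabolicHoms_iff.mp x.2 (uOne N) (trace_uOne N),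
      map_zero])
    (by rw [AddMonoidHom.comp_apply, mem_parabolicHoms_iff.mp x.2 (lN N) (trace_lN N),
      map_zero])
    (by
      intro γ hγN hγ
      have hmem := mem_Gamma0_mul_of_dvd hcop hγN hγ
      have h1 := congrArg (fun z : ↥(parabolicHoms 𝒪 (Gamma0 (N * q)) 𝒪) =>
        (z : Additive ↥(Gamma0 (N * q)) →+ 𝒪) (Additive.ofMul ⟨γ, hmem⟩)) hw
      simp only [Submodule.coe_add, coe_pullAPar, coe_pullBPar, AddMonoidHom.add_apply,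
        Submodule.coe_smul, AddMonoidHom.smul_apply, pullA_apply, pullB_apply] at h1
      have h2 := congrArg (residue 𝒪) h1
      rw [map_add, smul_eq_mul, map_mul, (residue_eq_zero_iff lam).mpr hlam𝔪, zero_mul] at h2
      exact h2)
  obtain ⟨i, hiN, hiD, hiu⟩ := hNE D hD
  obtain ⟨e1, e2⟩ := hDℓ (ι i) hiN hiD
  exact ⟨eq_smul_of_eisenstein_of_primary hlam N (ι i) (c i) hiu x
      ((mem_primaryPart).mp hx i 1) e1,
    eq_smul_of_eisenstein_of_primary hlam N (ι i) (c i) hiu y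
      ((mem_primaryPart).mp hy i 1) e2⟩

end Inj

section Surj

variable {𝒪 : Type} [CommRing 𝒪] [IsDomain 𝒪] [IsDiscreteValuationRing 𝒪]

set_option maxHeartbeats 3200000 in
/-- **the dual of Ihara's lemma on the primary parts, any family.** -/
theorem ihara_surj_zero [IsAdicComplete (maximalIdeal 𝒪) 𝒪] [CharZero 𝒪] {p : ℕ} [Fact p.Prime]
    (hp2 : p ≠ 2) (hp𝔪 : (p : 𝒪) ∈ maximalIdeal 𝒪)
    (N q : ℕ) [NeZero N] [NeZero (N * q)] (hq : q.Prime) (hqN : ¬ q ∣ N)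
    {I : Type} (ι : I → Nat.Primes) (hιq : ∀ i, ((ι i : Nat.Primes) : ℕ) ≠ q) (c : I → 𝒪)
    (hNE : ∀ D : ℕ, 0 < D → ∃ i : I, ¬ ((ι i : Nat.Primes) : ℕ) ∣ N ∧
      ((ι i : Nat.Primes) : ℕ) ≡ 1 [MOD D] ∧
      c i - ((((ι i : Nat.Primes) : ℕ) : 𝒪) + 1) ∉ maximalIdeal 𝒪)
    (x y : ↥(parabolicHoms 𝒪 (Gamma0 N) 𝒪))
    (hx : x ∈ primaryPart (fun i => heckeParP N (ι i) 𝒪 𝒪) c)
    (hy : y ∈ primaryPart (fun i => heckeParP N (ι i) 𝒪 𝒪) c) :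
    ∃ w : ↥(parabolicHoms 𝒪 (Gamma0 (N * q)) 𝒪),
      w ∈ primaryPart (fun i => heckeParP (N * q) (ι i) 𝒪 𝒪) c ∧
      pushAPar N q hq hqN 𝒪 𝒪 w = x ∧ pushBPar N q hq hqN 𝒪 𝒪 w = y := by
  classical
  haveI : NeZero q := ⟨hq.ne_zero⟩
  have hp : p.Prime := Fact.out
  -- the subfamily of the primes not dividing `N`
  let σ : Type := {i : I // ¬ ((ι i : Nat.Primes) : ℕ) ∣ N}
  let ι' : σ → Nat.Primes := fun i => ι i.1
  have hι'q : ∀ i : σ, ((ι' i : Nat.Primes) : ℕ) ≠ q := fun i => hιq i.1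
  have hι'N : ∀ i : σ, ¬ ((ι' i : Nat.Primes) : ℕ) ∣ N := fun i => i.2
  -- the prime ideal of `ℤ[X]`
  set φ : MvPolynomial σ ℤ →+* ResidueField 𝒪 :=
    MvPolynomial.eval₂Hom (Int.castRingHom (ResidueField 𝒪))
      (fun i => residue 𝒪 (c i.1)) with hφ
  have h𝔪 : (RingHom.ker φ).IsPrime := RingHom.ker_isPrime φ
  have hp𝔪' : (p : MvPolynomial σ ℤ) ∈ RingHom.ker φ := by
    rw [RingHom.mem_ker, map_natCast, ← map_natCast (residue 𝒪) p]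
    exact (residue_eq_zero_iff _).mpr hp𝔪
  have hNE' : ∀ D : ℕ, 0 < D → ∃ i : σ,
      ((ι' i : Nat.Primes) : ℕ) ≡ 1 [MOD D] ∧
      (MvPolynomial.X i - MvPolynomial.C ((((ι' i : Nat.Primes) : ℕ) + 1 : ℕ) : ℤ) :
        MvPolynomial σ ℤ) ∉ RingHom.ker φ := by
    intro D hD
    obtain ⟨i, hiN, hiD, hiu⟩ := hNE D hD
    refine ⟨⟨i, hiN⟩, hiD, fun hmem => hiu ?_⟩
    rw [RingHom.mem_ker, map_sub, hφ, MvPolynomial.coe_eval₂Hom, MvPolynomial.eval₂_X,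
      MvPolynomial.eval₂_C] at hmem
    rw [← residue_eq_zero_iff, map_sub, map_add, map_natCast, map_one]
    simpa using hmem
  -- the families over `𝒪`
  set T : I → Module.End 𝒪 ↥(parabolicHoms 𝒪 (Gamma0 N) 𝒪) :=
    fun i => heckeParP N (ι i) 𝒪 𝒪 with hTdef
  have hT : ∀ i j, Commute (T i) (T j) := fun i j => heckeParP_commute_domain 𝒪 (ι i) (ι j)
  set T' : I → Module.End 𝒪 ↥(parabolicHoms 𝒪 (Gamma0 (N * q)) 𝒪) :=
    fun i => heckeParP (N * q) (ι i) 𝒪 𝒪 with hT'def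
  have hT' : ∀ i j, Commute (T' i) (T' j) := fun i j => heckeParP_commute_domain 𝒪 (ι i) (ι j)
  have hTQ := prodFam_commute_h6 T hT T hT
  set j : ↥(parabolicHoms 𝒪 (Gamma0 (N * q)) 𝒪) →ₗ[𝒪]
      ↥(parabolicHoms 𝒪 (Gamma0 N) 𝒪) × ↥(parabolicHoms 𝒪 (Gamma0 N) 𝒪) :=
    degJ N q hq hqN 𝒪 𝒪 with hjdef
  have hj : ∀ i w, j (T' i w) = prodFam_h6 T T i (j w) := by
    intro i w
    refine Prod.ext ?_ ?_
    · exact pushAPar_heckeParP N q hq hqN 𝒪 𝒪 (ι i) (hιq i) w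
    · exact pushBPar_heckeParP N q hq hqN 𝒪 𝒪 (ι i) (hιq i) w
  -- generators
  have hgen : ∀ g ∈ (Set.range fun z : LPar N × LPar N =>
      ((parMapAlg ℤ 𝒪 (Gamma0 N) z.1, parMapAlg ℤ 𝒪 (Gamma0 N) z.2) :
        ↥(parabolicHoms 𝒪 (Gamma0 N) 𝒪) × ↥(parabolicHoms 𝒪 (Gamma0 N) 𝒪))),
      ∃ s : MvPolynomial I 𝒪, s ∉ famIdeal c ∧
        ∃ w : ↥(parabolicHoms 𝒪 (Gamma0 (N * q)) 𝒪),
          j w = famHom (O := 𝒪) (prodFam_h6 T T) hTQ s g := by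
    rintro _ ⟨⟨z₁, z₂⟩, rfl⟩
    obtain ⟨s, hs, x', hA, hB⟩ := exists_push_eq_smul_h6 hq hqN hp hp2 ι' hι'q hι'N
      (RingHom.ker φ) h𝔪 hp𝔪' hNE' z₁ z₂
    refine ⟨MvPolynomial.rename (Subtype.val : σ → I) (MvPolynomial.map (Int.castRingHom 𝒪) s),
      fun hmem => hs ?_, parMapAlg ℤ 𝒪 (Gamma0 (N * q)) x', ?_⟩
    · rw [famIdeal, RingHom.mem_ker, famEval_rename, famEval_map_h6] at hmem
      exact hmem
    · rw [famHom_prodFam_h6 T hT T hT, famHom_rename]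
      refine Prod.ext ?_ ?_
      · show pushAPar N q hq hqN 𝒪 𝒪 (parMapAlg ℤ 𝒪 (Gamma0 (N * q)) x') = _
        rw [pushAPar_parMapAlg_h6, hA, parMapAlg_heckeRingHomZ_h6]
      · show pushBPar N q hq hqN 𝒪 𝒪 (parMapAlg ℤ 𝒪 (Gamma0 (N * q)) x') = _
        rw [pushBPar_parMapAlg_h6, hB, parMapAlg_heckeRingHomZ_h6]
  have hxy : (x, y) ∈ primaryPartR (prodFam_h6 T T) c :=
    mem_primaryPartR_prod_h6 T hT T hT c (fun i n => (mem_primaryPart).mp hx i n)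
      (fun i n => (mem_primaryPart).mp hy i n)
  obtain ⟨w, hw, hjw⟩ := exists_primary_preimage_h6 T' hT' (prodFam_h6 T T) hTQ c j hj _
    (span_range_parMapAlg_prod_h6 N) hgen (x, y) hxy
  refine ⟨w, ?_, congrArg Prod.fst hjw, congrArg Prod.snd hjw⟩
  intro i n
  exact hw i n

end Surj

end Fermat.Agent.ML
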