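/-
PROJECT ML (S59) — [TWMOD-L] (helper2), part 12: **Ihara's lemma at Taylor–Wiles level**.

Abstract part: `Λ = 𝒪[Δ]` local, `H`, `H'` finite `Λ`-modules (`H'` free) with control maps
`κ : H → L`, `κ' : H' → L'` (onto, kernel `I_Δ H`).  If the maps induced on `L`, `L'` by
`i₀, i₁ : H → H'` are jointly injective modulo `λ`, then `(i₀, i₁)` has a `Λ`-linear retraction; if the
maps induced by `j₀, j₁ : H' → H` are jointly surjective, then so are `(j₀, j₁)` (Nakayama).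
-/
import Mathlib
import Fermat.Agent.ML.TWMODL_helper2_CtlCompat
import Fermat.Agent.ML.TWMODL_helper2_IharaZero

set_option autoImplicit false
set_option linter.unusedSectionVars false
set_option linter.unusedVariables false
set_option linter.style.haveILetI false

namespace Fermat.Agent.ML

open CongruenceSubgroup Matrix ModularCurve.Period IsLocalRing
open scoped MatrixGroups
open Fermat.Agent.GR Fermat.Agent.LR Fermat.Agent.W1 Fermat.Agent.W1.ES Fermat.Agent.RB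
  Fermat.Agent.RB.TWM

section Abstract

variable {O : Type*} [CommRing O] [IsLocalRing O] {Δ : Type*} [CommGroup Δ]
  [IsLocalRing (MonoidAlgebra O Δ)]

theorem augIdeal_le_maximalIdeal :
    augIdeal O Δ ⊤ ≤ maximalIdeal (MonoidAlgebra O Δ) := by
  rw [← ker_augHom]
  refine IsLocalRing.le_maximalIdeal ?_
  rw [Ne, Ideal.eq_top_iff_one, RingHom.mem_ker, map_one]
  exact one_ne_zero

theorem algebraMap_mem_maximalIdeal {a : O} (ha : a ∈ maximalIdeal O) :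
    algebraMap O (MonoidAlgebra O Δ) a ∈ maximalIdeal (MonoidAlgebra O Δ) := by
  rw [mem_maximalIdeal, mem_nonunits_iff]
  intro hu
  have h1 := hu.map (augHom O Δ)
  rw [AlgHom.commutes] at h1
  exact (mem_maximalIdeal a).mp ha h1

theorem augHom_mem_maximalIdeal {a : MonoidAlgebra O Δ}
    (ha : a ∈ maximalIdeal (MonoidAlgebra O Δ)) : augHom O Δ a ∈ maximalIdeal O := by
  rw [mem_maximalIdeal, mem_nonunits_iff]
  intro hu
  have h1 : algebraMap O (MonoidAlgebra O Δ) (augHom O Δ a) ∈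
      maximalIdeal (MonoidAlgebra O Δ) := by
    have h2 := augIdeal_le_maximalIdeal (sub_algebraMap_augHom_mem O Δ a)
    have h3 := (maximalIdeal (MonoidAlgebra O Δ)).sub_mem ha h2
    rwa [sub_sub_cancel] at h3
  exact (mem_maximalIdeal _).mp h1 (hu.map (algebraMap O (MonoidAlgebra O Δ)))

variable {H : Type*} [AddCommGroup H] [Module (MonoidAlgebra O Δ) H] [Module O H]
  [IsScalarTower O (MonoidAlgebra O Δ) H]
variable {H' : Type*} [AddCommGroup H'] [Module (MonoidAlgebra O Δ) H'] [Module O H']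
  [IsScalarTower O (MonoidAlgebra O Δ) H']
variable {L : Type*} [AddCommGroup L] [Module O L] {L' : Type*} [AddCommGroup L'] [Module O L']

/-- the control map sends `𝔪_Λ H` into `λ L`. -/
theorem ctl_mem_of_mem_maximalIdeal_smul {lam : O} (hlam : maximalIdeal O = Ideal.span {lam})
    (κ : H →ₗ[O] L)
    (hκ : ∀ x, κ x = 0 ↔ x ∈ augIdeal O Δ ⊤ • (⊤ : Submodule (MonoidAlgebra O Δ) H))
    {x : H} (hx : x ∈ maximalIdeal (MonoidAlgebra O Δ) • (⊤ : Submodule (MonoidAlgebra O Δ) H)) :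
    ∃ w : L, κ x = lam • w := by
  refine Submodule.smul_induction_on (p := fun x => ∃ w : L, κ x = lam • w) hx ?_ ?_
  · intro a ha h _
    have h1 := augHom_mem_maximalIdeal ha
    rw [hlam, Ideal.mem_span_singleton] at h1
    obtain ⟨b, hb⟩ := h1
    exact ⟨b • κ h, by rw [ctl_smul κ hκ, hb, mul_smul]⟩
  · rintro x y ⟨w₁, h₁⟩ ⟨w₂, h₂⟩
    exact ⟨w₁ + w₂, by rw [map_add, h₁, h₂, smul_add]⟩

/-- `λ H + I_Δ H ⊆ 𝔪_Λ H`. -/
theorem mem_maximalIdeal_smul_of_ctl {lam : O} (hlam : lam ∈ maximalIdeal O) (κ : H →ₗ[O] L)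
    (hκ : ∀ x, κ x = 0 ↔ x ∈ augIdeal O Δ ⊤ • (⊤ : Submodule (MonoidAlgebra O Δ) H))
    {x x₁ : H} (h : κ x = lam • κ x₁) :
    x ∈ maximalIdeal (MonoidAlgebra O Δ) • (⊤ : Submodule (MonoidAlgebra O Δ) H) := by
  have h1 : κ (x - lam • x₁) = 0 := by rw [map_sub, map_smul, h, sub_self]
  have h2 := (hκ _).mp h1
  have h3 : x - lam • x₁ ∈
      maximalIdeal (MonoidAlgebra O Δ) • (⊤ : Submodule (MonoidAlgebra O Δ) H) :=
    Submodule.smul_mono_left augIdeal_le_maximalIdeal h2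
  have h4 : lam • x₁ ∈
      maximalIdeal (MonoidAlgebra O Δ) • (⊤ : Submodule (MonoidAlgebra O Δ) H) := by
    rw [← algebraMap_smul (MonoidAlgebra O Δ) lam x₁]
    exact Submodule.smul_mem_smul (algebraMap_mem_maximalIdeal hlam) Submodule.mem_top
  have := Submodule.add_mem _ h3 h4
  rwa [sub_add_cancel] at this

theorem prod_mem_smul_top (J : Ideal (MonoidAlgebra O Δ)) {x y : H}
    (hx : x ∈ J • (⊤ : Submodule (MonoidAlgebra O Δ) H))
    (hy : y ∈ J • (⊤ : Submodule (MonoidAlgebra O Δ) H)) :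
    ((x, y) : H × H) ∈ J • (⊤ : Submodule (MonoidAlgebra O Δ) (H × H)) := by
  have h1 := Submodule.smul_top_le_comap_smul_top J
    (LinearMap.inl (MonoidAlgebra O Δ) H H) hx
  have h2 := Submodule.smul_top_le_comap_smul_top J
    (LinearMap.inr (MonoidAlgebra O Δ) H H) hy
  rw [Submodule.mem_comap] at h1 h2
  have := Submodule.add_mem _ h1 h2
  rwa [LinearMap.inl_apply, LinearMap.inr_apply, Prod.mk_add_mk, add_zero, zero_add] at this

/-- **Ihara at Taylor–Wiles level, abstract form: a retraction.** -/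
theorem exists_retraction_tw {lam : O} (hlam : maximalIdeal O = Ideal.span {lam})
    [Module.Finite (MonoidAlgebra O Δ) H] [Module.Finite (MonoidAlgebra O Δ) H']
    [Module.Free (MonoidAlgebra O Δ) H']
    (κ : H →ₗ[O] L)
    (hκ : ∀ x, κ x = 0 ↔ x ∈ augIdeal O Δ ⊤ • (⊤ : Submodule (MonoidAlgebra O Δ) H))
    (κ' : H' →ₗ[O] L')
    (hκ' : ∀ x, κ' x = 0 ↔ x ∈ augIdeal O Δ ⊤ • (⊤ : Submodule (MonoidAlgebra O Δ) H'))
    (i₀ i₁ : H →ₗ[MonoidAlgebra O Δ] H') (i₀' i₁' : L → L')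
    (h₀ : ∀ x, κ' (i₀ x) = i₀' (κ x)) (h₁ : ∀ x, κ' (i₁ x) = i₁' (κ x))
    (hinj : ∀ x y : H, (∃ w : L', i₀' (κ x) + i₁' (κ y) = lam • w) →
      (∃ x₁ : H, κ x = lam • κ x₁) ∧ ∃ y₁ : H, κ y = lam • κ y₁) :
    ∃ r₀ r₁ : H' →ₗ[MonoidAlgebra O Δ] H, (∀ x, r₀ (i₀ x) = x) ∧ (∀ x, r₀ (i₁ x) = 0) ∧
      (∀ x, r₁ (i₀ x) = 0) ∧ (∀ x, r₁ (i₁ x) = x) := by
  have hlam𝔪 : lam ∈ maximalIdeal O := by
    rw [hlam]
    exact Ideal.mem_span_singleton_self lam
  obtain ⟨l', hl'⟩ := exists_retraction_of_forall_mem_smul (R := MonoidAlgebra O Δ)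
    (M := H × H) (N := H') (i₀.coprod i₁) (by
      rintro ⟨x, y⟩ hxy
      rw [LinearMap.coprod_apply] at hxy
      obtain ⟨w, hw⟩ := ctl_mem_of_mem_maximalIdeal_smul hlam κ' hκ' hxy
      rw [map_add, h₀, h₁] at hw
      obtain ⟨⟨x₁, ha'⟩, ⟨y₁, hb'⟩⟩ := hinj x y ⟨w, hw⟩
      exact prod_mem_smul_top _ (mem_maximalIdeal_smul_of_ctl hlam𝔪 κ hκ ha')
        (mem_maximalIdeal_smul_of_ctl hlam𝔪 κ hκ hb'))
  have hl : ∀ z : H × H, l' (i₀ z.1 + i₁ z.2) = z := by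
    intro z
    have := LinearMap.congr_fun hl' z
    rwa [LinearMap.comp_apply, LinearMap.coprod_apply, LinearMap.id_apply] at this
  refine ⟨(LinearMap.fst _ H H) ∘ₗ l', (LinearMap.snd _ H H) ∘ₗ l', fun x => ?_, fun x => ?_,
    fun x => ?_, fun x => ?_⟩
  · have := hl (x, 0)
    rw [map_zero, add_zero] at this
    rw [LinearMap.comp_apply, this]
    rfl
  · have := hl (0, x)
    rw [map_zero, zero_add] at this
    rw [LinearMap.comp_apply, this]
    rfl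
  · have := hl (x, 0)
    rw [map_zero, add_zero] at this
    rw [LinearMap.comp_apply, this]
    rfl
  · have := hl (0, x)
    rw [map_zero, zero_add] at this
    rw [LinearMap.comp_apply, this]
    rfl

/-- **dual Ihara at Taylor–Wiles level, abstract form.** -/
theorem surjective_tw [Module.Finite (MonoidAlgebra O Δ) H]
    (κ : H →ₗ[O] L)
    (hκ : ∀ x, κ x = 0 ↔ x ∈ augIdeal O Δ ⊤ • (⊤ : Submodule (MonoidAlgebra O Δ) H))
    (κ' : H' →ₗ[O] L') (hκ's : Function.Surjective κ')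
    (j₀ j₁ : H' →ₗ[MonoidAlgebra O Δ] H) (j₀' j₁' : L' → L)
    (h₀ : ∀ y, κ (j₀ y) = j₀' (κ' y)) (h₁ : ∀ y, κ (j₁ y) = j₁' (κ' y))
    (hsurj : ∀ x y : H, ∃ w : L', j₀' w = κ x ∧ j₁' w = κ y) (x y : H) :
    ∃ w : H', j₀ w = x ∧ j₁ w = y := by
  have hs : Function.Surjective (j₀.prod j₁) := by
    refine surjective_of_forall_exists_sub_mem (R := MonoidAlgebra O Δ) (j₀.prod j₁) ?_
    rintro ⟨x, y⟩
    obtain ⟨w₀, hw₀, hw₁⟩ := hsurj x y
    obtain ⟨w, rfl⟩ := hκ's w₀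
    refine ⟨w, ?_⟩
    show ((j₀ w, j₁ w) : H × H) - (x, y) ∈ _
    rw [Prod.mk_sub_mk]
    refine prod_mem_smul_top _ ?_ ?_
    · refine Submodule.smul_mono_left augIdeal_le_maximalIdeal ((hκ _).mp ?_)
      rw [map_sub, h₀, hw₀, sub_self]
    · refine Submodule.smul_mono_left augIdeal_le_maximalIdeal ((hκ _).mp ?_)
      rw [map_sub, h₁, hw₁, sub_self]
  obtain ⟨w, hw⟩ := hs (x, y)
  have hw' : ((j₀ w, j₁ w) : H × H) = (x, y) := hw
  rw [Prod.mk.injEq] at hw'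
  exact ⟨w, hw'.1, hw'.2⟩

end Abstract

/-! ### Saturation of the primary part -/

section Sat

variable {𝒪 : Type} [CommRing 𝒪] [IsDomain 𝒪] [IsDiscreteValuationRing 𝒪]
  (Γ : Subgroup SL(2, ℤ))

theorem par_smul_cancel {lam : 𝒪} (hlam : lam ≠ 0) {x y : ↥(parabolicHoms 𝒪 Γ 𝒪)}
    (h : lam • x = lam • y) : x = y := by
  apply Subtype.ext
  refine AddMonoidHom.ext fun γ => ?_
  have h1 := congrArg (fun z : ↥(parabolicHoms 𝒪 Γ 𝒪) => (z : Additive ↥Γ →+ 𝒪) γ) h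
  simp only [Submodule.coe_smul, AddMonoidHom.smul_apply, smul_eq_mul] at h1
  exact mul_left_cancel₀ hlam h1

theorem mem_primaryPart_of_smul_mem {lam : 𝒪} (hlam : Irreducible lam) {σ : Type*}
    (T : σ → Module.End 𝒪 ↥(parabolicHoms 𝒪 Γ 𝒪)) (c : σ → 𝒪) {a' : ↥(parabolicHoms 𝒪 Γ 𝒪)}
    (h : lam • a' ∈ primaryPart T c) : a' ∈ primaryPart T c := by
  intro i n
  obtain ⟨k, hk⟩ := h i (n + 1)
  refine ⟨k, ?_⟩
  rw [map_smul, hlam.maximalIdeal_eq, Ideal.span_singleton_pow,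
    Submodule.ideal_span_singleton_smul, Submodule.mem_smul_pointwise_iff_exists] at hk
  obtain ⟨u, -, hu⟩ := hk
  rw [pow_succ', mul_smul] at hu
  have h1 := par_smul_cancel Γ hlam.ne_zero hu
  rw [← h1, hlam.maximalIdeal_eq, Ideal.span_singleton_pow, Submodule.ideal_span_singleton_smul]
  exact Submodule.smul_mem_pointwise_smul _ _ _ Submodule.mem_top

end Sat

/-! ### Ihara at Taylor–Wiles level -/

section Concrete

variable {M : ℕ} {Δ₁ Δ₂ : Type} [CommGroup Δ₁] [CommGroup Δ₂] [Fintype Δ₁] [Fintype Δ₂]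
  (π : (ZMod M)ˣ →* Δ₁ × Δ₂) (hπ : Function.Surjective π)
variable (O : Type) [CommRing O] [IsDomain O] [CharZero O] [IsDiscreteValuationRing O]
  [IsAdicComplete (maximalIdeal O) O]
variable {I : Type} (ι : I → Nat.Primes) (c : I → O)

/-- **the control datum of one level**: the conclusion of `exists_ctl_zeroL`. -/
structure CtlDatum (N' : ℕ) [NeZero N'] (hM' : M ∣ N') where
  κ : HH N' M hM' π O ι c →ₗ[O] ↥(primaryPart (fun i : I => GR.heckeParP N' (ι i) O O) c)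
  surj : Function.Surjective κ
  ker : ∀ x, κ x = 0 ↔ x ∈ augIdeal O (Δ₁ × Δ₂) ⊤ •
    (⊤ : Submodule (MonoidAlgebra O (Δ₁ × Δ₂)) (HH N' M hM' π O ι c))
  hecke : ∀ (i : I) (x y : HH N' M hM' π O ι c),
    (y : MM N' M hM' π O) = opM N' M hM' π O (ι i) (x : MM N' M hM' π O) →
    ((κ y : ↥(primaryPart (fun i : I => GR.heckeParP N' (ι i) O O) c)) :
      ↥(parabolicHoms O (Gamma0 N') O)) = GR.heckeParP N' (ι i) O O (κ x)
  formula : ∀ x : HH N' M hM' π O ι c,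
    (((κ x : ↥(primaryPart (fun i : I => GR.heckeParP N' (ι i) O O) c)) :
      ↥(parabolicHoms O (Gamma0 N') O)) : Additive ↥(Gamma0 N') →+ O) =
    kappaF M π hπ O N' hM' (x : MM N' M hM' π O)

include hπ in
theorem nonempty_ctlDatum (N' : ℕ) [NeZero N'] (hM' : M ∣ N')
    (hL : LiftsCocycles (grpRingChar O (chiOf N' M hM' π)))
    (hN : N' ≠ 1) (hπ1 : π (-1) = 1) (i₀ : I)
    (hℓ₀N : ¬ ((ι i₀ : Nat.Primes) : ℕ) ∣ N') (hℓ₀1 : ((ι i₀ : Nat.Primes) : ℕ) ≡ 1 [MOD N'])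
    (hunit : IsUnit (c i₀ - ((((ι i₀ : Nat.Primes) : ℕ) : O) + 1))) :
    Nonempty (CtlDatum π hπ O ι c N' hM') := by
  obtain ⟨κ₁, h1, h2, h3, h4⟩ := exists_ctl_zeroL N' M hM' π hπ O ι c hL hN hπ1 i₀
    hℓ₀N hℓ₀1 hunit
  exact ⟨⟨κ₁, h1, h2, h3, h4⟩⟩

end Concrete

section Step

variable (N q M : ℕ) [NeZero N] [NeZero (N * q)] (hM : M ∣ N) (hq : q.Prime) (hqN : ¬ q ∣ N)
  {Δ₁ Δ₂ : Type} [CommGroup Δ₁] [CommGroup Δ₂] [Fintype Δ₁] [Fintype Δ₂]
  (π σ : (ZMod M)ˣ →* Δ₁ × Δ₂) (hπ : Function.Surjective π)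
variable (O : Type) [CommRing O] [IsDomain O] [CharZero O] [IsDiscreteValuationRing O]
  [IsAdicComplete (maximalIdeal O) O]
variable {I : Type} (ι : I → Nat.Primes) (c : I → O) (hιq : ∀ i, ((ι i : Nat.Primes) : ℕ) ≠ q)
variable {i₀ : I} {n₀ : O}
  (hTS : TwoStage (fun i => opM N M hM π O (ι i)) (parM N M hM π O hπ) c i₀ n₀)
variable {i₀' : I} {n₀' : O}
  (hTS' : TwoStage (fun i => opM (N * q) M (dvd_mul_level N q M hM) π O (ι i))
    (parM (N * q) M (dvd_mul_level N q M hM) π O hπ) c i₀' n₀')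
variable (K : CtlDatum π hπ O ι c N hM)
  (K' : CtlDatum π hπ O ι c (N * q) (dvd_mul_level N q M hM))

/-- the control maps carry `ι_c` to `α^*`, `β^*`. -/
theorem ctl_iotaH (c' : Fin 2) (x : HH N M hM π O ι c) :
    ((K'.κ (iotaH N q M hM hq π σ hπ O ι c hιq hTS c' x) :
      ↥(primaryPart (fun i : I => GR.heckeParP (N * q) (ι i) O O) c)) :
        ↥(parabolicHoms O (Gamma0 (N * q)) O)) =
      if c' = 0 then pullAPar N q O O (K.κ x : ↥(parabolicHoms O (Gamma0 N) O))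
      else pullBPar N q hq O O (K.κ x : ↥(parabolicHoms O (Gamma0 N) O)) := by
  apply Subtype.ext
  rw [K'.formula, coe_iotaH, kappaF_iotaM, ← K.formula]
  split_ifs
  · rfl
  · rfl

/-- the control maps carry `β_c` to `α_*`, `β_*`. -/
theorem ctl_betaH (c' : Fin 2) (y : HH (N * q) M (dvd_mul_level N q M hM) π O ι c) :
    ((K.κ (betaH N q M hM hq hqN π σ hπ O ι c hιq hTS' c' y) :
      ↥(primaryPart (fun i : I => GR.heckeParP N (ι i) O O) c)) :
        ↥(parabolicHoms O (Gamma0 N) O)) =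
      if c' = 0 then pushAPar N q hq hqN O O (K'.κ y : ↥(parabolicHoms O (Gamma0 (N * q)) O))
      else pushBPar N q hq hqN O O (K'.κ y : ↥(parabolicHoms O (Gamma0 (N * q)) O)) := by
  apply Subtype.ext
  rw [K.formula, coe_betaH, kappaF_betaM, ← K'.formula]
  split_ifs
  · rfl
  · rfl

variable [Finite (ResidueField O)]

include K K' hqN in
/-- **Ihara at Taylor–Wiles level**: `(ι₀, ι₁)` has a `Λ`-linear retraction. -/
theorem exists_retr_HH {p : ℕ} [Fact p.Prime] (hp2 : p ≠ 2) (hpO : (p : O) ∈ maximalIdeal O)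
    (hΔ : IsPGroup p (Δ₁ × Δ₂)) {lam : O} (hlam : Irreducible lam)
    (hfin : Module.Finite (MonoidAlgebra O (Δ₁ × Δ₂)) (HH N M hM π O ι c))
    (hfin' : Module.Finite (MonoidAlgebra O (Δ₁ × Δ₂))
      (HH (N * q) M (dvd_mul_level N q M hM) π O ι c))
    (hfree' : Module.Free (MonoidAlgebra O (Δ₁ × Δ₂))
      (HH (N * q) M (dvd_mul_level N q M hM) π O ι c))
    (hNE : ∀ D : ℕ, 0 < D → ∃ i : I, ¬ ((ι i : Nat.Primes) : ℕ) ∣ N ∧
      ((ι i : Nat.Primes) : ℕ) ≡ 1 [MOD D] ∧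
      c i - ((((ι i : Nat.Primes) : ℕ) : O) + 1) ∉ maximalIdeal O) :
    ∃ r₀ r₁ : HH (N * q) M (dvd_mul_level N q M hM) π O ι c →ₗ[MonoidAlgebra O (Δ₁ × Δ₂)]
        HH N M hM π O ι c,
      (∀ x, r₀ (iotaH N q M hM hq π σ hπ O ι c hιq hTS 0 x) = x) ∧
      (∀ x, r₀ (iotaH N q M hM hq π σ hπ O ι c hιq hTS 1 x) = 0) ∧
      (∀ x, r₁ (iotaH N q M hM hq π σ hπ O ι c hιq hTS 0 x) = 0) ∧
      (∀ x, r₁ (iotaH N q M hM hq π σ hπ O ι c hιq hTS 1 x) = x) := by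
  have hp : p.Prime := Fact.out
  haveI : IsLocalRing (MonoidAlgebra O (Δ₁ × Δ₂)) := isLocalRing_monoidAlgebra hp hpO hΔ
  haveI := hfin
  haveI := hfin'
  haveI := hfree'
  refine exists_retraction_tw (hlam.maximalIdeal_eq)
    ((primaryPart (fun i : I => GR.heckeParP N (ι i) O O) c).subtype ∘ₗ K.κ)
    (fun x => by
      rw [LinearMap.comp_apply, Submodule.subtype_apply, ZeroMemClass.coe_eq_zero]
      exact K.ker x)
    ((primaryPart (fun i : I => GR.heckeParP (N * q) (ι i) O O) c).subtype ∘ₗ K'.κ)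
    (fun x => by
      rw [LinearMap.comp_apply, Submodule.subtype_apply, ZeroMemClass.coe_eq_zero]
      exact K'.ker x)
    (iotaH N q M hM hq π σ hπ O ι c hιq hTS 0) (iotaH N q M hM hq π σ hπ O ι c hιq hTS 1)
    (pullAPar N q O O) (pullBPar N q hq O O)
    (fun x => by
      have := ctl_iotaH N q M hM hq π σ hπ O ι c hιq hTS K K' 0 x
      rwa [if_pos rfl] at this)
    (fun x => by
      have := ctl_iotaH N q M hM hq π σ hπ O ι c hιq hTS K K' 1 x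
      rwa [if_neg (by decide)] at this)
    ?_
  intro x y hw
  obtain ⟨⟨x', hx'⟩, ⟨y', hy'⟩⟩ := ihara_inj_zero hp2 hpO hlam N q hq hqN ι c hNE
    (K.κ x : ↥(parabolicHoms O (Gamma0 N) O)) (K.κ y : ↥(parabolicHoms O (Gamma0 N) O))
    (K.κ x).2 (K.κ y).2 hw
  have hx'm : x' ∈ primaryPart (fun i : I => GR.heckeParP N (ι i) O O) c :=
    mem_primaryPart_of_smul_mem (Gamma0 N) hlam _ c (hx' ▸ (K.κ x).2)
  have hy'm : y' ∈ primaryPart (fun i : I => GR.heckeParP N (ι i) O O) c :=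
    mem_primaryPart_of_smul_mem (Gamma0 N) hlam _ c (hy' ▸ (K.κ y).2)
  obtain ⟨x₁, hx₁⟩ := K.surj ⟨x', hx'm⟩
  obtain ⟨y₁, hy₁⟩ := K.surj ⟨y', hy'm⟩
  refine ⟨⟨x₁, ?_⟩, ⟨y₁, ?_⟩⟩
  · show ((K.κ x : _) : ↥(parabolicHoms O (Gamma0 N) O)) = lam • ((K.κ x₁ : _) : _)
    rw [hx₁]
    exact hx'
  · show ((K.κ y : _) : ↥(parabolicHoms O (Gamma0 N) O)) = lam • ((K.κ y₁ : _) : _)
    rw [hy₁]
    exact hy'

include K K' in
/-- **dual Ihara at Taylor–Wiles level**: `(β₀, β₁)` is onto. -/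
theorem betaH_surjective {p : ℕ} [Fact p.Prime] (hp2 : p ≠ 2) (hpO : (p : O) ∈ maximalIdeal O)
    (hΔ : IsPGroup p (Δ₁ × Δ₂))
    (hfin : Module.Finite (MonoidAlgebra O (Δ₁ × Δ₂)) (HH N M hM π O ι c))
    (hNE : ∀ D : ℕ, 0 < D → ∃ i : I, ¬ ((ι i : Nat.Primes) : ℕ) ∣ N ∧
      ((ι i : Nat.Primes) : ℕ) ≡ 1 [MOD D] ∧
      c i - ((((ι i : Nat.Primes) : ℕ) : O) + 1) ∉ maximalIdeal O)
    (x y : HH N M hM π O ι c) :
    ∃ w : HH (N * q) M (dvd_mul_level N q M hM) π O ι c,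
      betaH N q M hM hq hqN π σ hπ O ι c hιq hTS' 0 w = x ∧
      betaH N q M hM hq hqN π σ hπ O ι c hιq hTS' 1 w = y := by
  have hp : p.Prime := Fact.out
  haveI : IsLocalRing (MonoidAlgebra O (Δ₁ × Δ₂)) := isLocalRing_monoidAlgebra hp hpO hΔ
  haveI := hfin
  refine surjective_tw
    ((primaryPart (fun i : I => GR.heckeParP N (ι i) O O) c).subtype ∘ₗ K.κ)
    (fun x => by
      rw [LinearMap.comp_apply, Submodule.subtype_apply, ZeroMemClass.coe_eq_zero]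
      exact K.ker x)
    K'.κ K'.surj
    (betaH N q M hM hq hqN π σ hπ O ι c hιq hTS' 0)
    (betaH N q M hM hq hqN π σ hπ O ι c hιq hTS' 1)
    (fun w => pushAPar N q hq hqN O O (w : ↥(parabolicHoms O (Gamma0 (N * q)) O)))
    (fun w => pushBPar N q hq hqN O O (w : ↥(parabolicHoms O (Gamma0 (N * q)) O)))
    (fun y => by
      have := ctl_betaH N q M hM hq hqN π σ hπ O ι c hιq hTS' K K' 0 y
      rwa [if_pos rfl] at this)
    (fun y => by
      have := ctl_betaH N q M hM hq hqN π σ hπ O ι c hιq hTS' K K' 1 y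
      rwa [if_neg (by decide)] at this)
    ?_ x y
  intro x y
  obtain ⟨w, hw, hA, hB⟩ := ihara_surj_zero hp2 hpO N q hq hqN ι hιq c hNE
    (K.κ x : ↥(parabolicHoms O (Gamma0 N) O)) (K.κ y : ↥(parabolicHoms O (Gamma0 N) O))
    (K.κ x).2 (K.κ y).2
  exact ⟨⟨w, hw⟩, hA, hB⟩

end Step

end Fermat.Agent.ML
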