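/-
PROJECT ML (S59) — [TWMOD-L] (helper2), part 14: **Ihara's lemma at Taylor–Wiles level on the
sides**: the retractions `retr` of `(ι₀, ι₁)` and the joint surjectivity of `(β₀, β₁)`.
-/
import Mathlib
import Fermat.Agent.ML.TWMODL_helper2_Chain
import Fermat.Agent.ML.TWMODL_helper2_IharaTW

set_option autoImplicit false
set_option linter.unusedSectionVars false
set_option linter.unusedVariables false
set_option linter.style.haveILetI false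

namespace Fermat.Agent.ML

open CongruenceSubgroup Matrix ModularCurve.Period IsLocalRing
open scoped MatrixGroups
open Fermat.Agent.GR Fermat.Agent.LR Fermat.Agent.W1 Fermat.Agent.W1.ES Fermat.Agent.RB
  Fermat.Agent.RB.TWM

section OnSides

variable (N q M : ℕ) [NeZero N] [NeZero (N * q)] (hM : M ∣ N) (hq : q.Prime) (hqN : ¬ q ∣ N)
  {Δ₁ Δ₂ : Type} [CommGroup Δ₁] [CommGroup Δ₂] [Fintype Δ₁] [Fintype Δ₂]
  (π σ : (ZMod M)ˣ →* Δ₁ × Δ₂) (hπ : Function.Surjective π)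
variable (O : Type) [CommRing O] [IsDomain O] [CharZero O] [IsDiscreteValuationRing O]
  [IsAdicComplete (maximalIdeal O) O]
variable {I : Type} (ι : I → Nat.Primes) (c : I → O) (hιq : ∀ i, ((ι i : Nat.Primes) : ℕ) ≠ q)
variable {i₀ : I} {n₀ : O}
  (hTS : TwoStage (fun i => opM N M hM π O (ι i)) (parM N M hM π O hπ) c i₀ n₀)
variable {i₀' : I} {n₀' : O}
  (hTS' : TwoStage (fun i => opM (N * q) M (dvd_mul_level N q M hM) π O (ι i))
    (parM (N * q) M (dvd_mul_level N q M hM) π O hπ) c i₀' n₀')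
variable (hst : StabHyp N M hM π hπ O ι c)
  (hst' : StabHyp (N * q) M (dvd_mul_level N q M hM) π hπ O ι c)
variable (Sbig Sbig' : Finset ℕ)
variable {p r d d' n : ℕ} (δ : Fin r → Δ₂)
  (hδ : Function.Bijective fun e : Fin r → Fin (p ^ n) => ∏ k, δ k ^ ((e k : Fin (p ^ n)) : ℕ))
  (hδpow : ∀ k, δ k ^ (p ^ n) = 1)
  (b : Module.Basis (Fin d) (MonoidAlgebra O (Δ₁ × Δ₂)) (HH N M hM π O ι c))
  (b' : Module.Basis (Fin d') (MonoidAlgebra O (Δ₁ × Δ₂))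
    (HH (N * q) M (dvd_mul_level N q M hM) π O ι c))
variable (K : CtlDatum π hπ O ι c N hM)
  (K' : CtlDatum π hπ O ι c (N * q) (dvd_mul_level N q M hM))
variable [Finite (ResidueField O)]

include K K' hqN in
/-- **Ihara at Taylor–Wiles level on the sides**: `(ι₀, ι₁)` is split injective, compatibly with
the `g k`. -/
theorem exists_retrS [Fact p.Prime] (hp2 : p ≠ 2) (hpO : (p : O) ∈ maximalIdeal O)
    (hΔ : IsPGroup p (Δ₁ × Δ₂)) {lam : O} (hlam : Irreducible lam)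
    (hNE : ∀ D : ℕ, 0 < D → ∃ i : I, ¬ ((ι i : Nat.Primes) : ℕ) ∣ N ∧
      ((ι i : Nat.Primes) : ℕ) ≡ 1 [MOD D] ∧
      c i - ((((ι i : Nat.Primes) : ℕ) : O) + 1) ∉ maximalIdeal O) :
    ∃ ρ : Fin 2 → ((sideL σ hst' Sbig' δ hδ hδpow b').H →ₗ[O]
        (sideL σ hst Sbig δ hδ hδpow b).H),
      (∀ (c' : Fin 2) (k : Fin r) (x : (sideL σ hst' Sbig' δ hδ hδpow b').H),
        ρ c' ((sideL σ hst' Sbig' δ hδ hδpow b').g k x) =
          (sideL σ hst Sbig δ hδ hδpow b).g k (ρ c' x)) ∧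
      ∀ (c' c'' : Fin 2) (x : (sideL σ hst Sbig δ hδ hδpow b).H),
        ρ c' (iotaS N q M hM hq π σ hπ O ι c hιq hTS hst hst' Sbig Sbig' δ hδ hδpow b b' c'' x) =
          if c' = c'' then x else 0 := by
  obtain ⟨r₀, r₁, h00, h01, h10, h11⟩ :=
    exists_retr_HH N q M hM hq hqN π σ hπ O ι c hιq hTS K K' hp2 hpO hΔ hlam
      (Module.Finite.of_basis b) (Module.Finite.of_basis b') (Module.Free.of_basis b') hNE
  refine ⟨fun c' => if c' = 0 then sideMap (specHom O Δ₂ (1 : Δ₁ →* Oˣ)) (secHom O Δ₁ Δ₂) r₀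
    else sideMap (specHom O Δ₂ (1 : Δ₁ →* Oˣ)) (secHom O Δ₁ Δ₂) r₁, ?_, ?_⟩
  · intro c' k x
    by_cases hc : c' = 0
    · simp only [if_pos hc]
      exact sideMap_sideEnd _ _ _ _ _
        (fun y => by rw [smulEnd_apply, smulEnd_apply, map_smul]) x
    · simp only [if_neg hc]
      exact sideMap_sideEnd _ _ _ _ _
        (fun y => by rw [smulEnd_apply, smulEnd_apply, map_smul]) x
  · intro c' c'' x
    obtain ⟨y, rfl⟩ := sideMk_surjective (specHom O Δ₂ (1 : Δ₁ →* Oˣ)) (secHom O Δ₁ Δ₂) x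
    fin_cases c' <;> fin_cases c''
    · show sideMk (specHom O Δ₂ (1 : Δ₁ →* Oˣ)) (secHom O Δ₁ Δ₂)
        (r₀ (iotaH N q M hM hq π σ hπ O ι c hιq hTS 0 y)) = _
      rw [h00, if_pos rfl]
    · show sideMk (specHom O Δ₂ (1 : Δ₁ →* Oˣ)) (secHom O Δ₁ Δ₂)
        (r₀ (iotaH N q M hM hq π σ hπ O ι c hιq hTS 1 y)) = _
      rw [h01, if_neg (by decide), map_zero]
      rfl
    · show sideMk (specHom O Δ₂ (1 : Δ₁ →* Oˣ)) (secHom O Δ₁ Δ₂)
        (r₁ (iotaH N q M hM hq π σ hπ O ι c hιq hTS 0 y)) = _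
      rw [h10, if_neg (by decide), map_zero]
      rfl
    · show sideMk (specHom O Δ₂ (1 : Δ₁ →* Oˣ)) (secHom O Δ₁ Δ₂)
        (r₁ (iotaH N q M hM hq π σ hπ O ι c hιq hTS 1 y)) = _
      rw [h11, if_pos rfl]

include K K' in
/-- **dual Ihara at Taylor–Wiles level on the sides**: `(β₀, β₁)` is jointly onto. -/
theorem betaS_surjective [Fact p.Prime] (hp2 : p ≠ 2) (hpO : (p : O) ∈ maximalIdeal O)
    (hΔ : IsPGroup p (Δ₁ × Δ₂))
    (hNE : ∀ D : ℕ, 0 < D → ∃ i : I, ¬ ((ι i : Nat.Primes) : ℕ) ∣ N ∧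
      ((ι i : Nat.Primes) : ℕ) ≡ 1 [MOD D] ∧
      c i - ((((ι i : Nat.Primes) : ℕ) : O) + 1) ∉ maximalIdeal O)
    (y : Fin 2 → (sideL σ hst Sbig δ hδ hδpow b).H) :
    ∃ x : (sideL σ hst' Sbig' δ hδ hδpow b').H, ∀ c' : Fin 2,
      betaS N q M hM hq hqN π σ hπ O ι c hιq hTS' hst hst' Sbig Sbig' δ hδ hδpow b b' c' x =
        y c' := by
  obtain ⟨y₀, hy₀⟩ := sideMk_surjective (specHom O Δ₂ (1 : Δ₁ →* Oˣ)) (secHom O Δ₁ Δ₂) (y 0)
  obtain ⟨y₁, hy₁⟩ := sideMk_surjective (specHom O Δ₂ (1 : Δ₁ →* Oˣ)) (secHom O Δ₁ Δ₂) (y 1)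
  obtain ⟨w, hw0, hw1⟩ := betaH_surjective N q M hM hq hqN π σ hπ O ι c hιq hTS' K K' hp2 hpO hΔ
    (Module.Finite.of_basis b) hNE y₀ y₁
  refine ⟨sideMk (specHom O Δ₂ (1 : Δ₁ →* Oˣ)) (secHom O Δ₁ Δ₂) w, fun c' => ?_⟩
  fin_cases c'
  · show sideMk (specHom O Δ₂ (1 : Δ₁ →* Oˣ)) (secHom O Δ₁ Δ₂)
      (betaH N q M hM hq hqN π σ hπ O ι c hιq hTS' 0 w) = y 0
    rw [hw0, hy₀]
  · show sideMk (specHom O Δ₂ (1 : Δ₁ →* Oˣ)) (secHom O Δ₁ Δ₂)
      (betaH N q M hM hq hqN π σ hπ O ι c hιq hTS' 1 w) = y 1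
    rw [hw1, hy₁]

end OnSides

end Fermat.Agent.ML
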