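/-
PROJECT ML (S59) — [TWMOD-L] (helper2), part 8: **the occurrence contract `OccL` of a realised
side, odd residue characteristic** ([SS] and [OCC] of RB with `5 ≤ p` replaced by `p ≠ 2`; all the
leaves [TW-A..D], [SS-big] are theorems now).
-/
import Mathlib
import Fermat.Agent.ML.IFACE_helper2_TWModL
import Fermat.Agent.RB.SS_lead_Side
import Fermat.Agent.RB.OCC_helper1_Main
import Fermat.Agent.RB.TW_lead_Par
import Fermat.Agent.RB.TW_lead_Hecke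
import Fermat.Agent.RB.TW_lead_Inj

set_option autoImplicit false
set_option linter.unusedSectionVars false
set_option linter.unusedVariables false
set_option linter.style.haveILetI false

namespace Fermat.Agent.ML

open CongruenceSubgroup Matrix ModularCurve.Period Polynomial IsLocalRing
open scoped MatrixGroups
open Fermat.Agent.GR Fermat.Agent.W1 Fermat.Agent.RB Fermat.Agent.RB.TWM Fermat.Agent.RB.TWL

section Occ

variable {𝒪 : Type} [CommRing 𝒪] [IsDomain 𝒪] [IsDiscreteValuationRing 𝒪] [CharZero 𝒪]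
  {p : ℕ} [Fact p.Prime]
  {Δ : Type} [CommGroup Δ] [Finite Δ]
  {Nt M : ℕ} [NeZero Nt] [NeZero M] [NeZero (Nt * M)] {hM : M ∣ Nt}
  {π σ : (ZMod M)ˣ →* Δ}
  {hn : ∀ τ ∈ Gamma0 Nt, ∀ γ ∈ GammaH Nt M hM π, τ * γ * τ⁻¹ ∈ GammaH Nt M hM π}
  {Sbig : Finset ℕ} {r d n : ℕ} {X : TWModSide 𝒪 p r d n} {z : 𝒪} {Sig : Finset ℕ}
  {uQ : Fin r → (ZMod Nt)ˣ} {uS : ℕ → (ZMod Nt)ˣ}

/-- **[SS], odd `p`**: the algebra of a realised side is reduced. -/
theorem sideReduced_of_real (hp2 : p ≠ 2) (hpΔ : IsPGroup p Δ) (hsq : Squarefree M)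
    (hcop : Nat.Coprime M (Nt / M)) (hπ : Function.Surjective π) (hσ : ∀ u, σ u ^ 2 = π u)
    (hSbig : ∀ ℓ : ℕ, ℓ.Prime → ℓ ∣ Nt * M → ℓ ∈ Sbig)
    (R : SideReal X Nt M hM π σ hn Sbig z Sig uQ uS)
    (hjunk : ∀ ℓ : Nat.Primes, (ℓ : ℕ) ∈ Sbig → X.Tt ℓ = 0) :
    ∀ t : X.alg, t ^ 2 = 0 → t = 0 := by
  intro t ht
  classical
  have hodd : Odd (Nat.card Δ) := OCC.odd_card_of_isPGroup hp2 hpΔ
  have hcomm : ∀ a ∈ (Set.range X.Tt ∪ Set.range X.g), ∀ b ∈ (Set.range X.Tt ∪ Set.range X.g),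
      Commute a b := fun a ha b hb => REPT.alg_gen_comm X a ha b hb
  have hG : ∀ a ∈ (Set.range X.Tt ∪ Set.range X.g), ∃ f : 𝒪[X],
      Squarefree (f.map (algebraMap 𝒪 (FractionRing 𝒪))) ∧ aeval a f = 0 := by
    rintro a (⟨ℓ, rfl⟩ | ⟨q, rfl⟩)
    · by_cases hℓS : (ℓ : ℕ) ∈ Sbig
      · refine ⟨Polynomial.X, ?_, ?_⟩
        · rw [Polynomial.map_X]
          exact Polynomial.irreducible_X.squarefree
        · rw [aeval_X, hjunk ℓ hℓS]
      · exact SSL.exists_kill_Tt Nt M hM hsq hcop π σ hπ hσ hn Sbig X z Sig uQ uS R hodd hSbig ℓ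
          hℓS
    · refine ⟨Polynomial.X ^ (p ^ n) - 1, ?_, ?_⟩
      · rw [Polynomial.map_sub, Polynomial.map_pow, Polynomial.map_X, Polynomial.map_one]
        have hp : p.Prime := Fact.out
        have h1 : ((p ^ n : ℕ) : FractionRing 𝒪) ≠ 0 :=
          Nat.cast_ne_zero.mpr (pow_ne_zero n hp.ne_zero)
        have h2 := Polynomial.separable_X_pow_sub_C (1 : FractionRing 𝒪) h1 one_ne_zero
        rw [map_one] at h2
        exact h2.squarefree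
      · rw [map_sub, map_pow, aeval_X, map_one, X.g_pow, sub_self]
  have hnil : IsNilpotent (t : Module.End 𝒪 X.H) := by
    refine ⟨2, ?_⟩
    rw [← SubmonoidClass.coe_pow, ht]
    rfl
  have h0 : (t : Module.End 𝒪 X.H) = 0 :=
    SSL.eq_zero_of_isNilpotent_of_mem_adjoin (K := FractionRing 𝒪)
      (IsFractionRing.injective 𝒪 (FractionRing 𝒪)) (Set.range X.Tt ∪ Set.range X.g) hcomm hG t.2
      hnil
  exact Subtype.ext h0

/-- **[OCC], odd `p`**: the occurrence clause of a realised side. -/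
theorem occClause_of_real (hp2 : p ≠ 2) (hpΔ : IsPGroup p Δ) (hsq : Squarefree M)
    (hcop : Nat.Coprime M (Nt / M)) (hNt1 : Nt ≠ 1)
    (hπ : Function.Surjective π) (hσ : ∀ u, σ u ^ 2 = π u)
    (hSbig : ∀ ℓ : ℕ, ℓ.Prime → ℓ ∣ Nt * M → ℓ ∈ Sbig)
    (R : SideReal X Nt M hM π σ hn Sbig z Sig uQ uS) :
    X.OccClause z Sig Nt (Nt * M) Sbig uQ uS := by
  have hodd : Odd (Nat.card Δ) := OCC.odd_card_of_isPGroup hp2 hpΔ
  intro B _ _ _ _ _ x
  refine ⟨OCC.occ_a R x twExistsStatement twParabolicStatement twHeckeStatement twInjStatement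
    hodd hsq hcop hπ hσ hSbig, ?_⟩
  intro F _ _ _ hBF
  exact OCC.occ_b R x hodd hpΔ hNt1 hσ hBF

/-- **the occurrence contract of a chain level.** -/
theorem occL_of_real (hp2 : p ≠ 2) (hpΔ : IsPGroup p Δ) (hsq : Squarefree M)
    (hcop : Nat.Coprime M (Nt / M)) (hNt1 : Nt ≠ 1)
    (hπ : Function.Surjective π) (hσ : ∀ u, σ u ^ 2 = π u)
    (hSbig : ∀ ℓ : ℕ, ℓ.Prime → ℓ ∣ Nt * M → ℓ ∈ Sbig)
    (R : SideReal X Nt M hM π σ hn Sbig z ∅ uQ uS)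
    (hjunk : ∀ ℓ : Nat.Primes, (ℓ : ℕ) ∈ Sbig → X.Tt ℓ = 0)
    (lam : 𝒪) (c : Nat.Primes → 𝒪) (Sres : Set ℕ)
    (hres : ∀ ℓ : Nat.Primes, (ℓ : ℕ) ∉ Sres → ∃ k : ℕ, ∀ h : X.H, ∃ h' : X.H,
      ((X.Tt ℓ - algebraMap 𝒪 (Module.End 𝒪 X.H) (c ℓ)) ^ k) h = lam • h') :
    OccL X lam c Nt (Nt * M) (Sbig : Set ℕ) Sres uQ where
  reduced := sideReduced_of_real hp2 hpΔ hsq hcop hπ hσ hSbig R hjunk
  junk := hjunk
  residual := hres
  occ := by
    intro B _ _ _ _ _ x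
    obtain ⟨h1, h2⟩ := occClause_of_real hp2 hpΔ hsq hcop hNt1 hπ hσ hSbig R B x
    refine ⟨h1, fun F _ _ _ hBF => ?_⟩
    obtain ⟨a, ψh, ha1, ha2, ha3, ha4, ha5, -⟩ := h2 F hBF
    exact ⟨a, ψh, ha1, ha2, ha3, ha4, ha5⟩

end Occ

end Fermat.Agent.ML
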