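/-
PROJECT ML (S59) — [TWMOD-L] (helper2), part 5: **generic algebra** for the chain of Taylor–Wiles
modules.

* `TwoStage.map_mem_primaryPartR` : a map intertwining the operators on the parabolic part maps the
  primary part into the primary part;
* `sideMap` : functoriality of the sides `SideQ φ H s` for `R`-linear maps `H → H'`;
* `exists_retraction_of_forall_mem_smul` : over a local ring, a map of finite free modules which is
  injective modulo the maximal ideal is split injective;
* `surjective_of_forall_exists_sub_mem` : Nakayama, surjectivity modulo the maximal ideal.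
-/
import Mathlib
import Fermat.Agent.RB.TWMOD_helper2_Two
import Fermat.Agent.RB.TWMOD_helper2_Sides

set_option autoImplicit false
set_option linter.unusedSectionVars false
set_option linter.unusedVariables false
set_option linter.style.haveILetI false

namespace Fermat.Agent.ML

open IsLocalRing Fermat.Agent.RB Fermat.Agent.RB.TWM

/-! ### Maps between primary parts -/

section Prim

variable {O : Type*} [CommRing O] [IsLocalRing O] [IsNoetherianRing O]
  [IsAdicComplete (maximalIdeal O) O]
variable {R : Type*} [CommRing R] [Algebra O R]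
variable {𝓜 : Type*} [AddCommGroup 𝓜] [Module R 𝓜] [Module O 𝓜] [IsScalarTower O R 𝓜]
  [Module.Finite O 𝓜]
variable {R' : Type*} [CommRing R'] [Algebra O R']
variable {𝓜' : Type*} [AddCommGroup 𝓜'] [Module R' 𝓜'] [Module O 𝓜'] [IsScalarTower O R' 𝓜']
variable {I : Type*} {T : I → Module.End R 𝓜} {Par : Submodule R 𝓜} {c : I → O} {i₀ : I} {n₀ : O}

/-- a map intertwining one operator on `Par` intertwines the powers of `T j - a`. -/
theorem _root_.Fermat.Agent.RB.TWM.TwoStage.map_sub_pow_apply (h : TwoStage T Par c i₀ n₀) (j : I) (T' : Module.End R' 𝓜')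
    (f : 𝓜 →ₗ[O] 𝓜') (hf : ∀ x ∈ Par, f (T j x) = T' (f x)) (a : O) (k : ℕ) {x : 𝓜}
    (hx : x ∈ Par) :
    f (((T j - algebraMap O (Module.End R 𝓜) a) ^ k) x) =
      ((T' - algebraMap O (Module.End R' 𝓜') a) ^ k) (f x) := by
  induction k generalizing x with
  | zero => simp
  | succ k ih =>
    have h1 : (T j - algebraMap O (Module.End R 𝓜) a) x ∈ Par := by
      rw [LinearMap.sub_apply, Module.algebraMap_end_apply]
      exact Par.sub_mem (h.map_par j x hx) (Par.smul_of_tower_mem a hx)
    rw [pow_succ, Module.End.mul_apply, pow_succ, Module.End.mul_apply, ih h1, LinearMap.sub_apply,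
      LinearMap.sub_apply, Module.algebraMap_end_apply, Module.algebraMap_end_apply, map_sub,
      hf x hx, map_smul]

/-- **a map intertwining the operators on the parabolic part maps the primary part into the
primary part.** -/
theorem _root_.Fermat.Agent.RB.TWM.TwoStage.map_mem_primaryPartR (h : TwoStage T Par c i₀ n₀)
    (T' : I → Module.End R' 𝓜') (f : 𝓜 →ₗ[O] 𝓜')
    (hf : ∀ i, ∀ x ∈ Par, f (T i x) = T' i (f x)) {x : 𝓜} (hx : x ∈ primaryPartR T c) :
    f x ∈ primaryPartR T' c := by
  intro i n
  obtain ⟨k, hk⟩ := hx i n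
  refine ⟨k, ?_⟩
  rw [← h.map_sub_pow_apply i (T' i) f (hf i) (c i) k (h.primaryPartR_le hx)]
  exact map_mem_smul_top f _ hk

/-- an operator commuting with the family on the parabolic part (and preserving it) preserves the
primary part. -/
theorem _root_.Fermat.Agent.RB.TWM.TwoStage.apply_mem_primaryPartR_of_comm (h : TwoStage T Par c i₀ n₀)
    (U : Module.End R 𝓜) (hU : ∀ i, ∀ x ∈ Par, U (T i x) = T i (U x)) {x : 𝓜}
    (hx : x ∈ primaryPartR T c) : U x ∈ primaryPartR T c :=
  h.map_mem_primaryPartR T (U.restrictScalars O) hU hx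

end Prim

/-! ### Functoriality of the sides -/

section SideMap

variable {O : Type*} [CommRing O] {R R₂ : Type*} [CommRing R] [CommRing R₂] [Algebra O R]
  [Algebra O R₂] (φ : R →ₐ[O] R₂) (s : R₂ →ₐ[O] R)
variable {H : Type*} [AddCommGroup H] [Module R H] [Module O H] [IsScalarTower O R H]
variable {H' : Type*} [AddCommGroup H'] [Module R H'] [Module O H'] [IsScalarTower O R H']
variable {H'' : Type*} [AddCommGroup H''] [Module R H''] [Module O H''] [IsScalarTower O R H'']

/-- the map induced on the sides by an `R`-linear map. -/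
noncomputable def sideMap (f : H →ₗ[R] H') : SideQ φ H s →ₗ[O] SideQ φ H' s :=
  (Submodule.mapQ (RingHom.ker φ • (⊤ : Submodule R H)) (RingHom.ker φ • (⊤ : Submodule R H')) f
    (Submodule.smul_top_le_comap_smul_top (RingHom.ker φ) f)).restrictScalars O

@[simp] theorem sideMap_mk (f : H →ₗ[R] H') (x : H) :
    sideMap φ s f (sideMk φ s x) = sideMk φ s (f x) := rfl

theorem sideMap_ext {u v : SideQ φ H s →ₗ[O] SideQ φ H' s}
    (h : ∀ x : H, u (sideMk φ s x) = v (sideMk φ s x)) : u = v := by
  apply LinearMap.ext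
  intro y
  obtain ⟨x, rfl⟩ := sideMk_surjective φ s y
  exact h x

theorem sideMap_comp_apply (g : H' →ₗ[R] H'') (f : H →ₗ[R] H') (y : SideQ φ H s) :
    sideMap φ s (g ∘ₗ f) y = sideMap φ s g (sideMap φ s f y) := by
  obtain ⟨x, rfl⟩ := sideMk_surjective φ s y
  rfl

theorem sideMap_add_apply (f g : H →ₗ[R] H') (y : SideQ φ H s) :
    sideMap φ s (f + g) y = sideMap φ s f y + sideMap φ s g y := by
  obtain ⟨x, rfl⟩ := sideMk_surjective φ s y
  rw [sideMap_mk, sideMap_mk, sideMap_mk, LinearMap.add_apply, map_add]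

theorem sideMap_zero_apply (y : SideQ φ H s) :
    sideMap φ s (0 : H →ₗ[R] H') y = 0 := by
  obtain ⟨x, rfl⟩ := sideMk_surjective φ s y
  rw [sideMap_mk, LinearMap.zero_apply, map_zero]

theorem sideMap_id_apply (y : SideQ φ H s) :
    sideMap φ s (LinearMap.id : H →ₗ[R] H) y = y := by
  obtain ⟨x, rfl⟩ := sideMk_surjective φ s y
  rfl

/-- the induced map intertwines the descended endomorphisms. -/
theorem sideMap_sideEnd (f : H →ₗ[R] H') (t : Module.End R H) (t' : Module.End R H')
    (h : ∀ x, f (t x) = t' (f x)) (y : SideQ φ H s) :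
    sideMap φ s f (sideEnd φ s t y) = sideEnd φ s t' (sideMap φ s f y) := by
  obtain ⟨x, rfl⟩ := sideMk_surjective φ s y
  rw [sideEnd_mk, sideMap_mk, sideMap_mk, sideEnd_mk, h]

theorem sideMap_eq_sideEnd (t : Module.End R H) (y : SideQ φ H s) :
    sideMap φ s t y = sideEnd φ s t y := by
  obtain ⟨x, rfl⟩ := sideMk_surjective φ s y
  rfl

theorem sideMap_smul_O (a : O) (f : H →ₗ[R] H') (y : SideQ φ H s) :
    sideMap φ s (a • f) y = a • sideMap φ s f y := by
  obtain ⟨x, rfl⟩ := sideMk_surjective φ s y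
  rw [sideMap_mk, LinearMap.smul_apply, sideMap_mk, sideMk_smul_O]

end SideMap

/-! ### Local algebra -/

section Local

variable {R : Type*} [CommRing R] [IsLocalRing R]
variable {M N : Type*} [AddCommGroup M] [AddCommGroup N] [Module R M] [Module R N]

open TensorProduct in
/-- `1 ⊗ x = 0` in `k ⊗ M` iff `x ∈ 𝔪 M`. -/
theorem one_tmul_eq_zero_iff (x : M) :
    ((1 : ResidueField R) ⊗ₜ[R] x = 0) ↔ x ∈ (maximalIdeal R • ⊤ : Submodule R M) := by
  have h1 := TensorProduct.quotTensorEquivQuotSMul_mk_one_tmul (M := M) (maximalIdeal R) x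
  constructor
  · intro h
    have h2 : TensorProduct.quotTensorEquivQuotSMul M (maximalIdeal R)
        ((1 : R ⧸ maximalIdeal R) ⊗ₜ[R] x) = 0 := by
      have : ((1 : R ⧸ maximalIdeal R) ⊗ₜ[R] x) = 0 := h
      rw [this, map_zero]
    rw [h1] at h2
    exact (Submodule.Quotient.mk_eq_zero _).mp h2
  · intro h
    have h2 : TensorProduct.quotTensorEquivQuotSMul M (maximalIdeal R)
        ((1 : R ⧸ maximalIdeal R) ⊗ₜ[R] x) = 0 := by
      rw [h1]
      exact (Submodule.Quotient.mk_eq_zero _).mpr h
    exact (TensorProduct.quotTensorEquivQuotSMul M (maximalIdeal R)).map_eq_zero_iff.mp h2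

open TensorProduct in
/-- every element of `k ⊗ M` is of the form `1 ⊗ x`. -/
theorem exists_one_tmul_eq (z : ResidueField R ⊗[R] M) :
    ∃ x : M, (1 : ResidueField R) ⊗ₜ[R] x = z := by
  induction z using TensorProduct.induction_on with
  | zero => exact ⟨0, by rw [TensorProduct.tmul_zero]⟩
  | tmul a x =>
    obtain ⟨r, rfl⟩ := residue_surjective a
    refine ⟨r • x, ?_⟩
    rw [TensorProduct.tmul_smul, TensorProduct.smul_tmul', Algebra.smul_def, mul_one]
    rfl
  | add z₁ z₂ h₁ h₂ =>
    obtain ⟨x₁, rfl⟩ := h₁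
    obtain ⟨x₂, rfl⟩ := h₂
    exact ⟨x₁ + x₂, TensorProduct.tmul_add _ _ _⟩

/-- **split injectivity from injectivity modulo the maximal ideal.** -/
theorem exists_retraction_of_forall_mem_smul [Module.Finite R M] [Module.Finite R N]
    [Module.Free R N] (l : M →ₗ[R] N)
    (h : ∀ x : M, l x ∈ (maximalIdeal R • ⊤ : Submodule R N) →
      x ∈ (maximalIdeal R • ⊤ : Submodule R M)) :
    ∃ l' : N →ₗ[R] M, l' ∘ₗ l = LinearMap.id := by
  rw [IsLocalRing.split_injective_iff_lTensor_residueField_injective]
  rw [injective_iff_map_eq_zero]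
  intro z hz
  obtain ⟨x, rfl⟩ := exists_one_tmul_eq z
  rw [LinearMap.lTensor_tmul, one_tmul_eq_zero_iff] at hz
  exact (one_tmul_eq_zero_iff x).mpr (h x hz)

/-- **Nakayama**: a map onto modulo the maximal ideal is onto. -/
theorem surjective_of_forall_exists_sub_mem [Module.Finite R N] (l : M →ₗ[R] N)
    (h : ∀ y : N, ∃ x : M, l x - y ∈ (maximalIdeal R • ⊤ : Submodule R N)) :
    Function.Surjective l := by
  rw [← LinearMap.range_eq_top, eq_top_iff]
  refine Submodule.le_of_le_smul_of_le_jacobson_bot (I := maximalIdeal R) Module.Finite.fg_top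
    (IsLocalRing.maximalIdeal_le_jacobson ⊥) ?_
  intro y _
  obtain ⟨x, hx⟩ := h y
  have e : y = l x + -(l x - y) := by abel
  rw [e]
  exact Submodule.add_mem_sup ⟨x, rfl⟩ (Submodule.neg_mem _ hx)

end Local

end Fermat.Agent.ML
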