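/-
PROJECT ML (S59) — [TWMOD-L] (helper2), part 7: **the side of one chain level**.

As `RB/TWMOD_helper2_Mod`, but the twisted Hecke operators `Tt ℓ = [σ ℓ]⁻¹ T_ℓ` are genuine at ALL
primes outside `Sbig` (not only at the primes carrying a localisation condition): the primary part
`H` of `𝓜` is stable under every `opM ℓ` (`TopAny`).

* `TopAny`, `TtL`, `TqL` (the twisted operator at an arbitrary prime, never junk);
* `sideL` : the side (trivial `Δ₁`-character), `sideRealL` : its realisation in `Hom_par(Γ_H, 𝒪)`;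
* `sideL_junk`, `sideL_resid`.
-/
import Mathlib
import Fermat.Agent.RB.TWMOD_helper2_Mod
import Fermat.Agent.RB.TWMOD_helper9_Resid
import Fermat.Agent.ML.TWMODL_helper2_Gen

set_option autoImplicit false
set_option linter.unusedSectionVars false
set_option linter.unusedVariables false
set_option linter.style.haveILetI false

namespace Fermat.Agent.ML

open CongruenceSubgroup Matrix ModularCurve.Period IsLocalRing
open scoped MatrixGroups
open Fermat.Agent.GR Fermat.Agent.W1 Fermat.Agent.W1.ES Fermat.Agent.RB Fermat.Agent.RB.TWM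

section Side

variable (Nt M : ℕ) [NeZero Nt] (hM : M ∣ Nt) {Δ₁ Δ₂ : Type} [CommGroup Δ₁] [CommGroup Δ₂]
  [Fintype Δ₁] [Fintype Δ₂]
  (π σ : (ZMod M)ˣ →* Δ₁ × Δ₂) (hπ : Function.Surjective π)
variable (O : Type) [CommRing O] [IsDomain O] [CharZero O] [IsLocalRing O] [IsNoetherianRing O]
  [IsAdicComplete (maximalIdeal O) O]
variable {I : Type} (ι : I → Nat.Primes) (c : I → O)

/-- the hypotheses under which every `opM ℓ` acts on the primary part: stability, parabolicity,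
and the hypotheses of commutativity. -/
structure StabHyp : Prop where
  stab : ∀ (ℓ : Nat.Primes) (x : MM Nt M hM π O),
    x ∈ primaryPartR (fun i => opM Nt M hM π O (ι i)) c →
      opM Nt M hM π O ℓ x ∈ primaryPartR (fun i => opM Nt M hM π O (ι i)) c
  par : primaryPartR (fun i => opM Nt M hM π O (ι i)) c ≤ parM Nt M hM π O hπ
  ne_one : Nt ≠ 1
  neg_one : π (-1) = 1

variable {Nt M hM π hπ O ι c}

/-- the two-stage hypotheses give `StabHyp`. -/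
theorem StabHyp.of_twoStage {i₀ : I} {n₀ : O} (hN : Nt ≠ 1) (hπ1 : π (-1) = 1)
    (hTS : TwoStage (fun i => opM Nt M hM π O (ι i)) (parM Nt M hM π O hπ) c i₀ n₀) :
    StabHyp Nt M hM π hπ O ι c where
  stab ℓ x hx := hTS.apply_mem_primaryPartR_of_comm (opM Nt M hM π O ℓ)
    (fun i y hy => opM_comm_of_mem_parM Nt M hM π O hπ hN hπ1 ℓ (ι i) hy) hx
  par := hTS.primaryPartR_le
  ne_one := hN
  neg_one := hπ1

variable (hst : StabHyp Nt M hM π hπ O ι c)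

/-- the Hecke operator at an ARBITRARY prime on `H`. -/
noncomputable def TopAny (ℓ : Nat.Primes) :
    Module.End (MonoidAlgebra O (Δ₁ × Δ₂)) (HH Nt M hM π O ι c) :=
  (opM Nt M hM π O ℓ).restrict fun x hx => hst.stab ℓ x hx

@[simp] theorem coe_TopAny (ℓ : Nat.Primes) (x : HH Nt M hM π O ι c) :
    ((TopAny hst ℓ x : HH Nt M hM π O ι c) : MM Nt M hM π O) =
      opM Nt M hM π O ℓ (x : MM Nt M hM π O) := rfl

theorem TopAny_commute (ℓ ℓ' : Nat.Primes) : Commute (TopAny hst ℓ) (TopAny hst ℓ') := by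
  apply LinearMap.ext
  intro x
  apply Subtype.ext
  exact opM_comm_of_mem_parM Nt M hM π O hπ hst.ne_one hst.neg_one ℓ ℓ' (hst.par x.2)

/-- **the twisted Hecke operator at an arbitrary prime** `[σ ℓ]⁻¹ T_ℓ` on `H` (never junk). -/
noncomputable def TqL (ℓ : Nat.Primes) :
    Module.End (MonoidAlgebra O (Δ₁ × Δ₂)) (HH Nt M hM π O ι c) :=
  smulEnd (MonoidAlgebra.of O (Δ₁ × Δ₂) (sigAt M σ ℓ)⁻¹) * TopAny hst ℓ

theorem TqL_commute (ℓ ℓ' : Nat.Primes) : Commute (TqL σ hst ℓ) (TqL σ hst ℓ') :=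
  Commute.mul_left
    (Commute.mul_right (smulEnd_commute _ _) (smulEnd_commute _ _))
    (Commute.mul_right (smulEnd_commute _ _).symm (TopAny_commute hst _ _))

variable (Sbig : Finset ℕ)

/-- **the twisted Hecke operators** of the side: `[σ ℓ]⁻¹ T_ℓ` outside `Sbig`, zero at the primes
of `Sbig`. -/
noncomputable def TtL (ℓ : Nat.Primes) :
    Module.End (MonoidAlgebra O (Δ₁ × Δ₂)) (HH Nt M hM π O ι c) :=
  if (ℓ : ℕ) ∉ Sbig then TqL σ hst ℓ else 0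

theorem TtL_of_notMem {ℓ : Nat.Primes} (h : (ℓ : ℕ) ∉ Sbig) :
    TtL σ hst Sbig ℓ = TqL σ hst ℓ := if_pos h

theorem TtL_of_mem {ℓ : Nat.Primes} (h : (ℓ : ℕ) ∈ Sbig) :
    TtL σ hst Sbig ℓ = 0 := if_neg (not_not.mpr h)

theorem TtL_commute_TqL (ℓ ℓ' : Nat.Primes) :
    Commute (TtL σ hst Sbig ℓ) (TqL σ hst ℓ') := by
  by_cases h : (ℓ : ℕ) ∈ Sbig
  · rw [TtL_of_mem σ hst Sbig h]
    exact Commute.zero_left _
  · rw [TtL_of_notMem σ hst Sbig h]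
    exact TqL_commute σ hst _ _

theorem TtL_commute (ℓ ℓ' : Nat.Primes) :
    Commute (TtL σ hst Sbig ℓ) (TtL σ hst Sbig ℓ') := by
  by_cases h' : (ℓ' : ℕ) ∈ Sbig
  · rw [TtL_of_mem σ hst Sbig h']
    exact Commute.zero_right _
  · rw [TtL_of_notMem σ hst Sbig h']
    exact TtL_commute_TqL σ hst Sbig _ _

/-! ### The side -/

variable {p r d n : ℕ} (δ : Fin r → Δ₂)
  (hδ : Function.Bijective fun e : Fin r → Fin (p ^ n) => ∏ q, δ q ^ ((e q : Fin (p ^ n)) : ℕ))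
  (hδpow : ∀ q, δ q ^ (p ^ n) = 1)
  (b : Module.Basis (Fin d) (MonoidAlgebra O (Δ₁ × Δ₂)) (HH Nt M hM π O ι c))

/-- **the side of the chain level** (trivial character of `Δ₁`). -/
noncomputable abbrev sideL : TWModSide O p r d n :=
  mkSide (1 : Δ₁ →* Oˣ) (TtL σ hst Sbig) (TtL_commute σ hst Sbig) δ hδ hδpow b

/-- **the (twisted) Hecke operator at an arbitrary prime on the side.** -/
noncomputable def TqSide (ℓ : Nat.Primes) :
    Module.End O (sideL σ hst Sbig δ hδ hδpow b).H :=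
  sidePEnd (1 : Δ₁ →* Oˣ) (TqL σ hst ℓ)

theorem sideL_Tt_of_notMem {ℓ : Nat.Primes} (h : (ℓ : ℕ) ∉ Sbig) :
    (sideL σ hst Sbig δ hδ hδpow b).Tt ℓ = TqSide σ hst Sbig δ hδ hδpow b ℓ := by
  show sidePEnd (1 : Δ₁ →* Oˣ) (TtL σ hst Sbig ℓ) = _
  rw [TtL_of_notMem σ hst Sbig h]
  rfl

theorem sideL_junk (ℓ : Nat.Primes) (hℓ : (ℓ : ℕ) ∈ Sbig) :
    (sideL σ hst Sbig δ hδ hδpow b).Tt ℓ = 0 := by
  show sidePEnd (1 : Δ₁ →* Oˣ) (TtL σ hst Sbig ℓ) = 0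
  rw [TtL_of_mem σ hst Sbig hℓ]
  exact sideEnd_ext _ _ fun x => by
    rw [sideEnd_mk, LinearMap.zero_apply, LinearMap.zero_apply, map_zero]

theorem TqSide_comm_Tt (ℓ ℓ' : Nat.Primes) :
    Commute (TqSide σ hst Sbig δ hδ hδpow b ℓ) ((sideL σ hst Sbig δ hδ hδpow b).Tt ℓ') :=
  sideEnd_commute _ _ (TtL_commute_TqL σ hst Sbig ℓ' ℓ).symm

theorem TqSide_comm_g (ℓ : Nat.Primes) (q : Fin r) :
    Commute (TqSide σ hst Sbig δ hδ hδpow b ℓ) ((sideL σ hst Sbig δ hδ hδpow b).g q) :=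
  (sideAct_commute_sideEnd (1 : Δ₁ →* Oˣ) _ _).symm

theorem TqSide_comm (ℓ ℓ' : Nat.Primes) :
    Commute (TqSide σ hst Sbig δ hδ hδpow b ℓ) (TqSide σ hst Sbig δ hδ hδpow b ℓ') :=
  sideEnd_commute _ _ (TqL_commute σ hst ℓ ℓ')

theorem sideActL_mem_alg (y : Δ₁ × Δ₂) :
    sideAct (1 : Δ₁ →* Oˣ) (H := HH Nt M hM π O ι c) y ∈
      (sideL σ hst Sbig δ hδ hδpow b).alg := by
  obtain ⟨y₁, y₂⟩ := y
  have h1 : ((y₁, y₂) : Δ₁ × Δ₂) = (y₁, 1) * (1, y₂) := by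
    rw [Prod.mk_mul_mk, mul_one, one_mul]
  rw [h1, map_mul]
  refine (sideL σ hst Sbig δ hδ hδpow b).alg.mul_mem ?_ ?_
  · rw [sideAct_left]
    exact (sideL σ hst Sbig δ hδ hδpow b).alg.smul_mem
      ((sideL σ hst Sbig δ hδ hδpow b).alg.one_mem) _
  · obtain ⟨e, rfl⟩ := hδ.2 y₂
    let Sm : Submonoid Δ₂ :=
      (sideL σ hst Sbig δ hδ hδpow b).alg.toSubmonoid.comap
        ((sideAct (1 : Δ₁ →* Oˣ) (H := HH Nt M hM π O ι c)).comp (MonoidHom.inr Δ₁ Δ₂))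
    have hmem : ∀ q, δ q ∈ Sm := fun q =>
      (sideL σ hst Sbig δ hδ hδpow b).g_mem_alg q
    have h3 : (∏ q, δ q ^ ((e q : Fin (p ^ n)) : ℕ)) ∈ Sm :=
      Submonoid.prod_mem _ fun q _ => Submonoid.pow_mem _ (hmem q) _
    exact h3

variable (uQ : Fin r → (ZMod Nt)ˣ) (uS : ℕ → (ZMod Nt)ˣ)
  (hG1 : ∀ q, σ (ZMod.unitsMap hM (uQ q)) = ((1 : Δ₁), δ q))

/-- the realisation map `H_side → Hom(Γ_H, 𝒪)`. -/
noncomputable def sideIotaL :
    (sideL σ hst Sbig δ hδ hδpow b).H →ₗ[O] (Additive ↥(GammaH Nt M hM π) →+ O) :=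
  (bridgeH Nt M hM π hπ O ι c) ∘ₗ
    (sideNorm (Δ₂ := Δ₂) (1 : Δ₁ →* Oˣ) (H := HH Nt M hM π O ι c))

theorem sideIotaL_TqSide (ℓ : Nat.Primes) (hℓM : Nat.Coprime (ℓ : ℕ) M)
    (h : (sideL σ hst Sbig δ hδ hδpow b).H) :
    sideIotaL σ hst Sbig δ hδ hδpow b (TqSide σ hst Sbig δ hδ hδpow b ℓ h) =
      heckeOnP Nt (GammaH Nt M hM π) (Gamma1_le_GammaH Nt M hM π) (GammaH_le_Gamma0 Nt M hM π) ℓ O
        (sideIotaL σ hst Sbig δ hδ hδpow b
          (sideAct (1 : Δ₁ →* Oˣ) (σ (ZMod.unitOfCoprime (ℓ : ℕ) hℓM))⁻¹ h)) := by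
  show bridge Nt M hM π O hπ ((sideNorm (Δ₂ := Δ₂) (1 : Δ₁ →* Oˣ)
        (sidePEnd (1 : Δ₁ →* Oˣ) (TqL σ hst ℓ) h) : HH Nt M hM π O ι c) :
          MM Nt M hM π O) =
      heckeOnP Nt (GammaH Nt M hM π) (Gamma1_le_GammaH Nt M hM π) (GammaH_le_Gamma0 Nt M hM π) ℓ O
        (bridge Nt M hM π O hπ ((sideNorm (Δ₂ := Δ₂) (1 : Δ₁ →* Oˣ)
          (sideAct (1 : Δ₁ →* Oˣ) (σ (ZMod.unitOfCoprime (ℓ : ℕ) hℓM))⁻¹ h) :
            HH Nt M hM π O ι c) : MM Nt M hM π O))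
  rw [sideNorm_sideEnd, sideNorm_sideAct, ← bridge_opM]
  unfold TqL
  rw [Module.End.mul_apply, smulEnd_apply, sigAt_of_coprime M σ hℓM]
  congr 1
  show MonoidAlgebra.of O (Δ₁ × Δ₂) (σ (ZMod.unitOfCoprime (ℓ : ℕ) hℓM))⁻¹ •
      opM Nt M hM π O ℓ ((sideNorm (Δ₂ := Δ₂) (1 : Δ₁ →* Oˣ) h : HH Nt M hM π O ι c) :
        MM Nt M hM π O) =
    opM Nt M hM π O ℓ (MonoidAlgebra.of O (Δ₁ × Δ₂) (σ (ZMod.unitOfCoprime (ℓ : ℕ) hℓM))⁻¹ •
      ((sideNorm (Δ₂ := Δ₂) (1 : Δ₁ →* Oˣ) h : HH Nt M hM π O ι c) : MM Nt M hM π O))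
  rw [map_smul]

include hG1 in
/-- **the realisation of the side of a chain level inside `Hom_par(Γ_H, 𝒪)`.** -/
noncomputable def sideRealL :
    SideReal (sideL σ hst Sbig δ hδ hδpow b) Nt M hM π σ
      (GammaH_normal Nt M hM π) Sbig 1 ∅ uQ uS where
  ι := sideIotaL σ hst Sbig δ hδ hδpow b
  ι_injective := by
    have hcard : ((Fintype.card Δ₁ : ℕ) : O) ≠ 0 := by
      rw [Nat.cast_ne_zero]
      exact Fintype.card_ne_zero
    exact (bridgeH_injective Nt M hM π hπ O ι c).comp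
      (sideNorm_injective (1 : Δ₁ →* Oˣ) b hcard)
  ι_par h := hst.par (Subtype.property _)
  act := sideAct (1 : Δ₁ →* Oˣ) (H := HH Nt M hM π O ι c)
  act_mem := sideActL_mem_alg σ hst Sbig δ hδ hδpow b
  ι_dia g hg h := by
    show diamondOnBy (GammaH Nt M hM π) (GammaH_normal Nt M hM π) O g hg
        (bridge Nt M hM π O hπ ((sideNorm (Δ₂ := Δ₂) (1 : Δ₁ →* Oˣ) h : HH Nt M hM π O ι c) :
          MM Nt M hM π O)) =
      bridge Nt M hM π O hπ ((sideNorm (Δ₂ := Δ₂) (1 : Δ₁ →* Oˣ)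
        (sideAct (1 : Δ₁ →* Oˣ) (chiOf Nt M hM π ⟨g, hg⟩) h) :
        HH Nt M hM π O ι c) : MM Nt M hM π O)
    rw [sideNorm_sideAct]
    exact (bridge_of_smul Nt M hM π O hπ ⟨g, hg⟩ _).symm
  ι_Tt ℓ hℓ hℓM h := by
    rw [sideL_Tt_of_notMem σ hst Sbig δ hδ hδpow b hℓ]
    exact sideIotaL_TqSide σ hst Sbig δ hδ hδpow b ℓ hℓM h
  act_uQ q := by
    show sideAct (1 : Δ₁ →* Oˣ) (σ (ZMod.unitsMap hM (uQ q))) =
      sideAct (1 : Δ₁ →* Oˣ) ((1 : Δ₁), δ q)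
    rw [hG1 q]
  act_uS v hv := absurd hv (Finset.notMem_empty v)
  act_Sig v hv := absurd hv (Finset.notMem_empty v)

end Side

end Fermat.Agent.ML

namespace Fermat.Agent.ML

open CongruenceSubgroup Matrix ModularCurve.Period IsLocalRing
open scoped MatrixGroups
open Fermat.Agent.GR Fermat.Agent.W1 Fermat.Agent.W1.ES Fermat.Agent.RB Fermat.Agent.RB.TWM

section Resid

variable {Nt M : ℕ} [NeZero Nt] {hM : M ∣ Nt} {Δ₁ Δ₂ : Type} [CommGroup Δ₁] [CommGroup Δ₂]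
  [Fintype Δ₁] [Fintype Δ₂]
  {π : (ZMod M)ˣ →* Δ₁ × Δ₂} (σ : (ZMod M)ˣ →* Δ₁ × Δ₂) {hπ : Function.Surjective π}
variable {O : Type} [CommRing O] [IsDomain O] [CharZero O] [IsDiscreteValuationRing O]
  [IsAdicComplete (maximalIdeal O) O]
variable {I : Type} {ι : I → Nat.Primes} {c : I → O}
variable (hst : StabHyp Nt M hM π hπ O ι c) (Sbig : Finset ℕ)
variable {p r d n : ℕ} (δ : Fin r → Δ₂)
  (hδ : Function.Bijective fun e : Fin r → Fin (p ^ n) => ∏ q, δ q ^ ((e q : Fin (p ^ n)) : ℕ))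
  (hδpow : ∀ q, δ q ^ (p ^ n) = 1)
  (b : Module.Basis (Fin d) (MonoidAlgebra O (Δ₁ × Δ₂)) (HH Nt M hM π O ι c))

/-- **[RESID] for the side of a chain level**: at the primes carrying a localisation condition the
twisted Hecke operators are residually the constants. -/
theorem sideL_resid {i₀ : I} {n₀ : O}
    (hTS : TwoStage (fun i => opM Nt M hM π O (ι i)) (parM Nt M hM π O hπ) c i₀ n₀)
    (hp : p.Prime) (hp2 : p ≠ 2) (hpO : (p : O) ∈ maximalIdeal O) (hΔ : IsPGroup p (Δ₁ × Δ₂))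
    (lam : O) (hlam : Irreducible lam) (i : I) (hℓ : ((ι i : Nat.Primes) : ℕ) ∉ Sbig) (c₀ : O)
    (hc₀ : c₀ - c i ∈ maximalIdeal O) :
    ∃ k : ℕ, ∀ h : (sideL σ hst Sbig δ hδ hδpow b).H,
      ∃ h' : (sideL σ hst Sbig δ hδ hδpow b).H,
        (((sideL σ hst Sbig δ hδ hδpow b).Tt (ι i) -
          algebraMap O (Module.End O (sideL σ hst Sbig δ hδ hδpow b).H) c₀) ^ k) h =
            lam • h' := by
  have hmax : maximalIdeal O = Ideal.span {lam} := hlam.maximalIdeal_eq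
  have hdvd : ∀ a ∈ maximalIdeal O, lam ∣ a := fun a ha => by
    rw [hmax] at ha
    exact Ideal.mem_span_singleton.1 ha
  set a : MonoidAlgebra O (Δ₁ × Δ₂) := MonoidAlgebra.of O (Δ₁ × Δ₂) (sigAt M σ (ι i))⁻¹ with ha
  set A : Module.End (MonoidAlgebra O (Δ₁ × Δ₂)) (HH Nt M hM π O ι c) := smulEnd a with hA
  set B : Module.End (MonoidAlgebra O (Δ₁ × Δ₂)) (HH Nt M hM π O ι c) :=
    TopAny hst (ι i) with hB
  set γ : Module.End (MonoidAlgebra O (Δ₁ × Δ₂)) (HH Nt M hM π O ι c) :=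
    algebraMap O _ (c i) with hγ
  set γ₀ : Module.End (MonoidAlgebra O (Δ₁ × Δ₂)) (HH Nt M hM π O ι c) :=
    algebraMap O _ c₀ with hγ₀
  set γd : Module.End (MonoidAlgebra O (Δ₁ × Δ₂)) (HH Nt M hM π O ι c) :=
    algebraMap O _ (c i - c₀) with hγd
  have hN1 : NilLam lam (B - γ) := nilLam_restrict_sub hTS hmax i
  obtain ⟨m, hm⟩ := hΔ (sigAt M σ (ι i))⁻¹
  have ham : a ^ p ^ m = 1 := by rw [ha, ← map_pow, hm, map_one]
  have hN2 : NilLam lam (A - 1) := nilLam_smulEnd_sub_one hp hp2 (hdvd _ hpO) a ham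
  have hN3 : InLam lam γd := by
    refine inLam_algebraMap (hdvd _ ?_)
    have := (maximalIdeal O).neg_mem hc₀
    rwa [neg_sub] at this
  have hAall : ∀ f : Module.End (MonoidAlgebra O (Δ₁ × Δ₂)) (HH Nt M hM π O ι c),
      Commute A f := fun f => smulEnd_commute a f
  have hγall : ∀ f : Module.End (MonoidAlgebra O (Δ₁ × Δ₂)) (HH Nt M hM π O ι c),
      Commute γ f := fun f => Algebra.commute_algebraMap_left _ f
  have hdecomp : TtL σ hst Sbig (ι i) - γ₀ = A * (B - γ) + γ * (A - 1) + γd := by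
    have e0 : TtL σ hst Sbig (ι i) = A * B := TtL_of_notMem σ hst Sbig hℓ
    have e1 : A * γ = γ * A := (hγall A).eq.symm
    have e2 : γ - γ₀ = γd := by rw [hγ, hγ₀, hγd, map_sub]
    exact (congrArg (fun z => z - γ₀) e0).trans ((decomp_aux A B γ γ₀ e1).trans
      (congrArg (fun z => A * (B - γ) + γ * (A - 1) + z) e2))
  have hnil : NilLam lam (TtL σ hst Sbig (ι i) - γ₀) := by
    rw [hdecomp]
    refine ((hN1.mul_left A (hAall _)).add (hN2.mul_left γ (hγall _)) ?_).add hN3.nilLam ?_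
    · refine Commute.mul_left (hAall _) (Commute.mul_right (hγall _).symm ?_)
      have h1 : A - 1 = smulEnd (a - 1) := smulEnd_sub_one a
      rw [h1]
      exact (smulEnd_commute (a - 1) (B - γ)).symm
    · exact Algebra.commute_algebraMap_right _ _
  obtain ⟨k, hk⟩ := hnil.side (specHom O Δ₂ (1 : Δ₁ →* Oˣ)) (secHom O Δ₁ Δ₂)
  refine ⟨k, fun h => ?_⟩
  obtain ⟨h', hh'⟩ := hk h
  refine ⟨h', ?_⟩
  have e := sideEnd_sub_algebraMap (specHom O Δ₂ (1 : Δ₁ →* Oˣ)) (secHom O Δ₁ Δ₂)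
    (TtL σ hst Sbig (ι i)) c₀
  show ((sideEnd (specHom O Δ₂ (1 : Δ₁ →* Oˣ)) (secHom O Δ₁ Δ₂) (TtL σ hst Sbig (ι i)) -
    algebraMap O (Module.End O (SideQ (specHom O Δ₂ (1 : Δ₁ →* Oˣ)) (HH Nt M hM π O ι c)
      (secHom O Δ₁ Δ₂))) c₀) ^ k) h = lam • h'
  rw [← e]
  exact hh'

end Resid

end Fermat.Agent.ML
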