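/-
PROJECT ML (S59) — [TWMOD-L] (helper2), part 15: **the genuine Hecke operator at a prime `ℓ₀` of
`Sbig` which does not divide the level** (`ℓ₀ = p` at a chain level prime to `p`).

The side `X` of a chain level with bad set `Sbig ∋ ℓ₀` has junk `Tt ℓ₀ = 0`; the side `X'` with bad
set `Sbig.erase ℓ₀` has the same module, the same `g k`, the same `Tt ℓ` (`ℓ ≠ ℓ₀`), and
`Tt' ℓ₀ = TqSide ℓ₀`.  Hence `𝒪[Tt, g, TqSide ℓ₀] = X'.alg`, and the reducedness and the occurrence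
clause (full-system form) follow from those of `X'`.
-/
import Mathlib
import Fermat.Agent.ML.TWMODL_helper2_Side
import Fermat.Agent.ML.TWMODL_helper2_Occ
import Fermat.Agent.S32.System_helper6
import Fermat.Prelude.Thm_IsLocalRing_isAdicComplete_of_module_finite

set_option autoImplicit false
set_option linter.unusedSectionVars false
set_option linter.unusedVariables false
set_option linter.style.haveILetI false

namespace Fermat.Agent.ML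

open CongruenceSubgroup Matrix ModularCurve.Period IsLocalRing
open scoped MatrixGroups
open Fermat.Agent.GR Fermat.Agent.W1 Fermat.Agent.W1.ES Fermat.Agent.RB Fermat.Agent.RB.TWM
  Fermat.Agent.RB.TWL

/-- a discrete valuation ring finite over a complete discrete valuation ring of characteristic `0`
with finite residue field has the same properties. -/
theorem finite_dvr_instances {𝒪 B : Type} [CommRing 𝒪] [IsDomain 𝒪] [IsDiscreteValuationRing 𝒪]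
    [IsAdicComplete (maximalIdeal 𝒪) 𝒪] [Finite (ResidueField 𝒪)] [CharZero 𝒪]
    [CommRing B] [IsDomain B] [IsDiscreteValuationRing B] [Algebra 𝒪 B] [Module.Finite 𝒪 B] :
    IsAdicComplete (maximalIdeal B) B ∧ Finite (ResidueField B) ∧ CharZero B := by
  have hinj : Function.Injective (algebraMap 𝒪 B) :=
    Fermat.Agent.RB.OCC.algebraMap_injective_of_finite_dvr
  haveI : FaithfulSMul 𝒪 B := (faithfulSMul_iff_algebraMap_injective 𝒪 B).mpr hinj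
  haveI : IsLocalHom (algebraMap 𝒪 B) := inferInstance
  refine ⟨IsLocalRing.isAdicComplete_of_module_finite (𝒪 := 𝒪), ?_,
    charZero_of_injective_ringHom hinj⟩
  exact IsLocalRing.ResidueField.finite_of_finite (R := 𝒪) inferInstance

section Tp

variable {Nt M : ℕ} [NeZero Nt] [NeZero M] [NeZero (Nt * M)] {hM : M ∣ Nt}
  {Δ₁ Δ₂ : Type} [CommGroup Δ₁] [CommGroup Δ₂] [Fintype Δ₁] [Fintype Δ₂]
  {π : (ZMod M)ˣ →* Δ₁ × Δ₂} (σ : (ZMod M)ˣ →* Δ₁ × Δ₂) {hπ : Function.Surjective π}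
variable {O : Type} [CommRing O] [IsDomain O] [CharZero O] [IsDiscreteValuationRing O]
  [IsAdicComplete (maximalIdeal O) O]
variable {I : Type} {ι : I → Nat.Primes} {c : I → O}
variable (hst : StabHyp Nt M hM π hπ O ι c) (Sbig : Finset ℕ)
variable {p r d n : ℕ} (δ : Fin r → Δ₂)
  (hδ : Function.Bijective fun e : Fin r → Fin (p ^ n) => ∏ q, δ q ^ ((e q : Fin (p ^ n)) : ℕ))
  (hδpow : ∀ q, δ q ^ (p ^ n) = 1)
  (b : Module.Basis (Fin d) (MonoidAlgebra O (Δ₁ × Δ₂)) (HH Nt M hM π O ι c))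
variable (ℓ₀ : Nat.Primes)

/-- the algebra generated by the side and the genuine operator at `ℓ₀`. -/
noncomputable abbrev algTq : Subalgebra O (Module.End O (sideL σ hst Sbig δ hδ hδpow b).H) :=
  Algebra.adjoin O (Set.range (sideL σ hst Sbig δ hδ hδpow b).Tt ∪
    Set.range (sideL σ hst Sbig δ hδ hδpow b).g ∪ {TqSide σ hst Sbig δ hδ hδpow b ℓ₀})

theorem sideL_erase_Tt_self :
    (sideL σ hst (Sbig.erase (ℓ₀ : ℕ)) δ hδ hδpow b).Tt ℓ₀ =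
      TqSide σ hst Sbig δ hδ hδpow b ℓ₀ :=
  sideL_Tt_of_notMem σ hst (Sbig.erase (ℓ₀ : ℕ)) δ hδ hδpow b (Finset.notMem_erase _ _)

theorem sideL_erase_Tt_of_ne {ℓ : Nat.Primes} (hℓ : ℓ ≠ ℓ₀) :
    (sideL σ hst (Sbig.erase (ℓ₀ : ℕ)) δ hδ hδpow b).Tt ℓ =
      (sideL σ hst Sbig δ hδ hδpow b).Tt ℓ := by
  have hne : (ℓ : ℕ) ≠ (ℓ₀ : ℕ) := fun h => hℓ (Subtype.ext h)
  by_cases h : (ℓ : ℕ) ∈ Sbig
  · rw [sideL_junk σ hst Sbig δ hδ hδpow b ℓ h,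
      sideL_junk σ hst (Sbig.erase (ℓ₀ : ℕ)) δ hδ hδpow b ℓ (Finset.mem_erase.2 ⟨hne, h⟩)]
    rfl
  · rw [sideL_Tt_of_notMem σ hst Sbig δ hδ hδpow b h,
      sideL_Tt_of_notMem σ hst (Sbig.erase (ℓ₀ : ℕ)) δ hδ hδpow b
        (fun h' => h (Finset.mem_of_mem_erase h'))]
    rfl

/-- **`𝒪[Tt, g, T_{ℓ₀}]` is the algebra of the side with `ℓ₀` removed from the bad set.** -/
theorem algTq_eq (hℓ₀ : (ℓ₀ : ℕ) ∈ Sbig) :
    algTq σ hst Sbig δ hδ hδpow b ℓ₀ =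
      (sideL σ hst (Sbig.erase (ℓ₀ : ℕ)) δ hδ hδpow b).alg := by
  have hTq : TqSide σ hst Sbig δ hδ hδpow b ℓ₀ ∈ algTq σ hst Sbig δ hδ hδpow b ℓ₀ :=
    Algebra.subset_adjoin (R := O) (s := Set.range (sideL σ hst Sbig δ hδ hδpow b).Tt ∪
      Set.range (sideL σ hst Sbig δ hδ hδpow b).g ∪ {TqSide σ hst Sbig δ hδ hδpow b ℓ₀})
      (Or.inr rfl)
  have hTt : ∀ ℓ, (sideL σ hst Sbig δ hδ hδpow b).Tt ℓ ∈ algTq σ hst Sbig δ hδ hδpow b ℓ₀ :=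
    fun ℓ => Algebra.subset_adjoin (R := O)
      (s := Set.range (sideL σ hst Sbig δ hδ hδpow b).Tt ∪
        Set.range (sideL σ hst Sbig δ hδ hδpow b).g ∪ {TqSide σ hst Sbig δ hδ hδpow b ℓ₀})
      (Or.inl (Or.inl ⟨ℓ, rfl⟩))
  have hg : ∀ k, (sideL σ hst Sbig δ hδ hδpow b).g k ∈ algTq σ hst Sbig δ hδ hδpow b ℓ₀ :=
    fun k => Algebra.subset_adjoin (R := O)
      (s := Set.range (sideL σ hst Sbig δ hδ hδpow b).Tt ∪
        Set.range (sideL σ hst Sbig δ hδ hδpow b).g ∪ {TqSide σ hst Sbig δ hδ hδpow b ℓ₀})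
      (Or.inl (Or.inr ⟨k, rfl⟩))
  have h1 : ∀ ℓ, (sideL σ hst Sbig δ hδ hδpow b).Tt ℓ ∈
      (sideL σ hst (Sbig.erase (ℓ₀ : ℕ)) δ hδ hδpow b).alg := by
    intro ℓ
    by_cases hℓ : ℓ = ℓ₀
    · have h0 : (sideL σ hst Sbig δ hδ hδpow b).Tt ℓ = 0 :=
        sideL_junk σ hst Sbig δ hδ hδpow b ℓ (hℓ ▸ hℓ₀)
      rw [h0]
      exact (sideL σ hst (Sbig.erase (ℓ₀ : ℕ)) δ hδ hδpow b).alg.zero_mem
    · rw [← sideL_erase_Tt_of_ne σ hst Sbig δ hδ hδpow b ℓ₀ hℓ]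
      exact (sideL σ hst (Sbig.erase (ℓ₀ : ℕ)) δ hδ hδpow b).Tt_mem_alg ℓ
  have h2 : TqSide σ hst Sbig δ hδ hδpow b ℓ₀ ∈
      (sideL σ hst (Sbig.erase (ℓ₀ : ℕ)) δ hδ hδpow b).alg := by
    rw [← sideL_erase_Tt_self σ hst Sbig δ hδ hδpow b ℓ₀]
    exact (sideL σ hst (Sbig.erase (ℓ₀ : ℕ)) δ hδ hδpow b).Tt_mem_alg ℓ₀
  have h3 : ∀ ℓ, (sideL σ hst (Sbig.erase (ℓ₀ : ℕ)) δ hδ hδpow b).Tt ℓ ∈
      algTq σ hst Sbig δ hδ hδpow b ℓ₀ := by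
    intro ℓ
    by_cases hℓ : ℓ = ℓ₀
    · rw [hℓ, sideL_erase_Tt_self σ hst Sbig δ hδ hδpow b ℓ₀]
      exact hTq
    · rw [sideL_erase_Tt_of_ne σ hst Sbig δ hδ hδpow b ℓ₀ hℓ]
      exact hTt ℓ
  apply le_antisymm
  · refine Algebra.adjoin_le ?_
    rintro _ ((⟨ℓ, rfl⟩ | ⟨k, rfl⟩) | h)
    · exact h1 ℓ
    · exact (sideL σ hst (Sbig.erase (ℓ₀ : ℕ)) δ hδ hδpow b).g_mem_alg k
    · rw [Set.mem_singleton_iff] at h
      rw [h]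
      exact h2
  · refine Algebra.adjoin_le ?_
    rintro _ (⟨ℓ, rfl⟩ | ⟨k, rfl⟩)
    · exact h3 ℓ
    · exact hg k

variable (uQ : Fin r → (ZMod Nt)ˣ)
  (hG1 : ∀ q, σ (ZMod.unitsMap hM (uQ q)) = ((1 : Δ₁), δ q))

include hG1 in
/-- **with `T_{ℓ₀}` adjoined the algebra is still reduced.** -/
theorem algTq_reduced [Fact p.Prime] (hp2 : p ≠ 2) (hpΔ : IsPGroup p (Δ₁ × Δ₂))
    (hsq : Squarefree M) (hcop : Nat.Coprime M (Nt / M)) (hσ : ∀ u, σ u ^ 2 = π u)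
    (hℓ₀ : (ℓ₀ : ℕ) ∈ Sbig)
    (hSbig : ∀ ℓ : ℕ, ℓ.Prime → ℓ ∣ Nt * M → ℓ ∈ Sbig.erase (ℓ₀ : ℕ))
    (t : algTq σ hst Sbig δ hδ hδpow b ℓ₀) (ht : t ^ 2 = 0) : t = 0 := by
  have hmem : (t : Module.End O (sideL σ hst Sbig δ hδ hδpow b).H) ∈
      (sideL σ hst (Sbig.erase (ℓ₀ : ℕ)) δ hδ hδpow b).alg := by
    rw [← algTq_eq σ hst Sbig δ hδ hδpow b ℓ₀ hℓ₀]
    exact t.2
  have h0 := sideReduced_of_real (X := sideL σ hst (Sbig.erase (ℓ₀ : ℕ)) δ hδ hδpow b)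
    hp2 hpΔ hsq hcop hπ hσ hSbig
    (sideRealL σ hst (Sbig.erase (ℓ₀ : ℕ)) δ hδ hδpow b uQ (fun _ => 1) hG1)
    (sideL_junk σ hst (Sbig.erase (ℓ₀ : ℕ)) δ hδ hδpow b) ⟨_, hmem⟩ (by
      apply Subtype.ext
      have := congrArg Subtype.val ht
      exact this)
  have h1 := congrArg Subtype.val h0
  apply Subtype.ext
  exact h1

include hG1 in
/-- **the occurrence clause of `T_{ℓ₀}`, full-system form.** -/
theorem algTq_occ [Fact p.Prime] [Finite (ResidueField O)] (hp2 : p ≠ 2)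
    (hpΔ : IsPGroup p (Δ₁ × Δ₂))
    (hsq : Squarefree M) (hcop : Nat.Coprime M (Nt / M)) (hσ : ∀ u, σ u ^ 2 = π u)
    (hℓ₀ : (ℓ₀ : ℕ) ∈ Sbig)
    (hSbig : ∀ ℓ : ℕ, ℓ.Prime → ℓ ∣ Nt * M → ℓ ∈ Sbig.erase (ℓ₀ : ℕ))
    (B : Type) [CommRing B] [IsDomain B] [IsDiscreteValuationRing B]
    [Algebra O B] [Module.Finite O B]
    (x : algTq σ hst Sbig δ hδ hδpow b ℓ₀ →ₐ[O] B) :
    ∃ (B' : Type) (_ : CommRing B') (_ : IsDomain B') (_ : IsDiscreteValuationRing B')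
      (_ : Algebra B B') (_ : Module.Finite B B') (_ : Function.Injective (algebraMap B B'))
      (L' : Type) (_ : Field L') (_ : Algebra B' L') (_ : IsFractionRing B' L')
      (a' : Nat.Primes → B'),
      eigenPar (Nt * M) L' (mapSys B' L' a') ≠ ⊥ ∧
      (∀ (ℓ : Nat.Primes) (hℓ : (ℓ : ℕ) ∉ Sbig),
        a' ℓ = algebraMap B B' (x ⟨(sideL σ hst Sbig δ hδ hδpow b).Tt ℓ,
          Algebra.subset_adjoin (Or.inl (Or.inl ⟨ℓ, rfl⟩))⟩)) ∧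
      a' ℓ₀ = algebraMap B B' (x ⟨TqSide σ hst Sbig δ hδ hδpow b ℓ₀,
        Algebra.subset_adjoin (Or.inr rfl)⟩) := by
  classical
  have heq := algTq_eq σ hst Sbig δ hδ hδpow b ℓ₀ hℓ₀
  let x' : (sideL σ hst (Sbig.erase (ℓ₀ : ℕ)) δ hδ hδpow b).alg →ₐ[O] B := x.comp (Subalgebra.equivOfEq _ _ heq.symm).toAlgHom
  have hx' : ∀ (t : Module.End O (sideL σ hst (Sbig.erase (ℓ₀ : ℕ)) δ hδ hδpow b).H) (ht : t ∈ (sideL σ hst (Sbig.erase (ℓ₀ : ℕ)) δ hδ hδpow b).alg)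
      (ht' : t ∈ algTq σ hst Sbig δ hδ hδpow b ℓ₀), x' ⟨t, ht⟩ = x ⟨t, ht'⟩ := fun t ht ht' => rfl
  have hodd : Odd (Nat.card (Δ₁ × Δ₂)) := OCC.odd_card_of_isPGroup hp2 hpΔ
  obtain ⟨χ₀, hχ₀⟩ := OCC.occ_a
    (sideRealL σ hst (Sbig.erase (ℓ₀ : ℕ)) δ hδ hδpow b uQ (fun _ => 1) hG1)
    x' twExistsStatement twParabolicStatement twHeckeStatement twInjStatement
    hodd hsq hcop hπ hσ hSbig
  obtain ⟨i1, i2, i3⟩ := finite_dvr_instances (𝒪 := O) (B := B)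
  haveI := i1
  haveI := i2
  haveI := i3
  obtain ⟨B', j1, j2, j3, j4, j5, j6, j7, j8, j9, hinj, L', k1, k2, k3, a', hocc, ha'⟩ :=
    Fermat.Agent.S32.exists_system_of_character (N := Nt * M) (Sbig.erase (ℓ₀ : ℕ)) hSbig B χ₀
  refine ⟨B', j1, j2, j3, j7, j8, hinj, L', k1, k2, k3, a', hocc, ?_, ?_⟩
  · intro ℓ hℓ
    have hℓ' : (ℓ : ℕ) ∉ ((Sbig.erase (ℓ₀ : ℕ) : Finset ℕ) : Set ℕ) := fun h =>
      hℓ (Finset.mem_of_mem_erase (Finset.mem_coe.1 h))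
    have hℓN : ¬ (ℓ : ℕ) ∣ Nt * M := fun h => hℓ' (Finset.mem_coe.2 (hSbig ℓ ℓ.2 h))
    have hne : ℓ ≠ ℓ₀ := fun h => hℓ (h ▸ hℓ₀)
    have h1 : a' ℓ = algebraMap B B' (χ₀ (CuspForm.heckeAlgebra.T ℓ.2 hℓN hℓ')) :=
      ha' ℓ ℓ.2 hℓN hℓ'
    have h2 : χ₀ (CuspForm.heckeAlgebra.T ℓ.2 hℓN hℓ') = x' ((sideL σ hst (Sbig.erase (ℓ₀ : ℕ)) δ hδ hδpow b).TtA ℓ) := hχ₀ ℓ ℓ.2 hℓN hℓ'
    rw [h1, h2]
    congr 1
    have hmem : (sideL σ hst (Sbig.erase (ℓ₀ : ℕ)) δ hδ hδpow b).Tt ℓ ∈ algTq σ hst Sbig δ hδ hδpow b ℓ₀ := by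
      rw [sideL_erase_Tt_of_ne σ hst Sbig δ hδ hδpow b ℓ₀ hne]
      exact Algebra.subset_adjoin (R := O)
        (s := Set.range (sideL σ hst Sbig δ hδ hδpow b).Tt ∪
          Set.range (sideL σ hst Sbig δ hδ hδpow b).g ∪ {TqSide σ hst Sbig δ hδ hδpow b ℓ₀})
        (Or.inl (Or.inl ⟨ℓ, rfl⟩))
    refine (hx' _ ((sideL σ hst (Sbig.erase (ℓ₀ : ℕ)) δ hδ hδpow b).Tt_mem_alg ℓ) hmem).trans ?_
    congr 1
    exact Subtype.ext (sideL_erase_Tt_of_ne σ hst Sbig δ hδ hδpow b ℓ₀ hne)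
  · have hℓ' : (ℓ₀ : ℕ) ∉ ((Sbig.erase (ℓ₀ : ℕ) : Finset ℕ) : Set ℕ) := fun h =>
      Finset.notMem_erase _ _ (Finset.mem_coe.1 h)
    have hℓN : ¬ (ℓ₀ : ℕ) ∣ Nt * M := fun h => hℓ' (Finset.mem_coe.2 (hSbig ℓ₀ ℓ₀.2 h))
    have h1 : a' ℓ₀ = algebraMap B B' (χ₀ (CuspForm.heckeAlgebra.T ℓ₀.2 hℓN hℓ')) :=
      ha' ℓ₀ ℓ₀.2 hℓN hℓ'
    have h2 : χ₀ (CuspForm.heckeAlgebra.T ℓ₀.2 hℓN hℓ') = x' ((sideL σ hst (Sbig.erase (ℓ₀ : ℕ)) δ hδ hδpow b).TtA ℓ₀) :=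
      hχ₀ ℓ₀ ℓ₀.2 hℓN hℓ'
    rw [h1, h2]
    congr 1
    have hmem : (sideL σ hst (Sbig.erase (ℓ₀ : ℕ)) δ hδ hδpow b).Tt ℓ₀ ∈ algTq σ hst Sbig δ hδ hδpow b ℓ₀ := by
      rw [sideL_erase_Tt_self σ hst Sbig δ hδ hδpow b ℓ₀]
      exact Algebra.subset_adjoin (R := O)
        (s := Set.range (sideL σ hst Sbig δ hδ hδpow b).Tt ∪
          Set.range (sideL σ hst Sbig δ hδ hδpow b).g ∪ {TqSide σ hst Sbig δ hδ hδpow b ℓ₀})
        (Or.inr rfl)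
    refine (hx' _ ((sideL σ hst (Sbig.erase (ℓ₀ : ℕ)) δ hδ hδpow b).Tt_mem_alg ℓ₀) hmem).trans ?_
    congr 1
    exact Subtype.ext (sideL_erase_Tt_self σ hst Sbig δ hδ hδpow b ℓ₀)

end Tp

end Fermat.Agent.ML
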