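/-
PROJECT ML (S59) — [TWMOD-L] (helper2), part 19: **the data of one chain level** (`LevelPack`): the
two-stage hypotheses, a basis of the primary part `H` of `𝓜` over `𝒪[Δ]`, the control datum, the
classes `uQ`; its side, its occurrence contract `OccL`, and its control map to the module of level
zero.
-/
import Mathlib
import Fermat.Agent.ML.TWMODL_helper2_IharaSide
import Fermat.Agent.ML.TWMODL_helper2_Tp
import Fermat.Agent.RB.TWMOD_helper2_Asm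

set_option autoImplicit false
set_option linter.unusedSectionVars false
set_option linter.unusedVariables false
set_option linter.style.haveILetI false

namespace Fermat.Agent.ML

open CongruenceSubgroup Matrix ModularCurve.Period IsLocalRing
open scoped MatrixGroups
open Fermat.Agent.GR Fermat.Agent.LR Fermat.Agent.W1 Fermat.Agent.W1.ES Fermat.Agent.RB
  Fermat.Agent.RB.TWM Fermat.Agent.RB.TWL

section Prim

variable {O : Type*} [CommRing O] [IsLocalRing O] {P : Type*} [AddCommGroup P] [Module O P]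
  {σ : Type*}

/-- an operator commuting with the family preserves the primary part. -/
theorem apply_mem_primaryPart_of_commute (T : σ → Module.End O P) (c : σ → O)
    (A : Module.End O P) (hA : ∀ i, Commute A (T i)) {x : P} (hx : x ∈ primaryPart T c) :
    A x ∈ primaryPart T c := by
  intro i n
  obtain ⟨k, hk⟩ := hx i n
  refine ⟨k, ?_⟩
  have hcomm : Commute A ((T i - algebraMap O (Module.End O P) (c i)) ^ k) :=
    ((hA i).sub_right (Algebra.commute_algebraMap_right _ _)).pow_right k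
  rw [← Module.End.mul_apply, ← hcomm.eq, Module.End.mul_apply]
  exact Submodule.smul_top_le_comap_smul_top _ A hk

end Prim

section Pack

variable {M : ℕ} {Δ₁ Δ₂ : Type} [CommGroup Δ₁] [CommGroup Δ₂] [Fintype Δ₁] [Fintype Δ₂]
  (π σ : (ZMod M)ˣ →* Δ₁ × Δ₂) (hπ : Function.Surjective π)
variable (O : Type) [CommRing O] [IsDomain O] [CharZero O] [IsDiscreteValuationRing O]
  [IsAdicComplete (maximalIdeal O) O]
variable {I : Type} (ι : I → Nat.Primes) (c : I → O) {r : ℕ} (δ : Fin r → Δ₂)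

/-- **the data of one chain level.** -/
structure LevelPack (N : ℕ) [NeZero N] (hM : M ∣ N) (d : ℕ) where
  i₀ : I
  n₀ : O
  hTS : TwoStage (fun i => opM N M hM π O (ι i)) (parM N M hM π O hπ) c i₀ n₀
  hst : StabHyp N M hM π hπ O ι c
  b : Module.Basis (Fin d) (MonoidAlgebra O (Δ₁ × Δ₂)) (HH N M hM π O ι c)
  K : CtlDatum π hπ O ι c N hM
  uQ : Fin r → (ZMod N)ˣ
  hG1 : ∀ q, σ (ZMod.unitsMap hM (uQ q)) = ((1 : Δ₁), δ q)

variable {π σ hπ O ι c δ}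

/-- the side of a chain level. -/
noncomputable abbrev LevelPack.side {N : ℕ} [NeZero N] {hM : M ∣ N} {d : ℕ}
    (P : LevelPack π σ hπ O ι c δ N hM d) (Sbig : Finset ℕ) {p n : ℕ}
    (hδ : Function.Bijective fun e : Fin r → Fin (p ^ n) => ∏ q, δ q ^ ((e q : Fin (p ^ n)) : ℕ))
    (hδpow : ∀ q, δ q ^ (p ^ n) = 1) : TWModSide O p r d n :=
  sideL σ P.hst Sbig δ hδ hδpow P.b

include hπ in
/-- **existence of the data of a level.** -/
theorem nonempty_levelPack {p : ℕ} (hp : p.Prime) (hp2 : p ≠ 2) (hpO : (p : O) ∈ maximalIdeal O)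
    (hΔ : IsPGroup p (Δ₁ × Δ₂)) (hπ1 : π (-1) = 1)
    (N : ℕ) [NeZero N] (hM : M ∣ N) (hN : N ≠ 1)
    (h3 : p = 3 → ∃ r₀ : ℕ, r₀.Prime ∧ r₀ ∣ N ∧ r₀ % 3 = 2)
    (i₀ : I) (hℓ₀N : ¬ ((ι i₀ : Nat.Primes) : ℕ) ∣ N)
    (hℓ₀1 : ((ι i₀ : Nat.Primes) : ℕ) ≡ 1 [MOD N])
    (hunit : IsUnit (c i₀ - ((((ι i₀ : Nat.Primes) : ℕ) : O) + 1)))
    (uQ : Fin r → (ZMod N)ˣ)
    (hG1 : ∀ q, σ (ZMod.unitsMap hM (uQ q)) = ((1 : Δ₁), δ q)) :
    ∃ (d : ℕ) (P : LevelPack π σ hπ O ι c δ N hM d), P.uQ = uQ := by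
  have hL := liftsCocycles_chiOf N M hM π O hp hp2 hpO h3
  have hTS := twoStage_MM N M hM π hπ O ι hN hπ1 c i₀ hℓ₀N hℓ₀1 hunit
  have hfree := free_primary_MM_odd N M hM π hπ O ι hp hpO hL hΔ hN hπ1 c i₀ hℓ₀N hℓ₀1 hunit
  haveI : IsNoetherian (MonoidAlgebra O (Δ₁ × Δ₂)) (MM N M hM π O) :=
    isNoetherian_of_isNoetherianRing_of_finite _ _
  haveI : Module.Finite (MonoidAlgebra O (Δ₁ × Δ₂)) (HH N M hM π O ι c) :=
    Module.Finite.of_injective (primaryPartR _ _).subtype Subtype.val_injective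
  haveI := hfree
  obtain ⟨K⟩ := nonempty_ctlDatum π hπ O ι c N hM hL hN hπ1 i₀ hℓ₀N hℓ₀1 hunit
  exact ⟨_, {
    i₀ := i₀
    n₀ := _
    hTS := hTS
    hst := StabHyp.of_twoStage hN hπ1 hTS
    b := Module.finBasis (MonoidAlgebra O (Δ₁ × Δ₂)) (HH N M hM π O ι c)
    K := K
    uQ := uQ
    hG1 := hG1 }, rfl⟩

end Pack

section LevelOcc

variable {M : ℕ} [NeZero M] {Δ₁ Δ₂ : Type} [CommGroup Δ₁] [CommGroup Δ₂] [Fintype Δ₁] [Fintype Δ₂]
  {π σ : (ZMod M)ˣ →* Δ₁ × Δ₂} {hπ : Function.Surjective π}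
variable {O : Type} [CommRing O] [IsDomain O] [CharZero O] [IsDiscreteValuationRing O]
  [IsAdicComplete (maximalIdeal O) O]
variable {I : Type} {ι : I → Nat.Primes} {c : I → O} {r : ℕ} {δ : Fin r → Δ₂}
variable {N : ℕ} [NeZero N] {hM : M ∣ N} {d : ℕ}
  (P : LevelPack π σ hπ O ι c δ N hM d) (Sbig : Finset ℕ) {p n : ℕ}
  (hδ : Function.Bijective fun e : Fin r → Fin (p ^ n) => ∏ q, δ q ^ ((e q : Fin (p ^ n)) : ℕ))
  (hδpow : ∀ q, δ q ^ (p ^ n) = 1)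

/-- **the occurrence contract of a chain level.** -/
theorem LevelPack.occL [Fact p.Prime] (hp2 : p ≠ 2) (hpO : (p : O) ∈ maximalIdeal O)
    (hpΔ : IsPGroup p (Δ₁ × Δ₂)) (hsq : Squarefree M) (hcop : Nat.Coprime M (N / M))
    (hσ : ∀ u, σ u ^ 2 = π u) (hSbig : ∀ ℓ : ℕ, ℓ.Prime → ℓ ∣ N * M → ℓ ∈ Sbig)
    (lam : O) (hlam : Irreducible lam) (c₀ : Nat.Primes → O) (Sres : Set ℕ)
    (hres : ∀ ℓ : Nat.Primes, (ℓ : ℕ) ∉ Sres →
      (ℓ : ℕ) ∉ Sbig ∧ ∃ i, ι i = ℓ ∧ c₀ ℓ - c i ∈ maximalIdeal O)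
    (Nb : ℕ) [NeZero Nb] (hNb : Nb = N * M) :
    OccL (P.side Sbig hδ hδpow) lam c₀ N Nb (Sbig : Set ℕ) Sres P.uQ := by
  subst hNb
  refine occL_of_real (hn := GammaH_normal N M hM π) hp2 hpΔ hsq hcop P.hst.ne_one hπ hσ hSbig
    (sideRealL σ P.hst Sbig δ hδ hδpow P.b P.uQ (fun _ => 1) P.hG1)
    (sideL_junk σ P.hst Sbig δ hδ hδpow P.b) lam c₀ Sres ?_
  intro ℓ hℓ
  obtain ⟨hℓS, i, rfl, hci⟩ := hres ℓ hℓ
  exact sideL_resid σ P.hst Sbig δ hδ hδpow P.b P.hTS (Fact.out : p.Prime) hp2 hpO hpΔ lam hlam i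
    hℓS (c₀ (ι i)) hci

end LevelOcc

section LevelCtl

variable {M : ℕ} {Δ₁ Δ₂ : Type} [CommGroup Δ₁] [CommGroup Δ₂] [Fintype Δ₁] [Fintype Δ₂]
  {π σ : (ZMod M)ˣ →* Δ₁ × Δ₂} {hπ : Function.Surjective π}
variable {O : Type} [CommRing O] [IsDomain O] [CharZero O] [IsDiscreteValuationRing O]
  [IsAdicComplete (maximalIdeal O) O]
variable {I : Type} {ι : I → Nat.Primes} {c : I → O} {r : ℕ} {δ : Fin r → Δ₂}
variable {N : ℕ} [NeZero N] {hM : M ∣ N} {d : ℕ}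
  (P : LevelPack π σ hπ O ι c δ N hM d) (Sbig : Finset ℕ) {p n : ℕ}
  (hδ : Function.Bijective fun e : Fin r → Fin (p ^ n) => ∏ q, δ q ^ ((e q : Fin (p ^ n)) : ℕ))
  (hδpow : ∀ q, δ q ^ (p ^ n) = 1)
variable {M0 : Type} [AddCommGroup M0] [Module O M0]
  (φ : M0 ≃ₗ[O] ↥(primaryPart (fun i : I => GR.heckeParP N (ι i) O O) c))

include hδ in
theorem ker_specHom_one_le_aug :
    RingHom.ker (specHom O Δ₂ (1 : Δ₁ →* Oˣ)) ≤ augIdeal O (Δ₁ × Δ₂) ⊤ := by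
  rw [augIdeal_top_eq δ hδ]
  exact le_sup_left

/-- the control map on `H`, composed with an identification of its target. -/
noncomputable def LevelPack.kap : HH N M hM π O ι c →ₗ[O] M0 :=
  φ.symm.toLinearMap ∘ₗ P.K.κ

theorem LevelPack.kap_surjective : Function.Surjective (P.kap φ) :=
  φ.symm.surjective.comp P.K.surj

theorem LevelPack.kap_ker (x : HH N M hM π O ι c) :
    P.kap φ x = 0 ↔ x ∈ augIdeal O (Δ₁ × Δ₂) ⊤ •
      (⊤ : Submodule (MonoidAlgebra O (Δ₁ × Δ₂)) (HH N M hM π O ι c)) := by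
  show φ.symm (P.K.κ x) = 0 ↔ _
  rw [φ.symm.map_eq_zero_iff]
  exact P.K.ker x

/-- **the control map of a chain level.** -/
noncomputable def LevelPack.ctl : (P.side Sbig hδ hδpow).H →ₗ[O] M0 :=
  (quotLift (augIdeal O (Δ₁ × Δ₂) ⊤) (P.kap φ) (P.kap_ker φ)).comp
    (sideToQuot (specHom O Δ₂ (1 : Δ₁ →* Oˣ)) (secHom O Δ₁ Δ₂) _
      (ker_specHom_one_le_aug (Δ₁ := Δ₁) (O := O) hδ))

theorem LevelPack.ctl_surjective : Function.Surjective (P.ctl Sbig hδ hδpow φ) :=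
  (quotLift_surjective _ (P.kap φ) (P.kap_ker φ) (P.kap_surjective φ)).comp
    (sideToQuot_surjective _ _ _ _)

theorem LevelPack.ker_ctl (x : (P.side Sbig hδ hδpow).H) :
    P.ctl Sbig hδ hδpow φ x = 0 ↔
      x ∈ ⨆ q, LinearMap.range ((P.side Sbig hδ hδpow).g q - 1) :=
  ker_ctl_aux δ hδ (ker_specHom_one_le_aug (Δ₁ := Δ₁) (O := O) hδ) (P.kap φ) (P.kap_ker φ) x

theorem LevelPack.ctl_mk (y : HH N M hM π O ι c) :
    P.ctl Sbig hδ hδpow φ (sideMk (specHom O Δ₂ (1 : Δ₁ →* Oˣ)) (secHom O Δ₁ Δ₂) y) =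
      P.kap φ y := rfl

/-- the control map intertwines the twisted Hecke operators with the Hecke operators of level
`N`. -/
theorem LevelPack.ctl_Tt (i : I) (hi : ((ι i : Nat.Primes) : ℕ) ∉ Sbig)
    (x : (P.side Sbig hδ hδpow).H) :
    ((φ (P.ctl Sbig hδ hδpow φ ((P.side Sbig hδ hδpow).Tt (ι i) x)) :
        ↥(primaryPart (fun i : I => GR.heckeParP N (ι i) O O) c)) :
        ↥(parabolicHoms O (Gamma0 N) O)) =
      GR.heckeParP N (ι i) O O (φ (P.ctl Sbig hδ hδpow φ x)) := by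
  obtain ⟨y, rfl⟩ := sideMk_surjective (specHom O Δ₂ (1 : Δ₁ →* Oˣ)) (secHom O Δ₁ Δ₂) x
  have h0 : (P.side Sbig hδ hδpow).Tt (ι i)
      (sideMk (specHom O Δ₂ (1 : Δ₁ →* Oˣ)) (secHom O Δ₁ Δ₂) y) =
      sideMk (specHom O Δ₂ (1 : Δ₁ →* Oˣ)) (secHom O Δ₁ Δ₂) (TtL σ P.hst Sbig (ι i) y) :=
    sideEnd_mk _ _ _ y
  rw [h0, LevelPack.ctl_mk, LevelPack.ctl_mk, TtL_of_notMem σ P.hst Sbig hi]
  show ((φ (φ.symm (P.K.κ _)) : ↥(primaryPart (fun i : I => GR.heckeParP N (ι i) O O) c)) :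
        ↥(parabolicHoms O (Gamma0 N) O)) = GR.heckeParP N (ι i) O O (φ (φ.symm (P.K.κ y)))
  rw [φ.apply_symm_apply, φ.apply_symm_apply]
  unfold TqL
  rw [Module.End.mul_apply, smulEnd_apply]
  have h1 := ctl_smul (Δ := Δ₁ × Δ₂) (H := HH N M hM π O ι c) P.K.κ P.K.ker
    (MonoidAlgebra.of O (Δ₁ × Δ₂) (sigAt M σ (ι i))⁻¹) (TopAny P.hst (ι i) y)
  rw [augHom_of, one_smul] at h1
  rw [h1]
  exact P.K.hecke i y _ rfl

include P φ in
theorem LevelPack.finrank_eq : Module.finrank O M0 = d :=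
  finrank_eq_of_ctl (M0 := M0) P.b (P.kap φ) (P.kap_surjective φ) (P.kap_ker φ)

end LevelCtl

end Fermat.Agent.ML
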