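/-
PROJECT ML (S59) — [TWMOD-LX] (helper2), part 1: **the occurrence contract `OccX` of RB's concrete
sides `sideX` for odd `p`**, and the **abstract assembly of a `TWModLevelX`** from a free
`O[Δ₁ × Δ₂]`-module `H`, a character `ψ₂ ≡ 1 mod λ` of `Δ₁` and a control map `κ : H → M0` with
kernel `I_Δ H` (RB's `nonempty_twModLevel` without the Hecke–Galois datum).
-/
import Mathlib
import Fermat.Agent.ML.IFACE_helper2_TWModX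
import Fermat.Agent.ML.TWMODL_helper2_Occ
import Fermat.Agent.RB.TWMOD_helper2_Final
import Fermat.Agent.RB.TWMOD_helper9_Resid

set_option autoImplicit false
set_option linter.unusedSectionVars false
set_option linter.unusedVariables false
set_option linter.style.haveILetI false

namespace Fermat.Agent.ML

open CongruenceSubgroup Matrix ModularCurve.Period IsLocalRing
open scoped MatrixGroups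
open Fermat.Agent.GR Fermat.Agent.LR Fermat.Agent.W1 Fermat.Agent.W1.ES Fermat.Agent.RB
  Fermat.Agent.RB.TWM Fermat.Agent.RB.TWL

section SideOccX

variable (Nt M : ℕ) [NeZero Nt] (hM : M ∣ Nt) {Δ₁ Δ₂ : Type} [CommGroup Δ₁] [CommGroup Δ₂]
  [Fintype Δ₁] [Fintype Δ₂]
  (π σ : (ZMod M)ˣ →* Δ₁ × Δ₂) (hπ : Function.Surjective π)
variable (O : Type) [CommRing O] [IsDomain O] [CharZero O] [IsDiscreteValuationRing O]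
  [IsAdicComplete (maximalIdeal O) O]
variable {I : Type} (ι : I → Nat.Primes) (c : I → O)
variable {i₀ : I} {n₀ : O}
  (hTS : TwoStage (fun i => opM Nt M hM π O (ι i)) (parM Nt M hM π O hπ) c i₀ n₀)
variable (Sbig : Finset ℕ) (idx : ∀ ℓ : Nat.Primes, (ℓ : ℕ) ∉ Sbig → I)
  (hidx : ∀ (ℓ : Nat.Primes) (h : (ℓ : ℕ) ∉ Sbig), ι (idx ℓ h) = ℓ)
variable {p r d n : ℕ} (ψ : Δ₁ →* Oˣ) (δ : Fin r → Δ₂)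
  (hδ : Function.Bijective fun e : Fin r → Fin (p ^ n) => ∏ q, δ q ^ ((e q : Fin (p ^ n)) : ℕ))
  (hδpow : ∀ q, δ q ^ (p ^ n) = 1)
  (b : Module.Basis (Fin d) (MonoidAlgebra O (Δ₁ × Δ₂)) (HH Nt M hM π O ι c))
variable (z : O) (Sig : Finset ℕ) (uQ : Fin r → (ZMod Nt)ˣ) (uS : ℕ → (ZMod Nt)ˣ) (δS : ℕ → Δ₁)
  (hG1 : ∀ q, σ (ZMod.unitsMap hM (uQ q)) = ((1 : Δ₁), δ q))
  (hG2 : ∀ v ∈ Sig, σ (ZMod.unitsMap hM (uS v)) = (δS v, (1 : Δ₂)))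
  (hG3 : ∀ v ∈ Sig, ∀ u : (ZMod Nt)ˣ, (((u : ZMod Nt).val : ℕ) : ZMod (Nt / v)) = 1 →
    ∃ j : ℕ, σ (ZMod.unitsMap hM u) = (δS v ^ j, (1 : Δ₂)))
  (hψz : ∀ v ∈ Sig, (ψ (δS v) : O) = z)

include hidx hG1 hG2 hG3 hψz in
/-- **the occurrence contract of the concrete sides, odd `p`.** -/
theorem sideX_occX [Fact p.Prime] (hp2 : p ≠ 2) (hpO : (p : O) ∈ maximalIdeal O)
    (hpG : IsPGroup p (Δ₁ × Δ₂)) [NeZero M] (Nbig : ℕ) [NeZero Nbig] (hMsq : Squarefree M)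
    (hcop : Nat.Coprime M (Nt / M)) (hNbig : Nbig = Nt * M) (hNt1 : Nt ≠ 1)
    (hσ2 : ∀ u, σ u ^ 2 = π u) (hSbig : ∀ ℓ : ℕ, ℓ.Prime → ℓ ∣ Nbig → ℓ ∈ Sbig)
    (lam : O) (hlam : Irreducible lam) (c₀ : Nat.Primes → O)
    (hc₀ : ∀ (ℓ : Nat.Primes) (hℓ : (ℓ : ℕ) ∉ Sbig), c₀ ℓ - c (idx ℓ hℓ) ∈ maximalIdeal O)
    (SbigS : Set ℕ) (hSS : (Sbig : Set ℕ) = SbigS) :
    OccX (sideX Nt M hM π σ hπ O ι c hTS Sbig idx ψ δ hδ hδpow b) lam z c₀ Sig Nt Nbig SbigS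
      uQ uS := by
  subst hNbig
  subst hSS
  have real := sideRealOf Nt M hM π σ hπ O ι c hTS Sbig idx hidx ψ δ hδ hδpow b z Sig uQ uS δS
    hG1 hG2 hG3 hψz
  have hjunk := sideX_junk Nt M hM π σ hπ O ι c hTS Sbig idx ψ δ hδ hδpow b
  have hred := sideReduced_of_real hp2 hpG hMsq hcop hπ hσ2 hSbig real hjunk
  have hocc := occClause_of_real hp2 hpG hMsq hcop hNt1 hπ hσ2 hSbig real
  refine ⟨hred, fun ℓ hℓ => hjunk ℓ (Finset.mem_coe.1 hℓ), fun ℓ hℓ => ?_, ?_⟩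
  · have hℓb : (ℓ : ℕ) ∉ Sbig := fun h => hℓ (Finset.mem_coe.2 h)
    exact residStatement Nt M hM π σ hπ O ι c hTS Sbig idx (Fact.out : p.Prime) hp2 hpO hpG ψ δ
      hδ hδpow b lam hlam ℓ hℓb (c₀ ℓ) (hc₀ ℓ hℓb)
  · intro B _ _ _ _ _ x
    obtain ⟨h1, h2⟩ := hocc B x
    refine ⟨h1, fun F _ _ _ hBF => ?_⟩
    obtain ⟨a, ψh, ha1, ha2, ha3, ha4, ha5, ha6⟩ := h2 F hBF
    exact ⟨a, ψh, ha1, ha2, ha3, ha4, ha5, ha6⟩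

end SideOccX

section LevelX

variable {𝒪 : Type} [CommRing 𝒪] [IsDomain 𝒪] [IsDiscreteValuationRing 𝒪]
  [IsAdicComplete (maximalIdeal 𝒪) 𝒪]
variable {Δ₁ Δ₂ : Type} [CommGroup Δ₁] [CommGroup Δ₂]
variable {H : Type} [AddCommGroup H] [Module (MonoidAlgebra 𝒪 (Δ₁ × Δ₂)) H] [Module 𝒪 H]
  [IsScalarTower 𝒪 (MonoidAlgebra 𝒪 (Δ₁ × Δ₂)) H]

/-- the control map of side 1, for an abstract target. -/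
theorem exists_ctl_side {p r d n : ℕ} {M0 : Type} [AddCommGroup M0] [Module 𝒪 M0]
    (Tt : Nat.Primes → Module.End (MonoidAlgebra 𝒪 (Δ₁ × Δ₂)) H)
    (hTt : ∀ ℓ ℓ', Commute (Tt ℓ) (Tt ℓ')) (δ : Fin r → Δ₂)
    (hδ : Function.Bijective fun e : Fin r → Fin (p ^ n) => ∏ q, δ q ^ ((e q : Fin (p ^ n)) : ℕ))
    (hδpow : ∀ q, δ q ^ (p ^ n) = 1)
    (b : Module.Basis (Fin d) (MonoidAlgebra 𝒪 (Δ₁ × Δ₂)) H)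
    (κ : H →ₗ[𝒪] M0) (hκs : Function.Surjective κ)
    (hκ : ∀ x, κ x = 0 ↔ x ∈ augIdeal 𝒪 (Δ₁ × Δ₂) ⊤ •
      (⊤ : Submodule (MonoidAlgebra 𝒪 (Δ₁ × Δ₂)) H)) :
    ∃ ctl : (mkSide (1 : Δ₁ →* 𝒪ˣ) Tt hTt δ hδ hδpow b).H →ₗ[𝒪] M0,
      Function.Surjective ctl ∧
      (∀ x, ctl x = 0 ↔
        x ∈ ⨆ q, LinearMap.range ((mkSide (1 : Δ₁ →* 𝒪ˣ) Tt hTt δ hδ hδpow b).g q - 1)) ∧
      ∀ (ℓ : Nat.Primes) (x : (mkSide (1 : Δ₁ →* 𝒪ˣ) Tt hTt δ hδ hδpow b).H),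
        ∃ y : H, ctl x = κ y ∧
          ctl ((mkSide (1 : Δ₁ →* 𝒪ˣ) Tt hTt δ hδ hδpow b).Tt ℓ x) = κ (Tt ℓ y) := by
  have hleA : RingHom.ker (specHom 𝒪 Δ₂ (1 : Δ₁ →* 𝒪ˣ)) ≤ augIdeal 𝒪 (Δ₁ × Δ₂) ⊤ := by
    rw [augIdeal_top_eq δ hδ]
    exact le_sup_left
  refine ⟨(quotLift (augIdeal 𝒪 (Δ₁ × Δ₂) ⊤) κ hκ).comp
      (sideToQuot (specHom 𝒪 Δ₂ (1 : Δ₁ →* 𝒪ˣ)) (secHom 𝒪 Δ₁ Δ₂) _ hleA),
    (quotLift_surjective _ κ hκ hκs).comp (sideToQuot_surjective _ _ _ _),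
    fun x => ker_ctl_aux δ hδ hleA κ hκ x, fun ℓ x => ?_⟩
  obtain ⟨y, hy⟩ := sideMk_surjective (specHom 𝒪 Δ₂ (1 : Δ₁ →* 𝒪ˣ)) (secHom 𝒪 Δ₁ Δ₂) x
  have hx : x = sideMk (specHom 𝒪 Δ₂ (1 : Δ₁ →* 𝒪ˣ)) (secHom 𝒪 Δ₁ Δ₂) y := hy.symm
  refine ⟨y, ?_, ?_⟩
  · rw [hx]
    rfl
  · rw [hx]
    rfl

/-- **abstract assembly of the two-sided level.** -/
theorem nonempty_twModLevelX (p : ℕ) (lam ζ : 𝒪) (c : Nat.Primes → 𝒪) (P : Set Nat.Primes)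
    (Sig : Finset ℕ) (r d n : ℕ) (Q : Fin r → ℕ) (N Nt Nbig : ℕ) [NeZero N] [NeZero Nt]
    [NeZero Nbig]
    (ψ₂ : Δ₁ →* 𝒪ˣ) (hψ₂ : ∀ δ, ∃ c₁ : 𝒪, (ψ₂ δ : 𝒪) - 1 = lam * c₁)
    (Tt : Nat.Primes → Module.End (MonoidAlgebra 𝒪 (Δ₁ × Δ₂)) H)
    (hTt : ∀ ℓ ℓ', Commute (Tt ℓ) (Tt ℓ')) (δ : Fin r → Δ₂)
    (hδ : Function.Bijective fun e : Fin r → Fin (p ^ n) => ∏ q, δ q ^ ((e q : Fin (p ^ n)) : ℕ))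
    (hδpow : ∀ q, δ q ^ (p ^ n) = 1)
    (b : Module.Basis (Fin d) (MonoidAlgebra 𝒪 (Δ₁ × Δ₂)) H)
    (uQ : Fin r → (ZMod Nt)ˣ)
    (uQ_spec : ∀ q, ((((uQ q : (ZMod Nt)ˣ) : ZMod Nt).val : ℕ) : ZMod (Nt / Q q)) = 1)
    (uS : ℕ → (ZMod Nt)ˣ)
    (uS_spec : ∀ v ∈ Sig, ((((uS v : (ZMod Nt)ˣ) : ZMod Nt).val : ℕ) : ZMod (Nt / v)) = 1)
    (hocc₁ : OccX (mkSide (1 : Δ₁ →* 𝒪ˣ) Tt hTt δ hδ hδpow b) lam 1 c Sig Nt Nbig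
      (badSet p N ∪ Set.range Q) uQ uS)
    (hocc₂ : OccX (mkSide ψ₂ Tt hTt δ hδ hδpow b) lam ζ c Sig Nt Nbig
      (badSet p N ∪ Set.range Q) uQ uS)
    (κ : H →ₗ[𝒪] ↥(lvlModP 𝒪 P N c)) (hκs : Function.Surjective κ)
    (hκ : ∀ x, κ x = 0 ↔ x ∈ augIdeal 𝒪 (Δ₁ × Δ₂) ⊤ •
      (⊤ : Submodule (MonoidAlgebra 𝒪 (Δ₁ × Δ₂)) H))
    (hκT : ∀ ℓ : Nat.Primes, (ℓ : ℕ) ∉ badSet p N ∪ Set.range Q → ∀ x : H,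
      ((κ (Tt ℓ x) : ↥(lvlModP 𝒪 P N c)) : ↥(parabolicHoms 𝒪 (Gamma0 N) 𝒪)) =
        heckeParP N ℓ 𝒪 𝒪 ((κ x : ↥(lvlModP 𝒪 P N c)) : ↥(parabolicHoms 𝒪 (Gamma0 N) 𝒪))) :
    Nonempty (TWModLevelX p lam ζ c P Sig r d n Q N Nt Nbig) := by
  have hψ₁ : ∀ δ₁ : Δ₁, ∃ c₁ : 𝒪, (((1 : Δ₁ →* 𝒪ˣ) δ₁ : 𝒪ˣ) : 𝒪) - 1 = lam * c₁ := fun δ₁ =>
    ⟨0, by rw [MonoidHom.one_apply, Units.val_one, sub_self, mul_zero]⟩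
  have hle₁ := ker_specHom_le_barIdeal (Δ₂ := Δ₂) (1 : Δ₁ →* 𝒪ˣ) lam hψ₁
  have hle₂ := ker_specHom_le_barIdeal (Δ₂ := Δ₂) ψ₂ lam hψ₂
  obtain ⟨ctl₀, hctl1, hctl2, hctl3⟩ :=
    exists_ctl_side (M0 := ↥(lvlModP 𝒪 P N c)) Tt hTt δ hδ hδpow b κ hκs hκ
  refine ⟨{
    side₁ := mkSide (1 : Δ₁ →* 𝒪ˣ) Tt hTt δ hδ hδpow b
    side₂ := mkSide ψ₂ Tt hTt δ hδ hδpow b
    uQ := uQ
    uQ_spec := uQ_spec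
    uS := uS
    uS_spec := uS_spec
    occ₁ := hocc₁
    occ₂ := hocc₂
    Hbar := QuotJ (barIdeal 𝒪 Δ₁ Δ₂ lam) H
    gbar := fun q => quotEnd 𝒪 (barIdeal 𝒪 Δ₁ Δ₂ lam)
      (smulEnd (MonoidAlgebra.of 𝒪 (Δ₁ × Δ₂) ((1 : Δ₁), δ q)))
    Ttbar := fun ℓ => quotEnd 𝒪 (barIdeal 𝒪 Δ₁ Δ₂ lam) (Tt ℓ)
    red₁ := sideToQuot (specHom 𝒪 Δ₂ (1 : Δ₁ →* 𝒪ˣ)) (secHom 𝒪 Δ₁ Δ₂) _ hle₁
    red₂ := sideToQuot (specHom 𝒪 Δ₂ ψ₂) (secHom 𝒪 Δ₁ Δ₂) _ hle₂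
    red₁_surjective := sideToQuot_surjective _ _ _ _
    red₂_surjective := sideToQuot_surjective _ _ _ _
    ker_red₁ := fun x => ?_
    ker_red₂ := fun x => ?_
    red₁_g := fun q x => sideToQuot_sideEnd _ _ _ _ _ x
    red₂_g := fun q x => sideToQuot_sideEnd _ _ _ _ _ x
    red₁_Tt := fun ℓ x => sideToQuot_sideEnd _ _ _ _ _ x
    red₂_Tt := fun ℓ x => sideToQuot_sideEnd _ _ _ _ _ x
    ctl := ctl₀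
    ctl_surjective := hctl1
    ker_ctl := hctl2
    ctl_Tt := fun ℓ hℓ x => ?_ }⟩
  · exact ker_red_aux (1 : Δ₁ →* 𝒪ˣ) lam hψ₁ x
  · exact ker_red_aux ψ₂ lam hψ₂ x
  · obtain ⟨y, h1, h2⟩ := hctl3 ℓ x
    rw [h1, h2]
    exact hκT ℓ hℓ y

end LevelX

end Fermat.Agent.ML
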