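/-
PROJECT ML (S59) — [TWMOD-LX] (helper2), part 2: **the final assembly**:
`Fermat.Agent.ML.twModXStatement : TWModXStatement`.
-/
import Mathlib
import Fermat.Agent.ML.TWMODX_helper2_Asm
import Fermat.Agent.ML.TWMODL_helper2_BaseOdd
import Fermat.Agent.ML.TWMODL_helper2_Level
import Fermat.Agent.RB.T3_helper3_Iter
import Fermat.Agent.RB.LEVEL0_helper3_M0
import Fermat.Agent.RB.TWMOD_helper1_Grp

set_option autoImplicit false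
set_option linter.unusedSectionVars false
set_option linter.unusedVariables false
set_option linter.style.haveILetI false

namespace Fermat.Agent.ML

open CongruenceSubgroup Matrix ModularCurve.Period IsLocalRing
open scoped MatrixGroups
open Fermat.Agent.GR Fermat.Agent.LR Fermat.Agent.W1 Fermat.Agent.W1.ES Fermat.Agent.RB
  Fermat.Agent.RB.TWM Fermat.Agent.RB.TWL

section FinalX

variable {𝒪 : Type} [CommRing 𝒪] [IsDomain 𝒪] [IsDiscreteValuationRing 𝒪]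
  [IsAdicComplete (maximalIdeal 𝒪) 𝒪] [Finite (ResidueField 𝒪)] [CharZero 𝒪]

/-- the module of level zero is free of finite rank. -/
theorem lvlModP_free_finite (P : Set Nat.Primes) (N : ℕ) [NeZero N] (c : Nat.Primes → 𝒪) :
    Module.Free 𝒪 ↥(lvlModP 𝒪 P N c) ∧ Module.Finite 𝒪 ↥(lvlModP 𝒪 P N c) :=
  ⟨@Module.free_of_finite_type_torsion_free' 𝒪 _ ↥(lvlModP 𝒪 P N c) _ _ _ _ _ _, inferInstance⟩

/-- the module of level zero is stable under all Hecke operators. -/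
theorem heckeParP_mem_lvlModP (P : Set Nat.Primes) (N : ℕ) [NeZero N] (c : Nat.Primes → 𝒪)
    (ℓ : Nat.Primes) {x : ↥(parabolicHoms 𝒪 (Gamma0 N) 𝒪)} (hx : x ∈ lvlModP 𝒪 P N c) :
    GR.heckeParP N ℓ 𝒪 𝒪 x ∈ lvlModP 𝒪 P N c :=
  apply_mem_primaryPart_of_commute (fun ℓ : P => GR.heckeParP N (ℓ : Nat.Primes) 𝒪 𝒪)
    (fun ℓ : P => c ℓ) (GR.heckeParP N ℓ 𝒪 𝒪)
    (fun i => heckeParP_commute_domain 𝒪 ℓ (i : Nat.Primes)) hx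

/-- a finite set of natural numbers with the elements of `badSet p N`. -/
theorem exists_finset_badSet_only (p N : ℕ) (hp : p.Prime) (hN : N ≠ 0) :
    ∃ S : Finset ℕ, ∀ ℓ : ℕ, ℓ ∈ S ↔ ℓ.Prime ∧ (ℓ = p ∨ ℓ ∣ N) := by
  classical
  refine ⟨(insert p N.divisors).filter Nat.Prime, fun ℓ => ?_⟩
  rw [Finset.mem_filter, Finset.mem_insert, Nat.mem_divisors]
  constructor
  · rintro ⟨h1 | h1, h2⟩
    · exact ⟨h2, Or.inl h1⟩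
    · exact ⟨h2, Or.inr h1.1⟩
  · rintro ⟨h2, h1 | h1⟩
    · exact ⟨Or.inl h1, h2⟩
    · exact ⟨Or.inr ⟨h1, hN⟩, h2⟩

set_option maxHeartbeats 3200000 in
/-- **the two-sided level `(n, Q)`.** -/
theorem nonempty_twModLevelX_main
    (p : ℕ) [Fact p.Prime] (hp2 : p ≠ 2) (hpO : (p : 𝒪) ∈ maximalIdeal 𝒪)
    (ζ : 𝒪) (hζ : IsPrimitiveRoot ζ p) (lam : 𝒪) (hlam : Irreducible lam)
    (N : ℕ) [NeZero N] (hNsq : Squarefree N) (hN1 : N ≠ 1)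
    (P : Set Nat.Primes) (hP : primesOutside (badSet p N) ⊆ P)
    (c : Nat.Primes → 𝒪)
    (hNE : ∀ (D : ℕ), 0 < D → ∀ Bad : Finset ℕ, ∃ ℓ : Nat.Primes,
      (ℓ : ℕ) ∉ badSet p N ∧ (ℓ : ℕ) ∉ Bad ∧ (ℓ : ℕ) ≡ 1 [MOD D] ∧
        c ℓ - ((ℓ : ℕ) + 1 : 𝒪) ∉ maximalIdeal 𝒪)
    (h3 : p = 3 → ∃ r₀ : ℕ, r₀.Prime ∧ r₀ ∣ N ∧ r₀ % 3 = 2)
    (Sig : Finset ℕ) (hSig : ∀ v ∈ Sig, v.Prime ∧ v ∣ N ∧ v ≡ 1 [MOD p])
    (r n : ℕ) (Q : Fin r → ℕ) (hQinj : Function.Injective Q) (hQp : ∀ k, (Q k).Prime)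
    (hQS : ∀ k, Q k ∉ badSet p N) (hQn : ∀ k, p ^ n ∣ Q k - 1) (hQ1 : ∀ k, p ∣ Q k - 1)
    (hQr : ∀ k (hq : (Q k).Prime), ∃ α β : ResidueField 𝒪, α ≠ β ∧
      α + β = residue 𝒪 (c ⟨Q k, hq⟩) ∧ α * β = (Q k : ResidueField 𝒪))
    (Nt Nbig : ℕ) [NeZero Nt] [NeZero Nbig] (hNt : Nt = N * ∏ k, Q k)
    (hNbig : Nbig = N / (∏ v ∈ Sig, v) * ((∏ v ∈ Sig, v) * ∏ k, Q k) ^ 2) :
    Nonempty (TWModLevelX p lam ζ c P Sig r (Module.finrank 𝒪 ↥(lvlModP 𝒪 P N c)) n Q N Nt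
      Nbig) := by
  classical
  have hp : p.Prime := Fact.out
  haveI : NeZero p := ⟨hp.ne_zero⟩
  obtain ⟨S, hS⟩ := exists_finset_badSet_only p N hp (NeZero.ne N)
  have hSbad : ∀ ℓ : ℕ, ℓ ∈ S ↔ ℓ ∈ badSet p N := hS
  -- the arithmetic of the levels
  have hSig' : ∀ v ∈ Sig, v.Prime ∧ v ∣ N := fun v hv => ⟨(hSig v hv).1, (hSig v hv).2.1⟩
  have hQS' : ∀ k, Q k ∉ S := fun k h => hQS k ((hSbad _).mp h)
  have hQN : ∀ k, ¬ Q k ∣ N := fun k => not_dvd_of_notMem hS (hQp k) (hQS' k)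
  obtain ⟨M, hMdef⟩ : ∃ M : ℕ, M = (∏ v ∈ Sig, v) * ∏ k, Q k := ⟨_, rfl⟩
  have hM : M ∣ Nt := by rw [hNt, hMdef]; exact levelM_dvd hSig'
  haveI : NeZero M := ⟨by rw [hMdef]; exact levelM_ne_zero hSig' hQp⟩
  have hMsq : Squarefree M := by rw [hMdef]; exact squarefree_levelM hNsq hSig' hQinj hQp hQN
  have hcop : Nat.Coprime M (Nt / M) := by
    rw [hNt, hMdef]; exact coprime_levelM hNsq hSig' hQp hQN
  have hNbig' : Nbig = Nt * M := by rw [hNbig, hNt, hMdef]; exact levelNbig_eq hSig'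
  have hNt1 : Nt ≠ 1 := by
    intro h
    have h1 : N ∣ Nt := by rw [hNt]; exact dvd_mul_right _ _
    rw [h] at h1
    exact hN1 (Nat.dvd_one.mp h1)
  obtain ⟨Sbig, hSbigdef⟩ : ∃ Sbig : Finset ℕ, Sbig = S ∪ Finset.univ.image Q := ⟨_, rfl⟩
  have hSbig : ∀ ℓ : ℕ, ℓ.Prime → ℓ ∣ Nbig → ℓ ∈ Sbig := fun ℓ hℓ h => by
    rw [hNbig', hNt, hMdef] at h
    rw [hSbigdef]
    exact mem_Sbig_of_dvd hS hSig' hQp hℓ h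
  have hSbigSet : ((Sbig : Finset ℕ) : Set ℕ) = badSet p N ∪ Set.range Q := by
    ext ℓ
    rw [hSbigdef, Finset.mem_coe, Finset.mem_union, Finset.mem_image]
    constructor
    · rintro (h | ⟨k, -, hk⟩)
      · exact Or.inl ((hSbad ℓ).mp h)
      · exact Or.inr ⟨k, hk⟩
    · rintro (h | ⟨k, hk⟩)
      · exact Or.inl ((hSbad ℓ).mpr h)
      · exact Or.inr ⟨k, Finset.mem_univ k, hk⟩
  have hQSig : ∀ k, Q k ∉ Sig := fun k h => hQS' k ((hS _).mpr ⟨hQp k, Or.inr (hSig' _ h).2⟩)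
  -- the group data
  obtain ⟨π, σ, uQ, uS, δS, ψ₂, hπs, hσ2, hπ1, hpG, huQ, huS, hG1, hG2, hG3, hψζ, hψpow⟩ :=
    grpDataStatement (𝒪 := 𝒪) p hp2 ζ hζ.pow_eq_one Sig
      (fun v hv => ⟨(hSig v hv).1, (hSig v hv).2.2⟩)
      r n Q hQinj hQp hQSig hQn Nt M hMdef hM hcop
  -- the constants at `Q`
  have hroot : ∀ k, ∃ a : 𝒪, (a ^ 2 - c ⟨Q k, hQp k⟩ * a + (Q k : 𝒪) ∈ maximalIdeal 𝒪) ∧
      IsUnit (2 * a - c ⟨Q k, hQp k⟩) ∧ IsUnit (a ^ 2 - 1) := by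
    intro k
    obtain ⟨α, β, hαβ, hsum, hprod⟩ := hQr k (hQp k)
    obtain ⟨a, rfl⟩ := residue_surjective α
    have hQ1' : (Q k : ResidueField 𝒪) = 1 := residue_natCast_eq_one (hQp k).pos (hQ1 k) hpO
    refine ⟨a, ?_, ?_, ?_⟩
    · rw [← residue_eq_zero_iff]
      simp only [map_add, map_sub, map_mul, map_pow, map_natCast]
      rw [← hsum, ← hprod]
      ring
    · rw [← residue_ne_zero_iff_isUnit]
      simp only [map_sub, map_mul, map_ofNat]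
      rw [← hsum]
      intro h
      apply hαβ
      linear_combination h
    · rw [← residue_ne_zero_iff_isUnit]
      simp only [map_sub, map_pow, map_one]
      intro h
      apply hαβ
      have ha0 : residue 𝒪 a ≠ 0 := by
        intro h0
        rw [h0, zero_mul, hQ1'] at hprod
        exact zero_ne_one hprod
      apply mul_left_cancel₀ ha0
      rw [hprod, hQ1']
      linear_combination h
  choose a ha1 ha2 ha3 using hroot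
  obtain ⟨c', hc'def⟩ : ∃ c' : Nat.Primes → 𝒪,
      c' = fun ℓ : Nat.Primes => if h : ∃ k, Q k = (ℓ : ℕ) then a h.choose else c ℓ :=
    ⟨_, rfl⟩
  have hc'Q : ∀ k, c' ⟨Q k, hQp k⟩ = a k := by
    intro k
    have h : ∃ k', Q k' = ((⟨Q k, hQp k⟩ : Nat.Primes) : ℕ) := ⟨k, rfl⟩
    rw [hc'def]
    show (if h : ∃ k', Q k' = ((⟨Q k, hQp k⟩ : Nat.Primes) : ℕ) then a h.choose else _) = _
    rw [dif_pos h]
    exact congrArg a (hQinj h.choose_spec)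
  have hc'c : ∀ ℓ : Nat.Primes, (∀ k, Q k ≠ (ℓ : ℕ)) → c' ℓ = c ℓ := fun ℓ hℓ => by
    rw [hc'def]
    exact dif_neg (fun ⟨k, hk⟩ => hℓ k hk)
  -- [T3-iter]
  have hQunit : ∀ k, IsUnit (Q k : 𝒪) := fun k =>
    isUnit_natCast_of_prime_ne hp (hQp k) (ne_of_notMem hS (hQp k) (hQS' k)) hpO
  obtain ⟨φ, hφ⟩ := t3IterStatement (𝒪 := 𝒪) N r Q hQinj hQp hQN hQunit P
    (fun k => hP (hQS k)) c c' a ha1 ha2 ha3 hc'Q hc'c Nt hNt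
  -- the auxiliary prime `ℓ₀`
  obtain ⟨ℓ₀, hℓ₀S, hℓ₀B, hℓ₀1, hℓ₀c⟩ :=
    hNE Nt (Nat.pos_of_ne_zero (NeZero.ne Nt)) (Finset.univ.image Q)
  have hℓ₀Q : ∀ k, Q k ≠ (ℓ₀ : ℕ) := fun k h =>
    hℓ₀B (Finset.mem_image.mpr ⟨k, Finset.mem_univ k, h⟩)
  have hℓ₀Nt : ¬ (ℓ₀ : ℕ) ∣ Nt := by
    rw [hNt]
    intro h
    rcases (Nat.Prime.dvd_mul ℓ₀.2).mp h with h | h
    · exact hℓ₀S ⟨ℓ₀.2, Or.inr h⟩
    · obtain ⟨k, -, hk⟩ := (Prime.dvd_finsetProd_iff ℓ₀.2.prime _).mp h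
      exact hℓ₀Q k ((Nat.prime_dvd_prime_iff_eq ℓ₀.2 (hQp k)).mp hk).symm
  let i₀ : ↥P := ⟨ℓ₀, hP hℓ₀S⟩
  have hunit : IsUnit (c' ((i₀ : ↥P) : Nat.Primes) -
      ((((((i₀ : ↥P) : Nat.Primes) : ℕ) : 𝒪)) + 1)) := by
    show IsUnit (c' ℓ₀ - (((ℓ₀ : ℕ) : 𝒪) + 1))
    rw [hc'c _ hℓ₀Q]
    by_contra hu
    exact hℓ₀c ((mem_maximalIdeal _).mpr hu)
  -- the module `H`
  have hL := liftsCocycles_chiOf Nt M hM π 𝒪 hp hp2 hpO (fun h => by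
    obtain ⟨r₀, h1, h2, h3'⟩ := h3 h
    exact ⟨r₀, h1, h2.trans (by rw [hNt]; exact dvd_mul_right _ _), h3'⟩)
  have hTS := twoStage_MM Nt M hM π hπs 𝒪
    (fun ℓ : ↥P => (ℓ : Nat.Primes)) hNt1 hπ1
    (fun ℓ : ↥P => c' ℓ) i₀ hℓ₀Nt hℓ₀1 hunit
  have hfree := free_primary_MM_odd Nt M hM π hπs 𝒪
    (fun ℓ : ↥P => (ℓ : Nat.Primes)) hp hpO hL hpG hNt1 hπ1
    (fun ℓ : ↥P => c' ℓ) i₀ hℓ₀Nt hℓ₀1 hunit
  haveI : IsNoetherian (MonoidAlgebra 𝒪 (TWGrp p Sig.card × TWGrp (p ^ n) r)) (MM Nt M hM π 𝒪) :=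
    isNoetherian_of_isNoetherianRing_of_finite _ _
  haveI : Module.Finite (MonoidAlgebra 𝒪 (TWGrp p Sig.card × TWGrp (p ^ n) r))
      (HH Nt M hM π 𝒪 (fun ℓ : ↥P => (ℓ : Nat.Primes)) (fun ℓ : ↥P => c' ℓ)) :=
    Module.Finite.of_injective (primaryPartR _ _).subtype Subtype.val_injective
  haveI := hfree
  let b' := Module.finBasis (MonoidAlgebra 𝒪 (TWGrp p Sig.card × TWGrp (p ^ n) r))
    (HH Nt M hM π 𝒪 (fun ℓ : ↥P => (ℓ : Nat.Primes)) (fun ℓ : ↥P => c' ℓ))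
  -- the control map
  obtain ⟨κ₁, hκ₁s, hκ₁k, hκ₁T, -⟩ := exists_ctl_zeroL Nt M hM π hπs 𝒪
    (fun ℓ : ↥P => (ℓ : Nat.Primes)) (fun ℓ : ↥P => c' ℓ) hL hNt1 hπ1 i₀ hℓ₀Nt hℓ₀1 hunit
  let κ : HH Nt M hM π 𝒪 (fun ℓ : ↥P => (ℓ : Nat.Primes)) (fun ℓ : ↥P => c' ℓ) →ₗ[𝒪]
      ↥(lvlModP 𝒪 P N c) := φ.symm.toLinearMap ∘ₗ κ₁
  have hκs : Function.Surjective κ := φ.symm.surjective.comp hκ₁s
  have hκk : ∀ x, κ x = 0 ↔ x ∈ augIdeal 𝒪 (TWGrp p Sig.card × TWGrp (p ^ n) r) ⊤ •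
      (⊤ : Submodule (MonoidAlgebra 𝒪 (TWGrp p Sig.card × TWGrp (p ^ n) r))
        (HH Nt M hM π 𝒪 (fun ℓ : ↥P => (ℓ : Nat.Primes)) (fun ℓ : ↥P => c' ℓ))) := fun x => by
    show φ.symm (κ₁ x) = 0 ↔ _
    rw [φ.symm.map_eq_zero_iff]
    exact hκ₁k x
  have hd : Module.finrank 𝒪 ↥(lvlModP 𝒪 P N c) =
      Module.finrank (MonoidAlgebra 𝒪 (TWGrp p Sig.card × TWGrp (p ^ n) r))
        (HH Nt M hM π 𝒪 (fun ℓ : ↥P => (ℓ : Nat.Primes)) (fun ℓ : ↥P => c' ℓ)) :=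
    finrank_eq_of_ctl (M0 := ↥(lvlModP 𝒪 P N c)) b' κ hκs hκk
  rw [hd]
  -- the index map
  have hPmem : ∀ ℓ : Nat.Primes, (ℓ : ℕ) ∉ Sbig → ℓ ∈ P := fun ℓ h =>
    hP (fun hS' => h (by
      rw [hSbigdef]
      exact Finset.mem_union_left _ ((hSbad _).mpr hS')))
  let idx : ∀ ℓ : Nat.Primes, (ℓ : ℕ) ∉ Sbig → ↥P := fun ℓ h => ⟨ℓ, hPmem ℓ h⟩
  have hidx : ∀ (ℓ : Nat.Primes) (h : (ℓ : ℕ) ∉ Sbig),
      ((idx ℓ h : ↥P) : Nat.Primes) = ℓ := fun _ _ => rfl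
  have hnotQ : ∀ {ℓ : ℕ}, ℓ ∉ Sbig → ∀ k, Q k ≠ ℓ := by
    intro ℓ h k hk
    apply h
    rw [hSbigdef]
    exact Finset.mem_union_right _ (Finset.mem_image.mpr ⟨k, Finset.mem_univ k, hk⟩)
  have hδ := twGen_bijective (p ^ n) r
  have hδpow := twGen_pow_card (p ^ n) r
  have hκT : ∀ ℓ : Nat.Primes, (ℓ : ℕ) ∉ badSet p N ∪ Set.range Q →
      ∀ x : HH Nt M hM π 𝒪 (fun ℓ : ↥P => (ℓ : Nat.Primes)) (fun ℓ : ↥P => c' ℓ),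
      ((κ (TtH Nt M hM π σ hπs 𝒪 (fun ℓ : ↥P => (ℓ : Nat.Primes)) (fun ℓ : ↥P => c' ℓ) hTS
        Sbig idx ℓ x) : ↥(lvlModP 𝒪 P N c)) : ↥(parabolicHoms 𝒪 (Gamma0 N) 𝒪)) =
        GR.heckeParP N ℓ 𝒪 𝒪 ((κ x : ↥(lvlModP 𝒪 P N c)) : ↥(parabolicHoms 𝒪 (Gamma0 N) 𝒪)) := by
    intro ℓ hℓ x
    have hℓb : (ℓ : ℕ) ∉ Sbig := by
      intro h
      apply hℓ
      rw [← hSbigSet]
      exact Finset.mem_coe.2 h
    rw [TtH_of_notMem _ _ _ _ _ _ _ _ _ _ _ _ hℓb, Module.End.mul_apply, smulEnd_apply]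
    have h1 := ctl_smul (Δ := TWGrp p Sig.card × TWGrp (p ^ n) r)
      (H := HH Nt M hM π 𝒪 (fun ℓ : ↥P => (ℓ : Nat.Primes)) (fun ℓ : ↥P => c' ℓ))
      (M0 := ↥(primaryPart (fun ℓ : ↥P => GR.heckeParP Nt (ℓ : Nat.Primes) 𝒪 𝒪)
        (fun ℓ : ↥P => c' ℓ))) κ₁ hκ₁k
      (MonoidAlgebra.of 𝒪 (TWGrp p Sig.card × TWGrp (p ^ n) r) (sigAt M σ ℓ)⁻¹)
      (Top Nt M hM π hπs 𝒪 (fun ℓ : ↥P => (ℓ : Nat.Primes)) (fun ℓ : ↥P => c' ℓ) hTS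
        (idx ℓ hℓb) x)
    rw [augHom_of, one_smul] at h1
    show ((φ.symm (κ₁ _) : ↥(lvlModP 𝒪 P N c)) : ↥(parabolicHoms 𝒪 (Gamma0 N) 𝒪)) =
      GR.heckeParP N ℓ 𝒪 𝒪 ((φ.symm (κ₁ x) : ↥(lvlModP 𝒪 P N c)) :
        ↥(parabolicHoms 𝒪 (Gamma0 N) 𝒪))
    rw [h1]
    have hA := hκ₁T (idx ℓ hℓb) x (Top Nt M hM π hπs 𝒪 (fun ℓ : ↥P => (ℓ : Nat.Primes))
      (fun ℓ : ↥P => c' ℓ) hTS (idx ℓ hℓb) x) rfl
    have hmem := heckeParP_mem_lvlModP P N c ℓ (φ.symm (κ₁ x)).2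
    have hB := hφ ℓ (hnotQ hℓb) (φ.symm (κ₁ x)) ⟨_, hmem⟩ rfl
    rw [φ.apply_symm_apply] at hB
    have hC : φ ⟨_, hmem⟩ = κ₁ (Top Nt M hM π hπs 𝒪 (fun ℓ : ↥P => (ℓ : Nat.Primes))
        (fun ℓ : ↥P => c' ℓ) hTS (idx ℓ hℓb) x) := Subtype.ext (hB.trans hA.symm)
    rw [← hC, φ.symm_apply_apply]
  -- the character `ψ₂`
  have hψ₂ : ∀ δ₁ : TWGrp p Sig.card, ∃ c₁ : 𝒪, ((ψ₂ δ₁ : 𝒪ˣ) : 𝒪) - 1 = lam * c₁ := by
    intro δ₁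
    obtain ⟨j, hj⟩ := hψpow δ₁
    rw [hj]
    exact exists_sub_one_eq_mul hpO hζ.pow_eq_one hlam j
  -- the constants
  have hc₀ : ∀ (ℓ : Nat.Primes) (hℓ : (ℓ : ℕ) ∉ Sbig),
      c ℓ - (fun ℓ : ↥P => c' ℓ) (idx ℓ hℓ) ∈ maximalIdeal 𝒪 := by
    intro ℓ hℓ
    show c ℓ - c' ℓ ∈ _
    rw [hc'c ℓ (hnotQ hℓ), sub_self]
    exact zero_mem _
  have hocc₁ := sideX_occX Nt M hM π σ hπs 𝒪
    (fun ℓ : ↥P => (ℓ : Nat.Primes)) (fun ℓ : ↥P => c' ℓ) hTS Sbig idx hidx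
    (1 : TWGrp p Sig.card →* 𝒪ˣ) (twGen (p ^ n) r) hδ hδpow b' 1 Sig uQ uS δS hG1 hG2 hG3
    (fun _ _ => rfl) hp2 hpO hpG Nbig hMsq hcop hNbig' hNt1 hσ2 hSbig lam hlam c hc₀
    (badSet p N ∪ Set.range Q) hSbigSet
  have hocc₂ := sideX_occX Nt M hM π σ hπs 𝒪
    (fun ℓ : ↥P => (ℓ : Nat.Primes)) (fun ℓ : ↥P => c' ℓ) hTS Sbig idx hidx
    ψ₂ (twGen (p ^ n) r) hδ hδpow b' ζ Sig uQ uS δS hG1 hG2 hG3
    hψζ hp2 hpO hpG Nbig hMsq hcop hNbig' hNt1 hσ2 hSbig lam hlam c hc₀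
    (badSet p N ∪ Set.range Q) hSbigSet
  exact nonempty_twModLevelX p lam ζ c P Sig r _ n Q N Nt Nbig ψ₂ hψ₂ _ _
    (twGen (p ^ n) r) hδ hδpow b' uQ huQ uS huS hocc₁ hocc₂ κ hκs hκk hκT

/-- **[TWMOD-LX]: the module side of the Taylor–Wiles construction for Ihara avoidance.** -/
theorem twModXStatement : TWModXStatement := by
  intro 𝒪 _ _ _ _ _ _ p _ hp2 hpO ζ hζ lam hlam N _ hNsq hN1 P hP c hNE h3 Sig hSig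
  refine ⟨Module.finrank 𝒪 ↥(lvlModP 𝒪 P N c), ⟨(lvlModP_free_finite P N c).1,
    (lvlModP_free_finite P N c).2, rfl⟩, ?_⟩
  intro r n Q hQinj hQp hQS hQn hQ1 hQr Nt Nbig _ _ hNt hNbig
  exact nonempty_twModLevelX_main p hp2 hpO ζ hζ lam hlam N hNsq hN1 P hP c hNE h3 Sig hSig r n Q
    hQinj hQp hQS hQn hQ1 hQr Nt Nbig hNt hNbig

end FinalX

end Fermat.Agent.ML
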