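/-
PROJECT ML (S59) — [REPT-X] (helper1), CLOSED FORM:
**`Fermat.Agent.ML.REPTX.twProducerMainStatement : TWProducerMainStatement`** (helper9's literal of
`ML/IFACE_helper9_IA`), from helper2's `twModXStatement` and (KEY-H) at all odd primes
(`RB.WIRE.thetaKillsJ1_closed`, `RB.thetaKillsJ1_three_closed` through `ML/KEYH_lead_Odd`).
-/
import Mathlib
import Fermat.Agent.ML.REPTX_helper1_Main
import Fermat.Agent.ML.TWMODX_helper2_Final
import Fermat.Agent.RB.WIRE_helper9_Leaves
import Fermat.Agent.RB.P3_helper5_Desc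

set_option autoImplicit false

namespace Fermat.Agent.ML.REPTX

open Fermat.Agent.RB

/-- **(KEY-H), geometric form, at every odd prime.** -/
theorem thetaKillsJ1Odd_all (M : ℕ) [NeZero M] (hM : 5 ≤ M) (p : ℕ) [Fact p.Prime] :
    ThetaKillsJ1Odd M p :=
  thetaKillsJ1Odd_of_rb_of_three M p (Fermat.Agent.RB.WIRE.thetaKillsJ1_closed M hM p)
    (fun _ => Fermat.Agent.RB.thetaKillsJ1_three_closed M hM)

/-- **[TW-PRODUCERS-E], main case** (modes `flat` and `tres`). -/
theorem twProducerMainStatement : TWProducerMainStatement :=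
  twProducerMainStatement_of twModXStatement fun M _ hM p _ => thetaKillsJ1Odd_all M hM p

end Fermat.Agent.ML.REPTX
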