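/-
S59 / AT-P — helper5 — **[ATP-B], part 2: saturation on the two sheets with extra factors.**

Extension of `NP/NEWBASE_helper7_Sat.SSModel.split_levelN`: in the splitting
`f ^ (p ^ k) = c · u · ∏ vs` besides the constant `c` and the inertia coboundary `u` there is a list
`vs` of factors each of which is, along BOTH sheets, congruent modulo the maximal ideal to a
`p ^ (k + 1)`-th power of a unit of the sheet (the Frobenius factors `(σ̄ - 1)(σ̄² - 1) g₀` of AT-P,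
by the NORM step).  Conclusion unchanged: `f` has the same order along `W_∞` and `W_0` and depth
`≥ 1` along both.
-/
import Mathlib
import Fermat.Agent.NP.NEWBASE_helper7_Sat

set_option autoImplicit false
set_option linter.unusedSectionVars false
set_option linter.unusedVariables false
set_option linter.style.haveILetI false

open IsLocalRing

namespace Fermat.Agent.ML

open Fermat.Agent.SS Fermat.Agent.JA Fermat.Agent.NP

section SheetLevel

variable {F : Type*} [Field F] {p : ℕ} {B : DepthBase F p} (S : Sheet B)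

/-- `v` is, modulo `π`, the `m`-th power of a unit of the sheet (times `1`). -/
def IsPowRes (m : ℕ) (v : F) : Prop :=
  ∃ γ : F, IsUnitIn S.W γ ∧ ∃ s ∈ S.W, v = γ ^ m * (1 + B.π ^ 1 * s)

variable {S}

theorem IsPowRes.isUnitIn {m : ℕ} {v : F} (h : IsPowRes S m v) : IsUnitIn S.W v := by
  obtain ⟨γ, hγ, s, hs, rfl⟩ := h
  exact (hγ.pow m).mul (S.isUnitIn_one_add_pow_mul le_rfl hs)

/-- a product of `m`-th powers modulo `π`. -/
theorem exists_prod_eq_of_isPowRes (m : ℕ) (vs : List F) (h : ∀ v ∈ vs, IsPowRes S m v) :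
    ∃ Γ w : F, IsUnitIn S.W Γ ∧ S.IsConstRes w ∧ IsUnitIn S.W w ∧ vs.prod = Γ ^ m * w := by
  induction vs with
  | nil =>
    refine ⟨1, 1, ⟨S.W.one_mem, by rw [inv_one]; exact S.W.one_mem, one_ne_zero⟩,
      S.isConstRes_one, ⟨S.W.one_mem, by rw [inv_one]; exact S.W.one_mem, one_ne_zero⟩, ?_⟩
    simp
  | cons v vs ih =>
    obtain ⟨Γ, w, hΓ, hw, hwU, e⟩ := ih fun x hx => h x (List.mem_cons_of_mem _ hx)
    obtain ⟨γ, hγ, s, hs, rfl⟩ := h v List.mem_cons_self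
    refine ⟨γ * Γ, (1 + B.π ^ 1 * s) * w, hγ.mul hΓ, ?_, ?_, ?_⟩
    · have h1 : S.IsConstRes (1 + B.π ^ 1 * s) := ⟨1, B.K₁.one_mem, s, hs, one_ne_zero, by ring⟩
      exact h1.mul hw
    · exact (S.isUnitIn_one_add_pow_mul le_rfl hs).mul hwU
    · rw [List.prod_cons, e]
      ring

/-- **saturation with a power factor**: `f ^ (p ^ k) = c u Γ ^ (p ^ (k+1)) w`, `c` a non-zero
constant, `u`, `w` constants modulo `π` ⇒ `f` has depth `≥ 1`. -/
theorem depthGE_one_of_split_pow (hp : p ≠ 0) {f : F} {k : ℕ} {c u Γ w : F} (hc : c ∈ B.K₁)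
    (hc0 : c ≠ 0) (hu : S.IsConstRes u) (hΓ : Γ ≠ 0) (hw : S.IsConstRes w)
    (e : f ^ p ^ k = c * u * (Γ ^ p ^ (k + 1) * w)) : S.DepthGE f 1 := by
  have h1 : S.IsConstRes ((f / Γ ^ p) ^ p ^ k) := by
    have e' : (f / Γ ^ p) ^ p ^ k = c * u * w := by
      rw [div_pow, e, ← pow_mul, ← pow_succ']
      have := pow_ne_zero (p ^ (k + 1)) hΓ
      field_simp
    rw [e']
    exact ((S.isConstRes_const hc hc0).mul hu).mul hw
  obtain ⟨c', hc', s, hs, hc'0, e2⟩ := h1.of_pow_p_pow hp k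
  refine S.depthGE_iff.mpr ⟨c', hc', Γ, s, hc'0, hΓ, hs, ?_⟩
  have := pow_ne_zero p hΓ
  rw [div_eq_iff this] at e2
  rw [e2]
  ring

end SheetLevel

section Core

variable {R : Type*} [CommRing R] [IsDomain R] [IsDiscreteValuationRing R] [CharZero R]
  {K₁ : Type*} [Field K₁] [Algebra R K₁] [IsFractionRing R K₁]
  {KM : Type*} [Field KM] [Algebra K₁ KM] [Algebra R KM] [IsScalarTower R K₁ KM]
  {EM : Type*} [Field EM] [Algebra KM EM] [Algebra K₁ EM] [IsScalarTower K₁ KM EM] [Algebra R EM]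
  [IsScalarTower R KM EM]
  {KN : Type*} [Field KN] [Algebra K₁ KN] [Algebra R KN] [IsScalarTower R K₁ KN]
  {EN : Type*} [Field EN] [Algebra KN EN] [Algebra K₁ EN] [IsScalarTower K₁ KN EN] [Algebra R EN]
  [IsScalarTower R KN EN] [FiniteDimensional KN EN]
  {π : R} {p n : ℕ} {S : Finset R} {t : KM} {jM : EM} {j : KN} {A B : EM →+* EN}
  {VM : ValuationSubring EM} {Winf W0 : ValuationSubring EN}
  [IsAlgClosed (IsLocalRing.ResidueField R)]

/-- the valuation form of `IsPowRes` on a valuation subring in which `val < 1 ⇒ π ∣`. -/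
theorem isPowRes_of_val {F : Type*} [Field F] {p : ℕ} {B : DepthBase F p} (S : Sheet B)
    (W : ValuationSubring F) (hW : S.W = W.toSubring)
    (hdiv : ∀ y : F, W.valuation y < 1 → y * B.π⁻¹ ∈ W) {m : ℕ} {v γ : F}
    (hγ : W.valuation γ = 1) (hv : W.valuation (v - γ ^ m) < 1) : IsPowRes S m v := by
  have hγU : IsUnitIn S.W γ := by rw [hW]; exact (isUnitIn_toSubring_iff W).mpr hγ
  have hγ0 : γ ≠ 0 := hγU.2.2
  have hγm0 : γ ^ m ≠ 0 := pow_ne_zero m hγ0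
  have h1 : W.valuation ((v - γ ^ m) / γ ^ m) < 1 := by
    rw [map_div₀, map_pow, hγ, one_pow, div_one]
    exact hv
  refine ⟨γ, hγU, (v - γ ^ m) / γ ^ m * B.π⁻¹, ?_, ?_⟩
  · rw [hW]
    exact hdiv _ h1
  · have := B.π_ne_zero
    field_simp
    ring

set_option maxHeartbeats 800000 in
/-- **the saturation lemma on the two sheets of the semistable level of an `SSModel`, with extra
factors which are `p ^ (k+1)`-th powers modulo the maximal ideals of both sheets.** -/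
theorem SSModel.split_levelN_es (h : SSModel K₁ π p n S t jM j A B VM Winf W0)
    {e₁ : ℕ} (he₁ : 0 < e₁) {ε : Rˣ} (hpe : (p : R) = ε * π ^ e₁) (G : Set (EN →+* EN))
    (hG : ∀ σ ∈ G, (∀ c : K₁, ∃ c' : K₁, σ (algebraMap K₁ EN c) = algebraMap K₁ EN c') ∧
      (∃ c₀ : Rˣ, σ (algebraMap R EN π) = algebraMap R EN ((c₀ : R) * π)) ∧
      (∀ y ∈ Winf, Winf.valuation (σ y - y) < 1) ∧ (∀ y ∈ W0, W0.valuation (σ y - y) < 1))
    {f : EN} (hf : f ≠ 0) {k : ℕ} {c : K₁} (hc : c ≠ 0) {u : ENˣ}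
    (hu : u ∈ Subgroup.closure
      {u : ENˣ | ∃ (g : ENˣ) (σ : EN →+* EN), σ ∈ G ∧ (u : EN) = σ (g : EN) / (g : EN)})
    (vs : List EN)
    (hvs : ∀ v ∈ vs,
      (∃ γ : EN, Winf.valuation γ = 1 ∧ Winf.valuation (v - γ ^ p ^ (k + 1)) < 1) ∧
      (∃ γ : EN, W0.valuation γ = 1 ∧ W0.valuation (v - γ ^ p ^ (k + 1)) < 1))
    (e : f ^ p ^ k = algebraMap K₁ EN c * u * vs.prod) :
    ∃ a : ℤ, Winf.valuation (f * (algebraMap R EN π ^ a)⁻¹) = 1 ∧
      W0.valuation (f * (algebraMap R EN π ^ a)⁻¹) = 1 ∧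
      (∃ c : K₁, c ≠ 0 ∧ ValDepth π p Winf 1 f c) ∧
      (∃ c : K₁, c ≠ 0 ∧ ValDepth π p W0 1 f c) := by
  have hp := h.q_prime
  have hπ := h.geo.irreducible
  set BN := hostDepthBase K₁ KN EN hπ hp he₁ hpe with hBN
  set Si : Sheet BN := SSModel.sheetInf hp he₁ hpe h hπ with hSi
  set Sz : Sheet BN := SSModel.sheetZero hp he₁ hpe h hπ with hSz
  have hπ0 := SSModel_pi_ne_zero h
  -- the hypotheses on `G` in sheet form
  have hK : ∀ σ ∈ G, ∀ c ∈ BN.K₁, σ c ∈ BN.K₁ := by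
    rintro σ hσ c ⟨c', rfl⟩
    obtain ⟨c'', e⟩ := (hG σ hσ).1 c'
    exact ⟨c'', e.symm⟩
  have hπG : ∀ σ ∈ G, ∃ c₀ ∈ BN.R₁, c₀⁻¹ ∈ BN.R₁ ∧ σ BN.π = c₀ * BN.π := by
    intro σ hσ
    obtain ⟨c₀, e⟩ := (hG σ hσ).2.1
    refine ⟨algebraMap R EN (c₀ : R), ⟨_, rfl⟩, ⟨((c₀⁻¹ : Rˣ) : R), ?_⟩, ?_⟩
    · show algebraMap R EN ((c₀⁻¹ : Rˣ) : R) = (algebraMap R EN (c₀ : R))⁻¹
      apply eq_inv_of_mul_eq_one_left
      rw [← map_mul, ← Units.val_mul, inv_mul_cancel, Units.val_one, map_one]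
    · rw [hostDepthBase_π, e, map_mul]
  have hWi : ∀ σ ∈ G, ∀ y ∈ Si.W, PiDvd BN.π Si.W 1 (σ y - y) := by
    intro σ hσ y hy
    have hy' : y ∈ Winf := hy
    refine ⟨(σ y - y) * (algebraMap R EN π)⁻¹, h.two.e_inf _ ((hG σ hσ).2.2.1 y hy'), ?_⟩
    show σ y - y = algebraMap R EN π ^ 1 * ((σ y - y) * (algebraMap R EN π)⁻¹)
    field_simp
  have hWz : ∀ σ ∈ G, ∀ y ∈ Sz.W, PiDvd BN.π Sz.W 1 (σ y - y) := by
    intro σ hσ y hy
    have hy' : y ∈ W0 := hy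
    refine ⟨(σ y - y) * (algebraMap R EN π)⁻¹, h.two.e_zero _ ((hG σ hσ).2.2.2 y hy'), ?_⟩
    show σ y - y = algebraMap R EN π ^ 1 * ((σ y - y) * (algebraMap R EN π)⁻¹)
    field_simp
  -- constants modulo `π` and units along both sheets
  have hCi := Si.isConstRes_of_mem_closure G (fun σ hσ => ⟨hK σ hσ, hWi σ hσ⟩) hu
  have hCz := Sz.isConstRes_of_mem_closure G (fun σ hσ => ⟨hK σ hσ, hWz σ hσ⟩) hu
  have hUi := Si.isUnitIn_of_mem_closure G (fun σ hσ => ⟨hπG σ hσ, hWi σ hσ⟩) hu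
  have hUz := Sz.isUnitIn_of_mem_closure G (fun σ hσ => ⟨hπG σ hσ, hWz σ hσ⟩) hu
  have hcK : algebraMap K₁ EN c ∈ BN.K₁ := ⟨c, rfl⟩
  have hc0 : algebraMap K₁ EN c ≠ 0 := (map_ne_zero _).mpr hc
  -- the extra factors
  have hPi : ∀ v ∈ vs, IsPowRes Si (p ^ (k + 1)) v := by
    intro v hv
    obtain ⟨γ, hγ, hvγ⟩ := (hvs v hv).1
    exact isPowRes_of_val Si Winf rfl (fun y hy => h.two.e_inf y hy) hγ hvγ
  have hPz : ∀ v ∈ vs, IsPowRes Sz (p ^ (k + 1)) v := by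
    intro v hv
    obtain ⟨γ, hγ, hvγ⟩ := (hvs v hv).2
    exact isPowRes_of_val Sz W0 rfl (fun y hy => h.two.e_zero y hy) hγ hvγ
  obtain ⟨Γi, wi, hΓi, hwi, hwiU, ei⟩ := exists_prod_eq_of_isPowRes (p ^ (k + 1)) vs hPi
  obtain ⟨Γz, wz, hΓz, hwz, hwzU, ez⟩ := exists_prod_eq_of_isPowRes (p ^ (k + 1)) vs hPz
  -- depth `≥ 1`
  have hdi := depthGE_one_of_split_pow hp.ne_zero (S := Si) hcK hc0 hCi hΓi.2.2 hwi
    (by rw [e, ei])
  have hdz := depthGE_one_of_split_pow hp.ne_zero (S := Sz) hcK hc0 hCz hΓz.2.2 hwz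
    (by rw [e, ez])
  -- the orders
  obtain ⟨ai, hai⟩ := SSModel.exists_zpow_val_eq_one_inf h he₁ hpe hf
  obtain ⟨az, haz⟩ := SSModel.exists_zpow_val_eq_one_zero h he₁ hpe hf
  obtain ⟨nc, c₁, hc₁, hc₁', ec⟩ := BN.unif_const _ hcK hc0
  have hc₁0 : c₁ ≠ 0 := by
    rintro rfl
    rw [mul_zero] at ec
    exact hc0 ec
  have e' : f ^ p ^ k = BN.π ^ nc * c₁ * ((u : EN) * vs.prod) := by
    rw [e, ec]
    ring
  have hVi : IsUnitIn Si.W ((u : EN) * vs.prod) := by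
    rw [ei]
    exact hUi.mul ((hΓi.pow _).mul hwiU)
  have hVz : IsUnitIn Sz.W ((u : EN) * vs.prod) := by
    rw [ez]
    exact hUz.mul ((hΓz.pow _).mul hwzU)
  have h1 := Si.order_of_split ⟨hc₁, hc₁', hc₁0⟩ hVi e'
    ((isUnitIn_toSubring_iff Winf).mpr hai)
  have h2 := Sz.order_of_split ⟨hc₁, hc₁', hc₁0⟩ hVz e'
    ((isUnitIn_toSubring_iff W0).mpr haz)
  have haeq : ai = az := by
    have hpk : ((p ^ k : ℕ) : ℤ) ≠ 0 := by
      exact_mod_cast pow_ne_zero k hp.ne_zero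
    exact mul_right_cancel₀ hpk (h1.trans h2.symm)
  refine ⟨ai, hai, haeq ▸ haz, ?_, ?_⟩
  · exact (hostDepthBase_depthGE_iff hπ hp he₁ hpe Si Winf rfl).mp hdi
  · exact (hostDepthBase_depthGE_iff hπ hp he₁ hpe Sz W0 rfl).mp hdz

end Core

end Fermat.Agent.ML
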