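/-
S59 / AT-P — helper5 — **[ATP], part 1: abstract `Pic⁰` bookkeeping with two kinds of generators**
(extension of `NP/BASEP_helper2_Pic`; any function field `F / K` with a group `G` acting by
semilinear automorphisms).

`P n g` : "`g` is an admissible factor of level `n`" (a family of predicates stable under
`p ^ e`-th powers, which raise the level by `e`, and under inverses).  `cobClosureTwo ι p I P` is the
subgroup of `Pic⁰` generated by
* the `τ y - y`, `y` of `p`-power order, `τ ∈ I`  (as in `NP.cobClosure`), and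
* the classes `[D]` with `p ^ n · D = div g`, `P n g`.
A class `x` of this subgroup with `p x = 0` is `[D]`, `p · D = div f`,
`f ^ (p ^ k) = c · cobProd l · ∏ gs` with all `g ∈ gs` of level `k + 1` (`exists_split_rep_two`).

Application (AT-P): `P n g := g = σ̄ σ̄ g₀ / g₀`, `σ` a Frobenius lift, `g₀` with both degeneracy norms
`p ^ n`-th powers (new case); `P n g := g = σ̄ σ̄ g₀ · g₀ ^ p / T_p (σ̄ g₀)` (old case).
-/
import Mathlib
import Fermat.Agent.NP.BASEP_helper2_Pic

set_option autoImplicit false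
set_option linter.unusedSectionVars false
set_option linter.unusedVariables false
set_option linter.style.haveILetI false

open AlgebraicCurve

namespace Fermat.Agent.ML

open Fermat.Agent.SS Fermat.Agent.S35 Fermat.Agent.NP

section Family

variable {F : Type*} [Field F]

/-- a family of admissible factors: stable under `p ^ e`-th powers (raising the level by `e`) and
under inverses. -/
structure FactorFamily (p : ℕ) (P : ℕ → F → Prop) : Prop where
  ne_zero : ∀ (n : ℕ) (g : F), P n g → g ≠ 0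
  pow : ∀ (n e : ℕ) (g : F), P n g → P (n + e) (g ^ p ^ e)
  inv : ∀ (n : ℕ) (g : F), P n g → P n g⁻¹

theorem list_prod_map_pow (gs : List F) (m : ℕ) : (gs.map fun g => g ^ m).prod = gs.prod ^ m := by
  induction gs with
  | nil => simp
  | cons g gs ih => rw [List.map_cons, List.prod_cons, List.prod_cons, ih, mul_pow]

theorem list_prod_map_inv (gs : List F) : (gs.map fun g => g⁻¹).prod = gs.prod⁻¹ := by
  induction gs with
  | nil => simp
  | cons g gs ih => rw [List.map_cons, List.prod_cons, List.prod_cons, ih, mul_inv]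

theorem list_prod_ne_zero {gs : List F} (h : ∀ g ∈ gs, g ≠ 0) : gs.prod ≠ 0 := by
  induction gs with
  | nil => simp
  | cons g gs ih =>
    rw [List.prod_cons]
    exact mul_ne_zero (h g List.mem_cons_self) (ih fun x hx => h x (List.mem_cons_of_mem _ hx))

end Family

section Closure

variable {K F : Type*} [Field K] [Field F] [Algebra K F] {G : Type*} [Group G]
  (ι : G →* SemilinearAut K F)

/-- the subgroup generated by the `τ y - y` (`y` of `p`-power order, `τ ∈ I`) and by the classes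
`[D]` with `p ^ n · D = div g`, `g` an admissible factor of level `n`. -/
noncomputable def cobClosureTwo (p : ℕ) (I : Set G) (P : ℕ → F → Prop) : AddSubgroup (Pic0 K F) :=
  AddSubgroup.closure
    ({z : Pic0 K F | ∃ (y : Pic0 K F) (n : ℕ) (τ : G), p ^ n • y = 0 ∧ τ ∈ I ∧ z = ι τ • y - y} ∪
     {z : Pic0 K F | ∃ (n : ℕ) (D : Divisor.degZero (K := K) (F := F)) (g : F), P n g ∧
        IsDivOf g ((p ^ n) • (D : Divisor K F)) ∧ z = Pic0.mk D})

theorem smul_sub_mem_cobClosureTwo (p : ℕ) (I : Set G) (P : ℕ → F → Prop) (y : Pic0 K F) (n : ℕ)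
    (hy : p ^ n • y = 0) {τ : G} (hτ : τ ∈ I) : ι τ • y - y ∈ cobClosureTwo ι p I P :=
  AddSubgroup.subset_closure (Or.inl ⟨y, n, τ, hy, hτ, rfl⟩)

theorem mk_mem_cobClosureTwo (p : ℕ) (I : Set G) (P : ℕ → F → Prop) (n : ℕ)
    (D : Divisor.degZero (K := K) (F := F)) (g : F) (hg : P n g)
    (hd : IsDivOf g ((p ^ n) • (D : Divisor K F))) : Pic0.mk D ∈ cobClosureTwo ι p I P :=
  AddSubgroup.subset_closure (Or.inr ⟨n, D, g, hg, hd, rfl⟩)

/-- **closure bookkeeping**: a class in `cobClosureTwo` is represented by a divisor `D` with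
`p ^ n · D = div (cobProd l · ∏ gs)`, all `g ∈ gs` of level `n`. -/
theorem exists_rep_of_mem_cobClosureTwo (p : ℕ) (I : Set G) {P : ℕ → F → Prop}
    (hP : FactorFamily p P) (z : Pic0 K F) (hz : z ∈ cobClosureTwo ι p I P) :
    ∃ (n : ℕ) (D : Divisor.degZero (K := K) (F := F)) (l : List (G × F)) (gs : List F),
      IsCobList I l ∧ (∀ g ∈ gs, P n g) ∧ Pic0.mk D = z ∧
      IsDivOf (cobProd ι l * gs.prod) ((p ^ n) • (D : Divisor K F)) := by
  unfold cobClosureTwo at hz
  induction hz using AddSubgroup.closure_induction with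
  | mem z hz =>
    rcases hz with ⟨y, n, τ, hy, hτ, rfl⟩ | ⟨n, D, g, hg, hd, rfl⟩
    · obtain ⟨D, rfl⟩ := Pic0.mk_surjective y
      obtain ⟨h, hh⟩ := exists_isDivOf_of_nsmul_eq_zero D hy
      refine ⟨n, SemilinearAut.degZeroSMulHom (ι τ) D - D, [(τ, h)], [], ?_, ?_, rfl, ?_⟩
      · intro x hx
        rw [List.mem_singleton] at hx
        subst hx
        exact ⟨hτ, hh.1⟩
      · intro g hg
        simp at hg
      · rw [cobProd_cons, cobProd_nil, mul_one, List.prod_nil, mul_one]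
        refine ((hh.smul (ι τ)).div hh).congr ?_
        show ι τ • (p ^ n • (D : Divisor K F)) - p ^ n • (D : Divisor K F) =
          p ^ n • (ι τ • (D : Divisor K F) - (D : Divisor K F))
        rw [semilinear_smul_nsmul_divisor, smul_sub]
    · refine ⟨n, D, [], [g], isCobList_nil, ?_, rfl, ?_⟩
      · intro g' hg'
        rw [List.mem_singleton] at hg'
        subst hg'
        exact hg
      · rw [cobProd_nil, one_mul, List.prod_cons, List.prod_nil, mul_one]
        exact hd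
  | zero =>
    refine ⟨0, 0, [], [], isCobList_nil, ?_, rfl, ?_⟩
    · intro g hg
      simp at hg
    · rw [cobProd_nil, List.prod_nil, mul_one]
      refine isDivOf_one.congr ?_
      show (0 : Divisor K F) = p ^ 0 • (0 : Divisor K F)
      rw [smul_zero]
  | add z₁ z₂ _ _ ih₁ ih₂ =>
    obtain ⟨n₁, D₁, l₁, gs₁, hl₁, hg₁, rfl, hd₁⟩ := ih₁
    obtain ⟨n₂, D₂, l₂, gs₂, hl₂, hg₂, rfl, hd₂⟩ := ih₂
    refine ⟨n₁ + n₂, D₁ + D₂, (l₁.map fun x => (x.1, x.2 ^ p ^ n₂)) ++
      (l₂.map fun x => (x.1, x.2 ^ p ^ n₁)),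
      (gs₁.map fun g => g ^ p ^ n₂) ++ (gs₂.map fun g => g ^ p ^ n₁),
      (hl₁.map _ fun y hy => pow_ne_zero _ hy).append (hl₂.map _ fun y hy => pow_ne_zero _ hy),
      ?_, rfl, ?_⟩
    · intro g hg
      rcases List.mem_append.1 hg with h | h
      · obtain ⟨g₀, hg₀, rfl⟩ := List.mem_map.1 h
        exact hP.pow n₁ n₂ g₀ (hg₁ g₀ hg₀)
      · obtain ⟨g₀, hg₀, rfl⟩ := List.mem_map.1 h
        rw [add_comm n₁ n₂]
        exact hP.pow n₂ n₁ g₀ (hg₂ g₀ hg₀)
    · rw [cobProd_append, cobProd_map_pow, cobProd_map_pow, List.prod_append, list_prod_map_pow,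
        list_prod_map_pow]
      have e : cobProd ι l₁ ^ p ^ n₂ * cobProd ι l₂ ^ p ^ n₁ *
          (gs₁.prod ^ p ^ n₂ * gs₂.prod ^ p ^ n₁) =
          (cobProd ι l₁ * gs₁.prod) ^ p ^ n₂ * (cobProd ι l₂ * gs₂.prod) ^ p ^ n₁ := by ring
      rw [e]
      refine ((hd₁.pow (p ^ n₂)).mul' (hd₂.pow (p ^ n₁))).congr ?_
      show p ^ n₂ • (p ^ n₁ • (D₁ : Divisor K F)) + p ^ n₁ • (p ^ n₂ • (D₂ : Divisor K F)) =
        p ^ (n₁ + n₂) • ((D₁ : Divisor K F) + (D₂ : Divisor K F))
      rw [smul_add, ← mul_smul, ← mul_smul, pow_add, mul_comm (p ^ n₂) (p ^ n₁)]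
  | neg z _ ih =>
    obtain ⟨n, D, l, gs, hl, hg, rfl, hd⟩ := ih
    refine ⟨n, -D, l.map fun x => (x.1, x.2⁻¹), gs.map fun g => g⁻¹,
      hl.map _ fun y hy => inv_ne_zero hy, ?_, rfl, ?_⟩
    · intro g hg'
      obtain ⟨g₀, hg₀, rfl⟩ := List.mem_map.1 hg'
      exact hP.inv n g₀ (hg g₀ hg₀)
    · rw [cobProd_map_inv, list_prod_map_inv, ← mul_inv]
      refine hd.inv'.congr ?_
      show -(p ^ n • (D : Divisor K F)) = p ^ n • (-(D : Divisor K F))
      rw [smul_neg]

/-- **the split representative**: a class `x` of `cobClosureTwo` with `p x = 0` is `[D]` with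
`p · D = div f` and `f ^ (p ^ k) = c · cobProd l · ∏ gs`, all `g ∈ gs` of level `k + 1`. -/
theorem exists_split_rep_two
    (hconst : ∀ u : F, u ≠ 0 → (∀ v : Place K F, v.ord u = 0) → ∃ a : K, u = algebraMap K F a)
    (p : ℕ) (I : Set G) {P : ℕ → F → Prop} (hP : FactorFamily p P) (x : Pic0 K F)
    (hx : x ∈ cobClosureTwo ι p I P) (hpx : p • x = 0) :
    ∃ (D : Divisor.degZero (K := K) (F := F)) (f : F) (k : ℕ) (c : K) (l : List (G × F))
      (gs : List F),
      Pic0.mk D = x ∧ f ≠ 0 ∧ (∀ v : Place K F, v.ord f = (p : ℤ) * (D : Divisor K F) v) ∧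
      c ≠ 0 ∧ IsCobList I l ∧ (∀ g ∈ gs, P (k + 1) g) ∧
      f ^ p ^ k = algebraMap K F c * (cobProd ι l * gs.prod) := by
  obtain ⟨n, D, l, gs, hl, hg, rfl, hd⟩ := exists_rep_of_mem_cobClosureTwo ι p I hP x hx
  obtain ⟨f, hf⟩ := exists_isDivOf_of_nsmul_eq_zero D hpx
  have h1 : IsDivOf (f ^ p ^ n) (p ^ n • (p • (D : Divisor K F))) := hf.pow (p ^ n)
  have h2 : IsDivOf (cobProd ι (l.map fun x => (x.1, x.2 ^ p)) * (gs.map fun g => g ^ p).prod)
      (p ^ n • (p • (D : Divisor K F))) := by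
    rw [cobProd_map_pow, list_prod_map_pow, ← mul_pow]
    refine (hd.pow p).congr ?_
    rw [← mul_smul, ← mul_smul, mul_comm]
  obtain ⟨a, ha, hfa⟩ := h1.exists_const hconst h2
  refine ⟨D, f, n, a, l.map fun x => (x.1, x.2 ^ p), gs.map fun g => g ^ p, rfl, hf.1,
    fun v => ?_, ha, hl.map _ fun y hy => pow_ne_zero _ hy, ?_, hfa⟩
  · rw [← hf.2 v, Finsupp.smul_apply, nsmul_eq_mul]
  · intro g hg'
    obtain ⟨g₀, hg₀, rfl⟩ := List.mem_map.1 hg'
    have := hP.pow n 1 g₀ (hg g₀ hg₀)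
    rwa [pow_one] at this

end Closure

end Fermat.Agent.ML
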