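/-
S59 / AT-P — helper5 — **[ATP-B], part 4: the `Ω`-level Kummer form of (ES-NEW)** and
`esNewAt_of_newKummerES`.

`S := cobClosureTwo` = the subgroup of `J₀(M p)` generated by the `τ y - y` (`y` of `p`-power order,
`τ ∈ I_A`) and by the classes `(σ² - 1)(σ - 1) x` (`x` a `p`-new class of `p`-power order, `σ` a
Frobenius lift at `A`).  Clauses (a) and (f') of `EsNewAt` hold by construction; clause (c) is the
chain of NP33 `keyNewAt_of_newKummer` with the split representative `exists_split_rep_two`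
(`f ^ (p ^ k) = c · ∏ τ̄ h / h · ∏ (σ̄² - 1)(σ̄ - 1) g₀`, the `g₀` with both norms `p ^ (k+1)`-th
powers) and the Kummer form `NewKummerAtES`.
-/
import Mathlib
import Fermat.Agent.ML.ATP_helper5_Pic
import Fermat.Agent.ML.ATPB_helper5_NewBase
import Fermat.Agent.ML.IFACE_helper2_AtP
import Fermat.Agent.NP.BASEP_helper2_New
import Fermat.Agent.S35.T3B_helper4_Gen

set_option autoImplicit false
set_option linter.unusedSectionVars false
set_option linter.unusedVariables false
set_option linter.style.haveILetI false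
set_option synthInstance.maxHeartbeats 400000

open AlgebraicCurve ModularCurve

namespace Fermat.Agent.ML

open Fermat.Agent.SS Fermat.Agent.JA Fermat.Agent.X0N Fermat.Agent.GR Fermat.Agent.S35
  Fermat.Agent.FG Fermat.Agent.FF Fermat.Agent.NP

/-- `Ω = AlgebraicClosure ℚ`. -/
local notation "Ω" => AlgebraicClosure ℚ

/-- the absolute Galois group. -/
local notation "GQ" => (AlgebraicClosure ℚ ≃ₐ[ℚ] AlgebraicClosure ℚ)

section FrobSecond

variable {K F : Type*} [Field K] [Field F] [Algebra K F]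

theorem semilinear_smul_div (g : SemilinearAut K F) (a b : F) : g • (a / b) = g • a / g • b := by
  rw [div_eq_mul_inv, smul_mul', smul_inv'', ← div_eq_mul_inv]

theorem frobSecond_smul_pow (g : SemilinearAut K F) (f : F) (n : ℕ) :
    frobSecond (fun x : F => g • x) (f ^ n) = frobSecond (fun x : F => g • x) f ^ n := by
  unfold frobSecond
  simp only [smul_pow', semilinear_smul_div, div_pow]

theorem frobSecond_smul_inv (g : SemilinearAut K F) (f : F) :
    frobSecond (fun x : F => g • x) f⁻¹ = (frobSecond (fun x : F => g • x) f)⁻¹ := by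
  have key : ∀ x : F, g • x⁻¹ / x⁻¹ = (g • x / x)⁻¹ := fun x => by
    rw [smul_inv'', inv_div_inv, inv_div]
  show g • g • (g • f⁻¹ / f⁻¹) / (g • f⁻¹ / f⁻¹) = (g • g • (g • f / f) / (g • f / f))⁻¹
  rw [key f, smul_inv'', smul_inv'', inv_div_inv, inv_div]

theorem frobSecond_smul_ne_zero (g : SemilinearAut K F) {f : F} (hf : f ≠ 0) :
    frobSecond (fun x : F => g • x) f ≠ 0 := by
  unfold frobSecond
  have h1 : g • f ≠ 0 := by simpa using hf
  have h2 : g • f / f ≠ 0 := div_ne_zero h1 hf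
  have h3 : g • (g • f / f) ≠ 0 := by simpa using h2
  have h4 : g • g • (g • f / f) ≠ 0 := by simpa using h3
  exact div_ne_zero h4 h2

/-- the divisor of `frobSecond g f`. -/
theorem IsDivOf.frobSecond (g : SemilinearAut K F) {f : F} {D : Divisor K F} (h : IsDivOf f D) :
    IsDivOf (frobSecond (fun x : F => g • x) f) (g • g • (g • D - D) - (g • D - D)) := by
  have h1 : IsDivOf (g • f / f) (g • D - D) := (h.smul g).div h
  exact ((h1.smul g).smul g).div h1

theorem normAlong_pow {F' : Type*} [Field F'] [Algebra K F'] (φ : F →ₐ[K] F') (z : F') (n : ℕ) :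
    normAlong φ (z ^ n) = normAlong φ z ^ n := by
  unfold normAlong
  letI := algebraAlong φ
  exact map_pow _ z n

theorem normAlong_inv {F' : Type*} [Field F'] [Algebra K F'] (φ : F →ₐ[K] F') {z : F'}
    (hz : z ≠ 0) : normAlong φ z⁻¹ = (normAlong φ z)⁻¹ := by
  unfold normAlong
  letI := algebraAlong φ
  apply eq_inv_of_mul_eq_one_left
  rw [← map_mul, inv_mul_cancel₀ hz, map_one]

end FrobSecond

section Factor

variable (M p : ℕ) [NeZero M] [NeZero p] [NeZero (M * p)]

/-- **a Frobenius factor of level `n` over `Ω`**: `(σ̄² - 1)(σ̄ - 1) g₀`, `σ` a Frobenius lift at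
`A`, `g₀ ≠ 0` with both degeneracy norms `p ^ n`-th powers. -/
def IsFrobNewFactorBar (A : ValuationSubring Ω) (n : ℕ)
    (v : ↥(modularFunctionFieldBar (M * p))) : Prop :=
  ∃ (φ : GQ) (g₀ : ↥(modularFunctionFieldBar (M * p))) (hα hβ : ↥(modularFunctionFieldBar M)),
    A.IsFrobeniusAt φ p ∧ g₀ ≠ 0 ∧
    normAlong (heckeAlphaBar Ω M p) g₀ = hα ^ p ^ n ∧
    normAlong (heckeBetaBar Ω M p) g₀ = hβ ^ p ^ n ∧
    v = frobSecond (fun x : ↥(modularFunctionFieldBar (M * p)) =>
      arithmeticGalois (modularFunctionFieldFull (M * p)) φ • x) g₀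

theorem factorFamily_isFrobNewFactorBar (A : ValuationSubring Ω) :
    FactorFamily p (IsFrobNewFactorBar M p A) where
  ne_zero := by
    rintro n v ⟨φ, g₀, hα, hβ, hφ, hg₀, hNα, hNβ, rfl⟩
    exact frobSecond_smul_ne_zero _ hg₀
  pow := by
    rintro n e v ⟨φ, g₀, hα, hβ, hφ, hg₀, hNα, hNβ, rfl⟩
    refine ⟨φ, g₀ ^ p ^ e, hα, hβ, hφ, pow_ne_zero _ hg₀, ?_, ?_, ?_⟩
    · rw [normAlong_pow, hNα, ← pow_mul, ← pow_add]
    · rw [normAlong_pow, hNβ, ← pow_mul, ← pow_add]
    · rw [frobSecond_smul_pow]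
  inv := by
    rintro n v ⟨φ, g₀, hα, hβ, hφ, hg₀, hNα, hNβ, rfl⟩
    refine ⟨φ, g₀⁻¹, hα⁻¹, hβ⁻¹, hφ, inv_ne_zero hg₀, ?_, ?_, ?_⟩
    · rw [normAlong_inv _ hg₀, hNα, inv_pow]
    · rw [normAlong_inv _ hg₀, hNβ, inv_pow]
    · rw [frobSecond_smul_inv]

/-- the subgroup `S` of (ES-NEW). -/
noncomputable def esNewClosure (A : ValuationSubring Ω) : AddSubgroup (JZero (M * p)) :=
  cobClosureTwo (arithmeticGalois (modularFunctionFieldFull (M * p))) p
    ((A.inertiaSubgroupIn ℚ : Subgroup GQ) : Set GQ) (IsFrobNewFactorBar M p A)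

/-- **`f` is split over `Ω` by inertia coboundaries and Frobenius factors.** -/
def IsSplitBarES (A : ValuationSubring Ω) (f : ↥(modularFunctionFieldBar (M * p))) : Prop :=
  ∃ (k : ℕ) (c : Ω) (l : List (GQ × ↥(modularFunctionFieldBar (M * p))))
    (gs : List ↥(modularFunctionFieldBar (M * p))), c ≠ 0 ∧
    IsCobList ((A.inertiaSubgroupIn ℚ : Subgroup GQ) : Set GQ) l ∧
    (∀ g ∈ gs, IsFrobNewFactorBar M p A (k + 1) g) ∧
    f ^ p ^ k = algebraMap Ω ↥(modularFunctionFieldBar (M * p)) c *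
      (cobProd (arithmeticGalois (modularFunctionFieldFull (M * p))) l * gs.prod)

/-- **the Kummer form of (ES-NEW) over `Ω`, for one inertia element `σ`**. -/
def NewKummerAtES (A : ValuationSubring Ω) (σ : GQ) (a : ℕ) : Prop :=
  ∀ f : ↥(modularFunctionFieldBar (M * p)), f ≠ 0 →
    (∀ v : Place Ω ↥(modularFunctionFieldBar (M * p)), (p : ℤ) ∣ v.ord f) →
    (∃ (b : Ω) (h : ↥(modularFunctionFieldBar M)), b ≠ 0 ∧ h ≠ 0 ∧
      normAlong (heckeAlphaBar Ω M p) f = algebraMap Ω ↥(modularFunctionFieldBar M) b * h ^ p) →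
    (∃ (b : Ω) (h : ↥(modularFunctionFieldBar M)), b ≠ 0 ∧ h ≠ 0 ∧
      normAlong (heckeBetaBar Ω M p) f = algebraMap Ω ↥(modularFunctionFieldBar M) b * h ^ p) →
    IsSplitBarES M p A f →
    ∃ (c : Ω) (w : ↥(legE Ω (M * p))), c ≠ 0 ∧ w ≠ 0 ∧
      legGalois Ω (M * p) σ • fullToLegE Ω (M * p) f / fullToLegE Ω (M * p) f ^ a =
        algebraMap Ω ↥(legE Ω (M * p)) c * w ^ p

end Factor

section KeyES

variable (M p : ℕ) [NeZero M] [NeZero p] [NeZero (M * p)]

set_option maxHeartbeats 1600000 in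
/-- **(ES-NEW) from the Kummer form over `Ω`.** -/
theorem esNewAt_of_newKummerES (hp : p.Prime) (hp2 : p ≠ 2) (A : ValuationSubring Ω)
    (H : ∀ σ ∈ A.inertiaSubgroupIn ℚ, ∀ a : ℕ, CycAct p σ a → NewKummerAtES M p A σ a) :
    EsNewAt M p A := by
  refine ⟨esNewClosure M p A, ?_, ?_, ?_⟩
  · intro y n hy τ hτ
    exact smul_sub_mem_cobClosureTwo (arithmeticGalois (modularFunctionFieldFull (M * p))) p _ _
      y n hy hτ
  · intro x hx hpx hα hβ σ hσ a ha
    obtain ⟨D, f, k, c, l, gs, rfl, hf, hfD, hc, hl, hgs, hfl⟩ :=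
      exists_split_rep_two (arithmeticGalois (modularFunctionFieldFull (M * p)))
        (fun u _ hu => exists_const_of_forall_ord_eq_zero (jCoordBar (M * p)) u hu) p _
        (factorFamily_isFrobNewFactorBar M p A) x hx hpx
    obtain ⟨c', w, hc', hw, h⟩ := H σ hσ a ha f hf (fun v => ⟨_, hfD v⟩)
      (exists_normAlong_eq_of_degPush_eq_zero M p (heckeAlphaBar Ω M p) D f hf hfD hα)
      (exists_normAlong_eq_of_degPush_eq_zero M p (heckeBetaBar Ω M p) D f hf hfD hβ)
      ⟨k, c, l, gs, hc, hl, hgs, hfl⟩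
    exact jzero_smul_eq_nsmul_of_leg_kummer (M * p) hp hp2 σ a D f hf hfD c' w hc' hw h
  · intro x n hx hα hβ σ hσ
    obtain ⟨D, rfl⟩ := Pic0.mk_surjective x
    obtain ⟨g₀, hg₀⟩ := exists_isDivOf_of_nsmul_eq_zero D hx
    have hfD : ∀ w : Place Ω ↥(modularFunctionFieldBar (M * p)),
        w.ord g₀ = ((p ^ n : ℕ) : ℤ) * (D : Divisor Ω ↥(modularFunctionFieldBar (M * p))) w := by
      intro w
      rw [← hg₀.2 w, Finsupp.smul_apply, nsmul_eq_mul]
    have hpn : p ^ n ≠ 0 := pow_ne_zero n hp.ne_zero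
    obtain ⟨aα, hα', haα, hhα, hNα⟩ :=
      exists_normAlong_eq_of_degPush_eq_zero M p (heckeAlphaBar Ω M p) D g₀ hg₀.1 hfD hα
    obtain ⟨aβ, hβ', haβ, hhβ, hNβ⟩ :=
      exists_normAlong_eq_of_degPush_eq_zero M p (heckeBetaBar Ω M p) D g₀ hg₀.1 hfD hβ
    obtain ⟨Hα, hHα⟩ := exists_pow_eq_normAlong (heckeAlphaBar Ω M p) hpn 1 g₀ aα hα' hNα
    obtain ⟨Hβ, hHβ⟩ := exists_pow_eq_normAlong (heckeBetaBar Ω M p) hpn 1 g₀ aβ hβ' hNβ
    rw [map_one, one_mul] at hHα hHβ
    set g : SemilinearAut Ω ↥(modularFunctionFieldBar (M * p)) :=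
      arithmeticGalois (modularFunctionFieldFull (M * p)) σ with hg
    set Y : Divisor.degZero (K := Ω) (F := ↥(modularFunctionFieldBar (M * p))) :=
      SemilinearAut.degZeroSMulHom g D - D with hY
    set Z : Divisor.degZero (K := Ω) (F := ↥(modularFunctionFieldBar (M * p))) :=
      SemilinearAut.degZeroSMulHom g (SemilinearAut.degZeroSMulHom g Y) - Y with hZ
    have hmem : Pic0.mk Z ∈ esNewClosure M p A := by
      refine mk_mem_cobClosureTwo (arithmeticGalois (modularFunctionFieldFull (M * p))) p _ _ n Z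
        (frobSecond (fun x : ↥(modularFunctionFieldBar (M * p)) => g • x) g₀)
        ⟨σ, g₀, Hα, Hβ, hσ, hg₀.1, hHα, hHβ, rfl⟩ ?_
      refine (IsDivOf.frobSecond g hg₀).congr ?_
      show g • g • (g • (p ^ n • (D : Divisor Ω ↥(modularFunctionFieldBar (M * p)))) -
          p ^ n • (D : Divisor Ω ↥(modularFunctionFieldBar (M * p)))) -
        (g • (p ^ n • (D : Divisor Ω ↥(modularFunctionFieldBar (M * p)))) -
          p ^ n • (D : Divisor Ω ↥(modularFunctionFieldBar (M * p)))) =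
        p ^ n • (g • g • (g • (D : Divisor Ω ↥(modularFunctionFieldBar (M * p))) -
          (D : Divisor Ω ↥(modularFunctionFieldBar (M * p)))) -
          (g • (D : Divisor Ω ↥(modularFunctionFieldBar (M * p))) -
            (D : Divisor Ω ↥(modularFunctionFieldBar (M * p)))))
      rw [semilinear_smul_nsmul_divisor, ← smul_sub, semilinear_smul_nsmul_divisor,
        semilinear_smul_nsmul_divisor, ← smul_sub]
    have e : (Pic0.mk Z : JZero (M * p)) =
        σ • (σ • σ • (Pic0.mk D : JZero (M * p)) - Pic0.mk D) -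
          (σ • σ • (Pic0.mk D : JZero (M * p)) - Pic0.mk D) := by
      have e1 : (Pic0.mk Z : JZero (M * p)) =
          σ • σ • (σ • (Pic0.mk D : JZero (M * p)) - Pic0.mk D) -
            (σ • (Pic0.mk D : JZero (M * p)) - Pic0.mk D) := rfl
      rw [e1]
      simp only [smul_sub]
      abel
    rw [← e]
    exact hmem

end KeyES

end Fermat.Agent.ML
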