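/-
S59 / AT-P — helper5 — **[ATP-B], part 5: from the base statement `LegNewBaseES` to the Kummer form
`NewKummerAtES` over `Ω`**, and **`esNewStatement : EsNewStatement`**.

Copy of NP33 `BASEP_helper2_NewDesc.newKummerAt_of_base` with the extra Frobenius factors: the data
`(φ_j, g_j, Hα_j, Hβ_j)` of the factors are descended to the Galois base `K₁` together with `f`,
the two `p`-th roots and the `h`'s of the inertia coboundaries; the norm identities of the `g_j`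
descend by injectivity of the base change.
-/
import Mathlib
import Fermat.Agent.ML.ATPB_helper5_NewKum
import Fermat.Agent.NP.BASEP_helper2_NewDesc

set_option autoImplicit false
set_option linter.unusedSectionVars false
set_option linter.unusedVariables false
set_option linter.style.haveILetI false
set_option synthInstance.maxHeartbeats 400000

open HahnSeries IntermediateField AlgebraicCurve ModularCurve

namespace Fermat.Agent.ML

open Fermat.Agent.JA Fermat.Agent.FF Fermat.Agent.SS Fermat.Agent.X0N Fermat.Agent.S35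
  Fermat.Agent.NP

/-- `Ω = AlgebraicClosure ℚ`. -/
local notation "Ω" => AlgebraicClosure ℚ

/-- the absolute Galois group. -/
local notation "GQ" => (AlgebraicClosure ℚ ≃ₐ[ℚ] AlgebraicClosure ℚ)

section Compat

variable (N : ℕ) [NeZero N] (K₁ : IntermediateField ℚ Ω) [Normal ℚ ↥K₁]

/-- the second Frobenius difference quotient commutes with the base change of the level field. -/
theorem keyFqBC_frobSecond (τ : GQ) (x : ↥(keyFq ↥K₁ N)) :
    keyFqBC N K₁ (frobSecond (fun y : ↥(keyFq ↥K₁ N) =>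
      keyFqGalois ↥K₁ N (resGal K₁ τ) • y) x) =
    frobSecond (fun y : ↥(keyFq Ω N) => keyFqGalois Ω N τ • y) (keyFqBC N K₁ x) := by
  unfold frobSecond
  simp only [map_div₀, keyFqBC_keyFqGalois_smul]

/-- the second Frobenius difference quotient commutes with `fullToLegE`. -/
theorem fullToLegE_frobSecond' {K : Type*} [Field K] [Algebra ℚ K] (τ : K ≃ₐ[ℚ] K)
    (x : ↥(keyFq K N)) :
    fullToLegE K N (frobSecond (fun y : ↥(keyFq K N) => keyFqGalois K N τ • y) x) =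
    frobSecond (fun y : ↥(legE K N) => legGalois K N τ • y) (fullToLegE K N x) :=
  fullToLegE_frobSecond N τ x

end Compat

section Main

variable (M p : ℕ) [NeZero M] [NeZero p] [NeZero (M * p)]

set_option maxHeartbeats 12800000 in
/-- **[ATP-B], new case: from the base statement to the Kummer form over `Ω`.** -/
theorem newKummerAtES_of_base (hB : LegNewBaseES) (hp : p.Prime) (hp2 : p ≠ 2) (hpM : ¬ p ∣ M)
    (A : ValuationSubring Ω) (hA : A.LiesOverPrime p) (σ : GQ)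
    (hσ : σ ∈ A.inertiaSubgroupIn ℚ) (a : ℕ) (ha : CycAct p σ a) : NewKummerAtES M p A σ a := by
  classical
  rintro f hf hdiv ⟨aα, hα, haα, hhα, hNα⟩ ⟨aβ, hβ, haβ, hhβ, hNβ⟩ ⟨k, c, l, gs, hc, hl, hgs, hfl⟩
  have hm0 : 0 < p := hp.pos
  -- the data of the Frobenius factors
  choose φ g₀ Gα Gβ hφ hg₀ hGα hGβ hv using
    fun j : Fin gs.length => hgs (gs.get j) (List.get_mem gs j)
  have hgsprod : gs.prod = ∏ j : Fin gs.length,
      frobSecond (fun x : ↥(modularFunctionFieldBar (M * p)) =>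
        arithmeticGalois (modularFunctionFieldFull (M * p)) (φ j) • x) (g₀ j) := by
    rw [← List.prod_ofFn]
    congr 1
    exact (List.ofFn_get gs).symm.trans (congrArg List.ofFn (funext hv))
  -- monic normalisation over `Ω`
  have hfL : ((f : ↥(modularFunctionFieldBar (M * p))) : LaurentSeries Ω) ≠ 0 := fun h0 =>
    hf (Subtype.ext h0)
  set c₀ : Ω := (((f : ↥(modularFunctionFieldBar (M * p))) : LaurentSeries Ω).leadingCoeff)⁻¹
    with hc₀def
  have hc₀ : c₀ ≠ 0 := inv_ne_zero (HahnSeries.leadingCoeff_ne_zero.2 hfL)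
  set f' : ↥(modularFunctionFieldBar (M * p)) :=
    algebraMap Ω ↥(modularFunctionFieldBar (M * p)) c₀ * f with hf'def
  have hf'0 : f' ≠ 0 := mul_ne_zero ((map_ne_zero _).2 hc₀) hf
  have hf'lc : ((f' : ↥(modularFunctionFieldBar (M * p))) : LaurentSeries Ω).leadingCoeff = 1 := by
    show (algebraMap Ω (LaurentSeries Ω) c₀ *
      ((f : ↥(modularFunctionFieldBar (M * p))) : LaurentSeries Ω)).leadingCoeff = 1
    rw [HahnSeries.leadingCoeff_mul, algebraMap_laurentSeries_eq_single,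
      HahnSeries.leadingCoeff_of_single, hc₀def,
      inv_mul_cancel₀ (HahnSeries.leadingCoeff_ne_zero.2 hfL)]
  have hdiv' : ∀ v : Place Ω ↥(modularFunctionFieldBar (M * p)), ((p : ℕ) : ℤ) ∣ v.ord f' := by
    intro v
    rw [hf'def, v.ord_mul ((map_ne_zero _).2 hc₀) hf, place_ord_algebraMap_eq_zero v hc₀, zero_add]
    exact hdiv v
  -- absorb the constants of the two norms
  obtain ⟨Hα, hHα⟩ := exists_pow_eq_normAlong (heckeAlphaBar Ω M p) hm0.ne' c₀ f aα hα hNα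
  obtain ⟨Hβ, hHβ⟩ := exists_pow_eq_normAlong (heckeBetaBar Ω M p) hm0.ne' c₀ f aβ hβ hNβ
  -- the divisor of `f'` on the host over `Ω`
  haveI : HasPrincipalDivisors Ω ↥(legE Ω (M * p)) := up_hasPrincipalDivisors_legE (M * p)
  have hfE : fullToLegE Ω (M * p) f' ≠ 0 := (map_ne_zero _).2 hf'0
  obtain ⟨D, hD, -⟩ := HasPrincipalDivisors.exists_divisor (K := Ω) (fullToLegE Ω (M * p) f') hfE
  -- the Galois base
  haveI : Fact p.Prime := ⟨hp⟩
  obtain ⟨sM, hsM⟩ := exists_finset_forall_descent_family (modularFunctionFieldFull M)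
    (x := fun i : Bool ⊕ (Fin gs.length × Bool) => Sum.elim
      (fun b : Bool => if b then ((Hα : ↥(modularFunctionFieldBar M)) : LaurentSeries Ω)
        else ((Hβ : ↥(modularFunctionFieldBar M)) : LaurentSeries Ω))
      (fun jb : Fin gs.length × Bool =>
        if jb.2 then ((Gα jb.1 : ↥(modularFunctionFieldBar M)) : LaurentSeries Ω)
        else ((Gβ jb.1 : ↥(modularFunctionFieldBar M)) : LaurentSeries Ω)) i)
    (fun i => by
      rcases i with b | ⟨j, b⟩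
      · cases b; exacts [Hβ.2, Hα.2]
      · cases b; exacts [(Gβ j).2, (Gα j).2])
  haveI : NeZero ((p : ℕ) : Ω) := ⟨by exact_mod_cast hp.ne_zero⟩
  obtain ⟨ζ, hζ⟩ : ∃ ζ : Ω, IsPrimitiveRoot ζ p := HasEnoughRootsOfUnity.exists_primitiveRoot Ω p
  obtain ⟨K₁, hK₁, -, htK, hdesc, hrat⟩ :=
    (isBase_flatBase (ℓ := p)).exists_ge_isGalBase_legE (M * p) (insert ζ sM)
      (f := fun i : Option (Fin l.length) ⊕ Fin gs.length => Sum.elim
        (fun o : Option (Fin l.length) => o.elim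
          ((f' : ↥(modularFunctionFieldBar (M * p))) : LaurentSeries Ω)
          (fun j => (((l.get j).2 : ↥(modularFunctionFieldBar (M * p))) : LaurentSeries Ω)))
        (fun j : Fin gs.length =>
          ((g₀ j : ↥(modularFunctionFieldBar (M * p))) : LaurentSeries Ω)) i)
      (fun i => by
        rcases i with o | j
        · cases o; exacts [f'.2, (l.get _).2.2]
        · exact (g₀ j).2) D.support
  haveI := hK₁.normal
  obtain ⟨f₁, hf₁mem, hf₁⟩ := hdesc (Sum.inl none)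
  simp only [Sum.elim_inl, Option.elim_none] at hf₁
  have htK' : ∀ x ∈ sM, x ∈ K₁ := fun x hx => htK x (Finset.mem_insert_of_mem hx)
  obtain ⟨hα₁, hα₁mem, hhα₁⟩ := hsM K₁ htK' (Sum.inl true)
  obtain ⟨hβ₁, hβ₁mem, hhβ₁⟩ := hsM K₁ htK' (Sum.inl false)
  simp only [Sum.elim_inl, if_true] at hhα₁
  simp only [Sum.elim_inl, Bool.false_eq_true, if_false] at hhβ₁
  -- the descended data of the Frobenius factors
  have hGdesc : ∀ j : Fin gs.length, ∃ G₁ : ↥(keyFq ↥K₁ (M * p)),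
      keyFqBC (M * p) K₁ G₁ = g₀ j := by
    intro j
    obtain ⟨x₁, hmem, hx⟩ := hdesc (Sum.inr j)
    exact ⟨⟨x₁, hmem⟩, Subtype.ext hx⟩
  choose G₁ hG₁ using hGdesc
  have hGαdesc : ∀ j : Fin gs.length, ∃ X : ↥(keyFq ↥K₁ M), keyFqBC M K₁ X = Gα j := by
    intro j
    obtain ⟨x₁, hmem, hx⟩ := hsM K₁ htK' (Sum.inr (j, true))
    simp only [Sum.elim_inr, if_true] at hx
    exact ⟨⟨x₁, hmem⟩, Subtype.ext hx⟩
  choose Gα₁ hGα₁ using hGαdesc
  have hGβdesc : ∀ j : Fin gs.length, ∃ X : ↥(keyFq ↥K₁ M), keyFqBC M K₁ X = Gβ j := by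
    intro j
    obtain ⟨x₁, hmem, hx⟩ := hsM K₁ htK' (Sum.inr (j, false))
    simp only [Sum.elim_inr, Bool.false_eq_true, if_false] at hx
    exact ⟨⟨x₁, hmem⟩, Subtype.ext hx⟩
  choose Gβ₁ hGβ₁ using hGβdesc
  have hG₁0 : ∀ j, G₁ j ≠ 0 := by
    intro j h0
    apply hg₀ j
    rw [← hG₁ j, h0, map_zero]
  have hGnA : ∀ j, (letI := (keyFqA ↥K₁ M p).toRingHom.toAlgebra;
      Algebra.norm ↥(keyFq ↥K₁ M) (G₁ j)) = Gα₁ j ^ p ^ (k + 1) := by
    intro j
    rw [norm_keyFqA_eq_normAlong]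
    apply (keyFqBC M K₁).injective
    rw [keyFqBC_normAlong_heckeAlphaBar M p K₁ hp, hG₁ j, map_pow, hGα₁ j]
    exact hGα j
  have hGnB : ∀ j, (letI := (keyFqB ↥K₁ M p).toRingHom.toAlgebra;
      Algebra.norm ↥(keyFq ↥K₁ M) (G₁ j)) = Gβ₁ j ^ p ^ (k + 1) := by
    intro j
    rw [norm_keyFqB_eq_normAlong]
    apply (keyFqBC M K₁).injective
    rw [keyFqBC_normAlong_heckeBetaBar M p K₁ hp, hG₁ j, map_pow, hGβ₁ j]
    exact hGβ j
  set F₁ : ↥(keyFq ↥K₁ (M * p)) := ⟨f₁, hf₁mem⟩ with hF₁def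
  have hBC0 : keyFqBC (M * p) K₁ F₁ = f' := Subtype.ext hf₁
  have hF₁0 : F₁ ≠ 0 := by
    intro h0
    apply hf'0
    rw [← hBC0, h0, map_zero]
  have hF₁lc : ((F₁ : ↥(keyFq ↥K₁ (M * p))) : LaurentSeries ↥K₁).leadingCoeff = 1 := by
    have h1 := leadingCoeff_coeffMap_of_injective (f := algebraMap ↥K₁ Ω)
      (algebraMap ↥K₁ Ω).injective f₁
    rw [hf₁, hf'lc] at h1
    exact (algebraMap ↥K₁ Ω).injective (by rw [← h1, map_one])
  -- the norm identities over `K₁`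
  have hnA : (letI := (keyFqA ↥K₁ M p).toRingHom.toAlgebra; Algebra.norm ↥(keyFq ↥K₁ M) F₁) =
      (⟨hα₁, hα₁mem⟩ : ↥(keyFq ↥K₁ M)) ^ p := by
    rw [norm_keyFqA_eq_normAlong]
    apply (keyFqBC M K₁).injective
    rw [keyFqBC_normAlong_heckeAlphaBar M p K₁ hp, hBC0, map_pow]
    have h1 : keyFqBC M K₁ (⟨hα₁, hα₁mem⟩ : ↥(keyFq ↥K₁ M)) = Hα := Subtype.ext hhα₁
    rw [h1]
    exact hHα
  have hnB : (letI := (keyFqB ↥K₁ M p).toRingHom.toAlgebra; Algebra.norm ↥(keyFq ↥K₁ M) F₁) =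
      (⟨hβ₁, hβ₁mem⟩ : ↥(keyFq ↥K₁ M)) ^ p := by
    rw [norm_keyFqB_eq_normAlong]
    apply (keyFqBC M K₁).injective
    rw [keyFqBC_normAlong_heckeBetaBar M p K₁ hp, hBC0, map_pow]
    have h1 : keyFqBC M K₁ (⟨hβ₁, hβ₁mem⟩ : ↥(keyFq ↥K₁ M)) = Hβ := Subtype.ext hhβ₁
    rw [h1]
    exact hHβ
  -- the function on the host over `K₁`
  have hg₁BC : legBC (M * p) K₁ (fullToLegE ↥K₁ (M * p) F₁) =
      algebraMap Ω ↥(legE Ω (M * p)) 1 * fullToLegE Ω (M * p) f' := by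
    rw [bcdeg_legBC_fullToLegE, hBC0, map_one, one_mul]
  have hord : LegOrdCond K₁ (M * p) p (fullToLegE ↥K₁ (M * p) F₁) := by
    intro P
    have h1 := ord_descended_leg (M * p) f' hdiv' D hD K₁ hrat (fullToLegE ↥K₁ (M * p) F₁) 1
      one_ne_zero hg₁BC P
    by_cases h0 : P.ord (fullToLegE ↥K₁ (M * p) F₁) = 0
    · exact Or.inl h0
    · exact Or.inr ⟨h1.2 h0, h1.1⟩
  -- the primitive root
  have hζK : ∃ ζ₁ : ↥K₁, IsPrimitiveRoot ζ₁ p := by
    refine ⟨⟨ζ, htK ζ (Finset.mem_insert_self _ _)⟩, ?_⟩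
    exact IsPrimitiveRoot.of_map_of_injective (f := algebraMap ↥K₁ Ω) hζ (algebraMap ↥K₁ Ω).injective
  -- the splitting over `K₁`
  have hdescl : ∀ x ∈ l, ∃ y : ↥(keyFq ↥K₁ (M * p)), keyFqBC (M * p) K₁ y = x.2 := by
    intro x hx
    obtain ⟨j, rfl⟩ := List.mem_iff_get.1 hx
    obtain ⟨h₁, hmem, hh⟩ := hdesc (Sum.inl (some j))
    exact ⟨⟨h₁, hmem⟩, Subtype.ext hh⟩
  obtain ⟨l₁, hl₁⟩ := exists_list_map_eq (keyFqBC (M * p) K₁) l hdescl
  set ι₁ : GQ →* SemilinearAut ↥K₁ ↥(keyFq ↥K₁ (M * p)) :=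
    (keyFqGalois ↥K₁ (M * p)).comp (resGal K₁) with hι₁
  have hcob : keyFqBC (M * p) K₁ (cobProd ι₁ l₁) =
      cobProd (arithmeticGalois (modularFunctionFieldFull (M * p))) l := by
    rw [map_cobProd ι₁ (keyFqGalois Ω (M * p)) (keyFqBC (M * p) K₁)
      (fun τ x => keyFqBC_keyFqGalois_smul (M * p) K₁ τ x) l₁, hl₁]
    rfl
  have hl₁' : IsCobList ((A.inertiaSubgroupIn ℚ : Subgroup GQ) : Set GQ) l₁ :=
    IsCobList.of_map_hom (keyFqBC (M * p) K₁) (by rw [hl₁]; exact hl)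
  have hcob0 : cobProd ι₁ l₁ ≠ 0 := cobProd_ne_zero ι₁ hl₁'
  -- the Frobenius factors over `K₁`
  set V₁ : Fin gs.length → ↥(keyFq ↥K₁ (M * p)) := fun j =>
    frobSecond (fun y : ↥(keyFq ↥K₁ (M * p)) =>
      keyFqGalois ↥K₁ (M * p) (resGal K₁ (φ j)) • y) (G₁ j) with hV₁
  have hV₁BC : keyFqBC (M * p) K₁ (∏ j, V₁ j) = gs.prod := by
    rw [map_prod, hgsprod]
    refine Finset.prod_congr rfl fun j _ => ?_
    rw [hV₁]
    show keyFqBC (M * p) K₁ (frobSecond _ (G₁ j)) = _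
    rw [keyFqBC_frobSecond (M * p) K₁ (φ j) (G₁ j), hG₁ j]
    rfl
  have hV₁0 : (∏ j, V₁ j) ≠ 0 := by
    rw [Finset.prod_ne_zero_iff]
    intro j _
    exact frobSecond_smul_ne_zero _ (hG₁0 j)
  obtain ⟨c₁, hc₁, hX⟩ := exists_const_of_keyFqBC_eq_algebraMap (M * p) K₁
    (F₁ ^ p ^ k / (cobProd ι₁ l₁ * ∏ j, V₁ j)) (c₀ ^ p ^ k * c) (by
      rw [map_div₀, map_pow, hBC0, map_mul, hcob, hV₁BC, hf'def, mul_pow, hfl, ← map_pow, map_mul]
      have h0 : cobProd (arithmeticGalois (modularFunctionFieldFull (M * p))) l ≠ 0 := by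
        rw [← hcob]
        exact (map_ne_zero _).2 hcob0
      have h0' : gs.prod ≠ 0 := by
        rw [← hV₁BC]
        exact (map_ne_zero _).2 hV₁0
      field_simp)
  have hc₁0 : c₁ ≠ 0 := by
    rintro rfl
    rw [map_zero] at hc₁
    exact mul_ne_zero (pow_ne_zero _ hc₀) hc hc₁.symm
  have hsplit₁ : F₁ ^ p ^ k =
      algebraMap ↥K₁ ↥(keyFq ↥K₁ (M * p)) c₁ * (cobProd ι₁ l₁ * ∏ j, V₁ j) := by
    rw [← hX, div_mul_cancel₀ _ (mul_ne_zero hcob0 hV₁0)]
  -- the splitting on the host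
  have hsplit : IsInertiaSplitES A K₁ M p (fullToLegE ↥K₁ (M * p) F₁) := by
    obtain ⟨u, hu, hu'⟩ := cobProd_mem_legInertiaCob A K₁ (M * p)
      (l₁.map fun x => (x.1, (fullToLegE ↥K₁ (M * p)).toRingHom x.2))
      (IsCobList.map_hom hl₁' (fullToLegE ↥K₁ (M * p)).toRingHom)
    refine ⟨k, c₁, u, List.ofFn fun j => fullToLegE ↥K₁ (M * p) (V₁ j), hc₁0, hu, ?_, ?_⟩
    · intro v hv
      rw [List.mem_ofFn] at hv
      obtain ⟨j, rfl⟩ := hv
      refine ⟨φ j, G₁ j, hφ j, hG₁0 j, ⟨_, hGnA j⟩, ⟨_, hGnB j⟩, ?_⟩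
      exact fullToLegE_frobSecond' (M * p) (resGal K₁ (φ j)) (G₁ j)
    · rw [hu', ← map_cobProd ι₁ ((legGalois ↥K₁ (M * p)).comp (resGal K₁))
        (fullToLegE ↥K₁ (M * p)).toRingHom
        (fun τ x => fullToLegE_keyFqGalois_smul (M * p) (resGal K₁ τ) x) l₁, List.prod_ofFn]
      have h3 := congrArg (fullToLegE ↥K₁ (M * p)) hsplit₁
      rw [map_pow, map_mul, AlgHom.commutes, map_mul, map_prod] at h3
      rw [h3, mul_assoc]
      rfl
  -- the base statement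
  obtain ⟨c', u, hc', hu⟩ := hB M p hp hp2 hpM A hA K₁ hK₁ hζK σ hσ a ha F₁ hF₁0 hF₁lc hord
    ⟨_, hnA⟩ ⟨_, hnB⟩ hsplit
  -- back to `Ω`
  have h1 := congrArg (legBC (M * p) K₁) hu
  rw [map_div₀, legBC_legGalois_smul, map_pow, map_mul, map_pow, legBC_algebraMap,
    bcdeg_legBC_fullToLegE, hBC0, hf'def, map_mul, AlgHom.commutes, smul_mul',
    SemilinearAut.smul_algebraMap] at h1
  set X : ↥(legE Ω (M * p)) := fullToLegE Ω (M * p) f with hXdef
  have hX0 : X ≠ 0 := (map_ne_zero _).2 hf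
  set d : Ω := SemilinearAut.baseAut (legGalois Ω (M * p) σ) c₀ with hd
  have hd0 : d ≠ 0 := (map_ne_zero _).2 hc₀
  have hsX0 : legGalois Ω (M * p) σ • X ≠ 0 := by simpa using hX0
  have hu0 : u ≠ 0 := by
    rintro rfl
    rw [zero_pow hp.ne_zero, mul_zero] at hu
    have h2 : legGalois ↥K₁ (M * p) (resGal K₁ σ) • fullToLegE ↥K₁ (M * p) F₁ ≠ 0 := by
      simpa using (map_ne_zero (fullToLegE ↥K₁ (M * p))).2 hF₁0
    exact div_ne_zero h2 (pow_ne_zero _ ((map_ne_zero _).2 hF₁0)) hu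
  refine ⟨algebraMap ↥K₁ Ω c' * c₀ ^ a / d, legBC (M * p) K₁ u,
    div_ne_zero (mul_ne_zero ((map_ne_zero _).2 hc') (pow_ne_zero _ hc₀)) hd0,
    (map_ne_zero _).2 hu0, ?_⟩
  have hA0 : algebraMap Ω ↥(legE Ω (M * p)) c₀ ≠ 0 := (map_ne_zero _).2 hc₀
  have hD0 : algebraMap Ω ↥(legE Ω (M * p)) d ≠ 0 := (map_ne_zero _).2 hd0
  rw [map_div₀, map_mul, map_pow]
  have h2 : algebraMap Ω ↥(legE Ω (M * p)) (algebraMap ↥K₁ Ω c') *
      algebraMap Ω ↥(legE Ω (M * p)) c₀ ^ a / algebraMap Ω ↥(legE Ω (M * p)) d *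
      legBC (M * p) K₁ u ^ p =
      (algebraMap Ω ↥(legE Ω (M * p)) (algebraMap ↥K₁ Ω c') * legBC (M * p) K₁ u ^ p) *
      algebraMap Ω ↥(legE Ω (M * p)) c₀ ^ a / algebraMap Ω ↥(legE Ω (M * p)) d := by ring
  rw [h2, ← h1, mul_pow]
  have hXa : X ^ a ≠ 0 := pow_ne_zero _ hX0
  have hQa : algebraMap Ω ↥(legE Ω (M * p)) c₀ ^ a ≠ 0 := pow_ne_zero _ hA0
  field_simp

end Main

/-- **(ES-NEW), all levels: the geometric input at `p`, new part.** -/
theorem esNewStatement : EsNewStatement := by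
  intro M p _ _ _ hp hp2 hpM A hA
  exact esNewAt_of_newKummerES M p hp hp2 A fun σ hσ a ha =>
    newKummerAtES_of_base M p legNewBaseES hp hp2 hpM A hA σ hσ a ha

end Fermat.Agent.ML
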