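/-
S59 / AT-P — helper5 — **[ATP-B], part 1: the NORM step at `q = p`** (the model side of AT-P).

S35's NORM step (`S35/NORMF_helper8_Gen.keyFq_normStep_gen`: generic discrete valuation base, ANY
exponent `m > 0`) never uses the hypothesis `¬ q ∣ m` which its packaged forms
`KeyFqNormStepAtBases` / `LegNormStepAtBases` carry.  Here the two packaged forms are re-derived
without it, so that they apply to `m = p ^ n` at the prime `q = p`:

for a Galois base `K₁` at `p ∤ M`, a Frobenius lift `φ` at `A ∣ p` and `f₀ ∈ F_{Mp}(K₁)` whose norms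
along the two degeneracy maps are `m`-th powers, `g' = s (s g) / g`, `g = s f / f` (`s` the
coefficientwise action of `φ`) is `≡ A(u) ^ m` on `W_∞` and `≡ B(v) ^ m` on `W_0`, `u`, `v` units
of `V_M` — on the level fields (`keyFq_frobNormStep`) and on the Legendre hosts
(`leg_frobNormStep`).
-/
import Mathlib
import Fermat.Agent.S35.NORMF_helper8_Main

set_option autoImplicit false
set_option linter.unusedSectionVars false
set_option linter.unusedVariables false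
set_option linter.style.haveILetI false
set_option synthInstance.maxHeartbeats 200000

open HahnSeries IntermediateField AlgebraicCurve ModularCurve Fermat.Agent.Igusa

namespace Fermat.Agent.ML

open Fermat.Agent.JA Fermat.Agent.FF Fermat.Agent.SS Fermat.Agent.S35

open scoped Fermat.Agent.JA.Host

/-- `Ω = AlgebraicClosure ℚ`. -/
local notation "Ω" => AlgebraicClosure ℚ

/-- the absolute Galois group. -/
local notation "GQ" => (AlgebraicClosure ℚ ≃ₐ[ℚ] AlgebraicClosure ℚ)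

set_option maxHeartbeats 1600000 in
/-- **the NORM step at the F-level, at every Galois base, any exponent `m > 0`**. -/
theorem keyFq_frobNormStep (M q : ℕ) [NeZero M] [NeZero q] [NeZero (M * q)] (hq : q.Prime)
    (hqM : ¬ q ∣ M) (A : ValuationSubring Ω) (hA : A.LiesOverPrime q)
    (K₁ : IntermediateField ℚ Ω) [Normal ℚ ↥K₁] (hK₁ : IsGalBase q K₁)
    [IsDiscreteValuationRing ↥(baseRing A K₁)] [CharZero ↥(baseRing A K₁)]
    (x y : ℤ) (hbez : (q : ℤ) * x + M * y = 1)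
    (φ : GQ) (hφ : A.IsFrobeniusAt φ q) (m : ℕ) (hm : 0 < m)
    (f₀ : ↥(keyFq ↥K₁ (M * q))) (hf₀ : f₀ ≠ 0)
    (hNA : ∃ hA : ↥(keyFq ↥K₁ M),
      (letI := (keyFqA ↥K₁ M q).toRingHom.toAlgebra; Algebra.norm ↥(keyFq ↥K₁ M) f₀) = hA ^ m)
    (hNB : ∃ hB : ↥(keyFq ↥K₁ M),
      (letI := (keyFqB ↥K₁ M q).toRingHom.toAlgebra; Algebra.norm ↥(keyFq ↥K₁ M) f₀) = hB ^ m) :
    ∃ u v : ↥(keyFq ↥K₁ M), (keyFqWinf ↥(baseRing A K₁) ↥K₁ M).valuation u = 1 ∧
      (keyFqWinf ↥(baseRing A K₁) ↥K₁ M).valuation v = 1 ∧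
      (keyFqWinf ↥(baseRing A K₁) ↥K₁ (M * q)).valuation
        (keyFqGalois ↥K₁ (M * q) (resGal K₁ φ) • (keyFqGalois ↥K₁ (M * q) (resGal K₁ φ) •
          (keyFqGalois ↥K₁ (M * q) (resGal K₁ φ) • f₀ / f₀)) /
          (keyFqGalois ↥K₁ (M * q) (resGal K₁ φ) • f₀ / f₀) - keyFqA ↥K₁ M q u ^ m) < 1 ∧
      (keyFqW0 ↥(baseRing A K₁) ↥K₁
          (@algebraMap ↥K₁ ℂ _ _ (baseToComplex K₁)) hbez hq).valuation
        (keyFqGalois ↥K₁ (M * q) (resGal K₁ φ) • (keyFqGalois ↥K₁ (M * q) (resGal K₁ φ) •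
          (keyFqGalois ↥K₁ (M * q) (resGal K₁ φ) • f₀ / f₀)) /
          (keyFqGalois ↥K₁ (M * q) (resGal K₁ φ) • f₀ / f₀) - keyFqB ↥K₁ M q v ^ m) < 1 := by
  haveI : Fact q.Prime := ⟨hq⟩
  obtain ⟨ϖ, hϖ⟩ := IsDiscreteValuationRing.exists_irreducible ↥(baseRing A K₁)
  have hqϖ := natCast_mem_span_uniformizer_baseRing hA K₁ hϖ
  haveI : CharP (IsLocalRing.ResidueField ↥(baseRing A K₁)) q :=
    charP_residueField_of_mem_span hϖ hq hqϖ
  have hchar : ((q : ℕ) : IsLocalRing.ResidueField ↥(baseRing A K₁)) = 0 :=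
    CharP.cast_eq_zero _ q
  exact keyFq_normStep_gen (R := ↥(baseRing A K₁)) (K := ↥K₁)
    (@algebraMap ↥K₁ ℂ _ _ (baseToComplex K₁)) hbez hq (resGal K₁ φ)
    (frobBaseRingAut (K₁ := K₁) hφ : ↥(baseRing A K₁) →+* ↥(baseRing A K₁))
    (resGal_algebraMap_frobBase hφ) hqM hchar hϖ (frobBaseRingAut_sub_pow_mem hφ hϖ)
    (frobBaseRingAut_bijective hφ) hm hf₀ hNA hNB

set_option maxHeartbeats 1600000 in
/-- **the NORM step on the Legendre hosts, at every Galois base, any exponent `m > 0`**. -/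
theorem leg_frobNormStep (M q : ℕ) [NeZero M] [NeZero q] [NeZero (M * q)] (hq : q.Prime)
    (hq2 : q ≠ 2) (hqM : ¬ q ∣ M) (A : ValuationSubring Ω) (hA : A.LiesOverPrime q)
    (K₁ : IntermediateField ℚ Ω) [Normal ℚ ↥K₁] (hK₁ : IsGalBase q K₁)
    [IsDiscreteValuationRing ↥(baseRing A K₁)] [CharZero ↥(baseRing A K₁)]
    (h2 : IsUnit (2 : ↥(baseRing A K₁))) (x y : ℤ) (hbez : (q : ℤ) * x + M * y = 1)
    (φ : GQ) (hφ : A.IsFrobeniusAt φ q) (m : ℕ) (hm : 0 < m)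
    (f₀ : ↥(keyFq ↥K₁ (M * q))) (hf₀ : f₀ ≠ 0)
    (hNA : ∃ hA : ↥(keyFq ↥K₁ M),
      (letI := (keyFqA ↥K₁ M q).toRingHom.toAlgebra; Algebra.norm ↥(keyFq ↥K₁ M) f₀) = hA ^ m)
    (hNB : ∃ hB : ↥(keyFq ↥K₁ M),
      (letI := (keyFqB ↥K₁ M q).toRingHom.toAlgebra; Algebra.norm ↥(keyFq ↥K₁ M) f₀) = hB ^ m) :
    letI := baseToComplex K₁
    ∃ u v : ↥(legE ↥K₁ M), (legWinf ↥(baseRing A K₁) ↥K₁ h2 M).valuation u = 1 ∧
      (legWinf ↥(baseRing A K₁) ↥K₁ h2 M).valuation v = 1 ∧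
      (legWinf ↥(baseRing A K₁) ↥K₁ h2 (M * q)).valuation
        (legGalois ↥K₁ (M * q) (resGal K₁ φ) • (legGalois ↥K₁ (M * q) (resGal K₁ φ) •
          (legGalois ↥K₁ (M * q) (resGal K₁ φ) • fullToLegE ↥K₁ (M * q) f₀ /
            fullToLegE ↥K₁ (M * q) f₀)) /
          (legGalois ↥K₁ (M * q) (resGal K₁ φ) • fullToLegE ↥K₁ (M * q) f₀ /
            fullToLegE ↥K₁ (M * q) f₀) - legHostA ↥K₁ M q u ^ m) < 1 ∧
      (legW0 ↥(baseRing A K₁) ↥K₁ hbez hq).valuation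
        (legGalois ↥K₁ (M * q) (resGal K₁ φ) • (legGalois ↥K₁ (M * q) (resGal K₁ φ) •
          (legGalois ↥K₁ (M * q) (resGal K₁ φ) • fullToLegE ↥K₁ (M * q) f₀ /
            fullToLegE ↥K₁ (M * q) f₀)) /
          (legGalois ↥K₁ (M * q) (resGal K₁ φ) • fullToLegE ↥K₁ (M * q) f₀ /
            fullToLegE ↥K₁ (M * q) f₀) - legHostB ↥K₁ M q hq hq2 v ^ m) < 1 := by
  obtain ⟨u, v, hu, hv, hinf, h0⟩ :=
    keyFq_frobNormStep M q hq hqM A hA K₁ hK₁ x y hbez φ hφ m hm f₀ hf₀ hNA hNB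
  letI := baseToComplex K₁
  have hx := xport_leg ↥(baseRing A K₁) ↥K₁ h2 hbez hq hq2 m _ u v hu hv hinf h0
  rw [fullToLegE_frobSecond] at hx
  exact ⟨fullToLegE ↥K₁ M u, fullToLegE ↥K₁ M v, hx.1, hx.2.1, hx.2.2.1, hx.2.2.2⟩

end Fermat.Agent.ML
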