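/-
S59 / AT-P — helper5 — **[ATP], part 2: the abstract leaf** (pure valuation algebra; extension of
S35 `NTWO_helper8_Abs`, which is the case "`g` a unit on both sheets, norms exact `m`-th powers").

Setting: the two sheets `W₁`, `W₂` of `E_N` over the valuation ring `V_M` of `E_M` along the two
degeneracy maps `ι₁`, `ι₂` (residue degree one along `ι₁` on `W₁`, along `ι₂` on `W₂`), a Frobenius
action `(sM, sN)` with the Frobenius–Kronecker congruences, two norm maps `N₁ N₂ : E_N →* E_M` with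
the norm–reduction congruences for UNITS of both sheets, constants `K₁` with a uniformizer `ϖ`, and one
element `θ` of orders `(0, 1)` on `(W₁, W₂)` whose norms are known modulo `1 + 𝔪`:
`θ ≡ 1` on `W₁`, `θ ≡ ϖ` on `W₂`, `N₁ θ ≡ ϖ ^ q`, `N₂ θ ≡ ϖ`.

* `atp_half_unit` : `u` a unit on both sheets, `N₁ u ≡ X₁`, `N₂ u ≡ X₂` (mod `1 + 𝔪`)
  ⇒ `sN (sN u) / u ≡ ι₁ (sM X₂ / X₁)` on `W₁`;
* `atp_half` : ANY `g ≠ 0` (different orders along the two sheets allowed), `N₁ g = c₁ h₁ ^ m`,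
  `N₂ g = c₂ h₂ ^ m` (`c₁, c₂` constants) ⇒ `sN (sN g) / g ≡ c · ι₁ w ^ m` on `W₁`  [(f-fun)];
* `atp_hecke` : for `g ∈ E_M`, `sM (sM g) · g ^ q / N₁ (ι₂ (sM g)) ≡ c` on `V_M`  [(g-fun):
  `T_p = N₁ ∘ ι₂`].
-/
import Mathlib
import Fermat.Agent.S35.NTWO_helper8_Abs

set_option autoImplicit false
set_option linter.unusedSectionVars false
set_option linter.unusedVariables false

namespace Fermat.Agent.ML

open Fermat.Agent.S35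

section OneUnit

variable {E : Type*} [Field E] (W : ValuationSubring E)

/-- `x ∈ 1 + 𝔪_W`. -/
def OneUnit (x : E) : Prop := W.valuation (x - 1) < 1

variable {W}

theorem oneUnit_one : OneUnit W (1 : E) := by
  unfold OneUnit
  rw [sub_self, map_zero]
  exact zero_lt_one

theorem OneUnit.val_eq_one {x : E} (h : OneUnit W x) : W.valuation x = 1 :=
  ntwo_val_eq_one_of_cong W (map_one _) h

theorem OneUnit.ne_zero {x : E} (h : OneUnit W x) : x ≠ 0 := by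
  rintro rfl
  have := h.val_eq_one
  rw [map_zero] at this
  exact zero_ne_one this

theorem OneUnit.mul {x y : E} (hx : OneUnit W x) (hy : OneUnit W y) : OneUnit W (x * y) := by
  unfold OneUnit at *
  have e : x * y - 1 = (x - 1) * y + (y - 1) := by ring
  rw [e]
  refine Valuation.map_add_lt _ ?_ hy
  rw [map_mul, OneUnit.val_eq_one hy, mul_one]
  exact hx

theorem OneUnit.inv {x : E} (hx : OneUnit W x) : OneUnit W x⁻¹ := by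
  have hx0 := hx.ne_zero
  have hv := hx.val_eq_one
  unfold OneUnit at *
  have e : x⁻¹ - 1 = -(x - 1) / x := by field_simp; ring
  rw [e, map_div₀, Valuation.map_neg, hv, div_one]
  exact hx

theorem OneUnit.div {x y : E} (hx : OneUnit W x) (hy : OneUnit W y) : OneUnit W (x / y) := by
  rw [div_eq_mul_inv]
  exact hx.mul hy.inv

theorem OneUnit.pow {x : E} (hx : OneUnit W x) (n : ℕ) : OneUnit W (x ^ n) := by
  induction n with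
  | zero => rw [pow_zero]; exact oneUnit_one
  | succ n ih => rw [pow_succ]; exact ih.mul hx

theorem OneUnit.zpow {x : E} (hx : OneUnit W x) (n : ℤ) : OneUnit W (x ^ n) := by
  cases n with
  | ofNat n => rw [Int.ofNat_eq_natCast, zpow_natCast]; exact hx.pow n
  | negSucc n => rw [zpow_negSucc]; exact (hx.pow (n + 1)).inv

/-- `x ≡ y` modulo `𝔪_W`, `y` a unit: `x / y ∈ 1 + 𝔪_W`. -/
theorem oneUnit_div_of_val_sub_lt {x y : E} (hy : W.valuation y = 1)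
    (h : W.valuation (x - y) < 1) : OneUnit W (x / y) := by
  have hy0 : y ≠ 0 := by
    rintro rfl
    rw [map_zero] at hy
    exact zero_ne_one hy
  unfold OneUnit
  have e : x / y - 1 = (x - y) / y := by field_simp
  rw [e, map_div₀, hy, div_one]
  exact h

theorem val_sub_lt_of_oneUnit_div {x y : E} (hy : W.valuation y = 1) (h : OneUnit W (x / y)) :
    W.valuation (x - y) < 1 := by
  have hy0 : y ≠ 0 := by
    rintro rfl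
    rw [map_zero] at hy
    exact zero_ne_one hy
  unfold OneUnit at h
  have e : x / y - 1 = (x - y) / y := by field_simp
  rw [e, map_div₀, hy, div_one] at h
  exact h

/-- a ring endomorphism preserving `W` (in both directions) preserves `1 + 𝔪_W`. -/
theorem oneUnit_map_iff (s : E →+* E) (hs : ∀ x : E, x ∈ W ↔ s x ∈ W) (x : E) :
    OneUnit W (s x) ↔ OneUnit W x := by
  unfold OneUnit
  have := valuation_map_lt_one_iff W s hs (x - 1)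
  rwa [map_sub, map_one] at this

end OneUnit

section Comap

variable {EM EN : Type*} [Field EM] [Field EN] {VM : ValuationSubring EM}

theorem oneUnit_comap_iff {ι : EM →+* EN} {W : ValuationSubring EN} (h : W.comap ι = VM)
    (a : EM) : OneUnit W (ι a) ↔ OneUnit VM a := by
  unfold OneUnit
  have := ntwo_comap_lt_one h (a - 1)
  rwa [map_sub, map_one] at this

/-- a monoid homomorphism between fields commutes with inverses of non-zero elements. -/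
theorem monoidHom_map_inv₀ (N : EN →* EM) {x : EN} (hx : x ≠ 0) : N x⁻¹ = (N x)⁻¹ := by
  have h1 : N x * N x⁻¹ = 1 := by rw [← map_mul, mul_inv_cancel₀ hx, map_one]
  exact eq_inv_of_mul_eq_one_right h1

theorem monoidHom_map_ne_zero (N : EN →* EM) {x : EN} (hx : x ≠ 0) : N x ≠ 0 := by
  intro h0
  have h1 : N x * N x⁻¹ = 1 := by rw [← map_mul, mul_inv_cancel₀ hx, map_one]
  rw [h0, zero_mul] at h1
  exact zero_ne_one h1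

theorem monoidHom_map_zpow₀ (N : EN →* EM) {x : EN} (hx : x ≠ 0) (n : ℤ) :
    N (x ^ n) = N x ^ n := by
  cases n with
  | ofNat n => rw [Int.ofNat_eq_natCast, zpow_natCast, zpow_natCast, map_pow]
  | negSucc n =>
    rw [zpow_negSucc, zpow_negSucc, monoidHom_map_inv₀ N (pow_ne_zero _ hx), map_pow]

end Comap

section Unit

variable {EM EN : Type*} [Field EM] [Field EN] {VM : ValuationSubring EM} {q : ℕ}
  {sM : EM →+* EM} {sN : EN →+* EN}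

/-- **the unit case, with norms known modulo `1 + 𝔪`.** -/
theorem atp_half_unit
    {ι₁ ι₂ : EM →+* EN} {W₁ W₂ : ValuationSubring EN}
    (c11 : W₁.comap ι₁ = VM) (c22 : W₂.comap ι₂ = VM)
    (res₁ : ∀ x ∈ W₁, ∃ a ∈ VM, W₁.valuation (x - ι₁ a) < 1)
    (res₂ : ∀ x ∈ W₂, ∃ a ∈ VM, W₂.valuation (x - ι₂ a) < 1)
    (hsM : ∀ x : EM, x ∈ VM ↔ sM x ∈ VM)
    (hs₁ : ∀ x : EN, x ∈ W₁ ↔ sN x ∈ W₁)
    (comm₁ : ∀ x : EM, sN (ι₁ x) = ι₁ (sM x))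
    (kron₁ : ∀ c ∈ VM, W₁.valuation (ι₁ c ^ q - ι₂ (sM c)) < 1)
    (kron₂ : ∀ c ∈ VM, W₂.valuation (ι₂ c ^ q - ι₁ (sM c)) < 1)
    (N₁ N₂ : EN → EM)
    (hN₁ : ∀ f : EN, f ∈ W₁ → f ∈ W₂ → ∀ a₁ a₂ : EM, W₁.valuation (f - ι₁ a₁) < 1 →
      W₂.valuation (f ^ q - ι₁ a₂) < 1 → VM.valuation (N₁ f - a₁ * a₂) < 1)
    (hN₂ : ∀ f : EN, f ∈ W₁ → f ∈ W₂ → ∀ a₁ a₂ : EM, W₂.valuation (f - ι₂ a₁) < 1 →
      W₁.valuation (f ^ q - ι₂ a₂) < 1 → VM.valuation (N₂ f - a₁ * a₂) < 1)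
    {u : EN} (hu₁ : W₁.valuation u = 1) (hu₂ : W₂.valuation u = 1)
    {X₁ X₂ : EM} (hNu₁ : OneUnit VM (N₁ u / X₁)) (hNu₂ : OneUnit VM (N₂ u / X₂)) :
    OneUnit W₁ (sN (sN u) / u / ι₁ (sM X₂ / X₁)) := by
  have huW₁ : u ∈ W₁ := ntwo_mem_of_val_eq_one W₁ hu₁
  have huW₂ : u ∈ W₂ := ntwo_mem_of_val_eq_one W₂ hu₂
  have hu0 : u ≠ 0 := by
    rintro rfl
    rw [map_zero] at hu₁
    exact zero_ne_one hu₁
  obtain ⟨a₁, ha₁V, ha₁⟩ := res₁ u huW₁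
  obtain ⟨b₁, hb₁V, hb₁⟩ := res₂ u huW₂
  have ha₁u : VM.valuation a₁ = 1 := by
    rw [← ntwo_comap_eq_one c11]
    exact ntwo_val_eq_one_of_cong W₁ hu₁ (ntwo_val_symm W₁ ha₁)
  have hb₁u : VM.valuation b₁ = 1 := by
    rw [← ntwo_comap_eq_one c22]
    exact ntwo_val_eq_one_of_cong W₂ hu₂ (ntwo_val_symm W₂ hb₁)
  have hsa₁u : VM.valuation (sM a₁) = 1 := (valuation_map_eq_one_iff VM sM hsM a₁).2 ha₁u
  have hsb₁u : VM.valuation (sM b₁) = 1 := (valuation_map_eq_one_iff VM sM hsM b₁).2 hb₁u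
  have hssa₁u : VM.valuation (sM (sM a₁)) = 1 :=
    (valuation_map_eq_one_iff VM sM hsM (sM a₁)).2 hsa₁u
  have ha₁0 : a₁ ≠ 0 := by
    rintro rfl
    rw [map_zero] at ha₁u
    exact zero_ne_one ha₁u
  have hb₁0 : b₁ ≠ 0 := by
    rintro rfl
    rw [map_zero] at hb₁u
    exact zero_ne_one hb₁u
  -- the `q`-th powers
  have hq₂ : W₂.valuation (u ^ q - ι₁ (sM b₁)) < 1 :=
    ntwo_val_trans W₂ (ntwo_pow_cong W₂ huW₂ ((ntwo_comap_mem c22 b₁).2 hb₁V) hb₁ q)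
      (kron₂ b₁ hb₁V)
  have hq₁ : W₁.valuation (u ^ q - ι₂ (sM a₁)) < 1 :=
    ntwo_val_trans W₁ (ntwo_pow_cong W₁ huW₁ ((ntwo_comap_mem c11 a₁).2 ha₁V) ha₁ q)
      (kron₁ a₁ ha₁V)
  have hX := hN₁ u huW₁ huW₂ a₁ (sM b₁) ha₁ hq₂
  have hY := hN₂ u huW₁ huW₂ b₁ (sM a₁) hb₁ hq₁
  have hXu : VM.valuation (a₁ * sM b₁) = 1 := by rw [map_mul, ha₁u, hsb₁u, one_mul]
  have hYu : VM.valuation (b₁ * sM a₁) = 1 := by rw [map_mul, hb₁u, hsa₁u, one_mul]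
  have hX' : OneUnit VM (N₁ u / (a₁ * sM b₁)) := oneUnit_div_of_val_sub_lt hXu hX
  have hY' : OneUnit VM (N₂ u / (b₁ * sM a₁)) := oneUnit_div_of_val_sub_lt hYu hY
  have hN₁0 : N₁ u ≠ 0 := left_ne_zero_of_mul (a := N₁ u) (b := X₁⁻¹) (by
    rw [← div_eq_mul_inv]; exact hNu₁.ne_zero)
  have hN₂0 : N₂ u ≠ 0 := left_ne_zero_of_mul (a := N₂ u) (b := X₂⁻¹) (by
    rw [← div_eq_mul_inv]; exact hNu₂.ne_zero)
  have hX₁0 : X₁ ≠ 0 := by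
    rintro rfl
    rw [div_zero] at hNu₁
    exact hNu₁.ne_zero rfl
  have hX₂0 : X₂ ≠ 0 := by
    rintro rfl
    rw [div_zero] at hNu₂
    exact hNu₂.ne_zero rfl
  have hsb₁0 : sM b₁ ≠ 0 := (map_ne_zero sM).2 hb₁0
  have hsa₁0 : sM a₁ ≠ 0 := (map_ne_zero sM).2 ha₁0
  have hssa₁0 : sM (sM a₁) ≠ 0 := (map_ne_zero sM).2 hsa₁0
  have hsX₂0 : sM X₂ ≠ 0 := (map_ne_zero sM).2 hX₂0
  -- `a₁ sM b₁ ≡ X₁`, `b₁ sM a₁ ≡ X₂`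
  have E1 : OneUnit VM (a₁ * sM b₁ / X₁) := by
    have e : a₁ * sM b₁ / X₁ = N₁ u / X₁ / (N₁ u / (a₁ * sM b₁)) := by field_simp
    rw [e]
    exact hNu₁.div hX'
  have E2 : OneUnit VM (b₁ * sM a₁ / X₂) := by
    have e : b₁ * sM a₁ / X₂ = N₂ u / X₂ / (N₂ u / (b₁ * sM a₁)) := by field_simp
    rw [e]
    exact hNu₂.div hY'
  have E2' : OneUnit VM (sM b₁ * sM (sM a₁) / sM X₂) := by
    have := (oneUnit_map_iff sM hsM _).2 E2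
    rwa [map_div₀, map_mul] at this
  have E3 : OneUnit VM (sM (sM a₁) / a₁ / (sM X₂ / X₁)) := by
    have e : sM (sM a₁) / a₁ / (sM X₂ / X₁) =
        sM b₁ * sM (sM a₁) / sM X₂ / (a₁ * sM b₁ / X₁) := by field_simp
    rw [e]
    exact E2'.div E1
  have E4 : OneUnit W₁ (ι₁ (sM (sM a₁) / a₁ / (sM X₂ / X₁))) := (oneUnit_comap_iff c11 _).2 E3
  -- on `W₁`
  have hA1 : W₁.valuation (ι₁ a₁) = 1 := (ntwo_comap_eq_one c11 a₁).2 ha₁u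
  have hA0 : ι₁ a₁ ≠ 0 := (map_ne_zero ι₁).2 ha₁0
  have E5 : OneUnit W₁ (u / ι₁ a₁) := oneUnit_div_of_val_sub_lt hA1 ha₁
  have E5' : OneUnit W₁ (sN (sN u) / ι₁ (sM (sM a₁))) := by
    have := (oneUnit_map_iff sN hs₁ _).2 ((oneUnit_map_iff sN hs₁ _).2 E5)
    rwa [map_div₀, map_div₀, comm₁, comm₁] at this
  have hι0 : ι₁ (sM (sM a₁)) ≠ 0 := (map_ne_zero ι₁).2 hssa₁0
  have hιX₁ : ι₁ X₁ ≠ 0 := (map_ne_zero ι₁).2 hX₁0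
  have hιsX₂ : ι₁ (sM X₂) ≠ 0 := (map_ne_zero ι₁).2 hsX₂0
  have e : sN (sN u) / u / ι₁ (sM X₂ / X₁) =
      sN (sN u) / ι₁ (sM (sM a₁)) / (u / ι₁ a₁) * ι₁ (sM (sM a₁) / a₁ / (sM X₂ / X₁)) := by
    simp only [map_div₀]
    field_simp
  rw [e]
  exact (E5'.div E5).mul E4

end Unit

section General

variable {EM EN : Type*} [Field EM] [Field EN] {VM : ValuationSubring EM} {q : ℕ}
  {sM : EM →+* EM} {sN : EN →+* EN}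
  {K₁ : Type*} [Field K₁] [Algebra K₁ EM] [Algebra K₁ EN]

/-- **(f-fun), one sheet**: for ANY `g ≠ 0` whose two norms are constants times `m`-th powers,
`sN (sN g) / g` is a constant times an `m`-th power modulo `1 + 𝔪` on the sheet `W₁`. -/
theorem atp_half
    {ι₁ ι₂ : EM →+* EN} {W₁ W₂ : ValuationSubring EN}
    (c11 : W₁.comap ι₁ = VM) (c22 : W₂.comap ι₂ = VM)
    (res₁ : ∀ x ∈ W₁, ∃ a ∈ VM, W₁.valuation (x - ι₁ a) < 1)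
    (res₂ : ∀ x ∈ W₂, ∃ a ∈ VM, W₂.valuation (x - ι₂ a) < 1)
    (hsM : ∀ x : EM, x ∈ VM ↔ sM x ∈ VM)
    (hs₁ : ∀ x : EN, x ∈ W₁ ↔ sN x ∈ W₁)
    (comm₁ : ∀ x : EM, sN (ι₁ x) = ι₁ (sM x))
    (kron₁ : ∀ c ∈ VM, W₁.valuation (ι₁ c ^ q - ι₂ (sM c)) < 1)
    (kron₂ : ∀ c ∈ VM, W₂.valuation (ι₂ c ^ q - ι₁ (sM c)) < 1)
    (N₁ N₂ : EN →* EM)
    (hN₁ : ∀ f : EN, f ∈ W₁ → f ∈ W₂ → ∀ a₁ a₂ : EM, W₁.valuation (f - ι₁ a₁) < 1 →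
      W₂.valuation (f ^ q - ι₁ a₂) < 1 → VM.valuation (N₁ f - a₁ * a₂) < 1)
    (hN₂ : ∀ f : EN, f ∈ W₁ → f ∈ W₂ → ∀ a₁ a₂ : EM, W₂.valuation (f - ι₂ a₁) < 1 →
      W₁.valuation (f ^ q - ι₂ a₂) < 1 → VM.valuation (N₂ f - a₁ * a₂) < 1)
    -- the constants
    (sK : K₁ →+* K₁)
    (hMK : ∀ c : K₁, sM (algebraMap K₁ EM c) = algebraMap K₁ EM (sK c))
    (hNK : ∀ c : K₁, sN (algebraMap K₁ EN c) = algebraMap K₁ EN (sK c))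
    (hιK : ∀ c : K₁, ι₁ (algebraMap K₁ EM c) = algebraMap K₁ EN c)
    (hN₁K : ∀ c : K₁, N₁ (algebraMap K₁ EN c) = algebraMap K₁ EM (c ^ (q + 1)))
    (hN₂K : ∀ c : K₁, N₂ (algebraMap K₁ EN c) = algebraMap K₁ EM (c ^ (q + 1)))
    (ϖ : K₁) (hϖ : ϖ ≠ 0)
    (hord₁ : ∀ x : EN, x ≠ 0 → ∃ i : ℤ, W₁.valuation (x * (algebraMap K₁ EN ϖ ^ i)⁻¹) = 1)
    (hord₂ : ∀ x : EN, x ≠ 0 → ∃ i : ℤ, W₂.valuation (x * (algebraMap K₁ EN ϖ ^ i)⁻¹) = 1)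
    -- the element of orders `(0, 1)`
    (θ : EN) (hθ₁ : OneUnit W₁ θ) (hθ₂ : OneUnit W₂ (θ / algebraMap K₁ EN ϖ))
    (hθN₁ : OneUnit VM (N₁ θ / algebraMap K₁ EM (ϖ ^ q)))
    (hθN₂ : OneUnit VM (N₂ θ / algebraMap K₁ EM ϖ))
    {g : EN} (hg : g ≠ 0) {m : ℕ} (hm : 0 < m) {c₁ c₂ : K₁} {h₁ h₂ : EM} (hc₁ : c₁ ≠ 0) (hc₂ : c₂ ≠ 0)
    (hNg₁ : N₁ g = algebraMap K₁ EM c₁ * h₁ ^ m) (hNg₂ : N₂ g = algebraMap K₁ EM c₂ * h₂ ^ m) :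
    ∃ (c : K₁) (w : EM), c ≠ 0 ∧ w ≠ 0 ∧
      OneUnit W₁ (sN (sN g) / g / (algebraMap K₁ EN c * ι₁ w ^ m)) := by
  set πN : EN := algebraMap K₁ EN ϖ with hπN
  set πM : EM := algebraMap K₁ EM ϖ with hπM
  have hπN0 : πN ≠ 0 := (map_ne_zero _).2 hϖ
  have hπM0 : πM ≠ 0 := (map_ne_zero _).2 hϖ
  have hθ0 : θ ≠ 0 := hθ₁.ne_zero
  obtain ⟨i, hi⟩ := hord₁ g hg
  obtain ⟨j, hj⟩ := hord₂ g hg
  set d : ℤ := j - i with hd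
  -- the unit `u`
  set u : EN := g * (πN ^ i)⁻¹ * (θ ^ d)⁻¹ with hu
  have hu0 : u ≠ 0 :=
    mul_ne_zero (mul_ne_zero hg (inv_ne_zero (zpow_ne_zero _ hπN0)))
      (inv_ne_zero (zpow_ne_zero _ hθ0))
  have hu₁ : W₁.valuation u = 1 := by
    rw [hu, map_mul, hi, one_mul, map_inv₀, map_zpow₀, hθ₁.val_eq_one, one_zpow, inv_one]
  have hu₂ : W₂.valuation u = 1 := by
    have e : u = g * (πN ^ j)⁻¹ * ((θ / πN) ^ d)⁻¹ := by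
      rw [hu, div_zpow]
      have hj' : j = i + d := by rw [hd]; ring
      rw [hj', zpow_add₀ hπN0]
      have h1 := zpow_ne_zero i hπN0
      have h2 := zpow_ne_zero d hπN0
      have h3 := zpow_ne_zero d hθ0
      field_simp
    rw [e, map_mul, hj, one_mul, map_inv₀, map_zpow₀, hθ₂.val_eq_one, one_zpow, inv_one]
  clear_value u
  -- the norms of `u`
  have hh₁0 : h₁ ^ m ≠ 0 := by
    intro h0
    have := monoidHom_map_ne_zero N₁ hg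
    rw [hNg₁, h0, mul_zero] at this
    exact this rfl
  have hh₂0 : h₂ ^ m ≠ 0 := by
    intro h0
    have := monoidHom_map_ne_zero N₂ hg
    rw [hNg₂, h0, mul_zero] at this
    exact this rfl
  have hh₁ : h₁ ≠ 0 := by
    rintro rfl
    rw [zero_pow hm.ne'] at hh₁0
    exact hh₁0 rfl
  have hh₂ : h₂ ≠ 0 := by
    rintro rfl
    rw [zero_pow hm.ne'] at hh₂0
    exact hh₂0 rfl
  have hN₁u : N₁ u = N₁ g * (N₁ πN ^ i)⁻¹ * (N₁ θ ^ d)⁻¹ := by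
    rw [hu, map_mul, map_mul, monoidHom_map_inv₀ N₁ (zpow_ne_zero _ hπN0),
      monoidHom_map_inv₀ N₁ (zpow_ne_zero _ hθ0), monoidHom_map_zpow₀ N₁ hπN0,
      monoidHom_map_zpow₀ N₁ hθ0]
  have hN₂u : N₂ u = N₂ g * (N₂ πN ^ i)⁻¹ * (N₂ θ ^ d)⁻¹ := by
    rw [hu, map_mul, map_mul, monoidHom_map_inv₀ N₂ (zpow_ne_zero _ hπN0),
      monoidHom_map_inv₀ N₂ (zpow_ne_zero _ hθ0), monoidHom_map_zpow₀ N₂ hπN0,
      monoidHom_map_zpow₀ N₂ hθ0]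
  -- the constants
  set c₁' : K₁ := c₁ * ((ϖ ^ (q + 1)) ^ i)⁻¹ * ((ϖ ^ q) ^ d)⁻¹ with hc₁'
  set c₂' : K₁ := c₂ * ((ϖ ^ (q + 1)) ^ i)⁻¹ * (ϖ ^ d)⁻¹ with hc₂'
  have hϖq1 : ϖ ^ (q + 1) ≠ 0 := pow_ne_zero _ hϖ
  have hϖq : ϖ ^ q ≠ 0 := pow_ne_zero _ hϖ
  have hc₁'0 : c₁' ≠ 0 :=
    mul_ne_zero (mul_ne_zero hc₁ (inv_ne_zero (zpow_ne_zero _ hϖq1)))
      (inv_ne_zero (zpow_ne_zero _ hϖq))
  have hc₂'0 : c₂' ≠ 0 :=
    mul_ne_zero (mul_ne_zero hc₂ (inv_ne_zero (zpow_ne_zero _ hϖq1)))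
      (inv_ne_zero (zpow_ne_zero _ hϖ))
  set X₁ : EM := algebraMap K₁ EM c₁' * h₁ ^ m with hX₁def
  set X₂ : EM := algebraMap K₁ EM c₂' * h₂ ^ m with hX₂def
  have hκ₁ : algebraMap K₁ EM c₁ ≠ 0 := (map_ne_zero _).2 hc₁
  have hκ₂ : algebraMap K₁ EM c₂ ≠ 0 := (map_ne_zero _).2 hc₂
  have hP0 : algebraMap K₁ EM (ϖ ^ (q + 1)) ≠ 0 := (map_ne_zero _).2 hϖq1
  have hQ0 : algebraMap K₁ EM (ϖ ^ q) ≠ 0 := (map_ne_zero _).2 hϖq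
  have hT₁0 : N₁ θ ≠ 0 := monoidHom_map_ne_zero N₁ hθ0
  have hT₂0 : N₂ θ ≠ 0 := monoidHom_map_ne_zero N₂ hθ0
  have hX₁ : OneUnit VM (N₁ u / X₁) := by
    have e : N₁ u / X₁ = ((N₁ θ / algebraMap K₁ EM (ϖ ^ q)) ^ d)⁻¹ := by
      rw [hN₁u, hNg₁, hN₁K ϖ, hX₁def, hc₁', map_mul, map_mul, map_inv₀, map_inv₀, map_zpow₀,
        map_zpow₀, div_zpow]
      have ha := zpow_ne_zero i hP0
      have hb := zpow_ne_zero d hQ0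
      have hc := zpow_ne_zero d hT₁0
      field_simp
    rw [e]
    exact (hθN₁.zpow d).inv
  have hX₂ : OneUnit VM (N₂ u / X₂) := by
    have e : N₂ u / X₂ = ((N₂ θ / algebraMap K₁ EM ϖ) ^ d)⁻¹ := by
      rw [hN₂u, hNg₂, hN₂K ϖ, hX₂def, hc₂', map_mul, map_mul, map_inv₀, map_inv₀, map_zpow₀,
        map_zpow₀, div_zpow]
      have ha := zpow_ne_zero i hP0
      have hb := zpow_ne_zero d hπM0
      have hc := zpow_ne_zero d hT₂0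
      field_simp
    rw [e]
    exact (hθN₂.zpow d).inv
  clear_value c₁' c₂'
  have key := atp_half_unit (q := q) (sM := sM) (sN := sN) c11 c22 res₁ res₂ hsM hs₁ comm₁ kron₁
    kron₂ N₁ N₂ hN₁ hN₂ hu₁ hu₂ hX₁ hX₂
  -- `θ`
  have hθs : OneUnit W₁ (sN (sN θ) / θ) :=
    ((oneUnit_map_iff sN hs₁ _).2 ((oneUnit_map_iff sN hs₁ _).2 hθ₁)).div hθ₁
  refine ⟨sK c₂' / c₁' * (sK (sK ϖ) / ϖ) ^ i, sM h₂ / h₁, ?_, ?_, ?_⟩
  · refine mul_ne_zero (div_ne_zero ((map_ne_zero sK).2 hc₂'0) hc₁'0) (zpow_ne_zero _ ?_)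
    exact div_ne_zero ((map_ne_zero sK).2 ((map_ne_zero sK).2 hϖ)) hϖ
  · exact div_ne_zero ((map_ne_zero sM).2 hh₂) hh₁
  · have hg' : g = u * πN ^ i * θ ^ d := by
      rw [hu]
      have h1 := zpow_ne_zero i hπN0
      have h3 := zpow_ne_zero d hθ0
      field_simp
    have hsπ : sN (sN πN) = algebraMap K₁ EN (sK (sK ϖ)) := by rw [hπN, hNK, hNK]
    have e1 : sN (sN g) = sN (sN u) * algebraMap K₁ EN (sK (sK ϖ)) ^ i * sN (sN θ) ^ d := by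
      conv_lhs => rw [hg']
      rw [map_mul, map_mul, map_mul, map_mul, map_zpow₀, map_zpow₀, map_zpow₀, map_zpow₀, hsπ]
    have e2 : ι₁ (sM X₂ / X₁) = algebraMap K₁ EN (sK c₂') * ι₁ (sM h₂) ^ m /
        (algebraMap K₁ EN c₁' * ι₁ h₁ ^ m) := by
      rw [hX₁def, hX₂def, map_div₀, map_mul, map_mul, map_mul, map_pow, map_pow, map_pow, hMK,
        hιK, hιK]
    have e : sN (sN g) / g / (algebraMap K₁ EN (sK c₂' / c₁' * (sK (sK ϖ) / ϖ) ^ i) *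
        ι₁ (sM h₂ / h₁) ^ m) =
        sN (sN u) / u / ι₁ (sM X₂ / X₁) * (sN (sN θ) / θ) ^ d := by
      rw [e2, e1]
      conv_lhs => rw [hg']
      rw [map_mul, map_div₀, map_zpow₀, map_div₀, map_div₀, div_zpow, div_zpow, div_pow]
      have h1 := zpow_ne_zero i hπN0
      have h3 := zpow_ne_zero d hθ0
      have h4 : algebraMap K₁ EN c₁' ≠ 0 := (map_ne_zero _).2 hc₁'0
      have h5 : algebraMap K₁ EN (sK c₂') ≠ 0 := (map_ne_zero _).2 ((map_ne_zero sK).2 hc₂'0)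
      have h6 : ι₁ h₁ ≠ 0 := (map_ne_zero ι₁).2 hh₁
      have h7 : ι₁ (sM h₂) ≠ 0 := (map_ne_zero ι₁).2 ((map_ne_zero sM).2 hh₂)
      have h8 : algebraMap K₁ EN (sK (sK ϖ)) ≠ 0 :=
        (map_ne_zero _).2 ((map_ne_zero sK).2 ((map_ne_zero sK).2 hϖ))
      have h9 := zpow_ne_zero i h8
      have h10 : sN (sN θ) ≠ 0 := (map_ne_zero sN).2 ((map_ne_zero sN).2 hθ0)
      have h11 := zpow_ne_zero d h10
      field_simp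
      rw [hπN]
    rw [e]
    exact key.mul (hθs.zpow d)

/-- **(f-fun), both sheets.** -/
theorem atp_frob_sq
    {ι₁ ι₂ : EM →+* EN} {W₁ W₂ : ValuationSubring EN}
    (c11 : W₁.comap ι₁ = VM) (c22 : W₂.comap ι₂ = VM)
    (res₁ : ∀ x ∈ W₁, ∃ a ∈ VM, W₁.valuation (x - ι₁ a) < 1)
    (res₂ : ∀ x ∈ W₂, ∃ a ∈ VM, W₂.valuation (x - ι₂ a) < 1)
    (hsM : ∀ x : EM, x ∈ VM ↔ sM x ∈ VM)
    (hs₁ : ∀ x : EN, x ∈ W₁ ↔ sN x ∈ W₁) (hs₂ : ∀ x : EN, x ∈ W₂ ↔ sN x ∈ W₂)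
    (comm₁ : ∀ x : EM, sN (ι₁ x) = ι₁ (sM x)) (comm₂ : ∀ x : EM, sN (ι₂ x) = ι₂ (sM x))
    (kron₁ : ∀ c ∈ VM, W₁.valuation (ι₁ c ^ q - ι₂ (sM c)) < 1)
    (kron₂ : ∀ c ∈ VM, W₂.valuation (ι₂ c ^ q - ι₁ (sM c)) < 1)
    (N₁ N₂ : EN →* EM)
    (hN₁ : ∀ f : EN, f ∈ W₁ → f ∈ W₂ → ∀ a₁ a₂ : EM, W₁.valuation (f - ι₁ a₁) < 1 →
      W₂.valuation (f ^ q - ι₁ a₂) < 1 → VM.valuation (N₁ f - a₁ * a₂) < 1)
    (hN₂ : ∀ f : EN, f ∈ W₁ → f ∈ W₂ → ∀ a₁ a₂ : EM, W₂.valuation (f - ι₂ a₁) < 1 →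
      W₁.valuation (f ^ q - ι₂ a₂) < 1 → VM.valuation (N₂ f - a₁ * a₂) < 1)
    (sK : K₁ →+* K₁)
    (hMK : ∀ c : K₁, sM (algebraMap K₁ EM c) = algebraMap K₁ EM (sK c))
    (hNK : ∀ c : K₁, sN (algebraMap K₁ EN c) = algebraMap K₁ EN (sK c))
    (hι₁K : ∀ c : K₁, ι₁ (algebraMap K₁ EM c) = algebraMap K₁ EN c)
    (hι₂K : ∀ c : K₁, ι₂ (algebraMap K₁ EM c) = algebraMap K₁ EN c)
    (hN₁K : ∀ c : K₁, N₁ (algebraMap K₁ EN c) = algebraMap K₁ EM (c ^ (q + 1)))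
    (hN₂K : ∀ c : K₁, N₂ (algebraMap K₁ EN c) = algebraMap K₁ EM (c ^ (q + 1)))
    (ϖ : K₁) (hϖ : ϖ ≠ 0)
    (hord₁ : ∀ x : EN, x ≠ 0 → ∃ i : ℤ, W₁.valuation (x * (algebraMap K₁ EN ϖ ^ i)⁻¹) = 1)
    (hord₂ : ∀ x : EN, x ≠ 0 → ∃ i : ℤ, W₂.valuation (x * (algebraMap K₁ EN ϖ ^ i)⁻¹) = 1)
    (θ : EN) (hθ₁ : OneUnit W₁ θ) (hθ₂ : OneUnit W₂ (θ / algebraMap K₁ EN ϖ))
    (hθN₁ : OneUnit VM (N₁ θ / algebraMap K₁ EM (ϖ ^ q)))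
    (hθN₂ : OneUnit VM (N₂ θ / algebraMap K₁ EM ϖ))
    {g : EN} (hg : g ≠ 0) {m : ℕ} (hm : 0 < m) {c₁ c₂ : K₁} {h₁ h₂ : EM} (hc₁ : c₁ ≠ 0)
    (hc₂ : c₂ ≠ 0)
    (hNg₁ : N₁ g = algebraMap K₁ EM c₁ * h₁ ^ m) (hNg₂ : N₂ g = algebraMap K₁ EM c₂ * h₂ ^ m) :
    (∃ (c : K₁) (w : EM), c ≠ 0 ∧ w ≠ 0 ∧
      OneUnit W₁ (sN (sN g) / g / (algebraMap K₁ EN c * ι₁ w ^ m))) ∧
    (∃ (c : K₁) (w : EM), c ≠ 0 ∧ w ≠ 0 ∧
      OneUnit W₂ (sN (sN g) / g / (algebraMap K₁ EN c * ι₂ w ^ m))) := by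
  refine ⟨atp_half (q := q) (sM := sM) (sN := sN) c11 c22 res₁ res₂ hsM hs₁ comm₁ kron₁ kron₂ N₁ N₂
    hN₁ hN₂ sK hMK hNK hι₁K hN₁K hN₂K ϖ hϖ hord₁ hord₂ θ hθ₁ hθ₂ hθN₁ hθN₂ hg hm hc₁ hc₂ hNg₁ hNg₂,
    ?_⟩
  have hπN0 : algebraMap K₁ EN ϖ ≠ 0 := (map_ne_zero _).2 hϖ
  have hπM0 : algebraMap K₁ EM ϖ ≠ 0 := (map_ne_zero _).2 hϖ
  have hθ0 : θ ≠ 0 := hθ₁.ne_zero
  have hT₁0 : N₁ θ ≠ 0 := monoidHom_map_ne_zero N₁ hθ0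
  have hT₂0 : N₂ θ ≠ 0 := monoidHom_map_ne_zero N₂ hθ0
  have hQ0 : algebraMap K₁ EM (ϖ ^ q) ≠ 0 := (map_ne_zero _).2 (pow_ne_zero _ hϖ)
  -- the element `θ' = ϖ / θ` of orders `(1, 0)`
  have h1 : OneUnit W₂ (algebraMap K₁ EN ϖ / θ) := by
    have := hθ₂.inv
    rwa [inv_div] at this
  have h2 : OneUnit W₁ (algebraMap K₁ EN ϖ / θ / algebraMap K₁ EN ϖ) := by
    have e : algebraMap K₁ EN ϖ / θ / algebraMap K₁ EN ϖ = θ⁻¹ := by field_simp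
    rw [e]
    exact hθ₁.inv
  have h3 : OneUnit VM (N₂ (algebraMap K₁ EN ϖ / θ) / algebraMap K₁ EM (ϖ ^ q)) := by
    have e : N₂ (algebraMap K₁ EN ϖ / θ) / algebraMap K₁ EM (ϖ ^ q) =
        (N₂ θ / algebraMap K₁ EM ϖ)⁻¹ := by
      rw [div_eq_mul_inv (algebraMap K₁ EN ϖ) θ, map_mul, monoidHom_map_inv₀ N₂ hθ0, hN₂K,
        pow_succ, map_mul, map_pow]
      have := pow_ne_zero q hπM0
      field_simp
    rw [e]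
    exact hθN₂.inv
  have h4 : OneUnit VM (N₁ (algebraMap K₁ EN ϖ / θ) / algebraMap K₁ EM ϖ) := by
    have e : N₁ (algebraMap K₁ EN ϖ / θ) / algebraMap K₁ EM ϖ =
        (N₁ θ / algebraMap K₁ EM (ϖ ^ q))⁻¹ := by
      rw [div_eq_mul_inv (algebraMap K₁ EN ϖ) θ, map_mul, monoidHom_map_inv₀ N₁ hθ0, hN₁K,
        pow_succ, map_mul, map_pow]
      have := pow_ne_zero q hπM0
      field_simp
    rw [e]
    exact hθN₁.inv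
  exact atp_half (q := q) (sM := sM) (sN := sN) c22 c11 res₂ res₁ hsM hs₂ comm₂ kron₂ kron₁ N₂ N₁
    (fun f hf₂ hf₁ a₁ a₂ ha₁ ha₂ => hN₂ f hf₁ hf₂ a₁ a₂ ha₁ ha₂)
    (fun f hf₂ hf₁ a₁ a₂ ha₁ ha₂ => hN₁ f hf₁ hf₂ a₁ a₂ ha₁ ha₂)
    sK hMK hNK hι₂K hN₂K hN₁K ϖ hϖ hord₂ hord₁ (algebraMap K₁ EN ϖ / θ) h1 h2 h3 h4 hg hm hc₂ hc₁
    hNg₂ hNg₁

/-- **(g-fun)**: for `g ∈ E_Mˣ`, `sM (sM g) · g ^ q / T (sM g)` is a constant modulo `1 + 𝔪` on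
`V_M`, where `T = N₁ ∘ ι₂`. -/
theorem atp_hecke
    {ι₁ ι₂ : EM →+* EN} {W₁ W₂ : ValuationSubring EN}
    (c12 : W₁.comap ι₂ = VM) (c22 : W₂.comap ι₂ = VM)
    (hsM : ∀ x : EM, x ∈ VM ↔ sM x ∈ VM)
    (kron₁ : ∀ c ∈ VM, W₁.valuation (ι₁ c ^ q - ι₂ (sM c)) < 1)
    (kron₂ : ∀ c ∈ VM, W₂.valuation (ι₂ c ^ q - ι₁ (sM c)) < 1)
    (N₁ : EN →* EM)
    (hN₁ : ∀ f : EN, f ∈ W₁ → f ∈ W₂ → ∀ a₁ a₂ : EM, W₁.valuation (f - ι₁ a₁) < 1 →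
      W₂.valuation (f ^ q - ι₁ a₂) < 1 → VM.valuation (N₁ f - a₁ * a₂) < 1)
    (sK : K₁ →+* K₁)
    (hMK : ∀ c : K₁, sM (algebraMap K₁ EM c) = algebraMap K₁ EM (sK c))
    (hι₂K : ∀ c : K₁, ι₂ (algebraMap K₁ EM c) = algebraMap K₁ EN c)
    (hN₁K : ∀ c : K₁, N₁ (algebraMap K₁ EN c) = algebraMap K₁ EM (c ^ (q + 1)))
    (ϖ : K₁) (hϖ : ϖ ≠ 0)
    (hordM : ∀ x : EM, x ≠ 0 → ∃ i : ℤ, VM.valuation (x * (algebraMap K₁ EM ϖ ^ i)⁻¹) = 1)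
    {g : EM} (hg : g ≠ 0) :
    ∃ c : K₁, c ≠ 0 ∧
      OneUnit VM (sM (sM g) * g ^ q / N₁ (ι₂ (sM g)) / algebraMap K₁ EM c) := by
  set πM : EM := algebraMap K₁ EM ϖ with hπM
  have hπM0 : πM ≠ 0 := (map_ne_zero _).2 hϖ
  obtain ⟨i, hi⟩ := hordM g hg
  set g₀ : EM := g * (πM ^ i)⁻¹ with hg₀
  have hg₀0 : g₀ ≠ 0 := mul_ne_zero hg (inv_ne_zero (zpow_ne_zero _ hπM0))
  have hgg₀ : g = πM ^ i * g₀ := by
    rw [hg₀]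
    have := zpow_ne_zero i hπM0
    field_simp
  clear_value g₀
  have hg₀V : g₀ ∈ VM := ntwo_mem_of_val_eq_one VM hi
  set s₀ : EM := sM g₀ with hs₀
  have hs₀u : VM.valuation s₀ = 1 := (valuation_map_eq_one_iff VM sM hsM g₀).2 hi
  have hs₀V : s₀ ∈ VM := ntwo_mem_of_val_eq_one VM hs₀u
  have hss₀u : VM.valuation (sM s₀) = 1 := (valuation_map_eq_one_iff VM sM hsM s₀).2 hs₀u
  have hs₀0 : s₀ ≠ 0 := (map_ne_zero sM).2 hg₀0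
  set f : EN := ι₂ s₀ with hf
  have hf0 : f ≠ 0 := (map_ne_zero ι₂).2 hs₀0
  have hfW₁ : f ∈ W₁ := (ntwo_comap_mem c12 s₀).2 hs₀V
  have hfW₂ : f ∈ W₂ := (ntwo_comap_mem c22 s₀).2 hs₀V
  have ha₁ : W₁.valuation (f - ι₁ (g₀ ^ q)) < 1 := by
    rw [map_pow]
    exact ntwo_val_symm W₁ (kron₁ g₀ hg₀V)
  have ha₂ : W₂.valuation (f ^ q - ι₁ (sM s₀)) < 1 := kron₂ s₀ hs₀V
  have hX := hN₁ f hfW₁ hfW₂ (g₀ ^ q) (sM s₀) ha₁ ha₂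
  have hXu : VM.valuation (g₀ ^ q * sM s₀) = 1 := by
    rw [map_mul, map_pow, hi, one_pow, one_mul, hss₀u]
  have hX' : OneUnit VM (N₁ f / (g₀ ^ q * sM s₀)) := oneUnit_div_of_val_sub_lt hXu hX
  have hsϖ0 : sK ϖ ≠ 0 := (map_ne_zero sK).2 hϖ
  have hssϖ0 : sK (sK ϖ) ≠ 0 := (map_ne_zero sK).2 hsϖ0
  refine ⟨sK (sK ϖ) ^ i * (ϖ ^ i) ^ q * (((sK ϖ) ^ (q + 1)) ^ i)⁻¹,
    mul_ne_zero (mul_ne_zero (zpow_ne_zero _ hssϖ0) (pow_ne_zero _ (zpow_ne_zero _ hϖ)))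
      (inv_ne_zero (zpow_ne_zero _ (pow_ne_zero _ hsϖ0))), ?_⟩
  have e1 : sM g = algebraMap K₁ EM (sK ϖ) ^ i * s₀ := by
    rw [hgg₀, map_mul, map_zpow₀, hπM, hMK]
  have e2 : sM (sM g) = algebraMap K₁ EM (sK (sK ϖ)) ^ i * sM s₀ := by
    rw [e1, map_mul, map_zpow₀, hMK]
  have hA0 : algebraMap K₁ EN (sK ϖ) ≠ 0 := (map_ne_zero _).2 hsϖ0
  have e3 : N₁ (ι₂ (sM g)) = algebraMap K₁ EM ((sK ϖ) ^ (q + 1)) ^ i * N₁ f := by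
    rw [e1, map_mul, map_zpow₀, hι₂K, map_mul, monoidHom_map_zpow₀ N₁ hA0, hN₁K]
  have hN₁f0 : N₁ f ≠ 0 := monoidHom_map_ne_zero N₁ hf0
  have hss₀0 : sM s₀ ≠ 0 := (map_ne_zero sM).2 hs₀0
  have e : sM (sM g) * g ^ q / N₁ (ι₂ (sM g)) /
      algebraMap K₁ EM (sK (sK ϖ) ^ i * (ϖ ^ i) ^ q * (((sK ϖ) ^ (q + 1)) ^ i)⁻¹) =
      (N₁ f / (g₀ ^ q * sM s₀))⁻¹ := by
    rw [e2, e3]
    conv_lhs => rw [hgg₀]
    simp only [map_mul, map_inv₀, map_zpow₀, map_pow, mul_pow]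
    rw [← hπM]
    have h1 : algebraMap K₁ EM (sK (sK ϖ)) ≠ 0 := (map_ne_zero _).2 hssϖ0
    have h2 := zpow_ne_zero i h1
    have h3 := zpow_ne_zero i hπM0
    have h4 : algebraMap K₁ EM (sK ϖ) ≠ 0 := (map_ne_zero _).2 hsϖ0
    have h4' := pow_ne_zero (q + 1) h4
    have h5 := zpow_ne_zero i h4'
    have h6 := pow_ne_zero q hg₀0
    have h7 := pow_ne_zero q h3
    field_simp
  rw [e]
  exact hX'.inv

end General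

end Fermat.Agent.ML
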