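/-
S59 / AT-P — helper5 — **[ATP-B], part 6: the HECKE step at `q = p`** (model side of the old case).

Generic discrete valuation base `R` (`K = Frac R ⊇ ℚ`, residue characteristic `q ∤ M`), a Frobenius
lift `(τ, τR)`, `s` = the coefficientwise action of `τ` on the level field `F_M(K)`,
`T = N_A ∘ B` the Hecke operator at `q` on functions.  For every `g ∈ F_M(K)ˣ`:

  `s (s g) · g ^ q / T (s g)`  is a non-zero constant modulo `1 + 𝔪` along the Gauss valuation `V_M`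

(`keyFq_heckeStep_gen` = `ML.atp_hecke` on S35's F-level model `keyFq_ssModelFrob` +
`host_norm_reduction_A`), at every Galois base (`keyFq_heckeStep`), and on the Legendre hosts
(`leg_heckeStep`).
-/
import Mathlib
import Fermat.Agent.ML.ATP_helper5_Leaf
import Fermat.Agent.ML.ATPB_helper5_Norm
import Fermat.Agent.S36.HOST36_helper7_Family
import Fermat.Agent.NP.BASEP_helper2_DegGen

set_option autoImplicit false
set_option linter.unusedSectionVars false
set_option linter.unusedVariables false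
set_option linter.style.haveILetI false
set_option synthInstance.maxHeartbeats 200000

open ModularCurve Fermat.Agent.Igusa Fermat.Agent.JA Fermat.Agent.SS Fermat.Agent.X0N

namespace Fermat.Agent.ML

open Fermat.Agent.S35

section Gauss

variable {R : Type*} [CommRing R] [IsDomain R] [IsDiscreteValuationRing R]
  {L : Type*} [Field L] [Algebra R L] [IsFractionRing R L]

/-- **every non-zero element of a field with a Gauss valuation is `π ^ i` times a unit.** -/
theorem gaussValSub_exists_zpow_val_eq_one {π : R} (hπ : Irreducible π)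
    (M : IntermediateField L (LaurentSeries L)) (hM : M ≤ gaussField R L) {x : ↥M} (hx : x ≠ 0) :
    ∃ i : ℤ, (gaussValSub R L M hM).valuation
      (x * (algebraMap L ↥M (algebraMap R L π) ^ i)⁻¹) = 1 := by
  set V := gaussValSub R L M hM with hV
  set ϖ : ↥M := algebraMap L ↥M (algebraMap R L π) with hϖ
  have hϖC : ((gaussValSubC M hM π : ↥V) : ↥M) = ϖ := rfl
  have hmax := maximalIdeal_gaussValSub hπ M hM
  have hϖ0 : ϖ ≠ 0 := by
    intro h0
    exact gaussValSubC_ne_zero hπ.ne_zero M hM (Subtype.ext (hϖC.trans h0))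
  have hlt : V.valuation ϖ < 1 := by
    have h1 : gaussValSubC M hM π ∈ IsLocalRing.maximalIdeal ↥V := by
      rw [hmax]
      exact Ideal.subset_span rfl
    rw [ValuationSubring.valuation_lt_one_iff] at h1
    exact h1
  have hu : ∀ y : ↥M, V.valuation y < 1 → y * ϖ⁻¹ ∈ V := by
    intro y hy
    have hyV : y ∈ V := (ValuationSubring.valuation_le_one_iff V y).mp hy.le
    have h1 : (⟨y, hyV⟩ : ↥V) ∈ IsLocalRing.maximalIdeal ↥V := by
      rw [ValuationSubring.valuation_lt_one_iff]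
      exact hy
    rw [hmax, Ideal.mem_span_singleton] at h1
    obtain ⟨z, hz⟩ := h1
    have h2 : y = ϖ * (z : ↥M) := by
      have := congrArg (fun t : ↥V => (t : ↥M)) hz
      exact this
    rw [h2, mul_comm, ← mul_assoc, inv_mul_cancel₀ hϖ0, one_mul]
    exact z.2
  obtain ⟨n, hn⟩ := S36.exists_zpow_val_eq_one V hlt hϖ0 hu x hx
  exact ⟨n, by rwa [zpow_neg] at hn⟩

end Gauss

section Main

variable {R : Type*} [CommRing R] [IsDomain R] [IsDiscreteValuationRing R]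
  {K : Type*} [Field K] [Algebra R K] [IsFractionRing R K] [Algebra ℚ K]
  (ι : K →+* ℂ) {M q : ℕ} [NeZero M] [NeZero q] [NeZero (M * q)] {x y : ℤ}
  (h : (q : ℤ) * x + M * y = 1) (hq : q.Prime)
  (τ : K ≃ₐ[ℚ] K) (τR : R →+* R)
  (hτ : ∀ r : R, τ (algebraMap R K r) = algebraMap R K (τR r))

local notation "kR" => IsLocalRing.ResidueField R

set_option maxHeartbeats 1600000 in
include ι h hq hτ in
/-- **the HECKE step at the F-level, generic base.** -/
theorem keyFq_heckeStep_gen (hqM : ¬ q ∣ M) (hchar : (q : kR) = 0) {π : R} (hπ : Irreducible π)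
    (hfrobπ : ∀ r : R, τR r - r ^ q ∈ Ideal.span {π}) (hbij : Function.Bijective τR)
    {g : ↥(keyFq K M)} (hg : g ≠ 0) :
    ∃ c : K, c ≠ 0 ∧ OneUnit (keyFqWinf R K M)
      (coeffRingAut (coeffStable_keyFq K M) τ (coeffRingAut (coeffStable_keyFq K M) τ g) * g ^ q /
        hostNormA (keyFq K M) (keyFq K (M * q)) (keyFq_le_of_dvd K (dvd_mul_right M q))
          (keyFqB K M q (coeffRingAut (coeffStable_keyFq K M) τ g)) /
        algebraMap K ↥(keyFq K M) c) := by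
  classical
  haveI : CharZero K := algebraRat.charZero K
  haveI : CharP kR q := charP_of_prime_of_natCast_eq_zero hq hchar
  haveI : ExpChar kR q := ExpChar.prime hq
  have hEM : keyFq K M ≤ gaussField R K := laurentBaseChange_full_le_gaussField R K M
  have hEN : keyFq K (M * q) ≤ gaussField R K := laurentBaseChange_full_le_gaussField R K (M * q)
  have hle : keyFq K M ≤ keyFq K (M * q) := keyFq_le_of_dvd K (dvd_mul_right M q)
  have hB : ∀ f ∈ keyFq K M, qExpand K q f ∈ keyFq K (M * q) :=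
    fun _ hf => qExpand_mem_keyFq K (by rw [mul_comm]) hf
  -- the model
  have hF := keyFq_ssModelFrob ι h hq τ τR hτ hπ (j := (1 : K)) (by rw [map_one, map_one])
    hfrobπ hbij
  -- restrictions of the sheets
  have cBinf : (keyFqWinf R K (M * q)).comap
      (keyFqB K M q : ↥(keyFq K M) →+* ↥(keyFq K (M * q))) = keyFqWinf R K M :=
    comap_hostB_gaussValSub (R := R) (keyFq K M) (keyFq K (M * q)) q hB hEM hEN
  have cA0 := keyFqW0_comap_keyFqA (R := R) ι h hq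
  have cB0 := keyFqW0_comap_keyFqB (R := R) ι h hq
  -- the coordinate `j`
  have hJc : ((jGen K M : ↥(keyFq K M)) : LaurentSeries K) = jqModC K :=
    coeffEmb_jq_eq_jqModC K
  have hJ : ((jGen K M : ↥(keyFq K M)) : LaurentSeries K) ∈ gaussInt R K := by
    rw [hJc]; exact jqModC_mem_gaussInt R K
  have hJred : gaussRed R K ⟨((jGen K M : ↥(keyFq K M)) : LaurentSeries K), hJ⟩ = jqModC kR := by
    have e : (⟨((jGen K M : ↥(keyFq K M)) : LaurentSeries K), hJ⟩ : gaussInt R K) =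
        ⟨jqModC K, jqModC_mem_gaussInt R K⟩ := Subtype.ext hJc
    rw [e, gaussRed_jqModC]
  have hJo : (gaussRed R K ⟨((jGen K M : ↥(keyFq K M)) : LaurentSeries K), hJ⟩).order =
      -((1 : ℕ) : ℤ) := by
    rw [hJred]
    have := order_jqNModC_field kR 1
    rwa [jqNModC, qExpand_one_apply] at this
  have hJ0 : gaussRed R K ⟨((jGen K M : ↥(keyFq K M)) : LaurentSeries K), hJ⟩ ≠ 0 := by
    intro h0
    rw [h0, HahnSeries.order_zero] at hJo
    simp at hJo
  have hkron : (keyFqW0 R K ι h hq).valuation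
      (hostA (keyFq K M) (keyFq K (M * q)) hle (jGen K M) -
        hostB (keyFq K M) (keyFq K (M * q)) q hB (jGen K M) ^ q) < 1 := by
    have h1 := hF.kron_zero (jGen K M) hJ
    have hs : ((coeffRingAut (coeffStable_keyFq K M) τ : ↥(keyFq K M) ≃+* ↥(keyFq K M)) :
        ↥(keyFq K M) →+* ↥(keyFq K M)) (jGen K M) = jGen K M := coeffRingAut_jGen_keyFq τ
    rw [hs, Valuation.map_sub_swap] at h1
    exact h1
  -- degrees
  obtain ⟨hfinA, hdegA⟩ := deg2_finrank_keyFq ι hq hqM hle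
  -- norm reduction
  have hNAred : ∀ f : ↥(keyFq K (M * q)), f ∈ keyFqWinf R K (M * q) → f ∈ keyFqW0 R K ι h hq →
      ∀ a₁ a₂ : ↥(keyFq K M), (keyFqWinf R K (M * q)).valuation (f - keyFqA K M q a₁) < 1 →
      (keyFqW0 R K ι h hq).valuation (f ^ q - keyFqA K M q a₂) < 1 →
      (keyFqWinf R K M).valuation
        (hostNormA (keyFq K M) (keyFq K (M * q)) hle f - a₁ * a₂) < 1 :=
    fun f hfinf hf0 a₁ a₂ hc₁ hc₂ =>
      (host_norm_reduction_A (R := R) (keyFq K M) (keyFq K (M * q)) hle q hB hEM hEN hq hchar 1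
        (Nat.coprime_one_left q) (jGen K M) hJ hJo hJ0 hfinA hdegA.le (keyFqW0 R K ι h hq) cA0 cB0
        hkron hfinf hf0 hc₁ hc₂).2
  -- the norm of a constant
  have hNK : ∀ c : K, hostNormA (keyFq K M) (keyFq K (M * q)) hle
      (algebraMap K ↥(keyFq K (M * q)) c) = algebraMap K ↥(keyFq K M) (c ^ (q + 1)) := by
    intro c
    letI := Host.inclAlg hle
    have e1 : algebraMap K ↥(keyFq K (M * q)) c =
        algebraMap ↥(keyFq K M) ↥(keyFq K (M * q)) (algebraMap K ↥(keyFq K M) c) := rfl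
    show Algebra.norm ↥(keyFq K M) (algebraMap K ↥(keyFq K (M * q)) c) = _
    rw [e1, Algebra.norm_algebraMap, hdegA, map_pow]
  -- discreteness
  have hordM : ∀ z : ↥(keyFq K M), z ≠ 0 → ∃ i : ℤ, (keyFqWinf R K M).valuation
      (z * (algebraMap K ↥(keyFq K M) (algebraMap R K π) ^ i)⁻¹) = 1 :=
    fun z hz => gaussValSub_exists_zpow_val_eq_one hπ (keyFq K M) hEM hz
  have hπK : algebraMap R K π ≠ 0 := by
    rw [Ne, map_eq_zero_iff _ (IsFractionRing.injective R K)]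
    exact hπ.ne_zero
  exact atp_hecke (q := q) (VM := keyFqWinf R K M)
    (sM := ((coeffRingAut (coeffStable_keyFq K M) τ : ↥(keyFq K M) ≃+* ↥(keyFq K M)) :
      ↥(keyFq K M) →+* ↥(keyFq K M)))
    (ι₁ := (keyFqA K M q : ↥(keyFq K M) →+* ↥(keyFq K (M * q))))
    (ι₂ := (keyFqB K M q : ↥(keyFq K M) →+* ↥(keyFq K (M * q))))
    (W₁ := keyFqWinf R K (M * q)) (W₂ := keyFqW0 R K ι h hq)
    cBinf cB0 hF.mem_VM hF.kron_inf hF.kron_zero
    (hostNormA (keyFq K M) (keyFq K (M * q)) hle) hNAred (τ : K →+* K)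
    (fun c => coeffRingAut_algebraMap (coeffStable_keyFq K M) τ c)
    (fun c => (keyFqB K M q).commutes c) hNK (algebraMap R K π) hπK hordM hg

end Main

section AtBases

open HahnSeries IntermediateField AlgebraicCurve Fermat.Agent.FF Fermat.Agent.NP

/-- `Ω = AlgebraicClosure ℚ`. -/
local notation "Ω" => AlgebraicClosure ℚ

/-- the absolute Galois group. -/
local notation "GQ" => (AlgebraicClosure ℚ ≃ₐ[ℚ] AlgebraicClosure ℚ)

set_option maxHeartbeats 1600000 in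
/-- **the HECKE step at the F-level, at every Galois base.** -/
theorem keyFq_heckeStep (M q : ℕ) [NeZero M] [NeZero q] [NeZero (M * q)] (hq : q.Prime)
    (hqM : ¬ q ∣ M) (A : ValuationSubring Ω) (hA : A.LiesOverPrime q)
    (K₁ : IntermediateField ℚ Ω) [Normal ℚ ↥K₁] (hK₁ : IsGalBase q K₁)
    [IsDiscreteValuationRing ↥(baseRing A K₁)] [CharZero ↥(baseRing A K₁)]
    (φ : GQ) (hφ : A.IsFrobeniusAt φ q) (g : ↥(keyFq ↥K₁ M)) (hg : g ≠ 0) :
    ∃ c : ↥K₁, c ≠ 0 ∧ OneUnit (keyFqWinf ↥(baseRing A K₁) ↥K₁ M)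
      (keyFqGalois ↥K₁ M (resGal K₁ φ) • (keyFqGalois ↥K₁ M (resGal K₁ φ) • g) * g ^ q /
        heckeFunK ↥K₁ M q (keyFqGalois ↥K₁ M (resGal K₁ φ) • g) /
        algebraMap ↥K₁ ↥(keyFq ↥K₁ M) c) := by
  haveI : Fact q.Prime := ⟨hq⟩
  obtain ⟨ϖ, hϖ⟩ := IsDiscreteValuationRing.exists_irreducible ↥(baseRing A K₁)
  have hqϖ := natCast_mem_span_uniformizer_baseRing hA K₁ hϖ
  haveI : CharP (IsLocalRing.ResidueField ↥(baseRing A K₁)) q :=
    charP_residueField_of_mem_span hϖ hq hqϖ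
  have hchar : ((q : ℕ) : IsLocalRing.ResidueField ↥(baseRing A K₁)) = 0 :=
    CharP.cast_eq_zero _ q
  obtain ⟨x, y, hbez⟩ := exists_bezout_of_prime_of_not_dvd hq hqM
  have key := keyFq_heckeStep_gen (R := ↥(baseRing A K₁)) (K := ↥K₁)
    (@algebraMap ↥K₁ ℂ _ _ (baseToComplex K₁)) hbez hq (resGal K₁ φ)
    (frobBaseRingAut (K₁ := K₁) hφ : ↥(baseRing A K₁) →+* ↥(baseRing A K₁))
    (resGal_algebraMap_frobBase hφ) hqM hchar hϖ (frobBaseRingAut_sub_pow_mem hφ hϖ)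
    (frobBaseRingAut_bijective hφ) hg
  rw [heckeFunK_eq_norm]
  exact key

/-- transport of the Hecke expression from the level field to the Legendre host. -/
theorem fullToLegE_heckeExpr (M q : ℕ) [NeZero M] [NeZero q] [NeZero (M * q)] (hq : q.Prime)
    (hq2 : q ≠ 2) (hqM : ¬ q ∣ M) (K₁ : IntermediateField ℚ Ω) (τ : ↥K₁ ≃ₐ[ℚ] ↥K₁)
    (g : ↥(keyFq ↥K₁ M)) (c : ↥K₁) :
    fullToLegE ↥K₁ M (keyFqGalois ↥K₁ M τ • (keyFqGalois ↥K₁ M τ • g) * g ^ q /
      heckeFunK ↥K₁ M q (keyFqGalois ↥K₁ M τ • g) / algebraMap ↥K₁ ↥(keyFq ↥K₁ M) c) =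
    legGalois ↥K₁ M τ • (legGalois ↥K₁ M τ • fullToLegE ↥K₁ M g) * fullToLegE ↥K₁ M g ^ q /
      legHeckeP ↥K₁ M q hq hq2 (legGalois ↥K₁ M τ • fullToLegE ↥K₁ M g) /
      algebraMap ↥K₁ ↥(legE ↥K₁ M) c := by
  have e1 : fullToLegE ↥K₁ M (keyFqGalois ↥K₁ M τ • g) =
      legGalois ↥K₁ M τ • fullToLegE ↥K₁ M g := fullToLegE_keyFqGalois_smul M τ g
  have e2 : fullToLegE ↥K₁ M (keyFqGalois ↥K₁ M τ • (keyFqGalois ↥K₁ M τ • g)) =
      legGalois ↥K₁ M τ • (legGalois ↥K₁ M τ • fullToLegE ↥K₁ M g) := by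
    rw [fullToLegE_keyFqGalois_smul M τ (keyFqGalois ↥K₁ M τ • g), e1]
  have e3 : fullToLegE ↥K₁ M (heckeFunK ↥K₁ M q (keyFqGalois ↥K₁ M τ • g)) =
      legHeckeP ↥K₁ M q hq hq2 (legGalois ↥K₁ M τ • fullToLegE ↥K₁ M g) := by
    rw [← e1]
    exact (legHeckeP_fullToLegE_base M q hq hq2 hqM K₁ (keyFqGalois ↥K₁ M τ • g)).symm
  have e4 : fullToLegE ↥K₁ M (algebraMap ↥K₁ ↥(keyFq ↥K₁ M) c) =
      algebraMap ↥K₁ ↥(legE ↥K₁ M) c := (fullToLegE ↥K₁ M).commutes c
  rw [map_div₀, map_div₀, map_mul, map_pow]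
  exact congrArg₂ (· / ·) (congrArg₂ (· / ·) (congrArg₂ (· * ·) e2 rfl) e3) e4

set_option maxHeartbeats 1600000 in
/-- **the HECKE step on the Legendre hosts, at every Galois base.** -/
theorem leg_heckeStep (M q : ℕ) [NeZero M] [NeZero q] [NeZero (M * q)] (hq : q.Prime)
    (hq2 : q ≠ 2) (hqM : ¬ q ∣ M) (A : ValuationSubring Ω) (hA : A.LiesOverPrime q)
    (K₁ : IntermediateField ℚ Ω) [Normal ℚ ↥K₁] (hK₁ : IsGalBase q K₁)
    [IsDiscreteValuationRing ↥(baseRing A K₁)] [CharZero ↥(baseRing A K₁)]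
    (h2 : IsUnit (2 : ↥(baseRing A K₁)))
    (φ : GQ) (hφ : A.IsFrobeniusAt φ q) (g : ↥(keyFq ↥K₁ M)) (hg : g ≠ 0) :
    letI := baseToComplex K₁
    ∃ c : ↥K₁, c ≠ 0 ∧ OneUnit (legWinf ↥(baseRing A K₁) ↥K₁ h2 M)
      (legGalois ↥K₁ M (resGal K₁ φ) • (legGalois ↥K₁ M (resGal K₁ φ) • fullToLegE ↥K₁ M g) *
        fullToLegE ↥K₁ M g ^ q /
        legHeckeP ↥K₁ M q hq hq2 (legGalois ↥K₁ M (resGal K₁ φ) • fullToLegE ↥K₁ M g) /
        algebraMap ↥K₁ ↥(legE ↥K₁ M) c) := by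
  letI := baseToComplex K₁
  obtain ⟨c, hc, hone⟩ := keyFq_heckeStep M q hq hqM A hA K₁ hK₁ φ hφ g hg
  refine ⟨c, hc, ?_⟩
  have hcomap := xport_legWinf_comap ↥(baseRing A K₁) ↥K₁ h2 M
  have hone' := (oneUnit_comap_iff
    (ι := (fullToLegE ↥K₁ M : ↥(keyFq ↥K₁ M) →+* ↥(legE ↥K₁ M))) hcomap _).mpr hone
  rw [← fullToLegE_heckeExpr M q hq hq2 hqM K₁ (resGal K₁ φ) g c]
  exact hone'

end AtBases

end Fermat.Agent.ML
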