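/-
S59 / AT-P — helper5 — **[ATP-B], part 7: the base statement of the old case with Frobenius–Hecke
factors** (`LegOldBaseES`, extension of NP33 `LegOldBaseP`).

* `IsFrobOldFactor A K₁ M p hp hp2 v` : `v = φ̄ φ̄ G · G ^ p / T_p (φ̄ G)`, `G = fullToLegE g₀`,
  `φ` a Frobenius lift at `A`, `g₀ ∈ F_M(K₁)ˣ`;
* `IsInertiaSplitOldES A K₁ M p hp hp2 f` : `f ^ (p ^ k) = c · u · ∏ vs`, `c ∈ K₁ˣ`, `u` an inertia
  coboundary, every `v ∈ vs` a Frobenius–Hecke factor;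
* `SSModel.valDepth_one_of_split_es` : the saturation lemma on the sheet of good reduction with
  extra factors which are non-zero constants modulo `1 + 𝔪` (the HECKE step `leg_heckeStep`);
* **`legOldBaseES : LegOldBaseES`** : `LegOldBaseP` with `IsInertiaSplitOldES` instead of
  `IsInertiaSplit`.
-/
import Mathlib
import Fermat.Agent.ML.ATPB_helper5_Hecke
import Fermat.Agent.NP.SAT_helper7_Main

set_option autoImplicit false
set_option linter.unusedSectionVars false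
set_option linter.unusedVariables false
set_option linter.style.haveILetI false

open HahnSeries IntermediateField AlgebraicCurve ModularCurve IsLocalRing

namespace Fermat.Agent.ML

open Fermat.Agent.JA Fermat.Agent.FF Fermat.Agent.SS Fermat.Agent.S35 Fermat.Agent.Igusa
  Fermat.Agent.NP

open scoped Fermat.Agent.JA.Host

/-- `Ω = AlgebraicClosure ℚ`. -/
local notation "Ω" => AlgebraicClosure ℚ

/-- the absolute Galois group. -/
local notation "GQ" => (AlgebraicClosure ℚ ≃ₐ[ℚ] AlgebraicClosure ℚ)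

section Core

variable {R : Type*} [CommRing R] [IsDomain R] [IsDiscreteValuationRing R] [CharZero R]
  {K₁ : Type*} [Field K₁] [Algebra R K₁] [IsFractionRing R K₁]
  {KM : Type*} [Field KM] [Algebra K₁ KM] [Algebra R KM] [IsScalarTower R K₁ KM]
  {EM : Type*} [Field EM] [Algebra KM EM] [Algebra K₁ EM] [IsScalarTower K₁ KM EM] [Algebra R EM]
  [IsScalarTower R KM EM]
  {KN : Type*} [Field KN] [Algebra K₁ KN] [Algebra R KN] [IsScalarTower R K₁ KN]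
  {EN : Type*} [Field EN] [Algebra KN EN] [Algebra K₁ EN] [IsScalarTower K₁ KN EN] [Algebra R EN]
  [IsScalarTower R KN EN] [FiniteDimensional KN EN]
  {π : R} {p n : ℕ} {S : Finset R} {t : KM} {jM : EM} {j : KN} {A B : EM →+* EN}
  {VM : ValuationSubring EM} {Winf W0 : ValuationSubring EN}
  [IsAlgClosed (IsLocalRing.ResidueField R)]

/-- **the saturation lemma at the level of good reduction of an `SSModel`, with extra factors which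
are non-zero constants modulo `1 + 𝔪`.** -/
theorem SSModel.valDepth_one_of_split_es (h : SSModel K₁ π p n S t jM j A B VM Winf W0)
    {e₁ : ℕ} (he₁ : 0 < e₁) {ε : Rˣ} (hpe : (p : R) = ε * π ^ e₁) {NA NB : EN →* EM}
    (D : SSNormData p A B VM Winf W0 NA NB) (G : Set (EM →+* EM))
    (hG : ∀ σ ∈ G, (∀ c : K₁, ∃ c' : K₁, σ (algebraMap K₁ EM c) = algebraMap K₁ EM c') ∧
      ∀ y ∈ VM, VM.valuation (σ y - y) < 1)
    {f : EM} {k : ℕ} {c : K₁} (hc : c ≠ 0) {u : EMˣ}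
    (hu : u ∈ Subgroup.closure
      {u : EMˣ | ∃ (g : EMˣ) (σ : EM →+* EM), σ ∈ G ∧ (u : EM) = σ (g : EM) / (g : EM)})
    (vs : List EM)
    (hvs : ∀ v ∈ vs, ∃ c : K₁, c ≠ 0 ∧ OneUnit VM (v / algebraMap K₁ EM c))
    (e : f ^ p ^ k = algebraMap K₁ EM c * u * vs.prod) :
    ∃ c : K₁, c ≠ 0 ∧ ValDepth π p VM 1 f c := by
  set T := SSModel.twoLevel h he₁ hpe D with hTdef
  have hp := h.q_prime
  haveI := SSModel.isDiscreteValuationRing_VM h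
  have hπ0 := SSModel_piM_ne_zero h
  have hG' : ∀ σ ∈ G, (∀ c ∈ T.BM.K₁, σ c ∈ T.BM.K₁) ∧
      ∀ y ∈ T.SM.W, PiDvd T.BM.π T.SM.W 1 (σ y - y) := by
    intro σ hσ
    obtain ⟨hσK, hσW⟩ := hG σ hσ
    refine ⟨?_, ?_⟩
    · rintro c ⟨c', rfl⟩
      obtain ⟨c'', e⟩ := hσK c'
      exact ⟨c'', e.symm⟩
    · intro y hy
      have hy' : y ∈ VM := hy
      refine ⟨(σ y - y) * (algebraMap R EM π)⁻¹, SSModel_div_pi_mem h (hσW y hy'), ?_⟩
      show σ y - y = algebraMap R EM π ^ 1 * ((σ y - y) * (algebraMap R EM π)⁻¹)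
      field_simp
  have hU := T.SM.isConstRes_of_mem_closure G hG' hu
  -- the extra factors
  have hV : ∀ v ∈ vs, T.SM.IsConstRes v := by
    intro v hv
    obtain ⟨cv, hcv, hone⟩ := hvs v hv
    have hcv0 : algebraMap K₁ EM cv ≠ 0 := (map_ne_zero _).mpr hcv
    refine ⟨algebraMap K₁ EM cv, ⟨cv, rfl⟩, (v / algebraMap K₁ EM cv - 1) * (algebraMap R EM π)⁻¹,
      SSModel_div_pi_mem h hone, hcv0, ?_⟩
    show v = algebraMap K₁ EM cv *
      (1 + algebraMap R EM π ^ 1 * ((v / algebraMap K₁ EM cv - 1) * (algebraMap R EM π)⁻¹))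
    field_simp
    ring
  have hVprod : T.SM.IsConstRes vs.prod := by
    clear e hvs
    induction vs with
    | nil => rw [List.prod_nil]; exact T.SM.isConstRes_one
    | cons v vs ih =>
      rw [List.prod_cons]
      exact (hV v List.mem_cons_self).mul (ih fun x hx => hV x (List.mem_cons_of_mem _ hx))
  exact (SSModel.twoLevel_depthGE_iff h he₁ hpe D).mp
    (Sheet.depthGE_one_of_split hp.ne_zero (S := T.SM) (c := algebraMap K₁ EM c) ⟨c, rfl⟩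
      ((map_ne_zero _).mpr hc) (hU.mul hVprod) (by rw [e, mul_assoc]))

end Core

section Defs

/-- **a Frobenius–Hecke factor** on the Legendre host of level `M` over the base `K₁`:
`φ̄ φ̄ G · G ^ p / T_p (φ̄ G)`, `G` coming from the level field. -/
def IsFrobOldFactor (A : ValuationSubring Ω) (K₁ : IntermediateField ℚ Ω) [Normal ℚ ↥K₁]
    (M p : ℕ) [NeZero M] [NeZero p] [NeZero (M * p)] (hp : p.Prime) (hp2 : p ≠ 2)
    (v : ↥(legE ↥K₁ M)) : Prop :=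
  ∃ (φ : GQ) (g₀ : ↥(keyFq ↥K₁ M)), A.IsFrobeniusAt φ p ∧ g₀ ≠ 0 ∧
    v = legGalois ↥K₁ M (resGal K₁ φ) • (legGalois ↥K₁ M (resGal K₁ φ) • fullToLegE ↥K₁ M g₀) *
      fullToLegE ↥K₁ M g₀ ^ p /
      legHeckeP ↥K₁ M p hp hp2 (legGalois ↥K₁ M (resGal K₁ φ) • fullToLegE ↥K₁ M g₀)

/-- **`f` is split by inertia coboundaries and Frobenius–Hecke factors.** -/
def IsInertiaSplitOldES (A : ValuationSubring Ω) (K₁ : IntermediateField ℚ Ω) [Normal ℚ ↥K₁]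
    (M p : ℕ) [NeZero M] [NeZero p] [NeZero (M * p)] (hp : p.Prime) (hp2 : p ≠ 2)
    (f : ↥(legE ↥K₁ M)) : Prop :=
  ∃ (k : ℕ) (c : ↥K₁) (u : (↥(legE ↥K₁ M))ˣ) (vs : List ↥(legE ↥K₁ M)), c ≠ 0 ∧
    u ∈ legInertiaCob A K₁ M ∧ (∀ v ∈ vs, IsFrobOldFactor A K₁ M p hp hp2 v) ∧
    f ^ p ^ k = algebraMap ↥K₁ ↥(legE ↥K₁ M) c * u * vs.prod

/-- **the saturation statement at the Galois bases with Frobenius–Hecke factors.** -/
def LegSatBaseES : Prop :=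
  ∀ (M : ℕ) [NeZero M] (p : ℕ) [NeZero p] [NeZero (M * p)] (hp : p.Prime) (hp2 : p ≠ 2), ¬ p ∣ M →
  ∀ (A : ValuationSubring Ω), A.LiesOverPrime p →
  ∀ (K₁ : IntermediateField ℚ Ω) [Normal ℚ ↥K₁], IsGalBase p K₁ →
  ∀ [IsDiscreteValuationRing ↥(baseRing A K₁)] (ϖ : ↥(baseRing A K₁)), Irreducible ϖ →
  ∀ (h2 : IsUnit (2 : ↥(baseRing A K₁))) (f : ↥(legE ↥K₁ M)), f ≠ 0 →
    IsInertiaSplitOldES A K₁ M p hp hp2 f →
    ∃ c : ↥K₁, c ≠ 0 ∧ ValDepth ϖ p (legWinf ↥(baseRing A K₁) ↥K₁ h2 M) 1 f c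

/-- **the base statement of the old case with Frobenius–Hecke factors.** -/
def LegOldBaseES : Prop :=
  ∀ (M : ℕ) [NeZero M] (p : ℕ) [NeZero p] [NeZero (M * p)] (hp : p.Prime) (hp2 : p ≠ 2), ¬ p ∣ M →
  ∀ (A : ValuationSubring Ω), A.LiesOverPrime p →
  ∀ (K₁ : IntermediateField ℚ Ω) [Normal ℚ ↥K₁], IsGalBase p K₁ →
  (∃ ζ : ↥K₁, IsPrimitiveRoot ζ p) →
  ∃ k : ℕ, ∀ f : ↥(legE ↥K₁ M), f ≠ 0 →
    (∀ j : ℕ, j ≤ k → ∀ P : Place ↥K₁ ↥(legE ↥K₁ M),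
      (p : ℤ) ∣ P.ord ((legHeckeP ↥K₁ M p hp hp2)^[j] f)) →
    IsInertiaSplitOldES A K₁ M p hp hp2 f →
    ∀ σ ∈ A.inertiaSubgroupIn ℚ, ∀ a : ℕ, CycAct p σ a →
      IsConstMulPow (K := ↥K₁) p
        (legGalois ↥K₁ M (resGal K₁ σ) • ((legHeckeP ↥K₁ M p hp hp2)^[k] f) /
          ((legHeckeP ↥K₁ M p hp hp2)^[k] f) ^ a)

end Defs

set_option maxHeartbeats 1600000 in
/-- **the saturation statement at the Galois bases with Frobenius–Hecke factors.** -/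
theorem legSatBaseES : LegSatBaseES := by
  intro M _ p _ _ hp hp2 hpM A hA K₁ _ hK₁ _ ϖ hϖ h2 f hf hsplit
  classical
  haveI : Fact p.Prime := ⟨hp⟩
  haveI : CharZero ↥(baseRing A K₁) := charZero_valuationSubring_of_algebraRat _
  obtain ⟨x, y, hbez⟩ := exists_bezout_of_prime_of_not_dvd hp hpM
  letI := baseToComplex K₁
  haveI : IsAlgClosed (ResidueField ↥(baseRing A K₁)) := hK₁.isBase.isAlgClosed_residueField hA
  have hpϖ := natCast_mem_span_uniformizer_baseRing hA K₁ hϖ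
  have hmodel : SSModelLeg ↥(baseRing A K₁) ↥K₁ ϖ h2 hbez hp hp2 :=
    ssModelLeg ↥(baseRing A K₁) ↥K₁ hϖ h2 hbez hp hp2 hpϖ
      (geoHyps_legE_baseRing hA M hpM hK₁.isBase hp2 hϖ)
  haveI : FiniteDimensional ↥(↥K₁)⟮jqNModC ↥K₁ 2⟯ ↥(legE ↥K₁ (M * p)) :=
    finite_legE_adjoin_j ↥K₁ (M * p)
  have h' := SSModelLeg.ssModel ↥(baseRing A K₁) ↥K₁ hmodel
  have D := legSSNormData ↥(baseRing A K₁) ↥K₁ hϖ hmodel
  -- `p = ε ϖ ^ e₁`
  have hp0 : ((p : ℕ) : ↥(baseRing A K₁)) ≠ 0 := Nat.cast_ne_zero.mpr hp.ne_zero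
  obtain ⟨e₁, ε, hpe'⟩ := IsDiscreteValuationRing.eq_unit_mul_pow_irreducible hp0 hϖ
  have he₁ : 0 < e₁ := by
    rcases Nat.eq_zero_or_pos e₁ with h0 | h0
    · exfalso
      rw [h0, pow_zero, mul_one] at hpe'
      have hu : IsUnit ((p : ℕ) : ↥(baseRing A K₁)) := hpe' ▸ Units.isUnit _
      obtain ⟨z, hz⟩ := Ideal.mem_span_singleton.mp hpϖ
      rw [hz] at hu
      exact hϖ.not_isUnit (isUnit_of_mul_isUnit_left hu)
    · exact h0
  obtain ⟨k, c, u, vs, hc, hu, hvs, e⟩ := hsplit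
  -- the inertia automorphisms
  let G : Set (↥(legE ↥K₁ M) →+* ↥(legE ↥K₁ M)) :=
    {σ' | ∃ τ ∈ A.inertiaSubgroupIn ℚ, σ' =
      ((coeffRingAut (coeffStable_legE ↥K₁ M) (resGal K₁ τ) : ↥(legE ↥K₁ M) ≃+* ↥(legE ↥K₁ M)) :
        ↥(legE ↥K₁ M) →+* ↥(legE ↥K₁ M))}
  have hG : ∀ σ' ∈ G, (∀ c : ↥K₁, ∃ c' : ↥K₁, σ' (algebraMap ↥K₁ ↥(legE ↥K₁ M) c) =
      algebraMap ↥K₁ ↥(legE ↥K₁ M) c') ∧ ∀ y ∈ legWinf ↥(baseRing A K₁) ↥K₁ h2 M,
        (legWinf ↥(baseRing A K₁) ↥K₁ h2 M).valuation (σ' y - y) < 1 := by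
    rintro σ' ⟨τ, hτ, rfl⟩
    refine ⟨fun c => ⟨resGal K₁ τ c,
      coeffRingAut_algebraMap (coeffStable_legE ↥K₁ M) (resGal K₁ τ) c⟩, ?_⟩
    intro y hy
    exact valuation_coeffRingAut_sub_lt_one
      (hM := legE_le_gaussField ↥(baseRing A K₁) ↥K₁ h2 M) (coeffStable_legE ↥K₁ M) hτ hy
  have hu' : u ∈ Subgroup.closure
      {u : (↥(legE ↥K₁ M))ˣ | ∃ (g : (↥(legE ↥K₁ M))ˣ) (σ' : ↥(legE ↥K₁ M) →+* ↥(legE ↥K₁ M)),
        σ' ∈ G ∧ (u : ↥(legE ↥K₁ M)) = σ' (g : ↥(legE ↥K₁ M)) / (g : ↥(legE ↥K₁ M))} := by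
    refine Subgroup.closure_mono ?_ hu
    rintro v ⟨g, τ, hτ, ev⟩
    exact ⟨g, _, ⟨τ, hτ, rfl⟩, ev⟩
  -- the Frobenius–Hecke factors: the HECKE step
  have hvs' : ∀ v ∈ vs, ∃ c : ↥K₁, c ≠ 0 ∧
      OneUnit (legWinf ↥(baseRing A K₁) ↥K₁ h2 M) (v / algebraMap ↥K₁ ↥(legE ↥K₁ M) c) := by
    intro v hv
    obtain ⟨φ, g₀, hφ, hg₀, rfl⟩ := hvs v hv
    exact leg_heckeStep M p hp hp2 hpM A hA K₁ hK₁ h2 φ hφ g₀ hg₀
  exact SSModel.valDepth_one_of_split_es h' he₁ hpe' D G hG hc hu' vs hvs' e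

set_option maxHeartbeats 1600000 in
/-- **OLD-BASE with Frobenius–Hecke factors** from the saturation statement. -/
theorem legOldBaseES_of_sat (Hsat : LegSatBaseES) : LegOldBaseES := by
  intro M _ p _ _ hp hp2 hpM A hA K₁ _ hK₁ hζex
  obtain ⟨ζ₀, hζ₀⟩ := hζex
  classical
  haveI : Fact p.Prime := ⟨hp⟩
  haveI : IsDiscreteValuationRing ↥(baseRing A K₁) := hK₁.isBase.isDiscreteValuationRing hA
  haveI : CharZero ↥(baseRing A K₁) := charZero_valuationSubring_of_algebraRat _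
  obtain ⟨ϖ, hϖ⟩ := IsDiscreteValuationRing.exists_irreducible ↥(baseRing A K₁)
  have h2 : IsUnit (2 : ↥(baseRing A K₁)) := isUnit_ofNat_baseRing hA K₁ Nat.prime_two hp2
  obtain ⟨x, y, hbez⟩ := exists_bezout_of_prime_of_not_dvd hp hpM
  letI := baseToComplex K₁
  haveI : IsAlgClosed (ResidueField ↥(baseRing A K₁)) := hK₁.isBase.isAlgClosed_residueField hA
  have hpϖ := natCast_mem_span_uniformizer_baseRing hA K₁ hϖ
  have hmodel : SSModelLeg ↥(baseRing A K₁) ↥K₁ ϖ h2 hbez hp hp2 :=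
    ssModelLeg ↥(baseRing A K₁) ↥K₁ hϖ h2 hbez hp hp2 hpϖ
      (geoHyps_legE_baseRing hA M hpM hK₁.isBase hp2 hϖ)
  haveI : FiniteDimensional ↥(↥K₁)⟮jqNModC ↥K₁ 2⟯ ↥(legE ↥K₁ (M * p)) :=
    finite_legE_adjoin_j ↥K₁ (M * p)
  have h' := SSModelLeg.ssModel ↥(baseRing A K₁) ↥K₁ hmodel
  have D := legSSNormData ↥(baseRing A K₁) ↥K₁ hϖ hmodel
  -- `ζ` in the base ring
  have hmem : ζ₀ ∈ baseRing A K₁ := by
    rw [mem_baseRing_iff]
    have h1 : (A.valuation (ζ₀ : Ω)) ^ p = 1 := by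
      rw [← map_pow]
      have : ((ζ₀ : Ω)) ^ p = 1 := by
        have := congrArg (fun z : ↥K₁ => (z : Ω)) hζ₀.pow_eq_one
        exact this
      rw [this, map_one]
    exact le_of_eq (eq_one_of_pow_eq_one' hp.ne_zero h1)
  set ζ : ↥(baseRing A K₁) := ⟨ζ₀, hmem⟩ with hζdef
  have hζ : IsPrimitiveRoot ζ p :=
    IsPrimitiveRoot.of_map_of_injective (f := (baseRing A K₁).subtype) hζ₀ Subtype.val_injective
  obtain ⟨m, u₀, ε, hm, hlam, hpe⟩ := exists_zeta_sub_one_eq_pow_mul hϖ hp hpϖ hζ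
  refine ⟨m - 1, ?_⟩
  intro f hf hord hsplit σ hσ a ha
  have hsat := Hsat M p hp hp2 hpM A hA K₁ hK₁ ϖ hϖ h2 f hf hsplit
  -- the automorphism
  set σ' : ↥(legE ↥K₁ M) →+* ↥(legE ↥K₁ M) :=
    ((coeffRingAut (coeffStable_legE ↥K₁ M) (resGal K₁ σ) : ↥(legE ↥K₁ M) ≃+* ↥(legE ↥K₁ M)) :
      ↥(legE ↥K₁ M) →+* ↥(legE ↥K₁ M)) with hσdef
  have hσK : ∀ c : ↥K₁, ∃ c' : ↥K₁, σ' (algebraMap ↥K₁ ↥(legE ↥K₁ M) c) =
      algebraMap ↥K₁ ↥(legE ↥K₁ M) c' :=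
    fun c => ⟨resGal K₁ σ c, coeffRingAut_algebraMap (coeffStable_legE ↥K₁ M) (resGal K₁ σ) c⟩
  have hσW : ∀ y ∈ legWinf ↥(baseRing A K₁) ↥K₁ h2 M,
      (legWinf ↥(baseRing A K₁) ↥K₁ h2 M).valuation (σ' y - y) < 1 := by
    intro y hy
    exact valuation_coeffRingAut_sub_lt_one
      (hM := legE_le_gaussField ↥(baseRing A K₁) ↥K₁ h2 M) (coeffStable_legE ↥K₁ M) hσ hy
  have hσζ : σ' (algebraMap ↥(baseRing A K₁) ↥(legE ↥K₁ M) ζ) =
      algebraMap ↥(baseRing A K₁) ↥(legE ↥K₁ M) ζ ^ a := by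
    haveI : IsScalarTower ↥(baseRing A K₁) ↥K₁ ↥(legE ↥K₁ M) :=
      isScalarTower_base_const ↥(baseRing A K₁) ↥K₁ ↥(↥K₁)⟮legT ↥K₁⟯ ↥(legE ↥K₁ M)
    have e1 : algebraMap ↥(baseRing A K₁) ↥(legE ↥K₁ M) ζ = algebraMap ↥K₁ ↥(legE ↥K₁ M) ζ₀ :=
      IsScalarTower.algebraMap_apply ↥(baseRing A K₁) ↥K₁ ↥(legE ↥K₁ M) ζ
    rw [e1, hσdef]
    show coeffRingAut (coeffStable_legE ↥K₁ M) (resGal K₁ σ) (algebraMap ↥K₁ ↥(legE ↥K₁ M) ζ₀) = _
    rw [coeffRingAut_algebraMap, ← map_pow]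
    congr 1
    apply Subtype.ext
    rw [coe_resGal]
    have : ((ζ₀ : Ω)) ^ p = 1 := by
      have := congrArg (fun z : ↥K₁ => (z : Ω)) hζ₀.pow_eq_one
      exact this
    rw [ha _ this]
    rfl
  have hσord : ∀ g : ↥(legE ↥K₁ M), (∀ P : Place ↥K₁ ↥(legE ↥K₁ M), (p : ℤ) ∣ P.ord g) →
      ∀ P : Place ↥K₁ ↥(legE ↥K₁ M), (p : ℤ) ∣ P.ord (σ' g) := by
    intro g hg P
    have e1 : σ' g = legGalois ↥K₁ M (resGal K₁ σ) • g := rfl
    rw [e1, place_ord_smul_eq]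
    exact hg _
  exact SSModel.oldBase_core h' hm hpe D hlam hζ σ' hσK hσW hσζ hσord hf hord hsat

/-- **OLD-BASE with Frobenius–Hecke factors.** -/
theorem legOldBaseES : LegOldBaseES := legOldBaseES_of_sat legSatBaseES

end Fermat.Agent.ML
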