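/-
S59 / AT-P — helper5 — **[ATP-B], part 8: the `Ω`-level Kummer form of (ES-OLD)** and
`esOldAt_of_oldKummerES`.

`S := cobClosureTwo` = the subgroup of `J₀(M)` generated by the `τ y - y` (`y` of `p`-power order,
`τ ∈ I_A`) and by the classes `σ² x - T_p (σ x) + p x` (`x` of `p`-power order, `σ` a Frobenius lift
at `A`).  Clauses (a) and (g) of `EsOldAt` hold by construction; the other clauses are the chain of
NP33 `keyOldAt_of_oldKummer` with the split representative `exists_split_rep_two`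
(`f ^ (p ^ k) = c · ∏ τ̄ h / h · ∏ σ̄ σ̄ g₀ · g₀ ^ p / T_p (σ̄ g₀)`) and the Kummer form
`OldKummerAtES`; the top depth statement `OldTopKummerAt` is unchanged.
-/
import Mathlib
import Fermat.Agent.ML.ATP_helper5_Pic
import Fermat.Agent.ML.ATPB_helper5_NewKum
import Fermat.Agent.ML.IFACE_helper2_AtP
import Fermat.Agent.NP.BASEP_helper2_OldDesc

set_option autoImplicit false
set_option linter.unusedSectionVars false
set_option linter.unusedVariables false
set_option linter.style.haveILetI false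
set_option synthInstance.maxHeartbeats 400000

open AlgebraicCurve ModularCurve

namespace Fermat.Agent.ML

open Fermat.Agent.SS Fermat.Agent.JA Fermat.Agent.X0N Fermat.Agent.GR Fermat.Agent.S35
  Fermat.Agent.FG Fermat.Agent.FF Fermat.Agent.NP

/-- `Ω = AlgebraicClosure ℚ`. -/
local notation "Ω" => AlgebraicClosure ℚ

/-- the absolute Galois group. -/
local notation "GQ" => (AlgebraicClosure ℚ ≃ₐ[ℚ] AlgebraicClosure ℚ)

section Factor

variable (M p : ℕ) [NeZero M] [NeZero p] [NeZero (M * p)]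

theorem heckeFunBar_pow (f : ↥(modularFunctionFieldBar M)) (n : ℕ) :
    heckeFunBar M p (f ^ n) = heckeFunBar M p f ^ n := by
  unfold heckeFunBar
  rw [map_pow, normAlong_pow]

theorem heckeFunBar_inv {f : ↥(modularFunctionFieldBar M)} (hf : f ≠ 0) :
    heckeFunBar M p f⁻¹ = (heckeFunBar M p f)⁻¹ := by
  unfold heckeFunBar
  rw [map_inv₀, normAlong_inv _ ((map_ne_zero _).2 hf)]

/-- **a Frobenius–Hecke factor over `Ω`**: `σ̄ σ̄ g₀ · g₀ ^ p / T_p (σ̄ g₀)`, `σ` a Frobenius lift at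
`A`, `g₀ ≠ 0` (the level `n` is irrelevant). -/
def IsFrobOldFactorBar (A : ValuationSubring Ω) (n : ℕ)
    (v : ↥(modularFunctionFieldBar M)) : Prop :=
  ∃ (φ : GQ) (g₀ : ↥(modularFunctionFieldBar M)), A.IsFrobeniusAt φ p ∧ g₀ ≠ 0 ∧
    v = arithmeticGalois (modularFunctionFieldFull M) φ •
        (arithmeticGalois (modularFunctionFieldFull M) φ • g₀) * g₀ ^ p /
      heckeFunBar M p (arithmeticGalois (modularFunctionFieldFull M) φ • g₀)

theorem factorFamily_isFrobOldFactorBar (A : ValuationSubring Ω) :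
    FactorFamily p (IsFrobOldFactorBar M p A) where
  ne_zero := by
    rintro n v ⟨φ, g₀, hφ, hg₀, rfl⟩
    have h1 : arithmeticGalois (modularFunctionFieldFull M) φ • g₀ ≠ 0 := by simpa using hg₀
    have h2 : arithmeticGalois (modularFunctionFieldFull M) φ •
        (arithmeticGalois (modularFunctionFieldFull M) φ • g₀) ≠ 0 := by simpa using h1
    exact div_ne_zero (mul_ne_zero h2 (pow_ne_zero _ hg₀)) (heckeFunBar_ne_zero M p h1)
  pow := by
    rintro n e v ⟨φ, g₀, hφ, hg₀, rfl⟩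
    refine ⟨φ, g₀ ^ p ^ e, hφ, pow_ne_zero _ hg₀, ?_⟩
    rw [smul_pow', smul_pow', heckeFunBar_pow, div_pow, mul_pow, ← pow_mul, ← pow_mul,
      mul_comm (p ^ e) p]
  inv := by
    rintro n v ⟨φ, g₀, hφ, hg₀, rfl⟩
    have h1 : arithmeticGalois (modularFunctionFieldFull M) φ • g₀ ≠ 0 := by simpa using hg₀
    refine ⟨φ, g₀⁻¹, hφ, inv_ne_zero hg₀, ?_⟩
    rw [smul_inv'', smul_inv'', heckeFunBar_inv M p h1, inv_pow, inv_div, div_inv_eq_mul,
      ← mul_inv, inv_mul_eq_div]

/-- the subgroup `S` of (ES-OLD). -/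
noncomputable def esOldClosure (A : ValuationSubring Ω) : AddSubgroup (JZero M) :=
  cobClosureTwo (arithmeticGalois (modularFunctionFieldFull M)) p
    ((A.inertiaSubgroupIn ℚ : Subgroup GQ) : Set GQ) (IsFrobOldFactorBar M p A)

/-- **`f` is split over `Ω` by inertia coboundaries and Frobenius–Hecke factors.** -/
def IsSplitBarOldES (A : ValuationSubring Ω) (f : ↥(modularFunctionFieldBar M)) : Prop :=
  ∃ (k : ℕ) (c : Ω) (l : List (GQ × ↥(modularFunctionFieldBar M)))
    (gs : List ↥(modularFunctionFieldBar M)), c ≠ 0 ∧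
    IsCobList ((A.inertiaSubgroupIn ℚ : Subgroup GQ) : Set GQ) l ∧
    (∀ g ∈ gs, IsFrobOldFactorBar M p A (k + 1) g) ∧
    f ^ p ^ k = algebraMap Ω ↥(modularFunctionFieldBar M) c *
      (cobProd (arithmeticGalois (modularFunctionFieldFull M)) l * gs.prod)

/-- **the Kummer form of (ES-OLD), depth filtration, over `Ω`.** -/
def OldKummerAtES (A : ValuationSubring Ω) : Prop :=
  ∀ f : ↥(modularFunctionFieldBar M), f ≠ 0 → IsSplitBarOldES M p A f → ∃ k : ℕ,
    (∀ j : ℕ, j ≤ k → ∀ v : Place Ω ↥(modularFunctionFieldBar M),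
      (p : ℤ) ∣ v.ord ((heckeFunBar M p)^[j] f)) →
    ∀ σ ∈ A.inertiaSubgroupIn ℚ, ∀ a : ℕ, CycAct p σ a →
      ∃ (c : Ω) (w : ↥(legE Ω M)), c ≠ 0 ∧ w ≠ 0 ∧
        legGalois Ω M σ • fullToLegE Ω M ((heckeFunBar M p)^[k] f) /
          fullToLegE Ω M ((heckeFunBar M p)^[k] f) ^ a = algebraMap Ω ↥(legE Ω M) c * w ^ p

end Factor

section KeyES

variable (M p : ℕ) [NeZero M] [NeZero p] [NeZero (M * p)]

set_option maxHeartbeats 3200000 in
/-- **(ES-OLD) from the two Kummer forms over `Ω`.** -/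
theorem esOldAt_of_oldKummerES (hp : p.Prime) (hp2 : p ≠ 2) (hpM : ¬ p ∣ M)
    (A : ValuationSubring Ω) (hA : A.LiesOverPrime p)
    (H1 : OldKummerAtES M p A) (H2 : OldTopKummerAt M p A) : EsOldAt M p hp A := by
  classical
  haveI : Fact p.Prime := ⟨hp⟩
  set T := heckeOperatorBar M ⟨p, hp⟩ with hT
  set S := esOldClosure M p A with hS
  have hconst : ∀ u : ↥(modularFunctionFieldBar M), u ≠ 0 →
      (∀ v : Place Ω ↥(modularFunctionFieldBar M), v.ord u = 0) →
      ∃ a : Ω, u = algebraMap Ω ↥(modularFunctionFieldBar M) a :=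
    fun u _ hu => exists_const_of_forall_ord_eq_zero (jCoordBar M) u hu
  -- step 1: the exponent of one class
  have key : ∀ y : JZero M, ∃ k : ℕ, y ∈ S → p • y = 0 →
      ∀ σ ∈ A.inertiaSubgroupIn ℚ, ∀ a : ℕ, CycAct p σ a → σ • T^[k] y = a • T^[k] y := by
    intro y
    by_cases hy : y ∈ S ∧ p • y = 0
    · obtain ⟨D, f, k₀, c, l, gs, rfl, hf, hfD, hc, hl, hgs, hfl⟩ :=
        exists_split_rep_two (arithmeticGalois (modularFunctionFieldFull M)) hconst p _
          (factorFamily_isFrobOldFactorBar M p A) y hy.1 hy.2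
      obtain ⟨k, hk⟩ := H1 f hf ⟨k₀, c, l, gs, hc, hl, hgs, hfl⟩
      refine ⟨k, fun _ _ σ hσ a ha => ?_⟩
      have hdiv : IsDivOf f (p • (D : Divisor Ω ↥(modularFunctionFieldBar M))) :=
        ⟨hf, fun v => by rw [Finsupp.smul_apply, nsmul_eq_mul, hfD v]⟩
      have hord : ∀ j : ℕ, j ≤ k → ∀ v : Place Ω ↥(modularFunctionFieldBar M),
          (p : ℤ) ∣ v.ord ((heckeFunBar M p)^[j] f) := by
        intro j _ v
        obtain ⟨Dj, -, h2⟩ := heckeOperatorBar_iterate_mk M p hp D j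
        rw [← (h2 p f hdiv).2 v, Finsupp.smul_apply, nsmul_eq_mul]
        exact Dvd.intro _ rfl
      obtain ⟨c', w, hc', hw, hrel⟩ := hk hord σ hσ a ha
      obtain ⟨Dk, h1, h2⟩ := heckeOperatorBar_iterate_mk M p hp D k
      have hdk := h2 p f hdiv
      rw [hT, h1]
      refine jzero_smul_eq_nsmul_of_leg_kummer M hp hp2 σ a Dk _ hdk.1 (fun v => ?_) c' w hc' hw
        hrel
      rw [← hdk.2 v, Finsupp.smul_apply, nsmul_eq_mul]
    · exact ⟨0, fun h1 h2 => absurd ⟨h1, h2⟩ hy⟩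
  choose kf hkf using key
  -- step 2: the uniform exponent
  have hfin : {y : JZero M | p • y = 0}.Finite := by
    haveI := finite_torsionBy_jzero M p 1
    refine Set.Finite.subset
      (Set.toFinite ((Submodule.torsionBy ℤ (JZero M) ((p : ℤ) ^ 1) : Submodule ℤ (JZero M)) :
        Set (JZero M))) ?_
    intro y hy
    have hy' : p • y = 0 := hy
    show y ∈ Submodule.torsionBy ℤ (JZero M) ((p : ℤ) ^ 1)
    rw [Submodule.mem_torsionBy_iff, pow_one, natCast_zsmul]
    exact hy'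
  set K : ℕ := hfin.toFinset.sup kf with hK
  have hKy : ∀ y : JZero M, y ∈ S → p • y = 0 →
      ∀ σ ∈ A.inertiaSubgroupIn ℚ, ∀ a : ℕ, CycAct p σ a → σ • T^[K] y = a • T^[K] y := by
    intro y hyS hpy σ hσ a ha
    have hle : kf y ≤ K := Finset.le_sup (f := kf) (hfin.mem_toFinset.2 hpy)
    exact smul_hecke_iterate_eq_of_le M p hp hpM σ a y hle (hkf y hyS hpy σ hσ a ha)
  -- step 3: the filtration
  set Sp : AddSubgroup (JZero M) := S ⊓ (nsmulAddMonoidHom (α := JZero M) p).ker with hSp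
  have hSp_mem : ∀ y : JZero M, y ∈ Sp ↔ y ∈ S ∧ p • y = 0 := by
    intro y
    rw [hSp, AddSubgroup.mem_inf, AddMonoidHom.mem_ker, nsmulAddMonoidHom_apply]
  refine ⟨S, K + 1, fun i => Sp.map ((T ^ (i - 1) : Module.End ℤ (JZero M)).toAddMonoidHom),
    Nat.succ_pos K, ?_, ?_, ?_, ?_, ?_, ?_⟩
  · intro y n hy τ hτ
    exact smul_sub_mem_cobClosureTwo (arithmeticGalois (modularFunctionFieldFull M)) p _ _
      y n hy hτ
  · intro x hx hpx
    refine ⟨x, (hSp_mem x).2 ⟨hx, hpx⟩, ?_⟩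
    simp
  · intro i hi1 hie x hx
    obtain ⟨y, hy, rfl⟩ := hx
    refine ⟨y, hy, ?_⟩
    have e : i + 1 - 1 = (i - 1) + 1 := by omega
    rw [e, pow_succ']
    rfl
  · intro x hx σ hσ a ha
    obtain ⟨y, hy, rfl⟩ := hx
    have hy' := (hSp_mem y).1 hy
    have e : ((T ^ (K + 1 - 1) : Module.End ℤ (JZero M)).toAddMonoidHom) y = T^[K] y := by
      rw [Nat.add_sub_cancel]
      exact Module.End.pow_apply T K y
    rw [e]
    exact hKy y hy'.1 hy'.2 σ hσ a ha
  · intro x hxS hpx hσx hTx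
    -- an element of the inertia group acting non-trivially on `μ_p`
    obtain ⟨σ₁, hσ₁, a₁, ha₁, -, ha₁1⟩ := exists_cycAct_ne_one hp hp2 hA
    have hcyc₁ : CycAct p σ₁ a₁ := ha₁
    -- an invariant pair
    obtain ⟨D, f, hf, rfl, hfD, hlc, -, hfinv⟩ := exists_invariant_pair M p x hpx
      {τ : GQ | τ ∈ A.inertiaSubgroupIn ℚ ∧ CycAct p τ 1}
      (fun τ hτ => by
        have := hσx τ hτ.1 1 hτ.2
        rwa [one_smul] at this)
    have hdiv : IsDivOf f (p • (D : Divisor Ω ↥(modularFunctionFieldBar M))) :=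
      ⟨hf, fun v => by rw [Finsupp.smul_apply, nsmul_eq_mul, hfD v]⟩
    -- the Kummer relation for `σ₁`
    have hk1 := exists_kummer_of_smul_mk_eq_nsmul hconst
      (arithmeticGalois (modularFunctionFieldFull M) σ₁) D hdiv (hσx σ₁ hσ₁ a₁ hcyc₁)
    -- the Kummer relation for `T_p`
    obtain ⟨D', hD', hdiv'⟩ := heckeOperatorBar_mk M p hp D
    have hk2 := exists_const_mul_pow_of_mk_eq_zero hconst D' (by rw [← hD']; exact hTx)
      (hdiv' p f hdiv)
    obtain ⟨c, w, hc, hw, hrel⟩ := H2 σ₁ hσ₁ a₁ hcyc₁ ha₁1 f hf hlc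
      (fun τ hτ hτ1 => hfinv τ ⟨hτ, hτ1⟩) (fun v => ⟨_, hfD v⟩) hk1 hk2
    have h2 := two_nsmul_mk_eq_zero_of_leg_pow M hp.ne_zero D f hf hfD c w hc hw hrel
    exact eq_zero_of_two_nsmul_of_prime_nsmul hp hp2 h2 hpx
  · -- clause (g): the congruence relation
    intro x n hx σ hσ
    obtain ⟨D, rfl⟩ := Pic0.mk_surjective x
    obtain ⟨g₀, hg₀⟩ := exists_isDivOf_of_nsmul_eq_zero D hx
    set g : SemilinearAut Ω ↥(modularFunctionFieldBar M) :=
      arithmeticGalois (modularFunctionFieldFull M) σ with hg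
    set D₁ : Divisor.degZero (K := Ω) (F := ↥(modularFunctionFieldBar M)) :=
      SemilinearAut.degZeroSMulHom g D with hD₁
    set D₂ : Divisor.degZero (K := Ω) (F := ↥(modularFunctionFieldBar M)) :=
      SemilinearAut.degZeroSMulHom g D₁ with hD₂
    obtain ⟨D', hD', hdiv'⟩ := heckeOperatorBar_mk M p hp D₁
    have h1 : IsDivOf (g • g₀) ((p ^ n) • (D₁ : Divisor Ω ↥(modularFunctionFieldBar M))) := by
      refine (hg₀.smul g).congr ?_
      show g • ((p ^ n) • (D : Divisor Ω ↥(modularFunctionFieldBar M))) =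
        (p ^ n) • (g • (D : Divisor Ω ↥(modularFunctionFieldBar M)))
      rw [semilinear_smul_nsmul_divisor]
    have h2 : IsDivOf (g • (g • g₀)) ((p ^ n) • (D₂ : Divisor Ω ↥(modularFunctionFieldBar M))) := by
      refine (h1.smul g).congr ?_
      show g • ((p ^ n) • (D₁ : Divisor Ω ↥(modularFunctionFieldBar M))) =
        (p ^ n) • (g • (D₁ : Divisor Ω ↥(modularFunctionFieldBar M)))
      rw [semilinear_smul_nsmul_divisor]
    have h3 := hdiv' (p ^ n) (g • g₀) h1
    set Z : Divisor.degZero (K := Ω) (F := ↥(modularFunctionFieldBar M)) :=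
      D₂ + p • D - D' with hZ
    have hmem : Pic0.mk Z ∈ esOldClosure M p A := by
      refine mk_mem_cobClosureTwo (arithmeticGalois (modularFunctionFieldFull M)) p _ _ n Z
        (g • (g • g₀) * g₀ ^ p / heckeFunBar M p (g • g₀)) ⟨σ, g₀, hσ, hg₀.1, rfl⟩ ?_
      refine ((h2.mul' (hg₀.pow p)).div h3).congr ?_
      show (p ^ n) • (D₂ : Divisor Ω ↥(modularFunctionFieldBar M)) +
          p • ((p ^ n) • (D : Divisor Ω ↥(modularFunctionFieldBar M))) -
          (p ^ n) • (D' : Divisor Ω ↥(modularFunctionFieldBar M)) =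
        (p ^ n) • ((D₂ : Divisor Ω ↥(modularFunctionFieldBar M)) +
          p • (D : Divisor Ω ↥(modularFunctionFieldBar M)) -
          (D' : Divisor Ω ↥(modularFunctionFieldBar M)))
      rw [smul_sub, smul_add, smul_comm (p ^ n) p]
    have e : (Pic0.mk Z : JZero M) =
        σ • σ • (Pic0.mk D : JZero M) - T (σ • (Pic0.mk D : JZero M)) + p • Pic0.mk D := by
      have e1 : (Pic0.mk Z : JZero M) =
          σ • σ • (Pic0.mk D : JZero M) + p • Pic0.mk D - Pic0.mk D' := rfl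
      have e2 : T (σ • (Pic0.mk D : JZero M)) = Pic0.mk D' := hD'
      rw [e1, e2]
      abel
    rw [← e]
    exact hmem

end KeyES

end Fermat.Agent.ML
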