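/-
S59 / AT-P — helper5 — **[ATP-B], part 9: from the base statement `LegOldBaseES` to the Kummer form
`OldKummerAtES` over `Ω`**, and **`esOldStatement : EsOldStatement`**.

Copy of NP33 `BASEP_helper2_OldDesc.oldKummerAt_of_base` with the extra Frobenius–Hecke factors: the
data `(φ_j, g_j)` of the factors are descended to the Galois base `K₁` together with `f` and the
`h`'s of the inertia coboundaries; `T_p` commutes with the base changes.
-/
import Mathlib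
import Fermat.Agent.ML.ATPB_helper5_OldKum
import Fermat.Agent.ML.ATPB_helper5_OldBase
import Fermat.Agent.NP.BASEP_helper2_KeyOld

set_option autoImplicit false
set_option linter.unusedSectionVars false
set_option linter.unusedVariables false
set_option linter.style.haveILetI false
set_option synthInstance.maxHeartbeats 400000

open HahnSeries IntermediateField AlgebraicCurve ModularCurve

namespace Fermat.Agent.ML

open Fermat.Agent.JA Fermat.Agent.FF Fermat.Agent.SS Fermat.Agent.X0N Fermat.Agent.S35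
  Fermat.Agent.NP

/-- `Ω = AlgebraicClosure ℚ`. -/
local notation "Ω" => AlgebraicClosure ℚ

/-- the absolute Galois group. -/
local notation "GQ" => (AlgebraicClosure ℚ ≃ₐ[ℚ] AlgebraicClosure ℚ)

section Compat

variable (M p : ℕ) [NeZero M] [NeZero p] [NeZero (M * p)]

/-- transport of the Frobenius–Hecke factor from the level field to the Legendre host. -/
theorem fullToLegE_heckeFactor (hp : p.Prime) (hp2 : p ≠ 2) (hpM : ¬ p ∣ M)
    (K₁ : IntermediateField ℚ Ω) (τ : ↥K₁ ≃ₐ[ℚ] ↥K₁) (g : ↥(keyFq ↥K₁ M)) :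
    fullToLegE ↥K₁ M (keyFqGalois ↥K₁ M τ • (keyFqGalois ↥K₁ M τ • g) * g ^ p /
      heckeFunK ↥K₁ M p (keyFqGalois ↥K₁ M τ • g)) =
    legGalois ↥K₁ M τ • (legGalois ↥K₁ M τ • fullToLegE ↥K₁ M g) * fullToLegE ↥K₁ M g ^ p /
      legHeckeP ↥K₁ M p hp hp2 (legGalois ↥K₁ M τ • fullToLegE ↥K₁ M g) := by
  have e1 : fullToLegE ↥K₁ M (keyFqGalois ↥K₁ M τ • g) =
      legGalois ↥K₁ M τ • fullToLegE ↥K₁ M g := fullToLegE_keyFqGalois_smul M τ g
  have e2 : fullToLegE ↥K₁ M (keyFqGalois ↥K₁ M τ • (keyFqGalois ↥K₁ M τ • g)) =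
      legGalois ↥K₁ M τ • (legGalois ↥K₁ M τ • fullToLegE ↥K₁ M g) := by
    rw [fullToLegE_keyFqGalois_smul M τ (keyFqGalois ↥K₁ M τ • g), e1]
  have e3 : fullToLegE ↥K₁ M (heckeFunK ↥K₁ M p (keyFqGalois ↥K₁ M τ • g)) =
      legHeckeP ↥K₁ M p hp hp2 (legGalois ↥K₁ M τ • fullToLegE ↥K₁ M g) := by
    rw [← e1]
    exact (legHeckeP_fullToLegE_base M p hp hp2 hpM K₁ (keyFqGalois ↥K₁ M τ • g)).symm
  rw [map_div₀, map_mul, map_pow]
  exact congrArg₂ (· / ·) (congrArg₂ (· * ·) e2 rfl) e3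

/-- base change of the Frobenius–Hecke factor of the level field. -/
theorem keyFqBC_heckeFactor (hp : p.Prime) (K₁ : IntermediateField ℚ Ω) [Normal ℚ ↥K₁] (τ : GQ)
    (g : ↥(keyFq ↥K₁ M)) :
    keyFqBC M K₁ (keyFqGalois ↥K₁ M (resGal K₁ τ) • (keyFqGalois ↥K₁ M (resGal K₁ τ) • g) * g ^ p /
      heckeFunK ↥K₁ M p (keyFqGalois ↥K₁ M (resGal K₁ τ) • g)) =
    arithmeticGalois (modularFunctionFieldFull M) τ •
        (arithmeticGalois (modularFunctionFieldFull M) τ • keyFqBC M K₁ g) * keyFqBC M K₁ g ^ p /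
      heckeFunBar M p (arithmeticGalois (modularFunctionFieldFull M) τ • keyFqBC M K₁ g) := by
  have e1 : keyFqBC M K₁ (keyFqGalois ↥K₁ M (resGal K₁ τ) • g) =
      arithmeticGalois (modularFunctionFieldFull M) τ • keyFqBC M K₁ g :=
    keyFqBC_keyFqGalois_smul M K₁ τ g
  have e2 : keyFqBC M K₁ (keyFqGalois ↥K₁ M (resGal K₁ τ) •
        (keyFqGalois ↥K₁ M (resGal K₁ τ) • g)) =
      arithmeticGalois (modularFunctionFieldFull M) τ •
        (arithmeticGalois (modularFunctionFieldFull M) τ • keyFqBC M K₁ g) := by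
    rw [← e1]
    exact keyFqBC_keyFqGalois_smul M K₁ τ (keyFqGalois ↥K₁ M (resGal K₁ τ) • g)
  have e3 : keyFqBC M K₁ (heckeFunK ↥K₁ M p (keyFqGalois ↥K₁ M (resGal K₁ τ) • g)) =
      heckeFunBar M p (arithmeticGalois (modularFunctionFieldFull M) τ • keyFqBC M K₁ g) := by
    rw [← e1]
    exact keyFqBC_heckeFunK M p hp K₁ (keyFqGalois ↥K₁ M (resGal K₁ τ) • g)
  rw [map_div₀, map_mul, map_pow]
  exact congrArg₂ (· / ·) (congrArg₂ (· * ·) e2 rfl) e3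

end Compat

section Main

variable (M p : ℕ) [NeZero M] [NeZero p] [NeZero (M * p)]

set_option maxHeartbeats 12800000 in
/-- **[ATP-B], old case, depth filtration: from the base statement to the Kummer form over `Ω`.** -/
theorem oldKummerAtES_of_base (hB : LegOldBaseES) (hp : p.Prime) (hp2 : p ≠ 2) (hpM : ¬ p ∣ M)
    (A : ValuationSubring Ω) (hA : A.LiesOverPrime p) : OldKummerAtES M p A := by
  classical
  rintro f hf ⟨k₀, c, l, gs, hc, hl, hgs, hfl⟩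
  -- the data of the Frobenius–Hecke factors
  choose φ g₀ hφ hg₀ hv using
    fun j : Fin gs.length => hgs (gs.get j) (List.get_mem gs j)
  have hgsprod : gs.prod = ∏ j : Fin gs.length,
      (arithmeticGalois (modularFunctionFieldFull M) (φ j) •
        (arithmeticGalois (modularFunctionFieldFull M) (φ j) • g₀ j) * g₀ j ^ p /
      heckeFunBar M p (arithmeticGalois (modularFunctionFieldFull M) (φ j) • g₀ j)) := by
    rw [← List.prod_ofFn]
    congr 1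
    exact (List.ofFn_get gs).symm.trans (congrArg List.ofFn (funext hv))
  -- monic normalisation over `Ω`
  have hfL : ((f : ↥(modularFunctionFieldBar M)) : LaurentSeries Ω) ≠ 0 := fun h0 =>
    hf (Subtype.ext h0)
  set c₀ : Ω := (((f : ↥(modularFunctionFieldBar M)) : LaurentSeries Ω).leadingCoeff)⁻¹
    with hc₀def
  have hc₀ : c₀ ≠ 0 := inv_ne_zero (HahnSeries.leadingCoeff_ne_zero.2 hfL)
  set f' : ↥(modularFunctionFieldBar M) :=
    algebraMap Ω ↥(modularFunctionFieldBar M) c₀ * f with hf'def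
  have hf'0 : f' ≠ 0 := mul_ne_zero ((map_ne_zero _).2 hc₀) hf
  -- the Galois base
  haveI : Fact p.Prime := ⟨hp⟩
  haveI : NeZero ((p : ℕ) : Ω) := ⟨by exact_mod_cast hp.ne_zero⟩
  obtain ⟨ζ, hζ⟩ : ∃ ζ : Ω, IsPrimitiveRoot ζ p := HasEnoughRootsOfUnity.exists_primitiveRoot Ω p
  obtain ⟨K₁, hK₁, -, htK, hdesc, -⟩ :=
    (isBase_flatBase (ℓ := p)).exists_ge_isGalBase_legE M ({ζ} : Finset Ω)
      (f := fun i : Option (Fin l.length) ⊕ Fin gs.length => Sum.elim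
        (fun o : Option (Fin l.length) => o.elim
          ((f' : ↥(modularFunctionFieldBar M)) : LaurentSeries Ω)
          (fun j => (((l.get j).2 : ↥(modularFunctionFieldBar M)) : LaurentSeries Ω)))
        (fun j : Fin gs.length =>
          ((g₀ j : ↥(modularFunctionFieldBar M)) : LaurentSeries Ω)) i)
      (fun i => by
        rcases i with o | j
        · cases o; exacts [f'.2, (l.get _).2.2]
        · exact (g₀ j).2) ∅
  haveI := hK₁.normal
  obtain ⟨f₁, hf₁mem, hf₁⟩ := hdesc (Sum.inl none)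
  simp only [Sum.elim_inl, Option.elim_none] at hf₁
  set F₁ : ↥(keyFq ↥K₁ M) := ⟨f₁, hf₁mem⟩ with hF₁def
  have hBC0 : keyFqBC M K₁ F₁ = f' := Subtype.ext hf₁
  have hF₁0 : F₁ ≠ 0 := by
    intro h0
    apply hf'0
    rw [← hBC0, h0, map_zero]
  -- the descended data of the Frobenius–Hecke factors
  have hGdesc : ∀ j : Fin gs.length, ∃ G₁ : ↥(keyFq ↥K₁ M), keyFqBC M K₁ G₁ = g₀ j := by
    intro j
    obtain ⟨x₁, hmem, hx⟩ := hdesc (Sum.inr j)
    exact ⟨⟨x₁, hmem⟩, Subtype.ext hx⟩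
  choose G₁ hG₁ using hGdesc
  have hG₁0 : ∀ j, G₁ j ≠ 0 := by
    intro j h0
    apply hg₀ j
    rw [← hG₁ j, h0, map_zero]
  -- the primitive root
  have hζK : ∃ ζ₁ : ↥K₁, IsPrimitiveRoot ζ₁ p := by
    refine ⟨⟨ζ, htK ζ (Finset.mem_singleton_self _)⟩, ?_⟩
    exact IsPrimitiveRoot.of_map_of_injective (f := algebraMap ↥K₁ Ω) hζ (algebraMap ↥K₁ Ω).injective
  -- the splitting over `K₁`
  have hdescl : ∀ x ∈ l, ∃ y : ↥(keyFq ↥K₁ M), keyFqBC M K₁ y = x.2 := by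
    intro x hx
    obtain ⟨j, rfl⟩ := List.mem_iff_get.1 hx
    obtain ⟨h₁, hmem, hh⟩ := hdesc (Sum.inl (some j))
    exact ⟨⟨h₁, hmem⟩, Subtype.ext hh⟩
  obtain ⟨l₁, hl₁⟩ := exists_list_map_eq (keyFqBC M K₁) l hdescl
  set ι₁ : GQ →* SemilinearAut ↥K₁ ↥(keyFq ↥K₁ M) :=
    (keyFqGalois ↥K₁ M).comp (resGal K₁) with hι₁
  have hcob : keyFqBC M K₁ (cobProd ι₁ l₁) =
      cobProd (arithmeticGalois (modularFunctionFieldFull M)) l := by
    rw [map_cobProd ι₁ (keyFqGalois Ω M) (keyFqBC M K₁)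
      (fun τ x => keyFqBC_keyFqGalois_smul M K₁ τ x) l₁, hl₁]
    rfl
  have hl₁' : IsCobList ((A.inertiaSubgroupIn ℚ : Subgroup GQ) : Set GQ) l₁ :=
    IsCobList.of_map_hom (keyFqBC M K₁) (by rw [hl₁]; exact hl)
  have hcob0 : cobProd ι₁ l₁ ≠ 0 := cobProd_ne_zero ι₁ hl₁'
  -- the Frobenius–Hecke factors over `K₁`
  set V₁ : Fin gs.length → ↥(keyFq ↥K₁ M) := fun j =>
    keyFqGalois ↥K₁ M (resGal K₁ (φ j)) • (keyFqGalois ↥K₁ M (resGal K₁ (φ j)) • G₁ j) *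
      G₁ j ^ p / heckeFunK ↥K₁ M p (keyFqGalois ↥K₁ M (resGal K₁ (φ j)) • G₁ j) with hV₁
  have hV₁BC : keyFqBC M K₁ (∏ j, V₁ j) = gs.prod := by
    rw [map_prod, hgsprod]
    refine Finset.prod_congr rfl fun j _ => ?_
    rw [hV₁]
    show keyFqBC M K₁ (keyFqGalois ↥K₁ M (resGal K₁ (φ j)) •
        (keyFqGalois ↥K₁ M (resGal K₁ (φ j)) • G₁ j) * G₁ j ^ p /
        heckeFunK ↥K₁ M p (keyFqGalois ↥K₁ M (resGal K₁ (φ j)) • G₁ j)) = _
    rw [keyFqBC_heckeFactor M p hp K₁ (φ j) (G₁ j), hG₁ j]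
  have hgs0 : gs.prod ≠ 0 :=
    list_prod_ne_zero fun g hg => (factorFamily_isFrobOldFactorBar M p A).ne_zero _ g (hgs g hg)
  have hV₁0 : (∏ j, V₁ j) ≠ 0 := by
    intro h0
    apply hgs0
    rw [← hV₁BC, h0, map_zero]
  obtain ⟨c₁, hc₁, hX⟩ := exists_const_of_keyFqBC_eq_algebraMap M K₁
    (F₁ ^ p ^ k₀ / (cobProd ι₁ l₁ * ∏ j, V₁ j)) (c₀ ^ p ^ k₀ * c) (by
      rw [map_div₀, map_pow, hBC0, map_mul, hcob, hV₁BC, hf'def, mul_pow, hfl, ← map_pow, map_mul]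
      have h0 : cobProd (arithmeticGalois (modularFunctionFieldFull M)) l ≠ 0 := by
        rw [← hcob]
        exact (map_ne_zero _).2 hcob0
      field_simp)
  have hc₁0 : c₁ ≠ 0 := by
    rintro rfl
    rw [map_zero] at hc₁
    exact mul_ne_zero (pow_ne_zero _ hc₀) hc hc₁.symm
  have hsplit₁ : F₁ ^ p ^ k₀ =
      algebraMap ↥K₁ ↥(keyFq ↥K₁ M) c₁ * (cobProd ι₁ l₁ * ∏ j, V₁ j) := by
    rw [← hX, div_mul_cancel₀ _ (mul_ne_zero hcob0 hV₁0)]
  -- the splitting on the host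
  have hsplit : IsInertiaSplitOldES A K₁ M p hp hp2 (fullToLegE ↥K₁ M F₁) := by
    obtain ⟨u, hu, hu'⟩ := cobProd_mem_legInertiaCob A K₁ M
      (l₁.map fun x => (x.1, (fullToLegE ↥K₁ M).toRingHom x.2))
      (IsCobList.map_hom hl₁' (fullToLegE ↥K₁ M).toRingHom)
    refine ⟨k₀, c₁, u, List.ofFn fun j => fullToLegE ↥K₁ M (V₁ j), hc₁0, hu, ?_, ?_⟩
    · intro v hv
      rw [List.mem_ofFn] at hv
      obtain ⟨j, rfl⟩ := hv
      refine ⟨φ j, G₁ j, hφ j, hG₁0 j, ?_⟩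
      exact fullToLegE_heckeFactor M p hp hp2 hpM K₁ (resGal K₁ (φ j)) (G₁ j)
    · rw [hu', ← map_cobProd ι₁ ((legGalois ↥K₁ M).comp (resGal K₁))
        (fullToLegE ↥K₁ M).toRingHom
        (fun τ x => fullToLegE_keyFqGalois_smul M (resGal K₁ τ) x) l₁, List.prod_ofFn]
      have h3 := congrArg (fullToLegE ↥K₁ M) hsplit₁
      rw [map_pow, map_mul, AlgHom.commutes, map_mul, map_prod] at h3
      rw [h3, mul_assoc]
      rfl
  -- the base statement
  obtain ⟨k, hk⟩ := hB M p hp hp2 hpM A hA K₁ hK₁ hζK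
  refine ⟨k, fun hord σ hσ a ha => ?_⟩
  -- the iterates of `T_p`
  have hiter : ∀ j : ℕ, (legHeckeP ↥K₁ M p hp hp2)^[j] (fullToLegE ↥K₁ M F₁) =
      fullToLegE ↥K₁ M ((heckeFunK ↥K₁ M p)^[j] F₁) := fun j =>
    legHeckeP_iterate_fullToLegE_of_isBase M p hp hp2 hpM A hA K₁ hK₁.isBase F₁ j
  have hiterBC : ∀ j : ℕ, ∃ d : ℕ, keyFqBC M K₁ ((heckeFunK ↥K₁ M p)^[j] F₁) =
      algebraMap Ω ↥(modularFunctionFieldBar M) (c₀ ^ d) * (heckeFunBar M p)^[j] f := by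
    intro j
    obtain ⟨d, hd⟩ := exists_heckeFunK_iterate_algebraMap_mul Ω M p j
    exact ⟨d, by rw [keyFqBC_heckeFunK_iterate M p hp, hBC0, hf'def, hd]; rfl⟩
  have hTne : ∀ j : ℕ, (heckeFunBar M p)^[j] f ≠ 0 := heckeFunBar_iterate_ne_zero M p hf
  have hordK : ∀ j : ℕ, j ≤ k → ∀ P : Place ↥K₁ ↥(legE ↥K₁ M),
      (p : ℤ) ∣ P.ord ((legHeckeP ↥K₁ M p hp hp2)^[j] (fullToLegE ↥K₁ M F₁)) := by
    intro j hj P
    rw [hiter j]
    refine dvd_ord_fullToLegE_of_keyFqBC M K₁ _ (fun v => ?_) P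
    obtain ⟨d, hd⟩ := hiterBC j
    rw [hd, v.ord_mul ((map_ne_zero _).2 (pow_ne_zero _ hc₀)) (hTne j),
      place_ord_algebraMap_eq_zero v (pow_ne_zero _ hc₀), zero_add]
    exact hord j hj v
  obtain ⟨c', u, hc', hu⟩ := hk (fullToLegE ↥K₁ M F₁) ((map_ne_zero _).2 hF₁0) hordK hsplit
    σ hσ a ha
  -- back to `Ω`
  obtain ⟨d, hd⟩ := hiterBC k
  set g : ↥(modularFunctionFieldBar M) := (heckeFunBar M p)^[k] f with hgdef
  have hg0 : g ≠ 0 := hTne k
  rw [hiter k] at hu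
  have h1 := congrArg (legBC M K₁) hu
  rw [map_div₀, legBC_legGalois_smul, map_pow, map_mul, map_pow, legBC_algebraMap,
    bcdeg_legBC_fullToLegE, hd, map_mul, AlgHom.commutes, smul_mul',
    SemilinearAut.smul_algebraMap] at h1
  set X : ↥(legE Ω M) := fullToLegE Ω M g with hXdef
  have hX0 : X ≠ 0 := (map_ne_zero _).2 hg0
  set e : Ω := SemilinearAut.baseAut (legGalois Ω M σ) (c₀ ^ d) with he
  have hcd0 : c₀ ^ d ≠ 0 := pow_ne_zero _ hc₀
  have he0 : e ≠ 0 := (map_ne_zero _).2 hcd0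
  have hsX0 : legGalois Ω M σ • X ≠ 0 := by simpa using hX0
  have hG0 : fullToLegE ↥K₁ M ((heckeFunK ↥K₁ M p)^[k] F₁) ≠ 0 := by
    intro h0
    have h2 := congrArg (legBC M K₁) h0
    rw [bcdeg_legBC_fullToLegE, hd, map_zero] at h2
    exact mul_ne_zero ((map_ne_zero _).2 hcd0) hg0 ((map_eq_zero _).1 h2)
  have hu0 : u ≠ 0 := by
    rintro rfl
    rw [zero_pow hp.ne_zero, mul_zero] at hu
    have h2 : legGalois ↥K₁ M (resGal K₁ σ) •
        fullToLegE ↥K₁ M ((heckeFunK ↥K₁ M p)^[k] F₁) ≠ 0 := by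
      simpa using hG0
    exact div_ne_zero h2 (pow_ne_zero _ hG0) hu
  refine ⟨algebraMap ↥K₁ Ω c' * (c₀ ^ d) ^ a / e, legBC M K₁ u,
    div_ne_zero (mul_ne_zero ((map_ne_zero _).2 hc') (pow_ne_zero _ hcd0)) he0,
    (map_ne_zero _).2 hu0, ?_⟩
  have hA0 : algebraMap Ω ↥(legE Ω M) (c₀ ^ d) ≠ 0 := (map_ne_zero _).2 hcd0
  have hD0 : algebraMap Ω ↥(legE Ω M) e ≠ 0 := (map_ne_zero _).2 he0
  rw [map_div₀, map_mul, map_pow (algebraMap Ω ↥(legE Ω M)) (c₀ ^ d) a]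
  have h2 : algebraMap Ω ↥(legE Ω M) (algebraMap ↥K₁ Ω c') *
      algebraMap Ω ↥(legE Ω M) (c₀ ^ d) ^ a / algebraMap Ω ↥(legE Ω M) e *
      legBC M K₁ u ^ p =
      (algebraMap Ω ↥(legE Ω M) (algebraMap ↥K₁ Ω c') * legBC M K₁ u ^ p) *
      algebraMap Ω ↥(legE Ω M) (c₀ ^ d) ^ a / algebraMap Ω ↥(legE Ω M) e := by ring
  rw [h2, ← h1, mul_pow]
  have hXa : X ^ a ≠ 0 := pow_ne_zero _ hX0
  have hQa : algebraMap Ω ↥(legE Ω M) (c₀ ^ d) ^ a ≠ 0 := pow_ne_zero _ hA0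
  field_simp

end Main

/-- **(ES-OLD), all levels: the geometric input at `p`, old part.** -/
theorem esOldStatement : EsOldStatement := by
  intro M p _ hp hp2 hpM A hA
  haveI : NeZero p := ⟨hp.ne_zero⟩
  haveI : NeZero (M * p) := ⟨Nat.mul_ne_zero (NeZero.ne M) (NeZero.ne p)⟩
  exact esOldAt_of_oldKummerES M p hp hp2 hpM A hA
    (oldKummerAtES_of_base M p legOldBaseES hp hp2 hpM A hA)
    (oldTopKummerAt_of_base M p legOldTopBaseP hp hp2 hpM A hA)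

end Fermat.Agent.ML
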