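/-
PROJECT ML (S59) — package [AT-P], Part B, OLD half — helper1 — **the lattice side.**

Level `M`, `p ∤ M`, a full system of eigenvalues `a` over `B` with eigenlattice
`Λ = eigenLattice M B a` and representation `ρ'' = (stageIData M p).rep B hpB a L hrank`.
From (ES-OLD) at a place `A ∣ p` (`EsOldAt M p hp A`, subgroup `S ≤ J₀(M)`) and an ordinary vector
of `Λ` modulo the maximal ideal: for every Frobenius lift `σ` at `A` there is a NON-ZERO functional
`Φ : Λ → B`, invariant under the inertia group at `A`, with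
  `Φ (ρ''(σ)² w) - a_p Φ (ρ''(σ) w) + p Φ (w) = 0`   for all `w ∈ Λ`.
`Φ = (evaluation at some γ) ∘ (extension of Y)`, `Y` a complementary projector of the saturated
sublattice `tateSub D S` of `T_p J₀(M)`:
* invariance: `Y (ρ(τ) - 1) = 0` by clause (a);
* relation: `Y (ρ(σ)² - T_p ρ(σ) + p) = 0` by clause (g), and `T_p = a_p` on `Λ`;
* non-vanishing: otherwise every `w ∈ Λ` lies in the extension of `tateSub D S`, and the NP33
  argument (`old_exists_eq_smul` + `a_p` unit + `false_of_scalar_mod`) gives a contradiction.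
-/
import Mathlib
import Fermat.Agent.NP.S33TOP_helper2_Old
import Fermat.Agent.ML.IFACE_helper2_AtP

set_option autoImplicit false
set_option linter.unusedSectionVars false
set_option linter.unusedVariables false
set_option linter.style.haveILetI false

open CongruenceSubgroup ModularCurve ModularCurve.Period IsLocalRing

open scoped MatrixGroups

namespace Fermat.Agent.ML.ATPO

open Fermat.Agent.GR Fermat.Agent.X0N Fermat.Agent.JA Fermat.Agent.S35 Fermat.Agent.NP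
  Fermat.Agent.ML

local notation "Ω" => AlgebraicClosure ℚ
local notation "GQ" => (AlgebraicClosure ℚ ≃ₐ[ℚ] AlgebraicClosure ℚ)

section Ext

variable {R R' : Type*} [CommRing R] [CommRing R'] [Algebra R R'] [IsAddTorsionFree R]
  [IsAddTorsionFree R'] [Module.Flat R R'] [IsDomain R] [IsPrincipalIdealRing R]
  {Γ' : Subgroup SL(2, ℤ)} [Group.FG Γ']

/-- an element killed by the extension of a complementary projector of `E` lies in the extension
of `E`. -/
theorem inExt_of_parExt_eq_zero (E : Submodule R ↥(parabolicHoms R Γ' R))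
    (Y : Module.End R ↥(parabolicHoms R Γ' R)) (hY' : ∀ x, x - Y x ∈ E)
    (v : ↥(parabolicHoms R' Γ' R')) (hv : parExt R R' Γ' Y v = 0) : InExt E v := by
  intro Z hZ
  have h : Z = Z * Y := by
    apply LinearMap.ext
    intro x
    rw [Module.End.mul_apply]
    have := hZ _ (hY' x)
    rw [map_sub, sub_eq_zero] at this
    exact this
  rw [h, map_mul, Module.End.mul_apply, hv, map_zero]

end Ext

section OldB

variable {M p : ℕ} [NeZero M] [hp : Fact p.Prime] (I : StageIData M p)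
  (B : Type) [CommRing B] [IsDomain B] [CharZero B] [Algebra ℤ_[p] B] [Module.Flat ℤ_[p] B]

/-- `old_exists_eq_smul` of NP33 with the subgroup `S` explicit: for `v` in the extension of
`tateSub D S`. -/
theorem old_exists_eq_smul_of_inExt (hpM : ¬ p ∣ M) {A : ValuationSubring Ω}
    {S : AddSubgroup (JZero M)} {e : ℕ} {Dd : ℕ → AddSubgroup (JZero M)} (he : 1 ≤ e)
    (hd1 : ∀ x ∈ S, p • x = 0 → x ∈ Dd 1)
    (hd2 : ∀ i : ℕ, 1 ≤ i → i < e → ∀ x ∈ Dd i, heckeOperatorBar M ⟨p, hp.out⟩ x ∈ Dd (i + 1))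
    (hd3 : ∀ x ∈ Dd e, ∀ σ ∈ A.inertiaSubgroupIn ℚ, ∀ a : ℕ, CycAct p σ a → σ • x = a • x)
    (v : ↥(parabolicHoms B (Gamma0 M) B)) (hE₁ : InExt (tateSub I.D S) v)
    (σ : GQ) (hσ : σ ∈ A.inertiaSubgroupIn ℚ) (a : ℕ) (ha : CycAct p σ a) :
    ∃ v' : ↥(parabolicHoms B (Gamma0 M) B),
      parExt ℤ_[p] B (Gamma0 M) (I.D.rho σ) ((heckeParP M ⟨p, hp.out⟩ B B ^ (e - 1)) v) -
        (a : B) • (heckeParP M ⟨p, hp.out⟩ B B ^ (e - 1)) v = (p : B) • v' := by
  have hs₁ : IsSat (tateSub I.D S) := fun r ψ hr h => tateSub_sat I.D S r ψ hr h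
  have hg₀ : (I.D.rho σ - (a : Module.End ℤ_[p] ↥(parabolicHoms ℤ_[p] (Gamma0 M) ℤ_[p]))) *
      (I.D.transport (tpEnd I)) ^ (e - 1) =
      I.D.transport ((DistribMulAction.toAddMonoidEnd GQ (JZero M) σ -
        (a : AddMonoid.End (JZero M))) * tpEnd I ^ (e - 1)) := by
    have h1 := map_mul I.D.transport (DistribMulAction.toAddMonoidEnd GQ (JZero M) σ -
        (a : AddMonoid.End (JZero M))) (tpEnd I ^ (e - 1))
    have h2 := map_pow I.D.transport (tpEnd I) (e - 1)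
    rw [h1, h2, rho_sub_natCast]
  obtain ⟨v', hv'⟩ := hE₁.exists_eq_smul hs₁
    ((I.D.rho σ - (a : Module.End ℤ_[p] ↥(parabolicHoms ℤ_[p] (Gamma0 M) ℤ_[p]))) *
      (I.D.transport (tpEnd I)) ^ (e - 1))
    (p : ℤ_[p]) (by
      intro ψ hψS
      rw [hg₀]
      apply transport_eq_smul_of_redTors_one
      rw [addEnd_mul_apply, sub_natCast_apply, sub_eq_zero]
      have hx1 := hψS 1
      have hx2 : p • ((I.D.redTors 1 ψ : ↥(torsionNat (JZero M) (p ^ 1))) : JZero M) = 0 := by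
        have := redTors_torsion I.D 1 ψ
        simpa only [pow_one] using this
      have h3 := pow_mem_of_keyOld I hpM hd1 hd2 hx1 hx2 (e - 1) (by omega)
      rw [Nat.sub_add_cancel he] at h3
      exact hd3 _ h3 σ hσ a ha)
  refine ⟨v', ?_⟩
  rw [← map_natCast (algebraMap ℤ_[p] B) p, ← hv']
  have hTT : parExt ℤ_[p] B (Gamma0 M) (I.D.transport (tpEnd I)) =
      heckeParP M (⟨p, hp.out⟩ : Nat.Primes) B B :=
    (congrArg (parExt ℤ_[p] B (Gamma0 M)) (transport_tpEnd I)).trans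
      (parExt_heckeParP M ℤ_[p] B (⟨p, hp.out⟩ : Nat.Primes))
  exact (parExt_sub_mul_pow_apply B (I.D.rho σ) (I.D.transport (tpEnd I)) _ hTT a (e - 1) v).symm

/-- the Frobenius relation on `P`, as a transport. -/
theorem rho_frob_relation_eq_transport (σ : GQ) :
    I.D.rho σ * I.D.rho σ - I.D.transport (tpEnd I) * I.D.rho σ +
        (p : Module.End ℤ_[p] ↥(parabolicHoms ℤ_[p] (Gamma0 M) ℤ_[p])) =
      I.D.transport (DistribMulAction.toAddMonoidEnd GQ (JZero M) σ *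
          DistribMulAction.toAddMonoidEnd GQ (JZero M) σ -
        tpEnd I * DistribMulAction.toAddMonoidEnd GQ (JZero M) σ +
          (p : AddMonoid.End (JZero M))) := by
  rw [map_add, map_sub, map_mul I.D.transport, map_mul I.D.transport, map_natCast]
  rfl

/-- **clause (g) on `P`**: the Frobenius relation has values in `tateSub D S`. -/
theorem rho_frob_relation_mem_tateSub (hpM : ¬ p ∣ M) {S : AddSubgroup (JZero M)} (σ : GQ)
    (hg : ∀ (x : JZero M) (n : ℕ), p ^ n • x = 0 →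
      σ • σ • x - heckeOperatorBar M ⟨p, hp.out⟩ (σ • x) + p • x ∈ S)
    (ψ : ↥(parabolicHoms ℤ_[p] (Gamma0 M) ℤ_[p])) :
    (I.D.rho σ * I.D.rho σ - I.D.transport (tpEnd I) * I.D.rho σ +
        (p : Module.End ℤ_[p] ↥(parabolicHoms ℤ_[p] (Gamma0 M) ℤ_[p]))) ψ ∈ tateSub I.D S := by
  rw [rho_frob_relation_eq_transport]
  apply transport_mem_tateSub
  intro y n hy
  have h := hg y n hy
  rw [← tpEnd_apply I hpM] at h
  show (DistribMulAction.toAddMonoidEnd GQ (JZero M) σ)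
      ((DistribMulAction.toAddMonoidEnd GQ (JZero M) σ) y) -
    tpEnd I ((DistribMulAction.toAddMonoidEnd GQ (JZero M) σ) y) +
      (p : AddMonoid.End (JZero M)) y ∈ S
  rw [AddMonoid.End.natCast_apply]
  exact h

/-- clause (a) on `P`: `ρ(τ) - 1` has values in `tateSub D S`. -/
theorem rho_sub_one_mem_tateSub {S : AddSubgroup (JZero M)} (τ : GQ)
    (ha : ∀ (y : JZero M) (n : ℕ), p ^ n • y = 0 → τ • y - y ∈ S)
    (ψ : ↥(parabolicHoms ℤ_[p] (Gamma0 M) ℤ_[p])) :
    (I.D.rho τ - 1) ψ ∈ tateSub I.D S := by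
  have h1 := rho_sub_natCast I.D τ 1
  rw [Nat.cast_one] at h1
  rw [h1]
  apply transport_mem_tateSub
  intro y n hy
  rw [sub_natCast_apply, one_smul]
  exact ha y n hy

end OldB

section Alg

/-- bookkeeping: a ring homomorphism into an endomorphism ring applied to
`Y (X² - T X + n)`. -/
theorem ringHom_relation_apply {E : Type*} [Ring E] {R' P' : Type*} [CommRing R']
    [AddCommGroup P'] [Module R' P'] (f : E →+* Module.End R' P') (Y X T : E) (n : ℕ) (x : P') :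
    f (Y * (X * X - T * X + (n : E))) x =
      f Y (f X (f X x)) - f Y (f T (f X x)) + (n : R') • f Y x := by
  rw [map_mul, map_add, map_sub, map_mul, map_mul, map_natCast, Module.End.mul_apply,
    LinearMap.add_apply, LinearMap.sub_apply, Module.End.mul_apply, Module.End.mul_apply,
    map_add, map_sub]
  congr 1
  rw [Module.End.natCast_apply, map_nsmul, Nat.cast_smul_eq_nsmul]

end Alg

section Old

variable {M p : ℕ} [NeZero M] [hp : Fact p.Prime]
  (B : Type) [CommRing B] [IsDomain B] [IsDiscreteValuationRing B] [CharZero B]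
  [Algebra ℤ_[p] B] [Module.Flat ℤ_[p] B] (hpB : (p : B) ∈ maximalIdeal B)
  (a : Nat.Primes → B)
  (L : Type) [Field L] [Algebra B L] [IsFractionRing B L]
  (hrank : Module.finrank L ↥(eigenPar M L (mapSys B L a)) = 2)

/-- the complementary projector of `tateSub D S` and its two relations. -/
theorem exists_projector (I : StageIData M p) (hpM : ¬ p ∣ M) {A : ValuationSubring Ω}
    (S : AddSubgroup (JZero M))
    (hSa : ∀ (y : JZero M) (n : ℕ), p ^ n • y = 0 →
      ∀ τ ∈ A.inertiaSubgroupIn ℚ, τ • y - y ∈ S)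
    (σ : GQ)
    (hg : ∀ (x : JZero M) (n : ℕ), p ^ n • x = 0 →
      σ • σ • x - heckeOperatorBar M ⟨p, hp.out⟩ (σ • x) + p • x ∈ S) :
    ∃ Y : Module.End ℤ_[p] ↥(parabolicHoms ℤ_[p] (Gamma0 M) ℤ_[p]),
      (∀ x, x - Y x ∈ tateSub I.D S) ∧
      (∀ τ ∈ A.inertiaSubgroupIn ℚ, Y * I.D.rho τ = Y) ∧
      Y * (I.D.rho σ * I.D.rho σ - I.D.transport (tpEnd I) * I.D.rho σ +
        (p : Module.End ℤ_[p] ↥(parabolicHoms ℤ_[p] (Gamma0 M) ℤ_[p]))) = 0 := by
  have hs₁ : ∀ (r : ℤ_[p]) (x : ↥(parabolicHoms ℤ_[p] (Gamma0 M) ℤ_[p])), r ≠ 0 →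
      r • x ∈ tateSub I.D S → x ∈ tateSub I.D S :=
    fun r ψ hr h => tateSub_sat I.D S r ψ hr h
  obtain ⟨Y, hY, hY'⟩ := exists_end_ker_eq (tateSub I.D S) hs₁
  refine ⟨Y, hY', ?_, ?_⟩
  · intro τ hτ
    have h0 : Y * (I.D.rho τ - 1) = 0 := by
      apply LinearMap.ext
      intro ψ
      rw [Module.End.mul_apply, LinearMap.zero_apply]
      exact (hY _).2 (rho_sub_one_mem_tateSub I τ (fun y n hy => hSa y n hy τ hτ) ψ)
    rw [mul_sub, mul_one, sub_eq_zero] at h0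
    exact h0
  · apply LinearMap.ext
    intro ψ
    rw [Module.End.mul_apply, LinearMap.zero_apply]
    exact (hY _).2 (rho_frob_relation_mem_tateSub I hpM σ hg ψ)

/-- the relation on `Hom_par(Γ₀(M), B)`. -/
theorem parExt_frob_relation (I : StageIData M p) (σ : GQ)
    (Y : Module.End ℤ_[p] ↥(parabolicHoms ℤ_[p] (Gamma0 M) ℤ_[p]))
    (hYσ : Y * (I.D.rho σ * I.D.rho σ - I.D.transport (tpEnd I) * I.D.rho σ +
        (p : Module.End ℤ_[p] ↥(parabolicHoms ℤ_[p] (Gamma0 M) ℤ_[p]))) = 0)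
    (x : ↥(parabolicHoms B (Gamma0 M) B)) :
    parExt ℤ_[p] B (Gamma0 M) Y (parExt ℤ_[p] B (Gamma0 M) (I.D.rho σ)
        (parExt ℤ_[p] B (Gamma0 M) (I.D.rho σ) x)) -
      parExt ℤ_[p] B (Gamma0 M) Y (heckeParP M (⟨p, hp.out⟩ : Nat.Primes) B B
        (parExt ℤ_[p] B (Gamma0 M) (I.D.rho σ) x)) +
      (p : B) • parExt ℤ_[p] B (Gamma0 M) Y x = 0 := by
  have hTT : parExt ℤ_[p] B (Gamma0 M) (I.D.transport (tpEnd I)) =
      heckeParP M (⟨p, hp.out⟩ : Nat.Primes) B B :=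
    (congrArg (parExt ℤ_[p] B (Gamma0 M)) (transport_tpEnd I)).trans
      (parExt_heckeParP M ℤ_[p] B (⟨p, hp.out⟩ : Nat.Primes))
  have h1 := ringHom_relation_apply (parExt ℤ_[p] B (Gamma0 M)) Y (I.D.rho σ)
    (I.D.transport (tpEnd I)) p x
  rw [hYσ, map_zero, LinearMap.zero_apply, hTT] at h1
  exact h1.symm

include hpB hrank in
/-- **non-vanishing**: the extension of the complementary projector of `tateSub D S` does not kill
the eigenlattice (otherwise the inertia group acts on it through scalars modulo `p`). -/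
theorem exists_parExt_ne_zero (hp2 : p ≠ 2) (hpM : ¬ p ∣ M)
    (hplus : ∃ e : Additive (Gamma0 M) →+ L, e ∈ eigenPar M L (mapSys B L a) ∧
      e ≠ 0 ∧ charInvolution M L L e = e)
    (hminus : ∃ e : Additive (Gamma0 M) →+ L, e ∈ eigenPar M L (mapSys B L a) ∧
      e ≠ 0 ∧ charInvolution M L L e = -e)
    {A : ValuationSubring Ω} (hA : A.LiesOverPrime p)
    (hunit : IsUnit (a (⟨p, hp.out⟩ : Nat.Primes)))
    {S : AddSubgroup (JZero M)} {e : ℕ} {Dd : ℕ → AddSubgroup (JZero M)} (he : 1 ≤ e)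
    (hd1 : ∀ x ∈ S, p • x = 0 → x ∈ Dd 1)
    (hd2 : ∀ i : ℕ, 1 ≤ i → i < e → ∀ x ∈ Dd i, heckeOperatorBar M ⟨p, hp.out⟩ x ∈ Dd (i + 1))
    (hd3 : ∀ x ∈ Dd e, ∀ σ ∈ A.inertiaSubgroupIn ℚ, ∀ a : ℕ, CycAct p σ a → σ • x = a • x)
    (Y : Module.End ℤ_[p] ↥(parabolicHoms ℤ_[p] (Gamma0 M) ℤ_[p]))
    (hY' : ∀ x, x - Y x ∈ tateSub (stageIData M p).D S) :
    ∃ w : ↥(eigenLattice M B a), parExt ℤ_[p] B (Gamma0 M) Y w.1 ≠ 0 := by
  by_contra hcon
  push Not at hcon
  obtain ⟨σ₁, hσ₁, a₁, ha₁, ha₁0, ha₁1⟩ := exists_cycAct_ne_one hp.out hp2 hA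
  refine false_of_scalar_mod ((stageIData M p).rep B hpB a L hrank) hp.out
    ((stageIData M p).rep_detIsCyclotomic B hpB a L hrank hplus hminus) ha₁ ha₁0 ha₁1 ?_
  intro w
  have hE : InExt (tateSub (stageIData M p).D S) (w : ↥(eigenLattice M B a)).1 :=
    inExt_of_parExt_eq_zero _ Y hY' _ (hcon w)
  obtain ⟨v', hv'⟩ := old_exists_eq_smul_of_inExt (stageIData M p) B hpM he hd1 hd2 hd3 _ hE
    σ₁ hσ₁ a₁ ha₁
  rw [heckeParP_pow_apply_of_mem B a (⟨p, hp.out⟩ : Nat.Primes) (e - 1) w] at hv'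
  obtain ⟨u, hu⟩ := (hunit.pow (e - 1))
  have hp0 : (p : B) ≠ 0 := Nat.cast_ne_zero.2 hp.out.ne_zero
  refine lattice_scalar_of_smul B a (stageIData M p).rhoP
    (stageIData M p).rhoP_comm σ₁ (a₁ : B) (p : B) hp0 w ⟨(↑u⁻¹ : B) • v', ?_⟩
  have h1 : (a (⟨p, hp.out⟩ : Nat.Primes) ^ (e - 1)) •
      (parExt ℤ_[p] B (Gamma0 M) ((stageIData M p).rhoP σ₁) (w : ↥(eigenLattice M B a)).1 -
        (a₁ : B) • (w : ↥(eigenLattice M B a)).1) = (p : B) • v' := by
    rw [← hv', smul_sub, map_smul, smul_comm]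
    rfl
  have h2 : (↑u⁻¹ : B) • ((a (⟨p, hp.out⟩ : Nat.Primes) ^ (e - 1)) •
      (parExt ℤ_[p] B (Gamma0 M) ((stageIData M p).rhoP σ₁) (w : ↥(eigenLattice M B a)).1 -
        (a₁ : B) • (w : ↥(eigenLattice M B a)).1)) = (↑u⁻¹ : B) • ((p : B) • v') := by
    rw [h1]
  rw [smul_smul, ← hu, Units.inv_mul, one_smul, smul_comm] at h2
  exact h2

/-- **the old case with the Frobenius relation**: a non-zero inertia-invariant functional on the
eigenlattice satisfying `Φ ∘ (ρ(σ)² - a_p ρ(σ) + p) = 0` for the Frobenius lift `σ`. -/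
theorem old_exists_frob_functional (hp2 : p ≠ 2) (hpM : ¬ p ∣ M)
    (hplus : ∃ e : Additive (Gamma0 M) →+ L, e ∈ eigenPar M L (mapSys B L a) ∧
      e ≠ 0 ∧ charInvolution M L L e = e)
    (hminus : ∃ e : Additive (Gamma0 M) →+ L, e ∈ eigenPar M L (mapSys B L a) ∧
      e ≠ 0 ∧ charInvolution M L L e = -e)
    {A : ValuationSubring Ω} (hA : A.LiesOverPrime p) (hes : EsOldAt M p hp.out A)
    (hord : ∃ w₀ : ((stageIData M p).rep B hpB a L hrank).V,
      w₀ ∉ maximalIdeal B • (⊤ : Submodule B ((stageIData M p).rep B hpB a L hrank).V) ∧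
      ∀ σ ∈ A.inertiaSubgroupIn ℚ, ∀ c : ℕ, CycAct p σ c →
        ((stageIData M p).rep B hpB a L hrank).ρ σ w₀ - (c : B) • w₀ ∈
          maximalIdeal B • (⊤ : Submodule B ((stageIData M p).rep B hpB a L hrank).V))
    (σ : GQ) (hσ : A.IsFrobeniusAt σ p) :
    ∃ Φ : ((stageIData M p).rep B hpB a L hrank).V →ₗ[B] B,
      (∀ τ ∈ A.inertiaSubgroupIn ℚ, ∀ w,
        Φ (((stageIData M p).rep B hpB a L hrank).ρ τ w) = Φ w) ∧ Φ ≠ 0 ∧
      ∀ w, Φ (((stageIData M p).rep B hpB a L hrank).ρ σ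
            (((stageIData M p).rep B hpB a L hrank).ρ σ w)) -
          a (⟨p, hp.out⟩ : Nat.Primes) * Φ (((stageIData M p).rep B hpB a L hrank).ρ σ w) +
          (p : B) * Φ w = 0 := by
  have hunit := isUnit_ap_of_keyOld B hpB a L hrank hp2 hpM hA hes.keyOldAt hord
  obtain ⟨S, e, Dd, he, hSa, hd1, hd2, hd3, hd4, hg⟩ := hes
  obtain ⟨Y, hY', hYτ, hYσ⟩ := exists_projector (stageIData M p) hpM S hSa σ
    (fun x n hx => hg x n hx σ hσ)
  have hrel := parExt_frob_relation B (stageIData M p) σ Y hYσ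
  obtain ⟨w₁, hw₁⟩ := exists_parExt_ne_zero B hpB a L hrank hp2 hpM hplus hminus hA hunit he
    hd1 hd2 hd3 Y hY'
  obtain ⟨γ, hγ⟩ : ∃ γ : Additive ↥(Gamma0 M),
      (parExt ℤ_[p] B (Gamma0 M) Y w₁.1).1 γ ≠ 0 := by
    by_contra hcon
    push Not at hcon
    apply hw₁
    apply Subtype.ext
    exact AddMonoidHom.ext hcon
  let Φ : ↥(eigenLattice M B a) →ₗ[B] B :=
    (parEval γ) ∘ₗ (parExt ℤ_[p] B (Gamma0 M) Y) ∘ₗ (eigenLattice M B a).subtype
  refine ⟨Φ, ?_, ?_, ?_⟩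
  · intro τ hτ w
    show (parExt ℤ_[p] B (Gamma0 M) Y (rhoM M p B (stageIData M p).rhoP τ
      (w : ↥(eigenLattice M B a)).1)).1 γ =
      (parExt ℤ_[p] B (Gamma0 M) Y (w : ↥(eigenLattice M B a)).1).1 γ
    have h2 : parExt ℤ_[p] B (Gamma0 M) Y (rhoM M p B (stageIData M p).rhoP τ
        (w : ↥(eigenLattice M B a)).1) =
        parExt ℤ_[p] B (Gamma0 M) (Y * (stageIData M p).rhoP τ)
          (w : ↥(eigenLattice M B a)).1 := by
      have := map_mul (parExt ℤ_[p] B (Gamma0 M)) Y ((stageIData M p).rhoP τ)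
      rw [this]
      rfl
    rw [h2]
    have h3 : Y * (stageIData M p).rhoP τ = Y := hYτ τ hτ
    rw [h3]
  · intro h0
    apply hγ
    have := LinearMap.congr_fun h0 w₁
    exact this
  · intro w
    have hmem : rhoM M p B (stageIData M p).rhoP σ (w : ↥(eigenLattice M B a)).1 ∈
        eigenLattice M B a :=
      rhoM_mem M p B a (stageIData M p).rhoP (stageIData M p).rhoP_comm σ
        (w : ↥(eigenLattice M B a)).2
    have hT := (mem_eigenLattice.1 hmem) (⟨p, hp.out⟩ : Nat.Primes)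
    have h1 := hrel (w : ↥(eigenLattice M B a)).1
    have h2 : parExt ℤ_[p] B (Gamma0 M) ((stageIData M p).D.rho σ)
        (w : ↥(eigenLattice M B a)).1 =
        rhoM M p B (stageIData M p).rhoP σ (w : ↥(eigenLattice M B a)).1 := rfl
    rw [h2, hT, map_smul] at h1
    have h3 := congrArg (fun u : ↥(parabolicHoms B (Gamma0 M) B) => u.1 γ) h1
    exact h3

end Old

end Fermat.Agent.ML.ATPO
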