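/-
PROJECT ML (S59) — [AT-P] Part B (helper4 + helper1), COMMON file: **from an inertia-invariant
functional to a relation for the Frobenius scalar on the unramified quotient.**

`ρ : GaloisRepAdic T` with cyclotomic determinant, `OrdQuotScalar ρ P σ z` (an ordinary line `L` at
the place `P ∣ p`, and `ρ(σ) ≡ z` on `V / L`), `ψ : T →+* B` a ring homomorphism into a domain.
* `functional_apply_of_ordQuotScalar` : a `ψ`-semilinear functional `φ : ρ.V →+ B` invariant under
  the inertia group `I_P` kills `L` and satisfies `φ (ρ(σ) v) = ψ z * φ v`;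
* `functional_aeval_apply` : hence `φ (g(ρ(σ)) v) = g(ψ z) * φ v` for every polynomial `g`;
* `point_relation` : if `ρ'` over `B` has the Frobenius characteristic polynomials of `ψ_* ρ` and
  `Φ : ρ'.V →ₗ[B] B` is a non-zero `I_P`-invariant functional with `Φ ∘ g(ρ'(σ)) = 0`, then
  `g(ψ z) = 0`.
-/
import Mathlib
import Fermat.Agent.ML.IFACE_helper2_AtP
import Fermat.Agent.NP.EMB33_helper2_Main
import Fermat.Agent.NP.EPS33_helper2_Cyc
import Fermat.Agent.NP.EPS33_helper2_Det
import Fermat.Agent.EC.InertiaField_helper5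

set_option autoImplicit false
set_option linter.unusedSectionVars false
set_option linter.unusedVariables false
set_option linter.style.haveILetI false

open IsLocalRing Polynomial

namespace Fermat.Agent.ML.AtPTop

open Fermat.Agent.NP

/-- `Ω = AlgebraicClosure ℚ`. -/
local notation "Ω" => AlgebraicClosure ℚ

/-- the absolute Galois group. -/
local notation "GQ" => (AlgebraicClosure ℚ ≃ₐ[ℚ] AlgebraicClosure ℚ)

section Point

variable {T : Type} [CommRing T] [IsLocalRing T] (ρ : GaloisRepAdic T)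
  {B : Type} [CommRing B] [IsDomain B] (ψ : T →+* B)

/-- **an inertia-invariant semilinear functional kills the ordinary line, and a Frobenius lift acts
on it through the scalar `ψ z`.** -/
theorem functional_apply_of_ordQuotScalar {p : ℕ} (hp : p.Prime) (hp2 : p ≠ 2)
    (hdet : ρ.DetIsCyclotomic p) {P : ValuationSubring Ω} (hP : P.LiesOverPrime p) {σ : GQ} {z : T}
    (hz : OrdQuotScalar ρ P σ z) (φ : ρ.V →+ B)
    (hlin : ∀ (s : T) (v : ρ.V), φ (s • v) = ψ s * φ v)
    (hinv : ∀ τ ∈ P.inertiaSubgroupIn ℚ, ∀ v : ρ.V, φ (ρ.ρ τ v) = φ v) (v : ρ.V) :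
    φ (ρ.ρ σ v) = ψ z * φ v := by
  obtain ⟨L, ⟨b, hb⟩, hD, hI, hσ⟩ := hz
  obtain ⟨τ, hτ, a, ha, ha0, ha1⟩ := exists_cycAct_ne_one hp hp2 hP
  have hτD : τ ∈ P.decompositionSubgroup ℚ :=
    Fermat.Agent.EC.inertiaSubgroupIn_le_decompositionSubgroup' P hτ
  have hb0 : b 0 ∈ L := by
    rw [hb]
    exact Submodule.mem_span_singleton_self _
  -- the matrix of `ρ(τ)` in the basis `b`
  obtain ⟨c, hc⟩ : ∃ c : T, c • b 0 = ρ.ρ τ (b 0) := by
    have := hD τ hτD (b 0) hb0
    rw [hb, Submodule.mem_span_singleton] at this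
    exact this
  obtain ⟨d, hd⟩ : ∃ d : T, d • b 0 = ρ.ρ τ (b 1) - b 1 := by
    have := hI τ hτ (b 1)
    rw [hb, Submodule.mem_span_singleton] at this
    exact this
  have hdetτ : LinearMap.det (ρ.ρ τ) = c := by
    rw [← LinearMap.det_toMatrix b, Matrix.det_fin_two]
    have h00 : LinearMap.toMatrix b b (ρ.ρ τ) 0 0 = c := by
      rw [LinearMap.toMatrix_apply, ← hc, map_smul, Module.Basis.repr_self, Finsupp.smul_apply,
        Finsupp.single_eq_same, smul_eq_mul, mul_one]
    have h10 : LinearMap.toMatrix b b (ρ.ρ τ) 1 0 = 0 := by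
      rw [LinearMap.toMatrix_apply, ← hc, map_smul, Module.Basis.repr_self, Finsupp.smul_apply,
        Finsupp.single_eq_of_ne (by decide), smul_zero]
    have h11 : LinearMap.toMatrix b b (ρ.ρ τ) 1 1 = 1 := by
      have h1 : ρ.ρ τ (b 1) = b 1 + d • b 0 := by rw [hd]; abel
      rw [LinearMap.toMatrix_apply, h1, map_add, map_smul, Module.Basis.repr_self,
        Module.Basis.repr_self, Finsupp.add_apply, Finsupp.smul_apply, Finsupp.single_eq_same,
        Finsupp.single_eq_of_ne (by decide), smul_zero, add_zero]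
    rw [h00, h10, h11, mul_one, mul_zero, sub_zero]
  -- `c - 1` is a unit
  have hcunit : IsUnit (c - 1) := by
    have h2 := hdet.2 1 τ a (by
      intro μ hμ
      rw [pow_one] at hμ
      exact ha μ hμ)
    rw [pow_one, hdetτ] at h2
    have hle : Ideal.span {(p : T)} ≤ maximalIdeal T := by
      rw [Ideal.span_singleton_le_iff_mem]
      exact hdet.1
    have hapos : 1 ≤ a := by
      rcases Nat.eq_zero_or_pos a with h0 | h0
      · exact absurd (h0 ▸ dvd_zero p) ha0
      · exact h0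
    have h3 : ((a - 1 : ℕ) : T) ∉ maximalIdeal T := by
      refine natCast_not_mem_maximalIdeal (B := T) hp hdet.1 ?_
      intro hd'
      apply ha1
      exact ((Nat.modEq_iff_dvd' hapos).2 hd').symm
    by_contra hnu
    have h4 : c - 1 ∈ maximalIdeal T := (mem_maximalIdeal _).2 hnu
    apply h3
    have h5 : ((a - 1 : ℕ) : T) = (c - 1) - (c - (a : T)) := by
      rw [Nat.cast_sub hapos]
      push_cast
      ring
    rw [h5]
    exact Ideal.sub_mem _ h4 (hle h2)
  -- `φ` kills the line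
  have hφb0 : φ (b 0) = 0 := by
    have h1 : φ ((c - 1) • b 0) = 0 := by
      have : (c - 1) • b 0 = ρ.ρ τ (b 0) - b 0 := by rw [sub_smul, one_smul, hc]
      rw [this, map_sub, hinv τ hτ, sub_self]
    rw [hlin] at h1
    have hu : IsUnit (ψ (c - 1)) := hcunit.map ψ
    exact (mul_eq_zero.1 h1).resolve_left hu.ne_zero
  have hφL : ∀ l ∈ L, φ l = 0 := by
    intro l hl
    rw [hb, Submodule.mem_span_singleton] at hl
    obtain ⟨s, rfl⟩ := hl
    rw [hlin, hφb0, mul_zero]
  have h6 := hφL _ (hσ v)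
  rw [map_sub, hlin, sub_eq_zero] at h6
  exact h6

/-- polynomials in a Frobenius lift. -/
theorem functional_aeval_apply (f : Module.End T ρ.V) (c : B) (φ : ρ.V →+ B)
    (hlin : ∀ (s : T) (v : ρ.V), φ (s • v) = ψ s * φ v)
    (hf : ∀ v : ρ.V, φ (f v) = c * φ v) (g : Polynomial T) (v : ρ.V) :
    φ (Polynomial.aeval f g v) = (g.map ψ).eval c * φ v := by
  induction g using Polynomial.induction_on' with
  | add g₁ g₂ h₁ h₂ =>
    rw [map_add, LinearMap.add_apply, map_add, h₁, h₂, Polynomial.map_add, Polynomial.eval_add,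
      add_mul]
  | monomial n s =>
    rw [Polynomial.aeval_monomial, Polynomial.map_monomial, Polynomial.eval_monomial]
    have hpow : ∀ (n : ℕ) (w : ρ.V), φ ((f ^ n) w) = c ^ n * φ w := by
      intro n
      induction n with
      | zero => intro w; rw [pow_zero, pow_zero, one_mul, Module.End.one_apply]
      | succ n ih =>
        intro w
        rw [pow_succ, Module.End.mul_apply, ih, hf, pow_succ, mul_assoc]
    rw [Module.End.mul_apply, Module.algebraMap_end_apply, hlin, hpow, mul_assoc]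

end Point

section Relation

variable {T : Type} [CommRing T] [IsLocalRing T] (ρ : GaloisRepAdic T)
  {B : Type} [CommRing B] [IsLocalRing B] [IsNoetherianRing B] [IsDomain B]
  (ψ : T →+* B) [IsLocalHom ψ] (ρ' : GaloisRepAdic B)

/-- **the relation at a point.** -/
theorem point_relation {p : ℕ} (hp : p.Prime) (hp2 : p ≠ 2) (hdet : ρ.DetIsCyclotomic p)
    {P : ValuationSubring Ω} (hP : P.LiesOverPrime p) {σ : GQ} {z : T}
    (hz : OrdQuotScalar ρ P σ z)
    (habs : ρ.residual.IsAbsolutelyIrreducible) (h2 : IsUnit (2 : B)) (S : Finset ℕ)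
    (hfrob : ∀ ℓ : ℕ, ℓ.Prime → ℓ ∉ S → ∀ P : ValuationSubring Ω, P.LiesOverPrime ℓ →
      ∀ φ : GQ, P.IsFrobeniusAt φ ℓ →
        (LinearMap.charpoly (ρ.ρ φ)).map ψ = LinearMap.charpoly (ρ'.ρ φ))
    (Φ : ρ'.V →ₗ[B] B) (hΦ : ∀ τ ∈ P.inertiaSubgroupIn ℚ, ∀ w : ρ'.V, Φ (ρ'.ρ τ w) = Φ w)
    (hne : Φ ≠ 0) (g : Polynomial B)
    (hg : ∀ w : ρ'.V, Φ (Polynomial.aeval (ρ'.ρ σ) g w) = 0) :
    g.eval (ψ z) = 0 := by
  obtain ⟨F, hFσ, hFt, hFΦ, -, -⟩ := exists_semilinear_of_frob ρ ψ ρ' habs h2 S hfrob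
  -- the functional on `ρ.V`
  set φ : ρ.V →+ B := (Φ : ρ'.V →+ B).comp F with hφ
  have hφapp : ∀ v, φ v = Φ (F v) := fun v => rfl
  have hlin : ∀ (s : T) (v : ρ.V), φ (s • v) = ψ s * φ v := by
    intro s v
    rw [hφapp, hφapp, hFt, map_smul, smul_eq_mul]
  have hinv : ∀ τ ∈ P.inertiaSubgroupIn ℚ, ∀ v : ρ.V, φ (ρ.ρ τ v) = φ v := by
    intro τ hτ v
    rw [hφapp, hφapp, hFσ, hΦ τ hτ]
  have hσz : ∀ v : ρ.V, Φ (ρ'.ρ σ (F v)) = ψ z * Φ (F v) := by
    intro v
    rw [← hFσ]
    exact functional_apply_of_ordQuotScalar ρ ψ hp hp2 hdet hP hz φ hlin hinv v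
  -- `Φ ∘ g(ρ'(σ)) = g(ψ z) Φ` on the image of `F`
  have hpoly : ∀ (g : Polynomial B) (v : ρ.V),
      Φ (Polynomial.aeval (ρ'.ρ σ) g (F v)) = g.eval (ψ z) * Φ (F v) := by
    intro g v
    induction g using Polynomial.induction_on' with
    | add g₁ g₂ h₁ h₂ =>
      rw [map_add, LinearMap.add_apply, map_add, h₁, h₂, Polynomial.eval_add, add_mul]
    | monomial n s =>
      rw [Polynomial.aeval_monomial, Polynomial.eval_monomial]
      have hpow : ∀ (n : ℕ) (v : ρ.V),
          Φ ((ρ'.ρ σ ^ n) (F v)) = ψ z ^ n * Φ (F v) := by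
        intro n
        induction n with
        | zero => intro v; rw [pow_zero, pow_zero, one_mul, Module.End.one_apply]
        | succ n ih =>
          intro v
          rw [pow_succ, Module.End.mul_apply, ← hFσ, ih, hFσ, hσz, pow_succ, mul_assoc]
      rw [Module.End.mul_apply, Module.algebraMap_end_apply, map_smul, smul_eq_mul, hpow,
        mul_assoc]
  -- a vector on which `Φ ∘ F` does not vanish
  obtain ⟨v, hv⟩ : ∃ v : ρ.V, Φ (F v) ≠ 0 := by
    by_contra hcon
    push Not at hcon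
    exact hne (hFΦ Φ hcon)
  have h3 := hpoly g v
  rw [hg] at h3
  exact (mul_eq_zero.1 h3.symm).resolve_right hv

end Relation

end Fermat.Agent.ML.AtPTop
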