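/-
PROJECT ML (S59) — package [AT-P], Part B, OLD half — helper1 — **the old point statement.**

`atPOldPointStatement_of : EsOldStatement → AtPOldPointStatement`: at a point `ψ : T → B` of the
Hecke ring of level `M p` whose system of eigenvalues away from `S` is that of a full system `a'`
of a level `M' ∣ M`, the scalar `z` of a Frobenius lift on the unramified quotient is a root of
`X² - a'_p X + p`.
Proof: the lattice side (`ATPO.old_exists_frob_functional`: a non-zero inertia-invariant functional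
`Φ` on the eigenlattice of `(M', a')` with `Φ ∘ (ρ'(σ)² - a'_p ρ'(σ) + p) = 0`, from (ES-OLD) and the
ordinary vector transported from the residual representation of `H.ρ`) + the common file of helper4
(`AtPTop.point_relation`).
-/
import Mathlib
import Fermat.Agent.ML.ATPTOP_helper1_Lat
import Fermat.Agent.ML.ATPTOP_helper4_Point
import Fermat.Agent.NP.S33TOP_helper2_Main

set_option autoImplicit false
set_option linter.unusedSectionVars false
set_option linter.unusedVariables false
set_option linter.style.haveILetI false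

open CongruenceSubgroup ModularCurve ModularCurve.Period Polynomial IsLocalRing

open scoped MatrixGroups

namespace Fermat.Agent.ML.ATPO

open Fermat.Agent.GR Fermat.Agent.X0N Fermat.Agent.JA Fermat.Agent.S35 Fermat.Agent.S32
  Fermat.Agent.NP Fermat.Agent.ML

local notation "Ω" => AlgebraicClosure ℚ
local notation "GQ" => (AlgebraicClosure ℚ ≃ₐ[ℚ] AlgebraicClosure ℚ)

/-- bookkeeping: the quadratic polynomial in an endomorphism. -/
theorem aeval_quadratic_apply {R V : Type*} [CommRing R] [AddCommGroup V] [Module R V]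
    (f : Module.End R V) (c d : R) (w : V) :
    Polynomial.aeval f (X ^ 2 - C c * X + C d : Polynomial R) w = f (f w) - c • f w + d • w := by
  rw [map_add, map_sub, map_mul, map_pow, Polynomial.aeval_X, Polynomial.aeval_C,
    Polynomial.aeval_C, LinearMap.add_apply, LinearMap.sub_apply, pow_two, Module.End.mul_apply,
    Module.End.mul_apply, Module.algebraMap_end_apply, Module.algebraMap_end_apply]

/-- **(AT-P1), old points, from (ES-OLD).** -/
theorem atPOldPointStatement_of (hES : EsOldStatement) : AtPOldPointStatement := by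
  intro p S 𝒪 _ _ _ _ _ _ T _ _ _ _ _ _ _ _ M _ _ hp hp2 hpM hp𝒪 θ hNS H hres P hP σ hσ z hz
    B _ _ _ _ _ _ ψ _ L _ _ _ M' _ hM' a' hocc ha
  haveI hpf : Fact p.Prime := ⟨hp⟩
  have hdetH : H.ρ.DetIsCyclotomic p := heckeDatum_detIsCyclotomic hp hp𝒪 hNS H
  have hpT : (p : T) ∈ maximalIdeal T := natCast_mem_maximalIdeal_of_algebra hp𝒪
  have hpS : p ∈ S := hNS p hp (Dvd.intro_left M rfl)
  have hpB : (p : B) ∈ maximalIdeal B := by
    have := map_nonunit ψ _ hpT
    rwa [map_natCast] at this
  have hpM' : ¬ p ∣ M' := fun h => hpM (dvd_trans h hM')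
  letI : Algebra ℤ_[p] B := (padicToComplete p (maximalIdeal B) hpB).toAlgebra
  haveI : Module.Flat ℤ_[p] B := flat_padic_of_charZero B
  haveI : CharZero L := charZero_of_injective_algebraMap (IsFractionRing.injective B L)
  obtain ⟨_, _, hrank⟩ := mult1_field hocc
  obtain ⟨hplus, hminus⟩ := exists_plus_minus_of_occ L (mapSys B L a') hocc
  have h2 : IsUnit (2 : B) := isUnit_two_of_odd_prime hp hp2 hpB
  have hfrob : ∀ ℓ : ℕ, ℓ.Prime → ℓ ∉ S → ∀ P : ValuationSubring Ω, P.LiesOverPrime ℓ →
      ∀ φ : GQ, P.IsFrobeniusAt φ ℓ →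
        (LinearMap.charpoly (H.ρ.ρ φ)).map ψ =
          LinearMap.charpoly (((stageIData M' p).rep B hpB a' L hrank).ρ φ) := by
    intro ℓ hℓ hℓS P hP φ hφ
    have hℓN : ¬ ℓ ∣ M * p := fun h => hℓS (hNS ℓ hℓ h)
    have hℓS' : ℓ ∉ (↑S : Set ℕ) := by simpa using hℓS
    have hℓN' : ¬ ℓ ∣ M' * p := fun h => hℓN (dvd_trans h (Nat.mul_dvd_mul_right hM' p))
    rw [H.charpoly_frob ℓ hℓ hℓN hℓS' P hP φ hφ,
      (stageIData M' p).rep_charpoly_frobenius B hpB a' L hrank hplus hminus hℓ hℓN' hP hφ,
      ha ℓ hℓ hℓN hℓS']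
    simp only [Polynomial.map_add, Polynomial.map_sub, Polynomial.map_mul, Polynomial.map_pow,
      Polynomial.map_X, Polynomial.map_C, map_natCast, Polynomial.map_natCast]
  -- the ordinary vector
  obtain ⟨l, hl, hlσ⟩ := exists_ordinary_vector H.ρ p hdetH hres P hP
  obtain ⟨F, hFσ, hFt, -, hF4, hF5⟩ := exists_semilinear_of_frob H.ρ ψ
    ((stageIData M' p).rep B hpB a' L hrank) H.residual_absIrr h2 S hfrob
  have hord : ∃ w₀ : ((stageIData M' p).rep B hpB a' L hrank).V,
      w₀ ∉ maximalIdeal B • (⊤ : Submodule B ((stageIData M' p).rep B hpB a' L hrank).V) ∧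
      ∀ σ ∈ P.inertiaSubgroupIn ℚ, ∀ c : ℕ, CycAct p σ c →
        ((stageIData M' p).rep B hpB a' L hrank).ρ σ w₀ - (c : B) • w₀ ∈
          maximalIdeal B •
            (⊤ : Submodule B ((stageIData M' p).rep B hpB a' L hrank).V) := by
    refine ⟨F l, fun h => hl (hF5 l h), ?_⟩
    intro σ hσ c hc
    have h1 : ((stageIData M' p).rep B hpB a' L hrank).ρ σ (F l) - (c : B) • F l =
        F (H.ρ.ρ σ l - (c : T) • l) := by
      rw [map_sub, hFσ, hFt, map_natCast]
    rw [h1]
    exact hF4 _ (hlσ σ hσ c hc)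
  obtain ⟨Φ, hΦ, hne, hrel⟩ := old_exists_frob_functional B hpB a' L hrank hp2 hpM' hplus hminus
    hP (hES M' p hp hp2 hpM' P hP) hord σ hσ
  have h := AtPTop.point_relation H.ρ ψ ((stageIData M' p).rep B hpB a' L hrank) hp hp2 hdetH hP
    hz H.residual_absIrr h2 S hfrob Φ hΦ hne
    (X ^ 2 - C (a' (⟨p, hp⟩ : Nat.Primes)) * X + C (p : B)) (by
      intro w
      rw [aeval_quadratic_apply, map_add, map_sub, map_smul, map_smul, smul_eq_mul, smul_eq_mul]
      exact hrel w)
  rw [Polynomial.eval_add, Polynomial.eval_sub, Polynomial.eval_mul, Polynomial.eval_pow,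
    Polynomial.eval_X, Polynomial.eval_C, Polynomial.eval_C] at h
  exact h

end Fermat.Agent.ML.ATPO
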