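/-
PROJECT ML (S59) — [AT-P] Part B (helper4), NEW points, the LATTICE side: **from (ES-NEW) to an
inertia-invariant functional `Φ ≠ 0` on the eigenlattice with `Φ ∘ (ρ(σ) - 1)(ρ(σ)² - 1) = 0`.**

Setting of `NP.new_exists_functional` (level `M₀ p`, `p ∤ M₀`, eigenlattice `Λ` of a full system `a`
over a DVR `B`, `ρ' = (stageIData (M₀ p) p).rep`), but instead of "`a` does not occur at level
`M₀`" we assume that ALL of `Λ` is killed by the two transfers (`hall`).  From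
`EsNewAt M₀ p A = ⟨S, (a), (c), (f')⟩`: `Y` := the complementary projector of `tateSub D' S`,
`Ψ = parExt Y` on `Λ`, `Φ = ev_γ ∘ Ψ`.
* (a) ⟹ `Y (ρ(τ) - 1) = 0` for `τ ∈ I_A`: `Φ` is inertia invariant;
* (f') ⟹ `Y (ρ(σ) - 1)(ρ(σ)² - 1)` kills the common kernel of the transfers, hence (flatness) its
  extension kills `Λ`;
* (c) ⟹ `Ψ ≠ 0` (otherwise `Λ` lies in the extension of `tateSub D' S` and the argument of
  `NP.new_exists_eq_smul` makes an element of inertia acting non-trivially on `μ_p` a scalar mod `p`).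
-/
import Mathlib
import Fermat.Agent.ML.IFACE_helper2_AtP
import Fermat.Agent.NP.S33TOP_helper2_New

set_option autoImplicit false
set_option linter.unusedSectionVars false
set_option linter.unusedVariables false
set_option linter.style.haveILetI false

open CongruenceSubgroup ModularCurve ModularCurve.Period IsLocalRing

open scoped MatrixGroups

namespace Fermat.Agent.ML.AtPTop

open Fermat.Agent.GR Fermat.Agent.X0N Fermat.Agent.JA Fermat.Agent.S35 Fermat.Agent.NP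

/-- `Ω = AlgebraicClosure ℚ`. -/
local notation "Ω" => AlgebraicClosure ℚ

/-- the absolute Galois group. -/
local notation "GQ" => (AlgebraicClosure ℚ ≃ₐ[ℚ] AlgebraicClosure ℚ)

section NewB

variable {M₀ p : ℕ} [NeZero M₀] [NeZero p] [NeZero (M₀ * p)] [hp : Fact p.Prime]
  (D' : KapData (JZero (M₀ * p)) (Gamma0 (M₀ * p)) p) (D₀ : KapData (JZero M₀) (Gamma0 M₀) p)
  {ι : Type*} [Fintype ι]
  (Xα Xβ : TransferDatum ↥(Gamma0 (M₀ * p)) ↥(Gamma0 M₀) (GL (Fin 2) ℝ) ι)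

/-- **(f') on `P`**: `(ρ(σ) - 1)(ρ(σ)² - 1)` maps the common kernel of the two transfers into
`tateSub D' S`. -/
theorem rho_frob_mem_tateSub
    (hkα : ∀ (k : ℕ) (x : ↥(torsionNat (JZero (M₀ * p)) (p ^ k))),
      D₀.kap k (torsionNatMap₂ (p ^ k) (degPushAlpha M₀ p) x) =
        Xα.transferGrp (ZMod (p ^ k)) (D'.kap k x))
    (hkβ : ∀ (k : ℕ) (x : ↥(torsionNat (JZero (M₀ * p)) (p ^ k))),
      D₀.kap k (torsionNatMap₂ (p ^ k) (degPushBeta M₀ p) x) =
        Xβ.transferGrp (ZMod (p ^ k)) (D'.kap k x))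
    (S : AddSubgroup (JZero (M₀ * p))) {σ : GQ}
    (hSf : ∀ (x : JZero (M₀ * p)) (n : ℕ), p ^ n • x = 0 → degPushAlpha M₀ p x = 0 →
      degPushBeta M₀ p x = 0 → σ • (σ • σ • x - x) - (σ • σ • x - x) ∈ S)
    (ψ : ↥(parabolicHoms ℤ_[p] (Gamma0 (M₀ * p)) ℤ_[p]))
    (hψα : Xα.transferGrp ℤ_[p] ψ.1 = 0) (hψβ : Xβ.transferGrp ℤ_[p] ψ.1 = 0) :
    ((D'.rho σ - 1) * (D'.rho σ * D'.rho σ - 1)) ψ ∈ tateSub D' S := by
  have hF : (D'.rho σ - 1) * (D'.rho σ * D'.rho σ - 1) =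
      D'.transport ((DistribMulAction.toAddMonoidEnd GQ (JZero (M₀ * p)) σ - 1) *
        (DistribMulAction.toAddMonoidEnd GQ (JZero (M₀ * p)) σ *
          DistribMulAction.toAddMonoidEnd GQ (JZero (M₀ * p)) σ - 1)) := by
    rw [map_mul, map_sub, map_sub, map_mul, map_one]
    rfl
  rw [hF]
  intro m
  rw [redTors_transport]
  obtain ⟨x', hx'⟩ := D'.phi_surjective ψ
  have hcoe : ((D'.redTors m ψ : ↥(torsionNat (JZero (M₀ * p)) (p ^ m))) :
      JZero (M₀ * p)) = x'.1 m := by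
    rw [← hx', KapData.redTors_phi]
    rfl
  have h3 := (kapTransferOf D' D₀ Xα _ hkα).map_comp_eq_zero x' (by
    rw [hx']
    exact hψα) m
  have h4 := (kapTransferOf D' D₀ Xβ _ hkβ).map_comp_eq_zero x' (by
    rw [hx']
    exact hψβ) m
  rw [← hcoe] at h3 h4
  exact hSf _ m (redTors_torsion D' m ψ) h3 h4

variable (B : Type) [CommRing B] [IsDomain B] [CharZero B] [Algebra ℤ_[p] B] [Module.Flat ℤ_[p] B]

/-- the second half of `NP.new_exists_eq_smul`, with the membership in the extension of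
`tateSub D' S` as a hypothesis. -/
theorem new_exists_eq_smul_of_inExt
    (hkα : ∀ (k : ℕ) (x : ↥(torsionNat (JZero (M₀ * p)) (p ^ k))),
      D₀.kap k (torsionNatMap₂ (p ^ k) (degPushAlpha M₀ p) x) =
        Xα.transferGrp (ZMod (p ^ k)) (D'.kap k x))
    (hkβ : ∀ (k : ℕ) (x : ↥(torsionNat (JZero (M₀ * p)) (p ^ k))),
      D₀.kap k (torsionNatMap₂ (p ^ k) (degPushBeta M₀ p) x) =
        Xβ.transferGrp (ZMod (p ^ k)) (D'.kap k x))
    (hparα : ∀ (R : Type) [CommRing R], ∀ ψ ∈ parabolicHoms R (Gamma0 (M₀ * p)) R,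
      Xα.transferGrp R ψ ∈ parabolicHoms R (Gamma0 M₀) R)
    (hparβ : ∀ (R : Type) [CommRing R], ∀ ψ ∈ parabolicHoms R (Gamma0 (M₀ * p)) R,
      Xβ.transferGrp R ψ ∈ parabolicHoms R (Gamma0 M₀) R)
    {A : ValuationSubring Ω} (S : AddSubgroup (JZero (M₀ * p)))
    (hSc : ∀ x ∈ S, p • x = 0 → degPushAlpha M₀ p x = 0 → degPushBeta M₀ p x = 0 →
      ∀ σ ∈ A.inertiaSubgroupIn ℚ, ∀ a : ℕ, CycAct p σ a → σ • x = a • x)
    (v : ↥(parabolicHoms B (Gamma0 (M₀ * p)) B)) (hvα : Xα.transferGrp B v.1 = 0)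
    (hvβ : Xβ.transferGrp B v.1 = 0)
    (hE₁ : InExt (tateSub D' S) v)
    {σ : GQ} (hσ : σ ∈ A.inertiaSubgroupIn ℚ) {a : ℕ} (ha : CycAct p σ a) :
    ∃ v' : ↥(parabolicHoms B (Gamma0 (M₀ * p)) B),
      parExt ℤ_[p] B (Gamma0 (M₀ * p)) (D'.rho σ) v - (a : B) • v = (p : B) • v' := by
  have hK : InExt (LinearMap.ker (xferPar Xα ℤ_[p] (hparα ℤ_[p])) ⊓
      LinearMap.ker (xferPar Xβ ℤ_[p] (hparβ ℤ_[p]))) v :=
    inExt_ker (xferPar Xα ℤ_[p] (hparα ℤ_[p])) (xferPar Xβ ℤ_[p] (hparβ ℤ_[p]))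
      (xferPar Xα B (hparα B)) (xferPar Xβ B (hparβ B))
      (xferPar_parMapAlg Xα ℤ_[p] B _ _) (xferPar_parMapAlg Xβ ℤ_[p] B _ _)
      (Subtype.ext hvα) (Subtype.ext hvβ)
  have hsK : IsSat (LinearMap.ker (xferPar Xα ℤ_[p] (hparα ℤ_[p])) ⊓
      LinearMap.ker (xferPar Xβ ℤ_[p] (hparβ ℤ_[p]))) :=
    (isSat_ker _).inf (isSat_ker _)
  have hs₁ : IsSat (tateSub D' S) := fun r ψ hr h => tateSub_sat D' S r ψ hr h
  have hE := hK.inf hsK hs₁ hE₁
  obtain ⟨v', hv'⟩ := hE.exists_eq_smul (hsK.inf hs₁)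
    (D'.rho σ - (a : Module.End ℤ_[p] ↥(parabolicHoms ℤ_[p] (Gamma0 (M₀ * p)) ℤ_[p])))
    (p : ℤ_[p]) (by
      rintro ψ ⟨⟨hψα, hψβ⟩, hψS⟩
      rw [rho_sub_natCast]
      apply transport_eq_smul_of_redTors_one
      rw [sub_natCast_apply, sub_eq_zero]
      have hx1 := hψS 1
      have hx2 : p • ((D'.redTors 1 ψ : ↥(torsionNat (JZero (M₀ * p)) (p ^ 1))) :
          JZero (M₀ * p)) = 0 := by
        have := redTors_torsion D' 1 ψ
        simpa only [pow_one] using this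
      obtain ⟨x', hx'⟩ := D'.phi_surjective ψ
      have hcoe : ((D'.redTors 1 ψ : ↥(torsionNat (JZero (M₀ * p)) (p ^ 1))) :
          JZero (M₀ * p)) = x'.1 1 := by
        rw [← hx', KapData.redTors_phi]
        rfl
      have h3 := (kapTransferOf D' D₀ Xα _ hkα).map_comp_eq_zero x' (by
        rw [hx']
        exact congrArg Subtype.val hψα) 1
      have h4 := (kapTransferOf D' D₀ Xβ _ hkβ).map_comp_eq_zero x' (by
        rw [hx']
        exact congrArg Subtype.val hψβ) 1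
      rw [← hcoe] at h3 h4
      exact hSc _ hx1 hx2 h3 h4 σ hσ a ha)
  refine ⟨v', ?_⟩
  rw [← map_natCast (algebraMap ℤ_[p] B) p, ← hv']
  have h5 := map_sub (parExt ℤ_[p] B (Gamma0 (M₀ * p))) (D'.rho σ)
    (a : Module.End ℤ_[p] ↥(parabolicHoms ℤ_[p] (Gamma0 (M₀ * p)) ℤ_[p]))
  rw [h5, map_natCast, LinearMap.sub_apply, Module.End.natCast_apply, Nat.cast_smul_eq_nsmul]

end NewB

section NewLat

variable {M₀ p : ℕ} [NeZero M₀] [NeZero p] [NeZero (M₀ * p)] [hp : Fact p.Prime]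
  {x y : ℤ} (h : (p : ℤ) * x + M₀ * y = 1)
  (B : Type) [CommRing B] [IsDomain B] [IsDiscreteValuationRing B] [CharZero B]
  [Algebra ℤ_[p] B] [Module.Flat ℤ_[p] B] (hpB : (p : B) ∈ maximalIdeal B)
  (a : Nat.Primes → B)
  (L : Type) [Field L] [Algebra B L] [IsFractionRing B L]
  (hrank : Module.finrank L ↥(eigenPar (M₀ * p) L (mapSys B L a)) = 2)

include h in
/-- **the new case with (ES-NEW)**: a non-zero inertia-invariant functional on the eigenlattice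
which kills the image of `(ρ'(σ) - 1)(ρ'(σ)² - 1)`, `σ` a Frobenius lift at `A`. -/
theorem new_exists_functional_frob (hp2 : p ≠ 2)
    (hplus : ∃ e : Additive (Gamma0 (M₀ * p)) →+ L, e ∈ eigenPar (M₀ * p) L (mapSys B L a) ∧
      e ≠ 0 ∧ charInvolution (M₀ * p) L L e = e)
    (hminus : ∃ e : Additive (Gamma0 (M₀ * p)) →+ L, e ∈ eigenPar (M₀ * p) L (mapSys B L a) ∧
      e ≠ 0 ∧ charInvolution (M₀ * p) L L e = -e)
    (hall : ∀ v ∈ eigenPar (M₀ * p) B a,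
      (xferAlphaT M₀ p h hp.out).transferGrp B v = 0 ∧
        (xferBeta M₀ p h hp.out).transferGrp B v = 0)
    {A : ValuationSubring Ω} (hA : A.LiesOverPrime p) (hes : EsNewAt M₀ p A)
    {σ : GQ} (hσ : A.IsFrobeniusAt σ p) :
    ∃ Φ : ((stageIData (M₀ * p) p).rep B hpB a L hrank).V →ₗ[B] B,
      (∀ τ ∈ A.inertiaSubgroupIn ℚ, ∀ w,
        Φ (((stageIData (M₀ * p) p).rep B hpB a L hrank).ρ τ w) = Φ w) ∧ Φ ≠ 0 ∧
      ∀ w, Φ ((((stageIData (M₀ * p) p).rep B hpB a L hrank).ρ σ - 1)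
        (((((stageIData (M₀ * p) p).rep B hpB a L hrank).ρ σ) *
          (((stageIData (M₀ * p) p).rep B hpB a L hrank).ρ σ) - 1) w)) = 0 := by
  have hq : p.Prime := hp.out
  obtain ⟨S, hSa, hSc, hSf⟩ := hes
  have hkα := stageIData_kap_degPushAlpha (p := p) h hq
  have hkβ := stageIData_kap_degPushBeta (p := p) h hq
  have hparα : ∀ (R : Type) [CommRing R], ∀ ψ ∈ parabolicHoms R (Gamma0 (M₀ * p)) R,
      (xferAlphaT M₀ p h hq).transferGrp R ψ ∈ parabolicHoms R (Gamma0 M₀) R :=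
    fun R _ ψ hψ => xferAlphaT_mem_parabolicHoms M₀ p h hq R hψ
  have hparβ : ∀ (R : Type) [CommRing R], ∀ ψ ∈ parabolicHoms R (Gamma0 (M₀ * p)) R,
      (xferBeta M₀ p h hq).transferGrp R ψ ∈ parabolicHoms R (Gamma0 M₀) R :=
    fun R _ ψ hψ => xferBeta_mem_parabolicHoms M₀ p h hq R hψ
  -- the complementary projector of `tateSub D' S`
  obtain ⟨Y, hY, hY'⟩ := exists_end_ker_eq (tateSub (stageIData (M₀ * p) p).D S)
    (fun r ψ hr hh => tateSub_sat (stageIData (M₀ * p) p).D S r ψ hr hh)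
  -- (a): `Y (ρ(τ) - 1) = 0` on inertia
  have hYI : ∀ τ ∈ A.inertiaSubgroupIn ℚ, Y * ((stageIData (M₀ * p) p).D.rho τ - 1) = 0 := by
    intro τ hτ
    apply LinearMap.ext
    intro ψ
    rw [Module.End.mul_apply, LinearMap.zero_apply, hY]
    have h1 := rho_sub_natCast (stageIData (M₀ * p) p).D τ 1
    rw [Nat.cast_one] at h1
    rw [h1]
    apply transport_mem_tateSub
    intro y n hy
    rw [sub_natCast_apply, one_smul]
    exact hSa y n hy τ hτ
  -- (f'): `Y (ρ(σ) - 1)(ρ(σ)² - 1)` kills the common kernel of the transfers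
  have hYF : ∀ ψ ∈ LinearMap.ker (xferPar (xferAlphaT M₀ p h hq) ℤ_[p] (hparα ℤ_[p])) ⊓
      LinearMap.ker (xferPar (xferBeta M₀ p h hq) ℤ_[p] (hparβ ℤ_[p])),
      (Y * (((stageIData (M₀ * p) p).D.rho σ - 1) *
        ((stageIData (M₀ * p) p).D.rho σ * (stageIData (M₀ * p) p).D.rho σ - 1))) ψ = 0 := by
    rintro ψ ⟨hψα, hψβ⟩
    rw [Module.End.mul_apply, hY]
    exact rho_frob_mem_tateSub (stageIData (M₀ * p) p).D (stageIData M₀ p).D
      (xferAlphaT M₀ p h hq) (xferBeta M₀ p h hq) hkα hkβ S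
      (fun x n hx h1 h2 => hSf x n hx h1 h2 σ hσ) ψ
      (congrArg Subtype.val hψα) (congrArg Subtype.val hψβ)
  -- every element of the eigenlattice lies in the extension of the common kernel
  have hK : ∀ w : ↥(eigenLattice (M₀ * p) B a),
      InExt (LinearMap.ker (xferPar (xferAlphaT M₀ p h hq) ℤ_[p] (hparα ℤ_[p])) ⊓
        LinearMap.ker (xferPar (xferBeta M₀ p h hq) ℤ_[p] (hparβ ℤ_[p]))) w.1 := by
    intro w
    have hw' : w.1.1 ∈ eigenPar (M₀ * p) B a := w.2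
    exact inExt_ker (xferPar (xferAlphaT M₀ p h hq) ℤ_[p] (hparα ℤ_[p]))
      (xferPar (xferBeta M₀ p h hq) ℤ_[p] (hparβ ℤ_[p]))
      (xferPar (xferAlphaT M₀ p h hq) B (hparα B)) (xferPar (xferBeta M₀ p h hq) B (hparβ B))
      (xferPar_parMapAlg (xferAlphaT M₀ p h hq) ℤ_[p] B _ _)
      (xferPar_parMapAlg (xferBeta M₀ p h hq) ℤ_[p] B _ _)
      (Subtype.ext (hall _ hw').1) (Subtype.ext (hall _ hw').2)
  -- (c): the extension of `Y` does not kill the eigenlattice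
  have hΨ : ∃ w : ↥(eigenLattice (M₀ * p) B a),
      parExt ℤ_[p] B (Gamma0 (M₀ * p)) Y w.1 ≠ 0 := by
    by_contra hcon
    push Not at hcon
    obtain ⟨σ₁, hσ₁, a₁, ha₁, ha₁0, ha₁1⟩ := exists_cycAct_ne_one hp.out hp2 hA
    refine false_of_scalar_mod ((stageIData (M₀ * p) p).rep B hpB a L hrank) hp.out
      ((stageIData (M₀ * p) p).rep_detIsCyclotomic B hpB a L hrank hplus hminus) ha₁ ha₁0 ha₁1 ?_
    intro w
    have hw' : (w : ↥(eigenLattice (M₀ * p) B a)).1.1 ∈ eigenPar (M₀ * p) B a := w.2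
    have hE₁ : InExt (tateSub (stageIData (M₀ * p) p).D S)
        (w : ↥(eigenLattice (M₀ * p) B a)).1 := by
      intro Y' hY'0
      have hYY : Y' = Y' * Y := by
        apply LinearMap.ext
        intro ψ
        rw [Module.End.mul_apply]
        have h1 := hY'0 _ (hY' ψ)
        rw [map_sub, sub_eq_zero] at h1
        exact h1
      rw [hYY, map_mul, Module.End.mul_apply, hcon w, map_zero]
    have hmain := new_exists_eq_smul_of_inExt (stageIData (M₀ * p) p).D (stageIData M₀ p).D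
      (xferAlphaT M₀ p h hq) (xferBeta M₀ p h hq) B hkα hkβ hparα hparβ (A := A) S hSc
      (w : ↥(eigenLattice (M₀ * p) B a)).1 (hall _ hw').1 (hall _ hw').2 hE₁ hσ₁ ha₁
    have hp0 : (p : B) ≠ 0 := Nat.cast_ne_zero.2 hp.out.ne_zero
    exact lattice_scalar_of_smul B a (stageIData (M₀ * p) p).rhoP
      (stageIData (M₀ * p) p).rhoP_comm σ₁ (a₁ : B) (p : B) hp0 w hmain
  obtain ⟨w₀, hw₀⟩ := hΨ
  obtain ⟨γ, hγ⟩ : ∃ γ : Additive ↥(Gamma0 (M₀ * p)),
      (parExt ℤ_[p] B (Gamma0 (M₀ * p)) Y w₀.1).1 γ ≠ 0 := by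
    by_contra hcon
    push Not at hcon
    apply hw₀
    apply Subtype.ext
    exact AddMonoidHom.ext hcon
  let Φ : ↥(eigenLattice (M₀ * p) B a) →ₗ[B] B :=
    (parEval γ) ∘ₗ (parExt ℤ_[p] B (Gamma0 (M₀ * p)) Y) ∘ₗ (eigenLattice (M₀ * p) B a).subtype
  refine ⟨Φ, ?_, ?_, ?_⟩
  · intro τ hτ w
    show (parExt ℤ_[p] B (Gamma0 (M₀ * p)) Y
        (rhoM (M₀ * p) p B (stageIData (M₀ * p) p).rhoP τ
          (w : ↥(eigenLattice (M₀ * p) B a)).1)).1 γ =
      (parExt ℤ_[p] B (Gamma0 (M₀ * p)) Y (w : ↥(eigenLattice (M₀ * p) B a)).1).1 γ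
    have h1 : Y * (stageIData (M₀ * p) p).rhoP τ = Y := by
      have := hYI τ hτ
      rw [mul_sub, mul_one, sub_eq_zero] at this
      exact this
    have h2 : parExt ℤ_[p] B (Gamma0 (M₀ * p)) Y
        (rhoM (M₀ * p) p B (stageIData (M₀ * p) p).rhoP τ
          (w : ↥(eigenLattice (M₀ * p) B a)).1) =
        parExt ℤ_[p] B (Gamma0 (M₀ * p)) (Y * (stageIData (M₀ * p) p).rhoP τ)
          (w : ↥(eigenLattice (M₀ * p) B a)).1 := by
      have := map_mul (parExt ℤ_[p] B (Gamma0 (M₀ * p))) Y ((stageIData (M₀ * p) p).rhoP τ)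
      rw [this]
      rfl
    rw [h2, h1]
  · intro h0
    apply hγ
    have := LinearMap.congr_fun h0 w₀
    exact this
  · intro w
    have h3 := hK (w : ↥(eigenLattice (M₀ * p) B a)) _ hYF
    rw [map_mul, map_mul, map_sub, map_sub, map_mul, map_one] at h3
    have h4 := congrArg (fun m : ↥(parabolicHoms B (Gamma0 (M₀ * p)) B) => m.1 γ) h3
    exact h4

end NewLat

end Fermat.Agent.ML.AtPTop
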