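/-
PROJECT ML (S59) — helper5 — **INTERFACE: "Steinberg at a `q`-new point, kill form"**
(`SteinbergOfKillStatement`; consumer: helper9's deduction of `TWChainGalois.new_q` from helper2's
`TWModChainLevel.occ_new`, msgs 2356 (6), 2371 (2)).

Input (the conclusion of `occ_new`): a full system `a : Nat.Primes → B` of level `N q`
(`q ∤ N`, `q ≠ p`), `B` a complete DVR of characteristic `0` and residue characteristic `p`, and a
NON-ZERO vector `v ∈ eigenPar (N q) L a` killed by both degeneracy traces `pushA`, `pushB`.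
Galois side: ANY representation `ρ : GaloisRepAdic T` with absolutely irreducible residual
representation and a local homomorphism `ψ : T → B` such that `ψ (charpoly ρ(Frob_ℓ)) =
X² - a_ℓ X + ℓ` for almost all `ℓ` (Layer B's `ρ_X` and `ψ = (B → B') ∘ x`).
Output: `ψ (tr ρ(φ))² = (q + 1)²` for every Frobenius lift `φ` at `q`.

Proof (helper5, `ML/STKILL_helper5_*`): `ρ' := (GR.stageIData (N q) p).rep B a` on the eigenlattice
is `≅ ψ_* ρ` (NP `exists_equiv_of_frob`), so it has no stable saturated line; the joint kernel of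
the two transfers in the eigenlattice is a non-zero saturated Galois-stable submodule
(`degPush` is Galois-equivariant), hence everything; S35's `KeyFrobStatement` + `T2` give
`(Φ^r - q^r)(Φ² - 1)(Φ - 1) = 0` for `Φ = ρ'(φ)`, and `det Φ = q` gives `charpoly Φ = X² ∓ (q+1) X + q`
(`S35.charpoly_frobenius_of_frobPoly`); Chebotarev (`S58.cheb_trace_det_eq`) transfers the trace.
-/
import Mathlib
import Fermat.Agent.LR.XFER_helper4_Defs
import Fermat.Agent.GR.LATTICE_lead_Rank
import Fermat.Prelude.Def_GaloisRep_Residual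
import Fermat.Prelude.Def_GaloisRep_LocalConditions

set_option autoImplicit false
set_option linter.unusedSectionVars false
set_option linter.unusedVariables false

open Polynomial IsLocalRing CongruenceSubgroup ModularCurve.Period

namespace Fermat.Agent.ML

open Fermat.Agent.GR Fermat.Agent.LR

/-- `Ω = AlgebraicClosure ℚ`. -/
local notation "Ω" => AlgebraicClosure ℚ

/-- the absolute Galois group. -/
local notation "GQ" => (AlgebraicClosure ℚ ≃ₐ[ℚ] AlgebraicClosure ℚ)

/-- **Steinberg at a `q`-new point, kill form.** -/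
def SteinbergOfKillStatement : Prop :=
  ∀ {p : ℕ} [Fact p.Prime] (_ : p ≠ 2) (N q : ℕ) [NeZero N] [NeZero q] [NeZero (N * q)]
    (hq : q.Prime) (_ : q ≠ p) (hqN : ¬ q ∣ N)
    {T : Type} [CommRing T] [IsLocalRing T] (ρ : GaloisRepAdic T)
    (_ : ρ.residual.IsAbsolutelyIrreducible)
    (B : Type) [CommRing B] [IsDomain B] [IsDiscreteValuationRing B] [CharZero B]
    [IsAdicComplete (maximalIdeal B) B] (_ : (p : B) ∈ maximalIdeal B)
    (ψ : T →+* B) [IsLocalHom ψ]
    (L : Type) [Field L] [Algebra B L] [IsFractionRing B L]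
    (a : Nat.Primes → B) (S : Finset ℕ)
    (_ : ∀ (ℓ : ℕ) (hℓ : ℓ.Prime), ℓ ∉ S → ∀ P : ValuationSubring Ω, P.LiesOverPrime ℓ →
      ∀ φ : GQ, P.IsFrobeniusAt φ ℓ →
        (LinearMap.charpoly (ρ.ρ φ)).map ψ = X ^ 2 - C (a ⟨ℓ, hℓ⟩) * X + C (ℓ : B))
    (_ : ∃ v ∈ eigenPar (N * q) L (mapSys B L a), v ≠ 0 ∧
      pushA N q hq hqN L v = 0 ∧ pushB N q hq hqN L v = 0),
    ∀ P : ValuationSubring Ω, P.LiesOverPrime q → ∀ φ : GQ, P.IsFrobeniusAt φ q →
      ψ (ρ.trace φ) ^ 2 = ((q : B) + 1) ^ 2

end Fermat.Agent.ML
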