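/-
ML — helper5 — **[STKILL], part 3: no proper saturated stable submodule.**  If `ρ' : GaloisRepAdic B`
has the Frobenius characteristic polynomials of `ψ_* ρ`, `ρ` with absolutely irreducible residual
representation, then every non-zero saturated Galois-stable submodule of `ρ'.V` is everything
(`ρ' ≅ ψ_* ρ` by NP `exists_equiv_of_frob`, and the matrices of `ψ_* ρ` span `M₂(B)`).
-/
import Mathlib
import Fermat.Agent.NP.EMB33_helper2_Main

set_option autoImplicit false
set_option linter.unusedSectionVars false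
set_option linter.unusedVariables false
set_option linter.style.haveILetI false

namespace Fermat.Agent.ML

open Polynomial IsLocalRing

/-- `Ω = AlgebraicClosure ℚ`. -/
local notation "Ω" => AlgebraicClosure ℚ

/-- the absolute Galois group. -/
local notation "GQ" => (AlgebraicClosure ℚ ≃ₐ[ℚ] AlgebraicClosure ℚ)

section Abstract

variable {B : Type*} [CommRing B] {G : Type*} [Monoid G]

/-- a non-zero saturated submodule stable under a family of operators conjugate to matrices spanning
`M₂(B)` is everything. -/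
theorem eq_top_of_fullSpan_of_stable (r : G →* Fermat.Agent.S53.L1.Mat2 B)
    (hr : Fermat.Agent.S53.L1.FullSpan r)
    {V : Type*} [AddCommGroup V] [Module B V] (f : (Fin 2 → B) ≃ₗ[B] V)
    (ρ' : G →* Module.End B V)
    (hf : ∀ (σ : G) (x : Fin 2 → B), f ((r σ).mulVec x) = ρ' σ (f x))
    (K : Submodule B V) (hstab : ∀ (σ : G), ∀ v ∈ K, ρ' σ v ∈ K)
    (hsat : ∀ (c : B) (v : V), c ≠ 0 → c • v ∈ K → v ∈ K)
    (hne : ∃ v ∈ K, v ≠ 0) : K = ⊤ := by
  have hall : ∀ X : Fermat.Agent.S53.L1.Mat2 B, ∀ x : Fin 2 → B, f x ∈ K →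
      f (X.mulVec x) ∈ K := by
    intro X
    have hX : X ∈ Submodule.span B (Set.range r) := by
      rw [show Submodule.span B (Set.range r) = ⊤ from hr]
      trivial
    induction hX using Submodule.span_induction with
    | mem X hX =>
      obtain ⟨σ, rfl⟩ := hX
      intro x hx
      rw [hf]
      exact hstab σ _ hx
    | zero =>
      intro x hx
      rw [Matrix.zero_mulVec, map_zero]
      exact K.zero_mem
    | add X Y _ _ h1 h2 =>
      intro x hx
      rw [Matrix.add_mulVec, map_add]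
      exact K.add_mem (h1 x hx) (h2 x hx)
    | smul c X _ h1 =>
      intro x hx
      rw [Matrix.smul_mulVec, map_smul]
      exact K.smul_mem c (h1 x hx)
  obtain ⟨v, hvK, hv0⟩ := hne
  obtain ⟨x, rfl⟩ := f.surjective v
  have hx0 : x ≠ 0 := fun h => hv0 (by rw [h, map_zero])
  obtain ⟨i, hi⟩ : ∃ i, x i ≠ 0 := by
    by_contra hcon
    apply hx0
    funext k
    by_contra hk
    exact hcon ⟨k, hk⟩
  have hbasis : ∀ j : Fin 2, f (Pi.single j (1 : B)) ∈ K := by
    intro j
    have h1 := hall (Matrix.single j i (1 : B)) x hvK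
    rw [Matrix.single_mulVec_eq, one_mul, map_smul] at h1
    exact hsat (x i) _ hi h1
  rw [eq_top_iff]
  rintro w -
  obtain ⟨y, rfl⟩ := f.surjective w
  have hy : y = ∑ j : Fin 2, y j • Pi.single j (1 : B) := by
    funext k
    rw [Finset.sum_apply]
    simp only [Pi.smul_apply, Pi.single_apply, smul_eq_mul, mul_ite, mul_one, mul_zero]
    rw [Finset.sum_ite_eq]
    simp
  rw [hy, map_sum]
  refine K.sum_mem fun j _ => ?_
  rw [map_smul]
  exact K.smul_mem _ (hbasis j)

end Abstract

section Frob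

variable {T : Type} [CommRing T] [IsLocalRing T] (ρ : GaloisRepAdic T)
  {B : Type} [CommRing B] [IsLocalRing B] [IsNoetherianRing B] [IsDomain B]
  (ψ : T →+* B) [IsLocalHom ψ] (ρ' : GaloisRepAdic B)

/-- **no proper saturated stable submodule** in a lattice whose Frobenius characteristic
polynomials are those of `ψ_* ρ`, `ρ̄` absolutely irreducible. -/
theorem stable_eq_top_of_frob (habs : ρ.residual.IsAbsolutelyIrreducible) (h2 : IsUnit (2 : B))
    (S : Finset ℕ)
    (hfrob : ∀ ℓ : ℕ, ℓ.Prime → ℓ ∉ S → ∀ P : ValuationSubring Ω, P.LiesOverPrime ℓ →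
      ∀ φ : GQ, P.IsFrobeniusAt φ ℓ →
        (LinearMap.charpoly (ρ.ρ φ)).map ψ = LinearMap.charpoly (ρ'.ρ φ))
    (K : Submodule B ρ'.V) (hstab : ∀ (σ : GQ), ∀ v ∈ K, ρ'.ρ σ v ∈ K)
    (hsat : ∀ (c : B) (v : ρ'.V), c ≠ 0 → c • v ∈ K → v ∈ K)
    (hne : ∃ v ∈ K, v ≠ 0) : K = ⊤ := by
  obtain ⟨f, hf⟩ := Fermat.Agent.NP.exists_equiv_of_frob ρ ψ ρ' habs h2 S hfrob
  exact eq_top_of_fullSpan_of_stable
    (Fermat.Agent.S53.L1.mapRep ψ (Fermat.Agent.GR.repMat ρ))
    (Fermat.Agent.S32.fullSpan_mapRep ψ (Fermat.Agent.GR.repMat ρ)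
      (Fermat.Agent.GR.fullSpan_repMat ρ habs)) f ρ'.ρ hf K hstab hsat hne

end Frob

end Fermat.Agent.ML
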