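/-
ML — helper5 — **[STKILL], part 2: the joint kernel of the two degeneracy transfers is
Galois-stable**, on `Hom_par(Γ₀(M q), ℤ_p)` (Kummer theory + Galois-equivariance of the
pushforwards) and, by flat base change, on `Hom_par(Γ₀(M q), B)`.
-/
import Mathlib
import Fermat.Agent.S35.T2_lead_Core
import Fermat.Agent.ML.STKILL_helper5_Gal

set_option autoImplicit false
set_option linter.unusedSectionVars false
set_option linter.unusedVariables false
set_option linter.style.haveILetI false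

open CongruenceSubgroup ModularCurve ModularCurve.Period TensorProduct

open scoped MatrixGroups

namespace Fermat.Agent.ML

open Fermat.Agent.GR Fermat.Agent.X0N Fermat.Agent.JA Fermat.Agent.S35

/-- `Ω = AlgebraicClosure ℚ`. -/
local notation "Ω" => AlgebraicClosure ℚ

/-- the absolute Galois group. -/
local notation "GQ" => (AlgebraicClosure ℚ ≃ₐ[ℚ] AlgebraicClosure ℚ)

section Two

variable {J' J : Type*} [AddCommGroup J'] [AddCommGroup J] {Γ' Γ : Subgroup SL(2, ℤ)}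
  {p : ℕ} [hp : Fact p.Prime] {D' : KapData J' Γ' p} {D : KapData J Γ p}

/-- converse of `KapTransfer.map_comp_eq_zero`: if `π` kills all components of `y` then
`X (Φ' y) = 0`. -/
theorem kapTransfer_X_phi_eq_zero {π : J' →+ J} (T : KapTransfer D' D π)
    (y : ↥(TateSeq J' p)) (h : ∀ k, π (y.1 k) = 0) : T.X (D'.phi y).1 = 0 := by
  refine AddMonoidHom.ext fun γ => ?_
  rw [← PadicInt.ext_of_toZModPow]
  intro k
  have h1 : (PadicInt.toZModPow k).toAddMonoidHom.comp (T.X (D'.phi y).1) = 0 := by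
    rw [T.red k, D'.toZModPow_comp_phi y k, ← T.kap k]
    have h0 : torsionNatMap₂ (p ^ k) π (TateSeq.comp k y) = 0 := Subtype.ext (h k)
    rw [h0, map_zero]
  have h2 := DFunLike.congr_fun h1 γ
  show PadicInt.toZModPow k ((T.X (D'.phi y).1) γ) = PadicInt.toZModPow k 0
  rw [map_zero]
  exact h2

variable {G : Type*} [Group G] [DistribMulAction G J'] [DistribMulAction G J]

/-- **the kernel of a Kummer-intertwined transfer along a `G`-equivariant map is stable under the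
transported action of `G`.** -/
theorem kapTransfer_X_rho_eq_zero {π : J' →+ J} (T : KapTransfer D' D π)
    (hπ : ∀ (σ : G) (x : J'), π (σ • x) = σ • π x) (σ : G)
    (ψ : ↥(parabolicHoms ℤ_[p] Γ' ℤ_[p])) (h : T.X ψ.1 = 0) :
    T.X (D'.rho σ ψ).1 = 0 := by
  obtain ⟨x, rfl⟩ := D'.phi_surjective ψ
  rw [D'.rho_phi]
  refine kapTransfer_X_phi_eq_zero T _ fun k => ?_
  show π (σ • x.1 k) = 0
  rw [hπ, T.map_comp_eq_zero x h k, smul_zero]

end Two

section Flat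

variable {R R' : Type*} [CommRing R] [CommRing R'] [Algebra R R'] [IsAddTorsionFree R]
  [IsAddTorsionFree R'] [Module.Flat R R']
  {Γ' Γ : Subgroup SL(2, ℤ)} [Group.FG Γ'] [Group.FG Γ]
  (X₁ X₂ : ↥(parabolicHoms R Γ' R) →ₗ[R] ↥(parabolicHoms R Γ R))
  (X₁' X₂' : ↥(parabolicHoms R' Γ' R') →ₗ[R'] ↥(parabolicHoms R' Γ R'))
  (h₁ : ∀ ψ, X₁' (parMapAlg R R' Γ' ψ) = parMapAlg R R' Γ (X₁ ψ))
  (h₂ : ∀ ψ, X₂' (parMapAlg R R' Γ' ψ) = parMapAlg R R' Γ (X₂ ψ))

include h₁ h₂ in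
/-- **flat base change of stability**: if `g` preserves `ker X₁ ∩ ker X₂` then `parExt g`
preserves `ker X₁' ∩ ker X₂'`. -/
theorem parExt_apply_mem_ker_of_ker (g : Module.End R ↥(parabolicHoms R Γ' R))
    (hg : ∀ ψ, X₁ ψ = 0 → X₂ ψ = 0 → X₁ (g ψ) = 0 ∧ X₂ (g ψ) = 0)
    (v : ↥(parabolicHoms R' Γ' R')) (hv₁ : X₁' v = 0) (hv₂ : X₂' v = 0) :
    X₁' (parExt R R' Γ' g v) = 0 ∧ X₂' (parExt R R' Γ' g v) = 0 := by
  obtain ⟨x, rfl⟩ := (parBC R R' Γ').surjective v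
  have hx : x ∈ LinearMap.ker (AlgebraTensorModule.lTensor R' R' (X₁.prod X₂)) := by
    rw [LinearMap.mem_ker]
    apply (prodBC (R := R) (R' := R') (Γ := Γ)).injective
    rw [prodBC_lTensor X₁ X₂ X₁' X₂' h₁ h₂, hv₁, hv₂, map_zero]
    rfl
  rw [Module.Flat.ker_lTensor_eq] at hx
  obtain ⟨y, rfl⟩ := hx
  have key : (X₁'.prod X₂') ∘ₗ (parExt R R' Γ' g) ∘ₗ (parBC R R' Γ').toLinearMap ∘ₗ
      AlgebraTensorModule.lTensor R' R' (LinearMap.ker (X₁.prod X₂)).subtype = 0 := by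
    apply TensorProduct.AlgebraTensorModule.ext
    intro c ψ
    show (X₁'.prod X₂') (parExt R R' Γ' g (parBC R R' Γ'
      (AlgebraTensorModule.lTensor R' R' (LinearMap.ker (X₁.prod X₂)).subtype (c ⊗ₜ[R] ψ)))) = 0
    rw [AlgebraTensorModule.lTensor_tmul, parBC_tmul, parExt_smul_parMapAlg]
    have hψ := ψ.2
    rw [LinearMap.mem_ker, LinearMap.prod_apply, Prod.mk_eq_zero] at hψ
    obtain ⟨e1, e2⟩ := hg ψ.1 hψ.1 hψ.2
    rw [Submodule.subtype_apply, LinearMap.prod_apply]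
    show (X₁' (c • parMapAlg R R' Γ' (g ψ.1)), X₂' (c • parMapAlg R R' Γ' (g ψ.1))) = 0
    rw [map_smul, map_smul, h₁, h₂, e1, e2, map_zero, smul_zero]
    rfl
  have h3 := LinearMap.congr_fun key y
  have h4 : (X₁'.prod X₂') (parExt R R' Γ' g (parBC R R' Γ'
      (AlgebraTensorModule.lTensor R' R' (LinearMap.ker (X₁.prod X₂)).subtype y))) = 0 := h3
  rw [LinearMap.prod_apply, Prod.mk_eq_zero] at h4
  exact h4

end Flat

section BLevel

variable {M₀ q p : ℕ} [NeZero M₀] [NeZero q] [NeZero (M₀ * q)] [hp : Fact p.Prime]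
  (D' : KapData (JZero (M₀ * q)) (Gamma0 (M₀ * q)) p) (D₀ : KapData (JZero M₀) (Gamma0 M₀) p)
  {ι : Type*} [Fintype ι]
  (Xα Xβ : TransferDatum ↥(Gamma0 (M₀ * q)) ↥(Gamma0 M₀) (GL (Fin 2) ℝ) ι)
  (B : Type) [CommRing B] [IsDomain B] [CharZero B] [Algebra ℤ_[p] B]
  [Module.Flat ℤ_[p] B]

/-- **the joint kernel of the two degeneracy transfers on `Hom_par(Γ₀(M₀ q), B)` is stable under
the Galois action** (`parExt` of the transported action on `Hom_par(Γ₀(M₀ q), ℤ_p)`). -/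
theorem parExt_rho_transferGrp_eq_zero
    (hkα : ∀ (k : ℕ) (x : ↥(torsionNat (JZero (M₀ * q)) (p ^ k))),
      D₀.kap k (torsionNatMap₂ (p ^ k) (degPushAlpha M₀ q) x) =
        Xα.transferGrp (ZMod (p ^ k)) (D'.kap k x))
    (hkβ : ∀ (k : ℕ) (x : ↥(torsionNat (JZero (M₀ * q)) (p ^ k))),
      D₀.kap k (torsionNatMap₂ (p ^ k) (degPushBeta M₀ q) x) =
        Xβ.transferGrp (ZMod (p ^ k)) (D'.kap k x))
    (hparα : ∀ (R : Type) [CommRing R], ∀ ψ ∈ parabolicHoms R (Gamma0 (M₀ * q)) R,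
      Xα.transferGrp R ψ ∈ parabolicHoms R (Gamma0 M₀) R)
    (hparβ : ∀ (R : Type) [CommRing R], ∀ ψ ∈ parabolicHoms R (Gamma0 (M₀ * q)) R,
      Xβ.transferGrp R ψ ∈ parabolicHoms R (Gamma0 M₀) R)
    (σ : GQ)
    (v : ↥(parabolicHoms B (Gamma0 (M₀ * q)) B)) (hvα : Xα.transferGrp B v.1 = 0)
    (hvβ : Xβ.transferGrp B v.1 = 0) :
    Xα.transferGrp B (parExt ℤ_[p] B (Gamma0 (M₀ * q)) (D'.rho σ) v).1 = 0 ∧
      Xβ.transferGrp B (parExt ℤ_[p] B (Gamma0 (M₀ * q)) (D'.rho σ) v).1 = 0 := by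
  have h := parExt_apply_mem_ker_of_ker (xferPar Xα ℤ_[p] (hparα ℤ_[p]))
    (xferPar Xβ ℤ_[p] (hparβ ℤ_[p])) (xferPar Xα B (hparα B)) (xferPar Xβ B (hparβ B))
    (xferPar_parMapAlg Xα ℤ_[p] B _ _) (xferPar_parMapAlg Xβ ℤ_[p] B _ _) (D'.rho σ) ?_ v
    (Subtype.ext hvα) (Subtype.ext hvβ)
  · exact ⟨congrArg Subtype.val h.1, congrArg Subtype.val h.2⟩
  · intro ψ h1 h2
    have e1 := kapTransfer_X_rho_eq_zero (kapTransferOf D' D₀ Xα _ hkα)
      (fun (τ : GQ) x => degPushAlpha_galois_smul M₀ q τ x) σ ψ (congrArg Subtype.val h1)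
    have e2 := kapTransfer_X_rho_eq_zero (kapTransferOf D' D₀ Xβ _ hkβ)
      (fun (τ : GQ) x => degPushBeta_galois_smul M₀ q τ x) σ ψ (congrArg Subtype.val h2)
    exact ⟨Subtype.ext e1, Subtype.ext e2⟩

end BLevel

end Fermat.Agent.ML
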