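/-
ML — helper5 — **[STKILL], part 4: `SteinbergOfKillStatement`.**  At a point of a Hecke ring whose
full system `a` of level `N q` has a non-zero eigenvector killed by both degeneracy traces
`Γ₀(N q) → Γ₀(N)`, every Frobenius lift `φ` at `q` has `(tr ρ(φ))² = (q + 1)²`.
-/
import Mathlib
import Fermat.Agent.ML.IFACE_helper5_SteinbergKill
import Fermat.Agent.ML.STKILL_helper5_Stable
import Fermat.Agent.ML.STKILL_helper5_Irr
import Fermat.Agent.S35.T2_lead_Top
import Fermat.Agent.S35.T3B_helper4_Main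
import Fermat.Agent.S35.NORMF_helper8_Main
import Fermat.Agent.S58.CHEB_helper4

set_option autoImplicit false
set_option linter.unusedSectionVars false
set_option linter.unusedVariables false
set_option linter.style.haveILetI false

open CongruenceSubgroup ModularCurve ModularCurve.Period Polynomial IsLocalRing

open scoped MatrixGroups

namespace Fermat.Agent.ML

open Fermat.Agent.GR Fermat.Agent.X0N Fermat.Agent.JA Fermat.Agent.S35 Fermat.Agent.LR

/-- `Ω = AlgebraicClosure ℚ`. -/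
local notation "Ω" => AlgebraicClosure ℚ

/-- the absolute Galois group. -/
local notation "GQ" => (AlgebraicClosure ℚ ≃ₐ[ℚ] AlgebraicClosure ℚ)

/-- `2` is a unit in a local ring of odd residue characteristic. -/
theorem stkill_isUnit_two {B : Type*} [CommRing B] [IsLocalRing B] {p : ℕ} (hp : p.Prime)
    (hp2 : p ≠ 2) (hpB : (p : B) ∈ maximalIdeal B) : IsUnit (2 : B) := by
  by_contra h
  have h2m : (2 : B) ∈ maximalIdeal B := (mem_maximalIdeal _).2 h
  obtain ⟨k, hk⟩ := hp.odd_of_ne_two hp2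
  have h1 : (1 : B) = (p : B) - 2 * (k : B) := by
    rw [hk]; push_cast; ring
  have : (1 : B) ∈ maximalIdeal B := by
    rw [h1]
    exact Ideal.sub_mem _ hpB (Ideal.mul_mem_right _ _ h2m)
  exact (maximalIdeal.isMaximal B).ne_top ((Ideal.eq_top_iff_one _).2 this)

/-! ### clearing denominators in the killed eigenvector -/

section Integral

variable (N q : ℕ) [NeZero N] [NeZero q] [NeZero (N * q)] (hq : q.Prime) (hqN : ¬ q ∣ N)
  (B : Type) [CommRing B] [IsDomain B] (L : Type) [Field L] [Algebra B L] [IsFractionRing B L]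
  (a : Nat.Primes → B)

theorem exists_integral_kill
    (hkill : ∃ v ∈ eigenPar (N * q) L (mapSys B L a), v ≠ 0 ∧
      pushA N q hq hqN L v = 0 ∧ pushB N q hq hqN L v = 0) :
    ∃ w ∈ eigenPar (N * q) B a, w ≠ 0 ∧
      pushA N q hq hqN B w = 0 ∧ pushB N q hq hqN B w = 0 := by
  obtain ⟨v, hv, hv0, hvA, hvB⟩ := hkill
  obtain ⟨ψ₀, s, hs0, hs⟩ := eigenParLoc_surj (N * q) B L a ⟨v, hv⟩
  have hinj := IsFractionRing.injective B L
  have hcomp : (algebraMap B L).toAddMonoidHom.comp ψ₀.1 = s • v := by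
    have h1 := congrArg Subtype.val hs
    exact h1.symm
  have hs1 : algebraMap B L s ≠ 0 := fun hh => hs0 (hinj (by rw [hh, map_zero]))
  refine ⟨ψ₀.1, ψ₀.2, ?_, ?_, ?_⟩
  · intro h0
    apply hv0
    refine AddMonoidHom.ext fun γ => ?_
    have h1 := DFunLike.congr_fun hcomp γ
    rw [h0] at h1
    have h2 : (s • v) γ = algebraMap B L s * v γ := by
      show s • v γ = _
      rw [Algebra.smul_def]
    have h3 : algebraMap B L s * v γ = 0 := by
      rw [← h2, ← h1]
      show algebraMap B L ((0 : Additive ↥(Gamma0 (N * q)) →+ B) γ) = 0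
      rw [AddMonoidHom.zero_apply, map_zero]
    exact (mul_eq_zero.1 h3).resolve_left hs1
  · refine AddMonoidHom.ext fun γ => ?_
    apply hinj
    have h1 : (algebraMap B L).toAddMonoidHom.comp (pushA N q hq hqN B ψ₀.1) = 0 := by
      rw [← pushA_comp, hcomp]
      have h2 : pushA N q hq hqN L (s • v) = s • pushA N q hq hqN L v :=
        (pushAₗ N q hq hqN L B).map_smul s v
      rw [h2, hvA, smul_zero]
    have h3 := DFunLike.congr_fun h1 γ
    show algebraMap B L ((pushA N q hq hqN B ψ₀.1) γ) = algebraMap B L 0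
    rw [map_zero]
    exact h3
  · refine AddMonoidHom.ext fun γ => ?_
    apply hinj
    have h1 : (algebraMap B L).toAddMonoidHom.comp (pushB N q hq hqN B ψ₀.1) = 0 := by
      rw [← pushB_comp, hcomp]
      have h2 : pushB N q hq hqN L (s • v) = s • pushB N q hq hqN L v :=
        (pushBₗ N q hq hqN L B).map_smul s v
      rw [h2, hvB, smul_zero]
    have h3 := DFunLike.congr_fun h1 γ
    show algebraMap B L ((pushB N q hq hqN B ψ₀.1) γ) = algebraMap B L 0
    rw [map_zero]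
    exact h3

end Integral

/-! ### the Frobenius polynomial identity from a killed eigenlattice -/

section Rep

variable {M₀ q p : ℕ} [NeZero M₀] [NeZero q] [NeZero (M₀ * q)] [hp : Fact p.Prime]
  (I : StageIData (M₀ * q) p) (D₀ : KapData (JZero M₀) (Gamma0 M₀) p)
  {ι : Type*} [Fintype ι]
  (Xα Xβ : TransferDatum ↥(Gamma0 (M₀ * q)) ↥(Gamma0 M₀) (GL (Fin 2) ℝ) ι)
  (B : Type) [CommRing B] [IsDomain B] [IsDiscreteValuationRing B] [CharZero B]
  [Algebra ℤ_[p] B] [Module.Flat ℤ_[p] B] (hpB : (p : B) ∈ IsLocalRing.maximalIdeal B)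
  (a : Nat.Primes → B)
  (L : Type) [Field L] [Algebra B L] [IsFractionRing B L]
  (hrank : Module.finrank L ↥(eigenPar (M₀ * q) L (mapSys B L a)) = 2)

/-- **the Frobenius polynomial identity for the representation on an eigenlattice killed by both
transfers** (variant of `S35.rep_frobPoly_eq_zero`). -/
theorem rep_frobPoly_eq_zero_of_kill
    (hkα : ∀ (k : ℕ) (x : ↥(torsionNat (JZero (M₀ * q)) (p ^ k))),
      D₀.kap k (torsionNatMap₂ (p ^ k) (degPushAlpha M₀ q) x) =
        Xα.transferGrp (ZMod (p ^ k)) (I.D.kap k x))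
    (hkβ : ∀ (k : ℕ) (x : ↥(torsionNat (JZero (M₀ * q)) (p ^ k))),
      D₀.kap k (torsionNatMap₂ (p ^ k) (degPushBeta M₀ q) x) =
        Xβ.transferGrp (ZMod (p ^ k)) (I.D.kap k x))
    (hparα : ∀ (R : Type) [CommRing R], ∀ ψ ∈ parabolicHoms R (Gamma0 (M₀ * q)) R,
      Xα.transferGrp R ψ ∈ parabolicHoms R (Gamma0 M₀) R)
    (hparβ : ∀ (R : Type) [CommRing R], ∀ ψ ∈ parabolicHoms R (Gamma0 (M₀ * q)) R,
      Xβ.transferGrp R ψ ∈ parabolicHoms R (Gamma0 M₀) R)
    (hall : ∀ v ∈ eigenPar (M₀ * q) B a,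
      Xα.transferGrp B v = 0 ∧ Xβ.transferGrp B v = 0)
    {c r : ℕ} {φ : GQ}
    (hkey : ∀ (k : ℕ) (x : JZero (M₀ * q)), p ^ k • x = 0 → degPushAlpha M₀ q x = 0 →
      degPushBeta M₀ q x = 0 → p ^ c • frobPolyAct q r φ x = 0) :
    (((I.rep B hpB a L hrank).ρ φ) ^ r -
        ((q : B) ^ r) • (1 : Module.End B (I.rep B hpB a L hrank).V)) *
      (((I.rep B hpB a L hrank).ρ φ) ^ 2 - 1) * ((I.rep B hpB a L hrank).ρ φ - 1) = 0 := by
  have hmain := restrict_frobPoly_eq_zero (eigenLattice (M₀ * q) B a)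
    (rhoM (M₀ * q) p B I.rhoP φ)
    (fun m hm => rhoM_mem (M₀ * q) p B a I.rhoP I.rhoP_comm φ hm) ((q : B) ^ r) r (by
      intro v hv
      have hv' : v.1 ∈ eigenPar (M₀ * q) B a := hv
      have h1 := parExt_frobPoly_apply_eq_zero I.D D₀ Xα Xβ B hkα hkβ hparα hparβ hkey v
        (hall v.1 hv').1 (hall v.1 hv').2
      rw [natCast_end_eq_smul_one, Nat.cast_pow] at h1
      exact h1)
  exact hmain

/-- the joint kernel of the two transfers in the eigenlattice. -/
noncomputable def killSub : Submodule B ↥(eigenLattice (M₀ * q) B a) :=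
  LinearMap.ker (((Xα.transferGrpₗ B B).prod (Xβ.transferGrpₗ B B)) ∘ₗ
    (parabolicHoms B (Gamma0 (M₀ * q)) B).subtype ∘ₗ (eigenLattice (M₀ * q) B a).subtype)

theorem mem_killSub {m : ↥(eigenLattice (M₀ * q) B a)} :
    m ∈ killSub Xα Xβ B a ↔ Xα.transferGrp B m.1.1 = 0 ∧ Xβ.transferGrp B m.1.1 = 0 := by
  unfold killSub
  rw [LinearMap.mem_ker]
  show (Xα.transferGrp B m.1.1, Xβ.transferGrp B m.1.1) = 0 ↔ _
  exact Prod.mk_eq_zero

/-- saturation of the joint kernel. -/
theorem killSub_sat (c : B) (m : ↥(eigenLattice (M₀ * q) B a)) (hc : c ≠ 0)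
    (h : c • m ∈ killSub Xα Xβ B a) : m ∈ killSub Xα Xβ B a := by
  rw [mem_killSub] at h ⊢
  have key : ∀ X : TransferDatum ↥(Gamma0 (M₀ * q)) ↥(Gamma0 M₀) (GL (Fin 2) ℝ) ι,
      X.transferGrp B (c • m).1.1 = 0 → X.transferGrp B m.1.1 = 0 := by
    intro X hX
    have h1 : X.transferGrp B (c • m).1.1 = c • X.transferGrp B m.1.1 :=
      (X.transferGrpₗ B B).map_smul c m.1.1
    rw [h1] at hX
    refine AddMonoidHom.ext fun γ => ?_
    have h2 := DFunLike.congr_fun hX γ
    have h3 : c * (X.transferGrp B m.1.1) γ = 0 := h2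
    exact (mul_eq_zero.1 h3).resolve_left hc
  exact ⟨key Xα h.1, key Xβ h.2⟩

/-- **Galois-stability of the joint kernel.** -/
theorem killSub_stable
    (hkα : ∀ (k : ℕ) (x : ↥(torsionNat (JZero (M₀ * q)) (p ^ k))),
      D₀.kap k (torsionNatMap₂ (p ^ k) (degPushAlpha M₀ q) x) =
        Xα.transferGrp (ZMod (p ^ k)) (I.D.kap k x))
    (hkβ : ∀ (k : ℕ) (x : ↥(torsionNat (JZero (M₀ * q)) (p ^ k))),
      D₀.kap k (torsionNatMap₂ (p ^ k) (degPushBeta M₀ q) x) =
        Xβ.transferGrp (ZMod (p ^ k)) (I.D.kap k x))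
    (hparα : ∀ (R : Type) [CommRing R], ∀ ψ ∈ parabolicHoms R (Gamma0 (M₀ * q)) R,
      Xα.transferGrp R ψ ∈ parabolicHoms R (Gamma0 M₀) R)
    (hparβ : ∀ (R : Type) [CommRing R], ∀ ψ ∈ parabolicHoms R (Gamma0 (M₀ * q)) R,
      Xβ.transferGrp R ψ ∈ parabolicHoms R (Gamma0 M₀) R)
    (σ : GQ) (m : ↥(eigenLattice (M₀ * q) B a)) (hm : m ∈ killSub Xα Xβ B a) :
    rhoLattice (M₀ * q) p B a I.rhoP I.rhoP_comm σ m ∈ killSub Xα Xβ B a := by
  rw [mem_killSub] at hm ⊢
  exact parExt_rho_transferGrp_eq_zero I.D D₀ Xα Xβ B hkα hkβ hparα hparβ σ m.1 hm.1 hm.2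

end Rep

/-! ### the main theorem -/

section Main

variable {p : ℕ} [hp : Fact p.Prime] (N q : ℕ) [NeZero N] [NeZero q] [NeZero (N * q)]
  (hq : q.Prime) (hqN : ¬ q ∣ N)
  {T : Type} [CommRing T] [IsLocalRing T] (ρ : GaloisRepAdic T)
  (B : Type) [CommRing B] [IsDomain B] [IsDiscreteValuationRing B] [CharZero B]
  [Algebra ℤ_[p] B] [Module.Flat ℤ_[p] B] (hpB : (p : B) ∈ maximalIdeal B)
  (ψ : T →+* B) [IsLocalHom ψ]
  (L : Type) [Field L] [Algebra B L] [IsFractionRing B L]
  (a : Nat.Primes → B)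
  (hrank : Module.finrank L ↥(eigenPar (N * q) L (mapSys B L a)) = 2)

include hq hqN in
/-- every element of the eigenlattice is killed by both transfers. -/
theorem forall_kill_of_exists (hp2 : p ≠ 2) (habs : ρ.residual.IsAbsolutelyIrreducible)
    (S : Finset ℕ)
    (hfrob : ∀ ℓ : ℕ, ℓ.Prime → ℓ ∉ S → ∀ P : ValuationSubring Ω, P.LiesOverPrime ℓ →
      ∀ φ : GQ, P.IsFrobeniusAt φ ℓ →
        (LinearMap.charpoly (ρ.ρ φ)).map ψ =
          LinearMap.charpoly (((stageIData (N * q) p).rep B hpB a L hrank).ρ φ))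
    (hw : ∃ w ∈ eigenPar (N * q) B a, w ≠ 0 ∧
      pushA N q hq hqN B w = 0 ∧ pushB N q hq hqN B w = 0) :
    ∀ v ∈ eigenPar (N * q) B a,
      (xferAlphaT N q (bez_eq hq hqN) hq).transferGrp B v = 0 ∧
        (xferBeta N q (bez_eq hq hqN) hq).transferGrp B v = 0 := by
  have hkα := stageIData_kap_degPushAlpha (p := p) (bez_eq hq hqN) hq
  have hkβ := stageIData_kap_degPushBeta (p := p) (bez_eq hq hqN) hq
  have key : ∀ K : Submodule B ↥(eigenLattice (N * q) B a),
      (∀ (σ : GQ), ∀ m ∈ K, rhoLattice (N * q) p B a (stageIData (N * q) p).rhoP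
        (stageIData (N * q) p).rhoP_comm σ m ∈ K) →
      (∀ (c : B) (m : ↥(eigenLattice (N * q) B a)), c ≠ 0 → c • m ∈ K → m ∈ K) →
      (∃ m ∈ K, m ≠ 0) → K = ⊤ := fun K h1 h2 h3 =>
    stable_eq_top_of_frob ρ ψ ((stageIData (N * q) p).rep B hpB a L hrank) habs
      (stkill_isUnit_two hp.out hp2 hpB) S hfrob K h1 h2 h3
  have htop : killSub (xferAlphaT N q (bez_eq hq hqN) hq) (xferBeta N q (bez_eq hq hqN) hq) B a
      = ⊤ := by
    refine key _ ?_ ?_ ?_
    · intro σ m hm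
      exact killSub_stable (stageIData (N * q) p) (stageIData N p).D _ _ B a hkα hkβ
        (fun R _ ψ hψ => xferAlphaT_mem_parabolicHoms N q (bez_eq hq hqN) hq R hψ)
        (fun R _ ψ hψ => xferBeta_mem_parabolicHoms N q (bez_eq hq hqN) hq R hψ) σ m hm
    · intro c m hc hm
      exact killSub_sat _ _ B a c m hc hm
    · obtain ⟨w, hw, hw0, hwA, hwB⟩ := hw
      refine ⟨⟨⟨w, hw.1⟩, hw⟩, ?_, ?_⟩
      · rw [mem_killSub]
        refine ⟨?_, ?_⟩
        · show (xferAlphaT N q (bez_eq hq hqN) hq).transferGrp B w = 0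
          rw [xferAlphaT_transferGrp_eq_pushA N q hq hqN (bez_eq hq hqN) w]
          exact hwA
        · show (xferBeta N q (bez_eq hq hqN) hq).transferGrp B w = 0
          rw [xferBeta_transferGrp_eq_pushB N q hq hqN (bez_eq hq hqN) w]
          exact hwB
      · intro h0
        apply hw0
        have h1 := congrArg (fun m : ↥(eigenLattice (N * q) B a) => m.1.1) h0
        exact h1
  intro v hv
  have hmem : (⟨⟨v, hv.1⟩, hv⟩ : ↥(eigenLattice (N * q) B a)) ∈
      killSub (xferAlphaT N q (bez_eq hq hqN) hq) (xferBeta N q (bez_eq hq hqN) hq) B a := by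
    rw [htop]
    exact Submodule.mem_top
  rw [mem_killSub] at hmem
  exact hmem

end Main

/-- **Steinberg at a `q`-new point, kill form.** -/
theorem steinbergOfKillStatement : SteinbergOfKillStatement := by
  intro p hpF hp2 N q _ _ _ hq hqp hqN T _ _ ρ habs B _ _ _ _ _ hpB ψ _ L _ _ _ a S hfrob hkill
    P hP φ hφ
  letI : Algebra ℤ_[p] B := (padicToComplete p (maximalIdeal B) hpB).toAlgebra
  haveI : Module.Flat ℤ_[p] B := flat_padic_of_charZero B
  haveI : CharZero L := charZero_of_injective_algebraMap (IsFractionRing.injective B L)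
  have hocc : eigenPar (N * q) L (mapSys B L a) ≠ ⊥ := by
    obtain ⟨v, hv, hv0, -, -⟩ := hkill
    intro hbot
    rw [hbot, Submodule.mem_bot] at hv
    exact hv0 hv
  obtain ⟨_, _, hrank⟩ := mult1_field hocc
  obtain ⟨hplus, hminus⟩ := exists_plus_minus_of_occ L (mapSys B L a) hocc
  have hNqp : (N * q) * p ≠ 0 := Nat.mul_ne_zero (NeZero.ne (N * q)) hpF.out.ne_zero
  -- the comparison of Frobenius characteristic polynomials
  have hfrob' : ∀ ℓ : ℕ, ℓ.Prime → ℓ ∉ S ∪ ((N * q) * p).primeFactors →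
      ∀ P : ValuationSubring Ω, P.LiesOverPrime ℓ → ∀ φ : GQ, P.IsFrobeniusAt φ ℓ →
        (LinearMap.charpoly (ρ.ρ φ)).map ψ =
          LinearMap.charpoly (((stageIData (N * q) p).rep B hpB a L hrank).ρ φ) := by
    intro ℓ hℓ hℓS P' hP' φ' hφ'
    rw [Finset.mem_union, not_or] at hℓS
    have hℓNp : ¬ ℓ ∣ (N * q) * p := fun hd =>
      hℓS.2 (Nat.mem_primeFactors.2 ⟨hℓ, hd, hNqp⟩)
    rw [hfrob ℓ hℓ hℓS.1 P' hP' φ' hφ']
    exact ((stageIData (N * q) p).rep_charpoly_frobenius B hpB a L hrank hplus hminus hℓ hℓNp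
      hP' hφ').symm
  -- the whole eigenlattice is killed
  have hall := forall_kill_of_exists N q hq hqN ρ B hpB ψ L a hrank hp2 habs
    (S ∪ ((N * q) * p).primeFactors) hfrob' (exists_integral_kill N q hq hqN B L a hkill)
  -- (KEY-FROB)
  obtain ⟨c, r, hr, H⟩ := keyFrobStatement_of_bases legFrobBase hesFrobBase N q p hq hpF.out hqp hqN
  have hpoly := rep_frobPoly_eq_zero_of_kill (stageIData (N * q) p) (stageIData N p).D
    (xferAlphaT N q (bez_eq hq hqN) hq) (xferBeta N q (bez_eq hq hqN) hq) B hpB a L hrank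
    (stageIData_kap_degPushAlpha (bez_eq hq hqN) hq) (stageIData_kap_degPushBeta (bez_eq hq hqN) hq)
    (fun R _ ψ hψ => xferAlphaT_mem_parabolicHoms N q (bez_eq hq hqN) hq R hψ)
    (fun R _ ψ hψ => xferBeta_mem_parabolicHoms N q (bez_eq hq hqN) hq R hψ)
    hall (H P hP φ hφ)
  -- the determinant
  have hdet : LinearMap.det (((stageIData (N * q) p).rep B hpB a L hrank).ρ φ) = (q : B) :=
    det_frobenius_eq_of_frobeniusQuadratic ((stageIData (N * q) p).rep B hpB a L hrank) p hpB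
      StageIData.mem_primeFactors_self
      ((stageIData (N * q) p).rep_frobeniusQuadraticOutside B hpB a L hrank)
      ((stageIData (N * q) p).rep_c0_not_isScalarEnd B hpB a L hrank hplus hminus)
      hq hqp hP hφ
  have hchar := charpoly_frobenius_of_frobPoly ((stageIData (N * q) p).rep B hpB a L hrank)
    hq.two_le hr hdet hpoly
  -- Chebotarev: the trace
  have hsep := Fermat.Agent.S58.cheb_separated_of_noetherian B
  have htr := (Fermat.Agent.S58.cheb_trace_det_eq ψ hsep ρ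
    ((stageIData (N * q) p).rep B hpB a L hrank) (S ∪ ((N * q) * p).primeFactors) hfrob' φ).1
  show ψ (LinearMap.trace T ρ.V (ρ.ρ φ)) ^ 2 = ((q : B) + 1) ^ 2
  rw [htr]
  rcases hchar with h1 | h1
  · rw [(trace_det_of_charpoly_eq ((stageIData (N * q) p).rep B hpB a L hrank).finrank_eq _
      ((q : B) + 1) (q : B) h1).1]
  · have h2 : (((stageIData (N * q) p).rep B hpB a L hrank).ρ φ).charpoly =
        X ^ 2 - C (-((q : B) + 1)) * X + C (q : B) := by
      rw [h1, map_neg]
      ring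
    rw [(trace_det_of_charpoly_eq ((stageIData (N * q) p).rep B hpB a L hrank).finrank_eq _
      (-((q : B) + 1)) (q : B) h2).1]
    ring

end Fermat.Agent.ML
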