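/-
PROJECT ML (S59) — [AT-P] Part B (helper4): **`AtPNewPointStatement` from `EsNewStatement`.**

At a point `ψ : T → B` of the Hecke ring of level `M p` whose eigenvalues away from `S` are those of
a full system `a` of level `M' p`, `M' ∣ M`, having a non-zero eigenvector killed by both degeneracy
traces: the whole eigenlattice is killed (helper5's `forall_kill_of_exists`), the lattice side
(`new_exists_functional_frob`) gives a non-zero inertia-invariant functional `Φ` with
`Φ ∘ (ρ'(σ) - 1)(ρ'(σ)² - 1) = 0`, and the common file (`point_relation`) turns this into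
`(ψ z - 1)(ψ z² - 1) = 0` in the domain `B`.
-/
import Mathlib
import Fermat.Agent.ML.ATPTOP_helper4_Point
import Fermat.Agent.ML.ATPTOP_helper4_NewLat
import Fermat.Agent.ML.STKILL_helper5_Main
import Fermat.Agent.NP.S33TOP_helper2_Main

set_option autoImplicit false
set_option linter.unusedSectionVars false
set_option linter.unusedVariables false
set_option linter.style.haveILetI false

open CongruenceSubgroup ModularCurve ModularCurve.Period Polynomial IsLocalRing

open scoped MatrixGroups

namespace Fermat.Agent.ML.AtPTop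

open Fermat.Agent.GR Fermat.Agent.X0N Fermat.Agent.JA Fermat.Agent.S35 Fermat.Agent.NP
  Fermat.Agent.LR

/-- `Ω = AlgebraicClosure ℚ`. -/
local notation "Ω" => AlgebraicClosure ℚ

/-- the absolute Galois group. -/
local notation "GQ" => (AlgebraicClosure ℚ ≃ₐ[ℚ] AlgebraicClosure ℚ)

/-- **(AT-P1), new points, from (ES-NEW).** -/
theorem atPNewPointStatement (hEsNew : EsNewStatement) : AtPNewPointStatement := by
  intro p S 𝒪 _ _ _ _ _ _ T _ _ _ _ _ _ _ _ M _ _ hp hp2 hpM hp𝒪 θ hNS H hres P hP σ hσ z hz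
    B _ _ _ _ _ _ ψ _ L _ _ _ M' _ _ hM' hpM' a ha hkill
  haveI hpf : Fact p.Prime := ⟨hp⟩
  haveI : NeZero p := ⟨hp.ne_zero⟩
  have hpS : p ∈ S := hNS p hp (Dvd.intro_left M rfl)
  have hpT : (p : T) ∈ maximalIdeal T := natCast_mem_maximalIdeal_of_algebra hp𝒪
  have hpB : (p : B) ∈ maximalIdeal B := by
    have := map_nonunit ψ _ hpT
    rwa [map_natCast] at this
  letI : Algebra ℤ_[p] B := (padicToComplete p (maximalIdeal B) hpB).toAlgebra
  haveI : Module.Flat ℤ_[p] B := flat_padic_of_charZero B
  haveI : CharZero L := charZero_of_injective_algebraMap (IsFractionRing.injective B L)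
  have hocc : eigenPar (M' * p) L (mapSys B L a) ≠ ⊥ := by
    obtain ⟨v, hv, hv0, -, -⟩ := hkill
    intro hbot
    rw [hbot, Submodule.mem_bot] at hv
    exact hv0 hv
  obtain ⟨_, _, hrank⟩ := mult1_field hocc
  obtain ⟨hplus, hminus⟩ := exists_plus_minus_of_occ L (mapSys B L a) hocc
  have h2 : IsUnit (2 : B) := stkill_isUnit_two hp hp2 hpB
  -- the comparison of Frobenius characteristic polynomials
  have hfrob : ∀ ℓ : ℕ, ℓ.Prime → ℓ ∉ S → ∀ P : ValuationSubring Ω, P.LiesOverPrime ℓ →
      ∀ φ : GQ, P.IsFrobeniusAt φ ℓ →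
        (LinearMap.charpoly (H.ρ.ρ φ)).map ψ =
          LinearMap.charpoly (((stageIData (M' * p) p).rep B hpB a L hrank).ρ φ) := by
    intro ℓ hℓ hℓS P hP φ hφ
    have hℓN : ¬ ℓ ∣ M * p := fun h => hℓS (hNS ℓ hℓ h)
    have hℓS' : ℓ ∉ (↑S : Set ℕ) := by simpa using hℓS
    have hℓp : ℓ ≠ p := fun h => hℓS (by rw [h]; exact hpS)
    have hℓN' : ¬ ℓ ∣ M' * p := fun h => hℓN (dvd_trans h (Nat.mul_dvd_mul_right hM' p))
    have hℓNp : ¬ ℓ ∣ M' * p * p := by
      intro h
      rcases (Nat.Prime.dvd_mul hℓ).1 h with h | h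
      · exact hℓN' h
      · exact hℓp ((Nat.prime_dvd_prime_iff_eq hℓ hp).1 h)
    rw [H.charpoly_frob ℓ hℓ hℓN hℓS' P hP φ hφ,
      (stageIData (M' * p) p).rep_charpoly_frobenius B hpB a L hrank hplus hminus hℓ hℓNp hP hφ,
      ha ℓ hℓ hℓN hℓS']
    simp only [Polynomial.map_add, Polynomial.map_sub, Polynomial.map_mul, Polynomial.map_pow,
      Polynomial.map_X, Polynomial.map_C, map_natCast, Polynomial.map_natCast]
  -- the whole eigenlattice is killed by both transfers
  have hall := forall_kill_of_exists M' p hp hpM' H.ρ B hpB ψ L a hrank hp2 H.residual_absIrr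
    S hfrob (exists_integral_kill M' p hp hpM' B L a hkill)
  -- the lattice side
  obtain ⟨Φ, hΦ, hne, hrel⟩ := new_exists_functional_frob (bez_eq hp hpM') B hpB a L hrank hp2
    hplus hminus hall hP (hEsNew M' p hp hp2 hpM' P hP) hσ
  -- the relation at the point
  have hdet : H.ρ.DetIsCyclotomic p := heckeDatum_detIsCyclotomic hp hp𝒪 hNS H
  have hpt := point_relation H.ρ ψ ((stageIData (M' * p) p).rep B hpB a L hrank) hp hp2 hdet hP hz
    H.residual_absIrr h2 S hfrob Φ hΦ hne ((X - 1) * (X * X - 1)) (by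
      intro w
      have h3 : Polynomial.aeval (((stageIData (M' * p) p).rep B hpB a L hrank).ρ σ)
          ((X - 1) * (X * X - 1) : Polynomial B) =
          ((((stageIData (M' * p) p).rep B hpB a L hrank).ρ σ - 1) *
            ((((stageIData (M' * p) p).rep B hpB a L hrank).ρ σ) *
              (((stageIData (M' * p) p).rep B hpB a L hrank).ρ σ) - 1)) := by
        rw [map_mul, map_sub, map_sub, map_mul, Polynomial.aeval_X, map_one]
      rw [h3, Module.End.mul_apply]
      exact hrel w)
  rw [Polynomial.eval_mul, Polynomial.eval_sub, Polynomial.eval_sub, Polynomial.eval_mul,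
    Polynomial.eval_X, Polynomial.eval_one] at hpt
  rcases mul_eq_zero.1 hpt with h4 | h4
  · rw [sub_eq_zero] at h4
    rw [h4, one_pow]
  · rw [sub_eq_zero] at h4
    rw [pow_two]
    exact h4

end Fermat.Agent.ML.AtPTop
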