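/-
PROJECT ML (S59) — [AT-P] Part B, TOP (helper4 + helper1): **`atPTopStatement : AtPTopStatement`**,
i.e. `EsNewStatement → EsOldStatement → AtPNewPointStatement ∧ AtPOldPointStatement`
(literal of `ML/IFACE_helper2_AtP.lean`).
* new points: `AtPTop.atPNewPointStatement` (helper4, `ML/ATPTOP_helper4_New.lean`);
* old points: `ATPO.atPOldPointStatement_of` (helper1, `ML/ATPTOP_helper1_Old.lean`).
-/
import Mathlib
import Fermat.Agent.ML.ATPTOP_helper4_New
import Fermat.Agent.ML.ATPTOP_helper1_Old

set_option autoImplicit false

namespace Fermat.Agent.ML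

/-- **the top of [AT-P]**: the two point statements from the two geometric statements. -/
theorem atPTopStatement : AtPTopStatement :=
  fun hn ho => ⟨AtPTop.atPNewPointStatement hn, ATPO.atPOldPointStatement_of ho⟩

end Fermat.Agent.ML
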