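/-
PROJECT ML (S59) — [AT-P], FINAL (helper4): the two point statements of `ML/IFACE_helper2_AtP.lean`,
UNCONDITIONALLY: Part A (helper5: `esNewStatement`, `esOldStatement`) + Part B
(`atPTopStatement`, helper4 + helper1).
-/
import Mathlib
import Fermat.Agent.ML.ATPTOP_helper4_Top
import Fermat.Agent.ML.ATPB_helper5_NewDesc
import Fermat.Agent.ML.ATPB_helper5_OldDesc

set_option autoImplicit false
set_option linter.overlappingInstances false

namespace Fermat.Agent.ML

/-- **(AT-P1), new points.** -/
theorem atPNewPointStatement : AtPNewPointStatement :=
  AtPTop.atPNewPointStatement esNewStatement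

/-- **(AT-P1), both point statements.** -/
theorem atPPointStatements : AtPNewPointStatement ∧ AtPOldPointStatement :=
  atPTopStatement esNewStatement esOldStatement

end Fermat.Agent.ML
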