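/-
PROJECT ML (S59) — package [TWMOD-LX], mode `peuNew` (owner helper2) — **INTERFACE: the module side
of the Taylor–Wiles construction for Ihara avoidance when the system does NOT occur at level
`N / p`** (groundwork for `IAPeuAdapterStatement`, `ML/IFACE_helper9_IA`).

Situation: `N = M₀ p` squarefree (so `p ∤ M₀`), and the module of level zero at level `M₀`
vanishes: `lvlModP 𝒪 P M₀ c = ⊥` (`P` contains no condition at `p`).  Then for every set `Q` of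
Taylor–Wiles primes the primary part of `H¹(Γ₀(M₀ ∏ Q), 𝒪[Δ])` vanishes (control + Nakayama over
the local ring `𝒪[Δ]`), so both degeneracy traces `α_*, β_* : level N ∏ Q → level M₀ ∏ Q` kill the
two sides of `TWModXStatement`, and [TWPUSH] + `KillSys` give at EVERY point of the Hecke algebra
of each side a full system of level `Nb₀ p` (`Nb₀ = (M₀ / ∏ Sig) (∏ Sig ∏ Q)²`, `Nbig = Nb₀ p`)
with a non-zero eigenvector killed by `pushA`, `pushB` — the input `hkill` of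
`AtPNewPointStatement` (`ML/IFACE_helper2_AtP`).

`TWModXPeuStatement` is `TWModXStatement` with these extra hypotheses and the extra conclusion
`KillAt` for both sides.
-/
import Mathlib
import Fermat.Agent.ML.IFACE_helper2_TWModX

set_option autoImplicit false
set_option linter.unusedSectionVars false
set_option linter.unusedVariables false

open Polynomial IsLocalRing CongruenceSubgroup ModularCurve.Period

namespace Fermat.Agent.ML

open Fermat.Agent.GR Fermat.Agent.LR Fermat.Agent.RB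

section

variable {𝒪 : Type} [CommRing 𝒪] [IsDomain 𝒪] [IsDiscreteValuationRing 𝒪]

/-- **every point of the Hecke algebra of the side `X` is `q`-new at level `Nb₀ q`, "kill" form**:
the system of the point extends (over a finite extension) to a full system of level `Nb₀ q` with a
non-zero eigenvector killed by both degeneracy traces to level `Nb₀`. -/
def KillAt {p r d n : ℕ} (X : TWModSide 𝒪 p r d n) (Sbig : Set ℕ) (Nb₀ q : ℕ) [NeZero Nb₀]
    [NeZero (Nb₀ * q)] (hq : q.Prime) (hqN : ¬ q ∣ Nb₀) : Prop :=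
  ∀ (B : Type) [CommRing B] [IsDomain B] [IsDiscreteValuationRing B] [Algebra 𝒪 B]
    [Module.Finite 𝒪 B] (x : X.alg →ₐ[𝒪] B),
    ∃ (B' : Type) (_ : CommRing B') (_ : IsDomain B') (_ : IsDiscreteValuationRing B')
      (_ : Algebra B B') (_ : Module.Finite B B') (_ : Function.Injective (algebraMap B B'))
      (L' : Type) (_ : Field L') (_ : Algebra B' L') (_ : IsFractionRing B' L')
      (a' : Nat.Primes → B'),
      (∀ (ℓ : Nat.Primes), (ℓ : ℕ) ∉ Sbig → a' ℓ = algebraMap B B' (x (X.TtA ℓ))) ∧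
      ∃ v ∈ eigenPar (Nb₀ * q) L' (mapSys B' L' a'), v ≠ 0 ∧
        pushA Nb₀ q hq hqN L' v = 0 ∧ pushB Nb₀ q hq hqN L' v = 0

/-- **[TWMOD-LX], mode `peuNew`** (owner helper2): `TWModXStatement` for `N = M₀ p` when the module
of level zero at level `M₀` vanishes; in addition every point of both sides is `p`-new in "kill"
form at level `Nbig = Nb₀ p`. -/
def TWModXPeuStatement : Prop :=
  ∀ {𝒪 : Type} [CommRing 𝒪] [IsDomain 𝒪] [IsDiscreteValuationRing 𝒪]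
    [IsAdicComplete (maximalIdeal 𝒪) 𝒪] [Finite (ResidueField 𝒪)] [CharZero 𝒪]
    (p : ℕ) [Fact p.Prime] (_ : p ≠ 2) (_ : (p : 𝒪) ∈ maximalIdeal 𝒪)
    (ζ : 𝒪) (_ : IsPrimitiveRoot ζ p) (lam : 𝒪) (_ : Irreducible lam)
    (N : ℕ) [NeZero N] (_ : Squarefree N)
    (P : Set Nat.Primes) (_ : primesOutside (badSet p N) ⊆ P)
    -- no condition at `p`
    (_ : ∀ ℓ ∈ P, ((ℓ : Nat.Primes) : ℕ) ≠ p)
    (c : Nat.Primes → 𝒪)
    -- non-Eisenstein
    (_ : ∀ (D : ℕ), 0 < D → ∀ Bad : Finset ℕ, ∃ ℓ : Nat.Primes,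
      (ℓ : ℕ) ∉ badSet p N ∧ (ℓ : ℕ) ∉ Bad ∧ (ℓ : ℕ) ≡ 1 [MOD D] ∧
        c ℓ - ((ℓ : ℕ) + 1 : 𝒪) ∉ maximalIdeal 𝒪)
    -- (W2′)
    (_ : p = 3 → ∃ r₀ : ℕ, r₀.Prime ∧ r₀ ∣ N ∧ r₀ % 3 = 2)
    (Sig : Finset ℕ) (_ : ∀ v ∈ Sig, v.Prime ∧ v ∣ N ∧ v ≡ 1 [MOD p])
    -- the level `N / p`
    (M₀ : ℕ) [NeZero M₀] (_ : N = M₀ * p) (_ : M₀ ≠ 1)
    -- the system does not occur at level `M₀`
    (_ : ∀ x ∈ lvlModP 𝒪 P M₀ c, x = 0),
    ∃ d : ℕ,
      (Module.Free 𝒪 ↥(lvlModP 𝒪 P N c) ∧ Module.Finite 𝒪 ↥(lvlModP 𝒪 P N c) ∧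
        Module.finrank 𝒪 ↥(lvlModP 𝒪 P N c) = d) ∧
      ∀ (r n : ℕ) (Q : Fin r → ℕ), Function.Injective Q → (∀ k, (Q k).Prime) →
        (∀ k, Q k ∉ badSet p N) → (∀ k, p ^ n ∣ Q k - 1) → (∀ k, p ∣ Q k - 1) →
        (∀ k (hq : (Q k).Prime), ∃ α β : ResidueField 𝒪, α ≠ β ∧
          α + β = residue 𝒪 (c ⟨Q k, hq⟩) ∧ α * β = (Q k : ResidueField 𝒪)) →
        ∀ (Nt Nbig Nb₀ : ℕ) [NeZero Nt] [NeZero Nbig] [NeZero Nb₀] [NeZero (Nb₀ * p)],
          Nt = N * ∏ k, Q k →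
          Nbig = N / (∏ v ∈ Sig, v) * ((∏ v ∈ Sig, v) * ∏ k, Q k) ^ 2 →
          Nb₀ = M₀ / (∏ v ∈ Sig, v) * ((∏ v ∈ Sig, v) * ∏ k, Q k) ^ 2 →
          ∀ hpNb₀ : ¬ p ∣ Nb₀,
          ∃ L : TWModLevelX p lam ζ c P Sig r d n Q N Nt Nbig,
            KillAt L.side₁ (badSet p N ∪ Set.range Q) Nb₀ p Fact.out hpNb₀ ∧
            KillAt L.side₂ (badSet p N ∪ Set.range Q) Nb₀ p Fact.out hpNb₀

end

end Fermat.Agent.ML
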