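/-
PROJECT ML (S59) — [IA-PEU] (helper1), part (P3): **strictness at `p` from `KillAt`.**

Situation of the mode `peuNew`: `N = M₀ p`, `Nbig = Nb₀ p` with `p ∤ Nb₀`, and every point of the
Hecke algebra of a side `Y` of the module data is `p`-new in "kill" form (helper2's `KillAt`,
`ML/IFACE_helper2_TWModXPeu`).  Then the representation of the level (Layer B + helper9's
`REPTL.levelRepOf`) is STRICTLY ordinary at `p`: the scalar `z` of a Frobenius lift on the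
unramified quotient of the big Hecke ring satisfies `ψ (f z) ^ 2 = 1` at every
discrete-valuation-ring point `ψ` of `heckeAlg Y Sr` (helper4's `atPNewPointStatement` through
`REPTL.new_point_relation`), `heckeAlg Y Sr` is reduced and torsion-free, hence `(f z) ^ 2 = 1`, and
`REPTL.isStrictOrdinaryAt_of_frobenius_scalar_sq` applies.
-/
import Mathlib
import Fermat.Agent.ML.REPTX_helper1_Main
import Fermat.Agent.ML.REPTL_helper9_AtPTop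
import Fermat.Agent.ML.REPTL_helper9_LevelOf
import Fermat.Agent.ML.ATPTOP_helper4_Final
import Fermat.Agent.ML.IFACE_helper2_TWModXPeu

set_option autoImplicit false
set_option linter.unusedSectionVars false
set_option linter.unusedVariables false
set_option linter.style.haveILetI false

namespace Fermat.Agent.ML.REPTX

open Polynomial IsLocalRing CuspForm CongruenceSubgroup ModularCurve.Period
  Fermat.Agent.GR Fermat.Agent.LR Fermat.Agent.RB Fermat.Agent.RB.REPT Fermat.Agent.ML.REPTLB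

local notation "Ω" => AlgebraicClosure ℚ
local notation "GQ" => (AlgebraicClosure ℚ ≃ₐ[ℚ] AlgebraicClosure ℚ)

/-! ### the numerics of `N = M₀ p` -/

namespace NumSetup

variable {N p : ℕ} {S Sig : Finset ℕ} {r : ℕ} {Q : Fin r → ℕ} (h : NumSetup N p S Sig Q)

include h

theorem not_p_dvd_prodSig : ¬ p ∣ ∏ v ∈ Sig, v := fun hd =>
  h.p_notMem_Sig (h.mem_Sig_of_dvd_prodSig h.pprime hd)

theorem not_p_dvd_prodQ : ¬ p ∣ ∏ j, Q j := fun hd => by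
  obtain ⟨j, hj⟩ := h.exists_eq_Q_of_dvd_prodQ h.pprime hd
  exact h.Q_ne_p j hj.symm

theorem not_p_dvd_of_eq {M₀ : ℕ} (hN : N = M₀ * p) : ¬ p ∣ M₀ := fun hd => by
  have h2 : p * p ∣ N := by
    rw [hN]
    exact Nat.mul_dvd_mul hd dvd_rfl
  have := h.sqN p h2
  exact h.pprime.one_lt.ne' (Nat.isUnit_iff.1 this)

theorem prodSig_dvd_of_eq {M₀ : ℕ} (hN : N = M₀ * p) : ∏ v ∈ Sig, v ∣ M₀ := by
  have h1 : ∏ v ∈ Sig, v ∣ M₀ * p := hN ▸ h.prodSig_dvd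
  have hcop : Nat.Coprime (∏ v ∈ Sig, v) p :=
    (Nat.Coprime.symm ((Nat.Prime.coprime_iff_not_dvd h.pprime).2 h.not_p_dvd_prodSig))
  exact hcop.dvd_of_dvd_mul_right h1

/-- `Nbig = Nb₀ * p`. -/
theorem Nbig_eq_of_eq {M₀ : ℕ} (hN : N = M₀ * p) :
    N / (∏ v ∈ Sig, v) * ((∏ v ∈ Sig, v) * ∏ j, Q j) ^ 2 =
      M₀ / (∏ v ∈ Sig, v) * ((∏ v ∈ Sig, v) * ∏ j, Q j) ^ 2 * p := by
  obtain ⟨c, hc⟩ := h.prodSig_dvd_of_eq hN
  have h1 : M₀ / (∏ v ∈ Sig, v) = c := by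
    rw [hc, Nat.mul_div_cancel_left _ h.prodSig_pos]
  have h2 : N / (∏ v ∈ Sig, v) = c * p := by
    rw [hN, hc, mul_assoc, Nat.mul_div_cancel_left _ h.prodSig_pos]
  rw [h1, h2]
  ring

/-- `p ∤ Nb₀`. -/
theorem not_p_dvd_Nb₀ {M₀ : ℕ} (hN : N = M₀ * p) :
    ¬ p ∣ M₀ / (∏ v ∈ Sig, v) * ((∏ v ∈ Sig, v) * ∏ j, Q j) ^ 2 := by
  intro hd
  rcases (Nat.Prime.dvd_mul h.pprime).1 hd with h1 | h1
  · exact h.not_p_dvd_of_eq hN (h1.trans (Nat.div_dvd_of_dvd (h.prodSig_dvd_of_eq hN)))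
  · rcases (Nat.Prime.dvd_mul h.pprime).1 (h.pprime.dvd_of_dvd_pow h1) with h2 | h2
    · exact h.not_p_dvd_prodSig h2
    · exact h.not_p_dvd_prodQ h2

theorem Nb₀_pos {M₀ : ℕ} (hN : N = M₀ * p) :
    0 < M₀ / (∏ v ∈ Sig, v) * ((∏ v ∈ Sig, v) * ∏ j, Q j) ^ 2 := by
  have h1 := h.Nbig_pos
  rw [h.Nbig_eq_of_eq hN] at h1
  exact Nat.pos_of_mul_pos_right h1

end NumSetup

section Strict

variable {𝒪 : Type} [CommRing 𝒪] [IsDomain 𝒪] [IsDiscreteValuationRing 𝒪]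
  [IsAdicComplete (maximalIdeal 𝒪) 𝒪] [Finite (ResidueField 𝒪)] [CharZero 𝒪]
  {N : ℕ} [NeZero N] {S : Finset ℕ} {p : ℕ} [Fact p.Prime]
  {Sig : Finset ℕ} {lam : 𝒪} {r d : ℕ} {n : ℕ} {Q : Fin r → ℕ} {c : Nat.Primes → 𝒪}

set_option maxHeartbeats 1600000 in
/-- **the representation of one side in the mode `peuNew` is strictly ordinary at `p`.** -/
theorem exists_levelRep_strict_of_killAt (hp2 : p ≠ 2) (hp𝒪 : (p : 𝒪) ∈ maximalIdeal 𝒪)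
    (hlam : Irreducible lam) (hnum : NumSetup N p S Sig Q) (hd : 0 < d)
    (ρbar : ResidualGaloisRep (ResidueField 𝒪))
    (habs : ρbar.IsAbsolutelyIrreducible)
    (hbardet : LinearMap.det (ρbar.ρ complexConjugation) = -1)
    (hbarchar' : ∀ (ℓ : Nat.Primes), (ℓ : ℕ) ∉ S ∪ Finset.univ.image Q →
      ∀ A' : ValuationSubring Ω, A'.LiesOverPrime ℓ → ∀ σ : GQ, A'.IsFrobeniusAt σ ℓ →
        LinearMap.charpoly (ρbar.ρ σ) =
          X ^ 2 - C (residue 𝒪 (c ℓ)) * X + C (((ℓ : ℕ) : ResidueField 𝒪)))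
    (hbarunr : ∀ q : ℕ, q.Prime → q ∉ S → ρbar.IsUnramifiedAt q)
    (hord : (GaloisRepAdic.ofResidualGaloisRep ρbar).IsOrdinaryAt p)
    {M₀ : ℕ} (hN : N = M₀ * p)
    [NeZero (N * ∏ j, Q j)]
    [NeZero (N / (∏ v ∈ Sig, v) * ((∏ v ∈ Sig, v) * ∏ j, Q j) ^ 2)]
    (hTh : ThetaKillsJ1Odd (N * ∏ j, Q j) p)
    (Y : TWModSide 𝒪 p r d n) {z : 𝒪} {uQ : Fin r → (ZMod (N * ∏ j, Q j))ˣ}
    {uS : ℕ → (ZMod (N * ∏ j, Q j))ˣ}
    (O : OccX Y lam z c Sig (N * ∏ j, Q j)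
      (N / (∏ v ∈ Sig, v) * ((∏ v ∈ Sig, v) * ∏ j, Q j) ^ 2)
      (↑(S ∪ Finset.univ.image Q) : Set ℕ) uQ uS)
    (huQ : ∀ q, ((((uQ q : (ZMod (N * ∏ j, Q j))ˣ) : ZMod (N * ∏ j, Q j)).val : ℕ) :
      ZMod (N * (∏ j, Q j) / Q q)) = 1)
    (Nb₀ : ℕ) [NeZero Nb₀] [NeZero (Nb₀ * p)]
    (hNb₀ : Nb₀ = M₀ / (∏ v ∈ Sig, v) * ((∏ v ∈ Sig, v) * ∏ j, Q j) ^ 2)
    (hpNb₀ : ¬ p ∣ Nb₀)
    (hkill : KillAt Y (↑(S ∪ Finset.univ.image Q) : Set ℕ) Nb₀ p Fact.out hpNb₀) :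
    ∃ R : REPTL.LevelRep Y ρbar (S ∪ Finset.univ.image Q) (S ∪ Finset.univ.image Q)
        (N / (∏ v ∈ Sig, v)) Q,
      @GaloisRepAdic.IsStrictOrdinaryAt (heckeAlg Y (S ∪ Finset.univ.image Q)) _
        R.isLocalRingA R.ρ p := by
  classical
  have hp : p.Prime := Fact.out
  have hpN : p ∣ N := hN ▸ dvd_mul_left p M₀
  have hpNlev : p ∣ N / (∏ v ∈ Sig, v) ↔ p ∣ N := hnum.p_dvd_Nlev_iff
  have hNb : N / (∏ v ∈ Sig, v) * ((∏ v ∈ Sig, v) * ∏ j, Q j) ^ 2 = Nb₀ * p := by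
    rw [hNb₀]; exact hnum.Nbig_eq_of_eq hN
  obtain ⟨LG, hplusa, hplusb, -⟩ := exists_levelGalois_plus Y hp2 hp𝒪 hlam ρbar habs hbardet hd
    (Finset.Subset.refl _) O.toOccL hnum.p_mem_sbig
    (fun q hq hqd => hnum.mem_sbig_of_dvd_Nbig hq hqd)
    (fun q hq hqd => hnum.mem_sbig_of_dvd_Nt hq hqd) hbarchar' Q hnum.Qprime hnum.Q_dvd_Nt
    (fun q => hnum.not_sq_dvd_Nt (hnum.Qprime q)) hnum.Q_ne_p hnum.Q_ne_two hnum.five_le_Nt
    hnum.five_le_Nt_div_Q huQ hTh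
  have hNS : ∀ q : ℕ, q.Prime →
      q ∣ N / (∏ v ∈ Sig, v) * ((∏ v ∈ Sig, v) * ∏ j, Q j) ^ 2 →
      q ∈ S ∪ Finset.univ.image Q := fun q hq hqd => hnum.mem_sbig_of_dvd_Nbig hq hqd
  have hNlev : ∀ q : ℕ, q.Prime → q ∣ N / (∏ v ∈ Sig, v) →
      q ∣ N / (∏ v ∈ Sig, v) * ((∏ v ∈ Sig, v) * ∏ j, Q j) ^ 2 ∧
      ¬ q ^ 2 ∣ N / (∏ v ∈ Sig, v) * ((∏ v ∈ Sig, v) * ∏ j, Q j) ^ 2 := fun q hq hqd =>
    hnum.exactly_dvd_Nbig_of_dvd hq (hnum.of_dvd_Nlev hq hqd).1 (hnum.of_dvd_Nlev hq hqd).2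
  have hpNl : ¬ p ∣ N / (∏ v ∈ Sig, v) →
      ¬ p ∣ N / (∏ v ∈ Sig, v) * ((∏ v ∈ Sig, v) * ∏ j, Q j) ^ 2 :=
    fun h1 h2 => h1 (hpNlev.2 (hnum.p_dvd_Nbig_iff.1 h2))
  have hunrbar : ∀ q : ℕ, q.Prime → q ∉ S ∪ Finset.univ.image Q → ρbar.IsUnramifiedAt q :=
    fun q hq hqS => hbarunr q hq (fun h => hqS (Finset.mem_union_left _ h))
  have hordL : LG.datum.ρ.IsOrdinaryAt p :=
    Fermat.Agent.S33.result hp hp2 hp𝒪 (hNlev p hp (hpNlev.2 hpN)) hNS LG.datum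
      (REPTL.isOrdinaryAt_ofResidual_of_isEquiv _ ρbar _ LG.residual_isEquiv hord)
  refine ⟨REPTL.levelRepOf hp hp2 hp𝒪 LG (S ∪ Finset.univ.image Q) (Finset.Subset.refl _)
    (N / (∏ v ∈ Sig, v)) hnum.p_mem_sbig hNS hplusa hplusb hunrbar hNlev hpNl (fun _ => hord), ?_⟩
  haveI := LG.isLocalRingA
  haveI := LG.isLocalHomA
  haveI : Module.Finite 𝒪 (heckeAlg Y (S ∪ Finset.univ.image Q)) := finite_heckeAlg Y _
  haveI : IsNoetherianRing (heckeAlg Y (S ∪ Finset.univ.image Q)) :=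
    IsNoetherianRing.of_finite 𝒪 _
  haveI : IsAdicComplete (maximalIdeal (heckeAlg Y (S ∪ Finset.univ.image Q)))
      (heckeAlg Y (S ∪ Finset.univ.image Q)) :=
    IsLocalRing.isAdicComplete_of_module_finite (𝒪 := 𝒪)
  refine REPTL.isStrictOrdinaryAt_of_frobenius_scalar_sq _ hp
    (REPTL.levelRepOf hp hp2 hp𝒪 LG (S ∪ Finset.univ.image Q) (Finset.Subset.refl _)
      (N / (∏ v ∈ Sig, v)) hnum.p_mem_sbig hNS hplusa hplusb hunrbar hNlev hpNl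
      (fun _ => hord)).det ?_
  intro P hP
  obtain ⟨φ, hφ⟩ := REPTL.exists_frobenius_at hp hP
  obtain ⟨zb, hzb⟩ := REPTL.exists_ordQuotScalar LG.datum.ρ hordL hP hφ.mem_decompositionSubgroup
  refine ⟨φ, LG.f zb, hφ, REPTL.levelRepOf_ordQuotScalar hp hp2 hp𝒪 LG _ (Finset.Subset.refl _)
    (N / (∏ v ∈ Sig, v)) hnum.p_mem_sbig hNS hplusa hplusb hunrbar hNlev hpNl (fun _ => hord) hzb,
    ?_⟩
  -- `(f z) ^ 2 = 1` at all points
  apply heckeIncl_injective Y (S ∪ Finset.univ.image Q)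
  refine eq_of_forall_pointL Y O.toOccL fun x => ?_
  obtain ⟨B', iCR, iDom, iDVR, iAlg, iFin, hinj, L', iF, iAlgL, iFrac, a', ha', v, hv, hv0, hvA,
    hvB⟩ := hkill x.B x.ψ
  letI := iCR
  letI := iDom
  letI := iDVR
  letI := iAlg
  letI := iFin
  letI := iF
  letI := iAlgL
  letI := iFrac
  haveI : CharZero B' := charZero_of_injective_algebraMap hinj
  haveI : FaithfulSMul x.B B' := (faithfulSMul_iff_algebraMap_injective x.B B').mpr hinj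
  haveI : Algebra.IsIntegral x.B B' := Algebra.IsIntegral.of_finite x.B B'
  haveI : IsLocalHom (algebraMap x.B B') := Algebra.IsIntegral.isLocalHom x.B B'
  haveI : IsAdicComplete (maximalIdeal B') B' :=
    IsLocalRing.isAdicComplete_of_module_finite (𝒪 := x.B)
  haveI : Finite (ResidueField B') :=
    IsLocalRing.ResidueField.finite_of_finite (R := x.B) (S := B') inferInstance
  obtain ⟨ψ₀, hψ₀⟩ : ∃ ψ₀ : heckeAlg Y (S ∪ Finset.univ.image Q) →ₐ[𝒪] x.B,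
      ψ₀ = x.ψ.comp (heckeIncl Y (S ∪ Finset.univ.image Q)) := ⟨_, rfl⟩
  obtain ⟨ψ, hψ⟩ : ∃ ψ : heckeAlg Y (S ∪ Finset.univ.image Q) →+* B',
      ψ = (algebraMap x.B B').comp (ψ₀ : heckeAlg Y (S ∪ Finset.univ.image Q) →+* x.B) :=
    ⟨_, rfl⟩
  have hψloc : IsLocalHom (ψ.comp (LG.f : LG.Tb →+* heckeAlg Y (S ∪ Finset.univ.image Q))) := by
    have h1 : IsLocalHom ((ψ₀.comp LG.f : LG.Tb →ₐ[𝒪] x.B) : LG.Tb →+* x.B) :=
      isLocalHom_of_finite _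
    have h2 : ψ.comp (LG.f : LG.Tb →+* heckeAlg Y (S ∪ Finset.univ.image Q)) =
        (algebraMap x.B B').comp ((ψ₀.comp LG.f : LG.Tb →ₐ[𝒪] x.B) : LG.Tb →+* x.B) := by
      rw [hψ]; rfl
    rw [h2]
    exact RingHom.isLocalHom_comp _ _
  have hψapp : ∀ t : heckeAlg Y (S ∪ Finset.univ.image Q), ψ t = algebraMap x.B B'
      (x.ψ (heckeIncl Y (S ∪ Finset.univ.image Q) t)) := by
    intro t
    rw [hψ, hψ₀]; rfl
  have hrel := REPTL.new_point_relation atPNewPointStatement hp hp2 hp𝒪 LG hNb hpNb₀ hNS hord hP φ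
    hφ zb hzb B' ψ hψloc L' Nb₀ dvd_rfl hp rfl hpNb₀ a'
    (fun ℓ hℓ hℓS => by
      rw [ha' ⟨ℓ, hℓ⟩ (fun h => hℓS (Finset.mem_coe.1 h)), hψapp]
      rfl) ⟨v, hv, hv0, hvA, hvB⟩
  rw [hψapp] at hrel
  apply hinj
  rw [map_pow, map_pow, map_pow, map_one, map_one, map_one]
  exact hrel

end Strict

end Fermat.Agent.ML.REPTX
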