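/-
PROJECT ML (S59) — [TWMOD-L] (helper2), part 17: **an eigenvector, inside a stable submodule, for a
conjugate of a character which factors through the action on that submodule** (variant of
`RB.OCC.exists_eigen_character`: the algebra `R` need not act faithfully on `H`; the character `x`
kills every element of `R` which acts as zero on the `R`-stable submodule `K ⊆ H`; the eigenvector
lies in the `F`-span of `ι(K)`).
-/
import Mathlib
import Fermat.Agent.RB.OCC_helper1_Eigen

set_option autoImplicit false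
set_option linter.unusedSectionVars false
set_option linter.unusedVariables false
set_option linter.style.haveILetI false

open TensorProduct

namespace Fermat.Agent.ML

open Fermat.Agent.RB.OCC

section EigenSub

variable {𝒪 F : Type*} [CommRing 𝒪] [IsDomain 𝒪] [IsBezout 𝒪] [IsNoetherianRing 𝒪] [Field F]
  [IsAlgClosed F] [Algebra 𝒪 F]
  {G : Type*} [Group G] [Group.FG G] {H : Type*} [AddCommGroup H] [Module 𝒪 H]
  [Module.Finite 𝒪 H]
  {R : Type*} [CommRing R] [Algebra 𝒪 R] [Algebra.IsIntegral 𝒪 R]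

/-- the action of `R` on a stable submodule. -/
def resAlgHom (φ : R →ₐ[𝒪] Module.End 𝒪 H) (K : Submodule 𝒪 H)
    (hK : ∀ (t : R), ∀ h ∈ K, φ t h ∈ K) : R →ₐ[𝒪] Module.End 𝒪 K where
  toFun t := (φ t).restrict (hK t)
  map_one' := by
    apply LinearMap.ext
    intro h
    apply Subtype.ext
    rw [LinearMap.restrict_coe_apply, map_one]
    rfl
  map_mul' s t := by
    apply LinearMap.ext
    intro h
    apply Subtype.ext
    rw [LinearMap.restrict_coe_apply, map_mul]
    rfl
  map_zero' := by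
    apply LinearMap.ext
    intro h
    apply Subtype.ext
    rw [LinearMap.restrict_coe_apply, map_zero]
    rfl
  map_add' s t := by
    apply LinearMap.ext
    intro h
    apply Subtype.ext
    rw [LinearMap.restrict_coe_apply, map_add]
    rfl
  commutes' c := by
    apply LinearMap.ext
    intro h
    apply Subtype.ext
    rw [LinearMap.restrict_coe_apply, AlgHom.commutes, Module.algebraMap_end_apply,
      Module.algebraMap_end_apply]
    rfl

@[simp] theorem coe_resAlgHom_apply (φ : R →ₐ[𝒪] Module.End 𝒪 H) (K : Submodule 𝒪 H)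
    (hK : ∀ (t : R), ∀ h ∈ K, φ t h ∈ K) (t : R) (h : K) :
    ((resAlgHom φ K hK t h : K) : H) = φ t (h : H) := rfl

/-- **an eigenvector in a stable submodule for a conjugate of a given character.** -/
theorem exists_eigen_character_sub (hinj : Function.Injective (algebraMap 𝒪 F))
    (ι : H →ₗ[𝒪] (Additive G →+ 𝒪)) (hι : Function.Injective ι)
    (φ : R →ₐ[𝒪] Module.End 𝒪 H) (K : Submodule 𝒪 H) (hK : ∀ (t : R), ∀ h ∈ K, φ t h ∈ K)
    (x : R →+* F) (hx : ∀ c : 𝒪, x (algebraMap 𝒪 R c) = algebraMap 𝒪 F c)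
    (hxK : ∀ t : R, (∀ h ∈ K, φ t h = 0) → x t = 0) :
    ∃ (χ : R →+* F) (Φ : Additive G →+ F), Φ ≠ 0 ∧ RingHom.ker χ = RingHom.ker x ∧
      (∀ c : 𝒪, χ (algebraMap 𝒪 R c) = algebraMap 𝒪 F c) ∧
      Φ ∈ Submodule.span F (Set.range fun h : K => coeffMap 𝒪 F G (ι (h : H))) ∧
      ∀ (t : R) (Θ : (Additive G →+ F) →+ (Additive G →+ F)),
        (∀ (c : F) (ψ : Additive G →+ F), Θ (c • ψ) = c • Θ ψ) →
        (∀ h : K, Θ (coeffMap 𝒪 F G (ι (h : H))) = coeffMap 𝒪 F G (ι (φ t (h : H)))) →
        Θ Φ = χ t • Φ := by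
  classical
  haveI : IsNoetherian 𝒪 H := isNoetherian_of_isNoetherianRing_of_finite 𝒪 H
  haveI : Module.Finite 𝒪 K := inferInstance
  set res := resAlgHom φ K hK with hres
  set I : Ideal R := RingHom.ker res with hI
  have hxI : ∀ t ∈ I, x t = 0 := by
    intro t ht
    refine hxK t fun h hh => ?_
    have h1 : res t = 0 := ht
    have h2 := congrArg (fun f : Module.End 𝒪 K => ((f ⟨h, hh⟩ : K) : H)) h1
    exact h2
  obtain ⟨χ', Φ, hΦ0, hker, hχ𝒪, hspan, heig⟩ :=
    exists_eigen_character (𝒪 := 𝒪) (F := F) (G := G) (H := K) (R := R ⧸ I) hinj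
      (ι ∘ₗ K.subtype) (hι.comp Subtype.val_injective)
      (Ideal.kerLiftAlg res) (Ideal.kerLiftAlg_injective res)
      (Ideal.Quotient.lift I x hxI) (fun c => by
        have : algebraMap 𝒪 (R ⧸ I) c = Ideal.Quotient.mk I (algebraMap 𝒪 R c) := rfl
        rw [this, Ideal.Quotient.lift_mk, hx])
  refine ⟨χ'.comp (Ideal.Quotient.mk I), Φ, hΦ0, ?_, ?_, hspan, ?_⟩
  · ext t
    rw [RingHom.mem_ker, RingHom.mem_ker, RingHom.comp_apply, ← RingHom.mem_ker, hker,
      RingHom.mem_ker, Ideal.Quotient.lift_mk]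
  · intro c
    exact hχ𝒪 c
  · intro t Θ hΘ hcompat
    exact heig (Ideal.Quotient.mk I t) Θ hΘ (fun h => hcompat h)

end EigenSub

end Fermat.Agent.ML
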