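/-
PROJECT ML (S59) — [TWMOD-L] (helper2), part 13: **systems of eigenvalues occurring in the `q`-new
part `ker α_* ∩ ker β_*`**.

`eigenKill N q F σ a` = the parabolic homomorphisms of level `N q` which are eigenvectors of the
Hecke operators at the primes of `σ` (eigenvalues `a`) and are killed by the two traces.  Its
dimension is invariant under extension of the coefficient field; over an algebraically closed field
a partial system extends to a full one (the new part is stable under ALL Hecke operators, helper4's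
`LR.heckeParP_mem_ker_degJ`); over the fraction field of a complete DVR the full system is defined
over a finite extension (copy of `NP.exists_system_of_eigenParOn`).
-/
import Mathlib
import Fermat.Agent.NP.S33TOP_helper2_Sys
import Fermat.Agent.LR.XFER_helper4_AL

set_option autoImplicit false
set_option linter.unusedSectionVars false
set_option linter.unusedVariables false
set_option linter.style.haveILetI false

namespace Fermat.Agent.ML

open CongruenceSubgroup ModularCurve ModularCurve.Period Polynomial IsLocalRing Fermat.Agent.GR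
  Fermat.Agent.LR Fermat.Agent.S32 Fermat.Agent.S35

open scoped MatrixGroups

section Def

variable (N q : ℕ) (hq : q.Prime) (hqN : ¬ q ∣ N) (F : Type*) [Field F]

/-- endomorphisms of `Hom(Γ₀(N q), F)` with the same kernels as the two traces. -/
noncomputable def killOp (b : Fin 2) :
    (Additive (Gamma0 (N * q)) →+ F) →ₗ[F] (Additive (Gamma0 (N * q)) →+ F) :=
  if b = 0 then (pullAₗ N q F F) ∘ₗ (pushAₗ N q hq hqN F F)
  else (pullAₗ N q F F) ∘ₗ (pushBₗ N q hq hqN F F)

/-- the family of operators cutting out the killed eigenspace. -/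
noncomputable def killFam (σ : Set Nat.Primes) (a : Nat.Primes → F) :
    σ ⊕ Fin 2 → (Additive (Gamma0 (N * q)) →+ F) →ₗ[F] (Additive (Gamma0 (N * q)) →+ F)
  | Sum.inl ℓ => heckeShift (N * q) F ℓ.1 (a ℓ.1)
  | Sum.inr b => killOp N q hq hqN F b

/-- **the killed eigenspace.** -/
noncomputable def eigenKill (σ : Set Nat.Primes) (a : Nat.Primes → F) :
    Submodule F (Additive (Gamma0 (N * q)) →+ F) :=
  parabolicHoms F (Gamma0 (N * q)) F ⊓ ⨅ i, LinearMap.ker (killFam N q hq hqN F σ a i)

variable {N q hq hqN F}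

theorem killOp_zero_apply (v : Additive (Gamma0 (N * q)) →+ F) :
    killOp N q hq hqN F 0 v = pullA N q F (pushA N q hq hqN F v) := by
  unfold killOp
  rw [if_pos rfl]
  rfl

theorem killOp_one_apply (v : Additive (Gamma0 (N * q)) →+ F) :
    killOp N q hq hqN F 1 v = pullA N q F (pushB N q hq hqN F v) := by
  unfold killOp
  rw [if_neg (by decide)]
  rfl

include hq hqN in
theorem pullA_eq_zero_iff [CharZero F] (ψ : Additive (Gamma0 N) →+ F) :
    pullA N q F ψ = 0 ↔ ψ = 0 := by
  constructor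
  · intro h
    have h1 := pushA_pullA N q hq hqN ψ
    rw [h, map_zero] at h1
    have h2 : ((q + 1 : ℕ) : F) • ψ = 0 := by
      rw [Nat.cast_smul_eq_nsmul]
      exact h1.symm
    rcases smul_eq_zero.mp h2 with h3 | h3
    · exact absurd h3 (Nat.cast_ne_zero.mpr (Nat.succ_ne_zero q))
    · exact h3
  · intro h
    rw [h, map_zero]

theorem mem_eigenKill [CharZero F] {σ : Set Nat.Primes} {a : Nat.Primes → F}
    {v : Additive (Gamma0 (N * q)) →+ F} :
    v ∈ eigenKill N q hq hqN F σ a ↔ v ∈ eigenParOn (N * q) F σ a ∧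
      pushA N q hq hqN F v = 0 ∧ pushB N q hq hqN F v = 0 := by
  unfold eigenKill
  rw [eigenParOn_eq_inf, Submodule.mem_inf, Submodule.mem_inf, Submodule.mem_iInf,
    Submodule.mem_iInf]
  constructor
  · rintro ⟨h1, h2⟩
    refine ⟨⟨h1, fun ℓ => h2 (Sum.inl ℓ)⟩, ?_, ?_⟩
    · have := h2 (Sum.inr 0)
      rw [LinearMap.mem_ker] at this
      have h3 : killOp N q hq hqN F 0 v = 0 := this
      rw [killOp_zero_apply] at h3
      exact (pullA_eq_zero_iff (hq := hq) (hqN := hqN) _).mp h3
    · have := h2 (Sum.inr 1)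
      rw [LinearMap.mem_ker] at this
      have h3 : killOp N q hq hqN F 1 v = 0 := this
      rw [killOp_one_apply] at h3
      exact (pullA_eq_zero_iff (hq := hq) (hqN := hqN) _).mp h3
  · rintro ⟨⟨h1, h2⟩, hA, hB⟩
    refine ⟨h1, fun i => ?_⟩
    rcases i with ℓ | b
    · exact h2 ℓ
    · rw [LinearMap.mem_ker]
      show killOp N q hq hqN F b v = 0
      by_cases hb : b = 0
      · subst hb
        rw [killOp_zero_apply, hA, map_zero]
      · have hb1 : b = 1 := Fin.eq_one_of_ne_zero b hb
        subst hb1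
        rw [killOp_one_apply, hB, map_zero]

end Def

section Map

variable {N q : ℕ} [NeZero (N * q)] {hq : q.Prime} {hqN : ¬ q ∣ N}
variable (K F : Type*) [Field K] [Field F] [Algebra K F] [CharZero K] [CharZero F]

theorem killOp_mem (b : Fin 2) {ψ : Additive (Gamma0 (N * q)) →+ F}
    (hψ : ψ ∈ parabolicHoms F (Gamma0 (N * q)) F) :
    killOp N q hq hqN F b ψ ∈ parabolicHoms F (Gamma0 (N * q)) F := by
  by_cases hb : b = 0
  · subst hb
    rw [killOp_zero_apply]
    exact pullA_mem_parabolicHoms N q F (pushA_mem_parabolicHoms N q hq hqN F hψ)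
  · have hb1 : b = 1 := Fin.eq_one_of_ne_zero b hb
    subst hb1
    rw [killOp_one_apply]
    exact pullA_mem_parabolicHoms N q F (pushB_mem_parabolicHoms N q hq hqN F hψ)

theorem killOp_comp_algebraMap (b : Fin 2) (ψ : Additive (Gamma0 (N * q)) →+ K) :
    killOp N q hq hqN F b ((algebraMap K F : K →+ F).comp ψ) =
      (algebraMap K F : K →+ F).comp (killOp N q hq hqN K b ψ) := by
  by_cases hb : b = 0
  · subst hb
    rw [killOp_zero_apply, killOp_zero_apply, pushA_comp, pullA_comp]
  · have hb1 : b = 1 := Fin.eq_one_of_ne_zero b hb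
    subst hb1
    rw [killOp_one_apply, killOp_one_apply, pushB_comp, pullA_comp]

/-- **the dimension of the killed eigenspace is invariant under extension of the coefficients.** -/
theorem finrank_eigenKill_map (σ : Set Nat.Primes) (a₀ : Nat.Primes → K) :
    Module.finrank F ↥(eigenKill N q hq hqN F σ (fun ℓ => algebraMap K F (a₀ ℓ))) =
      Module.finrank K ↥(eigenKill N q hq hqN K σ a₀) := by
  unfold eigenKill
  refine finrank_par_inf_iInf_ker K F (Gamma0 (N * q)) (killFam N q hq hqN K σ a₀)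
    (killFam N q hq hqN F σ (fun ℓ => algebraMap K F (a₀ ℓ))) ?_ ?_ ?_
  · rintro (ℓ | b) ψ hψ
    · exact heckeShift_mem ℓ.1 _ hψ
    · exact killOp_mem K b hψ
  · rintro (ℓ | b) ψ hψ
    · exact heckeShift_mem ℓ.1 _ hψ
    · exact killOp_mem F b hψ
  · rintro (ℓ | b) ψ
    · exact heckeShift_comp_algebraMap K F ℓ.1 (a₀ ℓ.1) ψ
    · exact killOp_comp_algebraMap K F b ψ

end Map

section Transfer

variable {N q : ℕ} [NeZero (N * q)] {hq : q.Prime} {hqN : ¬ q ∣ N}
  {F F' : Type*} [Field F] [CharZero F] [Field F'] [CharZero F']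

theorem eigenKill_moduleFinite {F₀ : Type*} [Field F₀] [CharZero F₀] (σ : Set Nat.Primes)
    (a : Nat.Primes → F₀) : Module.Finite F₀ ↥(eigenKill N q hq hqN F₀ σ a) := by
  have : IsNoetherian F₀ ↥(parabolicHoms F₀ (Gamma0 (N * q)) F₀) := inferInstance
  exact Module.Finite.of_injective
    (Submodule.inclusion (inf_le_left :
      eigenKill N q hq hqN F₀ σ a ≤ parabolicHoms F₀ (Gamma0 (N * q)) F₀))
    (Submodule.inclusion_injective _)

/-- occurrence in the new part does not depend on the embedding of the field of definition. -/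
theorem eigenKill_ne_bot_of_field {K : Type*} [Field K] (j : K →+* F) (j' : K →+* F')
    (σ : Set Nat.Primes) (a₀ : Nat.Primes → K)
    (h : eigenKill N q hq hqN F σ (fun ℓ => j (a₀ ℓ)) ≠ ⊥) :
    eigenKill N q hq hqN F' σ (fun ℓ => j' (a₀ ℓ)) ≠ ⊥ := by
  haveI : CharZero K := j.charZero
  haveI := eigenKill_moduleFinite (N := N) (q := q) (hq := hq) (hqN := hqN) (F₀ := K) σ a₀
  haveI := eigenKill_moduleFinite (N := N) (q := q) (hq := hq) (hqN := hqN) (F₀ := F) σ
    (fun ℓ => j (a₀ ℓ))
  haveI := eigenKill_moduleFinite (N := N) (q := q) (hq := hq) (hqN := hqN) (F₀ := F') σ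
    (fun ℓ => j' (a₀ ℓ))
  have hK : eigenKill N q hq hqN K σ a₀ ≠ ⊥ := by
    letI : Algebra K F := j.toAlgebra
    have h1 := finrank_eigenKill_map (hq := hq) (hqN := hqN) K F (N := N) σ a₀
    intro hbot
    rw [hbot, finrank_bot] at h1
    exact h (Submodule.finrank_eq_zero.1 h1)
  letI : Algebra K F' := j'.toAlgebra
  have h2 := finrank_eigenKill_map (hq := hq) (hqN := hqN) K F' (N := N) σ a₀
  intro hbot
  apply hK
  rw [← Submodule.finrank_eq_zero, ← h2]
  have h4 : Module.finrank F' ↥(eigenKill N q hq hqN F' σ (fun ℓ => j' (a₀ ℓ))) = 0 := by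
    rw [hbot, finrank_bot]
  exact h4

/-- occurrence in the new part does not depend on the embedding of the ring of definition. -/
theorem eigenKill_ne_bot_of_domain {D : Type*} [CommRing D] [IsDomain D] (g : D →+* F)
    (g' : D →+* F') (hg : Function.Injective g) (hg' : Function.Injective g')
    (σ : Set Nat.Primes) (d : Nat.Primes → D)
    (h : eigenKill N q hq hqN F σ (fun ℓ => g (d ℓ)) ≠ ⊥) :
    eigenKill N q hq hqN F' σ (fun ℓ => g' (d ℓ)) ≠ ⊥ := by
  have h1 := eigenKill_ne_bot_of_field (N := N) (hq := hq) (hqN := hqN)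
    (IsFractionRing.lift hg : FractionRing D →+* F)
    (IsFractionRing.lift hg' : FractionRing D →+* F') σ (fun ℓ => algebraMap D _ (d ℓ)) (by
      simp only [IsFractionRing.lift_algebraMap]
      exact h)
  simp only [IsFractionRing.lift_algebraMap] at h1
  exact h1

end Transfer

section Extend

variable {N q : ℕ} [NeZero (N * q)] {hq : q.Prime} {hqN : ¬ q ∣ N}
  {F : Type*} [Field F] [CharZero F]

/-- **a partial system occurring in the new part extends to a full one occurring there**
(`F` algebraically closed): the new part is stable under ALL the Hecke operators. -/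
theorem exists_eigenKill_full [IsAlgClosed F] {σ : Set Nat.Primes} {a : Nat.Primes → F}
    (h : eigenKill N q hq hqN F σ a ≠ ⊥) :
    ∃ a' : Nat.Primes → F, (∃ v ∈ eigenPar (N * q) F a', v ≠ 0 ∧
      pushA N q hq hqN F v = 0 ∧ pushB N q hq hqN F v = 0) ∧ ∀ ℓ ∈ σ, a' ℓ = a ℓ := by
  obtain ⟨ψ, hψ, hψ0⟩ := (Submodule.ne_bot_iff _).1 h
  let W : Submodule F ↥(parabolicHoms F (Gamma0 (N * q)) F) :=
    (eigenKill N q hq hqN F σ a).comap (parabolicHoms F (Gamma0 (N * q)) F).subtype
  have hψ' := (mem_eigenKill (hq := hq) (hqN := hqN)).1 hψ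
  have hW : W ≠ ⊥ := by
    rw [Submodule.ne_bot_iff]
    exact ⟨⟨ψ, hψ'.1.1⟩, hψ, fun h0 => hψ0 (congrArg Subtype.val h0)⟩
  obtain ⟨v, hvW, hv0, hv⟩ := Fermat.Agent.Helper2.exists_common_eigenvector
    (Set.range fun q' : Nat.Primes => heckeParP (N * q) q' F F)
    (by rintro _ ⟨ℓ, rfl⟩ _ ⟨q', rfl⟩; exact heckeParP_commute ℓ q') W hW (by
      rintro _ ⟨q', rfl⟩ w hw
      have hw' : (w : Additive (Gamma0 (N * q)) →+ F) ∈ eigenKill N q hq hqN F σ a := hw
      rw [mem_eigenKill] at hw'
      show ((heckeParP (N * q) q' F F w : parabolicHoms F (Gamma0 (N * q)) F) :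
        Additive (Gamma0 (N * q)) →+ F) ∈ eigenKill N q hq hqN F σ a
      rw [mem_eigenKill]
      have hnew := heckeGrpP_mem_newSub N q hq hqN (R := F) q'
        ((mem_newSub N q hq hqN (R := F)).mpr hw'.2)
      rw [mem_newSub] at hnew
      refine ⟨⟨(heckeParP (N * q) q' F F w).2, fun ℓ hℓ => ?_⟩, hnew.1, hnew.2⟩
      show heckeGrpP (N * q) ℓ F (heckeGrpP (N * q) q' F w.1) = a ℓ • heckeGrpP (N * q) q' F w.1
      have hw2 : heckeGrpP (N * q) ℓ F w.1 = a ℓ • w.1 := hw'.1.2 ℓ hℓ
      rw [heckeGrpP_comm_field ℓ q' w.2, hw2]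
      have h1 := (heckeGrpPₗ (N * q) q' F F).map_smul (a ℓ) w.1
      exact h1)
  choose a' ha' using fun q' : Nat.Primes => hv (heckeParP (N * q) q' F F) ⟨q', rfl⟩
  have hv0' : (v : Additive (Gamma0 (N * q)) →+ F) ≠ 0 := fun h0 => hv0 (Subtype.ext h0)
  have hmem : (v : Additive (Gamma0 (N * q)) →+ F) ∈ eigenPar (N * q) F a' :=
    ⟨v.2, fun q' => congrArg Subtype.val (ha' q')⟩
  have hvW' : (v : Additive (Gamma0 (N * q)) →+ F) ∈ eigenKill N q hq hqN F σ a := hvW
  rw [mem_eigenKill] at hvW'
  refine ⟨a', ⟨v.1, hmem, hv0', hvW'.2.1, hvW'.2.2⟩, fun ℓ hℓ => ?_⟩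
  have hv2 : heckeGrpP (N * q) ℓ F v.1 = a ℓ • v.1 := hvW'.1.2 ℓ hℓ
  have h1 : a' ℓ • v.1 = a ℓ • v.1 := by
    rw [← hmem.2 ℓ, hv2]
  exact smul_left_injective F hv0' h1

/-- a killed eigenvector over an extension field descends to the subfield (dimension count). -/
theorem exists_kill_descend (K : Type*) [Field K] [CharZero K] [Algebra K F]
    (a₀ : Nat.Primes → K)
    (h : ∃ v ∈ eigenPar (N * q) F (fun ℓ => algebraMap K F (a₀ ℓ)), v ≠ 0 ∧
      pushA N q hq hqN F v = 0 ∧ pushB N q hq hqN F v = 0) :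
    ∃ v ∈ eigenPar (N * q) K a₀, v ≠ 0 ∧
      pushA N q hq hqN K v = 0 ∧ pushB N q hq hqN K v = 0 := by
  obtain ⟨v, hv, hv0, hA, hB⟩ := h
  have hF : eigenKill N q hq hqN F Set.univ (fun ℓ => algebraMap K F (a₀ ℓ)) ≠ ⊥ := by
    rw [Submodule.ne_bot_iff]
    refine ⟨v, ?_, hv0⟩
    rw [mem_eigenKill]
    exact ⟨⟨hv.1, fun ℓ _ => hv.2 ℓ⟩, hA, hB⟩
  have hK : eigenKill N q hq hqN K Set.univ a₀ ≠ ⊥ := by
    haveI := eigenKill_moduleFinite (N := N) (q := q) (hq := hq) (hqN := hqN) (F₀ := F) Set.univ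
      (fun ℓ => algebraMap K F (a₀ ℓ))
    have h1 := finrank_eigenKill_map (hq := hq) (hqN := hqN) K F (N := N) Set.univ a₀
    intro hbot
    rw [hbot, finrank_bot] at h1
    exact hF (Submodule.finrank_eq_zero.1 h1)
  obtain ⟨w, hw, hw0⟩ := (Submodule.ne_bot_iff _).1 hK
  rw [mem_eigenKill] at hw
  exact ⟨w, ⟨hw.1.1, fun ℓ => hw.1.2 ℓ (Set.mem_univ _)⟩, hw0, hw.2.1, hw.2.2⟩

end Extend

section Sys

/-- a finite extension `L` of the fraction field and an integral family in it ⇒ the family over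
`B := integralClosure A L` (copy of `S32.exists_ext_system_of_finite` without the occurrence). -/
theorem exists_ext_of_finite
    (A : Type) [CommRing A] [IsDomain A] [IsDiscreteValuationRing A]
    [IsAdicComplete (maximalIdeal A) A] [Finite (ResidueField A)] [CharZero A]
    (K : Type) [Field K] [Algebra A K] [IsFractionRing A K]
    (L : Type) [Field L] [Algebra K L] [FiniteDimensional K L] [Algebra A L] [IsScalarTower A K L]
    (aL : Nat.Primes → L) (hint : ∀ ℓ, IsIntegral A (aL ℓ)) :
    ∃ (B : Type) (_ : CommRing B) (_ : IsDomain B) (_ : IsDiscreteValuationRing B)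
      (_ : IsAdicComplete (maximalIdeal B) B) (_ : Finite (ResidueField B)) (_ : CharZero B)
      (_ : Algebra A B) (_ : Module.Finite A B) (_ : IsLocalHom (algebraMap A B)),
      Function.Injective (algebraMap A B) ∧
      ∃ (_ : Algebra B L) (_ : IsFractionRing B L) (a : Nat.Primes → B),
        mapSys B L a = aL ∧
        ∀ (ℓ : Nat.Primes) (x : A), algebraMap A L x = aL ℓ → a ℓ = algebraMap A B x := by
  haveI : CharZero K := charZero_of_injective_algebraMap (IsFractionRing.injective A K)
  haveI : Algebra.IsSeparable K L := Algebra.IsAlgebraic.isSeparable_of_perfectField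
  obtain ⟨i1, i2, i3, i4, i5, i6, i7⟩ :=
    Fermat.Agent.CFT.Local.exists_localExt_instances A K L ↥(integralClosure A L)
  haveI := i1
  haveI := i2
  haveI := i3
  haveI := i4
  haveI := i5
  haveI := i6
  haveI hfinres : Finite (ResidueField ↥(integralClosure A L)) := i7 inferInstance
  have hinjL : Function.Injective (algebraMap A L) := by
    rw [IsScalarTower.algebraMap_eq A K L]
    exact (algebraMap K L).injective.comp (IsFractionRing.injective A K)
  have hinj : Function.Injective (algebraMap A ↥(integralClosure A L)) := by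
    intro x y hxy
    apply hinjL
    exact congrArg Subtype.val hxy
  haveI : CharZero ↥(integralClosure A L) := charZero_of_injective_algebraMap hinj
  let a'' : Nat.Primes → ↥(integralClosure A L) := fun ℓ => ⟨aL ℓ, hint ℓ⟩
  have hsys : mapSys ↥(integralClosure A L) L a'' = aL := rfl
  refine ⟨↥(integralClosure A L), inferInstance, inferInstance, inferInstance, inferInstance,
    hfinres, inferInstance, inferInstance, inferInstance, inferInstance, hinj, inferInstance,
    inferInstance, a'', hsys, ?_⟩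
  intro ℓ x hx
  exact Subtype.ext hx.symm

variable {N q : ℕ} [NeZero (N * q)] {hq : q.Prime} {hqN : ¬ q ∣ N}

/-- **a partial system occurring in the `q`-new part extends, over a finite extension, to a full
system with a non-zero eigenvector killed by both traces** (the input of helper5's
`SteinbergOfKillStatement`). -/
theorem exists_system_kill (σ : Set Nat.Primes) (hσ : (σᶜ).Finite)
    (B : Type) [CommRing B] [IsDomain B] [IsDiscreteValuationRing B]
    [IsAdicComplete (maximalIdeal B) B] [Finite (ResidueField B)] [CharZero B]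
    (L : Type) [Field L] [Algebra B L] [IsFractionRing B L]
    (a : Nat.Primes → B) (h : eigenKill N q hq hqN L σ (mapSys B L a) ≠ ⊥) :
    ∃ (B' : Type) (_ : CommRing B') (_ : IsDomain B') (_ : IsDiscreteValuationRing B')
      (_ : IsAdicComplete (maximalIdeal B') B') (_ : Finite (ResidueField B')) (_ : CharZero B')
      (_ : Algebra B B') (_ : Module.Finite B B') (_ : IsLocalHom (algebraMap B B')),
      Function.Injective (algebraMap B B') ∧
      ∃ (L' : Type) (_ : Field L') (_ : Algebra B' L') (_ : IsFractionRing B' L')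
        (a' : Nat.Primes → B'),
        (∃ v ∈ eigenPar (N * q) L' (mapSys B' L' a'), v ≠ 0 ∧
          pushA N q hq hqN L' v = 0 ∧ pushB N q hq hqN L' v = 0) ∧
        ∀ ℓ ∈ σ, a' ℓ = algebraMap B B' (a ℓ) := by
  haveI : CharZero L := charZero_of_injective_algebraMap (IsFractionRing.injective B L)
  -- the system over an algebraic closure
  have h1 : eigenKill N q hq hqN (AlgebraicClosure L) σ
      (fun ℓ => algebraMap L (AlgebraicClosure L) (mapSys B L a ℓ)) ≠ ⊥ := by
    haveI := eigenKill_moduleFinite (N := N) (q := q) (hq := hq) (hqN := hqN) (F₀ := L) σ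
      (mapSys B L a)
    have h2 := finrank_eigenKill_map (hq := hq) (hqN := hqN) L (AlgebraicClosure L) (N := N) σ
      (mapSys B L a)
    intro hbot
    rw [hbot, finrank_bot] at h2
    exact h (Submodule.finrank_eq_zero.1 h2.symm)
  obtain ⟨aF, hoccF, haF⟩ := exists_eigenKill_full h1
  have hoccF' : eigenPar (N * q) (AlgebraicClosure L) aF ≠ ⊥ := by
    obtain ⟨v, hv, hv0, -, -⟩ := hoccF
    exact (Submodule.ne_bot_iff _).2 ⟨v, hv, hv0⟩
  have hintB : ∀ ℓ, IsIntegral B (aF ℓ) := fun ℓ =>
    isIntegral_of_isIntegral_int (isIntegral_of_eigenPar_ne_bot hoccF' ℓ)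
  have hintK : ∀ ℓ, IsIntegral L (aF ℓ) := fun ℓ =>
    isIntegral_of_isIntegral_int (isIntegral_of_eigenPar_ne_bot hoccF' ℓ)
  haveI : Finite ↑(aF '' σᶜ) := (hσ.image aF).to_subtype
  haveI hfd : FiniteDimensional L ↥(IntermediateField.adjoin L (aF '' σᶜ)) :=
    IntermediateField.finiteDimensional_adjoin (by
      rintro _ ⟨ℓ, _, rfl⟩
      exact hintK ℓ)
  haveI : IsScalarTower B L ↥(IntermediateField.adjoin L (aF '' σᶜ)) :=
    IsScalarTower.of_algebraMap_eq fun x => Subtype.ext (by
      show algebraMap B (AlgebraicClosure L) x = _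
      rw [IsScalarTower.algebraMap_apply B L (AlgebraicClosure L)]
      rfl)
  have hmem : ∀ ℓ : Nat.Primes, aF ℓ ∈ IntermediateField.adjoin L (aF '' σᶜ) := by
    intro ℓ
    by_cases hℓ : ℓ ∈ σ
    · rw [haF ℓ hℓ]
      exact IntermediateField.algebraMap_mem _ _
    · exact IntermediateField.subset_adjoin _ _ ⟨ℓ, hℓ, rfl⟩
  let aL : Nat.Primes → ↥(IntermediateField.adjoin L (aF '' σᶜ)) := fun ℓ => ⟨aF ℓ, hmem ℓ⟩
  haveI : IsScalarTower B ↥(IntermediateField.adjoin L (aF '' σᶜ)) (AlgebraicClosure L) :=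
    IsScalarTower.of_algebraMap_eq fun x => rfl
  have hintL : ∀ ℓ, IsIntegral B (aL ℓ) := by
    intro ℓ
    have h := hintB ℓ
    have h2 : aF ℓ = algebraMap ↥(IntermediateField.adjoin L (aF '' σᶜ))
      (AlgebraicClosure L) (aL ℓ) := rfl
    rw [h2] at h
    exact (isIntegral_algebraMap_iff (RingHom.injective _)).1 h
  haveI : CharZero ↥(IntermediateField.adjoin L (aF '' σᶜ)) :=
    charZero_of_injective_algebraMap
      (algebraMap L ↥(IntermediateField.adjoin L (aF '' σᶜ))).injective
  have hoccL : ∃ v ∈ eigenPar (N * q) ↥(IntermediateField.adjoin L (aF '' σᶜ)) aL, v ≠ 0 ∧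
      pushA N q hq hqN ↥(IntermediateField.adjoin L (aF '' σᶜ)) v = 0 ∧
      pushB N q hq hqN ↥(IntermediateField.adjoin L (aF '' σᶜ)) v = 0 :=
    exists_kill_descend (F := AlgebraicClosure L) ↥(IntermediateField.adjoin L (aF '' σᶜ)) aL
      hoccF
  obtain ⟨B', i1, i2, i3, i4, i5, i6, i7, i8, i9, hinj, j1, j2, a', hsys, ha'⟩ :=
    exists_ext_of_finite B L ↥(IntermediateField.adjoin L (aF '' σᶜ)) aL hintL
  refine ⟨B', i1, i2, i3, i4, i5, i6, i7, i8, i9, hinj, _, inferInstance, j1, j2, a', ?_, ?_⟩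
  · rw [hsys]
    exact hoccL
  · intro ℓ hℓ
    refine ha' ℓ (a ℓ) ?_
    apply Subtype.ext
    show algebraMap B (AlgebraicClosure L) (a ℓ) = aF ℓ
    rw [haF ℓ hℓ, IsScalarTower.algebraMap_apply B L (AlgebraicClosure L)]
    rfl

end Sys

end Fermat.Agent.ML
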