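/-
PROJECT ML (S59) — [TWMOD-L] — **the leaf [TWPUSH]**: the twisting transfers
`Tw : Hom(Γ_H, A) → Hom(Γ₀(N M), A)` (`RB.TWM.IsTwDatum`) of the levels `N q` and `N` commute with the
two traces.  On `Hom(Γ_H(N q), A)` the traces are the transfers `xferAlphaK`, `xferBetaK` of
`ML/TWMODL_helper2_DegMaps` (between the kernels of `chiOf`), transported to the subgroups
`GammaH` of `SL₂(ℤ)` (`pushAH`, `pushBH`); on `Hom(Γ₀(N M q), A)` they are LR's `pushA`, `pushB` for
the level `N M` and the prime `q`.  The trace `β_*` picks up the diamond operator of `σ(q)⁻¹`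
(twisting by the character `η = ψ ∘ σ` multiplies `f(q z)` by `η(q)`).

Pure coset combinatorics (pattern: `RB/TW_lead_Hecke.lean`, `ML/TWMODL_helper2_DegHecke.lean`,
`GR.TransferDatum.transferGrp_eq_of_reps`): both sides are transfers from `Γ_H(N q)` to
`Γ₀(N M)` along the same family of cosets.  Used for `TWModChainLevel.occ_new`.
-/
import Mathlib
import Fermat.Agent.ML.TWMODL_helper2_DegMaps
import Fermat.Agent.RB.TWMOD_helper2_TwSpec

set_option autoImplicit false
set_option linter.unusedSectionVars false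
set_option linter.unusedVariables false

open CongruenceSubgroup Matrix ModularCurve.Period

open scoped MatrixGroups

namespace Fermat.Agent.ML

open Fermat.Agent.GR Fermat.Agent.LR Fermat.Agent.RB Fermat.Agent.RB.TWM Fermat.Agent.W1

/-- `Γ₀(a) → Γ₀(b)` for `a = b`. -/
def gamma0Cast {a b : ℕ} (h : a = b) : ↥(Gamma0 a) →* ↥(Gamma0 b) :=
  Subgroup.inclusion (le_of_eq (by rw [h]))

@[simp] theorem coe_gamma0Cast {a b : ℕ} (h : a = b) (γ : ↥(Gamma0 a)) :
    ((gamma0Cast h γ : ↥(Gamma0 b)) : SL(2, ℤ)) = (γ : SL(2, ℤ)) := rfl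

section

variable (N q M : ℕ) [NeZero N] [NeZero (N * q)] (hM : M ∣ N) (hq : q.Prime) (hqN : ¬ q ∣ N)
  {Δ : Type} [CommGroup Δ] (π : (ZMod M)ˣ →* Δ) (A : Type) [AddCommGroup A]

/-- **`α_*`** on `Hom(Γ_H, A)`. -/
noncomputable def pushAH :
    (Additive ↥(GammaH (N * q) M (dvd_mul_level N q M hM) π) →+ A) →+
      (Additive ↥(GammaH N M hM π) →+ A) :=
  (pullHom ((kerEquivGammaH N M hM π).symm : ↥(GammaH N M hM π) →* ↥(chiOf N M hM π).ker) A).comp
    (((xferAlphaK N q M hM hq hqN π).transferGrp A).comp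
      (pullHom ((kerEquivGammaH (N * q) M (dvd_mul_level N q M hM) π :
        ↥(chiOf (N * q) M (dvd_mul_level N q M hM) π).ker ≃*
          ↥(GammaH (N * q) M (dvd_mul_level N q M hM) π)) :
        ↥(chiOf (N * q) M (dvd_mul_level N q M hM) π).ker →*
          ↥(GammaH (N * q) M (dvd_mul_level N q M hM) π)) A))

/-- **`β_*`** on `Hom(Γ_H, A)` (untwisted). -/
noncomputable def pushBH :
    (Additive ↥(GammaH (N * q) M (dvd_mul_level N q M hM) π) →+ A) →+
      (Additive ↥(GammaH N M hM π) →+ A) :=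
  (pullHom ((kerEquivGammaH N M hM π).symm : ↥(GammaH N M hM π) →* ↥(chiOf N M hM π).ker) A).comp
    (((xferBetaK N q M hM hq hqN π).transferGrp A).comp
      (pullHom ((kerEquivGammaH (N * q) M (dvd_mul_level N q M hM) π :
        ↥(chiOf (N * q) M (dvd_mul_level N q M hM) π).ker ≃*
          ↥(GammaH (N * q) M (dvd_mul_level N q M hM) π)) :
        ↥(chiOf (N * q) M (dvd_mul_level N q M hM) π).ker →*
          ↥(GammaH (N * q) M (dvd_mul_level N q M hM) π)) A))

end

/-- **[TWPUSH]**: `α_* ∘ Tw' = Tw ∘ α_*` and `β_* ∘ Tw' = Tw ∘ ⟨σ(q)⁻¹⟩ ∘ β_*`. -/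
def TwPushStatement : Prop :=
  ∀ {Δ : Type} [CommGroup Δ] (N q M : ℕ) [NeZero N] [NeZero M] [NeZero (N * q)]
    (hM : M ∣ N) (hq : q.Prime) (hqN : ¬ q ∣ N) (hqNM : ¬ q ∣ N * M)
    (π σ : (ZMod M)ˣ →* Δ), Function.Surjective π → (∀ u, σ u ^ 2 = π u) →
    ∀ (hn : ∀ τ ∈ Gamma0 N, ∀ γ ∈ GammaH N M hM π, τ * γ * τ⁻¹ ∈ GammaH N M hM π)
      (X' : TransferDatum ↥(GammaH (N * q) M (dvd_mul_level N q M hM) π) ↥(Gamma0 (N * q * M))
        (GL (Fin 2) ℝ) (ZMod M)ˣ)
      (X : TransferDatum ↥(GammaH N M hM π) ↥(Gamma0 (N * M)) (GL (Fin 2) ℝ) (ZMod M)ˣ),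
      IsTwDatum (N * q) M (dvd_mul_level N q M hM) π σ X' → IsTwDatum N M hM π σ X →
      ∀ (A : Type) [AddCommGroup A]
        (Φ : Additive ↥(GammaH (N * q) M (dvd_mul_level N q M hM) π) →+ A),
        pushA (N * M) q hq hqNM A
            (pullHom (gamma0Cast (Nat.mul_right_comm N M q)) A (X'.transferGrp A Φ)) =
          X.transferGrp A (pushAH N q M hM hq hqN π A Φ) ∧
        ∀ (hqM : Nat.Coprime q M) (g : SL(2, ℤ)) (hg : g ∈ Gamma0 N),
          chiOf N M hM π ⟨g, hg⟩ * σ (ZMod.unitOfCoprime q hqM) = 1 →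
          pushB (N * M) q hq hqNM A
              (pullHom (gamma0Cast (Nat.mul_right_comm N M q)) A (X'.transferGrp A Φ)) =
            X.transferGrp A
              (diamondOnBy (GammaH N M hM π) hn A g hg
                (pushBH N q M hM hq hqN π A Φ))

end Fermat.Agent.ML
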