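/-
PROJECT ML (S59) — [TWMOD-L] (helper2), part 16: **the realisations of the sides carry the traces
`β₀`, `β₁` of one chain step to the traces `pushAH`, `pushBH` on `Hom(Γ_H, 𝒪)`**
(`ML/IFACE_helper2_TwPush`):

  `ι_N (β₀ h) = α_* (ι_{Nq} h)`,   `ι_N (β₁ h) = ⟨g⟩ β_* (ι_{Nq} h)`   (`χ(g) = σ(q)⁻¹`).
-/
import Mathlib
import Fermat.Agent.ML.TWMODL_helper2_Chain
import Fermat.Agent.ML.IFACE_helper2_TwPush

set_option autoImplicit false
set_option linter.unusedSectionVars false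
set_option linter.unusedVariables false
set_option linter.style.haveILetI false

namespace Fermat.Agent.ML

open CongruenceSubgroup Matrix ModularCurve.Period IsLocalRing
open scoped MatrixGroups
open Fermat.Agent.GR Fermat.Agent.LR Fermat.Agent.W1 Fermat.Agent.W1.ES Fermat.Agent.RB
  Fermat.Agent.RB.TWM

section Bridge

variable (N q M : ℕ) [NeZero N] [NeZero (N * q)] (hM : M ∣ N) (hq : q.Prime) (hqN : ¬ q ∣ N)
  {Δ : Type} [CommGroup Δ] [Fintype Δ] (π : (ZMod M)ˣ →* Δ) (hπ : Function.Surjective π)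
  (O : Type) [CommRing O]

theorem bridge_eq (N' : ℕ) [NeZero N'] (hM' : M ∣ N') (x : MM N' M hM' π O) :
    bridge N' M hM' π O hπ x =
      pullHom ((kerEquivGammaH N' M hM' π).symm : ↥(GammaH N' M hM' π) →* ↥(chiOf N' M hM' π).ker)
        O (shapiroH1 (chiOf N' M hM' π) x) := rfl

theorem pullHom_bridge (N' : ℕ) [NeZero N'] (hM' : M ∣ N') (x : MM N' M hM' π O) :
    pullHom ((kerEquivGammaH N' M hM' π : ↥(chiOf N' M hM' π).ker ≃* ↥(GammaH N' M hM' π)) :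
        ↥(chiOf N' M hM' π).ker →* ↥(GammaH N' M hM' π)) O (bridge N' M hM' π O hπ x) =
      shapiroH1 (chiOf N' M hM' π) x := by
  refine AddMonoidHom.ext fun γ => ?_
  obtain ⟨γ, rfl⟩ := Additive.ofMul.surjective γ
  rw [pullHom_apply, bridge_eq, pullHom_apply]
  show shapiroH1 (chiOf N' M hM' π) x (Additive.ofMul ((kerEquivGammaH N' M hM' π).symm
    ((kerEquivGammaH N' M hM' π) γ))) = _
  rw [MulEquiv.symm_apply_apply]

/-- **the bridge carries `α_*` on `𝓜` to `pushAH`.** -/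
theorem bridge_pushAM (y : MM (N * q) M (dvd_mul_level N q M hM) π O) :
    bridge N M hM π O hπ (pushAM N q M hM hq hqN π O y) =
      pushAH N q M hM hq hqN π O (bridge (N * q) M (dvd_mul_level N q M hM) π O hπ y) := by
  rw [bridge_eq, shapiroH1_pushAM]
  unfold pushAH
  rw [AddMonoidHom.comp_apply, AddMonoidHom.comp_apply, pullHom_bridge]

/-- **the bridge carries `β_*` on `𝓜` to `pushBH`.** -/
theorem bridge_pushBM (y : MM (N * q) M (dvd_mul_level N q M hM) π O) :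
    bridge N M hM π O hπ (pushBM N q M hM hq hqN π O y) =
      pushBH N q M hM hq hqN π O (bridge (N * q) M (dvd_mul_level N q M hM) π O hπ y) := by
  rw [bridge_eq, shapiroH1_pushBM]
  unfold pushBH
  rw [AddMonoidHom.comp_apply, AddMonoidHom.comp_apply, pullHom_bridge]

end Bridge

section Coeff

variable (N q M : ℕ) [NeZero N] [NeZero (N * q)] (hM : M ∣ N) (hq : q.Prime) (hqN : ¬ q ∣ N)
  {Δ : Type} [CommGroup Δ] (π : (ZMod M)ˣ →* Δ)

/-- naturality of `pushAH` in the coefficient group. -/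
theorem pushAH_comp {A B : Type} [AddCommGroup A] [AddCommGroup B] (f : A →+ B)
    (ψ : Additive ↥(GammaH (N * q) M (dvd_mul_level N q M hM) π) →+ A) :
    pushAH N q M hM hq hqN π B (f.comp ψ) = f.comp (pushAH N q M hM hq hqN π A ψ) := by
  unfold pushAH
  rw [AddMonoidHom.comp_apply, AddMonoidHom.comp_apply, AddMonoidHom.comp_apply,
    AddMonoidHom.comp_apply, pullHom_comp, TransferDatum.transferGrp_comp, pullHom_comp]

/-- naturality of `pushBH` in the coefficient group. -/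
theorem pushBH_comp {A B : Type} [AddCommGroup A] [AddCommGroup B] (f : A →+ B)
    (ψ : Additive ↥(GammaH (N * q) M (dvd_mul_level N q M hM) π) →+ A) :
    pushBH N q M hM hq hqN π B (f.comp ψ) = f.comp (pushBH N q M hM hq hqN π A ψ) := by
  unfold pushBH
  rw [AddMonoidHom.comp_apply, AddMonoidHom.comp_apply, AddMonoidHom.comp_apply,
    AddMonoidHom.comp_apply, pullHom_comp, TransferDatum.transferGrp_comp, pullHom_comp]

theorem pushAH_smul {F : Type} [Field F] (a : F)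
    (ψ : Additive ↥(GammaH (N * q) M (dvd_mul_level N q M hM) π) →+ F) :
    pushAH N q M hM hq hqN π F (a • ψ) = a • pushAH N q M hM hq hqN π F ψ :=
  pushAH_comp N q M hM hq hqN π (AddMonoidHom.mulLeft a) ψ

theorem pushBH_smul {F : Type} [Field F] (a : F)
    (ψ : Additive ↥(GammaH (N * q) M (dvd_mul_level N q M hM) π) →+ F) :
    pushBH N q M hM hq hqN π F (a • ψ) = a • pushBH N q M hM hq hqN π F ψ :=
  pushBH_comp N q M hM hq hqN π (AddMonoidHom.mulLeft a) ψ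

end Coeff

section Sides

variable (N q M : ℕ) [NeZero N] [NeZero (N * q)] (hM : M ∣ N) (hq : q.Prime) (hqN : ¬ q ∣ N)
  {Δ₁ Δ₂ : Type} [CommGroup Δ₁] [CommGroup Δ₂] [Fintype Δ₁] [Fintype Δ₂]
  (π σ : (ZMod M)ˣ →* Δ₁ × Δ₂) (hπ : Function.Surjective π)
variable (O : Type) [CommRing O] [IsDomain O] [CharZero O] [IsLocalRing O] [IsNoetherianRing O]
  [IsAdicComplete (maximalIdeal O) O]
variable {I : Type} (ι : I → Nat.Primes) (c : I → O) (hιq : ∀ i, ((ι i : Nat.Primes) : ℕ) ≠ q)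
variable {i₀ : I} {n₀ : O}
  (hTS : TwoStage (fun i => opM N M hM π O (ι i)) (parM N M hM π O hπ) c i₀ n₀)
variable {i₀' : I} {n₀' : O}
  (hTS' : TwoStage (fun i => opM (N * q) M (dvd_mul_level N q M hM) π O (ι i))
    (parM (N * q) M (dvd_mul_level N q M hM) π O hπ) c i₀' n₀')
variable (hst : StabHyp N M hM π hπ O ι c)
  (hst' : StabHyp (N * q) M (dvd_mul_level N q M hM) π hπ O ι c)
variable (Sbig Sbig' : Finset ℕ)
variable {p r d d' n : ℕ} (δ : Fin r → Δ₂)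
  (hδ : Function.Bijective fun e : Fin r → Fin (p ^ n) => ∏ k, δ k ^ ((e k : Fin (p ^ n)) : ℕ))
  (hδpow : ∀ k, δ k ^ (p ^ n) = 1)
  (b : Module.Basis (Fin d) (MonoidAlgebra O (Δ₁ × Δ₂)) (HH N M hM π O ι c))
  (b' : Module.Basis (Fin d') (MonoidAlgebra O (Δ₁ × Δ₂))
    (HH (N * q) M (dvd_mul_level N q M hM) π O ι c))

/-- the norm map commutes with the maps induced on the sides. -/
theorem sideNorm_sideMap {H H' : Type} [AddCommGroup H] [Module (MonoidAlgebra O (Δ₁ × Δ₂)) H]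
    [Module O H] [IsScalarTower O (MonoidAlgebra O (Δ₁ × Δ₂)) H] [AddCommGroup H']
    [Module (MonoidAlgebra O (Δ₁ × Δ₂)) H'] [Module O H']
    [IsScalarTower O (MonoidAlgebra O (Δ₁ × Δ₂)) H'] (ψ : Δ₁ →* Oˣ)
    (f : H →ₗ[MonoidAlgebra O (Δ₁ × Δ₂)] H') (y : SideP Δ₂ ψ H) :
    sideNorm (Δ₂ := Δ₂) ψ (sideMap (specHom O Δ₂ ψ) (secHom O Δ₁ Δ₂) f y) =
      f (sideNorm (Δ₂ := Δ₂) ψ y) := by
  obtain ⟨x, rfl⟩ := sideMk_surjective (specHom O Δ₂ ψ) (secHom O Δ₁ Δ₂) y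
  rw [sideMap_mk]
  show normElt Δ₂ ψ • f x = f (normElt Δ₂ ψ • x)
  rw [map_smul]

/-- **`ι_N ∘ β₀ = α_* ∘ ι_{N q}`.** -/
theorem sideIotaL_betaS_zero (h : (sideL σ hst' Sbig' δ hδ hδpow b').H) :
    sideIotaL σ hst Sbig δ hδ hδpow b
        (betaS N q M hM hq hqN π σ hπ O ι c hιq hTS' hst hst' Sbig Sbig' δ hδ hδpow b b' 0 h) =
      pushAH N q M hM hq hqN π O (sideIotaL σ hst' Sbig' δ hδ hδpow b' h) := by
  show bridge N M hM π O hπ ((sideNorm (Δ₂ := Δ₂) (1 : Δ₁ →* Oˣ)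
      (sideMap (specHom O Δ₂ (1 : Δ₁ →* Oˣ)) (secHom O Δ₁ Δ₂)
        (betaH N q M hM hq hqN π σ hπ O ι c hιq hTS' 0) h) : HH N M hM π O ι c) :
          MM N M hM π O) = _
  rw [sideNorm_sideMap, coe_betaH, betaM_zero, bridge_pushAM]
  rfl

/-- **`ι_N ∘ β₁ = ⟨g⟩ ∘ β_* ∘ ι_{N q}`** for `χ(g) = σ(q)⁻¹`. -/
theorem sideIotaL_betaS_one (g : Gamma0 N) (hg : chiOf N M hM π g = (sigAt M σ q)⁻¹)
    (h : (sideL σ hst' Sbig' δ hδ hδpow b').H) :
    sideIotaL σ hst Sbig δ hδ hδpow b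
        (betaS N q M hM hq hqN π σ hπ O ι c hιq hTS' hst hst' Sbig Sbig' δ hδ hδpow b b' 1 h) =
      diamondOnBy (GammaH N M hM π) (GammaH_normal N M hM π) O (g : SL(2, ℤ)) g.2
        (pushBH N q M hM hq hqN π O (sideIotaL σ hst' Sbig' δ hδ hδpow b' h)) := by
  show bridge N M hM π O hπ ((sideNorm (Δ₂ := Δ₂) (1 : Δ₁ →* Oˣ)
      (sideMap (specHom O Δ₂ (1 : Δ₁ →* Oˣ)) (secHom O Δ₁ Δ₂)
        (betaH N q M hM hq hqN π σ hπ O ι c hιq hTS' 1) h) : HH N M hM π O ι c) :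
          MM N M hM π O) = _
  rw [sideNorm_sideMap, coe_betaH, betaM_one, LinearMap.smul_apply, ← hg, bridge_of_smul,
    bridge_pushBM]
  rfl

end Sides

end Fermat.Agent.ML
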