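/-
PROJECT ML (S59) — [TWMOD-L] (helper2), part 18: **the points of the `q`-new submodule of the side
of level `N q`, "kill" form** (`TWModChainLevel.occ_new`).

A point `x` of the Hecke algebra of the side of level `N q` which factors through the action on
`K = ker β₀ ∩ ker β₁` has an eigenvector `Φ ∈ Hom_par(Γ_H(N q), F)` in the `F`-span of `K`, hence
killed by `pushAH`, `pushBH` (`RealPush`); by [TWPUSH] its twist `Tw' Φ ∈ Hom_par(Γ₀(N M q), F)` is
killed by `pushA`, `pushB`; so the system of `x` occurs in the new part (`KillSys`) and extends to a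
full system with a killed eigenvector over a finite extension.
-/
import Mathlib
import Fermat.Agent.ML.TWMODL_helper2_RealPush
import Fermat.Agent.ML.TWMODL_helper2_EigenSub
import Fermat.Agent.ML.TWMODL_helper2_KillSys
import Fermat.Agent.ML.TWMODL_helper2_Tp

set_option autoImplicit false
set_option linter.unusedSectionVars false
set_option linter.unusedVariables false
set_option linter.style.haveILetI false

namespace Fermat.Agent.ML

open CongruenceSubgroup Matrix ModularCurve.Period IsLocalRing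
open scoped MatrixGroups
open Fermat.Agent.GR Fermat.Agent.LR Fermat.Agent.W1 Fermat.Agent.W1.ES Fermat.Agent.RB
  Fermat.Agent.RB.TWM Fermat.Agent.RB.TWL

/-! ### Transport along an equality of levels -/

section Cast

variable {A : Type*} [AddCommGroup A]

theorem pullHom_gamma0Cast_rfl {a : ℕ} (ψ : Additive (Gamma0 a) →+ A) :
    pullHom (gamma0Cast (rfl : a = a)) A ψ = ψ := by
  refine AddMonoidHom.ext fun γ => ?_
  rfl

theorem pullHom_gamma0Cast_mem {a b : ℕ} (e : a = b) (R : Type*) [Semiring R] [Module R A]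
    {ψ : Additive (Gamma0 b) →+ A} (hψ : ψ ∈ parabolicHoms R (Gamma0 b) A) :
    pullHom (gamma0Cast e) A ψ ∈ parabolicHoms R (Gamma0 a) A := by
  subst e
  rw [pullHom_gamma0Cast_rfl]
  exact hψ

theorem pullHom_gamma0Cast_eq_zero {a b : ℕ} (e : a = b) {ψ : Additive (Gamma0 b) →+ A}
    (h : pullHom (gamma0Cast e) A ψ = 0) : ψ = 0 := by
  subst e
  rwa [pullHom_gamma0Cast_rfl] at h

theorem heckeGrpP_pullHom_gamma0Cast {a b : ℕ} [NeZero a] [NeZero b] (e : a = b) (ℓ : Nat.Primes)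
    (ψ : Additive (Gamma0 b) →+ A) :
    heckeGrpP a ℓ A (pullHom (gamma0Cast e) A ψ) =
      pullHom (gamma0Cast e) A (heckeGrpP b ℓ A ψ) := by
  subst e
  rw [pullHom_gamma0Cast_rfl, pullHom_gamma0Cast_rfl]

end Cast

/-! ### The eigenvector in the new part -/

section Eigen

variable (N q M : ℕ) [NeZero N] [NeZero (N * q)] (hM : M ∣ N) (hq : q.Prime) (hqN : ¬ q ∣ N)
  {Δ₁ Δ₂ : Type} [CommGroup Δ₁] [CommGroup Δ₂] [Fintype Δ₁] [Fintype Δ₂]
  (π σ : (ZMod M)ˣ →* Δ₁ × Δ₂) (hπ : Function.Surjective π)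
variable (O : Type) [CommRing O] [IsDomain O] [CharZero O] [IsDiscreteValuationRing O]
  [IsAdicComplete (maximalIdeal O) O]
variable {I : Type} (ι : I → Nat.Primes) (c : I → O) (hιq : ∀ i, ((ι i : Nat.Primes) : ℕ) ≠ q)
variable {i₀ : I} {n₀ : O}
  (hTS : TwoStage (fun i => opM N M hM π O (ι i)) (parM N M hM π O hπ) c i₀ n₀)
variable {i₀' : I} {n₀' : O}
  (hTS' : TwoStage (fun i => opM (N * q) M (dvd_mul_level N q M hM) π O (ι i))
    (parM (N * q) M (dvd_mul_level N q M hM) π O hπ) c i₀' n₀')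
variable (hst : StabHyp N M hM π hπ O ι c)
  (hst' : StabHyp (N * q) M (dvd_mul_level N q M hM) π hπ O ι c)
variable (Sbig Sbig' : Finset ℕ)
variable {p r d d' n : ℕ} (δ : Fin r → Δ₂)
  (hδ : Function.Bijective fun e : Fin r → Fin (p ^ n) => ∏ k, δ k ^ ((e k : Fin (p ^ n)) : ℕ))
  (hδpow : ∀ k, δ k ^ (p ^ n) = 1)
  (b : Module.Basis (Fin d) (MonoidAlgebra O (Δ₁ × Δ₂)) (HH N M hM π O ι c))
  (b' : Module.Basis (Fin d') (MonoidAlgebra O (Δ₁ × Δ₂))
    (HH (N * q) M (dvd_mul_level N q M hM) π O ι c))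
variable (uQ' : Fin r → (ZMod (N * q))ˣ)
  (hG1' : ∀ k, σ (ZMod.unitsMap (dvd_mul_level N q M hM) (uQ' k)) = ((1 : Δ₁), δ k))

/-- the `q`-new submodule of the side of level `N q`. -/
noncomputable def newK : Submodule O (sideL σ hst' Sbig' δ hδ hδpow b').H :=
  LinearMap.ker (betaS N q M hM hq hqN π σ hπ O ι c hιq hTS' hst hst' Sbig Sbig' δ hδ hδpow b b' 0) ⊓
    LinearMap.ker
      (betaS N q M hM hq hqN π σ hπ O ι c hιq hTS' hst hst' Sbig Sbig' δ hδ hδpow b b' 1)

theorem mem_newK {h : (sideL σ hst' Sbig' δ hδ hδpow b').H} :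
    h ∈ newK N q M hM hq hqN π σ hπ O ι c hιq hTS' hst hst' Sbig Sbig' δ hδ hδpow b b' ↔
      ∀ c' : Fin 2,
        betaS N q M hM hq hqN π σ hπ O ι c hιq hTS' hst hst' Sbig Sbig' δ hδ hδpow b b' c' h =
          0 := by
  unfold newK
  rw [Submodule.mem_inf, LinearMap.mem_ker, LinearMap.mem_ker]
  constructor
  · rintro ⟨h0, h1⟩ c'
    fin_cases c'
    · exact h0
    · exact h1
  · intro hc
    exact ⟨hc 0, hc 1⟩

/-- **the new submodule is stable under the algebra of the side.** -/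
theorem newK_stable (hqS : q ∈ Sbig')
    (t : (sideL σ hst' Sbig' δ hδ hδpow b').alg)
    (h : (sideL σ hst' Sbig' δ hδ hδpow b').H)
    (hh : h ∈ newK N q M hM hq hqN π σ hπ O ι c hιq hTS' hst hst' Sbig Sbig' δ hδ hδpow b b') :
    (t : Module.End O (sideL σ hst' Sbig' δ hδ hδpow b').H) h ∈
      newK N q M hM hq hqN π σ hπ O ι c hιq hTS' hst hst' Sbig Sbig' δ hδ hδpow b b' := by
  obtain ⟨t, ht⟩ := t
  show t h ∈ _
  induction ht using Algebra.adjoin_induction generalizing h with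
  | mem t ht =>
    rw [mem_newK] at hh ⊢
    intro c'
    rcases ht with ⟨ℓ, rfl⟩ | ⟨k, rfl⟩
    · by_cases hℓ : (ℓ : ℕ) ∈ Sbig'
      · rw [sideL_junk σ hst' Sbig' δ hδ hδpow b' ℓ hℓ, LinearMap.zero_apply, map_zero]
      · have hℓq : (ℓ : ℕ) ≠ q := fun h' => hℓ (h' ▸ hqS)
        rw [sideL_Tt_of_notMem σ hst' Sbig' δ hδ hδpow b' hℓ,
          betaS_TqSide N q M hM hq hqN π σ hπ O ι c hιq hTS' hst hst' Sbig Sbig' δ hδ hδpow b b'
            c' ℓ hℓq h, hh c', map_zero]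
    · rw [betaS_g N q M hM hq hqN π σ hπ O ι c hιq hTS' hst hst' Sbig Sbig' δ hδ hδpow b b'
        c' k h, hh c', map_zero]
  | algebraMap a =>
    rw [Module.algebraMap_end_apply]
    exact Submodule.smul_mem _ _ hh
  | add s t hs ht ihs iht =>
    rw [LinearMap.add_apply]
    exact Submodule.add_mem _ (ihs h hh) (iht h hh)
  | mul s t hs ht ihs iht =>
    rw [Module.End.mul_apply]
    exact ihs _ (iht h hh)

include hG1' in
/-- **an eigenvector in the new part**, for a conjugate of a point of the Hecke algebra which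
factors through the action on the new submodule. -/
theorem exists_eigen_newK (hqS : q ∈ Sbig')
    {B : Type} [CommRing B] [IsDomain B] [IsDiscreteValuationRing B] [Algebra O B]
    [Module.Finite O B] (x : (sideL σ hst' Sbig' δ hδ hδpow b').alg →ₐ[O] B)
    (hx : ∀ t : (sideL σ hst' Sbig' δ hδ hδpow b').alg,
      (∀ h : (sideL σ hst' Sbig' δ hδ hδpow b').H, (∀ c' : Fin 2,
        betaS N q M hM hq hqN π σ hπ O ι c hιq hTS' hst hst' Sbig Sbig' δ hδ hδpow b b' c' h =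
          0) → (t : Module.End O (sideL σ hst' Sbig' δ hδ hδpow b').H) h = 0) → x t = 0)
    {F : Type} [Field F] [IsAlgClosed F] [Algebra B F]
    (hBF : Function.Injective (algebraMap B F))
    (g : Gamma0 N) (hg : chiOf N M hM π g = (sigAt M σ q)⁻¹) :
    ∃ (χ : (sideL σ hst' Sbig' δ hδ hδpow b').alg →+* F)
      (Φ : Additive ↥(GammaH (N * q) M (dvd_mul_level N q M hM) π) →+ F), Φ ≠ 0 ∧
      RingHom.ker χ = RingHom.ker ((algebraMap B F).comp
        (x : (sideL σ hst' Sbig' δ hδ hδpow b').alg →+* B)) ∧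
      Φ ∈ parabolicHoms F (GammaH (N * q) M (dvd_mul_level N q M hM) π) F ∧
      (∀ (g' : SL(2, ℤ)) (hg' : g' ∈ Gamma0 (N * q)),
        diamondOnBy (GammaH (N * q) M (dvd_mul_level N q M hM) π)
            (GammaH_normal (N * q) M (dvd_mul_level N q M hM) π) F g' hg' Φ =
          χ (OCC.actA (sideRealL σ hst' Sbig' δ hδ hδpow b' uQ' (fun _ => 1) hG1')
            (chiOf (N * q) M (dvd_mul_level N q M hM) π ⟨g', hg'⟩)) • Φ) ∧
      (∀ (ℓ : Nat.Primes), (ℓ : ℕ) ∉ Sbig' → ∀ (hℓM : Nat.Coprime (ℓ : ℕ) M),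
        heckeOnP (N * q) (GammaH (N * q) M (dvd_mul_level N q M hM) π)
            (Gamma1_le_GammaH (N * q) M (dvd_mul_level N q M hM) π)
            (GammaH_le_Gamma0 (N * q) M (dvd_mul_level N q M hM) π) ℓ F Φ =
          χ ((sideL σ hst' Sbig' δ hδ hδpow b').TtA ℓ *
            OCC.actA (sideRealL σ hst' Sbig' δ hδ hδpow b' uQ' (fun _ => 1) hG1')
              (σ (ZMod.unitOfCoprime (ℓ : ℕ) hℓM))) • Φ) ∧
      pushAH N q M hM hq hqN π F Φ = 0 ∧
      diamondOnBy (GammaH N M hM π) (GammaH_normal N M hM π) F (g : SL(2, ℤ)) g.2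
        (pushBH N q M hM hq hqN π F Φ) = 0 := by
  classical
  set real' := sideRealL σ hst' Sbig' δ hδ hδpow b' uQ' (fun _ => 1) hG1' with hreal'
  letI : Algebra O F := ((algebraMap B F).comp (algebraMap O B)).toAlgebra
  haveI : IsScalarTower O B F := IsScalarTower.of_algebraMap_eq fun _ => rfl
  have hinj : Function.Injective (algebraMap O F) :=
    hBF.comp OCC.algebraMap_injective_of_finite_dvr
  haveI : Module.Finite O (sideL σ hst' Sbig' δ hδ hδpow b').alg :=
    REPT.finite_alg (sideL σ hst' Sbig' δ hδ hδpow b')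
  haveI : Algebra.IsIntegral O (sideL σ hst' Sbig' δ hδ hδpow b').alg :=
    Algebra.IsIntegral.of_finite O _
  obtain ⟨χ, Φ, hΦ0, hker, hχO, hspan, heig⟩ :=
    exists_eigen_character_sub (𝒪 := O) (F := F)
      (G := ↥(GammaH (N * q) M (dvd_mul_level N q M hM) π))
      (R := (sideL σ hst' Sbig' δ hδ hδpow b').alg) hinj
      real'.ι real'.ι_injective (sideL σ hst' Sbig' δ hδ hδpow b').alg.val
      (newK N q M hM hq hqN π σ hπ O ι c hιq hTS' hst hst' Sbig Sbig' δ hδ hδpow b b')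
      (fun t h hh => newK_stable N q M hM hq hqN π σ hπ O ι c hιq hTS' hst hst' Sbig Sbig'
        δ hδ hδpow b b' hqS t h hh)
      ((algebraMap B F).comp (x : (sideL σ hst' Sbig' δ hδ hδpow b').alg →+* B)) (fun c => by
        show algebraMap B F (x (algebraMap O (sideL σ hst' Sbig' δ hδ hδpow b').alg c)) = _
        rw [AlgHom.commutes]
        rfl)
      (fun t ht => by
        show algebraMap B F (x t) = 0
        rw [hx t (fun h hh => ht h ((mem_newK N q M hM hq hqN π σ hπ O ι c hιq hTS' hst hst'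
          Sbig Sbig' δ hδ hδpow b b').2 hh)), map_zero])
  refine ⟨χ, Φ, hΦ0, hker, ?_, ?_, ?_, ?_, ?_⟩
  · -- parabolic
    refine Submodule.span_le.2 ?_ hspan
    rintro _ ⟨h, rfl⟩
    exact comp_mem_parabolicHoms (R := O) (S := F) (algebraMap O F : O →+ F) (real'.ι_par h)
  · intro g' hg'
    refine heig (OCC.actA real' (chiOf (N * q) M (dvd_mul_level N q M hM) π ⟨g', hg'⟩))
      (diamondOnBy (GammaH (N * q) M (dvd_mul_level N q M hM) π)
        (GammaH_normal (N * q) M (dvd_mul_level N q M hM) π) F g' hg')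
      (fun c ψ => rfl) (fun h => ?_)
    show diamondOnBy (GammaH (N * q) M (dvd_mul_level N q M hM) π)
      (GammaH_normal (N * q) M (dvd_mul_level N q M hM) π) F g' hg'
        ((algebraMap O F : O →+ F).comp (real'.ι h)) = _
    rw [diamondOnBy_comp, real'.ι_dia g' hg' h]
    rfl
  · intro ℓ hℓ hℓM
    refine heig ((sideL σ hst' Sbig' δ hδ hδpow b').TtA ℓ *
        OCC.actA real' (σ (ZMod.unitOfCoprime (ℓ : ℕ) hℓM)))
      (heckeOnP (N * q) (GammaH (N * q) M (dvd_mul_level N q M hM) π)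
        (Gamma1_le_GammaH (N * q) M (dvd_mul_level N q M hM) π)
        (GammaH_le_Gamma0 (N * q) M (dvd_mul_level N q M hM) π) ℓ F) (fun c ψ => ?_) (fun h => ?_)
    · exact (heckeOnPₗ (N * q) (GammaH (N * q) M (dvd_mul_level N q M hM) π)
        (Gamma1_le_GammaH (N * q) M (dvd_mul_level N q M hM) π)
        (GammaH_le_Gamma0 (N * q) M (dvd_mul_level N q M hM) π) ℓ F F).map_smul c ψ
    · show heckeOnP (N * q) (GammaH (N * q) M (dvd_mul_level N q M hM) π) _ _ ℓ F
        ((algebraMap O F : O →+ F).comp (real'.ι h)) = _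
      rw [heckeOnP_comp]
      have h1 := real'.ι_Tt ℓ hℓ hℓM (real'.act (σ (ZMod.unitOfCoprime (ℓ : ℕ) hℓM)) h)
      have h2 : real'.act (σ (ZMod.unitOfCoprime (ℓ : ℕ) hℓM))⁻¹
          (real'.act (σ (ZMod.unitOfCoprime (ℓ : ℕ) hℓM)) h) = h := by
        rw [← Module.End.mul_apply, ← map_mul, inv_mul_cancel, map_one, Module.End.one_apply]
      rw [h2] at h1
      rw [← h1]
      rfl
  · -- killed by `α_*`
    refine Submodule.span_induction (p := fun ψ _ => pushAH N q M hM hq hqN π F ψ = 0)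
      ?_ (map_zero _) (fun ψ φ _ _ hψ hφ => by rw [map_add, hψ, hφ, add_zero])
      (fun a ψ _ hψ => by rw [pushAH_smul, hψ, smul_zero]) hspan
    rintro _ ⟨h, rfl⟩
    show pushAH N q M hM hq hqN π F ((algebraMap O F : O →+ F).comp (real'.ι h)) = 0
    rw [pushAH_comp]
    have h0 : real'.ι (h : (sideL σ hst' Sbig' δ hδ hδpow b').H) =
        sideIotaL σ hst' Sbig' δ hδ hδpow b' (h : (sideL σ hst' Sbig' δ hδ hδpow b').H) := rfl
    rw [h0, ← sideIotaL_betaS_zero N q M hM hq hqN π σ hπ O ι c hιq hTS' hst hst' Sbig Sbig'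
      δ hδ hδpow b b' h,
      (mem_newK N q M hM hq hqN π σ hπ O ι c hιq hTS' hst hst' Sbig Sbig' δ hδ hδpow b b').1
        h.2 0, map_zero, AddMonoidHom.comp_zero]
  · -- killed by `β_*`
    refine Submodule.span_induction
      (p := fun ψ _ => diamondOnBy (GammaH N M hM π) (GammaH_normal N M hM π) F
        (g : SL(2, ℤ)) g.2 (pushBH N q M hM hq hqN π F ψ) = 0)
      ?_ (by rw [map_zero, map_zero])
      (fun ψ φ _ _ hψ hφ => by rw [map_add, map_add, hψ, hφ, add_zero])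
      (fun a ψ _ hψ => ?_) hspan
    · rintro _ ⟨h, rfl⟩
      show diamondOnBy (GammaH N M hM π) (GammaH_normal N M hM π) F (g : SL(2, ℤ)) g.2
        (pushBH N q M hM hq hqN π F ((algebraMap O F : O →+ F).comp (real'.ι h))) = 0
      rw [pushBH_comp, diamondOnBy_comp]
      have h0 : real'.ι (h : (sideL σ hst' Sbig' δ hδ hδpow b').H) =
          sideIotaL σ hst' Sbig' δ hδ hδpow b' (h : (sideL σ hst' Sbig' δ hδ hδpow b').H) := rfl
      rw [h0, ← sideIotaL_betaS_one N q M hM hq hqN π σ hπ O ι c hιq hTS' hst hst' Sbig Sbig'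
        δ hδ hδpow b b' g hg h,
        (mem_newK N q M hM hq hqN π σ hπ O ι c hιq hTS' hst hst' Sbig Sbig' δ hδ hδpow b b').1
          h.2 1, map_zero, AddMonoidHom.comp_zero]
    · rw [pushBH_smul]
      have h1 : diamondOnBy (GammaH N M hM π) (GammaH_normal N M hM π) F (g : SL(2, ℤ)) g.2
          (a • pushBH N q M hM hq hqN π F ψ) =
          a • diamondOnBy (GammaH N M hM π) (GammaH_normal N M hM π) F (g : SL(2, ℤ)) g.2
            (pushBH N q M hM hq hqN π F ψ) := rfl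
      rw [h1, hψ, smul_zero]

include hG1' in
/-- **the points of the `q`-new submodule, "kill" form** (level `N M q`). -/
theorem occ_new_step (hTwP : TwPushStatement) [Fact p.Prime] [Finite (ResidueField O)]
    [NeZero M] [NeZero (N * q * M)] [NeZero (N * M * q)]
    (hp2 : p ≠ 2) (hpΔ : IsPGroup p (Δ₁ × Δ₂)) (hsq : Squarefree M)
    (hcop' : Nat.Coprime M (N * q / M)) (hσ : ∀ u, σ u ^ 2 = π u)
    (hSbig' : ∀ ℓ : ℕ, ℓ.Prime → ℓ ∣ N * q * M → ℓ ∈ Sbig') (hqS : q ∈ Sbig')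
    (hqNM : ¬ q ∣ N * M)
    (B : Type) [CommRing B] [IsDomain B] [IsDiscreteValuationRing B] [Algebra O B]
    [Module.Finite O B] (x : (sideL σ hst' Sbig' δ hδ hδpow b').alg →ₐ[O] B)
    (hx : ∀ t : (sideL σ hst' Sbig' δ hδ hδpow b').alg,
      (∀ h : (sideL σ hst' Sbig' δ hδ hδpow b').H, (∀ c' : Fin 2,
        betaS N q M hM hq hqN π σ hπ O ι c hιq hTS' hst hst' Sbig Sbig' δ hδ hδpow b b' c' h =
          0) → (t : Module.End O (sideL σ hst' Sbig' δ hδ hδpow b').H) h = 0) → x t = 0) :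
    ∃ (B' : Type) (_ : CommRing B') (_ : IsDomain B') (_ : IsDiscreteValuationRing B')
      (_ : Algebra B B') (_ : Module.Finite B B') (_ : Function.Injective (algebraMap B B'))
      (L' : Type) (_ : Field L') (_ : Algebra B' L') (_ : IsFractionRing B' L')
      (a' : Nat.Primes → B'),
      (∀ (ℓ : Nat.Primes), (ℓ : ℕ) ∉ Sbig' →
        a' ℓ = algebraMap B B' (x ((sideL σ hst' Sbig' δ hδ hδpow b').TtA ℓ))) ∧
      ∃ v ∈ eigenPar (N * M * q) L' (mapSys B' L' a'), v ≠ 0 ∧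
        pushA (N * M) q hq hqNM L' v = 0 ∧ pushB (N * M) q hq hqNM L' v = 0 := by
  classical
  have hqM : Nat.Coprime q M := coprime_chainPrime_level N q M hM hq hqN
  have hodd : Odd (Nat.card (Δ₁ × Δ₂)) := OCC.odd_card_of_isPGroup hp2 hpΔ
  -- the coefficient field
  set F := AlgebraicClosure (FractionRing B) with hF
  have hBF : Function.Injective (algebraMap B F) := by
    rw [IsScalarTower.algebraMap_eq B (FractionRing B) F]
    exact (algebraMap (FractionRing B) F).injective.comp (IsFractionRing.injective B _)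
  obtain ⟨g, hg⟩ := chiOf_surjective N M hM π hπ (sigAt M σ q)⁻¹
  set real' := sideRealL σ hst' Sbig' δ hδ hδpow b' uQ' (fun _ => 1) hG1' with hreal'
  obtain ⟨χ, Φ, hΦ0, hker, hpar, hdia, hhecke, hkA, hkB⟩ :=
    exists_eigen_newK N q M hM hq hqN π σ hπ O ι c hιq hTS' hst hst' Sbig Sbig' δ hδ hδpow b b'
      uQ' hG1' hqS x hx (F := F) hBF g hg
  obtain ⟨gχ, gx, hgχ, hgx, hgχm, hgxm⟩ := OCC.exists_two_embeddings x χ hker
  haveI : (RingHom.ker χ).IsPrime := RingHom.ker_isPrime χ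
  haveI : IsDomain ((sideL σ hst' Sbig' δ hδ hδpow b').alg ⧸ RingHom.ker χ) :=
    Ideal.Quotient.isDomain _
  have hinjOB : Function.Injective (algebraMap O B) := OCC.algebraMap_injective_of_finite_dvr
  haveI : CharZero B := charZero_of_injective_ringHom hinjOB
  haveI : CharZero F := charZero_of_injective_ringHom hBF
  -- the twisting transfers
  obtain ⟨Xtw', hXtw'⟩ := twExistsStatement (N * q) M (dvd_mul_level N q M hM) π σ hπ hσ
  obtain ⟨Xtw, hXtw⟩ := twExistsStatement N M hM π σ hπ hσ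
  set Tw := Xtw'.transferGrp F Φ with hTw
  have hTwpar : Tw ∈ parabolicHoms F (Gamma0 (N * q * M)) F :=
    twParabolicStatement (N * q) M (dvd_mul_level N q M hM) π σ Xtw' hXtw' F F Φ hpar
  set ψχ : Δ₁ × Δ₂ →* Fˣ :=
    ((χ : (sideL σ hst' Sbig' δ hδ hδpow b').alg →* F).comp (OCC.actHom real')).toHomUnits
    with hψχ
  have hTw0 : Tw ≠ 0 := by
    intro h0
    refine hΦ0 (twInjStatement hodd (N * q) M (dvd_mul_level N q M hM) hsq hcop' π σ hπ hσ
      (GammaH_normal (N * q) M (dvd_mul_level N q M hM) π) Xtw' hXtw' F ψχ Φ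
      (fun g' hg' => ?_) h0)
    rw [hdia g' hg']
    rfl
  have hcop : ∀ ℓ : Nat.Primes, (ℓ : ℕ) ∉ Sbig' →
      ¬ (ℓ : ℕ) ∣ N * q * M ∧ Nat.Coprime (ℓ : ℕ) M := by
    intro ℓ hℓS
    have h1 : ¬ (ℓ : ℕ) ∣ N * q * M := fun h => hℓS (hSbig' ℓ ℓ.2 h)
    exact ⟨h1, (Nat.Prime.coprime_iff_not_dvd ℓ.2).2 fun h' => h1 (Dvd.dvd.mul_left h' (N * q))⟩
  have heigTw : ∀ ℓ : Nat.Primes, (ℓ : ℕ) ∉ Sbig' →
      GR.heckeGrpP (N * q * M) ℓ F Tw = χ ((sideL σ hst' Sbig' δ hδ hδpow b').TtA ℓ) • Tw := by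
    intro ℓ hℓS
    obtain ⟨hℓN, hℓM⟩ := hcop ℓ hℓS
    obtain ⟨⟨g', hg'⟩, hgχH⟩ := chiOf_surjective (N * q) M (dvd_mul_level N q M hM) π hπ
      (σ (ZMod.unitOfCoprime (ℓ : ℕ) hℓM))⁻¹
    have h1 := twHeckeStatement (N * q) M (dvd_mul_level N q M hM) π σ hσ
      (GammaH_normal (N * q) M (dvd_mul_level N q M hM) π) Xtw' hXtw' ℓ hℓN hℓM g' hg'
      (by rw [hgχH, inv_mul_cancel]) F Φ
    rw [hTw, h1, hdia g' hg', hgχH]
    have h2 := (heckeOnPₗ (N * q) (GammaH (N * q) M (dvd_mul_level N q M hM) π)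
      (Gamma1_le_GammaH (N * q) M (dvd_mul_level N q M hM) π)
      (GammaH_le_Gamma0 (N * q) M (dvd_mul_level N q M hM) π) ℓ F F).map_smul
      (χ (OCC.actA real' (σ (ZMod.unitOfCoprime (ℓ : ℕ) hℓM))⁻¹)) Φ
    rw [heckeOnPₗ_apply, heckeOnPₗ_apply] at h2
    rw [h2, hhecke ℓ hℓS hℓM, smul_smul, ← map_mul]
    have h3 := (Xtw'.transferGrpₗ F F).map_smul
      (χ (OCC.actA real' (σ (ZMod.unitOfCoprime (ℓ : ℕ) hℓM))⁻¹ *
        ((sideL σ hst' Sbig' δ hδ hδpow b').TtA ℓ *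
          OCC.actA real' (σ (ZMod.unitOfCoprime (ℓ : ℕ) hℓM))))) Φ
    rw [TransferDatum.transferGrpₗ_apply, TransferDatum.transferGrpₗ_apply] at h3
    rw [h3]
    congr 2
    rw [mul_comm ((sideL σ hst' Sbig' δ hδ hδpow b').TtA ℓ), ← mul_assoc, ← OCC.actA_mul,
      inv_mul_cancel, OCC.actA_one, one_mul]
  -- [TWPUSH]
  obtain ⟨hpA, hpB⟩ := hTwP N q M hM hq hqN hqNM π σ hπ hσ (GammaH_normal N M hM π) Xtw' Xtw
    hXtw' hXtw F Φ
  set w := pullHom (gamma0Cast (Nat.mul_right_comm N M q)) F Tw with hw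
  have hwA : pushA (N * M) q hq hqNM F w = 0 := by
    rw [hpA, hkA, map_zero]
  have hwB : pushB (N * M) q hq hqNM F w = 0 := by
    rw [hpB hqM (g : SL(2, ℤ)) g.2 (by
      have : (⟨(g : SL(2, ℤ)), g.2⟩ : Gamma0 N) = g := rfl
      rw [this, hg, sigAt_of_coprime M σ hqM, inv_mul_cancel]), hkB, map_zero]
  have hwpar : w ∈ parabolicHoms F (Gamma0 (N * M * q)) F :=
    pullHom_gamma0Cast_mem (Nat.mul_right_comm N M q) F hTwpar
  have hw0 : w ≠ 0 := fun h0 => hTw0 (pullHom_gamma0Cast_eq_zero (Nat.mul_right_comm N M q) h0)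
  have hweig : ∀ ℓ : Nat.Primes, (ℓ : ℕ) ∉ Sbig' →
      GR.heckeGrpP (N * M * q) ℓ F w = χ ((sideL σ hst' Sbig' δ hδ hδpow b').TtA ℓ) • w := by
    intro ℓ hℓS
    rw [hw, heckeGrpP_pullHom_gamma0Cast, heigTw ℓ hℓS]
    rfl
  -- occurrence with the character `χ`, then with `x`
  have hocc : eigenKill (N * M) q hq hqNM F (primesOutside (Sbig' : Set ℕ))
      (fun ℓ => gχ (Ideal.Quotient.mk _ ((sideL σ hst' Sbig' δ hδ hδpow b').TtA ℓ))) ≠ ⊥ := by
    rw [Submodule.ne_bot_iff]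
    refine ⟨w, ?_, hw0⟩
    rw [mem_eigenKill]
    refine ⟨⟨hwpar, fun ℓ hℓ => ?_⟩, hwA, hwB⟩
    show _ = gχ (Ideal.Quotient.mk _ ((sideL σ hst' Sbig' δ hδ hδpow b').TtA ℓ)) • w
    rw [hgχm]
    exact hweig ℓ (fun h => hℓ (Finset.mem_coe.2 h))
  have hocc' := eigenKill_ne_bot_of_domain (N := N * M) (q := q) (hq := hq) (hqN := hqNM)
    gχ gx hgχ hgx (primesOutside (Sbig' : Set ℕ))
    (fun ℓ => Ideal.Quotient.mk _ ((sideL σ hst' Sbig' δ hδ hδpow b').TtA ℓ)) hocc
  -- descent to the fraction field of `B`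
  haveI : CharZero (FractionRing B) :=
    charZero_of_injective_algebraMap (IsFractionRing.injective B (FractionRing B))
  have hoccL : eigenKill (N * M) q hq hqNM (FractionRing B) (primesOutside (Sbig' : Set ℕ))
      (mapSys B (FractionRing B)
        (fun ℓ => x ((sideL σ hst' Sbig' δ hδ hδpow b').TtA ℓ))) ≠ ⊥ := by
    have h1 := eigenKill_ne_bot_of_field (N := N * M) (q := q) (hq := hq) (hqN := hqNM)
      (algebraMap (FractionRing B) F) (RingHom.id (FractionRing B))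
      (primesOutside (Sbig' : Set ℕ))
      (mapSys B (FractionRing B) (fun ℓ => x ((sideL σ hst' Sbig' δ hδ hδpow b').TtA ℓ))) (by
        have e : (fun ℓ => algebraMap (FractionRing B) F (mapSys B (FractionRing B)
            (fun ℓ => x ((sideL σ hst' Sbig' δ hδ hδpow b').TtA ℓ)) ℓ)) =
            fun ℓ => gx (Ideal.Quotient.mk _ ((sideL σ hst' Sbig' δ hδ hδpow b').TtA ℓ)) := by
          funext ℓ
          rw [hgxm, IsScalarTower.algebraMap_apply B (FractionRing B) F]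
          rfl
        rw [e]
        exact hocc')
    exact h1
  obtain ⟨i1, i2, i3⟩ := finite_dvr_instances (𝒪 := O) (B := B)
  haveI := i1
  haveI := i2
  have hfinset : ((primesOutside (Sbig' : Set ℕ))ᶜ).Finite := by
    have h1 : (primesOutside (Sbig' : Set ℕ))ᶜ = {ℓ : Nat.Primes | (ℓ : ℕ) ∈ Sbig'} := by
      ext ℓ
      rw [Set.mem_compl_iff, mem_primesOutside, not_not, Set.mem_setOf_eq, Finset.mem_coe]
    rw [h1]
    refine Set.Finite.of_finite_image (f := fun ℓ : Nat.Primes => (ℓ : ℕ)) ?_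
      (fun x _ y _ hxy => Subtype.ext hxy)
    refine Sbig'.finite_toSet.subset ?_
    rintro _ ⟨ℓ, hℓ, rfl⟩
    exact hℓ
  obtain ⟨B', j1, j2, j3, j4, j5, j6, j7, j8, j9, hinj, L', k1, k2, k3, a', hkill, ha'⟩ :=
    exists_system_kill (N := N * M) (q := q) (hq := hq) (hqN := hqNM)
      (primesOutside (Sbig' : Set ℕ)) hfinset B (FractionRing B)
      (fun ℓ => x ((sideL σ hst' Sbig' δ hδ hδpow b').TtA ℓ)) hoccL
  exact ⟨B', j1, j2, j3, j7, j8, hinj, L', k1, k2, k3, a',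
    fun ℓ hℓ => ha' ℓ (fun h => hℓ (Finset.mem_coe.1 h)), hkill⟩

end Eigen

end Fermat.Agent.ML
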