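/-
PROJECT ML (S59) — [TWMOD-LX] (helper2), part 3: **the "kill" clause at a prime `q ∥ N q` for a
realised side, abstract form** (generalisation of `occ_new_step`, `ML/TWMODL_helper2_OccNew`, to an
arbitrary realised side `SideReal X (N q) M …` — any character of `Δ₁`, any `Sig` — and an
arbitrary `X.alg`-stable submodule `K ⊆ X.H` whose realisation is killed by `pushAH`, `pushBH`).

A point `x` of the Hecke algebra of the side which factors through the action on `K` has an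
eigenvector `Φ ∈ Hom_par(Γ_H(N q), F)` in the `F`-span of `K`, killed by `pushAH`, `pushBH`; by
[TWPUSH] its twist `Tw' Φ ∈ Hom_par(Γ₀(N M q), F)` is killed by `pushA`, `pushB`; so the system of
`x` occurs in the new part (`KillSys`) and extends to a full system with a killed eigenvector over a
finite extension.
-/
import Mathlib
import Fermat.Agent.ML.TWMODL_helper2_OccNew

set_option autoImplicit false
set_option linter.unusedSectionVars false
set_option linter.unusedVariables false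
set_option linter.style.haveILetI false

namespace Fermat.Agent.ML

open CongruenceSubgroup Matrix ModularCurve.Period IsLocalRing
open scoped MatrixGroups
open Fermat.Agent.GR Fermat.Agent.LR Fermat.Agent.W1 Fermat.Agent.W1.ES Fermat.Agent.RB
  Fermat.Agent.RB.TWM Fermat.Agent.RB.TWL

section Kill

variable (N q M : ℕ) [NeZero N] [NeZero (N * q)] (hM : M ∣ N) (hq : q.Prime) (hqN : ¬ q ∣ N)
  {Δ : Type} [CommGroup Δ] [Fintype Δ] (π σ : (ZMod M)ˣ →* Δ) (hπ : Function.Surjective π)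
variable {O : Type} [CommRing O] [IsDomain O] [CharZero O] [IsDiscreteValuationRing O]
  [IsAdicComplete (maximalIdeal O) O]
variable {p r d n : ℕ} {X : TWModSide O p r d n} {Sbig' : Finset ℕ} {z : O} {Sig : Finset ℕ}
  {uQ' : Fin r → (ZMod (N * q))ˣ} {uS' : ℕ → (ZMod (N * q))ˣ}
  (real' : SideReal X (N * q) M (dvd_mul_level N q M hM) π σ
    (GammaH_normal (N * q) M (dvd_mul_level N q M hM) π) Sbig' z Sig uQ' uS')
  (K : Submodule O X.H)
  (hK : ∀ (t : X.alg) (h : X.H), h ∈ K → (t : Module.End O X.H) h ∈ K)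
  (hKA : ∀ h ∈ K, pushAH N q M hM hq hqN π O (real'.ι h) = 0)
  (hKB : ∀ h ∈ K, pushBH N q M hM hq hqN π O (real'.ι h) = 0)

include hK hKA hKB in
/-- **an eigenvector in the span of `K`**, for a conjugate of a point of the Hecke algebra which
factors through the action on `K`. -/
theorem exists_eigen_kill
    {B : Type} [CommRing B] [IsDomain B] [IsDiscreteValuationRing B] [Algebra O B]
    [Module.Finite O B] (x : X.alg →ₐ[O] B)
    (hx : ∀ t : X.alg, (∀ h : X.H, h ∈ K → (t : Module.End O X.H) h = 0) → x t = 0)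
    {F : Type} [Field F] [IsAlgClosed F] [Algebra B F]
    (hBF : Function.Injective (algebraMap B F)) :
    ∃ (χ : X.alg →+* F)
      (Φ : Additive ↥(GammaH (N * q) M (dvd_mul_level N q M hM) π) →+ F), Φ ≠ 0 ∧
      RingHom.ker χ = RingHom.ker ((algebraMap B F).comp (x : X.alg →+* B)) ∧
      Φ ∈ parabolicHoms F (GammaH (N * q) M (dvd_mul_level N q M hM) π) F ∧
      (∀ (g' : SL(2, ℤ)) (hg' : g' ∈ Gamma0 (N * q)),
        diamondOnBy (GammaH (N * q) M (dvd_mul_level N q M hM) π)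
            (GammaH_normal (N * q) M (dvd_mul_level N q M hM) π) F g' hg' Φ =
          χ (OCC.actA real' (chiOf (N * q) M (dvd_mul_level N q M hM) π ⟨g', hg'⟩)) • Φ) ∧
      (∀ (ℓ : Nat.Primes), (ℓ : ℕ) ∉ Sbig' → ∀ (hℓM : Nat.Coprime (ℓ : ℕ) M),
        heckeOnP (N * q) (GammaH (N * q) M (dvd_mul_level N q M hM) π)
            (Gamma1_le_GammaH (N * q) M (dvd_mul_level N q M hM) π)
            (GammaH_le_Gamma0 (N * q) M (dvd_mul_level N q M hM) π) ℓ F Φ =
          χ (X.TtA ℓ * OCC.actA real' (σ (ZMod.unitOfCoprime (ℓ : ℕ) hℓM))) • Φ) ∧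
      pushAH N q M hM hq hqN π F Φ = 0 ∧ pushBH N q M hM hq hqN π F Φ = 0 := by
  classical
  letI : Algebra O F := ((algebraMap B F).comp (algebraMap O B)).toAlgebra
  haveI : IsScalarTower O B F := IsScalarTower.of_algebraMap_eq fun _ => rfl
  have hinj : Function.Injective (algebraMap O F) :=
    hBF.comp OCC.algebraMap_injective_of_finite_dvr
  haveI : Module.Finite O X.alg := REPT.finite_alg X
  haveI : Algebra.IsIntegral O X.alg := Algebra.IsIntegral.of_finite O _
  obtain ⟨χ, Φ, hΦ0, hker, hχO, hspan, heig⟩ :=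
    exists_eigen_character_sub (𝒪 := O) (F := F)
      (G := ↥(GammaH (N * q) M (dvd_mul_level N q M hM) π))
      (R := X.alg) hinj real'.ι real'.ι_injective X.alg.val K
      (fun t h hh => hK t h hh)
      ((algebraMap B F).comp (x : X.alg →+* B)) (fun c => by
        show algebraMap B F (x (algebraMap O X.alg c)) = _
        rw [AlgHom.commutes]
        rfl)
      (fun t ht => by
        show algebraMap B F (x t) = 0
        rw [hx t (fun h hh => ht h hh), map_zero])
  refine ⟨χ, Φ, hΦ0, hker, ?_, ?_, ?_, ?_, ?_⟩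
  · -- parabolic
    refine Submodule.span_le.2 ?_ hspan
    rintro _ ⟨h, rfl⟩
    exact comp_mem_parabolicHoms (R := O) (S := F) (algebraMap O F : O →+ F) (real'.ι_par h)
  · intro g' hg'
    refine heig (OCC.actA real' (chiOf (N * q) M (dvd_mul_level N q M hM) π ⟨g', hg'⟩))
      (diamondOnBy (GammaH (N * q) M (dvd_mul_level N q M hM) π)
        (GammaH_normal (N * q) M (dvd_mul_level N q M hM) π) F g' hg')
      (fun c ψ => rfl) (fun h => ?_)
    show diamondOnBy (GammaH (N * q) M (dvd_mul_level N q M hM) π)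
      (GammaH_normal (N * q) M (dvd_mul_level N q M hM) π) F g' hg'
        ((algebraMap O F : O →+ F).comp (real'.ι h)) = _
    rw [diamondOnBy_comp, real'.ι_dia g' hg' h]
    rfl
  · intro ℓ hℓ hℓM
    refine heig (X.TtA ℓ * OCC.actA real' (σ (ZMod.unitOfCoprime (ℓ : ℕ) hℓM)))
      (heckeOnP (N * q) (GammaH (N * q) M (dvd_mul_level N q M hM) π)
        (Gamma1_le_GammaH (N * q) M (dvd_mul_level N q M hM) π)
        (GammaH_le_Gamma0 (N * q) M (dvd_mul_level N q M hM) π) ℓ F) (fun c ψ => ?_) (fun h => ?_)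
    · exact (heckeOnPₗ (N * q) (GammaH (N * q) M (dvd_mul_level N q M hM) π)
        (Gamma1_le_GammaH (N * q) M (dvd_mul_level N q M hM) π)
        (GammaH_le_Gamma0 (N * q) M (dvd_mul_level N q M hM) π) ℓ F F).map_smul c ψ
    · show heckeOnP (N * q) (GammaH (N * q) M (dvd_mul_level N q M hM) π) _ _ ℓ F
        ((algebraMap O F : O →+ F).comp (real'.ι h)) = _
      rw [heckeOnP_comp]
      have h1 := real'.ι_Tt ℓ hℓ hℓM (real'.act (σ (ZMod.unitOfCoprime (ℓ : ℕ) hℓM)) h)
      have h2 : real'.act (σ (ZMod.unitOfCoprime (ℓ : ℕ) hℓM))⁻¹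
          (real'.act (σ (ZMod.unitOfCoprime (ℓ : ℕ) hℓM)) h) = h := by
        rw [← Module.End.mul_apply, ← map_mul, inv_mul_cancel, map_one, Module.End.one_apply]
      rw [h2] at h1
      rw [← h1]
      rfl
  · -- killed by `α_*`
    refine Submodule.span_induction (p := fun ψ _ => pushAH N q M hM hq hqN π F ψ = 0)
      ?_ (map_zero _) (fun ψ φ _ _ hψ hφ => by rw [map_add, hψ, hφ, add_zero])
      (fun a ψ _ hψ => by rw [pushAH_smul, hψ, smul_zero]) hspan
    rintro _ ⟨h, rfl⟩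
    show pushAH N q M hM hq hqN π F ((algebraMap O F : O →+ F).comp (real'.ι h)) = 0
    rw [pushAH_comp, hKA h h.2, AddMonoidHom.comp_zero]
  · -- killed by `β_*`
    refine Submodule.span_induction (p := fun ψ _ => pushBH N q M hM hq hqN π F ψ = 0)
      ?_ (map_zero _) (fun ψ φ _ _ hψ hφ => by rw [map_add, hψ, hφ, add_zero])
      (fun a ψ _ hψ => by rw [pushBH_smul, hψ, smul_zero]) hspan
    rintro _ ⟨h, rfl⟩
    show pushBH N q M hM hq hqN π F ((algebraMap O F : O →+ F).comp (real'.ι h)) = 0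
    rw [pushBH_comp, hKB h h.2, AddMonoidHom.comp_zero]

include hK hKA hKB hπ in
/-- **the "kill" clause for a realised side** (level `N M q`). -/
theorem occ_kill_of_real (hTwP : TwPushStatement) [Fact p.Prime] [Finite (ResidueField O)]
    [NeZero M] [NeZero (N * q * M)] [NeZero (N * M * q)]
    (hp2 : p ≠ 2) (hpΔ : IsPGroup p Δ) (hsq : Squarefree M)
    (hcop' : Nat.Coprime M (N * q / M)) (hσ : ∀ u, σ u ^ 2 = π u)
    (hSbig' : ∀ ℓ : ℕ, ℓ.Prime → ℓ ∣ N * q * M → ℓ ∈ Sbig')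
    (hqNM : ¬ q ∣ N * M)
    (B : Type) [CommRing B] [IsDomain B] [IsDiscreteValuationRing B] [Algebra O B]
    [Module.Finite O B] (x : X.alg →ₐ[O] B)
    (hx : ∀ t : X.alg, (∀ h : X.H, h ∈ K → (t : Module.End O X.H) h = 0) → x t = 0) :
    ∃ (B' : Type) (_ : CommRing B') (_ : IsDomain B') (_ : IsDiscreteValuationRing B')
      (_ : Algebra B B') (_ : Module.Finite B B') (_ : Function.Injective (algebraMap B B'))
      (L' : Type) (_ : Field L') (_ : Algebra B' L') (_ : IsFractionRing B' L')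
      (a' : Nat.Primes → B'),
      (∀ (ℓ : Nat.Primes), (ℓ : ℕ) ∉ Sbig' → a' ℓ = algebraMap B B' (x (X.TtA ℓ))) ∧
      ∃ v ∈ eigenPar (N * M * q) L' (mapSys B' L' a'), v ≠ 0 ∧
        pushA (N * M) q hq hqNM L' v = 0 ∧ pushB (N * M) q hq hqNM L' v = 0 := by
  classical
  have hqM : Nat.Coprime q M := coprime_chainPrime_level N q M hM hq hqN
  have hodd : Odd (Nat.card Δ) := OCC.odd_card_of_isPGroup hp2 hpΔ
  -- the coefficient field
  set F := AlgebraicClosure (FractionRing B) with hF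
  have hBF : Function.Injective (algebraMap B F) := by
    rw [IsScalarTower.algebraMap_eq B (FractionRing B) F]
    exact (algebraMap (FractionRing B) F).injective.comp (IsFractionRing.injective B _)
  obtain ⟨g, hg⟩ := chiOf_surjective N M hM π hπ (σ (ZMod.unitOfCoprime q hqM))⁻¹
  obtain ⟨χ, Φ, hΦ0, hker, hpar, hdia, hhecke, hkA, hkB⟩ :=
    exists_eigen_kill N q M hM hq hqN π σ real' K hK hKA hKB x hx (F := F) hBF
  obtain ⟨gχ, gx, hgχ, hgx, hgχm, hgxm⟩ := OCC.exists_two_embeddings x χ hker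
  haveI : (RingHom.ker χ).IsPrime := RingHom.ker_isPrime χ
  haveI : IsDomain (X.alg ⧸ RingHom.ker χ) := Ideal.Quotient.isDomain _
  have hinjOB : Function.Injective (algebraMap O B) := OCC.algebraMap_injective_of_finite_dvr
  haveI : CharZero B := charZero_of_injective_ringHom hinjOB
  haveI : CharZero F := charZero_of_injective_ringHom hBF
  -- the twisting transfers
  obtain ⟨Xtw', hXtw'⟩ := twExistsStatement (N * q) M (dvd_mul_level N q M hM) π σ hπ hσ
  obtain ⟨Xtw, hXtw⟩ := twExistsStatement N M hM π σ hπ hσ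
  set Tw := Xtw'.transferGrp F Φ with hTw
  have hTwpar : Tw ∈ parabolicHoms F (Gamma0 (N * q * M)) F :=
    twParabolicStatement (N * q) M (dvd_mul_level N q M hM) π σ Xtw' hXtw' F F Φ hpar
  set ψχ : Δ →* Fˣ := ((χ : X.alg →* F).comp (OCC.actHom real')).toHomUnits with hψχ
  have hTw0 : Tw ≠ 0 := by
    intro h0
    refine hΦ0 (twInjStatement hodd (N * q) M (dvd_mul_level N q M hM) hsq hcop' π σ hπ hσ
      (GammaH_normal (N * q) M (dvd_mul_level N q M hM) π) Xtw' hXtw' F ψχ Φ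
      (fun g' hg' => ?_) h0)
    rw [hdia g' hg']
    rfl
  have hcop : ∀ ℓ : Nat.Primes, (ℓ : ℕ) ∉ Sbig' →
      ¬ (ℓ : ℕ) ∣ N * q * M ∧ Nat.Coprime (ℓ : ℕ) M := by
    intro ℓ hℓS
    have h1 : ¬ (ℓ : ℕ) ∣ N * q * M := fun h => hℓS (hSbig' ℓ ℓ.2 h)
    exact ⟨h1, (Nat.Prime.coprime_iff_not_dvd ℓ.2).2 fun h' => h1 (Dvd.dvd.mul_left h' (N * q))⟩
  have heigTw : ∀ ℓ : Nat.Primes, (ℓ : ℕ) ∉ Sbig' →
      GR.heckeGrpP (N * q * M) ℓ F Tw = χ (X.TtA ℓ) • Tw := by
    intro ℓ hℓS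
    obtain ⟨hℓN, hℓM⟩ := hcop ℓ hℓS
    obtain ⟨⟨g', hg'⟩, hgχH⟩ := chiOf_surjective (N * q) M (dvd_mul_level N q M hM) π hπ
      (σ (ZMod.unitOfCoprime (ℓ : ℕ) hℓM))⁻¹
    have h1 := twHeckeStatement (N * q) M (dvd_mul_level N q M hM) π σ hσ
      (GammaH_normal (N * q) M (dvd_mul_level N q M hM) π) Xtw' hXtw' ℓ hℓN hℓM g' hg'
      (by rw [hgχH, inv_mul_cancel]) F Φ
    rw [hTw, h1, hdia g' hg', hgχH]
    have h2 := (heckeOnPₗ (N * q) (GammaH (N * q) M (dvd_mul_level N q M hM) π)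
      (Gamma1_le_GammaH (N * q) M (dvd_mul_level N q M hM) π)
      (GammaH_le_Gamma0 (N * q) M (dvd_mul_level N q M hM) π) ℓ F F).map_smul
      (χ (OCC.actA real' (σ (ZMod.unitOfCoprime (ℓ : ℕ) hℓM))⁻¹)) Φ
    rw [heckeOnPₗ_apply, heckeOnPₗ_apply] at h2
    rw [h2, hhecke ℓ hℓS hℓM, smul_smul, ← map_mul]
    have h3 := (Xtw'.transferGrpₗ F F).map_smul
      (χ (OCC.actA real' (σ (ZMod.unitOfCoprime (ℓ : ℕ) hℓM))⁻¹ *
        (X.TtA ℓ * OCC.actA real' (σ (ZMod.unitOfCoprime (ℓ : ℕ) hℓM))))) Φ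
    rw [TransferDatum.transferGrpₗ_apply, TransferDatum.transferGrpₗ_apply] at h3
    rw [h3]
    congr 2
    rw [mul_comm (X.TtA ℓ), ← mul_assoc, ← OCC.actA_mul, inv_mul_cancel, OCC.actA_one, one_mul]
  -- [TWPUSH]
  obtain ⟨hpA, hpB⟩ := hTwP N q M hM hq hqN hqNM π σ hπ hσ (GammaH_normal N M hM π) Xtw' Xtw
    hXtw' hXtw F Φ
  set w := pullHom (gamma0Cast (Nat.mul_right_comm N M q)) F Tw with hw
  have hwA : pushA (N * M) q hq hqNM F w = 0 := by
    rw [hpA, hkA, map_zero]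
  have hwB : pushB (N * M) q hq hqNM F w = 0 := by
    rw [hpB hqM (g : SL(2, ℤ)) g.2 (by
      have : (⟨(g : SL(2, ℤ)), g.2⟩ : Gamma0 N) = g := rfl
      rw [this, hg, inv_mul_cancel]), hkB, map_zero, map_zero]
  have hwpar : w ∈ parabolicHoms F (Gamma0 (N * M * q)) F :=
    pullHom_gamma0Cast_mem (Nat.mul_right_comm N M q) F hTwpar
  have hw0 : w ≠ 0 := fun h0 => hTw0 (pullHom_gamma0Cast_eq_zero (Nat.mul_right_comm N M q) h0)
  have hweig : ∀ ℓ : Nat.Primes, (ℓ : ℕ) ∉ Sbig' →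
      GR.heckeGrpP (N * M * q) ℓ F w = χ (X.TtA ℓ) • w := by
    intro ℓ hℓS
    rw [hw, heckeGrpP_pullHom_gamma0Cast, heigTw ℓ hℓS]
    rfl
  -- occurrence with the character `χ`, then with `x`
  have hocc : eigenKill (N * M) q hq hqNM F (primesOutside (Sbig' : Set ℕ))
      (fun ℓ => gχ (Ideal.Quotient.mk _ (X.TtA ℓ))) ≠ ⊥ := by
    rw [Submodule.ne_bot_iff]
    refine ⟨w, ?_, hw0⟩
    rw [mem_eigenKill]
    refine ⟨⟨hwpar, fun ℓ hℓ => ?_⟩, hwA, hwB⟩
    show _ = gχ (Ideal.Quotient.mk _ (X.TtA ℓ)) • w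
    rw [hgχm]
    exact hweig ℓ (fun h => hℓ (Finset.mem_coe.2 h))
  have hocc' := eigenKill_ne_bot_of_domain (N := N * M) (q := q) (hq := hq) (hqN := hqNM)
    gχ gx hgχ hgx (primesOutside (Sbig' : Set ℕ))
    (fun ℓ => Ideal.Quotient.mk _ (X.TtA ℓ)) hocc
  -- descent to the fraction field of `B`
  haveI : CharZero (FractionRing B) :=
    charZero_of_injective_algebraMap (IsFractionRing.injective B (FractionRing B))
  have hoccL : eigenKill (N * M) q hq hqNM (FractionRing B) (primesOutside (Sbig' : Set ℕ))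
      (mapSys B (FractionRing B) (fun ℓ => x (X.TtA ℓ))) ≠ ⊥ := by
    have h1 := eigenKill_ne_bot_of_field (N := N * M) (q := q) (hq := hq) (hqN := hqNM)
      (algebraMap (FractionRing B) F) (RingHom.id (FractionRing B))
      (primesOutside (Sbig' : Set ℕ))
      (mapSys B (FractionRing B) (fun ℓ => x (X.TtA ℓ))) (by
        have e : (fun ℓ => algebraMap (FractionRing B) F (mapSys B (FractionRing B)
            (fun ℓ => x (X.TtA ℓ)) ℓ)) =
            fun ℓ => gx (Ideal.Quotient.mk _ (X.TtA ℓ)) := by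
          funext ℓ
          rw [hgxm, IsScalarTower.algebraMap_apply B (FractionRing B) F]
          rfl
        rw [e]
        exact hocc')
    exact h1
  obtain ⟨i1, i2, i3⟩ := finite_dvr_instances (𝒪 := O) (B := B)
  haveI := i1
  haveI := i2
  have hfinset : ((primesOutside (Sbig' : Set ℕ))ᶜ).Finite := by
    have h1 : (primesOutside (Sbig' : Set ℕ))ᶜ = {ℓ : Nat.Primes | (ℓ : ℕ) ∈ Sbig'} := by
      ext ℓ
      rw [Set.mem_compl_iff, mem_primesOutside, not_not, Set.mem_ofPred_eq, Finset.mem_coe]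
    rw [h1]
    refine Set.Finite.of_finite_image (f := fun ℓ : Nat.Primes => (ℓ : ℕ)) ?_
      (fun x _ y _ hxy => Subtype.ext hxy)
    refine Sbig'.finite_toSet.subset ?_
    rintro _ ⟨ℓ, hℓ, rfl⟩
    exact hℓ
  obtain ⟨B', j1, j2, j3, j4, j5, j6, j7, j8, j9, hinj, L', k1, k2, k3, a', hkill, ha'⟩ :=
    exists_system_kill (N := N * M) (q := q) (hq := hq) (hqN := hqNM)
      (primesOutside (Sbig' : Set ℕ)) hfinset B (FractionRing B)
      (fun ℓ => x (X.TtA ℓ)) hoccL
  exact ⟨B', j1, j2, j3, j7, j8, hinj, L', k1, k2, k3, a',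
    fun ℓ hℓ => ha' ℓ (fun h => hℓ (Finset.mem_coe.1 h)), hkill⟩

end Kill

end Fermat.Agent.ML
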