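/-
PROJECT ML (S59) — [TWMOD-LX] (helper2), part 4: **mode `peuNew`**: the two sides of level
`N = M₀ p` when the module of level zero at level `M₀` vanishes: `TWModXPeuStatement`
(`ML/IFACE_helper2_TWModXPeu`) from [TWPUSH].

* `primaryPartR_vanish`: control + Nakayama over the local ring `𝒪[Δ]`: if the primary part of
  `Hom_par(Γ₀(Nt₀), 𝒪)` vanishes, so does the primary part of `H¹(Γ₀(Nt₀), 𝒪[Δ])`;
* `sideX_killAt`: then both degeneracy traces kill every concrete side of level `Nt₀ q`, and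
  `occ_kill_of_real` (`ML/TWMODX_helper2_Kill`) gives the "kill" clause at every point;
* `exists_twModLevelX_peu`: the assembly (`nonempty_twModLevelX_main` + the two `KillAt`).
-/
import Mathlib
import Fermat.Agent.ML.TWMODX_helper2_Kill
import Fermat.Agent.ML.TWMODX_helper2_Final
import Fermat.Agent.ML.IFACE_helper2_TWModXPeu

set_option autoImplicit false
set_option linter.unusedSectionVars false
set_option linter.unusedVariables false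
set_option linter.style.haveILetI false

namespace Fermat.Agent.ML

open CongruenceSubgroup Matrix ModularCurve.Period IsLocalRing
open scoped MatrixGroups
open Fermat.Agent.GR Fermat.Agent.LR Fermat.Agent.W1 Fermat.Agent.W1.ES Fermat.Agent.RB
  Fermat.Agent.RB.TWM Fermat.Agent.RB.TWL

section Vanish

variable (Nt M : ℕ) [NeZero Nt] (hM : M ∣ Nt) {Δ : Type} [CommGroup Δ] [Fintype Δ]
  (π : (ZMod M)ˣ →* Δ) (hπ : Function.Surjective π)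
variable (O : Type) [CommRing O] [IsDomain O] [CharZero O] [IsDiscreteValuationRing O]
  [IsAdicComplete (maximalIdeal O) O]
variable {I : Type} (ι : I → Nat.Primes) (c : I → O)

include hπ in
/-- **Nakayama**: if the primary part of level zero vanishes, so does the primary part of `𝓜`. -/
theorem primaryPartR_vanish {p : ℕ} (hp : p.Prime) (hpO : (p : O) ∈ maximalIdeal O)
    (hΔ : IsPGroup p Δ)
    (hL : LiftsCocycles (grpRingChar O (chiOf Nt M hM π)))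
    (hN : Nt ≠ 1) (hπ1 : π (-1) = 1) (i₀ : I)
    (hℓ₀N : ¬ ((ι i₀ : Nat.Primes) : ℕ) ∣ Nt) (hℓ₀1 : ((ι i₀ : Nat.Primes) : ℕ) ≡ 1 [MOD Nt])
    (hunit : IsUnit (c i₀ - ((((ι i₀ : Nat.Primes) : ℕ) : O) + 1)))
    (hzero : ∀ x : ↥(primaryPart (fun i : I => GR.heckeParP Nt (ι i) O O) c), x = 0) :
    ∀ x ∈ primaryPartR (fun i => opM Nt M hM π O (ι i)) c, x = 0 := by
  haveI : IsLocalRing (MonoidAlgebra O Δ) := isLocalRing_monoidAlgebra hp hpO hΔ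
  obtain ⟨κ₁, -, hκ₁k, -, -⟩ := exists_ctl_zeroL Nt M hM π hπ O ι c hL hN hπ1 i₀ hℓ₀N hℓ₀1 hunit
  haveI : IsNoetherian (MonoidAlgebra O Δ) (MM Nt M hM π O) :=
    isNoetherian_of_isNoetherianRing_of_finite _ _
  haveI : Module.Finite (MonoidAlgebra O Δ)
      ↥(primaryPartR (fun i => opM Nt M hM π O (ι i)) c) :=
    Module.Finite.of_injective (primaryPartR _ _).subtype Subtype.val_injective
  have htop : (⊤ : Submodule (MonoidAlgebra O Δ)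
      ↥(primaryPartR (fun i => opM Nt M hM π O (ι i)) c)) = ⊥ := by
    refine Submodule.eq_bot_of_le_smul_of_le_jacobson_bot (augIdeal O Δ ⊤) ⊤
      Module.Finite.fg_top (fun x _ => (hκ₁k x).mp (hzero _))
      (augIdeal_le_maximalIdeal.trans (IsLocalRing.maximalIdeal_le_jacobson ⊥))
  intro x hx
  have h1 : (⟨x, hx⟩ : ↥(primaryPartR (fun i => opM Nt M hM π O (ι i)) c)) ∈
      (⊤ : Submodule (MonoidAlgebra O Δ)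
        ↥(primaryPartR (fun i => opM Nt M hM π O (ι i)) c)) := Submodule.mem_top
  rw [htop, Submodule.mem_bot] at h1
  exact congrArg Subtype.val h1

end Vanish

section KillX

variable (N q M : ℕ) [NeZero N] [NeZero (N * q)] (hM : M ∣ N) (hq : q.Prime) (hqN : ¬ q ∣ N)
  {Δ₁ Δ₂ : Type} [CommGroup Δ₁] [CommGroup Δ₂] [Fintype Δ₁] [Fintype Δ₂]
  (π σ : (ZMod M)ˣ →* Δ₁ × Δ₂) (hπ : Function.Surjective π)
variable (O : Type) [CommRing O] [IsDomain O] [CharZero O] [IsDiscreteValuationRing O]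
  [IsAdicComplete (maximalIdeal O) O]
variable {I : Type} (ι : I → Nat.Primes) (c : I → O) (hιq : ∀ i, ((ι i : Nat.Primes) : ℕ) ≠ q)
variable {i₀' : I} {n₀' : O}
  (hTS' : TwoStage (fun i => opM (N * q) M (dvd_mul_level N q M hM) π O (ι i))
    (parM (N * q) M (dvd_mul_level N q M hM) π O hπ) c i₀' n₀')
variable (hvan : ∀ x ∈ primaryPartR (fun i => opM N M hM π O (ι i)) c, x = 0)

include σ hιq hTS' hvan in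
theorem pushAH_bridge_eq_zero_of_vanish
    (y : MM (N * q) M (dvd_mul_level N q M hM) π O)
    (hy : y ∈ primaryPartR (fun i => opM (N * q) M (dvd_mul_level N q M hM) π O (ι i)) c) :
    pushAH N q M hM hq hqN π O (bridge (N * q) M (dvd_mul_level N q M hM) π O hπ y) = 0 := by
  rw [← bridge_pushAM]
  have h1 := betaM_mem N q M hM hq hqN π σ hπ O ι c hιq hTS' 0 y hy
  rw [betaM_zero] at h1
  rw [hvan _ h1, map_zero]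

include σ hιq hTS' hvan in
theorem pushBH_bridge_eq_zero_of_vanish
    (y : MM (N * q) M (dvd_mul_level N q M hM) π O)
    (hy : y ∈ primaryPartR (fun i => opM (N * q) M (dvd_mul_level N q M hM) π O (ι i)) c) :
    pushBH N q M hM hq hqN π O (bridge (N * q) M (dvd_mul_level N q M hM) π O hπ y) = 0 := by
  rw [← bridge_pushBM]
  have h1 := betaM_mem N q M hM hq hqN π σ hπ O ι c hιq hTS' 1 y hy
  rw [betaM_one, LinearMap.smul_apply] at h1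
  have h2 := hvan _ h1
  have h3 : pushBM N q M hM hq hqN π O y =
      MonoidAlgebra.of O (Δ₁ × Δ₂) (sigAt M σ q) •
        (MonoidAlgebra.of O (Δ₁ × Δ₂) (sigAt M σ q)⁻¹ • pushBM N q M hM hq hqN π O y) := by
    rw [smul_smul, ← map_mul, mul_inv_cancel, map_one, one_smul]
  rw [h3, h2, smul_zero, map_zero]

variable (Sbig : Finset ℕ) (idx : ∀ ℓ : Nat.Primes, (ℓ : ℕ) ∉ Sbig → I)
  (hidx : ∀ (ℓ : Nat.Primes) (h : (ℓ : ℕ) ∉ Sbig), ι (idx ℓ h) = ℓ)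
variable {p r d n : ℕ} (ψ : Δ₁ →* Oˣ) (δ : Fin r → Δ₂)
  (hδ : Function.Bijective fun e : Fin r → Fin (p ^ n) => ∏ k, δ k ^ ((e k : Fin (p ^ n)) : ℕ))
  (hδpow : ∀ k, δ k ^ (p ^ n) = 1)
  (b : Module.Basis (Fin d) (MonoidAlgebra O (Δ₁ × Δ₂))
    (HH (N * q) M (dvd_mul_level N q M hM) π O ι c))
variable (z : O) (Sig : Finset ℕ) (uQ : Fin r → (ZMod (N * q))ˣ) (uS : ℕ → (ZMod (N * q))ˣ)
  (δS : ℕ → Δ₁)
  (hG1 : ∀ k, σ (ZMod.unitsMap (dvd_mul_level N q M hM) (uQ k)) = ((1 : Δ₁), δ k))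
  (hG2 : ∀ v ∈ Sig, σ (ZMod.unitsMap (dvd_mul_level N q M hM) (uS v)) = (δS v, (1 : Δ₂)))
  (hG3 : ∀ v ∈ Sig, ∀ u : (ZMod (N * q))ˣ,
    (((u : ZMod (N * q)).val : ℕ) : ZMod (N * q / v)) = 1 →
    ∃ j : ℕ, σ (ZMod.unitsMap (dvd_mul_level N q M hM) u) = (δS v ^ j, (1 : Δ₂)))
  (hψz : ∀ v ∈ Sig, (ψ (δS v) : O) = z)

include hqN hιq hvan hidx hG1 hG2 hG3 hψz in
/-- **every point of a concrete side of level `N q` is `q`-new ("kill" form) when the primary part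
of level `N` vanishes.** -/
theorem sideX_killAt_aux (hTwP : TwPushStatement) [Fact p.Prime] [Finite (ResidueField O)]
    [NeZero M] [NeZero (N * M)] [NeZero (N * M * q)]
    (hp2 : p ≠ 2) (hpΔ : IsPGroup p (Δ₁ × Δ₂)) (hsq : Squarefree M)
    (hcop' : Nat.Coprime M (N * q / M)) (hσ : ∀ u, σ u ^ 2 = π u)
    (hSbig' : ∀ ℓ : ℕ, ℓ.Prime → ℓ ∣ N * q * M → ℓ ∈ Sbig) (hqNM : ¬ q ∣ N * M) :
    KillAt (sideX (N * q) M (dvd_mul_level N q M hM) π σ hπ O ι c hTS' Sbig idx ψ δ hδ hδpow b)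
      (Sbig : Set ℕ) (N * M) q hq hqNM := by
  intro B _ _ _ _ _ x
  haveI : NeZero (N * q * M) := ⟨by
    have h1 := NeZero.ne (N * M * q)
    rwa [Nat.mul_right_comm] at h1⟩
  have real' := sideRealOf (N * q) M (dvd_mul_level N q M hM) π σ hπ O ι c hTS' Sbig idx hidx ψ δ
    hδ hδpow b z Sig uQ uS δS hG1 hG2 hG3 hψz
  obtain ⟨B', j1, j2, j3, j4, j5, hinj, L', k1, k2, k3, a', ha', hkill⟩ :=
    occ_kill_of_real N q M hM hq hqN π σ hπ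
      (sideRealOf (N * q) M (dvd_mul_level N q M hM) π σ hπ O ι c hTS' Sbig idx hidx ψ δ
        hδ hδpow b z Sig uQ uS δS hG1 hG2 hG3 hψz) ⊤ (fun _ _ _ => Submodule.mem_top)
      (fun h _ => pushAH_bridge_eq_zero_of_vanish N q M hM hq hqN π σ hπ O ι c hιq hTS' hvan _
        (sideNorm (Δ₂ := Δ₂) ψ h).2)
      (fun h _ => pushBH_bridge_eq_zero_of_vanish N q M hM hq hqN π σ hπ O ι c hιq hTS' hvan _
        (sideNorm (Δ₂ := Δ₂) ψ h).2)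
      hTwP hp2 hpΔ hsq hcop' hσ hSbig' hqNM B x (fun t ht => by
        have h0 : t = 0 := Subtype.ext (LinearMap.ext fun h => ht h Submodule.mem_top)
        rw [h0, map_zero])
  exact ⟨B', j1, j2, j3, j4, j5, hinj, L', k1, k2, k3, a',
    fun ℓ hℓ => ha' ℓ (fun h => hℓ (Finset.mem_coe.2 h)), hkill⟩

end KillX

section KillXGen

variable (Nt M : ℕ) [NeZero Nt] (hM : M ∣ Nt) {Δ₁ Δ₂ : Type} [CommGroup Δ₁] [CommGroup Δ₂]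
  [Fintype Δ₁] [Fintype Δ₂]
  (π σ : (ZMod M)ˣ →* Δ₁ × Δ₂) (hπ : Function.Surjective π)
variable (O : Type) [CommRing O] [IsDomain O] [CharZero O] [IsDiscreteValuationRing O]
  [IsAdicComplete (maximalIdeal O) O]
variable {I : Type} (ι : I → Nat.Primes) (c : I → O)
variable {i₀ : I} {n₀ : O}
  (hTS : TwoStage (fun i => opM Nt M hM π O (ι i)) (parM Nt M hM π O hπ) c i₀ n₀)
variable (Sbig : Finset ℕ) (idx : ∀ ℓ : Nat.Primes, (ℓ : ℕ) ∉ Sbig → I)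
  (hidx : ∀ (ℓ : Nat.Primes) (h : (ℓ : ℕ) ∉ Sbig), ι (idx ℓ h) = ℓ)
variable {p r d n : ℕ} (ψ : Δ₁ →* Oˣ) (δ : Fin r → Δ₂)
  (hδ : Function.Bijective fun e : Fin r → Fin (p ^ n) => ∏ q, δ q ^ ((e q : Fin (p ^ n)) : ℕ))
  (hδpow : ∀ q, δ q ^ (p ^ n) = 1)
  (b : Module.Basis (Fin d) (MonoidAlgebra O (Δ₁ × Δ₂)) (HH Nt M hM π O ι c))
variable (z : O) (Sig : Finset ℕ) (uQ : Fin r → (ZMod Nt)ˣ) (uS : ℕ → (ZMod Nt)ˣ) (δS : ℕ → Δ₁)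
  (hG1 : ∀ q, σ (ZMod.unitsMap hM (uQ q)) = ((1 : Δ₁), δ q))
  (hG2 : ∀ v ∈ Sig, σ (ZMod.unitsMap hM (uS v)) = (δS v, (1 : Δ₂)))
  (hG3 : ∀ v ∈ Sig, ∀ u : (ZMod Nt)ˣ, (((u : ZMod Nt).val : ℕ) : ZMod (Nt / v)) = 1 →
    ∃ j : ℕ, σ (ZMod.unitsMap hM u) = (δS v ^ j, (1 : Δ₂)))
  (hψz : ∀ v ∈ Sig, (ψ (δS v) : O) = z)

include hidx hG1 hG2 hG3 hψz in
/-- **every point of a concrete side of level `Nt = Nt₀ q` is `q`-new ("kill" form) when the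
primary part of level `Nt₀` vanishes** (generic levels). -/
theorem sideX_killAt (hTwP : TwPushStatement) [Fact p.Prime] [Finite (ResidueField O)] [NeZero M]
    (Nt₀ q : ℕ) [NeZero Nt₀] (e : Nt = Nt₀ * q) (hM₀ : M ∣ Nt₀) (hq : q.Prime) (hqN : ¬ q ∣ Nt₀)
    (hιq : ∀ i, ((ι i : Nat.Primes) : ℕ) ≠ q)
    (hvan : ∀ x ∈ primaryPartR (fun i => opM Nt₀ M hM₀ π O (ι i)) c, x = 0)
    (hp2 : p ≠ 2) (hpΔ : IsPGroup p (Δ₁ × Δ₂)) (hsq : Squarefree M)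
    (hcop : Nat.Coprime M (Nt / M)) (hσ : ∀ u, σ u ^ 2 = π u)
    (hSbig : ∀ ℓ : ℕ, ℓ.Prime → ℓ ∣ Nt * M → ℓ ∈ Sbig)
    (Nb₀ : ℕ) [NeZero Nb₀] [NeZero (Nb₀ * q)] (hNb₀ : Nb₀ = Nt₀ * M) (hqNb₀ : ¬ q ∣ Nb₀)
    (SbigS : Set ℕ) (hSS : (Sbig : Set ℕ) = SbigS) :
    KillAt (sideX Nt M hM π σ hπ O ι c hTS Sbig idx ψ δ hδ hδpow b) SbigS Nb₀ q hq hqNb₀ := by
  subst e
  subst hNb₀
  subst hSS
  exact sideX_killAt_aux Nt₀ q M hM₀ hq hqN π σ hπ O ι c hιq hTS hvan Sbig idx hidx ψ δ hδ hδpow b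
    z Sig uQ uS δS hG1 hG2 hG3 hψz hTwP hp2 hpΔ hsq hcop hσ hSbig hqNb₀

end KillXGen

section LevelXE

variable {𝒪 : Type} [CommRing 𝒪] [IsDomain 𝒪] [IsDiscreteValuationRing 𝒪]
  [IsAdicComplete (maximalIdeal 𝒪) 𝒪]
variable {Δ₁ Δ₂ : Type} [CommGroup Δ₁] [CommGroup Δ₂]
variable {H : Type} [AddCommGroup H] [Module (MonoidAlgebra 𝒪 (Δ₁ × Δ₂)) H] [Module 𝒪 H]
  [IsScalarTower 𝒪 (MonoidAlgebra 𝒪 (Δ₁ × Δ₂)) H]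

/-- **abstract assembly of the two-sided level**, remembering the two sides. -/
theorem exists_twModLevelX (p : ℕ) (lam ζ : 𝒪) (c : Nat.Primes → 𝒪) (P : Set Nat.Primes)
    (Sig : Finset ℕ) (r d n : ℕ) (Q : Fin r → ℕ) (N Nt Nbig : ℕ) [NeZero N] [NeZero Nt]
    [NeZero Nbig]
    (ψ₂ : Δ₁ →* 𝒪ˣ) (hψ₂ : ∀ δ, ∃ c₁ : 𝒪, (ψ₂ δ : 𝒪) - 1 = lam * c₁)
    (Tt : Nat.Primes → Module.End (MonoidAlgebra 𝒪 (Δ₁ × Δ₂)) H)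
    (hTt : ∀ ℓ ℓ', Commute (Tt ℓ) (Tt ℓ')) (δ : Fin r → Δ₂)
    (hδ : Function.Bijective fun e : Fin r → Fin (p ^ n) => ∏ q, δ q ^ ((e q : Fin (p ^ n)) : ℕ))
    (hδpow : ∀ q, δ q ^ (p ^ n) = 1)
    (b : Module.Basis (Fin d) (MonoidAlgebra 𝒪 (Δ₁ × Δ₂)) H)
    (uQ : Fin r → (ZMod Nt)ˣ)
    (uQ_spec : ∀ q, ((((uQ q : (ZMod Nt)ˣ) : ZMod Nt).val : ℕ) : ZMod (Nt / Q q)) = 1)
    (uS : ℕ → (ZMod Nt)ˣ)
    (uS_spec : ∀ v ∈ Sig, ((((uS v : (ZMod Nt)ˣ) : ZMod Nt).val : ℕ) : ZMod (Nt / v)) = 1)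
    (hocc₁ : OccX (mkSide (1 : Δ₁ →* 𝒪ˣ) Tt hTt δ hδ hδpow b) lam 1 c Sig Nt Nbig
      (badSet p N ∪ Set.range Q) uQ uS)
    (hocc₂ : OccX (mkSide ψ₂ Tt hTt δ hδ hδpow b) lam ζ c Sig Nt Nbig
      (badSet p N ∪ Set.range Q) uQ uS)
    (κ : H →ₗ[𝒪] ↥(lvlModP 𝒪 P N c)) (hκs : Function.Surjective κ)
    (hκ : ∀ x, κ x = 0 ↔ x ∈ augIdeal 𝒪 (Δ₁ × Δ₂) ⊤ •
      (⊤ : Submodule (MonoidAlgebra 𝒪 (Δ₁ × Δ₂)) H))
    (hκT : ∀ ℓ : Nat.Primes, (ℓ : ℕ) ∉ badSet p N ∪ Set.range Q → ∀ x : H,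
      ((κ (Tt ℓ x) : ↥(lvlModP 𝒪 P N c)) : ↥(parabolicHoms 𝒪 (Gamma0 N) 𝒪)) =
        heckeParP N ℓ 𝒪 𝒪 ((κ x : ↥(lvlModP 𝒪 P N c)) : ↥(parabolicHoms 𝒪 (Gamma0 N) 𝒪))) :
    ∃ L : TWModLevelX p lam ζ c P Sig r d n Q N Nt Nbig,
      L.side₁ = mkSide (1 : Δ₁ →* 𝒪ˣ) Tt hTt δ hδ hδpow b ∧
      L.side₂ = mkSide ψ₂ Tt hTt δ hδ hδpow b := by
  have hψ₁ : ∀ δ₁ : Δ₁, ∃ c₁ : 𝒪, (((1 : Δ₁ →* 𝒪ˣ) δ₁ : 𝒪ˣ) : 𝒪) - 1 = lam * c₁ := fun δ₁ =>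
    ⟨0, by rw [MonoidHom.one_apply, Units.val_one, sub_self, mul_zero]⟩
  have hle₁ := ker_specHom_le_barIdeal (Δ₂ := Δ₂) (1 : Δ₁ →* 𝒪ˣ) lam hψ₁
  have hle₂ := ker_specHom_le_barIdeal (Δ₂ := Δ₂) ψ₂ lam hψ₂
  obtain ⟨ctl₀, hctl1, hctl2, hctl3⟩ :=
    exists_ctl_side (M0 := ↥(lvlModP 𝒪 P N c)) Tt hTt δ hδ hδpow b κ hκs hκ
  refine ⟨{
    side₁ := mkSide (1 : Δ₁ →* 𝒪ˣ) Tt hTt δ hδ hδpow b
    side₂ := mkSide ψ₂ Tt hTt δ hδ hδpow b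
    uQ := uQ
    uQ_spec := uQ_spec
    uS := uS
    uS_spec := uS_spec
    occ₁ := hocc₁
    occ₂ := hocc₂
    Hbar := QuotJ (barIdeal 𝒪 Δ₁ Δ₂ lam) H
    gbar := fun q => quotEnd 𝒪 (barIdeal 𝒪 Δ₁ Δ₂ lam)
      (smulEnd (MonoidAlgebra.of 𝒪 (Δ₁ × Δ₂) ((1 : Δ₁), δ q)))
    Ttbar := fun ℓ => quotEnd 𝒪 (barIdeal 𝒪 Δ₁ Δ₂ lam) (Tt ℓ)
    red₁ := sideToQuot (specHom 𝒪 Δ₂ (1 : Δ₁ →* 𝒪ˣ)) (secHom 𝒪 Δ₁ Δ₂) _ hle₁
    red₂ := sideToQuot (specHom 𝒪 Δ₂ ψ₂) (secHom 𝒪 Δ₁ Δ₂) _ hle₂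
    red₁_surjective := sideToQuot_surjective _ _ _ _
    red₂_surjective := sideToQuot_surjective _ _ _ _
    ker_red₁ := fun x => ?_
    ker_red₂ := fun x => ?_
    red₁_g := fun q x => sideToQuot_sideEnd _ _ _ _ _ x
    red₂_g := fun q x => sideToQuot_sideEnd _ _ _ _ _ x
    red₁_Tt := fun ℓ x => sideToQuot_sideEnd _ _ _ _ _ x
    red₂_Tt := fun ℓ x => sideToQuot_sideEnd _ _ _ _ _ x
    ctl := ctl₀
    ctl_surjective := hctl1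
    ker_ctl := hctl2
    ctl_Tt := fun ℓ hℓ x => ?_ }, rfl, rfl⟩
  · exact ker_red_aux (1 : Δ₁ →* 𝒪ˣ) lam hψ₁ x
  · exact ker_red_aux ψ₂ lam hψ₂ x
  · obtain ⟨y, h1, h2⟩ := hctl3 ℓ x
    rw [h1, h2]
    exact hκT ℓ hℓ y

end LevelXE

section FinalPeu

variable {𝒪 : Type} [CommRing 𝒪] [IsDomain 𝒪] [IsDiscreteValuationRing 𝒪]
  [IsAdicComplete (maximalIdeal 𝒪) 𝒪] [Finite (ResidueField 𝒪)] [CharZero 𝒪]

set_option maxHeartbeats 3200000 in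
/-- **the two-sided level `(n, Q)`, mode `peuNew`.** -/
theorem exists_twModLevelX_peu (hTwP : TwPushStatement)
    (p : ℕ) [Fact p.Prime] (hp2 : p ≠ 2) (hpO : (p : 𝒪) ∈ maximalIdeal 𝒪)
    (ζ : 𝒪) (hζ : IsPrimitiveRoot ζ p) (lam : 𝒪) (hlam : Irreducible lam)
    (N : ℕ) [NeZero N] (hNsq : Squarefree N)
    (P : Set Nat.Primes) (hP : primesOutside (badSet p N) ⊆ P)
    (hpP : ∀ ℓ ∈ P, ((ℓ : Nat.Primes) : ℕ) ≠ p)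
    (c : Nat.Primes → 𝒪)
    (hNE : ∀ (D : ℕ), 0 < D → ∀ Bad : Finset ℕ, ∃ ℓ : Nat.Primes,
      (ℓ : ℕ) ∉ badSet p N ∧ (ℓ : ℕ) ∉ Bad ∧ (ℓ : ℕ) ≡ 1 [MOD D] ∧
        c ℓ - ((ℓ : ℕ) + 1 : 𝒪) ∉ maximalIdeal 𝒪)
    (h3 : p = 3 → ∃ r₀ : ℕ, r₀.Prime ∧ r₀ ∣ N ∧ r₀ % 3 = 2)
    (Sig : Finset ℕ) (hSig : ∀ v ∈ Sig, v.Prime ∧ v ∣ N ∧ v ≡ 1 [MOD p])
    (M₀ : ℕ) [NeZero M₀] (hNM₀ : N = M₀ * p) (hM₀1 : M₀ ≠ 1)
    (hvan0 : ∀ x ∈ lvlModP 𝒪 P M₀ c, x = 0)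
    (r n : ℕ) (Q : Fin r → ℕ) (hQinj : Function.Injective Q) (hQp : ∀ k, (Q k).Prime)
    (hQS : ∀ k, Q k ∉ badSet p N) (hQn : ∀ k, p ^ n ∣ Q k - 1) (hQ1 : ∀ k, p ∣ Q k - 1)
    (hQr : ∀ k (hq : (Q k).Prime), ∃ α β : ResidueField 𝒪, α ≠ β ∧
      α + β = residue 𝒪 (c ⟨Q k, hq⟩) ∧ α * β = (Q k : ResidueField 𝒪))
    (Nt Nbig Nb₀ : ℕ) [NeZero Nt] [NeZero Nbig] [NeZero Nb₀] [NeZero (Nb₀ * p)]
    (hNt : Nt = N * ∏ k, Q k)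
    (hNbig : Nbig = N / (∏ v ∈ Sig, v) * ((∏ v ∈ Sig, v) * ∏ k, Q k) ^ 2)
    (hNb₀ : Nb₀ = M₀ / (∏ v ∈ Sig, v) * ((∏ v ∈ Sig, v) * ∏ k, Q k) ^ 2)
    (hpNb₀ : ¬ p ∣ Nb₀) :
    ∃ L : TWModLevelX p lam ζ c P Sig r (Module.finrank 𝒪 ↥(lvlModP 𝒪 P N c)) n Q N Nt Nbig,
      KillAt L.side₁ (badSet p N ∪ Set.range Q) Nb₀ p Fact.out hpNb₀ ∧
      KillAt L.side₂ (badSet p N ∪ Set.range Q) Nb₀ p Fact.out hpNb₀ := by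
  classical
  have hp : p.Prime := Fact.out
  have hN1 : N ≠ 1 := by
    rw [hNM₀]
    intro h
    exact hp.one_lt.ne' (Nat.eq_one_of_mul_eq_one_left h)
  haveI : NeZero p := ⟨hp.ne_zero⟩
  obtain ⟨S, hS⟩ := exists_finset_badSet_only p N hp (NeZero.ne N)
  have hSbad : ∀ ℓ : ℕ, ℓ ∈ S ↔ ℓ ∈ badSet p N := hS
  -- the arithmetic of the levels
  have hSig' : ∀ v ∈ Sig, v.Prime ∧ v ∣ N := fun v hv => ⟨(hSig v hv).1, (hSig v hv).2.1⟩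
  have hQS' : ∀ k, Q k ∉ S := fun k h => hQS k ((hSbad _).mp h)
  have hQN : ∀ k, ¬ Q k ∣ N := fun k => not_dvd_of_notMem hS (hQp k) (hQS' k)
  obtain ⟨M, hMdef⟩ : ∃ M : ℕ, M = (∏ v ∈ Sig, v) * ∏ k, Q k := ⟨_, rfl⟩
  have hM : M ∣ Nt := by rw [hNt, hMdef]; exact levelM_dvd hSig'
  haveI : NeZero M := ⟨by rw [hMdef]; exact levelM_ne_zero hSig' hQp⟩
  have hMsq : Squarefree M := by rw [hMdef]; exact squarefree_levelM hNsq hSig' hQinj hQp hQN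
  have hcop : Nat.Coprime M (Nt / M) := by
    rw [hNt, hMdef]; exact coprime_levelM hNsq hSig' hQp hQN
  have hNbig' : Nbig = Nt * M := by rw [hNbig, hNt, hMdef]; exact levelNbig_eq hSig'
  have hNt1 : Nt ≠ 1 := by
    intro h
    have h1 : N ∣ Nt := by rw [hNt]; exact dvd_mul_right _ _
    rw [h] at h1
    exact hN1 (Nat.dvd_one.mp h1)
  obtain ⟨Sbig, hSbigdef⟩ : ∃ Sbig : Finset ℕ, Sbig = S ∪ Finset.univ.image Q := ⟨_, rfl⟩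
  have hSbig : ∀ ℓ : ℕ, ℓ.Prime → ℓ ∣ Nbig → ℓ ∈ Sbig := fun ℓ hℓ h => by
    rw [hNbig', hNt, hMdef] at h
    rw [hSbigdef]
    exact mem_Sbig_of_dvd hS hSig' hQp hℓ h
  have hSbigSet : ((Sbig : Finset ℕ) : Set ℕ) = badSet p N ∪ Set.range Q := by
    ext ℓ
    rw [hSbigdef, Finset.mem_coe, Finset.mem_union, Finset.mem_image]
    constructor
    · rintro (h | ⟨k, -, hk⟩)
      · exact Or.inl ((hSbad ℓ).mp h)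
      · exact Or.inr ⟨k, hk⟩
    · rintro (h | ⟨k, hk⟩)
      · exact Or.inl ((hSbad ℓ).mpr h)
      · exact Or.inr ⟨k, Finset.mem_univ k, hk⟩
  have hQSig : ∀ k, Q k ∉ Sig := fun k h => hQS' k ((hS _).mpr ⟨hQp k, Or.inr (hSig' _ h).2⟩)
  -- the group data
  obtain ⟨π, σ, uQ, uS, δS, ψ₂, hπs, hσ2, hπ1, hpG, huQ, huS, hG1, hG2, hG3, hψζ, hψpow⟩ :=
    grpDataStatement (𝒪 := 𝒪) p hp2 ζ hζ.pow_eq_one Sig
      (fun v hv => ⟨(hSig v hv).1, (hSig v hv).2.2⟩)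
      r n Q hQinj hQp hQSig hQn Nt M hMdef hM hcop
  -- the constants at `Q`
  have hroot : ∀ k, ∃ a : 𝒪, (a ^ 2 - c ⟨Q k, hQp k⟩ * a + (Q k : 𝒪) ∈ maximalIdeal 𝒪) ∧
      IsUnit (2 * a - c ⟨Q k, hQp k⟩) ∧ IsUnit (a ^ 2 - 1) := by
    intro k
    obtain ⟨α, β, hαβ, hsum, hprod⟩ := hQr k (hQp k)
    obtain ⟨a, rfl⟩ := residue_surjective α
    have hQ1' : (Q k : ResidueField 𝒪) = 1 := residue_natCast_eq_one (hQp k).pos (hQ1 k) hpO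
    refine ⟨a, ?_, ?_, ?_⟩
    · rw [← residue_eq_zero_iff]
      simp only [map_add, map_sub, map_mul, map_pow, map_natCast]
      rw [← hsum, ← hprod]
      ring
    · rw [← residue_ne_zero_iff_isUnit]
      simp only [map_sub, map_mul, map_ofNat]
      rw [← hsum]
      intro h
      apply hαβ
      linear_combination h
    · rw [← residue_ne_zero_iff_isUnit]
      simp only [map_sub, map_pow, map_one]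
      intro h
      apply hαβ
      have ha0 : residue 𝒪 a ≠ 0 := by
        intro h0
        rw [h0, zero_mul, hQ1'] at hprod
        exact zero_ne_one hprod
      apply mul_left_cancel₀ ha0
      rw [hprod, hQ1']
      linear_combination h
  choose a ha1 ha2 ha3 using hroot
  obtain ⟨c', hc'def⟩ : ∃ c' : Nat.Primes → 𝒪,
      c' = fun ℓ : Nat.Primes => if h : ∃ k, Q k = (ℓ : ℕ) then a h.choose else c ℓ :=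
    ⟨_, rfl⟩
  have hc'Q : ∀ k, c' ⟨Q k, hQp k⟩ = a k := by
    intro k
    have h : ∃ k', Q k' = ((⟨Q k, hQp k⟩ : Nat.Primes) : ℕ) := ⟨k, rfl⟩
    rw [hc'def]
    show (if h : ∃ k', Q k' = ((⟨Q k, hQp k⟩ : Nat.Primes) : ℕ) then a h.choose else _) = _
    rw [dif_pos h]
    exact congrArg a (hQinj h.choose_spec)
  have hc'c : ∀ ℓ : Nat.Primes, (∀ k, Q k ≠ (ℓ : ℕ)) → c' ℓ = c ℓ := fun ℓ hℓ => by
    rw [hc'def]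
    exact dif_neg (fun ⟨k, hk⟩ => hℓ k hk)
  -- [T3-iter]
  have hQunit : ∀ k, IsUnit (Q k : 𝒪) := fun k =>
    isUnit_natCast_of_prime_ne hp (hQp k) (ne_of_notMem hS (hQp k) (hQS' k)) hpO
  obtain ⟨φ, hφ⟩ := t3IterStatement (𝒪 := 𝒪) N r Q hQinj hQp hQN hQunit P
    (fun k => hP (hQS k)) c c' a ha1 ha2 ha3 hc'Q hc'c Nt hNt
  -- the auxiliary prime `ℓ₀`
  obtain ⟨ℓ₀, hℓ₀S, hℓ₀B, hℓ₀1, hℓ₀c⟩ :=
    hNE Nt (Nat.pos_of_ne_zero (NeZero.ne Nt)) (Finset.univ.image Q)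
  have hℓ₀Q : ∀ k, Q k ≠ (ℓ₀ : ℕ) := fun k h =>
    hℓ₀B (Finset.mem_image.mpr ⟨k, Finset.mem_univ k, h⟩)
  have hℓ₀Nt : ¬ (ℓ₀ : ℕ) ∣ Nt := by
    rw [hNt]
    intro h
    rcases (Nat.Prime.dvd_mul ℓ₀.2).mp h with h | h
    · exact hℓ₀S ⟨ℓ₀.2, Or.inr h⟩
    · obtain ⟨k, -, hk⟩ := (Prime.dvd_finsetProd_iff ℓ₀.2.prime _).mp h
      exact hℓ₀Q k ((Nat.prime_dvd_prime_iff_eq ℓ₀.2 (hQp k)).mp hk).symm
  let i₀ : ↥P := ⟨ℓ₀, hP hℓ₀S⟩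
  have hunit : IsUnit (c' ((i₀ : ↥P) : Nat.Primes) -
      ((((((i₀ : ↥P) : Nat.Primes) : ℕ) : 𝒪)) + 1)) := by
    show IsUnit (c' ℓ₀ - (((ℓ₀ : ℕ) : 𝒪) + 1))
    rw [hc'c _ hℓ₀Q]
    by_contra hu
    exact hℓ₀c ((mem_maximalIdeal _).mpr hu)
  -- the module `H`
  have hL := liftsCocycles_chiOf Nt M hM π 𝒪 hp hp2 hpO (fun h => by
    obtain ⟨r₀, h1, h2, h3'⟩ := h3 h
    exact ⟨r₀, h1, h2.trans (by rw [hNt]; exact dvd_mul_right _ _), h3'⟩)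
  have hTS := twoStage_MM Nt M hM π hπs 𝒪
    (fun ℓ : ↥P => (ℓ : Nat.Primes)) hNt1 hπ1
    (fun ℓ : ↥P => c' ℓ) i₀ hℓ₀Nt hℓ₀1 hunit
  have hfree := free_primary_MM_odd Nt M hM π hπs 𝒪
    (fun ℓ : ↥P => (ℓ : Nat.Primes)) hp hpO hL hpG hNt1 hπ1
    (fun ℓ : ↥P => c' ℓ) i₀ hℓ₀Nt hℓ₀1 hunit
  haveI : IsNoetherian (MonoidAlgebra 𝒪 (TWGrp p Sig.card × TWGrp (p ^ n) r)) (MM Nt M hM π 𝒪) :=
    isNoetherian_of_isNoetherianRing_of_finite _ _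
  haveI : Module.Finite (MonoidAlgebra 𝒪 (TWGrp p Sig.card × TWGrp (p ^ n) r))
      (HH Nt M hM π 𝒪 (fun ℓ : ↥P => (ℓ : Nat.Primes)) (fun ℓ : ↥P => c' ℓ)) :=
    Module.Finite.of_injective (primaryPartR _ _).subtype Subtype.val_injective
  haveI := hfree
  let b' := Module.finBasis (MonoidAlgebra 𝒪 (TWGrp p Sig.card × TWGrp (p ^ n) r))
    (HH Nt M hM π 𝒪 (fun ℓ : ↥P => (ℓ : Nat.Primes)) (fun ℓ : ↥P => c' ℓ))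
  -- the control map
  obtain ⟨κ₁, hκ₁s, hκ₁k, hκ₁T, -⟩ := exists_ctl_zeroL Nt M hM π hπs 𝒪
    (fun ℓ : ↥P => (ℓ : Nat.Primes)) (fun ℓ : ↥P => c' ℓ) hL hNt1 hπ1 i₀ hℓ₀Nt hℓ₀1 hunit
  let κ : HH Nt M hM π 𝒪 (fun ℓ : ↥P => (ℓ : Nat.Primes)) (fun ℓ : ↥P => c' ℓ) →ₗ[𝒪]
      ↥(lvlModP 𝒪 P N c) := φ.symm.toLinearMap ∘ₗ κ₁
  have hκs : Function.Surjective κ := φ.symm.surjective.comp hκ₁s
  have hκk : ∀ x, κ x = 0 ↔ x ∈ augIdeal 𝒪 (TWGrp p Sig.card × TWGrp (p ^ n) r) ⊤ •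
      (⊤ : Submodule (MonoidAlgebra 𝒪 (TWGrp p Sig.card × TWGrp (p ^ n) r))
        (HH Nt M hM π 𝒪 (fun ℓ : ↥P => (ℓ : Nat.Primes)) (fun ℓ : ↥P => c' ℓ))) := fun x => by
    show φ.symm (κ₁ x) = 0 ↔ _
    rw [φ.symm.map_eq_zero_iff]
    exact hκ₁k x
  have hd : Module.finrank 𝒪 ↥(lvlModP 𝒪 P N c) =
      Module.finrank (MonoidAlgebra 𝒪 (TWGrp p Sig.card × TWGrp (p ^ n) r))
        (HH Nt M hM π 𝒪 (fun ℓ : ↥P => (ℓ : Nat.Primes)) (fun ℓ : ↥P => c' ℓ)) :=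
    finrank_eq_of_ctl (M0 := ↥(lvlModP 𝒪 P N c)) b' κ hκs hκk
  rw [hd]
  -- the index map
  have hPmem : ∀ ℓ : Nat.Primes, (ℓ : ℕ) ∉ Sbig → ℓ ∈ P := fun ℓ h =>
    hP (fun hS' => h (by
      rw [hSbigdef]
      exact Finset.mem_union_left _ ((hSbad _).mpr hS')))
  let idx : ∀ ℓ : Nat.Primes, (ℓ : ℕ) ∉ Sbig → ↥P := fun ℓ h => ⟨ℓ, hPmem ℓ h⟩
  have hidx : ∀ (ℓ : Nat.Primes) (h : (ℓ : ℕ) ∉ Sbig),
      ((idx ℓ h : ↥P) : Nat.Primes) = ℓ := fun _ _ => rfl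
  have hnotQ : ∀ {ℓ : ℕ}, ℓ ∉ Sbig → ∀ k, Q k ≠ ℓ := by
    intro ℓ h k hk
    apply h
    rw [hSbigdef]
    exact Finset.mem_union_right _ (Finset.mem_image.mpr ⟨k, Finset.mem_univ k, hk⟩)
  have hδ := twGen_bijective (p ^ n) r
  have hδpow := twGen_pow_card (p ^ n) r
  have hκT : ∀ ℓ : Nat.Primes, (ℓ : ℕ) ∉ badSet p N ∪ Set.range Q →
      ∀ x : HH Nt M hM π 𝒪 (fun ℓ : ↥P => (ℓ : Nat.Primes)) (fun ℓ : ↥P => c' ℓ),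
      ((κ (TtH Nt M hM π σ hπs 𝒪 (fun ℓ : ↥P => (ℓ : Nat.Primes)) (fun ℓ : ↥P => c' ℓ) hTS
        Sbig idx ℓ x) : ↥(lvlModP 𝒪 P N c)) : ↥(parabolicHoms 𝒪 (Gamma0 N) 𝒪)) =
        GR.heckeParP N ℓ 𝒪 𝒪 ((κ x : ↥(lvlModP 𝒪 P N c)) : ↥(parabolicHoms 𝒪 (Gamma0 N) 𝒪)) := by
    intro ℓ hℓ x
    have hℓb : (ℓ : ℕ) ∉ Sbig := by
      intro h
      apply hℓ
      rw [← hSbigSet]
      exact Finset.mem_coe.2 h
    rw [TtH_of_notMem _ _ _ _ _ _ _ _ _ _ _ _ hℓb, Module.End.mul_apply, smulEnd_apply]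
    have h1 := ctl_smul (Δ := TWGrp p Sig.card × TWGrp (p ^ n) r)
      (H := HH Nt M hM π 𝒪 (fun ℓ : ↥P => (ℓ : Nat.Primes)) (fun ℓ : ↥P => c' ℓ))
      (M0 := ↥(primaryPart (fun ℓ : ↥P => GR.heckeParP Nt (ℓ : Nat.Primes) 𝒪 𝒪)
        (fun ℓ : ↥P => c' ℓ))) κ₁ hκ₁k
      (MonoidAlgebra.of 𝒪 (TWGrp p Sig.card × TWGrp (p ^ n) r) (sigAt M σ ℓ)⁻¹)
      (Top Nt M hM π hπs 𝒪 (fun ℓ : ↥P => (ℓ : Nat.Primes)) (fun ℓ : ↥P => c' ℓ) hTS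
        (idx ℓ hℓb) x)
    rw [augHom_of, one_smul] at h1
    show ((φ.symm (κ₁ _) : ↥(lvlModP 𝒪 P N c)) : ↥(parabolicHoms 𝒪 (Gamma0 N) 𝒪)) =
      GR.heckeParP N ℓ 𝒪 𝒪 ((φ.symm (κ₁ x) : ↥(lvlModP 𝒪 P N c)) :
        ↥(parabolicHoms 𝒪 (Gamma0 N) 𝒪))
    rw [h1]
    have hA := hκ₁T (idx ℓ hℓb) x (Top Nt M hM π hπs 𝒪 (fun ℓ : ↥P => (ℓ : Nat.Primes))
      (fun ℓ : ↥P => c' ℓ) hTS (idx ℓ hℓb) x) rfl
    have hmem := heckeParP_mem_lvlModP P N c ℓ (φ.symm (κ₁ x)).2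
    have hB := hφ ℓ (hnotQ hℓb) (φ.symm (κ₁ x)) ⟨_, hmem⟩ rfl
    rw [φ.apply_symm_apply] at hB
    have hC : φ ⟨_, hmem⟩ = κ₁ (Top Nt M hM π hπs 𝒪 (fun ℓ : ↥P => (ℓ : Nat.Primes))
        (fun ℓ : ↥P => c' ℓ) hTS (idx ℓ hℓb) x) := Subtype.ext (hB.trans hA.symm)
    rw [← hC, φ.symm_apply_apply]
  -- the character `ψ₂`
  have hψ₂ : ∀ δ₁ : TWGrp p Sig.card, ∃ c₁ : 𝒪, ((ψ₂ δ₁ : 𝒪ˣ) : 𝒪) - 1 = lam * c₁ := by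
    intro δ₁
    obtain ⟨j, hj⟩ := hψpow δ₁
    rw [hj]
    exact exists_sub_one_eq_mul hpO hζ.pow_eq_one hlam j
  -- the constants
  have hc₀ : ∀ (ℓ : Nat.Primes) (hℓ : (ℓ : ℕ) ∉ Sbig),
      c ℓ - (fun ℓ : ↥P => c' ℓ) (idx ℓ hℓ) ∈ maximalIdeal 𝒪 := by
    intro ℓ hℓ
    show c ℓ - c' ℓ ∈ _
    rw [hc'c ℓ (hnotQ hℓ), sub_self]
    exact zero_mem _
  have hocc₁ := sideX_occX Nt M hM π σ hπs 𝒪
    (fun ℓ : ↥P => (ℓ : Nat.Primes)) (fun ℓ : ↥P => c' ℓ) hTS Sbig idx hidx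
    (1 : TWGrp p Sig.card →* 𝒪ˣ) (twGen (p ^ n) r) hδ hδpow b' 1 Sig uQ uS δS hG1 hG2 hG3
    (fun _ _ => rfl) hp2 hpO hpG Nbig hMsq hcop hNbig' hNt1 hσ2 hSbig lam hlam c hc₀
    (badSet p N ∪ Set.range Q) hSbigSet
  have hocc₂ := sideX_occX Nt M hM π σ hπs 𝒪
    (fun ℓ : ↥P => (ℓ : Nat.Primes)) (fun ℓ : ↥P => c' ℓ) hTS Sbig idx hidx
    ψ₂ (twGen (p ^ n) r) hδ hδpow b' ζ Sig uQ uS δS hG1 hG2 hG3
    hψζ hp2 hpO hpG Nbig hMsq hcop hNbig' hNt1 hσ2 hSbig lam hlam c hc₀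
    (badSet p N ∪ Set.range Q) hSbigSet
  -- the level `Nt₀ = M₀ ∏ Q`
  have hSig₀ : ∀ v ∈ Sig, v.Prime ∧ v ∣ M₀ := by
    intro v hv
    obtain ⟨hv1, hv2, hv3⟩ := hSig v hv
    refine ⟨hv1, ?_⟩
    rw [hNM₀] at hv2
    rcases (Nat.Prime.dvd_mul hv1).mp hv2 with h | h
    · exact h
    · exfalso
      have h1 : v = p := (Nat.prime_dvd_prime_iff_eq hv1 hp).mp h
      rw [h1] at hv3
      have h2 : p ∣ 1 := (Nat.modEq_zero_iff_dvd.1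
        ((Nat.modEq_zero_iff_dvd.2 dvd_rfl).symm.trans hv3).symm)
      exact hp.one_lt.ne' (Nat.dvd_one.1 h2)
  have hM₀N : M₀ ∣ N := by rw [hNM₀]; exact dvd_mul_right _ _
  have hQM₀ : ∀ k, ¬ Q k ∣ M₀ := fun k h => hQN k (h.trans hM₀N)
  obtain ⟨Nt₀, hNt₀⟩ : ∃ Nt₀ : ℕ, Nt₀ = M₀ * ∏ k, Q k := ⟨_, rfl⟩
  haveI : NeZero Nt₀ := ⟨by
    rw [hNt₀]
    exact mul_ne_zero (NeZero.ne M₀) (Finset.prod_ne_zero_iff.mpr fun k _ => (hQp k).ne_zero)⟩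
  have hNtNt₀ : Nt = Nt₀ * p := by rw [hNt, hNt₀, hNM₀, Nat.mul_right_comm]
  have hM' : M ∣ Nt₀ := by rw [hNt₀, hMdef]; exact levelM_dvd hSig₀
  have hNb₀' : Nb₀ = Nt₀ * M := by rw [hNb₀, hNt₀, hMdef]; exact levelNbig_eq hSig₀
  have hpNt₀ : ¬ p ∣ Nt₀ := fun h => hpNb₀ (by rw [hNb₀']; exact h.mul_right M)
  have hNt₀1 : Nt₀ ≠ 1 := by
    intro h
    have h1 : M₀ ∣ Nt₀ := by rw [hNt₀]; exact dvd_mul_right _ _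
    rw [h] at h1
    exact hM₀1 (Nat.dvd_one.mp h1)
  have hNt₀Nt : Nt₀ ∣ Nt := by rw [hNtNt₀]; exact dvd_mul_right _ _
  have hℓ₀Nt₀ : ¬ (ℓ₀ : ℕ) ∣ Nt₀ := fun h => hℓ₀Nt (h.trans hNt₀Nt)
  have hℓ₀1' : (ℓ₀ : ℕ) ≡ 1 [MOD Nt₀] := hℓ₀1.of_dvd hNt₀Nt
  obtain ⟨φ₀, -⟩ := t3IterStatement (𝒪 := 𝒪) M₀ r Q hQinj hQp hQM₀ hQunit P
    (fun k => hP (hQS k)) c c' a ha1 ha2 ha3 hc'Q hc'c Nt₀ hNt₀
  have hL₀ := liftsCocycles_chiOf Nt₀ M hM' π 𝒪 hp hp2 hpO (fun h => by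
    obtain ⟨r₀, h1, h2, h3'⟩ := h3 h
    refine ⟨r₀, h1, ?_, h3'⟩
    rw [hNM₀] at h2
    rcases (Nat.Prime.dvd_mul h1).mp h2 with h4 | h4
    · exact h4.trans (by rw [hNt₀]; exact dvd_mul_right _ _)
    · exfalso
      have h5 : r₀ = p := (Nat.prime_dvd_prime_iff_eq h1 hp).mp h4
      rw [h5, h] at h3'
      omega)
  have hzero : ∀ x : ↥(primaryPart (fun ℓ : ↥P => GR.heckeParP Nt₀ (ℓ : Nat.Primes) 𝒪 𝒪)
      (fun ℓ : ↥P => c' ℓ)), x = 0 := by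
    intro x
    have h1 : φ₀.symm x = 0 := Subtype.ext (hvan0 _ (φ₀.symm x).2)
    rw [← φ₀.apply_symm_apply x, h1, map_zero]
  have hvanR := primaryPartR_vanish Nt₀ M hM' π hπs 𝒪 (fun ℓ : ↥P => (ℓ : Nat.Primes))
    (fun ℓ : ↥P => c' ℓ) hp hpO hpG hL₀ hNt₀1 hπ1 i₀ hℓ₀Nt₀ hℓ₀1' hunit hzero
  have hSbig'' : ∀ ℓ : ℕ, ℓ.Prime → ℓ ∣ Nt * M → ℓ ∈ Sbig := fun ℓ hℓ h =>
    hSbig ℓ hℓ (by rw [hNbig']; exact h)
  have hιp : ∀ i : ↥P, (((i : ↥P) : Nat.Primes) : ℕ) ≠ p := fun i => hpP i i.2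
  have hkill₁ := sideX_killAt Nt M hM π σ hπs 𝒪
    (fun ℓ : ↥P => (ℓ : Nat.Primes)) (fun ℓ : ↥P => c' ℓ) hTS Sbig idx hidx
    (1 : TWGrp p Sig.card →* 𝒪ˣ) (twGen (p ^ n) r) hδ hδpow b' 1 Sig uQ uS δS hG1 hG2 hG3
    (fun _ _ => rfl) hTwP Nt₀ p hNtNt₀ hM' hp hpNt₀ hιp hvanR hp2 hpG hMsq hcop hσ2 hSbig''
    Nb₀ hNb₀' hpNb₀ (badSet p N ∪ Set.range Q) hSbigSet
  have hkill₂ := sideX_killAt Nt M hM π σ hπs 𝒪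
    (fun ℓ : ↥P => (ℓ : Nat.Primes)) (fun ℓ : ↥P => c' ℓ) hTS Sbig idx hidx
    ψ₂ (twGen (p ^ n) r) hδ hδpow b' ζ Sig uQ uS δS hG1 hG2 hG3
    hψζ hTwP Nt₀ p hNtNt₀ hM' hp hpNt₀ hιp hvanR hp2 hpG hMsq hcop hσ2 hSbig''
    Nb₀ hNb₀' hpNb₀ (badSet p N ∪ Set.range Q) hSbigSet
  obtain ⟨L, hL1, hL2⟩ := exists_twModLevelX p lam ζ c P Sig r _ n Q N Nt Nbig ψ₂ hψ₂ _ _
    (twGen (p ^ n) r) hδ hδpow b' uQ huQ uS huS hocc₁ hocc₂ κ hκs hκk hκT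
  refine ⟨L, ?_, ?_⟩
  · rw [hL1]
    exact hkill₁
  · rw [hL2]
    exact hkill₂

/-- **[TWMOD-LX], mode `peuNew`, from [TWPUSH].** -/
theorem twModXPeu_of_twPush (hTwP : TwPushStatement) : TWModXPeuStatement := by
  intro 𝒪 _ _ _ _ _ _ p _ hp2 hpO ζ hζ lam hlam N _ hNsq P hP hpP c hNE h3 Sig hSig M₀ _ hNM₀ hM₀1
    hvan0
  refine ⟨Module.finrank 𝒪 ↥(lvlModP 𝒪 P N c), ⟨(lvlModP_free_finite P N c).1,
    (lvlModP_free_finite P N c).2, rfl⟩, ?_⟩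
  intro r n Q hQinj hQp hQS hQn hQ1 hQr Nt Nbig Nb₀ _ _ _ _ hNt hNbig hNb₀ hpNb₀
  exact exists_twModLevelX_peu hTwP p hp2 hpO ζ hζ lam hlam N hNsq P hP hpP c hNE h3 Sig hSig M₀
    hNM₀ hM₀1 hvan0 r n Q hQinj hQp hQS hQn hQ1 hQr Nt Nbig Nb₀ hNt hNbig hNb₀ hpNb₀

end FinalPeu

end Fermat.Agent.ML
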