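/-
PROJECT ML (S59) — [TWPUSH] (helper7), part 0: **abstract tools on transfer data**.

* `xport`  : transport of a transfer datum along an isomorphism of the source group and a
  homomorphism into the target group; its transfer is `res ∘ tr ∘ res`;
* `xcomp`  : the composite `Γ'' αᵤ βᵢ` of two transfer data `Γ'' → Γ₁ → Γ`; its transfer is the
  composite of the transfers;
* `conjX`  : the datum `x αᵢ` for `x` inducing the automorphism `θ` of the source group; its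
  transfer is `tr (ψ ∘ θ)`;
* `xcomp_hdist_of_conj` : the composite cosets are pairwise distinct as soon as the first family
  is `s gₖ` with `gₖ` in the middle group and `s` conjugating the source group into the middle one;
* `exists_of_rep` : if one representative is `s g₀`, every `s g` lies in a coset of the datum;
* `comp_transferGrp_eq_of_inj` : **comparison of two composites** by an injection of the index
  sets.
-/
import Mathlib
import Fermat.Agent.GR.XFERD_helper4_Abstract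
import Fermat.Agent.LR.XFER_helper4_Defs

set_option autoImplicit false
set_option linter.unusedSectionVars false

namespace Fermat.Agent.ML.TWP

open Fermat.Agent.GR Fermat.Agent.LR

/-! ### transport -/

section Xport

variable {Γ' Γ'₀ Γ Γ₀ G ι : Type*} [Group Γ'] [Group Γ'₀] [Group Γ] [Group Γ₀] [Group G]
  (X : TransferDatum Γ' Γ G ι) (f' : Γ' ≃* Γ'₀) (f : Γ₀ →* Γ)

/-- transport of a transfer datum along `f' : Γ' ≃ Γ'₀` and `f : Γ₀ → Γ`. -/
def xport : TransferDatum Γ'₀ Γ₀ G ι where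
  e' := X.e'.comp f'.symm.toMonoidHom
  e'_inj := X.e'_inj.comp f'.symm.injective
  e := X.e.comp f
  α := X.α
  exists_eq γ i := ⟨X.perm (f γ) i, f' (X.cocycle (f γ) i), by
    show X.α i * X.e (f γ) = X.e' (f'.symm (f' (X.cocycle (f γ) i))) * X.α (X.perm (f γ) i)
    rw [f'.symm_apply_apply]
    exact X.spec (f γ) i⟩
  index_eq i j γ' h := X.index_eq i j (f'.symm γ') h

@[simp] theorem xport_α (i : ι) : (xport X f' f).α i = X.α i := rfl

theorem xport_e'_apply (γ : Γ'₀) : (xport X f' f).e' γ = X.e' (f'.symm γ) := rfl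

theorem xport_e_apply (γ : Γ₀) : (xport X f' f).e γ = X.e (f γ) := rfl

theorem xport_cocycle (γ : Γ₀) (i : ι) :
    (xport X f' f).cocycle γ i = f' (X.cocycle (f γ) i) := by
  apply (xport X f' f).cocycle_eq (j := X.perm (f γ) i)
  show X.α i * X.e (f γ) = X.e' (f'.symm (f' (X.cocycle (f γ) i))) * X.α (X.perm (f γ) i)
  rw [f'.symm_apply_apply]
  exact X.spec (f γ) i

theorem xport_transferGrp [Fintype ι] {A : Type*} [AddCommGroup A] (ψ : Additive Γ'₀ →+ A) :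
    (xport X f' f).transferGrp A ψ =
      pullHom f A (X.transferGrp A (pullHom (f'.toMonoidHom) A ψ)) := by
  refine AddMonoidHom.ext fun γ => ?_
  rw [TransferDatum.transferGrp_apply', pullHom_apply', TransferDatum.transferGrp_apply]
  refine Finset.sum_congr rfl fun i _ => ?_
  rw [xport_cocycle]
  rfl

end Xport

/-! ### composition -/

section Xcomp

variable {Γ'' Γ₁ Γ G ι₁ ι₂ : Type*} [Group Γ''] [Group Γ₁] [Group Γ] [Group G]
  (X₁ : TransferDatum Γ'' Γ₁ G ι₁) (X₂ : TransferDatum Γ₁ Γ G ι₂) (h12 : X₁.e = X₂.e')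
  (hdist : ∀ (u u₂ : ι₁) (i i₂ : ι₂) (γ : Γ''),
    X₁.α u * X₂.α i = X₁.e' γ * (X₁.α u₂ * X₂.α i₂) → u = u₂ ∧ i = i₂)

include h12 in
theorem xcomp_spec (γ : Γ) (p : ι₁ × ι₂) :
    X₁.α p.1 * X₂.α p.2 * X₂.e γ = X₁.e' (X₁.cocycle (X₂.cocycle γ p.2) p.1) *
      (X₁.α (X₁.perm (X₂.cocycle γ p.2) p.1) * X₂.α (X₂.perm γ p.2)) := by
  rw [mul_assoc, X₂.spec γ p.2, ← mul_assoc, ← h12, X₁.spec, mul_assoc]

/-- **the composite `Γ'' αᵤ βᵢ`** of two transfer data. -/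
def xcomp : TransferDatum Γ'' Γ G (ι₁ × ι₂) where
  e' := X₁.e'
  e'_inj := X₁.e'_inj
  e := X₂.e
  α p := X₁.α p.1 * X₂.α p.2
  exists_eq γ p := ⟨(X₁.perm (X₂.cocycle γ p.2) p.1, X₂.perm γ p.2),
    X₁.cocycle (X₂.cocycle γ p.2) p.1, xcomp_spec X₁ X₂ h12 γ p⟩
  index_eq p p₂ γ h := by
    obtain ⟨h1, h2⟩ := hdist p.1 p₂.1 p.2 p₂.2 γ h
    exact Prod.ext h1 h2

@[simp] theorem xcomp_α (p : ι₁ × ι₂) :
    (xcomp X₁ X₂ h12 hdist).α p = X₁.α p.1 * X₂.α p.2 := rfl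

@[simp] theorem xcomp_e' : (xcomp X₁ X₂ h12 hdist).e' = X₁.e' := rfl

@[simp] theorem xcomp_e : (xcomp X₁ X₂ h12 hdist).e = X₂.e := rfl

theorem xcomp_cocycle (γ : Γ) (p : ι₁ × ι₂) :
    (xcomp X₁ X₂ h12 hdist).cocycle γ p = X₁.cocycle (X₂.cocycle γ p.2) p.1 :=
  (xcomp X₁ X₂ h12 hdist).cocycle_eq
    (j := (X₁.perm (X₂.cocycle γ p.2) p.1, X₂.perm γ p.2)) (xcomp_spec X₁ X₂ h12 γ p)

/-- the transfer of the composite is the composite of the transfers. -/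
theorem xcomp_transferGrp [Fintype ι₁] [Fintype ι₂] {A : Type*} [AddCommGroup A]
    (ψ : Additive Γ'' →+ A) :
    (xcomp X₁ X₂ h12 hdist).transferGrp A ψ = X₂.transferGrp A (X₁.transferGrp A ψ) := by
  refine AddMonoidHom.ext fun γ => ?_
  rw [TransferDatum.transferGrp_apply', TransferDatum.transferGrp_apply',
    Fintype.sum_prod_type_right]
  refine Finset.sum_congr rfl fun i _ => ?_
  rw [TransferDatum.transferGrp_apply]
  exact Finset.sum_congr rfl fun u _ => by rw [xcomp_cocycle]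

end Xcomp

/-! ### conjugation -/

section ConjX

variable {Γ' Γ G ι : Type*} [Group Γ'] [Group Γ] [Group G] (X : TransferDatum Γ' Γ G ι) (x : G)
  (θ : Γ' ≃* Γ') (hθ : ∀ γ, X.e' (θ γ) = x * X.e' γ * x⁻¹)

include hθ in
theorem conjX_spec (γ : Γ) (i : ι) :
    x * X.α i * X.e γ = X.e' (θ (X.cocycle γ i)) * (x * X.α (X.perm γ i)) := by
  rw [hθ, mul_assoc, X.spec γ i]
  group

/-- **the transfer datum `x αᵢ`** for an element `x` of the ambient group inducing the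
automorphism `θ` of `Γ'`. -/
def conjX : TransferDatum Γ' Γ G ι where
  e' := X.e'
  e'_inj := X.e'_inj
  e := X.e
  α i := x * X.α i
  exists_eq γ i := ⟨X.perm γ i, θ (X.cocycle γ i), conjX_spec X x θ hθ γ i⟩
  index_eq i j γ' h := by
    apply X.index_eq i j (θ.symm γ')
    have h1 : X.e' γ' = x * X.e' (θ.symm γ') * x⁻¹ := by rw [← hθ, θ.apply_symm_apply]
    rw [h1] at h
    have h2 : x * X.α i = x * (X.e' (θ.symm γ') * X.α j) := by
      rw [h]
      group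
    exact mul_left_cancel h2

@[simp] theorem conjX_α (i : ι) : (conjX X x θ hθ).α i = x * X.α i := rfl

@[simp] theorem conjX_e' : (conjX X x θ hθ).e' = X.e' := rfl

@[simp] theorem conjX_e : (conjX X x θ hθ).e = X.e := rfl

theorem conjX_cocycle (γ : Γ) (i : ι) : (conjX X x θ hθ).cocycle γ i = θ (X.cocycle γ i) :=
  (conjX X x θ hθ).cocycle_eq (j := X.perm γ i) (conjX_spec X x θ hθ γ i)

theorem conjX_transferGrp [Fintype ι] {A : Type*} [AddCommGroup A] (ψ : Additive Γ' →+ A) :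
    (conjX X x θ hθ).transferGrp A ψ =
      X.transferGrp A (ψ.comp (MonoidHom.toAdditive (θ : Γ' →* Γ'))) := by
  refine AddMonoidHom.ext fun γ => ?_
  rw [TransferDatum.transferGrp_apply', TransferDatum.transferGrp_apply']
  refine Finset.sum_congr rfl fun i _ => ?_
  rw [conjX_cocycle]
  rfl

end ConjX

/-! ### distinctness and existence for representatives in the target group -/

section Honest

variable {Γ'' Γ₂ Γ G κ₁ κ₂ : Type*} [Group Γ''] [Group Γ₂] [Group Γ] [Group G]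

/-- the cosets `Γ'' (s gₖ) βⱼ` are pairwise distinct if `gₖ ∈ Γ₂` and `s` conjugates `Γ''` into
`Γ₂`. -/
theorem xcomp_hdist_of_conj (Y₁ : TransferDatum Γ'' Γ₂ G κ₁) (Y₂ : TransferDatum Γ₂ Γ G κ₂)
    (s : G) (hs : ∀ γ : Γ'', ∃ m : Γ₂, Y₁.e' γ * s = s * Y₂.e' m)
    (g : κ₁ → Γ₂) (hg : ∀ k, Y₁.α k = s * Y₂.e' (g k))
    (k k₂ : κ₁) (j j₂ : κ₂) (γ : Γ'')
    (h : Y₁.α k * Y₂.α j = Y₁.e' γ * (Y₁.α k₂ * Y₂.α j₂)) : k = k₂ ∧ j = j₂ := by
  obtain ⟨m, hm⟩ := hs γ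
  have h1 : s * (Y₂.e' (g k) * Y₂.α j) = s * (Y₂.e' (m * g k₂) * Y₂.α j₂) := by
    rw [map_mul, ← mul_assoc s, ← mul_assoc s, ← mul_assoc s, ← hm, ← hg, mul_assoc (Y₁.e' γ),
      ← hg, h, mul_assoc]
  have h2 : Y₂.α j = Y₂.e' ((g k)⁻¹ * (m * g k₂)) * Y₂.α j₂ := by
    rw [map_mul (f := Y₂.e') (g k)⁻¹, map_inv, mul_assoc, ← mul_left_cancel h1,
      inv_mul_cancel_left]
  have hj : j = j₂ := Y₂.index_eq j j₂ _ h2
  subst hj
  refine ⟨?_, rfl⟩
  rw [← mul_assoc] at h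
  exact Y₁.index_eq k k₂ γ (mul_right_cancel h)

/-- if one representative of the datum is `s g₀` with `g₀` in the target group, every `s g` lies
in a coset of the datum. -/
theorem exists_of_rep {Γ' ι : Type*} [Group Γ'] (X : TransferDatum Γ' Γ G ι) (s : G) (i₀ : ι)
    (g₀ : Γ) (h₀ : X.α i₀ = s * X.e g₀) (g : Γ) :
    ∃ (k : ι) (δ : Γ'), s * X.e g = X.e' δ * X.α k := by
  refine ⟨X.perm (g₀⁻¹ * g) i₀, X.cocycle (g₀⁻¹ * g) i₀, ?_⟩
  rw [← X.spec, h₀, mul_assoc, ← map_mul, mul_inv_cancel_left]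

end Honest

/-! ### comparison of two composites -/

section Compare

variable {Γ'' Γ₁ Γ₂ Γ G ι₁ ι₂ κ₁ κ₂ : Type*} [Group Γ''] [Group Γ₁] [Group Γ₂] [Group Γ]
  [Group G] [Fintype ι₁] [Fintype ι₂] [Fintype κ₁] [Fintype κ₂] {A : Type*} [AddCommGroup A]

/-- **comparison of two composite transfers** `Γ'' → Γ₁ → Γ` and `Γ'' → Γ₂ → Γ`: every coset
`Γ'' αᵤ βᵢ` is a coset `Γ'' α'ₖ β'ⱼ`, `(k, j) = f (u, i)` with `f` injective, the cosets
`Γ'' α'ₖ β'ⱼ` are pairwise distinct and the two families have the same cardinality. -/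
theorem comp_transferGrp_eq_of_inj
    (X₁ : TransferDatum Γ'' Γ₁ G ι₁) (X₂ : TransferDatum Γ₁ Γ G ι₂)
    (Y₁ : TransferDatum Γ'' Γ₂ G κ₁) (Y₂ : TransferDatum Γ₂ Γ G κ₂)
    (hX : X₁.e = X₂.e') (hY : Y₁.e = Y₂.e') (he' : X₁.e' = Y₁.e') (he : X₂.e = Y₂.e)
    (hdistY : ∀ (k k₂ : κ₁) (j j₂ : κ₂) (γ : Γ''),
      Y₁.α k * Y₂.α j = Y₁.e' γ * (Y₁.α k₂ * Y₂.α j₂) → k = k₂ ∧ j = j₂)
    (hcard : Fintype.card (ι₁ × ι₂) = Fintype.card (κ₁ × κ₂))
    (f : ι₁ × ι₂ → κ₁ × κ₂) (hf : Function.Injective f) (δ : ι₁ × ι₂ → Γ'')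
    (hα : ∀ p, X₁.α p.1 * X₂.α p.2 = Y₁.e' (δ p) * (Y₁.α (f p).1 * Y₂.α (f p).2))
    (ψ : Additive Γ'' →+ A) :
    X₂.transferGrp A (X₁.transferGrp A ψ) = Y₂.transferGrp A (Y₁.transferGrp A ψ) := by
  have hdistX : ∀ (u u₂ : ι₁) (i i₂ : ι₂) (γ : Γ''),
      X₁.α u * X₂.α i = X₁.e' γ * (X₁.α u₂ * X₂.α i₂) → u = u₂ ∧ i = i₂ := by
    intro u u₂ i i₂ γ h
    have h1 := hα (u, i)
    have h2 := hα (u₂, i₂)
    simp only at h1 h2
    rw [h1, h2, he'] at h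
    have h3 : Y₁.α (f (u, i)).1 * Y₂.α (f (u, i)).2 =
        Y₁.e' ((δ (u, i))⁻¹ * γ * δ (u₂, i₂)) *
          (Y₁.α (f (u₂, i₂)).1 * Y₂.α (f (u₂, i₂)).2) := by
      rw [map_mul, map_mul, map_inv]
      calc Y₁.α (f (u, i)).1 * Y₂.α (f (u, i)).2
          = (Y₁.e' (δ (u, i)))⁻¹ *
              (Y₁.e' (δ (u, i)) * (Y₁.α (f (u, i)).1 * Y₂.α (f (u, i)).2)) := by group
        _ = _ := by rw [h]; group
    obtain ⟨h4, h5⟩ := hdistY _ _ _ _ _ h3
    have h6 : (u, i) = (u₂, i₂) := hf (Prod.ext h4 h5)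
    exact ⟨congrArg Prod.fst h6, congrArg Prod.snd h6⟩
  have hbij : Function.Bijective f :=
    (Fintype.bijective_iff_injective_and_card f).mpr ⟨hf, hcard⟩
  rw [← xcomp_transferGrp X₁ X₂ hX hdistX, ← xcomp_transferGrp Y₁ Y₂ hY hdistY]
  refine ((xcomp X₁ X₂ hX hdistX).transferGrp_eq_of_reps (xcomp Y₁ Y₂ hY hdistY) he'.symm
    he.symm (Equiv.ofBijective f hbij) δ (fun p => ?_) ψ).symm
  rw [Equiv.ofBijective_apply]
  show X₁.α p.1 * X₂.α p.2 = X₁.e' (δ p) * (Y₁.α (f p).1 * Y₂.α (f p).2)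
  rw [he']
  exact hα p

end Compare

end Fermat.Agent.ML.TWP
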