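/-
PROJECT ML (S59) — [TWPUSH] (helper7), part 1: **the two traces on `Hom(Γ_H, A)` as transfers of
data on the groups `Γ_H`** (`yAlpha`, `yBeta`: helper2's `xferAlphaK`, `xferBetaK` transported along
`kerEquivGammaH`), and the integral matrix identities used in the coset comparison.
-/
import Mathlib
import Fermat.Agent.ML.IFACE_helper2_TwPush
import Fermat.Agent.ML.TWPUSH_helper7_Abs
import Fermat.Agent.RB.TW_lead_Hecke

set_option autoImplicit false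
set_option linter.unusedSectionVars false
set_option linter.unusedVariables false
set_option linter.unnecessarySeqFocus false

namespace Fermat.Agent.ML.TWP

open CongruenceSubgroup Matrix ModularCurve.Period ModularForm
open scoped MatrixGroups
open Fermat.Agent.GR Fermat.Agent.LR Fermat.Agent.RB Fermat.Agent.RB.TWM Fermat.Agent.RB.TWL
  Fermat.Agent.W1 Fermat.Agent.ML

section Data

variable (N q M : ℕ) [NeZero N] [NeZero (N * q)] (hM : M ∣ N) (hq : q.Prime) (hqN : ¬ q ∣ N)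
  {Δ : Type} [CommGroup Δ] (π : (ZMod M)ˣ →* Δ)

theorem coe_kerEquivGammaH_symm (N M : ℕ) (h : M ∣ N) (π : (ZMod M)ˣ →* Δ)
    (γ : ↥(GammaH N M h π)) :
    ((((kerEquivGammaH N M h π).symm γ : ↥(chiOf N M h π).ker) : ↥(Gamma0 N)) : SL(2, ℤ)) =
      (γ : SL(2, ℤ)) := by
  have h1 := coe_kerEquivGammaH N M h π ((kerEquivGammaH N M h π).symm γ)
  rw [MulEquiv.apply_symm_apply] at h1
  exact h1.symm

/-- `Γ_H(N q) ≤ Γ_H(N)`. -/
theorem GammaH_mul_le : GammaH (N * q) M (dvd_mul_level N q M hM) π ≤ GammaH N M hM π := by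
  intro γ hγ
  obtain ⟨h0, h1⟩ := mem_GammaH.mp hγ
  refine mem_GammaH.mpr ⟨Gamma0_mul_le N q h0, ?_⟩
  rw [← h1]
  exact chiOf_inclHom N q M hM π ⟨γ, h0⟩

/-- **`α_*` on `Hom(Γ_H, A)` as a transfer datum.** -/
noncomputable def yAlpha : TransferDatum ↥(GammaH (N * q) M (dvd_mul_level N q M hM) π)
    ↥(GammaH N M hM π) (GL (Fin 2) ℝ) (Option (Fin q)) :=
  xport (xferAlphaK N q M hM hq hqN π) (kerEquivGammaH (N * q) M (dvd_mul_level N q M hM) π)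
    ((kerEquivGammaH N M hM π).symm.toMonoidHom)

/-- **`β_*` on `Hom(Γ_H, A)` as a transfer datum.** -/
noncomputable def yBeta : TransferDatum ↥(GammaH (N * q) M (dvd_mul_level N q M hM) π)
    ↥(GammaH N M hM π) (GL (Fin 2) ℝ) (Option (Fin q)) :=
  xport (xferBetaK N q M hM hq hqN π) (kerEquivGammaH (N * q) M (dvd_mul_level N q M hM) π)
    ((kerEquivGammaH N M hM π).symm.toMonoidHom)

theorem yAlpha_transferGrp (A : Type) [AddCommGroup A]
    (Φ : Additive ↥(GammaH (N * q) M (dvd_mul_level N q M hM) π) →+ A) :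
    (yAlpha N q M hM hq hqN π).transferGrp A Φ = pushAH N q M hM hq hqN π A Φ := by
  rw [yAlpha, xport_transferGrp]
  rfl

theorem yBeta_transferGrp (A : Type) [AddCommGroup A]
    (Φ : Additive ↥(GammaH (N * q) M (dvd_mul_level N q M hM) π) →+ A) :
    (yBeta N q M hM hq hqN π).transferGrp A Φ = pushBH N q M hM hq hqN π A Φ := by
  rw [yBeta, xport_transferGrp]
  rfl

theorem yAlpha_e' : (yAlpha N q M hM hq hqN π).e' =
    slEmb (GammaH (N * q) M (dvd_mul_level N q M hM) π) := by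
  refine MonoidHom.ext fun γ => ?_
  show Matrix.SpecialLinearGroup.mapGL ℝ
    ((((kerEquivGammaH (N * q) M (dvd_mul_level N q M hM) π).symm γ :
      ↥(chiOf (N * q) M (dvd_mul_level N q M hM) π).ker) : ↥(Gamma0 (N * q))) : SL(2, ℤ)) =
    Matrix.SpecialLinearGroup.mapGL ℝ (γ : SL(2, ℤ))
  rw [coe_kerEquivGammaH_symm]

theorem yBeta_e' : (yBeta N q M hM hq hqN π).e' =
    slEmb (GammaH (N * q) M (dvd_mul_level N q M hM) π) := by
  refine MonoidHom.ext fun γ => ?_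
  show Matrix.SpecialLinearGroup.mapGL ℝ
    ((((kerEquivGammaH (N * q) M (dvd_mul_level N q M hM) π).symm γ :
      ↥(chiOf (N * q) M (dvd_mul_level N q M hM) π).ker) : ↥(Gamma0 (N * q))) : SL(2, ℤ)) =
    Matrix.SpecialLinearGroup.mapGL ℝ (γ : SL(2, ℤ))
  rw [coe_kerEquivGammaH_symm]

theorem yAlpha_e : (yAlpha N q M hM hq hqN π).e = slEmb (GammaH N M hM π) := by
  refine MonoidHom.ext fun γ => ?_
  show Matrix.SpecialLinearGroup.mapGL ℝ
    ((((kerEquivGammaH N M hM π).symm γ : ↥(chiOf N M hM π).ker) : ↥(Gamma0 N)) : SL(2, ℤ)) =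
    Matrix.SpecialLinearGroup.mapGL ℝ (γ : SL(2, ℤ))
  rw [coe_kerEquivGammaH_symm]

theorem yBeta_e : (yBeta N q M hM hq hqN π).e = slEmb (GammaH N M hM π) := by
  refine MonoidHom.ext fun γ => ?_
  show Matrix.SpecialLinearGroup.mapGL ℝ
    ((((kerEquivGammaH N M hM π).symm γ : ↥(chiOf N M hM π).ker) : ↥(Gamma0 N)) : SL(2, ℤ)) =
    Matrix.SpecialLinearGroup.mapGL ℝ (γ : SL(2, ℤ))
  rw [coe_kerEquivGammaH_symm]

/-- the representatives of `α_*` as elements of `Γ_H(N)`. -/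
noncomputable def alphaRepH (k : Option (Fin q)) : ↥(GammaH N M hM π) :=
  ⟨((alphaRep N q (bez_eq hq hqN) k : Gamma0 N) : SL(2, ℤ)),
    Gamma1_le_GammaH N M hM π (alphaRep_mem_Gamma1 N q (bez_eq hq hqN) k)⟩

/-- the representatives of `β_*` (up to `diag(1, q)`) as elements of `Γ_H(N)`. -/
noncomputable def betaRepH (k : Option (Fin q)) : ↥(GammaH N M hM π) :=
  ⟨((betaRepN N q (bez_eq hq hqN) k : Gamma0 N) : SL(2, ℤ)),
    Gamma1_le_GammaH N M hM π (betaRepN_mem_Gamma1 N q (bez_eq hq hqN) k)⟩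

theorem yAlpha_α (k : Option (Fin q)) :
    (yAlpha N q M hM hq hqN π).α k = 1 * slEmb (GammaH N M hM π) (alphaRepH N q M hM hq hqN π k) :=
  rfl

theorem yBeta_α (k : Option (Fin q)) :
    (yBeta N q M hM hq hqN π).α k =
      heckeMatrix q 0 * slEmb (GammaH N M hM π) (betaRepH N q M hM hq hqN π k) :=
  rfl

end Data

/-! ### matrix identities -/

section Mat

variable (N M : ℕ) [NeZero M] (hM : M ∣ N)

include hM in
/-- `(1 U/M; 0 1) c = m (1 U/M; 0 1)` for `c ∈ Γ₁(N M)`, with `m ∈ Γ₀(N)` of lower right entry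
`≡ 1` modulo `M` and the same lower left entry. -/
theorem exists_tMat_mul_gamma1 (c : Gamma0 (N * M)) (hc : (c : SL(2, ℤ)) ∈ Gamma1 (N * M))
    (U : ℕ) :
    ∃ m : Gamma0 N, ((((m : SL(2, ℤ)) 1 1 : ℤ)) : ZMod M) = 1 ∧
      (m : SL(2, ℤ)) 1 0 = (c : SL(2, ℤ)) 1 0 ∧
      tMat ((U : ℝ) / (M : ℝ)) * slEmb (Gamma0 (N * M)) c =
        slEmb (Gamma0 N) m * tMat ((U : ℝ) / (M : ℝ)) := by
  have hc11 : ((((c : SL(2, ℤ)) 1 1 : ℤ)) : ZMod M) = 1 := by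
    rw [Gamma1_mem] at hc
    have := congrArg (ZMod.castHom (dvd_mul_left M N) (ZMod M)) hc.2.1
    rwa [map_intCast, map_one] at this
  have hU : (((U : ℤ) : ℤ) : ZMod M) =
      ((((c : SL(2, ℤ)) 1 1 : ℤ)) : ZMod M) ^ 2 * (((U : ℤ) : ℤ) : ZMod M) := by
    rw [hc11, one_pow, one_mul]
  obtain ⟨m, hm0, hm11, hm⟩ := exists_tw_conj N M hM (c : SL(2, ℤ)) c.2 U U hU
  have hM0 : (M : ℤ) ≠ 0 := by exact_mod_cast NeZero.ne M
  refine ⟨⟨m, hm0⟩, by rw [hm11, hc11], ?_, ?_⟩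
  · have h1 := (utZ_mul_eq_iff _ _ _ _ _ _ _ _).mp hm
    obtain ⟨-, -, h10, -⟩ := h1
    have h2 : (M : ℤ) * (c : SL(2, ℤ)) 1 0 = (M : ℤ) * m 1 0 := by rw [h10]; ring
    exact (mul_left_cancel₀ hM0 h2).symm
  · have h1 : IsQMat (M : ℤ) (tMat ((U : ℝ) / (M : ℝ)) * slEmb (Gamma0 (N * M)) c)
        (utZ M U M * ((c : SL(2, ℤ)) : Matrix (Fin 2) (Fin 2) ℤ)) :=
      ((isQMat_tMat M (NeZero.ne M) U).mul (isQMat_slEmb _ c)).of_eq (mul_one _)
    have h2 : IsQMat (M : ℤ) (slEmb (Gamma0 N) ⟨m, hm0⟩ * tMat ((U : ℝ) / (M : ℝ)))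
        ((m : Matrix (Fin 2) (Fin 2) ℤ) * utZ M U M) :=
      ((isQMat_slEmb (Gamma0 N) ⟨m, hm0⟩).mul (isQMat_tMat M (NeZero.ne M) U)).of_eq (one_mul _)
    exact (h1.eq_iff hM0 h2).mpr hm

/-- `(1 U/M; 0 1) diag(1, q) = diag(1, q) (1 n; 0 1) (1 U₂/M; 0 1)` for `q U = U₂ + n M`. -/
theorem tMat_mul_heckeMatrix_zero (q : ℕ) (hq : q ≠ 0) (U U₂ : ℕ) (n : ℤ)
    (h : (q : ℤ) * (U : ℤ) = (U₂ : ℤ) + n * (M : ℤ)) :
    tMat ((U : ℝ) / (M : ℝ)) * heckeMatrix q 0 =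
      heckeMatrix q 0 * Matrix.SpecialLinearGroup.mapGL ℝ (upperUni n) *
        tMat ((U₂ : ℝ) / (M : ℝ)) := by
  have hM0 : (M : ℤ) ≠ 0 := by exact_mod_cast NeZero.ne M
  have hD : IsQMat 1 (heckeMatrix q 0) (utZ 1 0 q) := isQMat_of_val (isZMat_heckeMatrix_zero hq)
  have h1 : IsQMat (M : ℤ) (tMat ((U : ℝ) / (M : ℝ)) * heckeMatrix q 0)
      (utZ M U M * utZ 1 0 q) :=
    ((isQMat_tMat M (NeZero.ne M) U).mul hD).of_eq (mul_one _)
  have h2 : IsQMat (M : ℤ) (heckeMatrix q 0 * Matrix.SpecialLinearGroup.mapGL ℝ (upperUni n) *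
      tMat ((U₂ : ℝ) / (M : ℝ)))
      (utZ 1 0 q * ((upperUni n : SL(2, ℤ)) : Matrix (Fin 2) (Fin 2) ℤ) * utZ M U₂ M) :=
    ((hD.mul (isQMat_mapGL _)).mul (isQMat_tMat M (NeZero.ne M) U₂)).of_eq (by ring)
  refine (h1.eq_iff hM0 h2).mpr ?_
  rw [val_upperUni, utZ_mul_utZ, utZ_mul_utZ, utZ_mul_utZ]
  refine utZ_congr (by ring) ?_ (by ring)
  linear_combination h

end Mat

end Fermat.Agent.ML.TWP
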