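/-
PROJECT ML (S59) — [TWPUSH] (helper7), part 2: **the coset comparisons**.

With `α'_u = s'_u t_u` (level `N q`), `α_u = s_u t_u` (level `N`), `t_u = (1 u/M; 0 1)`:
* `alpha_exists` : `α'_u a_i = δ · a°_k · α_u` (`a_i`, `a°_k` the representatives of
  `Γ₀(N M q) \ Γ₀(N M)` resp. `Γ₀(N q) \ Γ₀(N)`), `δ ∈ Γ_H(N q)`;
* `alpha_inj` : the cosets `Γ_H(N q) α'_u a_i` (`u` fixed) are pairwise distinct;
* `beta_exists` : `α'_u D b_i = δ · D b°_k · g · α_{q u}` (`D = diag(1, q)`), for `g ∈ Γ₀(N)` with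
  `χ(g) σ(q) = 1`;
* `beta_inj` : the cosets `Γ_H(N q) α'_u D b_i` (`u` fixed) are pairwise distinct.
-/
import Mathlib
import Fermat.Agent.ML.TWPUSH_helper7_Data

set_option autoImplicit false
set_option linter.unusedSectionVars false
set_option linter.unusedVariables false
set_option linter.unnecessarySeqFocus false

namespace Fermat.Agent.ML.TWP

open CongruenceSubgroup Matrix ModularCurve.Period ModularForm
open scoped MatrixGroups
open Fermat.Agent.GR Fermat.Agent.LR Fermat.Agent.RB Fermat.Agent.RB.TWM Fermat.Agent.RB.TWL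
  Fermat.Agent.W1 Fermat.Agent.ML

section Core

variable (N q M : ℕ) [NeZero N] [NeZero M] [NeZero (N * q)] (hM : M ∣ N) (hq : q.Prime)
  (hqN : ¬ q ∣ N) (hqNM : ¬ q ∣ N * M) {Δ : Type} [CommGroup Δ] (π : (ZMod M)ˣ →* Δ)

theorem chiOf_eq_one_of_lowerRight (m : Gamma0 N)
    (hm : ((((m : SL(2, ℤ)) 1 1 : ℤ)) : ZMod M) = 1) : chiOf N M hM π m = 1 := by
  rw [chiOf_apply]
  have : chiD N M hM m = 1 := Units.ext (by rw [coe_chiD, Units.val_one]; exact hm)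
  rw [this, map_one]

theorem xferAlpha_α_eq_slEmb (i : Option (Fin q)) :
    (xferAlpha (N * M) q (bez_eq hq hqNM) hq).α i =
      slEmb (Gamma0 (N * M)) (alphaRep (N * M) q (bez_eq hq hqNM) i) := by
  show (1 : GL (Fin 2) ℝ) * GR.gammaEmb (N * M) _ = _
  rw [one_mul]
  rfl

/-- **the existence half for `α`.** -/
theorem alpha_exists (s' : Gamma0 (N * q)) (s : Gamma0 N)
    (hss : chiOf (N * q) M (dvd_mul_level N q M hM) π s' = chiOf N M hM π s) (U : ℕ)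
    (i : Option (Fin q)) :
    ∃ (k : Option (Fin q)) (δ : ↥(GammaH (N * q) M (dvd_mul_level N q M hM) π)),
      slEmb (Gamma0 (N * q)) s' * tMat ((U : ℝ) / (M : ℝ)) *
          (xferAlpha (N * M) q (bez_eq hq hqNM) hq).α i =
        slEmb (GammaH (N * q) M (dvd_mul_level N q M hM) π) δ *
          ((yAlpha N q M hM hq hqN π).α k *
            (slEmb (Gamma0 N) s * tMat ((U : ℝ) / (M : ℝ)))) := by
  have ha1 := alphaRep_mem_Gamma1 (N * M) q (bez_eq hq hqNM) i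
  obtain ⟨m, hm11, hm10, hm⟩ := exists_tMat_mul_gamma1 N M hM
    (alphaRep (N * M) q (bez_eq hq hqNM) i) ha1 U
  have hχm : chiOf N M hM π m = 1 := chiOf_eq_one_of_lowerRight N M hM π m hm11
  set g : Gamma0 N := inclHom N q s' * m * s⁻¹ with hg
  have hχg : chiOf N M hM π g = 1 := by
    rw [hg, map_mul, map_mul, map_inv, chiOf_inclHom, hss, hχm, mul_one, mul_inv_cancel]
  have hgH : (g : SL(2, ℤ)) ∈ GammaH N M hM π := mem_GammaH.mpr ⟨g.2, hχg⟩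
  obtain ⟨k, δ, hk⟩ := exists_of_rep (yAlpha N q M hM hq hqN π) 1 none
    (alphaRepH N q M hM hq hqN π none) (by rw [yAlpha_α, yAlpha_e]) ⟨(g : SL(2, ℤ)), hgH⟩
  refine ⟨k, δ, ?_⟩
  rw [yAlpha_e, yAlpha_e', one_mul] at hk
  have hgv : slEmb (GammaH N M hM π) ⟨(g : SL(2, ℤ)), hgH⟩ =
      slEmb (Gamma0 (N * q)) s' * slEmb (Gamma0 N) m * (slEmb (Gamma0 N) s)⁻¹ := by
    show slEmb (Gamma0 N) g = _
    rw [hg, map_mul, map_mul, map_inv]
    rfl
  rw [xferAlpha_α_eq_slEmb, mul_assoc, hm, ← mul_assoc (slEmb _ δ), ← hk, hgv]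
  group

/-- **the distinctness half for `α`.** -/
theorem alpha_inj (s' : Gamma0 (N * q)) (U : ℕ) (i i₂ : Option (Fin q))
    (γ : ↥(GammaH (N * q) M (dvd_mul_level N q M hM) π))
    (h : slEmb (Gamma0 (N * q)) s' * tMat ((U : ℝ) / (M : ℝ)) *
          (xferAlpha (N * M) q (bez_eq hq hqNM) hq).α i =
        slEmb (GammaH (N * q) M (dvd_mul_level N q M hM) π) γ *
          (slEmb (Gamma0 (N * q)) s' * tMat ((U : ℝ) / (M : ℝ)) *
            (xferAlpha (N * M) q (bez_eq hq hqNM) hq).α i₂)) : i = i₂ := by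
  apply alpha_distinct (bez_eq hq hqNM) hq
  have hM0 : (M : ℤ) ≠ 0 := by exact_mod_cast NeZero.ne M
  set c : Gamma0 (N * M) := alphaRep (N * M) q (bez_eq hq hqNM) i *
    (alphaRep (N * M) q (bez_eq hq hqNM) i₂)⁻¹ with hc
  set w : SL(2, ℤ) := (s' : SL(2, ℤ))⁻¹ * (γ : SL(2, ℤ)) * (s' : SL(2, ℤ)) with hw
  have hwmem : w ∈ Gamma0 (N * q) :=
    mul_mem (mul_mem (inv_mem s'.2) (GammaH_le_Gamma0 _ _ _ _ γ.2)) s'.2
  have h1 : tMat ((U : ℝ) / (M : ℝ)) * slEmb (Gamma0 (N * M)) c =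
      Matrix.SpecialLinearGroup.mapGL ℝ w * tMat ((U : ℝ) / (M : ℝ)) := by
    rw [xferAlpha_α_eq_slEmb, xferAlpha_α_eq_slEmb] at h
    rw [hc, map_mul, map_inv, hw, map_mul, map_mul, map_inv]
    have e1 : slEmb (GammaH (N * q) M (dvd_mul_level N q M hM) π) γ =
        Matrix.SpecialLinearGroup.mapGL ℝ (γ : SL(2, ℤ)) := rfl
    have e2 : slEmb (Gamma0 (N * q)) s' = Matrix.SpecialLinearGroup.mapGL ℝ (s' : SL(2, ℤ)) := rfl
    rw [e1, e2] at h
    calc tMat ((U : ℝ) / (M : ℝ)) *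
          (slEmb (Gamma0 (N * M)) (alphaRep (N * M) q (bez_eq hq hqNM) i) *
            (slEmb (Gamma0 (N * M)) (alphaRep (N * M) q (bez_eq hq hqNM) i₂))⁻¹)
        = (Matrix.SpecialLinearGroup.mapGL ℝ (s' : SL(2, ℤ)))⁻¹ *
            (Matrix.SpecialLinearGroup.mapGL ℝ (s' : SL(2, ℤ)) * tMat ((U : ℝ) / (M : ℝ)) *
              slEmb (Gamma0 (N * M)) (alphaRep (N * M) q (bez_eq hq hqNM) i)) *
            (slEmb (Gamma0 (N * M)) (alphaRep (N * M) q (bez_eq hq hqNM) i₂))⁻¹ := by group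
      _ = _ := by rw [h]; group
  have h2 : IsQMat (M : ℤ) (tMat ((U : ℝ) / (M : ℝ)) * slEmb (Gamma0 (N * M)) c)
      (utZ M U M * ((c : SL(2, ℤ)) : Matrix (Fin 2) (Fin 2) ℤ)) :=
    ((isQMat_tMat M (NeZero.ne M) U).mul (isQMat_slEmb _ c)).of_eq (mul_one _)
  have h3 : IsQMat (M : ℤ) (Matrix.SpecialLinearGroup.mapGL ℝ w * tMat ((U : ℝ) / (M : ℝ)))
      ((w : Matrix (Fin 2) (Fin 2) ℤ) * utZ M U M) :=
    ((isQMat_mapGL w).mul (isQMat_tMat M (NeZero.ne M) U)).of_eq (one_mul _)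
  have h4 := (h2.eq_iff hM0 h3).mp h1
  rw [utZ_mul_eq_iff] at h4
  obtain ⟨-, -, h10, -⟩ := h4
  have h5 : (c : SL(2, ℤ)) 1 0 = w 1 0 := by
    have : (M : ℤ) * (c : SL(2, ℤ)) 1 0 = (M : ℤ) * w 1 0 := by rw [h10]; ring
    exact mul_left_cancel₀ hM0 this
  rw [h5]
  have h6 := (mem_Gamma0_iff_dvd w).mp hwmem
  push_cast at h6
  exact dvd_trans (dvd_mul_left _ _) h6

theorem xferBetaN_α_eq_slEmb (i : Option (Fin q)) :
    (xferBetaN (N * M) q (bez_eq hq hqNM) hq).α i =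
      heckeMatrix q 0 * slEmb (Gamma0 (N * M)) (betaRepN (N * M) q (bez_eq hq hqNM) i) := rfl

/-- **the existence half for `β`.** -/
theorem beta_exists (hqM : Nat.Coprime q M) (g : SL(2, ℤ)) (hg : g ∈ Gamma0 N)
    (s' : Gamma0 (N * q)) (s : Gamma0 N)
    (hχ : chiOf (N * q) M (dvd_mul_level N q M hM) π s' =
      chiOf N M hM π ⟨g, hg⟩ * chiOf N M hM π s)
    (u : (ZMod M)ˣ) (i : Option (Fin q)) :
    ∃ (k : Option (Fin q)) (δ : ↥(GammaH (N * q) M (dvd_mul_level N q M hM) π)),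
      slEmb (Gamma0 (N * q)) s' * tMat ((((u : ZMod M).val : ℕ) : ℝ) / (M : ℝ)) *
          (xferBetaN (N * M) q (bez_eq hq hqNM) hq).α i =
        slEmb (GammaH (N * q) M (dvd_mul_level N q M hM) π) δ *
          ((yBeta N q M hM hq hqN π).α k *
            (Matrix.SpecialLinearGroup.mapGL ℝ g * (slEmb (Gamma0 N) s *
              tMat (((((ZMod.unitOfCoprime q hqM * u : (ZMod M)ˣ) : ZMod M).val : ℕ) : ℝ) /
                (M : ℝ))))) := by
  set U : ℕ := (u : ZMod M).val with hU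
  set U₂ : ℕ := ((ZMod.unitOfCoprime q hqM * u : (ZMod M)ˣ) : ZMod M).val with hU₂
  have hdvd : (M : ℤ) ∣ (q : ℤ) * (U : ℤ) - (U₂ : ℤ) := by
    rw [← ZMod.intCast_zmod_eq_zero_iff_dvd]
    push_cast
    rw [hU, hU₂, ZMod.natCast_zmod_val, ZMod.natCast_zmod_val, Units.val_mul,
      ZMod.coe_unitOfCoprime, sub_self]
  obtain ⟨n, hn⟩ := hdvd
  have hT := tMat_mul_heckeMatrix_zero M q hq.ne_zero U U₂ n (by linear_combination hn)
  have hb1 := betaRepN_mem_Gamma1 (N * M) q (bez_eq hq hqNM) i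
  obtain ⟨m, hm11, hm10, hm⟩ := exists_tMat_mul_gamma1 N M hM
    (betaRepN (N * M) q (bez_eq hq hqNM) i) hb1 U₂
  have hχm : chiOf N M hM π m = 1 := chiOf_eq_one_of_lowerRight N M hM π m hm11
  have hD : heckeMatrix q 0 * slEmb (Gamma0 N) (conjDownHom N q hq s') =
      slEmb (Gamma0 (N * q)) s' * heckeMatrix q 0 := heckeMatrix_mul_conjDownHom N q hq s'
  set h₀ : Gamma0 N := conjDownHom N q hq s' * ⟨upperUni n, upperUni_mem N n⟩ * m * s⁻¹ *
    (⟨g, hg⟩ : Gamma0 N)⁻¹ with hh₀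
  have hχh : chiOf N M hM π h₀ = 1 := by
    rw [hh₀, map_mul, map_mul, map_mul, map_mul, map_inv, map_inv, chiOf_conjDownHom,
      chiOf_upperUni, hχm, hχ, mul_one, mul_one, mul_inv_cancel_right, mul_inv_cancel]
  have hhH : (h₀ : SL(2, ℤ)) ∈ GammaH N M hM π := mem_GammaH.mpr ⟨h₀.2, hχh⟩
  obtain ⟨k, δ, hk⟩ := exists_of_rep (yBeta N q M hM hq hqN π) (heckeMatrix q 0) none
    (betaRepH N q M hM hq hqN π none) (by rw [yBeta_α, yBeta_e]) ⟨(h₀ : SL(2, ℤ)), hhH⟩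
  refine ⟨k, δ, ?_⟩
  rw [yBeta_e, yBeta_e'] at hk
  have hhv : slEmb (GammaH N M hM π) ⟨(h₀ : SL(2, ℤ)), hhH⟩ =
      slEmb (Gamma0 N) (conjDownHom N q hq s') *
        Matrix.SpecialLinearGroup.mapGL ℝ (upperUni n) * slEmb (Gamma0 N) m *
        (slEmb (Gamma0 N) s)⁻¹ * (Matrix.SpecialLinearGroup.mapGL ℝ g)⁻¹ := by
    show slEmb (Gamma0 N) h₀ = _
    rw [hh₀, map_mul, map_mul, map_mul, map_mul, map_inv, map_inv]
    rfl
  rw [hhv] at hk
  rw [xferBetaN_α_eq_slEmb]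
  calc slEmb (Gamma0 (N * q)) s' * tMat ((U : ℝ) / (M : ℝ)) *
        (heckeMatrix q 0 * slEmb (Gamma0 (N * M)) (betaRepN (N * M) q (bez_eq hq hqNM) i))
      = slEmb (Gamma0 (N * q)) s' * (tMat ((U : ℝ) / (M : ℝ)) * heckeMatrix q 0) *
          slEmb (Gamma0 (N * M)) (betaRepN (N * M) q (bez_eq hq hqNM) i) := by group
    _ = slEmb (Gamma0 (N * q)) s' * heckeMatrix q 0 *
          Matrix.SpecialLinearGroup.mapGL ℝ (upperUni n) * (tMat ((U₂ : ℝ) / (M : ℝ)) *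
            slEmb (Gamma0 (N * M)) (betaRepN (N * M) q (bez_eq hq hqNM) i)) := by
        rw [hT]; group
    _ = heckeMatrix q 0 * slEmb (Gamma0 N) (conjDownHom N q hq s') *
          Matrix.SpecialLinearGroup.mapGL ℝ (upperUni n) * (slEmb (Gamma0 N) m *
            tMat ((U₂ : ℝ) / (M : ℝ))) := by
        rw [hm, hD]
    _ = heckeMatrix q 0 * (slEmb (Gamma0 N) (conjDownHom N q hq s') *
          Matrix.SpecialLinearGroup.mapGL ℝ (upperUni n) * slEmb (Gamma0 N) m *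
          (slEmb (Gamma0 N) s)⁻¹ * (Matrix.SpecialLinearGroup.mapGL ℝ g)⁻¹) *
          (Matrix.SpecialLinearGroup.mapGL ℝ g * (slEmb (Gamma0 N) s *
            tMat ((U₂ : ℝ) / (M : ℝ)))) := by group
    _ = _ := by rw [hk]; group

/-- **the distinctness half for `β`.** -/
theorem beta_inj (s' : Gamma0 (N * q)) (U : ℕ) (i i₂ : Option (Fin q))
    (γ : ↥(GammaH (N * q) M (dvd_mul_level N q M hM) π))
    (h : slEmb (Gamma0 (N * q)) s' * tMat ((U : ℝ) / (M : ℝ)) *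
          (xferBetaN (N * M) q (bez_eq hq hqNM) hq).α i =
        slEmb (GammaH (N * q) M (dvd_mul_level N q M hM) π) γ *
          (slEmb (Gamma0 (N * q)) s' * tMat ((U : ℝ) / (M : ℝ)) *
            (xferBetaN (N * M) q (bez_eq hq hqNM) hq).α i₂)) : i = i₂ := by
  apply betaN_distinct (bez_eq hq hqNM) hq
  have hM0 : (M : ℤ) ≠ 0 := by exact_mod_cast NeZero.ne M
  have hqM : Nat.Coprime q M :=
    (Nat.Prime.coprime_iff_not_dvd hq).mpr fun hd => hqNM (Dvd.dvd.mul_left hd N)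
  have hcop : IsCoprime (q : ℤ) (M : ℤ) := Nat.isCoprime_iff_coprime.mpr hqM
  set c : Gamma0 (N * M) := betaRepN (N * M) q (bez_eq hq hqNM) i *
    (betaRepN (N * M) q (bez_eq hq hqNM) i₂)⁻¹ with hc
  set w : SL(2, ℤ) := (s' : SL(2, ℤ))⁻¹ * (γ : SL(2, ℤ)) * (s' : SL(2, ℤ)) with hw
  have h1 : tMat ((U : ℝ) / (M : ℝ)) * heckeMatrix q 0 * slEmb (Gamma0 (N * M)) c =
      Matrix.SpecialLinearGroup.mapGL ℝ w * (tMat ((U : ℝ) / (M : ℝ)) * heckeMatrix q 0) := by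
    rw [xferBetaN_α_eq_slEmb, xferBetaN_α_eq_slEmb] at h
    rw [hc, map_mul, map_inv, hw, map_mul, map_mul, map_inv]
    have e1 : slEmb (GammaH (N * q) M (dvd_mul_level N q M hM) π) γ =
        Matrix.SpecialLinearGroup.mapGL ℝ (γ : SL(2, ℤ)) := rfl
    have e2 : slEmb (Gamma0 (N * q)) s' = Matrix.SpecialLinearGroup.mapGL ℝ (s' : SL(2, ℤ)) := rfl
    rw [e1, e2] at h
    calc tMat ((U : ℝ) / (M : ℝ)) * heckeMatrix q 0 *
          (slEmb (Gamma0 (N * M)) (betaRepN (N * M) q (bez_eq hq hqNM) i) *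
            (slEmb (Gamma0 (N * M)) (betaRepN (N * M) q (bez_eq hq hqNM) i₂))⁻¹)
        = (Matrix.SpecialLinearGroup.mapGL ℝ (s' : SL(2, ℤ)))⁻¹ *
            (Matrix.SpecialLinearGroup.mapGL ℝ (s' : SL(2, ℤ)) * tMat ((U : ℝ) / (M : ℝ)) *
              (heckeMatrix q 0 *
                slEmb (Gamma0 (N * M)) (betaRepN (N * M) q (bez_eq hq hqNM) i))) *
            (slEmb (Gamma0 (N * M)) (betaRepN (N * M) q (bez_eq hq hqNM) i₂))⁻¹ := by group
      _ = _ := by rw [h]; group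
  have hD : IsQMat 1 (heckeMatrix q 0) (utZ 1 0 q) :=
    isQMat_of_val (isZMat_heckeMatrix_zero hq.ne_zero)
  have h2 : IsQMat (M : ℤ) (tMat ((U : ℝ) / (M : ℝ)) * heckeMatrix q 0 *
      slEmb (Gamma0 (N * M)) c)
      (utZ M U M * utZ 1 0 q * ((c : SL(2, ℤ)) : Matrix (Fin 2) (Fin 2) ℤ)) :=
    (((isQMat_tMat M (NeZero.ne M) U).mul hD).mul (isQMat_slEmb _ c)).of_eq (by ring)
  have h3 : IsQMat (M : ℤ) (Matrix.SpecialLinearGroup.mapGL ℝ w *
      (tMat ((U : ℝ) / (M : ℝ)) * heckeMatrix q 0))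
      ((w : Matrix (Fin 2) (Fin 2) ℤ) * (utZ M U M * utZ 1 0 q)) :=
    ((isQMat_mapGL w).mul ((isQMat_tMat M (NeZero.ne M) U).mul hD)).of_eq (by ring)
  have h4 := (h2.eq_iff hM0 h3).mp h1
  rw [utZ_mul_utZ, utZ_mul_eq_iff] at h4
  obtain ⟨-, h01, -, -⟩ := h4
  have h5 : (q : ℤ) ∣ (M : ℤ) * (c : SL(2, ℤ)) 0 1 :=
    ⟨(U : ℤ) * w 0 0 - (U : ℤ) * (c : SL(2, ℤ)) 1 1 + w 0 1 * (M : ℤ), by
      linear_combination h01⟩
  exact hcop.dvd_of_dvd_mul_left h5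

end Core

end Fermat.Agent.ML.TWP
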