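/-
PROJECT ML (S59) — [TWPUSH] (helper7), part 3: **`TwPushStatement`** — the twisting transfers of
the levels `N q` and `N` commute with the two traces:
`α_* ∘ Tw' = Tw ∘ α_*` and `β_* ∘ Tw' = Tw ∘ ⟨g⟩ ∘ β_*` (`χ(g) σ(q) = 1`).

Both sides are composites of two transfers from `Γ_H(N q)` to `Γ₀(N M)`; the coset families
`Γ_H(N q) α'_u a_i` and `Γ_H(N q) a°_k α_u` (resp. `Γ_H(N q) α'_u D b_i` and
`Γ_H(N q) D b°_k g α_{q u}`) coincide (`TWP.comp_transferGrp_eq_of_inj`).
-/
import Mathlib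
import Fermat.Agent.ML.TWPUSH_helper7_Core

set_option autoImplicit false
set_option linter.unusedSectionVars false
set_option linter.unusedVariables false
set_option linter.unnecessarySeqFocus false

namespace Fermat.Agent.ML

open CongruenceSubgroup Matrix ModularCurve.Period ModularForm
open scoped MatrixGroups
open Fermat.Agent.GR Fermat.Agent.LR Fermat.Agent.RB Fermat.Agent.RB.TWM Fermat.Agent.RB.TWL
  Fermat.Agent.W1 Fermat.Agent.ML.TWP

/-- helper2's `xferBetaN` (representatives in `diag(1, q) Γ₁(N)`) gives LR's `β_*`. -/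
theorem xferBetaN_transferGrp_eq_pushB_h7 (N q : ℕ) (hq : q.Prime) (hqN : ¬ q ∣ N) {x y : ℤ}
    (h : (q : ℤ) * x + N * y = 1) {A : Type*} [AddCommGroup A]
    (ψ : Additive (Gamma0 (N * q)) →+ A) :
    (xferBetaN N q h hq).transferGrp A ψ = pushB N q hq hqN A ψ :=
  ConjReps.transferGrp_eq_of_same (conjRepsBeta N q (bez_eq hq hqN) hq) (conjRepsBetaN N q h hq)
    rfl rfl rfl rfl ψ

/-- **[TWPUSH]** the twisting transfers commute with the traces. -/
theorem twPushStatement : TwPushStatement := by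
  intro Δ _ N q M _ _ _ hM hq hqN hqNM π σ hπ hσ hn X' X hX' hX A _ Φ
  choose s' hs' hα' using hX'.α_eq
  choose s hs hα using hX.α_eq
  -- the first transfer of the left hand sides
  set X₁ := xport X' (MulEquiv.refl _) (gamma0Cast (Nat.mul_right_comm N M q)) with hX₁def
  have hX₁ : X₁.transferGrp A Φ =
      pullHom (gamma0Cast (Nat.mul_right_comm N M q)) A (X'.transferGrp A Φ) := by
    rw [hX₁def, xport_transferGrp]
    rfl
  have hX₁e' : X₁.e' = slEmb (GammaH (N * q) M (dvd_mul_level N q M hM) π) := by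
    refine MonoidHom.ext fun γ => ?_
    show X'.e' γ = _
    rw [hX'.e'_eq]
  have hX₁α : ∀ u, X₁.α u = slEmb (Gamma0 (N * q)) (s' u) *
      tMat ((((u : ZMod M).val : ℕ) : ℝ) / (M : ℝ)) := hα'
  have hcard : Fintype.card ((ZMod M)ˣ × Option (Fin q)) =
      Fintype.card (Option (Fin q) × (ZMod M)ˣ) := by
    rw [Fintype.card_prod, Fintype.card_prod, mul_comm]
  rw [← hX₁]
  refine ⟨?_, ?_⟩
  · -- `α`
    rw [← yAlpha_transferGrp]
    show (xferAlpha (N * M) q (bez_eq hq hqNM) hq).transferGrp A (X₁.transferGrp A Φ) = _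
    have hex := fun (p : (ZMod M)ˣ × Option (Fin q)) =>
      alpha_exists N q M hM hq hqN hqNM π (s' p.1) (s p.1) (by rw [hs', hs])
        (p.1 : ZMod M).val p.2
    choose k δ hkδ using hex
    refine comp_transferGrp_eq_of_inj X₁ (xferAlpha (N * M) q (bez_eq hq hqNM) hq)
      (yAlpha N q M hM hq hqN π) X ?_ ?_ ?_ ?_ ?_ hcard (fun p => (k p, p.1)) ?_ δ ?_ Φ
    · refine MonoidHom.ext fun γ => ?_
      show X'.e (gamma0Cast (Nat.mul_right_comm N M q) γ) = _
      rw [hX'.e_eq]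
      rfl
    · rw [yAlpha_e, hX.e'_eq]
    · rw [hX₁e', yAlpha_e']
    · rw [hX.e_eq]
      rfl
    · refine xcomp_hdist_of_conj (yAlpha N q M hM hq hqN π) X 1 (fun γ => ?_)
        (alphaRepH N q M hM hq hqN π) (fun k => ?_)
      · refine ⟨⟨(γ : SL(2, ℤ)), GammaH_mul_le N q M hM π γ.2⟩, ?_⟩
        rw [yAlpha_e', hX.e'_eq, mul_one, one_mul]
        rfl
      · rw [hX.e'_eq]
        rfl
    · rintro ⟨u, i⟩ ⟨u₂, i₂⟩ h
      have hu : u = u₂ := congrArg Prod.snd h
      subst hu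
      have hk : k (u, i) = k (u, i₂) := congrArg Prod.fst h
      have h1 := hkδ (u, i)
      have h2 := hkδ (u, i₂)
      simp only at h1 h2
      rw [hk] at h1
      have hi : i = i₂ := by
        refine alpha_inj N q M hM hq hqNM π (s' u) (u : ZMod M).val i i₂
          (δ (u, i) * (δ (u, i₂))⁻¹) ?_
        rw [h1, h2, map_mul, map_inv]
        group
      rw [hi]
    · intro p
      rw [hX₁α, hα, yAlpha_e']
      exact hkδ p
  · -- `β`
    intro hqM g hg hgσ
    rw [← yBeta_transferGrp, ← xferBetaN_transferGrp_eq_pushB_h7 (N * M) q hq hqNM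
      (bez_eq hq hqNM)]
    set x : GL (Fin 2) ℝ := Matrix.SpecialLinearGroup.mapGL ℝ g with hx
    set θ := conjOn (GammaH N M hM π) hn g hg with hθdef
    have hθ : ∀ γ, X.e' (θ γ) = x * X.e' γ * x⁻¹ := fun γ => by
      rw [hX.e'_eq]
      exact slEmb_conjOn _ hn g hg γ
    have hop : (conjX X x θ hθ).transferGrp A ((yBeta N q M hM hq hqN π).transferGrp A Φ) =
        X.transferGrp A (diamondOnBy (GammaH N M hM π) hn A g hg
          ((yBeta N q M hM hq hqN π).transferGrp A Φ)) := conjX_transferGrp X x θ hθ _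
    rw [← hop]
    set uq : (ZMod M)ˣ := ZMod.unitOfCoprime q hqM with huq
    have hex := fun (p : (ZMod M)ˣ × Option (Fin q)) =>
      beta_exists N q M hM hq hqN hqNM π hqM g hg (s' p.1) (s (uq * p.1))
        (by rw [hs', hs, map_mul, ← mul_assoc, hgσ, one_mul]) p.1 p.2
    choose k δ hkδ using hex
    refine comp_transferGrp_eq_of_inj X₁ (xferBetaN (N * M) q (bez_eq hq hqNM) hq)
      (yBeta N q M hM hq hqN π) (conjX X x θ hθ) ?_ ?_ ?_ ?_ ?_ hcard
      (fun p => (k p, uq * p.1)) ?_ δ ?_ Φ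
    · refine MonoidHom.ext fun γ => ?_
      show X'.e (gamma0Cast (Nat.mul_right_comm N M q) γ) = _
      rw [hX'.e_eq]
      rfl
    · rw [yBeta_e, conjX_e', hX.e'_eq]
    · rw [hX₁e', yBeta_e']
    · rw [conjX_e, hX.e_eq]
      rfl
    · refine xcomp_hdist_of_conj (yBeta N q M hM hq hqN π) (conjX X x θ hθ) (heckeMatrix q 0)
        (fun γ => ?_) (betaRepH N q M hM hq hqN π) (fun k => ?_)
      · obtain ⟨h0, h1⟩ := mem_GammaH.mp γ.2
        have hmem : ((conjDownHom N q hq ⟨(γ : SL(2, ℤ)), h0⟩ : Gamma0 N) : SL(2, ℤ)) ∈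
            GammaH N M hM π :=
          mem_GammaH.mpr ⟨(conjDownHom N q hq ⟨(γ : SL(2, ℤ)), h0⟩).2, by
            rw [← h1]
            exact chiOf_conjDownHom N q M hM π hq ⟨(γ : SL(2, ℤ)), h0⟩⟩
        refine ⟨⟨_, hmem⟩, ?_⟩
        rw [yBeta_e', conjX_e', hX.e'_eq]
        exact (heckeMatrix_mul_conjDownHom N q hq ⟨(γ : SL(2, ℤ)), h0⟩).symm
      · rw [conjX_e', hX.e'_eq]
        rfl
    · rintro ⟨u, i⟩ ⟨u₂, i₂⟩ h
      have hu' : uq * u = uq * u₂ := congrArg Prod.snd h
      have hu : u = u₂ := mul_left_cancel hu'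
      subst hu
      have hk : k (u, i) = k (u, i₂) := congrArg Prod.fst h
      have h1 := hkδ (u, i)
      have h2 := hkδ (u, i₂)
      simp only at h1 h2
      rw [hk] at h1
      have hi : i = i₂ := by
        refine beta_inj N q M hM hq hqNM π (s' u) (u : ZMod M).val i i₂
          (δ (u, i) * (δ (u, i₂))⁻¹) ?_
        rw [h1, h2, map_mul, map_inv]
        group
      rw [hi]
    · intro p
      rw [hX₁α, conjX_α, hα, yBeta_e']
      exact hkδ p

end Fermat.Agent.ML
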