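/-
PROJECT ML (S59) — [TWMOD-LX] (helper2), mode `peuNew`:
`Fermat.Agent.ML.twModXPeuStatement : TWModXPeuStatement` (`ML/IFACE_helper2_TWModXPeu`), from
helper7's `twPushStatement`.
-/
import Mathlib
import Fermat.Agent.ML.TWMODX_helper2_Peu
import Fermat.Agent.ML.TWPUSH_helper7_Main

set_option autoImplicit false

namespace Fermat.Agent.ML

/-- **[TWMOD-LX], mode `peuNew`.** -/
theorem twModXPeuStatement : TWModXPeuStatement := twModXPeu_of_twPush twPushStatement

end Fermat.Agent.ML
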