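/-
PROJECT ML (S59) — [IA-PEU-ADAPTER] (helper1), FINAL WIRING: **`IAPeuAdapterStatement`**
(helper9's literal of `ML/IFACE_helper9_IA`: the Taylor–Wiles producers of IA′ in the mode
`peuNew`), from
 * (P1) helper2's `twModXPeuStatement : TWModXPeuStatement` (module side + `KillAt`),
 * (P2) helper7's `IAPEU.lvlModP_eq_bot_of_notAtLevelDivP`,
 * (P3) `REPTX.exists_levelRep_strict_of_killAt` (strictness at `p` from `KillAt`),
 * (KEY-H) `thetaKillsJ1Odd_all`.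
-/
import Mathlib
import Fermat.Agent.ML.REPTX_helper1_Peu
import Fermat.Agent.ML.REPTX_helper1_Final
import Fermat.Agent.ML.IAPEU_helper7_NotAt
import Fermat.Agent.ML.TWMODX_helper2_PeuMain

set_option autoImplicit false
set_option linter.unusedSectionVars false
set_option linter.unusedVariables false
set_option linter.style.haveILetI false

namespace Fermat.Agent.ML.REPTX

open Polynomial IsLocalRing CuspForm CongruenceSubgroup ModularCurve.Period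
  Fermat.Agent.GR Fermat.Agent.LR Fermat.Agent.RB Fermat.Agent.RB.REPT Fermat.Agent.ML.REPTLB

local notation "Ω" => AlgebraicClosure ℚ
local notation "GQ" => (AlgebraicClosure ℚ ≃ₐ[ℚ] AlgebraicClosure ℚ)

attribute [local instance] TWModLevelX.instAddCommGroupBar TWModLevelX.instModuleBar

set_option maxHeartbeats 1600000 in
/-- **[IA-PEU-ADAPTER]** from the module side (P1) and the geometric form of (KEY-H). -/
theorem iaPeuAdapterStatement_of (hMod : TWModXPeuStatement)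
    (hTh : ∀ (M : ℕ) [NeZero M], 5 ≤ M → ∀ (p : ℕ) [Fact p.Prime], ThetaKillsJ1Odd M p) :
    IAPeuAdapterStatement := by
  intro 𝒪 _ _ _ _ _ _ p _ hp2 hp𝒪 ζ hζ lam hlam N _ hNsq h3 S hS θ T _ _ _ _ _ _ _ _ datum
    hfull ρbar hres md hmode hHolds Sig hSigne hSig hram
  classical
  have hp : p.Prime := Fact.out
  subst hmode
  obtain ⟨hpN, hord, hnot⟩ : p ∣ N ∧ (GaloisRepAdic.ofResidualGaloisRep ρbar).IsOrdinaryAt p ∧
      NotAtLevelDivP θ p := hHolds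
  obtain ⟨hN5, habs, hbarchar, hbardet, hbarunr, hSigunr, hSig', c, instM, instST, hc, -, -,
    hpos, hfaith, hTact, hNE'⟩ :=
    exists_producer_setup (datum := datum) hp2 hp𝒪 hNsq hS hfull ρbar hres hSig
  -- the level `N / p`
  obtain ⟨M₀, hM₀⟩ : ∃ M₀ : ℕ, N = M₀ * p := by
    obtain ⟨M₀, hM₀⟩ := hpN
    exact ⟨M₀, by rw [hM₀, mul_comm]⟩
  have hM₀0 : M₀ ≠ 0 := by
    rintro rfl
    rw [zero_mul] at hM₀
    exact (NeZero.ne N) hM₀
  haveI : NeZero M₀ := ⟨hM₀0⟩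
  have hM₀1 : M₀ ≠ 1 := by
    rintro rfl
    obtain ⟨v, hv⟩ := hSigne
    obtain ⟨hvp, hvN, hv1⟩ := hSig' v hv
    rw [hM₀, one_mul] at hvN
    exact ne_of_modEq_one hp hv1 ((Nat.prime_dvd_prime_iff_eq hvp hp).1 hvN)
  have hPp : ∀ ℓ ∈ primesOutside (badSet p N), ((ℓ : Nat.Primes) : ℕ) ≠ p := by
    intro ℓ hℓ e
    exact hℓ ⟨ℓ.2, Or.inl e⟩
  have hvan : ∀ x ∈ lvlModP 𝒪 (primesOutside (badSet p N)) M₀ c, x = 0 := by
    intro x hx
    rw [IAPEU.lvlModP_eq_bot_of_notAtLevelDivP p N M₀ hM₀ S hS θ c hc hnot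
      (primesOutside (badSet p N)) (Set.Subset.refl _)] at hx
    exact (Submodule.mem_bot 𝒪).1 hx
  obtain ⟨d, ⟨hfree, hfin, hrank⟩, hlev⟩ :=
    hMod p hp2 hp𝒪 ζ hζ lam hlam N hNsq (primesOutside (badSet p N)) (Set.Subset.refl _) hPp c
      hNE' h3 Sig hSig' M₀ hM₀ hM₀1 hvan
  have hd : 0 < d := by rw [← hrank]; exact hpos
  refine ⟨d, hd, ↥(lvlModP 𝒪 (primesOutside (badSet p N)) N c), inferInstance, inferInstance,
    instM, instST, hfree, hfin, hrank, fun r n Q hQ hp1 hr => ?_⟩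
  have hnum : NumSetup N p S Sig Q := numSetup_of_isTWSet hp2 hNsq hN5 hS hSig' hQ hp1
  haveI : NeZero (N * ∏ j, Q j) := ⟨hnum.Nt_pos.ne'⟩
  haveI : NeZero (N / (∏ v ∈ Sig, v) * ((∏ v ∈ Sig, v) * ∏ j, Q j) ^ 2) := ⟨hnum.Nbig_pos.ne'⟩
  haveI : NeZero (M₀ / (∏ v ∈ Sig, v) * ((∏ v ∈ Sig, v) * ∏ j, Q j) ^ 2) :=
    ⟨(hnum.Nb₀_pos hM₀).ne'⟩
  haveI : NeZero (M₀ / (∏ v ∈ Sig, v) * ((∏ v ∈ Sig, v) * ∏ j, Q j) ^ 2 * p) :=
    ⟨(Nat.mul_pos (hnum.Nb₀_pos hM₀) hp.pos).ne'⟩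
  obtain ⟨L, hk₁, hk₂⟩ := hlev r n Q hQ.injective hQ.prime (notMem_badSet_of_isTWSet hS hQ)
    hQ.cong hp1 (fun j hq => exists_roots_of_isTWSet hnum hc hbarchar hQ j hq)
    (N * ∏ j, Q j) (N / (∏ v ∈ Sig, v) * ((∏ v ∈ Sig, v) * ∏ j, Q j) ^ 2)
    (M₀ / (∏ v ∈ Sig, v) * ((∏ v ∈ Sig, v) * ∏ j, Q j) ^ 2) rfl rfl rfl (hnum.not_p_dvd_Nb₀ hM₀)
  have hTh' := hTh _ hnum.five_le_Nt p
  have hbarchar' := hbarchar_c hnum hc ρbar hbarchar
  have hSrset : badSet p N ∪ Set.range Q = (↑(S ∪ Finset.univ.image Q) : Set ℕ) :=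
    sbig_coe hnum.hS
  obtain ⟨R₁, hR₁⟩ := exists_levelRep_strict_of_killAt hp2 hp𝒪 hlam hnum hd ρbar habs hbardet
    hbarchar' hbarunr hord hM₀ hTh' L.side₁ (hSrset ▸ L.occ₁) L.uQ_spec _ rfl
    (hnum.not_p_dvd_Nb₀ hM₀) (hSrset ▸ hk₁)
  obtain ⟨R₂, hR₂⟩ := exists_levelRep_strict_of_killAt hp2 hp𝒪 hlam hnum hd ρbar habs hbardet
    hbarchar' hbarunr hord hM₀ hTh' L.side₂ (hSrset ▸ L.occ₂) L.uQ_spec _ rfl
    (hnum.not_p_dvd_Nb₀ hM₀) (hSrset ▸ hk₂)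
  exact nonempty_twGaloisLevelE_of_levelReps hp2 hp𝒪 hζ hlam hnum hr hd hc hfaith hTact ρbar
    hSigunr PMode.peuNew.pc (fun h => absurd h (by simp [PMode.pc])) hTh' L _ rfl R₁ R₂
    (fun _ => hR₁) (fun _ => hR₂)

/-- **[IA-PEU-ADAPTER]: the Taylor–Wiles producers of IA′ in the mode `peuNew`.** -/
theorem iaPeuAdapterStatement : IAPeuAdapterStatement :=
  iaPeuAdapterStatement_of twModXPeuStatement thetaKillsJ1Odd_all

/-- **all modes.** -/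
theorem twProducerStatementE : TWProducerStatementE fun _ => True :=
  twProducerE_of_main_of_adapter twProducerMainStatement iaPeuAdapterStatement

end Fermat.Agent.ML.REPTX
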