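/-
PROJECT ML (S59) — [LOC-L] at `p`, lead — INTERFACE FILE `ML/IFACE_lead_PChart`: **the chart at the
chain prime `p`** (case `chain`: `ρ̄` ordinary and peu ramifiée at `p`, the optimal level contains
`p`), on the model `LocalKind.ord n` of `ML/IFACE_lead_Kinds`:
variables `T = X 0`, `Y = X 1` (+ `n` more), `rel = (T Y)`, `unr = (Y)`, `new = st = (T)`, `th = T`.

Coordinates: `t = sgn · ψ(Frob_p) - 1` (`ψ` = the unramified quotient character), `y` = the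
valuation coordinate of the extension class (`ML/KP_lead_Ord`), `w` = the unit coordinate of the
extension class (needed only when `ρ̄|_{D_p}` splits: `n = 1`).

Proved in `ML/KP_lead_PChartE.lean` (`KP.pChartStatement`).
-/
import Mathlib
import Fermat.Agent.ML.IFACE_helper9_Chart
import Fermat.Agent.ML.IFACE_lead_Peu

set_option autoImplicit false

open Polynomial IsLocalRing

namespace Fermat.Agent.ML

local notation "GQ" => (AlgebraicClosure ℚ ≃ₐ[ℚ] AlgebraicClosure ℚ)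

/-- **[LOC-L], the chart at `p`** (owner lead).  `n` = the number of extra coordinates:
`n = 0` is allowed only if `ρ̄|_{D_p}` is non-split. -/
def PChartStatement : Prop :=
  ∀ {𝒪 : Type} [CommRing 𝒪] [IsDomain 𝒪] [IsDiscreteValuationRing 𝒪]
    [IsAdicComplete (maximalIdeal 𝒪) 𝒪] [Finite (ResidueField 𝒪)]
    (p : ℕ) [Fact p.Prime] (_ : p ≠ 2) (_ : (p : 𝒪) ∈ maximalIdeal 𝒪)
    (ρbar : ResidualGaloisRep (ResidueField 𝒪))
    (s : 𝒪) (_ : s ^ 2 = 1)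
    (_ : IsPeuRamifieeAt ρbar p)
    -- the residual shape at `p` (`IsResChain.ord_p`)
    (_ : ∀ A : ValuationSubring (AlgebraicClosure ℚ), A.LiesOverPrime p →
      ∃ Lbar : Submodule (ResidueField 𝒪) ρbar.V,
        (∃ v : ρbar.V, v ≠ 0 ∧ Lbar = Submodule.span (ResidueField 𝒪) {v}) ∧
        (∀ σ ∈ A.decompositionSubgroup ℚ, ∀ v ∈ Lbar, ρbar.ρ σ v ∈ Lbar) ∧
        (∀ σ ∈ A.inertiaSubgroupIn ℚ, ∀ v : ρbar.V, ρbar.ρ σ v - v ∈ Lbar) ∧
        ∀ φ : GQ, A.IsFrobeniusAt φ p → ∀ v : ρbar.V, ρbar.ρ φ v - residue 𝒪 s • v ∈ Lbar)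
    (n : ℕ) (_ : n = 0 → ChainKind.pns.Holds ρbar p p)
    (T : Type) [CommRing T] [IsLocalRing T] [IsNoetherianRing T]
    [IsAdicComplete (maximalIdeal T) T] [Algebra 𝒪 T] [IsLocalHom (algebraMap 𝒪 T)]
    (_ : Function.Surjective (IsLocalRing.residue T ∘ algebraMap 𝒪 T))
    (ρ : GaloisRepAdic T)
    (_ : ρ.residual.IsEquiv
      (ρbar.baseChangeAlong (IsLocalRing.ResidueField.map (algebraMap 𝒪 T))))
    (_ : ρ.DetIsCyclotomic p) (_ : ρ.IsOrdinaryAt p),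
    ∃ (t y : T) (w : Fin n → T), t ∈ maximalIdeal T ∧ y ∈ maximalIdeal T ∧
      (∀ i, w i ∈ maximalIdeal T) ∧
      -- (E6)
      IsLocTrivIdeal 𝒪 ρ p (Ideal.span ({t, y} ∪ Set.range w)) ∧
      -- (E1)
      t * y = 0 ∧
      -- (E3)
      (∀ I : Ideal T,
        (∀ (B : Type) [CommRing B] [IsLocalRing B] (π : T →+* B) (hπ : IsLocalHom π),
          Function.Surjective π → I ≤ RingHom.ker π →
            (ρ.baseChangeAlong π hπ).IsStrictOrdinaryAt p) → t ∈ I) ∧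
      -- (E4)
      (∀ (ρW : GaloisRepAdic 𝒪), ρW.IsStrictOrdinaryAt p → ∀ π : T →ₐ[𝒪] 𝒪,
        (∀ σ : GQ, π (ρ.trace σ) = ρW.trace σ) → π t = 0) ∧
      -- (E5)
      (∀ Up : T,
        (∀ (P : ValuationSubring (AlgebraicClosure ℚ)), P.LiesOverPrime p →
          ∀ φ : GQ, P.IsFrobeniusAt φ p → ∃ L : Submodule T ρ.V,
            (∃ b : Module.Basis (Fin 2) T ρ.V, L = T ∙ b 0) ∧
            (∀ σ ∈ P.decompositionSubgroup ℚ, ∀ v ∈ L, ρ.ρ σ v ∈ L) ∧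
            (∀ σ ∈ P.inertiaSubgroupIn ℚ, ∀ v : ρ.V, ρ.ρ σ v - v ∈ L) ∧
            ∀ v : ρ.V, ρ.ρ φ v - Up • v ∈ L) →
        ∃ u : T, IsUnit u ∧ t = u * (Up ^ 2 - 1))

end Fermat.Agent.ML
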