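/-
PROJECT ML (S59) — [LOC-L] at `p`, lead: **`p`-th powers in `ℤ_p^×`** (`p` odd).

* `KP.dvd_pow_card_sub_one` : `p ∣ x ^ (p - 1) - 1` for a unit `x` of `ℤ_p`;
* `KP.sq_dvd_pow_prime_sub_one` : `p ∣ u - 1 → p² ∣ u ^ p - 1`;
* `KP.exists_pow_prime_eq_of_sq_dvd` : (`p ≠ 2`) `p² ∣ u - 1 → ∃ z, z ^ p = u`;
* `KP.exists_pow_prime_eq_of_unit` : (`p ≠ 2`) a unit `x` with `p² ∣ x ^ (p - 1) - 1` is a `p`-th
  power.
-/
import Mathlib
import Fermat.Agent.CFT.Local.Kummer_helper1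

set_option autoImplicit false
set_option linter.unusedSectionVars false
set_option linter.style.haveILetI false

namespace Fermat.Agent.ML.KP

variable {p : ℕ} [hp : Fact p.Prime]

/-- Fermat's little theorem in `ℤ_p` -/
theorem dvd_pow_card_sub_one {x : ℤ_[p]} (hx : IsUnit x) : (p : ℤ_[p]) ∣ x ^ (p - 1) - 1 := by
  have h1 : PadicInt.toZMod x ≠ 0 := (hx.map (PadicInt.toZMod (p := p))).ne_zero
  have h2 : PadicInt.toZMod (x ^ (p - 1) - 1) = 0 := by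
    rw [map_sub, map_pow, map_one, ZMod.pow_card_sub_one_eq_one h1, sub_self]
  have h3 : x ^ (p - 1) - 1 ∈ RingHom.ker (PadicInt.toZMod (p := p)) := h2
  rw [PadicInt.ker_toZMod, PadicInt.maximalIdeal_eq_span_p, Ideal.mem_span_singleton] at h3
  exact h3

/-- `u ≡ 1 mod p ⇒ u ^ p ≡ 1 mod p²` -/
theorem sq_dvd_pow_prime_sub_one {R : Type*} [CommRing R] (p : ℕ) {u : R}
    (h : (p : R) ∣ u - 1) : (p : R) ^ 2 ∣ u ^ p - 1 := by
  obtain ⟨s, hs⟩ := h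
  obtain ⟨q, hq⟩ := Fermat.Agent.CFT.LocalKummer.exists_one_add_pow_eq (R := R) p
  have hu : u = 1 + (p : R) * s := by linear_combination hs
  rw [hu, hq]
  exact ⟨s + s ^ 2 * q.eval ((p : R) * s), by ring⟩

/-- the binomial expansion modulo `p³` -/
theorem one_add_mul_pow_prime {R : Type*} [CommRing R] (hp2 : p ≠ 2) (c : R) :
    ∃ w : R, (1 + (p : R) * c) ^ p = 1 + (p : R) ^ 2 * c + (p : R) ^ 3 * w := by
  have hp3 : 3 ≤ p := by
    have := hp.out.two_le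
    omega
  rw [add_comm 1 ((p : R) * c), add_pow]
  rw [← Finset.sum_range_add_sum_Ico _ (show 2 ≤ p + 1 by omega)]
  have h1 : ∑ m ∈ Finset.range 2, ((p : R) * c) ^ m * 1 ^ (p - m) * (p.choose m : R) =
      1 + (p : R) ^ 2 * c := by
    rw [Finset.sum_range_succ, Finset.sum_range_one]
    simp only [pow_zero, one_pow, Nat.choose_zero_right, Nat.cast_one, mul_one, pow_one,
      Nat.choose_one_right]
    ring
  have h2 : (p : R) ^ 3 ∣ ∑ m ∈ Finset.Ico 2 (p + 1),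
      ((p : R) * c) ^ m * 1 ^ (p - m) * (p.choose m : R) := by
    apply Finset.dvd_sum
    intro m hm
    rw [Finset.mem_Ico] at hm
    rcases Nat.eq_or_lt_of_le hm.1 with h | h
    · subst h
      have h3 : p ∣ p.choose 2 := hp.out.dvd_choose_self (by norm_num) (by omega)
      obtain ⟨k, hk⟩ := h3
      rw [hk]
      exact ⟨c ^ 2 * k, by push_cast; ring⟩
    · obtain ⟨k, rfl⟩ : ∃ k, m = k + 3 := ⟨m - 3, by omega⟩
      exact ⟨(p : R) ^ k * c ^ (k + 3) * ((p.choose (k + 3) : ℕ) : R), by rw [mul_pow]; ring⟩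
  obtain ⟨w, hw⟩ := h2
  exact ⟨w, by rw [h1, hw]⟩

/-- **`1 + p² ℤ_p` consists of `p`-th powers** (`p` odd) -/
theorem exists_pow_prime_eq_of_sq_dvd (hp2 : p ≠ 2) {u : ℤ_[p]}
    (h : (p : ℤ_[p]) ^ 2 ∣ u - 1) : ∃ z : ℤ_[p], z ^ p = u := by
  obtain ⟨c, hc⟩ := h
  have hu : u = 1 + (p : ℤ_[p]) ^ 2 * c := by linear_combination hc
  obtain ⟨w, hw⟩ := one_add_mul_pow_prime (p := p) hp2 c
  -- `v = 1 + p c` is a unit
  set v : ℤ_[p] := 1 + (p : ℤ_[p]) * c with hv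
  have hvu : IsUnit v := by
    rw [← IsLocalRing.notMem_maximalIdeal]
    intro hmem
    have h1 : (p : ℤ_[p]) * c ∈ IsLocalRing.maximalIdeal ℤ_[p] := by
      rw [PadicInt.maximalIdeal_eq_span_p]
      exact Ideal.mul_mem_right _ _ (Ideal.mem_span_singleton_self _)
    have h2 : (1 : ℤ_[p]) ∈ IsLocalRing.maximalIdeal ℤ_[p] := by
      have : (1 : ℤ_[p]) = v - (p : ℤ_[p]) * c := by rw [hv]; ring
      rw [this]
      exact Ideal.sub_mem _ hmem h1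
    exact (IsLocalRing.maximalIdeal.isMaximal ℤ_[p]).ne_top ((Ideal.eq_top_iff_one _).2 h2)
  obtain ⟨vi, hvi⟩ := hvu.exists_right_inv
  have hpm : (p : ℤ_[p]) ∈ IsLocalRing.maximalIdeal ℤ_[p] := by
    rw [PadicInt.maximalIdeal_eq_span_p]
    exact Ideal.mem_span_singleton_self _
  obtain ⟨z₁, hz₁⟩ := Fermat.Agent.CFT.LocalKummer.exists_one_add_mul_pow_eq
    (IsLocalRing.maximalIdeal ℤ_[p]) p hpm (-(w * vi ^ p))
  refine ⟨v * (1 + (p : ℤ_[p]) * (p : ℤ_[p]) * z₁), ?_⟩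
  have h3 : v ^ p * vi ^ p = 1 := by rw [← mul_pow, hvi, one_pow]
  clear_value v
  rw [mul_pow, hz₁, hu]
  linear_combination hw - (p : ℤ_[p]) ^ 3 * w * h3

/-- a unit `x` of `ℤ_p` with `x ^ (p - 1) ≡ 1 mod p²` is a `p`-th power (`p` odd) -/
theorem exists_pow_prime_eq_of_unit (hp2 : p ≠ 2) {x : ℤ_[p]} (hx : IsUnit x)
    (h : (p : ℤ_[p]) ^ 2 ∣ x ^ (p - 1) - 1) : ∃ r : ℤ_[p], r ^ p = x := by
  obtain ⟨z, hz⟩ := exists_pow_prime_eq_of_sq_dvd hp2 h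
  have hzu : IsUnit z := by
    have : IsUnit (z ^ p) := by rw [hz]; exact hx.pow _
    exact (isUnit_pow_iff hp.out.ne_zero).1 this
  obtain ⟨zi, hzi⟩ := hzu.exists_right_inv
  refine ⟨x * zi, ?_⟩
  have h1 : x ^ p = x * x ^ (p - 1) := by
    rw [← pow_succ', Nat.sub_add_cancel hp.out.one_le]
  have h2 : z ^ p * zi ^ p = 1 := by rw [← mul_pow, hzi, one_pow]
  rw [mul_pow, h1, ← hz, mul_assoc, h2, mul_one]

end Fermat.Agent.ML.KP
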