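/-
PROJECT ML (S59) — [LOC-L] at `p`, lead: **the unit coordinate of the Kummer generator of a cocycle
`GP → μ_p` on the whole local Galois group** `GP = Gal(ℚ̄_p / ℚ_p)`.

`IsKumUnit F e`: there are `y ≠ 0` and a unit `x` of `ℤ_p` with `g y = F g · y` for all `g ∈ GP`,
`y ^ p = x` and `x ^ (p - 1) ≡ 1 + p e mod p²`.  The integer `e` is unique modulo `p`
(`isKumUnit_dvd_sub`), additive (`isKumUnit_mul`), it exists when the valuation coordinate vanishes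
(`exists_isKumUnit`) and for `p` odd its vanishing means that `F` is the coboundary of a `p`-th root
of unity (`exists_cob_of_isKumUnit`).
-/
import Mathlib
import Fermat.Agent.ML.KP_lead_PadicPow
import Fermat.Agent.ML.KP_lead_KumVal
import Fermat.Agent.CFT.Local.PadicLevels

set_option autoImplicit false
set_option linter.unusedSectionVars false
set_option linter.unusedVariables false
set_option linter.style.haveILetI false

namespace Fermat.Agent.ML.KP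

open Fermat.Agent.TW

variable {p : ℕ} [hp : Fact p.Prime]

local notation "Ω" => PadicAlgCl p
local notation "GP" => (PadicAlgCl p ≃ₐ[ℚ_[p]] PadicAlgCl p)

/-- the embedding `ℤ_p → ℚ̄_p` -/
noncomputable def zpEmb (x : ℤ_[p]) : Ω := algebraMap ℚ_[p] Ω (x : ℚ_[p])

theorem zpEmb_mul (x y : ℤ_[p]) : zpEmb (x * y) = zpEmb x * zpEmb y := by
  unfold zpEmb; rw [PadicInt.coe_mul, map_mul]

theorem zpEmb_pow (x : ℤ_[p]) (n : ℕ) : zpEmb (x ^ n) = zpEmb x ^ n := by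
  unfold zpEmb; rw [PadicInt.coe_pow, map_pow]

theorem zpEmb_one : zpEmb (1 : ℤ_[p]) = 1 := by
  unfold zpEmb; rw [PadicInt.coe_one, map_one]

theorem zpEmb_injective : Function.Injective (zpEmb (p := p)) := by
  intro x y h
  exact PadicInt.ext ((algebraMap ℚ_[p] Ω).injective h)

theorem map_zpEmb (g : GP) (x : ℤ_[p]) : g (zpEmb x) = zpEmb x := g.commutes _

/-- an element fixed by the whole Galois group is in `ℚ_p` -/
theorem exists_padic_of_fixed {x : Ω} (hx : ∀ g : GP, g x = x) :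
    ∃ r : ℚ_[p], algebraMap ℚ_[p] Ω r = x := by
  have h1 : x ∈ (⊥ : IntermediateField ℚ_[p] Ω) :=
    Fermat.Agent.CFT.Local.mem_of_fixed ⊥ (fun τ _ => hx τ)
  rw [IntermediateField.mem_bot] at h1
  exact h1

/-- **the unit coordinate of the Kummer generator** -/
def IsKumUnit (F : GP → Ω) (e : ℤ) : Prop :=
  ∃ (y : Ω) (x : ℤ_[p]), y ≠ 0 ∧ (∀ g : GP, g y = F g * y) ∧ y ^ p = zpEmb x ∧
    (p : ℤ_[p]) ^ 2 ∣ x ^ (p - 1) - 1 - (p : ℤ_[p]) * (e : ℤ_[p])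

theorem isUnit_of_sq_dvd {x : ℤ_[p]} {e : ℤ_[p]}
    (h : (p : ℤ_[p]) ^ 2 ∣ x ^ (p - 1) - 1 - (p : ℤ_[p]) * e) : IsUnit x := by
  rw [← IsLocalRing.notMem_maximalIdeal]
  intro hmem
  obtain ⟨k, hk⟩ := h
  have hpm : (p : ℤ_[p]) ∈ IsLocalRing.maximalIdeal ℤ_[p] := by
    rw [PadicInt.maximalIdeal_eq_span_p]
    exact Ideal.mem_span_singleton_self _
  have h1 : x ^ (p - 1) ∈ IsLocalRing.maximalIdeal ℤ_[p] := by
    have : p - 1 ≠ 0 := by have := hp.out.two_le; omega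
    exact Ideal.pow_mem_of_mem _ hmem _ (Nat.pos_of_ne_zero this)
  have h2 : (1 : ℤ_[p]) ∈ IsLocalRing.maximalIdeal ℤ_[p] := by
    have : (1 : ℤ_[p]) = x ^ (p - 1) - (p : ℤ_[p]) * (e + (p : ℤ_[p]) * k) := by
      linear_combination -hk
    rw [this]
    exact Ideal.sub_mem _ h1 (Ideal.mul_mem_right _ _ hpm)
  exact (IsLocalRing.maximalIdeal.isMaximal ℤ_[p]).ne_top ((Ideal.eq_top_iff_one _).2 h2)

theorem isKumUnit_one : IsKumUnit (p := p) (fun _ => (1 : Ω)) 0 := by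
  refine ⟨1, 1, one_ne_zero, fun g => by simp, by rw [one_pow, zpEmb_one], ?_⟩
  simp

theorem isKumUnit_congr {F F' : GP → Ω} {e : ℤ} (h : IsKumUnit F e) (hFF' : ∀ g, F g = F' g) :
    IsKumUnit F' e := by
  obtain ⟨y, x, hy0, hy, hyx, hx⟩ := h
  exact ⟨y, x, hy0, fun g => by rw [← hFF' g]; exact hy g, hyx, hx⟩

theorem isKumUnit_mul {F F' : GP → Ω} {e e' : ℤ} (h : IsKumUnit F e) (h' : IsKumUnit F' e') :
    IsKumUnit (fun g => F g * F' g) (e + e') := by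
  obtain ⟨y, x, hy0, hy, hyx, k, hk⟩ := h
  obtain ⟨y', x', hy0', hy', hyx', k', hk'⟩ := h'
  refine ⟨y * y', x * x', mul_ne_zero hy0 hy0', fun g => ?_, ?_, ?_⟩
  · rw [map_mul, hy g, hy' g]; ring
  · rw [mul_pow, hyx, hyx', zpEmb_mul]
  · have h1 : x ^ (p - 1) = 1 + (p : ℤ_[p]) * (e : ℤ_[p]) + (p : ℤ_[p]) ^ 2 * k := by
      linear_combination hk
    have h2 : x' ^ (p - 1) = 1 + (p : ℤ_[p]) * (e' : ℤ_[p]) + (p : ℤ_[p]) ^ 2 * k' := by
      linear_combination hk'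
    refine ⟨k + k' + (e : ℤ_[p]) * (e' : ℤ_[p]) + (p : ℤ_[p]) * (e : ℤ_[p]) * k' +
      (p : ℤ_[p]) * (e' : ℤ_[p]) * k + (p : ℤ_[p]) ^ 2 * k * k', ?_⟩
    rw [mul_pow, h1, h2]
    push_cast
    ring

/-- coboundaries of `p`-th roots of unity have unit coordinate `0` -/
theorem isKumUnit_cob {ζ : Ω} (hζ : ζ ^ p = 1) : IsKumUnit (fun g : GP => g ζ / ζ) 0 := by
  have hζ0 : ζ ≠ 0 := by
    intro h0; rw [h0, zero_pow hp.out.ne_zero] at hζ; exact zero_ne_one hζ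
  refine ⟨ζ, 1, hζ0, fun g => by field_simp, by rw [hζ, zpEmb_one], ?_⟩
  simp

/-- uniqueness modulo `p` -/
theorem isKumUnit_dvd_sub {F : GP → Ω} {e e' : ℤ} (h : IsKumUnit F e) (h' : IsKumUnit F e') :
    (p : ℤ) ∣ e - e' := by
  obtain ⟨y, x, hy0, hy, hyx, k, hk⟩ := h
  obtain ⟨y', x', hy0', hy', hyx', k', hk'⟩ := h'
  have hxu : IsUnit x := isUnit_of_sq_dvd ⟨k, hk⟩
  have hxu' : IsUnit x' := isUnit_of_sq_dvd ⟨k', hk'⟩
  -- `y' / y` is fixed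
  have hfix : ∀ g : GP, g (y' / y) = y' / y := by
    intro g
    have hF0 : F g ≠ 0 := by
      intro h0
      have := hy g
      rw [h0, zero_mul, map_eq_zero] at this
      exact hy0 this
    rw [map_div₀, hy g, hy' g]
    field_simp
  obtain ⟨r, hr⟩ := exists_padic_of_fixed hfix
  -- `r ^ p * x = x'` in `ℚ_p`
  have h1 : r ^ p * (x : ℚ_[p]) = (x' : ℚ_[p]) := by
    apply (algebraMap ℚ_[p] Ω).injective
    rw [map_mul, map_pow, hr]
    have e1 : algebraMap ℚ_[p] Ω (x : ℚ_[p]) = y ^ p := hyx.symm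
    have e2 : algebraMap ℚ_[p] Ω (x' : ℚ_[p]) = y' ^ p := hyx'.symm
    rw [e1, e2, div_pow]
    field_simp
  have hnx : ‖(x : ℚ_[p])‖ = 1 := PadicInt.isUnit_iff.1 hxu
  have hnx' : ‖(x' : ℚ_[p])‖ = 1 := PadicInt.isUnit_iff.1 hxu'
  have hnr : ‖r‖ = 1 := by
    have h2 := congrArg norm h1
    rw [norm_mul, norm_pow, hnx, hnx', mul_one] at h2
    exact (pow_eq_one_iff_of_nonneg (norm_nonneg r) hp.out.ne_zero).1 h2
  set r₁ : ℤ_[p] := ⟨r, le_of_eq hnr⟩ with hr₁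
  have hr₁u : IsUnit r₁ := PadicInt.isUnit_iff.2 hnr
  have h3 : r₁ ^ p * x = x' := by
    apply PadicInt.ext
    rw [PadicInt.coe_mul, PadicInt.coe_pow]
    exact h1
  -- `(r₁ ^ (p - 1)) ^ p ≡ 1 mod p²`
  obtain ⟨m, hm⟩ := sq_dvd_pow_prime_sub_one p (dvd_pow_card_sub_one hr₁u)
  have h4 : x' ^ (p - 1) = (r₁ ^ (p - 1)) ^ p * x ^ (p - 1) := by
    rw [← h3, mul_pow, ← pow_mul, ← pow_mul, mul_comm p (p - 1)]
  have h5 : (p : ℤ_[p]) * ((e : ℤ_[p]) - (e' : ℤ_[p])) =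
      (p : ℤ_[p]) * ((p : ℤ_[p]) * (k' - k - m * x ^ (p - 1))) := by
    have h6 : (r₁ ^ (p - 1)) ^ p = 1 + (p : ℤ_[p]) ^ 2 * m := by linear_combination hm
    rw [h6] at h4
    linear_combination hk' - hk - h4
  have hp0 : (p : ℤ_[p]) ≠ 0 := by exact_mod_cast hp.out.ne_zero
  have h7 := mul_left_cancel₀ hp0 h5
  have h8 : (p : ℤ_[p]) ^ 1 ∣ ((e - e' : ℤ) : ℤ_[p]) := by
    rw [pow_one]
    push_cast
    exact ⟨_, h7⟩
  have h9 := (PadicInt.pow_p_dvd_int_iff 1 (e - e')).1 h8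
  simpa using h9

/-- **vanishing of the unit coordinate** (`p` odd): the cocycle is the coboundary of a `p`-th root
of unity -/
theorem exists_cob_of_isKumUnit (hp2 : p ≠ 2) {F : GP → Ω} {e : ℤ} (h : IsKumUnit F e)
    (he : (p : ℤ) ∣ e) : ∃ ζ : Ω, ζ ^ p = 1 ∧ ∀ g : GP, F g = g ζ / ζ := by
  obtain ⟨y, x, hy0, hy, hyx, k, hk⟩ := h
  have hxu : IsUnit x := isUnit_of_sq_dvd ⟨k, hk⟩
  obtain ⟨e₁, rfl⟩ := he
  have h1 : (p : ℤ_[p]) ^ 2 ∣ x ^ (p - 1) - 1 := by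
    refine ⟨k + (e₁ : ℤ_[p]), ?_⟩
    push_cast at hk
    linear_combination hk
  obtain ⟨r, hr⟩ := exists_pow_prime_eq_of_unit hp2 hxu h1
  have hr0 : zpEmb r ≠ 0 := by
    intro h0
    have : zpEmb (r ^ p) = 0 := by rw [zpEmb_pow, h0, zero_pow hp.out.ne_zero]
    rw [hr, ← hyx] at this
    exact pow_ne_zero _ hy0 this
  refine ⟨y / zpEmb r, ?_, fun g => ?_⟩
  · rw [div_pow, hyx, ← zpEmb_pow, hr, div_self]
    rw [← hr, zpEmb_pow]
    exact pow_ne_zero _ hr0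
  · rw [map_div₀, map_zpEmb, hy g]
    field_simp

/-- **existence of the unit coordinate** when the valuation is divisible by `p` -/
theorem exists_isKumUnit (L : IntermediateField ℚ_[p] Ω)
    [FiniteDimensional ℚ_[p] L] [IsGalois ℚ_[p] L] (F : GP → Ω)
    (hFpow : ∀ g : GP, F g ^ p = 1) (hFL : ∀ g : GP, F g ∈ L)
    (hmul : ∀ g h : GP, F (g * h) = F g * g (F h))
    (htriv : ∀ g : GP, (∀ z ∈ L, g z = z) → F g = 1)
    (hval : ∀ a : ℤ, IsKumVal 1 F a → (p : ℤ) ∣ a) :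
    ∃ e : ℤ, IsKumUnit F e := by
  have hF0 : ∀ g : GP, F g ≠ 0 := by
    intro g h0
    have := hFpow g
    rw [h0, zero_pow hp.out.ne_zero] at this
    exact zero_ne_one this
  obtain ⟨y, -, hy0, hy⟩ := exists_kummerGen (⊤ : Subgroup GP) L F (fun g _ => hF0 g)
    (fun g _ => hFL g) (fun g _ h _ => hmul g h) (fun g _ => htriv g)
  have hy' : ∀ g : GP, g y = F g * y := fun g => hy g (Subgroup.mem_top g)
  have hfix : ∀ g : GP, g (y ^ p) = y ^ p := by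
    intro g
    rw [map_pow, hy' g, mul_pow, hFpow g, one_mul]
  obtain ⟨a₀, ha₀⟩ := exists_padic_of_fixed hfix
  have ha₀0 : a₀ ≠ 0 := by
    intro h0
    rw [h0, map_zero] at ha₀
    exact pow_ne_zero _ hy0 ha₀.symm
  -- the valuation
  have hnorm : ‖y‖ ^ p = (p : ℝ) ^ (-a₀.valuation) := by
    rw [← norm_pow, ← ha₀, PadicAlgCl.norm_extends, Padic.norm_eq_zpow_neg_valuation ha₀0]
  have hkv : IsKumVal 1 F a₀.valuation :=
    ⟨y, hy0, fun g _ => hy' g, by rw [pow_one]; exact hnorm⟩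
  obtain ⟨v, hv⟩ := hval _ hkv
  -- normalisation
  set x₀ : ℚ_[p] := a₀ * ((p : ℚ_[p]) ^ a₀.valuation)⁻¹ with hx₀
  have hp0 : (p : ℚ_[p]) ≠ 0 := by exact_mod_cast hp.out.ne_zero
  have hnx₀ : ‖x₀‖ = 1 := by
    rw [hx₀, norm_mul, norm_inv, Padic.norm_p_zpow, Padic.norm_eq_zpow_neg_valuation ha₀0,
      ← zpow_neg, ← zpow_add₀ (ne_of_gt (norm_pos_p (p := p)))]
    simp
  set x : ℤ_[p] := ⟨x₀, le_of_eq hnx₀⟩ with hx
  have hxu : IsUnit x := PadicInt.isUnit_iff.2 hnx₀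
  set y₁ : Ω := y * ((algebraMap ℚ_[p] Ω (p : ℚ_[p])) ^ v)⁻¹ with hy₁
  have hpΩ : algebraMap ℚ_[p] Ω (p : ℚ_[p]) ≠ 0 := by
    rw [Ne, map_eq_zero]; exact hp0
  have hy₁0 : y₁ ≠ 0 := mul_ne_zero hy0 (inv_ne_zero (zpow_ne_zero _ hpΩ))
  have hy₁g : ∀ g : GP, g y₁ = F g * y₁ := by
    intro g
    rw [hy₁, map_mul, map_inv₀, map_zpow₀, g.commutes, hy' g]
    ring
  have hy₁p : y₁ ^ p = zpEmb x := by
    unfold zpEmb
    show y₁ ^ p = algebraMap ℚ_[p] Ω x₀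
    rw [hy₁, mul_pow, ← ha₀, hx₀, map_mul, map_inv₀, map_zpow₀, inv_pow, ← zpow_natCast,
      ← zpow_mul, hv, mul_comm v (p : ℤ)]
  -- the unit coordinate
  obtain ⟨s, hs⟩ := dvd_pow_card_sub_one hxu
  have h1 := PadicInt.sub_zmodRepr_mem s
  rw [PadicInt.maximalIdeal_eq_span_p, Ideal.mem_span_singleton] at h1
  obtain ⟨k, hk⟩ := h1
  refine ⟨(s.zmodRepr : ℤ), y₁, x, hy₁0, hy₁g, hy₁p, k, ?_⟩
  push_cast
  linear_combination hs + (p : ℤ_[p]) * hk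

end Fermat.Agent.ML.KP
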