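/-
PROJECT ML (S59) — [LOC-L] at `p`, lead: **the unit coordinate `kumE` of a cocycle on the whole
local Galois group with values in a finite `𝔽_p`-vector space** (cyclotomic action), whose valuation
coordinate `kumC` vanishes; **completeness**: `kumC = 0` and `kumE = 0` imply that the cocycle is a
coboundary (`p` odd).
-/
import Mathlib
import Fermat.Agent.ML.KP_lead_KumC
import Fermat.Agent.ML.KP_lead_KumU
import Fermat.Agent.ML.KP_lead_Tres

set_option autoImplicit false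
set_option linter.unusedSectionVars false
set_option linter.unusedVariables false
set_option linter.style.haveILetI false

namespace Fermat.Agent.ML.KP

open Fermat.Agent.TW Multiplicative

variable {p : ℕ} [hp : Fact p.Prime]

local notation "Ω" => PadicAlgCl p
local notation "GP" => (PadicAlgCl p ≃ₐ[ℚ_[p]] PadicAlgCl p)

/-- **a cocycle on the whole local Galois group** with values in a group killed by `p`, for the
cyclotomic action, factoring through a finite level, with vanishing valuation coordinate. -/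
structure IsFullCocycle {M : Type*} [AddCommGroup M]
    (β : (PadicAlgCl p ≃ₐ[ℚ_[p]] PadicAlgCl p) → M) : Prop where
  p_smul : ∀ x : M, p • x = 0
  map_mul : ∀ (g h : PadicAlgCl p ≃ₐ[ℚ_[p]] PadicAlgCl p) (a : ℕ), ActsOnMu 1 g a →
    β (g * h) = β g + a • β h
  level : ∃ L : IntermediateField ℚ_[p] (PadicAlgCl p), FiniteDimensional ℚ_[p] L ∧
    ∀ g : PadicAlgCl p ≃ₐ[ℚ_[p]] PadicAlgCl p, (∀ z ∈ L, g z = z) → β g = 0
  val_dvd : ∀ (ψ : Multiplicative M →* (PadicAlgCl p)ˣ) (a : ℤ), IsKumVal 1 (chi ψ β) a →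
    (p : ℤ) ∣ a

section Coc

variable {M : Type*} [AddCommGroup M]
  {β : (PadicAlgCl p ≃ₐ[ℚ_[p]] PadicAlgCl p) → M}

theorem IsFullCocycle.toInertia (hβ : IsFullCocycle β) : IsInertiaCocycle 1 β where
  pow_smul x := by rw [pow_one]; exact hβ.p_smul x
  map_mul g _ h _ a ha := hβ.map_mul g h a ha
  level := by
    obtain ⟨L, hL, hLβ⟩ := hβ.level
    exact ⟨L, hL, fun g _ hfix => hLβ g hfix⟩

theorem chi_pow_full (hβ : IsFullCocycle β) (ψ : Multiplicative M →* Ωˣ) (g : GP) :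
    chi ψ β g ^ p = 1 := by
  have := chi_pow hβ.toInertia ψ g
  rwa [pow_one] at this

theorem chi_mul_full (hβ : IsFullCocycle β) (ψ : Multiplicative M →* Ωˣ) (g h : GP) :
    chi ψ β (g * h) = chi ψ β g * g (chi ψ β h) := by
  obtain ⟨a, ha⟩ := exists_actsOnMu (p := p) 1 g
  unfold chi
  have h1 := ha _ (chi_pow hβ.toInertia ψ h)
  unfold chi at h1
  rw [hβ.map_mul g h a ha, ofAdd_add, map_mul, Units.val_mul, psi_nsmul, h1]

theorem IsFullCocycle.exists_isKumUnit (hβ : IsFullCocycle β) (ψ : Multiplicative M →* Ωˣ) :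
    ∃ e : ℤ, IsKumUnit (chi ψ β) e := by
  classical
  obtain ⟨L₀, hL₀, hL₀β⟩ := hβ.level
  obtain ⟨L, hLfin, hLgal, hL₀L, hLζ⟩ := exists_finite_galois_ge L₀ {zetaSys (p := p) 1}
  refine KP.exists_isKumUnit L (chi ψ β) (chi_pow_full hβ ψ) ?_ (chi_mul_full hβ ψ) ?_
    (hβ.val_dvd ψ)
  · intro g
    obtain ⟨i, -, hi⟩ := (zetaSys_isPrimitiveRoot (p := p) 1).eq_pow_of_pow_eq_one
      (chi_pow hβ.toInertia ψ g)
    rw [← hi]
    exact pow_mem (hLζ _ (Finset.mem_singleton_self _)) i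
  · intro g hfix
    have : β g = 0 := hL₀β g (fun z hz => hfix z (hL₀L hz))
    unfold chi
    rw [this, ofAdd_zero, map_one, Units.val_one]

/-- the unit coordinate of the Kummer generator of `ψ ∘ β` (a choice, well defined modulo `p`) -/
noncomputable def kumUExp (hβ : IsFullCocycle β) (ψ : Multiplicative M →* Ωˣ) : ℤ :=
  (hβ.exists_isKumUnit ψ).choose

theorem kumUExp_spec (hβ : IsFullCocycle β) (ψ : Multiplicative M →* Ωˣ) :
    IsKumUnit (chi ψ β) (kumUExp hβ ψ) := (hβ.exists_isKumUnit ψ).choose_spec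

theorem zetaUnit_zpow_kumUExp (hβ : IsFullCocycle β) (ψ : Multiplicative M →* Ωˣ) {e : ℤ}
    (he : IsKumUnit (chi ψ β) e) : zetaUnit (p := p) 1 ^ kumUExp hβ ψ = zetaUnit 1 ^ e := by
  rw [zetaUnit_zpow_eq_iff, pow_one]
  exact isKumUnit_dvd_sub (kumUExp_spec hβ ψ) he

/-- the character `ψ ↦ ζ_1 ^ (unit coordinate of the Kummer generator of ψ ∘ β)` -/
noncomputable def kumEChar (hβ : IsFullCocycle β) : (Multiplicative M →* Ωˣ) →* Ωˣ where
  toFun ψ := zetaUnit (p := p) 1 ^ kumUExp hβ ψ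
  map_one' := by
    have h1 : IsKumUnit (chi (1 : Multiplicative M →* Ωˣ) β) 0 := by
      have : chi (1 : Multiplicative M →* Ωˣ) β = fun _ => (1 : Ω) := by
        funext g; simp [chi]
      rw [this]
      exact isKumUnit_one
    rw [zetaUnit_zpow_kumUExp hβ 1 h1, zpow_zero]
  map_mul' ψ ψ' := by
    have h1 : IsKumUnit (chi (ψ * ψ') β) (kumUExp hβ ψ + kumUExp hβ ψ') := by
      have : chi (ψ * ψ') β = fun g => chi ψ β g * chi ψ' β g := by
        funext g; simp [chi]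
      rw [this]
      exact isKumUnit_mul (kumUExp_spec hβ ψ) (kumUExp_spec hβ ψ')
    rw [zetaUnit_zpow_kumUExp hβ _ h1, zpow_add]

variable [Finite M]

/-- **the unit coordinate of the cocycle `β`** -/
noncomputable def kumE (hβ : IsFullCocycle β) : M :=
  toAdd (CommGroup.monoidHomMonoidHomEquiv (Multiplicative M) Ω (kumEChar hβ))

theorem kumE_spec (hβ : IsFullCocycle β) (ψ : Multiplicative M →* Ωˣ) {e : ℤ}
    (he : IsKumUnit (chi ψ β) e) : ψ (ofAdd (kumE hβ)) = zetaUnit (p := p) 1 ^ e := by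
  unfold kumE
  rw [ofAdd_toAdd, CommGroup.apply_monoidHomMonoidHomEquiv]
  exact zetaUnit_zpow_kumUExp hβ ψ he

theorem kumE_unique (hβ : IsFullCocycle β) (x : M)
    (hx : ∀ ψ : Multiplicative M →* Ωˣ, ∃ e : ℤ, IsKumUnit (chi ψ β) e ∧
      ψ (ofAdd x) = zetaUnit (p := p) 1 ^ e) : x = kumE hβ := by
  apply eq_of_forall_psi_eq p
  intro ψ
  obtain ⟨e, he, hxe⟩ := hx ψ
  rw [hxe, kumE_spec hβ ψ he]

theorem kumE_eq_zero_iff (hβ : IsFullCocycle β) :
    kumE hβ = 0 ↔ ∀ (ψ : Multiplicative M →* Ωˣ) (e : ℤ), IsKumUnit (chi ψ β) e → (p : ℤ) ∣ e := by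
  constructor
  · intro h0 ψ e he
    have := kumE_spec hβ ψ he
    rw [h0, ofAdd_zero, map_one] at this
    have h1 := (zetaUnit_zpow_eq_one_iff 1 e).1 this.symm
    rwa [pow_one] at h1
  · intro h
    symm
    apply kumE_unique hβ 0
    intro ψ
    refine ⟨kumUExp hβ ψ, kumUExp_spec hβ ψ, ?_⟩
    rw [ofAdd_zero, map_one]
    symm
    rw [zetaUnit_zpow_eq_one_iff, pow_one]
    exact h ψ _ (kumUExp_spec hβ ψ)

end Coc

section Functor

variable {M M' : Type*} [AddCommGroup M] [AddCommGroup M']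
  {β β₁ β₂ : (PadicAlgCl p ≃ₐ[ℚ_[p]] PadicAlgCl p) → M}

theorem chi_comp (ψ' : Multiplicative M' →* Ωˣ) (f : M →+ M') :
    chi ψ' (fun g => f (β g)) = chi (ψ'.comp (AddMonoidHom.toMultiplicative f)) β := by
  funext g
  simp [chi]

theorem IsFullCocycle.comp (hβ : IsFullCocycle β) (f : M →+ M') (hM' : ∀ x : M', p • x = 0) :
    IsFullCocycle (fun g => f (β g)) where
  p_smul := hM'
  map_mul g h a ha := by
    show f (β (g * h)) = f (β g) + a • f (β h)
    rw [hβ.map_mul g h a ha, map_add, map_nsmul]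
  level := by
    obtain ⟨L, hL, hLβ⟩ := hβ.level
    exact ⟨L, hL, fun g hfix => by show f (β g) = 0; rw [hLβ g hfix, map_zero]⟩
  val_dvd ψ' a ha := by
    rw [chi_comp] at ha
    exact hβ.val_dvd _ a ha

theorem IsFullCocycle.add (h₁ : IsFullCocycle β₁) (h₂ : IsFullCocycle β₂) :
    IsFullCocycle (fun g => β₁ g + β₂ g) where
  p_smul := h₁.p_smul
  map_mul g h a ha := by
    show β₁ (g * h) + β₂ (g * h) = β₁ g + β₂ g + a • (β₁ h + β₂ h)
    rw [h₁.map_mul g h a ha, h₂.map_mul g h a ha, smul_add]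
    abel
  level := by
    classical
    obtain ⟨L₁, hL₁, hLβ₁⟩ := h₁.level
    obtain ⟨L₂, hL₂, hLβ₂⟩ := h₂.level
    haveI := hL₁
    haveI := hL₂
    refine ⟨L₁ ⊔ L₂, IntermediateField.finiteDimensional_sup _ _, fun g hfix => ?_⟩
    rw [hLβ₁ g (fun z hz => hfix z (le_sup_left (a := L₁) hz)),
      hLβ₂ g (fun z hz => hfix z (le_sup_right (a := L₁) hz)), add_zero]
  val_dvd ψ a ha := by
    obtain ⟨a₁, ha₁⟩ := h₁.toInertia.exists_isKumVal ψ
    obtain ⟨a₂, ha₂⟩ := h₂.toInertia.exists_isKumVal ψ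
    have h12 : IsKumVal 1 (chi ψ (fun g => β₁ g + β₂ g)) (a₁ + a₂) := by
      have : chi ψ (fun g => β₁ g + β₂ g) = fun g => chi ψ β₁ g * chi ψ β₂ g := by
        funext g; simp [chi]
      rw [this]
      exact isKumVal_mul ha₁ ha₂
    have h3 := isKumVal_dvd_sub ha h12
    rw [pow_one] at h3
    have h4 := h₁.val_dvd ψ a₁ ha₁
    have h5 := h₂.val_dvd ψ a₂ ha₂
    have : a = (a - (a₁ + a₂)) + a₁ + a₂ := by ring
    rw [this]
    exact dvd_add (dvd_add h3 h4) h5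

theorem IsFullCocycle.congr (hβ : IsFullCocycle β₁) (h : ∀ g, β₁ g = β₂ g) :
    IsFullCocycle β₂ := by
  have : β₁ = β₂ := funext h
  rwa [← this]

variable [Finite M] [Finite M']

/-- a cocycle on the whole group whose valuation coordinate vanishes -/
theorem IsFullCocycle.of_kumC_eq_zero (hI : IsInertiaCocycle 1 β)
    (hmul : ∀ (g h : PadicAlgCl p ≃ₐ[ℚ_[p]] PadicAlgCl p) (a : ℕ), ActsOnMu 1 g a →
      β (g * h) = β g + a • β h)
    (hlevel : ∃ L : IntermediateField ℚ_[p] (PadicAlgCl p), FiniteDimensional ℚ_[p] L ∧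
      ∀ g : PadicAlgCl p ≃ₐ[ℚ_[p]] PadicAlgCl p, (∀ z ∈ L, g z = z) → β g = 0)
    (hc : kumC hI = 0) : IsFullCocycle β where
  p_smul x := by have := hI.pow_smul x; rwa [pow_one] at this
  map_mul := hmul
  level := hlevel
  val_dvd ψ a ha := by
    have := (kumC_eq_zero_iff hI).1 hc ψ a ha
    rwa [pow_one] at this

/-- **functoriality** of the unit coordinate -/
theorem kumE_map (hβ : IsFullCocycle β) (f : M →+ M')
    (hβ' : IsFullCocycle (fun g => f (β g))) : kumE hβ' = f (kumE hβ) := by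
  symm
  apply kumE_unique hβ'
  intro ψ'
  set ψ : Multiplicative M →* Ωˣ := ψ'.comp (AddMonoidHom.toMultiplicative f) with hψ
  refine ⟨kumUExp hβ ψ, ?_, ?_⟩
  · rw [chi_comp]
    exact kumUExp_spec hβ ψ
  · have := kumE_spec hβ ψ (kumUExp_spec hβ ψ)
    rw [← this, hψ]
    simp

theorem kumE_congr (h₁ : IsFullCocycle β₁) (h₂ : IsFullCocycle β₂)
    (h : ∀ g, β₁ g = β₂ g) : kumE h₁ = kumE h₂ := by
  have : β₁ = β₂ := funext h
  subst this
  rfl

theorem kumE_add (h₁ : IsFullCocycle β₁) (h₂ : IsFullCocycle β₂)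
    (h₁₂ : IsFullCocycle (fun g => β₁ g + β₂ g)) :
    kumE h₁₂ = kumE h₁ + kumE h₂ := by
  symm
  apply kumE_unique h₁₂
  intro ψ
  refine ⟨kumUExp h₁ ψ + kumUExp h₂ ψ, ?_, ?_⟩
  · have : chi ψ (fun g => β₁ g + β₂ g) = fun g => chi ψ β₁ g * chi ψ β₂ g := by
      funext g; simp [chi]
    rw [this]
    exact isKumUnit_mul (kumUExp_spec h₁ ψ) (kumUExp_spec h₂ ψ)
  · rw [ofAdd_add, map_mul, kumE_spec h₁ ψ (kumUExp_spec h₁ ψ),
      kumE_spec h₂ ψ (kumUExp_spec h₂ ψ), zpow_add]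

/-- **completeness** (`p` odd): a cocycle on the whole local Galois group whose two coordinates
vanish is a coboundary. -/
theorem exists_cob_of_kumE_eq_zero (hp2 : p ≠ 2) (hβ : IsFullCocycle β) (h : kumE hβ = 0) :
    ∃ m : M, ∀ (g : PadicAlgCl p ≃ₐ[ℚ_[p]] PadicAlgCl p) (a : ℕ), ActsOnMu 1 g a →
      β g + m = a • m := by
  have hp1 : ∀ x : Ω, x ^ p = 1 → x ^ p ^ 1 = 1 := fun x hx => by rwa [pow_one]
  -- the root of unity attached to a character
  have hζ : ∀ ψ : Multiplicative M →* Ωˣ, ∃ ζ : Ω, ζ ^ p = 1 ∧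
      ∀ g : GP, chi ψ β g = g ζ / ζ := fun ψ =>
    exists_cob_of_isKumUnit hp2 (kumUExp_spec hβ ψ)
      ((kumE_eq_zero_iff hβ).1 h ψ _ (kumUExp_spec hβ ψ))
  by_cases hall : ∀ g : GP, ActsOnMu 1 g 1
  · refine ⟨0, fun g a ha => ?_⟩
    rw [smul_zero, add_zero]
    apply eq_of_forall_psi_eq p
    intro ψ
    obtain ⟨ζ, hζp, hζg⟩ := hζ ψ
    have hζ0 : ζ ≠ 0 := by
      intro h0; rw [h0, zero_pow hp.out.ne_zero] at hζp; exact zero_ne_one hζp
    have h1 := hζg g
    rw [hall g ζ (hp1 ζ hζp), pow_one, div_self hζ0] at h1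
    rw [ofAdd_zero, map_one]
    apply Units.ext
    exact h1
  · push Not at hall
    obtain ⟨g₀, hg₀1⟩ := hall
    obtain ⟨e₁, he₁⟩ := exists_actsOnMu (p := p) 1 g₀
    set e₀ : ℕ := e₁ + p with he₀
    have he₀' : ActsOnMu 1 g₀ e₀ := he₁.of_modEq (by
      rw [pow_one, he₀]
      exact (Nat.add_mod_right e₁ p).symm)
    have he₀pos : 1 ≤ e₀ := le_trans hp.out.one_lt.le (Nat.le_add_left _ _)
    obtain ⟨t, ht⟩ : ∃ t : ℕ, e₀ = t + 1 := ⟨e₀ - 1, by omega⟩
    have htp : ¬ p ∣ t := by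
      intro hdvd
      apply hg₀1
      refine he₀'.of_modEq ?_
      rw [pow_one, ht]
      obtain ⟨k, rfl⟩ := hdvd
      show (p * k + 1) % p = 1 % p
      rw [Nat.mul_add_mod]
    have hcop : Nat.Coprime t p := (Nat.Prime.coprime_iff_not_dvd hp.out).2 htp |>.symm
    obtain ⟨j, hj⟩ : ∃ j : ℕ, j * t ≡ 1 [MOD p] := by
      obtain ⟨j, -, hj⟩ := Nat.exists_mul_mod_eq_one_of_coprime hcop hp.out.one_lt
      refine ⟨j, ?_⟩
      show j * t % p = 1 % p
      rw [mul_comm, hj, Nat.mod_eq_of_lt hp.out.one_lt]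
    refine ⟨j • β g₀, fun g a ha => ?_⟩
    apply eq_of_forall_psi_eq p
    intro ψ
    obtain ⟨ζ, hζp, hζg⟩ := hζ ψ
    have hζ0 : ζ ≠ 0 := by
      intro h0; rw [h0, zero_pow hp.out.ne_zero] at hζp; exact zero_ne_one hζp
    -- `ψ (j • β g₀) = ζ`
    have h1 : ((ψ (ofAdd (j • β g₀)) : Ωˣ) : Ω) = ζ := by
      rw [psi_nsmul]
      have h2 : ((ψ (ofAdd (β g₀)) : Ωˣ) : Ω) = ζ ^ t := by
        have := hζg g₀
        unfold chi at this
        rw [this, he₀' ζ (hp1 ζ hζp), ht, pow_succ, mul_div_assoc, div_self hζ0, mul_one]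
      rw [h2, ← pow_mul, mul_comm]
      have : ζ ^ (j * t) = ζ ^ 1 := pow_eq_of_modEq (n := 1) (hp1 ζ hζp) (by rwa [pow_one])
      rw [this, pow_one]
    apply Units.ext
    rw [ofAdd_add, map_mul, Units.val_mul, h1, psi_nsmul, h1]
    have h3 := hζg g
    unfold chi at h3
    rw [h3, ha ζ (hp1 ζ hζp)]
    field_simp

end Functor

end Fermat.Agent.ML.KP
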