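/-
PROJECT ML (S59) — [LOC-L] at `p`, lead: **the chart at `p`, part A**: the coordinate
`t = sgn · ψ(Frob_p) - 1` (`ψ` the unramified quotient character at the place `padicPlace p`),
and the clauses (E1), (E3), (E4), (E5) of the chart.

Setting: `ρ` ordinary at `p` with cyclotomic determinant over a complete noetherian local ring `T`,
`bb` a basis adapted to the ordinary line at `padicPlace p`, `D : OrdLoc T p` its local data.
-/
import Mathlib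
import Fermat.Agent.ML.KP_lead_PLine
import Fermat.Agent.RB.GLUE_helper9_Data
import Fermat.Agent.RB.GLUE_helper9_Mat
import Fermat.Agent.RB.REPT_helper1_TraceCompare
import Fermat.Agent.TW.CondBaseChange_helper6
import Fermat.Agent.RB.GLUE_helper9_Residual

set_option autoImplicit false
set_option linter.unusedSectionVars false
set_option linter.unusedVariables false
set_option linter.style.haveILetI false

namespace Fermat.Agent.ML.KP

open Fermat.Agent.TW IsLocalRing Fermat.Agent.CFT.Local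

variable {p : ℕ} [hp : Fact p.Prime]

local notation "GP" => (PadicAlgCl p ≃ₐ[ℚ_[p]] PadicAlgCl p)
local notation "GQ" => (AlgebraicClosure ℚ ≃ₐ[ℚ] AlgebraicClosure ℚ)

/-! ### determinants through traces -/

section DetTrace

variable {R : Type} [CommRing R] [IsLocalRing R] (ρ' : GaloisRepAdic R)

theorem two_mul_det_eq_trace (σ : GQ) :
    2 * LinearMap.det (ρ'.ρ σ) = ρ'.trace σ ^ 2 - ρ'.trace (σ * σ) := by
  set b := Fermat.Agent.S53.someBasis ρ' with hb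
  have h1 := Fermat.Agent.RB.GLUE.mat2_mul_self (LinearMap.toMatrix b b (ρ'.ρ σ))
  have h2 : ρ'.trace (σ * σ) = (LinearMap.toMatrix b b (ρ'.ρ σ) *
      LinearMap.toMatrix b b (ρ'.ρ σ)).trace := by
    rw [GaloisRepAdic.trace, map_mul, LinearMap.trace_eq_matrix_trace R b, LinearMap.toMatrix_mul]
  rw [h2, h1, Matrix.trace_sub, Matrix.trace_smul, Matrix.trace_smul, Matrix.trace_one,
    GaloisRepAdic.trace, LinearMap.trace_eq_matrix_trace R b, ← LinearMap.det_toMatrix b]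
  simp only [Fintype.card_fin, smul_eq_mul]
  ring

end DetTrace

/-! ### the coordinate `t` -/

section Coord

variable {T : Type} [CommRing T] [IsLocalRing T] (ρ : GaloisRepAdic T)
  (bb : Module.Basis (Fin 2) T ρ.V)

/-- the value of the unramified quotient character at the chosen Frobenius element -/
noncomputable def upOf (p : ℕ) : T := zOf ρ bb (Fermat.Agent.RB.GLUE.frobElt p)

variable (hD : ∀ σ ∈ (padicPlace p).decompositionSubgroup ℚ, ∀ v ∈ (T ∙ bb 0), ρ.ρ σ v ∈ (T ∙ bb 0))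
  (hI : ∀ σ ∈ (padicPlace p).inertiaSubgroupIn ℚ, ∀ v : ρ.V, ρ.ρ σ v - v ∈ (T ∙ bb 0))

theorem frobElt_mem : Fermat.Agent.RB.GLUE.frobElt p ∈ (padicPlace p).decompositionSubgroup ℚ :=
  (Fermat.Agent.RB.GLUE.frobElt_spec p).mem_decompositionSubgroup

include hD hI in
/-- **the value `ψ(Frob_p)` through traces** -/
theorem upOf_formula {τ : GQ} (hτ : τ ∈ (padicPlace p).inertiaSubgroupIn ℚ) :
    (LinearMap.det (ρ.ρ τ) - 1) * upOf ρ bb p =
      LinearMap.det (ρ.ρ τ) * ρ.trace (Fermat.Agent.RB.GLUE.frobElt p) -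
        ρ.trace (Fermat.Agent.RB.GLUE.frobElt p * τ) :=
  quot_char_formula ρ hτ frobElt_mem (T ∙ bb 0) ⟨bb, rfl⟩ hD hI (upOf ρ bb p)
    (tri_sub_smul_mem bb (hD _ frobElt_mem))

include hD hI in
/-- any other description of the eigenvalue of Frobenius on the unramified quotient agrees -/
theorem eq_upOf {τ : GQ} (hτ : τ ∈ (padicPlace p).inertiaSubgroupIn ℚ)
    (hu : IsUnit (LinearMap.det (ρ.ρ τ) - 1))
    (L : Submodule T ρ.V) (hb : ∃ b : Module.Basis (Fin 2) T ρ.V, L = T ∙ b 0)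
    (hD' : ∀ σ ∈ (padicPlace p).decompositionSubgroup ℚ, ∀ v ∈ L, ρ.ρ σ v ∈ L)
    (hI' : ∀ σ ∈ (padicPlace p).inertiaSubgroupIn ℚ, ∀ v : ρ.V, ρ.ρ σ v - v ∈ L)
    (Up : T) (hUp : ∀ v : ρ.V, ρ.ρ (Fermat.Agent.RB.GLUE.frobElt p) v - Up • v ∈ L) :
    Up = upOf ρ bb p := by
  have h1 := quot_char_formula ρ hτ frobElt_mem L hb hD' hI' Up hUp
  have h2 := upOf_formula ρ bb hD hI hτ
  have h3 : (LinearMap.det (ρ.ρ τ) - 1) * (Up - upOf ρ bb p) = 0 := by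
    rw [mul_sub, h1, h2, sub_self]
  have := hu.mul_right_eq_zero.1 h3
  exact sub_eq_zero.1 this

end Coord

section TCoord

variable {𝒪 : Type} [CommRing 𝒪] {T : Type} [CommRing T] [IsLocalRing T] [Algebra 𝒪 T]
  (ρ : GaloisRepAdic T) (bb : Module.Basis (Fin 2) T ρ.V)

/-- **the coordinate `t = sgn · ψ(Frob_p) - 1`** -/
noncomputable def tOf (p : ℕ) (sgn : 𝒪) : T := algebraMap 𝒪 T sgn * upOf ρ bb p - 1

theorem upOf_sq_sub_one (sgn : 𝒪) (hs : sgn ^ 2 = 1) :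
    upOf ρ bb p ^ 2 - 1 = tOf ρ bb p sgn * (tOf ρ bb p sgn + 2) := by
  have h1 : algebraMap 𝒪 T sgn ^ 2 = 1 := by rw [← map_pow, hs, map_one]
  unfold tOf
  linear_combination (-(upOf ρ bb p ^ 2)) * h1

theorem isUnit_two_of_odd (hp2 : p ≠ 2) (hpT : (p : T) ∈ maximalIdeal T) : IsUnit (2 : T) := by
  have h1 : ¬ 3 ≡ 1 [MOD p] := by
    intro h
    have h2 : p ∣ 3 - 1 := (Nat.modEq_iff_dvd' (by norm_num)).1 h.symm
    have h3 : p ∣ 2 := by simpa using h2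
    exact hp2 ((Nat.prime_dvd_prime_iff_eq hp.out Nat.prime_two).1 h3)
  have := Fermat.Agent.ML.REPTL.isUnit_natCast_sub_one (R := T) hp.out hpT h1
  have e : ((3 : ℕ) : T) - 1 = 2 := by norm_num
  rwa [e] at this

theorem isUnit_tOf_add_two (hp2 : p ≠ 2) (hpT : (p : T) ∈ maximalIdeal T) (sgn : 𝒪)
    (ht : tOf ρ bb p sgn ∈ maximalIdeal T) : IsUnit (tOf ρ bb p sgn + 2) := by
  refine Fermat.Agent.ML.REPTL.isUnit_of_sub_mem (isUnit_two_of_odd hp2 hpT) ?_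
  rwa [add_sub_cancel_right]

variable (hD : ∀ σ ∈ (padicPlace p).decompositionSubgroup ℚ, ∀ v ∈ (T ∙ bb 0), ρ.ρ σ v ∈ (T ∙ bb 0))
  (hI : ∀ σ ∈ (padicPlace p).inertiaSubgroupIn ℚ, ∀ v : ρ.V, ρ.ρ σ v - v ∈ (T ∙ bb 0))
  (hp2 : p ≠ 2) (hdet : ρ.DetIsCyclotomic p) (sgn : 𝒪) (hs : sgn ^ 2 = 1)
  (ht : tOf ρ bb p sgn ∈ maximalIdeal T)

include hD hI hp2 hdet hs ht in
/-- **(E5) at `p`** -/
theorem chart_th (Up : T)
    (hUp : ∀ (P : ValuationSubring (AlgebraicClosure ℚ)), P.LiesOverPrime p →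
      ∀ φ : GQ, P.IsFrobeniusAt φ p → ∃ L : Submodule T ρ.V,
        (∃ b : Module.Basis (Fin 2) T ρ.V, L = T ∙ b 0) ∧
        (∀ σ ∈ P.decompositionSubgroup ℚ, ∀ v ∈ L, ρ.ρ σ v ∈ L) ∧
        (∀ σ ∈ P.inertiaSubgroupIn ℚ, ∀ v : ρ.V, ρ.ρ σ v - v ∈ L) ∧
        ∀ v : ρ.V, ρ.ρ φ v - Up • v ∈ L) :
    ∃ u : T, IsUnit u ∧ tOf ρ bb p sgn = u * (Up ^ 2 - 1) := by
  have hP0 := Fermat.Agent.TW.Kill.padicPlace_liesOverPrime p
  obtain ⟨τ, hτ, hu⟩ := exists_inertia_det_sub_one_isUnit ρ hp.out hp2 hdet hP0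
  obtain ⟨L, hb, hD', hI', hUp'⟩ := hUp _ hP0 _ (Fermat.Agent.RB.GLUE.frobElt_spec p)
  have h1 := eq_upOf ρ bb hD hI hτ hu L hb hD' hI' Up hUp'
  have h2 := isUnit_tOf_add_two ρ bb hp2 hdet.1 sgn ht
  obtain ⟨w, hw⟩ := h2.exists_left_inv
  refine ⟨w, IsUnit.of_mul_eq_one _ hw, ?_⟩
  rw [h1, upOf_sq_sub_one ρ bb sgn hs]
  linear_combination (-(tOf ρ bb p sgn)) * hw

include hD hI hp2 hdet hs ht in
/-- **(E3) at `p`** -/
theorem chart_new [IsNoetherianRing T] (I : Ideal T)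
    (hstr : ∀ (B : Type) [CommRing B] [IsLocalRing B] (π : T →+* B) (hπ : IsLocalHom π),
      Function.Surjective π → I ≤ RingHom.ker π →
        (ρ.baseChangeAlong π hπ).IsStrictOrdinaryAt p) :
    tOf ρ bb p sgn ∈ I := by
  by_cases hItop : I = ⊤
  · rw [hItop]; trivial
  haveI : Nontrivial (T ⧸ I) := Ideal.Quotient.nontrivial_iff.2 hItop
  haveI : IsLocalRing (T ⧸ I) :=
    IsLocalRing.of_surjective' (Ideal.Quotient.mk I) Ideal.Quotient.mk_surjective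
  have hπ : IsLocalHom (Ideal.Quotient.mk I) :=
    IsLocalHom.of_surjective _ Ideal.Quotient.mk_surjective
  have hstrict := hstr (T ⧸ I) (Ideal.Quotient.mk I) hπ Ideal.Quotient.mk_surjective
    (by rw [Ideal.mk_ker])
  have hP0 := Fermat.Agent.TW.Kill.padicPlace_liesOverPrime p
  obtain ⟨τ, hτ, hu⟩ := exists_inertia_det_sub_one_isUnit ρ hp.out hp2 hdet hP0
  obtain ⟨hpB, hst⟩ := hstrict
  obtain ⟨L', hb', hD', hI', hS'⟩ := hst _ hP0
  obtain ⟨x, z, hx, hz, hxz⟩ := hS' _ (frobElt_mem (p := p))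
  have hsep : ∀ c : T ⧸ I, (∀ n : ℕ, c ∈ maximalIdeal (T ⧸ I) ^ n) → c = 0 := by
    intro c hc
    have h1 : c ∈ ⨅ n : ℕ, maximalIdeal (T ⧸ I) ^ n := by
      rw [Ideal.mem_iInf]; exact hc
    rw [Ideal.iInf_pow_eq_bot_of_isLocalRing _ (Ideal.IsPrime.ne_top')] at h1
    exact h1
  have hz2 := sq_eq_one_of_strict_datum (ρ.baseChangeAlong (Ideal.Quotient.mk I) hπ) hp.out hsep
    (detIsCyclotomic_baseChangeAlong _ hπ ρ hdet) L' hb' x z hx hz hxz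
  have h1 := quot_char_formula (ρ.baseChangeAlong (Ideal.Quotient.mk I) hπ) hτ
    (frobElt_mem (p := p)) L' hb' hD' hI' z hz
  rw [det_baseChangeAlong, Fermat.Agent.RB.REPT.trace_baseChangeAlong,
    Fermat.Agent.RB.REPT.trace_baseChangeAlong] at h1
  have h2 := congrArg (Ideal.Quotient.mk I) (upOf_formula ρ bb hD hI hτ)
  rw [map_mul, map_sub, map_sub, map_mul, map_one] at h2
  have h3 : (Ideal.Quotient.mk I (LinearMap.det (ρ.ρ τ)) - 1) *
      (z - Ideal.Quotient.mk I (upOf ρ bb p)) = 0 := by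
    rw [mul_sub, h1, h2, sub_self]
  have hu' : IsUnit (Ideal.Quotient.mk I (LinearMap.det (ρ.ρ τ)) - 1) := by
    have := hu.map (Ideal.Quotient.mk I)
    rwa [map_sub, map_one] at this
  have h4 : z = Ideal.Quotient.mk I (upOf ρ bb p) := sub_eq_zero.1 (hu'.mul_right_eq_zero.1 h3)
  have h5 : upOf ρ bb p ^ 2 - 1 ∈ I := by
    rw [← Ideal.Quotient.eq_zero_iff_mem, map_sub, map_pow, map_one, ← h4, hz2, sub_self]
  rw [upOf_sq_sub_one ρ bb sgn hs] at h5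
  obtain ⟨w, hw⟩ := (isUnit_tOf_add_two ρ bb hp2 hdet.1 sgn ht).exists_left_inv
  have h6 : tOf ρ bb p sgn = w * (tOf ρ bb p sgn * (tOf ρ bb p sgn + 2)) := by
    linear_combination (-(tOf ρ bb p sgn)) * hw
  rw [h6]
  exact Ideal.mul_mem_left _ _ h5

end TCoord

section RelClause

variable {𝒪 : Type} [CommRing 𝒪] {T : Type} [CommRing T] [IsLocalRing T] [Algebra 𝒪 T]
  [IsNoetherianRing T] [Finite (ResidueField T)] [IsAdicComplete (maximalIdeal T) T]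
  (ρ : GaloisRepAdic T) (bb : Module.Basis (Fin 2) T ρ.V)
  (hD : ∀ σ ∈ (padicPlace p).decompositionSubgroup ℚ, ∀ v ∈ (T ∙ bb 0), ρ.ρ σ v ∈ (T ∙ bb 0))
  (D : OrdLoc T p)
  (hDρ : ∀ g : PadicAlgCl p ≃ₐ[ℚ_[p]] PadicAlgCl p,
    ρ.ρ (localGaloisToGlobal p g) (bb 0) = D.a g • bb 0 ∧
    ρ.ρ (localGaloisToGlobal p g) (bb 1) = D.b g • bb 0 + D.d g • bb 1)
  (hpT : (p : T) ∈ maximalIdeal T)

include hDρ in
/-- the chosen Frobenius value is approximated by the local unramified character -/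
theorem exists_d_approx (n : ℕ) : ∃ τ : GP, upOf ρ bb p - D.d τ ∈ maximalIdeal T ^ n := by
  obtain ⟨τ, -, hτ⟩ := exists_loc_approx ρ n ⊥ (frobElt_mem (p := p))
  refine ⟨τ, ?_⟩
  have h1 := toMatrix_sub_mem ρ bb hτ 1 1
  have h2 := zOf_loc ρ bb D hDρ τ
  unfold zOf at h2
  rw [h2] at h1
  exact h1

include hDρ in
theorem upOf_sq_sub_one_mul_c : (upOf ρ bb p ^ 2 - 1) * D.c hpT = 0 := by
  have hH : IsHausdorff (maximalIdeal T) T := inferInstance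
  apply hH.haus'
  intro n
  rw [SModEq.zero, smul_eq_mul, Ideal.mul_top]
  obtain ⟨τ, hτ⟩ := exists_d_approx ρ bb D hDρ n
  have h1 := D.kp hpT τ
  have h2 : (upOf ρ bb p ^ 2 - 1) * D.c hpT =
      (upOf ρ bb p - D.d τ) * ((upOf ρ bb p + D.d τ) * D.c hpT) + (D.d τ ^ 2 - 1) * D.c hpT := by
    ring
  rw [h2, h1, add_zero]
  exact Ideal.mul_mem_right _ _ hτ

include hDρ in
/-- **(E1) at `p`** -/
theorem chart_rel (hp2 : p ≠ 2) (sgn : 𝒪) (hs : sgn ^ 2 = 1)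
    (ht : tOf ρ bb p sgn ∈ maximalIdeal T) : tOf ρ bb p sgn * D.c hpT = 0 := by
  have h1 := upOf_sq_sub_one_mul_c ρ bb D hDρ hpT
  rw [upOf_sq_sub_one ρ bb sgn hs] at h1
  obtain ⟨w, hw⟩ := (isUnit_tOf_add_two ρ bb hp2 hpT sgn ht).exists_left_inv
  calc tOf ρ bb p sgn * D.c hpT
      = w * (tOf ρ bb p sgn * (tOf ρ bb p sgn + 2) * D.c hpT) := by
        linear_combination (-(tOf ρ bb p sgn * D.c hpT)) * hw
    _ = 0 := by rw [h1, mul_zero]

end RelClause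

section StClause

variable {𝒪 : Type} [CommRing 𝒪] [IsLocalRing 𝒪] [IsNoetherianRing 𝒪]
  {T : Type} [CommRing T] [IsLocalRing T] [Algebra 𝒪 T]
  (ρ : GaloisRepAdic T) (bb : Module.Basis (Fin 2) T ρ.V)
  (hD : ∀ σ ∈ (padicPlace p).decompositionSubgroup ℚ, ∀ v ∈ (T ∙ bb 0), ρ.ρ σ v ∈ (T ∙ bb 0))
  (hI : ∀ σ ∈ (padicPlace p).inertiaSubgroupIn ℚ, ∀ v : ρ.V, ρ.ρ σ v - v ∈ (T ∙ bb 0))
  (hp2 : p ≠ 2) (hdet : ρ.DetIsCyclotomic p) (sgn : 𝒪) (hs : sgn ^ 2 = 1)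
  (ht : tOf ρ bb p sgn ∈ maximalIdeal T)

include hD hI hp2 hdet hs ht in
/-- **(E4) at `p`** -/
theorem chart_st (ρW : GaloisRepAdic 𝒪) (hW : ρW.IsStrictOrdinaryAt p) (π : T →ₐ[𝒪] 𝒪)
    (hπ : ∀ σ : GQ, π (ρ.trace σ) = ρW.trace σ) : π (tOf ρ bb p sgn) = 0 := by
  have hP0 := Fermat.Agent.TW.Kill.padicPlace_liesOverPrime p
  have hp𝒪 : (p : 𝒪) ∈ maximalIdeal 𝒪 := hW.1
  have h2u : IsUnit (2 : 𝒪) := isUnit_two_of_odd hp2 hp𝒪
  -- determinants
  have hdetW : ∀ σ : GQ, LinearMap.det (ρW.ρ σ) = π (LinearMap.det (ρ.ρ σ)) := by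
    intro σ
    have h1 := two_mul_det_eq_trace ρW σ
    have h2 := congrArg π (two_mul_det_eq_trace ρ σ)
    rw [map_mul, map_sub, map_pow, hπ, hπ, map_ofNat] at h2
    have h3 : (2 : 𝒪) * LinearMap.det (ρW.ρ σ) = 2 * π (LinearMap.det (ρ.ρ σ)) := by
      rw [h1, h2]
    exact h2u.mul_left_cancel h3
  have hdetcyc : ρW.DetIsCyclotomic p := by
    refine ⟨hp𝒪, fun n σ a ha => ?_⟩
    rw [hdetW]
    have := map_mem_span_natCast π.toRingHom (hdet.2 n σ a ha)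
    have e : π.toRingHom (LinearMap.det (ρ.ρ σ) - (a : T)) =
        π (LinearMap.det (ρ.ρ σ)) - (a : 𝒪) := by
      show π (LinearMap.det (ρ.ρ σ) - (a : T)) = _
      rw [map_sub, map_natCast]
    rwa [e] at this
  obtain ⟨τ, hτ, hu⟩ := exists_inertia_det_sub_one_isUnit ρ hp.out hp2 hdet hP0
  obtain ⟨L', hb', hD', hI', hS'⟩ := hW.2 _ hP0
  obtain ⟨x, z, hx, hz, hxz⟩ := hS' _ (frobElt_mem (p := p))
  have hsep : ∀ c : 𝒪, (∀ n : ℕ, c ∈ maximalIdeal 𝒪 ^ n) → c = 0 := by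
    intro c hc
    have h1 : c ∈ ⨅ n : ℕ, maximalIdeal 𝒪 ^ n := by
      rw [Ideal.mem_iInf]; exact hc
    rw [Ideal.iInf_pow_eq_bot_of_isLocalRing _ (Ideal.IsPrime.ne_top')] at h1
    exact h1
  have hz2 := sq_eq_one_of_strict_datum ρW hp.out hsep hdetcyc L' hb' x z hx hz hxz
  have h1 := quot_char_formula ρW hτ (frobElt_mem (p := p)) L' hb' hD' hI' z hz
  rw [hdetW, ← hπ, ← hπ] at h1
  have h2 := congrArg π (upOf_formula ρ bb hD hI hτ)
  rw [map_mul, map_sub, map_sub, map_mul, map_one] at h2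
  have h3 : (π (LinearMap.det (ρ.ρ τ)) - 1) * (z - π (upOf ρ bb p)) = 0 := by
    rw [mul_sub, h1, h2, sub_self]
  have hu' : IsUnit (π (LinearMap.det (ρ.ρ τ)) - 1) := by
    have := hu.map π
    rwa [map_sub, map_one] at this
  have h4 : z = π (upOf ρ bb p) := sub_eq_zero.1 (hu'.mul_right_eq_zero.1 h3)
  -- `w = π t` lies in the maximal ideal and `w (w + 2) = 0`
  have hsurj : Function.Surjective π.toRingHom := fun a => ⟨algebraMap 𝒪 T a, π.commutes a⟩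
  haveI : IsLocalHom π.toRingHom := IsLocalHom.of_surjective _ hsurj
  have hw : π (tOf ρ bb p sgn) ∈ maximalIdeal 𝒪 := by
    have := map_nonunit π.toRingHom _ ht
    exact this
  have hww : π (tOf ρ bb p sgn) * (π (tOf ρ bb p sgn) + 2) = 0 := by
    have h5 := congrArg π (upOf_sq_sub_one (p := p) ρ bb sgn hs)
    rw [map_mul, map_add, map_sub, map_pow, map_one, map_ofNat, ← h4, hz2, sub_self] at h5
    exact h5.symm
  have hunit : IsUnit (π (tOf ρ bb p sgn) + 2) := by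
    refine Fermat.Agent.ML.REPTL.isUnit_of_sub_mem h2u ?_
    rwa [add_sub_cancel_right]
  exact hunit.mul_left_eq_zero.1 hww

end StClause

section ResidClause

variable {k : Type} [Field k] {T : Type} [CommRing T] [IsLocalRing T]
  (ρ : GaloisRepAdic T) (bb : Module.Basis (Fin 2) T ρ.V)
  (hD : ∀ σ ∈ (padicPlace p).decompositionSubgroup ℚ, ∀ v ∈ (T ∙ bb 0), ρ.ρ σ v ∈ (T ∙ bb 0))
  (hI : ∀ σ ∈ (padicPlace p).inertiaSubgroupIn ℚ, ∀ v : ρ.V, ρ.ρ σ v - v ∈ (T ∙ bb 0))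
  (hp2 : p ≠ 2) (hdet : ρ.DetIsCyclotomic p)
  (ψ : k →+* ResidueField T) (ρbar : ResidualGaloisRep k)
  (hres : ρ.residual.IsEquiv (ρbar.baseChangeAlong ψ))

include hD hI hp2 hdet hres in
/-- **the residual value of `ψ(Frob_p)`** from the residual shape at `p` -/
theorem residue_upOf (s : k)
    (hord : ∃ Lbar : Submodule k ρbar.V,
      (∃ v : ρbar.V, v ≠ 0 ∧ Lbar = Submodule.span k {v}) ∧
      (∀ σ ∈ (padicPlace p).decompositionSubgroup ℚ, ∀ v ∈ Lbar, ρbar.ρ σ v ∈ Lbar) ∧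
      (∀ σ ∈ (padicPlace p).inertiaSubgroupIn ℚ, ∀ v : ρbar.V, ρbar.ρ σ v - v ∈ Lbar) ∧
      ∀ φ : GQ, (padicPlace p).IsFrobeniusAt φ p → ∀ v : ρbar.V, ρbar.ρ φ v - s • v ∈ Lbar) :
    residue T (upOf ρ bb p) = ψ s := by
  have hP0 := Fermat.Agent.TW.Kill.padicPlace_liesOverPrime p
  obtain ⟨τ, hτ, hu⟩ := exists_inertia_det_sub_one_isUnit ρ hp.out hp2 hdet hP0
  have hτD : τ ∈ (padicPlace p).decompositionSubgroup ℚ :=
    Fermat.Agent.ML.REPTL.mem_decomposition_of_mem_inertia hτ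
  obtain ⟨Lbar, ⟨v, hv0, rfl⟩, hDb, hIb, hFb⟩ := hord
  -- a basis of `ρ̄` starting with `v`
  obtain ⟨w, hvw⟩ := exists_linearIndependent_pair_of_one_lt_finrank
    (by rw [ρbar.finrank_eq]; norm_num : 1 < Module.finrank k ρbar.V) hv0
  set b : Module.Basis (Fin 2) k ρbar.V := basisOfLinearIndependentOfCardEqFinrank hvw
    (by rw [ρbar.finrank_eq]; rfl) with hb
  have hb0 : b 0 = v := by
    rw [hb, coe_basisOfLinearIndependentOfCardEqFinrank]; rfl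
  have hvL : b 0 ∈ Submodule.span k {b 0} := Submodule.mem_span_singleton_self _
  rw [← hb0] at hDb hIb hFb
  obtain ⟨x, hx⟩ := Submodule.mem_span_singleton.mp (hDb _ (frobElt_mem (p := p)) _ hvL)
  obtain ⟨e, he⟩ := Submodule.mem_span_singleton.mp (hDb τ hτD _ hvL)
  have hg1 : ρbar.ρ τ (b 1) - b 1 ∈ Submodule.span k {b 0} := hIb τ hτ (b 1)
  have hdetb : LinearMap.det (ρbar.ρ τ) = e := by
    have := det_eq_mul_of_triangular b (ρbar.ρ τ) e 1 he.symm (by rw [one_smul]; exact hg1)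
    rw [this, mul_one]
  have h1 := tri_trace_formula b (ρbar.ρ (Fermat.Agent.RB.GLUE.frobElt p)) (ρbar.ρ τ) x s e
    hx.symm (hFb _ (Fermat.Agent.RB.GLUE.frobElt_spec p) (b 1)) he.symm hg1
  rw [← hdetb, ← map_mul] at h1
  have h2 := congrArg ψ h1
  rw [map_mul, map_sub, map_sub, map_mul, map_one,
    ← Fermat.Agent.RB.GLUE.residue_det ρ ψ ρbar hres,
    ← Fermat.Agent.RB.GLUE.residue_trace ρ ψ ρbar hres,
    ← Fermat.Agent.RB.GLUE.residue_trace ρ ψ ρbar hres] at h2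
  have h3 := congrArg (residue T) (upOf_formula ρ bb hD hI hτ)
  rw [map_mul, map_sub, map_sub, map_mul, map_one] at h3
  have h4 : (residue T (LinearMap.det (ρ.ρ τ)) - 1) * (residue T (upOf ρ bb p) - ψ s) = 0 := by
    rw [mul_sub, h3, h2, sub_self]
  have hu' : IsUnit (residue T (LinearMap.det (ρ.ρ τ)) - 1) := by
    have := hu.map (residue T)
    rwa [map_sub, map_one] at this
  exact sub_eq_zero.1 (hu'.mul_right_eq_zero.1 h4)

end ResidClause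

section ResidT

variable {𝒪 : Type} [CommRing 𝒪] [IsLocalRing 𝒪] {T : Type} [CommRing T] [IsLocalRing T]
  [Algebra 𝒪 T] [IsLocalHom (algebraMap 𝒪 T)]
  (ρ : GaloisRepAdic T) (bb : Module.Basis (Fin 2) T ρ.V)
  (hD : ∀ σ ∈ (padicPlace p).decompositionSubgroup ℚ, ∀ v ∈ (T ∙ bb 0), ρ.ρ σ v ∈ (T ∙ bb 0))
  (hI : ∀ σ ∈ (padicPlace p).inertiaSubgroupIn ℚ, ∀ v : ρ.V, ρ.ρ σ v - v ∈ (T ∙ bb 0))
  (hp2 : p ≠ 2) (hdet : ρ.DetIsCyclotomic p)
  (ρbar : ResidualGaloisRep (ResidueField 𝒪))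
  (hres : ρ.residual.IsEquiv
    (ρbar.baseChangeAlong (IsLocalRing.ResidueField.map (algebraMap 𝒪 T))))

include hD hI hp2 hdet hres in
/-- **`t ∈ 𝔪`** -/
theorem tOf_mem (sgn : 𝒪) (hs : sgn ^ 2 = 1)
    (hord : ∃ Lbar : Submodule (ResidueField 𝒪) ρbar.V,
      (∃ v : ρbar.V, v ≠ 0 ∧ Lbar = Submodule.span (ResidueField 𝒪) {v}) ∧
      (∀ σ ∈ (padicPlace p).decompositionSubgroup ℚ, ∀ v ∈ Lbar, ρbar.ρ σ v ∈ Lbar) ∧
      (∀ σ ∈ (padicPlace p).inertiaSubgroupIn ℚ, ∀ v : ρbar.V, ρbar.ρ σ v - v ∈ Lbar) ∧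
      ∀ φ : GQ, (padicPlace p).IsFrobeniusAt φ p →
        ∀ v : ρbar.V, ρbar.ρ φ v - residue 𝒪 sgn • v ∈ Lbar) :
    tOf ρ bb p sgn ∈ maximalIdeal T := by
  have h1 := residue_upOf ρ bb hD hI hp2 hdet _ ρbar hres (residue 𝒪 sgn) hord
  rw [IsLocalRing.ResidueField.map_residue] at h1
  rw [← residue_eq_zero_iff]
  unfold tOf
  rw [map_sub, map_mul, map_one, h1, ← map_mul, ← map_mul, ← pow_two, hs, map_one, map_one,
    sub_self]

end ResidT

end Fermat.Agent.ML.KP
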