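/-
PROJECT ML (S59) — [LOC-L] at `p`, lead: **the chart at `p`, part B**: the reduction of the local
cocycle modulo an ideal `J ⊇ 𝔪² + (λ) + (t, y)` is a cocycle on the whole local Galois group for the
cyclotomic character modulo `p`, with vanishing valuation coordinate (`IsFullCocycle`).
-/
import Mathlib
import Fermat.Agent.ML.KP_lead_PChartA
import Fermat.Agent.ML.KP_lead_KumE

set_option autoImplicit false
set_option linter.unusedSectionVars false
set_option linter.unusedVariables false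
set_option linter.style.haveILetI false

namespace Fermat.Agent.ML.KP

open Fermat.Agent.TW IsLocalRing Fermat.Agent.CFT.Local

variable {p : ℕ} [hp : Fact p.Prime]

local notation "GP" => (PadicAlgCl p ≃ₐ[ℚ_[p]] PadicAlgCl p)
local notation "GQ" => (AlgebraicClosure ℚ ≃ₐ[ℚ] AlgebraicClosure ℚ)

section DPow

variable {T : Type} [CommRing T] [IsLocalRing T] [IsHausdorff (maximalIdeal T) T]
  (ρ : GaloisRepAdic T) (bb : Module.Basis (Fin 2) T ρ.V) (D : OrdLoc T p)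
  (hDρ : ∀ g : PadicAlgCl p ≃ₐ[ℚ_[p]] PadicAlgCl p,
    ρ.ρ (localGaloisToGlobal p g) (bb 0) = D.a g • bb 0 ∧
    ρ.ρ (localGaloisToGlobal p g) (bb 1) = D.b g • bb 0 + D.d g • bb 1)

include hDρ in
/-- **the unramified character is a power of `ψ(Frob_p)`**, modulo `𝔪 ^ n` -/
theorem exists_d_sub_upOf_pow_mem (n : ℕ) (g : GP) :
    ∃ k : ℕ, D.d g - upOf ρ bb p ^ k ∈ maximalIdeal T ^ n := by
  obtain ⟨F, hF, hFk⟩ := D.exists_level_d_eq_pow n
  haveI := hF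
  obtain ⟨τ₀, hτ₀F, hτ₀⟩ := exists_loc_approx ρ n F (frobElt_mem (p := p))
  obtain ⟨k, hk⟩ := hFk _ (Fermat.Agent.RB.GLUE.frobElt_spec p) τ₀ hτ₀F g
  refine ⟨k, ?_⟩
  have h1 := toMatrix_sub_mem ρ bb hτ₀ 1 1
  have h2 := zOf_loc ρ bb D hDρ τ₀
  unfold zOf at h2
  rw [h2] at h1
  have h3 : upOf ρ bb p - D.d τ₀ ∣ upOf ρ bb p ^ k - D.d τ₀ ^ k := sub_dvd_pow_sub_pow _ _ k
  obtain ⟨c, hc⟩ := h3
  have h4 : D.d g - upOf ρ bb p ^ k = (D.d g - D.d τ₀ ^ k) - (upOf ρ bb p - D.d τ₀) * c := by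
    rw [← hc]; ring
  rw [h4]
  exact Ideal.sub_mem _ hk (Ideal.mul_mem_right _ _ h1)

end DPow

/-! ### the cocycle modulo `J` -/

section ModJ

variable {𝒪 : Type} [CommRing 𝒪] [IsLocalRing 𝒪]
  {T : Type} [CommRing T] [IsLocalRing T] [Algebra 𝒪 T]
  [IsNoetherianRing T] [Finite (ResidueField T)] [IsAdicComplete (maximalIdeal T) T]
  (ρ : GaloisRepAdic T) (bb : Module.Basis (Fin 2) T ρ.V) (D : OrdLoc T p)
  (hDρ : ∀ g : PadicAlgCl p ≃ₐ[ℚ_[p]] PadicAlgCl p,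
    ρ.ρ (localGaloisToGlobal p g) (bb 0) = D.a g • bb 0 ∧
    ρ.ρ (localGaloisToGlobal p g) (bb 1) = D.b g • bb 0 + D.d g • bb 1)
  (hpT : (p : T) ∈ maximalIdeal T) (sgn : 𝒪) (hs : sgn ^ 2 = 1)

/-- the ideals modulo which the local cocycle is studied -/
structure IsChartIdeal (J : Ideal T) : Prop where
  sq_le : maximalIdeal T ^ 2 ≤ J
  p_mem : (p : T) ∈ J
  t_mem : tOf ρ bb p sgn ∈ J
  c_mem : D.c hpT ∈ J

variable {J : Ideal T} (hJ : IsChartIdeal ρ bb D hpT sgn J)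

include hJ in
theorem finite_quotient_of_isChartIdeal : Finite (T ⧸ J) := by
  haveI : Finite (T ⧸ maximalIdeal T ^ 2) := OrdLoc.finite_quotient_pow' 2
  exact Finite.of_surjective (Ideal.Quotient.factor hJ.sq_le) (Ideal.Quotient.factor_surjective _)

include hJ in
theorem p_smul_quotient (x : T ⧸ J) : p • x = 0 := by
  obtain ⟨y, rfl⟩ := Ideal.Quotient.mk_surjective x
  rw [← map_nsmul, Ideal.Quotient.eq_zero_iff_mem, nsmul_eq_mul]
  exact Ideal.mul_mem_right _ _ hJ.p_mem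

include hJ hs in
theorem mk_upOf : Ideal.Quotient.mk J (upOf ρ bb p) = Ideal.Quotient.mk J (algebraMap 𝒪 T sgn) := by
  rw [Ideal.Quotient.eq]
  have h1 : algebraMap 𝒪 T sgn ^ 2 = 1 := by rw [← map_pow, hs, map_one]
  have h2 : upOf ρ bb p - algebraMap 𝒪 T sgn = algebraMap 𝒪 T sgn * tOf ρ bb p sgn := by
    unfold tOf
    linear_combination (-(upOf ρ bb p)) * h1
  rw [h2]
  exact Ideal.mul_mem_left _ _ hJ.t_mem

include hJ hs hDρ in
/-- the unramified character is a constant modulo `J` -/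
theorem exists_mk_d_eq (g : GP) : ∃ k : ℕ,
    Ideal.Quotient.mk J (D.d g) = Ideal.Quotient.mk J (algebraMap 𝒪 T (sgn ^ k)) := by
  obtain ⟨k, hk⟩ := exists_d_sub_upOf_pow_mem ρ bb D hDρ 2 g
  refine ⟨k, ?_⟩
  have h1 : Ideal.Quotient.mk J (D.d g) = Ideal.Quotient.mk J (upOf ρ bb p ^ k) :=
    Ideal.Quotient.eq.2 (hJ.sq_le hk)
  rw [h1, map_pow, mk_upOf ρ bb D hpT sgn hs hJ, map_pow, map_pow]

include hJ hs hDρ in
theorem mk_d_sq (g : GP) : Ideal.Quotient.mk J (D.d g) ^ 2 = 1 := by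
  obtain ⟨k, hk⟩ := exists_mk_d_eq ρ bb D hDρ hpT sgn hs hJ g
  rw [hk, ← map_pow, ← map_pow, ← pow_mul, mul_comm, pow_mul, hs, one_pow, map_one, map_one]

include hJ hs hDρ in
/-- the character `χ = a / d` is the cyclotomic character modulo `J` -/
theorem mk_chiT (g : GP) (a : ℕ) (ha : ActsOnMu 1 g a) :
    Ideal.Quotient.mk J (D.chiT g) = (a : T ⧸ J) := by
  have h1 := D.det_cyc 1 g a ha
  have h2 : Ideal.Quotient.mk J (D.a g * D.d g) = (a : T ⧸ J) := by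
    rw [← map_natCast (Ideal.Quotient.mk J), Ideal.Quotient.eq]
    rw [Ideal.mem_span_singleton] at h1
    obtain ⟨c, hc⟩ := h1
    rw [hc, pow_one]
    exact Ideal.mul_mem_right _ _ hJ.p_mem
  have h3 := mk_d_sq ρ bb D hDρ hpT sgn hs hJ g⁻¹
  have h4 := D.d_mul_inv g
  have h5 : D.chiT g = D.a g * D.d g * D.d g⁻¹ ^ 2 := by
    unfold OrdLoc.chiT
    linear_combination (-(D.a g * D.d g⁻¹)) * h4
  rw [h5, map_mul, h2, map_pow, h3, mul_one]

/-- **the local cocycle modulo `J`** -/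
noncomputable def betaJ (J : Ideal T) (g : PadicAlgCl p ≃ₐ[ℚ_[p]] PadicAlgCl p) : T ⧸ J :=
  Ideal.Quotient.mk J (D.beta g)

include hJ hs hDρ in
theorem betaJ_mul (g h : GP) (a : ℕ) (ha : ActsOnMu 1 g a) :
    betaJ D J (g * h) = betaJ D J g + a • betaJ D J h := by
  unfold betaJ
  rw [D.beta_mul, map_add, map_mul, mk_chiT ρ bb D hDρ hpT sgn hs hJ g a ha, nsmul_eq_mul]

include hJ in
theorem betaJ_level : ∃ L : IntermediateField ℚ_[p] (PadicAlgCl p), FiniteDimensional ℚ_[p] L ∧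
    ∀ g : PadicAlgCl p ≃ₐ[ℚ_[p]] PadicAlgCl p, (∀ z ∈ L, g z = z) → betaJ D J g = 0 := by
  obtain ⟨L, hL, hLg⟩ := D.cont 2
  refine ⟨L, hL, fun g hfix => ?_⟩
  unfold betaJ OrdLoc.beta
  rw [Ideal.Quotient.eq_zero_iff_mem]
  exact hJ.sq_le (Ideal.mul_mem_right _ _ (hLg g hfix).2.1)

include hJ hs hDρ in
theorem betaJ_isInertiaCocycle_one : IsInertiaCocycle 1 (betaJ D J) where
  pow_smul x := by rw [pow_one]; exact p_smul_quotient ρ bb D hpT sgn hJ x
  map_mul g _ h _ a ha := betaJ_mul ρ bb D hDρ hpT sgn hs hJ g h a ha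
  level := by
    obtain ⟨L, hL, hLβ⟩ := betaJ_level ρ bb D hpT sgn hJ
    exact ⟨L, hL, fun g _ hfix => hLβ g hfix⟩

include hJ in
theorem betaJ_isInertiaCocycle_two : IsInertiaCocycle 2 (betaJ D J) := by
  have h1 := (D.isInertiaCocycle hpT 2).comp (Ideal.Quotient.factor hJ.sq_le).toAddMonoidHom
    (fun x => by
      have := p_smul_quotient ρ bb D hpT sgn hJ x
      rw [pow_two, mul_smul, this, smul_zero])
  refine h1.congr (fun g _ => ?_)
  show Ideal.Quotient.factor hJ.sq_le (Ideal.Quotient.mk _ (D.beta g)) = _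
  rw [Ideal.Quotient.factor_mk]
  rfl

include hJ hs hDρ in
/-- the valuation coordinate of the cocycle modulo `J` vanishes -/
theorem kumC_betaJ :
    haveI := finite_quotient_of_isChartIdeal ρ bb D hpT sgn hJ
    kumC (betaJ_isInertiaCocycle_one ρ bb D hDρ hpT sgn hs hJ) = 0 := by
  haveI := finite_quotient_of_isChartIdeal ρ bb D hpT sgn hJ
  have h2 := betaJ_isInertiaCocycle_two ρ bb D hpT sgn hJ
  rw [← kumC_succ (betaJ_isInertiaCocycle_one ρ bb D hDρ hpT sgn hs hJ) h2]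
  have h1 := (D.isInertiaCocycle hpT 2).comp (Ideal.Quotient.factor hJ.sq_le).toAddMonoidHom
    (fun x => by
      have := p_smul_quotient ρ bb D hpT sgn hJ x
      rw [pow_two, mul_smul, this, smul_zero])
  have h3 : kumC h2 = kumC h1 := by
    refine (kumC_congr h1 h2 (fun g _ => ?_)).symm
    show Ideal.Quotient.factor hJ.sq_le (Ideal.Quotient.mk _ (D.beta g)) = _
    rw [Ideal.Quotient.factor_mk]
    rfl
  rw [h3, kumC_map (D.isInertiaCocycle hpT 2) _ h1]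
  show Ideal.Quotient.factor hJ.sq_le (D.cN hpT 2) = 0
  rw [← D.mk_c hpT 2, Ideal.Quotient.factor_mk, Ideal.Quotient.eq_zero_iff_mem]
  exact hJ.c_mem

include hJ hs hDρ in
/-- **the cocycle modulo `J` is a full cocycle** -/
theorem betaJ_isFullCocycle : IsFullCocycle (betaJ D J) := by
  haveI := finite_quotient_of_isChartIdeal ρ bb D hpT sgn hJ
  exact IsFullCocycle.of_kumC_eq_zero (betaJ_isInertiaCocycle_one ρ bb D hDρ hpT sgn hs hJ)
    (betaJ_mul ρ bb D hDρ hpT sgn hs hJ) (betaJ_level ρ bb D hpT sgn hJ)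
    (kumC_betaJ ρ bb D hDρ hpT sgn hs hJ)

end ModJ

/-! ### the abstract step -/

section Abstract

variable {R K : Type} [CommRing R] [Finite R] [Field K] (f : R →+* K)
  (hf : ∀ r : R, f r ≠ 0 → IsUnit r) (ε₀ : R →+* R) (hε : ∀ r, f (ε₀ r) = f r)
  {β : (PadicAlgCl p ≃ₐ[ℚ_[p]] PadicAlgCl p) → R}

include hf hε in
/-- **the non-split case**: after rescaling by a unit the cocycle differs from its constant part by
a coboundary -/
theorem exists_unit_cob_of_kumE_ne (hp2 : p ≠ 2) (hβ : IsFullCocycle β)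
    (he : f (kumE hβ) ≠ 0) :
    ∃ (u m : R), IsUnit u ∧ ∀ (g : PadicAlgCl p ≃ₐ[ℚ_[p]] PadicAlgCl p) (a : ℕ),
      ActsOnMu 1 g a → β g + m - a • m = u * ε₀ (β g) := by
  set e := kumE hβ with hedef
  have heu : IsUnit e := hf e he
  have hεeu : IsUnit (ε₀ e) := hf _ (by rw [hε]; exact he)
  obtain ⟨w, hw⟩ := hεeu.exists_left_inv
  set u : R := e * w with hu
  have huu : IsUnit u := heu.mul (IsUnit.of_mul_eq_one _ hw)
  -- the constant part
  have hβt : IsFullCocycle (fun g => ε₀ (β g)) := hβ.comp ε₀.toAddMonoidHom hβ.p_smul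
  have hEt : kumE hβt = ε₀ e := kumE_map hβ ε₀.toAddMonoidHom hβt
  -- `- u · constant part`
  have hβu : IsFullCocycle (fun g => (-u) * ε₀ (β g)) :=
    hβt.comp (AddMonoidHom.mulLeft (-u)) hβ.p_smul
  have hEu : kumE hβu = (-u) * ε₀ e := by
    have h1 := kumE_map hβt (AddMonoidHom.mulLeft (-u)) hβu
    rw [hEt] at h1
    exact h1
  have hγ : IsFullCocycle (fun g => β g + (-u) * ε₀ (β g)) := hβ.add hβu
  have hEγ : kumE hγ = 0 := by
    rw [kumE_add hβ hβu hγ, hEu, ← hedef, hu]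
    linear_combination (-e) * hw
  obtain ⟨m, hm⟩ := exists_cob_of_kumE_eq_zero hp2 hγ hEγ
  refine ⟨u, m, huu, fun g a ha => ?_⟩
  have := hm g a ha
  linear_combination this

end Abstract

/-! ### the constant part of `T ⧸ J` -/

section Const

variable {𝒪 : Type} [CommRing 𝒪] [IsLocalRing 𝒪]
  {T : Type} [CommRing T] [IsLocalRing T] [Algebra 𝒪 T] [IsLocalHom (algebraMap 𝒪 T)]
  (hsurj : Function.Surjective (IsLocalRing.residue T ∘ algebraMap 𝒪 T))
  {J : Ideal T} (hlam : (maximalIdeal 𝒪).map (algebraMap 𝒪 T) ≤ J) (hJm : J ≤ maximalIdeal T)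

/-- the residue map of `T ⧸ J` -/
noncomputable def resJ : T ⧸ J →+* ResidueField T := Ideal.Quotient.factor hJm

theorem resJ_mk (x : T) : resJ hJm (Ideal.Quotient.mk J x) = residue T x :=
  Ideal.Quotient.factor_mk hJm x

theorem isUnit_of_resJ_ne_zero (r : T ⧸ J) (h : resJ hJm r ≠ 0) : IsUnit r := by
  obtain ⟨x, rfl⟩ := Ideal.Quotient.mk_surjective r
  rw [resJ_mk, Ne, residue_eq_zero_iff] at h
  exact (IsLocalRing.notMem_maximalIdeal.1 h).map (Ideal.Quotient.mk J)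

/-- the structure map `k → T ⧸ J` -/
noncomputable def kappaJ : ResidueField 𝒪 →+* T ⧸ J :=
  Ideal.Quotient.lift (maximalIdeal 𝒪) ((Ideal.Quotient.mk J).comp (algebraMap 𝒪 T))
    (fun a ha => by
      rw [RingHom.comp_apply, Ideal.Quotient.eq_zero_iff_mem]
      exact hlam (Ideal.mem_map_of_mem _ ha))

theorem kappaJ_residue (a : 𝒪) :
    kappaJ hlam (residue 𝒪 a) = Ideal.Quotient.mk J (algebraMap 𝒪 T a) :=
  Ideal.Quotient.lift_mk _ _ _

theorem resJ_kappaJ (x : ResidueField 𝒪) :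
    resJ hJm (kappaJ hlam x) = IsLocalRing.ResidueField.map (algebraMap 𝒪 T) x := by
  obtain ⟨a, rfl⟩ := residue_surjective x
  rw [kappaJ_residue, resJ_mk, IsLocalRing.ResidueField.map_residue]

include hsurj in
theorem resMap_bijective :
    Function.Bijective (IsLocalRing.ResidueField.map (algebraMap 𝒪 T)) := by
  refine ⟨RingHom.injective _, fun y => ?_⟩
  obtain ⟨a, ha⟩ := hsurj y
  exact ⟨residue 𝒪 a, by rw [IsLocalRing.ResidueField.map_residue]; exact ha⟩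

/-- **the constant part** `T ⧸ J → k → T ⧸ J` -/
noncomputable def constJ : T ⧸ J →+* T ⧸ J :=
  (kappaJ hlam).comp (((RingEquiv.ofBijective _ (resMap_bijective hsurj)).symm.toRingHom).comp
    (resJ hJm))

theorem resJ_constJ (r : T ⧸ J) : resJ hJm (constJ hsurj hlam hJm r) = resJ hJm r := by
  unfold constJ
  rw [RingHom.comp_apply, resJ_kappaJ, RingHom.comp_apply]
  exact (RingEquiv.ofBijective _ (resMap_bijective hsurj)).apply_symm_apply _

theorem exists_constJ_eq (r : T ⧸ J) :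
    ∃ a : 𝒪, constJ hsurj hlam hJm r = Ideal.Quotient.mk J (algebraMap 𝒪 T a) := by
  unfold constJ
  rw [RingHom.comp_apply]
  obtain ⟨a, ha⟩ := residue_surjective
    ((((RingEquiv.ofBijective _ (resMap_bijective hsurj)).symm.toRingHom).comp (resJ hJm)) r)
  exact ⟨a, by rw [← ha, kappaJ_residue]⟩

end Const

/-! ### change of basis -/

section NewBasis

variable {T : Type} [CommRing T] {V : Type} [AddCommGroup V] [Module T V]
  (bb : Module.Basis (Fin 2) T V)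

theorem exists_newBasis (u : T) (hu : IsUnit u) (μ : T) :
    ∃ bb' : Module.Basis (Fin 2) T V, bb' 0 = u • bb 0 ∧ bb' 1 = μ • bb 0 + bb 1 := by
  have hdet : IsUnit (!![u, μ; 0, 1] : Matrix (Fin 2) (Fin 2) T).det := by
    rw [Matrix.det_fin_two_of]; simpa using hu
  refine ⟨bb.map (Matrix.toLinearEquiv bb _ hdet), ?_, ?_⟩
  · rw [Module.Basis.map_apply]
    show Matrix.toLin bb bb _ (bb 0) = _
    rw [Matrix.toLin_self, Fin.sum_univ_two]
    simp
  · rw [Module.Basis.map_apply]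
    show Matrix.toLin bb bb _ (bb 1) = _
    rw [Matrix.toLin_self, Fin.sum_univ_two]
    simp

theorem toMatrix_of_tri (f : V →ₗ[T] V) (A B Dd : T) (h0 : f (bb 0) = A • bb 0)
    (h1 : f (bb 1) = B • bb 0 + Dd • bb 1) :
    LinearMap.toMatrix bb bb f = !![A, B; 0, Dd] := by
  ext i j
  rw [LinearMap.toMatrix_apply]
  fin_cases j
  · simp only [Fin.zero_eta, h0]
    fin_cases i <;> simp
  · simp only [Fin.mk_one, h1]
    fin_cases i <;> simp

theorem toMatrix_newBasis (bb' : Module.Basis (Fin 2) T V) {u w μ : T} (hwu : w * u = 1)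
    (hb0 : bb' 0 = u • bb 0) (hb1 : bb' 1 = μ • bb 0 + bb 1)
    (f : V →ₗ[T] V) (A B Dd : T) (h0 : f (bb 0) = A • bb 0)
    (h1 : f (bb 1) = B • bb 0 + Dd • bb 1) :
    LinearMap.toMatrix bb' bb' f = !![A, w * (B + μ * (A - Dd)); 0, Dd] := by
  apply toMatrix_of_tri
  · rw [hb0, map_smul, h0, smul_comm]
  · rw [hb1, hb0, map_add, map_smul, h0, h1]
    have : (w * (B + μ * (A - Dd))) • u • bb 0 = ((w * u) * (B + μ * (A - Dd))) • bb 0 := by
      rw [smul_smul]; congr 1; ring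
    rw [this, hwu, one_mul]
    module

end NewBasis

/-! ### local triviality at the place `padicPlace p` -/

section LocTriv

variable {𝒪 : Type} [CommRing 𝒪] [IsLocalRing 𝒪]
  {T : Type} [CommRing T] [IsLocalRing T] [Algebra 𝒪 T]
  (ρ : GaloisRepAdic T) (bb : Module.Basis (Fin 2) T ρ.V)
  (hD : ∀ σ ∈ (padicPlace p).decompositionSubgroup ℚ, ∀ v ∈ (T ∙ bb 0), ρ.ρ σ v ∈ (T ∙ bb 0))
  (D : OrdLoc T p)
  (hDρ : ∀ g : PadicAlgCl p ≃ₐ[ℚ_[p]] PadicAlgCl p,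
    ρ.ρ (localGaloisToGlobal p g) (bb 0) = D.a g • bb 0 ∧
    ρ.ρ (localGaloisToGlobal p g) (bb 1) = D.b g • bb 0 + D.d g • bb 1)

include hD hDρ in
/-- **constants on the local Galois group give constants on the decomposition group** -/
theorem exists_basis_const {J : Ideal T} (hJ2 : maximalIdeal T ^ 2 ≤ J) (u : T) (hu : IsUnit u)
    (μ : T)
    (hA : ∀ g : GP, ∃ a₁ : 𝒪, D.a g - algebraMap 𝒪 T a₁ ∈ J)
    (hDd : ∀ g : GP, ∃ a₂ : 𝒪, D.d g - algebraMap 𝒪 T a₂ ∈ J)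
    (hB : ∀ g : GP, ∃ a₀ : 𝒪, D.b g + μ * (D.a g - D.d g) - u * algebraMap 𝒪 T a₀ ∈ J) :
    ∃ β : Module.Basis (Fin 2) T ρ.V, ∀ σ ∈ (padicPlace p).decompositionSubgroup ℚ,
      ∀ i j : Fin 2, ∃ a : 𝒪, LinearMap.toMatrix β β (ρ.ρ σ) i j - algebraMap 𝒪 T a ∈ J := by
  obtain ⟨bb', hb0, hb1⟩ := exists_newBasis bb u hu μ
  obtain ⟨w, hwu⟩ := hu.exists_left_inv
  refine ⟨bb', fun σ hσ => ?_⟩
  -- the entries of `ρ(σ)` in the basis `bb`
  set M := LinearMap.toMatrix bb bb (ρ.ρ σ) with hM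
  have h10 : M 1 0 = 0 := tri_one_zero bb (hD σ hσ)
  have h0 : ρ.ρ σ (bb 0) = M 0 0 • bb 0 := by
    rw [tri_apply_basis bb (ρ.ρ σ) 0, ← hM, h10, zero_smul, add_zero]
  have h1 : ρ.ρ σ (bb 1) = M 0 1 • bb 0 + M 1 1 • bb 1 := tri_apply_basis bb (ρ.ρ σ) 1
  have hM' := toMatrix_newBasis bb bb' hwu hb0 hb1 (ρ.ρ σ) (M 0 0) (M 0 1) (M 1 1) h0 h1
  -- approximation by a local element
  obtain ⟨τ, -, hτ⟩ := exists_loc_approx ρ 2 ⊥ hσ
  have happ : ∀ i j : Fin 2, M i j - LinearMap.toMatrix bb bb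
      (ρ.ρ (localGaloisToGlobal p τ)) i j ∈ J := fun i j => hJ2 (toMatrix_sub_mem ρ bb hτ i j)
  rw [toMatrix_loc ρ bb D hDρ τ] at happ
  have h00 : M 0 0 - D.a τ ∈ J := by simpa using happ 0 0
  have h01 : M 0 1 - D.b τ ∈ J := by simpa using happ 0 1
  have h11 : M 1 1 - D.d τ ∈ J := by simpa using happ 1 1
  obtain ⟨a₁, ha₁⟩ := hA τ
  obtain ⟨a₂, ha₂⟩ := hDd τ
  obtain ⟨a₀, ha₀⟩ := hB τ
  intro i j
  rw [hM']
  fin_cases i <;> fin_cases j
  · refine ⟨a₁, ?_⟩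
    have : M 0 0 - algebraMap 𝒪 T a₁ = (M 0 0 - D.a τ) + (D.a τ - algebraMap 𝒪 T a₁) := by ring
    show M 0 0 - algebraMap 𝒪 T a₁ ∈ J
    rw [this]
    exact Ideal.add_mem _ h00 ha₁
  · refine ⟨a₀, ?_⟩
    have e : w * (M 0 1 + μ * (M 0 0 - M 1 1)) - algebraMap 𝒪 T a₀ =
        w * ((M 0 1 - D.b τ) + μ * ((M 0 0 - D.a τ) - (M 1 1 - D.d τ))) +
          w * (D.b τ + μ * (D.a τ - D.d τ) - u * algebraMap 𝒪 T a₀) := by
      linear_combination (algebraMap 𝒪 T a₀) * hwu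
    have h2 : w * (M 0 1 + μ * (M 0 0 - M 1 1)) - algebraMap 𝒪 T a₀ ∈ J := by
      rw [e]
      refine Ideal.add_mem _ (Ideal.mul_mem_left _ _ (Ideal.add_mem _ h01
        (Ideal.mul_mem_left _ _ (Ideal.sub_mem _ h00 h11)))) (Ideal.mul_mem_left _ _ ha₀)
    exact h2
  · exact ⟨0, by simp⟩
  · refine ⟨a₂, ?_⟩
    have : M 1 1 - algebraMap 𝒪 T a₂ = (M 1 1 - D.d τ) + (D.d τ - algebraMap 𝒪 T a₂) := by ring
    show M 1 1 - algebraMap 𝒪 T a₂ ∈ J
    rw [this]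
    exact Ideal.add_mem _ h11 ha₂

end LocTriv

/-! ### (E6) at `p` -/

section Final

variable {𝒪 : Type} [CommRing 𝒪] [IsLocalRing 𝒪]
  {T : Type} [CommRing T] [IsLocalRing T] [Algebra 𝒪 T] [IsLocalHom (algebraMap 𝒪 T)]
  [IsNoetherianRing T] [Finite (ResidueField T)] [IsAdicComplete (maximalIdeal T) T]
  (hsurj : Function.Surjective (IsLocalRing.residue T ∘ algebraMap 𝒪 T))
  (ρ : GaloisRepAdic T) (bb : Module.Basis (Fin 2) T ρ.V)
  (hD : ∀ σ ∈ (padicPlace p).decompositionSubgroup ℚ, ∀ v ∈ (T ∙ bb 0), ρ.ρ σ v ∈ (T ∙ bb 0))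
  (D : OrdLoc T p)
  (hDρ : ∀ g : PadicAlgCl p ≃ₐ[ℚ_[p]] PadicAlgCl p,
    ρ.ρ (localGaloisToGlobal p g) (bb 0) = D.a g • bb 0 ∧
    ρ.ρ (localGaloisToGlobal p g) (bb 1) = D.b g • bb 0 + D.d g • bb 1)
  (hpT : (p : T) ∈ maximalIdeal T) (sgn : 𝒪) (hs : sgn ^ 2 = 1) (hp2 : p ≠ 2)

include hpT in
theorem natCast_mem_map_maximalIdeal :
    (p : T) ∈ (maximalIdeal 𝒪).map (algebraMap 𝒪 T) := by
  have h1 : (p : 𝒪) ∈ maximalIdeal 𝒪 := by
    rw [mem_maximalIdeal, mem_nonunits_iff]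
    intro hu
    have h2 : IsUnit (algebraMap 𝒪 T (p : 𝒪)) := hu.map _
    rw [map_natCast] at h2
    exact hpT h2
  have := Ideal.mem_map_of_mem (algebraMap 𝒪 T) h1
  rwa [map_natCast] at this

include hD hDρ hs in
/-- the common last step: a coboundary relation modulo `J` trivialises `ρ` modulo `J` -/
theorem exists_basis_const_of_cob {J : Ideal T} (hJ : IsChartIdeal ρ bb D hpT sgn J)
    (u : T) (hu : IsUnit u) (m : T) (κ : GP → 𝒪)
    (hcob : ∀ (g : GP) (a : ℕ), ActsOnMu 1 g a →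
      betaJ D J g + Ideal.Quotient.mk J m - a • Ideal.Quotient.mk J m =
        Ideal.Quotient.mk J u * Ideal.Quotient.mk J (algebraMap 𝒪 T (κ g))) :
    ∃ β : Module.Basis (Fin 2) T ρ.V, ∀ σ ∈ (padicPlace p).decompositionSubgroup ℚ,
      ∀ i j : Fin 2, ∃ a : 𝒪, LinearMap.toMatrix β β (ρ.ρ σ) i j - algebraMap 𝒪 T a ∈ J := by
  have hDd : ∀ g : GP, ∃ a₂ : 𝒪, D.d g - algebraMap 𝒪 T a₂ ∈ J := by
    intro g
    obtain ⟨k, hk⟩ := exists_mk_d_eq ρ bb D hDρ hpT sgn hs hJ g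
    exact ⟨sgn ^ k, Ideal.Quotient.eq.1 hk⟩
  have hAD : ∀ (g : GP) (e : ℕ), ActsOnMu 1 g e →
      Ideal.Quotient.mk J (D.a g * D.d g) = Ideal.Quotient.mk J (algebraMap 𝒪 T (e : 𝒪)) := by
    intro g e he
    have h1 := D.det_cyc 1 g e he
    rw [map_natCast, Ideal.Quotient.eq]
    rw [Ideal.mem_span_singleton] at h1
    obtain ⟨c, hc⟩ := h1
    rw [hc, pow_one]
    exact Ideal.mul_mem_right _ _ hJ.p_mem
  have hA : ∀ g : GP, ∃ a₁ : 𝒪, D.a g - algebraMap 𝒪 T a₁ ∈ J := by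
    intro g
    obtain ⟨e, he⟩ := exists_actsOnMu (p := p) 1 g
    obtain ⟨k, hk⟩ := exists_mk_d_eq ρ bb D hDρ hpT sgn hs hJ g⁻¹
    refine ⟨(e : 𝒪) * sgn ^ k, Ideal.Quotient.eq.1 ?_⟩
    have h1 : D.a g = D.a g * D.d g * D.d g⁻¹ := by
      have := D.d_mul_inv g
      linear_combination (-(D.a g)) * this
    rw [h1, map_mul, hAD g e he, hk, ← map_mul, ← map_mul]
  refine exists_basis_const ρ bb hD D hDρ hJ.sq_le u hu (-m) hA hDd ?_
  intro g
  obtain ⟨e, he⟩ := exists_actsOnMu (p := p) 1 g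
  obtain ⟨k, hk⟩ := exists_mk_d_eq ρ bb D hDρ hpT sgn hs hJ g
  refine ⟨sgn ^ k * κ g, ?_⟩
  rw [← Ideal.Quotient.eq_zero_iff_mem]
  have h1 : D.b g + -m * (D.a g - D.d g) =
      D.d g * (D.beta g + m - D.chiT g * m) := by
    unfold OrdLoc.beta OrdLoc.chiT
    have := D.d_mul_inv g
    linear_combination (-(D.b g) + D.a g * m) * this
  have h2 := hcob g e he
  have h3 := mk_chiT ρ bb D hDρ hpT sgn hs hJ g e he
  unfold betaJ at h2
  rw [h1, map_sub, map_mul, map_sub, map_add, map_mul, h3, map_mul, map_mul, map_mul, hk]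
  rw [nsmul_eq_mul] at h2
  rw [h2]
  ring

end Final

end Fermat.Agent.ML.KP
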