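/-
PROJECT ML (S59) — [LOC-L] at `p`, lead: **the chart at `p`, part C**: (E6) — local triviality at `p`
modulo the coordinate ideal.

`eBar` = the unit coordinate of the residual cocycle.  If `eBar ≠ 0` (non-split), every ideal
containing `t` and `y` trivialises `ρ` locally at `p`; if `eBar = 0` there is a third coordinate
`w ∈ 𝔪` such that every ideal containing `t, y, w` does.
-/
import Mathlib
import Fermat.Agent.ML.KP_lead_PChartB
import Fermat.Agent.ML.NSCH_helper7_Common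

set_option autoImplicit false
set_option linter.unusedSectionVars false
set_option linter.unusedVariables false
set_option linter.style.haveILetI false

namespace Fermat.Agent.ML.KP

open Fermat.Agent.TW IsLocalRing Fermat.Agent.CFT.Local

variable {p : ℕ} [hp : Fact p.Prime]

local notation "GP" => (PadicAlgCl p ≃ₐ[ℚ_[p]] PadicAlgCl p)
local notation "GQ" => (AlgebraicClosure ℚ ≃ₐ[ℚ] AlgebraicClosure ℚ)

section Triv

variable {𝒪 : Type} [CommRing 𝒪] [IsLocalRing 𝒪]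
  {T : Type} [CommRing T] [IsLocalRing T] [Algebra 𝒪 T] [IsLocalHom (algebraMap 𝒪 T)]
  [IsNoetherianRing T] [Finite (ResidueField T)] [IsAdicComplete (maximalIdeal T) T]
  (hsurj : Function.Surjective (IsLocalRing.residue T ∘ algebraMap 𝒪 T))
  (ρ : GaloisRepAdic T) (bb : Module.Basis (Fin 2) T ρ.V)
  (hD : ∀ σ ∈ (padicPlace p).decompositionSubgroup ℚ, ∀ v ∈ (T ∙ bb 0), ρ.ρ σ v ∈ (T ∙ bb 0))
  (D : OrdLoc T p)
  (hDρ : ∀ g : PadicAlgCl p ≃ₐ[ℚ_[p]] PadicAlgCl p,
    ρ.ρ (localGaloisToGlobal p g) (bb 0) = D.a g • bb 0 ∧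
    ρ.ρ (localGaloisToGlobal p g) (bb 1) = D.b g • bb 0 + D.d g • bb 1)
  (hpT : (p : T) ∈ maximalIdeal T) (sgn : 𝒪) (hs : sgn ^ 2 = 1) (hp2 : p ≠ 2)
  (ht : tOf ρ bb p sgn ∈ maximalIdeal T) (hy : D.c hpT ∈ maximalIdeal T)

include ht hy in
theorem isChartIdeal_maximalIdeal : IsChartIdeal ρ bb D hpT sgn (maximalIdeal T) :=
  ⟨Ideal.pow_le_self (by norm_num), hpT, ht, hy⟩

/-- functoriality of the unit coordinate in the chart ideal -/
theorem kumE_factor {J J' : Ideal T} (hJ : IsChartIdeal ρ bb D hpT sgn J)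
    (hJ' : IsChartIdeal ρ bb D hpT sgn J') (hle : J ≤ J') [Finite (T ⧸ J)] [Finite (T ⧸ J')]
    (h₁ : IsFullCocycle (betaJ D J)) (h₂ : IsFullCocycle (betaJ D J')) :
    Ideal.Quotient.factor hle (kumE h₁) = kumE h₂ := by
  have h1 : IsFullCocycle (fun g => (Ideal.Quotient.factor hle).toAddMonoidHom (betaJ D J g)) :=
    h₁.comp (Ideal.Quotient.factor hle).toAddMonoidHom h₂.p_smul
  have h2 := kumE_map h₁ (Ideal.Quotient.factor hle).toAddMonoidHom h1
  have h3 : kumE h1 = kumE h₂ := by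
    refine kumE_congr h1 _ (fun g => ?_)
    show Ideal.Quotient.factor hle (Ideal.Quotient.mk J (D.beta g)) = _
    rw [Ideal.Quotient.factor_mk]
    rfl
  rw [← h3, h2]
  rfl

instance finite_quotient_maximalIdeal : Finite (T ⧸ maximalIdeal T) :=
  inferInstanceAs (Finite (ResidueField T))

include hDρ hs ht hy in
/-- the residual cocycle is a full cocycle -/
theorem betaBar_isFullCocycle : IsFullCocycle (betaJ D (maximalIdeal T)) :=
  betaJ_isFullCocycle ρ bb D hDρ hpT sgn hs (isChartIdeal_maximalIdeal ρ bb D hpT sgn ht hy)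

/-- **the unit coordinate of the residual cocycle** -/
noncomputable def eBar : T ⧸ maximalIdeal T :=
  kumE (betaBar_isFullCocycle ρ bb D hDρ hpT sgn hs ht hy)

/-- a proper ideal containing the coordinates, `𝔪²` and `λ` is a chart ideal -/
theorem isChartIdeal_of_le {I J : Ideal T} (htI : tOf ρ bb p sgn ∈ I) (hyI : D.c hpT ∈ I)
    (hIJ : I ≤ J) (hJ2 : maximalIdeal T ^ 2 ≤ J)
    (hJl : (maximalIdeal 𝒪).map (algebraMap 𝒪 T) ≤ J) : IsChartIdeal ρ bb D hpT sgn J :=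
  ⟨hJ2, hJl (natCast_mem_map_maximalIdeal (𝒪 := 𝒪) hpT), hIJ htI, hIJ hyI⟩

include hsurj hD hDρ hs hp2 in
/-- **(E6), non-split case** -/
theorem chart_triv_of_ne (he : eBar ρ bb D hDρ hpT sgn hs ht hy ≠ 0) (I : Ideal T)
    (htI : tOf ρ bb p sgn ∈ I) (hyI : D.c hpT ∈ I) : IsLocTrivIdeal 𝒪 ρ p I := by
  refine ML.isLocTrivIdeal_of_place ρ hp.out I (Fermat.Agent.TW.Kill.padicPlace_liesOverPrime p) ?_
  intro J hIJ hJ2 hJl
  by_cases htop : J = ⊤
  · exact ⟨bb, fun σ _ i j => ⟨0, by rw [htop]; trivial⟩⟩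
  have hJm : J ≤ maximalIdeal T := le_maximalIdeal htop
  have hJ : IsChartIdeal ρ bb D hpT sgn J :=
    isChartIdeal_of_le ρ bb D hpT sgn htI hyI hIJ hJ2 hJl
  haveI : Finite (T ⧸ J) := finite_quotient_of_isChartIdeal ρ bb D hpT sgn hJ
  have hfull := betaJ_isFullCocycle ρ bb D hDρ hpT sgn hs hJ
  have hres : resJ hJm (kumE hfull) ≠ 0 := by
    have := kumE_factor ρ bb D hpT sgn hJ (isChartIdeal_maximalIdeal ρ bb D hpT sgn ht hy) hJm
      hfull (betaBar_isFullCocycle ρ bb D hDρ hpT sgn hs ht hy)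
    intro h0
    apply he
    unfold eBar
    rw [← this]
    exact h0
  obtain ⟨uJ, mJ, huJ, hcob⟩ := exists_unit_cob_of_kumE_ne (resJ hJm)
    (isUnit_of_resJ_ne_zero hJm) (constJ hsurj hJl hJm) (resJ_constJ hsurj hJl hJm) hp2 hfull hres
  obtain ⟨u, rfl⟩ := Ideal.Quotient.mk_surjective uJ
  obtain ⟨m, rfl⟩ := Ideal.Quotient.mk_surjective mJ
  have hu : IsUnit u := by
    by_contra hnu
    have hum : u ∈ maximalIdeal T := (mem_maximalIdeal u).2 hnu
    have h1 : resJ hJm (Ideal.Quotient.mk J u) = 0 := by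
      rw [resJ_mk, residue_eq_zero_iff]; exact hum
    have h2 : IsUnit (resJ hJm (Ideal.Quotient.mk J u)) := huJ.map _
    rw [h1] at h2
    exact not_isUnit_zero h2
  choose κ hκ using fun g : GP => exists_constJ_eq hsurj hJl hJm (betaJ D J g)
  refine exists_basis_const_of_cob ρ bb hD D hDρ hpT sgn hs hJ u hu m κ ?_
  intro g a ha
  rw [hcob g a ha, hκ g]

include hsurj hD hDρ hs hp2 in
/-- **(E6), split case**: one more coordinate is needed -/
theorem exists_chart_triv_of_eq (he : eBar ρ bb D hDρ hpT sgn hs ht hy = 0) :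
    ∃ w ∈ maximalIdeal T, ∀ I : Ideal T, tOf ρ bb p sgn ∈ I → D.c hpT ∈ I → w ∈ I →
      IsLocTrivIdeal 𝒪 ρ p I := by
  -- the smallest chart ideal
  set J₀ : Ideal T := Ideal.span {tOf ρ bb p sgn, D.c hpT} ⊔ maximalIdeal T ^ 2 ⊔
    (maximalIdeal 𝒪).map (algebraMap 𝒪 T) with hJ₀
  have hspan : Ideal.span {tOf ρ bb p sgn, D.c hpT} ≤ J₀ := le_sup_of_le_left le_sup_left
  have hJ₀2 : maximalIdeal T ^ 2 ≤ J₀ := le_sup_of_le_left le_sup_right
  have hJ₀l : (maximalIdeal 𝒪).map (algebraMap 𝒪 T) ≤ J₀ := le_sup_right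
  have hJ₀ch : IsChartIdeal ρ bb D hpT sgn J₀ :=
    ⟨hJ₀2, hJ₀l (natCast_mem_map_maximalIdeal (𝒪 := 𝒪) hpT),
      hspan (Ideal.subset_span (by simp)), hspan (Ideal.subset_span (by simp))⟩
  have hJ₀m : J₀ ≤ maximalIdeal T := by
    refine sup_le (sup_le ?_ (Ideal.pow_le_self (by norm_num))) ?_
    · rw [Ideal.span_le]
      intro x hx
      rcases hx with rfl | rfl
      · exact ht
      · exact hy
    · exact map_maximalIdeal_le (algebraMap 𝒪 T)
  haveI : Finite (T ⧸ J₀) := finite_quotient_of_isChartIdeal ρ bb D hpT sgn hJ₀ch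
  have hfull₀ := betaJ_isFullCocycle ρ bb D hDρ hpT sgn hs hJ₀ch
  obtain ⟨w, hw⟩ := Ideal.Quotient.mk_surjective (kumE hfull₀)
  have hwm : w ∈ maximalIdeal T := by
    have := kumE_factor ρ bb D hpT sgn hJ₀ch (isChartIdeal_maximalIdeal ρ bb D hpT sgn ht hy)
      hJ₀m hfull₀ (betaBar_isFullCocycle ρ bb D hDρ hpT sgn hs ht hy)
    rw [← hw, Ideal.Quotient.factor_mk] at this
    unfold eBar at he
    rw [he] at this
    exact Ideal.Quotient.eq_zero_iff_mem.1 this
  refine ⟨w, hwm, fun I htI hyI hwI => ?_⟩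
  refine ML.isLocTrivIdeal_of_place ρ hp.out I (Fermat.Agent.TW.Kill.padicPlace_liesOverPrime p) ?_
  intro J hIJ hJ2 hJl
  by_cases htop : J = ⊤
  · exact ⟨bb, fun σ _ i j => ⟨0, by rw [htop]; trivial⟩⟩
  have hJm : J ≤ maximalIdeal T := le_maximalIdeal htop
  have hJ : IsChartIdeal ρ bb D hpT sgn J :=
    isChartIdeal_of_le ρ bb D hpT sgn htI hyI hIJ hJ2 hJl
  haveI : Finite (T ⧸ J) := finite_quotient_of_isChartIdeal ρ bb D hpT sgn hJ
  have hfull := betaJ_isFullCocycle ρ bb D hDρ hpT sgn hs hJ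
  have hle : J₀ ≤ J := by
    refine sup_le (sup_le ?_ hJ2) hJl
    rw [Ideal.span_le]
    intro x hx
    rcases hx with rfl | rfl
    · exact hIJ htI
    · exact hIJ hyI
  have h0 : kumE hfull = 0 := by
    rw [← kumE_factor ρ bb D hpT sgn hJ₀ch hJ hle hfull₀ hfull, ← hw, Ideal.Quotient.factor_mk,
      Ideal.Quotient.eq_zero_iff_mem]
    exact hIJ hwI
  obtain ⟨mJ, hmJ⟩ := exists_cob_of_kumE_eq_zero hp2 hfull h0
  obtain ⟨m, rfl⟩ := Ideal.Quotient.mk_surjective mJ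
  refine exists_basis_const_of_cob ρ bb hD D hDρ hpT sgn hs hJ 1 isUnit_one m (fun _ => 0) ?_
  intro g a ha
  rw [hmJ g a ha, sub_self, map_zero, map_zero, mul_zero]

end Triv

end Fermat.Agent.ML.KP
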