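/-
PROJECT ML (S59) — [LOC-L] at `p`, lead: **the chart at `p`, part D**: the residual inputs.

* `eBar_ne_zero_of_pns` : if `ρ̄|_{D_p}` is non-split, the unit coordinate of the residual cocycle
  is non-zero;
* `c_mem_of_isPeu` : if `ρ̄` is peu ramifiée, the valuation coordinate `c` lies in `𝔪`.
-/
import Mathlib
import Fermat.Agent.ML.KP_lead_PChartC

set_option autoImplicit false
set_option linter.unusedSectionVars false
set_option linter.unusedVariables false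
set_option linter.style.haveILetI false

namespace Fermat.Agent.ML.KP

open Fermat.Agent.TW IsLocalRing Fermat.Agent.CFT.Local

variable {p : ℕ} [hp : Fact p.Prime]

local notation "GP" => (PadicAlgCl p ≃ₐ[ℚ_[p]] PadicAlgCl p)
local notation "GQ" => (AlgebraicClosure ℚ ≃ₐ[ℚ] AlgebraicClosure ℚ)

/-! ### a diagonalising basis modulo `J` -/

section Diag

variable {T : Type} [CommRing T] [IsLocalRing T]
  (ρ : GaloisRepAdic T) (bb : Module.Basis (Fin 2) T ρ.V)
  (hD : ∀ σ ∈ (padicPlace p).decompositionSubgroup ℚ, ∀ v ∈ (T ∙ bb 0), ρ.ρ σ v ∈ (T ∙ bb 0))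
  (D : OrdLoc T p)
  (hDρ : ∀ g : PadicAlgCl p ≃ₐ[ℚ_[p]] PadicAlgCl p,
    ρ.ρ (localGaloisToGlobal p g) (bb 0) = D.a g • bb 0 ∧
    ρ.ρ (localGaloisToGlobal p g) (bb 1) = D.b g • bb 0 + D.d g • bb 1)

include hD hDρ in
/-- if the local cocycle is a coboundary modulo `J`, some basis diagonalises `D_p` modulo `J` -/
theorem exists_basis_diag {J : Ideal T} (hJ2 : maximalIdeal T ^ 2 ≤ J) (μ : T)
    (hB : ∀ g : GP, D.b g + μ * (D.a g - D.d g) ∈ J) :
    ∃ β : Module.Basis (Fin 2) T ρ.V, ∀ σ ∈ (padicPlace p).decompositionSubgroup ℚ,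
      LinearMap.toMatrix β β (ρ.ρ σ) 1 0 = 0 ∧ LinearMap.toMatrix β β (ρ.ρ σ) 0 1 ∈ J := by
  obtain ⟨bb', hb0, hb1⟩ := exists_newBasis bb 1 isUnit_one μ
  refine ⟨bb', fun σ hσ => ?_⟩
  set M := LinearMap.toMatrix bb bb (ρ.ρ σ) with hM
  have h10 : M 1 0 = 0 := tri_one_zero bb (hD σ hσ)
  have h0 : ρ.ρ σ (bb 0) = M 0 0 • bb 0 := by
    rw [tri_apply_basis bb (ρ.ρ σ) 0, ← hM, h10, zero_smul, add_zero]
  have h1 : ρ.ρ σ (bb 1) = M 0 1 • bb 0 + M 1 1 • bb 1 := tri_apply_basis bb (ρ.ρ σ) 1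
  have hM' := toMatrix_newBasis bb bb' (one_mul (1 : T)) hb0 hb1 (ρ.ρ σ) (M 0 0) (M 0 1) (M 1 1) h0 h1
  obtain ⟨τ, -, hτ⟩ := exists_loc_approx ρ 2 ⊥ hσ
  have happ : ∀ i j : Fin 2, M i j - LinearMap.toMatrix bb bb
      (ρ.ρ (localGaloisToGlobal p τ)) i j ∈ J := fun i j => hJ2 (toMatrix_sub_mem ρ bb hτ i j)
  rw [toMatrix_loc ρ bb D hDρ τ] at happ
  have h00 : M 0 0 - D.a τ ∈ J := by simpa using happ 0 0
  have h01 : M 0 1 - D.b τ ∈ J := by simpa using happ 0 1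
  have h11 : M 1 1 - D.d τ ∈ J := by simpa using happ 1 1
  rw [hM']
  refine ⟨by simp, ?_⟩
  have e : (1 : T) * (M 0 1 + μ * (M 0 0 - M 1 1)) =
      ((M 0 1 - D.b τ) + μ * ((M 0 0 - D.a τ) - (M 1 1 - D.d τ))) +
        (D.b τ + μ * (D.a τ - D.d τ)) := by ring
  show (1 : T) * (M 0 1 + μ * (M 0 0 - M 1 1)) ∈ J
  rw [e]
  exact Ideal.add_mem _ (Ideal.add_mem _ h01
    (Ideal.mul_mem_left _ _ (Ideal.sub_mem _ h00 h11))) (hB τ)

end Diag

/-! ### complementary stable lines of `ρ̄` -/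

section Lines

variable {k : Type} [Field k] {A : Type} [CommRing A] [IsLocalRing A]
  (ρ : GaloisRepAdic A) (b : Module.Basis (Fin 2) A ρ.V)
  (ψ : k →+* ResidueField A) (ρbar : ResidualGaloisRep k)
  (h : ρ.residual.IsEquiv (ρbar.baseChangeAlong ψ))

include h in
/-- if `ρ` is diagonal modulo `𝔪` on a set `S`, then `ρ̄` has complementary `S`-stable lines -/
theorem exists_isCompl_of_diag (hψ : Function.Surjective ψ) (S : Set GQ)
    (hS : ∀ σ ∈ S, LinearMap.toMatrix b b (ρ.ρ σ) 1 0 ∈ maximalIdeal A ∧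
      LinearMap.toMatrix b b (ρ.ρ σ) 0 1 ∈ maximalIdeal A) :
    ∃ L₁ L₂ : Submodule k ρbar.V, IsCompl L₁ L₂ ∧ L₁ ≠ ⊥ ∧ L₂ ≠ ⊥ ∧
      ∀ σ ∈ S, (∀ v ∈ L₁, ρbar.ρ σ v ∈ L₁) ∧ ∀ v ∈ L₂, ρbar.ρ σ v ∈ L₂ := by
  set β := Fermat.Agent.S53.resSomeBasis ρbar
  obtain ⟨U, hU⟩ := RB.GLUE.exists_conj_residue ρ b ψ ρbar h β
  let ψe : k ≃+* ResidueField A := RingEquiv.ofBijective ψ ⟨ψ.injective, hψ⟩
  have hψe : ∀ x, ψe.symm (ψ x) = x := fun x => ψe.symm_apply_apply x
  set U₀ : Matrix (Fin 2) (Fin 2) k := (U : Matrix (Fin 2) (Fin 2) _).map ψe.symm with hU₀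
  set V₀ : Matrix (Fin 2) (Fin 2) k :=
    ((U⁻¹ : (Matrix (Fin 2) (Fin 2) (ResidueField A))ˣ) : Matrix (Fin 2) (Fin 2) _).map ψe.symm
    with hV₀
  have hUV : U₀ * V₀ = 1 := by
    rw [hU₀, hV₀, ← Matrix.map_mul, Units.mul_inv, Matrix.map_one _ (map_zero _) (map_one _)]
  have hVU : V₀ * U₀ = 1 := by
    rw [hU₀, hV₀, ← Matrix.map_mul, Units.inv_mul, Matrix.map_one _ (map_zero _) (map_one _)]
  let E : ρbar.V ≃ₗ[k] ρbar.V := LinearEquiv.ofLinearMap (Matrix.toLin β β U₀) (Matrix.toLin β β V₀)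
    (by rw [← Matrix.toLin_mul, hUV, Matrix.toLin_one]) (by rw [← Matrix.toLin_mul, hVU, Matrix.toLin_one])
  set β' : Module.Basis (Fin 2) k ρbar.V := β.map E with hβ'
  -- the key relation
  have hkey : ∀ σ : GQ, LinearMap.toMatrix β β (ρbar.ρ σ) * U₀ =
      U₀ * ((LinearMap.toMatrix b b (ρ.ρ σ)).map (residue A)).map ψe.symm := by
    intro σ
    have h1 := congrArg (fun M : Matrix (Fin 2) (Fin 2) (ResidueField A) => M.map ψe.symm) (hU σ)
    simp only [Matrix.map_mul] at h1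
    rw [← hU₀] at h1
    have h2 : ((LinearMap.toMatrix β β (ρbar.ρ σ)).map ψ).map ψe.symm =
        LinearMap.toMatrix β β (ρbar.ρ σ) := by
      ext i j
      simp only [Matrix.map_apply]
      exact hψe _
    rw [h2] at h1
    exact h1.symm
  have hact : ∀ σ : GQ, ∀ j : Fin 2, ρbar.ρ σ (β' j) =
      ∑ i, (((LinearMap.toMatrix b b (ρ.ρ σ)).map (residue A)).map ψe.symm) i j • β' i := by
    intro σ j
    have h1 : ρbar.ρ σ = Matrix.toLin β β (LinearMap.toMatrix β β (ρbar.ρ σ)) :=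
      (Matrix.toLin_toMatrix β β _).symm
    have h2 : ρbar.ρ σ (β' j) =
        Matrix.toLin β β (LinearMap.toMatrix β β (ρbar.ρ σ) * U₀) (β j) := by
      rw [Matrix.toLin_mul β β β, LinearMap.comp_apply, ← h1]
      rfl
    rw [h2, hkey σ, Matrix.toLin_mul β β β, LinearMap.comp_apply, Matrix.toLin_self, map_sum]
    refine Finset.sum_congr rfl fun i _ => ?_
    rw [map_smul]
    rfl
  have hdiag : ∀ σ ∈ S, ∀ j : Fin 2, ∃ c : k, ρbar.ρ σ (β' j) = c • β' j := by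
    intro σ hσ j
    obtain ⟨h10, h01⟩ := hS σ hσ
    rw [← residue_eq_zero_iff] at h10 h01
    rw [hact σ j, Fin.sum_univ_two]
    fin_cases j
    · refine ⟨ψe.symm (residue A (LinearMap.toMatrix b b (ρ.ρ σ) 0 0)), ?_⟩
      simp only [Fin.zero_eta, Matrix.map_apply, h10, map_zero, zero_smul, add_zero]
    · refine ⟨ψe.symm (residue A (LinearMap.toMatrix b b (ρ.ρ σ) 1 1)), ?_⟩
      simp only [Fin.mk_one, Matrix.map_apply, h01, map_zero, zero_smul, zero_add]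
  refine ⟨k ∙ β' 0, k ∙ β' 1, ⟨?_, ?_⟩, ?_, ?_, ?_⟩
  · rw [Submodule.disjoint_def]
    intro x hx0 hx1
    obtain ⟨a, rfl⟩ := Submodule.mem_span_singleton.1 hx0
    obtain ⟨c, hc⟩ := Submodule.mem_span_singleton.1 hx1
    have h1 := congrArg (fun v => β'.repr v 0) hc
    simp only [map_smul, Finsupp.smul_apply, Module.Basis.repr_self, smul_eq_mul] at h1
    have h2 : a = 0 := by simpa using h1.symm
    rw [h2, zero_smul]
  · rw [codisjoint_iff, eq_top_iff]
    intro v _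
    have h1 := β'.sum_repr v
    rw [Fin.sum_univ_two] at h1
    rw [← h1]
    exact Submodule.add_mem_sup (Submodule.smul_mem _ _ (Submodule.mem_span_singleton_self _))
      (Submodule.smul_mem _ _ (Submodule.mem_span_singleton_self _))
  · intro h0
    have := Submodule.mem_span_singleton_self (R := k) (β' 0)
    rw [h0, Submodule.mem_bot] at this
    exact β'.ne_zero 0 this
  · intro h0
    have := Submodule.mem_span_singleton_self (R := k) (β' 1)
    rw [h0, Submodule.mem_bot] at this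
    exact β'.ne_zero 1 this
  · intro σ hσ
    constructor
    · intro v hv
      obtain ⟨a, rfl⟩ := Submodule.mem_span_singleton.1 hv
      obtain ⟨c, hc⟩ := hdiag σ hσ 0
      rw [map_smul, hc]
      exact Submodule.smul_mem _ _ (Submodule.smul_mem _ _ (Submodule.mem_span_singleton_self _))
    · intro v hv
      obtain ⟨a, rfl⟩ := Submodule.mem_span_singleton.1 hv
      obtain ⟨c, hc⟩ := hdiag σ hσ 1
      rw [map_smul, hc]
      exact Submodule.smul_mem _ _ (Submodule.smul_mem _ _ (Submodule.mem_span_singleton_self _))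

end Lines

/-! ### the converse of `rhobar_eq_one_of_sub_one_mem` -/

section Conv

variable {k : Type} [Field k] {A : Type} [CommRing A] [IsLocalRing A]
  (ρ : GaloisRepAdic A) (b : Module.Basis (Fin 2) A ρ.V)
  (ψ : k →+* ResidueField A) (ρbar : ResidualGaloisRep k)
  (h : ρ.residual.IsEquiv (ρbar.baseChangeAlong ψ))

include h in
theorem sub_one_mem_of_rhobar_eq_one {σ : GQ} (hσ : ρbar.ρ σ = 1) (i j : Fin 2) :
    (LinearMap.toMatrix b b (ρ.ρ σ) - 1) i j ∈ maximalIdeal A := by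
  set β := Fermat.Agent.S53.resSomeBasis ρbar
  obtain ⟨U, hU⟩ := RB.GLUE.exists_conj_residue ρ b ψ ρbar h β
  have h1 := hU σ
  rw [hσ] at h1
  have h2 : LinearMap.toMatrix β β (1 : Module.End k ρbar.V) = 1 := LinearMap.toMatrix_one β
  rw [h2, Matrix.map_one _ (map_zero _) (map_one _), one_mul] at h1
  have h3 : (LinearMap.toMatrix b b (ρ.ρ σ)).map (residue A) = 1 := by
    have h4 : (U : Matrix (Fin 2) (Fin 2) (ResidueField A)) *
        (LinearMap.toMatrix b b (ρ.ρ σ)).map (residue A) =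
        (U : Matrix (Fin 2) (Fin 2) (ResidueField A)) * 1 := by rw [mul_one]; exact h1
    exact U.isUnit.mul_right_injective h4
  rw [← residue_eq_zero_iff, Matrix.sub_apply, map_sub]
  have h5 := congrFun (congrFun h3 i) j
  rw [Matrix.map_apply] at h5
  rw [h5, Matrix.one_apply, Matrix.one_apply]
  split_ifs <;> simp

end Conv

/-! ### the residual inputs -/

section Resid

variable {𝒪 : Type} [CommRing 𝒪] [IsLocalRing 𝒪]
  {T : Type} [CommRing T] [IsLocalRing T] [Algebra 𝒪 T] [IsLocalHom (algebraMap 𝒪 T)]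
  [IsNoetherianRing T] [Finite (ResidueField T)] [IsAdicComplete (maximalIdeal T) T]
  (hsurj : Function.Surjective (IsLocalRing.residue T ∘ algebraMap 𝒪 T))
  (ρ : GaloisRepAdic T) (bb : Module.Basis (Fin 2) T ρ.V)
  (hD : ∀ σ ∈ (padicPlace p).decompositionSubgroup ℚ, ∀ v ∈ (T ∙ bb 0), ρ.ρ σ v ∈ (T ∙ bb 0))
  (D : OrdLoc T p)
  (hDρ : ∀ g : PadicAlgCl p ≃ₐ[ℚ_[p]] PadicAlgCl p,
    ρ.ρ (localGaloisToGlobal p g) (bb 0) = D.a g • bb 0 ∧
    ρ.ρ (localGaloisToGlobal p g) (bb 1) = D.b g • bb 0 + D.d g • bb 1)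
  (hpT : (p : T) ∈ maximalIdeal T) (sgn : 𝒪) (hs : sgn ^ 2 = 1) (hp2 : p ≠ 2)
  (ht : tOf ρ bb p sgn ∈ maximalIdeal T) (hy : D.c hpT ∈ maximalIdeal T)
  (ρbar : ResidualGaloisRep (ResidueField 𝒪))
  (hres : ρ.residual.IsEquiv
    (ρbar.baseChangeAlong (IsLocalRing.ResidueField.map (algebraMap 𝒪 T))))

include hsurj hD hDρ hs hp2 hres in
/-- **non-split ⇒ the unit coordinate of the residual cocycle is non-zero** -/
theorem eBar_ne_zero_of_pns (hpns : ChainKind.pns.Holds ρbar p p) :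
    eBar ρ bb D hDρ hpT sgn hs ht hy ≠ 0 := by
  intro he
  have hfull := betaBar_isFullCocycle ρ bb D hDρ hpT sgn hs ht hy
  obtain ⟨mJ, hmJ⟩ := exists_cob_of_kumE_eq_zero hp2 hfull he
  obtain ⟨m, rfl⟩ := Ideal.Quotient.mk_surjective mJ
  have hJ := isChartIdeal_maximalIdeal ρ bb D hpT sgn ht hy
  have hB : ∀ g : GP, D.b g + (-m) * (D.a g - D.d g) ∈ maximalIdeal T := by
    intro g
    obtain ⟨e, he⟩ := exists_actsOnMu (p := p) 1 g
    rw [← Ideal.Quotient.eq_zero_iff_mem]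
    have h1 : D.b g + -m * (D.a g - D.d g) = D.d g * (D.beta g + m - D.chiT g * m) := by
      unfold OrdLoc.beta OrdLoc.chiT
      have := D.d_mul_inv g
      linear_combination (-(D.b g) + D.a g * m) * this
    have h2 := hmJ g e he
    have h3 := mk_chiT ρ bb D hDρ hpT sgn hs hJ g e he
    unfold betaJ at h2
    rw [nsmul_eq_mul] at h2
    rw [h1, map_mul, map_sub, map_add, map_mul, h3, h2, sub_self, mul_zero]
  obtain ⟨β, hβ⟩ := exists_basis_diag ρ bb hD D hDρ (Ideal.pow_le_self two_ne_zero) (-m) hB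
  have hψ : Function.Surjective (IsLocalRing.ResidueField.map (algebraMap 𝒪 T)) :=
    (resMap_bijective hsurj).2
  obtain ⟨L₁, L₂, hc, h1, h2, hst⟩ := exists_isCompl_of_diag ρ β _ ρbar hres hψ
    {σ | σ ∈ (padicPlace p).decompositionSubgroup ℚ}
    (fun σ hσ => ⟨by rw [(hβ σ hσ).1]; exact zero_mem _, (hβ σ hσ).2⟩)
  exact hpns.2 _ (Fermat.Agent.TW.Kill.padicPlace_liesOverPrime p) ⟨L₁, L₂, hc, h1, h2, hst⟩

include hDρ hres in
/-- **peu ramifiée ⇒ the valuation coordinate vanishes modulo `𝔪`** -/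
theorem cN_one_eq_zero_of_isPeu (hpeu : IsPeuRamifieeAt ρbar p) : D.cN hpT 1 = 0 := by
  unfold OrdLoc.cN
  rw [kumC_eq_zero_iff]
  rintro ψ a ⟨y, hy0, hyF, hnorm⟩
  have hcoc := D.isInertiaCocycle hpT 1
  have h1 : ∀ g ∈ unrInertia p, g (y ^ p) = y ^ p := by
    intro g hg
    rw [map_pow, hyF g hg, mul_pow]
    have h3 : chi ψ (D.betaN 1) g ^ p = 1 := by
      have h4 := chi_pow hcoc ψ g
      have e : p ^ 1 = p := pow_one p
      simpa only [e] using h4
    rw [h3, one_mul]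
  have h2 : ∀ g ∈ unrInertia p, ρbar.ρ (localGaloisToGlobal p g) = 1 → g y = y := by
    intro g hg hρ
    rw [hyF g hg]
    have hb : D.betaN 1 g = 0 := by
      unfold OrdLoc.betaN OrdLoc.beta
      rw [Ideal.Quotient.eq_zero_iff_mem, pow_one]
      refine Ideal.mul_mem_right _ _ ?_
      have h3 := sub_one_mem_of_rhobar_eq_one ρ bb _ ρbar hres hρ 0 1
      rw [toMatrix_loc ρ bb D hDρ g] at h3
      simpa using h3
    unfold chi
    rw [hb, ofAdd_zero, map_one, Units.val_one, one_mul]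
  obtain ⟨m, hm⟩ := hpeu y hy0 h1 h2
  have e : p ^ 1 = p := pow_one p
  simp only [e] at hnorm
  rw [hm, ← zpow_natCast, ← zpow_mul] at hnorm
  have h3 : m * (p : ℤ) = -a := zpow_p_injective hnorm
  exact ⟨-m, by rw [pow_one]; linarith⟩

include hDρ hres in
theorem c_mem_of_isPeu (hpeu : IsPeuRamifieeAt ρbar p) : D.c hpT ∈ maximalIdeal T := by
  have h1 := D.mk_c hpT 1
  rw [cN_one_eq_zero_of_isPeu ρ bb D hDρ hpT ρbar hres hpeu, Ideal.Quotient.eq_zero_iff_mem,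
    pow_one] at h1
  exact h1

end Resid

end Fermat.Agent.ML.KP
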