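/-
PROJECT ML (S59) — [LOC-L] at `p`, lead: **the chart at `p`** — proof of `PChartStatement`.
-/
import Mathlib
import Fermat.Agent.ML.KP_lead_PChartD
import Fermat.Agent.ML.IFACE_lead_PChart

set_option autoImplicit false
set_option linter.unusedSectionVars false
set_option linter.unusedVariables false
set_option linter.style.haveILetI false

namespace Fermat.Agent.ML.KP

open Fermat.Agent.TW IsLocalRing Fermat.Agent.CFT.Local

local notation "GQ" => (AlgebraicClosure ℚ ≃ₐ[ℚ] AlgebraicClosure ℚ)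

/-- **[LOC-L], the chart at `p`** -/
theorem pChartStatement : PChartStatement := by
  intro 𝒪 _ _ _ _ _ p _ hp2 hp𝒪 ρbar s hs hpeu hordp n hn T _ _ _ _ _ _ hsurj ρ hres hdet hord
  haveI : Finite (ResidueField T) := finite_residueField_of_surjective hsurj
  have hpT : (p : T) ∈ maximalIdeal T := hdet.1
  have hP0 := Fermat.Agent.TW.Kill.padicPlace_liesOverPrime p
  obtain ⟨L, ⟨bb, rfl⟩, hD, hI⟩ := hord _ hP0
  obtain ⟨D, hDρ⟩ := exists_ordLoc ρ bb hD hI hdet
  have ht : tOf ρ bb p s ∈ maximalIdeal T :=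
    tOf_mem ρ bb hD hI hp2 hdet ρbar hres s hs (hordp _ hP0)
  have hy : D.c hpT ∈ maximalIdeal T := c_mem_of_isPeu ρ bb D hDρ hpT ρbar hres hpeu
  -- the clauses not involving `w`
  have hE1 : tOf ρ bb p s * D.c hpT = 0 := chart_rel ρ bb D hDρ hpT hp2 s hs ht
  have hE3 := chart_new ρ bb hD hI hp2 hdet s hs ht
  have hE4 := chart_st ρ bb hD hI hp2 hdet s hs ht
  have hE5 := chart_th ρ bb hD hI hp2 hdet s hs ht
  by_cases he : eBar ρ bb D hDρ hpT s hs ht hy = 0
  · -- split: one more coordinate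
    obtain ⟨w, hwm, hw⟩ := exists_chart_triv_of_eq hsurj ρ bb hD D hDρ hpT s hs hp2 ht hy he
    have hn0 : n ≠ 0 := fun h0 =>
      eBar_ne_zero_of_pns hsurj ρ bb hD D hDρ hpT s hs hp2 ht hy ρbar hres (hn h0) he
    obtain ⟨i₀⟩ : Nonempty (Fin n) := ⟨⟨0, Nat.pos_of_ne_zero hn0⟩⟩
    refine ⟨tOf ρ bb p s, D.c hpT, fun _ => w, ht, hy, fun _ => hwm, ?_, hE1, hE3, hE4, hE5⟩
    refine hw _ (Ideal.subset_span (by simp)) (Ideal.subset_span (by simp))
      (Ideal.subset_span (Or.inr ⟨i₀, rfl⟩))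
  · refine ⟨tOf ρ bb p s, D.c hpT, fun _ => 0, ht, hy, fun _ => zero_mem _, ?_, hE1, hE3, hE4, hE5⟩
    exact chart_triv_of_ne hsurj ρ bb hD D hDρ hpT s hs hp2 ht hy he _
      (Ideal.subset_span (by simp)) (Ideal.subset_span (by simp))

end Fermat.Agent.ML.KP
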