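/-
PROJECT ML (S59), block [LOC-L], scalar kind — file 1: the toric ideal of the cone over the
scroll `S(2,2)` (POLYNOMIAL version).

Variables `a, b, c, x, y, z` (`X 0 … X 5`).  `St₀` = the ideal of the `2 × 2` minors of
  `[[b, a, y, x], [a, c, x, z]]`,
the monomial chart `φ : b ↦ κ, a ↦ κ t, c ↦ κ t², y ↦ y, x ↦ y t, z ↦ y t²`.
**`ker_chartPoly_le`**: over ANY commutative ring the kernel of `φ` is `St₀`.

Proof: the standard monomials `b^α c^γ y^β`, `b^α a c^γ y^β`, `c^γ y^β z^ζ`, `c^γ y^β x z^ζ` span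
modulo `St₀` (closure under multiplication by the six variables), and a linear section `θ` of `φ`
on monomials shows that `φ` is injective on their span.  helper4.
-/
import Mathlib

set_option autoImplicit false

namespace Fermat.Agent.ML.LocSc

open MvPolynomial

variable (R : Type*) [CommRing R]

/-- the variable `a` -/
noncomputable def pa : MvPolynomial (Fin 6) R := X 0
/-- the variable `b` -/
noncomputable def pb : MvPolynomial (Fin 6) R := X 1
/-- the variable `c` -/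
noncomputable def pc : MvPolynomial (Fin 6) R := X 2
/-- the variable `x` -/
noncomputable def px : MvPolynomial (Fin 6) R := X 3
/-- the variable `y` -/
noncomputable def py : MvPolynomial (Fin 6) R := X 4
/-- the variable `z` -/
noncomputable def pz : MvPolynomial (Fin 6) R := X 5

/-- the six minors (special fibre, `τ = 0`) -/
noncomputable def stGensPoly : Fin 6 → MvPolynomial (Fin 6) R :=
  ![pa R ^ 2 - pb R * pc R, px R ^ 2 - py R * pz R, pa R * px R - pb R * pz R,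
    pb R * px R - pa R * py R, pc R * px R - pa R * pz R, pa R * px R - pc R * py R]

/-- the toric ideal `St₀` -/
noncomputable def stPoly : Ideal (MvPolynomial (Fin 6) R) := Ideal.span (Set.range (stGensPoly R))

/-- chart variable `κ` -/
noncomputable def qk : MvPolynomial (Fin 3) R := X 0
/-- chart variable `y` -/
noncomputable def qy : MvPolynomial (Fin 3) R := X 1
/-- chart variable `t` -/
noncomputable def qt : MvPolynomial (Fin 3) R := X 2

/-- the images of the six variables under the chart -/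
noncomputable def chartImgPoly : Fin 6 → MvPolynomial (Fin 3) R :=
  ![qk R * qt R, qk R, qk R * qt R ^ 2, qy R * qt R, qy R, qy R * qt R ^ 2]

/-- the monomial chart -/
noncomputable def chartPoly : MvPolynomial (Fin 6) R →ₐ[R] MvPolynomial (Fin 3) R :=
  aeval (chartImgPoly R)

@[simp] theorem chartPoly_pa : chartPoly R (pa R) = qk R * qt R := by
  simp [chartPoly, pa, chartImgPoly]
@[simp] theorem chartPoly_pb : chartPoly R (pb R) = qk R := by
  simp [chartPoly, pb, chartImgPoly]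
@[simp] theorem chartPoly_pc : chartPoly R (pc R) = qk R * qt R ^ 2 := by
  simp [chartPoly, pc, chartImgPoly]
@[simp] theorem chartPoly_px : chartPoly R (px R) = qy R * qt R := by
  simp [chartPoly, px, chartImgPoly]
@[simp] theorem chartPoly_py : chartPoly R (py R) = qy R := by
  simp [chartPoly, py, chartImgPoly]
@[simp] theorem chartPoly_pz : chartPoly R (pz R) = qy R * qt R ^ 2 := by
  simp [chartPoly, pz, chartImgPoly]

theorem stPoly_le_ker : stPoly R ≤ RingHom.ker (chartPoly R).toRingHom := by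
  rw [stPoly, Ideal.span_le]
  rintro _ ⟨i, rfl⟩
  rw [SetLike.mem_coe, RingHom.mem_ker]
  change chartPoly R (stGensPoly R i) = 0
  fin_cases i <;> simp [stGensPoly] <;> ring

/-! ### the standard monomials -/

/-- `b^α c^γ y^β` -/
noncomputable def mA0 (α γ β : ℕ) : MvPolynomial (Fin 6) R := pb R ^ α * pc R ^ γ * py R ^ β
/-- `b^α a c^γ y^β` -/
noncomputable def mA1 (α γ β : ℕ) : MvPolynomial (Fin 6) R :=
  pb R ^ α * pa R * pc R ^ γ * py R ^ β
/-- `c^γ y^β z^ζ` -/
noncomputable def mB0 (γ β ζ : ℕ) : MvPolynomial (Fin 6) R := pc R ^ γ * py R ^ β * pz R ^ ζ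
/-- `c^γ y^β x z^ζ` -/
noncomputable def mB1 (γ β ζ : ℕ) : MvPolynomial (Fin 6) R :=
  pc R ^ γ * py R ^ β * px R * pz R ^ ζ

/-- the set of standard monomials -/
def stdSet : Set (MvPolynomial (Fin 6) R) :=
  {p | (∃ α γ β, p = mA0 R α γ β) ∨ (∃ α γ β, p = mA1 R α γ β) ∨
    (∃ γ β ζ, p = mB0 R γ β ζ) ∨ (∃ γ β ζ, p = mB1 R γ β ζ)}

/-- the span of the standard monomials plus the ideal -/
noncomputable def stdSpan : Submodule R (MvPolynomial (Fin 6) R) :=
  Submodule.span R (stdSet R) ⊔ (stPoly R).restrictScalars R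

variable {R}

theorem mem_stdSpan_of_eq {p s i : MvPolynomial (Fin 6) R} (hs : s ∈ stdSet R)
    (hi : i ∈ stPoly R) (h : p = s + i) : p ∈ stdSpan R := by
  rw [h]
  exact Submodule.add_mem _ (Submodule.mem_sup_left (Submodule.subset_span hs))
    (Submodule.mem_sup_right hi)

theorem gen_mem (i : Fin 6) : stGensPoly R i ∈ stPoly R := Ideal.subset_span ⟨i, rfl⟩

theorem g1_mem : pa R ^ 2 - pb R * pc R ∈ stPoly R := gen_mem 0
theorem g2_mem : px R ^ 2 - py R * pz R ∈ stPoly R := gen_mem 1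
theorem g3_mem : pa R * px R - pb R * pz R ∈ stPoly R := gen_mem 2
theorem g4_mem : pb R * px R - pa R * py R ∈ stPoly R := gen_mem 3
theorem g5_mem : pc R * px R - pa R * pz R ∈ stPoly R := gen_mem 4
theorem g6_mem : pa R * px R - pc R * py R ∈ stPoly R := gen_mem 5

theorem g7_mem : pb R * pz R - pc R * py R ∈ stPoly R := by
  have : pb R * pz R - pc R * py R =
      (pa R * px R - pc R * py R) - (pa R * px R - pb R * pz R) := by ring
  rw [this]
  exact Ideal.sub_mem _ g6_mem g3_mem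


theorem mul_mem_stdSpan (v : MvPolynomial (Fin 6) R)
    (hv : ∀ s ∈ stdSet R, v * s ∈ stdSpan R) : ∀ p ∈ stdSpan R, v * p ∈ stdSpan R := by
  intro p hp
  obtain ⟨n, hn, s, hs, rfl⟩ := Submodule.mem_sup.mp hp
  rw [mul_add]
  refine Submodule.add_mem _ ?_ (Submodule.mem_sup_right (Ideal.mul_mem_left _ _ hs))
  refine Submodule.span_induction (p := fun n _ => v * n ∈ stdSpan R) ?_ ?_ ?_ ?_ hn
  · intro s hs
    exact hv s hs
  · simp
  · intro u w _ _ hu hw
    rw [mul_add]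
    exact Submodule.add_mem _ hu hw
  · intro r u _ hu
    rw [mul_smul_comm]
    exact Submodule.smul_mem _ r hu

theorem mA0_mem (α γ β : ℕ) : mA0 R α γ β ∈ stdSet R := Or.inl ⟨α, γ, β, rfl⟩
theorem mA1_mem (α γ β : ℕ) : mA1 R α γ β ∈ stdSet R := Or.inr (Or.inl ⟨α, γ, β, rfl⟩)
theorem mB0_mem (γ β ζ : ℕ) : mB0 R γ β ζ ∈ stdSet R := Or.inr (Or.inr (Or.inl ⟨γ, β, ζ, rfl⟩))
theorem mB1_mem (γ β ζ : ℕ) : mB1 R γ β ζ ∈ stdSet R := Or.inr (Or.inr (Or.inr ⟨γ, β, ζ, rfl⟩))

theorem pb_mul_std : ∀ s ∈ stdSet R, pb R * s ∈ stdSpan R := by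
  rintro s (⟨α, γ, β, rfl⟩ | ⟨α, γ, β, rfl⟩ | ⟨γ, β, ζ, rfl⟩ | ⟨γ, β, ζ, rfl⟩)
  · exact mem_stdSpan_of_eq (mA0_mem (α + 1) γ β) (Ideal.zero_mem _) (by simp only [mA0]; ring)
  · exact mem_stdSpan_of_eq (mA1_mem (α + 1) γ β) (Ideal.zero_mem _) (by simp only [mA1]; ring)
  · cases ζ with
    | zero =>
      exact mem_stdSpan_of_eq (mA0_mem 1 γ β) (Ideal.zero_mem _) (by simp only [mA0, mB0]; ring)
    | succ ζ =>
      exact mem_stdSpan_of_eq (mB0_mem (γ + 1) (β + 1) ζ)
        (Ideal.mul_mem_left _ (pc R ^ γ * py R ^ β * pz R ^ ζ) g7_mem)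
        (by simp only [mB0]; ring)
  · cases ζ with
    | zero =>
      exact mem_stdSpan_of_eq (mA1_mem 0 γ (β + 1))
        (Ideal.mul_mem_left _ (pc R ^ γ * py R ^ β) g4_mem) (by simp only [mA1, mB1]; ring)
    | succ ζ =>
      exact mem_stdSpan_of_eq (mB1_mem (γ + 1) (β + 1) ζ)
        (Ideal.mul_mem_left _ (pc R ^ γ * py R ^ β * px R * pz R ^ ζ) g7_mem)
        (by simp only [mB1]; ring)

theorem pa_mul_std : ∀ s ∈ stdSet R, pa R * s ∈ stdSpan R := by
  rintro s (⟨α, γ, β, rfl⟩ | ⟨α, γ, β, rfl⟩ | ⟨γ, β, ζ, rfl⟩ | ⟨γ, β, ζ, rfl⟩)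
  · exact mem_stdSpan_of_eq (mA1_mem α γ β) (Ideal.zero_mem _) (by simp only [mA0, mA1]; ring)
  · exact mem_stdSpan_of_eq (mA0_mem (α + 1) (γ + 1) β)
      (Ideal.mul_mem_left _ (pb R ^ α * pc R ^ γ * py R ^ β) g1_mem)
      (by simp only [mA0, mA1]; ring)
  · cases ζ with
    | zero =>
      exact mem_stdSpan_of_eq (mA1_mem 0 γ β) (Ideal.zero_mem _) (by simp only [mA1, mB0]; ring)
    | succ ζ =>
      exact mem_stdSpan_of_eq (mB1_mem (γ + 1) β ζ)
        (Ideal.mul_mem_left _ (-(pc R ^ γ * py R ^ β * pz R ^ ζ)) g5_mem)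
        (by simp only [mB0, mB1]; ring)
  · exact mem_stdSpan_of_eq (mB0_mem (γ + 1) (β + 1) ζ)
      (Ideal.mul_mem_left _ (pc R ^ γ * py R ^ β * pz R ^ ζ) g6_mem)
      (by simp only [mB0, mB1]; ring)

theorem pc_mul_std : ∀ s ∈ stdSet R, pc R * s ∈ stdSpan R := by
  rintro s (⟨α, γ, β, rfl⟩ | ⟨α, γ, β, rfl⟩ | ⟨γ, β, ζ, rfl⟩ | ⟨γ, β, ζ, rfl⟩)
  · exact mem_stdSpan_of_eq (mA0_mem α (γ + 1) β) (Ideal.zero_mem _) (by simp only [mA0]; ring)
  · exact mem_stdSpan_of_eq (mA1_mem α (γ + 1) β) (Ideal.zero_mem _) (by simp only [mA1]; ring)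
  · exact mem_stdSpan_of_eq (mB0_mem (γ + 1) β ζ) (Ideal.zero_mem _) (by simp only [mB0]; ring)
  · exact mem_stdSpan_of_eq (mB1_mem (γ + 1) β ζ) (Ideal.zero_mem _) (by simp only [mB1]; ring)

theorem py_mul_std : ∀ s ∈ stdSet R, py R * s ∈ stdSpan R := by
  rintro s (⟨α, γ, β, rfl⟩ | ⟨α, γ, β, rfl⟩ | ⟨γ, β, ζ, rfl⟩ | ⟨γ, β, ζ, rfl⟩)
  · exact mem_stdSpan_of_eq (mA0_mem α γ (β + 1)) (Ideal.zero_mem _) (by simp only [mA0]; ring)
  · exact mem_stdSpan_of_eq (mA1_mem α γ (β + 1)) (Ideal.zero_mem _) (by simp only [mA1]; ring)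
  · exact mem_stdSpan_of_eq (mB0_mem γ (β + 1) ζ) (Ideal.zero_mem _) (by simp only [mB0]; ring)
  · exact mem_stdSpan_of_eq (mB1_mem γ (β + 1) ζ) (Ideal.zero_mem _) (by simp only [mB1]; ring)

theorem px_mul_std : ∀ s ∈ stdSet R, px R * s ∈ stdSpan R := by
  rintro s (⟨α, γ, β, rfl⟩ | ⟨α, γ, β, rfl⟩ | ⟨γ, β, ζ, rfl⟩ | ⟨γ, β, ζ, rfl⟩)
  · cases α with
    | zero =>
      exact mem_stdSpan_of_eq (mB1_mem γ β 0) (Ideal.zero_mem _) (by simp only [mA0, mB1]; ring)
    | succ α =>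
      exact mem_stdSpan_of_eq (mA1_mem α γ (β + 1))
        (Ideal.mul_mem_left _ (pb R ^ α * pc R ^ γ * py R ^ β) g4_mem)
        (by simp only [mA0, mA1]; ring)
  · cases α with
    | zero =>
      exact mem_stdSpan_of_eq (mA0_mem 0 (γ + 1) (β + 1))
        (Ideal.mul_mem_left _ (pc R ^ γ * py R ^ β) g6_mem) (by simp only [mA0, mA1]; ring)
    | succ α =>
      exact mem_stdSpan_of_eq (mA0_mem (α + 1) (γ + 1) (β + 1))
        (Ideal.add_mem _ (Ideal.mul_mem_left _ (pb R ^ α * pc R ^ γ * py R ^ (β + 1)) g1_mem)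
          (Ideal.mul_mem_left _ (pb R ^ α * pa R * pc R ^ γ * py R ^ β) g4_mem))
        (by simp only [mA0, mA1]; ring)
  · exact mem_stdSpan_of_eq (mB1_mem γ β ζ) (Ideal.zero_mem _) (by simp only [mB0, mB1]; ring)
  · exact mem_stdSpan_of_eq (mB0_mem γ (β + 1) (ζ + 1))
      (Ideal.mul_mem_left _ (pc R ^ γ * py R ^ β * pz R ^ ζ) g2_mem)
      (by simp only [mB0, mB1]; ring)

theorem pz_mul_std : ∀ s ∈ stdSet R, pz R * s ∈ stdSpan R := by
  rintro s (⟨α, γ, β, rfl⟩ | ⟨α, γ, β, rfl⟩ | ⟨γ, β, ζ, rfl⟩ | ⟨γ, β, ζ, rfl⟩)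
  · cases α with
    | zero =>
      exact mem_stdSpan_of_eq (mB0_mem γ β 1) (Ideal.zero_mem _) (by simp only [mA0, mB0]; ring)
    | succ α =>
      exact mem_stdSpan_of_eq (mA0_mem α (γ + 1) (β + 1))
        (Ideal.mul_mem_left _ (pb R ^ α * pc R ^ γ * py R ^ β) g7_mem)
        (by simp only [mA0]; ring)
  · cases α with
    | zero =>
      exact mem_stdSpan_of_eq (mB1_mem (γ + 1) β 0)
        (Ideal.mul_mem_left _ (-(pc R ^ γ * py R ^ β)) g5_mem) (by simp only [mA1, mB1]; ring)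
    | succ α =>
      exact mem_stdSpan_of_eq (mA1_mem α (γ + 1) (β + 1))
        (Ideal.mul_mem_left _ (pb R ^ α * pa R * pc R ^ γ * py R ^ β) g7_mem)
        (by simp only [mA1]; ring)
  · exact mem_stdSpan_of_eq (mB0_mem γ β (ζ + 1)) (Ideal.zero_mem _) (by simp only [mB0]; ring)
  · exact mem_stdSpan_of_eq (mB1_mem γ β (ζ + 1)) (Ideal.zero_mem _) (by simp only [mB1]; ring)

/-- the standard monomials span modulo `St₀` -/
theorem stdSpan_eq_top : stdSpan R = ⊤ := by
  rw [eq_top_iff]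
  have key : ∀ p : MvPolynomial (Fin 6) R, p ∈ stdSpan R := by
    intro p
    induction p using MvPolynomial.induction_on with
    | C r =>
      have h1 : (1 : MvPolynomial (Fin 6) R) ∈ stdSpan R :=
        mem_stdSpan_of_eq (mA0_mem 0 0 0) (Ideal.zero_mem _) (by simp [mA0])
      have : (C r : MvPolynomial (Fin 6) R) = r • (1 : MvPolynomial (Fin 6) R) := by
        rw [MvPolynomial.smul_eq_C_mul, mul_one]
      rw [this]
      exact Submodule.smul_mem _ r h1
    | add p q hp hq => exact Submodule.add_mem _ hp hq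
    | mul_X p i hp =>
      rw [mul_comm]
      fin_cases i
      · exact mul_mem_stdSpan (pa R) pa_mul_std p hp
      · exact mul_mem_stdSpan (pb R) pb_mul_std p hp
      · exact mul_mem_stdSpan (pc R) pc_mul_std p hp
      · exact mul_mem_stdSpan (px R) px_mul_std p hp
      · exact mul_mem_stdSpan (py R) py_mul_std p hp
      · exact mul_mem_stdSpan (pz R) pz_mul_std p hp
  intro p _
  exact key p


/-! ### the section -/

variable (R) in
/-- the standard monomial with image `κ^i y^j t^k` -/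
noncomputable def stdMon (i j k : ℕ) : MvPolynomial (Fin 6) R :=
  if k ≤ 2 * i then
    (if k % 2 = 0 then mA0 R (i - k / 2) (k / 2) j else mA1 R (i - (k + 1) / 2) (k / 2) j)
  else
    (if (k - 2 * i) % 2 = 0 then mB0 R i (j - (k - 2 * i) / 2) ((k - 2 * i) / 2)
     else mB1 R i (j - (k - 2 * i + 1) / 2) ((k - 2 * i) / 2))

variable (R) in
/-- the linear section of the chart on monomials -/
noncomputable def sect : MvPolynomial (Fin 3) R →ₗ[R] MvPolynomial (Fin 6) R :=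
  (MvPolynomial.basisMonomials (Fin 3) R).constr R (fun n => stdMon R (n 0) (n 1) (n 2))

theorem sect_monomial (n : Fin 3 →₀ ℕ) :
    sect R (monomial n 1) = stdMon R (n 0) (n 1) (n 2) := by
  have := (MvPolynomial.basisMonomials (Fin 3) R).constr_basis R
    (fun n => stdMon R (n 0) (n 1) (n 2)) n
  rwa [MvPolynomial.coe_basisMonomials] at this

theorem chart_mon_eq (i j k : ℕ) : qk R ^ i * qy R ^ j * qt R ^ k =
    monomial (Finsupp.single 0 i + Finsupp.single 1 j + Finsupp.single 2 k) 1 := by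
  simp [qk, qy, qt, X_pow_eq_monomial, monomial_mul]

theorem sect_chart_mon (i j k : ℕ) : sect R (qk R ^ i * qy R ^ j * qt R ^ k) = stdMon R i j k := by
  rw [chart_mon_eq, sect_monomial]
  simp [Finsupp.add_apply]

theorem sect_chart_mA0 (α γ β : ℕ) : sect R (chartPoly R (mA0 R α γ β)) = mA0 R α γ β := by
  have h1 : chartPoly R (mA0 R α γ β) = qk R ^ (α + γ) * qy R ^ β * qt R ^ (2 * γ) := by
    simp only [mA0, map_mul, map_pow, chartPoly_pb, chartPoly_pc, chartPoly_py]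
    ring
  rw [h1, sect_chart_mon, stdMon, if_pos (by omega), if_pos (by omega)]
  have e1 : α + γ - 2 * γ / 2 = α := by omega
  have e2 : 2 * γ / 2 = γ := by omega
  rw [e1, e2]

theorem sect_chart_mA1 (α γ β : ℕ) : sect R (chartPoly R (mA1 R α γ β)) = mA1 R α γ β := by
  have h1 : chartPoly R (mA1 R α γ β) =
      qk R ^ (α + 1 + γ) * qy R ^ β * qt R ^ (2 * γ + 1) := by
    simp only [mA1, map_mul, map_pow, chartPoly_pa, chartPoly_pb, chartPoly_pc, chartPoly_py]
    ring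
  rw [h1, sect_chart_mon, stdMon, if_pos (by omega), if_neg (by omega)]
  have e1 : α + 1 + γ - (2 * γ + 1 + 1) / 2 = α := by omega
  have e2 : (2 * γ + 1) / 2 = γ := by omega
  rw [e1, e2]

theorem sect_chart_mB0 (γ β ζ : ℕ) : sect R (chartPoly R (mB0 R γ β ζ)) = mB0 R γ β ζ := by
  have h1 : chartPoly R (mB0 R γ β ζ) =
      qk R ^ γ * qy R ^ (β + ζ) * qt R ^ (2 * γ + 2 * ζ) := by
    simp only [mB0, map_mul, map_pow, chartPoly_pc, chartPoly_py, chartPoly_pz]
    ring
  rw [h1, sect_chart_mon, stdMon]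
  rcases Nat.eq_zero_or_pos ζ with rfl | hζ
  · rw [if_pos (by omega), if_pos (by omega)]
    have e1 : γ - (2 * γ + 2 * 0) / 2 = 0 := by omega
    have e2 : (2 * γ + 2 * 0) / 2 = γ := by omega
    rw [e1, e2]
    simp [mA0, mB0]
  · rw [if_neg (by omega), if_pos (by omega)]
    have e1 : β + ζ - (2 * γ + 2 * ζ - 2 * γ) / 2 = β := by omega
    have e2 : (2 * γ + 2 * ζ - 2 * γ) / 2 = ζ := by omega
    rw [e1, e2]

theorem sect_chart_mB1 (γ β ζ : ℕ) : sect R (chartPoly R (mB1 R γ β ζ)) = mB1 R γ β ζ := by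
  have h1 : chartPoly R (mB1 R γ β ζ) =
      qk R ^ γ * qy R ^ (β + 1 + ζ) * qt R ^ (2 * γ + 1 + 2 * ζ) := by
    simp only [mB1, map_mul, map_pow, chartPoly_pc, chartPoly_py, chartPoly_px, chartPoly_pz]
    ring
  rw [h1, sect_chart_mon, stdMon, if_neg (by omega), if_neg (by omega)]
  have e1 : β + 1 + ζ - (2 * γ + 1 + 2 * ζ - 2 * γ + 1) / 2 = β := by omega
  have e2 : (2 * γ + 1 + 2 * ζ - 2 * γ) / 2 = ζ := by omega
  rw [e1, e2]

theorem sect_chart_of_mem_span {n : MvPolynomial (Fin 6) R}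
    (hn : n ∈ Submodule.span R (stdSet R)) : sect R (chartPoly R n) = n := by
  refine Submodule.span_induction (p := fun n _ => sect R (chartPoly R n) = n) ?_ ?_ ?_ ?_ hn
  · rintro s (⟨α, γ, β, rfl⟩ | ⟨α, γ, β, rfl⟩ | ⟨γ, β, ζ, rfl⟩ | ⟨γ, β, ζ, rfl⟩)
    · exact sect_chart_mA0 α γ β
    · exact sect_chart_mA1 α γ β
    · exact sect_chart_mB0 γ β ζ
    · exact sect_chart_mB1 γ β ζ
  · simp
  · intro u w _ _ hu hw
    rw [map_add, map_add, hu, hw]
  · intro r u _ hu
    rw [map_smul, map_smul, hu]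

/-- **the toric ideal**: over any commutative ring the kernel of the monomial chart is generated
by the six minors. -/
theorem ker_chartPoly_le (f : MvPolynomial (Fin 6) R) (hf : chartPoly R f = 0) :
    f ∈ stPoly R := by
  have hmem : f ∈ stdSpan R := by rw [stdSpan_eq_top]; trivial
  obtain ⟨n, hn, s, hs, rfl⟩ := Submodule.mem_sup.mp hmem
  have hs' : s ∈ stPoly R := hs
  have h0 : chartPoly R s = 0 := stPoly_le_ker R hs'
  have h1 : chartPoly R n = 0 := by
    rw [map_add, h0, add_zero] at hf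
    exact hf
  have h2 : n = 0 := by
    rw [← sect_chart_of_mem_span hn, h1, map_zero]
  rw [h2, zero_add]
  exact hs'

end Fermat.Agent.ML.LocSc
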