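/-
PROJECT ML (S59), block [LOC-L], scalar kind — file 2: the Steinberg block as an ideal of a power
series ring in six variables `a, b, c, x, y, z` over an arbitrary base ring `B`, with parameter `τ`:
  `stIdeal τ` = the `2 × 2` minors of `[[b, a, y, x - τ], [a, c, x, z]]`,
the chart `chart τ : B⟦a,b,c,x,y,z⟧ → B⟦κ, y, t⟧`,
  `a ↦ κ t, b ↦ κ, c ↦ κ t², x ↦ y t, y ↦ y, z ↦ y t² - τ t`,
which kills `stIdeal τ`, and
**THEOREM H** (`ker_chart_zero_le`): for `τ = 0` and `B` noetherian, the kernel of the chart IS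
`stIdeal 0` (transfer of the polynomial statement `ker_chartPoly_le` by truncation, the weight
`deg_κ + deg_y`, and Krull's intersection theorem).  helper4.
-/
import Mathlib
import Fermat.Agent.RB.TK_helper4_EvalAdic
import Fermat.Agent.RB.TK_helper4_KillVars
import Fermat.Agent.ML.LOCSC_helper4_Toric

set_option autoImplicit false

namespace Fermat.Agent.ML.LocSc

open MvPowerSeries Fermat.Agent.RB

/-- an ideal `J` of a noetherian ring is closed for the `I`-adic topology, `I` in the Jacobson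
radical -/
theorem mem_of_forall_mem_sup_pow {A : Type*} [CommRing A] [IsNoetherianRing A] (I J : Ideal A)
    (hI : I ≤ Ideal.jacobson ⊥) (x : A) (hx : ∀ N : ℕ, x ∈ J ⊔ I ^ N) : x ∈ J := by
  have hkrull := Ideal.iInf_pow_smul_eq_bot_of_le_jacobson (M := A ⧸ J) I hI
  have hmem : Ideal.Quotient.mk J x ∈ (⨅ i : ℕ, I ^ i • ⊤ : Submodule A (A ⧸ J)) := by
    rw [Submodule.mem_iInf]
    intro N
    obtain ⟨j, hj, i, hi, rfl⟩ := Submodule.mem_sup.mp (hx N)
    have h1 : Ideal.Quotient.mk J (j + i) = i • (Ideal.Quotient.mk J 1) := by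
      rw [map_add, Ideal.Quotient.eq_zero_iff_mem.mpr hj, zero_add]
      change _ = Ideal.Quotient.mk J (i • 1)
      rw [smul_eq_mul, mul_one]
    rw [h1]
    exact Submodule.smul_mem_smul hi Submodule.mem_top
  rw [hkrull, Submodule.mem_bot] at hmem
  exact Ideal.Quotient.eq_zero_iff_mem.mp hmem

variable {B : Type*} [CommRing B]

/-- the variable `a` -/
noncomputable def sa : MvPowerSeries (Fin 6) B := X 0
/-- the variable `b` -/
noncomputable def sb : MvPowerSeries (Fin 6) B := X 1
/-- the variable `c` -/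
noncomputable def sc : MvPowerSeries (Fin 6) B := X 2
/-- the variable `x` -/
noncomputable def sx : MvPowerSeries (Fin 6) B := X 3
/-- the variable `y` -/
noncomputable def sy : MvPowerSeries (Fin 6) B := X 4
/-- the variable `z` -/
noncomputable def sz : MvPowerSeries (Fin 6) B := X 5

/-- the six minors of `[[b, a, y, x - τ], [a, c, x, z]]` -/
noncomputable def stGens (τ : B) : Fin 6 → MvPowerSeries (Fin 6) B :=
  ![sa ^ 2 - sb * sc, sx ^ 2 - C τ * sx - sy * sz, sa * sx - sb * sz - C τ * sa,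
    sb * sx - sa * sy, sc * sx - sa * sz - C τ * sc, sa * sx - sc * sy]

/-- **the Steinberg block** -/
noncomputable def stIdeal (τ : B) : Ideal (MvPowerSeries (Fin 6) B) :=
  Ideal.span (Set.range (stGens τ))

/-- chart variable `κ` -/
noncomputable def tk : MvPowerSeries (Fin 3) B := X 0
/-- chart variable `y` -/
noncomputable def ty : MvPowerSeries (Fin 3) B := X 1
/-- chart variable `t` -/
noncomputable def tt : MvPowerSeries (Fin 3) B := X 2

/-- the images of the variables under the chart -/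
noncomputable def chartImg (τ : B) : Fin 6 → MvPowerSeries (Fin 3) B :=
  ![tk * tt, tk, tk * tt ^ 2, ty * tt, ty, ty * tt ^ 2 - C τ * tt]

theorem chartImg_mem (τ : B) (i : Fin 6) :
    chartImg τ i ∈ Ideal.span (Set.range (X : Fin 3 → MvPowerSeries (Fin 3) B)) := by
  have hk : (tk : MvPowerSeries (Fin 3) B) ∈
      Ideal.span (Set.range (X : Fin 3 → MvPowerSeries (Fin 3) B)) := Ideal.subset_span ⟨0, rfl⟩
  have hy : (ty : MvPowerSeries (Fin 3) B) ∈
      Ideal.span (Set.range (X : Fin 3 → MvPowerSeries (Fin 3) B)) := Ideal.subset_span ⟨1, rfl⟩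
  have ht : (tt : MvPowerSeries (Fin 3) B) ∈
      Ideal.span (Set.range (X : Fin 3 → MvPowerSeries (Fin 3) B)) := Ideal.subset_span ⟨2, rfl⟩
  fin_cases i
  · exact Ideal.mul_mem_right _ _ hk
  · exact hk
  · exact Ideal.mul_mem_right _ _ hk
  · exact Ideal.mul_mem_right _ _ hy
  · exact hy
  · exact Ideal.sub_mem _ (Ideal.mul_mem_right _ _ hy) (Ideal.mul_mem_left _ _ ht)

/-- **the chart** of the Steinberg block -/
noncomputable def chart (τ : B) : MvPowerSeries (Fin 6) B →ₐ[B] MvPowerSeries (Fin 3) B :=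
  TK.evalAdic (Ideal.span (Set.range (X : Fin 3 → MvPowerSeries (Fin 3) B))) (chartImg τ)
    (chartImg_mem τ)

@[simp] theorem chart_sa (τ : B) : chart τ sa = tk * tt := TK.evalAdic_X _ _ _ 0
@[simp] theorem chart_sb (τ : B) : chart τ sb = tk := TK.evalAdic_X _ _ _ 1
@[simp] theorem chart_sc (τ : B) : chart τ sc = tk * tt ^ 2 := TK.evalAdic_X _ _ _ 2
@[simp] theorem chart_sx (τ : B) : chart τ sx = ty * tt := TK.evalAdic_X _ _ _ 3
@[simp] theorem chart_sy (τ : B) : chart τ sy = ty := TK.evalAdic_X _ _ _ 4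
@[simp] theorem chart_sz (τ : B) : chart τ sz = ty * tt ^ 2 - C τ * tt := TK.evalAdic_X _ _ _ 5
@[simp] theorem chart_C (τ r : B) : chart τ (C r) = C r := by
  rw [chart, TK.evalAdic_C]; rfl

/-- the chart kills the Steinberg block -/
theorem stIdeal_le_ker_chart (τ : B) : stIdeal τ ≤ RingHom.ker (chart τ).toRingHom := by
  rw [stIdeal, Ideal.span_le]
  rintro _ ⟨i, rfl⟩
  rw [SetLike.mem_coe, RingHom.mem_ker]
  change chart τ (stGens τ i) = 0
  fin_cases i <;> simp [stGens] <;> ring


/-! ### the weight `deg_κ + deg_y` -/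

/-- the ideal of the series all of whose monomials have weight `deg_κ + deg_y ≥ N` -/
noncomputable def wtIdeal (B : Type*) [CommRing B] (N : ℕ) : Ideal (MvPowerSeries (Fin 3) B) where
  carrier := {g | ∀ n : Fin 3 →₀ ℕ, n 0 + n 1 < N → coeff n g = 0}
  add_mem' := by
    intro g h hg hh n hn
    rw [map_add, hg n hn, hh n hn, add_zero]
  zero_mem' := by
    intro n _
    rw [map_zero]
  smul_mem' := by
    classical
    intro h g hg n hn
    rw [smul_eq_mul, coeff_mul]
    apply Finset.sum_eq_zero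
    rintro ⟨u, v⟩ huv
    have huv' : u + v = n := Finset.HasAntidiagonal.mem_antidiagonal.mp huv
    have h0 : n 0 = u 0 + v 0 := by rw [← huv', Finsupp.add_apply]
    have h1 : n 1 = u 1 + v 1 := by rw [← huv', Finsupp.add_apply]
    have : coeff v g = 0 := hg v (by omega)
    simp [this]

theorem mem_wtIdeal {N : ℕ} {g : MvPowerSeries (Fin 3) B} :
    g ∈ wtIdeal B N ↔ ∀ n : Fin 3 →₀ ℕ, n 0 + n 1 < N → coeff n g = 0 := Iff.rfl

theorem wtIdeal_mul_le (M N : ℕ) : wtIdeal B M * wtIdeal B N ≤ wtIdeal B (M + N) := by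
  classical
  rw [Ideal.mul_le]
  intro g hg h hh n hn
  rw [coeff_mul]
  apply Finset.sum_eq_zero
  rintro ⟨u, v⟩ huv
  have huv' : u + v = n := Finset.HasAntidiagonal.mem_antidiagonal.mp huv
  have h0 : n 0 = u 0 + v 0 := by rw [← huv', Finsupp.add_apply]
  have h1 : n 1 = u 1 + v 1 := by rw [← huv', Finsupp.add_apply]
  by_cases hu : u 0 + u 1 < M
  · simp [mem_wtIdeal.mp hg u hu]
  · have : coeff v h = 0 := mem_wtIdeal.mp hh v (by omega)
    simp [this]

theorem wtIdeal_one_pow_le (N : ℕ) : wtIdeal B 1 ^ N ≤ wtIdeal B N := by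
  induction N with
  | zero =>
    intro g _ n hn
    omega
  | succ N ih =>
    rw [pow_succ]
    exact le_trans (Ideal.mul_mono_left ih) (wtIdeal_mul_le N 1)

theorem tk_mem_wtIdeal : (tk : MvPowerSeries (Fin 3) B) ∈ wtIdeal B 1 := by
  classical
  intro n hn
  rw [tk, coeff_X, if_neg]
  intro h
  rw [h] at hn
  simp at hn

theorem ty_mem_wtIdeal : (ty : MvPowerSeries (Fin 3) B) ∈ wtIdeal B 1 := by
  classical
  intro n hn
  rw [ty, coeff_X, if_neg]
  intro h
  rw [h] at hn
  simp at hn

theorem chartImg_zero_mem_wtIdeal (i : Fin 6) : chartImg (0 : B) i ∈ wtIdeal B 1 := by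
  fin_cases i
  · exact Ideal.mul_mem_right _ _ tk_mem_wtIdeal
  · exact tk_mem_wtIdeal
  · exact Ideal.mul_mem_right _ _ tk_mem_wtIdeal
  · exact Ideal.mul_mem_right _ _ ty_mem_wtIdeal
  · exact ty_mem_wtIdeal
  · simp only [chartImg, map_zero, zero_mul, sub_zero]
    exact Ideal.mul_mem_right _ _ ty_mem_wtIdeal

/-- the chart at `τ = 0` is compatible with the weight filtration -/
theorem chart_zero_mem_wtIdeal (N : ℕ) (f : MvPowerSeries (Fin 6) B)
    (hf : f ∈ Ideal.span (Set.range (X : Fin 6 → MvPowerSeries (Fin 6) B)) ^ N) :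
    chart (0 : B) f ∈ wtIdeal B N := by
  have h1 : Ideal.span (Set.range (X : Fin 6 → MvPowerSeries (Fin 6) B)) ≤
      (wtIdeal B 1).comap (chart (0 : B)).toRingHom := by
    rw [Ideal.span_le]
    rintro _ ⟨i, rfl⟩
    rw [SetLike.mem_coe, Ideal.mem_comap]
    change chart (0 : B) (X i) ∈ _
    rw [chart, TK.evalAdic_X]
    exact chartImg_zero_mem_wtIdeal i
  have h2 := Ideal.pow_right_mono h1 N hf
  have h3 := Ideal.le_comap_pow (chart (0 : B)).toRingHom N h2
  exact wtIdeal_one_pow_le N h3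

/-! ### the polynomial side -/

/-- the weight `deg_κ + deg_y` on the chart variables -/
def wtFun : Fin 3 → ℕ := ![1, 1, 0]

theorem weight_wtFun (n : Fin 3 →₀ ℕ) : Finsupp.weight wtFun n = n 0 + n 1 := by
  rw [Finsupp.weight_apply, Finsupp.sum_fintype _ _ (by simp)]
  simp [Fin.sum_univ_three, wtFun]

open MvPolynomial in
theorem chartImgPoly_isWeightedHomogeneous (i : Fin 6) :
    IsWeightedHomogeneous wtFun (chartImgPoly B i) 1 := by
  have hk : IsWeightedHomogeneous wtFun (qk B) 1 := isWeightedHomogeneous_X _ _ 0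
  have hy : IsWeightedHomogeneous wtFun (qy B) 1 := isWeightedHomogeneous_X _ _ 1
  have ht : IsWeightedHomogeneous wtFun (qt B) 0 := isWeightedHomogeneous_X _ _ 2
  fin_cases i
  · exact hk.mul ht
  · exact hk
  · exact hk.mul (ht.pow 2)
  · exact hy.mul ht
  · exact hy
  · exact hy.mul (ht.pow 2)

open MvPolynomial in
theorem chartPoly_monomial_isWeightedHomogeneous (m : Fin 6 →₀ ℕ) (r : B) :
    IsWeightedHomogeneous wtFun (chartPoly B (monomial m r)) m.degree := by
  rw [chartPoly, aeval_monomial, Finsupp.prod]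
  have h1 : IsWeightedHomogeneous wtFun
      (∏ i ∈ m.support, chartImgPoly B i ^ m i) (∑ i ∈ m.support, m i • 1) :=
    IsWeightedHomogeneous.prod _ _ _ (fun i _ => (chartImgPoly_isWeightedHomogeneous i).pow (m i))
  have h2 : (∑ i ∈ m.support, m i • 1) = m.degree := by
    rw [Finsupp.degree_apply]
    simp
  rw [h2] at h1
  have h3 := (isWeightedHomogeneous_C wtFun r).mul h1
  rwa [zero_add] at h3

open MvPolynomial in
/-- the image of a polynomial of degree `< N` has only monomials of weight `< N` -/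
theorem coeff_chartPoly_eq_zero (N : ℕ) (p : MvPolynomial (Fin 6) B)
    (hp : ∀ m ∈ p.support, m.degree < N) (n : Fin 3 →₀ ℕ) (hn : N ≤ n 0 + n 1) :
    MvPolynomial.coeff n (chartPoly B p) = 0 := by
  rw [p.as_sum, map_sum, MvPolynomial.coeff_sum]
  apply Finset.sum_eq_zero
  intro m hm
  apply (chartPoly_monomial_isWeightedHomogeneous m (MvPolynomial.coeff m p)).coeff_eq_zero
  rw [weight_wtFun]
  have := hp m hm
  omega

theorem chartImg_zero_eq (i : Fin 6) :
    chartImg (0 : B) i = ((chartImgPoly B i : MvPolynomial (Fin 3) B) : MvPowerSeries (Fin 3) B) := by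
  fin_cases i <;>
    simp [chartImg, chartImgPoly, tk, ty, tt, qk, qy, qt]

/-- on polynomials the chart at `τ = 0` is the monomial chart -/
theorem chart_zero_coe (p : MvPolynomial (Fin 6) B) :
    chart (0 : B) (p : MvPowerSeries (Fin 6) B) =
      ((chartPoly B p : MvPolynomial (Fin 3) B) : MvPowerSeries (Fin 3) B) := by
  rw [chart, TK.evalAdic_coe]
  have h : chartImg (0 : B) = (MvPolynomial.coeToMvPowerSeries.algHom B) ∘ (chartImgPoly B) := by
    funext i
    rw [chartImg_zero_eq]
    rfl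
  rw [h]
  exact (MvPolynomial.comp_aeval_apply (chartImgPoly B)
    (MvPolynomial.coeToMvPowerSeries.algHom B) p).symm


/-- a power series whose constant coefficient lies in the Jacobson radical lies in the Jacobson
radical -/
theorem mem_jacobson_of_constantCoeff_mem {σ : Type*} (f : MvPowerSeries σ B)
    (hf : constantCoeff f ∈ (⊥ : Ideal B).jacobson) :
    f ∈ (⊥ : Ideal (MvPowerSeries σ B)).jacobson := by
  rw [Ideal.mem_jacobson_bot]
  intro y
  rw [MvPowerSeries.isUnit_iff_constantCoeff, map_add, map_mul, map_one]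
  exact Ideal.mem_jacobson_bot.mp hf _

theorem span_X_le_jacobson {σ : Type*} :
    Ideal.span (Set.range (X : σ → MvPowerSeries σ B)) ≤ (⊥ : Ideal (MvPowerSeries σ B)).jacobson := by
  rw [Ideal.span_le]
  rintro _ ⟨i, rfl⟩
  apply mem_jacobson_of_constantCoeff_mem
  rw [constantCoeff_X]
  exact Ideal.zero_mem _

theorem stGens_zero_eq (i : Fin 6) :
    stGens (0 : B) i = ((stGensPoly B i : MvPolynomial (Fin 6) B) : MvPowerSeries (Fin 6) B) := by
  rw [← MvPolynomial.coeToMvPowerSeries.ringHom_apply]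
  fin_cases i <;>
    simp [stGens, stGensPoly, sa, sb, sc, sx, sy, sz, pa, pb, pc, px, py, pz, map_sub]

theorem coe_mem_stIdeal_zero {p : MvPolynomial (Fin 6) B} (hp : p ∈ stPoly B) :
    (p : MvPowerSeries (Fin 6) B) ∈ stIdeal (0 : B) := by
  have h1 : stPoly B ≤ (stIdeal (0 : B)).comap
      (MvPolynomial.coeToMvPowerSeries.ringHom (σ := Fin 6) (R := B)) := by
    rw [stPoly, Ideal.span_le]
    rintro _ ⟨i, rfl⟩
    rw [SetLike.mem_coe, Ideal.mem_comap]
    change ((stGensPoly B i : MvPolynomial (Fin 6) B) : MvPowerSeries (Fin 6) B) ∈ _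
    rw [← stGens_zero_eq]
    exact Ideal.subset_span ⟨i, rfl⟩
  exact h1 hp

/-- **THEOREM H**: over a noetherian base ring, the kernel of the chart at `τ = 0` is the
Steinberg block `stIdeal 0`. -/
theorem ker_chart_zero_le [IsNoetherianRing B] (f : MvPowerSeries (Fin 6) B)
    (hf : chart (0 : B) f = 0) : f ∈ stIdeal (0 : B) := by
  apply mem_of_forall_mem_sup_pow
    (Ideal.span (Set.range (X : Fin 6 → MvPowerSeries (Fin 6) B))) (stIdeal (0 : B))
    span_X_le_jacobson f
  intro N
  set p : MvPolynomial (Fin 6) B := truncTotal N f with hp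
  have h1 : f - (p : MvPowerSeries (Fin 6) B) ∈
      Ideal.span (Set.range (X : Fin 6 → MvPowerSeries (Fin 6) B)) ^ N := by
    apply TK.mem_pow_span_X_of_coeff_eq_zero N
    intro m hm
    rw [map_sub, MvPolynomial.coeff_coe, coeff_truncTotal _ hm, sub_self]
  have h2 : chart (0 : B) (f - (p : MvPowerSeries (Fin 6) B)) ∈ wtIdeal B N :=
    chart_zero_mem_wtIdeal N _ h1
  have h3 : chartPoly B p = 0 := by
    ext n
    rw [MvPolynomial.coeff_zero]
    by_cases hn : n 0 + n 1 < N
    · have := h2 n hn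
      rw [map_sub, hf, zero_sub, chart_zero_coe, map_neg, MvPolynomial.coeff_coe,
        neg_eq_zero] at this
      exact this
    · apply coeff_chartPoly_eq_zero N p _ n (not_lt.mp hn)
      intro m hm
      by_contra hcon
      rw [MvPolynomial.mem_support_iff, hp, coeff_truncTotal_eq_zero _ (not_lt.mp hcon)] at hm
      exact hm rfl
  have h4 : (p : MvPowerSeries (Fin 6) B) ∈ stIdeal (0 : B) :=
    coe_mem_stIdeal_zero (ker_chartPoly_le p h3)
  have h5 : f = (p : MvPowerSeries (Fin 6) B) + (f - (p : MvPowerSeries (Fin 6) B)) := by ring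
  rw [h5]
  exact Submodule.add_mem_sup h4 h1

end Fermat.Agent.ML.LocSc
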