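/-
PROJECT ML (S59), block [LOC-L], scalar kind — file 3: the Steinberg block in the `Pair` induction.

* `evalAdic_map`, `chart_map` : naturality of the chart in the base ring;
* `ker_chart_le` : for a noetherian base `B`, `l` in the Jacobson radical, `l` regular, `l ∣ τ`,
  the kernel of the chart `chart τ` is `stIdeal τ` (`l`-adic bootstrapping from THEOREM H + Krull);
* `stIdeal_isPrime` : over a noetherian DOMAIN (same hypotheses) the Steinberg block is prime;
* **`Pair.stepSt`** : `Pair J l`, `l ∈ Jac(B)`, `l ∣ τ`  ⟹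
    `Pair (J·B⟦a,b,c,x,y,z⟧ + stIdeal τ) (C l)`;
* `Pair.stepFree` : free variables.
helper4.
-/
import Mathlib
import Fermat.Agent.RB.LOC_helper4_F1b
import Fermat.Agent.ML.LOCSC_helper4_Chart

set_option autoImplicit false
set_option linter.unusedSectionVars false
set_option linter.style.haveILetI false

namespace Fermat.Agent.ML.LocSc

open MvPowerSeries Fermat.Agent.RB

section Naturality

variable {R R' : Type*} [CommRing R] [CommRing R'] (φ : R →+* R')
  {σ π : Type*} [Finite σ] [Finite π]

theorem map_mem_span_X_pow (n : ℕ) (g : MvPowerSeries π R)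
    (hg : g ∈ Ideal.span (Set.range (X : π → MvPowerSeries π R)) ^ n) :
    MvPowerSeries.map φ g ∈ Ideal.span (Set.range (X : π → MvPowerSeries π R')) ^ n := by
  have h1 : Ideal.span (Set.range (X : π → MvPowerSeries π R)) ≤
      (Ideal.span (Set.range (X : π → MvPowerSeries π R'))).comap (MvPowerSeries.map φ) := by
    rw [Ideal.span_le]
    rintro _ ⟨i, rfl⟩
    rw [SetLike.mem_coe, Ideal.mem_comap, map_X]
    exact Ideal.subset_span ⟨i, rfl⟩
  exact Ideal.le_comap_pow _ n (Ideal.pow_right_mono h1 n hg)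

theorem map_aeval_eq (a : σ → MvPowerSeries π R) (p : MvPolynomial σ R) :
    MvPowerSeries.map φ (MvPolynomial.aeval a p) =
      MvPolynomial.aeval (fun i => MvPowerSeries.map φ (a i)) (MvPolynomial.map φ p) := by
  induction p using MvPolynomial.induction_on with
  | C r =>
    rw [MvPolynomial.aeval_C, MvPolynomial.map_C, MvPolynomial.aeval_C]
    change MvPowerSeries.map φ (C r) = C (φ r)
    rw [map_C]
  | add p q hp hq => rw [map_add, map_add, hp, hq, map_add, map_add]
  | mul_X p i hp =>
    rw [map_mul, map_mul, hp, MvPolynomial.aeval_X, map_mul, map_mul, MvPolynomial.map_X,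
      MvPolynomial.aeval_X]

theorem truncTotal_map (n : ℕ) (f : MvPowerSeries σ R) :
    truncTotal n (MvPowerSeries.map φ f) = MvPolynomial.map φ (truncTotal n f) := by
  ext d
  rw [MvPolynomial.coeff_map, coeff_truncTotal_eq_ite, coeff_truncTotal_eq_ite, coeff_map]
  split_ifs
  · rfl
  · rw [map_zero]

/-- naturality of `TK.evalAdic` in the base ring -/
theorem evalAdic_map (a : σ → MvPowerSeries π R)
    (ha : ∀ i, a i ∈ Ideal.span (Set.range (X : π → MvPowerSeries π R)))
    (a' : σ → MvPowerSeries π R')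
    (ha' : ∀ i, a' i ∈ Ideal.span (Set.range (X : π → MvPowerSeries π R')))
    (haa' : ∀ i, a' i = MvPowerSeries.map φ (a i)) (f : MvPowerSeries σ R) :
    MvPowerSeries.map φ (TK.evalAdic _ a ha f) = TK.evalAdic _ a' ha' (MvPowerSeries.map φ f) := by
  apply TK.eq_of_forall_sub_mem (Ideal.span (Set.range (X : π → MvPowerSeries π R')))
  intro n
  have h1 := map_mem_span_X_pow φ n _ (TK.evalAdic_sub_mem _ a ha n f)
  have h2 := TK.evalAdic_sub_mem _ a' ha' n (MvPowerSeries.map φ f)
  rw [map_sub, map_aeval_eq] at h1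
  rw [truncTotal_map] at h2
  have h3 : (fun i => MvPowerSeries.map φ (a i)) = a' := funext fun i => (haa' i).symm
  rw [h3] at h1
  have := Ideal.sub_mem _ h1 h2
  simpa using this

end Naturality

section Chart

variable {B B' : Type*} [CommRing B] [CommRing B'] (φ : B →+* B')

theorem chartImg_map (τ : B) (i : Fin 6) :
    chartImg (φ τ) i = MvPowerSeries.map φ (chartImg τ i) := by
  fin_cases i <;> simp [chartImg, tk, ty, tt, map_X, map_C]

/-- naturality of the chart -/
theorem chart_map (τ : B) (f : MvPowerSeries (Fin 6) B) :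
    MvPowerSeries.map φ (chart τ f) = chart (φ τ) (MvPowerSeries.map φ f) :=
  evalAdic_map φ (chartImg τ) (chartImg_mem τ) (chartImg (φ τ)) (chartImg_mem (φ τ))
    (chartImg_map φ τ) f

theorem stGens_map (τ : B) (i : Fin 6) :
    MvPowerSeries.map φ (stGens τ i) = stGens (φ τ) i := by
  fin_cases i <;> simp [stGens, sa, sb, sc, sx, sy, sz, map_X, map_C]

theorem stIdeal_map (τ : B) :
    (stIdeal τ).map (MvPowerSeries.map (σ := Fin 6) φ) = stIdeal (φ τ) := by
  rw [stIdeal, Ideal.map_span, stIdeal]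
  congr 1
  ext g
  constructor
  · rintro ⟨_, ⟨i, rfl⟩, rfl⟩
    exact ⟨i, (stGens_map φ τ i).symm⟩
  · rintro ⟨i, rfl⟩
    exact ⟨_, ⟨i, rfl⟩, stGens_map φ τ i⟩

end Chart


section Boot

variable {B : Type*} [CommRing B]

/-- `C l` is regular on power series if `l` is regular -/
theorem eq_zero_of_C_mul_eq_zero {σ : Type*} (l : B) (hreg : ∀ x : B, l * x = 0 → x = 0)
    (g : MvPowerSeries σ B) (h : C l * g = 0) : g = 0 := by
  ext d
  have := congrArg (coeff d) h
  rw [coeff_C_mul, map_zero] at this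
  rw [map_zero]
  exact hreg _ this

/-- **the kernel of the chart is the Steinberg block** (`l`-adic bootstrapping from THEOREM H). -/
theorem ker_chart_le [IsNoetherianRing B] (l τ : B) (hjac : l ∈ (⊥ : Ideal B).jacobson)
    (hreg : ∀ x : B, l * x = 0 → x = 0) (hτ : l ∣ τ)
    (f : MvPowerSeries (Fin 6) B) (hf : chart τ f = 0) : f ∈ stIdeal τ := by
  set K : Ideal B := Ideal.span {l} with hK
  let ρ : MvPowerSeries (Fin 6) B →+* MvPowerSeries (Fin 6) (B ⧸ K) :=
    MvPowerSeries.map (Ideal.Quotient.mk K)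
  have hτ0 : Ideal.Quotient.mk K τ = 0 :=
    Ideal.Quotient.eq_zero_iff_mem.mpr (Ideal.mem_span_singleton.mpr hτ)
  have hkerρ : RingHom.ker ρ = Ideal.span {(C l : MvPowerSeries (Fin 6) B)} :=
    TK.ker_map_mk_span_singleton l
  have step : ∀ g : MvPowerSeries (Fin 6) B, chart τ g = 0 →
      ∃ s ∈ stIdeal τ, ∃ h : MvPowerSeries (Fin 6) B, g = s + C l * h := by
    intro g hg
    have h1 : chart (0 : B ⧸ K) (ρ g) = 0 := by
      have := chart_map (Ideal.Quotient.mk K) τ g
      rw [hg, map_zero, hτ0] at this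
      exact this.symm
    have h2 : ρ g ∈ stIdeal (0 : B ⧸ K) := ker_chart_zero_le _ h1
    rw [← hτ0, ← stIdeal_map] at h2
    have h3 : g ∈ ((stIdeal τ).map ρ).comap ρ := h2
    rw [Ideal.comap_map_of_surjective' ρ (TK.map_mk_surjective K), hkerρ] at h3
    obtain ⟨s, hs, z, hz, rfl⟩ := Submodule.mem_sup.mp h3
    obtain ⟨h, rfl⟩ := Ideal.mem_span_singleton'.mp hz
    exact ⟨s, hs, h, by ring⟩
  have key : ∀ n : ℕ, ∀ g : MvPowerSeries (Fin 6) B, chart τ g = 0 →
      g ∈ stIdeal τ ⊔ Ideal.span {(C l : MvPowerSeries (Fin 6) B)} ^ n := by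
    intro n
    induction n with
    | zero =>
      intro g _
      rw [pow_zero, Ideal.one_eq_top, sup_top_eq]
      trivial
    | succ n ih =>
      intro g hg
      obtain ⟨s, hs, h, rfl⟩ := step g hg
      have hh : chart τ h = 0 := by
        have h0 : chart τ s = 0 := stIdeal_le_ker_chart τ hs
        rw [map_add, h0, zero_add, map_mul, chart_C] at hg
        exact eq_zero_of_C_mul_eq_zero l hreg _ hg
      obtain ⟨s', hs', z, hz, hsum⟩ := Submodule.mem_sup.mp (ih h hh)
      rw [← hsum, mul_add, ← add_assoc]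
      refine Submodule.add_mem_sup (Ideal.add_mem _ hs (Ideal.mul_mem_left _ _ hs')) ?_
      rw [pow_succ']
      exact Ideal.mul_mem_mul (Ideal.subset_span rfl) hz
  refine mem_of_forall_mem_sup_pow (Ideal.span {(C l : MvPowerSeries (Fin 6) B)}) (stIdeal τ)
    ?_ f (fun N => key N f hf)
  rw [Ideal.span_singleton_le_iff_mem]
  apply mem_jacobson_of_constantCoeff_mem
  rw [constantCoeff_C]
  exact hjac

/-- over a noetherian domain the Steinberg block is a prime ideal -/
theorem stIdeal_isPrime [IsNoetherianRing B] [IsDomain B] (l τ : B)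
    (hjac : l ∈ (⊥ : Ideal B).jacobson) (hl : l ≠ 0) (hτ : l ∣ τ) : (stIdeal τ).IsPrime := by
  have hreg : ∀ x : B, l * x = 0 → x = 0 := fun x hx => (mul_eq_zero.mp hx).resolve_left hl
  have : stIdeal τ = RingHom.ker (chart τ).toRingHom :=
    le_antisymm (stIdeal_le_ker_chart τ) (fun f hf => ker_chart_le l τ hjac hreg hτ f hf)
  rw [this]
  haveI : IsDomain (MvPowerSeries (Fin 3) B) := NoZeroDivisors.to_isDomain _
  exact RingHom.ker_isPrime _

/-- the special fibre: `stIdeal 0` is prime over a noetherian domain -/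
theorem stIdeal_zero_isPrime [IsNoetherianRing B] [IsDomain B] : (stIdeal (0 : B)).IsPrime := by
  have : stIdeal (0 : B) = RingHom.ker (chart (0 : B)).toRingHom :=
    le_antisymm (stIdeal_le_ker_chart 0) (fun f hf => ker_chart_zero_le f hf)
  rw [this]
  haveI : IsDomain (MvPowerSeries (Fin 3) B) := NoZeroDivisors.to_isDomain _
  exact RingHom.ker_isPrime _

end Boot


section PairStep

open Fermat.Agent.RB.LOC

variable {B : Type*} [CommRing B] [IsNoetherianRing B]

theorem mk_mem_jacobson_bot {J : Ideal B} {l : B} (hjac : l ∈ (⊥ : Ideal B).jacobson) :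
    Ideal.Quotient.mk J l ∈ (⊥ : Ideal (B ⧸ J)).jacobson := by
  rw [Ideal.mem_jacobson_bot] at hjac ⊢
  intro y
  obtain ⟨y, rfl⟩ := Ideal.Quotient.mk_surjective y
  rw [← map_mul, ← map_one (Ideal.Quotient.mk J), ← map_add]
  exact (hjac y).map _

/-- **the Steinberg step of the `Pair` induction.** -/
theorem Pair.stepSt {J : Ideal B} {l : B} (h : Pair J l) (hjac : l ∈ (⊥ : Ideal B).jacobson)
    (τ : B) (hτ : l ∣ τ) :
    Pair (J.map (C (σ := Fin 6) (R := B)) ⊔ stIdeal τ) (C l) := by
  constructor
  · -- `C l` is regular modulo the new ideal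
    intro f hf
    let ρ : MvPowerSeries (Fin 6) B →+* MvPowerSeries (Fin 6) (B ⧸ J) :=
      MvPowerSeries.map (Ideal.Quotient.mk J)
    have hkerρ : RingHom.ker ρ = J.map (C (σ := Fin 6) (R := B)) :=
      TK.ker_map_mk_eq_map_C J (IsNoetherian.noetherian J)
    have hρst : (stIdeal τ).map ρ = stIdeal (Ideal.Quotient.mk J τ) := stIdeal_map _ τ
    have hreg : ∀ x : B ⧸ J, Ideal.Quotient.mk J l * x = 0 → x = 0 := by
      intro x hx
      obtain ⟨x, rfl⟩ := Ideal.Quotient.mk_surjective x
      rw [← map_mul, Ideal.Quotient.eq_zero_iff_mem] at hx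
      exact Ideal.Quotient.eq_zero_iff_mem.mpr (h.reg x hx)
    have h1 : ρ (C l * f) ∈ stIdeal (Ideal.Quotient.mk J τ) := by
      rw [← hρst]
      obtain ⟨j, hj, s, hs, hsum⟩ := Submodule.mem_sup.mp hf
      rw [← hsum, map_add]
      have : ρ j = 0 := by rw [← RingHom.mem_ker, hkerρ]; exact hj
      rw [this, zero_add]
      exact Ideal.mem_map_of_mem _ hs
    have h2 : chart (Ideal.Quotient.mk J τ) (ρ f) = 0 := by
      have h3 := stIdeal_le_ker_chart _ h1
      rw [RingHom.mem_ker] at h3
      change chart (Ideal.Quotient.mk J τ) (ρ (C l * f)) = 0 at h3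
      rw [map_mul] at h3
      change chart (Ideal.Quotient.mk J τ) (MvPowerSeries.map (Ideal.Quotient.mk J) (C l) * ρ f) = 0
        at h3
      rw [map_C, map_mul, chart_C] at h3
      exact eq_zero_of_C_mul_eq_zero _ hreg _ h3
    have h4 : ρ f ∈ stIdeal (Ideal.Quotient.mk J τ) :=
      ker_chart_le (Ideal.Quotient.mk J l) _ (mk_mem_jacobson_bot hjac) hreg
        (map_dvd (Ideal.Quotient.mk J) hτ) _ h2
    rw [← hρst] at h4
    have h5 : f ∈ ((stIdeal τ).map ρ).comap ρ := h4
    rw [Ideal.comap_map_of_surjective' ρ (TK.map_mk_surjective J), hkerρ, sup_comm] at h5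
    exact h5
  · -- the new special fibre is prime
    set I : Ideal B := J ⊔ Ideal.span {l} with hI
    have hIprime : I.IsPrime := h.prime
    haveI : IsDomain (B ⧸ I) := Ideal.Quotient.isDomain I
    let ρ : MvPowerSeries (Fin 6) B →+* MvPowerSeries (Fin 6) (B ⧸ I) :=
      MvPowerSeries.map (Ideal.Quotient.mk I)
    have hρsurj : Function.Surjective ρ := TK.map_mk_surjective I
    have hkerρ : RingHom.ker ρ = J.map C ⊔ Ideal.span {C l} := by
      rw [TK.ker_map_mk_eq_map_C I (IsNoetherian.noetherian I), hI, Ideal.map_sup, Ideal.map_span,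
        Set.image_singleton]
    have hτ0 : Ideal.Quotient.mk I τ = 0 := by
      rw [Ideal.Quotient.eq_zero_iff_mem]
      exact Ideal.mem_sup_right (Ideal.mem_span_singleton.mpr hτ)
    have hρst : (stIdeal τ).map ρ = stIdeal (0 : B ⧸ I) := by
      rw [← hτ0]
      exact stIdeal_map _ τ
    have key : J.map (C (σ := Fin 6) (R := B)) ⊔ stIdeal τ ⊔ Ideal.span {C l} =
        (stIdeal (0 : B ⧸ I)).comap ρ := by
      rw [← hρst, Ideal.comap_map_of_surjective' ρ hρsurj, hkerρ]
      apply le_antisymm
      · refine sup_le (sup_le ?_ ?_) ?_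
        · exact le_sup_of_le_right le_sup_left
        · exact le_sup_left
        · exact le_sup_of_le_right le_sup_right
      · refine sup_le ?_ (sup_le ?_ ?_)
        · exact le_sup_of_le_left le_sup_right
        · exact le_sup_of_le_left le_sup_left
        · exact le_sup_right
    rw [key]
    haveI := stIdeal_zero_isPrime (B := B ⧸ I)
    exact Ideal.comap_isPrime _ _

/-- the free step of the `Pair` induction: adjoining power series variables -/
theorem Pair.stepFree {J : Ideal B} {l : B} (h : Pair J l) (σ : Type*) [Finite σ] :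
    Pair (J.map (C (σ := σ) (R := B))) (C l) := by
  constructor
  · intro f hf
    rw [← TK.ker_map_mk_eq_map_C J (IsNoetherian.noetherian J), TK.mem_ker_map_mk_iff] at hf ⊢
    intro d
    have := hf d
    rw [coeff_C_mul] at this
    exact h.reg _ this
  · set I : Ideal B := J ⊔ Ideal.span {l} with hI
    have hIprime : I.IsPrime := h.prime
    haveI : IsDomain (B ⧸ I) := Ideal.Quotient.isDomain I
    haveI : IsDomain (MvPowerSeries σ (B ⧸ I)) := NoZeroDivisors.to_isDomain _
    have hker : RingHom.ker (MvPowerSeries.map (σ := σ) (Ideal.Quotient.mk I)) =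
        J.map C ⊔ Ideal.span {C l} := by
      rw [TK.ker_map_mk_eq_map_C I (IsNoetherian.noetherian I), hI, Ideal.map_sup, Ideal.map_span,
        Set.image_singleton]
    rw [← hker]
    exact RingHom.ker_isPrime _

end PairStep

end Fermat.Agent.ML.LocSc
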