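/-
PROJECT ML (S59), block [LOC-L], scalar kind — file 4: `Pair`-stability of the three ideals of the
scalar kind in the six variables `a, b, c, x, y, z`:
  `unrIdeal = (a, b, c)`,   `stIdeal τ`,   `unrIdeal + (thElt τ)`,  `thElt τ = x² - τ x - y z`.

* `Pair.comap_of_surjective` : transport of `Pair` along a surjection;
* `span_sq_sub_mul_isPrime`  : `x² - y z` generates a prime ideal of `D⟦x, y, z⟧`, `D` a domain;
* `Pair.stepQuad`            : adjoining an element which is `x² - y z` modulo `J + (l)`;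
* `Pair.stepUnr`, `Pair.stepUnrTh` (and `Pair.stepSt` from file 3).
helper4.
-/
import Mathlib
import Fermat.Agent.ML.LOCSC_helper4_Step

set_option autoImplicit false
set_option linter.unusedSectionVars false
set_option linter.style.haveILetI false

namespace Fermat.Agent.ML.LocSc

open MvPowerSeries Fermat.Agent.RB Fermat.Agent.RB.LOC

/-- transport of the invariant `Pair` along a surjective ring homomorphism -/
theorem Pair.comap_of_surjective {A A' : Type*} [CommRing A] [CommRing A'] (π : A →+* A')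
    (hπ : Function.Surjective π) {J' : Ideal A'} {l' : A'} (h : Pair J' l') (l : A)
    (hl : π l = l') : Pair (J'.comap π) l := by
  constructor
  · intro x hx
    rw [Ideal.mem_comap, map_mul, hl] at hx
    exact h.reg _ hx
  · have key : J'.comap π ⊔ Ideal.span {l} = (J' ⊔ Ideal.span {l'}).comap π := by
      apply le_antisymm
      · refine sup_le (Ideal.comap_mono le_sup_left) ?_
        rw [Ideal.span_singleton_le_iff_mem, Ideal.mem_comap, hl]
        exact Ideal.mem_sup_right (Ideal.subset_span rfl)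
      · intro x hx
        rw [Ideal.mem_comap] at hx
        obtain ⟨j, hj, z, hz, hsum⟩ := Submodule.mem_sup.mp hx
        obtain ⟨c', rfl⟩ := Ideal.mem_span_singleton'.mp hz
        obtain ⟨c, rfl⟩ := hπ c'
        have h1 : x - c * l ∈ J'.comap π := by
          rw [Ideal.mem_comap, map_sub, map_mul, hl, ← hsum]
          simpa using hj
        have h2 : x = (x - c * l) + c * l := by ring
        rw [h2]
        exact Submodule.add_mem_sup h1 (Ideal.mul_mem_left _ _ (Ideal.subset_span rfl))
    rw [key]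
    haveI := h.prime
    exact Ideal.comap_isPrime _ _

section Quadric

variable {D : Type*} [CommRing D] [IsDomain D]

/-- `b c` is not a square in the fraction field of `D⟦b, c⟧`. -/
theorem eq_zero_of_sq_sub_X_mul_X_mul_sq (x y : MvPowerSeries (Fin 2) D)
    (h : x ^ 2 + -(X 0 * X 1) * y ^ 2 = 0) : y = 0 := by
  classical
  have := isDomain_mvPowerSeries (D := D) (Fin 2)
  refine eq_zero_of_sq_add_mul_sq (X 0) (-(X 1)) (X_prime_of_isDomain 0) ?_ ?_ x y
    (by rw [← h]; ring)
  · intro hdvd
    rw [dvd_neg, X_dvd_iff] at hdvd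
    have := hdvd (Finsupp.single 1 1) (by simp)
    rw [coeff_X, if_pos rfl] at this
    exact one_ne_zero this
  · intro z hz
    ext m
    have := (X_pow_dvd_iff.mp (hz (m 0 + 1))) m (Nat.lt_succ_self _)
    rw [this, map_zero]

/-- `x² - y z` generates a prime ideal of `D⟦x, y, z⟧`, `D` a domain. -/
theorem span_sq_sub_mul_isPrime :
    (Ideal.span {(X 0 ^ 2 - X 1 * X 2 : MvPowerSeries (Fin 3) D)}).IsPrime := by
  have := isDomain_mvPowerSeries (D := D) (Fin 2)
  let Θ := MvPowerSeries.finSuccEquiv D 2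
  have h1 : (1 : Fin 3) = Fin.succ (0 : Fin 2) := rfl
  have h2 : (2 : Fin 3) = Fin.succ (1 : Fin 2) := rfl
  have hΘ : Θ (X 0 ^ 2 - X 1 * X 2 : MvPowerSeries (Fin 3) D) =
      PowerSeries.X ^ 2 + PowerSeries.C (-(X 0 * X 1)) := by
    simp only [map_sub, map_pow, map_mul, map_neg, Θ]
    rw [h1, h2, finSuccEquiv_X_zero, finSuccEquiv_X_succ, finSuccEquiv_X_succ]
    ring
  have hprime := span_X_sq_add_C_isPrime
    (Ideal.span (Set.range (X : Fin 2 → MvPowerSeries (Fin 2) D)))
    (-(X 0 * X 1)) (neg_mem (Ideal.mul_mem_right _ _ (Ideal.subset_span ⟨0, rfl⟩)))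
    eq_zero_of_sq_sub_X_mul_X_mul_sq
  have hcomap : Ideal.span {(X 0 ^ 2 - X 1 * X 2 : MvPowerSeries (Fin 3) D)} =
      (Ideal.span {(PowerSeries.X ^ 2 + PowerSeries.C (-(X 0 * X 1)) :
        PowerSeries (MvPowerSeries (Fin 2) D))}).comap Θ.toRingEquiv := by
    ext y
    rw [Ideal.mem_comap, Ideal.mem_span_singleton, Ideal.mem_span_singleton, ← hΘ]
    constructor
    · intro h
      exact map_dvd Θ.toRingEquiv h
    · intro h
      have := map_dvd Θ.toRingEquiv.symm h
      simpa using this
  rw [hcomap]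
  exact Ideal.comap_isPrime _ _

end Quadric

section Steps

variable {B : Type*} [CommRing B] [IsNoetherianRing B]

/-- adjoining an element whose special fibre is the quadric `x² - y z` -/
theorem Pair.stepQuad {J : Ideal B} {l : B} (h : Pair J l) (Q : MvPowerSeries (Fin 3) B)
    (hQ : MvPowerSeries.map (Ideal.Quotient.mk (J ⊔ Ideal.span {l})) Q = X 0 ^ 2 - X 1 * X 2) :
    Pair (J.map (C (σ := Fin 3) (R := B)) ⊔ Ideal.span {Q}) (C l) := by
  classical
  set I : Ideal B := J ⊔ Ideal.span {l} with hI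
  have hIprime : I.IsPrime := h.prime
  have hD : IsDomain (B ⧸ I) := Ideal.Quotient.isDomain I
  have hDD := isDomain_mvPowerSeries (D := B ⧸ I) (Fin 3)
  let ρ : MvPowerSeries (Fin 3) B →+* MvPowerSeries (Fin 3) (B ⧸ I) :=
    MvPowerSeries.map (Ideal.Quotient.mk I)
  have hρsurj : Function.Surjective ρ := TK.map_mk_surjective I
  have hkerρ : RingHom.ker ρ = J.map C ⊔ Ideal.span {C l} := by
    rw [TK.ker_map_mk_eq_map_C I (IsNoetherian.noetherian I), hI, Ideal.map_sup, Ideal.map_span,
      Set.image_singleton]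
  have hρQ : ρ Q = X 0 ^ 2 - X 1 * X 2 := hQ
  have hρl : ρ (C l) = 0 := by
    rw [← RingHom.mem_ker, hkerρ]
    exact Ideal.mem_sup_right (Ideal.subset_span rfl)
  have hqne : (X 0 ^ 2 - X 1 * X 2 : MvPowerSeries (Fin 3) (B ⧸ I)) ≠ 0 := by
    intro h0
    have := congrArg (coeff (Finsupp.single (0 : Fin 3) 2)) h0
    rw [map_sub, map_zero, X_pow_eq, coeff_monomial_same, X, X, monomial_mul_monomial,
      coeff_monomial, if_neg, sub_zero] at this
    · exact one_ne_zero this
    · intro heq
      have := congrArg (fun m => m 1) heq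
      simp at this
  constructor
  · intro f hf
    obtain ⟨j, hj, z, hz, hsum⟩ := Submodule.mem_sup.mp hf
    obtain ⟨hh, rfl⟩ := Ideal.mem_span_singleton'.mp hz
    have hρj : ρ j = 0 := by
      rw [← RingHom.mem_ker, hkerρ]
      exact Ideal.mem_sup_left hj
    have h0 : ρ hh * (X 0 ^ 2 - X 1 * X 2 : MvPowerSeries (Fin 3) (B ⧸ I)) = 0 := by
      have := congrArg ρ hsum
      rw [map_add, map_mul, map_mul, hρj, hρQ, hρl, zero_add, zero_mul] at this
      exact this
    have hρh : ρ hh = 0 := (mul_eq_zero.mp h0).resolve_right hqne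
    rw [← RingHom.mem_ker, hkerρ] at hρh
    obtain ⟨j', hj', z', hz', hsum'⟩ := Submodule.mem_sup.mp hρh
    obtain ⟨h', rfl⟩ := Ideal.mem_span_singleton'.mp hz'
    have hmem : C l * (f - h' * Q) ∈ J.map (C (σ := Fin 3) (R := B)) := by
      have : C l * (f - h' * Q) = j + j' * Q := by
        rw [← hsum'] at hsum
        linear_combination -hsum
      rw [this]
      exact Ideal.add_mem _ hj (Ideal.mul_mem_right _ _ hj')
    have hcoef : f - h' * Q ∈ J.map (C (σ := Fin 3) (R := B)) := by
      rw [← TK.ker_map_mk_eq_map_C J (IsNoetherian.noetherian J), TK.mem_ker_map_mk_iff] at hmem ⊢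
      intro d
      have := hmem d
      rw [coeff_C_mul] at this
      exact h.reg _ this
    have hf' : f = (f - h' * Q) + h' * Q := by ring
    rw [hf']
    exact Ideal.add_mem _ (Ideal.mem_sup_left hcoef)
      (Ideal.mem_sup_right (Ideal.mul_mem_left _ _ (Ideal.subset_span rfl)))
  · have hSF := span_sq_sub_mul_isPrime (D := B ⧸ I)
    have key : J.map (C (σ := Fin 3) (R := B)) ⊔ Ideal.span {Q} ⊔ Ideal.span {C l} =
        (Ideal.span {(X 0 ^ 2 - X 1 * X 2 : MvPowerSeries (Fin 3) (B ⧸ I))}).comap ρ := by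
      have hspan : Ideal.span {ρ Q} = (Ideal.span {Q}).map ρ := by
        rw [Ideal.map_span, Set.image_singleton]
      rw [← hρQ, hspan, Ideal.comap_map_of_surjective' ρ hρsurj, hkerρ]
      apply le_antisymm
      · refine sup_le (sup_le ?_ ?_) ?_
        · exact le_sup_of_le_right le_sup_left
        · exact le_sup_left
        · exact le_sup_of_le_right le_sup_right
      · refine sup_le ?_ (sup_le ?_ ?_)
        · exact le_sup_of_le_left le_sup_right
        · exact le_sup_of_le_left le_sup_left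
        · exact le_sup_right
    rw [key]
    exact Ideal.comap_isPrime _ _

end Steps

/-! ### the three ideals of the scalar kind in six variables -/

section Kind

variable {B : Type*} [CommRing B]

/-- the unramified ideal `(a, b, c)` -/
noncomputable def unrIdeal (B : Type*) [CommRing B] : Ideal (MvPowerSeries (Fin 6) B) :=
  Ideal.span {sa, sb, sc}

/-- the level raising element `x² - τ x - y z` -/
noncomputable def thElt (τ : B) : MvPowerSeries (Fin 6) B := sx ^ 2 - C τ * sx - sy * sz

/-- the embedding of the variables `x, y, z` -/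
def embXYZ : Fin 3 ↪ Fin 6 where
  toFun := ![3, 4, 5]
  inj' := by decide

theorem range_embXYZ_compl : (Set.range embXYZ)ᶜ = {(0 : Fin 6), 1, 2} := by
  ext t
  simp only [Set.mem_compl_iff, Set.mem_range, Set.mem_insert_iff, Set.mem_singleton_iff]
  have h : (∃ i : Fin 3, embXYZ i = t) ↔ (t = 3 ∨ t = 4 ∨ t = 5) := by
    constructor
    · rintro ⟨i, rfl⟩
      fin_cases i <;> simp [embXYZ]
    · rintro (rfl | rfl | rfl)
      · exact ⟨0, rfl⟩
      · exact ⟨1, rfl⟩
      · exact ⟨2, rfl⟩
  rw [h]
  fin_cases t <;> simp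

/-- "set `a = b = c = 0`" -/
noncomputable def killABC (B : Type*) [CommRing B] :
    MvPowerSeries (Fin 6) B →+* MvPowerSeries (Fin 3) B :=
  (killCompl (R := B) embXYZ).toRingHom

theorem killABC_surjective : Function.Surjective (killABC B) := TK.killCompl_surjective embXYZ

theorem ker_killABC : RingHom.ker (killABC B) = unrIdeal B := by
  have h := TK.ker_killCompl (R := B) embXYZ
  rw [range_embXYZ_compl] at h
  change RingHom.ker (killCompl (R := B) embXYZ) = _
  rw [h, unrIdeal]
  congr 1
  ext f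
  simp only [Set.mem_image, Set.mem_insert_iff, Set.mem_singleton_iff, sa, sb, sc]
  constructor
  · rintro ⟨t, (rfl | rfl | rfl), rfl⟩ <;> simp
  · rintro (rfl | rfl | rfl)
    · exact ⟨0, Or.inl rfl, rfl⟩
    · exact ⟨1, Or.inr (Or.inl rfl), rfl⟩
    · exact ⟨2, Or.inr (Or.inr rfl), rfl⟩

@[simp] theorem killABC_C (r : B) : killABC B (C r) = C r := killCompl_C (e := embXYZ) r
@[simp] theorem killABC_sx : killABC B sx = X 0 := killCompl_X (e := embXYZ) 0
@[simp] theorem killABC_sy : killABC B sy = X 1 := killCompl_X (e := embXYZ) 1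
@[simp] theorem killABC_sz : killABC B sz = X 2 := killCompl_X (e := embXYZ) 2

theorem comap_killABC_map_C (J : Ideal B) (K : Ideal (MvPowerSeries (Fin 6) B)) :
    (J.map (C (σ := Fin 3) (R := B)) ⊔ K.map (killABC B)).comap (killABC B) =
      J.map (C (σ := Fin 6) (R := B)) ⊔ K ⊔ unrIdeal B := by
  have h1 : J.map (C (σ := Fin 3) (R := B)) = (J.map (C (σ := Fin 6) (R := B))).map (killABC B) := by
    rw [Ideal.map_map]
    congr 1
    ext r
    simp
  rw [h1, ← Ideal.map_sup, Ideal.comap_map_of_surjective' _ killABC_surjective, ker_killABC]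

variable [IsNoetherianRing B]

/-- `Pair`-stability of the unramified ideal of the scalar kind -/
theorem Pair.stepUnr {J : Ideal B} {l : B} (h : Pair J l) :
    Pair (J.map (C (σ := Fin 6) (R := B)) ⊔ unrIdeal B) (C l) := by
  have h1 := Pair.comap_of_surjective (killABC B) killABC_surjective (Pair.stepFree h (Fin 3)) (C l)
    (killABC_C l)
  have h2 := comap_killABC_map_C J (⊥ : Ideal (MvPowerSeries (Fin 6) B))
  rw [Ideal.map_bot, sup_bot_eq, sup_bot_eq] at h2
  rwa [h2] at h1

/-- `Pair`-stability of the ideal `(a, b, c) + (x² - τ x - y z)` of the scalar kind -/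
theorem Pair.stepUnrTh {J : Ideal B} {l : B} (h : Pair J l) (τ : B) (hτ : l ∣ τ) :
    Pair (J.map (C (σ := Fin 6) (R := B)) ⊔ Ideal.span {thElt τ} ⊔ unrIdeal B) (C l) := by
  have hQ : MvPowerSeries.map (Ideal.Quotient.mk (J ⊔ Ideal.span {l}))
      (X 0 ^ 2 - C τ * X 0 - X 1 * X 2 : MvPowerSeries (Fin 3) B) = X 0 ^ 2 - X 1 * X 2 := by
    have hτ0 : Ideal.Quotient.mk (J ⊔ Ideal.span {l}) τ = 0 := by
      rw [Ideal.Quotient.eq_zero_iff_mem]
      exact Ideal.mem_sup_right (Ideal.mem_span_singleton.mpr hτ)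
    simp [map_X, map_C, hτ0]
  have h1 := Pair.comap_of_surjective (killABC B) killABC_surjective
    (Pair.stepQuad h (X 0 ^ 2 - C τ * X 0 - X 1 * X 2) hQ) (C l) (killABC_C l)
  have h3 : (Ideal.span {thElt τ}).map (killABC B) =
      Ideal.span {(X 0 ^ 2 - C τ * X 0 - X 1 * X 2 : MvPowerSeries (Fin 3) B)} := by
    rw [Ideal.map_span, Set.image_singleton]
    congr 2
    simp [thElt]
  have h2 := comap_killABC_map_C J (Ideal.span {thElt τ})
  rw [h3] at h2
  rwa [h2] at h1

end Kind

end Fermat.Agent.ML.LocSc
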