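/-
PROJECT ML (S59) — [LOC-L], helper4: the scalar kind, file 6: **the ideals `rel` and `new`**
of a scalar chain prime in the variables `(a, b, c, x, y, z)`, and the STEP lemmas.

Constants (`ScConst B`): `v` (the prime `q` as an element of the base ring), `sgn` (`sgn² = 1`),
`half = 1/2`; `τ = sgn (v - 1)`, `θ₀ = sgn (1 + v)/2`.
Matrices: `N = [[-a, b], [-c, a]]` (`= ρ(σ_t) - 1`), `M' = [[τ - x, y], [-z, x]]`,
`Φ = (θ - τ/2) + M'` (`= ρ(φ)`), where `θ` is the square root of `θ₀² + g₂`,
`g₂ = x² - τ x - y z`, with constant coefficient `θ₀` (so `det Φ = v`, `tr Φ = 2 θ`); `δ = θ - θ₀`,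
`δ (δ + 2 θ₀) = g₂`.  `N M' = [[g₃, g₄], [g₅, g₆]]`, `M' N - τ N = [[g₆, -g₄], [-g₅, g₃]]`,
`Φ N - v N Φ = (1 - v) δ N + (M' N - τ N) - v N M'`.

* `relIdeal c = (g₁, entries of Φ N - v N Φ)`  (`g₁ = a² - b c`: `N² = 0`);
* `newIdeal c = relIdeal c + (g₂)`  (`tr Φ² = (1 + v)²`);
* `relIdeal c ≤ newIdeal c ≤ stIdeal τ`, `relIdeal c ≤ unrIdeal`;
* **`stIdeal_le_of_newIdeal_le`**: a prime containing `new` contains `st`;
* **`stIdeal_le_of_relIdeal_le`**: a prime containing `rel` and not containing one of `a, b, c`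
  contains `st` (both without any hypothesis on the characteristic);
* naturality in the base ring (`theta_map`, `relIdeal_map`, `newIdeal_map`).
-/
import Mathlib
import Fermat.Agent.ML.LOCSC_helper4_Kind
import Fermat.Agent.RB.LOC_helper4_Theta

set_option autoImplicit false

namespace Fermat.Agent.ML.LocSc

open MvPowerSeries Fermat.Agent.RB

/-- the constants of a scalar chain prime: `v` (the prime as an element of the base ring), the sign
`sgn` of the target component, `half = 1/2`. -/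
structure ScConst (B : Type*) [CommRing B] where
  /-- the chain prime `q`, as an element of the base ring -/
  v : B
  /-- the sign of the target component -/
  sgn : B
  /-- `1/2` -/
  half : B
  two_mul_half : 2 * half = 1
  sgn_sq : sgn ^ 2 = 1
  isUnit_v : IsUnit v
  isUnit_one_add : IsUnit (1 + v)

namespace ScConst

variable {B : Type*} [CommRing B] (c : ScConst B)

/-- `τ = sgn (v - 1)` -/
def tau : B := c.sgn * (c.v - 1)

/-- `θ₀ = sgn (1 + v) / 2` -/
def theta0 : B := c.sgn * (1 + c.v) * c.half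

theorem two_mul_theta0 : 2 * c.theta0 = c.sgn * (1 + c.v) := by
  unfold theta0
  linear_combination c.sgn * (1 + c.v) * c.two_mul_half

theorem isUnit_two (c : ScConst B) : IsUnit (2 : B) := IsUnit.of_mul_eq_one _ c.two_mul_half

theorem isUnit_half : IsUnit c.half :=
  IsUnit.of_mul_eq_one 2 (by rw [mul_comm]; exact c.two_mul_half)

theorem isUnit_sgn : IsUnit c.sgn :=
  IsUnit.of_mul_eq_one c.sgn (by rw [← sq]; exact c.sgn_sq)

theorem isUnit_theta0 : IsUnit c.theta0 :=
  (c.isUnit_sgn.mul c.isUnit_one_add).mul c.isUnit_half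

/-- base change of the constants -/
def map {B' : Type*} [CommRing B'] (f : B →+* B') : ScConst B' where
  v := f c.v
  sgn := f c.sgn
  half := f c.half
  two_mul_half := by rw [← map_ofNat f 2, ← map_mul, c.two_mul_half, map_one]
  sgn_sq := by rw [← map_pow, c.sgn_sq, map_one]
  isUnit_v := c.isUnit_v.map f
  isUnit_one_add := by
    have := c.isUnit_one_add.map f
    rwa [map_add, map_one] at this

@[simp] theorem map_v {B' : Type*} [CommRing B'] (f : B →+* B') : (c.map f).v = f c.v := rfl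
@[simp] theorem map_sgn {B' : Type*} [CommRing B'] (f : B →+* B') : (c.map f).sgn = f c.sgn := rfl
@[simp] theorem map_half {B' : Type*} [CommRing B'] (f : B →+* B') :
    (c.map f).half = f c.half := rfl

theorem map_tau {B' : Type*} [CommRing B'] (f : B →+* B') : (c.map f).tau = f c.tau := by
  simp [tau]

theorem map_theta0 {B' : Type*} [CommRing B'] (f : B →+* B') :
    (c.map f).theta0 = f c.theta0 := by
  simp [theta0]

end ScConst

/-! ### square roots of power series -/

section Sqrt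

variable {B : Type*} [CommRing B] {σ : Type*} [Finite σ]

/-- a power series with unit constant coefficient `α²` has a square root with constant coefficient
`α` (`2` invertible) -/
theorem exists_sq_eq (α : B) (hα : IsUnit α) (h2 : IsUnit (2 : B)) (g : MvPowerSeries σ B)
    (hg : constantCoeff g = 0) :
    ∃ θ : MvPowerSeries σ B, θ ^ 2 = C (α ^ 2) + g ∧ constantCoeff θ = α := by
  let R := MvPowerSeries σ B
  let I : Ideal R := Ideal.span (Set.range (X : σ → R))
  have hH : HenselianRing R I := IsAdicComplete.henselianRing R I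
  have hgI : g ∈ I := by
    have : g ∈ RingHom.ker (constantCoeff (σ := σ) (R := B)) := hg
    rwa [TK.ker_constantCoeff] at this
  let f : Polynomial R := Polynomial.X ^ 2 - Polynomial.C (C (α ^ 2) + g)
  have hmonic : f.Monic := Polynomial.monic_X_pow_sub_C _ (by norm_num)
  have heval : Polynomial.eval (C α : R) f ∈ I := by
    have : Polynomial.eval (C α : R) f = - g := by
      simp only [f, Polynomial.eval_sub, Polynomial.eval_pow, Polynomial.eval_X,
        Polynomial.eval_C]
      rw [← map_pow]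
      ring
    rw [this]
    exact neg_mem hgI
  have hder : IsUnit (Ideal.Quotient.mk I
      (Polynomial.eval (C α : R) (Polynomial.derivative f))) := by
    apply IsUnit.map
    have : Polynomial.eval (C α : R) (Polynomial.derivative f) = C (2 * α) := by
      simp only [f, Polynomial.derivative_sub, Polynomial.derivative_X_pow,
        Polynomial.derivative_C, sub_zero, Polynomial.eval_mul, Polynomial.eval_pow,
        Polynomial.eval_X, Polynomial.eval_C]
      simp [map_mul, map_ofNat]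
    rw [this]
    exact (h2.mul hα).map C
  obtain ⟨θ, hroot, hsub⟩ := hH.is_henselian f hmonic (C α) heval hder
  refine ⟨θ, ?_, ?_⟩
  · have : Polynomial.eval θ f = 0 := hroot
    simp only [f, Polynomial.eval_sub, Polynomial.eval_pow, Polynomial.eval_X,
      Polynomial.eval_C] at this
    exact sub_eq_zero.mp this
  · have h1 : θ - C α ∈ RingHom.ker (constantCoeff (σ := σ) (R := B)) := by
      rw [TK.ker_constantCoeff]
      exact hsub
    rw [RingHom.mem_ker, map_sub, constantCoeff_C, sub_eq_zero] at h1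
    exact h1

/-- uniqueness of the square root with given unit constant coefficient -/
theorem eq_of_sq_eq_sq {θ θ' : MvPowerSeries σ B} (h2 : IsUnit (2 : B))
    (hu : IsUnit (constantCoeff θ)) (hsq : θ' ^ 2 = θ ^ 2)
    (hc : constantCoeff θ' = constantCoeff θ) : θ' = θ := by
  apply LOC.eq_of_sq_eq_sq_of_sub_mem (Ideal.span (Set.range (X : σ → MvPowerSeries σ B)))
    span_X_le_jacobson (by
      have := h2.map (C (σ := σ) (R := B))
      rwa [map_ofNat] at this) (MvPowerSeries.isUnit_iff_constantCoeff.mpr hu) hsq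
  have h1 : θ' - θ ∈ RingHom.ker (constantCoeff (σ := σ) (R := B)) := by
    rw [RingHom.mem_ker, map_sub, hc, sub_self]
  rwa [TK.ker_constantCoeff] at h1

end Sqrt

/-! ### `θ`, `δ`, the ideals -/

section Ideals

variable {B : Type*} [CommRing B] (c : ScConst B)

theorem constantCoeff_thElt (τ : B) : constantCoeff (thElt τ) = 0 := by
  simp [thElt, sx, sy, sz]

/-- `θ = tr Φ / 2`: the square root of `θ₀² + g₂` with constant coefficient `θ₀` -/
noncomputable def theta : MvPowerSeries (Fin 6) B :=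
  Classical.choose (exists_sq_eq c.theta0 c.isUnit_theta0 c.isUnit_two (thElt c.tau)
    (constantCoeff_thElt c.tau))

theorem theta_sq : theta c ^ 2 = C (c.theta0 ^ 2) + thElt c.tau :=
  (Classical.choose_spec (exists_sq_eq c.theta0 c.isUnit_theta0 c.isUnit_two (thElt c.tau)
    (constantCoeff_thElt c.tau))).1

theorem constantCoeff_theta : constantCoeff (theta c) = c.theta0 :=
  (Classical.choose_spec (exists_sq_eq c.theta0 c.isUnit_theta0 c.isUnit_two (thElt c.tau)
    (constantCoeff_thElt c.tau))).2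

/-- characterisation of `θ` -/
theorem eq_theta {θ' : MvPowerSeries (Fin 6) B} (hsq : θ' ^ 2 = C (c.theta0 ^ 2) + thElt c.tau)
    (hc : constantCoeff θ' = c.theta0) : θ' = theta c := by
  apply eq_of_sq_eq_sq c.isUnit_two
  · rw [constantCoeff_theta]
    exact c.isUnit_theta0
  · rw [hsq, theta_sq]
  · rw [hc, constantCoeff_theta]

/-- `δ = θ - θ₀` -/
noncomputable def delta : MvPowerSeries (Fin 6) B := theta c - C c.theta0

theorem constantCoeff_delta : constantCoeff (delta c) = 0 := by
  rw [delta, map_sub, constantCoeff_theta, constantCoeff_C, sub_self]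

/-- `δ (δ + 2 θ₀) = g₂` -/
theorem delta_mul : delta c * (delta c + C (2 * c.theta0)) = thElt c.tau := by
  have h := theta_sq c
  rw [map_pow] at h
  rw [delta, map_mul, map_ofNat]
  linear_combination h

theorem isUnit_delta_add : IsUnit (delta c + C (2 * c.theta0)) := by
  rw [MvPowerSeries.isUnit_iff_constantCoeff, map_add, constantCoeff_delta, zero_add,
    constantCoeff_C]
  exact c.isUnit_two.mul c.isUnit_theta0

/-- the generators of `rel`: `g₁` and the entries of `Φ N - v N Φ` -/
noncomputable def relGens : Fin 5 → MvPowerSeries (Fin 6) B :=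
  ![stGens c.tau 0,
    - (C (1 - c.v) * delta c * sa) + stGens c.tau 5 - C c.v * stGens c.tau 2,
    C (1 - c.v) * delta c * sb - C (1 + c.v) * stGens c.tau 3,
    - (C (1 - c.v) * delta c * sc) - C (1 + c.v) * stGens c.tau 4,
    C (1 - c.v) * delta c * sa + stGens c.tau 2 - C c.v * stGens c.tau 5]

/-- **the relations of a scalar chain prime in the level** -/
noncomputable def relIdeal : Ideal (MvPowerSeries (Fin 6) B) :=
  Ideal.span (Set.range (relGens c))

/-- **the relations of the new quotient at a scalar chain prime** -/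
noncomputable def newIdeal : Ideal (MvPowerSeries (Fin 6) B) :=
  relIdeal c ⊔ Ideal.span {thElt c.tau}

theorem stGens_one (τ : B) : stGens τ 1 = thElt τ := rfl

theorem stGens_mem (τ : B) (i : Fin 6) : stGens τ i ∈ stIdeal τ :=
  Ideal.subset_span ⟨i, rfl⟩

theorem thElt_mem_stIdeal (τ : B) : thElt τ ∈ stIdeal τ := stGens_mem τ 1

theorem delta_mem_stIdeal : delta c ∈ stIdeal c.tau := by
  obtain ⟨u, hu⟩ := isUnit_delta_add c
  have h : delta c = thElt c.tau * (↑u⁻¹ : MvPowerSeries (Fin 6) B) := by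
    rw [← delta_mul, ← hu, mul_assoc, Units.mul_inv, mul_one]
  rw [h]
  exact Ideal.mul_mem_right _ _ (thElt_mem_stIdeal c.tau)

theorem relIdeal_le_newIdeal : relIdeal c ≤ newIdeal c := le_sup_left

theorem thElt_mem_newIdeal : thElt c.tau ∈ newIdeal c :=
  Ideal.mem_sup_right (Ideal.subset_span rfl)

theorem relIdeal_le_stIdeal : relIdeal c ≤ stIdeal c.tau := by
  rw [relIdeal, Ideal.span_le]
  rintro _ ⟨i, rfl⟩
  have hd := delta_mem_stIdeal c
  have hg := stGens_mem c.tau
  fin_cases i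
  · exact hg 0
  · exact Ideal.sub_mem _ (Ideal.add_mem _ (neg_mem
      (Ideal.mul_mem_right _ _ (Ideal.mul_mem_left _ _ hd))) (hg 5)) (Ideal.mul_mem_left _ _ (hg 2))
  · exact Ideal.sub_mem _ (Ideal.mul_mem_right _ _ (Ideal.mul_mem_left _ _ hd))
      (Ideal.mul_mem_left _ _ (hg 3))
  · exact Ideal.sub_mem _ (neg_mem (Ideal.mul_mem_right _ _ (Ideal.mul_mem_left _ _ hd)))
      (Ideal.mul_mem_left _ _ (hg 4))
  · exact Ideal.sub_mem _ (Ideal.add_mem _ (Ideal.mul_mem_right _ _ (Ideal.mul_mem_left _ _ hd))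
      (hg 2)) (Ideal.mul_mem_left _ _ (hg 5))

theorem newIdeal_le_stIdeal : newIdeal c ≤ stIdeal c.tau := by
  rw [newIdeal, sup_le_iff]
  refine ⟨relIdeal_le_stIdeal c, ?_⟩
  rw [Ideal.span_le, Set.singleton_subset_iff]
  exact thElt_mem_stIdeal c.tau

theorem sa_mem_unrIdeal : (sa : MvPowerSeries (Fin 6) B) ∈ unrIdeal B :=
  Ideal.subset_span (by simp)

theorem sb_mem_unrIdeal : (sb : MvPowerSeries (Fin 6) B) ∈ unrIdeal B :=
  Ideal.subset_span (by simp)

theorem sc_mem_unrIdeal : (sc : MvPowerSeries (Fin 6) B) ∈ unrIdeal B :=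
  Ideal.subset_span (by simp)

/-- the unramified locus satisfies the relations -/
theorem relIdeal_le_unrIdeal : relIdeal c ≤ unrIdeal B := by
  rw [relIdeal, Ideal.span_le]
  rintro _ ⟨i, rfl⟩
  have ha := sa_mem_unrIdeal (B := B)
  have hb := sb_mem_unrIdeal (B := B)
  have hc := sc_mem_unrIdeal (B := B)
  have h0 : stGens c.tau 0 ∈ unrIdeal B := by
    show sa ^ 2 - sb * sc ∈ _
    exact Ideal.sub_mem _ (Ideal.pow_mem_of_mem _ ha 2 (by norm_num)) (Ideal.mul_mem_right _ _ hb)
  have h2 : stGens c.tau 2 ∈ unrIdeal B := by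
    show sa * sx - sb * sz - C c.tau * sa ∈ _
    exact Ideal.sub_mem _ (Ideal.sub_mem _ (Ideal.mul_mem_right _ _ ha)
      (Ideal.mul_mem_right _ _ hb)) (Ideal.mul_mem_left _ _ ha)
  have h3 : stGens c.tau 3 ∈ unrIdeal B := by
    show sb * sx - sa * sy ∈ _
    exact Ideal.sub_mem _ (Ideal.mul_mem_right _ _ hb) (Ideal.mul_mem_right _ _ ha)
  have h4 : stGens c.tau 4 ∈ unrIdeal B := by
    show sc * sx - sa * sz - C c.tau * sc ∈ _
    exact Ideal.sub_mem _ (Ideal.sub_mem _ (Ideal.mul_mem_right _ _ hc)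
      (Ideal.mul_mem_right _ _ ha)) (Ideal.mul_mem_left _ _ hc)
  have h5 : stGens c.tau 5 ∈ unrIdeal B := by
    show sa * sx - sc * sy ∈ _
    exact Ideal.sub_mem _ (Ideal.mul_mem_right _ _ ha) (Ideal.mul_mem_right _ _ hc)
  fin_cases i
  · exact h0
  · exact Ideal.sub_mem _ (Ideal.add_mem _ (neg_mem (Ideal.mul_mem_left _ _ ha)) h5)
      (Ideal.mul_mem_left _ _ h2)
  · exact Ideal.sub_mem _ (Ideal.mul_mem_left _ _ hb) (Ideal.mul_mem_left _ _ h3)
  · exact Ideal.sub_mem _ (neg_mem (Ideal.mul_mem_left _ _ hc)) (Ideal.mul_mem_left _ _ h4)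
  · exact Ideal.sub_mem _ (Ideal.add_mem _ (Ideal.mul_mem_left _ _ ha) h2)
      (Ideal.mul_mem_left _ _ h5)

end Ideals

/-! ### the step lemmas -/

section Core

variable {D : Type*} [CommRing D] [IsDomain D]

/-- the algebraic core: over a domain, the relations and `δ = 0` give the Steinberg equations -/
theorem core_of_delta_eq_zero (a b c x y z τ v : D) (hv : 1 - v ≠ 0) (hP : 1 + v ≠ 0)
    (h00 : (a * x - c * y) - v * (a * x - b * z - τ * a) = 0)
    (h01 : (1 + v) * (b * x - a * y) = 0)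
    (h10 : (1 + v) * (c * x - a * z - τ * c) = 0)
    (h11 : (a * x - b * z - τ * a) - v * (a * x - c * y) = 0) :
    a * x - b * z - τ * a = 0 ∧ b * x - a * y = 0 ∧ c * x - a * z - τ * c = 0 ∧
      a * x - c * y = 0 := by
  have h4 : b * x - a * y = 0 := (mul_eq_zero.mp h01).resolve_left hP
  have h5 : c * x - a * z - τ * c = 0 := (mul_eq_zero.mp h10).resolve_left hP
  have hsum : (a * x - b * z - τ * a) + (a * x - c * y) = 0 := by
    have : (1 - v) * ((a * x - b * z - τ * a) + (a * x - c * y)) = 0 := by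
      linear_combination h00 + h11
    exact (mul_eq_zero.mp this).resolve_left hv
  have h6 : a * x - c * y = 0 := by
    have : (1 + v) * (a * x - c * y) = 0 := by linear_combination h00 + v * hsum
    exact (mul_eq_zero.mp this).resolve_left hP
  have h3 : a * x - b * z - τ * a = 0 := by linear_combination hsum - h6
  exact ⟨h3, h4, h5, h6⟩

/-- the algebraic core: over a domain, the relations give `w δ U = 0` for `w = a, b, c`, where
`U = (1 + v)² (δ + 2 θ₀) - (1 - v) ((1 - v) δ - (1 + v) τ)` -/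
theorem core_mul_delta (a b c x y z τ v δ t0 : D) (hv : 1 - v ≠ 0)
    (h00 : - ((1 - v) * δ * a) + (a * x - c * y) - v * (a * x - b * z - τ * a) = 0)
    (h01 : (1 - v) * δ * b - (1 + v) * (b * x - a * y) = 0)
    (h10 : - ((1 - v) * δ * c) - (1 + v) * (c * x - a * z - τ * c) = 0)
    (h11 : (1 - v) * δ * a + (a * x - b * z - τ * a) - v * (a * x - c * y) = 0)
    (hδ : δ * (δ + 2 * t0) = x ^ 2 - τ * x - y * z) :
    a * δ * ((1 + v) ^ 2 * (δ + 2 * t0) - (1 - v) * ((1 - v) * δ - (1 + v) * τ)) = 0 ∧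
    b * δ * ((1 + v) ^ 2 * (δ + 2 * t0) - (1 - v) * ((1 - v) * δ - (1 + v) * τ)) = 0 ∧
    c * δ * ((1 + v) ^ 2 * (δ + 2 * t0) - (1 - v) * ((1 - v) * δ - (1 + v) * τ)) = 0 := by
  have hsum : (a * x - b * z - τ * a) + (a * x - c * y) = 0 := by
    have : (1 - v) * ((a * x - b * z - τ * a) + (a * x - c * y)) = 0 := by
      linear_combination h00 + h11
    exact (mul_eq_zero.mp this).resolve_left hv
  -- `P g₃ = - A δ a`, `P g₄ = A δ b`, `P g₅ = - A δ c`, `P g₆ = A δ a`
  have s3 : (1 + v) * (a * x - b * z - τ * a) = - ((1 - v) * δ * a) := by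
    linear_combination h11 + v * hsum
  have s4 : (1 + v) * (b * x - a * y) = (1 - v) * δ * b := by linear_combination - h01
  have s5 : (1 + v) * (c * x - a * z - τ * c) = - ((1 - v) * δ * c) := by
    linear_combination - h10
  have s6 : (1 + v) * (a * x - c * y) = (1 - v) * δ * a := by
    linear_combination h00 + v * hsum
  refine ⟨?_, ?_, ?_⟩
  · -- `a g₂ = x g₃ + z g₄`
    have t1 : (1 + v) * (a * (x ^ 2 - τ * x - y * z)) =
        - ((1 - v) * δ * ((a * x - b * z - τ * a) + τ * a)) := by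
      linear_combination x * s3 + z * s4
    have t2 : (1 + v) ^ 2 * (a * (x ^ 2 - τ * x - y * z)) =
        (1 - v) * δ * a * ((1 - v) * δ - (1 + v) * τ) := by
      linear_combination (1 + v) * t1 - (1 - v) * δ * s3
    linear_combination (1 + v) ^ 2 * a * hδ + t2
  · -- `b g₂ = y g₃ + (x - τ) g₄`
    have t1 : (1 + v) * (b * (x ^ 2 - τ * x - y * z)) =
        (1 - v) * δ * ((b * x - a * y) - τ * b) := by
      linear_combination y * s3 + (x - τ) * s4
    have t2 : (1 + v) ^ 2 * (b * (x ^ 2 - τ * x - y * z)) =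
        (1 - v) * δ * b * ((1 - v) * δ - (1 + v) * τ) := by
      linear_combination (1 + v) * t1 + (1 - v) * δ * s4
    linear_combination (1 + v) ^ 2 * b * hδ + t2
  · -- `c g₂ = x g₅ + z g₆`
    have t1 : (1 + v) * (c * (x ^ 2 - τ * x - y * z)) =
        - ((1 - v) * δ * ((c * x - a * z - τ * c) + τ * c)) := by
      linear_combination x * s5 + z * s6
    have t2 : (1 + v) ^ 2 * (c * (x ^ 2 - τ * x - y * z)) =
        (1 - v) * δ * c * ((1 - v) * δ - (1 + v) * τ) := by
      linear_combination (1 + v) * t1 - (1 - v) * δ * s5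
    linear_combination (1 + v) ^ 2 * c * hδ + t2

/-- the algebraic core when `1 - v = 0`: `g₄ = g₅ = 0`, `g₆ = g₃`, and `w g₃ = 0` for
`w = a, b, c` -/
theorem core_of_one_sub_eq_zero (a b c x y z τ v δ : D) (hv : 1 - v = 0) (hP : 1 + v ≠ 0)
    (h0 : a ^ 2 - b * c = 0)
    (h00 : - ((1 - v) * δ * a) + (a * x - c * y) - v * (a * x - b * z - τ * a) = 0)
    (h01 : (1 - v) * δ * b - (1 + v) * (b * x - a * y) = 0)
    (h10 : - ((1 - v) * δ * c) - (1 + v) * (c * x - a * z - τ * c) = 0) :
    b * x - a * y = 0 ∧ c * x - a * z - τ * c = 0 ∧ a * x - c * y = a * x - b * z - τ * a ∧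
      a * (a * x - b * z - τ * a) = 0 ∧ b * (a * x - b * z - τ * a) = 0 ∧
      c * (a * x - b * z - τ * a) = 0 := by
  have hv1 : v = 1 := by linear_combination - hv
  have h4 : b * x - a * y = 0 := by
    have : (1 + v) * (b * x - a * y) = 0 := by linear_combination δ * b * hv - h01
    exact (mul_eq_zero.mp this).resolve_left hP
  have h5 : c * x - a * z - τ * c = 0 := by
    have : (1 + v) * (c * x - a * z - τ * c) = 0 := by linear_combination - δ * c * hv - h10
    exact (mul_eq_zero.mp this).resolve_left hP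
  have h6 : a * x - c * y = a * x - b * z - τ * a := by
    linear_combination h00 + δ * a * hv - (a * x - b * z - τ * a) * hv
  refine ⟨h4, h5, h6, ?_, ?_, ?_⟩
  · linear_combination b * h5 + (x - τ) * h0
  · linear_combination a * h4 - b * h6 + y * h0
  · linear_combination a * h5 + z * h0

omit [IsDomain D] in
/-- the three identities `w g₂ = …` -/
theorem core_mul_g2 (a b c x y z τ : D) (h3 : a * x - b * z - τ * a = 0) (h4 : b * x - a * y = 0)
    (h5 : c * x - a * z - τ * c = 0) (h6 : a * x - c * y = 0) :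
    a * (x ^ 2 - τ * x - y * z) = 0 ∧ b * (x ^ 2 - τ * x - y * z) = 0 ∧
      c * (x ^ 2 - τ * x - y * z) = 0 := by
  refine ⟨?_, ?_, ?_⟩
  · linear_combination x * h3 + z * h4
  · linear_combination y * h3 + (x - τ) * h4
  · linear_combination x * h5 + z * h6

end Core

/-! ### the step lemmas for prime ideals -/

section Step

variable {B : Type*} [CommRing B] (c : ScConst B)

/-- the unit `U = (1 + v)² (δ + 2 θ₀) - (1 - v) ((1 - v) δ - (1 + v) τ)` -/
theorem isUnit_stepUnit :
    IsUnit (C (1 + c.v) ^ 2 * (delta c + C (2 * c.theta0)) -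
      C (1 - c.v) * (C (1 - c.v) * delta c - C (1 + c.v) * C c.tau)) := by
  rw [MvPowerSeries.isUnit_iff_constantCoeff]
  simp only [map_sub, map_mul, map_pow, map_add, constantCoeff_C, constantCoeff_delta, mul_zero,
    zero_add, zero_sub]
  have h : (1 + c.v) ^ 2 * (2 * c.theta0) - (1 - c.v) * -((1 + c.v) * c.tau) =
      c.sgn * (1 + c.v) * (2 * 2) * c.v := by
    rw [c.two_mul_theta0, ScConst.tau]
    ring
  rw [h]
  exact ((c.isUnit_sgn.mul c.isUnit_one_add).mul (c.isUnit_two.mul c.isUnit_two)).mul c.isUnit_v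

variable (𝔓 : Ideal (MvPowerSeries (Fin 6) B)) [h𝔓 : 𝔓.IsPrime]

include h𝔓 in
/-- a prime containing `rel` and not `1 - v` contains `a, b, c` or `δ` -/
theorem mem_or_delta_mem (hrel : relIdeal c ≤ 𝔓) (hv : C (1 - c.v) ∉ 𝔓) :
    ((sa : MvPowerSeries (Fin 6) B) ∈ 𝔓 ∧ (sb : MvPowerSeries (Fin 6) B) ∈ 𝔓 ∧
      (sc : MvPowerSeries (Fin 6) B) ∈ 𝔓) ∨ delta c ∈ 𝔓 := by
  set π := Ideal.Quotient.mk 𝔓 with hπ
  have hg : ∀ i, π (relGens c i) = 0 := fun i =>
    Ideal.Quotient.eq_zero_iff_mem.mpr (hrel (Ideal.subset_span ⟨i, rfl⟩))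
  have h00 := hg 1
  have h01 := hg 2
  have h10 := hg 3
  have h11 := hg 4
  simp only [relGens, stGens, Matrix.cons_val_zero, Matrix.cons_val_one, Matrix.cons_val,
    map_sub, map_add, map_neg, map_mul, map_one] at h00 h01 h10 h11
  have hδ : π (delta c) * (π (delta c) + 2 * π (C c.theta0)) =
      π sx ^ 2 - π (C c.tau) * π sx - π sy * π sz := by
    have := congrArg π (delta_mul c)
    simpa only [thElt, map_sub, map_add, map_mul, map_pow, map_ofNat] using this
  have hv' : 1 - π (C c.v) ≠ 0 := by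
    intro h
    apply hv
    rw [← Ideal.Quotient.eq_zero_iff_mem, map_sub, map_sub, map_one, map_one]
    exact h
  obtain ⟨ha, hb, hc⟩ := core_mul_delta (π sa) (π sb) (π sc) (π sx) (π sy) (π sz) (π (C c.tau))
    (π (C c.v)) (π (delta c)) (π (C c.theta0)) hv' h00 h01 h10 h11 hδ
  have hU : (1 + π (C c.v)) ^ 2 * (π (delta c) + 2 * π (C c.theta0)) -
      (1 - π (C c.v)) * ((1 - π (C c.v)) * π (delta c) - (1 + π (C c.v)) * π (C c.tau)) ≠ 0 := by
    have h1 := (isUnit_stepUnit c).map π
    simp only [map_sub, map_add, map_mul, map_pow, map_one, map_ofNat] at h1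
    exact h1.ne_zero
  by_cases hd : delta c ∈ 𝔓
  · exact Or.inr hd
  · left
    have hd' : π (delta c) ≠ 0 := fun h => hd (Ideal.Quotient.eq_zero_iff_mem.mp h)
    refine ⟨?_, ?_, ?_⟩
    · rw [← Ideal.Quotient.eq_zero_iff_mem]
      rcases mul_eq_zero.mp ha with h | h
      · exact (mul_eq_zero.mp h).resolve_right hd'
      · exact absurd h hU
    · rw [← Ideal.Quotient.eq_zero_iff_mem]
      rcases mul_eq_zero.mp hb with h | h
      · exact (mul_eq_zero.mp h).resolve_right hd'
      · exact absurd h hU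
    · rw [← Ideal.Quotient.eq_zero_iff_mem]
      rcases mul_eq_zero.mp hc with h | h
      · exact (mul_eq_zero.mp h).resolve_right hd'
      · exact absurd h hU

include h𝔓 in
/-- a prime containing `rel` and `δ`, and not `1 - v`, contains `st` -/
theorem stIdeal_le_of_delta_mem (hrel : relIdeal c ≤ 𝔓) (hv : C (1 - c.v) ∉ 𝔓)
    (hd : delta c ∈ 𝔓) : stIdeal c.tau ≤ 𝔓 := by
  set π := Ideal.Quotient.mk 𝔓 with hπ
  have hg : ∀ i, π (relGens c i) = 0 := fun i =>
    Ideal.Quotient.eq_zero_iff_mem.mpr (hrel (Ideal.subset_span ⟨i, rfl⟩))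
  have hd0 : π (delta c) = 0 := Ideal.Quotient.eq_zero_iff_mem.mpr hd
  have h0 := hg 0
  have h00 := hg 1
  have h01 := hg 2
  have h10 := hg 3
  have h11 := hg 4
  simp only [relGens, stGens, Matrix.cons_val_zero, Matrix.cons_val_one, Matrix.cons_val,
    map_sub, map_add, map_neg, map_mul, map_pow, map_one, hd0, mul_zero, zero_mul, neg_zero,
    zero_add, zero_sub] at h0 h00 h01 h10 h11
  have hv' : 1 - π (C c.v) ≠ 0 := by
    intro h
    apply hv
    rw [← Ideal.Quotient.eq_zero_iff_mem, map_sub, map_sub, map_one, map_one]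
    exact h
  have hP : 1 + π (C c.v) ≠ 0 := by
    have h1 := (c.isUnit_one_add.map (C (σ := Fin 6) (R := B))).map π
    rw [map_add, map_add, map_one, map_one] at h1
    exact h1.ne_zero
  have h2 : π (thElt c.tau) = 0 := by
    rw [← delta_mul, map_mul, hd0, zero_mul]
  obtain ⟨h3, h4, h5, h6⟩ := core_of_delta_eq_zero (π sa) (π sb) (π sc) (π sx) (π sy) (π sz)
    (π (C c.tau)) (π (C c.v)) hv' hP h00 (by linear_combination - h01)
    (by linear_combination - h10) h11
  rw [stIdeal, Ideal.span_le]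
  rintro _ ⟨i, rfl⟩
  rw [SetLike.mem_coe, ← Ideal.Quotient.eq_zero_iff_mem]
  fin_cases i
  · show π (sa ^ 2 - sb * sc) = 0
    simpa only [map_sub, map_mul, map_pow] using h0
  · exact h2
  · show π (sa * sx - sb * sz - C c.tau * sa) = 0
    simpa only [map_sub, map_mul, map_pow] using h3
  · show π (sb * sx - sa * sy) = 0
    simpa only [map_sub, map_mul, map_pow] using h4
  · show π (sc * sx - sa * sz - C c.tau * sc) = 0
    simpa only [map_sub, map_mul, map_pow] using h5
  · show π (sa * sx - sc * sy) = 0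
    simpa only [map_sub, map_mul, map_pow] using h6

include h𝔓 in
/-- a prime containing `rel` and `1 - v`, and not containing one of `a, b, c`, contains `st` -/
theorem stIdeal_le_of_one_sub_mem (hrel : relIdeal c ≤ 𝔓) (hv : C (1 - c.v) ∈ 𝔓)
    (hw : ¬ ((sa : MvPowerSeries (Fin 6) B) ∈ 𝔓 ∧ (sb : MvPowerSeries (Fin 6) B) ∈ 𝔓 ∧
      (sc : MvPowerSeries (Fin 6) B) ∈ 𝔓)) : stIdeal c.tau ≤ 𝔓 := by
  set π := Ideal.Quotient.mk 𝔓 with hπ
  have hg : ∀ i, π (relGens c i) = 0 := fun i =>
    Ideal.Quotient.eq_zero_iff_mem.mpr (hrel (Ideal.subset_span ⟨i, rfl⟩))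
  have h0 := hg 0
  have h00 := hg 1
  have h01 := hg 2
  have h10 := hg 3
  simp only [relGens, stGens, Matrix.cons_val_zero, Matrix.cons_val_one, Matrix.cons_val,
    map_sub, map_add, map_neg, map_mul, map_pow, map_one] at h0 h00 h01 h10
  have hv' : 1 - π (C c.v) = 0 := by
    have := Ideal.Quotient.eq_zero_iff_mem.mpr hv
    rwa [map_sub, map_sub, map_one, map_one] at this
  have hP : 1 + π (C c.v) ≠ 0 := by
    have h1 := (c.isUnit_one_add.map (C (σ := Fin 6) (R := B))).map π
    rw [map_add, map_add, map_one, map_one] at h1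
    exact h1.ne_zero
  obtain ⟨h4, h5, h6, ha, hb, hc⟩ := core_of_one_sub_eq_zero (π sa) (π sb) (π sc) (π sx) (π sy)
    (π sz) (π (C c.tau)) (π (C c.v)) (π (delta c)) hv' hP h0 h00 h01 h10
  -- one of `a, b, c` is non-zero
  have h3 : π sa * π sx - π sb * π sz - π (C c.tau) * π sa = 0 := by
    by_contra hne
    apply hw
    refine ⟨?_, ?_, ?_⟩
    · exact Ideal.Quotient.eq_zero_iff_mem.mp ((mul_eq_zero.mp ha).resolve_right hne)
    · exact Ideal.Quotient.eq_zero_iff_mem.mp ((mul_eq_zero.mp hb).resolve_right hne)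
    · exact Ideal.Quotient.eq_zero_iff_mem.mp ((mul_eq_zero.mp hc).resolve_right hne)
  have h6' : π sa * π sx - π sc * π sy = 0 := by rw [h6, h3]
  obtain ⟨ga, gb, gc⟩ := core_mul_g2 (π sa) (π sb) (π sc) (π sx) (π sy) (π sz) (π (C c.tau))
    h3 h4 h5 h6'
  have h2 : π sx ^ 2 - π (C c.tau) * π sx - π sy * π sz = 0 := by
    by_contra hne
    apply hw
    refine ⟨?_, ?_, ?_⟩
    · exact Ideal.Quotient.eq_zero_iff_mem.mp ((mul_eq_zero.mp ga).resolve_right hne)
    · exact Ideal.Quotient.eq_zero_iff_mem.mp ((mul_eq_zero.mp gb).resolve_right hne)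
    · exact Ideal.Quotient.eq_zero_iff_mem.mp ((mul_eq_zero.mp gc).resolve_right hne)
  rw [stIdeal, Ideal.span_le]
  rintro _ ⟨i, rfl⟩
  rw [SetLike.mem_coe, ← Ideal.Quotient.eq_zero_iff_mem]
  fin_cases i
  · show π (sa ^ 2 - sb * sc) = 0
    simpa only [map_sub, map_mul, map_pow] using h0
  · show π (sx ^ 2 - C c.tau * sx - sy * sz) = 0
    simpa only [map_sub, map_mul, map_pow] using h2
  · show π (sa * sx - sb * sz - C c.tau * sa) = 0
    simpa only [map_sub, map_mul, map_pow] using h3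
  · show π (sb * sx - sa * sy) = 0
    simpa only [map_sub, map_mul, map_pow] using h4
  · show π (sc * sx - sa * sz - C c.tau * sc) = 0
    simpa only [map_sub, map_mul, map_pow] using h5
  · show π (sa * sx - sc * sy) = 0
    simpa only [map_sub, map_mul, map_pow] using h6'

include h𝔓 in
/-- **step, old part**: a prime containing `rel` and not containing one of `a, b, c` contains
`st` (no hypothesis on the characteristic) -/
theorem stIdeal_le_of_relIdeal_le (hrel : relIdeal c ≤ 𝔓)
    (hw : ¬ ((sa : MvPowerSeries (Fin 6) B) ∈ 𝔓 ∧ (sb : MvPowerSeries (Fin 6) B) ∈ 𝔓 ∧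
      (sc : MvPowerSeries (Fin 6) B) ∈ 𝔓)) : stIdeal c.tau ≤ 𝔓 := by
  by_cases hv : C (1 - c.v) ∈ 𝔓
  · exact stIdeal_le_of_one_sub_mem c 𝔓 hrel hv hw
  · exact stIdeal_le_of_delta_mem c 𝔓 hrel hv ((mem_or_delta_mem c 𝔓 hrel hv).resolve_left hw)

omit h𝔓 in
/-- an ideal containing `a, b, c` and `g₂` contains `st` -/
theorem stIdeal_le_of_unrIdeal_le (τ : B) (hunr : unrIdeal B ≤ 𝔓) (h2 : thElt τ ∈ 𝔓) :
    stIdeal τ ≤ 𝔓 := by
  have ha := hunr (sa_mem_unrIdeal (B := B))
  have hb := hunr (sb_mem_unrIdeal (B := B))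
  have hc := hunr (sc_mem_unrIdeal (B := B))
  rw [stIdeal, Ideal.span_le]
  rintro _ ⟨i, rfl⟩
  rw [SetLike.mem_coe]
  fin_cases i
  · show sa ^ 2 - sb * sc ∈ 𝔓
    exact Ideal.sub_mem _ (Ideal.pow_mem_of_mem _ ha 2 (by norm_num)) (Ideal.mul_mem_right _ _ hb)
  · exact h2
  · show sa * sx - sb * sz - C τ * sa ∈ 𝔓
    exact Ideal.sub_mem _ (Ideal.sub_mem _ (Ideal.mul_mem_right _ _ ha)
      (Ideal.mul_mem_right _ _ hb)) (Ideal.mul_mem_left _ _ ha)
  · show sb * sx - sa * sy ∈ 𝔓
    exact Ideal.sub_mem _ (Ideal.mul_mem_right _ _ hb) (Ideal.mul_mem_right _ _ ha)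
  · show sc * sx - sa * sz - C τ * sc ∈ 𝔓
    exact Ideal.sub_mem _ (Ideal.sub_mem _ (Ideal.mul_mem_right _ _ hc)
      (Ideal.mul_mem_right _ _ ha)) (Ideal.mul_mem_left _ _ hc)
  · show sa * sx - sc * sy ∈ 𝔓
    exact Ideal.sub_mem _ (Ideal.mul_mem_right _ _ ha) (Ideal.mul_mem_right _ _ hc)

include h𝔓 in
/-- **step, new part**: a prime containing `new` contains `st` (no hypothesis on the
characteristic) -/
theorem stIdeal_le_of_newIdeal_le (hnew : newIdeal c ≤ 𝔓) : stIdeal c.tau ≤ 𝔓 := by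
  by_cases hw : ((sa : MvPowerSeries (Fin 6) B) ∈ 𝔓 ∧ (sb : MvPowerSeries (Fin 6) B) ∈ 𝔓 ∧
      (sc : MvPowerSeries (Fin 6) B) ∈ 𝔓)
  · apply stIdeal_le_of_unrIdeal_le 𝔓 c.tau _ (hnew (thElt_mem_newIdeal c))
    rw [unrIdeal, Ideal.span_le]
    rintro f hf
    simp only [Set.mem_insert_iff, Set.mem_singleton_iff] at hf
    rcases hf with rfl | rfl | rfl
    · exact hw.1
    · exact hw.2.1
    · exact hw.2.2
  · exact stIdeal_le_of_relIdeal_le c 𝔓 (le_trans (relIdeal_le_newIdeal c) hnew) hw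

end Step

/-! ### naturality in the base ring -/

section Nat

variable {B B' : Type*} [CommRing B] [CommRing B'] (f : B →+* B') (c : ScConst B)

theorem thElt_map (τ : B) : MvPowerSeries.map f (thElt τ) = thElt (f τ) := by
  simp [thElt, sx, sy, sz, map_X, map_C]

theorem theta_map : MvPowerSeries.map f (theta c) = theta (c.map f) := by
  apply eq_theta
  · rw [← map_pow, theta_sq, map_add, thElt_map, map_C, ScConst.map_theta0, ScConst.map_tau,
      map_pow]
  · rw [ScConst.map_theta0]
    have h := constantCoeff_theta c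
    rw [← h]
    exact (MvPowerSeries.constantCoeff_map f (theta c))

theorem delta_map : MvPowerSeries.map f (delta c) = delta (c.map f) := by
  rw [delta, delta, map_sub, theta_map, map_C, ScConst.map_theta0]

theorem relGens_map (i : Fin 5) :
    MvPowerSeries.map f (relGens c i) = relGens (c.map f) i := by
  fin_cases i <;>
    simp [relGens, stGens_map, delta_map, ScConst.map_tau, sa, sb, sc, map_X, map_C]

theorem relIdeal_map :
    (relIdeal c).map (MvPowerSeries.map (σ := Fin 6) f) = relIdeal (c.map f) := by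
  rw [relIdeal, Ideal.map_span, relIdeal]
  congr 1
  ext g
  constructor
  · rintro ⟨_, ⟨i, rfl⟩, rfl⟩
    exact ⟨i, (relGens_map f c i).symm⟩
  · rintro ⟨i, rfl⟩
    exact ⟨_, ⟨i, rfl⟩, relGens_map f c i⟩

theorem newIdeal_map :
    (newIdeal c).map (MvPowerSeries.map (σ := Fin 6) f) = newIdeal (c.map f) := by
  rw [newIdeal, Ideal.map_sup, relIdeal_map, Ideal.map_span, Set.image_singleton, thElt_map,
    newIdeal, ScConst.map_tau]

theorem unrIdeal_map :
    (unrIdeal B).map (MvPowerSeries.map (σ := Fin 6) f) = unrIdeal B' := by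
  rw [unrIdeal, Ideal.map_span, unrIdeal]
  congr 1
  simp [Set.image_insert_eq, sa, sb, sc, map_X]

end Nat

/-! ### points -/

section Points

variable {B : Type*} [CommRing B] {A : Type*} [CommRing A] (φ : MvPowerSeries (Fin 6) B →+* A)

/-- a point with `a = c = x = y = z = 0` (and `b` arbitrary) lies on the Steinberg block -/
theorem stIdeal_le_ker_of_eq_zero (τ : B) (ha : φ sa = 0) (hc : φ sc = 0) (hx : φ sx = 0)
    (hy : φ sy = 0) (hz : φ sz = 0) : stIdeal τ ≤ RingHom.ker φ := by
  rw [stIdeal, Ideal.span_le]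
  rintro _ ⟨i, rfl⟩
  rw [SetLike.mem_coe, RingHom.mem_ker]
  fin_cases i
  · show φ (sa ^ 2 - sb * sc) = 0
    simp [ha, hc]
  · show φ (sx ^ 2 - C τ * sx - sy * sz) = 0
    simp [hx, hy]
  · show φ (sa * sx - sb * sz - C τ * sa) = 0
    simp [ha, hz]
  · show φ (sb * sx - sa * sy) = 0
    simp [ha, hx]
  · show φ (sc * sx - sa * sz - C τ * sc) = 0
    simp [ha, hc]
  · show φ (sa * sx - sc * sy) = 0
    simp [ha, hc]

/-- a point with `a = b = c = 0` lies on the unramified block -/
theorem unrIdeal_le_ker_of_eq_zero (ha : φ sa = 0) (hb : φ sb = 0) (hc : φ sc = 0) :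
    unrIdeal B ≤ RingHom.ker φ := by
  rw [unrIdeal, Ideal.span_le]
  rintro f hf
  simp only [Set.mem_insert_iff, Set.mem_singleton_iff] at hf
  rw [SetLike.mem_coe, RingHom.mem_ker]
  rcases hf with rfl | rfl | rfl
  · exact ha
  · exact hb
  · exact hc

/-- a point with `x = y = z = 0` kills the level raising element -/
theorem thElt_mem_ker_of_eq_zero (τ : B) (hx : φ sx = 0) (hy : φ sy = 0) :
    φ (thElt τ) = 0 := by
  simp [thElt, hx, hy]

end Points

end Fermat.Agent.ML.LocSc
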