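/-
PROJECT ML (S59) — [LOC-L], helper4 — INTERFACE: **the chart of ONE scalar chain prime**
(the items (E1)–(E6) of `ChainChartStatement` at a prime `q ≠ p` of kind `sc`), in terms of the
scalar model of `ML/LOCSC_helper4_{Chart,Kind,Rel}`: ring `𝒪⟦a, b, c, x, y, z⟧ =
MvPowerSeries (Fin 6) 𝒪`, constants `c : LocSc.ScConst 𝒪` with `c.v = q`, ideals
`LocSc.relIdeal c`, `LocSc.unrIdeal 𝒪`, `LocSc.newIdeal c`, `LocSc.stIdeal c.tau`, level raising
element `LocSc.thElt c.tau`.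

Proved in `ML/LOCSC_helper4_ChartSc.lean` (`LocSc.scChartStatement`).
-/
import Mathlib
import Fermat.Agent.ML.IFACE_helper9_Chart
import Fermat.Agent.ML.LOCSC_helper4_Rel

set_option autoImplicit false

open Polynomial IsLocalRing

namespace Fermat.Agent.ML

local notation "GQ" => (AlgebraicClosure ℚ ≃ₐ[ℚ] AlgebraicClosure ℚ)

/-- **[LOC-L], the chart of a scalar chain prime** (owner helper4). -/
def ScChartStatement : Prop :=
  ∀ {𝒪 : Type} [CommRing 𝒪] [IsDomain 𝒪] [IsDiscreteValuationRing 𝒪]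
    [IsAdicComplete (maximalIdeal 𝒪) 𝒪]
    (p : ℕ) [Fact p.Prime] (_ : (p : 𝒪) ∈ maximalIdeal 𝒪)
    (ρbar : ResidualGaloisRep (ResidueField 𝒪))
    (q : ℕ) (_ : q.Prime) (_ : q ≠ p) (_ : RB.ResFrobScalarAt ρbar p q)
    (c : LocSc.ScConst 𝒪) (_ : c.v = (q : 𝒪))
    (_ : ∀ A : ValuationSubring (AlgebraicClosure ℚ), A.LiesOverPrime q →
      ∀ φ : GQ, A.IsFrobeniusAt φ q →
        LinearMap.charpoly (ρbar.ρ φ) =
          (X - C (residue 𝒪 c.sgn)) * (X - C (residue 𝒪 c.sgn * ((q : ℕ) : ResidueField 𝒪))))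
    (T : Type) [CommRing T] [IsLocalRing T] [IsNoetherianRing T]
    [IsAdicComplete (maximalIdeal T) T] [Algebra 𝒪 T] [IsLocalHom (algebraMap 𝒪 T)]
    (ρ : GaloisRepAdic T)
    (_ : ρ.residual.IsEquiv
      (ρbar.baseChangeAlong (IsLocalRing.ResidueField.map (algebraMap 𝒪 T))))
    (_ : ρ.DetIsCyclotomic p) (_ : ρ.IsUnipotentOnInertiaAt q),
    ∃ (x : Fin 6 → T) (hx : ∀ a, x a ∈ maximalIdeal T),
      -- (E6)
      IsLocTrivIdeal 𝒪 ρ q (Ideal.span (Set.range x)) ∧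
      -- (E1)
      (∀ f ∈ LocSc.relIdeal c, TW.psLift (maximalIdeal T) x hx f = 0) ∧
      -- (E2)
      (∀ f ∈ LocSc.unrIdeal 𝒪, TW.psLift (maximalIdeal T) x hx f ∈ RB.inertiaIdeal ρ q) ∧
      -- (E3)
      (∀ f ∈ LocSc.newIdeal c, TW.psLift (maximalIdeal T) x hx f ∈
        Ideal.span {a : T | ∃ (P : ValuationSubring (AlgebraicClosure ℚ))
          (_ : P.LiesOverPrime q) (φ : GQ) (_ : P.IsFrobeniusAt φ q),
          a = ρ.trace φ ^ 2 - (((q : ℕ) : T) + 1) ^ 2}) ∧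
      -- (E4)
      (∀ (ρW : GaloisRepAdic 𝒪)
        (_ : ∀ A : ValuationSubring (AlgebraicClosure ℚ), A.LiesOverPrime q →
          ∀ φ : GQ, A.IsFrobeniusAt φ q →
            LinearMap.charpoly (ρW.ρ φ) = (X - C c.sgn) * (X - C (c.sgn * ((q : ℕ) : 𝒪))))
        (π : T →ₐ[𝒪] 𝒪), (∀ σ : GQ, π (ρ.trace σ) = ρW.trace σ) →
        ∀ f ∈ LocSc.stIdeal c.tau, π (TW.psLift (maximalIdeal T) x hx f) = 0) ∧
      -- (E5)
      (∀ (P : ValuationSubring (AlgebraicClosure ℚ)), P.LiesOverPrime q →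
        ∀ φ : GQ, P.IsFrobeniusAt φ q → ∃ u : T, IsUnit u ∧
          TW.psLift (maximalIdeal T) x hx (LocSc.thElt c.tau) -
            u * (((q : ℕ) : T) + 1 - algebraMap 𝒪 T c.sgn * ρ.trace φ) ∈ RB.inertiaIdeal ρ q)

end Fermat.Agent.ML
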