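/-
PROJECT ML (S59) — [LOC-L], helper4: the scalar kind, file 8: **points of the scalar model with
values in a complete local `𝒪`-algebra `T`**, pure algebra.

A `ScPoint c T` is a pair of matrices `N` (`= ρ(σ_t) - 1`), `Φ` (`= ρ(φ)`) over `T` with
`tr N = 0 = det N`, `Φ N = v N Φ`, `det Φ = v`, `N ≡ 0`, `Φ ≡ sgn` modulo `𝔪_T`.  Its coordinates
`(a, b, c, x, y, z) ∈ 𝔪_T⁶` are defined by `N = [[-a, b], [-c, a]]`,
`Φ = (θ - τ/2) + [[τ - x, y], [-z, x]]`, `θ = tr Φ / 2`.  Results, for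
`ev = TW.psLift 𝔪_T coords : 𝒪⟦a, b, c, x, y, z⟧ → T`:
* `ev_theta : ev θ = tr Φ / 2`  (uniqueness of square roots);
* `ev_relIdeal : relIdeal c ≤ ker ev`;
* `ev_thElt : ev (x² - τ x - y z) = (tr Φ / 2)² - θ₀²`, so `4 ev(th) = (tr Φ)² - (1 + v)²` and
  `ev(th) = unit · ((1 + v) - sgn · tr Φ)`;
* `ev_sa`, … : the values of the variables; `theta_sub_mem : tr Φ / 2 - θ₀ ∈ (x, y)`.
-/
import Mathlib
import Fermat.Agent.ML.LOCSC_helper4_Rel
import Fermat.Agent.TW.PSLift_helper6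

set_option autoImplicit false
set_option linter.unusedSectionVars false

namespace Fermat.Agent.ML.LocSc

open MvPowerSeries IsLocalRing Fermat.Agent.RB Fermat.Agent.TW

section Eval

variable {𝒪 : Type*} [CommRing 𝒪] {σ : Type*} [Finite σ] {T : Type*} [CommRing T] [Algebra 𝒪 T]
  (I : Ideal T) [IsAdicComplete I T] (x : σ → T) (hx : ∀ i, x i ∈ I)

theorem psLift_C (r : 𝒪) : psLift I x hx (C r : MvPowerSeries σ 𝒪) = algebraMap 𝒪 T r := by
  have h : (C r : MvPowerSeries σ 𝒪) = algebraMap 𝒪 (MvPowerSeries σ 𝒪) r := rfl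
  rw [h, AlgHom.commutes]

/-- a power series without constant term is mapped into the ideal generated by the coordinates -/
theorem psLift_mem_span_of_constantCoeff (f : MvPowerSeries σ 𝒪) (hf : constantCoeff f = 0) :
    psLift I x hx f ∈ Ideal.span (Set.range x) := by
  have h1 : f ∈ Ideal.span (Set.range (X : σ → MvPowerSeries σ 𝒪)) := by
    have : f ∈ RingHom.ker (constantCoeff (σ := σ) (R := 𝒪)) := hf
    rwa [TK.ker_constantCoeff] at this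
  have h2 : Ideal.span (Set.range (X : σ → MvPowerSeries σ 𝒪)) ≤
      (Ideal.span (Set.range x)).comap (psLift (𝒪 := 𝒪) I x hx).toRingHom := by
    rw [Ideal.span_le]
    rintro _ ⟨i, rfl⟩
    show psLift (𝒪 := 𝒪) I x hx (X i) ∈ Ideal.span (Set.range x)
    rw [psLift_X]
    exact Ideal.subset_span ⟨i, rfl⟩
  exact h2 h1

theorem span_range_le (x : σ → T) (hx : ∀ i, x i ∈ I) : Ideal.span (Set.range x) ≤ I := by
  rw [Ideal.span_le]
  rintro _ ⟨i, rfl⟩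
  exact hx i

end Eval

section Point

variable {𝒪 : Type*} [CommRing 𝒪] (c : ScConst 𝒪)
  (T : Type*) [CommRing T] [IsLocalRing T] [Algebra 𝒪 T]

/-- **a point of the scalar model** -/
structure ScPoint where
  /-- `ρ(σ_t) - 1` -/
  N : Matrix (Fin 2) (Fin 2) T
  /-- `ρ(φ)` -/
  Φ : Matrix (Fin 2) (Fin 2) T
  trN : N 0 0 + N 1 1 = 0
  detN : N 0 0 * N 1 1 - N 0 1 * N 1 0 = 0
  rel : Φ * N = algebraMap 𝒪 T c.v • (N * Φ)
  detΦ : Φ.det = algebraMap 𝒪 T c.v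
  N_mem : ∀ i j, N i j ∈ maximalIdeal T
  Φ01_mem : Φ 0 1 ∈ maximalIdeal T
  Φ10_mem : Φ 1 0 ∈ maximalIdeal T
  Φ00_mem : Φ 0 0 - algebraMap 𝒪 T c.sgn ∈ maximalIdeal T
  Φ11_mem : Φ 1 1 - algebraMap 𝒪 T c.sgn ∈ maximalIdeal T
  /-- `v ≡ 1` -/
  v_mem : algebraMap 𝒪 T c.v - 1 ∈ maximalIdeal T

variable {c T}

namespace ScPoint

variable (Q : ScPoint c T)

/-- `θ = tr Φ / 2` -/
def th : T := algebraMap 𝒪 T c.half * (Q.Φ 0 0 + Q.Φ 1 1)

/-- the coordinates `(a, b, c, x, y, z)` -/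
def coords : Fin 6 → T :=
  ![Q.N 1 1, Q.N 0 1, - Q.N 1 0,
    Q.Φ 1 1 - Q.th + algebraMap 𝒪 T c.tau * algebraMap 𝒪 T c.half, Q.Φ 0 1, - Q.Φ 1 0]

theorem two_mul_half : (2 : T) * algebraMap 𝒪 T c.half = 1 := by
  have := congrArg (algebraMap 𝒪 T) c.two_mul_half
  rwa [map_mul, map_ofNat, map_one] at this

theorem two_mul_th : 2 * Q.th = Q.Φ 0 0 + Q.Φ 1 1 := by
  unfold th
  linear_combination (Q.Φ 0 0 + Q.Φ 1 1) * two_mul_half (c := c) (T := T)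

include Q in
theorem tau_mem : algebraMap 𝒪 T c.tau ∈ maximalIdeal T := by
  unfold ScConst.tau
  rw [map_mul, map_sub, map_one]
  exact Ideal.mul_mem_left _ _ Q.v_mem

theorem th_sub_sgn_mem : Q.th - algebraMap 𝒪 T c.sgn ∈ maximalIdeal T := by
  have h : Q.th - algebraMap 𝒪 T c.sgn = algebraMap 𝒪 T c.half *
      ((Q.Φ 0 0 - algebraMap 𝒪 T c.sgn) + (Q.Φ 1 1 - algebraMap 𝒪 T c.sgn)) := by
    unfold th
    linear_combination (algebraMap 𝒪 T c.sgn) * two_mul_half (c := c) (T := T)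
  rw [h]
  exact Ideal.mul_mem_left _ _ (Ideal.add_mem _ Q.Φ00_mem Q.Φ11_mem)

include Q in
theorem theta0_sub_sgn_mem : algebraMap 𝒪 T c.theta0 - algebraMap 𝒪 T c.sgn ∈ maximalIdeal T := by
  have h : algebraMap 𝒪 T c.theta0 - algebraMap 𝒪 T c.sgn =
      algebraMap 𝒪 T c.sgn * algebraMap 𝒪 T c.half * (algebraMap 𝒪 T c.v - 1) := by
    unfold ScConst.theta0
    rw [map_mul, map_mul, map_add, map_one]
    linear_combination (algebraMap 𝒪 T c.sgn) * two_mul_half (c := c) (T := T)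
  rw [h]
  exact Ideal.mul_mem_left _ _ Q.v_mem

theorem th_sub_theta0_mem : Q.th - algebraMap 𝒪 T c.theta0 ∈ maximalIdeal T := by
  have := Ideal.sub_mem _ Q.th_sub_sgn_mem Q.theta0_sub_sgn_mem
  rwa [sub_sub_sub_cancel_right] at this

theorem coords_mem (i : Fin 6) : Q.coords i ∈ maximalIdeal T := by
  fin_cases i
  · exact Q.N_mem 1 1
  · exact Q.N_mem 0 1
  · exact neg_mem (Q.N_mem 1 0)
  · show Q.Φ 1 1 - Q.th + algebraMap 𝒪 T c.tau * algebraMap 𝒪 T c.half ∈ _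
    have h : Q.Φ 1 1 - Q.th = (Q.Φ 1 1 - algebraMap 𝒪 T c.sgn) - (Q.th - algebraMap 𝒪 T c.sgn) := by
      ring
    rw [h]
    exact Ideal.add_mem _ (Ideal.sub_mem _ Q.Φ11_mem Q.th_sub_sgn_mem)
      (Ideal.mul_mem_right _ _ Q.tau_mem)
  · exact Q.Φ01_mem
  · exact neg_mem Q.Φ10_mem

/-- the entries of `N` and `Φ` in terms of the coordinates -/
theorem N00 : Q.N 0 0 = - Q.coords 0 := by
  show Q.N 0 0 = - Q.N 1 1
  linear_combination Q.trN

theorem Φ00 : Q.Φ 0 0 = Q.th - algebraMap 𝒪 T c.tau * algebraMap 𝒪 T c.half +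
    (algebraMap 𝒪 T c.tau - Q.coords 3) := by
  show Q.Φ 0 0 = Q.th - algebraMap 𝒪 T c.tau * algebraMap 𝒪 T c.half + (algebraMap 𝒪 T c.tau -
    (Q.Φ 1 1 - Q.th + algebraMap 𝒪 T c.tau * algebraMap 𝒪 T c.half))
  linear_combination (-1 : T) * Q.two_mul_th +
    algebraMap 𝒪 T c.tau * two_mul_half (c := c) (T := T)

/-- `θ² = θ₀² + g₂(coords)` -/
theorem th_sq : Q.th ^ 2 = algebraMap 𝒪 T (c.theta0 ^ 2) +
    (Q.coords 3 ^ 2 - algebraMap 𝒪 T c.tau * Q.coords 3 - Q.coords 4 * Q.coords 5) := by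
  have hdet := Q.detΦ
  rw [Matrix.det_fin_two] at hdet
  have hh := two_mul_half (c := c) (T := T)
  have hs : algebraMap 𝒪 T c.sgn ^ 2 = 1 := by rw [← map_pow, c.sgn_sq, map_one]
  have ht : algebraMap 𝒪 T c.tau = algebraMap 𝒪 T c.sgn * (algebraMap 𝒪 T c.v - 1) := by
    unfold ScConst.tau
    rw [map_mul, map_sub, map_one]
  have h0 : algebraMap 𝒪 T (c.theta0 ^ 2) =
      (algebraMap 𝒪 T c.sgn * (1 + algebraMap 𝒪 T c.v) * algebraMap 𝒪 T c.half) ^ 2 := by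
    unfold ScConst.theta0
    rw [map_pow, map_mul, map_mul, map_add, map_one]
  have hx3 : Q.coords 3 = Q.Φ 1 1 - Q.th + algebraMap 𝒪 T c.tau * algebraMap 𝒪 T c.half := rfl
  have hx4 : Q.coords 4 = Q.Φ 0 1 := rfl
  have hx5 : Q.coords 5 = - Q.Φ 1 0 := rfl
  have e1 : Q.Φ 0 0 = 2 * Q.th - Q.Φ 1 1 := by linear_combination - Q.two_mul_th
  rw [e1] at hdet
  rw [h0, hx3, hx4, hx5, ht]
  linear_combination hdet +
    (- ((Q.Φ 1 1 - Q.th) * (algebraMap 𝒪 T c.sgn * (algebraMap 𝒪 T c.v - 1))) -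
      (algebraMap 𝒪 T c.sgn * (algebraMap 𝒪 T c.v - 1)) ^ 2 * algebraMap 𝒪 T c.half -
      algebraMap 𝒪 T c.v * algebraMap 𝒪 T c.sgn ^ 2 * (2 * algebraMap 𝒪 T c.half + 1)) * hh +
    (- algebraMap 𝒪 T c.v) * hs


/-- the four entries of `Φ N = v N Φ` in terms of the atoms -/
theorem rel_entries :
    (2 * Q.th - Q.Φ 1 1) * (- Q.N 1 1) + Q.Φ 0 1 * Q.N 1 0 =
      algebraMap 𝒪 T c.v * (- Q.N 1 1 * (2 * Q.th - Q.Φ 1 1) + Q.N 0 1 * Q.Φ 1 0) ∧
    (2 * Q.th - Q.Φ 1 1) * Q.N 0 1 + Q.Φ 0 1 * Q.N 1 1 =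
      algebraMap 𝒪 T c.v * (- Q.N 1 1 * Q.Φ 0 1 + Q.N 0 1 * Q.Φ 1 1) ∧
    Q.Φ 1 0 * (- Q.N 1 1) + Q.Φ 1 1 * Q.N 1 0 =
      algebraMap 𝒪 T c.v * (Q.N 1 0 * (2 * Q.th - Q.Φ 1 1) + Q.N 1 1 * Q.Φ 1 0) ∧
    Q.Φ 1 0 * Q.N 0 1 + Q.Φ 1 1 * Q.N 1 1 =
      algebraMap 𝒪 T c.v * (Q.N 1 0 * Q.Φ 0 1 + Q.N 1 1 * Q.Φ 1 1) := by
  have e1 : Q.Φ 0 0 = 2 * Q.th - Q.Φ 1 1 := by linear_combination - Q.two_mul_th
  have e2 : Q.N 0 0 = - Q.N 1 1 := by linear_combination Q.trN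
  have h := Q.rel
  have h00 := congrFun (congrFun h 0) 0
  have h01 := congrFun (congrFun h 0) 1
  have h10 := congrFun (congrFun h 1) 0
  have h11 := congrFun (congrFun h 1) 1
  simp only [Matrix.mul_apply, Fin.sum_univ_two, Matrix.smul_apply, smul_eq_mul, e1, e2]
    at h00 h01 h10 h11
  exact ⟨h00, h01, h10, h11⟩


theorem map_tau : algebraMap 𝒪 T c.tau = algebraMap 𝒪 T c.sgn * (algebraMap 𝒪 T c.v - 1) := by
  unfold ScConst.tau
  rw [map_mul, map_sub, map_one]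

theorem map_theta0 : algebraMap 𝒪 T c.theta0 =
    algebraMap 𝒪 T c.sgn * (1 + algebraMap 𝒪 T c.v) * algebraMap 𝒪 T c.half := by
  unfold ScConst.theta0
  rw [map_mul, map_mul, map_add, map_one]

/-- **the relations hold at the coordinates** (atoms form) -/
theorem relGens_atoms :
    - ((1 - algebraMap 𝒪 T c.v) * (Q.th - algebraMap 𝒪 T c.theta0) * Q.coords 0) +
        (Q.coords 0 * Q.coords 3 - Q.coords 2 * Q.coords 4) -
        algebraMap 𝒪 T c.v * (Q.coords 0 * Q.coords 3 - Q.coords 1 * Q.coords 5 -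
          algebraMap 𝒪 T c.tau * Q.coords 0) = 0 ∧
    (1 - algebraMap 𝒪 T c.v) * (Q.th - algebraMap 𝒪 T c.theta0) * Q.coords 1 -
        (1 + algebraMap 𝒪 T c.v) * (Q.coords 1 * Q.coords 3 - Q.coords 0 * Q.coords 4) = 0 ∧
    - ((1 - algebraMap 𝒪 T c.v) * (Q.th - algebraMap 𝒪 T c.theta0) * Q.coords 2) -
        (1 + algebraMap 𝒪 T c.v) * (Q.coords 2 * Q.coords 3 - Q.coords 0 * Q.coords 5 -
          algebraMap 𝒪 T c.tau * Q.coords 2) = 0 ∧
    (1 - algebraMap 𝒪 T c.v) * (Q.th - algebraMap 𝒪 T c.theta0) * Q.coords 0 +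
        (Q.coords 0 * Q.coords 3 - Q.coords 1 * Q.coords 5 - algebraMap 𝒪 T c.tau * Q.coords 0) -
        algebraMap 𝒪 T c.v * (Q.coords 0 * Q.coords 3 - Q.coords 2 * Q.coords 4) = 0 := by
  obtain ⟨e00, e01, e10, e11⟩ := Q.rel_entries
  have hh := two_mul_half (c := c) (T := T)
  have hx0 : Q.coords 0 = Q.N 1 1 := rfl
  have hx1 : Q.coords 1 = Q.N 0 1 := rfl
  have hx2 : Q.coords 2 = - Q.N 1 0 := rfl
  have hx3 : Q.coords 3 = Q.Φ 1 1 - Q.th + algebraMap 𝒪 T c.tau * algebraMap 𝒪 T c.half := rfl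
  have hx4 : Q.coords 4 = Q.Φ 0 1 := rfl
  have hx5 : Q.coords 5 = - Q.Φ 1 0 := rfl
  rw [hx0, hx1, hx2, hx3, hx4, hx5, map_tau, map_theta0]
  refine ⟨?_, ?_, ?_, ?_⟩
  · linear_combination e00 + (- (Q.N 1 1 * algebraMap 𝒪 T c.v * algebraMap 𝒪 T c.sgn *
      (algebraMap 𝒪 T c.v - 1))) * hh
  · linear_combination e01
  · linear_combination e10 + (Q.N 1 0 * algebraMap 𝒪 T c.sgn * (1 + algebraMap 𝒪 T c.v) *
      (algebraMap 𝒪 T c.v - 1)) * hh
  · linear_combination e11 + (Q.N 1 1 * algebraMap 𝒪 T c.sgn * (algebraMap 𝒪 T c.v - 1)) * hh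

/-- `N² = 0`: `a² - b c = 0` -/
theorem g1_atoms : Q.coords 0 ^ 2 - Q.coords 1 * Q.coords 2 = 0 := by
  have hx0 : Q.coords 0 = Q.N 1 1 := rfl
  have hx1 : Q.coords 1 = Q.N 0 1 := rfl
  have hx2 : Q.coords 2 = - Q.N 1 0 := rfl
  have e2 : Q.N 0 0 = - Q.N 1 1 := by linear_combination Q.trN
  have h := Q.detN
  rw [e2] at h
  rw [hx0, hx1, hx2]
  linear_combination - h

end ScPoint

end Point

/-! ### the evaluation at the coordinates -/

section EvalPoint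

variable {𝒪 : Type*} [CommRing 𝒪] {c : ScConst 𝒪}
  {T : Type*} [CommRing T] [IsLocalRing T] [Algebra 𝒪 T] [IsAdicComplete (maximalIdeal T) T]
  (Q : ScPoint c T)

namespace ScPoint

/-- the evaluation at the coordinates -/
noncomputable def ev : MvPowerSeries (Fin 6) 𝒪 →ₐ[𝒪] T :=
  psLift (maximalIdeal T) Q.coords Q.coords_mem

@[simp] theorem ev_sa : Q.ev sa = Q.coords 0 := psLift_X _ _ _ 0
@[simp] theorem ev_sb : Q.ev sb = Q.coords 1 := psLift_X _ _ _ 1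
@[simp] theorem ev_sc : Q.ev sc = Q.coords 2 := psLift_X _ _ _ 2
@[simp] theorem ev_sx : Q.ev sx = Q.coords 3 := psLift_X _ _ _ 3
@[simp] theorem ev_sy : Q.ev sy = Q.coords 4 := psLift_X _ _ _ 4
@[simp] theorem ev_sz : Q.ev sz = Q.coords 5 := psLift_X _ _ _ 5
@[simp] theorem ev_C (r : 𝒪) : Q.ev (C r) = algebraMap 𝒪 T r := psLift_C _ _ _ r

theorem ev_thElt : Q.ev (thElt c.tau) =
    Q.coords 3 ^ 2 - algebraMap 𝒪 T c.tau * Q.coords 3 - Q.coords 4 * Q.coords 5 := by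
  simp [thElt]

theorem ev_mem_span_of_constantCoeff (f : MvPowerSeries (Fin 6) 𝒪) (hf : constantCoeff f = 0) :
    Q.ev f ∈ Ideal.span (Set.range Q.coords) :=
  psLift_mem_span_of_constantCoeff _ _ _ f hf

theorem span_coords_le : Ideal.span (Set.range Q.coords) ≤ maximalIdeal T :=
  span_range_le _ _ Q.coords_mem

include Q in
theorem isUnit_two : IsUnit (2 : T) := IsUnit.of_mul_eq_one _ (two_mul_half (c := c) (T := T))

theorem isUnit_th : IsUnit Q.th := by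
  by_contra h
  have h1 : Q.th ∈ maximalIdeal T := (IsLocalRing.mem_maximalIdeal _).mpr h
  have h2 := Ideal.sub_mem _ h1 Q.th_sub_sgn_mem
  rw [sub_sub_cancel] at h2
  exact (IsLocalRing.mem_maximalIdeal _).mp h2 (c.isUnit_sgn.map (algebraMap 𝒪 T))

/-- **the value of `θ` is `tr Φ / 2`** -/
theorem ev_theta : Q.ev (theta c) = Q.th := by
  apply LOC.eq_of_sq_eq_sq_of_sub_mem (maximalIdeal T)
    (by rw [IsLocalRing.jacobson_eq_maximalIdeal ⊥ bot_ne_top]) Q.isUnit_two Q.isUnit_th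
  · rw [← map_pow, theta_sq, map_add, ev_C, ev_thElt, Q.th_sq]
  · have h1 : Q.ev (theta c) - algebraMap 𝒪 T c.theta0 ∈ maximalIdeal T := by
      have : Q.ev (theta c) - algebraMap 𝒪 T c.theta0 = Q.ev (delta c) := by
        rw [delta, map_sub, ev_C]
      rw [this]
      exact Q.span_coords_le (Q.ev_mem_span_of_constantCoeff _ (constantCoeff_delta c))
    have h2 := Ideal.sub_mem _ h1 Q.th_sub_theta0_mem
    rwa [sub_sub_sub_cancel_right] at h2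

theorem ev_delta : Q.ev (delta c) = Q.th - algebraMap 𝒪 T c.theta0 := by
  rw [delta, map_sub, ev_C, ev_theta]

/-- `tr Φ / 2 - θ₀` lies in the ideal of the coordinates -/
theorem th_sub_theta0_mem_span : Q.th - algebraMap 𝒪 T c.theta0 ∈ Ideal.span (Set.range Q.coords) := by
  rw [← ev_delta]
  exact Q.ev_mem_span_of_constantCoeff _ (constantCoeff_delta c)

theorem ev_relGens (i : Fin 5) : Q.ev (relGens c i) = 0 := by
  obtain ⟨h1, h2, h3, h4⟩ := Q.relGens_atoms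
  have h0 := Q.g1_atoms
  fin_cases i
  · show Q.ev (sa ^ 2 - sb * sc) = 0
    simpa using h0
  · show Q.ev (- (C (1 - c.v) * delta c * sa) + (sa * sx - sc * sy) -
      C c.v * (sa * sx - sb * sz - C c.tau * sa)) = 0
    simpa [ev_delta] using h1
  · show Q.ev (C (1 - c.v) * delta c * sb - C (1 + c.v) * (sb * sx - sa * sy)) = 0
    simpa [ev_delta] using h2
  · show Q.ev (- (C (1 - c.v) * delta c * sc) - C (1 + c.v) *
      (sc * sx - sa * sz - C c.tau * sc)) = 0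
    simpa [ev_delta] using h3
  · show Q.ev (C (1 - c.v) * delta c * sa + (sa * sx - sb * sz - C c.tau * sa) -
      C c.v * (sa * sx - sc * sy)) = 0
    simpa [ev_delta] using h4

/-- **(E1)**: the relations are killed -/
theorem ev_relIdeal (f : MvPowerSeries (Fin 6) 𝒪) (hf : f ∈ relIdeal c) : Q.ev f = 0 := by
  have h : relIdeal c ≤ RingHom.ker Q.ev.toRingHom := by
    rw [relIdeal, Ideal.span_le]
    rintro _ ⟨i, rfl⟩
    exact Q.ev_relGens i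
  exact h hf

/-- `4 ev(th) = (tr Φ)² - (1 + v)²` -/
theorem four_mul_ev_thElt : 4 * Q.ev (thElt c.tau) =
    (Q.Φ 0 0 + Q.Φ 1 1) ^ 2 - (1 + algebraMap 𝒪 T c.v) ^ 2 := by
  have h1 := Q.th_sq
  have h2 := Q.two_mul_th
  have hs : algebraMap 𝒪 T c.sgn ^ 2 = 1 := by rw [← map_pow, c.sgn_sq, map_one]
  have h3 : (2 : T) * algebraMap 𝒪 T c.theta0 = algebraMap 𝒪 T c.sgn * (1 + algebraMap 𝒪 T c.v) := by
    have := congrArg (algebraMap 𝒪 T) c.two_mul_theta0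
    rwa [map_mul, map_ofNat, map_mul, map_add, map_one] at this
  rw [ev_thElt]
  rw [map_pow] at h1
  linear_combination (-4 : T) * h1 + (2 * Q.th + (Q.Φ 0 0 + Q.Φ 1 1)) * h2 -
    (2 * algebraMap 𝒪 T c.theta0 + algebraMap 𝒪 T c.sgn * (1 + algebraMap 𝒪 T c.v)) * h3 -
    (1 + algebraMap 𝒪 T c.v) ^ 2 * hs

/-- **(E5), exact form**: `ev(th) = unit · ((1 + v) - sgn · tr Φ)` -/
theorem ev_thElt_eq_unit_mul : ∃ u : T, IsUnit u ∧
    Q.ev (thElt c.tau) = u * ((1 + algebraMap 𝒪 T c.v) -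
      algebraMap 𝒪 T c.sgn * (Q.Φ 0 0 + Q.Φ 1 1)) := by
  have hs : algebraMap 𝒪 T c.sgn ^ 2 = 1 := by rw [← map_pow, c.sgn_sq, map_one]
  have h3 : (2 : T) * algebraMap 𝒪 T c.theta0 = algebraMap 𝒪 T c.sgn * (1 + algebraMap 𝒪 T c.v) := by
    have := congrArg (algebraMap 𝒪 T) c.two_mul_theta0
    rwa [map_mul, map_ofNat, map_mul, map_add, map_one] at this
  have hh := two_mul_half (c := c) (T := T)
  refine ⟨- (algebraMap 𝒪 T c.half * algebraMap 𝒪 T c.sgn * (Q.th + algebraMap 𝒪 T c.theta0)), ?_, ?_⟩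
  · apply IsUnit.neg
    apply IsUnit.mul ((c.isUnit_half.map (algebraMap 𝒪 T)).mul (c.isUnit_sgn.map (algebraMap 𝒪 T)))
    -- `θ + θ₀ = 2 θ + (θ₀ - θ)`
    by_contra h
    have h1 : Q.th + algebraMap 𝒪 T c.theta0 ∈ maximalIdeal T := (IsLocalRing.mem_maximalIdeal _).mpr h
    have h2 := Ideal.add_mem _ h1 Q.th_sub_theta0_mem
    have h4 : Q.th + algebraMap 𝒪 T c.theta0 + (Q.th - algebraMap 𝒪 T c.theta0) = 2 * Q.th := by ring
    rw [h4] at h2
    exact (IsLocalRing.mem_maximalIdeal _).mp h2 (Q.isUnit_two.mul Q.isUnit_th)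
  · have h1 := Q.th_sq
    rw [map_pow] at h1
    rw [ev_thElt]
    linear_combination (-1 : T) * h1 +
      (algebraMap 𝒪 T c.half * algebraMap 𝒪 T c.sgn ^ 2 * (Q.th + algebraMap 𝒪 T c.theta0)) *
        Q.two_mul_th -
      (algebraMap 𝒪 T c.half * (Q.th + algebraMap 𝒪 T c.theta0)) * h3 -
      (2 * algebraMap 𝒪 T c.half * Q.th * (Q.th + algebraMap 𝒪 T c.theta0)) * hs -
      (Q.th ^ 2 - algebraMap 𝒪 T c.theta0 ^ 2) * hh

end ScPoint

end EvalPoint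

end Fermat.Agent.ML.LocSc
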