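/-
PROJECT ML (S59) — [LOC-L] assembly, lead, file 1: evaluation of power series and renaming of
variables.

* `psLift_rename` : `psLift x (rename e f) = psLift (x ∘ e) f`;
* `psLift_mem_of_forall_gen`, `psLift_span_le` : ideals generated by finitely many series.
-/
import Mathlib
import Fermat.Agent.TW.PSLift_helper6
import Fermat.Agent.ML.LOCSC_helper4_Point

set_option autoImplicit false
set_option linter.unusedSectionVars false

namespace Fermat.Agent.ML.LocL

open MvPowerSeries IsLocalRing Fermat.Agent.TW Fermat.Agent.S53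

section Rename

variable {𝒪 : Type*} [CommRing 𝒪] {σ τ : Type*} [Finite σ] [Finite τ]
  {T : Type*} [CommRing T] [Algebra 𝒪 T] (I : Ideal T)

theorem coeff_rename_eq_zero_of_degree (e : σ ↪ τ) (n : ℕ) (t : MvPowerSeries σ 𝒪)
    (ht : ∀ d : σ →₀ ℕ, Finsupp.degree d < n → coeff d t = 0) (d : τ →₀ ℕ)
    (hd : Finsupp.degree d < n) : coeff d (rename (R := 𝒪) e t) = 0 := by
  rw [coeff_rename]
  refine Finset.sum_eq_zero fun y hy => ?_
  rw [Set.Finite.mem_toFinset, Set.mem_preimage, Set.mem_singleton_iff] at hy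
  apply ht
  rw [← Finsupp.degree_mapDomain e y, hy]
  exact hd

theorem psLiftLevel_rename (e : σ ↪ τ) (x : τ → T) (hx : ∀ i, x i ∈ I) (n : ℕ) :
    (psLiftLevel (𝒪 := 𝒪) I x hx n).comp (rename (R := 𝒪) e) =
      psLiftLevel (𝒪 := 𝒪) I (x ∘ e) (fun i => hx (e i)) n := by
  refine PS.algHom_ext_of_X n ?_ (fun t ht => psLiftLevel_eq_zero I _ _ n t ht) ?_
  · intro t ht
    rw [AlgHom.comp_apply]
    exact psLiftLevel_eq_zero I x hx n _ (coeff_rename_eq_zero_of_degree e n t ht)
  · intro i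
    rw [AlgHom.comp_apply, rename_X, psLiftLevel_X, psLiftLevel_X]
    rfl

variable [IsAdicComplete I T]

/-- **evaluation after renaming the variables** -/
theorem psLift_rename (e : σ ↪ τ) (x : τ → T) (hx : ∀ i, x i ∈ I) (f : MvPowerSeries σ 𝒪) :
    psLift I x hx (rename (R := 𝒪) e f) = psLift I (x ∘ e) (fun i => hx (e i)) f := by
  have hH : IsHausdorff I T := inferInstance
  rw [← sub_eq_zero]
  apply hH.haus'
  intro n
  rw [SModEq.zero, smul_eq_mul, Ideal.mul_top, ← Ideal.Quotient.eq, mk_psLift, mk_psLift,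
    ← psLiftLevel_rename I e x hx n, AlgHom.comp_apply]

/-- evaluation maps the image of an ideal under `rename` into `J` as soon as the evaluation of
the ideal lies in `J` -/
theorem psLift_map_rename_mem (e : σ ↪ τ) (x : τ → T) (hx : ∀ i, x i ∈ I)
    (K : Ideal (MvPowerSeries σ 𝒪)) (J : Ideal T)
    (h : ∀ f ∈ K, psLift I (x ∘ e) (fun i => hx (e i)) f ∈ J) :
    ∀ f ∈ K.map (rename (R := 𝒪) e).toRingHom, psLift I x hx f ∈ J := by
  have hle : K.map (rename (R := 𝒪) e).toRingHom ≤ J.comap (psLift (𝒪 := 𝒪) I x hx).toRingHom := by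
    rw [Ideal.map_le_iff_le_comap]
    intro f hf
    rw [Ideal.mem_comap, Ideal.mem_comap]
    show psLift I x hx (rename (R := 𝒪) e f) ∈ J
    rw [psLift_rename]
    exact h f hf
  intro f hf
  exact hle hf

/-- an ideal generated by a set is mapped into `J` if its generators are -/
theorem psLift_span_mem (x : σ → T) (hx : ∀ i, x i ∈ I) (S : Set (MvPowerSeries σ 𝒪))
    (J : Ideal T) (h : ∀ f ∈ S, psLift I x hx f ∈ J) :
    ∀ f ∈ Ideal.span S, psLift I x hx f ∈ J := by
  have hle : Ideal.span S ≤ J.comap (psLift (𝒪 := 𝒪) I x hx).toRingHom := by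
    rw [Ideal.span_le]
    intro f hf
    exact h f hf
  intro f hf
  exact hle hf

theorem psLift_sup_mem (x : σ → T) (hx : ∀ i, x i ∈ I) (K₁ K₂ : Ideal (MvPowerSeries σ 𝒪))
    (J : Ideal T) (h₁ : ∀ f ∈ K₁, psLift I x hx f ∈ J) (h₂ : ∀ f ∈ K₂, psLift I x hx f ∈ J) :
    ∀ f ∈ K₁ ⊔ K₂, psLift I x hx f ∈ J := by
  have hle : K₁ ⊔ K₂ ≤ J.comap (psLift (𝒪 := 𝒪) I x hx).toRingHom :=
    sup_le (fun f hf => h₁ f hf) (fun f hf => h₂ f hf)
  intro f hf
  exact hle hf

end Rename

end Fermat.Agent.ML.LocL
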