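/-
PROJECT ML (S59) — [LOC-L], lead — INTERFACE FILE `ML/IFACE_lead_Kinds`: the local kinds of the chain
primes, the mixed chain model and the per-prime chart contracts.

(`IsPeuRamifieeAt` and `StrictOfTresStatement` are in `ML/IFACE_lead_Peu`.)
* `LocalKind` : the local model of ONE chain prime, as ideals `rel, unr, new, st` and an element
  `th` of `𝒪⟦Fin nv⟧`;  `LocalKind.mono κ` (variables `T, Y, Z`; all `ns` primes),
  `LocalKind.ord n` (variables `T, Y` (+ `n` free ones); the prime `p`: `pns` ↦ `n = 0`,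
  `psp` ↦ `n = 1`).  The scalar kind `sc` is helper4's (`ML/LOCSC_helper4_*`).
* `mixedModel L g : ChainModel 𝒪 m (fun j => (L j).nv) g` : the chain model of a family of kinds.
* `IsChartAt ρ q sgn L c hc` : the contract (E1)–(E6) of `ChainChartStatement` for ONE chain prime
  `q ≠ p`, in the coordinates `c : Fin L.nv → 𝔪_T`.
* `NsChartStatement` (owner helper7): the chart of the `ns` kind.
* `MixedPrimeStatement` (owner helper4): primality, characteristic zero, dimension and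
  non-membership for the ideals "killed variables + disjoint Steinberg blocks (+ one quadric)" of
  a power series ring over `𝒪` in a finite set of variables — everything `ChainModel.Good` needs.
-/
import Mathlib
import Fermat.Agent.ML.IFACE_helper9_Chart
import Fermat.Agent.ML.LOCSC_helper4_Kind
import Fermat.Agent.ML.IFACE_lead_Peu

set_option autoImplicit false

open Polynomial IsLocalRing

namespace Fermat.Agent.ML

local notation "GQ" => (AlgebraicClosure ℚ ≃ₐ[ℚ] AlgebraicClosure ℚ)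

/-! ### local kinds -/

open MvPowerSeries in
/-- **the local model of one chain prime**: ideals of `𝒪⟦Fin nv⟧`. -/
structure LocalKind (𝒪 : Type) [CommRing 𝒪] where
  /-- the number of local variables -/
  nv : ℕ
  /-- relations valid when the prime divides the level -/
  rel : Ideal (MvPowerSeries (Fin nv) 𝒪)
  /-- relations valid when the prime does not divide the level -/
  unr : Ideal (MvPowerSeries (Fin nv) 𝒪)
  /-- relations valid on the new quotient -/
  new : Ideal (MvPowerSeries (Fin nv) 𝒪)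
  /-- the target component -/
  st : Ideal (MvPowerSeries (Fin nv) 𝒪)
  /-- the level raising element -/
  th : MvPowerSeries (Fin nv) 𝒪

namespace LocalKind

open MvPowerSeries

variable {𝒪 : Type} [CommRing 𝒪]

/-- **the monomial kind** (all `ns` primes): variables `T = X 0`, `Y = X 1`, `Z = X 2`,
`rel = (T Y, (T + κ) Z, Y Z)`, `unr = (Y, Z)`, `new = rel + (T (T + κ))`, `st = (T, Z)`, `th = T`. -/
noncomputable def mono (κ : 𝒪) : LocalKind 𝒪 where
  nv := 3
  rel := Ideal.span {X 0 * X 1, (X 0 + MvPowerSeries.C κ) * X 2, X 1 * X 2}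
  unr := Ideal.span {X 1, X 2}
  new := Ideal.span {X 0 * X 1, (X 0 + MvPowerSeries.C κ) * X 2, X 1 * X 2} ⊔ Ideal.span {X 0 * (X 0 + MvPowerSeries.C κ)}
  st := Ideal.span {X 0, X 2}
  th := X 0

/-- **the ordinary kind** (the prime `p`): variables `T = X 0`, `Y = X 1` and `n` free variables,
`rel = (T Y)`, `unr = (Y)`, `new = st = (T)`, `th = T`. -/
noncomputable def ord (n : ℕ) : LocalKind 𝒪 where
  nv := n + 2
  rel := Ideal.span {X 0 * X 1}
  unr := Ideal.span {X 1}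
  new := Ideal.span {X 0}
  st := Ideal.span {X 0}
  th := X 0

end LocalKind

/-! ### the mixed chain model -/

section Mixed

variable {𝒪 : Type} [CommRing 𝒪] {m : ℕ}

/-- the local variables of the `j`-th chain prime inside all the variables -/
def blockEmb (nv : Fin m → ℕ) (g : ℕ) (j : Fin m) : Fin (nv j) ↪ CVar m nv g where
  toFun a := Sum.inl ⟨j, a⟩
  inj' a b h := by
    have h1 : (⟨j, a⟩ : Σ j : Fin m, Fin (nv j)) = ⟨j, b⟩ := Sum.inl_injective h
    exact eq_of_heq (Sigma.mk.inj h1).2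

/-- the inclusion of the local ring of the `j`-th chain prime -/
noncomputable def blockHom (𝒪 : Type) [CommRing 𝒪] (nv : Fin m → ℕ) (g : ℕ) (j : Fin m) :
    MvPowerSeries (Fin (nv j)) 𝒪 →ₐ[𝒪] CPS 𝒪 m nv g :=
  MvPowerSeries.rename (blockEmb nv g j)

/-- **the chain model of a family of local kinds** -/
noncomputable def mixedModel (L : Fin m → LocalKind 𝒪) (g : ℕ) :
    ChainModel 𝒪 m (fun j => (L j).nv) g where
  rel j := (L j).rel.map (blockHom 𝒪 (fun j => (L j).nv) g j).toRingHom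
  unr j := (L j).unr.map (blockHom 𝒪 (fun j => (L j).nv) g j).toRingHom
  new j := (L j).new.map (blockHom 𝒪 (fun j => (L j).nv) g j).toRingHom
  st j := (L j).st.map (blockHom 𝒪 (fun j => (L j).nv) g j).toRingHom
  th j := blockHom 𝒪 (fun j => (L j).nv) g j (L j).th

end Mixed

/-! ### the chart of one chain prime `q ≠ p` -/

section Chart

variable {𝒪 : Type} [CommRing 𝒪] [IsLocalRing 𝒪]
  {T : Type} [CommRing T] [IsLocalRing T] [Algebra 𝒪 T] [IsAdicComplete (maximalIdeal T) T]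

/-- **(E1)–(E6) for one chain prime `q ≠ p`** with sign `sgn`, local kind `L` and local
coordinates `c`. -/
structure IsChartAt (ρ : GaloisRepAdic T) (q : ℕ) (sgn : 𝒪) (L : LocalKind 𝒪)
    (c : Fin L.nv → T) (hc : ∀ a, c a ∈ maximalIdeal T) : Prop where
  /-- (E6) -/
  triv : IsLocTrivIdeal 𝒪 ρ q (Ideal.span (Set.range c))
  /-- (E1) -/
  rel : ∀ f ∈ L.rel, TW.psLift (maximalIdeal T) c hc f = 0
  /-- (E2) -/
  unr : ∀ f ∈ L.unr, TW.psLift (maximalIdeal T) c hc f ∈ RB.inertiaIdeal ρ q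
  /-- (E3) -/
  new : ∀ f ∈ L.new, TW.psLift (maximalIdeal T) c hc f ∈
    Ideal.span {a : T | ∃ (P : ValuationSubring (AlgebraicClosure ℚ))
      (_ : P.LiesOverPrime q) (φ : GQ) (_ : P.IsFrobeniusAt φ q),
      a = ρ.trace φ ^ 2 - (((q : ℕ) : T) + 1) ^ 2}
  /-- (E4) -/
  st : ∀ (ρW : GaloisRepAdic 𝒪), ρW.IsUnipotentOnInertiaAt q →
    (∀ A : ValuationSubring (AlgebraicClosure ℚ), A.LiesOverPrime q →
      ∀ φ : GQ, A.IsFrobeniusAt φ q →
        LinearMap.charpoly (ρW.ρ φ) = (X - C sgn) * (X - C (sgn * ((q : ℕ) : 𝒪)))) →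
    ∀ π : T →ₐ[𝒪] 𝒪, (∀ σ : GQ, π (ρ.trace σ) = ρW.trace σ) →
      ∀ f ∈ L.st, π (TW.psLift (maximalIdeal T) c hc f) = 0
  /-- (E5) -/
  th : ∀ (P : ValuationSubring (AlgebraicClosure ℚ)), P.LiesOverPrime q →
    ∀ φ : GQ, P.IsFrobeniusAt φ q → ∃ u : T, IsUnit u ∧
      TW.psLift (maximalIdeal T) c hc L.th -
        u * ((((q : ℕ) : T)) + 1 - algebraMap 𝒪 T sgn * ρ.trace φ) ∈ RB.inertiaIdeal ρ q

end Chart

/-- **[NS-CHART]** (owner helper7): the chart of a chain prime `q ≠ p` of kind `ns` (Frobenius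
non-scalar modulo `𝔪`), on the monomial model with
`κ = 2 sgn (q + 1)` if `q ≢ -1 mod p` (then `κ` is a unit; companion basis of a Frobenius lift
`φ₀`, `T = tr ρ(φ₀) - sgn (q + 1)`, `ρ(τ₀) - 1 = Y · [[t/(1+q), 1], [-1, -t/(1+q)]]`, `Z = 0`;
`T Y = 0` uses that `T` is `𝒪`-torsion-free when `q ≡ 1`), resp.
`q κ = q² - 1` if `q ≡ -1 mod p` (eigenbasis of `φ₀`: `ρ(φ₀) = diag(α, β)`, `β ≡ sgn`,
`T = α/β - q`, `ρ(τ₀) - 1 = [[0, Y], [Z, 0]]`). -/
def NsChartStatement : Prop :=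
  ∀ {𝒪 : Type} [CommRing 𝒪] [IsDomain 𝒪] [IsDiscreteValuationRing 𝒪]
    [IsAdicComplete (maximalIdeal 𝒪) 𝒪] [Finite (ResidueField 𝒪)]
    (p : ℕ) [Fact p.Prime] (_ : p ≠ 2) (_ : (p : 𝒪) ∈ maximalIdeal 𝒪) (_ : (p : 𝒪) ≠ 0)
    (ρbar : ResidualGaloisRep (ResidueField 𝒪))
    (q : ℕ) (_ : q.Prime) (sgn : 𝒪) (_ : sgn ^ 2 = 1)
    (_ : ChainKind.ns.Holds ρbar p q)
    (_ : ∀ A : ValuationSubring (AlgebraicClosure ℚ), A.LiesOverPrime q →
      ∀ φ : GQ, A.IsFrobeniusAt φ q →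
        LinearMap.charpoly (ρbar.ρ φ) =
          (X - C (residue 𝒪 sgn)) * (X - C (residue 𝒪 sgn * ((q : ℕ) : ResidueField 𝒪))))
    (κ : 𝒪)
    (_ : (IsUnit (((q : ℕ) : 𝒪) + 1) ∧ κ = 2 * sgn * (((q : ℕ) : 𝒪) + 1)) ∨
      (¬ IsUnit (((q : ℕ) : 𝒪) + 1) ∧ ((q : ℕ) : 𝒪) * κ = ((q : ℕ) : 𝒪) ^ 2 - 1))
    (T : Type) [CommRing T] [IsLocalRing T] [IsNoetherianRing T]
    [IsAdicComplete (maximalIdeal T) T] [Algebra 𝒪 T] [IsLocalHom (algebraMap 𝒪 T)]
    [Module.Finite 𝒪 T]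
    (_ : Function.Surjective (IsLocalRing.residue T ∘ algebraMap 𝒪 T))
    (_ : ∀ a : 𝒪, a ≠ 0 → ∀ t : T, a • t = 0 → t = 0)
    (ρ : GaloisRepAdic T)
    (_ : ρ.residual.IsEquiv
      (ρbar.baseChangeAlong (IsLocalRing.ResidueField.map (algebraMap 𝒪 T))))
    (_ : ρ.DetIsCyclotomic p) (_ : ρ.IsUnipotentOnInertiaAt q),
    ∃ (c : Fin (LocalKind.mono κ).nv → T) (hc : ∀ a, c a ∈ maximalIdeal T),
      IsChartAt ρ q sgn (LocalKind.mono κ) c hc

/-! ### the mixed prime ideals -/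

section MixedPrime

open MvPowerSeries

/-- killed variables `K` and disjoint Steinberg blocks `e s : Fin 6 ↪ ι` with parameters `τ s` -/
noncomputable def blockIdeal {𝒪 : Type} [CommRing 𝒪] {ι : Type} [Finite ι] (K : Set ι) {n : ℕ}
    (e : Fin n → (Fin 6 ↪ ι)) (τ : Fin n → 𝒪) : Ideal (MvPowerSeries ι 𝒪) :=
  Ideal.span ((X : ι → MvPowerSeries ι 𝒪) '' K) ⊔
    ⨆ s : Fin n, (LocSc.stIdeal (τ s)).map (MvPowerSeries.rename (R := 𝒪) (e s)).toRingHom

/-- **[MIXED-PRIME]** (owner helper4; flat form of his lemma (d)): in `𝒪⟦ι⟧`, `ι` finite, the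
ideal generated by a set `K` of variables and the Steinberg ideals of disjoint six-variable blocks
(`λ ∣ τ s`) is prime, of characteristic zero, of dimension `≤ 1 + #ι - #K - 3 n`, does not contain
the free variables nor the variable `b` of a block; and the same with the quadric `x² - τ' x - y z`
of one further block whose variables `a, b, c` are killed (dimension one less). -/
def MixedPrimeStatement : Prop :=
  ∀ {𝒪 : Type} [CommRing 𝒪] [IsDomain 𝒪] [IsDiscreteValuationRing 𝒪]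
    (lam : 𝒪) (_ : Irreducible lam) {ι : Type} [Fintype ι] (K : Finset ι) {n : ℕ}
    (e : Fin n → (Fin 6 ↪ ι)) (τ : Fin n → 𝒪) (_ : ∀ s, lam ∣ τ s)
    (_ : ∀ s s', s ≠ s' → Disjoint (Set.range (e s)) (Set.range (e s')))
    (_ : ∀ s, Disjoint (K : Set ι) (Set.range (e s))),
    ((blockIdeal (K : Set ι) e τ).IsPrime ∧
      (C lam : MvPowerSeries ι 𝒪) ∉ blockIdeal (K : Set ι) e τ ∧
      ringKrullDim (MvPowerSeries ι 𝒪 ⧸ blockIdeal (K : Set ι) e τ) +
          ((K.card + 3 * n : ℕ) : WithBot ℕ∞) ≤ ((Fintype.card ι + 1 : ℕ) : WithBot ℕ∞) ∧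
      (∀ i : ι, i ∉ K → (∀ s, i ∉ Set.range (e s)) →
        (X i : MvPowerSeries ι 𝒪) ∉ blockIdeal (K : Set ι) e τ) ∧
      (∀ s, (X (e s 1) : MvPowerSeries ι 𝒪) ∉ blockIdeal (K : Set ι) e τ)) ∧
    ∀ (e' : Fin 6 ↪ ι) (τ' : 𝒪), lam ∣ τ' →
      (∀ s, Disjoint (Set.range e') (Set.range (e s))) →
      (∀ a : Fin 6, e' a ∈ K ↔ a.val < 3) →
      ((blockIdeal (K : Set ι) e τ ⊔
          Ideal.span {MvPowerSeries.rename (R := 𝒪) e' (LocSc.thElt τ')}).IsPrime ∧
        (C lam : MvPowerSeries ι 𝒪) ∉ blockIdeal (K : Set ι) e τ ⊔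
          Ideal.span {MvPowerSeries.rename (R := 𝒪) e' (LocSc.thElt τ')} ∧
        ringKrullDim (MvPowerSeries ι 𝒪 ⧸ (blockIdeal (K : Set ι) e τ ⊔
            Ideal.span {MvPowerSeries.rename (R := 𝒪) e' (LocSc.thElt τ')})) +
          ((K.card + 3 * n + 1 : ℕ) : WithBot ℕ∞) ≤ ((Fintype.card ι + 1 : ℕ) : WithBot ℕ∞) ∧
        (∀ i : ι, i ∉ K → (∀ s, i ∉ Set.range (e s)) → i ∉ Set.range e' →
          (X i : MvPowerSeries ι 𝒪) ∉ blockIdeal (K : Set ι) e τ ⊔
            Ideal.span {MvPowerSeries.rename (R := 𝒪) e' (LocSc.thElt τ')}) ∧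
        (∀ s, (X (e s 1) : MvPowerSeries ι 𝒪) ∉ blockIdeal (K : Set ι) e τ ⊔
            Ideal.span {MvPowerSeries.rename (R := 𝒪) e' (LocSc.thElt τ')}))

end MixedPrime

end Fermat.Agent.ML
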