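/-
PROJECT ML (S59), block [LOC-L], scalar kind — file 5: relative dimension bounds for the three
ideals of the scalar kind, in the abstract `Pair` framework (base `B` noetherian, NOT complete).

* `ringKrullDim_quotient_le_add_card` : `dim A/𝔞 ≤ dim A/(𝔞 + (s)) + #s` for `s ⊆ Jac(A)`;
* `dim_le_of_sq_le` : if `Pair J l`, `l ∈ Jac(B)`, and modulo `J, K, l` and `#s` further elements of
  `(X)` all monomials of degree `2` die, then `dim B⟦X⟧/(J + K) ≤ dim B/J + #s`
  (go through `l`: `dim B/(J + l) + 1 ≤ dim B/J` because `l` is regular, and `B⟦X⟧/(…)` is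
  integral over `B/(J + l)` — no completeness needed);
* `dim_unr_le` (3), `dim_st_le` (3), `dim_unrTh_le` (2).
helper4.
-/
import Mathlib
import Fermat.Agent.RB.CA_helper4_IntegralDim
import Fermat.Agent.ML.LOCSC_helper4_Kind

set_option autoImplicit false
set_option linter.unusedSectionVars false
set_option linter.style.haveILetI false

namespace Fermat.Agent.ML.LocSc

open MvPowerSeries Fermat.Agent.RB Fermat.Agent.RB.LOC

/-- `dim A/𝔞 ≤ dim A/(𝔞 + (s)) + #s` for a finite set `s` in the Jacobson radical. -/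
theorem ringKrullDim_quotient_le_add_card {A : Type*} [CommRing A] [IsNoetherianRing A]
    (𝔞 : Ideal A) (s : Finset A) (hs : ∀ x ∈ s, x ∈ (⊥ : Ideal A).jacobson) :
    ringKrullDim (A ⧸ 𝔞) ≤ ringKrullDim (A ⧸ (𝔞 ⊔ Ideal.span (s : Set A))) + s.card := by
  classical
  set S' : Set (A ⧸ 𝔞) := (Ideal.Quotient.mk 𝔞) '' (s : Set A) with hS'
  have hjac : S' ⊆ Ring.jacobson (A ⧸ 𝔞) := by
    rintro _ ⟨x, hx, rfl⟩
    have h1 := mk_mem_jacobson_bot (J := 𝔞) (hs x hx)
    rw [Ideal.jacobson_bot] at h1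
    exact h1
  have h1 := ringKrullDim_le_ringKrullDim_quotient_add_encard S' hjac
  have h2 : Ideal.span S' = (Ideal.span (s : Set A)).map (Ideal.Quotient.mk 𝔞) := by
    rw [Ideal.map_span]
  have h3 : ringKrullDim ((A ⧸ 𝔞) ⧸ Ideal.span S') =
      ringKrullDim (A ⧸ (𝔞 ⊔ Ideal.span (s : Set A))) := by
    rw [h2]
    exact ringKrullDim_eq_of_ringEquiv (DoubleQuot.quotQuotEquivQuotSup 𝔞 (Ideal.span (s : Set A)))
  have h4 : S'.encard ≤ (s.card : ℕ∞) := by
    calc S'.encard ≤ (s : Set A).encard := Set.encard_image_le _ _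
      _ = s.card := Set.encard_coe_eq_coe_finsetCard s
  rw [h3] at h1
  refine le_trans h1 ?_
  gcongr
  exact_mod_cast h4


section Main

variable {B : Type*} [CommRing B] [IsNoetherianRing B] {σ : Type*} [Finite σ]

/-- `dim B/(J + l) + 1 ≤ dim B/J` when `l` is regular modulo `J` -/
theorem dim_quotient_sup_succ_le {J : Ideal B} {l : B} (h : Pair J l) :
    ringKrullDim (B ⧸ (J ⊔ Ideal.span {l})) + 1 ≤ ringKrullDim (B ⧸ J) := by
  have hnzd : Ideal.Quotient.mk J l ∈ nonZeroDivisors (B ⧸ J) := by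
    rw [mem_nonZeroDivisors_iff_right]
    intro x hx
    obtain ⟨x, rfl⟩ := Ideal.Quotient.mk_surjective x
    rw [← map_mul, Ideal.Quotient.eq_zero_iff_mem, mul_comm] at hx
    exact Ideal.Quotient.eq_zero_iff_mem.mpr (h.reg x hx)
  have h1 := ringKrullDim_quotient_succ_le_of_nonZeroDivisor hnzd
  have h2 : Ideal.span {Ideal.Quotient.mk J l} = (Ideal.span {l}).map (Ideal.Quotient.mk J) := by
    rw [Ideal.map_span, Set.image_singleton]
  rw [h2, ringKrullDim_eq_of_ringEquiv (DoubleQuot.quotQuotEquivQuotSup J (Ideal.span {l}))] at h1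
  exact h1

/-- **the relative dimension bound.** -/
theorem dim_le_of_sq_le {J : Ideal B} {l : B} (h : Pair J l) (hjac : l ∈ (⊥ : Ideal B).jacobson)
    (K : Ideal (MvPowerSeries σ B)) (s : Finset (MvPowerSeries σ B))
    (hs : ∀ f ∈ s, f ∈ Ideal.span (Set.range (X : σ → MvPowerSeries σ B)))
    (hsq : Ideal.span (Set.range (X : σ → MvPowerSeries σ B)) ^ 2 ≤
      J.map (C (σ := σ) (R := B)) ⊔ K ⊔ Ideal.span {C l} ⊔ Ideal.span (s : Set (MvPowerSeries σ B))) :
    ringKrullDim (MvPowerSeries σ B ⧸ (J.map (C (σ := σ) (R := B)) ⊔ K)) ≤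
      ringKrullDim (B ⧸ J) + s.card := by
  classical
  set 𝔞 : Ideal (MvPowerSeries σ B) := J.map (C (σ := σ) (R := B)) ⊔ K with h𝔞
  set I : Ideal B := J ⊔ Ideal.span {l} with hI
  set s' : Finset (MvPowerSeries σ B) := insert (C l) s with hs'
  set 𝔟 : Ideal (MvPowerSeries σ B) := 𝔞 ⊔ Ideal.span (s' : Set (MvPowerSeries σ B)) with h𝔟
  -- step 1: Hauptidealsatz
  have h1 : ringKrullDim (MvPowerSeries σ B ⧸ 𝔞) ≤ ringKrullDim (MvPowerSeries σ B ⧸ 𝔟) + s'.card := by
    apply ringKrullDim_quotient_le_add_card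
    intro x hx
    rw [hs', Finset.mem_insert] at hx
    rcases hx with rfl | hx
    · apply mem_jacobson_of_constantCoeff_mem
      rw [constantCoeff_C]
      exact hjac
    · exact span_X_le_jacobson (hs x hx)
  have hcard : (s'.card : WithBot ℕ∞) ≤ (s.card : WithBot ℕ∞) + 1 := by
    have := Finset.card_insert_le (C l) s
    exact_mod_cast this
  -- the ideal `𝔟` contains `(X)^2`, `C l`, `C J`
  have h𝔟' : 𝔟 = 𝔞 ⊔ Ideal.span {C l} ⊔ Ideal.span (s : Set (MvPowerSeries σ B)) := by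
    rw [h𝔟, hs', Finset.coe_insert, Ideal.span_insert, ← sup_assoc]
  have hsq𝔟 : Ideal.span (Set.range (X : σ → MvPowerSeries σ B)) ^ 2 ≤ 𝔟 := by
    rw [h𝔟']
    exact hsq
  have hCI : ∀ r ∈ I, (C r : MvPowerSeries σ B) ∈ 𝔟 := by
    intro r hr
    obtain ⟨j, hj, z, hz, rfl⟩ := Submodule.mem_sup.mp hr
    obtain ⟨c, rfl⟩ := Ideal.mem_span_singleton'.mp hz
    rw [map_add, map_mul]
    refine Ideal.add_mem _ ?_ ?_
    · rw [h𝔟']
      exact Ideal.mem_sup_left (Ideal.mem_sup_left (Ideal.mem_sup_left (Ideal.mem_map_of_mem _ hj)))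
    · rw [h𝔟']
      exact Ideal.mul_mem_left _ _
        (Ideal.mem_sup_left (Ideal.mem_sup_right (Ideal.subset_span rfl)))
  -- step 2: `A/𝔟` is integral over `B/I`
  let φ : B ⧸ I →+* MvPowerSeries σ B ⧸ 𝔟 := Ideal.Quotient.lift I ((Ideal.Quotient.mk 𝔟).comp (C (σ := σ) (R := B)))
    (fun r hr => by
      rw [RingHom.comp_apply, Ideal.Quotient.eq_zero_iff_mem]
      exact hCI r hr)
  letI : Algebra (B ⧸ I) (MvPowerSeries σ B ⧸ 𝔟) := φ.toAlgebra
  haveI : Algebra.IsIntegral (B ⧸ I) (MvPowerSeries σ B ⧸ 𝔟) := by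
    constructor
    intro x
    obtain ⟨f, rfl⟩ := Ideal.Quotient.mk_surjective x
    have hn : f - C (constantCoeff f) ∈ Ideal.span (Set.range (X : σ → MvPowerSeries σ B)) := by
      rw [← TK.ker_constantCoeff, RingHom.mem_ker, map_sub, constantCoeff_C, sub_self]
    have hsplit : Ideal.Quotient.mk 𝔟 f =
        algebraMap (B ⧸ I) (MvPowerSeries σ B ⧸ 𝔟) (Ideal.Quotient.mk I (constantCoeff f)) +
          Ideal.Quotient.mk 𝔟 (f - C (constantCoeff f)) := by
      change _ = φ (Ideal.Quotient.mk I (constantCoeff f)) + _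
      rw [Ideal.Quotient.lift_mk, RingHom.comp_apply, ← map_add]
      congr 1
      ring
    rw [hsplit]
    refine IsIntegral.add isIntegral_algebraMap ?_
    apply IsIntegral.of_pow (n := 2) (by norm_num)
    have h0 : (Ideal.Quotient.mk 𝔟 (f - C (constantCoeff f))) ^ 2 = 0 := by
      rw [← map_pow, Ideal.Quotient.eq_zero_iff_mem]
      exact hsq𝔟 (Ideal.pow_mem_pow hn 2)
    rw [h0]
    exact isIntegral_zero
  have h2 : ringKrullDim (MvPowerSeries σ B ⧸ 𝔟) ≤ ringKrullDim (B ⧸ I) := RB.ringKrullDim_le_of_isIntegral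
  -- step 3
  have h3 := dim_quotient_sup_succ_le h
  calc ringKrullDim (MvPowerSeries σ B ⧸ 𝔞) ≤ ringKrullDim (MvPowerSeries σ B ⧸ 𝔟) + s'.card := h1
    _ ≤ ringKrullDim (B ⧸ I) + ((s.card : WithBot ℕ∞) + 1) := add_le_add h2 hcard
    _ = (ringKrullDim (B ⧸ I) + 1) + s.card := by
      rw [add_comm (s.card : WithBot ℕ∞) 1, add_assoc]
    _ ≤ ringKrullDim (B ⧸ J) + s.card := by gcongr

end Main

section Applications

variable {B : Type*} [CommRing B] [IsNoetherianRing B]

theorem span_X_sq_le {σ : Type*} {N : Ideal (MvPowerSeries σ B)}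
    (h : ∀ i j : σ, (X i * X j : MvPowerSeries σ B) ∈ N) :
    Ideal.span (Set.range (X : σ → MvPowerSeries σ B)) ^ 2 ≤ N := by
  rw [pow_two, Ideal.span_mul_span', Ideal.span_le]
  rintro _ ⟨_, ⟨i, rfl⟩, _, ⟨j, rfl⟩, rfl⟩
  exact h i j

theorem X_fin6_cases (i : Fin 6) : (X i : MvPowerSeries (Fin 6) B) = sa ∨
    (X i : MvPowerSeries (Fin 6) B) = sb ∨ (X i : MvPowerSeries (Fin 6) B) = sc ∨
    (X i : MvPowerSeries (Fin 6) B) = sx ∨ (X i : MvPowerSeries (Fin 6) B) = sy ∨
    (X i : MvPowerSeries (Fin 6) B) = sz := by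
  fin_cases i <;> simp [sa, sb, sc, sx, sy, sz]

theorem X_fin6_mem (i : Fin 6) :
    (X i : MvPowerSeries (Fin 6) B) ∈ Ideal.span (Set.range (X : Fin 6 → MvPowerSeries (Fin 6) B)) :=
  Ideal.subset_span ⟨i, rfl⟩

/-- relative dimension of the unramified ideal of the scalar kind: `3` -/
theorem dim_unr_le {J : Ideal B} {l : B} (h : Pair J l) (hjac : l ∈ (⊥ : Ideal B).jacobson) :
    ringKrullDim (MvPowerSeries (Fin 6) B ⧸ (J.map (C (σ := Fin 6) (R := B)) ⊔ unrIdeal B)) ≤
      ringKrullDim (B ⧸ J) + 3 := by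
  classical
  have hcard : (({sx, sy, sz} : Finset (MvPowerSeries (Fin 6) B)).card : WithBot ℕ∞) ≤ 3 := by
    have : ({sx, sy, sz} : Finset (MvPowerSeries (Fin 6) B)).card ≤ 3 := Finset.card_le_three
    exact_mod_cast this
  refine le_trans (dim_le_of_sq_le h hjac (unrIdeal B) {sx, sy, sz} ?_ ?_) (by gcongr)
  · intro f hf
    simp only [Finset.mem_insert, Finset.mem_singleton] at hf
    rcases hf with rfl | rfl | rfl
    · exact X_fin6_mem 3
    · exact X_fin6_mem 4
    · exact X_fin6_mem 5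
  · apply span_X_sq_le
    intro i j
    apply Ideal.mul_mem_right
    have hu : ∀ f ∈ ({sa, sb, sc} : Set (MvPowerSeries (Fin 6) B)),
        f ∈ J.map (C (σ := Fin 6) (R := B)) ⊔ unrIdeal B ⊔ Ideal.span {C l} ⊔
          Ideal.span (({sx, sy, sz} : Finset (MvPowerSeries (Fin 6) B)) :
            Set (MvPowerSeries (Fin 6) B)) := fun f hf =>
      Ideal.mem_sup_left (Ideal.mem_sup_left (Ideal.mem_sup_right (Ideal.subset_span hf)))
    have hv : ∀ f ∈ ({sx, sy, sz} : Finset (MvPowerSeries (Fin 6) B)),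
        f ∈ J.map (C (σ := Fin 6) (R := B)) ⊔ unrIdeal B ⊔ Ideal.span {C l} ⊔
          Ideal.span (({sx, sy, sz} : Finset (MvPowerSeries (Fin 6) B)) :
            Set (MvPowerSeries (Fin 6) B)) := fun f hf =>
      Ideal.mem_sup_right (Ideal.subset_span (Finset.mem_coe.mpr hf))
    rcases X_fin6_cases (B := B) i with e | e | e | e | e | e <;> rw [e]
    · exact hu _ (by simp)
    · exact hu _ (by simp)
    · exact hu _ (by simp)
    · exact hv _ (by simp)
    · exact hv _ (by simp)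
    · exact hv _ (by simp)

/-- relative dimension of the Steinberg block: `3` -/
theorem dim_st_le {J : Ideal B} {l : B} (h : Pair J l) (hjac : l ∈ (⊥ : Ideal B).jacobson)
    (τ : B) (hτ : l ∣ τ) :
    ringKrullDim (MvPowerSeries (Fin 6) B ⧸ (J.map (C (σ := Fin 6) (R := B)) ⊔ stIdeal τ)) ≤
      ringKrullDim (B ⧸ J) + 3 := by
  classical
  have hcard : (({sb, sz, sc - sy} : Finset (MvPowerSeries (Fin 6) B)).card : WithBot ℕ∞) ≤ 3 := by
    have : ({sb, sz, sc - sy} : Finset (MvPowerSeries (Fin 6) B)).card ≤ 3 := Finset.card_le_three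
    exact_mod_cast this
  refine le_trans (dim_le_of_sq_le h hjac (stIdeal τ) {sb, sz, sc - sy} ?_ ?_) (by gcongr)
  · intro f hf
    simp only [Finset.mem_insert, Finset.mem_singleton] at hf
    rcases hf with rfl | rfl | rfl
    · exact X_fin6_mem 1
    · exact X_fin6_mem 5
    · exact Ideal.sub_mem _ (X_fin6_mem 2) (X_fin6_mem 4)
  · apply span_X_sq_le
    intro i j
    set N : Ideal (MvPowerSeries (Fin 6) B) :=
      J.map (C (σ := Fin 6) (R := B)) ⊔ stIdeal τ ⊔ Ideal.span {C l} ⊔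
        Ideal.span (({sb, sz, sc - sy} : Finset (MvPowerSeries (Fin 6) B)) :
          Set (MvPowerSeries (Fin 6) B)) with hN
    have hs : ∀ f ∈ ({sb, sz, sc - sy} : Finset (MvPowerSeries (Fin 6) B)),
        Ideal.Quotient.mk N f = 0 := fun f hf =>
      Ideal.Quotient.eq_zero_iff_mem.mpr
        (Ideal.mem_sup_right (Ideal.subset_span (Finset.mem_coe.mpr hf)))
    have hb : Ideal.Quotient.mk N sb = 0 := hs _ (by simp)
    have hz : Ideal.Quotient.mk N sz = 0 := hs _ (by simp)
    have hc : Ideal.Quotient.mk N sc = Ideal.Quotient.mk N sy := by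
      have := hs (sc - sy) (by simp)
      rwa [map_sub, sub_eq_zero] at this
    have hl : Ideal.Quotient.mk N (C l) = 0 :=
      Ideal.Quotient.eq_zero_iff_mem.mpr
        (Ideal.mem_sup_left (Ideal.mem_sup_right (Ideal.subset_span rfl)))
    have hτ0 : Ideal.Quotient.mk N (C τ) = 0 := by
      obtain ⟨c, rfl⟩ := hτ
      rw [map_mul, map_mul, hl, zero_mul]
    have hg : ∀ k, Ideal.Quotient.mk N (stGens τ k) = 0 := fun k =>
      Ideal.Quotient.eq_zero_iff_mem.mpr
        (Ideal.mem_sup_left (Ideal.mem_sup_left (Ideal.mem_sup_right (Ideal.subset_span ⟨k, rfl⟩))))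
    have e1 := hg 0
    have e2 := hg 1
    have e3 := hg 2
    have e4 := hg 3
    have e5 := hg 4
    have e6 := hg 5
    simp only [stGens, Matrix.cons_val_zero, Matrix.cons_val_one, Matrix.cons_val, map_sub,
      map_mul, map_pow, hb, hz, hc, hτ0, zero_mul, mul_zero, sub_zero] at e1 e2 e3 e4 e5 e6
    have haa : Ideal.Quotient.mk N sa * Ideal.Quotient.mk N sa = 0 := by rw [← pow_two]; exact e1
    have hxx : Ideal.Quotient.mk N sx * Ideal.Quotient.mk N sx = 0 := by rw [← pow_two]; exact e2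
    have hax : Ideal.Quotient.mk N sa * Ideal.Quotient.mk N sx = 0 := e3
    have hay : Ideal.Quotient.mk N sa * Ideal.Quotient.mk N sy = 0 := by
      have := e4
      rwa [zero_sub, neg_eq_zero] at this
    have hyx : Ideal.Quotient.mk N sy * Ideal.Quotient.mk N sx = 0 := e5
    have hyy : Ideal.Quotient.mk N sy * Ideal.Quotient.mk N sy = 0 := by
      have := e6
      rw [hax, zero_sub, neg_eq_zero] at this
      exact this
    have hxa : Ideal.Quotient.mk N sx * Ideal.Quotient.mk N sa = 0 := by rw [mul_comm]; exact hax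
    have hya : Ideal.Quotient.mk N sy * Ideal.Quotient.mk N sa = 0 := by rw [mul_comm]; exact hay
    have hxy : Ideal.Quotient.mk N sx * Ideal.Quotient.mk N sy = 0 := by rw [mul_comm]; exact hyx
    rw [← Ideal.Quotient.eq_zero_iff_mem, map_mul]
    rcases X_fin6_cases (B := B) i with e | e | e | e | e | e <;>
    rcases X_fin6_cases (B := B) j with e' | e' | e' | e' | e' | e' <;>
    rw [e, e'] <;>
    simp only [hb, hz, hc, zero_mul, mul_zero, haa, hxx, hax, hay, hyx, hyy, hxa, hya, hxy]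

/-- relative dimension of the ideal `(a, b, c) + (x² - τ x - y z)`: `2` -/
theorem dim_unrTh_le {J : Ideal B} {l : B} (h : Pair J l) (hjac : l ∈ (⊥ : Ideal B).jacobson)
    (τ : B) (hτ : l ∣ τ) :
    ringKrullDim (MvPowerSeries (Fin 6) B ⧸
      (J.map (C (σ := Fin 6) (R := B)) ⊔ Ideal.span {thElt τ} ⊔ unrIdeal B)) ≤
      ringKrullDim (B ⧸ J) + 2 := by
  classical
  have hcard : (({sy, sz} : Finset (MvPowerSeries (Fin 6) B)).card : WithBot ℕ∞) ≤ 2 := by
    have : ({sy, sz} : Finset (MvPowerSeries (Fin 6) B)).card ≤ 2 := Finset.card_le_two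
    exact_mod_cast this
  rw [sup_assoc]
  refine le_trans (dim_le_of_sq_le h hjac (Ideal.span {thElt τ} ⊔ unrIdeal B) {sy, sz} ?_ ?_)
    (by gcongr)
  · intro f hf
    simp only [Finset.mem_insert, Finset.mem_singleton] at hf
    rcases hf with rfl | rfl
    · exact X_fin6_mem 4
    · exact X_fin6_mem 5
  · apply span_X_sq_le
    intro i j
    set N : Ideal (MvPowerSeries (Fin 6) B) :=
      J.map (C (σ := Fin 6) (R := B)) ⊔ (Ideal.span {thElt τ} ⊔ unrIdeal B) ⊔ Ideal.span {C l} ⊔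
        Ideal.span (({sy, sz} : Finset (MvPowerSeries (Fin 6) B)) :
          Set (MvPowerSeries (Fin 6) B)) with hN
    have hs : ∀ f ∈ ({sy, sz} : Finset (MvPowerSeries (Fin 6) B)),
        Ideal.Quotient.mk N f = 0 := fun f hf =>
      Ideal.Quotient.eq_zero_iff_mem.mpr
        (Ideal.mem_sup_right (Ideal.subset_span (Finset.mem_coe.mpr hf)))
    have hu : ∀ f ∈ ({sa, sb, sc} : Set (MvPowerSeries (Fin 6) B)),
        Ideal.Quotient.mk N f = 0 := fun f hf =>
      Ideal.Quotient.eq_zero_iff_mem.mpr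
        (Ideal.mem_sup_left (Ideal.mem_sup_left (Ideal.mem_sup_right
          (Ideal.mem_sup_right (Ideal.subset_span hf)))))
    have ha : Ideal.Quotient.mk N sa = 0 := hu _ (by simp)
    have hb : Ideal.Quotient.mk N sb = 0 := hu _ (by simp)
    have hc : Ideal.Quotient.mk N sc = 0 := hu _ (by simp)
    have hy : Ideal.Quotient.mk N sy = 0 := hs _ (by simp)
    have hz : Ideal.Quotient.mk N sz = 0 := hs _ (by simp)
    have hl : Ideal.Quotient.mk N (C l) = 0 :=
      Ideal.Quotient.eq_zero_iff_mem.mpr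
        (Ideal.mem_sup_left (Ideal.mem_sup_right (Ideal.subset_span rfl)))
    have hτ0 : Ideal.Quotient.mk N (C τ) = 0 := by
      obtain ⟨c, rfl⟩ := hτ
      rw [map_mul, map_mul, hl, zero_mul]
    have hth : Ideal.Quotient.mk N (thElt τ) = 0 :=
      Ideal.Quotient.eq_zero_iff_mem.mpr
        (Ideal.mem_sup_left (Ideal.mem_sup_left (Ideal.mem_sup_right
          (Ideal.mem_sup_left (Ideal.subset_span rfl)))))
    simp only [thElt, map_sub, map_mul, map_pow, hy, hz, hτ0, zero_mul, mul_zero, sub_zero] at hth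
    have hxx : Ideal.Quotient.mk N sx * Ideal.Quotient.mk N sx = 0 := by rw [← pow_two]; exact hth
    rw [← Ideal.Quotient.eq_zero_iff_mem, map_mul]
    rcases X_fin6_cases (B := B) i with e | e | e | e | e | e <;>
    rcases X_fin6_cases (B := B) j with e' | e' | e' | e' | e' | e' <;>
    rw [e, e'] <;>
    simp only [ha, hb, hc, hy, hz, zero_mul, mul_zero, hxx]

end Applications

end Fermat.Agent.ML.LocSc
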