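/-
PROJECT ML (S59), block [LOC-L], scalar kind — file 10: transport of ideals of power series rings
along a splitting of the variables `ι ≃ α ⊕ β`:
  `splitEquiv E : 𝒪⟦ι⟧ ≃ₐ[𝒪] 𝒪⟦α⟧⟦β⟧`,
  `splitEquiv E (rename (E ∘ inl) p) = C p`,   `splitEquiv E (rename (E ∘ inr) p) = map C p`.
helper4.
-/
import Mathlib
import Fermat.Agent.RB.TK_helper4_SumEquiv

set_option autoImplicit false
set_option linter.unusedSectionVars false

namespace Fermat.Agent.ML.LocSc

open MvPowerSeries Fermat.Agent.RB

section Sum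

variable {σ τ R : Type*} [CommSemiring R]

/-- the inclusion of the outer variables is `rename Sum.inr` followed by the coefficientwise `C` -/
theorem sumAlgEquiv_rename_inr (a : MvPowerSeries τ R) :
    TK.sumAlgEquiv σ τ R (rename (Function.Embedding.inr : τ ↪ σ ⊕ τ) a) =
      MvPowerSeries.map (C (σ := σ) (R := R)) a := by
  classical
  ext I m
  rw [TK.coeff_coeff_sumAlgEquiv, coeff_map]
  by_cases hm : m = 0
  · subst hm
    have : Finsupp.sumElim (0 : σ →₀ ℕ) I = Finsupp.embDomain Function.Embedding.inr I := by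
      rw [Finsupp.embDomain_inr]
    rw [this, coeff_embDomain_rename]
    simp
  · rw [coeff_C, if_neg hm]
    apply coeff_rename_eq_zero
    rintro ⟨y, hy⟩
    apply hm
    ext t
    have := DFunLike.congr_fun hy (Sum.inl t)
    rw [Finsupp.sumElim_inl] at this
    rw [← this]
    simp [Finsupp.mapDomain_of_notMem_range]

end Sum

section Split

variable (R : Type*) [CommRing R] {α β ι : Type*} [Finite α] [Finite β] [Finite ι]

/-- `R⟦ι⟧ ≃ R⟦α⟧⟦β⟧` for a splitting `α ⊕ β ≃ ι` of the variables -/
noncomputable def splitEquiv (E : α ⊕ β ≃ ι) :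
    MvPowerSeries ι R ≃ₐ[R] MvPowerSeries β (MvPowerSeries α R) :=
  (renameEquiv R E.symm).trans (TK.sumAlgEquiv α β R)

variable {R}

theorem rename_congr {σ τ : Type*} {f g : σ → τ} [Filter.TendstoCofinite f]
    [Filter.TendstoCofinite g] (h : f = g) (p : MvPowerSeries σ R) :
    rename f p = rename g p := by
  subst h
  rfl

theorem renameEquiv_eq {σ τ : Type*} (e : σ ≃ τ) (p : MvPowerSeries σ R) :
    renameEquiv R e p = rename e p := rfl

theorem splitEquiv_rename_inl (E : α ⊕ β ≃ ι) (p : MvPowerSeries α R) :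
    splitEquiv R E (rename (fun a => E (Sum.inl a)) p) = C p := by
  rw [splitEquiv, AlgEquiv.trans_apply, renameEquiv_eq, rename_rename]
  have h : (⇑E.symm ∘ fun a => E (Sum.inl a)) = (Function.Embedding.inl : α ↪ α ⊕ β) := by
    funext a
    simp
  have h2 : rename (R := R) (⇑E.symm ∘ fun a => E (Sum.inl a)) p =
      rename (Function.Embedding.inl : α ↪ α ⊕ β) p := rename_congr h p
  rw [h2, TK.sumAlgEquiv_rename_inl]

theorem splitEquiv_rename_inr (E : α ⊕ β ≃ ι) (p : MvPowerSeries β R) :
    splitEquiv R E (rename (fun b => E (Sum.inr b)) p) =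
      MvPowerSeries.map (C (σ := α) (R := R)) p := by
  rw [splitEquiv, AlgEquiv.trans_apply, renameEquiv_eq, rename_rename]
  have h : (⇑E.symm ∘ fun b => E (Sum.inr b)) = (Function.Embedding.inr : β ↪ α ⊕ β) := by
    funext a
    simp
  have h2 : rename (R := R) (⇑E.symm ∘ fun b => E (Sum.inr b)) p =
      rename (Function.Embedding.inr : β ↪ α ⊕ β) p := rename_congr h p
  rw [h2, sumAlgEquiv_rename_inr]

theorem splitEquiv_C (E : α ⊕ β ≃ ι) (r : R) :
    splitEquiv R E (C r) = C (C r) := by
  rw [splitEquiv, AlgEquiv.trans_apply, renameEquiv_eq, rename_C, TK.sumAlgEquiv_C]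

end Split

end Fermat.Agent.ML.LocSc
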