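/-
PROJECT ML (S59), block [LOC-L], scalar kind — file 11: the `Pair` induction over disjoint
six-variable blocks of arbitrary "good" kinds.

* `GoodBlock lam I d` : the ideal `I ⊂ 𝒪⟦Fin 6⟧` is stable in the `Pair` induction over any
  noetherian base `B` (with `lam ∈ Jac(B)`), of relative dimension `≤ d`;
* `goodBlock_st` (`d = 3`), `goodBlock_unrTh` (`d = 2`);
* `mixIdeal E Kv J₀` : base ideal `J₀ ⊂ 𝒪⟦τ⟧` + the blocks `Kv v`, `v ∈ Sig`, in `𝒪⟦σ⟧`,
  `E : (Sig × Fin 6) ⊕ τ ≃ σ`;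
* `blockStmt_all` : `Pair (mixIdeal E Kv J₀) (C lam)` and
  `dim 𝒪⟦σ⟧/mixIdeal ≤ dim 𝒪⟦τ⟧/J₀ + ∑ d v`.
helper4.
-/
import Mathlib
import Fermat.Agent.RB.LOC_helper4_F1
import Fermat.Agent.ML.LOCSC_helper4_Rel
import Fermat.Agent.ML.LOCSC_helper4_Dim
import Fermat.Agent.ML.LOCSC_helper4_Transport

set_option autoImplicit false
set_option linter.unusedSectionVars false
set_option linter.style.haveILetI false

namespace Fermat.Agent.ML.LocSc

open MvPowerSeries Fermat.Agent.RB Fermat.Agent.RB.LOC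

section GoodBlock

variable {O : Type} [CommRing O]

/-- a six-variable block which is stable in the `Pair` induction, of relative dimension `≤ d` -/
def GoodBlock (lam : O) (I : Ideal (MvPowerSeries (Fin 6) O)) (d : ℕ) : Prop :=
  ∀ (B : Type) [CommRing B] [IsNoetherianRing B] (φ : O →+* B) (J : Ideal B),
    φ lam ∈ (⊥ : Ideal B).jacobson → Pair J (φ lam) →
      Pair (J.map (C (σ := Fin 6) (R := B)) ⊔ I.map (MvPowerSeries.map (σ := Fin 6) φ))
        (C (φ lam)) ∧
      ringKrullDim (MvPowerSeries (Fin 6) B ⧸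
        (J.map (C (σ := Fin 6) (R := B)) ⊔ I.map (MvPowerSeries.map (σ := Fin 6) φ))) ≤
        ringKrullDim (B ⧸ J) + ((d : ℕ) : WithBot ℕ∞)

/-- the Steinberg block is good, of relative dimension `3` -/
theorem goodBlock_st (lam t : O) (h : lam ∣ t) : GoodBlock lam (stIdeal t) 3 := by
  intro B _ _ φ J hjac hP
  rw [stIdeal_map φ t]
  exact ⟨Pair.stepSt hP hjac (φ t) (map_dvd φ h), dim_st_le hP hjac (φ t) (map_dvd φ h)⟩

/-- the block `(a, b, c) + (x² - t x - y z)` is good, of relative dimension `2` -/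
theorem goodBlock_unrTh (lam t : O) (h : lam ∣ t) :
    GoodBlock lam (Ideal.span {thElt t} ⊔ unrIdeal O) 2 := by
  intro B _ _ φ J hjac hP
  have hmap : (Ideal.span {thElt t} ⊔ unrIdeal O).map (MvPowerSeries.map (σ := Fin 6) φ) =
      Ideal.span {thElt (φ t)} ⊔ unrIdeal B := by
    rw [Ideal.map_sup, Ideal.map_span, Set.image_singleton, thElt_map, unrIdeal_map]
  rw [hmap, ← sup_assoc]
  exact ⟨Pair.stepUnrTh hP (φ t) (map_dvd φ h), dim_unrTh_le hP hjac (φ t) (map_dvd φ h)⟩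

end GoodBlock

section Induction

variable {O : Type} [CommRing O]

/-- base ideal `J₀` in the variables `τ` + the block ideals `Kv v` in the variables `(v, ·)` -/
noncomputable def mixIdeal {Sig τ σ : Type} [Finite τ] [Finite σ] (E : (Sig × Fin 6) ⊕ τ ≃ σ)
    (Kv : Sig → Ideal (MvPowerSeries (Fin 6) O)) (J₀ : Ideal (MvPowerSeries τ O)) :
    Ideal (MvPowerSeries σ O) :=
  J₀.map (rename (R := O) (fun x => E (Sum.inr x))).toRingHom ⊔
    ⨆ v : Sig, (Kv v).map (rename (R := O) (fun a => E (Sum.inl (v, a)))).toRingHom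

/-- the induction statement -/
def BlockStmt (lam : O) (Sig : Type) : Prop :=
  ∀ (τ : Type) [Finite τ] (σ : Type) [Finite σ] (E : (Sig × Fin 6) ⊕ τ ≃ σ)
    (Kv : Sig → Ideal (MvPowerSeries (Fin 6) O)) (d : Sig → ℕ) (J₀ : Ideal (MvPowerSeries τ O)),
    (∀ v, GoodBlock lam (Kv v) (d v)) → Pair J₀ (C lam) →
      Pair (mixIdeal E Kv J₀) (C lam) ∧
      ringKrullDim (MvPowerSeries σ O ⧸ mixIdeal E Kv J₀) ≤
        ringKrullDim (MvPowerSeries τ O ⧸ J₀) + ((∑ᶠ v, d v : ℕ) : WithBot ℕ∞)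

variable (lam : O)

theorem blockStmt_empty : BlockStmt lam PEmpty.{1} := by
  intro τ _ σ _ E Kv d J₀ _ hP
  let ε : τ ≃ σ := (Equiv.emptySum (PEmpty.{1} × Fin 6) τ).symm.trans E
  have hε : ∀ x, ε x = E (Sum.inr x) := fun x => rfl
  let Θ : MvPowerSeries τ O ≃+* MvPowerSeries σ O := (renameEquiv O ε).toRingEquiv
  have hI : mixIdeal E Kv J₀ = J₀.map Θ := by
    rw [mixIdeal, iSup_of_empty, sup_bot_eq]
    rfl
  have hI' : (mixIdeal E Kv J₀).map Θ.symm = J₀ := by
    rw [hI]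
    exact Ideal.map_of_equiv Θ
  have hl : Θ.symm (C lam) = C lam := by
    change rename ε.symm (C lam) = C lam
    rw [rename_C]
  refine ⟨Pair.of_ringEquiv Θ.symm hI' hl hP, ?_⟩
  rw [finsum_of_isEmpty, Nat.cast_zero, add_zero]
  exact le_of_eq (ringKrullDim_eq_of_ringEquiv (Ideal.quotientEquiv J₀ (mixIdeal E Kv J₀) Θ hI)).symm

theorem blockStmt_of_equiv {α β : Type} (f : α ≃ β) (h : BlockStmt lam α) : BlockStmt lam β := by
  intro τ _ σ _ E Kv d J₀ hgood hP
  have key := h τ σ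
    ((Equiv.sumCongr (Equiv.prodCongr f (Equiv.refl (Fin 6))) (Equiv.refl τ)).trans E)
    (fun v => Kv (f v)) (fun v => d (f v)) J₀ (fun v => hgood (f v)) hP
  have hJ : mixIdeal ((Equiv.sumCongr (Equiv.prodCongr f (Equiv.refl (Fin 6)))
      (Equiv.refl τ)).trans E) (fun v => Kv (f v)) J₀ = mixIdeal E Kv J₀ := by
    unfold mixIdeal
    congr 1
    exact f.iSup_comp (g := fun w : β =>
      (Kv w).map (rename (R := O) (fun a => E (Sum.inl (w, a)))).toRingHom)
  have hsum : (∑ᶠ v, d (f v)) = ∑ᶠ w, d w := finsum_comp_equiv f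
  rwa [hJ, hsum] at key

/-- reindexing of the variables: `(b_{some v}, b_none, x) ↦ ((b_v, x), b_none)` -/
def optShuffle6 (Sig τ : Type*) : (Option Sig × Fin 6) ⊕ τ ≃ ((Sig × Fin 6) ⊕ τ) ⊕ Fin 6 where
  toFun
    | Sum.inl (some v, i) => Sum.inl (Sum.inl (v, i))
    | Sum.inl (none, i) => Sum.inr i
    | Sum.inr t => Sum.inl (Sum.inr t)
  invFun
    | Sum.inl (Sum.inl (v, i)) => Sum.inl (some v, i)
    | Sum.inl (Sum.inr t) => Sum.inr t
    | Sum.inr i => Sum.inl (none, i)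
  left_inv := by rintro (⟨(_ | v), i⟩ | t) <;> rfl
  right_inv := by rintro ((⟨v, i⟩ | t) | i) <;> rfl

section TransportIdeal

variable {ρ β σ γ : Type} [Finite ρ] [Finite β] [Finite σ] [Finite γ]

/-- transport of an ideal in inner variables -/
theorem map_splitEquiv_map_rename_inl (E' : ρ ⊕ β ≃ σ) (g : γ → ρ) (f : γ → σ)
    (hfg : ∀ c, f c = E' (Sum.inl (g c))) (K : Ideal (MvPowerSeries γ O)) :
    (K.map (rename (R := O) f).toRingHom).map (splitEquiv O E').toRingEquiv =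
      (K.map (rename (R := O) g).toRingHom).map (C (σ := β) (R := MvPowerSeries ρ O)) := by
  change (K.map (rename (R := O) f).toRingHom).map ((splitEquiv O E').toRingEquiv :
    MvPowerSeries σ O →+* MvPowerSeries β (MvPowerSeries ρ O)) = _
  rw [Ideal.map_map, Ideal.map_map]
  congr 1
  ext1 p
  change splitEquiv O E' (rename f p) = C (rename g p)
  have h1 : rename (R := O) f p = rename (fun a => E' (Sum.inl a)) (rename g p) := by
    rw [rename_rename]
    exact rename_congr (funext hfg) p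
  rw [h1, splitEquiv_rename_inl]

/-- transport of an ideal in the outer variables -/
theorem map_splitEquiv_map_rename_inr (E' : ρ ⊕ β ≃ σ) (f : β → σ)
    (hf : ∀ b, f b = E' (Sum.inr b)) (K : Ideal (MvPowerSeries β O)) :
    (K.map (rename (R := O) f).toRingHom).map (splitEquiv O E').toRingEquiv =
      K.map (MvPowerSeries.map (σ := β) (C (σ := ρ) (R := O))) := by
  change (K.map (rename (R := O) f).toRingHom).map ((splitEquiv O E').toRingEquiv :
    MvPowerSeries σ O →+* MvPowerSeries β (MvPowerSeries ρ O)) = _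
  rw [Ideal.map_map]
  congr 1
  ext1 p
  change splitEquiv O E' (rename f p) = MvPowerSeries.map C p
  have h1 : rename (R := O) f p = rename (fun b => E' (Sum.inr b)) p :=
    rename_congr (funext hf) p
  rw [h1, splitEquiv_rename_inr]

end TransportIdeal

theorem blockStmt_option [IsNoetherianRing O] (hjac : lam ∈ (⊥ : Ideal O).jacobson)
    {α : Type} [Fintype α] (h : BlockStmt lam α) : BlockStmt lam (Option α) := by
  intro τ _ σ _ E Kv d J₀ hgood hP
  obtain ⟨hB, hBdim⟩ := h τ ((α × Fin 6) ⊕ τ) (Equiv.refl _) (fun v => Kv (some v))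
    (fun v => d (some v)) J₀ (fun v => hgood (some v)) hP
  set JB : Ideal (MvPowerSeries ((α × Fin 6) ⊕ τ) O) :=
    mixIdeal (Equiv.refl ((α × Fin 6) ⊕ τ)) (fun v => Kv (some v)) J₀ with hJB
  have hjacB : (C lam : MvPowerSeries ((α × Fin 6) ⊕ τ) O) ∈
      (⊥ : Ideal (MvPowerSeries ((α × Fin 6) ⊕ τ) O)).jacobson := by
    apply mem_jacobson_of_constantCoeff_mem
    rw [constantCoeff_C]
    exact hjac
  obtain ⟨hS, hSdim⟩ := hgood none (MvPowerSeries ((α × Fin 6) ⊕ τ) O)
    (C (σ := (α × Fin 6) ⊕ τ) (R := O)) JB hjacB hB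
  let E' : ((α × Fin 6) ⊕ τ) ⊕ Fin 6 ≃ σ := (optShuffle6 α τ).symm.trans E
  let Θ : MvPowerSeries σ O ≃+* MvPowerSeries (Fin 6) (MvPowerSeries ((α × Fin 6) ⊕ τ) O) :=
    (splitEquiv O E').toRingEquiv
  have hΘI : (mixIdeal E Kv J₀).map Θ =
      JB.map (C (σ := Fin 6) (R := MvPowerSeries ((α × Fin 6) ⊕ τ) O)) ⊔
        (Kv none).map (MvPowerSeries.map (σ := Fin 6) (C (σ := (α × Fin 6) ⊕ τ) (R := O))) := by
    rw [mixIdeal, iSup_option, Ideal.map_sup, Ideal.map_sup, Ideal.map_iSup, hJB, mixIdeal,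
      Ideal.map_sup, Ideal.map_iSup]
    rw [map_splitEquiv_map_rename_inl E' Sum.inr (fun x => E (Sum.inr x)) (fun c => rfl) J₀,
      map_splitEquiv_map_rename_inr E' (fun a => E (Sum.inl (none, a))) (fun b => rfl) (Kv none)]
    have h3 : ∀ v : α, ((Kv (some v)).map
        (rename (R := O) (fun a => E (Sum.inl (some v, a)))).toRingHom).map Θ =
        ((Kv (some v)).map (rename (R := O) (fun a =>
          (Equiv.refl ((α × Fin 6) ⊕ τ)) (Sum.inl (v, a)))).toRingHom).map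
          (C (σ := Fin 6) (R := MvPowerSeries ((α × Fin 6) ⊕ τ) O)) := fun v =>
      map_splitEquiv_map_rename_inl E' (fun a => Sum.inl (v, a))
        (fun a => E (Sum.inl (some v, a))) (fun c => rfl) (Kv (some v))
    rw [iSup_congr h3]
    simp only [Equiv.refl_apply]
    ac_rfl
  have hΘl : Θ (C lam) = C (C lam) := splitEquiv_C E' lam
  refine ⟨Pair.of_ringEquiv Θ hΘI hΘl hS, ?_⟩
  have e1 := ringKrullDim_eq_of_ringEquiv (Ideal.quotientEquiv _ _ Θ hΘI.symm)
  rw [e1]
  have hsum : ((∑ᶠ w, d w : ℕ) : WithBot ℕ∞) =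
      ((∑ᶠ v, d (some v) : ℕ) : WithBot ℕ∞) + ((d none : ℕ) : WithBot ℕ∞) := by
    rw [finsum_eq_sum_of_fintype, finsum_eq_sum_of_fintype, Fintype.sum_option]
    push_cast
    rw [add_comm]
  rw [hsum, ← add_assoc]
  exact le_trans hSdim (by gcongr)

theorem blockStmt_all [IsNoetherianRing O] (hjac : lam ∈ (⊥ : Ideal O).jacobson)
    (Sig : Type) [Finite Sig] : BlockStmt lam Sig :=
  Finite.induction_empty_option (P := BlockStmt lam)
    (fun f h => blockStmt_of_equiv lam f h) (blockStmt_empty lam)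
    (fun h => blockStmt_option lam hjac h) Sig

end Induction

end Fermat.Agent.ML.LocSc
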