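/-
PROJECT ML (S59), block [LOC-L], scalar kind — file 12: killed variables + disjoint good blocks in
`𝒪⟦ι⟧`, `𝒪` a discrete valuation ring (NOT necessarily complete), `ι` finite.

* `isPrime_of_pair`, `C_not_mem_of_pair` : primality and characteristic zero from `Pair`;
* `pair_span_X` : the ideal of a set of variables;
* `genIdeal K f Kv` and `genIdeal_core` : `Pair`, dimension count;
* `X_not_mem_genIdeal_free`, `X_not_mem_genIdeal_block` : non-membership of variables.
helper4.
-/
import Mathlib
import Fermat.Agent.RB.CA_helper4_PowerSeriesDim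
import Fermat.Agent.RB.TK_helper4_KillVars
import Fermat.Agent.ML.LOCSC_helper4_Block

set_option autoImplicit false
set_option linter.unusedSectionVars false
set_option linter.style.haveILetI false

namespace Fermat.Agent.ML.LocSc

open MvPowerSeries Fermat.Agent.RB Fermat.Agent.RB.LOC

section Prime

variable {O : Type*} [CommRing O] [IsLocalRing O] [IsNoetherianRing O] {σ : Type*} [Finite σ]

/-- primality from the `Pair` invariant -/
theorem isPrime_of_pair (J : Ideal (MvPowerSeries σ O)) (lam : O) (hlam : ¬ IsUnit lam)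
    (hpair : Pair J (C lam)) : J.IsPrime := by
  rw [← Ideal.Quotient.isDomain_iff_prime]
  refine TK.isDomain_of_regular_of_prime (Ideal.Quotient.mk J (C lam)) ?_ ?_ ?_
  · have := TK.mk_mem_jacobson_of_constantCoeff J (C lam) (by
      rw [constantCoeff_C, IsLocalRing.mem_maximalIdeal]
      exact hlam)
    rwa [Ideal.jacobson_bot]
  · intro x hx
    obtain ⟨x, rfl⟩ := Ideal.Quotient.mk_surjective x
    rw [← map_mul, Ideal.Quotient.eq_zero_iff_mem] at hx
    exact Ideal.Quotient.eq_zero_iff_mem.mpr (hpair.reg x hx)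
  · have h1 : Ideal.span {Ideal.Quotient.mk J (C lam)} =
        (J ⊔ Ideal.span {C lam}).map (Ideal.Quotient.mk J) := by
      rw [Ideal.map_sup, Ideal.map_quotient_self, bot_sup_eq, Ideal.map_span, Set.image_singleton]
    rw [h1]
    have h2 := hpair.prime
    exact Ideal.map_isPrime_of_surjective Ideal.Quotient.mk_surjective
      (by rw [Ideal.mk_ker]; exact le_sup_left)

/-- characteristic zero from the `Pair` invariant -/
theorem C_not_mem_of_pair (J : Ideal (MvPowerSeries σ O)) (lam : O) (hlam : ¬ IsUnit lam)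
    (hpair : Pair J (C lam)) : (C lam : MvPowerSeries σ O) ∉ J := by
  intro h
  have h1 : (1 : MvPowerSeries σ O) ∈ J := hpair.reg 1 (by rwa [mul_one])
  exact (isPrime_of_pair J lam hlam hpair).ne_top ((Ideal.eq_top_iff_one J).mpr h1)

end Prime

section Base

variable {O : Type} [CommRing O] [IsDomain O] [IsDiscreteValuationRing O]

theorem pair_bot (lam : O) (hlam : Irreducible lam) : Pair (⊥ : Ideal O) lam := by
  constructor
  · intro x hx
    rw [Ideal.mem_bot] at hx ⊢
    exact (mul_eq_zero.mp hx).resolve_left hlam.ne_zero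
  · rw [bot_sup_eq]
    exact (Ideal.span_singleton_prime hlam.ne_zero).mpr hlam.prime

/-- killed variables: `Pair` and dimension -/
theorem pair_span_X {τ : Type} [Finite τ] (lam : O) (hlam : Irreducible lam) (S : Set τ) :
    Pair (Ideal.span ((X : τ → MvPowerSeries τ O) '' S)) (C lam) ∧
    ringKrullDim (MvPowerSeries τ O ⧸ Ideal.span ((X : τ → MvPowerSeries τ O) '' S)) =
      ((Nat.card {x : τ // x ∉ S} + 1 : ℕ) : WithBot ℕ∞) := by
  classical
  let c : {x : τ // x ∉ S} ↪ τ := Function.Embedding.subtype _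
  have hrange : (Set.range c)ᶜ = S := by
    ext x
    simp [c]
  have hker : RingHom.ker (killCompl (R := O) c) =
      Ideal.span ((X : τ → MvPowerSeries τ O) '' S) := by
    rw [TK.ker_killCompl c, hrange]
  constructor
  · have h1 : Pair (⊥ : Ideal (MvPowerSeries {x : τ // x ∉ S} O)) (C lam) := by
      have := Pair.stepFree (pair_bot lam hlam) {x : τ // x ∉ S}
      rwa [Ideal.map_bot] at this
    have h2 := Pair.comap_of_surjective (killCompl (R := O) c).toRingHom
      (TK.killCompl_surjective c) h1 (C lam) (killCompl_C lam)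
    rw [← hker]
    exact h2
  · haveI := Fintype.ofFinite {x : τ // x ∉ S}
    have e := TK.quotientSpanXEquiv (R := O) c
    rw [hrange] at e
    rw [ringKrullDim_eq_of_ringEquiv e, ringKrullDim_mvPowerSeries_of_isDiscreteValuationRing,
      Nat.card_eq_fintype_card]

end Base

section Core

variable {O : Type} [CommRing O] {ι : Type} [Finite ι] {Sig : Type}

/-- killed variables `K` + the block ideals `Kv v` in the variables `f v` -/
noncomputable def genIdeal (K : Set ι) (f : Sig → (Fin 6 ↪ ι))
    (Kv : Sig → Ideal (MvPowerSeries (Fin 6) O)) : Ideal (MvPowerSeries ι O) :=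
  Ideal.span ((X : ι → MvPowerSeries ι O) '' K) ⊔
    ⨆ v : Sig, (Kv v).map (rename (R := O) (f v)).toRingHom

end Core

section CoreThm

variable {O : Type} [CommRing O] [IsDomain O] [IsDiscreteValuationRing O]
  {ι : Type} [Fintype ι] {Sig : Type} [Fintype Sig]

/-- **killed variables + disjoint good blocks**: the `Pair` invariant and the dimension count. -/
theorem genIdeal_core (lam : O) (hlam : Irreducible lam) (K : Finset ι) (f : Sig → (Fin 6 ↪ ι))
    (hdisj : ∀ v w, v ≠ w → Disjoint (Set.range (f v)) (Set.range (f w)))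
    (hK : ∀ v, Disjoint (K : Set ι) (Set.range (f v)))
    (Kv : Sig → Ideal (MvPowerSeries (Fin 6) O)) (d : Sig → ℕ)
    (hgood : ∀ v, GoodBlock lam (Kv v) (d v)) :
    Pair (genIdeal (K : Set ι) f Kv) (C lam) ∧
    ∃ m : ℕ, m + K.card + 6 * Fintype.card Sig = Fintype.card ι ∧
      ringKrullDim (MvPowerSeries ι O ⧸ genIdeal (K : Set ι) f Kv) ≤
        ((m + 1 + ∑ v, d v : ℕ) : WithBot ℕ∞) := by
  classical
  have hjac : lam ∈ (⊥ : Ideal O).jacobson := by
    rw [IsLocalRing.jacobson_eq_maximalIdeal ⊥ bot_ne_top, IsLocalRing.mem_maximalIdeal]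
    exact hlam.not_isUnit
  let τ₀ : Type := {i : ι // ∀ v, i ∉ Set.range (f v)}
  let Efun : (Sig × Fin 6) ⊕ τ₀ → ι := Sum.elim (fun p => f p.1 p.2) Subtype.val
  have hinj : Function.Injective Efun := by
    rintro (⟨v, a⟩ | x) (⟨w, b⟩ | y) h
    · have h' : f v a = f w b := h
      by_cases hvw : v = w
      · subst hvw
        rw [(f v).injective h']
      · exact absurd ⟨b, h'.symm⟩ (Set.disjoint_left.mp (hdisj v w hvw) ⟨a, rfl⟩)
    · have h' : f v a = y.val := h
      exact absurd ⟨a, h'⟩ (y.2 v)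
    · have h' : x.val = f w b := h
      exact absurd ⟨b, h'.symm⟩ (x.2 w)
    · have h' : x.val = y.val := h
      rw [Subtype.ext h']
  have hsurj : Function.Surjective Efun := by
    intro i
    by_cases hi : ∀ v, i ∉ Set.range (f v)
    · exact ⟨Sum.inr ⟨i, hi⟩, rfl⟩
    · simp only [not_forall, not_not] at hi
      obtain ⟨v, a, rfl⟩ := hi
      exact ⟨Sum.inl (v, a), rfl⟩
  let E : (Sig × Fin 6) ⊕ τ₀ ≃ ι := Equiv.ofBijective Efun ⟨hinj, hsurj⟩
  let K₀ : Set τ₀ := {x | x.val ∈ K}
  let J₀ : Ideal (MvPowerSeries τ₀ O) := Ideal.span ((X : τ₀ → MvPowerSeries τ₀ O) '' K₀)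
  have hJ : mixIdeal E Kv J₀ = genIdeal (K : Set ι) f Kv := by
    unfold mixIdeal genIdeal
    congr 1
    rw [Ideal.map_span]
    congr 1
    ext g
    constructor
    · rintro ⟨_, ⟨x, hx, rfl⟩, rfl⟩
      refine ⟨x.val, hx, ?_⟩
      change _ = rename (fun x => E (Sum.inr x)) (X x)
      rw [rename_X]
      rfl
    · rintro ⟨i, hi, rfl⟩
      have hi' : ∀ v, i ∉ Set.range (f v) := fun v hv =>
        Set.disjoint_left.mp (hK v) hi hv
      refine ⟨X ⟨i, hi'⟩, ⟨⟨i, hi'⟩, hi, rfl⟩, ?_⟩
      change rename (fun x => E (Sum.inr x)) (X (⟨i, hi'⟩ : τ₀)) = _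
      rw [rename_X]
      rfl
  obtain ⟨hP0, hdim0⟩ := pair_span_X lam hlam K₀
  obtain ⟨hP, hdim⟩ := blockStmt_all lam hjac Sig τ₀ ι E Kv d J₀ hgood hP0
  rw [hJ] at hP hdim
  refine ⟨hP, Nat.card {x : τ₀ // x ∉ K₀}, ?_, ?_⟩
  · have h1 : Fintype.card ι = 6 * Fintype.card Sig + Fintype.card τ₀ := by
      rw [← Fintype.card_congr E, Fintype.card_sum, Fintype.card_prod, Fintype.card_fin, mul_comm]
    have h2 : Fintype.card τ₀ = Fintype.card {x : τ₀ // x ∈ K₀} + Fintype.card {x : τ₀ // x ∉ K₀} := by
      rw [← Fintype.card_sum]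
      exact (Fintype.card_congr (Equiv.sumCompl (· ∈ K₀))).symm
    have h3 : Fintype.card {x : τ₀ // x ∈ K₀} = K.card := by
      have e : {x : τ₀ // x ∈ K₀} ≃ {i : ι // i ∈ K} :=
        Equiv.subtypeSubtypeEquivSubtype (p := fun i : ι => ∀ v, i ∉ Set.range (f v))
          (q := fun i : ι => i ∈ K) (fun {i} hi v hv => Set.disjoint_left.mp (hK v) hi hv)
      rw [Fintype.card_congr e, Fintype.card_coe]
    rw [Nat.card_eq_fintype_card, h1, h2, h3]
    ring
  · rw [hdim0, finsum_eq_sum_of_fintype] at hdim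
    refine le_trans hdim (le_of_eq ?_)
    push_cast
    rfl

end CoreThm

section NonMem

variable {O : Type} [CommRing O] [Nontrivial O] {ι : Type} [Finite ι] {Sig : Type}

theorem X_ne_zero_aux {σ : Type*} (i : σ) : (X i : MvPowerSeries σ O) ≠ 0 := by
  classical
  intro h
  have := congrArg (coeff (Finsupp.single i 1)) h
  rw [coeff_X, if_pos rfl, map_zero] at this
  exact one_ne_zero this

/-- the image of a block under `rename` lies in the ideal of the variables of the block -/
theorem map_rename_le_span_X (g : Fin 6 ↪ ι) (I : Ideal (MvPowerSeries (Fin 6) O))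
    (hI : I ≤ Ideal.span (Set.range (X : Fin 6 → MvPowerSeries (Fin 6) O))) :
    I.map (rename (R := O) g).toRingHom ≤
      Ideal.span ((X : ι → MvPowerSeries ι O) '' Set.range g) := by
  refine le_trans (Ideal.map_mono hI) ?_
  rw [Ideal.map_span, Ideal.span_le]
  rintro _ ⟨_, ⟨a, rfl⟩, rfl⟩
  change rename g (X a) ∈ _
  rw [rename_X]
  exact Ideal.subset_span ⟨g a, ⟨a, rfl⟩, rfl⟩

/-- a free variable is not in `genIdeal` -/
theorem X_not_mem_genIdeal_free (K : Set ι) (f : Sig → (Fin 6 ↪ ι))
    (Kv : Sig → Ideal (MvPowerSeries (Fin 6) O))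
    (hKv : ∀ v, Kv v ≤ Ideal.span (Set.range (X : Fin 6 → MvPowerSeries (Fin 6) O)))
    (i : ι) (hiK : i ∉ K) (hi : ∀ v, i ∉ Set.range (f v)) :
    (X i : MvPowerSeries ι O) ∉ genIdeal K f Kv := by
  classical
  let c : Unit ↪ ι := ⟨fun _ => i, fun _ _ _ => rfl⟩
  have hrange : Set.range c = {i} := by
    ext x
    rw [Set.mem_singleton_iff]
    constructor
    · rintro ⟨_, rfl⟩
      rfl
    · rintro rfl
      exact ⟨(), rfl⟩
  have hle : genIdeal K f Kv ≤ RingHom.ker (killCompl (R := O) c) := by
    rw [TK.ker_killCompl c, hrange]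
    refine sup_le ?_ (iSup_le fun v => ?_)
    · apply Ideal.span_mono
      apply Set.image_mono
      intro k hk
      rw [Set.mem_compl_iff, Set.mem_singleton_iff]
      rintro rfl
      exact hiK hk
    · refine le_trans (map_rename_le_span_X (f v) (Kv v) (hKv v)) ?_
      apply Ideal.span_mono
      apply Set.image_mono
      intro k hk
      rw [Set.mem_compl_iff, Set.mem_singleton_iff]
      rintro rfl
      exact hi v hk
  intro hmem
  have h1 := hle hmem
  rw [RingHom.mem_ker] at h1
  have h2 : killCompl (R := O) c (X (c ())) = X () := killCompl_X ()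
  exact X_ne_zero_aux () (h2.symm.trans h1)

/-- a variable of a block which is not in the block ideal is not in `genIdeal` -/
theorem X_not_mem_genIdeal_block (K : Set ι) (f : Sig → (Fin 6 ↪ ι))
    (hdisj : ∀ v w, v ≠ w → Disjoint (Set.range (f v)) (Set.range (f w)))
    (hK : ∀ v, Disjoint K (Set.range (f v)))
    (Kv : Sig → Ideal (MvPowerSeries (Fin 6) O))
    (hKv : ∀ v, Kv v ≤ Ideal.span (Set.range (X : Fin 6 → MvPowerSeries (Fin 6) O)))
    (v : Sig) (a : Fin 6) (ha : (X a : MvPowerSeries (Fin 6) O) ∉ Kv v) :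
    (X (f v a) : MvPowerSeries ι O) ∉ genIdeal K f Kv := by
  classical
  let π : MvPowerSeries ι O →+* MvPowerSeries (Fin 6) O := (killCompl (R := O) (f v)).toRingHom
  have hπ : ∀ S : Set ι, S ⊆ (Set.range (f v))ᶜ →
      (Ideal.span ((X : ι → MvPowerSeries ι O) '' S)).map π ≤ Kv v := by
    intro S hS
    rw [Ideal.map_span, Ideal.span_le]
    rintro _ ⟨_, ⟨k, hk, rfl⟩, rfl⟩
    have : π (X k) = 0 := killCompl_X_eq_zero (hS hk)
    rw [this]
    exact Ideal.zero_mem _
  have hle : (genIdeal K f Kv).map π ≤ Kv v := by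
    rw [genIdeal, Ideal.map_sup, Ideal.map_iSup]
    refine sup_le ?_ (iSup_le fun w => ?_)
    · apply hπ
      intro k hk
      exact fun hk' => Set.disjoint_left.mp (hK v) hk hk'
    · by_cases hwv : w = v
      · subst hwv
        rw [Ideal.map_map]
        have : π.comp (rename (R := O) (f w)).toRingHom = RingHom.id _ := by
          ext1 p
          exact killCompl_rename_app p
        rw [this, Ideal.map_id]
      · refine le_trans (Ideal.map_mono (map_rename_le_span_X (f w) (Kv w) (hKv w))) ?_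
        apply hπ
        intro k hk
        exact fun hk' => Set.disjoint_left.mp (hdisj w v hwv) hk hk'
  intro hmem
  have h1 := hle (Ideal.mem_map_of_mem π hmem)
  have h2 : π (X (f v a)) = X a := killCompl_X a
  rw [h2] at h1
  exact ha h1

end NonMem

end Fermat.Agent.ML.LocSc
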