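/-
PROJECT ML (S59), block [LOC-L], scalar kind — file 13: **`mixedPrimeStatement : MixedPrimeStatement`**
(the literal of `ML/IFACE_lead_Kinds`): killed variables + disjoint Steinberg blocks (+ one quadric
block) in `𝒪⟦ι⟧`: prime, characteristic zero, dimension, non-membership of variables.
helper4.
-/
import Mathlib
import Fermat.Agent.ML.IFACE_lead_Kinds
import Fermat.Agent.ML.LOCSC_helper4_Mixed

set_option autoImplicit false
set_option linter.unusedSectionVars false
set_option linter.style.haveILetI false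

namespace Fermat.Agent.ML.LocSc

open MvPowerSeries Fermat.Agent.RB Fermat.Agent.RB.LOC

section Kinds

variable {O : Type} [CommRing O]

theorem stIdeal_le_span_X (t : O) :
    stIdeal t ≤ Ideal.span (Set.range (X : Fin 6 → MvPowerSeries (Fin 6) O)) := by
  rw [← TK.ker_constantCoeff, stIdeal, Ideal.span_le]
  rintro _ ⟨i, rfl⟩
  rw [SetLike.mem_coe, RingHom.mem_ker]
  fin_cases i <;> simp [stGens, sa, sb, sc, sx, sy, sz]

theorem unrTh_le_span_X (t : O) :
    Ideal.span {thElt t} ⊔ unrIdeal O ≤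
      Ideal.span (Set.range (X : Fin 6 → MvPowerSeries (Fin 6) O)) := by
  rw [← TK.ker_constantCoeff]
  refine sup_le ?_ ?_
  · rw [Ideal.span_singleton_le_iff_mem, RingHom.mem_ker]
    simp [thElt, sx, sy, sz]
  · rw [unrIdeal, Ideal.span_le]
    intro g hg
    simp only [Set.mem_insert_iff, Set.mem_singleton_iff] at hg
    rw [SetLike.mem_coe, RingHom.mem_ker]
    rcases hg with rfl | rfl | rfl <;> simp [sa, sb, sc]

theorem X_one_not_mem_stIdeal [Nontrivial O] (t : O) :
    (X 1 : MvPowerSeries (Fin 6) O) ∉ stIdeal t := by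
  intro h
  have h1 := stIdeal_le_ker_chart t h
  rw [RingHom.mem_ker] at h1
  have h2 : chart t (X 1) = X 0 := chart_sb t
  exact X_ne_zero_aux (0 : Fin 3) (h2.symm.trans h1)

end Kinds

end Fermat.Agent.ML.LocSc

namespace Fermat.Agent.ML

open MvPowerSeries Fermat.Agent.RB Fermat.Agent.RB.LOC LocSc

section PartA

variable {O : Type} [CommRing O] [IsDomain O] [IsDiscreteValuationRing O]
  {ι : Type} [Fintype ι]

theorem blockIdeal_eq_genIdeal (K : Set ι) {n : ℕ} (e : Fin n → (Fin 6 ↪ ι)) (τ : Fin n → O) :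
    blockIdeal K e τ = genIdeal K e (fun s => stIdeal (τ s)) := rfl

/-- the first part of `MixedPrimeStatement` -/
theorem mixedPrime_partA (lam : O) (hlam : Irreducible lam) (K : Finset ι) {n : ℕ}
    (e : Fin n → (Fin 6 ↪ ι)) (τ : Fin n → O) (hτ : ∀ s, lam ∣ τ s)
    (hdisj : ∀ s s', s ≠ s' → Disjoint (Set.range (e s)) (Set.range (e s')))
    (hK : ∀ s, Disjoint (K : Set ι) (Set.range (e s))) :
    (blockIdeal (K : Set ι) e τ).IsPrime ∧
      (C lam : MvPowerSeries ι O) ∉ blockIdeal (K : Set ι) e τ ∧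
      ringKrullDim (MvPowerSeries ι O ⧸ blockIdeal (K : Set ι) e τ) +
          ((K.card + 3 * n : ℕ) : WithBot ℕ∞) ≤ ((Fintype.card ι + 1 : ℕ) : WithBot ℕ∞) ∧
      (∀ i : ι, i ∉ K → (∀ s, i ∉ Set.range (e s)) →
        (X i : MvPowerSeries ι O) ∉ blockIdeal (K : Set ι) e τ) ∧
      (∀ s, (X (e s 1) : MvPowerSeries ι O) ∉ blockIdeal (K : Set ι) e τ) := by
  rw [blockIdeal_eq_genIdeal]
  obtain ⟨hP, m, hm, hdim⟩ := genIdeal_core lam hlam K e hdisj hK (fun s => stIdeal (τ s))
    (fun _ => 3) (fun s => goodBlock_st lam (τ s) (hτ s))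
  refine ⟨isPrime_of_pair _ lam hlam.not_isUnit hP, C_not_mem_of_pair _ lam hlam.not_isUnit hP,
    ?_, ?_, ?_⟩
  · refine le_trans (add_le_add_left hdim _) ?_
    rw [← Nat.cast_add]
    refine le_of_eq ?_
    congr 1
    rw [Finset.sum_const, Finset.card_univ, Fintype.card_fin, smul_eq_mul] at *
    omega
  · intro i hiK hi
    exact X_not_mem_genIdeal_free (K : Set ι) e _ (fun s => stIdeal_le_span_X (τ s)) i hiK hi
  · intro s
    exact X_not_mem_genIdeal_block (K : Set ι) e hdisj hK _ (fun s => stIdeal_le_span_X (τ s)) s 1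
      (X_one_not_mem_stIdeal (τ s))

end PartA

section PartB

variable {O : Type} [CommRing O] [IsDomain O] [IsDiscreteValuationRing O]
  {ι : Type} [Fintype ι]

/-- the second part of `MixedPrimeStatement` -/
theorem mixedPrime_partB (lam : O) (hlam : Irreducible lam) (K : Finset ι) {n : ℕ}
    (e : Fin n → (Fin 6 ↪ ι)) (τ : Fin n → O) (hτ : ∀ s, lam ∣ τ s)
    (hdisj : ∀ s s', s ≠ s' → Disjoint (Set.range (e s)) (Set.range (e s')))
    (hK : ∀ s, Disjoint (K : Set ι) (Set.range (e s)))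
    (e' : Fin 6 ↪ ι) (τ' : O) (hτ' : lam ∣ τ')
    (hd' : ∀ s, Disjoint (Set.range e') (Set.range (e s)))
    (hK' : ∀ a : Fin 6, e' a ∈ K ↔ a.val < 3) :
    (blockIdeal (K : Set ι) e τ ⊔
          Ideal.span {MvPowerSeries.rename (R := O) e' (LocSc.thElt τ')}).IsPrime ∧
        (C lam : MvPowerSeries ι O) ∉ blockIdeal (K : Set ι) e τ ⊔
          Ideal.span {MvPowerSeries.rename (R := O) e' (LocSc.thElt τ')} ∧
        ringKrullDim (MvPowerSeries ι O ⧸ (blockIdeal (K : Set ι) e τ ⊔
            Ideal.span {MvPowerSeries.rename (R := O) e' (LocSc.thElt τ')})) +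
          ((K.card + 3 * n + 1 : ℕ) : WithBot ℕ∞) ≤ ((Fintype.card ι + 1 : ℕ) : WithBot ℕ∞) ∧
        (∀ i : ι, i ∉ K → (∀ s, i ∉ Set.range (e s)) → i ∉ Set.range e' →
          (X i : MvPowerSeries ι O) ∉ blockIdeal (K : Set ι) e τ ⊔
            Ideal.span {MvPowerSeries.rename (R := O) e' (LocSc.thElt τ')}) ∧
        (∀ s, (X (e s 1) : MvPowerSeries ι O) ∉ blockIdeal (K : Set ι) e τ ⊔
            Ideal.span {MvPowerSeries.rename (R := O) e' (LocSc.thElt τ')}) := by
  classical
  let T : Finset ι := ({0, 1, 2} : Finset (Fin 6)).map e'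
  have hTcard : T.card = 3 := by
    rw [Finset.card_map]
    rfl
  have hmemT : ∀ a : Fin 6, e' a ∈ T ↔ a.val < 3 := by
    intro a
    rw [Finset.mem_map' e']
    fin_cases a <;> simp
  have hTK : T ⊆ K := by
    intro i hi
    obtain ⟨a, _, rfl⟩ := Finset.mem_map.mp hi
    exact (hK' a).mpr ((hmemT a).mp hi)
  let K' : Finset ι := K \ T
  have hK'card : K'.card + 3 = K.card := by
    rw [← hTcard]
    exact Finset.card_sdiff_add_card_eq_card hTK
  let f' : Option (Fin n) → (Fin 6 ↪ ι) := fun o => o.elim e' e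
  let Kv' : Option (Fin n) → Ideal (MvPowerSeries (Fin 6) O) := fun o =>
    o.elim (Ideal.span {thElt τ'} ⊔ unrIdeal O) (fun s => stIdeal (τ s))
  let d' : Option (Fin n) → ℕ := fun o => o.elim 2 (fun _ => 3)
  have hdisj' : ∀ v w, v ≠ w → Disjoint (Set.range (f' v)) (Set.range (f' w)) := by
    rintro (_ | s) (_ | s') h
    · exact absurd rfl h
    · exact hd' s'
    · exact (hd' s).symm
    · exact hdisj s s' (fun h' => h (congrArg some h'))
  have hKd : ∀ v, Disjoint (K' : Set ι) (Set.range (f' v)) := by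
    rintro (_ | s)
    · rw [Set.disjoint_left]
      rintro i hi ⟨a, rfl⟩
      have hi' := Finset.mem_sdiff.mp (Finset.mem_coe.mp hi)
      exact hi'.2 ((hmemT a).mpr ((hK' a).mp hi'.1))
    · refine Set.disjoint_of_subset_left ?_ (hK s)
      exact Finset.coe_subset.mpr Finset.sdiff_subset
  have hgood' : ∀ v, GoodBlock lam (Kv' v) (d' v) := by
    rintro (_ | s)
    · exact goodBlock_unrTh lam τ' hτ'
    · exact goodBlock_st lam (τ s) (hτ s)
  have hKv' : ∀ v, Kv' v ≤ Ideal.span (Set.range (X : Fin 6 → MvPowerSeries (Fin 6) O)) := by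
    rintro (_ | s)
    · exact unrTh_le_span_X τ'
    · exact stIdeal_le_span_X (τ s)
  have hI : blockIdeal (K : Set ι) e τ ⊔
      Ideal.span {MvPowerSeries.rename (R := O) e' (LocSc.thElt τ')} =
      genIdeal (K' : Set ι) f' Kv' := by
    have h1 : Ideal.span ((X : ι → MvPowerSeries ι O) '' (K : Set ι)) =
        Ideal.span ((X : ι → MvPowerSeries ι O) '' (K' : Set ι)) ⊔
          Ideal.span ((X : ι → MvPowerSeries ι O) '' (T : Set ι)) := by
      rw [← Ideal.span_union, ← Set.image_union, ← Finset.coe_union,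
        Finset.sdiff_union_of_subset hTK]
    have h2 : (Ideal.span {thElt τ'} ⊔ unrIdeal O).map (rename (R := O) e').toRingHom =
        Ideal.span {MvPowerSeries.rename (R := O) e' (LocSc.thElt τ')} ⊔
          Ideal.span ((X : ι → MvPowerSeries ι O) '' (T : Set ι)) := by
      rw [Ideal.map_sup, Ideal.map_span, Set.image_singleton, unrIdeal, Ideal.map_span]
      congr 2
      simp [T, Set.image_insert_eq, sa, sb, sc]
    rw [blockIdeal, genIdeal, iSup_option]
    change _ = _ ⊔ ((Ideal.span {thElt τ'} ⊔ unrIdeal O).map (rename (R := O) e').toRingHom ⊔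
      ⨆ s : Fin n, (stIdeal (τ s)).map (rename (R := O) (e s)).toRingHom)
    rw [h1, h2]
    ac_rfl
  rw [hI]
  obtain ⟨hP, m, hm, hdim⟩ := genIdeal_core lam hlam K' f' hdisj' hKd Kv' d' hgood'
  refine ⟨isPrime_of_pair _ lam hlam.not_isUnit hP, C_not_mem_of_pair _ lam hlam.not_isUnit hP,
    ?_, ?_, ?_⟩
  · refine le_trans (add_le_add_left hdim _) ?_
    rw [← Nat.cast_add]
    refine le_of_eq ?_
    congr 1
    have hsum : ∑ v, d' v = 2 + n * 3 := by
      rw [Fintype.sum_option]
      change 2 + ∑ _s : Fin n, 3 = _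
      rw [Finset.sum_const, Finset.card_univ, Fintype.card_fin, smul_eq_mul]
    rw [Fintype.card_option, Fintype.card_fin] at hm
    rw [hsum]
    omega
  · intro i hiK hi hie'
    refine X_not_mem_genIdeal_free (K' : Set ι) f' Kv' hKv' i ?_ ?_
    · intro h
      exact hiK (Finset.mem_sdiff.mp (Finset.mem_coe.mp h)).1
    · rintro (_ | s)
      · exact hie'
      · exact hi s
  · intro s
    exact X_not_mem_genIdeal_block (K' : Set ι) f' hdisj' hKd Kv' hKv' (some s) 1
      (X_one_not_mem_stIdeal (τ s))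

end PartB

/-- **[MIXED-PRIME]** -/
theorem mixedPrimeStatement : MixedPrimeStatement := by
  intro O _ _ _ lam hlam ι _ K n e τ hτ hdisj hK
  exact ⟨mixedPrime_partA lam hlam K e τ hτ hdisj hK,
    fun e' τ' hτ' hd' hK' => mixedPrime_partB lam hlam K e τ hτ hdisj hK e' τ' hτ' hd' hK'⟩

end Fermat.Agent.ML
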