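/-
PROJECT ML (S59), block [LOC-L] — file 14 (helper4): **padding a block with killed variables.**

* `GoodBlockOn β lam I d` : the `β`-variable version of `GoodBlock` (`β` any finite type);
* `goodBlock_pad` : for `e : β ↪ Fin 6`, the padded ideal
  `I.map (rename e) ⊔ span (X '' (range e)ᶜ)` of `𝒪⟦Fin 6⟧` is a `GoodBlock` of the same relative
  dimension;
* `goodBlockOn_bot` : the zero ideal of `𝒪⟦β⟧` (free variables), relative dimension `#β`;
* `goodBlock_span_X` : the ideal of a set `A` of variables of `𝒪⟦Fin 6⟧`, relative dimension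
  `#Aᶜ` — all the prime components (`unr`, `st`, `unr + (th)`) of the kinds `LocalKind.mono κ` and
  `LocalKind.ord n` of `ML/IFACE_lead_Kinds`, padded to six variables, are of this form.
-/
import Mathlib
import Fermat.Agent.RB.TK_helper4_KillVars
import Fermat.Agent.ML.LOCSC_helper4_Block
import Fermat.Agent.ML.LOCSC_helper4_Mixed

set_option autoImplicit false
set_option linter.unusedSectionVars false
set_option linter.style.haveILetI false

namespace Fermat.Agent.ML.LocSc

open MvPowerSeries Fermat.Agent.RB Fermat.Agent.RB.LOC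

section Kill

variable {B : Type*} [CommRing B] {β γ : Type*} [Finite γ]

/-- the comap of an ideal along "kill the variables outside the range of `e`" -/
theorem comap_killCompl_map_C (e : β ↪ γ) (J : Ideal B) (K : Ideal (MvPowerSeries γ B)) :
    (J.map (C (σ := β) (R := B)) ⊔ K.map (killCompl (R := B) e).toRingHom).comap
        (killCompl (R := B) e).toRingHom =
      J.map (C (σ := γ) (R := B)) ⊔ K ⊔
        Ideal.span ((fun t => (X t : MvPowerSeries γ B)) '' (Set.range e)ᶜ) := by
  have h1 : J.map (C (σ := β) (R := B)) =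
      (J.map (C (σ := γ) (R := B))).map (killCompl (R := B) e).toRingHom := by
    rw [Ideal.map_map]
    congr 1
    ext1 r
    exact (killCompl_C (e := e) r).symm
  have hsurj : Function.Surjective (killCompl (R := B) e).toRingHom := TK.killCompl_surjective e
  rw [h1, ← Ideal.map_sup, Ideal.comap_map_of_surjective' _ hsurj]
  congr 1
  exact TK.ker_killCompl e

end Kill

section Pad

variable {O : Type} [CommRing O]

/-- a block in the variables `β` which is stable in the `Pair` induction, of relative dimension
`≤ d` -/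
def GoodBlockOn (β : Type) [Finite β] (lam : O) (I : Ideal (MvPowerSeries β O)) (d : ℕ) : Prop :=
  ∀ (B : Type) [CommRing B] [IsNoetherianRing B] (φ : O →+* B) (J : Ideal B),
    φ lam ∈ (⊥ : Ideal B).jacobson → Pair J (φ lam) →
      Pair (J.map (C (σ := β) (R := B)) ⊔ I.map (MvPowerSeries.map (σ := β) φ)) (C (φ lam)) ∧
      ringKrullDim (MvPowerSeries β B ⧸
        (J.map (C (σ := β) (R := B)) ⊔ I.map (MvPowerSeries.map (σ := β) φ))) ≤
        ringKrullDim (B ⧸ J) + ((d : ℕ) : WithBot ℕ∞)

theorem goodBlockOn_fin6_iff (lam : O) (I : Ideal (MvPowerSeries (Fin 6) O)) (d : ℕ) :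
    GoodBlockOn (Fin 6) lam I d ↔ GoodBlock lam I d := Iff.rfl

/-- **padding with killed variables** -/
theorem goodBlock_pad {β : Type} [Finite β] (e : β ↪ Fin 6) (lam : O)
    (I : Ideal (MvPowerSeries β O)) (d : ℕ) (h : GoodBlockOn β lam I d) :
    GoodBlock lam (I.map (rename (R := O) e).toRingHom ⊔
      Ideal.span ((fun t => (X t : MvPowerSeries (Fin 6) O)) '' (Set.range e)ᶜ)) d := by
  intro B _ _ φ J hjac hP
  obtain ⟨hPair, hdim⟩ := h B φ J hjac hP
  set π : MvPowerSeries (Fin 6) B →+* MvPowerSeries β B := (killCompl (R := B) e).toRingHom with hπ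
  have hsurj : Function.Surjective π := TK.killCompl_surjective e
  -- the padded ideal over `B`
  have hmap : (I.map (rename (R := O) e).toRingHom ⊔
      Ideal.span ((fun t => (X t : MvPowerSeries (Fin 6) O)) '' (Set.range e)ᶜ)).map
        (MvPowerSeries.map (σ := Fin 6) φ) =
      (I.map (MvPowerSeries.map (σ := β) φ)).map (rename (R := B) e).toRingHom ⊔
        Ideal.span ((fun t => (X t : MvPowerSeries (Fin 6) B)) '' (Set.range e)ᶜ) := by
    rw [Ideal.map_sup, Ideal.map_map, Ideal.map_map, Ideal.map_span]
    congr 1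
    · congr 1
      ext1 f
      exact (rename_map (f := e) φ f).symm
    · congr 1
      rw [← Set.image_comp]
      refine Set.image_congr fun t _ => ?_
      exact MvPowerSeries.map_X φ t
  have hback : ((I.map (MvPowerSeries.map (σ := β) φ)).map (rename (R := B) e).toRingHom).map π =
      I.map (MvPowerSeries.map (σ := β) φ) := by
    rw [Ideal.map_map]
    have : π.comp (rename (R := B) e).toRingHom = RingHom.id _ := by
      ext1 f
      exact killCompl_rename_app (e := e) f
    rw [this, Ideal.map_id]
  have hcomap := comap_killCompl_map_C e J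
    ((I.map (MvPowerSeries.map (σ := β) φ)).map (rename (R := B) e).toRingHom)
  rw [← hπ, hback] at hcomap
  rw [hmap, ← sup_assoc, ← hcomap]
  refine ⟨Pair.comap_of_surjective π hsurj hPair (C (φ lam)) (killCompl_C (e := e) (φ lam)), ?_⟩
  refine le_trans (le_of_eq ?_) hdim
  exact ringKrullDim_eq_of_ringEquiv (RingEquiv.ofBijective
    (Ideal.quotientMap (J.map (C (σ := β) (R := B)) ⊔ I.map (MvPowerSeries.map (σ := β) φ)) π
      le_rfl)
    ⟨Ideal.quotientMap_injective, Ideal.quotientMap_surjective hsurj⟩)

/-- free variables -/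
theorem goodBlockOn_bot (β : Type) [Finite β] (lam : O) :
    GoodBlockOn β lam (⊥ : Ideal (MvPowerSeries β O)) (Nat.card β) := by
  classical
  intro B _ _ φ J hjac hP
  haveI := Fintype.ofFinite β
  rw [Ideal.map_bot, sup_bot_eq]
  refine ⟨Pair.stepFree hP β, ?_⟩
  have h1 := dim_le_of_sq_le hP hjac (⊥ : Ideal (MvPowerSeries β B))
    (Finset.univ.image (X : β → MvPowerSeries β B)) ?_ ?_
  · rw [sup_bot_eq] at h1
    refine le_trans h1 ?_
    gcongr
    rw [Nat.card_eq_fintype_card]
    exact_mod_cast Finset.card_image_le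
  · intro f hf
    obtain ⟨i, -, rfl⟩ := Finset.mem_image.1 hf
    exact Ideal.subset_span ⟨i, rfl⟩
  · refine le_trans (Ideal.pow_le_self two_ne_zero) ?_
    refine le_trans ?_ le_sup_right
    rw [Finset.coe_image, Finset.coe_univ, Set.image_univ]

/-- **the ideal of a set of variables of `𝒪⟦Fin 6⟧`** is a good block, of relative dimension the
number of the other variables. -/
theorem goodBlock_span_X (lam : O) (A : Set (Fin 6)) :
    GoodBlock lam (Ideal.span ((fun t => (X t : MvPowerSeries (Fin 6) O)) '' A))
      (Nat.card {x : Fin 6 // x ∉ A}) := by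
  have h := goodBlock_pad (Function.Embedding.subtype (fun x : Fin 6 => x ∉ A)) lam ⊥ _
    (goodBlockOn_bot {x : Fin 6 // x ∉ A} lam)
  have hrange : (Set.range (Function.Embedding.subtype (fun x : Fin 6 => x ∉ A)))ᶜ = A := by
    ext x
    simp
  rwa [Ideal.map_bot, bot_sup_eq, hrange] at h

end Pad

section NonMemX

variable {O : Type} [CommRing O] [Nontrivial O] {ι : Type} [Finite ι]

/-- a variable outside `A` is not in the ideal of the variables of `A` -/
theorem X_not_mem_span_X_image (A : Set ι) (a : ι) (ha : a ∉ A) :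
    (X a : MvPowerSeries ι O) ∉ Ideal.span ((fun t => (X t : MvPowerSeries ι O)) '' A) := by
  have h := X_not_mem_genIdeal_free (O := O) A (fun v : PEmpty.{1} => v.elim)
    (fun v : PEmpty.{1} => v.elim) (fun v => v.elim) a ha (fun v => v.elim)
  rwa [genIdeal, iSup_of_empty, sup_bot_eq] at h

/-- the ideal of a set of variables lies in the ideal of all the variables -/
theorem span_X_image_le (A : Set ι) :
    Ideal.span ((fun t => (X t : MvPowerSeries ι O)) '' A) ≤
      Ideal.span (Set.range (X : ι → MvPowerSeries ι O)) :=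
  Ideal.span_mono (Set.image_subset_range _ _)

end NonMemX

end Fermat.Agent.ML.LocSc
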