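/-
PROJECT ML (S59) — [LOC-L] assembly, lead, file 2: **local kinds in six variables** and their
contract.

Every chain prime gets SIX local variables (helper4's padding, msg 2383/2396): the kinds `mono κ`
(variables `T = X 0`, `Y = X 1`, `Z = X 2`; `X 3, X 4, X 5` are killed everywhere), `ord0`
(`T, Y`; `X 2 … X 5` killed), `ord1` (`T, Y` and the free variable `X 2`; `X 3 … X 5` killed) and
helper4's scalar kind `sc c`.  `Kind6.IsGood lam L` is what the chain induction needs: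
the three prime components `st`, `unr`, `unr + (th)` are `GoodBlock`s, and the two step lemmas.
-/
import Mathlib
import Fermat.Agent.ML.LOCSC_helper4_Pad
import Fermat.Agent.ML.LOCSC_helper4_MixedPrime

set_option autoImplicit false
set_option linter.unusedSectionVars false
set_option linter.style.haveILetI false

namespace Fermat.Agent.ML.LocL

open MvPowerSeries Fermat.Agent.RB Fermat.Agent.ML.LocSc

/-- a local model in six variables -/
structure Kind6 (𝒪 : Type) [CommRing 𝒪] where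
  /-- relations valid when the prime divides the level -/
  rel : Ideal (MvPowerSeries (Fin 6) 𝒪)
  /-- relations valid when the prime does not divide the level -/
  unr : Ideal (MvPowerSeries (Fin 6) 𝒪)
  /-- relations valid on the new quotient -/
  new : Ideal (MvPowerSeries (Fin 6) 𝒪)
  /-- the target component -/
  st : Ideal (MvPowerSeries (Fin 6) 𝒪)
  /-- the level raising element -/
  th : MvPowerSeries (Fin 6) 𝒪
  /-- the relative dimension of the components -/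
  hh : ℕ

/-- the ideal of a set of variables -/
noncomputable def spanX (𝒪 : Type) [CommRing 𝒪] (A : Set (Fin 6)) :
    Ideal (MvPowerSeries (Fin 6) 𝒪) :=
  Ideal.span ((fun t => (X t : MvPowerSeries (Fin 6) 𝒪)) '' A)

theorem X_mem_spanX {𝒪 : Type} [CommRing 𝒪] {A : Set (Fin 6)} {a : Fin 6} (ha : a ∈ A) :
    (X a : MvPowerSeries (Fin 6) 𝒪) ∈ spanX 𝒪 A :=
  Ideal.subset_span ⟨a, ha, rfl⟩

theorem spanX_le {𝒪 : Type} [CommRing 𝒪] {A : Set (Fin 6)} {I : Ideal (MvPowerSeries (Fin 6) 𝒪)}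
    (h : ∀ a ∈ A, (X a : MvPowerSeries (Fin 6) 𝒪) ∈ I) : spanX 𝒪 A ≤ I := by
  rw [spanX, Ideal.span_le]
  rintro _ ⟨a, ha, rfl⟩
  exact h a ha

theorem spanX_sup_span_X {𝒪 : Type} [CommRing 𝒪] (A : Set (Fin 6)) (a : Fin 6) :
    spanX 𝒪 A ⊔ Ideal.span {(X a : MvPowerSeries (Fin 6) 𝒪)} = spanX 𝒪 (insert a A) := by
  rw [spanX, spanX, ← Ideal.span_union, Set.image_insert_eq, Set.union_singleton]

namespace Kind6

variable {𝒪 : Type} [CommRing 𝒪]

/-- **the contract of a kind** -/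
structure IsGood (lam : 𝒪) (L : Kind6 𝒪) : Prop where
  st_good : GoodBlock lam L.st L.hh
  unr_good : GoodBlock lam L.unr L.hh
  unrTh_good : ∃ d : ℕ, GoodBlock lam (L.unr ⊔ Ideal.span {L.th}) d
  st_le : L.st ≤ Ideal.span (Set.range (X : Fin 6 → MvPowerSeries (Fin 6) 𝒪))
  unr_le : L.unr ≤ Ideal.span (Set.range (X : Fin 6 → MvPowerSeries (Fin 6) 𝒪))
  th_mem : L.th ∈ Ideal.span (Set.range (X : Fin 6 → MvPowerSeries (Fin 6) 𝒪))
  /-- the variable `X 1` survives on the target component -/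
  wit_not_mem : (X 1 : MvPowerSeries (Fin 6) 𝒪) ∉ L.st
  /-- step, old part -/
  step_old : ∀ 𝔓 : Ideal (MvPowerSeries (Fin 6) 𝒪), 𝔓.IsPrime → L.rel ≤ 𝔓 →
    (X 1 : MvPowerSeries (Fin 6) 𝒪) ∉ 𝔓 → (C lam : MvPowerSeries (Fin 6) 𝒪) ∉ 𝔓 → L.st ≤ 𝔓
  /-- step, new part -/
  step_new : ∀ 𝔓 𝔔 : Ideal (MvPowerSeries (Fin 6) 𝒪), 𝔓.IsPrime → 𝔔.IsPrime → L.new ≤ 𝔓 →
    𝔓 ≤ 𝔔 → L.th ∈ 𝔔 → (C lam : MvPowerSeries (Fin 6) 𝒪) ∉ 𝔔 → L.st ≤ 𝔓

/-- the start at level one (only for the kinds at `p`) -/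
structure IsStart (L : Kind6 𝒪) : Prop where
  split : ∀ 𝔓 : Ideal (MvPowerSeries (Fin 6) 𝒪), 𝔓.IsPrime → L.rel ≤ 𝔓 → L.unr ≤ 𝔓 ∨ L.st ≤ 𝔓
  wit_mem_new : (X 0 : MvPowerSeries (Fin 6) 𝒪) ∈ L.new
  wit_not_mem_unr : (X 0 : MvPowerSeries (Fin 6) 𝒪) ∉ L.unr

/-! ### the four kinds -/

/-- the monomial kind (all `ns` primes) -/
noncomputable def mono (κ : 𝒪) : Kind6 𝒪 where
  rel := Ideal.span {X 0 * X 1, (X 0 + C κ) * X 2, X 1 * X 2} ⊔ spanX 𝒪 {3, 4, 5}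
  unr := spanX 𝒪 {1, 2, 3, 4, 5}
  new := Ideal.span {X 0 * X 1, (X 0 + C κ) * X 2, X 1 * X 2} ⊔ spanX 𝒪 {3, 4, 5} ⊔
    Ideal.span {X 0 * (X 0 + C κ)}
  st := spanX 𝒪 {0, 2, 3, 4, 5}
  th := X 0
  hh := 1

/-- the kind at `p`, non-split case -/
noncomputable def ord0 (𝒪 : Type) [CommRing 𝒪] : Kind6 𝒪 where
  rel := Ideal.span {X 0 * X 1} ⊔ spanX 𝒪 {2, 3, 4, 5}
  unr := spanX 𝒪 {1, 2, 3, 4, 5}
  new := spanX 𝒪 {0, 2, 3, 4, 5}
  st := spanX 𝒪 {0, 2, 3, 4, 5}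
  th := X 0
  hh := 1

/-- the kind at `p`, split case -/
noncomputable def ord1 (𝒪 : Type) [CommRing 𝒪] : Kind6 𝒪 where
  rel := Ideal.span {X 0 * X 1} ⊔ spanX 𝒪 {3, 4, 5}
  unr := spanX 𝒪 {1, 3, 4, 5}
  new := spanX 𝒪 {0, 3, 4, 5}
  st := spanX 𝒪 {0, 3, 4, 5}
  th := X 0
  hh := 2

/-- the scalar kind (helper4) -/
noncomputable def sc (c : ScConst 𝒪) : Kind6 𝒪 where
  rel := relIdeal c
  unr := unrIdeal 𝒪
  new := newIdeal c
  st := stIdeal c.tau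
  th := thElt c.tau
  hh := 3

end Kind6

/-! ### auxiliary facts -/

section Aux

variable {𝒪 : Type} [CommRing 𝒪]

theorem card_compl_eq {A : Set (Fin 6)} [DecidablePred (· ∈ A)] (n : ℕ)
    (h : (Finset.univ.filter (fun x : Fin 6 => x ∉ A)).card = n) :
    Nat.card {x : Fin 6 // x ∉ A} = n := by
  rw [Nat.card_eq_fintype_card, Fintype.card_subtype, h]

theorem goodBlock_spanX [IsDomain 𝒪] (lam : 𝒪) (A : Set (Fin 6)) [DecidablePred (· ∈ A)] (n : ℕ)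
    (h : (Finset.univ.filter (fun x : Fin 6 => x ∉ A)).card = n) :
    GoodBlock lam (spanX 𝒪 A) n := by
  have := goodBlock_span_X lam A
  rwa [card_compl_eq n h] at this

theorem spanX_le_range [Nontrivial 𝒪] (A : Set (Fin 6)) :
    spanX 𝒪 A ≤ Ideal.span (Set.range (X : Fin 6 → MvPowerSeries (Fin 6) 𝒪)) :=
  span_X_image_le A

theorem X_not_mem_spanX [Nontrivial 𝒪] (A : Set (Fin 6)) (a : Fin 6) (ha : a ∉ A) :
    (X a : MvPowerSeries (Fin 6) 𝒪) ∉ spanX 𝒪 A :=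
  X_not_mem_span_X_image A a ha

theorem X_mem_range (a : Fin 6) :
    (X a : MvPowerSeries (Fin 6) 𝒪) ∈
      Ideal.span (Set.range (X : Fin 6 → MvPowerSeries (Fin 6) 𝒪)) :=
  Ideal.subset_span ⟨a, rfl⟩

/-- in characteristic zero, non-zero constants are not in a prime which does not contain the
uniformizer -/
theorem C_not_mem_of_ne_zero [IsDomain 𝒪] [IsDiscreteValuationRing 𝒪] {lam : 𝒪}
    (hlam : Irreducible lam) {σ : Type*} (𝔔 : Ideal (MvPowerSeries σ 𝒪)) [h𝔔 : 𝔔.IsPrime]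
    (hl : (C lam : MvPowerSeries σ 𝒪) ∉ 𝔔) {κ : 𝒪} (hκ : κ ≠ 0) :
    (C κ : MvPowerSeries σ 𝒪) ∉ 𝔔 := by
  obtain ⟨n, u, rfl⟩ := IsDiscreteValuationRing.eq_unit_mul_pow_irreducible hκ hlam
  intro hmem
  rw [map_mul, map_pow] at hmem
  rcases h𝔔.mem_or_mem hmem with h | h
  · have hu : IsUnit (C (u : 𝒪) : MvPowerSeries σ 𝒪) := u.isUnit.map C
    exact h𝔔.ne_top (𝔔.eq_top_of_isUnit_mem h hu)
  · exact hl (h𝔔.mem_of_pow_mem n h)

end Aux

end Fermat.Agent.ML.LocL
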