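/-
PROJECT ML (S59) — [LOC-L] assembly, lead, file 5: **the chart contract in six coordinates** and
the three adapters (ns: helper7's `NsChartStatement7`, sc: helper4's `ScChartStatement`,
p: lead's `PChartStatement`).
-/
import Mathlib
import Fermat.Agent.ML.LOCL_lead_Eval
import Fermat.Agent.ML.LOCL_lead_Kind6
import Fermat.Agent.ML.IFACE_helper9_Chart
import Fermat.Agent.ML.IFACE_helper7_NsChart
import Fermat.Agent.ML.IFACE_helper4_ScChart
import Fermat.Agent.ML.IFACE_lead_PChart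

set_option autoImplicit false
set_option linter.unusedSectionVars false
set_option linter.unusedVariables false
set_option linter.style.haveILetI false

open Polynomial IsLocalRing

namespace Fermat.Agent.ML.LocL

open Fermat.Agent.TW Fermat.Agent.ML.LocSc

local notation "GQ" => (AlgebraicClosure ℚ ≃ₐ[ℚ] AlgebraicClosure ℚ)

section Contract

variable {𝒪 : Type} [CommRing 𝒪] [IsLocalRing 𝒪]
  {T : Type} [CommRing T] [IsLocalRing T] [Algebra 𝒪 T] [IsAdicComplete (maximalIdeal T) T]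

/-- **(E1)–(E6) for one chain prime** `q` (which may be `p`), in six coordinates. -/
structure IsChart6 (ρ : GaloisRepAdic T) (p q : ℕ) (sgn : 𝒪) (L : Kind6 𝒪)
    (x : Fin 6 → T) (hx : ∀ a, x a ∈ maximalIdeal T) : Prop where
  /-- (E6) -/
  triv : IsLocTrivIdeal 𝒪 ρ q (Ideal.span (Set.range x))
  /-- (E1) -/
  rel : ∀ f ∈ L.rel, psLift (maximalIdeal T) x hx f = 0
  /-- (E2) -/
  unr : q ≠ p → ∀ f ∈ L.unr, psLift (maximalIdeal T) x hx f ∈ RB.inertiaIdeal ρ q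
  /-- (E3) -/
  new : q ≠ p → ∀ f ∈ L.new, psLift (maximalIdeal T) x hx f ∈
    Ideal.span {a : T | ∃ (P : ValuationSubring (AlgebraicClosure ℚ))
      (_ : P.LiesOverPrime q) (φ : GQ) (_ : P.IsFrobeniusAt φ q),
      a = ρ.trace φ ^ 2 - (((q : ℕ) : T) + 1) ^ 2}
  /-- (E3) at `p` -/
  newp : q = p → ∀ I : Ideal T,
    (∀ (B : Type) [CommRing B] [IsLocalRing B] (π : T →+* B) (hπ : IsLocalHom π),
      Function.Surjective π → I ≤ RingHom.ker π →
        (ρ.baseChangeAlong π hπ).IsStrictOrdinaryAt p) →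
    ∀ f ∈ L.new, psLift (maximalIdeal T) x hx f ∈ I
  /-- (E4) -/
  st : ∀ (ρW : GaloisRepAdic 𝒪),
    (q ≠ p → ρW.IsUnipotentOnInertiaAt q ∧
      ∀ A : ValuationSubring (AlgebraicClosure ℚ), A.LiesOverPrime q →
        ∀ φ : GQ, A.IsFrobeniusAt φ q →
          LinearMap.charpoly (ρW.ρ φ) = (X - C sgn) * (X - C (sgn * ((q : ℕ) : 𝒪)))) →
    (q = p → ρW.IsStrictOrdinaryAt p) →
    ∀ π : T →ₐ[𝒪] 𝒪, (∀ σ : GQ, π (ρ.trace σ) = ρW.trace σ) →
      ∀ f ∈ L.st, π (psLift (maximalIdeal T) x hx f) = 0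
  /-- (E5) -/
  th : q ≠ p → ∀ (P : ValuationSubring (AlgebraicClosure ℚ)), P.LiesOverPrime q →
    ∀ φ : GQ, P.IsFrobeniusAt φ q → ∃ u : T, IsUnit u ∧
      psLift (maximalIdeal T) x hx L.th -
        u * ((((q : ℕ) : T)) + 1 - algebraMap 𝒪 T sgn * ρ.trace φ) ∈ RB.inertiaIdeal ρ q
  /-- (E5) at `p` -/
  thp : q = p → ∀ Up : T,
    (∀ (P : ValuationSubring (AlgebraicClosure ℚ)), P.LiesOverPrime p →
      ∀ φ : GQ, P.IsFrobeniusAt φ p → ∃ L' : Submodule T ρ.V,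
        (∃ b : Module.Basis (Fin 2) T ρ.V, L' = T ∙ b 0) ∧
        (∀ σ ∈ P.decompositionSubgroup ℚ, ∀ v ∈ L', ρ.ρ σ v ∈ L') ∧
        (∀ σ ∈ P.inertiaSubgroupIn ℚ, ∀ v : ρ.V, ρ.ρ σ v - v ∈ L') ∧
        ∀ v : ρ.V, ρ.ρ φ v - Up • v ∈ L') →
    ∃ u : T, IsUnit u ∧ psLift (maximalIdeal T) x hx L.th = u * (Up ^ 2 - 1)

/-- evaluation of an ideal of variables -/
theorem psLift_spanX_mem (x : Fin 6 → T) (hx : ∀ a, x a ∈ maximalIdeal T) (A : Set (Fin 6))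
    (J : Ideal T) (h : ∀ a ∈ A, x a ∈ J) :
    ∀ f ∈ spanX 𝒪 A, psLift (maximalIdeal T) x hx f ∈ J := by
  refine LocL.psLift_span_mem (maximalIdeal T) x hx _ J ?_
  rintro _ ⟨a, ha, rfl⟩
  rw [psLift_X]
  exact h a ha

theorem isLocTrivIdeal_mono {ρ : GaloisRepAdic T} {q : ℕ} {I I' : Ideal T} (h : I ≤ I')
    (hI : IsLocTrivIdeal 𝒪 ρ q I) : IsLocTrivIdeal 𝒪 ρ q I' :=
  fun J hJ h2 hl => hI J (le_trans h hJ) h2 hl

end Contract

end Fermat.Agent.ML.LocL
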