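/-
PROJECT ML (S59) — [LOC-L] assembly, lead, file 6: the three adapters
(ns: helper7's `NsChartStatement7`, sc: helper4's `ScChartStatement`, p: lead's `PChartStatement`)
to the six-coordinate contract `IsChart6`.
-/
import Mathlib
import Fermat.Agent.ML.LOCL_lead_Chart6

set_option autoImplicit false
set_option linter.unusedSectionVars false
set_option linter.unusedVariables false
set_option linter.style.haveILetI false

open IsLocalRing

namespace Fermat.Agent.ML.LocL

open Fermat.Agent.TW Fermat.Agent.ML.LocSc MvPowerSeries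

local notation "GQ" => (AlgebraicClosure ℚ ≃ₐ[ℚ] AlgebraicClosure ℚ)

section Vec

variable {T : Type} [CommRing T] [IsLocalRing T]

/-- six coordinates, the last three zero -/
def vec3 (t y z : T) : Fin 6 → T := ![t, y, z, 0, 0, 0]

theorem vec3_mem {t y z : T} (ht : t ∈ maximalIdeal T) (hy : y ∈ maximalIdeal T)
    (hz : z ∈ maximalIdeal T) (a : Fin 6) : vec3 t y z a ∈ maximalIdeal T := by
  fin_cases a
  · exact ht
  · exact hy
  · exact hz
  · exact zero_mem _
  · exact zero_mem _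
  · exact zero_mem _

theorem span_le_span_range_vec3 (t y z : T) :
    Ideal.span {t, y, z} ≤ Ideal.span (Set.range (vec3 t y z)) := by
  rw [Ideal.span_le]
  intro a ha
  simp only [Set.mem_insert_iff, Set.mem_singleton_iff] at ha
  rcases ha with rfl | rfl | rfl
  · exact Ideal.subset_span ⟨0, rfl⟩
  · exact Ideal.subset_span ⟨1, rfl⟩
  · exact Ideal.subset_span ⟨2, rfl⟩

end Vec

/-! ### the `ns` kind -/

theorem exists_chart6_ns (hns : NsChartStatement7)
    {𝒪 : Type} [CommRing 𝒪] [IsDomain 𝒪] [IsDiscreteValuationRing 𝒪]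
    [IsAdicComplete (maximalIdeal 𝒪) 𝒪] [Finite (ResidueField 𝒪)] [CharZero 𝒪]
    (p : ℕ) [Fact p.Prime] (hp2 : p ≠ 2) (hp𝒪 : (p : 𝒪) ∈ maximalIdeal 𝒪)
    (ρbar : ResidualGaloisRep (ResidueField 𝒪))
    (q : ℕ) (hq : q.Prime) (s : 𝒪) (hs : s ^ 2 = 1)
    (hK : ChainKind.ns.Holds ρbar p q)
    (hcp : ∀ A : ValuationSubring (AlgebraicClosure ℚ), A.LiesOverPrime q →
      ∀ φ : GQ, A.IsFrobeniusAt φ q →
        LinearMap.charpoly (ρbar.ρ φ) =
          (Polynomial.X - Polynomial.C (residue 𝒪 s)) *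
            (Polynomial.X - Polynomial.C (residue 𝒪 s * ((q : ℕ) : ResidueField 𝒪)))) :
    ∃ κ : 𝒪, κ ≠ 0 ∧
      ∀ (T : Type) [CommRing T] [IsLocalRing T] [IsNoetherianRing T]
        [IsAdicComplete (maximalIdeal T) T] [Algebra 𝒪 T] [IsLocalHom (algebraMap 𝒪 T)]
        [Module.Finite 𝒪 T]
        (_ : Function.Surjective (IsLocalRing.residue T ∘ algebraMap 𝒪 T))
        (_ : ∀ a : 𝒪, a ≠ 0 → ∀ t : T, a • t = 0 → t = 0)
        (ρ : GaloisRepAdic T)
        (_ : ρ.residual.IsEquiv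
          (ρbar.baseChangeAlong (IsLocalRing.ResidueField.map (algebraMap 𝒪 T))))
        (_ : ρ.DetIsCyclotomic p) (_ : ρ.IsUnipotentOnInertiaAt q),
        ∃ (x : Fin 6 → T) (hx : ∀ a, x a ∈ maximalIdeal T),
          IsChart6 ρ p q s (Kind6.mono κ) x hx := by
  obtain ⟨κ, hκ, h⟩ := hns p hp2 hp𝒪 ρbar q hq s hs hK hcp
  refine ⟨κ, hκ, fun T _ _ _ _ _ _ _ hsurj htf ρ hres hdet hunip => ?_⟩
  obtain ⟨t, y, z, ht, hy, hz, hE6, h1, h2, h3, hyI, hzI, hnew, hE4, hE5⟩ :=
    h T hsurj htf ρ hres hdet hunip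
  have hqp : q ≠ p := hK.1
  refine ⟨vec3 t y z, vec3_mem ht hy hz, ?_⟩
  have hx0 : vec3 t y z 0 = t := rfl
  have hx1 : vec3 t y z 1 = y := rfl
  have hx2 : vec3 t y z 2 = z := rfl
  have hx3 : vec3 t y z 3 = 0 := rfl
  have hx4 : vec3 t y z 4 = 0 := rfl
  have hx5 : vec3 t y z 5 = 0 := rfl
  -- the monomial relations evaluate to zero
  have hrel0 : ∀ J : Ideal T, ∀ f ∈ (Ideal.span {X 0 * X 1, (X 0 + C κ) * X 2, X 1 * X 2} ⊔
      spanX 𝒪 {3, 4, 5} : Ideal (MvPowerSeries (Fin 6) 𝒪)),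
      psLift (maximalIdeal T) (vec3 t y z) (vec3_mem ht hy hz) f ∈ J := by
    intro J
    refine psLift_sup_mem _ _ _ _ _ J ?_ ?_
    · refine psLift_span_mem _ _ _ _ J ?_
      intro f hf
      simp only [Set.mem_insert_iff, Set.mem_singleton_iff] at hf
      rcases hf with rfl | rfl | rfl
      · rw [map_mul, psLift_X, psLift_X, hx0, hx1, h1]; exact zero_mem _
      · rw [map_mul, map_add, psLift_X, psLift_X, psLift_C, hx0, hx2, h2]; exact zero_mem _
      · rw [map_mul, psLift_X, psLift_X, hx1, hx2, h3]; exact zero_mem _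
    · refine psLift_spanX_mem _ _ _ J ?_
      intro a ha
      simp only [Set.mem_insert_iff, Set.mem_singleton_iff] at ha
      rcases ha with rfl | rfl | rfl
      · rw [hx3]; exact zero_mem _
      · rw [hx4]; exact zero_mem _
      · rw [hx5]; exact zero_mem _
  refine
    { triv := isLocTrivIdeal_mono (span_le_span_range_vec3 t y z) hE6
      rel := fun f hf => by
        have := hrel0 ⊥ f hf
        rwa [Ideal.mem_bot] at this
      unr := fun _ => psLift_spanX_mem _ _ _ _ (by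
        intro a ha
        simp only [Set.mem_insert_iff, Set.mem_singleton_iff] at ha
        rcases ha with rfl | rfl | rfl | rfl | rfl
        · rw [hx1]; exact hyI
        · rw [hx2]; exact hzI
        · rw [hx3]; exact zero_mem _
        · rw [hx4]; exact zero_mem _
        · rw [hx5]; exact zero_mem _)
      new := fun _ => psLift_sup_mem _ _ _ _ _ _ (hrel0 _) (psLift_span_mem _ _ _ _ _ (by
        intro f hf
        rw [Set.mem_singleton_iff] at hf
        subst hf
        rw [map_mul, map_add, psLift_X, psLift_C, hx0]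
        exact hnew))
      newp := fun h => absurd h hqp
      st := fun ρW hW _ π hπ => by
        obtain ⟨hπt, hπz⟩ := hE4 ρW (hW hqp).2 π hπ
        intro f hf
        have := psLift_spanX_mem (𝒪 := 𝒪) (vec3 t y z) (vec3_mem ht hy hz) {0, 2, 3, 4, 5}
          (RingHom.ker π.toRingHom) (by
            intro a ha
            simp only [Set.mem_insert_iff, Set.mem_singleton_iff] at ha
            rcases ha with rfl | rfl | rfl | rfl | rfl
            · rw [hx0]; exact hπt
            · rw [hx2]; exact hπz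
            · rw [hx3]; exact zero_mem _
            · rw [hx4]; exact zero_mem _
            · rw [hx5]; exact zero_mem _) f hf
        exact this
      th := fun _ P hP φ hφ => by
        obtain ⟨u, hu, h⟩ := hE5 P hP φ hφ
        refine ⟨u, hu, ?_⟩
        show psLift (maximalIdeal T) (vec3 t y z) (vec3_mem ht hy hz) (X 0) - _ ∈ _
        rw [psLift_X, hx0]
        exact h
      thp := fun h => absurd h hqp }

/-! ### the `sc` kind -/

theorem exists_chart6_sc (hsc : ScChartStatement)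
    {𝒪 : Type} [CommRing 𝒪] [IsDomain 𝒪] [IsDiscreteValuationRing 𝒪]
    [IsAdicComplete (maximalIdeal 𝒪) 𝒪]
    (p : ℕ) [Fact p.Prime] (hp𝒪 : (p : 𝒪) ∈ maximalIdeal 𝒪)
    (ρbar : ResidualGaloisRep (ResidueField 𝒪))
    (q : ℕ) (hq : q.Prime) (hqp : q ≠ p) (hK : RB.ResFrobScalarAt ρbar p q)
    (c : ScConst 𝒪) (hcv : c.v = (q : 𝒪))
    (hcp : ∀ A : ValuationSubring (AlgebraicClosure ℚ), A.LiesOverPrime q →
      ∀ φ : GQ, A.IsFrobeniusAt φ q →
        LinearMap.charpoly (ρbar.ρ φ) =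
          (Polynomial.X - Polynomial.C (residue 𝒪 c.sgn)) *
            (Polynomial.X - Polynomial.C (residue 𝒪 c.sgn * ((q : ℕ) : ResidueField 𝒪))))
    (T : Type) [CommRing T] [IsLocalRing T] [IsNoetherianRing T]
    [IsAdicComplete (maximalIdeal T) T] [Algebra 𝒪 T] [IsLocalHom (algebraMap 𝒪 T)]
    (ρ : GaloisRepAdic T)
    (hres : ρ.residual.IsEquiv
      (ρbar.baseChangeAlong (IsLocalRing.ResidueField.map (algebraMap 𝒪 T))))
    (hdet : ρ.DetIsCyclotomic p) (hunip : ρ.IsUnipotentOnInertiaAt q) :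
    ∃ (x : Fin 6 → T) (hx : ∀ a, x a ∈ maximalIdeal T),
      IsChart6 ρ p q c.sgn (Kind6.sc c) x hx := by
  obtain ⟨x, hx, hE6, hE1, hE2, hE3, hE4, hE5⟩ :=
    hsc p hp𝒪 ρbar q hq hqp hK c hcv hcp T ρ hres hdet hunip
  exact ⟨x, hx,
    { triv := hE6
      rel := hE1
      unr := fun _ => hE2
      new := fun _ => hE3
      newp := fun h => absurd h hqp
      st := fun ρW hW _ π hπ => hE4 ρW (hW hqp).2 π hπ
      th := fun _ => hE5
      thp := fun h => absurd h hqp }⟩

/-! ### the kinds at `p` -/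

section AtP

variable (hpc : PChartStatement)
  {𝒪 : Type} [CommRing 𝒪] [IsDomain 𝒪] [IsDiscreteValuationRing 𝒪]
  [IsAdicComplete (maximalIdeal 𝒪) 𝒪] [Finite (ResidueField 𝒪)]
  (p : ℕ) [Fact p.Prime] (hp2 : p ≠ 2) (hp𝒪 : (p : 𝒪) ∈ maximalIdeal 𝒪)
  (ρbar : ResidualGaloisRep (ResidueField 𝒪))
  (s : 𝒪) (hs : s ^ 2 = 1) (hpeu : IsPeuRamifieeAt ρbar p)
  (hord : ∀ A : ValuationSubring (AlgebraicClosure ℚ), A.LiesOverPrime p →
    ∃ Lbar : Submodule (ResidueField 𝒪) ρbar.V,
      (∃ v : ρbar.V, v ≠ 0 ∧ Lbar = Submodule.span (ResidueField 𝒪) {v}) ∧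
      (∀ σ ∈ A.decompositionSubgroup ℚ, ∀ v ∈ Lbar, ρbar.ρ σ v ∈ Lbar) ∧
      (∀ σ ∈ A.inertiaSubgroupIn ℚ, ∀ v : ρbar.V, ρbar.ρ σ v - v ∈ Lbar) ∧
      ∀ φ : GQ, A.IsFrobeniusAt φ p → ∀ v : ρbar.V, ρbar.ρ φ v - residue 𝒪 s • v ∈ Lbar)
  (T : Type) [CommRing T] [IsLocalRing T] [IsNoetherianRing T]
  [IsAdicComplete (maximalIdeal T) T] [Algebra 𝒪 T] [IsLocalHom (algebraMap 𝒪 T)]
  (hsurj : Function.Surjective (IsLocalRing.residue T ∘ algebraMap 𝒪 T))
  (ρ : GaloisRepAdic T)
  (hres : ρ.residual.IsEquiv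
    (ρbar.baseChangeAlong (IsLocalRing.ResidueField.map (algebraMap 𝒪 T))))
  (hdet : ρ.DetIsCyclotomic p) (hordρ : ρ.IsOrdinaryAt p)

include hpc hp2 hp𝒪 hs hpeu hord hsurj hres hdet hordρ in
theorem exists_chart6_pns (hK : ChainKind.pns.Holds ρbar p p) :
    ∃ (x : Fin 6 → T) (hx : ∀ a, x a ∈ maximalIdeal T),
      IsChart6 ρ p p s (Kind6.ord0 𝒪) x hx := by
  obtain ⟨t, y, w, ht, hy, hw, hE6, hE1, hE3, hE4, hE5⟩ :=
    hpc p hp2 hp𝒪 ρbar s hs hpeu hord 0 (fun _ => hK) T hsurj ρ hres hdet hordρ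
  have h0 : (0 : T) ∈ maximalIdeal T := zero_mem _
  refine ⟨vec3 t y 0, vec3_mem ht hy h0, ?_⟩
  have hx0 : vec3 t y 0 0 = t := rfl
  have hx1 : vec3 t y 0 1 = y := rfl
  have hx2 : vec3 t y (0 : T) 2 = 0 := rfl
  have hx3 : vec3 t y (0 : T) 3 = 0 := rfl
  have hx4 : vec3 t y (0 : T) 4 = 0 := rfl
  have hx5 : vec3 t y (0 : T) 5 = 0 := rfl
  have hst : ∀ J : Ideal T, t ∈ J → ∀ f ∈ spanX 𝒪 {0, 2, 3, 4, 5},
      psLift (maximalIdeal T) (vec3 t y 0) (vec3_mem ht hy h0) f ∈ J := by
    intro J htJ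
    refine psLift_spanX_mem _ _ _ J ?_
    intro a ha
    simp only [Set.mem_insert_iff, Set.mem_singleton_iff] at ha
    rcases ha with rfl | rfl | rfl | rfl | rfl
    · rw [hx0]; exact htJ
    · rw [hx2]; exact zero_mem _
    · rw [hx3]; exact zero_mem _
    · rw [hx4]; exact zero_mem _
    · rw [hx5]; exact zero_mem _
  refine
    { triv := by
        refine isLocTrivIdeal_mono ?_ hE6
        rw [Ideal.span_le]
        rintro a (ha | ⟨i, -⟩)
        · simp only [Set.mem_insert_iff, Set.mem_singleton_iff] at ha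
          rcases ha with rfl | rfl
          · exact Ideal.subset_span ⟨0, rfl⟩
          · exact Ideal.subset_span ⟨1, rfl⟩
        · exact i.elim0
      rel := fun f hf => by
        have : psLift (maximalIdeal T) (vec3 t y 0) (vec3_mem ht hy h0) f ∈ (⊥ : Ideal T) := by
          refine psLift_sup_mem _ _ _ _ _ ⊥ ?_ ?_ f hf
          · refine psLift_span_mem _ _ _ _ ⊥ ?_
            intro f hf
            rw [Set.mem_singleton_iff] at hf
            subst hf
            rw [map_mul, psLift_X, psLift_X, hx0, hx1, hE1]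
            exact zero_mem _
          · refine psLift_spanX_mem _ _ _ ⊥ ?_
            intro a ha
            simp only [Set.mem_insert_iff, Set.mem_singleton_iff] at ha
            rcases ha with rfl | rfl | rfl | rfl
            · rw [hx2]; exact zero_mem _
            · rw [hx3]; exact zero_mem _
            · rw [hx4]; exact zero_mem _
            · rw [hx5]; exact zero_mem _
        rwa [Ideal.mem_bot] at this
      unr := fun h => absurd rfl h
      new := fun h => absurd rfl h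
      newp := fun _ I hI => hst I (hE3 I hI)
      st := fun ρW _ hW π hπ f hf =>
        hst (RingHom.ker π.toRingHom) (hE4 ρW (hW rfl) π hπ) f hf
      th := fun h => absurd rfl h
      thp := fun _ Up hUp => by
        obtain ⟨u, hu, h⟩ := hE5 Up hUp
        refine ⟨u, hu, ?_⟩
        show psLift (maximalIdeal T) (vec3 t y 0) (vec3_mem ht hy h0) (X 0) = _
        rw [psLift_X, hx0]
        exact h }

include hpc hp2 hp𝒪 hs hpeu hord hsurj hres hdet hordρ in
theorem exists_chart6_psp :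
    ∃ (x : Fin 6 → T) (hx : ∀ a, x a ∈ maximalIdeal T),
      IsChart6 ρ p p s (Kind6.ord1 𝒪) x hx := by
  obtain ⟨t, y, w, ht, hy, hw, hE6, hE1, hE3, hE4, hE5⟩ :=
    hpc p hp2 hp𝒪 ρbar s hs hpeu hord 1 (fun h => absurd h one_ne_zero) T hsurj ρ hres hdet hordρ
  refine ⟨vec3 t y (w 0), vec3_mem ht hy (hw 0), ?_⟩
  have hx0 : vec3 t y (w 0) 0 = t := rfl
  have hx1 : vec3 t y (w 0) 1 = y := rfl
  have hx2 : vec3 t y (w 0) 2 = w 0 := rfl
  have hx3 : vec3 t y (w 0) 3 = 0 := rfl
  have hx4 : vec3 t y (w 0) 4 = 0 := rfl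
  have hx5 : vec3 t y (w 0) 5 = 0 := rfl
  have hst : ∀ J : Ideal T, t ∈ J → ∀ f ∈ spanX 𝒪 {0, 3, 4, 5},
      psLift (maximalIdeal T) (vec3 t y (w 0)) (vec3_mem ht hy (hw 0)) f ∈ J := by
    intro J htJ
    refine psLift_spanX_mem _ _ _ J ?_
    intro a ha
    simp only [Set.mem_insert_iff, Set.mem_singleton_iff] at ha
    rcases ha with rfl | rfl | rfl | rfl
    · rw [hx0]; exact htJ
    · rw [hx3]; exact zero_mem _
    · rw [hx4]; exact zero_mem _
    · rw [hx5]; exact zero_mem _
  refine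
    { triv := by
        refine isLocTrivIdeal_mono ?_ hE6
        rw [Ideal.span_le]
        rintro a (ha | ⟨i, rfl⟩)
        · simp only [Set.mem_insert_iff, Set.mem_singleton_iff] at ha
          rcases ha with rfl | rfl
          · exact Ideal.subset_span ⟨0, rfl⟩
          · exact Ideal.subset_span ⟨1, rfl⟩
        · have : i = 0 := Subsingleton.elim _ _
          subst this
          exact Ideal.subset_span ⟨2, rfl⟩
      rel := fun f hf => by
        have : psLift (maximalIdeal T) (vec3 t y (w 0)) (vec3_mem ht hy (hw 0)) f ∈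
            (⊥ : Ideal T) := by
          refine psLift_sup_mem _ _ _ _ _ ⊥ ?_ ?_ f hf
          · refine psLift_span_mem _ _ _ _ ⊥ ?_
            intro f hf
            rw [Set.mem_singleton_iff] at hf
            subst hf
            rw [map_mul, psLift_X, psLift_X, hx0, hx1, hE1]
            exact zero_mem _
          · refine psLift_spanX_mem _ _ _ ⊥ ?_
            intro a ha
            simp only [Set.mem_insert_iff, Set.mem_singleton_iff] at ha
            rcases ha with rfl | rfl | rfl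
            · rw [hx3]; exact zero_mem _
            · rw [hx4]; exact zero_mem _
            · rw [hx5]; exact zero_mem _
        rwa [Ideal.mem_bot] at this
      unr := fun h => absurd rfl h
      new := fun h => absurd rfl h
      newp := fun _ I hI => hst I (hE3 I hI)
      st := fun ρW _ hW π hπ f hf =>
        hst (RingHom.ker π.toRingHom) (hE4 ρW (hW rfl) π hπ) f hf
      th := fun h => absurd rfl h
      thp := fun _ Up hUp => by
        obtain ⟨u, hu, h⟩ := hE5 Up hUp
        refine ⟨u, hu, ?_⟩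
        show psLift (maximalIdeal T) (vec3 t y (w 0)) (vec3_mem ht hy (hw 0)) (X 0) = _
        rw [psLift_X, hx0]
        exact h }

end AtP

end Fermat.Agent.ML.LocL
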