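/-
PROJECT ML (S59) — [LOC-L] assembly, lead, file 3: the four kinds satisfy the contract
`Kind6.IsGood` (and the kinds at `p` satisfy `Kind6.IsStart`).
-/
import Mathlib
import Fermat.Agent.ML.LOCL_lead_Kind6

set_option autoImplicit false
set_option linter.unusedSectionVars false
set_option linter.style.haveILetI false

namespace Fermat.Agent.ML.LocL

open MvPowerSeries Fermat.Agent.RB Fermat.Agent.ML.LocSc

variable {𝒪 : Type} [CommRing 𝒪] [IsDomain 𝒪] [IsDiscreteValuationRing 𝒪]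

namespace Kind6

/-! ### the monomial kind -/

theorem mono_isGood (lam : 𝒪) (hlam : Irreducible lam) (κ : 𝒪) (hκ : κ ≠ 0) :
    (mono κ).IsGood lam where
  st_good := goodBlock_spanX lam _ 1 (by decide)
  unr_good := goodBlock_spanX lam _ 1 (by decide)
  unrTh_good := ⟨0, by
    show GoodBlock lam (spanX 𝒪 {1, 2, 3, 4, 5} ⊔ Ideal.span {X 0}) 0
    rw [spanX_sup_span_X]
    exact goodBlock_spanX lam _ 0 (by decide)⟩
  st_le := spanX_le_range _
  unr_le := spanX_le_range _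
  th_mem := X_mem_range 0
  wit_not_mem := X_not_mem_spanX _ 1 (by decide)
  step_old := by
    intro 𝔓 h𝔓 hrel h1 hl
    have hκ𝔓 : (C κ : MvPowerSeries (Fin 6) 𝒪) ∉ 𝔓 := C_not_mem_of_ne_zero hlam 𝔓 hl hκ
    have hgen : ∀ f ∈ ({X 0 * X 1, (X 0 + C κ) * X 2, X 1 * X 2} :
        Set (MvPowerSeries (Fin 6) 𝒪)), f ∈ 𝔓 := fun f hf =>
      hrel (Ideal.mem_sup_left (Ideal.subset_span hf))
    have hpad : ∀ a ∈ ({3, 4, 5} : Set (Fin 6)), (X a : MvPowerSeries (Fin 6) 𝒪) ∈ 𝔓 :=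
      fun a ha => hrel (Ideal.mem_sup_right (X_mem_spanX ha))
    have h0 : (X 0 : MvPowerSeries (Fin 6) 𝒪) ∈ 𝔓 :=
      (h𝔓.mem_or_mem (hgen _ (by simp))).resolve_right h1
    have h2 : (X 2 : MvPowerSeries (Fin 6) 𝒪) ∈ 𝔓 := by
      rcases h𝔓.mem_or_mem (hgen ((X 0 + C κ) * X 2) (by simp)) with h | h
      · exfalso
        apply hκ𝔓
        have := Ideal.sub_mem _ h h0
        rwa [add_sub_cancel_left] at this
      · exact h
    refine spanX_le fun a ha => ?_
    simp only [Set.mem_insert_iff, Set.mem_singleton_iff] at ha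
    rcases ha with rfl | rfl | rfl | rfl | rfl
    · exact h0
    · exact h2
    · exact hpad 3 (by simp)
    · exact hpad 4 (by simp)
    · exact hpad 5 (by simp)
  step_new := by
    intro 𝔓 𝔔 h𝔓 h𝔔 hnew hle hth hl
    replace hth : (X 0 : MvPowerSeries (Fin 6) 𝒪) ∈ 𝔔 := hth
    have hκ𝔔 : (C κ : MvPowerSeries (Fin 6) 𝒪) ∉ 𝔔 := C_not_mem_of_ne_zero hlam 𝔔 hl hκ
    have hTκ : (X 0 + C κ : MvPowerSeries (Fin 6) 𝒪) ∉ 𝔓 := by
      intro h
      apply hκ𝔔
      have := Ideal.sub_mem _ (hle h) hth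
      rwa [add_sub_cancel_left] at this
    have hgen : ∀ f ∈ ({X 0 * X 1, (X 0 + C κ) * X 2, X 1 * X 2} :
        Set (MvPowerSeries (Fin 6) 𝒪)), f ∈ 𝔓 := fun f hf =>
      hnew (Ideal.mem_sup_left (Ideal.mem_sup_left (Ideal.subset_span hf)))
    have hpad : ∀ a ∈ ({3, 4, 5} : Set (Fin 6)), (X a : MvPowerSeries (Fin 6) 𝒪) ∈ 𝔓 :=
      fun a ha => hnew (Ideal.mem_sup_left (Ideal.mem_sup_right (X_mem_spanX ha)))
    have h0 : (X 0 : MvPowerSeries (Fin 6) 𝒪) ∈ 𝔓 := by
      have : (X 0 * (X 0 + C κ) : MvPowerSeries (Fin 6) 𝒪) ∈ 𝔓 :=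
        hnew (Ideal.mem_sup_right (Ideal.subset_span rfl))
      exact (h𝔓.mem_or_mem this).resolve_right hTκ
    have h2 : (X 2 : MvPowerSeries (Fin 6) 𝒪) ∈ 𝔓 :=
      (h𝔓.mem_or_mem (hgen ((X 0 + C κ) * X 2) (by simp))).resolve_left hTκ
    refine spanX_le fun a ha => ?_
    simp only [Set.mem_insert_iff, Set.mem_singleton_iff] at ha
    rcases ha with rfl | rfl | rfl | rfl | rfl
    · exact h0
    · exact h2
    · exact hpad 3 (by simp)
    · exact hpad 4 (by simp)
    · exact hpad 5 (by simp)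

/-! ### the kinds at `p` -/

theorem ord0_isGood (lam : 𝒪) : (ord0 𝒪).IsGood lam where
  st_good := goodBlock_spanX lam _ 1 (by decide)
  unr_good := goodBlock_spanX lam _ 1 (by decide)
  unrTh_good := ⟨0, by
    show GoodBlock lam (spanX 𝒪 {1, 2, 3, 4, 5} ⊔ Ideal.span {X 0}) 0
    rw [spanX_sup_span_X]
    exact goodBlock_spanX lam _ 0 (by decide)⟩
  st_le := spanX_le_range _
  unr_le := spanX_le_range _
  th_mem := X_mem_range 0
  wit_not_mem := X_not_mem_spanX _ 1 (by decide)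
  step_old := by
    intro 𝔓 h𝔓 hrel h1 hl
    have h01 : (X 0 * X 1 : MvPowerSeries (Fin 6) 𝒪) ∈ 𝔓 :=
      hrel (Ideal.mem_sup_left (Ideal.subset_span rfl))
    have hpad : ∀ a ∈ ({2, 3, 4, 5} : Set (Fin 6)), (X a : MvPowerSeries (Fin 6) 𝒪) ∈ 𝔓 :=
      fun a ha => hrel (Ideal.mem_sup_right (X_mem_spanX ha))
    have h0 : (X 0 : MvPowerSeries (Fin 6) 𝒪) ∈ 𝔓 := (h𝔓.mem_or_mem h01).resolve_right h1
    refine spanX_le fun a ha => ?_
    simp only [Set.mem_insert_iff, Set.mem_singleton_iff] at ha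
    rcases ha with rfl | rfl | rfl | rfl | rfl
    · exact h0
    · exact hpad 2 (by simp)
    · exact hpad 3 (by simp)
    · exact hpad 4 (by simp)
    · exact hpad 5 (by simp)
  step_new := fun 𝔓 𝔔 _ _ hnew _ _ _ => hnew

theorem ord0_isStart : (ord0 𝒪).IsStart where
  split := by
    intro 𝔓 h𝔓 hrel
    have h01 : (X 0 * X 1 : MvPowerSeries (Fin 6) 𝒪) ∈ 𝔓 :=
      hrel (Ideal.mem_sup_left (Ideal.subset_span rfl))
    have hpad : ∀ a ∈ ({2, 3, 4, 5} : Set (Fin 6)), (X a : MvPowerSeries (Fin 6) 𝒪) ∈ 𝔓 :=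
      fun a ha => hrel (Ideal.mem_sup_right (X_mem_spanX ha))
    rcases h𝔓.mem_or_mem h01 with h0 | h1
    · right
      refine spanX_le fun a ha => ?_
      simp only [Set.mem_insert_iff, Set.mem_singleton_iff] at ha
      rcases ha with rfl | rfl | rfl | rfl | rfl
      · exact h0
      · exact hpad 2 (by simp)
      · exact hpad 3 (by simp)
      · exact hpad 4 (by simp)
      · exact hpad 5 (by simp)
    · left
      refine spanX_le fun a ha => ?_
      simp only [Set.mem_insert_iff, Set.mem_singleton_iff] at ha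
      rcases ha with rfl | rfl | rfl | rfl | rfl
      · exact h1
      · exact hpad 2 (by simp)
      · exact hpad 3 (by simp)
      · exact hpad 4 (by simp)
      · exact hpad 5 (by simp)
  wit_mem_new := X_mem_spanX (by simp)
  wit_not_mem_unr := X_not_mem_spanX _ 0 (by decide)

theorem ord1_isGood (lam : 𝒪) : (ord1 𝒪).IsGood lam where
  st_good := goodBlock_spanX lam _ 2 (by decide)
  unr_good := goodBlock_spanX lam _ 2 (by decide)
  unrTh_good := ⟨1, by
    show GoodBlock lam (spanX 𝒪 {1, 3, 4, 5} ⊔ Ideal.span {X 0}) 1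
    rw [spanX_sup_span_X]
    exact goodBlock_spanX lam _ 1 (by decide)⟩
  st_le := spanX_le_range _
  unr_le := spanX_le_range _
  th_mem := X_mem_range 0
  wit_not_mem := X_not_mem_spanX _ 1 (by decide)
  step_old := by
    intro 𝔓 h𝔓 hrel h1 hl
    have h01 : (X 0 * X 1 : MvPowerSeries (Fin 6) 𝒪) ∈ 𝔓 :=
      hrel (Ideal.mem_sup_left (Ideal.subset_span rfl))
    have hpad : ∀ a ∈ ({3, 4, 5} : Set (Fin 6)), (X a : MvPowerSeries (Fin 6) 𝒪) ∈ 𝔓 :=
      fun a ha => hrel (Ideal.mem_sup_right (X_mem_spanX ha))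
    have h0 : (X 0 : MvPowerSeries (Fin 6) 𝒪) ∈ 𝔓 := (h𝔓.mem_or_mem h01).resolve_right h1
    refine spanX_le fun a ha => ?_
    simp only [Set.mem_insert_iff, Set.mem_singleton_iff] at ha
    rcases ha with rfl | rfl | rfl | rfl
    · exact h0
    · exact hpad 3 (by simp)
    · exact hpad 4 (by simp)
    · exact hpad 5 (by simp)
  step_new := fun 𝔓 𝔔 _ _ hnew _ _ _ => hnew

theorem ord1_isStart : (ord1 𝒪).IsStart where
  split := by
    intro 𝔓 h𝔓 hrel
    have h01 : (X 0 * X 1 : MvPowerSeries (Fin 6) 𝒪) ∈ 𝔓 :=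
      hrel (Ideal.mem_sup_left (Ideal.subset_span rfl))
    have hpad : ∀ a ∈ ({3, 4, 5} : Set (Fin 6)), (X a : MvPowerSeries (Fin 6) 𝒪) ∈ 𝔓 :=
      fun a ha => hrel (Ideal.mem_sup_right (X_mem_spanX ha))
    rcases h𝔓.mem_or_mem h01 with h0 | h1
    · right
      refine spanX_le fun a ha => ?_
      simp only [Set.mem_insert_iff, Set.mem_singleton_iff] at ha
      rcases ha with rfl | rfl | rfl | rfl
      · exact h0
      · exact hpad 3 (by simp)
      · exact hpad 4 (by simp)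
      · exact hpad 5 (by simp)
    · left
      refine spanX_le fun a ha => ?_
      simp only [Set.mem_insert_iff, Set.mem_singleton_iff] at ha
      rcases ha with rfl | rfl | rfl | rfl
      · exact h1
      · exact hpad 3 (by simp)
      · exact hpad 4 (by simp)
      · exact hpad 5 (by simp)
  wit_mem_new := X_mem_spanX (by simp)
  wit_not_mem_unr := X_not_mem_spanX _ 0 (by decide)

/-! ### the scalar kind -/

theorem unrIdeal_eq_spanX : unrIdeal 𝒪 = spanX 𝒪 {0, 1, 2} := by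
  rw [unrIdeal, spanX]
  congr 1
  simp only [Set.image_insert_eq, Set.image_singleton]
  rfl

theorem sc_isGood (lam : 𝒪) (c : ScConst 𝒪) (h : lam ∣ c.tau) : (sc c).IsGood lam where
  st_good := goodBlock_st lam c.tau h
  unr_good := by
    show GoodBlock lam (unrIdeal 𝒪) 3
    rw [unrIdeal_eq_spanX]
    exact goodBlock_spanX lam _ 3 (by decide)
  unrTh_good := ⟨2, by
    show GoodBlock lam (unrIdeal 𝒪 ⊔ Ideal.span {thElt c.tau}) 2
    rw [sup_comm]
    exact goodBlock_unrTh lam c.tau h⟩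
  st_le := stIdeal_le_span_X c.tau
  unr_le := le_trans le_sup_right (unrTh_le_span_X c.tau)
  th_mem := unrTh_le_span_X c.tau (Ideal.mem_sup_left (Ideal.subset_span rfl))
  wit_not_mem := X_one_not_mem_stIdeal c.tau
  step_old := by
    intro 𝔓 h𝔓 hrel h1 _
    haveI := h𝔓
    exact stIdeal_le_of_relIdeal_le c 𝔓 hrel (fun hw => h1 hw.2.1)
  step_new := by
    intro 𝔓 𝔔 h𝔓 _ hnew _ _ _
    haveI := h𝔓
    exact stIdeal_le_of_newIdeal_le c 𝔓 hnew

end Kind6

end Fermat.Agent.ML.LocL
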