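/-
PROJECT ML (S59) — [LOC-L] assembly, lead, file 4: **the chain model of a family of six-variable
kinds is `Good`** (and has `Start` if the kind of index `0` has `Kind6.IsStart`).
-/
import Mathlib
import Fermat.Agent.ML.LOCL_lead_KindGood
import Fermat.Agent.ML.IFACE_helper9_Local

set_option autoImplicit false
set_option linter.unusedSectionVars false
set_option linter.style.haveILetI false

namespace Fermat.Agent.ML.LocL

open MvPowerSeries Fermat.Agent.RB Fermat.Agent.RB.LOC Fermat.Agent.ML.LocSc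

/-- six local variables at every chain prime -/
abbrev nv6 (m : ℕ) : Fin m → ℕ := fun _ => 6

/-- the variables of the `j`-th block -/
def emb6 (m g : ℕ) (j : Fin m) : Fin 6 ↪ CVar m (nv6 m) g where
  toFun a := Sum.inl ⟨j, a⟩
  inj' a b h := by
    have h1 : (⟨j, a⟩ : Σ _ : Fin m, Fin 6) = ⟨j, b⟩ := Sum.inl_injective h
    exact eq_of_heq (Sigma.mk.inj h1).2

theorem emb6_apply (m g : ℕ) (j : Fin m) (a : Fin 6) : emb6 m g j a = Sum.inl ⟨j, a⟩ := rfl

theorem disjoint_range_emb6 (m g : ℕ) (v w : Fin m) (h : v ≠ w) :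
    Disjoint (Set.range (emb6 m g v)) (Set.range (emb6 m g w)) := by
  rw [Set.disjoint_left]
  rintro _ ⟨a, rfl⟩ ⟨b, hb⟩
  rw [emb6_apply, emb6_apply] at hb
  have h1 : (⟨w, b⟩ : Σ _ : Fin m, Fin 6) = ⟨v, a⟩ := Sum.inl_injective hb
  exact h (Sigma.mk.inj h1).1.symm

section Model

variable {𝒪 : Type} [CommRing 𝒪] {m : ℕ}

/-- the inclusion of the `j`-th block -/
noncomputable def hom6 (𝒪 : Type) [CommRing 𝒪] (m g : ℕ) (j : Fin m) :
    MvPowerSeries (Fin 6) 𝒪 →ₐ[𝒪] CPS 𝒪 m (nv6 m) g :=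
  rename (emb6 m g j)

theorem hom6_X (g : ℕ) (j : Fin m) (a : Fin 6) :
    hom6 𝒪 m g j (X a) = X (emb6 m g j a) := rename_X _ a

theorem hom6_C (g : ℕ) (j : Fin m) (r : 𝒪) : hom6 𝒪 m g j (C r) = C r := rename_C _ r

/-- **the chain model of a family of kinds** -/
noncomputable def model6 (L : Fin m → Kind6 𝒪) (g : ℕ) : ChainModel 𝒪 m (nv6 m) g where
  rel j := (L j).rel.map (hom6 𝒪 m g j).toRingHom
  unr j := (L j).unr.map (hom6 𝒪 m g j).toRingHom
  new j := (L j).new.map (hom6 𝒪 m g j).toRingHom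
  st j := (L j).st.map (hom6 𝒪 m g j).toRingHom
  th j := hom6 𝒪 m g j (L j).th

variable (L : Fin m → Kind6 𝒪) (g : ℕ)

/-- the block ideals of `P k` -/
noncomputable def KvP (k : ℕ) (j : Fin m) : Ideal (MvPowerSeries (Fin 6) 𝒪) :=
  if j.val < k then (L j).st else (L j).unr

/-- the block ideals of `Q k` -/
noncomputable def KvQ (k : Fin m) (j : Fin m) : Ideal (MvPowerSeries (Fin 6) 𝒪) :=
  if j = k then (L k).unr ⊔ Ideal.span {(L k).th} else KvP L k.val j

theorem genIdeal_empty (Kv : Fin m → Ideal (MvPowerSeries (Fin 6) 𝒪)) :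
    genIdeal (∅ : Set (CVar m (nv6 m) g)) (emb6 m g) Kv =
      ⨆ j : Fin m, (Kv j).map (hom6 𝒪 m g j).toRingHom := by
  rw [genIdeal, Set.image_empty, Ideal.span_empty, bot_sup_eq]
  rfl

theorem P_eq (k : ℕ) :
    (model6 L g).P k = genIdeal (∅ : Set (CVar m (nv6 m) g)) (emb6 m g) (KvP L k) := by
  rw [genIdeal_empty, ChainModel.P]
  apply le_antisymm
  · refine sup_le (iSup₂_le fun j hj => ?_) (iSup₂_le fun j hj => ?_)
    · refine le_iSup_of_le j ?_
      rw [KvP, if_pos hj]
      exact le_rfl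
    · refine le_iSup_of_le j ?_
      rw [KvP, if_neg (not_lt.2 hj)]
      exact le_rfl
  · refine iSup_le fun j => ?_
    by_cases hj : j.val < k
    · rw [KvP, if_pos hj]
      exact le_sup_of_le_left (le_iSup₂_of_le j hj le_rfl)
    · rw [KvP, if_neg hj]
      exact le_sup_of_le_right (le_iSup₂_of_le j (not_lt.1 hj) le_rfl)

theorem map_KvQ_self (k : Fin m) :
    (KvQ L k k).map (hom6 𝒪 m g k).toRingHom =
      (model6 L g).unr k ⊔ Ideal.span {(model6 L g).th k} := by
  rw [KvQ, if_pos rfl, Ideal.map_sup, Ideal.map_span, Set.image_singleton]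
  rfl

theorem Q_eq (k : Fin m) :
    (model6 L g).Q k = genIdeal (∅ : Set (CVar m (nv6 m) g)) (emb6 m g) (KvQ L k) := by
  rw [genIdeal_empty, ChainModel.Q, P_eq, genIdeal_empty]
  apply le_antisymm
  · refine sup_le (iSup_le fun j => ?_) ?_
    · by_cases hj : j = k
      · subst hj
        refine le_iSup_of_le j ?_
        rw [map_KvQ_self, KvP, if_neg (lt_irrefl _)]
        exact le_sup_left
      · refine le_iSup_of_le j ?_
        rw [KvQ, if_neg hj]
    · refine le_iSup_of_le k ?_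
      rw [map_KvQ_self]
      exact le_sup_right
  · refine iSup_le fun j => ?_
    by_cases hj : j = k
    · subst hj
      rw [map_KvQ_self]
      refine sup_le_sup_right ?_ _
      refine le_iSup_of_le j ?_
      rw [KvP, if_neg (lt_irrefl _)]
      rfl
    · rw [KvQ, if_neg hj]
      exact le_sup_of_le_left (le_iSup_of_le j le_rfl)

end Model

section Good

variable {𝒪 : Type} [CommRing 𝒪] [IsDomain 𝒪] [IsDiscreteValuationRing 𝒪] {m : ℕ}
  (lam : 𝒪) (hlam : Irreducible lam) (g : ℕ)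

include hlam in
/-- `Pair` and dimension for disjoint good blocks (all the local variables in blocks) -/
theorem pair_genIdeal (Kv : Fin m → Ideal (MvPowerSeries (Fin 6) 𝒪)) (d : Fin m → ℕ)
    (hgood : ∀ j, GoodBlock lam (Kv j) (d j)) :
    Pair (genIdeal (∅ : Set (CVar m (nv6 m) g)) (emb6 m g) Kv) (C lam) ∧
      ringKrullDim (CPS 𝒪 m (nv6 m) g ⧸
        genIdeal (∅ : Set (CVar m (nv6 m) g)) (emb6 m g) Kv) ≤
        ((g + ∑ j, d j : ℕ) : WithBot ℕ∞) + 1 := by
  classical
  have h := genIdeal_core lam hlam (∅ : Finset (CVar m (nv6 m) g)) (emb6 m g)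
    (disjoint_range_emb6 m g) (fun v => by simp) Kv d hgood
  rw [Finset.coe_empty] at h
  obtain ⟨hpair, m', hm', hdim⟩ := h
  refine ⟨hpair, ?_⟩
  have hcard : Fintype.card (CVar m (nv6 m) g) = 6 * m + g := by
    simp [CVar, Fintype.card_sum, Fintype.card_sigma, mul_comm]
  rw [Finset.card_empty, hcard, Fintype.card_fin] at hm'
  have hm'' : m' = g := by omega
  subst hm''
  refine le_trans hdim (le_of_eq ?_)
  push_cast
  ring

variable (L : Fin m → Kind6 𝒪) (hL : ∀ j, (L j).IsGood lam)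

include hL in
theorem goodBlock_KvP (k : ℕ) (j : Fin m) : GoodBlock lam (KvP L k j) (L j).hh := by
  unfold KvP
  split_ifs
  · exact (hL j).st_good
  · exact (hL j).unr_good

include hL in
theorem exists_goodBlock_KvQ (k j : Fin m) : ∃ d : ℕ, GoodBlock lam (KvQ L k j) d := by
  unfold KvQ
  split_ifs with h
  · exact (hL k).unrTh_good
  · exact ⟨_, goodBlock_KvP lam L hL k.val j⟩

include hL in
theorem KvQ_le (k j : Fin m) :
    KvQ L k j ≤ Ideal.span (Set.range (X : Fin 6 → MvPowerSeries (Fin 6) 𝒪)) := by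
  unfold KvQ KvP
  split_ifs
  · refine sup_le (hL k).unr_le ?_
    rw [Ideal.span_singleton_le_iff_mem]
    exact (hL k).th_mem
  · exact (hL j).st_le
  · exact (hL j).unr_le

include hL in
theorem KvP_le (k : ℕ) (j : Fin m) :
    KvP L k j ≤ Ideal.span (Set.range (X : Fin 6 → MvPowerSeries (Fin 6) 𝒪)) := by
  unfold KvP
  split_ifs
  · exact (hL j).st_le
  · exact (hL j).unr_le

include hlam hL in
theorem pair_P (k : ℕ) : Pair ((model6 L g).P k) (C lam) := by
  rw [P_eq]
  exact (pair_genIdeal lam hlam g _ _ (goodBlock_KvP lam L hL k)).1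

include hlam hL in
theorem pair_Q (k : Fin m) : Pair ((model6 L g).Q k) (C lam) := by
  rw [Q_eq]
  choose d hd using exists_goodBlock_KvQ lam L hL k
  exact (pair_genIdeal lam hlam g _ d hd).1

include hlam hL in
theorem C_not_mem_Q (k : Fin m) : (C lam : CPS 𝒪 m (nv6 m) g) ∉ (model6 L g).Q k :=
  C_not_mem_of_pair _ lam hlam.not_isUnit (pair_Q lam hlam g L hL k)

include hL in
/-- the surviving variable of an earlier block is not in `Q k` -/
theorem X_wit_not_mem_Q (k j : Fin m) (hj : j.val < k.val) :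
    (X (emb6 m g j 1) : CPS 𝒪 m (nv6 m) g) ∉ (model6 L g).Q k := by
  rw [Q_eq]
  refine X_not_mem_genIdeal_block _ _ (disjoint_range_emb6 m g) (fun v => by simp) _
    (KvQ_le lam L hL k) j 1 ?_
  have hjk : j ≠ k := fun h => by rw [h] at hj; exact lt_irrefl _ hj
  rw [KvQ, if_neg hjk, KvP, if_pos hj]
  exact (hL j).wit_not_mem

include hlam hL in
/-- **the chain model is good** -/
theorem model6_good (r : ℕ) (hr : r = g + ∑ j, (L j).hh) : (model6 L g).Good lam r where
  P_isPrime k _ := isPrime_of_pair _ lam hlam.not_isUnit (pair_P lam hlam g L hL k)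
  dim_P k _ := by
    rw [P_eq, hr]
    exact (pair_genIdeal lam hlam g _ _ (goodBlock_KvP lam L hL k)).2
  Q_isPrime k := isPrime_of_pair _ lam hlam.not_isUnit (pair_Q lam hlam g L hL k)
  step := by
    intro k 𝔓 h𝔓 hJ hQ hl _
    have hQprime : ((model6 L g).Q k).IsPrime :=
      isPrime_of_pair _ lam hlam.not_isUnit (pair_Q lam hlam g L hL k)
    -- the comaps to the blocks
    have hcomap : ∀ j : Fin m, (𝔓.comap (hom6 𝒪 m g j).toRingHom).IsPrime :=
      fun j => Ideal.comap_isPrime _ _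
    have hC : ∀ (j : Fin m) (𝔞 : Ideal (CPS 𝒪 m (nv6 m) g)), (C lam : CPS 𝒪 m (nv6 m) g) ∉ 𝔞 →
        (C lam : MvPowerSeries (Fin 6) 𝒪) ∉ 𝔞.comap (hom6 𝒪 m g j).toRingHom := by
      intro j 𝔞 h𝔞 hmem
      apply h𝔞
      have : (hom6 𝒪 m g j).toRingHom (C lam) ∈ 𝔞 := hmem
      rwa [AlgHom.toRingHom_eq_coe, RingHom.coe_coe, hom6_C] at this
    rw [ChainModel.P, sup_le_iff]
    constructor
    · refine iSup₂_le fun j hj => ?_
      show (L j).st.map (hom6 𝒪 m g j).toRingHom ≤ 𝔓
      rw [Ideal.map_le_iff_le_comap]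
      rcases Nat.lt_succ_iff_lt_or_eq.1 hj with hlt | heq
      · -- old part
        have hrel : (L j).rel ≤ 𝔓.comap (hom6 𝒪 m g j).toRingHom := by
          rw [← Ideal.map_le_iff_le_comap]
          refine le_trans ?_ hJ
          exact le_sup_of_le_left (le_sup_of_le_left (le_iSup₂_of_le j hlt le_rfl))
        refine (hL j).step_old _ (hcomap j) hrel ?_ (hC j 𝔓 hl)
        intro hmem
        have h1 : (hom6 𝒪 m g j).toRingHom (X 1) ∈ 𝔓 := hmem
        rw [AlgHom.toRingHom_eq_coe, RingHom.coe_coe, hom6_X] at h1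
        exact X_wit_not_mem_Q lam g L hL k j hlt (hQ h1)
      · -- new part
        have hjk : j = k := Fin.ext heq
        subst hjk
        have hnew : (L j).new ≤ 𝔓.comap (hom6 𝒪 m g j).toRingHom := by
          rw [← Ideal.map_le_iff_le_comap]
          refine le_trans ?_ hJ
          exact le_sup_of_le_left le_sup_right
        refine (hL j).step_new _ (((model6 L g).Q j).comap (hom6 𝒪 m g j).toRingHom)
          (hcomap j) (Ideal.comap_isPrime _ _) hnew (Ideal.comap_mono hQ) ?_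
          (hC j _ (C_not_mem_Q lam hlam g L hL j))
        show (hom6 𝒪 m g j).toRingHom (L j).th ∈ (model6 L g).Q j
        exact Ideal.mem_sup_right (Ideal.subset_span rfl)
    · refine iSup₂_le fun j hj => ?_
      refine le_trans ?_ hJ
      exact le_sup_of_le_right (le_iSup₂_of_le j (Nat.lt_of_succ_le hj) le_rfl)

include hL in
/-- **the start at level one** -/
theorem model6_start (r : ℕ) (h0 : ∀ h : 0 < m, (L ⟨0, h⟩).IsStart) :
    (model6 L g).Start lam r where
  start := by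
    intro hm 𝔓 h𝔓 hJ _ _
    have hrel : (L ⟨0, hm⟩).rel ≤ 𝔓.comap (hom6 𝒪 m g ⟨0, hm⟩).toRingHom := by
      rw [← Ideal.map_le_iff_le_comap]
      refine le_trans ?_ hJ
      exact le_sup_of_le_left (le_iSup₂_of_le ⟨0, hm⟩ (by simp) le_rfl)
    have hunr : ∀ j : Fin m, 1 ≤ j.val → (model6 L g).unr j ≤ 𝔓 := fun j hj =>
      le_trans (le_sup_of_le_right (le_iSup₂_of_le j hj le_rfl)) hJ
    rcases (h0 hm).split _ (Ideal.comap_isPrime _ _) hrel with h | h
    · left
      rw [ChainModel.P, sup_le_iff]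
      refine ⟨iSup₂_le fun j hj => absurd hj (Nat.not_lt_zero _), iSup₂_le fun j _ => ?_⟩
      by_cases hj : j.val = 0
      · have : j = ⟨0, hm⟩ := Fin.ext hj
        subst this
        show (L ⟨0, hm⟩).unr.map (hom6 𝒪 m g ⟨0, hm⟩).toRingHom ≤ 𝔓
        rw [Ideal.map_le_iff_le_comap]
        exact h
      · exact hunr j (Nat.one_le_iff_ne_zero.2 hj)
    · right
      rw [ChainModel.P, sup_le_iff]
      refine ⟨iSup₂_le fun j hj => ?_, iSup₂_le fun j hj => hunr j hj⟩
      have : j = ⟨0, hm⟩ := Fin.ext (Nat.lt_one_iff.1 hj)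
      subst this
      show (L ⟨0, hm⟩).st.map (hom6 𝒪 m g ⟨0, hm⟩).toRingHom ≤ 𝔓
      rw [Ideal.map_le_iff_le_comap]
      exact h
  new_not_le := by
    intro hm hle
    have h1 : (X (emb6 m g ⟨0, hm⟩ 0) : CPS 𝒪 m (nv6 m) g) ∈ (model6 L g).P 0 := by
      apply hle
      have := Ideal.mem_map_of_mem (hom6 𝒪 m g ⟨0, hm⟩).toRingHom (h0 hm).wit_mem_new
      rwa [AlgHom.toRingHom_eq_coe, RingHom.coe_coe, hom6_X] at this
    rw [P_eq] at h1
    refine X_not_mem_genIdeal_block _ _ (disjoint_range_emb6 m g) (fun v => by simp) _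
      (KvP_le lam L hL 0) ⟨0, hm⟩ 0 ?_ h1
    rw [KvP, if_neg (Nat.not_lt_zero _)]
    exact (h0 hm).wit_not_mem_unr

end Good

end Fermat.Agent.ML.LocL
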