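/-
PROJECT ML (S59) — [LOC-L] assembly, lead, file 7: **`ChainChartStatement`** from the three chart
statements (ns: helper7, sc: helper4, p: lead).  Every chain prime gets six local variables.
-/
import Mathlib
import Fermat.Agent.ML.LOCL_lead_Chain
import Fermat.Agent.ML.LOCL_lead_Adapters

set_option autoImplicit false
set_option linter.unusedSectionVars false
set_option linter.unusedVariables false
set_option linter.style.haveILetI false

open IsLocalRing

namespace Fermat.Agent.ML.LocL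

open Fermat.Agent.TW Fermat.Agent.ML.LocSc MvPowerSeries

local notation "GQ" => (AlgebraicClosure ℚ ≃ₐ[ℚ] AlgebraicClosure ℚ)

/-! ### the constants of a scalar prime -/

section Const

variable {𝒪 : Type} [CommRing 𝒪] [IsLocalRing 𝒪]

theorem isUnit_natCast_of_coprime6 {p : ℕ} (hpO : (p : 𝒪) ∈ maximalIdeal 𝒪) {a : ℕ}
    (ha : Nat.Coprime a p) : IsUnit (a : 𝒪) := by
  by_contra h
  have h1 : (a : 𝒪) ∈ maximalIdeal 𝒪 := (mem_maximalIdeal _).mpr h
  have h2 : ((Nat.gcd a p : ℕ) : 𝒪) ∈ maximalIdeal 𝒪 := by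
    have hb := Nat.gcd_eq_gcd_ab a p
    have h3 : ((Nat.gcd a p : ℕ) : 𝒪) = (a : 𝒪) * ((Nat.gcdA a p : ℤ) : 𝒪) +
        (p : 𝒪) * ((Nat.gcdB a p : ℤ) : 𝒪) := by
      have := congrArg (fun z : ℤ => (z : 𝒪)) hb
      simpa using this
    rw [h3]
    exact add_mem (Ideal.mul_mem_right _ _ h1) (Ideal.mul_mem_right _ _ hpO)
  rw [ha, Nat.cast_one] at h2
  exact (maximalIdeal.isMaximal 𝒪).ne_top ((Ideal.eq_top_iff_one _).mpr h2)

/-- the constants of the scalar model at `q` with the sign `s` -/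
noncomputable def scConstOf (q : ℕ) (s : 𝒪) (hs : s ^ 2 = 1) (h2 : IsUnit (2 : 𝒪))
    (hq : IsUnit (q : 𝒪)) (hq1 : IsUnit (1 + (q : 𝒪))) : ScConst 𝒪 where
  v := (q : 𝒪)
  sgn := s
  half := ((h2.unit⁻¹ : 𝒪ˣ) : 𝒪)
  two_mul_half := by
    have := h2.unit.mul_inv
    rwa [IsUnit.unit_spec] at this
  sgn_sq := hs
  isUnit_v := hq
  isUnit_one_add := hq1

end Const

/-! ### the evaluation of the blocks -/

section Eval

variable {𝒪 : Type} [CommRing 𝒪] [IsDomain 𝒪] [IsDiscreteValuationRing 𝒪]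
  [IsAdicComplete (maximalIdeal 𝒪) 𝒪]
  {T : Type} [CommRing T] [IsLocalRing T] [Algebra 𝒪 T] [IsAdicComplete (maximalIdeal T) T]
  {m g : ℕ}

/-- the local coordinates of the chain from the coordinates of the blocks -/
def coord6 (x : Fin m → Fin 6 → T) : (Σ j : Fin m, Fin (nv6 m j)) → T := fun a => x a.1 a.2

theorem coord6_mem (x : Fin m → Fin 6 → T) (hx : ∀ j a, x j a ∈ maximalIdeal T)
    (a : Σ j : Fin m, Fin (nv6 m j)) : coord6 x a ∈ maximalIdeal T := hx a.1 a.2

theorem chainEval_hom6 (x : Fin m → Fin 6 → T) (hx : ∀ j a, x j a ∈ maximalIdeal T)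
    (y : Fin g → T) (hy : ∀ i, y i ∈ maximalIdeal T) (j : Fin m)
    (f : MvPowerSeries (Fin 6) 𝒪) :
    chainEval (𝒪 := 𝒪) (coord6 x) (coord6_mem x hx) y hy (hom6 𝒪 m g j f) =
      psLift (maximalIdeal T) (x j) (hx j) f := by
  unfold chainEval hom6
  rw [psLift_rename]
  rfl

theorem chainEval_map_mem (x : Fin m → Fin 6 → T) (hx : ∀ j a, x j a ∈ maximalIdeal T)
    (y : Fin g → T) (hy : ∀ i, y i ∈ maximalIdeal T) (j : Fin m)
    (K : Ideal (MvPowerSeries (Fin 6) 𝒪)) (J : Ideal T)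
    (h : ∀ f ∈ K, psLift (maximalIdeal T) (x j) (hx j) f ∈ J) :
    ∀ f ∈ K.map (hom6 𝒪 m g j).toRingHom,
      chainEval (𝒪 := 𝒪) (coord6 x) (coord6_mem x hx) y hy f ∈ J := by
  have hle : K.map (hom6 𝒪 m g j).toRingHom ≤
      J.comap (chainEval (𝒪 := 𝒪) (coord6 x) (coord6_mem x hx) y hy).toRingHom := by
    rw [Ideal.map_le_iff_le_comap]
    intro f hf
    rw [Ideal.mem_comap, Ideal.mem_comap]
    show chainEval (𝒪 := 𝒪) (coord6 x) (coord6_mem x hx) y hy (hom6 𝒪 m g j f) ∈ J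
    rw [chainEval_hom6]
    exact h f hf
  intro f hf
  exact hle hf

end Eval

/-! ### one chain prime -/

section OnePrime

variable {𝒪 : Type} [CommRing 𝒪] [IsDomain 𝒪] [IsDiscreteValuationRing 𝒪]
  [IsAdicComplete (maximalIdeal 𝒪) 𝒪] [Finite (ResidueField 𝒪)] [CharZero 𝒪]

theorem exists_kind6 (hns : NsChartStatement7) (hsc : ScChartStatement) (hpch : PChartStatement)
    (p : ℕ) [Fact p.Prime] (hp2 : p ≠ 2) (hp𝒪 : (p : 𝒪) ∈ maximalIdeal 𝒪)
    (lam : 𝒪) (hlam : Irreducible lam)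
    (ρbar : ResidualGaloisRep (ResidueField 𝒪))
    (pc : PCase) {m : ℕ} (cq : Fin m → ℕ) (sgn : Fin m → 𝒪) (K : Fin m → ChainKind)
    (hchain : IsResChain ρbar p pc cq sgn K)
    (hpeu : pc = PCase.chain → IsPeuRamifieeAt ρbar p) (j : Fin m) :
    ∃ L : Kind6 𝒪, L.IsGood lam ∧ L.hh = (K j).hh ∧ (cq j = p → L.IsStart) ∧
      ∀ (T : Type) [CommRing T] [IsLocalRing T] [IsNoetherianRing T]
        [IsAdicComplete (maximalIdeal T) T] [Algebra 𝒪 T] [IsLocalHom (algebraMap 𝒪 T)]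
        [Module.Finite 𝒪 T]
        (_ : Function.Surjective (IsLocalRing.residue T ∘ algebraMap 𝒪 T))
        (_ : ∀ a : 𝒪, a ≠ 0 → ∀ t : T, a • t = 0 → t = 0)
        (ρ : GaloisRepAdic T)
        (_ : ρ.residual.IsEquiv
          (ρbar.baseChangeAlong (IsLocalRing.ResidueField.map (algebraMap 𝒪 T))))
        (_ : ρ.DetIsCyclotomic p) (_ : cq j ≠ p → ρ.IsUnipotentOnInertiaAt (cq j))
        (_ : cq j = p → ρ.IsOrdinaryAt p),
        ∃ (x : Fin 6 → T) (hx : ∀ a, x a ∈ maximalIdeal T),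
          IsChart6 ρ p (cq j) (sgn j) L x hx := by
  have hkind := hchain.kind j
  have hpp : p.Prime := Fact.out
  cases hK : K j with
  | ns =>
    rw [hK] at hkind
    obtain ⟨κ, hκ, h⟩ := exists_chart6_ns hns p hp2 hp𝒪 ρbar (cq j) (hchain.prime j) (sgn j)
      (hchain.sgn_sq j) hkind (hchain.charpoly_frob j hkind.1)
    refine ⟨Kind6.mono κ, Kind6.mono_isGood lam hlam κ hκ, rfl, fun h => absurd h hkind.1, ?_⟩
    intro T _ _ _ _ _ _ _ hsurj htf ρ hres hdet hunip _
    exact h T hsurj htf ρ hres hdet (hunip hkind.1)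
  | sc =>
    rw [hK] at hkind
    obtain ⟨hqp, hsc'⟩ := hkind
    have hqprime := hchain.prime j
    have hcop : Nat.Coprime (cq j) p := (Nat.coprime_primes hqprime hpp).2 hqp
    have h2 : IsUnit (2 : 𝒪) := by
      have : Nat.Coprime 2 p := (Nat.coprime_primes Nat.prime_two hpp).2 (Ne.symm hp2)
      simpa using isUnit_natCast_of_coprime6 hp𝒪 this
    have hmod : cq j ≡ 1 [MOD p] := hsc'.1
    have hq1 : IsUnit (1 + ((cq j : ℕ) : 𝒪)) := by
      have : Nat.Coprime (1 + cq j) p := by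
        rw [Nat.coprime_comm, Nat.Prime.coprime_iff_not_dvd hpp]
        intro hd
        have h1 : (1 + cq j) ≡ 2 [MOD p] := by
          have := Nat.ModEq.add_left 1 hmod
          simpa using this
        have h3 : (1 + cq j) ≡ 0 [MOD p] := (Nat.modEq_zero_iff_dvd).2 hd
        have h4 : p ∣ 2 := (Nat.modEq_zero_iff_dvd).1 (h1.symm.trans h3)
        have h5 := (Nat.prime_dvd_prime_iff_eq hpp Nat.prime_two).1 h4
        exact hp2 h5
      simpa using isUnit_natCast_of_coprime6 hp𝒪 this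
    set c : ScConst 𝒪 := scConstOf (cq j) (sgn j) (hchain.sgn_sq j) h2
      (isUnit_natCast_of_coprime6 hp𝒪 hcop) hq1 with hc
    have hdiv : lam ∣ c.tau := by
      have hmax : maximalIdeal 𝒪 = Ideal.span {lam} :=
        (IsDiscreteValuationRing.irreducible_iff_uniformizer _).1 hlam
      have hmem : ((cq j : ℕ) : 𝒪) - 1 ∈ maximalIdeal 𝒪 := by
        have h1 : 1 ≤ cq j := hqprime.one_lt.le
        obtain ⟨k, hk⟩ := (Nat.modEq_iff_dvd' h1).1 hmod.symm
        have : ((cq j : ℕ) : 𝒪) - 1 = (p : 𝒪) * (k : 𝒪) := by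
          have h5 : cq j = p * k + 1 := by omega
          rw [h5]; push_cast; ring
        rw [this]
        exact Ideal.mul_mem_right _ _ hp𝒪
      rw [hmax, Ideal.mem_span_singleton] at hmem
      exact Dvd.dvd.mul_left hmem _
    refine ⟨Kind6.sc c, Kind6.sc_isGood lam c hdiv, rfl, fun h => absurd h hqp, ?_⟩
    intro T _ _ _ _ _ _ _ hsurj htf ρ hres hdet hunip _
    exact exists_chart6_sc hsc p hp𝒪 ρbar (cq j) hqprime hqp hsc' c rfl
      (hchain.charpoly_frob j hqp) T ρ hres hdet (hunip hqp)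
  | pns =>
    rw [hK] at hkind
    have hqp : cq j = p := hkind.1
    have hkind' : ChainKind.pns.Holds ρbar p p := by
      have := hkind
      rw [hqp] at this
      exact this
    have hpcc : pc = PCase.chain := hchain.eq_p_iff.1 ⟨j, hqp⟩
    refine ⟨Kind6.ord0 𝒪, Kind6.ord0_isGood lam, rfl, fun _ => Kind6.ord0_isStart, ?_⟩
    intro T _ _ _ _ _ _ _ hsurj htf ρ hres hdet _ hord
    rw [hqp]
    exact exists_chart6_pns hpch p hp2 hp𝒪 ρbar (sgn j) (hchain.sgn_sq j) (hpeu hpcc)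
      (hchain.ord_p j hqp) T hsurj ρ hres hdet (hord hqp) hkind'
  | psp =>
    rw [hK] at hkind
    have hqp : cq j = p := hkind.1
    have hpcc : pc = PCase.chain := hchain.eq_p_iff.1 ⟨j, hqp⟩
    refine ⟨Kind6.ord1 𝒪, Kind6.ord1_isGood lam, rfl, fun _ => Kind6.ord1_isStart, ?_⟩
    intro T _ _ _ _ _ _ _ hsurj htf ρ hres hdet _ hord
    rw [hqp]
    exact exists_chart6_psp hpch p hp2 hp𝒪 ρbar (sgn j) (hchain.sgn_sq j) (hpeu hpcc)
      (hchain.ord_p j hqp) T hsurj ρ hres hdet (hord hqp)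

end OnePrime

/-! ### the assembly -/

/-- **[LOC-L]**: the chain model and its charts, from the three chart statements. -/
theorem chainChartStatement_of (hns : NsChartStatement7) (hsc : ScChartStatement)
    (hpch : PChartStatement) : ChainChartStatement := by
  intro 𝒪 _ _ _ _ _ _ p _ hp2 hp𝒪 lam hlam ρbar hirr S pc m cq sgn K hchain hcqS hpeu
  choose L hLgood hLhh hLstart hLchart using
    exists_kind6 hns hsc hpch p hp2 hp𝒪 lam hlam ρbar pc cq sgn K hchain hpeu
  refine ⟨nv6 m, fun g r hr => ⟨model6 L g, ?_, ?_, ?_⟩⟩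
  · refine model6_good lam hlam g L hLgood r ?_
    rw [hr]
    congr 1
    exact Finset.sum_congr rfl fun j _ => (hLhh j).symm
  · intro hpcc
    refine model6_start lam g L hLgood r ?_
    intro h0
    obtain ⟨j, hj⟩ := hchain.eq_p_iff.2 hpcc
    have hj0 : j = ⟨0, h0⟩ := Fin.ext (hchain.eq_p_zero j hj)
    rw [← hj0]
    exact hLstart j hj
  · intro T _ _ _ _ _ _ _ hsurj htf ρ hres Qs hQs hcond
    obtain ⟨hdet, hunrout, hunip, hflat, hstrict, hord⟩ := hcond
    have hunip' : ∀ j, cq j ≠ p → ρ.IsUnipotentOnInertiaAt (cq j) := fun j hj =>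
      hunip (cq j) (Finset.mem_union_right _ (Finset.mem_image_of_mem _ (Finset.mem_univ j)))
        (hchain.prime j) hj
    have hord' : ∀ j, cq j = p → ρ.IsOrdinaryAt p := fun j hj =>
      hord (hchain.eq_p_iff.1 ⟨j, hj⟩)
    choose x hx hchart using fun j =>
      hLchart j T hsurj htf ρ hres hdet (hunip' j) (hord' j)
    refine ⟨coord6 x, coord6_mem x hx, fun j => (hchart j).triv, ?_⟩
    intro y hy
    refine ⟨?_, ?_, ?_, ?_, ?_, ?_, ?_⟩
    · -- (E1)
      intro j f hf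
      have := chainEval_map_mem (𝒪 := 𝒪) x hx y hy j (L j).rel ⊥
        (fun f hf => by rw [Ideal.mem_bot]; exact (hchart j).rel f hf) f hf
      rwa [Ideal.mem_bot] at this
    · -- (E2)
      intro j hj f hf
      exact chainEval_map_mem (𝒪 := 𝒪) x hx y hy j (L j).unr _ ((hchart j).unr hj) f hf
    · -- (E3)
      intro j hj f hf
      exact chainEval_map_mem (𝒪 := 𝒪) x hx y hy j (L j).new _ ((hchart j).new hj) f hf
    · -- (E3) at `p`
      intro j hj I hI f hf
      exact chainEval_map_mem (𝒪 := 𝒪) x hx y hy j (L j).new I ((hchart j).newp hj I hI) f hf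
    · -- (E4)
      intro ρW hW π hπ j f hf
      have := chainEval_map_mem (𝒪 := 𝒪) x hx y hy j (L j).st (RingHom.ker π.toRingHom)
        (fun f hf => (hchart j).st ρW (fun hj => ⟨hW.unipotent j hj, hW.frob j hj⟩)
          (fun hj => hW.strict (hchain.eq_p_iff.1 ⟨j, hj⟩)) π hπ f hf) f hf
      exact this
    · -- (E5)
      intro j hj P hP φ hφ
      obtain ⟨u, hu, h⟩ := (hchart j).th hj P hP φ hφ
      refine ⟨u, hu, ?_⟩
      show chainEval (𝒪 := 𝒪) (coord6 x) (coord6_mem x hx) y hy (hom6 𝒪 m g j (L j).th) - _ ∈ _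
      rw [chainEval_hom6]
      exact h
    · -- (E5) at `p`
      intro j hj Up hUp
      obtain ⟨u, hu, h⟩ := (hchart j).thp hj Up hUp
      refine ⟨u, hu, ?_⟩
      show chainEval (𝒪 := 𝒪) (coord6 x) (coord6_mem x hx) y hy (hom6 𝒪 m g j (L j).th) = _
      rw [chainEval_hom6]
      exact h

end Fermat.Agent.ML.LocL
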