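/-
PROJECT ML (S59) — [LOC-L], helper4: the scalar kind, file 7: **a generator of the image of
inertia** for a matrix representation `r : G_ℚ → M₂(R)` (`R` noetherian local, `p ∈ 𝔪_R`) which
at a prime `v ≠ p` is residually trivial and unipotent on an inertia group `I_P`:

`exists_tame_generator : ∃ τ ∈ I_P, ∀ k, ∀ σ ∈ I_P, ∃ a, r σ ≡ r τ ^ a mod 𝔪 ^ k`

(Frattini argument of helper9's `RB.GLUE.exists_pow_of_quotient` through the quotient
`R ⧸ 𝔪 · 𝔫`, `𝔫` the ideal of the entries of `r σ - 1`, `σ ∈ I_P`: there the image of inertia is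
killed by `p`, and it is non-trivial by Nakayama unless `r` is unramified).
-/
import Mathlib
import Fermat.Agent.RB.GLUE_helper9_Local
import Fermat.Agent.RB.GLUE_helper9_Mat

set_option autoImplicit false
set_option linter.unusedSectionVars false
set_option linter.unusedVariables false

namespace Fermat.Agent.ML.LocSc

open Fermat.Agent.S53 Fermat.Agent.RB.GLUE IsLocalRing

local notation "Ω" => AlgebraicClosure ℚ
local notation "GQ" => (AlgebraicClosure ℚ ≃ₐ[ℚ] AlgebraicClosure ℚ)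

section

variable {R : Type} [CommRing R] [IsLocalRing R] [IsNoetherianRing R]
  (r : GQ →* M2 R) (hr : MatCont r)
  {p v : ℕ} (hp : p.Prime) (hv : v.Prime) (hvp : v ≠ p) (hpR : (p : R) ∈ maximalIdeal R)
  {P : ValuationSubring Ω} (hP : P.LiesOverPrime v)
  (hres : ∀ σ ∈ P.inertiaSubgroupIn ℚ, EMem (maximalIdeal R) (r σ - 1))
  (hunip : ∀ σ ∈ P.inertiaSubgroupIn ℚ, (r σ).trace = 2 ∧ (r σ).det = 1)

include hr hp hv hvp hpR hP hres hunip in
/-- **a generator of the image of inertia modulo every power of the maximal ideal** -/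
theorem exists_tame_generator :
    ∃ τ ∈ P.inertiaSubgroupIn ℚ, ∀ k : ℕ, ∀ σ ∈ P.inertiaSubgroupIn ℚ, ∃ a : ℕ,
      EMem (maximalIdeal R ^ k) (r σ - r τ ^ a) := by
  by_cases htriv : ∀ σ ∈ P.inertiaSubgroupIn ℚ, r σ = 1
  · refine ⟨1, Subgroup.one_mem _, fun k σ hσ => ⟨0, ?_⟩⟩
    rw [htriv σ hσ, pow_zero, sub_self]
    exact EMem.zero _
  · -- the ideal of the entries of `r σ - 1`
    set 𝔫 : Ideal R := Ideal.span {a | ∃ σ ∈ P.inertiaSubgroupIn ℚ, ∃ i j, a = (r σ - 1) i j}
      with h𝔫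
    have hmem𝔫 : ∀ σ ∈ P.inertiaSubgroupIn ℚ, EMem 𝔫 (r σ - 1) := fun σ hσ i j =>
      Ideal.subset_span ⟨σ, hσ, i, j, rfl⟩
    set I : Ideal R := maximalIdeal R * 𝔫 with hI
    have hIle : I ≤ maximalIdeal R := Ideal.mul_le_left
    have hItop : I ≠ ⊤ := fun h => (maximalIdeal.isMaximal R).ne_top (top_le_iff.mp (h ▸ hIle))
    have : Nontrivial (R ⧸ I) := Ideal.Quotient.nontrivial_iff.mpr hItop
    have : IsLocalRing (R ⧸ I) :=
      IsLocalRing.of_surjective' (Ideal.Quotient.mk I) Ideal.Quotient.mk_surjective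
    have hπ : IsLocalHom (Ideal.Quotient.mk I) :=
      IsLocalHom.of_surjective _ Ideal.Quotient.mk_surjective
    -- in the quotient the image of inertia is killed by `p`
    have hp₂ : ∀ σ ∈ P.inertiaSubgroupIn ℚ, (r σ).map (Ideal.Quotient.mk I) ^ p = 1 := by
      intro σ hσ
      obtain ⟨htr, hdet⟩ := hunip σ hσ
      have h1 := pow_eq_of_sub_one_sq (sub_one_sq_eq_zero htr hdet) p
      have h2 : (r σ).map (Ideal.Quotient.mk I) ^ p = (r σ ^ p).map (Ideal.Quotient.mk I) :=
        (map_pow (Ideal.Quotient.mk I).mapMatrix (r σ) p).symm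
      rw [h2, ← sub_eq_zero]
      have h3 : (r σ ^ p).map (Ideal.Quotient.mk I) - 1 =
          (r σ ^ p - 1).map (Ideal.Quotient.mk I) := by
        have := map_sub (Ideal.Quotient.mk I).mapMatrix (r σ ^ p) 1
        rw [map_one] at this
        exact this.symm
      rw [h3, ← emem_iff_map_mk_eq_zero, h1, add_sub_cancel_left]
      intro i j
      rw [Matrix.smul_apply, smul_eq_mul]
      exact Ideal.mul_mem_mul hpR (hmem𝔫 σ hσ i j)
    -- non-trivial by Nakayama
    have hne : ∃ τ' ∈ P.inertiaSubgroupIn ℚ, (r τ').map (Ideal.Quotient.mk I) ≠ 1 := by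
      by_contra hcon
      push Not at hcon
      apply htriv
      have hle : 𝔫 ≤ maximalIdeal R • 𝔫 := by
        rw [h𝔫, Ideal.span_le]
        rintro _ ⟨σ, hσ, i, j, rfl⟩
        have h1 := hcon σ hσ
        have h2 : (r σ - 1).map (Ideal.Quotient.mk I) = 0 := by
          have := map_sub (Ideal.Quotient.mk I).mapMatrix (r σ) 1
          rw [map_one] at this
          change (Ideal.Quotient.mk I).mapMatrix (r σ - 1) = 0
          rw [this]
          exact sub_eq_zero.mpr h1
        rw [← emem_iff_map_mk_eq_zero] at h2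
        exact h2 i j
      have hbot : 𝔫 = ⊥ := by
        apply Submodule.eq_bot_of_le_smul_of_le_jacobson_bot (maximalIdeal R) 𝔫
          (IsNoetherian.noetherian 𝔫) hle
        rw [IsLocalRing.jacobson_eq_maximalIdeal ⊥ bot_ne_top]
      intro σ hσ
      have h1 := hmem𝔫 σ hσ
      rw [hbot] at h1
      rw [← sub_eq_zero]
      ext i j
      exact (Ideal.mem_bot.mp (h1 i j))
    obtain ⟨τ', hτ', hτne⟩ := hne
    exact ⟨τ', hτ', fun k σ hσ => exists_pow_of_quotient r hr hp hv hvp hpR hP hres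
      (Ideal.Quotient.mk I) hπ hp₂ hτ' hτne k hσ⟩

include hr hp hv hvp hpR hP hres hunip in
/-- consequence: the entries of `r σ - 1`, `σ ∈ I_P`, lie in the ideal generated by the entries of
`r τ - 1` -/
theorem exists_tame_generator' :
    ∃ τ ∈ P.inertiaSubgroupIn ℚ,
      (∀ k : ℕ, ∀ σ ∈ P.inertiaSubgroupIn ℚ, ∃ a : ℕ,
        EMem (maximalIdeal R ^ k) (r σ - r τ ^ a)) ∧
      ∀ σ ∈ P.inertiaSubgroupIn ℚ, EMem (entryIdeal (r τ - 1)) (r σ - 1) := by
  obtain ⟨τ, hτ, hgen⟩ := exists_tame_generator r hr hp hv hvp hpR hP hres hunip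
  exact ⟨τ, hτ, hgen, fun σ hσ => sub_one_emem_of_gen r (fun k => hgen k σ hσ)⟩

end

end Fermat.Agent.ML.LocSc
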