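/-
PROJECT ML (S59) — [LOC-L], helper4: the scalar kind, file 9: **the chart of a scalar chain prime**
(Galois side).

`q ≠ p` a prime with `RB.ResFrobScalarAt ρ̄ p q` (`q ≡ 1 mod p`, `ρ̄` unramified at `q` with scalar
Frobenius `s̄ = residue sgn`), `ρ` a lift of `ρ̄` to a complete noetherian local `𝒪`-algebra `T` with
cyclotomic determinant and unipotent inertia at `q`.  In a basis `β`, with a place `P ∣ q`, a
generator `τ` of the image of inertia (`exists_tame_generator'`) and a Frobenius `φ` at `P`, the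
matrices `N = [ρ(τ)]_β - 1`, `Φ = [ρ(φ)]_β` form a `ScPoint c T`:

`exists_scData : Nonempty (ScData …)`.
-/
import Mathlib
import Fermat.Agent.ML.LOCSC_helper4_Point
import Fermat.Agent.ML.LOCSC_helper4_Tame
import Fermat.Agent.RB.GLUE_helper9_Residual
import Fermat.Agent.RB.GLUE_helper9_Frob
import Fermat.Agent.RB.GLUE_helper9_Inertia
import Fermat.Agent.RB.REPT_helper1_MatRep
import Fermat.Agent.ML.IFACE_helper4_ScChart
import Fermat.Agent.RB.SEL_helper4_Frob
import Fermat.Agent.EC.Conjugacy_helper5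

set_option autoImplicit false
set_option linter.unusedSectionVars false
set_option linter.unusedVariables false

open scoped Pointwise

namespace Fermat.Agent.ML.LocSc

open Fermat.Agent.S53 Fermat.Agent.RB Fermat.Agent.RB.GLUE Fermat.Agent.RB.REPT IsLocalRing

local notation "Ω" => AlgebraicClosure ℚ
local notation "GQ" => (AlgebraicClosure ℚ ≃ₐ[ℚ] AlgebraicClosure ℚ)

section MatCont

variable {A : Type} [CommRing A] [IsLocalRing A] (ρ : GaloisRepAdic A)
  (β : Module.Basis (Fin 2) A ρ.V)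

theorem matCont_matRep : MatCont (matRep ρ β) := by
  intro n
  obtain ⟨L, hL, h1⟩ := ρ.isAdicContinuous n
  exact ⟨L, hL, fun σ hσ i j => matRep_sub_one_apply_mem ρ β (h1 σ hσ) i j⟩

end MatCont

section Data

variable {𝒪 : Type} [CommRing 𝒪] [IsLocalRing 𝒪]
  {T : Type} [CommRing T] [IsLocalRing T] [IsNoetherianRing T] [Algebra 𝒪 T]
  [IsLocalHom (algebraMap 𝒪 T)]

/-- **the local data of a lift at a scalar chain prime** -/
structure ScData (c : ScConst 𝒪) (ρ : GaloisRepAdic T) (q : ℕ) where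
  /-- a basis -/
  β : Module.Basis (Fin 2) T ρ.V
  /-- a place over `q` -/
  P : ValuationSubring Ω
  hP : P.LiesOverPrime q
  /-- a generator of the image of inertia -/
  τ : GQ
  hτ : τ ∈ P.inertiaSubgroupIn ℚ
  /-- a Frobenius element -/
  φ : GQ
  hφ : P.IsFrobeniusAt φ q
  /-- the point -/
  pt : ScPoint c T
  pt_N : pt.N = matRep ρ β τ - 1
  pt_Φ : pt.Φ = matRep ρ β φ
  /-- `τ` generates -/
  gen : ∀ k : ℕ, ∀ σ ∈ P.inertiaSubgroupIn ℚ, ∃ a : ℕ,
    EMem (maximalIdeal T ^ k) (matRep ρ β σ - matRep ρ β τ ^ a)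
  gen' : ∀ σ ∈ P.inertiaSubgroupIn ℚ, EMem (entryIdeal (matRep ρ β τ - 1)) (matRep ρ β σ - 1)

variable {p q : ℕ} (hp : p.Prime) (hq : q.Prime) (hqp : q ≠ p)
  (hp𝒪 : (p : 𝒪) ∈ maximalIdeal 𝒪)
  (ρbar : ResidualGaloisRep (ResidueField 𝒪)) (hsc : ResFrobScalarAt ρbar p q)
  (c : ScConst 𝒪) (hcv : c.v = (q : 𝒪))
  (hfrob : ∀ A : ValuationSubring Ω, A.LiesOverPrime q → ∀ φ : GQ, A.IsFrobeniusAt φ q →
    ρbar.ρ φ = residue 𝒪 c.sgn • (1 : Module.End (ResidueField 𝒪) ρbar.V))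
  (ρ : GaloisRepAdic T)
  (hres : ρ.residual.IsEquiv
    (ρbar.baseChangeAlong (IsLocalRing.ResidueField.map (algebraMap 𝒪 T))))
  (hdet : ρ.DetIsCyclotomic p) (hunip : ρ.IsUnipotentOnInertiaAt q)

include hp𝒪 in
theorem natCast_mem_maximalIdeal : (p : T) ∈ maximalIdeal T := by
  have h1 : (p : T) = algebraMap 𝒪 T (p : 𝒪) := by rw [map_natCast]
  rw [h1]
  exact map_nonunit (algebraMap 𝒪 T) _ hp𝒪

include hp hq hp𝒪 hsc hcv in
/-- `v ≡ 1` -/
theorem map_v_sub_one_mem : algebraMap 𝒪 T c.v - 1 ∈ maximalIdeal T := by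
  obtain ⟨h1, -, -⟩ := hsc
  have h2 : p ∣ q - 1 := (Nat.modEq_iff_dvd' hq.one_lt.le).1 h1.symm
  obtain ⟨m, hm⟩ := h2
  have h3 : q = 1 + p * m := by have := hq.one_lt; omega
  have h4 : algebraMap 𝒪 T c.v - 1 = (p : T) * (m : T) := by
    rw [hcv, map_natCast, h3]
    push_cast
    ring
  rw [h4]
  exact Ideal.mul_mem_right _ _ (natCast_mem_maximalIdeal (𝒪 := 𝒪) hp𝒪)

include hp hq hqp hp𝒪 hsc hcv hfrob hres hdet hunip in
/-- **the local data exist** -/
theorem exists_scData : Nonempty (ScData c ρ q) := by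
  have : Fact q.Prime := ⟨hq⟩
  set β := someBasis ρ with hβ
  set r := matRep ρ β with hrdef
  have hr : MatCont r := matCont_matRep ρ β
  set P := padicPlace q with hPdef
  have hP : P.LiesOverPrime q := Fermat.Agent.TW.Kill.padicPlace_liesOverPrime q
  have hpT : (p : T) ∈ maximalIdeal T := natCast_mem_maximalIdeal (𝒪 := 𝒪) hp𝒪
  set ψ := IsLocalRing.ResidueField.map (algebraMap 𝒪 T) with hψ
  obtain ⟨hq1, hunr, -⟩ := hsc
  have hresI : ∀ σ ∈ P.inertiaSubgroupIn ℚ, EMem (maximalIdeal T) (r σ - 1) := fun σ hσ i j =>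
    sub_one_mem_of_eq_one ρ β ψ ρbar hres (hunr P hP σ hσ) i j
  have hunipI : ∀ σ ∈ P.inertiaSubgroupIn ℚ, (r σ).trace = 2 ∧ (r σ).det = 1 := by
    intro σ hσ
    apply trace_det_of_charpoly_unipotent
    rw [hrdef, charpoly_matRep]
    exact hunip P hP σ hσ
  obtain ⟨τ, hτ, hgen, hgen'⟩ := exists_tame_generator' r hr hp hq hqp hpT hP hresI hunipI
  obtain ⟨φ, hφ⟩ := Fermat.Agent.TW.Kill.exists_isFrobeniusAt P hq hP
  obtain ⟨htr, hdetτ⟩ := hunipI τ hτ
  -- the tame relation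
  have hconj := conj_frobenius r hr hp hq hqp hpT hP hresI hφ hτ
  have hconj' : r φ * r τ = r τ ^ q * r φ := by
    rw [← hconj, ← map_mul, ← map_mul]
    congr 1
    group
  have hrel : r φ * (r τ - 1) = (q : T) • ((r τ - 1) * r φ) :=
    rel_of_conj_unipotent htr hdetτ q hconj'
  -- the determinant of Frobenius
  have hdetφ : (r φ).det = (q : T) := by
    rw [hrdef, det_matRep]
    exact det_frobenius_eq ρ hp hdet hq hqp hP hφ
  -- residual scalar
  obtain ⟨-, h01, h10, h00, h11⟩ := coords_mem_of_scalar ρ β ψ ρbar hres (hfrob P hP φ hφ)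
  have hv : algebraMap 𝒪 T c.v = (q : T) := by rw [hcv, map_natCast]
  have hN : ∀ i j, (r τ - 1) i j ∈ maximalIdeal T := hresI τ hτ
  have hsgn : ψ (residue 𝒪 c.sgn) = residue T (algebraMap 𝒪 T c.sgn) := by
    rw [hψ, IsLocalRing.ResidueField.map_residue]
  refine ⟨{
    β := β
    P := P
    hP := hP
    τ := τ
    hτ := hτ
    φ := φ
    hφ := hφ
    pt := {
      N := r τ - 1
      Φ := r φ
      trN := ?_
      detN := ?_
      rel := by rw [hv]; exact hrel
      detΦ := by rw [hv]; exact hdetφ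
      N_mem := hN
      Φ01_mem := h01
      Φ10_mem := h10
      Φ00_mem := by
        rw [← residue_eq_zero_iff, map_sub, sub_eq_zero, ← hsgn]
        exact h00
      Φ11_mem := by
        rw [← residue_eq_zero_iff, map_sub, sub_eq_zero, ← hsgn]
        exact h11
      v_mem := map_v_sub_one_mem hp hq hp𝒪 ρbar ⟨hq1, hunr, fun A hA φ hφ => ⟨_, hfrob A hA φ hφ⟩⟩
        c hcv }
    pt_N := rfl
    pt_Φ := rfl
    gen := hgen
    gen' := hgen' }⟩
  · -- trace
    rw [Matrix.trace_fin_two] at htr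
    simp only [Matrix.sub_apply, Matrix.one_apply_eq]
    linear_combination htr
  · -- determinant
    rw [Matrix.trace_fin_two] at htr
    rw [Matrix.det_fin_two] at hdetτ
    simp only [Matrix.sub_apply, Matrix.one_apply_eq,
      Matrix.one_apply_ne (show (0 : Fin 2) ≠ 1 by decide),
      Matrix.one_apply_ne (show (1 : Fin 2) ≠ 0 by decide), sub_zero]
    linear_combination hdetτ - htr

end Data

/-! ### general lemmas on the inertia ideal and on Frobenius elements -/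

section General

variable {R : Type} [CommRing R] [IsLocalRing R] (ρ : GaloisRepAdic R)
  (β : Module.Basis (Fin 2) R ρ.V) {q : ℕ}

/-- the entries of `ρ(σ) - 1`, `σ` in an inertia group over `q`, lie in the inertia ideal -/
theorem sub_one_apply_mem_inertiaIdeal {P : ValuationSubring Ω} (hP : P.LiesOverPrime q) {σ : GQ}
    (hσ : σ ∈ P.inertiaSubgroupIn ℚ) (i j : Fin 2) :
    (matRep ρ β σ - 1) i j ∈ inertiaIdeal ρ q := by
  have h1 : (matRep ρ β σ - 1) i j = β.coord i (ρ.ρ σ (β j) - β j) := by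
    rw [Matrix.sub_apply, matRep_apply, LinearMap.toMatrix_apply, Matrix.one_apply, map_sub,
      Module.Basis.coord_apply, Module.Basis.coord_apply, Module.Basis.repr_self,
      Finsupp.single_apply]
    congr 1
    by_cases h : i = j
    · rw [if_pos h, if_pos h.symm]
    · rw [if_neg h, if_neg (Ne.symm h)]
  rw [h1]
  exact Ideal.subset_span ⟨P, hP, σ, hσ, β j, β.coord i, rfl⟩

theorem emem_inertiaIdeal {P : ValuationSubring Ω} (hP : P.LiesOverPrime q) {σ : GQ}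
    (hσ : σ ∈ P.inertiaSubgroupIn ℚ) : EMem (inertiaIdeal ρ q) (matRep ρ β σ - 1) :=
  fun i j => sub_one_apply_mem_inertiaIdeal ρ β hP hσ i j

variable (r : GQ →* M2 R) (I : Ideal R) (hq : q.Prime)
  {P P' : ValuationSubring Ω} (hP : P.LiesOverPrime q) (hP' : P'.LiesOverPrime q)
  (hur : ∀ σ ∈ P.inertiaSubgroupIn ℚ, EMem I (r σ - 1))

include hq hP hP' hur in
/-- modulo an ideal modulo which `r` is unramified at `P`, the images of all Frobenius elements
at all places over `q` are conjugate -/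
theorem exists_rmod_frobenius_conj {φ φ' : GQ} (hφ : P.IsFrobeniusAt φ q)
    (hφ' : P'.IsFrobeniusAt φ' q) :
    ∃ g : GQ, rmod r I φ' = rmod r I g * rmod r I φ * rmod r I g⁻¹ := by
  obtain ⟨g, hg⟩ := Fermat.Agent.EC.exists_smul_eq_of_liesOverPrime hq hP hP'
  have h1 := Fermat.Agent.RB.SEL.isFrobeniusAt_conj (g⁻¹ : GQ) hφ'
  rw [hg, inv_smul_smul, inv_inv] at h1
  have h2 := map_eq_of_isFrobeniusAt P (rmod r I)
    (fun σ hσ => (rmod_eq_one_iff r I σ).2 (hur σ hσ)) hφ h1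
  refine ⟨g, ?_⟩
  rw [h2, ← map_mul, ← map_mul]
  congr 1
  group

include hq hP hP' hur in
theorem trace_frobenius_sub_mem {φ φ' : GQ} (hφ : P.IsFrobeniusAt φ q)
    (hφ' : P'.IsFrobeniusAt φ' q) : (r φ').trace - (r φ).trace ∈ I := by
  obtain ⟨g, hg⟩ := exists_rmod_frobenius_conj r I hq hP hP' hur hφ hφ'
  have h1 : (rmod r I φ').trace = (rmod r I φ).trace := by
    rw [hg, Matrix.trace_mul_comm, ← mul_assoc, ← map_mul, inv_mul_cancel, map_one, one_mul]
  have h2 : ∀ σ, (rmod r I σ).trace = Ideal.Quotient.mk I (r σ).trace := by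
    intro σ
    rw [rmod_apply]
    exact (AddMonoidHom.map_trace (Ideal.Quotient.mk I).toAddMonoidHom (r σ)).symm
  rw [h2, h2, ← sub_eq_zero, ← map_sub, Ideal.Quotient.eq_zero_iff_mem] at h1
  exact h1

include hq hP hP' hur in
/-- if one Frobenius is the scalar `a` modulo `I`, all of them are -/
theorem rmod_frobenius_eq_smul_one {φ φ' : GQ} (hφ : P.IsFrobeniusAt φ q)
    (hφ' : P'.IsFrobeniusAt φ' q) {a : R ⧸ I}
    (h : rmod r I φ = a • (1 : M2 (R ⧸ I))) : rmod r I φ' = a • (1 : M2 (R ⧸ I)) := by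
  obtain ⟨g, hg⟩ := exists_rmod_frobenius_conj r I hq hP hP' hur hφ hφ'
  rw [hg, h, Matrix.mul_smul, mul_one, Matrix.smul_mul, ← map_mul, mul_inv_cancel, map_one]

end General

/-! ### the chart -/

section Charts

variable {𝒪 : Type} [CommRing 𝒪] [IsLocalRing 𝒪]
  {T : Type} [CommRing T] [IsLocalRing T] [IsNoetherianRing T] [Algebra 𝒪 T]
  [IsLocalHom (algebraMap 𝒪 T)] [IsAdicComplete (maximalIdeal T) T]
  {c : ScConst 𝒪} {ρ : GaloisRepAdic T} {q : ℕ} (D : ScData c ρ q)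

namespace ScData

theorem coords_eq :
    D.pt.coords 0 = (matRep ρ D.β D.τ - 1) 1 1 ∧ D.pt.coords 1 = (matRep ρ D.β D.τ - 1) 0 1 ∧
    D.pt.coords 2 = - (matRep ρ D.β D.τ - 1) 1 0 := by
  refine ⟨?_, ?_, ?_⟩
  · show D.pt.N 1 1 = _
    rw [D.pt_N]
  · show D.pt.N 0 1 = _
    rw [D.pt_N]
  · show - D.pt.N 1 0 = _
    rw [D.pt_N]

/-- **(E2)** -/
theorem ev_unrIdeal (f : MvPowerSeries (Fin 6) 𝒪) (hf : f ∈ unrIdeal 𝒪) :
    D.pt.ev f ∈ inertiaIdeal ρ q := by
  have h : unrIdeal 𝒪 ≤ (inertiaIdeal ρ q).comap D.pt.ev.toRingHom := by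
    rw [unrIdeal, Ideal.span_le]
    obtain ⟨h0, h1, h2⟩ := D.coords_eq
    rintro g hg
    simp only [Set.mem_insert_iff, Set.mem_singleton_iff] at hg
    rcases hg with rfl | rfl | rfl
    · show D.pt.ev sa ∈ inertiaIdeal ρ q
      rw [ScPoint.ev_sa, h0]
      exact sub_one_apply_mem_inertiaIdeal ρ D.β D.hP D.hτ 1 1
    · show D.pt.ev sb ∈ inertiaIdeal ρ q
      rw [ScPoint.ev_sb, h1]
      exact sub_one_apply_mem_inertiaIdeal ρ D.β D.hP D.hτ 0 1
    · show D.pt.ev sc ∈ inertiaIdeal ρ q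
      rw [ScPoint.ev_sc, h2]
      exact neg_mem (sub_one_apply_mem_inertiaIdeal ρ D.β D.hP D.hτ 1 0)
  exact h hf

theorem trace_Φ : D.pt.Φ 0 0 + D.pt.Φ 1 1 = ρ.trace D.φ := by
  rw [D.pt_Φ, ← Matrix.trace_fin_two, trace_matRep]
  rfl

/-- **(E3)** -/
theorem ev_newIdeal (hv : algebraMap 𝒪 T c.v = ((q : ℕ) : T)) (f : MvPowerSeries (Fin 6) 𝒪)
    (hf : f ∈ newIdeal c) :
    D.pt.ev f ∈ Ideal.span {a : T | ∃ (P : ValuationSubring Ω) (_ : P.LiesOverPrime q) (φ : GQ)
      (_ : P.IsFrobeniusAt φ q), a = ρ.trace φ ^ 2 - (((q : ℕ) : T) + 1) ^ 2} := by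
  rw [newIdeal, Submodule.mem_sup] at hf
  obtain ⟨f₁, hf₁, f₂, hf₂, rfl⟩ := hf
  obtain ⟨a, rfl⟩ := Ideal.mem_span_singleton'.mp hf₂
  rw [map_add, D.pt.ev_relIdeal f₁ hf₁, zero_add, map_mul]
  apply Ideal.mul_mem_left
  have h4 := D.pt.four_mul_ev_thElt
  rw [D.trace_Φ, hv] at h4
  have hh := ScPoint.two_mul_half (c := c) (T := T)
  have h5 : D.pt.ev (thElt c.tau) = algebraMap 𝒪 T c.half ^ 2 *
      (ρ.trace D.φ ^ 2 - (((q : ℕ) : T) + 1) ^ 2) := by
    linear_combination (algebraMap 𝒪 T c.half ^ 2) * h4 -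
      (D.pt.ev (thElt c.tau) * (2 * algebraMap 𝒪 T c.half + 1)) * hh
  rw [h5]
  exact Ideal.mul_mem_left _ _ (Ideal.subset_span ⟨D.P, D.hP, D.φ, D.hφ, rfl⟩)

/-- the traces of all Frobenius elements over `q` agree modulo the inertia ideal -/
theorem trace_sub_mem_inertiaIdeal (hq : q.Prime) {P' : ValuationSubring Ω}
    (hP' : P'.LiesOverPrime q) {φ' : GQ} (hφ' : P'.IsFrobeniusAt φ' q) :
    ρ.trace φ' - ρ.trace D.φ ∈ inertiaIdeal ρ q := by
  have h := trace_frobenius_sub_mem (matRep ρ D.β) (inertiaIdeal ρ q) hq D.hP hP'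
    (fun σ hσ => emem_inertiaIdeal ρ D.β D.hP hσ) D.hφ hφ'
  rwa [trace_matRep, trace_matRep] at h

/-- **(E5)** -/
theorem ev_thElt_sub_mem (hq : q.Prime) (hv : algebraMap 𝒪 T c.v = ((q : ℕ) : T))
    {P' : ValuationSubring Ω} (hP' : P'.LiesOverPrime q) {φ' : GQ}
    (hφ' : P'.IsFrobeniusAt φ' q) :
    ∃ u : T, IsUnit u ∧ D.pt.ev (thElt c.tau) -
      u * (((q : ℕ) : T) + 1 - algebraMap 𝒪 T c.sgn * ρ.trace φ') ∈ inertiaIdeal ρ q := by
  obtain ⟨u, hu, h⟩ := D.pt.ev_thElt_eq_unit_mul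
  refine ⟨u, hu, ?_⟩
  rw [h, D.trace_Φ, hv]
  have h1 := D.trace_sub_mem_inertiaIdeal hq hP' hφ'
  have h2 : u * (1 + ((q : ℕ) : T) - algebraMap 𝒪 T c.sgn * ρ.trace D.φ) -
      u * (((q : ℕ) : T) + 1 - algebraMap 𝒪 T c.sgn * ρ.trace φ') =
      u * algebraMap 𝒪 T c.sgn * (ρ.trace φ' - ρ.trace D.φ) := by ring
  rw [h2]
  exact Ideal.mul_mem_left _ _ h1

/-- **(E4)**: the Steinberg block is killed at a point whose Frobenius trace is `sgn (1 + q)` -/
theorem ev_stIdeal_of_point [IsDomain 𝒪] (hcv : c.v = ((q : ℕ) : 𝒪)) (ρW : GaloisRepAdic 𝒪)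
    (hW : LinearMap.charpoly (ρW.ρ D.φ) =
      (Polynomial.X - Polynomial.C c.sgn) * (Polynomial.X - Polynomial.C (c.sgn * ((q : ℕ) : 𝒪))))
    (π : T →ₐ[𝒪] 𝒪) (hπ : ∀ σ : GQ, π (ρ.trace σ) = ρW.trace σ)
    (f : MvPowerSeries (Fin 6) 𝒪) (hf : f ∈ stIdeal c.tau) : π (D.pt.ev f) = 0 := by
  set ψ : MvPowerSeries (Fin 6) 𝒪 →+* 𝒪 := π.toRingHom.comp D.pt.ev.toRingHom with hψ
  have hψa : ∀ g, ψ g = π (D.pt.ev g) := fun g => rfl
  have hprime : (RingHom.ker ψ).IsPrime := RingHom.ker_isPrime ψ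
  -- the trace of `ρ_W(φ)`
  have htr : ρW.trace D.φ = c.sgn * (1 + ((q : ℕ) : 𝒪)) := by
    set b := someBasis ρW
    have h1 : (matRep ρW b D.φ).charpoly = Polynomial.X ^ 2 -
        Polynomial.C (c.sgn * (1 + ((q : ℕ) : 𝒪))) * Polynomial.X +
        Polynomial.C (c.sgn * (c.sgn * ((q : ℕ) : 𝒪))) := by
      rw [charpoly_matRep, hW]
      simp only [map_mul, map_add, map_one]
      ring
    have h2 := (trace_det_of_charpoly _ h1).1
    rw [trace_matRep] at h2
    exact h2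
  have hnew : newIdeal c ≤ RingHom.ker ψ := by
    rw [newIdeal, sup_le_iff]
    constructor
    · intro g hg
      rw [RingHom.mem_ker, hψa, D.pt.ev_relIdeal g hg, map_zero]
    · rw [Ideal.span_le, Set.singleton_subset_iff, SetLike.mem_coe, RingHom.mem_ker, hψa]
      have h4 := congrArg π D.pt.four_mul_ev_thElt
      rw [D.trace_Φ, map_mul, map_sub, map_pow, map_pow, map_add, map_one, hπ, htr,
        AlgHom.commutes, Algebra.algebraMap_self_apply, hcv] at h4
      have h5 : π (4 : T) = 4 := map_ofNat π 4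
      rw [h5] at h4
      have hs := c.sgn_sq
      have h6 : (4 : 𝒪) * π (D.pt.ev (thElt c.tau)) = 0 := by
        rw [h4]
        linear_combination (1 + ((q : ℕ) : 𝒪)) ^ 2 * hs
      have h2 : (2 : 𝒪) ≠ 0 := c.isUnit_two.ne_zero
      have h40 : (4 : 𝒪) ≠ 0 := by
        have : (4 : 𝒪) = 2 * 2 := by norm_num
        rw [this]
        exact mul_ne_zero h2 h2
      exact (mul_eq_zero.mp h6).resolve_left h40
  have := stIdeal_le_of_newIdeal_le c (RingHom.ker ψ) hnew hf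
  rwa [RingHom.mem_ker, hψa] at this

/-- **(E6)**: the coordinates trivialise `ρ` locally at `q` -/
theorem isLocTrivIdeal (hq : q.Prime) (hτ : c.tau ∈ maximalIdeal 𝒪) :
    IsLocTrivIdeal 𝒪 ρ q (Ideal.span (Set.range D.pt.coords)) := by
  intro J hIJ hm2 hlam P' hP'
  refine ⟨D.β, fun σ hσ i j => ?_⟩
  set r := matRep ρ D.β with hrdef
  have hr : MatCont r := matCont_matRep ρ D.β
  have hx : ∀ i, D.pt.coords i ∈ J := fun i => hIJ (Ideal.subset_span ⟨i, rfl⟩)
  have hτJ : algebraMap 𝒪 T c.tau ∈ J := hlam (Ideal.mem_map_of_mem _ hτ)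
  have hθJ : D.pt.th - algebraMap 𝒪 T c.theta0 ∈ J := hIJ D.pt.th_sub_theta0_mem_span
  -- unramified modulo `J`
  have hN : EMem J (r D.τ - 1) := by
    have hN' : r D.τ - 1 = D.pt.N := D.pt_N.symm
    rw [hN']
    intro a b
    fin_cases a <;> fin_cases b
    · show D.pt.N 0 0 ∈ J
      rw [D.pt.N00]
      exact neg_mem (hx 0)
    · exact hx 1
    · show D.pt.N 1 0 ∈ J
      have : D.pt.N 1 0 = - D.pt.coords 2 := by
        show D.pt.N 1 0 = - - D.pt.N 1 0
        rw [neg_neg]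
      rw [this]
      exact neg_mem (hx 2)
    · exact hx 0
  have hurP : ∀ s ∈ D.P.inertiaSubgroupIn ℚ, EMem J (r s - 1) := fun s hs =>
    (D.gen' s hs).mono ((entryIdeal_le_iff _ _).2 hN)
  have hurP' : ∀ s ∈ P'.inertiaSubgroupIn ℚ, EMem J (r s - 1) := fun s hs =>
    emem_sub_one_of_all_places r hq D.hP J hurP hP' hs
  -- Frobenius is a constant scalar modulo `J`
  have hΦ : rmod r J D.φ =
      (Ideal.Quotient.mk J (algebraMap 𝒪 T c.theta0)) • (1 : M2 (T ⧸ J)) := by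
    have hΦ' : r D.φ = D.pt.Φ := D.pt_Φ.symm
    have h3 : D.pt.coords 3 = D.pt.Φ 1 1 - D.pt.th +
      algebraMap 𝒪 T c.tau * algebraMap 𝒪 T c.half := rfl
    rw [rmod_apply, hΦ']
    ext a b
    rw [Matrix.map_apply, Matrix.smul_apply, smul_eq_mul]
    fin_cases a <;> fin_cases b
    · simp only [Fin.zero_eta, Matrix.one_apply_eq, mul_one]
      rw [Ideal.Quotient.eq, D.pt.Φ00]
      have : D.pt.th - algebraMap 𝒪 T c.tau * algebraMap 𝒪 T c.half +
          (algebraMap 𝒪 T c.tau - D.pt.coords 3) - algebraMap 𝒪 T c.theta0 =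
          (D.pt.th - algebraMap 𝒪 T c.theta0) +
            algebraMap 𝒪 T c.tau * (1 - algebraMap 𝒪 T c.half) - D.pt.coords 3 := by ring
      rw [this]
      exact Ideal.sub_mem _ (Ideal.add_mem _ hθJ (Ideal.mul_mem_right _ _ hτJ)) (hx 3)
    · simp only [Fin.zero_eta, Fin.mk_one, ne_eq, zero_ne_one, not_false_eq_true,
        Matrix.one_apply_ne, mul_zero]
      rw [Ideal.Quotient.eq_zero_iff_mem]
      exact hx 4
    · simp only [Fin.zero_eta, Fin.mk_one, ne_eq, one_ne_zero, not_false_eq_true,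
        Matrix.one_apply_ne, mul_zero]
      rw [Ideal.Quotient.eq_zero_iff_mem]
      have : D.pt.Φ 1 0 = - D.pt.coords 5 := by
        show D.pt.Φ 1 0 = - - D.pt.Φ 1 0
        rw [neg_neg]
      rw [this]
      exact neg_mem (hx 5)
    · simp only [Fin.mk_one, Matrix.one_apply_eq, mul_one]
      rw [Ideal.Quotient.eq]
      have : D.pt.Φ 1 1 - algebraMap 𝒪 T c.theta0 =
          D.pt.coords 3 + (D.pt.th - algebraMap 𝒪 T c.theta0) -
            algebraMap 𝒪 T c.tau * algebraMap 𝒪 T c.half := by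
        rw [h3]
        ring
      rw [this]
      exact Ideal.sub_mem _ (Ideal.add_mem _ (hx 3) hθJ) (Ideal.mul_mem_right _ _ hτJ)
  obtain ⟨φ', hφ'⟩ := Fermat.Agent.TW.Kill.exists_isFrobeniusAt P' hq hP'
  have hΦ' := rmod_frobenius_eq_smul_one r J hq D.hP hP' hurP D.hφ hφ' hΦ
  -- finite level
  have hfac : GaloisFactorsThroughFiniteLevel (rmod r J).toHomUnits := by
    obtain ⟨F, hFfd, hFn, hF⟩ := exists_level r hr J 2 hm2
    exact ⟨F, hFfd, fun s hs => Units.ext (hF s hs)⟩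
  obtain ⟨k, hk⟩ := Fermat.Agent.RB.SEL.exists_pow_of_mem_decompositionSubgroup
    (rmod r J).toHomUnits hfac hq P' hP'
    (fun s hs => Units.ext ((rmod_eq_one_iff r J s).2 (hurP' s hs))) hφ' hσ
  have h1 : rmod r J σ =
      (Ideal.Quotient.mk J (algebraMap 𝒪 T c.theta0)) ^ k • (1 : M2 (T ⧸ J)) := by
    have := congrArg (fun u : (M2 (T ⧸ J))ˣ => (u : M2 (T ⧸ J))) hk
    simp only [MonoidHom.coe_toHomUnits, Units.val_pow_eq_pow_val] at this
    rw [this, hΦ', smul_pow, one_pow]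
  have h2 := congrFun (congrFun h1 i) j
  rw [rmod_apply, Matrix.map_apply, Matrix.smul_apply, smul_eq_mul] at h2
  by_cases hij : i = j
  · refine ⟨c.theta0 ^ k, ?_⟩
    subst hij
    rw [Matrix.one_apply_eq, mul_one] at h2
    rw [← Ideal.Quotient.eq, map_pow, map_pow]
    exact h2
  · refine ⟨0, ?_⟩
    rw [Matrix.one_apply_ne hij, mul_zero] at h2
    rw [map_zero, sub_zero, ← Ideal.Quotient.eq_zero_iff_mem]
    exact h2

end ScData

end Charts

/-! ### the statement -/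

section Final

open Polynomial in
/-- a scalar endomorphism of a plane with characteristic polynomial `(X - s)²` is `s` -/
theorem scalar_eq_of_charpoly {k : Type} [Field k] {V : Type} [AddCommGroup V] [Module k V]
    [Module.Free k V] [Module.Finite k V] (hV : Module.finrank k V = 2) (a s : k)
    (h : LinearMap.charpoly (a • (1 : Module.End k V)) = (X - C s) * (X - C s)) : a = s := by
  have h1 := LinearMap.aeval_self_charpoly (a • (1 : Module.End k V))
  rw [h] at h1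
  simp only [map_mul, map_sub, aeval_X, aeval_C] at h1
  have : Nontrivial V := Module.nontrivial_of_finrank_pos (R := k) (by rw [hV]; norm_num)
  obtain ⟨v, hv⟩ := exists_ne (0 : V)
  have h2 := LinearMap.congr_fun h1 v
  simp only [Module.End.mul_apply, LinearMap.sub_apply, LinearMap.smul_apply,
    Module.End.one_apply, Module.algebraMap_end_apply, LinearMap.zero_apply, ← sub_smul,
    smul_smul] at h2
  have h3 : (a - s) * (a - s) = 0 := by
    rcases smul_eq_zero.mp h2 with h | h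
    · linear_combination h
    · exact absurd h hv
  have h4 : a - s = 0 := by
    rcases mul_eq_zero.mp h3 with h | h <;> exact h
  exact sub_eq_zero.mp h4

/-- **the chart of a scalar chain prime** -/
theorem scChartStatement : ScChartStatement := by
  intro 𝒪 _ _ _ _ p hpF hp𝒪 ρbar q hq hqp hsc c hcv hcp T _ _ _ _ _ _ ρ hres hdet hunip
  have hp : p.Prime := hpF.out
  obtain ⟨hq1, hunr, hscal⟩ := hsc
  -- `q = 1` in the residue field
  obtain ⟨m, hm⟩ : p ∣ q - 1 := (Nat.modEq_iff_dvd' hq.one_lt.le).1 hq1.symm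
  have hqm : q = 1 + p * m := by have := hq.one_lt; omega
  have hpk : ((p : ℕ) : ResidueField 𝒪) = 0 := by
    rw [← map_natCast (residue 𝒪), residue_eq_zero_iff]
    exact hp𝒪
  have hqk : ((q : ℕ) : ResidueField 𝒪) = 1 := by
    rw [hqm]
    push_cast
    rw [hpk, zero_mul, add_zero]
  -- the residual Frobenius is the scalar `sgn`
  have hfrob : ∀ A : ValuationSubring Ω, A.LiesOverPrime q → ∀ φ : GQ, A.IsFrobeniusAt φ q →
      ρbar.ρ φ = residue 𝒪 c.sgn • (1 : Module.End (ResidueField 𝒪) ρbar.V) := by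
    intro A hA φ hφ
    obtain ⟨a, ha⟩ := hscal A hA φ hφ
    have h1 := hcp A hA φ hφ
    rw [ha, hqk, mul_one] at h1
    rw [ha, scalar_eq_of_charpoly ρbar.finrank_eq a _ h1]
  -- `τ ∈ 𝔪`
  have hτ : c.tau ∈ maximalIdeal 𝒪 := by
    have h1 : c.v - 1 = (p : 𝒪) * (m : 𝒪) := by
      rw [hcv, hqm]
      push_cast
      ring
    unfold ScConst.tau
    rw [h1]
    exact Ideal.mul_mem_left _ _ (Ideal.mul_mem_right _ _ hp𝒪)
  have hv : algebraMap 𝒪 T c.v = ((q : ℕ) : T) := by rw [hcv, map_natCast]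
  obtain ⟨D⟩ := exists_scData hp hq hqp hp𝒪 ρbar ⟨hq1, hunr, hscal⟩ c hcv hfrob ρ hres hdet hunip
  refine ⟨D.pt.coords, D.pt.coords_mem, D.isLocTrivIdeal hq hτ, D.pt.ev_relIdeal, D.ev_unrIdeal,
    D.ev_newIdeal hv, ?_, ?_⟩
  · intro ρW hW π hπ f hf
    exact D.ev_stIdeal_of_point hcv ρW (hW D.P D.hP D.φ D.hφ) π hπ f hf
  · intro P' hP' φ' hφ'
    exact D.ev_thElt_sub_mem hq hv hP' hφ'

end Final

end Fermat.Agent.ML.LocSc
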