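/-
ML (S59) — helper7 — [LOC-L] `ns` charts, file 3: change of basis by an invertible matrix, and pure
`2 × 2` matrix algebra for the two normal forms of a Frobenius (`diag(α, β)` and the companion
matrix) against a unipotent `1 + N` with `Φ N = q N Φ`.
-/
import Mathlib

set_option autoImplicit false
set_option linter.unusedSectionVars false

namespace Fermat.Agent.ML

section Basis

variable {R V : Type*} [CommRing R] [AddCommGroup V] [Module R V]

/-- if `M G = G D` for the matrix `M` of `f` in the basis `b₀` and an invertible `G`, then `f` has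
the matrix `D` in the basis `G b₀` -/
theorem exists_basis_toMatrix_eq (b₀ : Module.Basis (Fin 2) R V) (f : Module.End R V)
    (G D : Matrix (Fin 2) (Fin 2) R) (hG : IsUnit G.det)
    (h : LinearMap.toMatrix b₀ b₀ f * G = G * D) :
    ∃ b : Module.Basis (Fin 2) R V, LinearMap.toMatrix b b f = D := by
  let e : V ≃ₗ[R] V := Matrix.toLinearEquiv b₀ G hG
  refine ⟨b₀.map e, ?_⟩
  have he : ∀ x, e x = Matrix.toLin b₀ b₀ G x := fun x => rfl
  have hf : f = Matrix.toLin b₀ b₀ (LinearMap.toMatrix b₀ b₀ f) := (Matrix.toLin_toMatrix b₀ b₀ f).symm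
  have key : ∀ x, f (e x) = e (Matrix.toLin b₀ b₀ D x) := by
    intro x
    rw [he, he]
    conv_lhs => rw [hf]
    rw [← Matrix.toLin_mul_apply, ← Matrix.toLin_mul_apply, h]
  ext i j
  rw [LinearMap.toMatrix_apply, Module.Basis.map_apply, Module.Basis.map_repr,
    LinearEquiv.trans_apply, key, LinearEquiv.symm_apply_apply, ← LinearMap.toMatrix_apply,
    LinearMap.toMatrix_toLin]

end Basis

section Alg

variable {R : Type*} [CommRing R]

/-- the tame relation against a diagonal Frobenius -/
theorem diag_rel {α β c : R} {N : Matrix (Fin 2) (Fin 2) R}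
    (h : !![α, 0; 0, β] * N = c • (N * !![α, 0; 0, β])) :
    (1 - c) * α * N 0 0 = 0 ∧ (1 - c) * β * N 1 1 = 0 ∧ (α - c * β) * N 0 1 = 0 ∧
      (β - c * α) * N 1 0 = 0 := by
  have e00 := congrFun (congrFun h 0) 0
  have e01 := congrFun (congrFun h 0) 1
  have e10 := congrFun (congrFun h 1) 0
  have e11 := congrFun (congrFun h 1) 1
  simp [Matrix.mul_apply, Fin.sum_univ_two] at e00 e01 e10 e11
  refine ⟨?_, ?_, ?_, ?_⟩
  · linear_combination e00
  · linear_combination e11
  · linear_combination e01
  · linear_combination e10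

/-- the tame relation against a companion matrix: `N = [[a, b],[c, d]]`, `Φ = [[0, -δ],[1, τ]]`,
`Φ N = κ N Φ`. -/
theorem companion_rel {δ τ κ : R} {N : Matrix (Fin 2) (Fin 2) R}
    (h : !![0, -δ; 1, τ] * N = κ • (N * !![0, -δ; 1, τ])) :
    -δ * N 1 0 = κ * N 0 1 ∧
    -δ * N 1 1 = κ * (-δ * N 0 0 + τ * N 0 1) ∧
    N 0 0 + τ * N 1 0 = κ * N 1 1 ∧
    N 0 1 + τ * N 1 1 = κ * (-δ * N 1 0 + τ * N 1 1) := by
  have e00 := congrFun (congrFun h 0) 0
  have e01 := congrFun (congrFun h 0) 1
  have e10 := congrFun (congrFun h 1) 0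
  have e11 := congrFun (congrFun h 1) 1
  simp [Matrix.mul_apply, Fin.sum_univ_two] at e00 e01 e10 e11
  refine ⟨?_, ?_, ?_, ?_⟩
  · linear_combination e00
  · linear_combination e01
  · linear_combination e10
  · linear_combination e11

end Alg

end Fermat.Agent.ML
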