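/-
ML (S59) — helper7 — [LOC-L] `ns` charts, file 1: **Hensel diagonalisation of a `2 × 2` matrix with
residually distinct eigenvalues** over a Henselian local ring.

`M ∈ M₂(R)`, `a, b ∈ R` with `a - b` a unit, `tr M ≡ a + b`, `det M ≡ a b` modulo `𝔪`. Then there
are `α ≡ a`, `β ≡ b` with `α + β = tr M`, `α β = det M` and an invertible `G` with
`M G = G diag(α, β)`.
-/
import Mathlib

set_option autoImplicit false
set_option linter.unusedSectionVars false

open Polynomial IsLocalRing

namespace Fermat.Agent.ML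

section Diag

variable {R : Type*} [CommRing R] [IsLocalRing R]

theorem isUnit_or_mem_maximalIdeal (x : R) : IsUnit x ∨ x ∈ maximalIdeal R := by
  by_cases h : IsUnit x
  · exact Or.inl h
  · exact Or.inr ((mem_maximalIdeal x).mpr h)

theorem isUnit_add_of_isUnit_of_mem {x y : R} (hx : IsUnit x) (hy : y ∈ maximalIdeal R) :
    IsUnit (x + y) := by
  by_contra h
  have h1 : x + y ∈ maximalIdeal R := (mem_maximalIdeal _).mpr h
  have h2 : x ∈ maximalIdeal R := by
    have := Ideal.sub_mem _ h1 hy
    rwa [add_sub_cancel_right] at this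
  exact (mem_maximalIdeal _).mp h2 hx

/-- **Hensel roots of the characteristic polynomial** -/
theorem exists_charpoly_roots [HenselianRing R (maximalIdeal R)] (t d a b : R)
    (hab : IsUnit (a - b)) (htr : t - (a + b) ∈ maximalIdeal R)
    (hdet : d - a * b ∈ maximalIdeal R) :
    ∃ α β : R, α - a ∈ maximalIdeal R ∧ β - b ∈ maximalIdeal R ∧ α + β = t ∧ α * β = d := by
  set f : R[X] := X ^ 2 - C t * X + C d with hf
  have hmonic : f.Monic := by
    rw [hf]
    monicity!
  have hev : f.eval a ∈ maximalIdeal R := by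
    have e : f.eval a = -(a * (t - (a + b))) + (d - a * b) := by
      rw [hf]; simp only [eval_add, eval_sub, eval_mul, eval_pow, eval_X, eval_C]; ring
    rw [e]
    exact Ideal.add_mem _ (neg_mem (Ideal.mul_mem_left _ _ htr)) hdet
  have hder : f.derivative.eval a = (a - b) - (t - (a + b)) := by
    rw [hf]
    simp only [derivative_add, derivative_sub, derivative_mul, derivative_C, derivative_X_pow,
      derivative_X, eval_add, eval_sub, eval_mul, eval_pow, eval_X, eval_C]
    simp
    ring
  have hdu : IsUnit (Ideal.Quotient.mk (maximalIdeal R) (f.derivative.eval a)) := by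
    rw [hder, map_sub, Ideal.Quotient.eq_zero_iff_mem.mpr htr, sub_zero]
    exact hab.map _
  obtain ⟨α, hroot, hcong⟩ :=
    HenselianRing.is_henselian (I := maximalIdeal R) f hmonic a hev hdu
  refine ⟨α, t - α, hcong, ?_, by ring, ?_⟩
  · have e : t - α - b = (t - (a + b)) - (α - a) := by ring
    rw [e]
    exact Ideal.sub_mem _ htr hcong
  · rw [IsRoot.def, hf] at hroot
    simp only [eval_add, eval_sub, eval_mul, eval_pow, eval_X, eval_C] at hroot
    linear_combination -hroot

/-- **diagonalisation** of a matrix whose characteristic polynomial has the roots `α, β` with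
`α - β` a unit -/
theorem exists_diag_of_roots (M : Matrix (Fin 2) (Fin 2) R) (α β : R) (hαβ : IsUnit (α - β))
    (htr : α + β = M.trace) (hdet : α * β = M.det) :
    ∃ G : Matrix (Fin 2) (Fin 2) R, IsUnit G.det ∧ M * G = G * !![α, 0; 0, β] := by
  rw [Matrix.trace_fin_two] at htr
  rw [Matrix.det_fin_two] at hdet
  have hβα : IsUnit (β - α) := by
    have : β - α = -(α - β) := by ring
    rw [this]; exact hαβ.neg
  have hM : M = !![M 0 0, M 0 1; M 1 0, M 1 1] := (Matrix.eta_fin_two M)
  rcases isUnit_or_mem_maximalIdeal (M 1 0) with h10 | h10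
  · refine ⟨!![M 0 0 - β, M 0 0 - α; M 1 0, M 1 0], ?_, ?_⟩
    · rw [Matrix.det_fin_two_of]
      have : (M 0 0 - β) * M 1 0 - (M 0 0 - α) * M 1 0 = M 1 0 * (α - β) := by ring
      rw [this]
      exact h10.mul hαβ
    · rw [hM]
      ext i j
      fin_cases i <;> fin_cases j <;>
        simp [Matrix.mul_apply, Fin.sum_univ_two]
      · linear_combination -((M 0 0) * htr - hdet)
      · linear_combination -((M 0 0) * htr - hdet)
      · linear_combination -((M 1 0) * htr)
      · linear_combination -((M 1 0) * htr)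
  rcases isUnit_or_mem_maximalIdeal (M 0 1) with h01 | h01
  · refine ⟨!![M 0 1, M 0 1; M 1 1 - β, M 1 1 - α], ?_, ?_⟩
    · rw [Matrix.det_fin_two_of]
      have : M 0 1 * (M 1 1 - α) - M 0 1 * (M 1 1 - β) = M 0 1 * (β - α) := by ring
      rw [this]
      exact h01.mul hβα
    · rw [hM]
      ext i j
      fin_cases i <;> fin_cases j <;>
        simp [Matrix.mul_apply, Fin.sum_univ_two]
      · linear_combination -((M 0 1) * htr)
      · linear_combination -((M 0 1) * htr)
      · linear_combination -((M 1 1) * htr - hdet)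
      · linear_combination -((M 1 1) * htr - hdet)
  -- residually diagonal
  have hprod : (M 0 0 - α) * (M 0 0 - β) ∈ maximalIdeal R := by
    have : (M 0 0 - α) * (M 0 0 - β) = -(M 0 1 * M 1 0) := by
      linear_combination -(M 0 0) * htr + hdet
    rw [this]
    exact neg_mem (Ideal.mul_mem_left _ _ h10)
  rcases (Ideal.IsPrime.mem_or_mem (inferInstance : (maximalIdeal R).IsPrime) hprod) with h | h
  · -- `M 0 0 ≡ α`
    have hu1 : IsUnit (M 0 0 - β) := by
      have : M 0 0 - β = (α - β) + (M 0 0 - α) := by ring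
      rw [this]; exact isUnit_add_of_isUnit_of_mem hαβ h
    have hu2 : IsUnit (M 1 1 - α) := by
      have : M 1 1 - α = (β - α) + -(M 0 0 - α) := by linear_combination -htr
      rw [this]; exact isUnit_add_of_isUnit_of_mem hβα (neg_mem h)
    refine ⟨!![M 0 0 - β, M 0 1; M 1 0, M 1 1 - α], ?_, ?_⟩
    · rw [Matrix.det_fin_two_of]
      have : (M 0 0 - β) * (M 1 1 - α) - M 0 1 * M 1 0 =
          (M 0 0 - β) * (M 1 1 - α) + -(M 0 1 * M 1 0) := by ring
      rw [this]
      exact isUnit_add_of_isUnit_of_mem (hu1.mul hu2)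
        (neg_mem (Ideal.mul_mem_left _ _ h10))
    · rw [hM]
      ext i j
      fin_cases i <;> fin_cases j <;>
        simp [Matrix.mul_apply, Fin.sum_univ_two]
      · linear_combination -((M 0 0) * htr - hdet)
      · linear_combination -((M 0 1) * htr)
      · linear_combination -((M 1 0) * htr)
      · linear_combination -((M 1 1) * htr - hdet)
  · -- `M 0 0 ≡ β`
    have hu1 : IsUnit (M 0 0 - α) := by
      have : M 0 0 - α = (β - α) + (M 0 0 - β) := by ring
      rw [this]; exact isUnit_add_of_isUnit_of_mem hβα h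
    have hu2 : IsUnit (M 1 1 - β) := by
      have : M 1 1 - β = (α - β) + -(M 0 0 - β) := by linear_combination -htr
      rw [this]; exact isUnit_add_of_isUnit_of_mem hαβ (neg_mem h)
    refine ⟨!![M 0 1, M 0 0 - α; M 1 1 - β, M 1 0], ?_, ?_⟩
    · rw [Matrix.det_fin_two_of]
      have : M 0 1 * M 1 0 - (M 0 0 - α) * (M 1 1 - β) =
          -((M 0 0 - α) * (M 1 1 - β)) + M 0 1 * M 1 0 := by ring
      rw [this]
      exact isUnit_add_of_isUnit_of_mem (hu1.mul hu2).neg (Ideal.mul_mem_left _ _ h10)
    · rw [hM]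
      ext i j
      fin_cases i <;> fin_cases j <;>
        simp [Matrix.mul_apply, Fin.sum_univ_two]
      · linear_combination -((M 0 1) * htr)
      · linear_combination -((M 0 0) * htr - hdet)
      · linear_combination -((M 1 1) * htr - hdet)
      · linear_combination -((M 1 0) * htr)

/-- **Hensel diagonalisation** -/
theorem exists_diag_of_residual_distinct [HenselianRing R (maximalIdeal R)]
    (M : Matrix (Fin 2) (Fin 2) R) (a b : R) (hab : IsUnit (a - b))
    (htr : M.trace - (a + b) ∈ maximalIdeal R) (hdet : M.det - a * b ∈ maximalIdeal R) :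
    ∃ (α β : R) (G : Matrix (Fin 2) (Fin 2) R), IsUnit G.det ∧ α - a ∈ maximalIdeal R ∧
      β - b ∈ maximalIdeal R ∧ α + β = M.trace ∧ α * β = M.det ∧
      M * G = G * !![α, 0; 0, β] := by
  obtain ⟨α, β, hα, hβ, h1, h2⟩ := exists_charpoly_roots M.trace M.det a b hab htr hdet
  have hαβ : IsUnit (α - β) := by
    have : α - β = (a - b) + ((α - a) - (β - b)) := by ring
    rw [this]
    exact isUnit_add_of_isUnit_of_mem hab (Ideal.sub_mem _ hα hβ)
  obtain ⟨G, hG, hMG⟩ := exists_diag_of_roots M α β hαβ h1 h2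
  exact ⟨α, β, G, hG, hα, hβ, h1, h2, hMG⟩

end Diag

end Fermat.Agent.ML
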