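/-
ML (S59) — helper7 — [LOC-L] `ns` charts, file 4: **the chart in the case `q ≢ 1 mod p`**
(types (ii), (iv)): eigenbasis of a Frobenius lift.

`ρ(φ₀) = diag(α, β)`, `α ≡ s`, `β ≡ s q`, `t = β/α - q`, `ρ(τ₀) - 1 = [[0, z],[y, 0]]` for a
generator `τ₀` of the image of inertia modulo `𝔪²`, `κ = (q² - 1)/q`.
-/
import Mathlib
import Fermat.Agent.ML.NSCH_helper7_Common
import Fermat.Agent.ML.NSCH_helper7_Diag
import Fermat.Agent.ML.NSCH_helper7_Basis

set_option autoImplicit false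
set_option linter.unusedSectionVars false
set_option linter.unusedVariables false

open Polynomial IsLocalRing
open scoped Pointwise

namespace Fermat.Agent.ML

open Fermat.Agent.RB Fermat.Agent.RB.GLUE Fermat.Agent.RB.REPT Fermat.Agent.S53

local notation "Ω" => AlgebraicClosure ℚ
local notation "GQ" => (AlgebraicClosure ℚ ≃ₐ[ℚ] AlgebraicClosure ℚ)

section Tools

variable {𝒪 : Type} [CommRing 𝒪] [IsLocalRing 𝒪] {T : Type} [CommRing T] [IsLocalRing T]
  [Algebra 𝒪 T]

/-- an `𝒪`-algebra homomorphism `T → 𝒪` maps the maximal ideal into the maximal ideal -/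
theorem algHom_mem_maximalIdeal (π : T →ₐ[𝒪] 𝒪) {x : T} (hx : x ∈ maximalIdeal T) :
    π x ∈ maximalIdeal 𝒪 := by
  by_contra h
  have hu : IsUnit (π x) := by
    by_contra h'
    exact h ((mem_maximalIdeal _).mpr h')
  obtain ⟨c, hc⟩ := hu.exists_right_inv
  have h1 : IsUnit (1 - x * algebraMap 𝒪 T c) := by
    have : 1 - x * algebraMap 𝒪 T c = 1 + -(x * algebraMap 𝒪 T c) := by ring
    rw [this]
    exact isUnit_add_of_isUnit_of_mem isUnit_one (neg_mem (Ideal.mul_mem_right _ _ hx))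
  have h2 : π (1 - x * algebraMap 𝒪 T c) = 0 := by
    rw [map_sub, map_one, map_mul, AlgHom.commutes, Algebra.algebraMap_self_apply, hc, sub_self]
  have h3 := h1.map π
  rw [h2] at h3
  exact not_isUnit_zero h3

/-- trace of a rank two endomorphism with split characteristic polynomial -/
theorem trace_of_charpoly_eq {A : Type} [CommRing A] [IsLocalRing A] (ρ : GaloisRepAdic A) (σ : GQ)
    {a b : A} (h : LinearMap.charpoly (ρ.ρ σ) = (X - C a) * (X - C b)) : ρ.trace σ = a + b := by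
  set bs := someBasis ρ
  have h1 : (matRep ρ bs σ).charpoly = X ^ 2 - C (a + b) * X + C (a * b) := by
    rw [charpoly_matRep, h, C_add, C_mul]; ring
  rw [GaloisRepAdic.trace, ← trace_matRep ρ bs]
  exact (trace_det_of_charpoly _ h1).1

end Tools

section CaseA

variable {𝒪 : Type} [CommRing 𝒪] [IsDomain 𝒪] [IsLocalRing 𝒪]
  {T : Type} [CommRing T] [IsLocalRing T] [IsNoetherianRing T]
  [HenselianRing T (maximalIdeal T)] [Algebra 𝒪 T] [IsLocalHom (algebraMap 𝒪 T)]
  (ρ : GaloisRepAdic T) {p q : ℕ} (hp : p.Prime) (hq : q.Prime) (hqp : q ≠ p)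
  (hpT : (p : T) ∈ maximalIdeal T)
  (s qi : 𝒪) (hs : s ^ 2 = 1) (hqi : (q : 𝒪) * qi = 1) (hq1 : IsUnit ((q : 𝒪) - 1))
  (h2 : IsUnit (2 : 𝒪)) (hκ : ((q : 𝒪) ^ 2 - 1) * qi ≠ 0)
  {P : ValuationSubring Ω} (hP : P.LiesOverPrime q) {φ₀ : GQ} (hφ₀ : P.IsFrobeniusAt φ₀ q)
  (hres : ∀ (b : Module.Basis (Fin 2) T ρ.V), ∀ σ ∈ P.inertiaSubgroupIn ℚ,
    EMem (maximalIdeal T) (matRep ρ b σ - 1))
  (htr : ρ.trace φ₀ - algebraMap 𝒪 T (s + s * q) ∈ maximalIdeal T)
  (hdet : LinearMap.det (ρ.ρ φ₀) = (q : T))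
  (hunip : ρ.IsUnipotentOnInertiaAt q)

include hs hq1 htr hdet in
/-- the eigenbasis of the Frobenius lift -/
theorem exists_eigenbasis :
    ∃ (b : Module.Basis (Fin 2) T ρ.V) (α β : T), α - algebraMap 𝒪 T s ∈ maximalIdeal T ∧
      β - algebraMap 𝒪 T s * (q : T) ∈ maximalIdeal T ∧ α + β = ρ.trace φ₀ ∧ α * β = (q : T) ∧
      matRep ρ b φ₀ = !![α, 0; 0, β] := by
  set b₀ := someBasis ρ
  set sT := algebraMap 𝒪 T s with hsT
  have hsT2 : sT ^ 2 = 1 := by rw [hsT, ← map_pow, hs, map_one]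
  have hsTu : IsUnit sT := IsUnit.of_mul_eq_one sT (by rw [← sq]; exact hsT2)
  have hqT : (q : T) = algebraMap 𝒪 T (q : 𝒪) := (map_natCast _ q).symm
  have hq1T : IsUnit (1 - (q : T)) := by
    have : 1 - (q : T) = -(algebraMap 𝒪 T ((q : 𝒪) - 1)) := by rw [map_sub, map_one, hqT]; ring
    rw [this]
    exact (hq1.map _).neg
  have hab : IsUnit (sT - sT * (q : T)) := by
    have : sT - sT * (q : T) = sT * (1 - (q : T)) := by ring
    rw [this]; exact hsTu.mul hq1T
  have htrM : (matRep ρ b₀ φ₀).trace = ρ.trace φ₀ := trace_matRep ρ b₀ φ₀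
  have hdetM : (matRep ρ b₀ φ₀).det = (q : T) := by rw [det_matRep, hdet]
  obtain ⟨α, β, G, hG, hα, hβ, h1, h2', hMG⟩ := exists_diag_of_residual_distinct
    (matRep ρ b₀ φ₀) sT (sT * (q : T)) hab
    (by
      rw [htrM]
      have : algebraMap 𝒪 T (s + s * q) = sT + sT * (q : T) := by
        rw [map_add, map_mul, map_natCast]
      rw [← this]; exact htr)
    (by
      rw [hdetM]
      have : (q : T) - sT * (sT * (q : T)) = (1 - sT ^ 2) * (q : T) := by ring
      rw [this, hsT2, sub_self, zero_mul]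
      exact Ideal.zero_mem _)
  obtain ⟨b, hb⟩ := exists_basis_toMatrix_eq b₀ (ρ.ρ φ₀) G !![α, 0; 0, β] hG hMG
  exact ⟨b, α, β, hα, hβ, by rw [h1, htrM], by rw [h2', hdetM], hb⟩

include hp hq hqp hpT hP hφ₀ hres hunip in
/-- the tame relation in a basis `b`: `Φ N = q N Φ`, `N² = 0` for `N = ρ(τ) - 1`, `τ ∈ I_P` -/
theorem tame_rel (b : Module.Basis (Fin 2) T ρ.V) {τ : GQ} (hτ : τ ∈ P.inertiaSubgroupIn ℚ) :
    matRep ρ b φ₀ * (matRep ρ b τ - 1) = (q : T) • ((matRep ρ b τ - 1) * matRep ρ b φ₀) ∧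
      (matRep ρ b τ - 1) * (matRep ρ b τ - 1) = 0 ∧ (matRep ρ b τ).trace = 2 ∧
      (matRep ρ b τ).det = 1 := by
  have hch : (matRep ρ b τ).charpoly = (X - 1) ^ 2 := by
    rw [charpoly_matRep]; exact hunip P hP τ hτ
  obtain ⟨htr1, hdet1⟩ := trace_det_of_charpoly_unipotent _ hch
  have hconj := conj_frobenius (matRep ρ b) (matCont_matRep ρ b) hp hq hqp hpT hP (hres b) hφ₀ hτ
  have hconj' : matRep ρ b φ₀ * matRep ρ b τ = matRep ρ b τ ^ q * matRep ρ b φ₀ := by
    rw [← hconj, ← map_mul, ← map_mul]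
    congr 1
    group
  exact ⟨rel_of_conj_unipotent htr1 hdet1 q hconj', sub_one_sq_eq_zero htr1 hdet1, htr1, hdet1⟩

include hp hq hqp hpT hs hqi hq1 h2 hκ hP hφ₀ hres htr hdet hunip in
/-- **the chart at an `ns` prime with `q ≢ 1 mod p`.** -/
theorem nsChart_caseA :
    ∃ t y z : T, t ∈ maximalIdeal T ∧ y ∈ maximalIdeal T ∧ z ∈ maximalIdeal T ∧
      IsLocTrivIdeal 𝒪 ρ q (Ideal.span {t, y, z}) ∧
      t * y = 0 ∧ (t + algebraMap 𝒪 T (((q : 𝒪) ^ 2 - 1) * qi)) * z = 0 ∧ y * z = 0 ∧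
      y ∈ RB.inertiaIdeal ρ q ∧ z ∈ RB.inertiaIdeal ρ q ∧
      t * (t + algebraMap 𝒪 T (((q : 𝒪) ^ 2 - 1) * qi)) ∈
        Ideal.span {a : T | ∃ (P' : ValuationSubring Ω) (_ : P'.LiesOverPrime q) (φ : GQ)
          (_ : P'.IsFrobeniusAt φ q), a = ρ.trace φ ^ 2 - (((q : ℕ) : T) + 1) ^ 2} ∧
      (∀ (ρW : GaloisRepAdic 𝒪),
        (∀ A : ValuationSubring Ω, A.LiesOverPrime q → ∀ φ : GQ, A.IsFrobeniusAt φ q →
          LinearMap.charpoly (ρW.ρ φ) = (X - C s) * (X - C (s * ((q : ℕ) : 𝒪)))) →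
        ∀ π : T →ₐ[𝒪] 𝒪, (∀ σ : GQ, π (ρ.trace σ) = ρW.trace σ) → π t = 0 ∧ π z = 0) ∧
      (∀ (P' : ValuationSubring Ω), P'.LiesOverPrime q → ∀ φ : GQ, P'.IsFrobeniusAt φ q →
        ∃ u : T, IsUnit u ∧
          t - u * (((q : ℕ) : T) + 1 - algebraMap 𝒪 T s * ρ.trace φ) ∈ RB.inertiaIdeal ρ q) := by
  obtain ⟨b, α, β, hα, hβ, hsum, hprod, hΦ⟩ :=
    exists_eigenbasis ρ s hs hq1 htr hdet (φ₀ := φ₀)
  set sT := algebraMap 𝒪 T s with hsT
  set qT : T := ((q : ℕ) : T) with hqT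
  set qiT := algebraMap 𝒪 T qi with hqiT
  have hqTalg : qT = algebraMap 𝒪 T (q : 𝒪) := (map_natCast _ q).symm
  have hqqi : qT * qiT = 1 := by rw [hqTalg, hqiT, ← map_mul, hqi, map_one]
  have hqTu : IsUnit qT := IsUnit.of_mul_eq_one qiT hqqi
  have hsT2 : sT ^ 2 = 1 := by rw [hsT, ← map_pow, hs, map_one]
  have hsTu : IsUnit sT := IsUnit.of_mul_eq_one sT (by rw [← sq]; exact hsT2)
  have h2T : IsUnit (2 : T) := by
    have := h2.map (algebraMap 𝒪 T)
    rwa [map_ofNat] at this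
  have hq1T : IsUnit (1 - qT) := by
    have : 1 - qT = -(algebraMap 𝒪 T ((q : 𝒪) - 1)) := by rw [map_sub, map_one, hqTalg]; ring
    rw [this]
    exact (hq1.map _).neg
  have hαu : IsUnit α := by
    have : α = sT + (α - sT) := by ring
    rw [this]; exact isUnit_add_of_isUnit_of_mem hsTu hα
  obtain ⟨αi, hαi⟩ := hαu.exists_right_inv
  have hβu : IsUnit β := by
    have : IsUnit (α * β) := by rw [hprod]; exact hqTu
    exact (IsUnit.mul_iff.mp this).2
  obtain ⟨τ₀, hτ₀, hgen⟩ := exists_gen_mod_sq ρ b hp hq hqp hpT hP (hres b)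
  obtain ⟨hrel, hN2, htr1, hdet1⟩ := tame_rel ρ hp hq hqp hpT hP hφ₀ hres hunip b hτ₀
  set N := matRep ρ b τ₀ - 1 with hN
  rw [hΦ] at hrel
  obtain ⟨e00, e11, e01, e10⟩ := diag_rel hrel
  have hN00 : N 0 0 = 0 := by
    have hu : IsUnit ((1 - qT) * α) := hq1T.mul hαu
    exact (hu.mul_right_eq_zero).mp e00
  have hN11 : N 1 1 = 0 := by
    have hu : IsUnit ((1 - qT) * β) := hq1T.mul hβu
    exact (hu.mul_right_eq_zero).mp e11
  -- the coordinates
  obtain ⟨t, ht⟩ : ∃ t : T, t = β * αi - qT := ⟨_, rfl⟩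
  set y := N 1 0 with hy
  set z := N 0 1 with hz
  have hαt : α * t = β - α * qT := by rw [ht]; linear_combination β * hαi
  have hβt : β = α * (t + qT) := by linear_combination -hαt
  have hα2 : α ^ 2 * (t + qT) = qT := by linear_combination (-α) * hβt + hprod
  have htm : t ∈ maximalIdeal T := by
    have h1 : α * t ∈ maximalIdeal T := by
      rw [hαt]
      have : β - α * qT = (β - sT * qT) - (α - sT) * qT := by ring
      rw [this]
      exact Ideal.sub_mem _ hβ (Ideal.mul_mem_right _ _ hα)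
    have : t = αi * (α * t) := by linear_combination -t * hαi
    rw [this]
    exact Ideal.mul_mem_left _ _ h1
  have hym : y ∈ maximalIdeal T := hres b τ₀ hτ₀ 1 0
  have hzm : z ∈ maximalIdeal T := hres b τ₀ hτ₀ 0 1
  set κT := algebraMap 𝒪 T (((q : 𝒪) ^ 2 - 1) * qi) with hκT
  have hκT' : κT = (qT ^ 2 - 1) * qiT := by
    rw [hκT, map_mul, map_sub, map_pow, map_one, hqTalg]
  -- (E1)
  have hty : t * y = 0 := by
    have h1 : α * (t * y) = 0 := by
      have : α * (t * y) = (β - qT * α) * N 1 0 := by rw [← mul_assoc, hαt]; ring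
      rw [this, e10]
    exact (hαu.mul_right_eq_zero).mp h1
  have htz : (t + κT) * z = 0 := by
    have h1 : (qT * α) * ((t + κT) * z) = 0 := by
      have : (qT * α) * ((t + κT) * z) = -((α - qT * β) * N 0 1) := by
        rw [hκT']
        linear_combination (qT * z) * hαt + (α * (qT ^ 2 - 1) * z) * hqqi
      rw [this, e01, neg_zero]
    exact ((hqTu.mul hαu).mul_right_eq_zero).mp h1
  have hyz : y * z = 0 := by
    have h1 := congrFun (congrFun hN2 0) 0
    simp only [Matrix.mul_apply, Fin.sum_univ_two, Matrix.zero_apply] at h1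
    rw [hN00] at h1
    linear_combination h1
  -- the entries of `N`
  have hNspan : EMem (Ideal.span {t, y, z}) N := by
    intro i j
    fin_cases i <;> fin_cases j
    · show N 0 0 ∈ _
      rw [hN00]; exact Ideal.zero_mem _
    · show z ∈ _
      exact Ideal.subset_span (by simp)
    · show y ∈ _
      exact Ideal.subset_span (by simp)
    · show N 1 1 ∈ _
      rw [hN11]; exact Ideal.zero_mem _
  refine ⟨t, y, z, htm, hym, hzm, ?_, hty, htz, hyz,
    matRep_sub_one_mem_inertiaIdeal ρ b hP hτ₀ 1 0, matRep_sub_one_mem_inertiaIdeal ρ b hP hτ₀ 0 1,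
    ?_, ?_, ?_⟩
  · -- (E6)
    refine isLocTrivIdeal_of_place ρ hq _ hP (fun J hIJ hJ2 hJl => ⟨b, fun σ hσ i j => ?_⟩)
    have htJ : t ∈ J := hIJ (Ideal.subset_span (by simp))
    have hI : ∀ τ ∈ P.inertiaSubgroupIn ℚ, EMem J (matRep ρ b τ - 1) := by
      intro τ hτ
      obtain ⟨a, ha⟩ := hgen τ hτ
      have e : matRep ρ b τ - 1 = (matRep ρ b τ - matRep ρ b τ₀ ^ a) +
          (matRep ρ b τ₀ ^ a - 1) := by abel
      rw [e]
      exact (ha.mono hJ2).add (((hNspan.mono hIJ)).pow_sub_one a)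
    have hαJ : α - sT ∈ J := by
      have h1 : (α - sT) * (α + sT) ∈ J := by
        have : (α - sT) * (α + sT) = -(qiT * α ^ 2) * t := by
          linear_combination qiT * hα2 + (1 - α ^ 2) * hqqi - hsT2
        rw [this]
        exact Ideal.mul_mem_left _ _ htJ
      have hu : IsUnit (α + sT) := by
        have : α + sT = (2 : T) * sT + (α - sT) := by ring
        rw [this]; exact isUnit_add_of_isUnit_of_mem (h2T.mul hsTu) hα
      obtain ⟨c, hc⟩ := hu.exists_right_inv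
      have : α - sT = (α - sT) * (α + sT) * c := by linear_combination -(α - sT) * hc
      rw [this]
      exact Ideal.mul_mem_right _ _ h1
    have hβJ : β - sT * qT ∈ J := by
      have : β - sT * qT = α * t + (α - sT) * qT := by rw [hαt]; ring
      rw [this]
      exact Ideal.add_mem _ (Ideal.mul_mem_left _ _ htJ) (Ideal.mul_mem_right _ _ hαJ)
    have hC₀ : EMem J (matRep ρ b φ₀ - (!![s, 0; 0, s * (q : 𝒪)] : M2 𝒪).map (algebraMap 𝒪 T)) := by
      rw [hΦ]
      intro i j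
      fin_cases i <;> fin_cases j
      · simpa using hαJ
      · simp
      · simp
      · simp only [Fin.mk_one, Fin.isValue, Matrix.sub_apply, Matrix.of_apply, Matrix.cons_val',
          Matrix.cons_val_one, Matrix.cons_val_fin_one, Matrix.map_apply, map_mul, map_natCast]
        exact hβJ
    exact exists_const_of_mem_decomposition ρ b hq hP J hJ2 hI hφ₀ _ hC₀ hσ i j
  · -- (E3)
    have hmem : ρ.trace φ₀ ^ 2 - (qT + 1) ^ 2 ∈
        Ideal.span {a : T | ∃ (P' : ValuationSubring Ω) (_ : P'.LiesOverPrime q) (φ : GQ)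
          (_ : P'.IsFrobeniusAt φ q), a = ρ.trace φ ^ 2 - (((q : ℕ) : T) + 1) ^ 2} :=
      Ideal.subset_span ⟨P, hP, φ₀, hφ₀, rfl⟩
    have e : t * (t + κT) = ((qT + t) * qiT) * (ρ.trace φ₀ ^ 2 - (qT + 1) ^ 2) := by
      rw [← hsum, hκT', hβt]
      linear_combination (-(qiT * (1 + t + qT) ^ 2)) * hα2 + (-(t ^ 2)) * hqqi
    rw [e]
    exact Ideal.mul_mem_left _ _ hmem
  · -- (E4)
    intro ρW hW π hπ
    have hπs : π sT = s := by rw [hsT, AlgHom.commutes, Algebra.algebraMap_self_apply]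
    have hπq : π qT = (q : 𝒪) := map_natCast π q
    have h1 : π α + π β = s + s * (q : 𝒪) := by
      rw [← map_add, hsum, hπ, trace_of_charpoly_eq ρW φ₀ (hW P hP φ₀ hφ₀)]
    have h2' : π α * π β = (q : 𝒪) := by rw [← map_mul, hprod, hπq]
    have h3 : (π α - s) * (π α - s * (q : 𝒪)) = 0 := by
      linear_combination (π α) * h1 - h2' + (q : 𝒪) * hs
    have h4 : π α - s ∈ maximalIdeal 𝒪 := by
      have := algHom_mem_maximalIdeal π hα
      rwa [map_sub, hπs] at this
    have h5 : π α = s := by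
      rcases mul_eq_zero.mp h3 with h | h
      · exact sub_eq_zero.mp h
      · exfalso
        have h6 : s * ((q : 𝒪) - 1) ∈ maximalIdeal 𝒪 := by
          have : s * ((q : 𝒪) - 1) = (π α - s) - (π α - s * (q : 𝒪)) := by ring
          rw [this, h]
          simpa using h4
        have hsu : IsUnit s := IsUnit.of_mul_eq_one s (by rw [← sq]; exact hs)
        exact (mem_maximalIdeal _).mp h6 (hsu.mul hq1)
    have h6 : π β = s * (q : 𝒪) := by linear_combination h1 - h5
    have h7 : π αi = s := by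
      have : π α * π αi = 1 := by rw [← map_mul, hαi, map_one]
      rw [h5] at this
      linear_combination s * this - π αi * hs
    have hπt : π t = 0 := by
      rw [ht, map_sub, map_mul, h6, h7, hπq]
      linear_combination (q : 𝒪) * hs
    refine ⟨hπt, ?_⟩
    have h8 := congrArg π htz
    rw [map_mul, map_add, hπt, zero_add, map_zero, hκT, AlgHom.commutes,
      Algebra.algebraMap_self_apply] at h8
    exact (mul_eq_zero.mp h8).resolve_left hκ
  · -- (E5)
    intro P' hP' φ hφ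
    obtain ⟨w, hw⟩ : ∃ w : T, w = sT * α := ⟨_, rfl⟩
    have hwα : α = sT * w := by rw [hw]; linear_combination -α * hsT2
    have hw2 : w ^ 2 * (t + qT) = qT := by
      rw [hw]; linear_combination hα2 + (α ^ 2 * (t + qT)) * hsT2
    have hwm : w - 1 ∈ maximalIdeal T := by
      have : w - 1 = sT * (α - sT) + (sT ^ 2 - 1) := by rw [hw]; ring
      rw [this, hsT2, sub_self, add_zero]
      exact Ideal.mul_mem_left _ _ hα
    have hwu : IsUnit w := by
      have : w = 1 + (w - 1) := by ring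
      rw [this]; exact isUnit_add_of_isUnit_of_mem isUnit_one hwm
    have hw1u : IsUnit (1 + w) := by
      have : 1 + w = 2 + (w - 1) := by ring
      rw [this]; exact isUnit_add_of_isUnit_of_mem h2T hwm
    have hwqu : IsUnit (w - qT) := by
      have : w - qT = (1 - qT) + (w - 1) := by ring
      rw [this]; exact isUnit_add_of_isUnit_of_mem hq1T hwm
    have hE : (qT + 1 - sT * ρ.trace φ₀) * (qT * (1 + w)) = t * (w * (w - qT)) := by
      rw [← hsum, hβt, hwα]
      linear_combination (-(qT + 1)) * hw2 + (-(w * (1 + t + qT) * qT * (1 + w))) * hsT2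
    obtain ⟨c, hc⟩ := (hwu.mul hwqu).exists_right_inv
    refine ⟨qT * (1 + w) * c, (hqTu.mul hw1u).mul (IsUnit.of_mul_eq_one (w * (w - qT)) (by rw [mul_comm]; exact hc)), ?_⟩
    have ht' : t = (qT * (1 + w) * c) * (qT + 1 - sT * ρ.trace φ₀) := by
      linear_combination (-t) * hc - c * hE
    have e : t - qT * (1 + w) * c * (qT + 1 - sT * ρ.trace φ) =
        (qT * (1 + w) * c * sT) * (ρ.trace φ - ρ.trace φ₀) := by
      conv_lhs => rw [ht']
      ring
    rw [e]
    exact Ideal.mul_mem_left _ _ (trace_sub_trace_mem_inertiaIdeal ρ hq hP' hP hφ hφ₀)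

end CaseA

end Fermat.Agent.ML
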