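/-
ML (S59) — helper7 — [LOC-L] `ns` charts, file 5: **the chart in the case `q ≡ 1 mod p`**
(type (iii-ns)): cyclic basis `(e, φ₀ e)` of a Frobenius lift with non-scalar reduction.

`ρ(φ₀) = [[0, -q],[1, tr]]`, `t = tr - s (1 + q)`, `y` = the `(0,1)` entry of `ρ(τ₀) - 1`, `z = 0`,
`κ = 2 s (1 + q)`.
-/
import Mathlib
import Fermat.Agent.ML.NSCH_helper7_CaseA

set_option autoImplicit false
set_option linter.unusedSectionVars false
set_option linter.unusedVariables false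

open Polynomial IsLocalRing
open scoped Pointwise

namespace Fermat.Agent.ML

open Fermat.Agent.RB Fermat.Agent.RB.GLUE Fermat.Agent.RB.REPT Fermat.Agent.S53

local notation "Ω" => AlgebraicClosure ℚ
local notation "GQ" => (AlgebraicClosure ℚ ≃ₐ[ℚ] AlgebraicClosure ℚ)

section Cyclic

variable {R : Type*} [CommRing R] [IsLocalRing R]

/-- a residually non-scalar `2 × 2` matrix has a cyclic basis -/
theorem exists_cyclic_of_nonscalar (M : Matrix (Fin 2) (Fin 2) R)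
    (h : ¬ (M 0 1 ∈ maximalIdeal R ∧ M 1 0 ∈ maximalIdeal R ∧ M 0 0 - M 1 1 ∈ maximalIdeal R)) :
    ∃ G : Matrix (Fin 2) (Fin 2) R, IsUnit G.det ∧ M * G = G * !![0, -M.det; 1, M.trace] := by
  rw [Matrix.trace_fin_two, Matrix.det_fin_two]
  have hM : M = !![M 0 0, M 0 1; M 1 0, M 1 1] := (Matrix.eta_fin_two M)
  rcases isUnit_or_mem_maximalIdeal (M 1 0) with h10 | h10
  · refine ⟨!![1, M 0 0; 0, M 1 0], ?_, ?_⟩
    · rw [Matrix.det_fin_two_of]
      simpa using h10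
    · conv_lhs => rw [hM]
      ext i j
      fin_cases i <;> fin_cases j <;> simp [Matrix.mul_apply, Fin.sum_univ_two] <;> ring
  rcases isUnit_or_mem_maximalIdeal (M 0 1) with h01 | h01
  · refine ⟨!![0, M 0 1; 1, M 1 1], ?_, ?_⟩
    · rw [Matrix.det_fin_two_of]
      simpa using h01.neg
    · conv_lhs => rw [hM]
      ext i j
      fin_cases i <;> fin_cases j <;> simp [Matrix.mul_apply, Fin.sum_univ_two] <;> ring
  have hd : IsUnit (M 0 0 - M 1 1) := by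
    by_contra hd
    exact h ⟨h01, h10, (mem_maximalIdeal _).mpr hd⟩
  refine ⟨!![1, M 0 0 + M 0 1; 1, M 1 0 + M 1 1], ?_, ?_⟩
  · rw [Matrix.det_fin_two_of]
    have : 1 * (M 1 0 + M 1 1) - (M 0 0 + M 0 1) * 1 = -(M 0 0 - M 1 1) + (M 1 0 - M 0 1) := by ring
    rw [this]
    exact isUnit_add_of_isUnit_of_mem hd.neg (Ideal.sub_mem _ h10 h01)
  · conv_lhs => rw [hM]
    ext i j
    fin_cases i <;> fin_cases j <;> simp [Matrix.mul_apply, Fin.sum_univ_two] <;> ring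

end Cyclic

section CaseB

variable {𝒪 : Type} [CommRing 𝒪] [IsDomain 𝒪] [IsLocalRing 𝒪]
  {T : Type} [CommRing T] [IsLocalRing T] [IsNoetherianRing T]
  [HenselianRing T (maximalIdeal T)] [Algebra 𝒪 T] [IsLocalHom (algebraMap 𝒪 T)]
  (ρ : GaloisRepAdic T) {p q : ℕ} (hp : p.Prime) (hq : q.Prime) (hqp : q ≠ p)
  (hpT : (p : T) ∈ maximalIdeal T)
  (s qi : 𝒪) (hs : s ^ 2 = 1) (hqi : (q : 𝒪) * qi = 1)
  (hq1 : (q : 𝒪) - 1 ∈ maximalIdeal 𝒪) (hq1ne : (q : 𝒪) - 1 ≠ 0)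
  (h2 : IsUnit (2 : 𝒪))
  (htf : ∀ a : 𝒪, a ≠ 0 → ∀ t : T, a • t = 0 → t = 0)
  {P : ValuationSubring Ω} (hP : P.LiesOverPrime q) {φ₀ : GQ} (hφ₀ : P.IsFrobeniusAt φ₀ q)
  (hres : ∀ (b : Module.Basis (Fin 2) T ρ.V), ∀ σ ∈ P.inertiaSubgroupIn ℚ,
    EMem (maximalIdeal T) (matRep ρ b σ - 1))
  (hns : ∀ b : Module.Basis (Fin 2) T ρ.V, ¬ (matRep ρ b φ₀ 0 1 ∈ maximalIdeal T ∧
    matRep ρ b φ₀ 1 0 ∈ maximalIdeal T ∧ matRep ρ b φ₀ 0 0 - matRep ρ b φ₀ 1 1 ∈ maximalIdeal T))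
  (htr : ρ.trace φ₀ - algebraMap 𝒪 T (s + s * q) ∈ maximalIdeal T)
  (hdet : LinearMap.det (ρ.ρ φ₀) = (q : T))
  (hunip : ρ.IsUnipotentOnInertiaAt q)

include hns hdet in
/-- the cyclic basis of the Frobenius lift -/
theorem exists_cyclic_basis :
    ∃ b : Module.Basis (Fin 2) T ρ.V, matRep ρ b φ₀ = !![0, -(q : T); 1, ρ.trace φ₀] := by
  set b₀ := someBasis ρ
  obtain ⟨G, hG, hMG⟩ := exists_cyclic_of_nonscalar (matRep ρ b₀ φ₀) (hns b₀)
  rw [trace_matRep, det_matRep, hdet] at hMG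
  exact exists_basis_toMatrix_eq b₀ (ρ.ρ φ₀) G _ hG hMG

include hp hq hqp hpT hs hqi hq1 hq1ne h2 htf hP hφ₀ hres hns htr hdet hunip in
/-- **the chart at an `ns` prime with `q ≡ 1 mod p`.** -/
theorem nsChart_caseB :
    ∃ t y z : T, t ∈ maximalIdeal T ∧ y ∈ maximalIdeal T ∧ z ∈ maximalIdeal T ∧
      IsLocTrivIdeal 𝒪 ρ q (Ideal.span {t, y, z}) ∧
      t * y = 0 ∧ (t + algebraMap 𝒪 T (2 * s * (1 + (q : 𝒪)))) * z = 0 ∧ y * z = 0 ∧
      y ∈ RB.inertiaIdeal ρ q ∧ z ∈ RB.inertiaIdeal ρ q ∧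
      t * (t + algebraMap 𝒪 T (2 * s * (1 + (q : 𝒪)))) ∈
        Ideal.span {a : T | ∃ (P' : ValuationSubring Ω) (_ : P'.LiesOverPrime q) (φ : GQ)
          (_ : P'.IsFrobeniusAt φ q), a = ρ.trace φ ^ 2 - (((q : ℕ) : T) + 1) ^ 2} ∧
      (∀ (ρW : GaloisRepAdic 𝒪),
        (∀ A : ValuationSubring Ω, A.LiesOverPrime q → ∀ φ : GQ, A.IsFrobeniusAt φ q →
          LinearMap.charpoly (ρW.ρ φ) = (X - C s) * (X - C (s * ((q : ℕ) : 𝒪)))) →
        ∀ π : T →ₐ[𝒪] 𝒪, (∀ σ : GQ, π (ρ.trace σ) = ρW.trace σ) → π t = 0 ∧ π z = 0) ∧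
      (∀ (P' : ValuationSubring Ω), P'.LiesOverPrime q → ∀ φ : GQ, P'.IsFrobeniusAt φ q →
        ∃ u : T, IsUnit u ∧
          t - u * (((q : ℕ) : T) + 1 - algebraMap 𝒪 T s * ρ.trace φ) ∈ RB.inertiaIdeal ρ q) := by
  obtain ⟨b, hΦ⟩ := exists_cyclic_basis ρ hns hdet (φ₀ := φ₀)
  set sT := algebraMap 𝒪 T s with hsT
  set qT : T := ((q : ℕ) : T) with hqT
  set qiT := algebraMap 𝒪 T qi with hqiT
  obtain ⟨tr, htrdef⟩ : ∃ tr : T, tr = ρ.trace φ₀ := ⟨_, rfl⟩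
  have hqTalg : qT = algebraMap 𝒪 T (q : 𝒪) := (map_natCast _ q).symm
  have hqqi : qT * qiT = 1 := by rw [hqTalg, hqiT, ← map_mul, hqi, map_one]
  have hqTu : IsUnit qT := IsUnit.of_mul_eq_one qiT hqqi
  have hsT2 : sT ^ 2 = 1 := by rw [hsT, ← map_pow, hs, map_one]
  have hsTu : IsUnit sT := IsUnit.of_mul_eq_one sT (by rw [← sq]; exact hsT2)
  have h2T : IsUnit (2 : T) := by
    have := h2.map (algebraMap 𝒪 T)
    rwa [map_ofNat] at this
  have hq1T : qT - 1 ∈ maximalIdeal T := by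
    have : qT - 1 = algebraMap 𝒪 T ((q : 𝒪) - 1) := by rw [map_sub, map_one, hqTalg]
    rw [this]
    exact map_nonunit (algebraMap 𝒪 T) _ hq1
  have h1qu : IsUnit (1 + qT) := by
    have : 1 + qT = 2 + (qT - 1) := by ring
    rw [this]; exact isUnit_add_of_isUnit_of_mem h2T hq1T
  obtain ⟨ci, hci⟩ := h1qu.exists_right_inv
  obtain ⟨τ₀, hτ₀, hgen⟩ := exists_gen_mod_sq ρ b hp hq hqp hpT hP (hres b)
  obtain ⟨hrel, hN2, htr1, hdet1⟩ := tame_rel ρ hp hq hqp hpT hP hφ₀ hres hunip b hτ₀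
  set N := matRep ρ b τ₀ - 1 with hN
  rw [hΦ, ← htrdef] at hrel
  obtain ⟨c1, c2, c3, c4⟩ := companion_rel hrel
  have htrN : N 0 0 + N 1 1 = 0 := by
    have : (matRep ρ b τ₀).trace = N.trace + 2 := by
      rw [hN, Matrix.trace_sub, Matrix.trace_one]; simp
    rw [this, Matrix.trace_fin_two] at htr1
    linear_combination htr1
  -- the coordinates
  obtain ⟨t, ht⟩ : ∃ t : T, t = tr - sT * (1 + qT) := ⟨_, rfl⟩
  obtain ⟨y, hy⟩ : ∃ y : T, y = N 0 1 := ⟨_, rfl⟩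
  obtain ⟨a, ha⟩ : ∃ a : T, a = N 0 0 := ⟨_, rfl⟩
  rw [← hy] at c1 c2 c4
  rw [← ha] at c2 c3
  have hN10 : N 1 0 = -y := by
    have h1 : qT * (N 1 0 + y) = 0 := by linear_combination -c1
    have := (hqTu.mul_right_eq_zero).mp h1
    linear_combination this
  have hN11 : N 1 1 = -a := by rw [ha]; linear_combination htrN
  rw [hN11] at c2
  rw [hN10, hN11] at c3 c4
  have hay : (1 + qT) * a = tr * y := by
    have h1 : qT * ((1 + qT) * a - tr * y) = 0 := by linear_combination c2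
    have := (hqTu.mul_right_eq_zero).mp h1
    linear_combination this
  have ha' : a = tr * y * ci := by linear_combination ci * hay - a * hci
  have hκT : algebraMap 𝒪 T (2 * s * (1 + (q : 𝒪))) = 2 * sT * (1 + qT) := by
    rw [map_mul, map_mul, map_add, map_one, map_ofNat, hqTalg]
  have htm : t ∈ maximalIdeal T := by
    have : t = tr - algebraMap 𝒪 T (s + s * q) := by
      rw [ht, map_add, map_mul, hqTalg]; ring
    rw [this, htrdef]; exact htr
  have htκu : IsUnit (t + 2 * sT * (1 + qT)) := by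
    have : t + 2 * sT * (1 + qT) = 2 * sT * (1 + qT) + t := by ring
    rw [this]
    exact isUnit_add_of_isUnit_of_mem ((h2T.mul hsTu).mul h1qu) htm
  have hym : y ∈ maximalIdeal T := by rw [hy]; exact hres b τ₀ hτ₀ 0 1
  -- (E1)
  have hty : t * y = 0 := by
    have h1 : (1 - qT) * (((1 + qT) ^ 2 - tr ^ 2) * y) = 0 := by
      have e : (1 - qT) * (((1 + qT) ^ 2 - tr ^ 2) * y) =
          (1 + qT) * ((1 - qT) * ((1 + qT) * y - tr * a)) := by
        linear_combination ((1 - qT) * tr) * hay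
      rw [e]
      have : (1 - qT) * ((1 + qT) * y - tr * a) = 0 := by linear_combination c4
      rw [this, mul_zero]
    have h2' : (1 + qT) ^ 2 - tr ^ 2 = -(t * (t + 2 * sT * (1 + qT))) := by
      rw [ht]; linear_combination (-((1 + qT) ^ 2)) * hsT2
    rw [h2'] at h1
    have h3 : (1 - qT) * (t * y) = 0 := by
      have h4 : (t + 2 * sT * (1 + qT)) * ((1 - qT) * (t * y)) = 0 := by linear_combination -h1
      exact (htκu.mul_right_eq_zero).mp h4
    have h5 : (1 - (q : 𝒪)) • (t * y) = 0 := by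
      rw [Algebra.smul_def, map_sub, map_one, ← hqTalg]; exact h3
    exact htf (1 - (q : 𝒪)) (fun h => hq1ne (by linear_combination -h)) _ h5
  have hNspan : EMem (Ideal.span {t, y, (0 : T)}) N := by
    have hyS : y ∈ Ideal.span {t, y, (0 : T)} := Ideal.subset_span (by simp)
    have haS : a ∈ Ideal.span {t, y, (0 : T)} := by
      rw [ha']
      exact Ideal.mul_mem_right _ _ (Ideal.mul_mem_left _ _ hyS)
    intro i j
    fin_cases i <;> fin_cases j
    · show N 0 0 ∈ _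
      rw [← ha]; exact haS
    · show N 0 1 ∈ _
      rw [← hy]; exact hyS
    · show N 1 0 ∈ _
      rw [hN10]; exact neg_mem hyS
    · show N 1 1 ∈ _
      rw [hN11]; exact neg_mem haS
  have htrsum : t + sT * (1 + qT) = ρ.trace φ₀ := by rw [ht, htrdef]; ring
  refine ⟨t, y, 0, htm, hym, Ideal.zero_mem _, ?_, hty, mul_zero _, mul_zero _,
    by rw [hy]; exact matRep_sub_one_mem_inertiaIdeal ρ b hP hτ₀ 0 1, Ideal.zero_mem _,
    ?_, ?_, ?_⟩
  · -- (E6)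
    refine isLocTrivIdeal_of_place ρ hq _ hP (fun J hIJ hJ2 hJl => ⟨b, fun σ hσ i j => ?_⟩)
    have htJ : t ∈ J := hIJ (Ideal.subset_span (by simp))
    have hI : ∀ τ ∈ P.inertiaSubgroupIn ℚ, EMem J (matRep ρ b τ - 1) := by
      intro τ hτ
      obtain ⟨k, hk⟩ := hgen τ hτ
      have e : matRep ρ b τ - 1 = (matRep ρ b τ - matRep ρ b τ₀ ^ k) +
          (matRep ρ b τ₀ ^ k - 1) := by abel
      rw [e]
      exact (hk.mono hJ2).add (((hNspan.mono hIJ)).pow_sub_one k)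
    have hC₀ : EMem J (matRep ρ b φ₀ -
        (!![0, -(q : 𝒪); 1, s * (1 + (q : 𝒪))] : M2 𝒪).map (algebraMap 𝒪 T)) := by
      rw [hΦ]
      intro i j
      fin_cases i <;> fin_cases j
      · simp
      · simp [hqT]
      · simp
      · simp only [Fin.mk_one, Fin.isValue, Matrix.sub_apply, Matrix.of_apply, Matrix.cons_val',
          Matrix.cons_val_one, Matrix.cons_val_fin_one, Matrix.map_apply, map_mul, map_add,
          map_one, map_natCast]
        have : ρ.trace φ₀ - sT * (1 + qT) = t := by rw [← htrsum]; ring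
        rw [this]; exact htJ
    exact exists_const_of_mem_decomposition ρ b hq hP J hJ2 hI hφ₀ _ hC₀ hσ i j
  · -- (E3)
    have hmem : ρ.trace φ₀ ^ 2 - (qT + 1) ^ 2 ∈
        Ideal.span {a : T | ∃ (P' : ValuationSubring Ω) (_ : P'.LiesOverPrime q) (φ : GQ)
          (_ : P'.IsFrobeniusAt φ q), a = ρ.trace φ ^ 2 - (((q : ℕ) : T) + 1) ^ 2} :=
      Ideal.subset_span ⟨P, hP, φ₀, hφ₀, rfl⟩
    have e : t * (t + algebraMap 𝒪 T (2 * s * (1 + (q : 𝒪)))) =
        ρ.trace φ₀ ^ 2 - (qT + 1) ^ 2 := by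
      rw [hκT, ← htrsum]; linear_combination (-((1 + qT) ^ 2)) * hsT2
    rw [e]
    exact hmem
  · -- (E4)
    intro ρW hW π hπ
    refine ⟨?_, map_zero π⟩
    have hπs : π sT = s := by rw [hsT, AlgHom.commutes, Algebra.algebraMap_self_apply]
    have hπq : π qT = (q : 𝒪) := map_natCast π q
    have h1 : π tr = s + s * (q : 𝒪) := by
      rw [htrdef, hπ, trace_of_charpoly_eq ρW φ₀ (hW P hP φ₀ hφ₀)]
    rw [ht, map_sub, map_mul, map_add, map_one, h1, hπs, hπq]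
    ring
  · -- (E5)
    intro P' hP' φ hφ
    refine ⟨-sT, hsTu.neg, ?_⟩
    have e : t - -sT * (qT + 1 - sT * ρ.trace φ) = ρ.trace φ₀ - ρ.trace φ := by
      rw [← htrsum]; linear_combination (-(ρ.trace φ)) * hsT2
    rw [e]
    exact trace_sub_trace_mem_inertiaIdeal ρ hq hP hP' hφ₀ hφ

end CaseB

end Fermat.Agent.ML
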