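/-
ML (S59) — helper7 — [LOC-L] `ns` charts, file 6: **`nsChartStatement7 : NsChartStatement7`**.

The residual hypotheses are turned into the matrix hypotheses of `nsChart_caseA` (`q ≢ 1 mod p`,
`κ = (q² - 1)/q`) and `nsChart_caseB` (`q ≡ 1 mod p`, `κ = 2 s (1 + q)`), at the place
`padicPlace q` and the Frobenius element `frobElt q`.
-/
import Mathlib
import Fermat.Agent.ML.NSCH_helper7_CaseB
import Fermat.Agent.RB.GLUE_helper9_Data
import Fermat.Agent.RB.GLUE_helper9_Roots

set_option autoImplicit false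
set_option linter.unusedSectionVars false
set_option linter.unusedVariables false

open Polynomial IsLocalRing
open scoped Pointwise

namespace Fermat.Agent.ML

open Fermat.Agent.RB Fermat.Agent.RB.GLUE Fermat.Agent.RB.REPT Fermat.Agent.S53
open Fermat.Agent.CFT.Arith Fermat.Agent.CFT.LocForm

local notation "Ω" => AlgebraicClosure ℚ
local notation "GQ" => (AlgebraicClosure ℚ ≃ₐ[ℚ] AlgebraicClosure ℚ)

section Res

variable {k : Type} [Field k]

/-- trace of a residual Frobenius with split characteristic polynomial -/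
theorem res_trace_of_charpoly_eq (ρbar : ResidualGaloisRep k) (σ : GQ) {a b : k}
    (h : LinearMap.charpoly (ρbar.ρ σ) = (X - C a) * (X - C b)) :
    LinearMap.trace k ρbar.V (ρbar.ρ σ) = a + b := by
  set β := resSomeBasis ρbar
  have h1 : (LinearMap.toMatrix β β (ρbar.ρ σ)).charpoly = X ^ 2 - C (a + b) * X + C (a * b) := by
    rw [LinearMap.charpoly_toMatrix, h, C_add, C_mul]; ring
  rw [LinearMap.trace_eq_matrix_trace k β]
  exact (trace_det_of_charpoly _ h1).1

variable {A : Type} [CommRing A] [IsLocalRing A]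
  (ρ : GaloisRepAdic A) (b : Module.Basis (Fin 2) A ρ.V)
  (ψ : k →+* ResidueField A) (ρbar : ResidualGaloisRep k)
  (h : ρ.residual.IsEquiv (ρbar.baseChangeAlong ψ))

include h in
/-- if the matrix of `ρ(σ)` is residually scalar, `ρ̄(σ)` is scalar -/
theorem res_scalar_of_residually_scalar {σ : GQ}
    (h01 : matRep ρ b σ 0 1 ∈ maximalIdeal A) (h10 : matRep ρ b σ 1 0 ∈ maximalIdeal A)
    (hd : matRep ρ b σ 0 0 - matRep ρ b σ 1 1 ∈ maximalIdeal A) :
    ∃ c : k, ρbar.ρ σ = c • (1 : Module.End k ρbar.V) := by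
  set β := resSomeBasis ρbar
  obtain ⟨U, hU⟩ := exists_conj_residue ρ b ψ ρbar h β
  set M := LinearMap.toMatrix β β (ρbar.ρ σ) with hM
  have hsc : (LinearMap.toMatrix b b (ρ.ρ σ)).map (residue A) =
      residue A (matRep ρ b σ 0 0) • (1 : M2 (ResidueField A)) := by
    ext i j
    fin_cases i <;> fin_cases j
    · simp [matRep_apply]
    · have := (residue_eq_zero_iff _).2 h01
      simpa [matRep_apply] using this
    · have := (residue_eq_zero_iff _).2 h10
      simpa [matRep_apply] using this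
    · have := (residue_eq_zero_iff _).2 hd
      rw [map_sub, sub_eq_zero] at this
      simpa [matRep_apply] using this.symm
  have h1 : M.map ψ = residue A (matRep ρ b σ 0 0) • (1 : M2 (ResidueField A)) := by
    have h2 := hU σ
    rw [hsc, Matrix.mul_smul, mul_one] at h2
    have h3 : M.map ψ = M.map ψ * (U : M2 (ResidueField A)) *
        ((U⁻¹ : (M2 (ResidueField A))ˣ) : M2 (ResidueField A)) := by
      rw [mul_assoc, Units.mul_inv, mul_one]
    rw [h3, ← h2, Matrix.smul_mul, Units.mul_inv]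
  have e := fun i j => congrFun (congrFun h1 i) j
  have e01 : M 0 1 = 0 := by
    have := e 0 1
    simp only [Matrix.map_apply, Matrix.smul_apply, Matrix.one_apply] at this
    simpa using this
  have e10 : M 1 0 = 0 := by
    have := e 1 0
    simp only [Matrix.map_apply, Matrix.smul_apply, Matrix.one_apply] at this
    simpa using this
  have e11 : M 1 1 = M 0 0 := by
    have h00 := e 0 0
    have h11 := e 1 1
    simp only [Matrix.map_apply, Matrix.smul_apply, Matrix.one_apply] at h00 h11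
    apply ψ.injective
    simp at h00 h11
    rw [h00, h11]
  refine ⟨M 0 0, ?_⟩
  apply (LinearMap.toMatrix β β).injective
  rw [map_smul, LinearMap.toMatrix_one, ← hM]
  ext i j
  fin_cases i <;> fin_cases j <;> simp [e01, e10, e11]

end Res

/-- **the chart at an `ns` prime.** -/
theorem nsChartStatement7 : NsChartStatement7 := by
  intro 𝒪 _ _ _ _ _ _ p hpF hp2 hp𝒪 ρbar q hq s hs hns hcharbar
  obtain ⟨hqp, hunr, hnsc⟩ := hns
  have hp : p.Prime := hpF.out
  have : Fact q.Prime := ⟨hq⟩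
  have hqu : IsUnit ((q : ℕ) : 𝒪) := isUnit_natCast_of_ne hp𝒪 hq hqp
  obtain ⟨qi, hqi⟩ := hqu.exists_right_inv
  have h2 : IsUnit (2 : 𝒪) := isUnit_two_of_odd hp hp2 hp𝒪
  have hsu : IsUnit s := IsUnit.of_mul_eq_one s (by rw [← sq]; exact hs)
  have hqiu : IsUnit qi := IsUnit.of_mul_eq_one (q : 𝒪) (by rw [mul_comm]; exact hqi)
  have hq0 : 1 < q := hq.one_lt
  -- the common data over `T`
  have key : ∀ (T : Type) [CommRing T] [IsLocalRing T] [IsNoetherianRing T]
      [IsAdicComplete (maximalIdeal T) T] [Algebra 𝒪 T] [IsLocalHom (algebraMap 𝒪 T)]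
      (ρ : GaloisRepAdic T)
      (_ : ρ.residual.IsEquiv
        (ρbar.baseChangeAlong (IsLocalRing.ResidueField.map (algebraMap 𝒪 T))))
      (_ : ρ.DetIsCyclotomic p),
      (p : T) ∈ maximalIdeal T ∧
      (∀ (b : Module.Basis (Fin 2) T ρ.V), ∀ σ ∈ (padicPlace q).inertiaSubgroupIn ℚ,
        EMem (maximalIdeal T) (matRep ρ b σ - 1)) ∧
      (∀ b : Module.Basis (Fin 2) T ρ.V, ¬ (matRep ρ b (frobElt q) 0 1 ∈ maximalIdeal T ∧
        matRep ρ b (frobElt q) 1 0 ∈ maximalIdeal T ∧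
        matRep ρ b (frobElt q) 0 0 - matRep ρ b (frobElt q) 1 1 ∈ maximalIdeal T)) ∧
      ρ.trace (frobElt q) - algebraMap 𝒪 T (s + s * q) ∈ maximalIdeal T ∧
      LinearMap.det (ρ.ρ (frobElt q)) = (q : T) := by
    intro T _ _ _ _ _ _ ρ hres hdet
    have hP := Fermat.Agent.TW.Kill.padicPlace_liesOverPrime q
    have hφ₀ := frobElt_spec q
    refine ⟨?_, ?_, ?_, ?_, ?_⟩
    · rw [← map_natCast (algebraMap 𝒪 T)]
      exact map_nonunit (algebraMap 𝒪 T) _ hp𝒪
    · intro b σ hσ i j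
      have := sub_one_mem_of_eq_one ρ b _ ρbar hres (hunr _ hP σ hσ) i j
      rwa [← matRep_apply] at this
    · intro b hb
      exact hnsc _ hP _ hφ₀ (res_scalar_of_residually_scalar ρ b _ ρbar hres hb.1 hb.2.1 hb.2.2)
    · rw [← residue_eq_zero_iff, map_sub, residue_trace ρ _ ρbar hres,
        res_trace_of_charpoly_eq ρbar _ (hcharbar _ hP _ hφ₀), sub_eq_zero]
      rw [map_add, map_mul, map_natCast, map_add, map_mul, map_natCast]
      rfl
    · exact det_frobenius_eq ρ hp hdet hq hqp hP hφ₀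
  by_cases hq1 : IsUnit ((q : 𝒪) - 1)
  · -- `q ≢ 1`
    have hκ : ((q : 𝒪) ^ 2 - 1) * qi ≠ 0 := by
      refine mul_ne_zero ?_ hqiu.ne_zero
      have h1 : ((q : 𝒪) ^ 2 - 1) = ((q ^ 2 - 1 : ℕ) : 𝒪) := by
        rw [Nat.cast_sub (Nat.one_le_pow _ _ (by omega))]; push_cast; ring
      rw [h1, Nat.cast_ne_zero]
      have : 1 < q ^ 2 := Nat.one_lt_pow (by norm_num) hq0
      omega
    refine ⟨((q : 𝒪) ^ 2 - 1) * qi, hκ, ?_⟩
    intro T _ _ _ _ _ _ _ hsurj htf ρ hres hdet hunip
    obtain ⟨hpT, hresI, -, htr, hdetφ⟩ := key T ρ hres hdet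
    exact nsChart_caseA ρ hp hq hqp hpT s qi hs hqi hq1 h2 hκ
      (Fermat.Agent.TW.Kill.padicPlace_liesOverPrime q) (frobElt_spec q) hresI htr hdetφ hunip
  · -- `q ≡ 1`
    have hq1m : (q : 𝒪) - 1 ∈ maximalIdeal 𝒪 := (mem_maximalIdeal _).mpr hq1
    have hq1ne : (q : 𝒪) - 1 ≠ 0 := by
      have h1 : ((q : 𝒪) - 1) = ((q - 1 : ℕ) : 𝒪) := by
        rw [Nat.cast_sub hq0.le]; push_cast; ring
      rw [h1, Nat.cast_ne_zero]
      omega
    have h1qu : IsUnit (1 + (q : 𝒪)) := by
      have : 1 + (q : 𝒪) = 2 + ((q : 𝒪) - 1) := by ring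
      rw [this]; exact isUnit_add_of_isUnit_of_mem h2 hq1m
    refine ⟨2 * s * (1 + (q : 𝒪)), ((h2.mul hsu).mul h1qu).ne_zero, ?_⟩
    intro T _ _ _ _ _ _ _ hsurj htf ρ hres hdet hunip
    obtain ⟨hpT, hresI, hnsT, htr, hdetφ⟩ := key T ρ hres hdet
    exact nsChart_caseB ρ hp hq hqp hpT s qi hs hqi hq1m hq1ne h2 htf
      (Fermat.Agent.TW.Kill.padicPlace_liesOverPrime q) (frobElt_spec q) hresI hnsT htr hdetφ hunip

end Fermat.Agent.ML
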