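/-
PROJECT ML (S59) — [LOC-L], lead, file 8: **`ML.chainChartStatement : ChainChartStatement`**
(hypothesis-free): the assembly `LocL.chainChartStatement_of` applied to the three proved chart
statements (ns: helper7 `NSCH_helper7_Main`, sc: helper4 `LOCSC_helper4_ChartSc`,
p: lead `KP_lead_PChartE`).
-/
import Mathlib
import Fermat.Agent.ML.LOCL_lead_Main
import Fermat.Agent.ML.NSCH_helper7_Main
import Fermat.Agent.ML.LOCSC_helper4_ChartSc
import Fermat.Agent.ML.KP_lead_PChartE

set_option autoImplicit false

namespace Fermat.Agent.ML

/-- **[LOC-L]** -/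
theorem chainChartStatement : ChainChartStatement :=
  LocL.chainChartStatement_of nsChartStatement7 LocSc.scChartStatement KP.pChartStatement

end Fermat.Agent.ML
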