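/-
PROJECT ML (S59) — [PR-2] (helper9), file 1: **elementary number theory of a chain of levels with
Taylor–Wiles primes**: `Nl (j+1) = Nl j * cq j`, the top level squarefree, `Q k` primes outside
`badSet p (Nl m)`, `Q k ≡ 1 mod p`; `Nt i = Nl i * ∏ Q`, `Nbig i = Nl i * (∏ Q)²`,
`Sb i = {p} ∪ primes (Nl i) ∪ Q` (as a `Finset`), `Sres = Sb m`.
-/
import Mathlib
import Fermat.Agent.ML.IFACE_helper2_TWModL

set_option autoImplicit false
set_option linter.unusedSectionVars false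
set_option linter.unusedVariables false

namespace Fermat.Agent.ML.PROD

/-- the standing hypotheses on `(p, Nl, cq, Q)`. -/
structure ChainNum (p : ℕ) {m : ℕ} (Nl : Fin (m + 1) → ℕ) (cq : Fin m → ℕ) {r : ℕ}
    (Q : Fin r → ℕ) : Prop where
  pprime : p.Prime
  p2 : p ≠ 2
  hNl : ∀ j : Fin m, Nl j.succ = Nl j.castSucc * cq j
  sqf : Squarefree (Nl (Fin.last m))
  cqprime : ∀ j, (cq j).Prime
  Qinj : Function.Injective Q
  Qprime : ∀ k, (Q k).Prime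
  Qnot : ∀ k, Q k ∉ badSet p (Nl (Fin.last m))
  Q1 : ∀ k, p ∣ Q k - 1

/-- the bad set of the level `i` with the Taylor–Wiles primes, as a `Finset`. -/
def Sb (p : ℕ) {m : ℕ} (Nl : Fin (m + 1) → ℕ) {r : ℕ} (Q : Fin r → ℕ) (i : Fin (m + 1)) :
    Finset ℕ :=
  insert p (Nl i).primeFactors ∪ Finset.univ.image Q

theorem mem_Sb {p : ℕ} (hp : p.Prime) {m : ℕ} {Nl : Fin (m + 1) → ℕ} {r : ℕ} {Q : Fin r → ℕ}
    {i : Fin (m + 1)} (hN : Nl i ≠ 0) {ℓ : ℕ} :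
    ℓ ∈ Sb p Nl Q i ↔ (ℓ.Prime ∧ (ℓ = p ∨ ℓ ∣ Nl i)) ∨ ∃ k, Q k = ℓ := by
  simp only [Sb, Finset.mem_union, Finset.mem_insert, Nat.mem_primeFactors, Finset.mem_image,
    Finset.mem_univ, true_and]
  constructor
  · rintro ((rfl | ⟨h1, h2, -⟩) | h)
    · exact Or.inl ⟨hp, Or.inl rfl⟩
    · exact Or.inl ⟨h1, Or.inr h2⟩
    · exact Or.inr h
  · rintro (⟨h1, rfl | h2⟩ | h)
    · exact Or.inl (Or.inl rfl)
    · exact Or.inl (Or.inr ⟨h1, h2, hN⟩)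
    · exact Or.inr h

theorem coe_Sb {p : ℕ} (hp : p.Prime) {m : ℕ} {Nl : Fin (m + 1) → ℕ} {r : ℕ} {Q : Fin r → ℕ}
    {i : Fin (m + 1)} (hN : Nl i ≠ 0) :
    (↑(Sb p Nl Q i) : Set ℕ) = badSet p (Nl i) ∪ Set.range Q := by
  ext ℓ
  rw [Finset.mem_coe, mem_Sb hp hN]
  rfl

namespace ChainNum

variable {p : ℕ} {m : ℕ} {Nl : Fin (m + 1) → ℕ} {cq : Fin m → ℕ} {r : ℕ} {Q : Fin r → ℕ}
  (h : ChainNum p Nl cq Q)

include h

theorem Nl_dvd_last (i : Fin (m + 1)) : Nl i ∣ Nl (Fin.last m) := by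
  induction i using Fin.reverseInduction with
  | last => exact dvd_rfl
  | cast j ih => exact Dvd.dvd.trans ⟨cq j, h.hNl j⟩ ih

theorem Nl_ne_zero (i : Fin (m + 1)) : Nl i ≠ 0 := fun e => by
  have h1 := h.Nl_dvd_last i
  rw [e, zero_dvd_iff] at h1
  exact h.sqf.ne_zero h1

theorem Nl_pos (i : Fin (m + 1)) : 0 < Nl i := Nat.pos_of_ne_zero (h.Nl_ne_zero i)

theorem sq_level (i : Fin (m + 1)) : Squarefree (Nl i) :=
  h.sqf.squarefree_of_dvd (h.Nl_dvd_last i)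

/-- the levels increase -/
theorem Nl_dvd_of_le {i i' : Fin (m + 1)} (hii : i ≤ i') : Nl i ∣ Nl i' := by
  induction i' using Fin.induction with
  | zero =>
    have : i = 0 := Fin.le_zero_iff.mp hii
    rw [this]
  | succ j ih =>
    rcases eq_or_lt_of_le hii with e | hlt
    · rw [e]
    · have h1 : i ≤ j.castSucc := by
        rw [Fin.le_def]
        have := Fin.lt_def.mp hlt
        simp only [Fin.val_succ, Fin.val_castSucc] at this ⊢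
        omega
      exact (ih h1).trans ⟨cq j, h.hNl j⟩

/-- the `j`-th chain prime does not divide the levels `i ≤ j` -/
theorem cq_not_dvd (i : Fin (m + 1)) (j : Fin m) (hij : i.val ≤ j.val) : ¬ cq j ∣ Nl i := by
  intro hd
  have h1 : Nl i ∣ Nl j.castSucc := h.Nl_dvd_of_le (by
    rw [Fin.le_def]; simpa using hij)
  have h2 : cq j * cq j ∣ Nl j.succ := by
    rw [h.hNl j, mul_comm (Nl j.castSucc)]
    exact Nat.mul_dvd_mul_left _ (hd.trans h1)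
  have h3 := h.sq_level j.succ (cq j) h2
  exact (h.cqprime j).one_lt.ne' (Nat.isUnit_iff.1 h3)

/-- the primes of the level `i` -/
theorem prime_dvd_level_iff {ℓ : ℕ} (hℓ : ℓ.Prime) (i : Fin (m + 1)) :
    ℓ ∣ Nl i ↔ ℓ ∣ Nl 0 ∨ ∃ j : Fin m, j.val < i.val ∧ ℓ = cq j := by
  induction i using Fin.induction with
  | zero =>
    constructor
    · exact fun hd => Or.inl hd
    · rintro (hd | ⟨j, hj, -⟩)
      · exact hd
      · exact absurd hj (by simp)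
  | succ j ih =>
    rw [h.hNl j, hℓ.dvd_mul, ih, Nat.prime_dvd_prime_iff_eq hℓ (h.cqprime j)]
    constructor
    · rintro ((hd | ⟨j', hj', e⟩) | e)
      · exact Or.inl hd
      · refine Or.inr ⟨j', ?_, e⟩
        simp only [Fin.val_castSucc, Fin.val_succ] at hj' ⊢
        omega
      · exact Or.inr ⟨j, by simp, e⟩
    · rintro (hd | ⟨j', hj', e⟩)
      · exact Or.inl (Or.inl hd)
      · simp only [Fin.val_succ] at hj'
        rcases Nat.lt_succ_iff_lt_or_eq.mp hj' with hlt | heq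
        · exact Or.inl (Or.inr ⟨j', by simpa using hlt, e⟩)
        · have : j' = j := Fin.ext heq
          rw [this] at e
          exact Or.inr e

theorem prime_dvd_last_iff {ℓ : ℕ} (hℓ : ℓ.Prime) :
    ℓ ∣ Nl (Fin.last m) ↔ ℓ ∣ Nl 0 ∨ ∃ j : Fin m, ℓ = cq j := by
  rw [h.prime_dvd_level_iff hℓ]
  constructor
  · rintro (hd | ⟨j, -, e⟩)
    · exact Or.inl hd
    · exact Or.inr ⟨j, e⟩
  · rintro (hd | ⟨j, e⟩)
    · exact Or.inl hd
    · exact Or.inr ⟨j, by simp, e⟩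

theorem cq_dvd_last (j : Fin m) : cq j ∣ Nl (Fin.last m) :=
  (h.prime_dvd_last_iff (h.cqprime j)).2 (Or.inr ⟨j, rfl⟩)

theorem cq_injective : Function.Injective cq := by
  intro j j' e
  by_contra hne
  rcases lt_or_gt_of_ne (fun e' => hne (Fin.ext e')) with hlt | hlt
  · -- `cq j ∣ Nl j'.castSucc`
    have h1 : cq j ∣ Nl j'.castSucc := by
      rw [h.prime_dvd_level_iff (h.cqprime j)]
      exact Or.inr ⟨j, by simpa using hlt, rfl⟩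
    rw [e] at h1
    exact h.cq_not_dvd j'.castSucc j' (by simp) h1
  · have h1 : cq j' ∣ Nl j.castSucc := by
      rw [h.prime_dvd_level_iff (h.cqprime j')]
      exact Or.inr ⟨j', by simpa using hlt, rfl⟩
    rw [← e] at h1
    exact h.cq_not_dvd j.castSucc j (by simp) h1

/-! ### the Taylor–Wiles primes -/

theorem Q_ne_p (k : Fin r) : Q k ≠ p := fun e =>
  h.Qnot k ⟨h.Qprime k, Or.inl e⟩

theorem Q_not_dvd_last (k : Fin r) : ¬ Q k ∣ Nl (Fin.last m) := fun hd =>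
  h.Qnot k ⟨h.Qprime k, Or.inr hd⟩

theorem Q_not_dvd (i : Fin (m + 1)) (k : Fin r) : ¬ Q k ∣ Nl i := fun hd =>
  h.Q_not_dvd_last k (hd.trans (h.Nl_dvd_last i))

theorem Q_ne_cq (k : Fin r) (j : Fin m) : Q k ≠ cq j := fun e =>
  h.Q_not_dvd_last k (e ▸ h.cq_dvd_last j)

theorem three_le_p : 3 ≤ p := by
  have h2 := h.pprime.two_le
  have := h.p2
  omega

theorem four_le_Q (k : Fin r) : 4 ≤ Q k := by
  have h2 := (h.Qprime k).two_le
  have h3 := h.three_le_p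
  have h4 : 0 < Q k - 1 := by omega
  have := Nat.le_of_dvd h4 (h.Q1 k)
  omega

theorem Q_ne_two (k : Fin r) : Q k ≠ 2 := by
  have := h.four_le_Q k
  omega

theorem prodQ_pos : 0 < ∏ k, Q k := Finset.prod_pos fun k _ => (h.Qprime k).pos

theorem exists_eq_Q_of_dvd_prodQ {ℓ : ℕ} (hℓ : ℓ.Prime) (hd : ℓ ∣ ∏ k, Q k) : ∃ k, ℓ = Q k := by
  obtain ⟨k, -, hdv⟩ := (Prime.dvd_finsetProd_iff hℓ.prime _).1 hd
  exact ⟨k, (Nat.prime_dvd_prime_iff_eq hℓ (h.Qprime k)).1 hdv⟩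

theorem coprime_Nl_prodQ (i : Fin (m + 1)) : Nat.Coprime (Nl i) (∏ k, Q k) :=
  Nat.Coprime.prod_right fun k _ =>
    (Nat.Coprime.symm ((Nat.Prime.coprime_iff_not_dvd (h.Qprime k)).2 (h.Q_not_dvd i k)))

theorem squarefree_prodQ : Squarefree (∏ k, Q k) := by
  refine Finset.squarefree_prod_of_pairwise_isCoprime (fun i _ j _ hij => ?_)
    fun j _ => (h.Qprime j).prime.squarefree
  show IsRelPrime (Q i) (Q j)
  rw [← Nat.coprime_iff_isRelPrime]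
  exact (Nat.coprime_primes (h.Qprime i) (h.Qprime j)).2 fun e => hij (h.Qinj e)

theorem squarefree_Nt (i : Fin (m + 1)) : Squarefree (Nl i * ∏ k, Q k) :=
  Nat.squarefree_mul_iff.2 ⟨h.coprime_Nl_prodQ i, h.sq_level i, h.squarefree_prodQ⟩

theorem not_sq_dvd_Nt (i : Fin (m + 1)) {ℓ : ℕ} (hℓ : ℓ.Prime) :
    ¬ ℓ ^ 2 ∣ Nl i * ∏ k, Q k := fun hd => by
  have := h.squarefree_Nt i ℓ (by rwa [← sq])
  exact hℓ.one_lt.ne' (Nat.isUnit_iff.1 this)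

theorem Nt_pos (i : Fin (m + 1)) : 0 < Nl i * ∏ k, Q k := Nat.mul_pos (h.Nl_pos i) h.prodQ_pos

theorem Nbig_pos (i : Fin (m + 1)) : 0 < Nl i * (∏ k, Q k) ^ 2 :=
  Nat.mul_pos (h.Nl_pos i) (pow_pos h.prodQ_pos 2)

theorem Q_dvd_Nt (i : Fin (m + 1)) (k : Fin r) : Q k ∣ Nl i * ∏ k, Q k :=
  Dvd.dvd.mul_left (Finset.dvd_prod_of_mem Q (Finset.mem_univ k)) _

theorem five_le_Nt (i : Fin (m + 1)) (h5 : 5 ≤ Nl i) : 5 ≤ Nl i * ∏ k, Q k :=
  le_trans h5 (Nat.le_mul_of_pos_right _ h.prodQ_pos)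

theorem five_le_Nt_div_Q (i : Fin (m + 1)) (h5 : 5 ≤ Nl i) (k : Fin r) :
    5 ≤ Nl i * (∏ k, Q k) / Q k := by
  obtain ⟨c, hc⟩ := Finset.dvd_prod_of_mem Q (Finset.mem_univ k)
  have hQpos := (h.Qprime k).pos
  have hcpos : 0 < c := by
    rcases Nat.eq_zero_or_pos c with e | e
    · have := h.prodQ_pos; rw [hc, e, mul_zero] at this; exact absurd this (lt_irrefl _)
    · exact e
  have e : Nl i * (∏ k, Q k) / Q k = Nl i * c := by
    rw [hc, mul_comm (Q k) c, ← mul_assoc, Nat.mul_div_cancel _ hQpos]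
  rw [e]
  nlinarith

/-- a prime dividing `Nt i` or `Nbig i` lies in `Sb i` -/
theorem mem_Sb_of_dvd_Nt (i : Fin (m + 1)) {ℓ : ℕ} (hℓ : ℓ.Prime) (hd : ℓ ∣ Nl i * ∏ k, Q k) :
    ℓ ∈ Sb p Nl Q i := by
  rw [mem_Sb h.pprime (h.Nl_ne_zero i)]
  rcases (Nat.Prime.dvd_mul hℓ).1 hd with h1 | h1
  · exact Or.inl ⟨hℓ, Or.inr h1⟩
  · obtain ⟨k, hk⟩ := h.exists_eq_Q_of_dvd_prodQ hℓ h1
    exact Or.inr ⟨k, hk.symm⟩

theorem mem_Sb_of_dvd_Nbig (i : Fin (m + 1)) {ℓ : ℕ} (hℓ : ℓ.Prime)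
    (hd : ℓ ∣ Nl i * (∏ k, Q k) ^ 2) : ℓ ∈ Sb p Nl Q i := by
  rw [mem_Sb h.pprime (h.Nl_ne_zero i)]
  rcases (Nat.Prime.dvd_mul hℓ).1 hd with h1 | h1
  · exact Or.inl ⟨hℓ, Or.inr h1⟩
  · obtain ⟨k, hk⟩ := h.exists_eq_Q_of_dvd_prodQ hℓ (hℓ.dvd_of_dvd_pow h1)
    exact Or.inr ⟨k, hk.symm⟩

theorem p_mem_Sb (i : Fin (m + 1)) : p ∈ Sb p Nl Q i :=
  (mem_Sb h.pprime (h.Nl_ne_zero i)).2 (Or.inl ⟨h.pprime, Or.inl rfl⟩)

theorem Sb_subset_last (i : Fin (m + 1)) : Sb p Nl Q i ⊆ Sb p Nl Q (Fin.last m) := by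
  intro ℓ hℓ
  rw [mem_Sb h.pprime (h.Nl_ne_zero _)] at hℓ ⊢
  rcases hℓ with ⟨h1, h2⟩ | h2
  · exact Or.inl ⟨h1, h2.imp id fun h3 => h3.trans (h.Nl_dvd_last i)⟩
  · exact Or.inr h2

/-- a prime of the level `i` divides `Nbig i` exactly once -/
theorem exactly_dvd_Nbig (i : Fin (m + 1)) {ℓ : ℕ} (hℓ : ℓ.Prime) (hℓN : ℓ ∣ Nl i) :
    ℓ ∣ Nl i * (∏ k, Q k) ^ 2 ∧ ¬ ℓ ^ 2 ∣ Nl i * (∏ k, Q k) ^ 2 := by
  refine ⟨Dvd.dvd.mul_right hℓN _, fun hd => ?_⟩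
  have hnQ : ¬ ℓ ∣ ∏ k, Q k := fun hd' => by
    obtain ⟨k, hk⟩ := h.exists_eq_Q_of_dvd_prodQ hℓ hd'
    exact h.Q_not_dvd i k (hk ▸ hℓN)
  have hcop : Nat.Coprime (ℓ ^ 2) ((∏ k, Q k) ^ 2) := by
    refine Nat.Coprime.pow _ _ ?_
    rwa [Nat.Prime.coprime_iff_not_dvd hℓ]
  have h4 : ℓ ^ 2 ∣ Nl i := hcop.dvd_of_dvd_mul_right hd
  have := h.sq_level i ℓ (by rwa [← sq])
  exact hℓ.one_lt.ne' (Nat.isUnit_iff.1 this)

theorem p_not_dvd_Nbig (i : Fin (m + 1)) (hp : ¬ p ∣ Nl i) : ¬ p ∣ Nl i * (∏ k, Q k) ^ 2 := by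
  intro hd
  rcases (Nat.Prime.dvd_mul h.pprime).1 hd with h1 | h1
  · exact hp h1
  · obtain ⟨k, hk⟩ := h.exists_eq_Q_of_dvd_prodQ h.pprime (h.pprime.dvd_of_dvd_pow h1)
    exact h.Q_ne_p k hk.symm

/-- the `j`-th chain prime does not divide `Nbig j.castSucc` -/
theorem cq_not_dvd_Nbig (j : Fin m) : ¬ cq j ∣ Nl j.castSucc * (∏ k, Q k) ^ 2 := by
  intro hd
  rcases (Nat.Prime.dvd_mul (h.cqprime j)).1 hd with h1 | h1
  · exact h.cq_not_dvd j.castSucc j (by simp) h1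
  · obtain ⟨k, hk⟩ := h.exists_eq_Q_of_dvd_prodQ (h.cqprime j) ((h.cqprime j).dvd_of_dvd_pow h1)
    exact h.Q_ne_cq k j hk.symm

/-- the chain primes above the level `i` are not in `Sb i` -/
theorem cq_notMem_Sb (i : Fin (m + 1)) (j : Fin m) (hij : i.val ≤ j.val) (hjp : cq j ≠ p) :
    cq j ∉ Sb p Nl Q i := by
  rw [mem_Sb h.pprime (h.Nl_ne_zero i)]
  rintro (⟨-, h1 | h1⟩ | ⟨k, hk⟩)
  · exact hjp h1
  · exact h.cq_not_dvd i j hij h1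
  · exact h.Q_ne_cq k j hk

/-! ### the prime `p` as a chain prime -/

/-- if `cq j = p` then `Nbig m = M * p` with `p ∤ M`, `Nbig j.castSucc ∣ M` -/
theorem exists_M_of_cq_eq_p (j : Fin m) (hj : cq j = p) :
    ∃ M : ℕ, 0 < M ∧ Nl (Fin.last m) * (∏ k, Q k) ^ 2 = M * p ∧ ¬ p ∣ M ∧
      Nl j.castSucc * (∏ k, Q k) ^ 2 ∣ M := by
  obtain ⟨c, hc⟩ := h.Nl_dvd_last j.succ
  rw [h.hNl j, hj] at hc
  refine ⟨Nl j.castSucc * c * (∏ k, Q k) ^ 2, ?_, ?_, ?_, ?_⟩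
  · have h1 : 0 < Nl (Fin.last m) := h.Nl_pos _
    rw [hc] at h1
    have hc0 : 0 < c := by
      rcases Nat.eq_zero_or_pos c with e | e
      · rw [e, mul_zero] at h1; exact absurd h1 (lt_irrefl _)
      · exact e
    exact Nat.mul_pos (Nat.mul_pos (h.Nl_pos _) hc0) (pow_pos h.prodQ_pos 2)
  · rw [hc]; ring
  · intro hd
    have h1 : p * p ∣ Nl (Fin.last m) * (∏ k, Q k) ^ 2 := by
      have e : Nl (Fin.last m) * (∏ k, Q k) ^ 2 = p * (Nl j.castSucc * c * (∏ k, Q k) ^ 2) := by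
        rw [hc]; ring
      rw [e]
      exact Nat.mul_dvd_mul_left p hd
    have hpl : p ∣ Nl (Fin.last m) := by rw [hc]; exact ⟨Nl j.castSucc * c, by ring⟩
    have := (h.exactly_dvd_Nbig (Fin.last m) h.pprime hpl).2
    rw [sq] at this
    exact this h1
  · exact ⟨c, by ring⟩

end ChainNum

end Fermat.Agent.ML.PROD
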