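/-
PROJECT ML (S59) — [PR-2] (helper9), file 2: **the hypotheses of `TWModChainStatement`** from the
residual representation: non-Eisenstein (`hNE`) in the form with a system of constants `c`, and
the distinct roots at the Taylor–Wiles primes.
-/
import Mathlib
import Fermat.Agent.RB.REPT_helper1_TWHyps
import Fermat.Agent.ML.PROD_helper9_Num

set_option autoImplicit false
set_option linter.unusedSectionVars false
set_option linter.unusedVariables false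
set_option linter.style.haveILetI false

namespace Fermat.Agent.ML.PROD

open Polynomial IsLocalRing Fermat.Agent.S53 Fermat.Agent.RB.REPT

local notation "Ω" => AlgebraicClosure ℚ
local notation "GQ" => (AlgebraicClosure ℚ ≃ₐ[ℚ] AlgebraicClosure ℚ)

section NE

variable {k : Type} [Field k] [Finite k]

/-- **an absolutely irreducible residual representation is not Eisenstein**, form with a function
`a` of the primes. -/
theorem exists_prime_not_eisenstein {p : ℕ} (hp : p.Prime) (hpk : (p : k) = 0)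
    (ρbar : ResidualGaloisRep k) (habs : ρbar.IsAbsolutelyIrreducible) (a : ℕ → k) (B : Finset ℕ)
    (hchar : ∀ ℓ : ℕ, ℓ.Prime → ℓ ∉ B → ∀ A : ValuationSubring Ω, A.LiesOverPrime ℓ →
      ∀ σ : GQ, A.IsFrobeniusAt σ ℓ →
        LinearMap.charpoly (ρbar.ρ σ) = X ^ 2 - C (a ℓ) * X + C (ℓ : k))
    (D : ℕ) (hD : 0 < D) (Bad : Finset ℕ) :
    ∃ ℓ : ℕ, ℓ.Prime ∧ ℓ ∉ B ∧ ℓ ∉ Bad ∧ ℓ ≡ 1 [MOD D] ∧ a ℓ ≠ (ℓ : k) + 1 := by
  classical
  set β := resSomeBasis ρbar with hβ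
  have hfull : L1.FullSpan (resMatrixOf ρbar β) :=
    L1.fullSpan_of_absIrr ρbar β habs _ (fun σ => rfl)
  exact exists_prime_trace_ne hp hpk (resMatrixOf ρbar β)
    (resMatrixOf_factors ρbar β) hfull a B (fun ℓ hℓ hℓS A' hA' σ hσ => by
      rw [resMatrixOf_eq_toMatrix, LinearMap.charpoly_toMatrix, hchar ℓ hℓ hℓS A' hA' σ hσ])
    D hD Bad

end NE

section Chain

variable {𝒪 : Type} [CommRing 𝒪] [IsDomain 𝒪] [IsDiscreteValuationRing 𝒪]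
  [Finite (ResidueField 𝒪)]

/-- **`hNE` of `TWModChainStatement`.** -/
theorem hNE_of_absIrr {p : ℕ} (hp : p.Prime) (hp𝒪 : (p : 𝒪) ∈ maximalIdeal 𝒪)
    (ρbar : ResidualGaloisRep (ResidueField 𝒪)) (habs : ρbar.IsAbsolutelyIrreducible)
    (Ntop : ℕ) (hN : Ntop ≠ 0) (c : Nat.Primes → 𝒪)
    (hchar : ∀ (ℓ : ℕ) (hℓ : ℓ.Prime), ℓ ∉ badSet p Ntop →
      ∀ A : ValuationSubring Ω, A.LiesOverPrime ℓ → ∀ σ : GQ, A.IsFrobeniusAt σ ℓ →
        LinearMap.charpoly (ρbar.ρ σ) =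
          X ^ 2 - C (residue 𝒪 (c ⟨ℓ, hℓ⟩)) * X + C ((ℓ : ℕ) : ResidueField 𝒪))
    (D : ℕ) (hD : 0 < D) (Bad : Finset ℕ) :
    ∃ ℓ : Nat.Primes, (ℓ : ℕ) ∉ badSet p Ntop ∧ (ℓ : ℕ) ∉ Bad ∧ (ℓ : ℕ) ≡ 1 [MOD D] ∧
      c ℓ - ((ℓ : ℕ) + 1 : 𝒪) ∉ maximalIdeal 𝒪 := by
  classical
  have hpk : ((p : ℕ) : ResidueField 𝒪) = 0 := by
    have := (residue_eq_zero_iff (p : 𝒪)).mpr hp𝒪
    rwa [map_natCast] at this
  set B : Finset ℕ := insert p Ntop.primeFactors with hB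
  have hBmem : ∀ ℓ : ℕ, ℓ.Prime → ℓ ∉ B → ℓ ∉ badSet p Ntop := by
    intro ℓ hℓ hℓB hbad
    apply hℓB
    rw [hB, Finset.mem_insert, Nat.mem_primeFactors]
    rcases hbad.2 with h1 | h1
    · exact Or.inl h1
    · exact Or.inr ⟨hℓ, h1, hN⟩
  set a : ℕ → ResidueField 𝒪 := fun ℓ => if h : ℓ.Prime then residue 𝒪 (c ⟨ℓ, h⟩) else 0 with ha
  obtain ⟨ℓ, hℓ, hℓB, hℓBad, hℓD, hne⟩ := exists_prime_not_eisenstein hp hpk ρbar habs a B
    (fun ℓ hℓ hℓB A hA σ hσ => by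
      rw [hchar ℓ hℓ (hBmem ℓ hℓ hℓB) A hA σ hσ, ha]
      simp only
      rw [dif_pos hℓ]) D hD Bad
  refine ⟨⟨ℓ, hℓ⟩, hBmem ℓ hℓ hℓB, hℓBad, hℓD, fun hmem => hne ?_⟩
  rw [ha]
  simp only
  rw [dif_pos hℓ]
  have h1 := (residue_eq_zero_iff _).mpr hmem
  rw [map_sub, sub_eq_zero] at h1
  rw [h1, map_add, map_natCast, map_one]

/-- **the distinct roots at a Taylor–Wiles prime.** -/
theorem roots_of_isTWSet {p : ℕ} (ρbar : ResidualGaloisRep (ResidueField 𝒪))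
    (Ntop : ℕ) (c : Nat.Primes → 𝒪)
    (hchar : ∀ (ℓ : ℕ) (hℓ : ℓ.Prime), ℓ ∉ badSet p Ntop →
      ∀ A : ValuationSubring Ω, A.LiesOverPrime ℓ → ∀ σ : GQ, A.IsFrobeniusAt σ ℓ →
        LinearMap.charpoly (ρbar.ρ σ) =
          X ^ 2 - C (residue 𝒪 (c ⟨ℓ, hℓ⟩)) * X + C ((ℓ : ℕ) : ResidueField 𝒪))
    {q : ℕ} (hq : q.Prime) (hqN : q ∉ badSet p Ntop)
    (hdist : ∀ P : ValuationSubring Ω, P.LiesOverPrime q → ∀ φ : GQ, P.IsFrobeniusAt φ q →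
      ∃ α β : ResidueField 𝒪, α ≠ β ∧ LinearMap.charpoly (ρbar.ρ φ) = (X - C α) * (X - C β)) :
    ∃ α β : ResidueField 𝒪, α ≠ β ∧ α + β = residue 𝒪 (c ⟨q, hq⟩) ∧
      α * β = (q : ResidueField 𝒪) :=
  exists_roots_of_distinct ρbar hq (residue 𝒪 (c ⟨q, hq⟩))
    (fun P hP φ hφ => hchar q hq hqN P hP φ hφ) hdist

end Chain

end Fermat.Agent.ML.PROD
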