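/-
PROJECT ML (S59) — [PR-2] (helper9), file 3: **the Hecke–Galois representation of every level of
the chain**: `levelGaloisPlusStatement` (helper1) instantiated at the level `i` of a
`TWModChainLevel` with the numerics of `ML/PROD_helper9_Num`, and the `LevelRep` of the level.
-/
import Mathlib
import Fermat.Agent.ML.REPTLB_helper1_Level
import Fermat.Agent.ML.REPTL_helper9_LevelOf
import Fermat.Agent.ML.PROD_helper9_Num

set_option autoImplicit false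
set_option linter.unusedSectionVars false
set_option linter.unusedVariables false
set_option linter.style.haveILetI false

namespace Fermat.Agent.ML.PROD

open Polynomial IsLocalRing Fermat.Agent.RB Fermat.Agent.RB.REPT Fermat.Agent.ML.REPTL

local notation "Ω" => AlgebraicClosure ℚ
local notation "GQ" => (AlgebraicClosure ℚ ≃ₐ[ℚ] AlgebraicClosure ℚ)

section Level

variable {𝒪 : Type} [CommRing 𝒪] [IsDomain 𝒪] [IsDiscreteValuationRing 𝒪]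
  [IsAdicComplete (maximalIdeal 𝒪) 𝒪] [Finite (ResidueField 𝒪)] [CharZero 𝒪]
  {p : ℕ} {lam : 𝒪} {c : Nat.Primes → 𝒪} {m : ℕ} {Nl : Fin (m + 1) → ℕ} [∀ i, NeZero (Nl i)]
  {qc : Fin m → ℕ} {hqc : ∀ j, (qc j).Prime} {d : Fin (m + 1) → ℕ} {r n : ℕ} {Q : Fin r → ℕ}
  {Nt Nbig : Fin (m + 1) → ℕ} [∀ i, NeZero (Nt i)] [∀ i, NeZero (Nbig i)]
  [∀ j : Fin m, NeZero (Nbig j.castSucc * qc j)] {hqN : ∀ j : Fin m, ¬ qc j ∣ Nbig j.castSucc}
  (L : TWModChainLevel p lam c Nl qc hqc d r n Q Nt Nbig hqN)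
  (hNt : ∀ i, Nt i = Nl i * ∏ k, Q k) (hNbig : ∀ i, Nbig i = Nl i * (∏ k, Q k) ^ 2)
  (hnum : ChainNum p Nl qc Q)
  {ρbar : ResidualGaloisRep (ResidueField 𝒪)}

include hnum in
/-- the hypothesis `hS` of the chain algebra -/
theorem notMem_of_notMem_Sres (ℓ : ℕ) (hℓ : ℓ ∉ Sb p Nl Q (Fin.last m)) :
    ℓ ∉ badSet p (Nl (Fin.last m)) ∪ Set.range Q := by
  rw [← coe_Sb hnum.pprime (hnum.Nl_ne_zero _)]
  exact fun h => hℓ (Finset.mem_coe.1 h)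

include hNt hNbig hnum in
/-- **Layer B at the level `i`.** -/
theorem exists_levelGalois_of_chain [Fact p.Prime] (hLG : LevelGaloisPlusStatement)
    (hKey : ∀ (M : ℕ) [NeZero M], 5 ≤ M → ThetaKillsJ1Odd M p)
    (hp𝒪 : (p : 𝒪) ∈ maximalIdeal 𝒪) (hlam : Irreducible lam)
    (habs : ρbar.IsAbsolutelyIrreducible)
    (hdetc : LinearMap.det (ρbar.ρ complexConjugation) = -1)
    (hbarchar : ∀ (ℓ : ℕ) (hℓ : ℓ.Prime), ℓ ∉ badSet p (Nl (Fin.last m)) →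
      ∀ A : ValuationSubring Ω, A.LiesOverPrime ℓ → ∀ σ : GQ, A.IsFrobeniusAt σ ℓ →
        LinearMap.charpoly (ρbar.ρ σ) =
          X ^ 2 - C (residue 𝒪 (c ⟨ℓ, hℓ⟩)) * X + C ((ℓ : ℕ) : ResidueField 𝒪))
    (i : Fin (m + 1)) (hdi : 0 < d i) (h5 : 5 ≤ Nl i) :
    ∃ LG : LevelGalois (L.side i) ρbar (Nbig i) (Sb p Nl Q (Fin.last m)) Q,
      (∀ q : ℕ, q.Prime → ¬ q ∣ Nbig i → q ≠ p → ρbar.IsUnramifiedAt q →
        LG.datum.ρ.IsUnramifiedAt q) ∧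
      (∀ (ℓ : ℕ) (hℓ : ℓ.Prime), ℓ ∉ Sb p Nl Q i → ∀ P : ValuationSubring Ω, P.LiesOverPrime ℓ →
        ∀ σ : GQ, P.IsFrobeniusAt σ ℓ →
          ((LG.f (LG.datum.ρ.trace σ) : heckeAlg (L.side i) (Sb p Nl Q (Fin.last m))) :
            Module.End 𝒪 (L.side i).H) = (L.side i).Tt ⟨ℓ, hℓ⟩) := by
  have hp := hnum.pprime
  have hocc : OccL (L.side i) lam c (Nt i) (Nbig i) (↑(Sb p Nl Q i) : Set ℕ)
      (↑(Sb p Nl Q (Fin.last m)) : Set ℕ) (L.uQ i) := by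
    rw [coe_Sb hp (hnum.Nl_ne_zero i), coe_Sb hp (hnum.Nl_ne_zero _)]
    exact L.occ i
  refine hLG p hnum.p2 hp𝒪 lam hlam c ρbar habs hdetc (L.side i) hdi (Nt i) (Nbig i)
    (Sb p Nl Q i) (Sb p Nl Q (Fin.last m)) (hnum.Sb_subset_last i) (L.uQ i) hocc
    (hnum.p_mem_Sb i) ?_ ?_ ?_ Q hnum.Qprime ?_ ?_ hnum.Q_ne_p hnum.Q_ne_two ?_ ?_ (L.uQ_spec i)
    (hKey (Nt i) ?_)
  · intro q hq hqN
    rw [hNbig i] at hqN
    exact hnum.mem_Sb_of_dvd_Nbig i hq hqN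
  · intro q hq hqN
    rw [hNt i] at hqN
    exact hnum.mem_Sb_of_dvd_Nt i hq hqN
  · intro ℓ hℓS A' hA' σ hσ
    have hℓ' : (ℓ : ℕ) ∉ badSet p (Nl (Fin.last m)) := fun h =>
      notMem_of_notMem_Sres hnum ℓ hℓS (Or.inl h)
    exact hbarchar ℓ ℓ.2 hℓ' A' hA' σ hσ
  · intro q
    rw [hNt i]
    exact hnum.Q_dvd_Nt i q
  · intro q
    rw [hNt i]
    exact hnum.not_sq_dvd_Nt i (hnum.Qprime q)
  · rw [hNt i]
    exact hnum.five_le_Nt i h5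
  · intro q
    rw [hNt i]
    exact hnum.five_le_Nt_div_Q i h5 q
  · rw [hNt i]
    exact hnum.five_le_Nt i h5

include hNbig hnum in
/-- **the `LevelRep` of the level `i`** from Layer B. -/
noncomputable def levelRepOfChain [Fact p.Prime] (hp𝒪 : (p : 𝒪) ∈ maximalIdeal 𝒪)
    (hunrbar : ∀ (i : Fin (m + 1)) (q : ℕ), q.Prime → q ∉ Sb p Nl Q i → ρbar.IsUnramifiedAt q)
    (hord : ∀ i : Fin (m + 1), p ∣ Nl i → (GaloisRepAdic.ofResidualGaloisRep ρbar).IsOrdinaryAt p)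
    (i : Fin (m + 1))
    (LG : LevelGalois (L.side i) ρbar (Nbig i) (Sb p Nl Q (Fin.last m)) Q)
    (ha : ∀ q : ℕ, q.Prime → ¬ q ∣ Nbig i → q ≠ p → ρbar.IsUnramifiedAt q →
      LG.datum.ρ.IsUnramifiedAt q)
    (hb : ∀ (ℓ : ℕ) (hℓ : ℓ.Prime), ℓ ∉ Sb p Nl Q i → ∀ P : ValuationSubring Ω,
      P.LiesOverPrime ℓ → ∀ σ : GQ, P.IsFrobeniusAt σ ℓ →
        ((LG.f (LG.datum.ρ.trace σ) : heckeAlg (L.side i) (Sb p Nl Q (Fin.last m))) :
          Module.End 𝒪 (L.side i).H) = (L.side i).Tt ⟨ℓ, hℓ⟩) :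
    LevelRep (L.side i) ρbar (Sb p Nl Q i) (Sb p Nl Q (Fin.last m)) (Nl i) Q :=
  levelRepOf hnum.pprime hnum.p2 hp𝒪 LG (Sb p Nl Q i) (hnum.Sb_subset_last i) (Nl i)
    (hnum.p_mem_Sb i)
    (fun q hq hqN => hnum.mem_Sb_of_dvd_Nbig i hq (by rwa [hNbig i] at hqN))
    ha hb (hunrbar i)
    (fun q hq hqN => by rw [hNbig i]; exact hnum.exactly_dvd_Nbig i hq hqN)
    (fun hpN => by rw [hNbig i]; exact hnum.p_not_dvd_Nbig i hpN)
    (hord i)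

end Level

end Fermat.Agent.ML.PROD
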