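/-
PROJECT ML (S59) — [PR-2] (helper9), file 5: **the chain case at `p`**: the Frobenius scalar `Zt`
of the top level (the image of the scalar of the unramified quotient of the big Hecke ring of
Layer B, ordinary by S33) with (P1) (`old_relation`, helper1's `atPOldPointStatement`) and (P2′)
(`new_p_kill`, helper4's `atPNewPointStatement`), in the form consumed by
`REPTL.nonempty_twChainGalois`.
-/
import Mathlib
import Fermat.Agent.ML.REPTL_helper9_Asm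
import Fermat.Agent.ML.PROD_helper9_Level

set_option autoImplicit false
set_option linter.unusedSectionVars false
set_option linter.unusedVariables false
set_option linter.style.haveILetI false

namespace Fermat.Agent.ML.PROD

open Polynomial IsLocalRing Fermat.Agent.RB Fermat.Agent.RB.REPT Fermat.Agent.ML.REPTL

local notation "Ω" => AlgebraicClosure ℚ
local notation "GQ" => (AlgebraicClosure ℚ ≃ₐ[ℚ] AlgebraicClosure ℚ)

section AtP

variable {𝒪 : Type} [CommRing 𝒪] [IsDomain 𝒪] [IsDiscreteValuationRing 𝒪]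
  [IsAdicComplete (maximalIdeal 𝒪) 𝒪] [Finite (ResidueField 𝒪)] [CharZero 𝒪]
  {p : ℕ} {lam : 𝒪} {c : Nat.Primes → 𝒪} {m : ℕ} {Nl : Fin (m + 1) → ℕ} [∀ i, NeZero (Nl i)]
  {qc : Fin m → ℕ} {hqc : ∀ j, (qc j).Prime} {d : Fin (m + 1) → ℕ} {r n : ℕ} {Q : Fin r → ℕ}
  {Nt Nbig : Fin (m + 1) → ℕ} [∀ i, NeZero (Nt i)] [∀ i, NeZero (Nbig i)]
  [∀ j : Fin m, NeZero (Nbig j.castSucc * qc j)] {hqN : ∀ j : Fin m, ¬ qc j ∣ Nbig j.castSucc}
  (L : TWModChainLevel p lam c Nl qc hqc d r n Q Nt Nbig hqN)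
  (hNbig : ∀ i, Nbig i = Nl i * (∏ k, Q k) ^ 2)
  (hnum : ChainNum p Nl qc Q)
  {ρbar : ResidualGaloisRep (ResidueField 𝒪)}

/-- a local homomorphism maps the maximal ideal into the maximal ideal -/
theorem algebraMap_mem_maximalIdeal {A : Type} [CommRing A] [IsLocalRing A] [Algebra 𝒪 A]
    [IsLocalHom (algebraMap 𝒪 A)] {a : 𝒪} (ha : a ∈ maximalIdeal 𝒪) :
    algebraMap 𝒪 A a ∈ maximalIdeal A := by
  rw [mem_maximalIdeal, mem_nonunits_iff]
  intro hu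
  exact ha (isUnit_of_map_unit (algebraMap 𝒪 A) _ hu)

set_option maxHeartbeats 1600000 in
/-- **the Frobenius scalar of the top level with (P1) and (P2′).** -/
theorem chain_case_data [Fact p.Prime] (hOld : AtPOldPointStatement)
    (hNew : AtPNewPointStatement) (hp𝒪 : (p : 𝒪) ∈ maximalIdeal 𝒪)
    {pc : PCase} {sgn : Fin m → 𝒪} {K : Fin m → ChainKind}
    (hres : IsResChain ρbar p pc qc sgn K)
    (hunrbar : ∀ (i : Fin (m + 1)) (q : ℕ), q.Prime → q ∉ Sb p Nl Q i → ρbar.IsUnramifiedAt q)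
    (hord : ∀ i : Fin (m + 1), p ∣ Nl i → (GaloisRepAdic.ofResidualGaloisRep ρbar).IsOrdinaryAt p)
    (hpl : p ∣ Nl (Fin.last m))
    (LGt : LevelGalois (L.side (Fin.last m)) ρbar (Nbig (Fin.last m)) (Sb p Nl Q (Fin.last m)) Q)
    (ha : ∀ q : ℕ, q.Prime → ¬ q ∣ Nbig (Fin.last m) → q ≠ p → ρbar.IsUnramifiedAt q →
      LGt.datum.ρ.IsUnramifiedAt q)
    (hb : ∀ (ℓ : ℕ) (hℓ : ℓ.Prime), ℓ ∉ Sb p Nl Q (Fin.last m) → ∀ P : ValuationSubring Ω,
      P.LiesOverPrime ℓ → ∀ σ : GQ, P.IsFrobeniusAt σ ℓ →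
        ((LGt.f (LGt.datum.ρ.trace σ) :
          heckeAlg (L.side (Fin.last m)) (Sb p Nl Q (Fin.last m))) :
          Module.End 𝒪 (L.side (Fin.last m)).H) = (L.side (Fin.last m)).Tt ⟨ℓ, hℓ⟩) :
    ∃ Zt : heckeAlg (L.side (Fin.last m)) (Sb p Nl Q (Fin.last m)),
      (∀ P : ValuationSubring Ω, P.LiesOverPrime p → ∀ φ : GQ, P.IsFrobeniusAt φ p →
        @OrdQuotScalar (heckeAlg (L.side (Fin.last m)) (Sb p Nl Q (Fin.last m))) _
          (levelRepOfChain L hNbig hnum hp𝒪 hunrbar hord (Fin.last m) LGt ha hb).isLocalRingA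
          (levelRepOfChain L hNbig hnum hp𝒪 hunrbar hord (Fin.last m) LGt ha hb).ρ P φ Zt) ∧
      (∀ j : Fin m, qc j = p →
        E L (Sb p Nl Q (Fin.last m)) (notMem_of_notMem_Sres hnum) hnum.hNl j.castSucc Zt *
            E L (Sb p Nl Q (Fin.last m)) (notMem_of_notMem_Sres hnum) hnum.hNl j.castSucc Zt
          - L.Tq j *
            E L (Sb p Nl Q (Fin.last m)) (notMem_of_notMem_Sres hnum) hnum.hNl j.castSucc Zt
          + algebraMap 𝒪 (Module.End 𝒪 (L.side j.castSucc).H) (p : 𝒪) = 0) ∧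
      (∀ j : Fin m, qc j = p → ∀ x : (L.side j.succ).H,
        ∃ y : Fin 2 → (L.side j.castSucc).H,
          E L (Sb p Nl Q (Fin.last m)) (notMem_of_notMem_Sres hnum) hnum.hNl j.succ (Zt ^ 2 - 1) x
            = ∑ c', L.iota j c' (y c')) := by
  classical
  have hp := hnum.pprime
  have hp2 := hnum.p2
  have hNS : ∀ q : ℕ, q.Prime → q ∣ Nbig (Fin.last m) → q ∈ Sb p Nl Q (Fin.last m) :=
    fun q hq hqN => hnum.mem_Sb_of_dvd_Nbig _ hq (by rwa [hNbig] at hqN)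
  have hexact : p ∣ Nbig (Fin.last m) ∧ ¬ p ^ 2 ∣ Nbig (Fin.last m) := by
    rw [hNbig]
    exact hnum.exactly_dvd_Nbig _ hp hpl
  have hordbar := hord _ hpl
  have hordT : LGt.datum.ρ.IsOrdinaryAt p :=
    Fermat.Agent.S33.result hp hp2 hp𝒪 hexact hNS LGt.datum
      (isOrdinaryAt_ofResidual_of_isEquiv _ ρbar _ LGt.residual_isEquiv hordbar)
  obtain ⟨Zb, hZb⟩ := exists_frobenius_scalar LGt.datum.ρ hp hordT
  obtain ⟨Rt, hRt⟩ : ∃ Rt, Rt =
    levelRepOfChain L hNbig hnum hp𝒪 hunrbar hord (Fin.last m) LGt ha hb := ⟨_, rfl⟩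
  have hZt : ∀ P : ValuationSubring Ω, P.LiesOverPrime p → ∀ φ : GQ, P.IsFrobeniusAt φ p →
      @OrdQuotScalar (heckeAlg (L.side (Fin.last m)) (Sb p Nl Q (Fin.last m))) _
        Rt.isLocalRingA Rt.ρ P φ (LGt.f Zb) := by
    intro P hP φ hφ
    rw [hRt]
    exact levelRepOf_ordQuotScalar hp hp2 hp𝒪 LGt _ _ _ _ _ ha hb _ _ _ _ (hZb P hP φ hφ)
  have hP1 : ∀ j : Fin m, qc j = p →
      E L (Sb p Nl Q (Fin.last m)) (notMem_of_notMem_Sres hnum) hnum.hNl j.castSucc (LGt.f Zb) *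
          E L (Sb p Nl Q (Fin.last m)) (notMem_of_notMem_Sres hnum) hnum.hNl j.castSucc (LGt.f Zb)
        - L.Tq j *
          E L (Sb p Nl Q (Fin.last m)) (notMem_of_notMem_Sres hnum) hnum.hNl j.castSucc (LGt.f Zb)
        + algebraMap 𝒪 (Module.End 𝒪 (L.side j.castSucc).H) (p : 𝒪) = 0 := by
    intro j hj
    obtain ⟨M, hMpos, hM, hpM, hM'⟩ := hnum.exists_M_of_cq_eq_p j hj
    haveI : NeZero M := ⟨hMpos.ne'⟩
    haveI : NeZero (M * p) := ⟨(Nat.mul_pos hMpos hp.pos).ne'⟩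
    exact old_relation L _ (notMem_of_notMem_Sres hnum) hnum.hNl hOld hp hp2 hp𝒪 j hj LGt
      (M := M) (by rw [hNbig]; exact hM) hpM (by rw [hNbig]; exact hM') hNS hordbar Zb hZb
  rw [← hRt]
  refine ⟨LGt.f Zb, hZt, hP1, ?_⟩
  intro j hj x
  haveI := Rt.isLocalRingA
  haveI := Rt.isLocalHomA
  -- the unit facts
  have hmem := frobScalar_sub_sgn_mem hp2 hres Rt.ρ Rt.residual_isEquiv Rt.det (LGt.f Zb) hZt j hj
  have hsu : IsUnit (algebraMap 𝒪 (heckeAlg (L.side (Fin.last m)) (Sb p Nl Q (Fin.last m)))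
      (sgn j)) := by
    refine IsUnit.map (algebraMap 𝒪 _) ?_
    exact IsUnit.of_mul_eq_one (sgn j) (by rw [← pow_two]; exact hres.sgn_sq j)
  have hZu : IsUnit (LGt.f Zb) := isUnit_of_sub_mem hsu hmem
  obtain ⟨Zi, hZi⟩ := hZu.exists_right_inv
  have hPm : algebraMap 𝒪 (heckeAlg (L.side (Fin.last m)) (Sb p Nl Q (Fin.last m))) (p : 𝒪) ∈
      maximalIdeal (heckeAlg (L.side (Fin.last m)) (Sb p Nl Q (Fin.last m))) :=
    algebraMap_mem_maximalIdeal hp𝒪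
  have hKu : IsUnit (1 - algebraMap 𝒪 (heckeAlg (L.side (Fin.last m))
      (Sb p Nl Q (Fin.last m))) (p : 𝒪) ^ 2 * Zi ^ 2) := by
    refine isUnit_of_sub_mem isUnit_one ?_
    have e : (1 - algebraMap 𝒪 (heckeAlg (L.side (Fin.last m))
        (Sb p Nl Q (Fin.last m))) (p : 𝒪) ^ 2 * Zi ^ 2) - 1 =
        algebraMap 𝒪 (heckeAlg (L.side (Fin.last m)) (Sb p Nl Q (Fin.last m))) (p : 𝒪) *
          (-(algebraMap 𝒪 (heckeAlg (L.side (Fin.last m)) (Sb p Nl Q (Fin.last m))) (p : 𝒪) *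
            Zi ^ 2)) := by ring
    rw [e]
    exact Ideal.mul_mem_right _ _ hPm
  obtain ⟨K', hK'⟩ := hKu.exists_left_inv
  have htq := Tq_eq_of_relation L _ (notMem_of_notMem_Sres hnum) hnum.hNl j (LGt.f Zb) Zi hZi
    (hP1 j hj)
  obtain ⟨M, hMpos, hM, hpM, hM'⟩ := hnum.exists_M_of_cq_eq_p j hj
  haveI : NeZero M := ⟨hMpos.ne'⟩
  haveI : NeZero (M * p) := ⟨(Nat.mul_pos hMpos hp.pos).ne'⟩
  exact new_p_kill L _ (notMem_of_notMem_Sres hnum) hnum.hNl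
    (AlgHom.id 𝒪 (heckeAlg (L.side (Fin.last m)) (Sb p Nl Q (Fin.last m)))) hNew hp hp2 hp𝒪 j hj
    LGt (M := M) (by rw [hNbig]; exact hM) hpM (by rw [hNbig]; exact hM') hNS hordbar Zb hZb Zi K'
    hZi hK' htq (LGt.f Zb) rfl (LGt.f Zb ^ 2 - 1) (Ideal.mem_span_singleton_self _) x

end AtP

end Fermat.Agent.ML.PROD
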