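/-
PROJECT ML (S59) — [REPT-X] (helper1), file 3: **assembly tools, independent of the literal of the
module side**: one `TWSideE` from a side of the module data and the representation over its Hecke
algebra (`mkSideE`); the control map `toT` to level zero and its compatibility with the traces
(`exists_toT_gen`, `toT_trace_gen`); the common reduction of the traces (`exists_trbar_gen`).
Port of `RB/REPT_helper1_{TWSideAsm,TWLevelAsm}` with the fields of the level as hypotheses.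
-/
import Mathlib
import Fermat.Agent.ML.IFACE_helper9_IA
import Fermat.Agent.RB.REPT_helper1_TWLevelAsm

set_option autoImplicit false
set_option linter.unusedSectionVars false
set_option linter.unusedVariables false
set_option linter.style.haveILetI false

namespace Fermat.Agent.ML.REPTX

open Polynomial IsLocalRing CuspForm Fermat.Agent.GR Fermat.Agent.RB Fermat.Agent.RB.REPT

local notation "Ω" => AlgebraicClosure ℚ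
local notation "GQ" => (AlgebraicClosure ℚ ≃ₐ[ℚ] AlgebraicClosure ℚ)

section MkSide

variable {𝒪 : Type} [CommRing 𝒪] [IsDomain 𝒪] [IsDiscreteValuationRing 𝒪]
  [IsAdicComplete (maximalIdeal 𝒪) 𝒪]
  {p r d n : ℕ} (Y : TWModSide 𝒪 p r d n)

/-- **the side of the Taylor–Wiles data attached to a side of the module data.** -/
noncomputable def mkSideE (S Sig : Finset ℕ) (pc : PCase)
    (ρbar : ResidualGaloisRep (ResidueField 𝒪))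
    (Q : Fin r → ℕ) (Sbig : Finset ℕ)
    [hloc : IsLocalRing (heckeAlg Y Sbig)]
    [hlh : IsLocalHom (algebraMap 𝒪 (heckeAlg Y Sbig))]
    (hsurj : Function.Surjective (residue (heckeAlg Y Sbig) ∘ algebraMap 𝒪 (heckeAlg Y Sbig)))
    (ρ : GaloisRepAdic (heckeAlg Y Sbig))
    (hres : ρ.residual.IsEquiv
      (ρbar.baseChangeAlong (ResidueField.map (algebraMap 𝒪 (heckeAlg Y Sbig)))))
    (htype : iaCondition 𝒪 p S Sig (Finset.univ.image Q) pc ρ)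
    (hadj : Algebra.adjoin 𝒪 (Set.range ρ.trace) = ⊤)
    (hkeyH : ∀ q, ∃ (P : ValuationSubring Ω) (_ : P.LiesOverPrime (Q q)) (σ : GQ)
      (_ : σ ∈ P.inertiaSubgroupIn ℚ),
      ((ρ.trace σ : heckeAlg Y Sbig) : Module.End 𝒪 Y.H) = Y.g q + Y.g q ^ (p ^ n - 1)) :
    TWSideE (𝒪 := 𝒪) p S Sig pc ρbar r d n Q :=
  haveI : Module.Finite 𝒪 (heckeAlg Y Sbig) := finite_heckeAlg Y Sbig
  { T := heckeAlg Y Sbig
    instCommRing := heckeAlgCommRing Y Sbig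
    instIsLocalRing := hloc
    instIsNoetherianRing := IsNoetherianRing.of_finite 𝒪 _
    instIsAdicComplete := IsLocalRing.isAdicComplete_of_module_finite (𝒪 := 𝒪)
    instAlgebra := inferInstance
    instIsLocalHom := hlh
    instFinite := finite_heckeAlg Y Sbig
    residue_surjective := hsurj
    ρ := ρ
    residual_isEquiv := hres
    isOfType := htype
    adjoin_trace := hadj
    H := Y.H
    h := (heckeAlg Y Sbig).val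
    g := Y.g
    g_pow := Y.g_pow
    g_comm := Y.g_comm
    g_comm_h := fun q t =>
      alg_comm Y _ (Y.g_mem_alg q) _ (heckeAlg_le_alg Y Sbig t.2)
    b := Y.b
    free := Y.free
    keyH := hkeyH }

end MkSide

section Ctl

variable {𝒪 : Type} [CommRing 𝒪] [IsDomain 𝒪] [IsDiscreteValuationRing 𝒪]
  {p r d n : ℕ} (Y : TWModSide 𝒪 p r d n) (Sr : Finset ℕ)
  {T : Type} [CommRing T] [Algebra 𝒪 T]
  {M0 : Type} [AddCommGroup M0] [Module 𝒪 M0] [Module T M0] [IsScalarTower 𝒪 T M0]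

/-- **the map `T₁ → T` to level zero.** -/
theorem exists_toT_gen (ctl : Y.H →ₗ[𝒪] M0) (hctl : Function.Surjective ctl)
    (hfaith : ∀ t : T, (∀ m : M0, t • m = 0) → t = 0)
    (τ : Nat.Primes → T)
    (hτ : ∀ ℓ : Nat.Primes, (ℓ : ℕ) ∉ Sr → ∀ x, ctl (Y.Tt ℓ x) = τ ℓ • ctl x) :
    ∃ toT : heckeAlg Y Sr →ₐ[𝒪] T,
      (∀ (t : heckeAlg Y Sr) (x : Y.H),
        ctl ((t : Module.End 𝒪 Y.H) x) = toT t • ctl x) ∧
      ∀ (ℓ : Nat.Primes) (hℓS : (ℓ : ℕ) ∉ Sr), toT (TtH Y ℓ hℓS) = τ ℓ := by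
  classical
  have hj : Function.Injective (Algebra.lsmul 𝒪 𝒪 M0 : T →ₐ[𝒪] Module.End 𝒪 M0) := by
    intro a b hab
    rw [← sub_eq_zero]
    refine hfaith _ fun m => ?_
    have := congrArg (fun f : Module.End 𝒪 M0 => f m) hab
    simp only [Algebra.lsmul_coe] at this
    rw [sub_smul, this, sub_self]
  obtain ⟨f, hf⟩ := exists_algHom_of_intertwine ctl hctl
    (Algebra.lsmul 𝒪 𝒪 M0 : T →ₐ[𝒪] Module.End 𝒪 M0) hj
    (heckeSet Y Sr) (by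
      rintro a ⟨ℓ, hℓS, rfl⟩
      exact ⟨τ ℓ, fun x => hτ ℓ hℓS x⟩)
  refine ⟨f, hf, ?_⟩
  intro ℓ hℓS
  rw [← sub_eq_zero]
  refine hfaith _ fun m => ?_
  obtain ⟨x, rfl⟩ := hctl m
  have h1 := hf (TtH Y ℓ hℓS) x
  have h2 := hτ ℓ hℓS x
  have h3 : ((TtH Y ℓ hℓS : heckeAlg Y Sr) : Module.End 𝒪 Y.H) x = Y.Tt ℓ x := rfl
  rw [h3, h2] at h1
  rw [sub_smul, sub_eq_zero]
  exact h1.symm

end Ctl

section Trace

variable {𝒪 : Type} [CommRing 𝒪] [IsDomain 𝒪] [IsDiscreteValuationRing 𝒪]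
  {p r d n : ℕ} (Y : TWModSide 𝒪 p r d n) (Sr : Finset ℕ)
  {T : Type} [CommRing T] [IsLocalRing T] [IsNoetherianRing T] [Algebra 𝒪 T]
  [IsLocalHom (algebraMap 𝒪 T)]

/-- **`toT` is compatible with the traces.** -/
theorem toT_trace_gen
    [IsLocalRing (heckeAlg Y Sr)] [IsLocalHom (algebraMap 𝒪 (heckeAlg Y Sr))]
    (toT : heckeAlg Y Sr →ₐ[𝒪] T) (τ : Nat.Primes → T)
    (hT : ∀ (ℓ : Nat.Primes) (hℓS : (ℓ : ℕ) ∉ Sr), toT (TtH Y ℓ hℓS) = τ ℓ)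
    (ρ₀ : GaloisRepAdic T)
    (hρ₀ : ∀ (ℓ : ℕ) (hℓ : ℓ.Prime), ℓ ∉ Sr → ∀ P : ValuationSubring Ω, P.LiesOverPrime ℓ →
      ∀ σ : GQ, P.IsFrobeniusAt σ ℓ →
        LinearMap.charpoly (ρ₀.ρ σ) = X ^ 2 - C (τ ⟨ℓ, hℓ⟩) * X + C ((ℓ : ℕ) : T))
    (ρ₁ : GaloisRepAdic (heckeAlg Y Sr))
    (hρ₁ : ∀ (ℓ : ℕ) (hℓ : ℓ.Prime) (hℓS : ℓ ∉ Sr),
      ∀ P : ValuationSubring Ω, P.LiesOverPrime ℓ → ∀ σ : GQ, P.IsFrobeniusAt σ ℓ →
        LinearMap.charpoly (ρ₁.ρ σ) = X ^ 2 - C (TtH Y ⟨ℓ, hℓ⟩ hℓS) * X +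
          C ((ℓ : ℕ) : heckeAlg Y Sr))
    (σ : GQ) : toT (ρ₁.trace σ) = ρ₀.trace σ := by
  classical
  haveI : Module.Finite 𝒪 (heckeAlg Y Sr) := finite_heckeAlg _ _
  haveI : IsLocalHom (toT : heckeAlg Y Sr →+* T) := isLocalHom_of_finite toT
  refine (Fermat.Agent.S58.cheb_trace_det_eq (toT : heckeAlg Y Sr →+* T)
    (separated_of_noetherian_local T) ρ₁ ρ₀ Sr ?_ σ).1
  intro ℓ hℓ hℓS P hP φ hφ
  rw [hρ₁ ℓ hℓ hℓS P hP φ hφ, hρ₀ ℓ hℓ hℓS P hP φ hφ]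
  simp only [Polynomial.map_add, Polynomial.map_sub, Polynomial.map_mul, Polynomial.map_pow,
    Polynomial.map_X, Polynomial.map_C, map_natCast, Polynomial.map_natCast]
  rw [show (toT : heckeAlg Y Sr →+* T) (TtH Y ⟨ℓ, hℓ⟩ hℓS) = τ ⟨ℓ, hℓ⟩ from hT ⟨ℓ, hℓ⟩ hℓS]

end Trace

section Red

variable {𝒪 : Type} [CommRing 𝒪] [IsDomain 𝒪] [IsDiscreteValuationRing 𝒪]
  [IsAdicComplete (maximalIdeal 𝒪) 𝒪]
  {p r d n : ℕ} (Y₁ Y₂ : TWModSide 𝒪 p r d n) (Sr : Finset ℕ)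
  {Hbar : Type} [AddCommGroup Hbar] [Module 𝒪 Hbar]

/-- `Hbar ≠ 0`. -/
theorem nontrivial_Hbar_gen {lam : 𝒪} (hd : 0 < d) (hp : 0 < p) (hlam : Irreducible lam)
    (red₁ : Y₁.H →ₗ[𝒪] Hbar) (hker : ∀ x, red₁ x = 0 ↔ ∃ y, x = lam • y) :
    Nontrivial Hbar := by
  classical
  haveI : Nonempty (Fin d) := ⟨⟨0, hd⟩⟩
  haveI : Nonempty (Fin (p ^ n)) := ⟨⟨0, pow_pos hp n⟩⟩
  obtain ⟨i⟩ : Nonempty (Fin d × (Fin r → Fin (p ^ n))) := inferInstance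
  refine ⟨⟨red₁ (sideEquiv Y₁ (Finsupp.single i 1)), 0, fun h => ?_⟩⟩
  obtain ⟨y, hy⟩ := (hker _).1 h
  have h1 := congrArg (fun v => (sideEquiv Y₁).symm v i) hy
  simp only [LinearEquiv.symm_apply_apply, Finsupp.single_eq_same, map_smul, Finsupp.smul_apply,
    smul_eq_mul] at h1
  exact hlam.not_isUnit (IsUnit.of_mul_eq_one _ h1.symm)

/-- the action of the Hecke algebra of a side on the common reduction. -/
theorem exists_redHom_gen (Y : TWModSide 𝒪 p r d n) (red : Y.H →ₗ[𝒪] Hbar)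
    (hred : Function.Surjective red) (Ttbar : Nat.Primes → Module.End 𝒪 Hbar)
    (hTt : ∀ ℓ x, red (Y.Tt ℓ x) = Ttbar ℓ (red x)) :
    ∃ F : heckeAlg Y Sr →ₐ[𝒪] Module.End 𝒪 Hbar,
      (∀ (t : heckeAlg Y Sr) (x : Y.H),
        red ((t : Module.End 𝒪 Y.H) x) = F t (red x)) ∧
      ∀ (ℓ : Nat.Primes) (hℓS : (ℓ : ℕ) ∉ Sr), F (TtH Y ℓ hℓS) = Ttbar ℓ := by
  obtain ⟨F, hF⟩ := exists_algHom_of_intertwine red hred
    (AlgHom.id 𝒪 (Module.End 𝒪 Hbar)) Function.injective_id (heckeSet Y Sr) (by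
      rintro a ⟨ℓ, hℓS, rfl⟩
      exact ⟨Ttbar ℓ, fun x => hTt ℓ x⟩)
  refine ⟨F, hF, fun ℓ hℓS => ?_⟩
  refine LinearMap.ext fun y => ?_
  obtain ⟨x, rfl⟩ := hred y
  have h1 := hF (TtH Y ℓ hℓS) x
  rw [← hTt ℓ x]
  exact h1.symm

/-- **the common reduction of the traces.** -/
theorem exists_trbar_gen {lam : 𝒪} (hd : 0 < d) (hp : 0 < p) (hlam : Irreducible lam)
    (red₁ : Y₁.H →ₗ[𝒪] Hbar) (red₂ : Y₂.H →ₗ[𝒪] Hbar)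
    (hred₁ : Function.Surjective red₁) (hred₂ : Function.Surjective red₂)
    (hker₁ : ∀ x, red₁ x = 0 ↔ ∃ y, x = lam • y)
    (Ttbar : Nat.Primes → Module.End 𝒪 Hbar)
    (hTt₁ : ∀ ℓ x, red₁ (Y₁.Tt ℓ x) = Ttbar ℓ (red₁ x))
    (hTt₂ : ∀ ℓ x, red₂ (Y₂.Tt ℓ x) = Ttbar ℓ (red₂ x))
    [IsLocalRing (heckeAlg Y₁ Sr)] [IsLocalRing (heckeAlg Y₂ Sr)]
    (ρ₁ : GaloisRepAdic (heckeAlg Y₁ Sr)) (ρ₂ : GaloisRepAdic (heckeAlg Y₂ Sr))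
    (hρ₁ : ∀ (ℓ : ℕ) (hℓ : ℓ.Prime) (hℓS : ℓ ∉ Sr),
      ∀ P : ValuationSubring Ω, P.LiesOverPrime ℓ → ∀ σ : GQ, P.IsFrobeniusAt σ ℓ →
        LinearMap.charpoly (ρ₁.ρ σ) = X ^ 2 - C (TtH Y₁ ⟨ℓ, hℓ⟩ hℓS) * X +
          C ((ℓ : ℕ) : heckeAlg Y₁ Sr))
    (hρ₂ : ∀ (ℓ : ℕ) (hℓ : ℓ.Prime) (hℓS : ℓ ∉ Sr),
      ∀ P : ValuationSubring Ω, P.LiesOverPrime ℓ → ∀ σ : GQ, P.IsFrobeniusAt σ ℓ →
        LinearMap.charpoly (ρ₂.ρ σ) = X ^ 2 - C (TtH Y₂ ⟨ℓ, hℓ⟩ hℓS) * X +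
          C ((ℓ : ℕ) : heckeAlg Y₂ Sr)) :
    ∃ trbar : GQ → Module.End 𝒪 Hbar,
      (∀ (σ : GQ) (x : Y₁.H),
        red₁ (((ρ₁.trace σ : heckeAlg Y₁ Sr) : Module.End 𝒪 Y₁.H) x) = trbar σ (red₁ x)) ∧
      (∀ (σ : GQ) (x : Y₂.H),
        red₂ (((ρ₂.trace σ : heckeAlg Y₂ Sr) : Module.End 𝒪 Y₂.H) x) = trbar σ (red₂ x)) := by
  classical
  haveI : Nontrivial Hbar := nontrivial_Hbar_gen Y₁ hd hp hlam red₁ hker₁
  haveI : Module.Finite 𝒪 (heckeAlg Y₁ Sr) := finite_heckeAlg _ _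
  obtain ⟨F₁, hF₁, hF₁T⟩ := exists_redHom_gen Sr Y₁ red₁ hred₁ Ttbar hTt₁
  obtain ⟨F₂, hF₂, hF₂T⟩ := exists_redHom_gen Sr Y₂ red₂ hred₂ Ttbar hTt₂
  have hrange : F₁.range = F₂.range := by
    apply le_antisymm
    · exact range_le_of_TtH Y₁ Sr F₁ F₂.range fun ℓ hℓS =>
        ⟨TtH Y₂ ℓ hℓS, by rw [hF₁T ℓ hℓS]; exact hF₂T ℓ hℓS⟩
    · exact range_le_of_TtH Y₂ Sr F₂ F₁.range fun ℓ hℓS =>
        ⟨TtH Y₁ ℓ hℓS, by rw [hF₂T ℓ hℓS]; exact hF₁T ℓ hℓS⟩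
  have hcmp : ∀ σ : GQ, F₁ (ρ₁.trace σ) = F₂ (ρ₂.trace σ) := by
    intro σ
    refine trace_compare F₁ F₂ hrange ρ₁ ρ₂ Sr ?_ σ
    intro ℓ hℓ hℓS
    refine ⟨TtH Y₁ ⟨ℓ, hℓ⟩ hℓS, TtH Y₂ ⟨ℓ, hℓ⟩ hℓS, ?_, fun P hP φ hφ =>
      ⟨hρ₁ ℓ hℓ hℓS P hP φ hφ, hρ₂ ℓ hℓ hℓS P hP φ hφ⟩⟩
    rw [hF₁T ⟨ℓ, hℓ⟩ hℓS, hF₂T ⟨ℓ, hℓ⟩ hℓS]
  refine ⟨fun σ => F₁ (ρ₁.trace σ), fun σ x => hF₁ _ x, fun σ x => ?_⟩
  show _ = F₁ (ρ₁.trace σ) (red₂ x)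
  rw [hcmp σ]
  exact hF₂ _ x

end Red

end Fermat.Agent.ML.REPTX
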