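/-
PROJECT ML (S59) — [PR-2] (helper9), file 4: **the trace operators `tr0` on the module of level
zero `M0 = lvlMod 𝒪 p Ntop Ntop c`**, defined through the Taylor–Wiles level with NO Taylor–Wiles
prime (`r = 0`), and their compatibility with the control map of every Taylor–Wiles level.

* `ctlEquiv L₀` : for `r = 0` the control map of the top level is an isomorphism;
* `tr0Of L₀ R₀ σ` : the operator `tr ρ₀(σ)` of the top level of `L₀`, transported to `M0`;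
* `tr0Of_comm`, `tr0Of_frob` : they commute; at Frobenius elements outside the level they are the
  Hecke operators;
* `ctl_trace_tr0Of` : `ctl (tr ρ_Q(σ) x) = tr0 σ (ctl x)` for every Taylor–Wiles level
  (Chebotarev, through helper1's `toT_trace_gen`).
-/
import Mathlib
import Fermat.Agent.ML.REPTX_helper1_Asm
import Fermat.Agent.ML.REPTL_helper9_LevelRep

set_option autoImplicit false
set_option linter.unusedSectionVars false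
set_option linter.unusedVariables false
set_option linter.style.haveILetI false

namespace Fermat.Agent.ML.PROD

open Polynomial IsLocalRing CongruenceSubgroup ModularCurve.Period
  Fermat.Agent.GR Fermat.Agent.LR Fermat.Agent.RB Fermat.Agent.RB.REPT Fermat.Agent.ML.REPTL
  Fermat.Agent.ML.REPTX

local notation "Ω" => AlgebraicClosure ℚ
local notation "GQ" => (AlgebraicClosure ℚ ≃ₐ[ℚ] AlgebraicClosure ℚ)

section Ctl

variable {𝒪 : Type} [CommRing 𝒪] [IsDomain 𝒪] [IsDiscreteValuationRing 𝒪]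
  [IsAdicComplete (maximalIdeal 𝒪) 𝒪]
  {p : ℕ} {lam : 𝒪} {c : Nat.Primes → 𝒪} {m : ℕ} {Nl : Fin (m + 1) → ℕ} [∀ i, NeZero (Nl i)]
  {qc : Fin m → ℕ} {hqc : ∀ j, (qc j).Prime} {d : Fin (m + 1) → ℕ}
  {n₀ : ℕ} {Q₀ : Fin 0 → ℕ}
  {Nt₀ Nbig₀ : Fin (m + 1) → ℕ} [∀ i, NeZero (Nt₀ i)] [∀ i, NeZero (Nbig₀ i)]
  [∀ j : Fin m, NeZero (Nbig₀ j.castSucc * qc j)] {hqN₀ : ∀ j : Fin m, ¬ qc j ∣ Nbig₀ j.castSucc}
  (L₀ : TWModChainLevel p lam c Nl qc hqc d 0 n₀ Q₀ Nt₀ Nbig₀ hqN₀)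
  {ρbar : ResidualGaloisRep (ResidueField 𝒪)}

set_option quotPrecheck false in
local notation "M0" => ↥(lvlMod 𝒪 p (Nl (Fin.last m)) (Nl (Fin.last m)) c)

theorem ctl_injective_of_rank_zero (i : Fin (m + 1)) : Function.Injective (L₀.ctl i) := by
  rw [injective_iff_map_eq_zero]
  intro x hx
  have h1 := (L₀.ker_ctl i x).1 hx
  rw [iSup_of_empty] at h1
  exact (Submodule.mem_bot _).1 h1

/-- for `r = 0` the control map is an isomorphism -/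
noncomputable def ctlEquiv :
    (L₀.side (Fin.last m)).H ≃ₗ[𝒪] M0 :=
  LinearEquiv.ofBijective (L₀.ctl (Fin.last m))
    ⟨ctl_injective_of_rank_zero L₀ _, L₀.ctl_surjective _⟩

theorem ctlEquiv_apply (x : (L₀.side (Fin.last m)).H) :
    ctlEquiv L₀ x = L₀.ctl (Fin.last m) x := rfl

/-- the action of the Hecke algebra of the top level of `L₀` on `M0` -/
noncomputable def actOf (Sres₀ : Finset ℕ) :
    heckeAlg (L₀.side (Fin.last m)) Sres₀ →ₐ[𝒪] Module.End 𝒪 M0 :=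
  ((ctlEquiv L₀).conjAlgEquiv 𝒪 : Module.End 𝒪 (L₀.side (Fin.last m)).H →ₐ[𝒪]
    Module.End 𝒪 M0).comp (heckeAlg (L₀.side (Fin.last m)) Sres₀).val

theorem actOf_apply (Sres₀ : Finset ℕ) (t : heckeAlg (L₀.side (Fin.last m)) Sres₀) (y : M0) :
    actOf L₀ Sres₀ t y =
      L₀.ctl (Fin.last m) ((t : Module.End 𝒪 (L₀.side (Fin.last m)).H) ((ctlEquiv L₀).symm y)) :=
  rfl

theorem actOf_ctl (Sres₀ : Finset ℕ) (t : heckeAlg (L₀.side (Fin.last m)) Sres₀)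
    (x : (L₀.side (Fin.last m)).H) :
    actOf L₀ Sres₀ t (L₀.ctl (Fin.last m) x) =
      L₀.ctl (Fin.last m) ((t : Module.End 𝒪 (L₀.side (Fin.last m)).H) x) := by
  have h1 : (ctlEquiv L₀).symm (L₀.ctl (Fin.last m) x) = x :=
    (ctlEquiv L₀).symm_apply_apply x
  rw [actOf_apply, h1]

theorem actOf_injective (Sres₀ : Finset ℕ) : Function.Injective (actOf L₀ Sres₀) := by
  intro a b hab
  apply Subtype.ext
  apply LinearMap.ext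
  intro x
  have h1 := congrArg (fun f : Module.End 𝒪 M0 => f (L₀.ctl (Fin.last m) x)) hab
  simp only [actOf_ctl] at h1
  exact ctl_injective_of_rank_zero L₀ _ h1

/-- the Hecke operators of `M0` through `actOf` -/
theorem actOf_TtH (Sres₀ : Finset ℕ)
    (hS₀ : ∀ ℓ : ℕ, ℓ ∉ Sres₀ → ℓ ∉ badSet p (Nl (Fin.last m)) ∪ Set.range Q₀)
    (ℓ : Nat.Primes) (hℓ : (ℓ : ℕ) ∉ Sres₀) (y : M0) :
    ((actOf L₀ Sres₀ (TtH (L₀.side (Fin.last m)) ℓ hℓ) y : M0) :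
      ↥(parabolicHoms 𝒪 (Gamma0 (Nl (Fin.last m))) 𝒪)) =
      heckeParP (Nl (Fin.last m)) ℓ 𝒪 𝒪 (y : ↥(parabolicHoms 𝒪 (Gamma0 (Nl (Fin.last m))) 𝒪)) := by
  obtain ⟨x, rfl⟩ := L₀.ctl_surjective (Fin.last m) y
  rw [actOf_ctl]
  exact L₀.ctl_Tt (Fin.last m) ℓ (hS₀ ℓ hℓ) x

variable {Sb₀ Sres₀ : Finset ℕ} {Nlev₀ : ℕ}
  (R₀ : LevelRep (L₀.side (Fin.last m)) ρbar Sb₀ Sres₀ Nlev₀ Q₀)

/-- **the trace operators on the module of level zero.** -/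
noncomputable def tr0Of (σ : GQ) : Module.End 𝒪 M0 :=
  actOf L₀ Sres₀ (R₀.tr σ)

theorem tr0Of_comm (σ τ : GQ) : Commute (tr0Of L₀ R₀ σ) (tr0Of L₀ R₀ τ) := by
  show actOf L₀ Sres₀ (R₀.tr σ) * actOf L₀ Sres₀ (R₀.tr τ) =
    actOf L₀ Sres₀ (R₀.tr τ) * actOf L₀ Sres₀ (R₀.tr σ)
  rw [← map_mul, ← map_mul, mul_comm]

/-- at the Frobenius elements outside the level the trace operators are the Hecke operators -/
theorem tr0Of_frob (hSb₀ : Sb₀ ⊆ Sres₀)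
    (hS₀ : ∀ ℓ : ℕ, ℓ ∉ Sres₀ → ℓ ∉ badSet p (Nl (Fin.last m)) ∪ Set.range Q₀)
    (ℓ : ℕ) (hℓ : ℓ.Prime) (hℓS : ℓ ∉ Sres₀) (A : ValuationSubring Ω) (hA : A.LiesOverPrime ℓ)
    (σ : GQ) (hσ : A.IsFrobeniusAt σ ℓ) (y : M0) :
    ((tr0Of L₀ R₀ σ y : M0) : ↥(parabolicHoms 𝒪 (Gamma0 (Nl (Fin.last m))) 𝒪)) =
      heckeParP (Nl (Fin.last m)) ⟨ℓ, hℓ⟩ 𝒪 𝒪
        (y : ↥(parabolicHoms 𝒪 (Gamma0 (Nl (Fin.last m))) 𝒪)) := by
  have h1 : R₀.tr σ = TtH (L₀.side (Fin.last m)) ⟨ℓ, hℓ⟩ hℓS := by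
    apply Subtype.ext
    exact R₀.trace_frob ℓ hℓ (fun h => hℓS (hSb₀ h)) A hA σ hσ
  rw [tr0Of, h1]
  exact actOf_TtH L₀ Sres₀ hS₀ ⟨ℓ, hℓ⟩ hℓS y

end Ctl

section Compare

variable {𝒪 : Type} [CommRing 𝒪] [IsDomain 𝒪] [IsDiscreteValuationRing 𝒪]
  [IsAdicComplete (maximalIdeal 𝒪) 𝒪]
  {p : ℕ} {lam : 𝒪} {c : Nat.Primes → 𝒪} {m : ℕ} {Nl : Fin (m + 1) → ℕ} [∀ i, NeZero (Nl i)]
  {qc : Fin m → ℕ} {hqc : ∀ j, (qc j).Prime} {d : Fin (m + 1) → ℕ}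
  {n₀ : ℕ} {Q₀ : Fin 0 → ℕ}
  {Nt₀ Nbig₀ : Fin (m + 1) → ℕ} [∀ i, NeZero (Nt₀ i)] [∀ i, NeZero (Nbig₀ i)]
  [∀ j : Fin m, NeZero (Nbig₀ j.castSucc * qc j)] {hqN₀ : ∀ j : Fin m, ¬ qc j ∣ Nbig₀ j.castSucc}
  (L₀ : TWModChainLevel p lam c Nl qc hqc d 0 n₀ Q₀ Nt₀ Nbig₀ hqN₀)
  {r n : ℕ} {Q : Fin r → ℕ}
  {Nt Nbig : Fin (m + 1) → ℕ} [∀ i, NeZero (Nt i)] [∀ i, NeZero (Nbig i)]
  [∀ j : Fin m, NeZero (Nbig j.castSucc * qc j)] {hqN : ∀ j : Fin m, ¬ qc j ∣ Nbig j.castSucc}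
  (L : TWModChainLevel p lam c Nl qc hqc d r n Q Nt Nbig hqN)
  {ρbar : ResidualGaloisRep (ResidueField 𝒪)}
  {Sb₀ Sres₀ : Finset ℕ} {Nlev₀ : ℕ}
  (R₀ : LevelRep (L₀.side (Fin.last m)) ρbar Sb₀ Sres₀ Nlev₀ Q₀)
  {Sb Sres : Finset ℕ} {Nlev : ℕ}
  (Rt : LevelRep (L.side (Fin.last m)) ρbar Sb Sres Nlev Q)

set_option quotPrecheck false in
local notation "M0" => ↥(lvlMod 𝒪 p (Nl (Fin.last m)) (Nl (Fin.last m)) c)

set_option maxHeartbeats 1600000 in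
/-- **the control map of every Taylor–Wiles level intertwines the traces with `tr0`.** -/
theorem ctl_trace_tr0Of (hSS : Sres₀ ⊆ Sres)
    (hS₀ : ∀ ℓ : ℕ, ℓ ∉ Sres₀ → ℓ ∉ badSet p (Nl (Fin.last m)) ∪ Set.range Q₀)
    (hS : ∀ ℓ : ℕ, ℓ ∉ Sres → ℓ ∉ badSet p (Nl (Fin.last m)) ∪ Set.range Q)
    (σ : GQ) (x : (L.side (Fin.last m)).H) :
    L.ctl (Fin.last m)
      (((Rt.tr σ : heckeAlg (L.side (Fin.last m)) Sres) :
        Module.End 𝒪 (L.side (Fin.last m)).H) x) =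
      tr0Of L₀ R₀ σ (L.ctl (Fin.last m) x) := by
  classical
  haveI := R₀.isLocalRingA
  haveI := R₀.isLocalHomA
  haveI := Rt.isLocalRingA
  haveI := Rt.isLocalHomA
  haveI : Module.Finite 𝒪 (heckeAlg (L₀.side (Fin.last m)) Sres₀) := finite_heckeAlg _ _
  haveI : IsNoetherianRing (heckeAlg (L₀.side (Fin.last m)) Sres₀) :=
    IsNoetherianRing.of_finite 𝒪 _
  -- the generators
  set τ : Nat.Primes → heckeAlg (L₀.side (Fin.last m)) Sres₀ := fun ℓ =>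
    if h : (ℓ : ℕ) ∉ Sres₀ then TtH (L₀.side (Fin.last m)) ℓ h else 0 with hτ
  have hτ' : ∀ (ℓ : Nat.Primes) (h : (ℓ : ℕ) ∉ Sres₀), τ ℓ = TtH (L₀.side (Fin.last m)) ℓ h :=
    fun ℓ h => by rw [hτ]; simp only; rw [dif_pos h]
  have hgen : ∀ (ℓ : Nat.Primes), (ℓ : ℕ) ∉ Sres → ∀ x : (L.side (Fin.last m)).H,
      L.ctl (Fin.last m) ((L.side (Fin.last m)).Tt ℓ x) =
        actOf L₀ Sres₀ (τ ℓ) (L.ctl (Fin.last m) x) := by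
    intro ℓ hℓ x
    have hℓ₀ : (ℓ : ℕ) ∉ Sres₀ := fun h => hℓ (hSS h)
    apply Subtype.ext
    rw [hτ' ℓ hℓ₀, actOf_TtH L₀ Sres₀ hS₀ ℓ hℓ₀]
    exact L.ctl_Tt (Fin.last m) ℓ (hS ℓ hℓ) x
  obtain ⟨f, hf⟩ := exists_algHom_of_intertwine (L.ctl (Fin.last m)) (L.ctl_surjective _)
    (actOf L₀ Sres₀) (actOf_injective L₀ Sres₀) (heckeSet (L.side (Fin.last m)) Sres) (by
      rintro a ⟨ℓ, hℓS, rfl⟩
      exact ⟨τ ℓ, fun x => hgen ℓ hℓS x⟩)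
  have hfT : ∀ (ℓ : Nat.Primes) (hℓS : (ℓ : ℕ) ∉ Sres),
      f (TtH (L.side (Fin.last m)) ℓ hℓS) = τ ℓ := by
    intro ℓ hℓS
    apply actOf_injective L₀ Sres₀
    apply LinearMap.ext
    intro y
    obtain ⟨x, rfl⟩ := L.ctl_surjective (Fin.last m) y
    rw [← hf (TtH (L.side (Fin.last m)) ℓ hℓS) x, ← hgen ℓ hℓS x]
    rfl
  have htr : f (Rt.tr σ) = R₀.tr σ := by
    refine toT_trace_gen (L.side (Fin.last m)) Sres f τ hfT R₀.ρ ?_ Rt.ρ Rt.charpoly_frob σ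
    intro ℓ hℓ hℓS P hP σ' hσ'
    have hℓ₀ : ℓ ∉ Sres₀ := fun h => hℓS (hSS h)
    rw [R₀.charpoly_frob ℓ hℓ hℓ₀ P hP σ' hσ', hτ' ⟨ℓ, hℓ⟩ hℓ₀]
  rw [tr0Of, ← htr]
  exact hf (Rt.tr σ) x

end Compare

end Fermat.Agent.ML.PROD
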