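/-
PROJECT ML (S59) — [PR-2] (helper9), file 6: **the Taylor–Wiles data `TWChainGalois` of one
Taylor–Wiles set**, from the module side (`L`, and `L₀` for `r = 0`), Layer B at every level of
positive rank, the chain case at `p`, the control maps, and `REPTL.nonempty_twChainGalois`.
-/
import Mathlib
import Fermat.Agent.ML.PROD_helper9_AtP
import Fermat.Agent.ML.PROD_helper9_Ctl

set_option autoImplicit false
set_option linter.unusedSectionVars false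
set_option linter.unusedVariables false
set_option linter.style.haveILetI false

namespace Fermat.Agent.ML.PROD

open Polynomial IsLocalRing Fermat.Agent.RB Fermat.Agent.RB.REPT Fermat.Agent.ML.REPTL

local notation "Ω" => AlgebraicClosure ℚ
local notation "GQ" => (AlgebraicClosure ℚ ≃ₐ[ℚ] AlgebraicClosure ℚ)

section Sets

variable {p : ℕ} {m : ℕ} {Nl : Fin (m + 1) → ℕ} {qc : Fin m → ℕ} {r : ℕ} {Q : Fin r → ℕ}
  (hnum : ChainNum p Nl qc Q)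
  (S : Finset ℕ) (hS : ∀ ℓ : ℕ, ℓ ∈ S ↔ ℓ.Prime ∧ (ℓ = p ∨ ℓ ∣ Nl 0))

include hnum hS

theorem notMem_S_of_notMem_Sb (i : Fin (m + 1)) {q : ℕ} (hq : q ∉ Sb p Nl Q i) : q ∉ S := by
  intro hqS
  apply hq
  obtain ⟨h1, h2⟩ := (hS q).1 hqS
  rw [mem_Sb hnum.pprime (hnum.Nl_ne_zero i)]
  exact Or.inl ⟨h1, h2.imp id fun h3 => h3.trans (hnum.Nl_dvd_of_le (Fin.zero_le i))⟩

theorem notMem_Sb_last_of_notMem {q : ℕ} (hq : q.Prime)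
    (hqS : q ∉ S ∪ Finset.univ.image qc ∪ Finset.univ.image Q) : q ∉ Sb p Nl Q (Fin.last m) := by
  rw [mem_Sb hnum.pprime (hnum.Nl_ne_zero _)]
  simp only [Finset.mem_union, Finset.mem_image, Finset.mem_univ, true_and, not_or] at hqS
  obtain ⟨⟨h1, h2⟩, h3⟩ := hqS
  rintro (⟨-, h4 | h4⟩ | ⟨k, hk⟩)
  · exact h1 ((hS q).2 ⟨hq, Or.inl h4⟩)
  · rcases (hnum.prime_dvd_last_iff hq).1 h4 with h5 | ⟨j, hj⟩
    · exact h1 ((hS q).2 ⟨hq, Or.inr h5⟩)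
    · exact h2 ⟨j, hj.symm⟩
  · exact h3 ⟨k, hk⟩

theorem dvd_last_of_mem {ℓ : ℕ} (hℓ : ℓ ∈ S ∪ Finset.univ.image qc) (hℓp : ℓ ≠ p) :
    ℓ ∣ Nl (Fin.last m) := by
  rcases Finset.mem_union.1 hℓ with h1 | h1
  · obtain ⟨-, h2⟩ := (hS ℓ).1 h1
    exact (h2.resolve_left hℓp).trans (hnum.Nl_dvd_last 0)
  · obtain ⟨j, -, rfl⟩ := Finset.mem_image.1 h1
    exact hnum.cq_dvd_last j

end Sets

theorem Sb_zero_subset {p : ℕ} {m : ℕ} {Nl : Fin (m + 1) → ℕ} {r : ℕ} (Q : Fin r → ℕ)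
    (Q₀ : Fin 0 → ℕ) (i : Fin (m + 1)) : Sb p Nl Q₀ i ⊆ Sb p Nl Q i := by
  intro ℓ hℓ
  simp only [Sb, Finset.mem_union, Finset.mem_image, Finset.mem_univ, true_and] at hℓ ⊢
  rcases hℓ with h | ⟨k, -⟩
  · exact Or.inl h
  · exact k.elim0

section TW

variable {𝒪 : Type} [CommRing 𝒪] [IsDomain 𝒪] [IsDiscreteValuationRing 𝒪]
  [IsAdicComplete (maximalIdeal 𝒪) 𝒪] [Finite (ResidueField 𝒪)] [CharZero 𝒪]
  {p : ℕ} {lam : 𝒪} {c : Nat.Primes → 𝒪} {m : ℕ} {Nl : Fin (m + 1) → ℕ} [∀ i, NeZero (Nl i)]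
  {qc : Fin m → ℕ} {hqc : ∀ j, (qc j).Prime} {d : Fin (m + 1) → ℕ}
  {n₀ : ℕ} {Q₀ : Fin 0 → ℕ}
  {Nt₀ Nbig₀ : Fin (m + 1) → ℕ} [∀ i, NeZero (Nt₀ i)] [∀ i, NeZero (Nbig₀ i)]
  [∀ j : Fin m, NeZero (Nbig₀ j.castSucc * qc j)] {hqN₀ : ∀ j : Fin m, ¬ qc j ∣ Nbig₀ j.castSucc}
  (L₀ : TWModChainLevel p lam c Nl qc hqc d 0 n₀ Q₀ Nt₀ Nbig₀ hqN₀)
  (hNbig₀ : ∀ i, Nbig₀ i = Nl i * (∏ k, Q₀ k) ^ 2)
  (hnum₀ : ChainNum p Nl qc Q₀)
  {r n : ℕ} {Q : Fin r → ℕ}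
  {Nt Nbig : Fin (m + 1) → ℕ} [∀ i, NeZero (Nt i)] [∀ i, NeZero (Nbig i)]
  [∀ j : Fin m, NeZero (Nbig j.castSucc * qc j)] {hqN : ∀ j : Fin m, ¬ qc j ∣ Nbig j.castSucc}
  (L : TWModChainLevel p lam c Nl qc hqc d r n Q Nt Nbig hqN)
  (hNt : ∀ i, Nt i = Nl i * ∏ k, Q k) (hNbig : ∀ i, Nbig i = Nl i * (∏ k, Q k) ^ 2)
  (hnum : ChainNum p Nl qc Q)
  {ρbar : ResidualGaloisRep (ResidueField 𝒪)}

set_option maxHeartbeats 1600000 in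
include L hNt hNbig hnum in
/-- **the Taylor–Wiles data of one Taylor–Wiles set.** -/
theorem nonempty_twChainGalois_of_level [Fact p.Prime]
    (hLG : LevelGaloisPlusStatement)
    (hKey : ∀ (M : ℕ) [NeZero M], 5 ≤ M → ThetaKillsJ1Odd M p)
    (hSK : SteinbergOfKillStatement) (hTres : StrictOfTresStatement)
    (hOld : AtPOldPointStatement) (hNew : AtPNewPointStatement)
    (hp𝒪 : (p : 𝒪) ∈ maximalIdeal 𝒪) (hlam : Irreducible lam)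
    {pc : PCase} {sgn : Fin m → 𝒪} {K : Fin m → ChainKind}
    (hres : IsResChain ρbar p pc qc sgn K)
    (habs : ρbar.IsAbsolutelyIrreducible)
    (hdetc : LinearMap.det (ρbar.ρ complexConjugation) = -1)
    (hbarchar : ∀ (ℓ : ℕ) (hℓ : ℓ.Prime), ℓ ∉ badSet p (Nl (Fin.last m)) →
      ∀ A : ValuationSubring Ω, A.LiesOverPrime ℓ → ∀ σ : GQ, A.IsFrobeniusAt σ ℓ →
        LinearMap.charpoly (ρbar.ρ σ) =
          X ^ 2 - C (residue 𝒪 (c ⟨ℓ, hℓ⟩)) * X + C ((ℓ : ℕ) : ResidueField 𝒪))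
    (S : Finset ℕ) (hS : ∀ ℓ : ℕ, ℓ ∈ S ↔ ℓ.Prime ∧ (ℓ = p ∨ ℓ ∣ Nl 0))
    (hunr_out : ∀ ℓ : ℕ, ℓ.Prime → ℓ ∉ S → ρbar.IsUnramifiedAt ℓ)
    (hordbar : pc ≠ PCase.flat → (GaloisRepAdic.ofResidualGaloisRep ρbar).IsOrdinaryAt p)
    (hpdvd : p ∣ Nl (Fin.last m) ↔ pc ≠ PCase.flat)
    (htres : pc = PCase.strict → ¬ IsPeuRamifieeAt ρbar p)
    (h5 : ∀ i, 0 < d i → 5 ≤ Nl i) (hdt : 0 < d (Fin.last m))
    -- the representation of `W`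
    (ρW : GaloisRepAdic 𝒪)
    (hWtr : ∀ σ : GQ, residue 𝒪 (ρW.trace σ) =
      LinearMap.trace (ResidueField 𝒪) ρbar.V (ρbar.ρ σ))
    (hWirr : ρW.residual.IsAbsolutelyIrreducible)
    (t₂ : ℕ → 𝒪)
    (hWchar : ∀ ℓ : ℕ, ℓ.Prime → ℓ ∉ badSet p (Nl (Fin.last m)) →
      ∀ A : ValuationSubring Ω, A.LiesOverPrime ℓ → ∀ σ : GQ, A.IsFrobeniusAt σ ℓ →
        LinearMap.charpoly (ρW.ρ σ) = X ^ 2 - C (t₂ ℓ) * X + C ((ℓ : ℕ) : 𝒪))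
    (hWdet : ρW.DetIsCyclotomic p)
    (hWunr : ∀ ℓ : ℕ, ℓ.Prime → ℓ ∉ S ∪ Finset.univ.image qc → ρW.IsUnramifiedAt ℓ)
    (hWunip : ∀ ℓ : ℕ, ℓ.Prime → ℓ ≠ p → ρW.IsUnipotentOnInertiaAt ℓ)
    (hWflat : pc = PCase.flat → ρW.IsFlatAt p)
    (hWord : pc ≠ PCase.flat → ρW.IsOrdinaryAt p)
    -- the level with no Taylor–Wiles prime
    (hunrbar₀ : ∀ (i : Fin (m + 1)) (q : ℕ), q.Prime → q ∉ Sb p Nl Q₀ i → ρbar.IsUnramifiedAt q)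
    (hord' : ∀ i : Fin (m + 1), p ∣ Nl i →
      (GaloisRepAdic.ofResidualGaloisRep ρbar).IsOrdinaryAt p)
    (LG₀ : LevelGalois (L₀.side (Fin.last m)) ρbar (Nbig₀ (Fin.last m))
      (Sb p Nl Q₀ (Fin.last m)) Q₀)
    (ha₀ : ∀ q : ℕ, q.Prime → ¬ q ∣ Nbig₀ (Fin.last m) → q ≠ p → ρbar.IsUnramifiedAt q →
      LG₀.datum.ρ.IsUnramifiedAt q)
    (hb₀ : ∀ (ℓ : ℕ) (hℓ : ℓ.Prime), ℓ ∉ Sb p Nl Q₀ (Fin.last m) → ∀ P : ValuationSubring Ω,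
      P.LiesOverPrime ℓ → ∀ σ : GQ, P.IsFrobeniusAt σ ℓ →
        ((LG₀.f (LG₀.datum.ρ.trace σ) :
          heckeAlg (L₀.side (Fin.last m)) (Sb p Nl Q₀ (Fin.last m))) :
          Module.End 𝒪 (L₀.side (Fin.last m)).H) = (L₀.side (Fin.last m)).Tt ⟨ℓ, hℓ⟩) :
    Nonempty (TWChainGalois p ρW ρbar S pc qc sgn r d (fun _ => 2)
      ↥(lvlMod 𝒪 p (Nl (Fin.last m)) (Nl (Fin.last m)) c)
      (tr0Of L₀ (levelRepOfChain L₀ hNbig₀ hnum₀ hp𝒪 hunrbar₀ hord' (Fin.last m) LG₀ ha₀ hb₀))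
      n Q) := by
  classical
  have hp := hnum.pprime
  have hp2 := hnum.p2
  have hunrbar : ∀ (i : Fin (m + 1)) (q : ℕ), q.Prime → q ∉ Sb p Nl Q i →
      ρbar.IsUnramifiedAt q := fun i q hq hqS =>
    hunr_out q hq (notMem_S_of_notMem_Sb hnum S hS i hqS)
  -- Layer B at the levels of positive rank
  have hLGi : ∀ (i : Fin (m + 1)) (hi : 0 < d i),
      ∃ LG : LevelGalois (L.side i) ρbar (Nbig i) (Sb p Nl Q (Fin.last m)) Q,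
        (∀ q : ℕ, q.Prime → ¬ q ∣ Nbig i → q ≠ p → ρbar.IsUnramifiedAt q →
          LG.datum.ρ.IsUnramifiedAt q) ∧
        (∀ (ℓ : ℕ) (hℓ : ℓ.Prime), ℓ ∉ Sb p Nl Q i → ∀ P : ValuationSubring Ω,
          P.LiesOverPrime ℓ → ∀ σ : GQ, P.IsFrobeniusAt σ ℓ →
            ((LG.f (LG.datum.ρ.trace σ) : heckeAlg (L.side i) (Sb p Nl Q (Fin.last m))) :
              Module.End 𝒪 (L.side i).H) = (L.side i).Tt ⟨ℓ, hℓ⟩) := fun i hi =>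
    exists_levelGalois_of_chain L hNt hNbig hnum hLG hKey hp𝒪 hlam habs hdetc hbarchar i hi
      (h5 i hi)
  choose LG hLGa hLGb using hLGi
  -- the chain case
  obtain ⟨Zt, hZt, hP1, hP2⟩ : ∃ Zt : heckeAlg (L.side (Fin.last m)) (Sb p Nl Q (Fin.last m)),
      (pc = PCase.chain → ∀ P : ValuationSubring Ω, P.LiesOverPrime p → ∀ φ : GQ,
        P.IsFrobeniusAt φ p →
        @OrdQuotScalar (heckeAlg (L.side (Fin.last m)) (Sb p Nl Q (Fin.last m))) _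
          (levelRepOfChain L hNbig hnum hp𝒪 hunrbar hord' (Fin.last m) (LG _ hdt) (hLGa _ hdt)
            (hLGb _ hdt)).isLocalRingA
          (levelRepOfChain L hNbig hnum hp𝒪 hunrbar hord' (Fin.last m) (LG _ hdt) (hLGa _ hdt)
            (hLGb _ hdt)).ρ P φ Zt) ∧
      (pc = PCase.chain → ∀ j : Fin m, qc j = p →
        E L (Sb p Nl Q (Fin.last m)) (notMem_of_notMem_Sres hnum) hnum.hNl j.castSucc Zt *
            E L (Sb p Nl Q (Fin.last m)) (notMem_of_notMem_Sres hnum) hnum.hNl j.castSucc Zt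
          - L.Tq j *
            E L (Sb p Nl Q (Fin.last m)) (notMem_of_notMem_Sres hnum) hnum.hNl j.castSucc Zt
          + algebraMap 𝒪 (Module.End 𝒪 (L.side j.castSucc).H) (p : 𝒪) = 0) ∧
      (pc = PCase.chain → ∀ j : Fin m, qc j = p → ∀ x : (L.side j.succ).H,
        ∃ y : Fin 2 → (L.side j.castSucc).H,
          E L (Sb p Nl Q (Fin.last m)) (notMem_of_notMem_Sres hnum) hnum.hNl j.succ (Zt ^ 2 - 1) x
            = ∑ c', L.iota j c' (y c')) := by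
    by_cases hpc : pc = PCase.chain
    · have hpl : p ∣ Nl (Fin.last m) := hpdvd.2 (by rw [hpc]; decide)
      obtain ⟨Zt, h1, h2, h3⟩ := chain_case_data L hNbig hnum hOld hNew hp𝒪 hres hunrbar hord' hpl
        (LG _ hdt) (hLGa _ hdt) (hLGb _ hdt)
      exact ⟨Zt, fun _ => h1, fun _ => h2, fun _ => h3⟩
    · exact ⟨0, fun h => absurd h hpc, fun h => absurd h hpc, fun h => absurd h hpc⟩
  refine nonempty_twChainGalois L (Sb p Nl Q (Fin.last m)) (notMem_of_notMem_Sres hnum) hnum.hNl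
    hSK hTres hp2 hp𝒪 hres hnum.Qprime (Sb p Nl Q)
    (fun i hi => levelRepOfChain L hNbig hnum hp𝒪 hunrbar hord' i (LG i hi) (hLGa i hi)
      (hLGb i hi)) hdt (fun i j hij hjp => hnum.cq_notMem_Sb i j hij hjp) ρW hWtr hWirr t₂
    (fun ℓ hℓ hℓS A hA σ hσ => hWchar ℓ hℓ
      (fun h => notMem_of_notMem_Sres hnum ℓ hℓS (Or.inl h)) A hA σ hσ)
    hWdet S hWunr hWunip hWflat hWord
    (fun q hq hqS => notMem_Sb_last_of_notMem hnum S hS hq hqS)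
    (fun ℓ hℓ _ hℓp => dvd_last_of_mem hnum S hS hℓ hℓp)
    (fun hpc => fun hd => (hpdvd.1 hd) hpc) (fun hpc => hpdvd.2 hpc) htres Zt hZt hP1 hP2
    (L.ctl (Fin.last m)) (L.ctl_surjective _) (L.ker_ctl _) _ ?_
  intro σ x
  exact ctl_trace_tr0Of L₀ L _ _ (Sb_zero_subset Q Q₀ _) (notMem_of_notMem_Sres hnum₀)
    (notMem_of_notMem_Sres hnum) σ x

end TW

end Fermat.Agent.ML.PROD
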