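/-
PROJECT ML (S59) — [PR-2] (helper9), file 7: **`ProducerOfSettingStatement` from the leaves**:
the module side `TWModChainStatement` (helper2), Layer B `LevelGaloisPlusStatement` (helper1),
(KEY-H), `SteinbergOfKillStatement` (helper5), `StrictOfTresStatement` (lead),
`AtPOldPointStatement` (helper1), `AtPNewPointStatement` (helper4), and the two small leaves
`FiveLeOfLvlModStatement`, `ModularOfLevel0Statement` of `ML/IFACE_helper9_Prod2`.
-/
import Mathlib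
import Fermat.Agent.ML.IFACE_helper9_Prod2
import Fermat.Agent.ML.PROD_helper9_Hyps
import Fermat.Agent.ML.PROD_helper9_TW

set_option autoImplicit false
set_option linter.unusedSectionVars false
set_option linter.unusedVariables false
set_option linter.style.haveILetI false

namespace Fermat.Agent.ML.PROD

open Polynomial IsLocalRing Fermat.Agent.RB Fermat.Agent.RB.REPT Fermat.Agent.ML.REPTL

local notation "Ω" => AlgebraicClosure ℚ
local notation "GQ" => (AlgebraicClosure ℚ ≃ₐ[ℚ] AlgebraicClosure ℚ)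

section Side

variable {𝒪 : Type} [CommRing 𝒪] [Nontrivial 𝒪] {p r d n : ℕ} (Y : TWModSide 𝒪 p r d n)

/-- a level of positive rank is not zero. -/
theorem nontrivial_of_rank_pos (hd : 0 < d) (hp : 0 < p) : Nontrivial Y.H := by
  classical
  haveI : Nonempty (Fin d × (Fin r → Fin (p ^ n))) := ⟨(⟨0, hd⟩, fun _ => ⟨0, pow_pos hp n⟩)⟩
  exact Y.free.1.nontrivial

end Side

section Setting

variable {W : WeierstrassCurve ℤ} {p : ℕ} [Fact p.Prime] (CS : ChainSetting W p)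

/-- the numerics with no Taylor–Wiles prime -/
theorem chainNum_zero (hp2 : p ≠ 2) (Q₀ : Fin 0 → ℕ) : ChainNum p CS.Nl CS.cq Q₀ where
  pprime := Fact.out
  p2 := hp2
  hNl := CS.Nl_succ
  sqf := CS.Nl_squarefree
  cqprime := CS.resChain.prime
  Qinj := fun a => a.elim0
  Qprime := fun a => a.elim0
  Qnot := fun a => a.elim0
  Q1 := fun a => a.elim0

/-- the numerics of a Taylor–Wiles set -/
theorem chainNum_of_isTWSet (hp2 : p ≠ 2) {r n : ℕ} {Q : Fin r → ℕ}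
    (hQ : IsTWSet CS.ρbar p (CS.S ∪ Finset.univ.image CS.cq) n Q) (hQp : ∀ q, p ∣ Q q - 1) :
    ChainNum p CS.Nl CS.cq Q where
  pprime := Fact.out
  p2 := hp2
  hNl := CS.Nl_succ
  sqf := CS.Nl_squarefree
  cqprime := CS.resChain.prime
  Qinj := hQ.injective
  Qprime := hQ.prime
  Qnot := by
    intro k hk
    have hp : p.Prime := Fact.out
    apply hQ.notMem k
    obtain ⟨h1, h2 | h2⟩ := hk
    · exact Finset.mem_union_left _ ((CS.mem_S _).2 ⟨h1, Or.inl h2⟩)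
    · rcases ((chainNum_zero CS hp2 Fin.elim0).prime_dvd_last_iff h1).1 h2 with h3 | ⟨j, hj⟩
      · exact Finset.mem_union_left _ ((CS.mem_S _).2 ⟨h1, Or.inr h3⟩)
      · exact Finset.mem_union_right _ (Finset.mem_image.2 ⟨j, Finset.mem_univ j, hj.symm⟩)
  Q1 := hQp

/-- the Frobenius characteristic polynomials of `ρ̄` in terms of the constants `c` -/
theorem hbarchar_of_setting (ℓ : ℕ) (hℓ : ℓ.Prime) (hbad : ℓ ∉ badSet p (CS.Nl (Fin.last CS.m)))
    (A : ValuationSubring Ω) (hA : A.LiesOverPrime ℓ) (σ : GQ) (hσ : A.IsFrobeniusAt σ ℓ) :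
    LinearMap.charpoly (CS.ρbar.ρ σ) =
      X ^ 2 - C (residue CS.𝒪 (CS.c ⟨ℓ, hℓ⟩)) * X + C ((ℓ : ℕ) : ResidueField CS.𝒪) := by
  rw [CS.c_res ⟨ℓ, hℓ⟩ hbad]
  exact CS.ρbar_charpoly ℓ hℓ hbad A hA σ hσ

theorem ord_of_dvd (hp2 : p ≠ 2) (i : Fin (CS.m + 1)) (hpi : p ∣ CS.Nl i) :
    (GaloisRepAdic.ofResidualGaloisRep CS.ρbar).IsOrdinaryAt p :=
  CS.ρbar_ord (CS.p_dvd_iff.1 (hpi.trans ((chainNum_zero CS hp2 Fin.elim0).Nl_dvd_last i)))

/-- a level whose module is not zero has positive rank -/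
theorem rank_pos_of_ne_bot {d : Fin (CS.m + 1) → ℕ}
    (hd : ∀ i, Module.Free CS.𝒪 ↥(lvlMod CS.𝒪 p (CS.Nl (Fin.last CS.m)) (CS.Nl i) CS.c) ∧
      Module.Finite CS.𝒪 ↥(lvlMod CS.𝒪 p (CS.Nl (Fin.last CS.m)) (CS.Nl i) CS.c) ∧
      Module.finrank CS.𝒪 ↥(lvlMod CS.𝒪 p (CS.Nl (Fin.last CS.m)) (CS.Nl i) CS.c) = d i)
    (i : Fin (CS.m + 1)) :
    0 < d i ↔ lvlMod CS.𝒪 p (CS.Nl (Fin.last CS.m)) (CS.Nl i) CS.c ≠ ⊥ := by
  obtain ⟨h1, h2, h3⟩ := hd i
  haveI := h1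
  haveI := h2
  rw [← h3, Module.finrank_pos_iff_of_free, Submodule.nontrivial_iff_ne_bot]

end Setting

section Main

variable {W : WeierstrassCurve ℤ} {p : ℕ} [Fact p.Prime]

set_option maxHeartbeats 4000000 in
/-- **[PR-2] from the leaves.** -/
theorem nonempty_liftSetting (hMod : TWModChainStatement) (hLG : LevelGaloisPlusStatement)
    (hKey : ∀ (M : ℕ) [NeZero M], 5 ≤ M → ThetaKillsJ1Odd M p)
    (hSK : SteinbergOfKillStatement) (hTres : StrictOfTresStatement)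
    (hOld : AtPOldPointStatement) (hNew : AtPNewPointStatement)
    (hFive : FiveLeOfLvlModStatement) (hModular : ModularOfLevel0Statement)
    (hp2 : p ≠ 2) (CS : ChainSetting W p) : Nonempty (LiftSetting W p) := by
  classical
  have hp : p.Prime := Fact.out
  have hqc : ∀ j, (CS.cq j).Prime := CS.resChain.prime
  have hnum₀ := chainNum_zero CS hp2 (Fin.elim0 : Fin 0 → ℕ)
  have hNtop : CS.Nl (Fin.last CS.m) ≠ 0 := hnum₀.Nl_ne_zero _
  obtain ⟨d, hd, hTW⟩ := hMod p hp2 CS.p_mem CS.lam CS.lam_irreducible CS.Nl CS.cq hqc CS.Nl_succ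
    CS.Nl_squarefree CS.Nl_zero_ne_one CS.c
    (hNE_of_absIrr hp CS.p_mem CS.ρbar CS.absIrr _ hNtop CS.c (hbarchar_of_setting CS)) CS.w2
  -- the module levels
  have hL : ∀ (r n : ℕ) (Q : Fin r → ℕ) (hnum : ChainNum p CS.Nl CS.cq Q)
      (hcong : ∀ k, p ^ n ∣ Q k - 1)
      (hdist : ∀ k, ∀ P : ValuationSubring Ω, P.LiesOverPrime (Q k) → ∀ φ : GQ,
        P.IsFrobeniusAt φ (Q k) → ∃ α β : ResidueField CS.𝒪, α ≠ β ∧
          LinearMap.charpoly (CS.ρbar.ρ φ) = (X - C α) * (X - C β)),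
      ∃ (Nt Nbig : Fin (CS.m + 1) → ℕ) (_ : ∀ i, NeZero (Nt i)) (_ : ∀ i, NeZero (Nbig i))
        (_ : ∀ j : Fin CS.m, NeZero (Nbig j.castSucc * CS.cq j))
        (hqN : ∀ j : Fin CS.m, ¬ CS.cq j ∣ Nbig j.castSucc),
        (∀ i, Nt i = CS.Nl i * ∏ k, Q k) ∧ (∀ i, Nbig i = CS.Nl i * (∏ k, Q k) ^ 2) ∧
        Nonempty (TWModChainLevel p CS.lam CS.c CS.Nl CS.cq hqc d r n Q Nt Nbig hqN) := by
    intro r n Q hnum hcong hdist
    haveI i1 : ∀ i, NeZero (CS.Nl i * ∏ k, Q k) := fun i => ⟨(hnum.Nt_pos i).ne'⟩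
    haveI i2 : ∀ i, NeZero (CS.Nl i * (∏ k, Q k) ^ 2) := fun i => ⟨(hnum.Nbig_pos i).ne'⟩
    haveI i3 : ∀ j : Fin CS.m, NeZero (CS.Nl j.castSucc * (∏ k, Q k) ^ 2 * CS.cq j) := fun j =>
      ⟨(Nat.mul_pos (hnum.Nbig_pos _) (hqc j).pos).ne'⟩
    refine ⟨fun i => CS.Nl i * ∏ k, Q k, fun i => CS.Nl i * (∏ k, Q k) ^ 2, i1, i2, i3,
      hnum.cq_not_dvd_Nbig, fun _ => rfl, fun _ => rfl, ?_⟩
    exact hTW r n Q hnum.Qinj hnum.Qprime hnum.Qnot hcong hnum.Q1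
      (fun k hq => roots_of_isTWSet CS.ρbar _ CS.c (hbarchar_of_setting CS) hq (hnum.Qnot k)
        (hdist k))
      (fun i => CS.Nl i * ∏ k, Q k) (fun i => CS.Nl i * (∏ k, Q k) ^ 2) hnum.cq_not_dvd_Nbig
      (fun _ => rfl) (fun _ => rfl)
  -- the level with no Taylor–Wiles prime
  obtain ⟨Nt₀, Nbig₀, i1, i2, i3, hqN₀, hNt₀, hNbig₀, ⟨L₀⟩⟩ :=
    hL 0 0 Fin.elim0 hnum₀ (fun k => k.elim0) (fun k => k.elim0)
  haveI := i1
  haveI := i2
  haveI := i3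
  -- positivity of the ranks
  have hdpos := rank_pos_of_ne_bot CS hd
  have hmono : ∀ i, 0 < d i → 0 < d (Fin.last CS.m) := by
    intro i hi
    by_contra hlast
    have h0 : d (Fin.last CS.m) = 0 := by omega
    haveI := subsingleton_of_rank_zero (L₀.side (Fin.last CS.m)) h0
    haveI := nontrivial_of_rank_pos (L₀.side i) hi hp.pos
    obtain ⟨x, y, hxy⟩ := exists_pair_ne (L₀.side i).H
    exact hxy (up_injective L₀ i (Subsingleton.elim _ _))
  have hstart : (CS.pc ≠ PCase.chain ∧ 0 < d 0) ∨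
      (CS.pc = PCase.chain ∧ ∃ i : Fin (CS.m + 1), i.val = 1 ∧ 0 < d i) := by
    by_cases hpc : CS.pc = PCase.chain
    · right
      obtain ⟨j, hj⟩ := CS.resChain.eq_p_iff.2 hpc
      have hj0 := CS.resChain.eq_p_zero j hj
      have hj1 : (j.succ : Fin (CS.m + 1)).val = 1 := by rw [Fin.val_succ, hj0]
      exact ⟨hpc, j.succ, hj1,
        (hdpos _).2 (CS.occ j.succ (fun h => absurd hpc h) (fun _ => hj1))⟩
    · left
      exact ⟨hpc, (hdpos 0).2 (CS.occ 0 (fun _ => rfl) (fun h => absurd h hpc))⟩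
  have hdt : 0 < d (Fin.last CS.m) := by
    rcases hstart with ⟨-, h⟩ | ⟨-, i, -, h⟩
    · exact hmono _ h
    · exact hmono _ h
  have h5 : ∀ i, 0 < d i → 5 ≤ CS.Nl i := by
    intro i hi
    by_cases h : CS.pc = PCase.chain → i.val ≠ 0
    · exact CS.five_le i h
    · exact hFive p (CS.Nl (Fin.last CS.m)) (CS.Nl i) (hnum₀.sq_level i) (hnum₀.Nl_dvd_last i)
        CS.c (hd i).1 (hd i).2.1 ((hdpos i).1 hi)
  -- Layer B at the top level with no Taylor–Wiles prime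
  have hunrbar₀ : ∀ (i : Fin (CS.m + 1)) (q : ℕ), q.Prime →
      q ∉ Sb p CS.Nl (Fin.elim0 : Fin 0 → ℕ) i → CS.ρbar.IsUnramifiedAt q := fun i q hq hqS =>
    CS.unr_outside q hq (notMem_S_of_notMem_Sb hnum₀ CS.S CS.mem_S i hqS)
  have hord' := ord_of_dvd CS hp2
  obtain ⟨LG₀, ha₀, hb₀⟩ := exists_levelGalois_of_chain L₀ hNt₀ hNbig₀ hnum₀ hLG hKey CS.p_mem
    CS.lam_irreducible CS.absIrr CS.det_conj (hbarchar_of_setting CS) (Fin.last CS.m) hdt
    (h5 _ hdt)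
  refine ⟨{
    𝒪 := CS.𝒪
    p_mem := CS.p_mem
    lam := CS.lam
    lam_irreducible := CS.lam_irreducible
    ρW := CS.ρW
    ρbar := CS.ρbar
    absIrr := CS.absIrr
    det_cyc := CS.det_cyc
    split := CS.split
    irr_index_two := CS.irr_index_two
    S := CS.S
    p_mem_S := (CS.mem_S p).2 ⟨hp, Or.inl rfl⟩
    S_prime := fun q hq => ((CS.mem_S q).1 hq).1
    pc := CS.pc
    m := CS.m
    cq := CS.cq
    sgn := CS.sgn
    K := CS.K
    resChain := CS.resChain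
    peu := CS.peu
    cq_notMem := fun j hjp hjS => by
      obtain ⟨-, h1 | h1⟩ := (CS.mem_S _).1 hjS
      · exact hjp h1
      · exact hnum₀.cq_not_dvd 0 j (Nat.zero_le _) h1
    S_ram := CS.S_ram
    unr_outside := CS.unr_outside
    wPoint := CS.wPoint
    ρW_unr := CS.ρW_unr
    d := d
    kk := fun _ => 2
    M0 := ↥(lvlMod CS.𝒪 p (CS.Nl (Fin.last CS.m)) (CS.Nl (Fin.last CS.m)) CS.c)
    instFreeM0 := (hd (Fin.last CS.m)).1
    instFiniteM0 := (hd (Fin.last CS.m)).2.1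
    finrank_M0 := (hd (Fin.last CS.m)).2.2
    tr0 := tr0Of L₀ (levelRepOfChain L₀ hNbig₀ hnum₀ CS.p_mem hunrbar₀ hord' (Fin.last CS.m)
      LG₀ ha₀ hb₀)
    start := hstart
    tw := ?_
    modular := ?_ }⟩
  · intro r n Q hQ hQp
    have hnum := chainNum_of_isTWSet CS hp2 hQ hQp
    obtain ⟨Nt, Nbig, j1, j2, j3, hqN, hNt, hNbig, ⟨L⟩⟩ := hL r n Q hnum hQ.cong hQ.distinct
    haveI := j1
    haveI := j2
    haveI := j3
    exact nonempty_twChainGalois_of_level L₀ hNbig₀ hnum₀ L hNt hNbig hnum hLG hKey hSK hTres hOld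
      hNew CS.p_mem CS.lam_irreducible CS.resChain CS.absIrr CS.det_conj (hbarchar_of_setting CS)
      CS.S CS.mem_S CS.unr_outside CS.ρbar_ord CS.p_dvd_iff CS.tres h5 hdt CS.ρW
      CS.ρW_trace_residue CS.ρW_absIrr (fun ℓ => ((W.apOfModel ℓ : ℤ) : CS.𝒪)) CS.ρW_charpoly
      CS.ρW_det CS.ρW_unr CS.ρW_unip CS.ρW_flat CS.ρW_ord hunrbar₀ hord' LG₀ ha₀ hb₀
  · refine hModular p W (CS.Nl (Fin.last CS.m)) CS.Nl_squarefree CS.bad_dvd CS.c CS.lam
      CS.lam_irreducible (hd (Fin.last CS.m)).1 (hd (Fin.last CS.m)).2.1 _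
      (tr0Of_comm L₀ _) ?_ CS.ρW CS.ρW_charpoly
    intro ℓ hℓ hbad A hA σ hσ y
    refine tr0Of_frob L₀ _ (hnum₀.Sb_subset_last _) (notMem_of_notMem_Sres hnum₀) ℓ hℓ ?_ A hA σ
      hσ y
    intro hmem
    rcases (mem_Sb hp hNtop).1 hmem with h1 | ⟨k, -⟩
    · exact hbad h1
    · exact k.elim0

end Main

end Fermat.Agent.ML.PROD
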