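/-
PROJECT ML (S59) — [TWMOD-L] (helper2), part 21: **the group data of a Taylor–Wiles level for a
chain of levels**: the quotient `π`, its square root `σ` (which depend only on `M = ∏ Q`), and for
every level `N` with `M ∣ N ∣ Ntop` the classes `uQ` (reduction of those of the top level).
-/
import Mathlib
import Fermat.Agent.RB.TWMOD_helper1_Grp

set_option autoImplicit false
set_option linter.unusedSectionVars false
set_option linter.unusedVariables false
set_option linter.style.haveILetI false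

namespace Fermat.Agent.ML

open Fermat.Agent.RB Fermat.Agent.RB.TWM

/-- reduction of a class which is `1` modulo `T / q` is `1` modulo `N / q`. -/
theorem unitsMap_val_cast_eq_one {T N q : ℕ} [NeZero T] [NeZero N] (hN : N ∣ T) (hq : q ∣ N)
    (u : (ZMod T)ˣ) (hu : ((((u : (ZMod T)ˣ) : ZMod T).val : ℕ) : ZMod (T / q)) = 1) :
    (((((ZMod.unitsMap hN u : (ZMod N)ˣ) : ZMod N).val : ℕ) : ZMod (N / q))) = 1 := by
  have hd1 : N / q ∣ N := Nat.div_dvd_of_dvd hq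
  have hd2 : N / q ∣ T / q := Nat.div_dvd_div hq hN
  have hd3 : T / q ∣ T := Nat.div_dvd_of_dvd (hq.trans hN)
  have e1 : (((((ZMod.unitsMap hN u : (ZMod N)ˣ) : ZMod N).val : ℕ) : ZMod (N / q))) =
      ((ZMod.castHom hd1 (ZMod (N / q))).comp (ZMod.castHom hN (ZMod N))) (u : ZMod T) := by
    rw [ZMod.natCast_val, ZMod.unitsMap_val, RingHom.comp_apply, ZMod.castHom_apply,
      ZMod.castHom_apply]
  have e2 : ((ZMod.castHom hd1 (ZMod (N / q))).comp (ZMod.castHom hN (ZMod N))) =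
      (ZMod.castHom hd2 (ZMod (N / q))).comp (ZMod.castHom hd3 (ZMod (T / q))) :=
    Subsingleton.elim _ _
  have e3 : ZMod.castHom hd3 (ZMod (T / q)) (u : ZMod T) = 1 := by
    rw [ZMod.castHom_apply, ← ZMod.natCast_val]
    exact hu
  rw [e1, e2, RingHom.comp_apply, e3, map_one]

/-- **[GRP] for a chain of levels.** -/
theorem exists_grpData_chain (p : ℕ) [Fact p.Prime] (hp2 : p ≠ 2)
    (r n : ℕ) (Q : Fin r → ℕ) (hQinj : Function.Injective Q) (hQp : ∀ j, (Q j).Prime)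
    (hQn : ∀ j, p ^ n ∣ Q j - 1) (M : ℕ) (hMdef : M = ∏ j, Q j)
    (Ntop : ℕ) [NeZero Ntop] (hMtop : M ∣ Ntop) (hcop : Nat.Coprime M (Ntop / M)) :
    ∃ (π σ : (ZMod M)ˣ →* TWGrp p (∅ : Finset ℕ).card × TWGrp (p ^ n) r),
      Function.Surjective π ∧ (∀ u, σ u ^ 2 = π u) ∧ π (-1) = 1 ∧
      IsPGroup p (TWGrp p (∅ : Finset ℕ).card × TWGrp (p ^ n) r) ∧
      ∀ (N : ℕ) [NeZero N] (hM : M ∣ N) (_ : N ∣ Ntop),
        ∃ uQ : Fin r → (ZMod N)ˣ,
          (∀ q, ((((uQ q : (ZMod N)ˣ) : ZMod N).val : ℕ) : ZMod (N / Q q)) = 1) ∧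
          ∀ q, σ (ZMod.unitsMap hM (uQ q)) =
            ((1 : TWGrp p (∅ : Finset ℕ).card), twGen (p ^ n) r q) := by
  obtain ⟨π, σ, uQ, uS, δS, ψ₂, hπs, hσ2, hπ1, hpG, huQ, huS, hG1, hG2, hG3, hψζ, hψpow⟩ :=
    grpDataStatement (𝒪 := ℤ) p hp2 (1 : ℤ) (one_pow p) (∅ : Finset ℕ)
      (fun v hv => absurd hv (Finset.notMem_empty v)) r n Q hQinj hQp
      (fun j => Finset.notMem_empty _) hQn Ntop M
      (by rw [hMdef, Finset.prod_empty, one_mul]) hMtop hcop
  refine ⟨π, σ, hπs, hσ2, hπ1, hpG, fun N _ hM hN => ?_⟩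
  refine ⟨fun q => ZMod.unitsMap hN (uQ q), fun q => ?_, fun q => ?_⟩
  · have hq : Q q ∣ N := by
      refine Dvd.dvd.trans ?_ hM
      rw [hMdef]
      exact Finset.dvd_prod_of_mem Q (Finset.mem_univ q)
    exact unitsMap_val_cast_eq_one hN hq (uQ q) (huQ q)
  · have h1 : ZMod.unitsMap hM (ZMod.unitsMap hN (uQ q)) = ZMod.unitsMap hMtop (uQ q) := by
      rw [← MonoidHom.comp_apply, ZMod.unitsMap_comp]
    rw [h1]
    exact hG1 q

end Fermat.Agent.ML
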