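/-
PROJECT ML (S59) — [TWMOD-L] (helper2), part 20: **the data of one chain step** (`StepPack`): the
operator `Tq` at the chain prime, the degeneracy maps and traces between the sides of two
consecutive chain levels, Ihara at Taylor–Wiles level, and the points of the new submodule.
-/
import Mathlib
import Fermat.Agent.ML.TWMODL_helper2_Level
import Fermat.Agent.ML.TWMODL_helper2_OccNew

set_option autoImplicit false
set_option linter.unusedSectionVars false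
set_option linter.unusedVariables false
set_option linter.style.haveILetI false

namespace Fermat.Agent.ML

open CongruenceSubgroup Matrix ModularCurve.Period IsLocalRing
open scoped MatrixGroups
open Fermat.Agent.GR Fermat.Agent.LR Fermat.Agent.W1 Fermat.Agent.W1.ES Fermat.Agent.RB
  Fermat.Agent.RB.TWM Fermat.Agent.RB.TWL

/-- **the data of one chain step**: the fields of `TWModChainLevel` indexed by a step `j`, for two
abstract sides `X` (level `j`) and `X'` (level `j + 1`). -/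
structure StepPack {𝒪 : Type} [CommRing 𝒪] [IsDomain 𝒪] [IsDiscreteValuationRing 𝒪]
    {p r d d' n : ℕ} (X : TWModSide 𝒪 p r d n) (X' : TWModSide 𝒪 p r d' n)
    (q : ℕ) (hq : q.Prime) (SX SX' : Set ℕ) (Nb : ℕ) [NeZero Nb] [NeZero (Nb * q)]
    (hqN : ¬ q ∣ Nb) : Type where
  Tq : Module.End 𝒪 X.H
  Tq_eq : q ≠ p → Tq = X.Tt ⟨q, hq⟩
  Tq_comm_Tt : ∀ ℓ : Nat.Primes, Commute Tq (X.Tt ℓ)
  Tq_comm_g : ∀ k : Fin r, Commute Tq (X.g k)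
  Tq_reduced : q = p →
    ∀ t : (Algebra.adjoin 𝒪 (Set.range X.Tt ∪ Set.range X.g ∪ {Tq}) :
      Subalgebra 𝒪 (Module.End 𝒪 X.H)), t ^ 2 = 0 → t = 0
  Tq_occ : q = p →
    ∀ (B : Type) [CommRing B] [IsDomain B] [IsDiscreteValuationRing B]
    [Algebra 𝒪 B] [Module.Finite 𝒪 B]
    (x : (Algebra.adjoin 𝒪 (Set.range X.Tt ∪ Set.range X.g ∪ {Tq}) :
      Subalgebra 𝒪 (Module.End 𝒪 X.H)) →ₐ[𝒪] B),
    ∃ (B' : Type) (_ : CommRing B') (_ : IsDomain B') (_ : IsDiscreteValuationRing B')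
      (_ : Algebra B B') (_ : Module.Finite B B') (_ : Function.Injective (algebraMap B B'))
      (L' : Type) (_ : Field L') (_ : Algebra B' L') (_ : IsFractionRing B' L')
      (a' : Nat.Primes → B'),
      eigenPar Nb L' (mapSys B' L' a') ≠ ⊥ ∧
      (∀ (ℓ : Nat.Primes) (hℓ : (ℓ : ℕ) ∉ SX),
        a' ℓ = algebraMap B B' (x ⟨X.Tt ℓ,
          Algebra.subset_adjoin (Or.inl (Or.inl ⟨ℓ, rfl⟩))⟩)) ∧
      a' ⟨q, hq⟩ = algebraMap B B' (x ⟨Tq, Algebra.subset_adjoin (Or.inr rfl)⟩)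
  iota : Fin 2 → (X.H →ₗ[𝒪] X'.H)
  beta : Fin 2 → (X'.H →ₗ[𝒪] X.H)
  iota_g : ∀ (c' : Fin 2) (k : Fin r) (x : X.H), iota c' (X.g k x) = X'.g k (iota c' x)
  beta_g : ∀ (c' : Fin 2) (k : Fin r) (x : X'.H), beta c' (X'.g k x) = X.g k (beta c' x)
  iota_Tt : ∀ (c' : Fin 2) (ℓ : Nat.Primes), (ℓ : ℕ) ∉ SX' → ∀ x : X.H,
    iota c' (X.Tt ℓ x) = X'.Tt ℓ (iota c' x)
  beta_Tt : ∀ (c' : Fin 2) (ℓ : Nat.Primes), (ℓ : ℕ) ∉ SX' → ∀ x : X'.H,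
    beta c' (X'.Tt ℓ x) = X.Tt ℓ (beta c' x)
  beta_iota : ∀ (c' c'' : Fin 2) (x : X.H),
    beta c' (iota c'' x) = if c' = c'' then ((q : 𝒪) + 1) • x else Tq x
  retr : Fin 2 → (X'.H →ₗ[𝒪] X.H)
  retr_g : ∀ (c' : Fin 2) (k : Fin r) (x : X'.H), retr c' (X'.g k x) = X.g k (retr c' x)
  retr_iota : ∀ (c' c'' : Fin 2) (x : X.H), retr c' (iota c'' x) = if c' = c'' then x else 0
  beta_surjective : ∀ y : Fin 2 → X.H, ∃ x : X'.H, ∀ c' : Fin 2, beta c' x = y c'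
  occ_new : ∀ (B : Type) [CommRing B] [IsDomain B] [IsDiscreteValuationRing B]
    [Algebra 𝒪 B] [Module.Finite 𝒪 B] (x : X'.alg →ₐ[𝒪] B),
    (∀ t : X'.alg,
      (∀ h : X'.H, (∀ c' : Fin 2, beta c' h = 0) → (t : Module.End 𝒪 X'.H) h = 0) → x t = 0) →
    ∃ (B' : Type) (_ : CommRing B') (_ : IsDomain B') (_ : IsDiscreteValuationRing B')
      (_ : Algebra B B') (_ : Module.Finite B B') (_ : Function.Injective (algebraMap B B'))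
      (L' : Type) (_ : Field L') (_ : Algebra B' L') (_ : IsFractionRing B' L')
      (a' : Nat.Primes → B'),
      (∀ (ℓ : Nat.Primes), (ℓ : ℕ) ∉ SX' → a' ℓ = algebraMap B B' (x (X'.TtA ℓ))) ∧
      ∃ v ∈ eigenPar (Nb * q) L' (mapSys B' L' a'), v ≠ 0 ∧
        pushA Nb q hq hqN L' v = 0 ∧ pushB Nb q hq hqN L' v = 0

section Step

variable {M : ℕ} [NeZero M] {Δ₁ Δ₂ : Type} [CommGroup Δ₁] [CommGroup Δ₂] [Fintype Δ₁] [Fintype Δ₂]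
  {π σ : (ZMod M)ˣ →* Δ₁ × Δ₂} {hπ : Function.Surjective π}
variable {O : Type} [CommRing O] [IsDomain O] [CharZero O] [IsDiscreteValuationRing O]
  [IsAdicComplete (maximalIdeal O) O]
variable {I : Type} {ι : I → Nat.Primes} {c : I → O} {r : ℕ} {δ : Fin r → Δ₂}

set_option maxHeartbeats 1600000 in
/-- **existence of the data of a chain step.** -/
theorem nonempty_stepPack (hTwP : TwPushStatement) {p n : ℕ} [Fact p.Prime]
    [Finite (ResidueField O)]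
    (N N' q : ℕ) [NeZero N] [NeZero N'] (e : N' = N * q) {hM : M ∣ N} {hM' : M ∣ N'}
    (hq : q.Prime) (hqN : ¬ q ∣ N) (hιq : ∀ i, ((ι i : Nat.Primes) : ℕ) ≠ q) {d d' : ℕ}
    (P : LevelPack π σ hπ O ι c δ N hM d) (P' : LevelPack π σ hπ O ι c δ N' hM' d')
    (Sbig Sbig' : Finset ℕ)
    (hδ : Function.Bijective fun e : Fin r → Fin (p ^ n) => ∏ k, δ k ^ ((e k : Fin (p ^ n)) : ℕ))
    (hδpow : ∀ k, δ k ^ (p ^ n) = 1)
    (hp2 : p ≠ 2) (hpO : (p : O) ∈ maximalIdeal O) (hpΔ : IsPGroup p (Δ₁ × Δ₂))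
    (hsq : Squarefree M) (hcop : Nat.Coprime M (N / M)) (hcop' : Nat.Coprime M (N' / M))
    (hσ : ∀ u, σ u ^ 2 = π u)
    (hSbig : ∀ ℓ : ℕ, ℓ.Prime → ℓ ∣ N * M → ℓ ∈ Sbig)
    (hSbig' : ∀ ℓ : ℕ, ℓ.Prime → ℓ ∣ N' * M → ℓ ∈ Sbig')
    (hSS : Sbig ⊆ Sbig') (hqS' : q ∈ Sbig') (hqS : q ≠ p → q ∉ Sbig) (hpS : q = p → q ∈ Sbig)
    {lam : O} (hlam : Irreducible lam)
    (hNE : ∀ D : ℕ, 0 < D → ∃ i : I, ¬ ((ι i : Nat.Primes) : ℕ) ∣ N ∧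
      ((ι i : Nat.Primes) : ℕ) ≡ 1 [MOD D] ∧
      c i - ((((ι i : Nat.Primes) : ℕ) : O) + 1) ∉ maximalIdeal O)
    (Nb : ℕ) [NeZero Nb] [NeZero (Nb * q)] (hNb : Nb = N * M) (hqNb : ¬ q ∣ Nb) :
    Nonempty (StepPack (P.side Sbig hδ hδpow) (P'.side Sbig' hδ hδpow) q hq
      (Sbig : Set ℕ) (Sbig' : Set ℕ) Nb hqNb) := by
  subst e
  subst hNb
  haveI : NeZero (N * q * M) := ⟨mul_ne_zero (NeZero.ne _) (NeZero.ne _)⟩
  have hSbigE : ∀ ℓ : ℕ, ℓ.Prime → ℓ ∣ N * M → ℓ ∈ Sbig.erase q := fun ℓ hℓ h =>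
    Finset.mem_erase.2 ⟨fun hℓq => hqNb (hℓq ▸ h), hSbig ℓ hℓ h⟩
  obtain ⟨ρ, hρg, hρι⟩ := exists_retrS N q M hM hq hqN π σ hπ O ι c hιq P.hTS P.hst P'.hst
    Sbig Sbig' δ hδ hδpow P.b P'.b P.K P'.K hp2 hpO hpΔ hlam hNE
  have hnotS : ∀ {ℓ : Nat.Primes}, (ℓ : ℕ) ∉ (Sbig' : Set ℕ) →
      (ℓ : ℕ) ∉ Sbig' ∧ (ℓ : ℕ) ∉ Sbig ∧ (ℓ : ℕ) ≠ q := fun {ℓ} h =>
    ⟨fun h' => h (Finset.mem_coe.2 h'), fun h' => h (Finset.mem_coe.2 (hSS h')),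
      fun h' => h (Finset.mem_coe.2 (h' ▸ hqS'))⟩
  refine ⟨{
    Tq := TqSide σ P.hst Sbig δ hδ hδpow P.b ⟨q, hq⟩
    Tq_eq := fun hqp => (sideL_Tt_of_notMem σ P.hst Sbig δ hδ hδpow P.b (hqS hqp)).symm
    Tq_comm_Tt := fun ℓ => TqSide_comm_Tt σ P.hst Sbig δ hδ hδpow P.b _ ℓ
    Tq_comm_g := fun k => TqSide_comm_g σ P.hst Sbig δ hδ hδpow P.b _ k
    Tq_reduced := fun hqp t ht =>
      algTq_reduced σ P.hst Sbig δ hδ hδpow P.b ⟨q, hq⟩ P.uQ P.hG1 hp2 hpΔ hsq hcop hσ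
        (hpS hqp) hSbigE t ht
    Tq_occ := fun hqp B _ _ _ _ _ x => ?_
    iota := iotaS N q M hM hq π σ hπ O ι c hιq P.hTS P.hst P'.hst Sbig Sbig' δ hδ hδpow P.b P'.b
    beta := betaS N q M hM hq hqN π σ hπ O ι c hιq P'.hTS P.hst P'.hst Sbig Sbig' δ hδ hδpow
      P.b P'.b
    iota_g := fun c' k x => iotaS_g N q M hM hq π σ hπ O ι c hιq P.hTS P.hst P'.hst Sbig Sbig' δ
      hδ hδpow P.b P'.b c' k x
    beta_g := fun c' k x => betaS_g N q M hM hq hqN π σ hπ O ι c hιq P'.hTS P.hst P'.hst Sbig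
      Sbig' δ hδ hδpow P.b P'.b c' k x
    iota_Tt := fun c' ℓ hℓ x => ?_
    beta_Tt := fun c' ℓ hℓ x => ?_
    beta_iota := fun c' c'' x => betaS_iotaS N q M hM hq hqN π σ hπ O ι c hιq P.hTS P'.hTS P.hst
      P'.hst Sbig Sbig' δ hδ hδpow P.b P'.b hσ c' c'' x
    retr := ρ
    retr_g := hρg
    retr_iota := hρι
    beta_surjective := fun y => betaS_surjective N q M hM hq hqN π σ hπ O ι c hιq P'.hTS P.hst
      P'.hst Sbig Sbig' δ hδ hδpow P.b P'.b P.K P'.K hp2 hpO hpΔ hNE y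
    occ_new := fun B _ _ _ _ _ x hx => ?_ }⟩
  · obtain ⟨B', j1, j2, j3, j4, j5, j6, L', k1, k2, k3, a', h1, h2, h3⟩ :=
      algTq_occ σ P.hst Sbig δ hδ hδpow P.b ⟨q, hq⟩ P.uQ P.hG1 hp2 hpΔ hsq hcop hσ
        (hpS hqp) hSbigE B x
    exact ⟨B', j1, j2, j3, j4, j5, j6, L', k1, k2, k3, a', h1,
      fun ℓ hℓ => h2 ℓ (fun h' => hℓ (Finset.mem_coe.2 h')), h3⟩
  · obtain ⟨h1, h2, h3⟩ := hnotS hℓ
    rw [sideL_Tt_of_notMem σ P.hst Sbig δ hδ hδpow P.b h2,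
      sideL_Tt_of_notMem σ P'.hst Sbig' δ hδ hδpow P'.b h1]
    exact iotaS_TqSide N q M hM hq π σ hπ O ι c hιq P.hTS P.hst P'.hst Sbig Sbig' δ hδ hδpow
      P.b P'.b c' ℓ h3 x
  · obtain ⟨h1, h2, h3⟩ := hnotS hℓ
    rw [sideL_Tt_of_notMem σ P.hst Sbig δ hδ hδpow P.b h2,
      sideL_Tt_of_notMem σ P'.hst Sbig' δ hδ hδpow P'.b h1]
    exact betaS_TqSide N q M hM hq hqN π σ hπ O ι c hιq P'.hTS P.hst P'.hst Sbig Sbig' δ hδ
      hδpow P.b P'.b c' ℓ h3 x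
  · obtain ⟨B', j1, j2, j3, j4, j5, j6, L', k1, k2, k3, a', h1, h2⟩ :=
      occ_new_step N q M hM hq hqN π σ hπ O ι c hιq P'.hTS P.hst P'.hst Sbig Sbig' δ hδ hδpow
        P.b P'.b P'.uQ P'.hG1 hTwP hp2 hpΔ hsq hcop' hσ hSbig' hqS' hqNb B x hx
    exact ⟨B', j1, j2, j3, j4, j5, j6, L', k1, k2, k3, a',
      fun ℓ hℓ => h1 ℓ (fun h' => hℓ (Finset.mem_coe.2 h')), h2⟩

end Step

end Fermat.Agent.ML
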