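/-
PROJECT ML (S59) — [TWMOD-L] (helper2), part 22: **the final assembly**:
`twModChain_of_twPush : TwPushStatement → TWModChainStatement`.
-/
import Mathlib
import Fermat.Agent.ML.IFACE_helper2_TWModL
import Fermat.Agent.ML.TWMODL_helper2_Step
import Fermat.Agent.ML.TWMODL_helper2_GrpRed
import Fermat.Agent.RB.T3_helper3_Iter
import Fermat.Agent.RB.LEVEL0_helper3_M0
import Fermat.Agent.RB.TWMOD_helper2_Num

set_option autoImplicit false
set_option linter.unusedSectionVars false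
set_option linter.unusedVariables false
set_option linter.style.haveILetI false

namespace Fermat.Agent.ML

open CongruenceSubgroup Matrix ModularCurve.Period IsLocalRing
open scoped MatrixGroups
open Fermat.Agent.GR Fermat.Agent.LR Fermat.Agent.W1 Fermat.Agent.W1.ES Fermat.Agent.RB
  Fermat.Agent.RB.TWM Fermat.Agent.RB.TWL

section Final

variable {𝒪 : Type} [CommRing 𝒪] [IsDomain 𝒪] [IsDiscreteValuationRing 𝒪]
  [IsAdicComplete (maximalIdeal 𝒪) 𝒪] [Finite (ResidueField 𝒪)] [CharZero 𝒪]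

/-- the module of level zero is free of finite rank. -/
theorem lvlMod_free_finite (p Ntop N : ℕ) [NeZero N] (c : Nat.Primes → 𝒪) :
    Module.Free 𝒪 ↥(lvlMod 𝒪 p Ntop N c) ∧ Module.Finite 𝒪 ↥(lvlMod 𝒪 p Ntop N c) :=
  ⟨L0.free_M0 N (badSet p Ntop) c, inferInstance⟩

/-- a finite set of natural numbers with the elements of `badSet p N ∪ range Q`. -/
theorem exists_finset_badSet (p N : ℕ) (hp : p.Prime) (hN : N ≠ 0) {r : ℕ} (Q : Fin r → ℕ) :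
    ∃ S : Finset ℕ, ∀ ℓ : ℕ, ℓ ∈ S ↔ ℓ ∈ badSet p N ∪ Set.range Q := by
  classical
  refine ⟨((insert p N.divisors).filter Nat.Prime) ∪ Finset.univ.image Q, fun ℓ => ?_⟩
  rw [Finset.mem_union, Finset.mem_filter, Finset.mem_insert, Nat.mem_divisors, Finset.mem_image]
  constructor
  · rintro (⟨h1 | h1, h2⟩ | ⟨k, -, hk⟩)
    · exact Or.inl ⟨h2, Or.inl h1⟩
    · exact Or.inl ⟨h2, Or.inr h1.1⟩
    · exact Or.inr ⟨k, hk⟩
  · rintro (⟨h2, h1 | h1⟩ | ⟨k, hk⟩)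
    · exact Or.inl ⟨Or.inl h1, h2⟩
    · exact Or.inl ⟨Or.inr ⟨h1, hN⟩, h2⟩
    · exact Or.inr ⟨k, Finset.mem_univ k, hk⟩



/-- the index family of the localisation conditions. -/
abbrev IdxI (p Ntop : ℕ) : Type := ↥(primesOutside (badSet p Ntop))

/-- the primes of the index family. -/
abbrev idxP (p Ntop : ℕ) : IdxI p Ntop → Nat.Primes := fun ℓ => (ℓ : Nat.Primes)

/-- the constants of the index family. -/
abbrev idxC (p Ntop : ℕ) (c' : Nat.Primes → 𝒪) : IdxI p Ntop → 𝒪 := fun ℓ => c' ℓ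

set_option maxHeartbeats 3200000 in
/-- **the chain level `(n, Q)`.** -/
theorem nonempty_twModChainLevel (hTwP : TwPushStatement)
    (p : ℕ) [Fact p.Prime] (hp2 : p ≠ 2) (hpO : (p : 𝒪) ∈ maximalIdeal 𝒪)
    (lam : 𝒪) (hlam : Irreducible lam)
    {m : ℕ} (Nl : Fin (m + 1) → ℕ) [∀ i, NeZero (Nl i)] (qc : Fin m → ℕ)
    (hqc : ∀ j, (qc j).Prime) (hchain : ∀ j : Fin m, Nl j.succ = Nl j.castSucc * qc j)
    (hsqf : Squarefree (Nl (Fin.last m))) (hNl0 : Nl 0 ≠ 1)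
    (c : Nat.Primes → 𝒪)
    (hNE : ∀ (D : ℕ), 0 < D → ∀ Bad : Finset ℕ, ∃ ℓ : Nat.Primes,
      (ℓ : ℕ) ∉ badSet p (Nl (Fin.last m)) ∧ (ℓ : ℕ) ∉ Bad ∧ (ℓ : ℕ) ≡ 1 [MOD D] ∧
        c ℓ - ((ℓ : ℕ) + 1 : 𝒪) ∉ maximalIdeal 𝒪)
    (h3 : p = 3 → ∃ r₀ : ℕ, r₀.Prime ∧ r₀ ∣ Nl 0 ∧ r₀ % 3 = 2)
    (r n : ℕ) (Q : Fin r → ℕ) (hQinj : Function.Injective Q) (hQp : ∀ k, (Q k).Prime)
    (hQS : ∀ k, Q k ∉ badSet p (Nl (Fin.last m))) (hQn : ∀ k, p ^ n ∣ Q k - 1)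
    (hQ1 : ∀ k, p ∣ Q k - 1)
    (hQr : ∀ k (hq : (Q k).Prime), ∃ α β : ResidueField 𝒪, α ≠ β ∧
      α + β = residue 𝒪 (c ⟨Q k, hq⟩) ∧ α * β = (Q k : ResidueField 𝒪))
    (Nt Nbig : Fin (m + 1) → ℕ) [∀ i, NeZero (Nt i)] [∀ i, NeZero (Nbig i)]
    [∀ j : Fin m, NeZero (Nbig j.castSucc * qc j)]
    (hqN : ∀ j : Fin m, ¬ qc j ∣ Nbig j.castSucc)
    (hNt : ∀ i, Nt i = Nl i * ∏ k, Q k) (hNbig : ∀ i, Nbig i = Nl i * (∏ k, Q k) ^ 2) :
    Nonempty (TWModChainLevel p lam c Nl qc hqc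
      (fun i => Module.finrank 𝒪 ↥(lvlMod 𝒪 p (Nl (Fin.last m)) (Nl i) c)) r n Q Nt Nbig hqN) := by
  classical
  have hp : p.Prime := Fact.out
  haveI : NeZero p := ⟨hp.ne_zero⟩
  -- the arithmetic of the chain
  have hdvd : ∀ i, Nl i ∣ Nl (Fin.last m) := by
    intro i
    induction i using Fin.reverseInduction with
    | last => exact dvd_rfl
    | cast j ih => exact (Dvd.intro _ (hchain j).symm).trans ih
  have h0dvd : ∀ i, Nl 0 ∣ Nl i := by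
    intro i
    induction i using Fin.induction with
    | zero => exact dvd_rfl
    | succ j ih => exact ih.trans (Dvd.intro _ (hchain j).symm)
  have hstepdvd : ∀ j : Fin m, Nl j.castSucc ∣ Nl j.succ := fun j =>
    Dvd.intro _ (hchain j).symm
  have hbad : ∀ i, badSet p (Nl i) ⊆ badSet p (Nl (Fin.last m)) := fun i ℓ hℓ =>
    ⟨hℓ.1, hℓ.2.imp id (fun h => h.trans (hdvd i))⟩
  have hQne : ∀ k, Q k ≠ p := fun k h => hQS k ⟨hQp k, Or.inl h⟩
  have hQtop : ∀ k, ¬ Q k ∣ Nl (Fin.last m) := fun k h => hQS k ⟨hQp k, Or.inr h⟩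
  have hQN : ∀ i k, ¬ Q k ∣ Nl i := fun i k h => hQtop k (h.trans (hdvd i))
  obtain ⟨M, hMdef⟩ : ∃ M : ℕ, M = ∏ k, Q k := ⟨_, rfl⟩
  have hNt' : ∀ i, Nt i = Nl i * M := by
    intro i
    rw [hMdef]
    exact hNt i
  have hNbig' : ∀ i, Nbig i = Nt i * M := by
    intro i
    rw [hNbig i, hNt' i, hMdef]
    ring
  have hM : ∀ i, M ∣ Nt i := fun i => by
    rw [hNt' i]
    exact dvd_mul_left _ _
  haveI : NeZero M := ⟨by rw [hMdef]; exact (prodQ_pos hQp).ne'⟩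
  have hMsq : Squarefree M := by
    rw [hMdef]
    exact squarefree_prodQ hQinj hQp
  have hNtdiv : ∀ i, Nt i / M = Nl i := fun i => by
    rw [hNt' i]
    exact Nat.mul_div_cancel _ (Nat.pos_of_ne_zero (NeZero.ne M))
  have hcop : ∀ i, Nat.Coprime M (Nt i / M) := fun i => by
    rw [hNtdiv i, hMdef]
    exact coprime_prodQ hQp (hQN i)
  have hNt1 : ∀ i, Nt i ≠ 1 := by
    intro i h
    have h1 : Nl 0 ∣ Nt i := (h0dvd i).trans (by rw [hNt' i]; exact dvd_mul_right _ _)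
    rw [h] at h1
    exact hNl0 (Nat.dvd_one.mp h1)
  have hNttop : ∀ i, Nt i ∣ Nt (Fin.last m) := by
    intro i
    rw [hNt' i, hNt' (Fin.last m)]
    exact mul_dvd_mul_right (hdvd i) M
  have hdvdM : ∀ {ℓ : ℕ}, ℓ.Prime → ℓ ∣ M → ∃ k, Q k = ℓ := by
    intro ℓ hℓ h
    rw [hMdef] at h
    obtain ⟨k, -, hk⟩ := (Prime.dvd_finsetProd_iff hℓ.prime _).mp h
    exact ⟨k, ((Nat.prime_dvd_prime_iff_eq hℓ (hQp k)).mp hk).symm⟩
  -- the group data
  obtain ⟨π, σ, hπs, hσ2, hπ1, hpG, hgrp⟩ := exists_grpData_chain p hp2 r n Q hQinj hQp hQn M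
    hMdef (Nt (Fin.last m)) (hM _) (hcop _)
  choose uQ huQ hG1 using fun i => hgrp (Nt i) (hM i) (hNttop i)
  have hδ := twGen_bijective (p ^ n) r
  have hδpow := twGen_pow_card (p ^ n) r
  -- the constants at `Q`
  have hroot : ∀ k, ∃ a : 𝒪, (a ^ 2 - c ⟨Q k, hQp k⟩ * a + (Q k : 𝒪) ∈ maximalIdeal 𝒪) ∧
      IsUnit (2 * a - c ⟨Q k, hQp k⟩) ∧ IsUnit (a ^ 2 - 1) := by
    intro k
    obtain ⟨α, β, hαβ, hsum, hprod⟩ := hQr k (hQp k)
    obtain ⟨a, rfl⟩ := residue_surjective α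
    have hQ1' : (Q k : ResidueField 𝒪) = 1 := residue_natCast_eq_one (hQp k).pos (hQ1 k) hpO
    refine ⟨a, ?_, ?_, ?_⟩
    · rw [← residue_eq_zero_iff]
      simp only [map_add, map_sub, map_mul, map_pow, map_natCast]
      rw [← hsum, ← hprod]
      ring
    · rw [← residue_ne_zero_iff_isUnit]
      simp only [map_sub, map_mul, map_ofNat]
      rw [← hsum]
      intro h
      apply hαβ
      linear_combination h
    · rw [← residue_ne_zero_iff_isUnit]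
      simp only [map_sub, map_pow, map_one]
      intro h
      apply hαβ
      have ha0 : residue 𝒪 a ≠ 0 := by
        intro h0
        rw [h0, zero_mul, hQ1'] at hprod
        exact zero_ne_one hprod
      apply mul_left_cancel₀ ha0
      rw [hprod, hQ1']
      linear_combination h
  choose a ha1 ha2 ha3 using hroot
  obtain ⟨c', hc'def⟩ : ∃ c' : Nat.Primes → 𝒪,
      c' = fun ℓ : Nat.Primes => if h : ∃ k, Q k = (ℓ : ℕ) then a h.choose else c ℓ :=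
    ⟨_, rfl⟩
  have hc'Q : ∀ k, c' ⟨Q k, hQp k⟩ = a k := by
    intro k
    have h : ∃ k', Q k' = ((⟨Q k, hQp k⟩ : Nat.Primes) : ℕ) := ⟨k, rfl⟩
    rw [hc'def]
    show (if h : ∃ k', Q k' = ((⟨Q k, hQp k⟩ : Nat.Primes) : ℕ) then a h.choose else _) = _
    rw [dif_pos h]
    exact congrArg a (hQinj h.choose_spec)
  have hc'c : ∀ ℓ : Nat.Primes, (∀ k, Q k ≠ (ℓ : ℕ)) → c' ℓ = c ℓ := fun ℓ hℓ => by
    rw [hc'def]
    exact dif_neg (fun ⟨k, hk⟩ => hℓ k hk)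
  -- [T3-iter]
  have hQunit : ∀ k, IsUnit (Q k : 𝒪) := fun k =>
    isUnit_natCast_of_prime_ne hp (hQp k) (hQne k) hpO
  choose φ hφ using fun i => t3IterStatement (𝒪 := 𝒪) (Nl i) r Q hQinj hQp (hQN i) hQunit
    (primesOutside (badSet p (Nl (Fin.last m)))) (fun k => hQS k) c c' a ha1 ha2 ha3 hc'Q hc'c
    (Nt i) (hNt i)
  -- (NE) in index form
  have hNEI : ∀ D : ℕ, 0 < D → ∃ i : IdxI p (Nl (Fin.last m)),
      ¬ ((idxP p (Nl (Fin.last m)) i : Nat.Primes) : ℕ) ∣ Nl (Fin.last m) * M ∧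
      ((idxP p (Nl (Fin.last m)) i : Nat.Primes) : ℕ) ≡ 1 [MOD D] ∧
      idxC p (Nl (Fin.last m)) c' i -
        ((((idxP p (Nl (Fin.last m)) i : Nat.Primes) : ℕ) : 𝒪) + 1) ∉ maximalIdeal 𝒪 := by
    intro D hD
    obtain ⟨ℓ, hℓS, hℓB, hℓ1, hℓc⟩ := hNE D hD (Finset.univ.image Q)
    have hℓQ : ∀ k, Q k ≠ (ℓ : ℕ) := fun k h =>
      hℓB (Finset.mem_image.mpr ⟨k, Finset.mem_univ k, h⟩)
    refine ⟨⟨ℓ, hℓS⟩, ?_, hℓ1, ?_⟩
    · intro h
      rcases (Nat.Prime.dvd_mul ℓ.2).mp h with h | h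
      · exact hℓS ⟨ℓ.2, Or.inr h⟩
      · obtain ⟨k, hk⟩ := hdvdM ℓ.2 h
        exact hℓQ k hk
    · show c' ℓ - _ ∉ _
      rw [hc'c ℓ hℓQ]
      exact hℓc
  have hNtdvd : ∀ i, Nt i ∣ Nl (Fin.last m) * M := fun i => by
    rw [hNt' i]
    exact mul_dvd_mul_right (hdvd i) M
  have hNEi : ∀ (i : Fin (m + 1)) (D : ℕ), 0 < D → ∃ i' : IdxI p (Nl (Fin.last m)),
      ¬ ((idxP p (Nl (Fin.last m)) i' : Nat.Primes) : ℕ) ∣ Nt i ∧
      ((idxP p (Nl (Fin.last m)) i' : Nat.Primes) : ℕ) ≡ 1 [MOD D] ∧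
      idxC p (Nl (Fin.last m)) c' i' -
        ((((idxP p (Nl (Fin.last m)) i' : Nat.Primes) : ℕ) : 𝒪) + 1) ∉ maximalIdeal 𝒪 := by
    intro i D hD
    obtain ⟨i', h1, h2, h3⟩ := hNEI D hD
    exact ⟨i', fun h => h1 (h.trans (hNtdvd i)), h2, h3⟩
  -- the level packs
  have h3' : ∀ i, p = 3 → ∃ r₀ : ℕ, r₀.Prime ∧ r₀ ∣ Nt i ∧ r₀ % 3 = 2 := fun i h => by
    obtain ⟨r₀, h1, h2, h3⟩ := h3 h
    exact ⟨r₀, h1, (h2.trans (h0dvd i)).trans (by rw [hNt' i]; exact dvd_mul_right _ _), h3⟩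
  have hpack : ∀ i, ∃ P : LevelPack π σ hπs 𝒪 (idxP p (Nl (Fin.last m)))
      (idxC p (Nl (Fin.last m)) c') (twGen (p ^ n) r) (Nt i) (hM i)
      (Module.finrank 𝒪 ↥(lvlMod 𝒪 p (Nl (Fin.last m)) (Nl i) c)), P.uQ = uQ i := by
    intro i
    obtain ⟨i₀, h1, h2, h3⟩ := hNEi i (Nt i) (Nat.pos_of_ne_zero (NeZero.ne _))
    obtain ⟨d', P, hP⟩ : ∃ (d' : ℕ) (P : LevelPack π σ hπs 𝒪 (idxP p (Nl (Fin.last m)))
      (idxC p (Nl (Fin.last m)) c') (twGen (p ^ n) r) (Nt i) (hM i) d'), P.uQ = uQ i :=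
      nonempty_levelPack hp hp2 hpO hpG hπ1 (Nt i) (hM i) (hNt1 i) (h3' i) i₀ h1 h2
        (by
          by_contra hu
          exact h3 ((mem_maximalIdeal _).mpr hu)) (uQ i) (hG1 i)
    have hd : Module.finrank 𝒪 ↥(lvlMod 𝒪 p (Nl (Fin.last m)) (Nl i) c) = d' :=
      P.finrank_eq (φ i)
    subst hd
    exact ⟨P, hP⟩
  choose P hPu using hpack
  -- the bad sets
  choose SbigF hSbigF using fun i => exists_finset_badSet p (Nl i) hp (NeZero.ne (Nl i)) Q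
  have hSeq : ∀ i, ((SbigF i : Finset ℕ) : Set ℕ) = badSet p (Nl i) ∪ Set.range Q := fun i =>
    Set.ext fun ℓ => by
      rw [Finset.mem_coe]
      exact hSbigF i ℓ
  have hSb : ∀ i (ℓ : ℕ), ℓ.Prime → ℓ ∣ Nt i * M → ℓ ∈ SbigF i := by
    intro i ℓ hℓ h
    rw [hSbigF i ℓ]
    have h1 : ℓ ∣ Nl i ∨ ℓ ∣ M := by
      rcases (Nat.Prime.dvd_mul hℓ).mp h with h | h
      · rw [hNt' i] at h
        exact (Nat.Prime.dvd_mul hℓ).mp h
      · exact Or.inr h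
    rcases h1 with h1 | h1
    · exact Or.inl ⟨hℓ, Or.inr h1⟩
    · exact Or.inr (hdvdM hℓ h1)
  have hres : ∀ (i : Fin (m + 1)) (ℓ : Nat.Primes),
      (ℓ : ℕ) ∉ badSet p (Nl (Fin.last m)) ∪ Set.range Q →
      (ℓ : ℕ) ∉ SbigF i ∧ ∃ i' : IdxI p (Nl (Fin.last m)),
        idxP p (Nl (Fin.last m)) i' = ℓ ∧
        c ℓ - idxC p (Nl (Fin.last m)) c' i' ∈ maximalIdeal 𝒪 := by
    intro i ℓ hℓ
    have h1 : (ℓ : ℕ) ∉ badSet p (Nl (Fin.last m)) := fun h => hℓ (Or.inl h)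
    have h2 : ∀ k, Q k ≠ (ℓ : ℕ) := fun k h => hℓ (Or.inr ⟨k, h⟩)
    refine ⟨fun h => hℓ ?_, ⟨ℓ, h1⟩, rfl, ?_⟩
    · rcases (hSbigF i ℓ).mp h with h | h
      · exact Or.inl (hbad i h)
      · exact Or.inr h
    · show c ℓ - c' ℓ ∈ _
      rw [hc'c ℓ h2, sub_self]
      exact zero_mem _
  -- the occurrence contracts
  have hocc : ∀ i, OccL ((P i).side (SbigF i) hδ hδpow) lam c (Nt i) (Nbig i)
      (badSet p (Nl i) ∪ Set.range Q) (badSet p (Nl (Fin.last m)) ∪ Set.range Q) (P i).uQ := by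
    intro i
    have h := (P i).occL (SbigF i) hδ hδpow hp2 hpO hpG hMsq (hcop i) hσ2 (hSb i) lam hlam c
      (badSet p (Nl (Fin.last m)) ∪ Set.range Q) (hres i) (Nbig i) (hNbig' i)
    rw [hSeq i] at h
    exact h
  -- the steps
  have hqcbad : ∀ j : Fin m, qc j ∈ badSet p (Nl (Fin.last m)) := fun j =>
    ⟨hqc j, Or.inr ((Dvd.intro_left _ (hchain j).symm).trans (hdvd j.succ))⟩
  have hqNt : ∀ j : Fin m, ¬ qc j ∣ Nt j.castSucc := fun j h =>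
    hqN j (by rw [hNbig' j.castSucc]; exact h.mul_right M)
  have hstep : ∀ j : Fin m, Nonempty (StepPack ((P j.castSucc).side (SbigF j.castSucc) hδ hδpow)
      ((P j.succ).side (SbigF j.succ) hδ hδpow) (qc j) (hqc j)
      (badSet p (Nl j.castSucc) ∪ Set.range Q) (badSet p (Nl j.succ) ∪ Set.range Q)
      (Nbig j.castSucc) (hqN j)) := by
    intro j
    have e : Nt j.succ = Nt j.castSucc * qc j := by
      rw [hNt' j.succ, hNt' j.castSucc, hchain j]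
      ring
    have hιq : ∀ i' : IdxI p (Nl (Fin.last m)),
        ((idxP p (Nl (Fin.last m)) i' : Nat.Primes) : ℕ) ≠ qc j := fun i' h =>
      i'.2 (h ▸ hqcbad j)
    have hSS : SbigF j.castSucc ⊆ SbigF j.succ := by
      intro ℓ hℓ
      rw [hSbigF] at hℓ ⊢
      rcases hℓ with hℓ | hℓ
      · exact Or.inl ⟨hℓ.1, hℓ.2.imp id (fun h => h.trans (hstepdvd j))⟩
      · exact Or.inr hℓ
    have hqS' : qc j ∈ SbigF j.succ := by
      rw [hSbigF]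
      exact Or.inl ⟨hqc j, Or.inr (Dvd.intro_left _ (hchain j).symm)⟩
    have hqS : qc j ≠ p → qc j ∉ SbigF j.castSucc := by
      intro hqp h
      rw [hSbigF] at h
      rcases h with h | ⟨k, hk⟩
      · rcases h.2 with h | h
        · exact hqp h
        · exact hqNt j (by rw [hNt' j.castSucc]; exact h.mul_right M)
      · exact hQS k (hk ▸ hqcbad j)
    have hpS : qc j = p → qc j ∈ SbigF j.castSucc := by
      intro hqp
      rw [hSbigF]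
      exact Or.inl ⟨hqc j, Or.inl hqp⟩
    have h := nonempty_stepPack hTwP (Nt j.castSucc) (Nt j.succ) (qc j) e (hqc j) (hqNt j) hιq
      (P j.castSucc) (P j.succ) (SbigF j.castSucc) (SbigF j.succ) hδ hδpow hp2 hpO hpG hMsq
      (hcop _) (hcop _) hσ2 (hSb _) (hSb _) hSS hqS' hqS hpS hlam (hNEi j.castSucc)
      (Nbig j.castSucc) (hNbig' _) (hqN j)
    rw [hSeq j.castSucc, hSeq j.succ] at h
    exact h
  let S := fun j => Classical.choice (hstep j)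
  -- the control maps
  have hctlT : ∀ (i : Fin (m + 1)) (ℓ : Nat.Primes),
      (ℓ : ℕ) ∉ badSet p (Nl (Fin.last m)) ∪ Set.range Q →
      ∀ x : ((P i).side (SbigF i) hδ hδpow).H,
      (((P i).ctl (SbigF i) hδ hδpow (φ i) (((P i).side (SbigF i) hδ hδpow).Tt ℓ x) :
          ↥(lvlMod 𝒪 p (Nl (Fin.last m)) (Nl i) c)) : ↥(parabolicHoms 𝒪 (Gamma0 (Nl i)) 𝒪)) =
        heckeParP (Nl i) ℓ 𝒪 𝒪 (((P i).ctl (SbigF i) hδ hδpow (φ i) x :
          ↥(lvlMod 𝒪 p (Nl (Fin.last m)) (Nl i) c)) : ↥(parabolicHoms 𝒪 (Gamma0 (Nl i)) 𝒪)) := by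
    intro i ℓ hℓ x
    obtain ⟨hℓS, i', hi', -⟩ := hres i ℓ hℓ
    have h2 : ∀ k, Q k ≠ (ℓ : ℕ) := fun k h => hℓ (Or.inr ⟨k, h⟩)
    subst hi'
    have hA := (P i).ctl_Tt (SbigF i) hδ hδpow (φ i) i' hℓS x
    set x₀ := (P i).ctl (SbigF i) hδ hδpow (φ i) x with hx₀
    set y₀ := (P i).ctl (SbigF i) hδ hδpow (φ i)
      (((P i).side (SbigF i) hδ hδpow).Tt (idxP p (Nl (Fin.last m)) i') x) with hy₀
    have hmem : heckeParP (Nl i) (idxP p (Nl (Fin.last m)) i') 𝒪 𝒪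
        (x₀ : ↥(parabolicHoms 𝒪 (Gamma0 (Nl i)) 𝒪)) ∈ lvlMod 𝒪 p (Nl (Fin.last m)) (Nl i) c :=
      L0.heckeParP_mem_M0 (Nl i) (badSet p (Nl (Fin.last m))) c _ x₀.2
    have hB := hφ i (idxP p (Nl (Fin.last m)) i') h2 x₀ ⟨_, hmem⟩ rfl
    have hC : φ i ⟨_, hmem⟩ = φ i y₀ := Subtype.ext (hB.trans hA.symm)
    have hD := (φ i).injective hC
    exact (congrArg Subtype.val hD).symm
  exact ⟨{
    side := fun i => (P i).side (SbigF i) hδ hδpow
    uQ := fun i => (P i).uQ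
    uQ_spec := fun i q => by
      rw [hPu i]
      exact huQ i q
    occ := hocc
    Tq := fun j => (S j).Tq
    Tq_eq := fun j => (S j).Tq_eq
    Tq_comm_Tt := fun j => (S j).Tq_comm_Tt
    Tq_comm_g := fun j => (S j).Tq_comm_g
    Tq_reduced := fun j => (S j).Tq_reduced
    Tq_occ := fun j => (S j).Tq_occ
    iota := fun j => (S j).iota
    beta := fun j => (S j).beta
    iota_g := fun j => (S j).iota_g
    beta_g := fun j => (S j).beta_g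
    iota_Tt := fun j => (S j).iota_Tt
    beta_Tt := fun j => (S j).beta_Tt
    beta_iota := fun j => (S j).beta_iota
    retr := fun j => (S j).retr
    retr_g := fun j => (S j).retr_g
    retr_iota := fun j => (S j).retr_iota
    beta_surjective := fun j => (S j).beta_surjective
    occ_new := fun j => (S j).occ_new
    ctl := fun i => (P i).ctl (SbigF i) hδ hδpow (φ i)
    ctl_surjective := fun i => (P i).ctl_surjective (SbigF i) hδ hδpow (φ i)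
    ker_ctl := fun i x => (P i).ker_ctl (SbigF i) hδ hδpow (φ i) x
    ctl_Tt := hctlT }⟩

/-- **[TWMOD-L]: `TWModChainStatement` from [TWPUSH].** -/
theorem twModChain_of_twPush (hTwP : TwPushStatement) : TWModChainStatement := by
  intro 𝒪 _ _ _ _ _ _ p _ hp2 hpO lam hlam m Nl _ qc hqc hchain hsqf hNl0 c hNE h3
  refine ⟨fun i => Module.finrank 𝒪 ↥(lvlMod 𝒪 p (Nl (Fin.last m)) (Nl i) c), fun i =>
    ⟨(lvlMod_free_finite p (Nl (Fin.last m)) (Nl i) c).1,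
      (lvlMod_free_finite p (Nl (Fin.last m)) (Nl i) c).2, rfl⟩, ?_⟩
  intro r n Q hQinj hQp hQS hQn hQ1 hQr Nt Nbig _ _ _ hqN hNt hNbig
  exact nonempty_twModChainLevel hTwP p hp2 hpO lam hlam Nl qc hqc hchain hsqf hNl0 c hNE h3 r n Q
    hQinj hQp hQS hQn hQ1 hQr Nt Nbig hqN hNt hNbig

end Final

end Fermat.Agent.ML
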