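/-
PROJECT ML (S59) — [TWMOD-L] (helper2), part 23: **`Fermat.Agent.ML.twModChainStatement :
TWModChainStatement`**, unconditionally (with helper7's [TWPUSH]).
-/
import Mathlib
import Fermat.Agent.ML.TWMODL_helper2_Final
import Fermat.Agent.ML.TWPUSH_helper7_Main

set_option autoImplicit false

namespace Fermat.Agent.ML

/-- **[TWMOD-L]**: the module side of the Taylor–Wiles construction for a chain of levels. -/
theorem twModChainStatement : TWModChainStatement :=
  twModChain_of_twPush twPushStatement

end Fermat.Agent.ML
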