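/-
PROJECT ML (S59) — [PR-2] (helper9), file 8: **`ProducerOfSettingStatement`** from the two small
leaves `FiveLeOfLvlModStatement` (helper2), `ModularOfLevel0Statement` (helper5) of
`ML/IFACE_helper9_Prod2`; every other leaf is instantiated with its proved theorem.
-/
import Mathlib
import Fermat.Agent.ML.PROD_helper9_Main
import Fermat.Agent.ML.TWMODL_helper2_Main
import Fermat.Agent.ML.REPTLB_helper1_Level
import Fermat.Agent.ML.REPTX_helper1_Final
import Fermat.Agent.ML.STKILL_helper5_Main
import Fermat.Agent.ML.KP_lead_Strict
import Fermat.Agent.ML.ATPTOP_helper1_OldFinal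
import Fermat.Agent.ML.ATPTOP_helper4_Final

set_option autoImplicit false

namespace Fermat.Agent.ML.PROD

/-- **[PR-2]** modulo the two small leaves (A), (B). -/
theorem producerOfSettingStatement_of (hFive : FiveLeOfLvlModStatement)
    (hModular : ModularOfLevel0Statement) : ProducerOfSettingStatement := by
  intro p _ hp35 W CS
  have hp2 : p ≠ 2 := by rcases hp35 with rfl | rfl <;> norm_num
  exact nonempty_liftSetting twModChainStatement REPTLB.levelGaloisPlusStatement
    (fun M _ hM => REPTX.thetaKillsJ1Odd_all M hM p) steinbergOfKillStatement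
    KP.strictOfTresStatement atPOldPointStatement atPNewPointStatement hFive hModular hp2 CS

end Fermat.Agent.ML.PROD
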