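/-
PROJECT ML (S59) — [SEL-L] (helper4), file 10: **`selLStatement : SelLStatement`** — the literal of
`ML/IFACE_helper9_Chart.lean` (as amended on origin/helper9 @6092184).
-/
import Mathlib
import Fermat.Agent.ML.SELL_helper4_Main

set_option autoImplicit false

namespace Fermat.Agent.ML

/-- **[SEL-L]** -/
theorem selLStatement : SelLStatement := by
  intro 𝒪 _ _ _ _ _ p _ hp2 hp𝒪 ρbar habs hdet hsplit hTW S hpS hSprime pc m cq sgn K hchain hcS
    hS hunr
  exact SelL.selL_core p hp2 hp𝒪 ρbar habs hdet hsplit hTW S hpS hSprime pc cq sgn K hchain hcS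
    hS hunr

end Fermat.Agent.ML
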