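/-
PROJECT ML (S59) — the final assembly (helper9): `S59Statement` from the leaves which are still
open: `LevelOptStatement` (lead: ⇐ Mazur (2,3)), [PR-1] `ChainSettingStatement` (lead + helper4 +
helper1 + helper3) and the two small leaves (A) `FiveLeOfLvlModStatement` (helper2),
(B) `ModularOfLevel0Statement` (helper5).  Everything else is instantiated.
-/
import Mathlib
import Fermat.Agent.ML.PROD_helper9_Final
import Fermat.Agent.ML.LOCL_lead_Final
import Fermat.Agent.ML.SELL_helper4_Stmt
import Fermat.Agent.ML.IFACE_helper9_Lift

set_option autoImplicit false

namespace Fermat.Agent.ML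

/-- **[PRODUCER]** from [PR-1] and the leaves (A), (B). -/
theorem twChainProducerStatement_of_open (hPR1 : ChainSettingStatement)
    (hFive : FiveLeOfLvlModStatement) (hModular : ModularOfLevel0Statement) :
    TWChainProducerStatement :=
  twChainProducerStatement_of hPR1 (PROD.producerOfSettingStatement_of hFive hModular)

/-- **S59** from the four leaves still open. -/
theorem s59Statement_of_open (hopt : LevelOptStatement) (hPR1 : ChainSettingStatement)
    (hFive : FiveLeOfLvlModStatement) (hModular : ModularOfLevel0Statement) : S59Statement :=
  s59_of_leaves hopt (twChainProducerStatement_of_open hPR1 hFive hModular) chainChartStatement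
    selLStatement

end Fermat.Agent.ML
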