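/-
PROJECT ML (S59) — helper8 — [SQ2] = route (C) for the square step at `(p, q) = (3, 2)`,
part 5: **three abstract lemmas**.

* `exists_fixed_of_free` : a non-zero free `𝒪[Δ]`-module (`Δ ≠ 1` a commutative group in which
  every element is a square) with an additive involution `ω` such that `ω ∘ [δ] = [δ⁻¹] ∘ ω` has a
  non-zero `ω`-fixed vector (otherwise `ω = -1`, so `[δ] = [δ⁻¹]`, `[δ²] = 1` on the module);
* `exists_common_kernel` : commuting, locally nilpotent operators on a non-zero stable subspace of a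
  finite dimensional space have a common non-zero kernel vector there;
* `exists_extension_of_index_two` : a homomorphism `N → A` on a normal subgroup `N` with
  `H = N ∪ w N`, invariant under conjugation by `w`, extends to `H` as soon as `ψ(w²)` is
  divisible by two.
-/
import Mathlib

set_option autoImplicit false
set_option linter.unusedSectionVars false
set_option linter.unusedVariables false
set_option linter.style.haveILetI false

namespace Fermat.Agent.ML.SQ2

/-! ### the dihedral lemma -/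

theorem exists_fixed_of_free {O : Type*} [CommRing O] [Nontrivial O] {Δ : Type*} [CommGroup Δ]
    {V : Type*} [AddCommGroup V] [Module (MonoidAlgebra O Δ) V]
    [Module.Free (MonoidAlgebra O Δ) V] [Nontrivial V]
    (ω : V →+ V) (hω : ∀ x, ω (ω x) = x)
    (hωδ : ∀ (δ : Δ) (x : V),
      ω (MonoidAlgebra.of O Δ δ • x) = MonoidAlgebra.of O Δ δ⁻¹ • ω x)
    (hsq : ∀ δ : Δ, ∃ ε : Δ, ε * ε = δ) (δ₀ : Δ) (hδ₀ : δ₀ ≠ 1) :
    ∃ x : V, x ≠ 0 ∧ ω x = x := by
  by_contra hne
  push Not at hne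
  have h0 : ∀ x : V, ω x = x → x = 0 := fun x hx => by
    by_contra hx0
    exact hne x hx0 hx
  have h1 : ∀ x : V, ω x = -x := by
    intro x
    have := h0 (x + ω x) (by rw [map_add, hω, add_comm])
    exact eq_neg_of_add_eq_zero_right this
  have h2 : ∀ (δ : Δ) (x : V), MonoidAlgebra.of O Δ δ • x = MonoidAlgebra.of O Δ δ⁻¹ • x := by
    intro δ x
    have e1 := hωδ δ x
    rw [h1, h1, smul_neg, neg_inj] at e1
    exact e1
  have h3 : ∀ (δ : Δ) (x : V), MonoidAlgebra.of O Δ (δ * δ) • x = x := by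
    intro δ x
    rw [map_mul, mul_smul, h2 δ x, ← mul_smul, ← map_mul, mul_inv_cancel, map_one, one_smul]
  obtain ⟨ε, hε⟩ := hsq δ₀
  have h4 : ∀ x : V, (MonoidAlgebra.of O Δ δ₀ - 1) • x = 0 := by
    intro x
    rw [sub_smul, one_smul, ← hε, h3, sub_self]
  -- faithfulness of a non-zero free module
  let b := Module.Free.chooseBasis (MonoidAlgebra O Δ) V
  obtain ⟨x, hx⟩ := exists_ne (0 : V)
  have hrx : b.repr x ≠ 0 := fun h => hx (b.repr.map_eq_zero_iff.mp h)
  obtain ⟨i, -⟩ := Finsupp.ne_iff.mp hrx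
  have h5 := h4 (b i)
  have h6 := congrArg b.repr h5
  rw [map_smul, b.repr_self, map_zero, Finsupp.smul_single, smul_eq_mul, mul_one] at h6
  have h7 : MonoidAlgebra.of O Δ δ₀ - 1 = 0 := by
    have := congrArg (fun f : _ →₀ MonoidAlgebra O Δ => f i) h6
    simpa using this
  have h8 : MonoidAlgebra.of O Δ δ₀ = MonoidAlgebra.of O Δ 1 := by
    rw [map_one]
    exact sub_eq_zero.mp h7
  exact hδ₀ (MonoidAlgebra.of_injective h8)

/-! ### common kernel vectors -/

theorem exists_common_kernel {K : Type*} [Field K] {E : Type*} [AddCommGroup E] [Module K E]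
    [FiniteDimensional K E] (W : Submodule K E) (hW : W ≠ ⊥) {I : Type*} (N : I → E →ₗ[K] E)
    (hst : ∀ i, ∀ x ∈ W, N i x ∈ W) (hcomm : ∀ i j, ∀ x ∈ W, N i (N j x) = N j (N i x))
    (hnil : ∀ i, ∀ x ∈ W, ∃ k : ℕ, ((N i) ^ k) x = 0) :
    ∃ x ∈ W, x ≠ 0 ∧ ∀ i, N i x = 0 := by
  classical
  let S : Set (Submodule K E) := {W' | W' ≠ ⊥ ∧ W' ≤ W ∧ ∀ i, ∀ x ∈ W', N i x ∈ W'}
  have hS : S.Nonempty := ⟨W, hW, le_rfl, hst⟩
  obtain ⟨W', hW'S, hmin⟩ := (wellFounded_lt (α := Submodule K E)).has_min S hS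
  obtain ⟨hW'0, hW'W, hW'st⟩ := hW'S
  have hpow : ∀ (i : I) (k : ℕ), ∀ x ∈ W', ((N i) ^ k) x ∈ W' := by
    intro i k
    induction k with
    | zero => intro x hx; simpa using hx
    | succ k ih =>
      intro x hx
      rw [pow_succ', Module.End.mul_apply]
      exact hW'st i _ (ih x hx)
  have hker : ∀ i, ∀ x ∈ W', N i x = 0 := by
    intro i
    let W'' : Submodule K E := W' ⊓ LinearMap.ker (N i)
    have hW''S : W'' ∈ S := by
      refine ⟨?_, inf_le_left.trans hW'W, ?_⟩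
      · obtain ⟨x, hx, hx0⟩ := Submodule.exists_mem_ne_zero_of_ne_bot hW'0
        have hex := hnil i x (hW'W hx)
        have hk0 : Nat.find hex ≠ 0 := by
          intro h0
          have := Nat.find_spec hex
          rw [h0, pow_zero, Module.End.one_apply] at this
          exact hx0 this
        obtain ⟨k', hk'⟩ := Nat.exists_eq_succ_of_ne_zero hk0
        have hy0 : ((N i) ^ k') x ≠ 0 := by
          intro h
          exact Nat.find_min hex (by omega : k' < Nat.find hex) h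
        have hy1 : N i (((N i) ^ k') x) = 0 := by
          have := Nat.find_spec hex
          rw [hk', pow_succ', Module.End.mul_apply] at this
          exact this
        intro hbot
        have hmem : ((N i) ^ k') x ∈ W'' := ⟨hpow i k' x hx, LinearMap.mem_ker.mpr hy1⟩
        rw [hbot, Submodule.mem_bot] at hmem
        exact hy0 hmem
      · intro j x hx
        refine ⟨hW'st j x hx.1, ?_⟩
        show N j x ∈ LinearMap.ker (N i)
        rw [LinearMap.mem_ker, hcomm i j x (hW'W hx.1), LinearMap.mem_ker.mp hx.2, map_zero]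
    have hle : W'' ≤ W' := inf_le_left
    have heq : W'' = W' := eq_of_le_of_not_lt hle (hmin W'' hW''S)
    intro x hx
    have : x ∈ W'' := by rw [heq]; exact hx
    exact LinearMap.mem_ker.mp this.2
  obtain ⟨x, hx, hx0⟩ := Submodule.exists_mem_ne_zero_of_ne_bot hW'0
  exact ⟨x, hW'W hx, hx0, fun i => hker i x hx⟩

/-! ### extension of invariant homomorphisms from a subgroup of index two -/

theorem exists_extension_of_index_two {H : Type*} [Group H] (N : Subgroup H) (w : H)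
    (hN : ∀ h : H, ∀ n ∈ N, h * n * h⁻¹ ∈ N) (hw : ∀ h : H, h ∈ N ∨ w⁻¹ * h ∈ N)
    {A : Type*} [AddCommGroup A] (ψ : Additive ↥N →+ A)
    (hinv : ∀ n : ↥N, ψ (Additive.ofMul ⟨w * n * w⁻¹, hN w n n.2⟩) = ψ (Additive.ofMul n))
    (hww : w * w ∈ N) (c₀ : A) (hc₀ : c₀ + c₀ = ψ (Additive.ofMul ⟨w * w, hww⟩)) :
    ∃ ψ' : Additive H →+ A, ∀ n : ↥N, ψ' (Additive.ofMul (n : H)) = ψ (Additive.ofMul n) := by
  classical
  -- `ψ` as a function on `H`
  let ψf : H → A := fun h => if hh : h ∈ N then ψ (Additive.ofMul ⟨h, hh⟩) else 0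
  have hψf : ∀ (h : H) (hh : h ∈ N), ψf h = ψ (Additive.ofMul ⟨h, hh⟩) := fun h hh => dif_pos hh
  have P1 : ∀ a b : H, a ∈ N → b ∈ N → ψf (a * b) = ψf a + ψf b := by
    intro a b ha hb
    rw [hψf _ (N.mul_mem ha hb), hψf _ ha, hψf _ hb, ← map_add]
    rfl
  have P2 : ∀ a : H, a ∈ N → ψf (w * a * w⁻¹) = ψf a := by
    intro a ha
    rw [hψf _ (hN w a ha), hψf _ ha]
    exact hinv ⟨a, ha⟩
  have hN' : ∀ a : H, a ∈ N → w⁻¹ * a * w ∈ N := by
    intro a ha
    have := hN w⁻¹ a ha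
    rwa [inv_inv] at this
  have P3 : ∀ a : H, a ∈ N → ψf (w⁻¹ * a * w) = ψf a := by
    intro a ha
    have := P2 (w⁻¹ * a * w) (hN' a ha)
    rw [← this]
    congr 1
    group
  let f : H → A := fun h => if h ∈ N then ψf h else ψf (w⁻¹ * h) + c₀
  have hf1 : ∀ h : H, h ∈ N → f h = ψf h := fun h hh => if_pos hh
  have hf2 : ∀ h : H, h ∉ N → f h = ψf (w⁻¹ * h) + c₀ := fun h hh => if_neg hh
  have hmul : ∀ g h : H, f (g * h) = f g + f h := by
    intro g h
    by_cases hg : g ∈ N <;> by_cases hh : h ∈ N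
    · rw [hf1 _ (N.mul_mem hg hh), hf1 _ hg, hf1 _ hh, P1 g h hg hh]
    · have hgh : g * h ∉ N := by
        intro hc
        apply hh
        have := N.mul_mem (N.inv_mem hg) hc
        rwa [inv_mul_cancel_left] at this
      have hb : w⁻¹ * h ∈ N := (hw h).resolve_left hh
      rw [hf2 _ hgh, hf1 _ hg, hf2 _ hh]
      have e : w⁻¹ * (g * h) = (w⁻¹ * g * w) * (w⁻¹ * h) := by group
      rw [e, P1 _ _ (hN' g hg) hb, P3 g hg]
      abel
    · have hgh : g * h ∉ N := by
        intro hc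
        apply hg
        have := N.mul_mem hc (N.inv_mem hh)
        rwa [mul_inv_cancel_right] at this
      have ha : w⁻¹ * g ∈ N := (hw g).resolve_left hg
      rw [hf2 _ hgh, hf2 _ hg, hf1 _ hh]
      have e : w⁻¹ * (g * h) = (w⁻¹ * g) * h := by group
      rw [e, P1 _ _ ha hh]
      abel
    · have ha : w⁻¹ * g ∈ N := (hw g).resolve_left hg
      have hb : w⁻¹ * h ∈ N := (hw h).resolve_left hh
      have e : g * h = (w * w) * (w⁻¹ * (w⁻¹ * g) * w) * (w⁻¹ * h) := by group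
      have h1 : w⁻¹ * (w⁻¹ * g) * w ∈ N := hN' _ ha
      have hgh : g * h ∈ N := by
        rw [e]
        exact N.mul_mem (N.mul_mem hww h1) hb
      rw [hf1 _ hgh, hf2 _ hg, hf2 _ hh, e, P1 _ _ (N.mul_mem hww h1) hb, P1 _ _ hww h1,
        P3 _ ha, hψf _ hww, ← hc₀]
      abel
  refine ⟨AddMonoidHom.mk' (fun h : Additive H => f (Additive.toMul h)) (fun a b => hmul _ _),
    fun n => ?_⟩
  show f (n : H) = _
  rw [hf1 _ n.2, hψf _ n.2]

end Fermat.Agent.ML.SQ2

namespace Fermat.Agent.ML.SQ2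

/-- the extension lemma for subgroups `N ≤ Hb` of an ambient group. -/
theorem exists_extension_of_index_two' {G : Type*} [Group G] (N Hb : Subgroup G) (hle : N ≤ Hb)
    (w : G) (hwH : w ∈ Hb)
    (hN : ∀ h ∈ Hb, ∀ n ∈ N, h * n * h⁻¹ ∈ N) (hw : ∀ h ∈ Hb, h ∈ N ∨ w⁻¹ * h ∈ N)
    {A : Type*} [AddCommGroup A] (ψ : Additive ↥N →+ A)
    (hinv : ∀ n : ↥N, ψ (Additive.ofMul ⟨w * n * w⁻¹, hN w hwH n n.2⟩) = ψ (Additive.ofMul n))
    (hww : w * w ∈ N) (c₀ : A) (hc₀ : c₀ + c₀ = ψ (Additive.ofMul ⟨w * w, hww⟩)) :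
    ∃ ψ' : Additive ↥Hb →+ A,
      ∀ n : ↥N, ψ' (Additive.ofMul (Subgroup.inclusion hle n)) = ψ (Additive.ofMul n) := by
  let N' : Subgroup ↥Hb := N.subgroupOf Hb
  let e : ↥N' ≃* ↥N := Subgroup.subgroupOfEquivOfLe hle
  let ψ₁ : Additive ↥N' →+ A := ψ.comp (MonoidHom.toAdditive (e : ↥N' →* ↥N))
  have hN' : ∀ h : ↥Hb, ∀ n ∈ N', h * n * h⁻¹ ∈ N' := by
    intro h n hn
    exact hN h h.2 n hn
  have hw' : ∀ h : ↥Hb, h ∈ N' ∨ (⟨w, hwH⟩ : ↥Hb)⁻¹ * h ∈ N' := by
    intro h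
    exact hw h h.2
  obtain ⟨ψ', hψ'⟩ := exists_extension_of_index_two N' ⟨w, hwH⟩ hN' hw' ψ₁
    (fun n => hinv (e n)) hww c₀ hc₀
  refine ⟨ψ', fun n => ?_⟩
  have := hψ' (e.symm n)
  rw [show ψ₁ (Additive.ofMul (e.symm n)) = ψ (Additive.ofMul (e (e.symm n))) from rfl,
    e.apply_symm_apply] at this
  rw [← this]
  rfl

end Fermat.Agent.ML.SQ2
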