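/-
PROJECT ML (S59) — helper8 — [SQ2] = route (C) for the square step at `(p, q) = (3, 2)`,
part 2: **the Hecke data of the level structures at two**.

For an odd prime `ℓ ∤ M` the matrices `β = (1 2b; 0 ℓ)`, `(ℓ 0; 0 1)` (all `≡ 1 mod 2`) represent
`Γ' \ Γ' (1 0; 0 ℓ) Γ'` for EVERY `Γ' ≤ Γ₀(M)` which is the preimage of its reduction modulo two
(`IsBLevel M Γ'`), with cocycle `c(γ, i) ≡ γ mod 2`.  To match the standard representatives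
`heckeRep ℓ` of `Γ₀(4 M)`, `Γ₀(2 M)` the datum is written with `heckeRep ℓ = P β P⁻¹`,
`P = diag(1, 2)`, and the embedding `embP : γ ↦ P γ P⁻¹`.

* `datumB` : the datum; `datumB_cocycle_red2` : `c(γ, i) ≡ γ mod 2`;
* `datumB_comp_inclusion`, `datumB_comp_kap` : compatibility with inclusions and with
  `kap : Γ₀(N · 2) ≃ G0up N 2`;
* `diamondOnBy_datumB` : conjugation by `Γ₀(M)` commutes with the operators.
-/
import Mathlib
import Fermat.Agent.ML.SQ2_helper8_Grp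
import Fermat.Agent.RB.TWMOD_helper2_W1

set_option autoImplicit false
set_option linter.unusedSectionVars false
set_option linter.unusedVariables false
set_option linter.style.haveILetI false
set_option linter.unnecessarySeqFocus false

open Matrix CongruenceSubgroup ModularForm
open scoped MatrixGroups

namespace Fermat.Agent.ML.SQ2

open Fermat.Agent.GR Fermat.Agent.LR Fermat.Agent.RB.TWM

/-! ### the representatives `≡ 1 mod 2` -/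

/-- the integral matrices `(1 2b; 0 ℓ)`, `(ℓ 0; 0 1)`. -/
def betaZ (ℓ : ℕ) (i : Option (Fin ℓ)) : Matrix (Fin 2) (Fin 2) ℤ :=
  utZ (repA ℓ i) (2 * repB ℓ i) (repD ℓ i)

/-- the same matrices in `GL₂(ℝ)`. -/
noncomputable def betaR (ℓ : ℕ) : Option (Fin ℓ) → GL (Fin 2) ℝ
  | none => heckeDiagMatrix ℓ
  | some b => heckeMatrix ℓ (2 * (b : ℕ))

theorem isZMat_betaR {ℓ : ℕ} (hℓ : ℓ ≠ 0) (i : Option (Fin ℓ)) : IsZMat (betaR ℓ i) (betaZ ℓ i) := by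
  unfold IsZMat
  cases i with
  | none =>
    show ((heckeDiagMatrix ℓ : GL (Fin 2) ℝ) : Matrix (Fin 2) (Fin 2) ℝ) = _
    rw [val_heckeDiagMatrix hℓ]
    ext i j
    fin_cases i <;> fin_cases j <;> simp [betaZ, utZ, repA, repB, repD]
  | some b =>
    show ((heckeMatrix ℓ (2 * (b : ℕ)) : GL (Fin 2) ℝ) : Matrix (Fin 2) (Fin 2) ℝ) = _
    rw [val_heckeMatrix hℓ]
    ext i j
    fin_cases i <;> fin_cases j <;> simp [betaZ, utZ, repA, repB, repD]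

/-- `heckeRep ℓ i · diag(1, 2) = diag(1, 2) · β_i`. -/
theorem heckeRep_mul_heckeMatrix {ℓ : ℕ} (hℓ : ℓ ≠ 0) (i : Option (Fin ℓ)) :
    heckeRep ℓ i * heckeMatrix 2 0 = heckeMatrix 2 0 * betaR ℓ i := by
  refine (((isZMat_heckeRep hℓ i).mul (isZMat_heckeMatrix_zero two_ne_zero)).eq_iff
    ((isZMat_heckeMatrix_zero two_ne_zero).mul (isZMat_betaR hℓ i))).mpr ?_
  rw [heckeRepZ, betaZ]
  ext x y
  fin_cases x <;> fin_cases y <;> simp [utZ, Matrix.mul_apply, Fin.sum_univ_two] <;> ring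

/-- the embedding `γ ↦ P γ P⁻¹`, `P = diag(1, 2)`. -/
noncomputable def embP : SL(2, ℤ) →* GL (Fin 2) ℝ :=
  (MulAut.conj (heckeMatrix 2 0)).toMonoidHom.comp (Matrix.SpecialLinearGroup.mapGL ℝ)

theorem embP_apply (γ : SL(2, ℤ)) :
    embP γ = heckeMatrix 2 0 * (γ : GL (Fin 2) ℝ) * (heckeMatrix 2 0)⁻¹ := rfl

theorem embP_injective : Function.Injective embP :=
  (MulAut.conj (heckeMatrix 2 0)).injective.comp Matrix.SpecialLinearGroup.mapGL_injective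

theorem heckeRep_eq {ℓ : ℕ} (hℓ : ℓ ≠ 0) (i : Option (Fin ℓ)) :
    heckeRep ℓ i = heckeMatrix 2 0 * betaR ℓ i * (heckeMatrix 2 0)⁻¹ := by
  rw [← heckeRep_mul_heckeMatrix hℓ i, mul_inv_cancel_right]

/-- an identity between the representatives and conjugated elements of `SL₂(ℤ)` is an identity of
integral matrices. -/
theorem heckeRep_mul_embP_iff {ℓ : ℕ} (hℓ : ℓ ≠ 0) (i j : Option (Fin ℓ)) (γ γ' : SL(2, ℤ)) :
    heckeRep ℓ i * embP γ = embP γ' * heckeRep ℓ j ↔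
      betaZ ℓ i * (γ : Matrix (Fin 2) (Fin 2) ℤ) =
        (γ' : Matrix (Fin 2) (Fin 2) ℤ) * betaZ ℓ j := by
  rw [← ((isZMat_betaR hℓ i).mul (isZMat_mapGL γ)).eq_iff
    ((isZMat_mapGL γ').mul (isZMat_betaR hℓ j)), heckeRep_eq hℓ i, heckeRep_eq hℓ j, embP_apply,
    embP_apply]
  constructor
  · intro h
    have h1 : heckeMatrix 2 0 * (betaR ℓ i * (γ : GL (Fin 2) ℝ)) * (heckeMatrix 2 0)⁻¹ =
        heckeMatrix 2 0 * ((γ' : GL (Fin 2) ℝ) * betaR ℓ j) * (heckeMatrix 2 0)⁻¹ := by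
      calc heckeMatrix 2 0 * (betaR ℓ i * (γ : GL (Fin 2) ℝ)) * (heckeMatrix 2 0)⁻¹
          = heckeMatrix 2 0 * betaR ℓ i * (heckeMatrix 2 0)⁻¹ *
              (heckeMatrix 2 0 * (γ : GL (Fin 2) ℝ) * (heckeMatrix 2 0)⁻¹) := by group
        _ = heckeMatrix 2 0 * (γ' : GL (Fin 2) ℝ) * (heckeMatrix 2 0)⁻¹ *
              (heckeMatrix 2 0 * betaR ℓ j * (heckeMatrix 2 0)⁻¹) := h
        _ = _ := by group
    exact mul_left_cancel (mul_right_cancel h1)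
  · intro h
    calc heckeMatrix 2 0 * betaR ℓ i * (heckeMatrix 2 0)⁻¹ *
          (heckeMatrix 2 0 * (γ : GL (Fin 2) ℝ) * (heckeMatrix 2 0)⁻¹)
        = heckeMatrix 2 0 * (betaR ℓ i * (γ : GL (Fin 2) ℝ)) * (heckeMatrix 2 0)⁻¹ := by group
      _ = heckeMatrix 2 0 * ((γ' : GL (Fin 2) ℝ) * betaR ℓ j) * (heckeMatrix 2 0)⁻¹ := by rw [h]
      _ = _ := by group

/-! ### the integral lemmas -/

theorem repA_pos {ℓ : ℕ} (hℓ : 0 < ℓ) (i : Option (Fin ℓ)) : 0 < repA ℓ i := by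
  cases i with
  | none =>
    show (0 : ℤ) < (ℓ : ℤ)
    exact_mod_cast hℓ
  | some b => exact one_pos

theorem repD_pos {ℓ : ℕ} (hℓ : 0 < ℓ) (i : Option (Fin ℓ)) : 0 < repD ℓ i := by
  cases i with
  | none => exact one_pos
  | some b =>
    show (0 : ℤ) < (ℓ : ℤ)
    exact_mod_cast hℓ

theorem odd_prime_cast_zmod_two {ℓ : ℕ} (hℓ : ℓ.Prime) (hℓ2 : ℓ ≠ 2) : ((ℓ : ℤ) : ZMod 2) = 1 := by
  apply odd_cast_zmod_two
  intro h
  exact hℓ2 ((Nat.prime_dvd_prime_iff_eq Nat.prime_two hℓ).mp h).symm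

theorem repA_cast_zmod_two {ℓ : ℕ} (hℓ : ℓ.Prime) (hℓ2 : ℓ ≠ 2) (i : Option (Fin ℓ)) :
    ((repA ℓ i : ℤ) : ZMod 2) = 1 := by
  cases i with
  | none => exact odd_prime_cast_zmod_two hℓ hℓ2
  | some b => simp [repA]

theorem repD_cast_zmod_two {ℓ : ℕ} (hℓ : ℓ.Prime) (hℓ2 : ℓ ≠ 2) (i : Option (Fin ℓ)) :
    ((repD ℓ i : ℤ) : ZMod 2) = 1 := by
  cases i with
  | none => simp [repD]
  | some b => exact odd_prime_cast_zmod_two hℓ hℓ2

/-- **right multiplication by `SL₂(ℤ)` permutes the cosets of the `β`** (`ℓ` an odd prime). -/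
theorem exists_betaZ_mul {ℓ : ℕ} (hℓ : ℓ.Prime) (hℓ2 : ℓ ≠ 2) (i : Option (Fin ℓ))
    (γ : SL(2, ℤ)) :
    ∃ (j : Option (Fin ℓ)) (γ' : SL(2, ℤ)),
      betaZ ℓ i * (γ : Matrix (Fin 2) (Fin 2) ℤ) =
        (γ' : Matrix (Fin 2) (Fin 2) ℤ) * betaZ ℓ j := by
  obtain ⟨δ, a', b', d', ha', hd', had', hb0, hbd, h00, h01, h10, h11⟩ :=
    Fermat.Agent.Igusa.exists_hnf (repA ℓ i) (2 * repB ℓ i) (repD ℓ i) (repA_pos hℓ.pos i)
      (repD_pos hℓ.pos i) γ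
  have hmat : betaZ ℓ i * (γ : Matrix (Fin 2) (Fin 2) ℤ) =
      (δ : Matrix (Fin 2) (Fin 2) ℤ) * utZ a' b' d' := by
    rw [betaZ, utZ_mul_eq_iff]
    exact ⟨h00, h01, h10, h11⟩
  obtain ⟨j₀, hj₀⟩ := exists_heckeRepZ_eq hℓ a' b' d' ha' hd' (had'.trans (repA_mul_repD ℓ i))
    hb0 hbd
  have hℓ2' : ¬ ((ℓ : ℤ) ∣ 2) := by
    intro h
    have h1 : ℓ ∣ 2 := by exact_mod_cast h
    exact hℓ2 ((Nat.prime_dvd_prime_iff_eq hℓ Nat.prime_two).mp h1)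
  cases j₀ with
  | none =>
    refine ⟨none, δ, ?_⟩
    rw [hmat]
    congr 1
    have ea : a' = ℓ := by
      have := congrFun (congrFun hj₀ 0) 0
      simpa [heckeRepZ, utZ, repA] using this.symm
    have eb : b' = 0 := by
      have := congrFun (congrFun hj₀ 0) 1
      simpa [heckeRepZ, utZ, repB] using this.symm
    have ed : d' = 1 := by
      have := congrFun (congrFun hj₀ 1) 1
      simpa [heckeRepZ, utZ, repD] using this.symm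
    rw [ea, eb, ed, betaZ]
    simp [repA, repB, repD]
  | some b₀ =>
    have ea : a' = 1 := by
      have := congrFun (congrFun hj₀ 0) 0
      simpa [heckeRepZ, utZ, repA] using this.symm
    have ed : d' = ℓ := by
      have := congrFun (congrFun hj₀ 1) 1
      simpa [heckeRepZ, utZ, repD] using this.symm
    obtain ⟨b'', t, ht⟩ := exists_fin_dvd_sub_mul hℓ b' 2 hℓ2'
    refine ⟨some b'', δ * upperUni t, ?_⟩
    rw [hmat, Matrix.SpecialLinearGroup.coe_mul, Matrix.mul_assoc]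
    congr 1
    rw [ea, ed, betaZ]
    have hb' : b' = 2 * ((b'' : ℕ) : ℤ) + (ℓ : ℤ) * t := by linarith
    rw [hb']
    ext x y
    fin_cases x <;> fin_cases y <;>
      simp [utZ, upperUni, repA, repB, repD, Matrix.mul_apply, Fin.sum_univ_two] <;> ring

/-- **(HD0')**: in `β_i γ = γ' β_j` one has `γ' ≡ γ mod 2`. -/
theorem red2_eq_of_betaZ_mul {ℓ : ℕ} (hℓ : ℓ.Prime) (hℓ2 : ℓ ≠ 2) {i j : Option (Fin ℓ)}
    {γ γ' : SL(2, ℤ)}
    (h : betaZ ℓ i * (γ : Matrix (Fin 2) (Fin 2) ℤ) =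
      (γ' : Matrix (Fin 2) (Fin 2) ℤ) * betaZ ℓ j) : red2 γ' = red2 γ := by
  rw [betaZ, betaZ, utZ_mul_eq_iff] at h
  obtain ⟨h00, h01, h10, h11⟩ := h
  have hAi := repA_cast_zmod_two hℓ hℓ2 i
  have hAj := repA_cast_zmod_two hℓ hℓ2 j
  have hDi := repD_cast_zmod_two hℓ hℓ2 i
  have hDj := repD_cast_zmod_two hℓ hℓ2 j
  have h2 : ((2 : ℤ) : ZMod 2) = 0 := by decide
  have c00 := congrArg (fun z : ℤ => (z : ZMod 2)) h00
  have c01 := congrArg (fun z : ℤ => (z : ZMod 2)) h01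
  have c10 := congrArg (fun z : ℤ => (z : ZMod 2)) h10
  have c11 := congrArg (fun z : ℤ => (z : ZMod 2)) h11
  simp only [Int.cast_add, Int.cast_mul, hAi, hAj, hDi, hDj, h2, one_mul, mul_one, zero_mul,
    mul_zero, add_zero, zero_add] at c00 c01 c10 c11
  rw [red2_eq_iff]
  intro x y
  fin_cases x <;> fin_cases y
  · exact c00.symm
  · exact c01.symm
  · exact c10.symm
  · exact c11.symm

/-- in `β_i γ = γ' β_j` with `γ ∈ Γ₀(M)`, `ℓ ∤ M`, one has `γ' ∈ Γ₀(M)`. -/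
theorem mem_Gamma0_of_betaZ_mul {M ℓ : ℕ} (hℓ : ℓ.Prime) (hℓM : ¬ ℓ ∣ M)
    {i j : Option (Fin ℓ)} {γ γ' : SL(2, ℤ)}
    (h : betaZ ℓ i * (γ : Matrix (Fin 2) (Fin 2) ℤ) =
      (γ' : Matrix (Fin 2) (Fin 2) ℤ) * betaZ ℓ j) (hγ : γ ∈ Gamma0 M) : γ' ∈ Gamma0 M := by
  rw [betaZ, betaZ, utZ_mul_eq_iff] at h
  obtain ⟨-, -, h10, -⟩ := h
  rw [mem_Gamma0_iff_dvd] at hγ ⊢
  have h1 : (M : ℤ) ∣ γ' 1 0 * repA ℓ j := by
    rw [← h10]
    exact Dvd.dvd.mul_left hγ _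
  have hcop : IsCoprime (M : ℤ) (repA ℓ j) := by
    have h2 : IsCoprime (M : ℤ) (ℓ : ℤ) := by
      rw [Int.isCoprime_iff_gcd_eq_one, Int.gcd_natCast_natCast]
      exact (Nat.Coprime.symm ((Nat.Prime.coprime_iff_not_dvd hℓ).mpr hℓM))
    exact h2.of_isCoprime_of_dvd_right (repA_dvd ℓ j)
  exact hcop.dvd_of_dvd_mul_right h1

/-- **the cosets of the `β` are pairwise distinct.** -/
theorem eq_of_betaZ_eq {ℓ : ℕ} (hℓ : ℓ.Prime) (hℓ2 : ℓ ≠ 2) {i j : Option (Fin ℓ)}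
    {δ : SL(2, ℤ)} (h : betaZ ℓ i = (δ : Matrix (Fin 2) (Fin 2) ℤ) * betaZ ℓ j) : i = j := by
  have h' : betaZ ℓ i * ((1 : SL(2, ℤ)) : Matrix (Fin 2) (Fin 2) ℤ) =
      (δ : Matrix (Fin 2) (Fin 2) ℤ) * betaZ ℓ j := by
    rw [Matrix.SpecialLinearGroup.coe_one, mul_one, h]
  rw [betaZ, betaZ, utZ_mul_eq_iff] at h'
  obtain ⟨h00, h01, h10, h11⟩ := h'
  simp only [Matrix.SpecialLinearGroup.coe_one, Matrix.one_apply_eq, Matrix.one_apply_ne,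
    ne_eq, one_ne_zero, zero_ne_one, not_false_eq_true, mul_one, mul_zero, add_zero,
    zero_add] at h00 h01 h10 h11
  have hdet := SL2_det_eq δ
  have hℓ' : (1 : ℤ) < ℓ := by exact_mod_cast hℓ.one_lt
  have hδ10 : δ 1 0 = 0 := by
    rcases mul_eq_zero.mp h10.symm with h | h
    · exact h
    · exact absurd h (repA_pos hℓ.pos j).ne'
  rw [hδ10, mul_zero, sub_zero] at hdet
  rw [hδ10, zero_mul, zero_add] at h11
  have h1 : δ 0 0 = 1 ∧ δ 1 1 = 1 := by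
    rcases Int.mul_eq_one_iff_eq_one_or_neg_one.mp hdet with h | h
    · exact h
    · exfalso
      have := repA_pos hℓ.pos i
      rw [h00, h.1] at this
      have := repA_pos hℓ.pos j
      linarith
  rw [h1.1, one_mul] at h00
  rw [h1.1, one_mul] at h01
  rw [h1.2, one_mul] at h11
  cases i with
  | none =>
    cases j with
    | none => rfl
    | some b' =>
      exfalso
      simp only [repA] at h00
      omega
  | some b =>
    cases j with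
    | none =>
      exfalso
      simp only [repA] at h00
      omega
    | some b' =>
      simp only [repB, repD] at h01
      have hdvd : (ℓ : ℤ) ∣ 2 * (((b : ℕ) : ℤ) - ((b' : ℕ) : ℤ)) := ⟨δ 0 1, by linarith⟩
      have hℓ2' : IsCoprime (ℓ : ℤ) 2 := by
        rw [Int.isCoprime_iff_gcd_eq_one]
        have : Nat.Coprime ℓ 2 := (Nat.coprime_primes hℓ Nat.prime_two).mpr hℓ2
        exact_mod_cast this
      have := hℓ2'.dvd_of_dvd_mul_left hdvd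
      rw [fin_eq_of_dvd_sub b b' this]

/-! ### the datum -/

section Datum

variable (M : ℕ) {Γ' : Subgroup SL(2, ℤ)} (hΓ : IsBLevel M Γ') (ℓ : ℕ) (hℓ : ℓ.Prime)
  (hℓ2 : ℓ ≠ 2) (hℓM : ¬ ℓ ∣ M)

/-- **the Hecke datum of `T_ℓ`** (`ℓ ∤ 2 M`) for a level structure `Γ'` at two above `Γ₀(M)`. -/
noncomputable def datumB : HeckeDatum ↥Γ' (GL (Fin 2) ℝ) (Option (Fin ℓ)) where
  e := embP.comp Γ'.subtype
  e_inj := embP_injective.comp Subtype.val_injective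
  α := heckeRep ℓ
  exists_eq γ i := by
    obtain ⟨j, γ', h⟩ := exists_betaZ_mul hℓ hℓ2 i (γ : SL(2, ℤ))
    have h1 : γ' ∈ Gamma0 M := mem_Gamma0_of_betaZ_mul hℓ hℓM h (hΓ.le γ.2)
    have h2 : γ' ∈ Γ' := hΓ.sat _ γ.2 _ h1 (red2_eq_of_betaZ_mul hℓ hℓ2 h)
    exact ⟨j, ⟨γ', h2⟩, (heckeRep_mul_embP_iff hℓ.ne_zero i j _ _).mpr h⟩
  index_eq i j γ' h := by
    have h1 : heckeRep ℓ i * embP 1 = embP (γ' : SL(2, ℤ)) * heckeRep ℓ j := by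
      rw [map_one, mul_one]
      exact h
    have h2 := (heckeRep_mul_embP_iff hℓ.ne_zero i j _ _).mp h1
    rw [Matrix.SpecialLinearGroup.coe_one, mul_one] at h2
    exact eq_of_betaZ_eq hℓ hℓ2 h2

@[simp] theorem datumB_e (γ : ↥Γ') :
    (datumB M hΓ ℓ hℓ hℓ2 hℓM).e γ = embP (γ : SL(2, ℤ)) := rfl

@[simp] theorem datumB_α (i : Option (Fin ℓ)) :
    (datumB M hΓ ℓ hℓ hℓ2 hℓM).α i = heckeRep ℓ i := rfl

theorem datumB_spec_betaZ (γ : ↥Γ') (i : Option (Fin ℓ)) :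
    betaZ ℓ i * ((γ : SL(2, ℤ)) : Matrix (Fin 2) (Fin 2) ℤ) =
      (((datumB M hΓ ℓ hℓ hℓ2 hℓM).cocycle γ i : SL(2, ℤ)) : Matrix (Fin 2) (Fin 2) ℤ) *
        betaZ ℓ ((datumB M hΓ ℓ hℓ hℓ2 hℓM).perm γ i) :=
  (heckeRep_mul_embP_iff hℓ.ne_zero _ _ _ _).mp ((datumB M hΓ ℓ hℓ hℓ2 hℓM).spec γ i)

/-- **(HD0')**: the cocycle is congruent to `γ` modulo two. -/
theorem datumB_cocycle_red2 (γ : ↥Γ') (i : Option (Fin ℓ)) :
    red2 ((datumB M hΓ ℓ hℓ hℓ2 hℓM).cocycle γ i : SL(2, ℤ)) = red2 (γ : SL(2, ℤ)) :=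
  red2_eq_of_betaZ_mul hℓ hℓ2 (datumB_spec_betaZ M hΓ ℓ hℓ hℓ2 hℓM γ i)

/-- **restriction to a smaller level structure is Hecke equivariant.** -/
theorem datumB_comp_inclusion {Γ'' : Subgroup SL(2, ℤ)} (hΓ'' : IsBLevel M Γ'') (hle : Γ'' ≤ Γ')
    {A : Type*} [AddCommGroup A] (ψ : Additive ↥Γ' →+ A) :
    ((datumB M hΓ ℓ hℓ hℓ2 hℓM).heckeGrp A ψ).comp
        (MonoidHom.toAdditive (Subgroup.inclusion hle)) =
      (datumB M hΓ'' ℓ hℓ hℓ2 hℓM).heckeGrp A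
        (ψ.comp (MonoidHom.toAdditive (Subgroup.inclusion hle))) :=
  heckeGrp_comp_of_compat (datumB M hΓ'' ℓ hℓ hℓ2 hℓM) (datumB M hΓ ℓ hℓ hℓ2 hℓM)
    (Subgroup.inclusion hle) (fun _ => rfl) (fun _ => rfl) ψ

end Datum

/-! ### comparison with the standard datum of `Γ₀(N · 2)` -/

section Kap

variable (M N : ℕ) (hΓ : IsBLevel M (G0up N 2)) (ℓ : ℕ) (hℓ : ℓ.Prime) (hℓ2 : ℓ ≠ 2)
  (hℓM : ¬ ℓ ∣ M) (hℓN : ¬ ℓ ∣ N * 2)

theorem embP_kap (γ : Gamma0 (N * 2)) :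
    embP ((kap N 2 Nat.prime_two γ : ↥(G0up N 2)) : SL(2, ℤ)) = gammaEmb (N * 2) γ := by
  rw [embP_apply, mapGL_kap]
  group

/-- **`kap` carries the datum of `G0up N 2` to the standard datum of `Γ₀(N · 2)`.** -/
theorem datumB_comp_kap {A : Type*} [AddCommGroup A] (ψ : Additive ↥(G0up N 2) →+ A) :
    ((datumB M hΓ ℓ hℓ hℓ2 hℓM).heckeGrp A ψ).comp
        (MonoidHom.toAdditive ((kap N 2 Nat.prime_two : Gamma0 (N * 2) ≃* ↥(G0up N 2)) :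
          Gamma0 (N * 2) →* ↥(G0up N 2))) =
      (heckeDatumT (N * 2) ℓ hℓ hℓN).heckeGrp A
        (ψ.comp (MonoidHom.toAdditive ((kap N 2 Nat.prime_two :
          Gamma0 (N * 2) ≃* ↥(G0up N 2)) : Gamma0 (N * 2) →* ↥(G0up N 2)))) :=
  heckeGrp_comp_of_compat (heckeDatumT (N * 2) ℓ hℓ hℓN) (datumB M hΓ ℓ hℓ hℓ2 hℓM)
    ((kap N 2 Nat.prime_two : Gamma0 (N * 2) ≃* ↥(G0up N 2)) : Gamma0 (N * 2) →* ↥(G0up N 2))
    (fun γ => embP_kap N γ) (fun _ => rfl) ψ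

end Kap

/-! ### conjugation by `Γ₀(M)` -/

section Conj

variable (M : ℕ) {Γ' : Subgroup SL(2, ℤ)} (hΓ : IsBLevel M Γ') (ℓ : ℕ) (hℓ : ℓ.Prime)
  (hℓ2 : ℓ ≠ 2) (hℓM : ¬ ℓ ∣ M)
  (hn : ∀ σ ∈ Gamma0 M, ∀ γ ∈ Γ', σ * γ * σ⁻¹ ∈ Γ') {A : Type*} [AddCommGroup A]

/-- **the operators commute with conjugation by `Γ₀(M)`.** -/
theorem diamondOnBy_datumB (σ : SL(2, ℤ)) (hσ : σ ∈ Gamma0 M) (ψ : Additive ↥Γ' →+ A) :
    diamondOnBy Γ' hn A σ hσ ((datumB M hΓ ℓ hℓ hℓ2 hℓM).heckeGrp A ψ) =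
      (datumB M hΓ ℓ hℓ hℓ2 hℓM).heckeGrp A (diamondOnBy Γ' hn A σ hσ ψ) := by
  refine (datumB M hΓ ℓ hℓ hℓ2 hℓM).heckeGrp_comp_mulEquiv (datumB M hΓ ℓ hℓ hℓ2 hℓM)
    (conjOn Γ' hn σ hσ) (MulAut.conj (embP σ)).toMonoidHom (MulAut.conj (embP σ)).injective
    (fun γ => ?_) (fun i => ?_) ψ
  · show embP σ * embP (γ : SL(2, ℤ)) * (embP σ)⁻¹ = embP (σ * (γ : SL(2, ℤ)) * σ⁻¹)
    rw [map_mul, map_mul, map_inv]
  · obtain ⟨j, γ', h⟩ := exists_betaZ_mul hℓ hℓ2 i σ⁻¹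
    have h1 : γ' ∈ Gamma0 M := mem_Gamma0_of_betaZ_mul hℓ hℓM h ((Gamma0 M).inv_mem hσ)
    have h2 : red2 γ' = red2 σ⁻¹ := red2_eq_of_betaZ_mul hℓ hℓ2 h
    have h3 : σ * γ' ∈ Γ' := by
      refine hΓ.sat 1 (one_mem _) _ ((Gamma0 M).mul_mem hσ h1) ?_
      rw [map_mul, h2, map_inv, mul_inv_cancel, map_one]
    have h4 := (heckeRep_mul_embP_iff hℓ.ne_zero i j _ _).mpr h
    refine ⟨j, ⟨σ * γ', h3⟩, ?_⟩
    show embP σ * heckeRep ℓ i * (embP σ)⁻¹ = embP (σ * γ') * heckeRep ℓ j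
    rw [map_mul, mul_assoc (embP σ) (embP γ'), ← h4, map_inv]
    group

end Conj

end Fermat.Agent.ML.SQ2
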