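/-
PROJECT ML (S59) — helper8 — [SQ2] = route (C) for the square step at `(p, q) = (3, 2)`,
part 3: **the `𝒪[A3]`-module `𝓜 = H¹(Hs M, 𝒪[A3])` and its bridges** to `Hom(Ns M, 𝒪)` and to
`Hom(Γ₀(4 M), 𝒪)`.

* `bridgeN : 𝓜 ≃ₗ[𝒪] Hom(Ns M, 𝒪)` (Shapiro), `bridge4 : 𝓜 ≃ₗ[𝒪] Hom(Γ₀(M·2·2), 𝒪)` (`kap`);
* `cocOpS ℓ` : the `Λ`-linear Hecke operator `T_ℓ` (`ℓ ∤ 2 M`) on `𝓜`;
  `bridgeN_cocOpS`, `bridge4_cocOpS` : it corresponds to `datumB (Ns M)` resp. `GR.heckeGrpP`;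
* `bridgeN_of_smul` : `[chi g] • x` corresponds to conjugation by `g`;
* `parS` : the `Λ`-submodule of parabolic classes; `mem_parS_iff4`.
-/
import Mathlib
import Fermat.Agent.ML.SQ2_helper8_Reps
import Fermat.Agent.RB.TWMOD_helper2_Core
import Fermat.Agent.GR.MULT1_helper2_Ops

set_option autoImplicit false
set_option linter.unusedSectionVars false
set_option linter.unusedVariables false
set_option linter.style.haveILetI false

open Matrix CongruenceSubgroup ModularForm ModularCurve.Period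
open scoped MatrixGroups

namespace Fermat.Agent.ML.SQ2

open Fermat.Agent.GR Fermat.Agent.LR Fermat.Agent.RB Fermat.Agent.RB.TWM

/-- `Γ₀(M · 2 · 2) ≃ Ns M`. -/
noncomputable def kap4 (M : ℕ) : Gamma0 (M * 2 * 2) ≃* ↥(Ns M) := kap (M * 2) 2 Nat.prime_two

/-- `Γ₀(M · 2) ≃ Hw M`. -/
noncomputable def kap2 (M : ℕ) : Gamma0 (M * 2) ≃* ↥(Hw M) := kap M 2 Nat.prime_two

theorem trace_kap4 (M : ℕ) (γ : Gamma0 (M * 2 * 2)) :
    (((kap4 M γ : ↥(Ns M)) : SL(2, ℤ)) : Matrix (Fin 2) (Fin 2) ℤ).trace =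
      ((γ : SL(2, ℤ)) : Matrix (Fin 2) (Fin 2) ℤ).trace := trace_kap (M * 2) 2 Nat.prime_two γ

theorem trace_kap2 (M : ℕ) (γ : Gamma0 (M * 2)) :
    (((kap2 M γ : ↥(Hw M)) : SL(2, ℤ)) : Matrix (Fin 2) (Fin 2) ℤ).trace =
      ((γ : SL(2, ℤ)) : Matrix (Fin 2) (Fin 2) ℤ).trace := trace_kap M 2 Nat.prime_two γ

/-- transport of parabolicity along a trace preserving isomorphism. -/
theorem homCongrL_mem_parabolicHoms_iff {Γ₁ Γ₂ : Subgroup SL(2, ℤ)} (e : ↥Γ₁ ≃* ↥Γ₂)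
    (he : ∀ γ : ↥Γ₁, (((e γ : ↥Γ₂) : SL(2, ℤ)) : Matrix (Fin 2) (Fin 2) ℤ).trace =
      ((γ : SL(2, ℤ)) : Matrix (Fin 2) (Fin 2) ℤ).trace)
    (O : Type*) [CommRing O] (ψ : Additive ↥Γ₁ →+ O) :
    homCongrL O e ψ ∈ parabolicHoms O Γ₂ O ↔ ψ ∈ parabolicHoms O Γ₁ O := by
  rw [mem_parabolicHoms_iff, mem_parabolicHoms_iff]
  constructor
  · intro h γ hγ
    have := h (e γ) (by rw [he]; exact hγ)
    rwa [homCongrL_apply, e.symm_apply_apply] at this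
  · intro h γ hγ
    rw [homCongrL_apply]
    apply h
    rw [← he, e.apply_symm_apply]
    exact hγ

section Setting

variable (M : ℕ) (hM : ¬ 2 ∣ M) (O : Type) [CommRing O]

/-- `𝓜 = H¹(Hs M, 𝒪[A3])`. -/
abbrev MMs : Type := cocH1 (grpRingChar O (chi M)) (MonoidAlgebra O ↥A3)

variable (ℓ : ℕ) (hℓ : ℓ.Prime) (hℓ2 : ℓ ≠ 2) (hℓM : ¬ ℓ ∣ M)

/-- the Hecke datum of `Hs M` at `ℓ`. -/
noncomputable abbrev datumHs : HeckeDatum ↥(Hs M) (GL (Fin 2) ℝ) (Option (Fin ℓ)) :=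
  datumB M (isBLevel_Hs M) ℓ hℓ hℓ2 hℓM

/-- **(HD)** for `chi`. -/
theorem chi_cocycle (γ : ↥(Hs M)) (i : Option (Fin ℓ)) :
    chi M ((datumHs M ℓ hℓ hℓ2 hℓM).cocycle γ i) = chi M γ :=
  Subtype.ext (datumB_cocycle_red2 M (isBLevel_Hs M) ℓ hℓ hℓ2 hℓM γ i)

theorem grpRingChar_chi_cocycle (γ : ↥(Hs M)) (i : Option (Fin ℓ)) :
    grpRingChar O (chi M) ((datumHs M ℓ hℓ hℓ2 hℓM).cocycle γ i) = grpRingChar O (chi M) γ :=
  grpRingChar_eq_iff O _ (chi_cocycle M ℓ hℓ hℓ2 hℓM γ i)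

/-- **`T_ℓ` on `𝓜`** (`Λ`-linear), `ℓ ∤ 2 M`. -/
noncomputable def cocOpS : MMs M O →ₗ[MonoidAlgebra O ↥A3] MMs M O :=
  cocHeckeH1 (grpRingChar O (chi M)) (datumHs M ℓ hℓ hℓ2 hℓM)
    (grpRingChar_chi_cocycle M O ℓ hℓ hℓ2 hℓM) (MonoidAlgebra O ↥A3)

/-- **the bridge** `𝓜 ≃ Hom(Ns M, 𝒪)`. -/
noncomputable def bridgeN : MMs M O ≃ₗ[O] (Additive ↥(Ns M) →+ O) :=
  (shapiroEquiv (O := O) (chi M) (chi_surjective hM)).trans (homCongrL O (kerEquivNs hM))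

/-- **the bridge is Hecke equivariant.** -/
theorem bridgeN_cocOpS (x : MMs M O) :
    bridgeN M hM O (cocOpS M O ℓ hℓ hℓ2 hℓM x) =
      (datumB M (isBLevel_Ns hM) ℓ hℓ hℓ2 hℓM).heckeGrp O (bridgeN M hM O x) := by
  show homCongrL O (kerEquivNs hM) (shapiroH1 (chi M) _) = _
  have h1 := shapiroH1_hecke (O := O) (chi M) (datumHs M ℓ hℓ hℓ2 hℓM)
    (chi_cocycle M ℓ hℓ hℓ2 hℓM) x
  have h2 : shapiroH1 (O := O) (chi M) (cocOpS M O ℓ hℓ hℓ2 hℓM x) =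
      ((datumHs M ℓ hℓ hℓ2 hℓM).restrictKer (chi M) (chi_cocycle M ℓ hℓ hℓ2 hℓM)).heckeGrp O
        (shapiroH1 (chi M) x) := h1
  rw [h2]
  exact heckeGrp_comp_of_compat (datumB M (isBLevel_Ns hM) ℓ hℓ hℓ2 hℓM)
    ((datumHs M ℓ hℓ hℓ2 hℓM).restrictKer (chi M) (chi_cocycle M ℓ hℓ hℓ2 hℓM))
    ((kerEquivNs hM).symm : ↥(Ns M) →* ↥(chi M).ker) (fun _ => rfl) (fun _ => rfl)
    (shapiroH1 (chi M) x)

/-- **the bridge carries `[chi g] •` to conjugation by `g`.** -/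
theorem bridgeN_of_smul (g : ↥(Hs M)) (x : MMs M O) :
    bridgeN M hM O (MonoidAlgebra.of O ↥A3 (chi M g) • x) =
      diamondOnBy (Ns M) (Ns_normal hM) O (g : SL(2, ℤ)) (Hs_le_Gamma0 M g.2)
        (bridgeN M hM O x) := by
  refine AddMonoidHom.ext fun γ => ?_
  obtain ⟨γ, rfl⟩ := Additive.ofMul.surjective γ
  rw [diamondOnBy_apply]
  show shapiroH1 (chi M) (MonoidAlgebra.of O ↥A3 (chi M g) • x)
      (Additive.ofMul ((kerEquivNs hM).symm γ)) =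
    shapiroH1 (chi M) x (Additive.ofMul ((kerEquivNs hM).symm
      (conjOn (Ns M) (Ns_normal hM) (g : SL(2, ℤ)) (Hs_le_Gamma0 M g.2) γ)))
  rw [shapiroH1_of_smul]
  rfl

instance : IsScalarTower O (MonoidAlgebra O ↥A3) (MMs M O) := inferInstance

/-- **the `Λ`-submodule of parabolic classes** of `𝓜`. -/
def parS : Submodule (MonoidAlgebra O ↥A3) (MMs M O) where
  carrier := {x | bridgeN M hM O x ∈ parabolicHoms O (Ns M) O}
  add_mem' := by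
    intro x y hx hy
    show bridgeN M hM O (x + y) ∈ parabolicHoms O (Ns M) O
    rw [map_add]
    exact Submodule.add_mem _ hx hy
  zero_mem' := by
    show bridgeN M hM O 0 ∈ parabolicHoms O (Ns M) O
    rw [map_zero]
    exact Submodule.zero_mem _
  smul_mem' := by
    intro a x hx
    show bridgeN M hM O (a • x) ∈ parabolicHoms O (Ns M) O
    induction a using MonoidAlgebra.induction_on with
    | of δ =>
      obtain ⟨g, rfl⟩ := chi_surjective hM δ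
      rw [bridgeN_of_smul]
      exact diamondOnBy_mem_parabolicHoms _ _ _ _ O hx
    | add a b ha hb =>
      rw [add_smul, map_add]
      exact Submodule.add_mem _ ha hb
    | smul r a ha =>
      rw [smul_assoc, map_smul]
      exact Submodule.smul_mem _ r ha

theorem mem_parS {x : MMs M O} :
    x ∈ parS M hM O ↔ bridgeN M hM O x ∈ parabolicHoms O (Ns M) O := Iff.rfl

/-- **the bridge** `𝓜 ≃ Hom(Γ₀(M · 2 · 2), 𝒪)`. -/
noncomputable def bridge4 : MMs M O ≃ₗ[O] (Additive ↥(Gamma0 (M * 2 * 2)) →+ O) :=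
  (bridgeN M hM O).trans (homCongrL O (kap4 M).symm)

theorem bridge4_apply (x : MMs M O) (γ : Gamma0 (M * 2 * 2)) :
    bridge4 M hM O x (Additive.ofMul γ) = bridgeN M hM O x (Additive.ofMul (kap4 M γ)) := rfl

theorem bridge4_eq (x : MMs M O) :
    bridge4 M hM O x = (bridgeN M hM O x).comp
      (MonoidHom.toAdditive ((kap4 M : Gamma0 (M * 2 * 2) ≃* ↥(Ns M)) :
        Gamma0 (M * 2 * 2) →* ↥(Ns M))) := rfl

theorem mem_parS_iff4 {x : MMs M O} :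
    x ∈ parS M hM O ↔ bridge4 M hM O x ∈ parabolicHoms O (Gamma0 (M * 2 * 2)) O := by
  rw [mem_parS]
  exact (homCongrL_mem_parabolicHoms_iff (kap4 M).symm (fun γ => by
    have := trace_kap4 M ((kap4 M).symm γ)
    rw [MulEquiv.apply_symm_apply] at this
    exact this.symm) O (bridgeN M hM O x)).symm

/-- **`bridge4` carries `T_ℓ` to `GR.heckeGrpP`.** -/
theorem bridge4_cocOpS (hℓ4 : ¬ ℓ ∣ M * 2 * 2) (x : MMs M O) :
    bridge4 M hM O (cocOpS M O ℓ hℓ hℓ2 hℓM x) =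
      heckeGrpP (M * 2 * 2) ⟨ℓ, hℓ⟩ O (bridge4 M hM O x) := by
  rw [heckeGrpP_of_not_dvd O (ℓ := ⟨ℓ, hℓ⟩) hℓ4, bridge4_eq, bridgeN_cocOpS, bridge4_eq]
  exact datumB_comp_kap M (M * 2) (isBLevel_Ns hM) ℓ hℓ hℓ2 hℓM hℓ4 (bridgeN M hM O x)

end Setting

end Fermat.Agent.ML.SQ2
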