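/-
PROJECT ML (S59) — helper8 — [SQ2] = route (C) for the square step at `(p, q) = (3, 2)`,
part 4: **the primary part of `𝓜 = H¹(Hs M, 𝔽₃[A3])` is free over `𝔽₃[A3]`**.

`𝒪 = ZMod 3`.  The operators `opS ℓ` (`= T_ℓ` for `ℓ ∤ 2 M`) on `𝓜`, the two-stage hypotheses of
`RB/TWMOD_helper2_Two` (the operators commute on the parabolic classes: lift to the lattice
`H¹_par(Γ₀(4 M), ℤ)` by `ML.parLiftModPO`; the boundary is Eisenstein for `ℓ₀ ≡ 1 mod 4 M`), and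
the freeness theorem T2 for the group `Hs M` (no elements of order three when a prime
`r ≡ 2 mod 3` divides `M`).
-/
import Mathlib
import Fermat.Agent.ML.SQ2_helper8_Bridge
import Fermat.Agent.RB.TWMOD_helper2_Zero
import Fermat.Agent.RB.P3_helper2_T2Main
import Fermat.Agent.ML.TOPO3_helper2_ParLift
import Fermat.Agent.LR.RAISE_helper2_Hecke

set_option autoImplicit false
set_option linter.unusedSectionVars false
set_option linter.unusedVariables false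
set_option linter.style.haveILetI false

open Matrix CongruenceSubgroup ModularForm ModularCurve.Period IsLocalRing
open scoped MatrixGroups

namespace Fermat.Agent.ML.SQ2

open Fermat.Agent.GR Fermat.Agent.LR Fermat.Agent.RB Fermat.Agent.RB.TWM

/-! ### `ZMod 3` as a complete local ring -/

instance fact_prime_three' : Fact (Nat.Prime 3) := ⟨Nat.prime_three⟩

instance isAdicComplete_zmod_three : IsAdicComplete (maximalIdeal (ZMod 3)) (ZMod 3) := by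
  rw [IsLocalRing.maximalIdeal_eq_bot]
  infer_instance

theorem three_mem_maximalIdeal : ((3 : ℕ) : ZMod 3) ∈ maximalIdeal (ZMod 3) := by
  have : ((3 : ℕ) : ZMod 3) = 0 := by decide
  rw [this]
  exact zero_mem _

instance isLocalRing_lam : IsLocalRing (MonoidAlgebra (ZMod 3) ↥A3) :=
  isLocalRing_monoidAlgebra Nat.prime_three three_mem_maximalIdeal isPGroup_A3

/-! ### commutation of the Hecke operators modulo `3` -/

/-- the Hecke operators commute on the reductions of the lattice `H¹_par(Γ₀(N), ℤ)`. -/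
theorem heckeGrpP_comm_of_lift (N : ℕ) [NeZero N] (ℓ ℓ' : Nat.Primes) {A : Type*}
    [AddCommGroup A] (f : ℤ →+ A) (w : LPar N) :
    heckeGrpP N ℓ A (heckeGrpP N ℓ' A (f.comp w.1)) =
      heckeGrpP N ℓ' A (heckeGrpP N ℓ A (f.comp w.1)) := by
  have h1 : ∀ (ℓ₁ ℓ₂ : Nat.Primes), heckeGrpP N ℓ₁ A (heckeGrpP N ℓ₂ A (f.comp w.1)) =
      f.comp ((heckeZ N ℓ₁ (heckeZ N ℓ₂ w) : LPar N) : Additive ↥(Gamma0 N) →+ ℤ) := by
    intro ℓ₁ ℓ₂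
    rw [heckeGrpP_comp, heckeGrpP_comp]
    rfl
  rw [h1, h1]
  have h2 := (heckeZ_commute N ℓ ℓ').eq
  have h3 : heckeZ N ℓ (heckeZ N ℓ' w) = heckeZ N ℓ' (heckeZ N ℓ w) := by
    rw [← Module.End.mul_apply, ← Module.End.mul_apply, h2]
  rw [h3]

/-- **the Hecke operators commute on the parabolic homomorphisms modulo `3`** (even level). -/
theorem heckeGrpP_comm_mod_three (N : ℕ) [NeZero N] (h2N : 2 ∣ N) (ℓ ℓ' : Nat.Primes)
    {ψ : Additive ↥(Gamma0 N) →+ ZMod 3} (hψ : ψ ∈ parabolicHoms (ZMod 3) (Gamma0 N) (ZMod 3)) :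
    heckeGrpP N ℓ (ZMod 3) (heckeGrpP N ℓ' (ZMod 3) ψ) =
      heckeGrpP N ℓ' (ZMod 3) (heckeGrpP N ℓ (ZMod 3) ψ) := by
  obtain ⟨w, hw⟩ := parLiftModPO N 3 (by norm_num) (fun _ => ⟨2, Nat.prime_two, h2N, by norm_num⟩)
    ψ (mem_parabolicHoms_iff.mpr (mem_parabolicHoms_iff.mp hψ))
  have hw' : (Int.castAddHom (ZMod 3)).comp w.1 = ψ := hw
  rw [← hw']
  exact heckeGrpP_comm_of_lift N ℓ ℓ' _ w

/-- the group ring `𝔽₃[A3]`. -/
abbrev Lam3 : Type := MonoidAlgebra (ZMod 3) ↥A3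

/-! ### the operators on `𝓜` -/

section Ops

variable (M : ℕ) (hM : ¬ 2 ∣ M)

local notation "𝔽₃" => ZMod 3

/-- **`T_ℓ` on `𝓜`** for a prime `ℓ ∤ 2 M` (zero otherwise). -/
noncomputable def opS (ℓ : Nat.Primes) : MMs M 𝔽₃ →ₗ[Lam3] MMs M 𝔽₃ :=
  if h : (ℓ : ℕ) ≠ 2 ∧ ¬ (ℓ : ℕ) ∣ M then cocOpS M 𝔽₃ ℓ ℓ.2 h.1 h.2 else 0

theorem opS_of {ℓ : Nat.Primes} (h2 : (ℓ : ℕ) ≠ 2) (hℓM : ¬ (ℓ : ℕ) ∣ M) :
    opS M ℓ = cocOpS M 𝔽₃ ℓ ℓ.2 h2 hℓM := dif_pos ⟨h2, hℓM⟩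

theorem not_dvd_four_mul {ℓ : Nat.Primes} (h2 : (ℓ : ℕ) ≠ 2) (hℓM : ¬ (ℓ : ℕ) ∣ M) :
    ¬ (ℓ : ℕ) ∣ M * 2 * 2 := by
  intro h
  rcases (Nat.Prime.dvd_mul ℓ.2).mp h with h | h
  · rcases (Nat.Prime.dvd_mul ℓ.2).mp h with h | h
    · exact hℓM h
    · exact h2 ((Nat.prime_dvd_prime_iff_eq ℓ.2 Nat.prime_two).mp h)
  · exact h2 ((Nat.prime_dvd_prime_iff_eq ℓ.2 Nat.prime_two).mp h)

/-- **`bridge4` carries `opS ℓ` to `GR.heckeGrpP`.** -/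
theorem bridge4_opS {ℓ : Nat.Primes} (h2 : (ℓ : ℕ) ≠ 2) (hℓM : ¬ (ℓ : ℕ) ∣ M) (x : MMs M 𝔽₃) :
    bridge4 M hM 𝔽₃ (opS M ℓ x) = heckeGrpP (M * 2 * 2) ℓ 𝔽₃ (bridge4 M hM 𝔽₃ x) := by
  rw [opS_of M h2 hℓM]
  exact bridge4_cocOpS M hM 𝔽₃ ℓ ℓ.2 h2 hℓM (not_dvd_four_mul M h2 hℓM) x

/-- **`bridgeN` carries `opS ℓ` to the operator of `datumB (Ns M)`.** -/
theorem bridgeN_opS {ℓ : Nat.Primes} (h2 : (ℓ : ℕ) ≠ 2) (hℓM : ¬ (ℓ : ℕ) ∣ M) (x : MMs M 𝔽₃) :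
    bridgeN M hM 𝔽₃ (opS M ℓ x) =
      (datumB M (isBLevel_Ns hM) ℓ ℓ.2 h2 hℓM).heckeGrp 𝔽₃ (bridgeN M hM 𝔽₃ x) := by
  rw [opS_of M h2 hℓM]
  exact bridgeN_cocOpS M hM 𝔽₃ ℓ ℓ.2 h2 hℓM x

variable [NeZero M]

instance neZero_four_mul : NeZero (M * 2 * 2) :=
  ⟨Nat.mul_ne_zero (Nat.mul_ne_zero (NeZero.ne M) two_ne_zero) two_ne_zero⟩

variable {I : Type*} (ι : I → Nat.Primes) (hι2 : ∀ i, ((ι i : Nat.Primes) : ℕ) ≠ 2)
  (hιM : ∀ i, ¬ ((ι i : Nat.Primes) : ℕ) ∣ M)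

include hι2 hιM in
/-- **the two-stage hypotheses hold for `𝓜`.** -/
theorem twoStage_S (c : I → 𝔽₃) (i₀ : I)
    (hℓ₀1 : ((ι i₀ : Nat.Primes) : ℕ) ≡ 1 [MOD M * 2 * 2])
    (hunit : IsUnit (c i₀ - ((((ι i₀ : Nat.Primes) : ℕ) : 𝔽₃) + 1))) :
    TwoStage (fun i => opS M (ι i)) (parS M hM 𝔽₃) c i₀
      ((((ι i₀ : Nat.Primes) : ℕ) : 𝔽₃) + 1) where
  map_par i x hx := by
    rw [mem_parS_iff4] at hx ⊢
    rw [bridge4_opS M hM (hι2 i) (hιM i)]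
    exact heckeGrpP_mem_parabolicHoms _ _ 𝔽₃ hx
  comm_par i j x hx := by
    rw [mem_parS_iff4] at hx
    apply (bridge4 M hM 𝔽₃).injective
    rw [bridge4_opS M hM (hι2 i) (hιM i), bridge4_opS M hM (hι2 j) (hιM j),
      bridge4_opS M hM (hι2 j) (hιM j), bridge4_opS M hM (hι2 i) (hιM i)]
    exact heckeGrpP_comm_mod_three (M * 2 * 2) (Dvd.intro_left _ rfl) (ι i) (ι j) hx
  bdy x := by
    rw [mem_parS_iff4, map_sub, bridge4_opS M hM (hι2 i₀) (hιM i₀), map_smul]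
    have h := heckeOnP_sub_mem_parabolicHoms (Gamma0 (M * 2 * 2)) (Gamma1_in_Gamma0 _) le_rfl
      (ι i₀) (not_dvd_four_mul M (hι2 i₀) (hιM i₀)) hℓ₀1 𝔽₃ (bridge4 M hM 𝔽₃ x)
    rw [heckeOnP_Gamma0_eq] at h
    have e : (((((ι i₀ : Nat.Primes) : ℕ) : 𝔽₃) + 1) • bridge4 M hM 𝔽₃ x) =
        (((ι i₀ : Nat.Primes) : ℕ) + 1) • bridge4 M hM 𝔽₃ x := by
      rw [← Nat.cast_smul_eq_nsmul 𝔽₃ (((ι i₀ : Nat.Primes) : ℕ) + 1)]
      push_cast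
      rfl
    rw [e]
    exact h
  unit := hunit

/-- **(CD1)** for `Hs M`: a prime `r ≡ 2 mod 3` divides `M`. -/
theorem liftsCocycles_Hs {r : ℕ} (hr : r.Prime) (hrM : r ∣ M) (hr3 : r % 3 = 2) :
    LiftsCocycles (grpRingChar 𝔽₃ (chi M)) :=
  P3.liftsCocycles_grpRingChar_of_odd (chi M) Nat.prime_three (by norm_num)
    three_mem_maximalIdeal (Hs M).subtype Subtype.val_injective
    (fun _ δ hδ => Hs_eq_one_of_pow_three hr hrM hr3 δ hδ)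

set_option maxHeartbeats 2000000 in
include hι2 hιM in
/-- **`H₀` is free over `𝔽₃[A3]`.** -/
theorem free_HZero_S {r : ℕ} (hr : r.Prime) (hrM : r ∣ M) (hr3 : r % 3 = 2) (c : I → 𝔽₃) (i₀ : I)
    (hunit : IsUnit (c i₀ - ((((ι i₀ : Nat.Primes) : ℕ) : 𝔽₃) + 1))) :
    Module.Free Lam3 ↥(HZero (fun i => opS M (ι i)) c i₀) := by
  set ℓ₀ : Nat.Primes := ι i₀ with hℓ₀
  obtain ⟨ε₀, h₀⟩ := exists_isFamIdem (O := 𝔽₃) (stageOne (fun i => opS M (ι i)) i₀)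
    (stageOne_commute (fun i => opS M (ι i)) i₀) (fun _ => c i₀)
  set α := famHom (O := 𝔽₃) (stageOne (fun i => opS M (ι i)) i₀)
    (stageOne_commute (fun i => opS M (ι i)) i₀) with hα
  set t : MvPolynomial Unit 𝔽₃ := MvPolynomial.X () - MvPolynomial.C (((ℓ₀ : ℕ) : 𝔽₃) + 1) with ht
  have htm : t ∉ famIdeal (fun _ : Unit => c i₀) := by
    apply notMem_famIdeal_of_isUnit
    rw [ht, map_sub, MvPolynomial.eval_X, MvPolynomial.eval_C]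
    exact hunit
  have hfree := P3.free_idemRange_cocH1_of_lifts (O := 𝔽₃) (chi M)
    (liftsCocycles_Hs M hr hrM hr3) Nat.prime_three three_mem_maximalIdeal isPGroup_A3 α
    (famIdeal (fun _ : Unit => c i₀))
    (datumHs M ℓ₀ ℓ₀.2 (hι2 i₀) (hιM i₀)) (chi_cocycle M ℓ₀ ℓ₀.2 (hι2 i₀) (hιM i₀)) t htm (by
      rw [ht, map_sub, hα, famHom_X, ← MvPolynomial.algebraMap_eq, AlgHom.commutes]
      apply LinearMap.ext
      intro x
      rw [cocEta_apply, LinearMap.sub_apply, Module.algebraMap_end_apply]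
      show opS M ℓ₀ x - _ = cocOpS M 𝔽₃ ℓ₀ ℓ₀.2 (hι2 i₀) (hιM i₀) x - _
      rw [opS_of M (hι2 i₀) (hιM i₀), Fintype.card_option, Fintype.card_fin]
      congr 1
      rw [← algebraMap_smul Lam3 (((ℓ₀ : ℕ) : 𝔽₃) + 1) x]
      congr 1
      push_cast
      rfl) ε₀ h₀.idem h₀.inv
  have e : idemRange (α ε₀) = HZero (fun i => opS M (ι i)) c i₀ := h₀.range_eq
  rw [e] at hfree
  exact hfree

include hM hι2 hιM in
/-- **the primary part of `𝓜` is free over `𝔽₃[A3]`.** -/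
theorem free_primary_S {r : ℕ} (hr : r.Prime) (hrM : r ∣ M) (hr3 : r % 3 = 2) (c : I → 𝔽₃)
    (i₀ : I) (hℓ₀1 : ((ι i₀ : Nat.Primes) : ℕ) ≡ 1 [MOD M * 2 * 2])
    (hunit : IsUnit (c i₀ - ((((ι i₀ : Nat.Primes) : ℕ) : 𝔽₃) + 1))) :
    Module.Free Lam3 ↥(primaryPartR (fun i => opS M (ι i)) c) :=
  (twoStage_S M hM ι hι2 hιM c i₀ hℓ₀1 hunit).free_primaryPartR
    (free_HZero_S M ι hι2 hιM hr hrM hr3 c i₀ hunit)

end Ops

end Fermat.Agent.ML.SQ2
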