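/-
PROJECT ML (S59) — helper8 — [SQ2] = route (C) for the square step at `(p, q) = (3, 2)`,
part 6: **the involution `ω`** (conjugation by `wM = (1 0; M 1) ∈ Γ₀(M) ∖ Hs M`) on
`𝓜 = H¹(Hs M, 𝔽₃[A3]) ≃ Hom(Ns M, 𝔽₃)` and **the `ω`-fixed eigenvector**.

`ω² = 1` (`wM² ∈ Ns M`), `ω` commutes with the `T_ℓ`, and `ω ∘ [δ] = [δ⁻¹] ∘ ω` (`wM` inverts
`A3`).  The primary part `V` of `𝓜` is free over `𝔽₃[A3]` (part 4), so `V^ω ≠ 0`
(`exists_fixed_of_free`), and `V^ω` contains a common eigenvector of the `T_ℓ`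
(`exists_common_kernel`).
-/
import Mathlib
import Fermat.Agent.ML.SQ2_helper8_Two
import Fermat.Agent.ML.SQ2_helper8_Abs

set_option autoImplicit false
set_option linter.unusedSectionVars false
set_option linter.unusedVariables false
set_option linter.style.haveILetI false

open Matrix CongruenceSubgroup ModularForm ModularCurve.Period IsLocalRing
open scoped MatrixGroups

namespace Fermat.Agent.ML.SQ2

open Fermat.Agent.GR Fermat.Agent.LR Fermat.Agent.RB Fermat.Agent.RB.TWM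

section Omega

variable (M : ℕ) (hM : ¬ 2 ∣ M)

local notation "𝔽₃" => ZMod 3

/-- conjugation by `wM` on `Hom(Ns M, 𝔽₃)`, as a linear map. -/
noncomputable def omN : (Additive ↥(Ns M) →+ 𝔽₃) →ₗ[𝔽₃] (Additive ↥(Ns M) →+ 𝔽₃) where
  toFun := diamondOnBy (Ns M) (Ns_normal hM) 𝔽₃ (wM M) (wM_mem_Gamma0 M)
  map_add' := map_add _
  map_smul' _ _ := rfl

theorem omN_apply (ψ : Additive ↥(Ns M) →+ 𝔽₃) :
    omN M hM ψ = diamondOnBy (Ns M) (Ns_normal hM) 𝔽₃ (wM M) (wM_mem_Gamma0 M) ψ := rfl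

/-- **`ω`** on `𝓜`. -/
noncomputable def omS : MMs M 𝔽₃ →ₗ[𝔽₃] MMs M 𝔽₃ :=
  (bridgeN M hM 𝔽₃).symm.toLinearMap ∘ₗ omN M hM ∘ₗ (bridgeN M hM 𝔽₃).toLinearMap

theorem bridgeN_omS (x : MMs M 𝔽₃) :
    bridgeN M hM 𝔽₃ (omS M hM x) = omN M hM (bridgeN M hM 𝔽₃ x) := by
  show bridgeN M hM 𝔽₃ ((bridgeN M hM 𝔽₃).symm (omN M hM (bridgeN M hM 𝔽₃ x))) = _
  rw [LinearEquiv.apply_symm_apply]

/-- **`ω² = 1`.** -/
theorem omS_omS (x : MMs M 𝔽₃) : omS M hM (omS M hM x) = x := by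
  apply (bridgeN M hM 𝔽₃).injective
  rw [bridgeN_omS, bridgeN_omS, omN_apply, omN_apply]
  have h1 := diamondOnBy_mul (A := 𝔽₃) (Ns M) (Ns_normal hM) (wM_mem_Gamma0 M) (wM_mem_Gamma0 M)
  have h2 := diamondOnBy_of_mem (A := 𝔽₃) (Ns M) (Ns_normal hM)
    ((Gamma0 M).mul_mem (wM_mem_Gamma0 M) (wM_mem_Gamma0 M)) (wM_sq_mem_Ns hM)
  rw [h1] at h2
  exact DFunLike.congr_fun h2 (bridgeN M hM 𝔽₃ x)

/-- **`ω` commutes with the Hecke operators.** -/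
theorem omS_opS {ℓ : Nat.Primes} (h2 : (ℓ : ℕ) ≠ 2) (hℓM : ¬ (ℓ : ℕ) ∣ M) (x : MMs M 𝔽₃) :
    omS M hM (opS M ℓ x) = opS M ℓ (omS M hM x) := by
  apply (bridgeN M hM 𝔽₃).injective
  rw [bridgeN_omS, bridgeN_opS M hM h2 hℓM, bridgeN_opS M hM h2 hℓM, bridgeN_omS, omN_apply,
    omN_apply]
  exact diamondOnBy_datumB M (isBLevel_Ns hM) ℓ ℓ.2 h2 hℓM (Ns_normal hM) (wM M)
    (wM_mem_Gamma0 M) _

/-- **`ω ∘ [δ] = [δ⁻¹] ∘ ω`.** -/
theorem omS_of_smul (δ : ↥A3) (x : MMs M 𝔽₃) :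
    omS M hM (MonoidAlgebra.of 𝔽₃ ↥A3 δ • x) = MonoidAlgebra.of 𝔽₃ ↥A3 δ⁻¹ • omS M hM x := by
  obtain ⟨g, rfl⟩ := chi_surjective hM δ
  -- the conjugate `g' = wM⁻¹ g wM`
  have hg0 : (g : SL(2, ℤ)) ∈ Gamma0 M := Hs_le_Gamma0 M g.2
  have hw0 := wM_mem_Gamma0 M
  have hg'0 : (wM M)⁻¹ * (g : SL(2, ℤ)) * wM M ∈ Gamma0 M :=
    (Gamma0 M).mul_mem ((Gamma0 M).mul_mem ((Gamma0 M).inv_mem hw0) hg0) hw0
  have hred : red2 ((wM M)⁻¹ * (g : SL(2, ℤ)) * wM M) = (red2 (g : SL(2, ℤ)))⁻¹ := by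
    rw [map_mul, map_mul, map_inv, red2_wM hM]
    have h := conj_A3_of_notMem (t := t0⁻¹) (a := red2 (g : SL(2, ℤ))) (by decide) g.2.2
    rw [inv_inv] at h
    exact h
  have hg' : (wM M)⁻¹ * (g : SL(2, ℤ)) * wM M ∈ Hs M := by
    refine ⟨hg'0, ?_⟩
    show red2 _ ∈ A3
    rw [hred]
    exact A3.inv_mem g.2.2
  have hchi : chi M ⟨_, hg'⟩ = (chi M g)⁻¹ := Subtype.ext hred
  rw [← hchi]
  apply (bridgeN M hM 𝔽₃).injective
  rw [bridgeN_omS, bridgeN_of_smul, bridgeN_of_smul, bridgeN_omS, omN_apply, omN_apply]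
  have h1 := diamondOnBy_mul (A := 𝔽₃) (Ns M) (Ns_normal hM) hg0 hw0
  have h2 := diamondOnBy_mul (A := 𝔽₃) (Ns M) (Ns_normal hM) hw0 hg'0
  have h3 : diamondOnBy (Ns M) (Ns_normal hM) 𝔽₃ ((g : SL(2, ℤ)) * wM M)
      ((Gamma0 M).mul_mem hg0 hw0) =
      diamondOnBy (Ns M) (Ns_normal hM) 𝔽₃ (wM M * ((wM M)⁻¹ * (g : SL(2, ℤ)) * wM M))
        ((Gamma0 M).mul_mem hw0 hg'0) := by
    apply diamondOnBy_congr
    have e : ((g : SL(2, ℤ)) * wM M)⁻¹ * (wM M * ((wM M)⁻¹ * (g : SL(2, ℤ)) * wM M)) = 1 := by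
      group
    rw [e]
    exact one_mem _
  rw [h1, h2] at h3
  exact DFunLike.congr_fun h3 (bridgeN M hM 𝔽₃ x)

end Omega

section Fixed

variable (M : ℕ) (hM : ¬ 2 ∣ M) [NeZero M]

local notation "𝔽₃" => ZMod 3

variable {I : Type*} (ι : I → Nat.Primes) (hι2 : ∀ i, ((ι i : Nat.Primes) : ℕ) ≠ 2)
  (hιM : ∀ i, ¬ ((ι i : Nat.Primes) : ℕ) ∣ M) (c : I → 𝔽₃)

include hι2 hιM in
/-- **`ω` preserves the primary part.** -/
theorem omS_mem_primaryPartR {x : MMs M 𝔽₃}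
    (hx : x ∈ primaryPartR (fun i => opS M (ι i)) c) :
    omS M hM x ∈ primaryPartR (fun i => opS M (ι i)) c := by
  intro i n
  obtain ⟨k, hk⟩ := hx i n
  refine ⟨k, ?_⟩
  rw [← map_pow_sub_algebraMap_apply (omS M hM) (opS M (ι i)) (opS M (ι i))
    (fun y => omS_opS M hM (hι2 i) (hιM i) y) (c i) k x]
  exact map_mem_smul_top (omS M hM) _ hk

set_option maxHeartbeats 1600000 in
include hι2 hιM in
/-- **the `ω`-fixed eigenvector**: if the eigensystem `c` occurs in `𝓜`, it occurs in the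
`ω`-invariants. -/
theorem exists_fixed_eigen {r : ℕ} (hr : r.Prime) (hrM : r ∣ M) (hr3 : r % 3 = 2) (i₀ : I)
    (hℓ₀1 : ((ι i₀ : Nat.Primes) : ℕ) ≡ 1 [MOD M * 2 * 2])
    (hunit : IsUnit (c i₀ - ((((ι i₀ : Nat.Primes) : ℕ) : 𝔽₃) + 1)))
    (x₀ : MMs M 𝔽₃) (hx₀ : x₀ ≠ 0) (hx₀e : ∀ i, opS M (ι i) x₀ = c i • x₀) :
    ∃ x : MMs M 𝔽₃, x ≠ 0 ∧ x ∈ parS M hM 𝔽₃ ∧ omS M hM x = x ∧
      ∀ i, opS M (ι i) x = c i • x := by
  classical
  set T : I → Module.End Lam3 (MMs M 𝔽₃) := fun i => opS M (ι i) with hT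
  have hTS := twoStage_S M hM ι hι2 hιM c i₀ hℓ₀1 hunit
  haveI hfree : Module.Free Lam3 ↥(primaryPartR T c) :=
    free_primary_S M hM ι hι2 hιM hr hrM hr3 c i₀ hℓ₀1 hunit
  -- `x₀` lies in the primary part
  have hx₀V : x₀ ∈ primaryPartR T c := by
    intro i n
    refine ⟨1, ?_⟩
    rw [pow_one, LinearMap.sub_apply, Module.algebraMap_end_apply]
    have : T i x₀ - c i • x₀ = 0 := by rw [hT]; simp only; rw [hx₀e i, sub_self]
    rw [this]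
    exact Submodule.zero_mem _
  haveI : Nontrivial ↥(primaryPartR T c) :=
    ⟨⟨⟨x₀, hx₀V⟩, 0, fun h => hx₀ (congrArg Subtype.val h)⟩⟩
  -- `ω` on the primary part
  let ωV : ↥(primaryPartR T c) →+ ↥(primaryPartR T c) :=
    { toFun := fun x => ⟨omS M hM x.1, omS_mem_primaryPartR M hM ι hι2 hιM c x.2⟩
      map_zero' := Subtype.ext (map_zero _)
      map_add' := fun a b => Subtype.ext (map_add _ _ _) }
  obtain ⟨v, hv0, hvω⟩ := exists_fixed_of_free (O := 𝔽₃) (Δ := ↥A3) ωV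
    (fun x => Subtype.ext (omS_omS M hM x.1))
    (fun δ x => Subtype.ext (omS_of_smul M hM δ x.1)) exists_sq_A3 s0A s0A_ne_one
  -- the `ω`-invariants of the primary part
  let W : Submodule 𝔽₃ (MMs M 𝔽₃) :=
    ((primaryPartR T c).restrictScalars 𝔽₃) ⊓ LinearMap.eqLocus (omS M hM) LinearMap.id
  have hWmem : ∀ x, x ∈ W ↔ x ∈ primaryPartR T c ∧ omS M hM x = x := fun x => Iff.rfl
  have hW0 : W ≠ ⊥ := by
    intro h
    have hvW : (v : MMs M 𝔽₃) ∈ W := (hWmem _).mpr ⟨v.2, congrArg Subtype.val hvω⟩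
    rw [h, Submodule.mem_bot] at hvW
    exact hv0 (Subtype.ext hvW)
  let Nop : I → MMs M 𝔽₃ →ₗ[𝔽₃] MMs M 𝔽₃ := fun i =>
    (T i).restrictScalars 𝔽₃ - algebraMap 𝔽₃ (Module.End 𝔽₃ (MMs M 𝔽₃)) (c i)
  have hNop : ∀ i x, Nop i x = T i x - c i • x := fun i x => rfl
  have hpar : ∀ x ∈ W, x ∈ parS M hM 𝔽₃ := fun x hx => hTS.primaryPartR_le ((hWmem x).mp hx).1
  have hst : ∀ i, ∀ x ∈ W, Nop i x ∈ W := by
    intro i x hx
    obtain ⟨hxV, hxω⟩ := (hWmem x).mp hx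
    refine (hWmem _).mpr ⟨?_, ?_⟩
    · rw [hNop]
      exact Submodule.sub_mem _ (hTS.apply_mem_primaryPartR i hxV)
        (Submodule.smul_of_tower_mem _ (c i) hxV)
    · rw [hNop]
      have e1 : omS M hM (T i x - c i • x) = omS M hM (T i x) - c i • omS M hM x := by
        rw [map_sub, LinearMap.map_smul]
      rw [e1]
      show omS M hM (opS M (ι i) x) - _ = _
      rw [omS_opS M hM (hι2 i) (hιM i), hxω]
  have hcomm : ∀ i j, ∀ x ∈ W, Nop i (Nop j x) = Nop j (Nop i x) := by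
    intro i j x hx
    have h1 := hTS.comm_par i j x (hpar x hx)
    have e : ∀ (i' j' : I), Nop i' (Nop j' x) =
        T i' (T j' x) - c j' • T i' x - (c i' • T j' x - c i' • c j' • x) := by
      intro i' j'
      rw [hNop, hNop, map_sub, LinearMap.map_smul_of_tower, smul_sub]
    rw [e i j, e j i, h1, smul_comm (c j) (c i) x]
    abel
  have hnil : ∀ i, ∀ x ∈ W, ∃ k : ℕ, ((Nop i) ^ k) x = 0 := by
    intro i x hx
    obtain ⟨k, hk⟩ := ((hWmem x).mp hx).1 i 1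
    refine ⟨k, ?_⟩
    have h1 := map_pow_sub_algebraMap_apply (R := Lam3) (R' := 𝔽₃)
      (LinearMap.id : MMs M 𝔽₃ →ₗ[𝔽₃] MMs M 𝔽₃) (T i) ((T i).restrictScalars 𝔽₃)
      (fun y => rfl) (c i) k x
    rw [LinearMap.id_apply, LinearMap.id_apply] at h1
    rw [pow_one, IsLocalRing.maximalIdeal_eq_bot, Submodule.bot_smul, Submodule.mem_bot] at hk
    rw [← hk, h1]
  obtain ⟨x, hxW, hx0, hxN⟩ := exists_common_kernel W hW0 Nop hst hcomm hnil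
  obtain ⟨hxV, hxω⟩ := (hWmem x).mp hxW
  refine ⟨x, hx0, hpar x hxW, hxω, fun i => ?_⟩
  have := hxN i
  rw [hNop, sub_eq_zero] at this
  exact this

end Fixed

end Fermat.Agent.ML.SQ2
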