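/-
PROJECT ML (S59) — helper8 — [SQ2] = route (C) for the square step at `(p, q) = (3, 2)`,
part 7: **the core**: `ResOccurs (M · 2 · 2) 3 S a → ResOccurs (M · 2) 3 S a` for odd `M` divisible
by a prime `r ≡ 2 mod 3` and a non-Eisenstein system `a`.

START: an eigenvector modulo `3` in the lattice `H¹_par(Γ₀(4 M), ℤ)` gives `x₀ ≠ 0` in
`𝓜 ≃ Hom(Γ₀(4 M), 𝔽₃)`.  MIDDLE (`exists_fixed_eigen`): an `ω`-fixed parabolic eigenvector `ψ` on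
`Ns M`.  END: `ψ` extends to `Hw M = ⟨Ns M, wM⟩ ≃ Γ₀(2 M)` (index two, `2` invertible), the
extension is a parabolic eigenvector; it lifts to the lattice of level `2 M`
(`ML.parLiftModPO`, `r = 2`), which gives `ResOccurs (M · 2)`.
-/
import Mathlib
import Fermat.Agent.ML.SQ2_helper8_Omega
import Fermat.Agent.MP.TOPGL_helper4_Lattice

set_option autoImplicit false
set_option linter.unusedSectionVars false
set_option linter.unusedVariables false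
set_option linter.style.haveILetI false

open Matrix CongruenceSubgroup ModularForm ModularCurve.Period IsLocalRing
open scoped MatrixGroups

namespace Fermat.Agent.ML.SQ2

open Fermat.Agent.GR Fermat.Agent.LR Fermat.Agent.RB Fermat.Agent.RB.TWM Fermat.Agent.MP

local notation "𝔽₃" => ZMod 3

/-! ### reduction of the lattice modulo `3` -/

section Red

variable {N : ℕ}

/-- reduction modulo `3` of a lattice class. -/
noncomputable def red3 (w : LPar N) : Additive ↥(Gamma0 N) →+ 𝔽₃ := (Int.castAddHom 𝔽₃).comp w.1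

theorem red3_apply (w : LPar N) (γ : Additive ↥(Gamma0 N)) : red3 w γ = ((w.1 γ : ℤ) : 𝔽₃) := rfl

theorem red3_mem_parabolicHoms (w : LPar N) : red3 w ∈ parabolicHoms 𝔽₃ (Gamma0 N) 𝔽₃ :=
  comp_mem_parabolicHoms (R := ℤ) (S := 𝔽₃) _ w.2

theorem red3_heckeZ (ℓ : Nat.Primes) (w : LPar N) :
    red3 (heckeZ N ℓ w) = heckeGrpP N ℓ 𝔽₃ (red3 w) := by
  rw [red3, red3, heckeGrpP_comp]
  rfl

theorem red3_smul_three (y : LPar N) : red3 (((3 : ℕ) : ℤ) • y) = 0 := by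
  refine AddMonoidHom.ext fun γ => ?_
  rw [red3_apply]
  show (((((3 : ℕ) : ℤ) • y.1) γ : ℤ) : 𝔽₃) = 0
  rw [AddMonoidHom.smul_apply, smul_eq_mul, Int.cast_mul]
  have : ((((3 : ℕ) : ℤ) : ℤ) : 𝔽₃) = 0 := by decide
  rw [this, zero_mul]

theorem red3_add (w w' : LPar N) : red3 (w + w') = red3 w + red3 w' := by
  refine AddMonoidHom.ext fun γ => ?_
  show ((((w + w' : LPar N) : Additive ↥(Gamma0 N) →+ ℤ) γ : ℤ) : 𝔽₃) = _
  rw [Submodule.coe_add, AddMonoidHom.add_apply, Int.cast_add]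
  rfl

theorem red3_zsmul (a : ℤ) (w : LPar N) : red3 (a • w) = (a : 𝔽₃) • red3 w := by
  refine AddMonoidHom.ext fun γ => ?_
  show ((((a • w : LPar N) : Additive ↥(Gamma0 N) →+ ℤ) γ : ℤ) : 𝔽₃) = _
  rw [Submodule.coe_smul, AddMonoidHom.smul_apply, smul_eq_mul, Int.cast_mul]
  rfl

/-- a lattice class which vanishes modulo `3` is `3` times a lattice class. -/
theorem lpar_eq_three_smul_of_red3_eq_zero (w : LPar N) (h : red3 w = 0) :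
    ∃ y : LPar N, w = ((3 : ℕ) : ℤ) • y := by
  refine exists_eq_smul_of_comp_eq_zero ℤ (Gamma0 N) ℤ (Int.castAddHom 𝔽₃) ((3 : ℕ) : ℤ) ?_ ?_ w h
  · intro a b hab
    have h3 : (((3 : ℕ) : ℤ)) ≠ 0 := by norm_num
    exact mul_left_cancel₀ h3 hab
  · intro a ha
    have h1 : ((a : ℤ) : 𝔽₃) = 0 := ha
    rw [ZMod.intCast_zmod_eq_zero_iff_dvd] at h1
    obtain ⟨a', ha'⟩ := h1
    exact ⟨a', by rw [ha', smul_eq_mul]⟩

theorem red3_ne_zero (w : LPar N) (hw : ∀ y : LPar N, w ≠ ((3 : ℕ) : ℤ) • y) : red3 w ≠ 0 := by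
  intro h
  obtain ⟨y, hy⟩ := lpar_eq_three_smul_of_red3_eq_zero w h
  exact hw y hy

theorem red3_eigen (ℓ : Nat.Primes) (w y : LPar N) (a : ℤ)
    (h : heckeZ N ℓ w = a • w + ((3 : ℕ) : ℤ) • y) :
    heckeGrpP N ℓ 𝔽₃ (red3 w) = (a : 𝔽₃) • red3 w := by
  rw [← red3_heckeZ, h, red3_add, red3_zsmul, red3_smul_three, add_zero]

theorem exists_of_red3_eigen (ℓ : Nat.Primes) (w : LPar N) (a : ℤ)
    (h : heckeGrpP N ℓ 𝔽₃ (red3 w) = (a : 𝔽₃) • red3 w) :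
    ∃ y : LPar N, heckeZ N ℓ w = a • w + ((3 : ℕ) : ℤ) • y := by
  have h0 : red3 (heckeZ N ℓ w + (-a) • w) = 0 := by
    rw [red3_add, red3_zsmul, red3_heckeZ, h, Int.cast_neg, neg_smul, add_neg_cancel]
  obtain ⟨y, hy⟩ := lpar_eq_three_smul_of_red3_eq_zero _ h0
  refine ⟨y, ?_⟩
  rw [← hy]
  simp

end Red

/-! ### the group `Hw M` -/

section Hw

variable {M : ℕ} (hM : ¬ 2 ∣ M)

include hM in
theorem sq_mem_Ns {γ : SL(2, ℤ)} (hγ : γ ∈ Hw M) : γ * γ ∈ Ns M := by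
  obtain ⟨h1, h2⟩ := mem_Hw_iff.mp hγ
  refine (mem_Ns_iff hM).mpr ⟨mul_mem h1 h1, ?_⟩
  rw [map_mul]
  rcases h2 with h | h <;> rw [h] <;> decide

theorem zmod3_eq_zero_of_add_self {t : 𝔽₃} (h : t + t = 0) : t = 0 := by
  revert t
  decide

theorem zmod3_two_mul_add (t : 𝔽₃) : 2 * t + 2 * t = t := by
  revert t
  decide

/-- a homomorphism `Hw M → 𝔽₃` which vanishes on `Ns M` vanishes. -/
theorem hom_Hw_eq_zero_of_res (φ : Additive ↥(Hw M) →+ 𝔽₃)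
    (h : φ.comp (MonoidHom.toAdditive (Subgroup.inclusion (Ns_le_Hw hM))) = 0) : φ = 0 := by
  refine AddMonoidHom.ext fun γ => ?_
  obtain ⟨γ, rfl⟩ := Additive.ofMul.surjective γ
  have h1 := DFunLike.congr_fun h
    (Additive.ofMul (⟨(γ : SL(2, ℤ)) * γ, sq_mem_Ns hM γ.2⟩ : ↥(Ns M)))
  have h2 : Subgroup.inclusion (Ns_le_Hw hM) (⟨(γ : SL(2, ℤ)) * γ, sq_mem_Ns hM γ.2⟩ : ↥(Ns M)) =
      γ * γ := Subtype.ext rfl
  have h3 : φ (Additive.ofMul (γ * γ)) = 0 := by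
    rw [← h2]
    exact h1
  rw [ofMul_mul, map_add] at h3
  exact zmod3_eq_zero_of_add_self h3

theorem trace_mul_self_sq (γ : SL(2, ℤ))
    (h : (γ : Matrix (Fin 2) (Fin 2) ℤ).trace ^ 2 = 4) :
    ((γ * γ : SL(2, ℤ)) : Matrix (Fin 2) (Fin 2) ℤ).trace ^ 2 = 4 := by
  have hdet := SL2_det_eq γ
  rw [Matrix.trace_fin_two] at h
  have ht : ((γ * γ : SL(2, ℤ)) : Matrix (Fin 2) (Fin 2) ℤ).trace = 2 := by
    rw [Matrix.SpecialLinearGroup.coe_mul, Matrix.trace_fin_two, Matrix.mul_apply,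
      Matrix.mul_apply, Fin.sum_univ_two, Fin.sum_univ_two]
    linear_combination h - 2 * hdet
  rw [ht]
  norm_num

/-- a homomorphism `Hw M → 𝔽₃` whose restriction to `Ns M` is parabolic is parabolic. -/
theorem parabolic_Hw_of_res (φ : Additive ↥(Hw M) →+ 𝔽₃)
    (h : φ.comp (MonoidHom.toAdditive (Subgroup.inclusion (Ns_le_Hw hM))) ∈
      parabolicHoms 𝔽₃ (Ns M) 𝔽₃) : φ ∈ parabolicHoms 𝔽₃ (Hw M) 𝔽₃ := by
  rw [mem_parabolicHoms_iff] at h ⊢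
  intro γ hγ
  have h1 := h (⟨(γ : SL(2, ℤ)) * γ, sq_mem_Ns hM γ.2⟩ : ↥(Ns M))
    (trace_mul_self_sq (γ : SL(2, ℤ)) hγ)
  have h2 : Subgroup.inclusion (Ns_le_Hw hM) (⟨(γ : SL(2, ℤ)) * γ, sq_mem_Ns hM γ.2⟩ : ↥(Ns M)) =
      γ * γ := Subtype.ext rfl
  have h3 : φ (Additive.ofMul (γ * γ)) = 0 := by
    rw [← h2]
    exact h1
  rw [ofMul_mul, map_add] at h3
  exact zmod3_eq_zero_of_add_self h3

end Hw

/-! ### the core -/

instance neZero_two_mul (M : ℕ) [NeZero M] : NeZero (M * 2) :=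
  ⟨Nat.mul_ne_zero (NeZero.ne M) two_ne_zero⟩

set_option maxHeartbeats 1600000 in
/-- **the core of route (C)**. -/
theorem sq2_core (M : ℕ) (hM0 : 0 < M) (hM : ¬ 2 ∣ M) {r : ℕ} (hr : r.Prime) (hrM : r ∣ M)
    (hr3 : r % 3 = 2) (S : Set ℕ) (a : ℕ → ℤ) (hS : ∀ ℓ : ℕ, ℓ.Prime → ℓ ∣ M * 2 → ℓ ∈ S)
    (ℓ₀ : ℕ) (hℓ₀ : ℓ₀.Prime) (hℓ₀S : ℓ₀ ∉ S) (hℓ₀1 : ℓ₀ ≡ 1 [MOD M * 2 * 2])
    (hℓ₀a : ¬ (3 : ℤ) ∣ a ℓ₀ - ((ℓ₀ : ℤ) + 1))
    (h : ResOccurs (M * 2 * 2) 3 S a) : ResOccurs (M * 2) 3 S a := by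
  classical
  haveI : NeZero M := ⟨hM0.ne'⟩
  obtain ⟨w₀, hw₀, hE₀⟩ := exists_lpar_eigen_mod_p_of_resOccurs Nat.prime_three a h
  -- the family of primes
  let ι : PIdx S → Nat.Primes := Subtype.val
  have hι2 : ∀ i : PIdx S, ((ι i : Nat.Primes) : ℕ) ≠ 2 := by
    intro i h2
    apply i.2
    show ((ι i : Nat.Primes) : ℕ) ∈ S
    rw [h2]
    exact hS 2 Nat.prime_two (dvd_mul_left 2 M)
  have hιM : ∀ i : PIdx S, ¬ ((ι i : Nat.Primes) : ℕ) ∣ M := by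
    intro i hd
    exact i.2 (hS _ (ι i).2 (Dvd.dvd.mul_right hd 2))
  let c : PIdx S → 𝔽₃ := fun i => ((a ((ι i : Nat.Primes) : ℕ) : ℤ) : 𝔽₃)
  let i₀ : PIdx S := ⟨⟨ℓ₀, hℓ₀⟩, hℓ₀S⟩
  have hunit : IsUnit (c i₀ - ((((ι i₀ : Nat.Primes) : ℕ) : 𝔽₃) + 1)) := by
    rw [isUnit_iff_ne_zero]
    intro h0
    apply hℓ₀a
    have h3 := (ZMod.intCast_zmod_eq_zero_iff_dvd (a ℓ₀ - ((ℓ₀ : ℤ) + 1)) 3).mp (by
      push_cast
      exact h0)
    exact_mod_cast h3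
  -- START
  have hψ₀ : red3 w₀ ≠ 0 := red3_ne_zero w₀ hw₀
  have hψ₀e : ∀ i : PIdx S, heckeGrpP (M * 2 * 2) (ι i) 𝔽₃ (red3 w₀) = c i • red3 w₀ := by
    intro i
    obtain ⟨y, hy⟩ := hE₀ i.1 i.2
    exact red3_eigen _ _ _ _ hy
  set x₀ : MMs M 𝔽₃ := (bridge4 M hM 𝔽₃).symm (red3 w₀) with hx₀def
  have hbx₀ : bridge4 M hM 𝔽₃ x₀ = red3 w₀ := (bridge4 M hM 𝔽₃).apply_symm_apply _
  have hx₀ : x₀ ≠ 0 := by
    intro h0
    rw [h0, map_zero] at hbx₀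
    exact hψ₀ hbx₀.symm
  have hx₀e : ∀ i : PIdx S, opS M (ι i) x₀ = c i • x₀ := by
    intro i
    apply (bridge4 M hM 𝔽₃).injective
    rw [bridge4_opS M hM (hι2 i) (hιM i), map_smul, hbx₀]
    exact hψ₀e i
  -- MIDDLE
  obtain ⟨x, hx0, hxpar, hxω, hxe⟩ := exists_fixed_eigen M hM ι hι2 hιM c hr hrM hr3 i₀ hℓ₀1
    hunit x₀ hx₀ hx₀e
  set ψ : Additive ↥(Ns M) →+ 𝔽₃ := bridgeN M hM 𝔽₃ x with hψdef
  have hψ0 : ψ ≠ 0 := by
    intro h0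
    exact hx0 ((bridgeN M hM 𝔽₃).map_eq_zero_iff.mp h0)
  have hψpar : ψ ∈ parabolicHoms 𝔽₃ (Ns M) 𝔽₃ := hxpar
  have hψω : diamondOnBy (Ns M) (Ns_normal hM) 𝔽₃ (wM M) (wM_mem_Gamma0 M) ψ = ψ := by
    rw [← omN_apply, hψdef, ← bridgeN_omS, hxω]
  have hψe : ∀ i : PIdx S, (datumB M (isBLevel_Ns hM) (ι i) (ι i).2 (hι2 i) (hιM i)).heckeGrp 𝔽₃ ψ =
      c i • ψ := by
    intro i
    rw [hψdef, ← bridgeN_opS M hM (hι2 i) (hιM i), hxe, map_smul]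
  -- END: extension to `Hw M`
  have hNn : ∀ h ∈ Hw M, ∀ n ∈ Ns M, h * n * h⁻¹ ∈ Ns M :=
    fun h hh n hn => Ns_normal hM h ((isBLevel_Hw M).le hh) n hn
  obtain ⟨ψt, hψt⟩ := exists_extension_of_index_two' (Ns M) (Hw M) (Ns_le_Hw hM) (wM M)
    (wM_mem_Hw hM) hNn (fun h hh => mem_Ns_or_of_mem_Hw hM hh) ψ
    (fun n => DFunLike.congr_fun hψω (Additive.ofMul n)) (wM_sq_mem_Ns hM)
    (2 * ψ (Additive.ofMul ⟨wM M * wM M, wM_sq_mem_Ns hM⟩)) (zmod3_two_mul_add _)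
  have hres : ψt.comp (MonoidHom.toAdditive (Subgroup.inclusion (Ns_le_Hw hM))) = ψ := by
    refine AddMonoidHom.ext fun n => ?_
    obtain ⟨n, rfl⟩ := Additive.ofMul.surjective n
    exact hψt n
  have hψt0 : ψt ≠ 0 := by
    intro h0
    apply hψ0
    rw [← hres, h0]
    rfl
  have hψtpar : ψt ∈ parabolicHoms 𝔽₃ (Hw M) 𝔽₃ := parabolic_Hw_of_res hM ψt (by rw [hres]; exact hψpar)
  have hψte : ∀ i : PIdx S, (datumB M (isBLevel_Hw M) (ι i) (ι i).2 (hι2 i) (hιM i)).heckeGrp 𝔽₃ ψt =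
      c i • ψt := by
    intro i
    rw [← sub_eq_zero]
    apply hom_Hw_eq_zero_of_res hM
    have h1 := datumB_comp_inclusion M (isBLevel_Hw M) (ι i) (ι i).2 (hι2 i) (hιM i)
      (isBLevel_Ns hM) (Ns_le_Hw hM) ψt
    rw [hres, hψe i] at h1
    refine AddMonoidHom.ext fun n => ?_
    have h2 := DFunLike.congr_fun h1 n
    rw [AddMonoidHom.comp_apply] at h2
    rw [AddMonoidHom.comp_apply, AddMonoidHom.sub_apply, h2, AddMonoidHom.zero_apply,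
      AddMonoidHom.smul_apply, AddMonoidHom.smul_apply, ← hres, AddMonoidHom.comp_apply, sub_self]
  -- transport to `Γ₀(M · 2)`
  set ψ2 : Additive ↥(Gamma0 (M * 2)) →+ 𝔽₃ :=
    ψt.comp (MonoidHom.toAdditive ((kap2 M : Gamma0 (M * 2) ≃* ↥(Hw M)) :
      Gamma0 (M * 2) →* ↥(Hw M))) with hψ2def
  have hψ20 : ψ2 ≠ 0 := by
    intro h0
    apply hψt0
    refine AddMonoidHom.ext fun γ => ?_
    obtain ⟨γ, rfl⟩ := Additive.ofMul.surjective γ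
    have := DFunLike.congr_fun h0 (Additive.ofMul ((kap2 M).symm γ))
    rw [hψ2def, AddMonoidHom.comp_apply] at this
    have e : (MonoidHom.toAdditive ((kap2 M : Gamma0 (M * 2) ≃* ↥(Hw M)) :
        Gamma0 (M * 2) →* ↥(Hw M))) (Additive.ofMul ((kap2 M).symm γ)) = Additive.ofMul γ := by
      show Additive.ofMul (kap2 M ((kap2 M).symm γ)) = _
      rw [MulEquiv.apply_symm_apply]
    rw [e] at this
    exact this
  have hψ2par : ψ2 ∈ parabolicHoms ℤ (Gamma0 (M * 2)) 𝔽₃ := by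
    rw [mem_parabolicHoms_iff] at hψtpar ⊢
    intro γ hγ
    exact hψtpar (kap2 M γ) (by rw [trace_kap2]; exact hγ)
  have hℓ2M : ∀ i : PIdx S, ¬ ((ι i : Nat.Primes) : ℕ) ∣ M * 2 := fun i hd => i.2 (hS _ (ι i).2 hd)
  have hψ2e : ∀ i : PIdx S, heckeGrpP (M * 2) (ι i) 𝔽₃ ψ2 = c i • ψ2 := by
    intro i
    rw [heckeGrpP_of_not_dvd 𝔽₃ (hℓ2M i)]
    have h1 := datumB_comp_kap M M (isBLevel_Hw M) (ι i) (ι i).2 (hι2 i) (hιM i) (hℓ2M i) ψt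
    have h2 : (datumB M (isBLevel_Hw M) (ι i) (ι i).2 (hι2 i) (hιM i)).heckeGrp 𝔽₃ ψt =
        c i • ψt := hψte i
    have h3 : ((datumB M (isBLevel_Hw M) (ι i) (ι i).2 (hι2 i) (hιM i)).heckeGrp 𝔽₃ ψt).comp
        (MonoidHom.toAdditive ((kap2 M : Gamma0 (M * 2) ≃* ↥(Hw M)) :
          Gamma0 (M * 2) →* ↥(Hw M))) = c i • ψ2 := by
      rw [h2]
      rfl
    exact h1.symm.trans h3
  -- the lattice of level `M · 2`
  obtain ⟨w', hw'⟩ := parLiftModPO (M * 2) 3 (by norm_num)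
    (fun _ => ⟨2, Nat.prime_two, dvd_mul_left 2 M, by norm_num⟩) ψ2 hψ2par
  have hw'red : red3 w' = ψ2 := hw'
  refine resOccurs_of_lpar_eigen_mod_p (S := S) Nat.prime_three a w' ?_ ?_
  · intro y hy
    apply hψ20
    rw [← hw'red, hy, red3_smul_three]
  · intro ℓ hℓS
    apply exists_of_red3_eigen
    rw [hw'red]
    exact hψ2e ⟨ℓ, hℓS⟩

end Fermat.Agent.ML.SQ2
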