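/-
PROJECT ML (S59) — helper8 — [SQ2] = route (C) for the square step at `(p, q) = (3, 2)`,
part 8: **`sqTwoStepStatement : SqTwoStepStatement`** (lead's literal of
`ML/IFACE_lead_LevelOpt2.lean`): for `W` with irreducible `W[3]`, an odd level `M` divisible by a
prime `r ≡ 2 mod 3`, `IsResModAway W 3 (M · 2 · 2) → IsResModAway W 3 (M · 2)`.

The non-Eisenstein prime `ℓ₀ ≡ 1 mod 4 M` comes from helper3's [NONEIS]; the core is
`SQ2.sq2_core`.
-/
import Mathlib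
import Fermat.Agent.ML.SQ2_helper8_End
import Fermat.Agent.ML.IFACE_lead_LevelOpt2
import Fermat.Agent.LR.NONEIS_helper3_Main

set_option autoImplicit false
set_option linter.unusedSectionVars false
set_option linter.unusedVariables false
set_option linter.style.haveILetI false

namespace Fermat.Agent.ML

open Fermat.Agent.MP Fermat.Agent.LR.NonEis

/-- **the square step at `(p, q) = (3, 2)`** (route (C)). -/
theorem sqTwoStepStatement : SqTwoStepStatement := by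
  intro W hyp M hM0 hM2 hr hres
  classical
  obtain ⟨r, hr, hrM, hr3⟩ := hr
  obtain ⟨S, hSfin, hS⟩ := hres
  set E : WeierstrassCurve ℚ := W.map (Int.castRingHom ℚ) with hE
  haveI : E.IsElliptic := by
    refine ⟨isUnit_iff_ne_zero.mpr ?_⟩
    rw [hE, WeierstrassCurve.map_Δ]
    simpa using hyp.disc_ne
  have hW : W.IsIntegralModelOf E := ⟨1, one_smul _ _⟩
  have hM20 : 0 < M * 2 := Nat.mul_pos hM0 two_pos
  set S' : Set ℕ := S ∪ {ℓ | ℓ ∣ M * 2} with hS'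
  have hS'fin : {ℓ : ℕ | ℓ ∈ S' ∧ ℓ.Prime}.Finite := by
    refine Set.Finite.subset (hSfin.union ((M * 2).divisors : Set ℕ).toFinite) ?_
    rintro ℓ ⟨hℓ | hℓ, hℓp⟩
    · exact Or.inl ⟨hℓ, hℓp⟩
    · right
      simp only [Finset.mem_coe, Nat.mem_divisors]
      exact ⟨hℓ, hM20.ne'⟩
  obtain ⟨ℓ₀, hℓ₀, hℓ₀S, -, hℓ₀1, -, hℓ₀a⟩ := exists_prime_not_eisenstein E hW Nat.prime_three
    (by norm_num) hyp.irreducible (M * 2 * 2) (Nat.mul_pos hM20 two_pos) hS'fin.toFinset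
  have hℓ₀S' : ℓ₀ ∉ S' := fun h => hℓ₀S ((Set.Finite.mem_toFinset hS'fin).mpr ⟨h, hℓ₀⟩)
  refine ⟨S', hS'fin, SQ2.sq2_core M hM0 hM2 hr hrM hr3 S' (fun ℓ => W.apOfModel ℓ)
    (fun ℓ _ hd => Or.inr hd) ℓ₀ hℓ₀ hℓ₀S' hℓ₀1 ?_ (hS.mono Set.subset_union_left)⟩
  exact_mod_cast hℓ₀a

end Fermat.Agent.ML
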