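/-
PROJECT ML (S59) — package [AT-P], Part B, OLD half — helper1 — **(AT-P1), old points, closed.**
`ML.atPOldPointStatement : AtPOldPointStatement` = `ATPO.atPOldPointStatement_of` (lattice side +
the common file of helper4) applied to the geometric statement `ML.esOldStatement` of helper5.
-/
import Mathlib
import Fermat.Agent.ML.ATPTOP_helper1_Old
import Fermat.Agent.ML.ATPB_helper5_OldDesc

set_option autoImplicit false

namespace Fermat.Agent.ML

/-- **(AT-P1), old points.** -/
theorem atPOldPointStatement : AtPOldPointStatement :=
  ATPO.atPOldPointStatement_of esOldStatement

end Fermat.Agent.ML
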