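/-
ML (S59) — helper7 — (e-STRICT), algebra: **closed form of the degenerate (nodal) elliptic
divisibility sequence**.  In a field, with `h = e t / (t² - 1)`, the normalised EDS with initial
values `ψ₂ = N 2`, `ψ₃ = N 3`, `ψ₄ = N 4`, `N n := h^(n²) (t^(2n) - 1) / (e tⁿ)`, is `N` itself
(Lucas sequence `(tⁿ - t⁻ⁿ)/(t - t⁻¹)` up to the scaling `h^(n²-1)`).
-/
import Mathlib

set_option autoImplicit false

namespace Fermat.Agent.ML

section Lucas

variable {k : Type*} [Field k] (e t : k)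

/-- the closed form `h^(n²) (t^(2n) - 1) / (e tⁿ)`, `h = e t / (t² - 1)` -/
noncomputable def lucasN (n : ℕ) : k :=
  (e * t) ^ (n ^ 2) * (t ^ (2 * n) - 1) / ((t ^ 2 - 1) ^ (n ^ 2) * (e * t ^ n))

variable {e t}

theorem lucasN_zero : lucasN e t 0 = 0 := by
  simp [lucasN]

theorem lucasN_one (he : e ≠ 0) (ht : t ≠ 0) (h1 : t ^ 2 - 1 ≠ 0) : lucasN e t 1 = 1 := by
  have h1' : -1 + t ^ 2 ≠ 0 := by rwa [neg_add_eq_sub]
  unfold lucasN
  field_simp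
  ring

theorem lucasN_two_ne (he : e ≠ 0) (ht : t ≠ 0) (h1 : t ^ 2 - 1 ≠ 0) (h2 : t ^ 2 + 1 ≠ 0) :
    lucasN e t 2 ≠ 0 := by
  unfold lucasN
  have h4 : t ^ (2 * 2) - 1 = (t ^ 2 - 1) * (t ^ 2 + 1) := by ring
  rw [h4]
  exact div_ne_zero (mul_ne_zero (pow_ne_zero _ (mul_ne_zero he ht)) (mul_ne_zero h1 h2))
    (mul_ne_zero (pow_ne_zero _ h1) (mul_ne_zero he (pow_ne_zero _ ht)))

section Rec

variable (b c d : k)

/-- the odd recursion at natural indices -/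
theorem normEDS_nat_odd (m : ℕ) :
    normEDS b c d ((2 * (m + 2) + 1 : ℕ) : ℤ) =
      normEDS b c d ((m + 4 : ℕ) : ℤ) * normEDS b c d ((m + 2 : ℕ) : ℤ) ^ 3 -
        normEDS b c d ((m + 1 : ℕ) : ℤ) * normEDS b c d ((m + 3 : ℕ) : ℤ) ^ 3 := by
  have := normEDS_odd b c d ((m : ℤ) + 2)
  have e1 : ((2 * (m + 2) + 1 : ℕ) : ℤ) = 2 * ((m : ℤ) + 2) + 1 := by push_cast; ring
  have e2 : ((m + 4 : ℕ) : ℤ) = (m : ℤ) + 2 + 2 := by push_cast; ring
  have e3 : ((m + 2 : ℕ) : ℤ) = (m : ℤ) + 2 := by push_cast; ring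
  have e4 : ((m + 1 : ℕ) : ℤ) = (m : ℤ) + 2 - 1 := by push_cast; ring
  have e5 : ((m + 3 : ℕ) : ℤ) = (m : ℤ) + 2 + 1 := by push_cast; ring
  rw [e1, e2, e3, e4, e5]
  exact this

/-- the even recursion at natural indices -/
theorem normEDS_nat_even (m : ℕ) :
    normEDS b c d ((2 * (m + 3) : ℕ) : ℤ) * b =
      normEDS b c d ((m + 2 : ℕ) : ℤ) ^ 2 * normEDS b c d ((m + 3 : ℕ) : ℤ) *
          normEDS b c d ((m + 5 : ℕ) : ℤ) -
        normEDS b c d ((m + 1 : ℕ) : ℤ) * normEDS b c d ((m + 3 : ℕ) : ℤ) *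
          normEDS b c d ((m + 4 : ℕ) : ℤ) ^ 2 := by
  have := normEDS_even b c d ((m : ℤ) + 3)
  have e1 : ((2 * (m + 3) : ℕ) : ℤ) = 2 * ((m : ℤ) + 3) := by push_cast; ring
  have e2 : ((m + 2 : ℕ) : ℤ) = (m : ℤ) + 3 - 1 := by push_cast; ring
  have e3 : ((m + 3 : ℕ) : ℤ) = (m : ℤ) + 3 := by push_cast; ring
  have e4 : ((m + 5 : ℕ) : ℤ) = (m : ℤ) + 3 + 2 := by push_cast; ring
  have e5 : ((m + 1 : ℕ) : ℤ) = (m : ℤ) + 3 - 2 := by push_cast; ring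
  have e6 : ((m + 4 : ℕ) : ℤ) = (m : ℤ) + 3 + 1 := by push_cast; ring
  rw [e1, e2, e3, e4, e5, e6]
  exact this

end Rec

/-- **closed form of the nodal EDS** -/
theorem normEDS_lucas (he : e ≠ 0) (ht : t ≠ 0) (h1 : t ^ 2 - 1 ≠ 0) (h2 : t ^ 2 + 1 ≠ 0)
    (n : ℕ) :
    normEDS (lucasN e t 2) (lucasN e t 3) (lucasN e t 4 / lucasN e t 2) (n : ℤ) = lucasN e t n := by
  have hb := lucasN_two_ne he ht h1 h2
  have h1' : -1 + t ^ 2 ≠ 0 := by rwa [neg_add_eq_sub]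
  induction n using normEDSRec with
  | zero => rw [Nat.cast_zero, normEDS_zero, lucasN_zero]
  | one => rw [Nat.cast_one, normEDS_one, lucasN_one he ht h1]
  | two => rw [Nat.cast_ofNat, normEDS_two]
  | three => rw [Nat.cast_ofNat, normEDS_three]
  | four => rw [Nat.cast_ofNat, normEDS_four, div_mul_cancel₀ _ hb]
  | even m i1 i2 i3 i4 i5 =>
    have key := normEDS_nat_even (lucasN e t 2) (lucasN e t 3) (lucasN e t 4 / lucasN e t 2) m
    rw [i1, i2, i3, i4, i5] at key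
    apply mul_right_cancel₀ hb
    rw [key]
    unfold lucasN
    field_simp
    ring
  | odd m i1 i2 i3 i4 =>
    have key := normEDS_nat_odd (lucasN e t 2) (lucasN e t 3) (lucasN e t 4 / lucasN e t 2) m
    rw [i1, i2, i3, i4] at key
    rw [key]
    unfold lucasN
    field_simp
    ring

end Lucas

end Fermat.Agent.ML
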