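/-
ML (S59) — helper7 — (e-STRICT), algebra: **the `p`-th division polynomial of a nodal cubic in
characteristic `p`**: for `y² + a₁ x y = x³ + a₂ x²` with `b₂ ≠ 0` over a field of characteristic
`p` odd, `preΨ_p = b₂^((p-1)/2) X^((p²-p)/2)`.
-/
import Mathlib
import Fermat.Agent.ML.ESTRICT_helper7_Lucas

set_option autoImplicit false

open Polynomial WeierstrassCurve

namespace Fermat.Agent.ML

section Eval

variable {K : Type*} [Field K]

/-- evaluation of `preΨ` at a point -/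
theorem eval_preΨ_eq (W : WeierstrassCurve K) (x : K) (n : ℤ) :
    (W.preΨ n).eval x =
      preNormEDS ((W.Ψ₂Sq.eval x) ^ 2) (W.Ψ₃.eval x) (W.preΨ₄.eval x) n := by
  have := map_preNormEDS (evalRingHom x) (W.Ψ₂Sq ^ 2) W.Ψ₃ W.preΨ₄ n
  rw [map_pow] at this
  exact this

variable {p : ℕ} [hp : Fact p.Prime] [CharP K p]

/-- the value of `preΨ_p` of a nodal cubic at the point with parameters `e, t` -/
theorem eval_preΨ_nodal_param (hp2 : p ≠ 2) (W : WeierstrassCurve K) (h3 : W.a₃ = 0)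
    (h4 : W.a₄ = 0) (h6 : W.a₆ = 0) (e t : K) (he : e ^ 2 = W.b₂) (he0 : e ≠ 0) (ht : t ≠ 0)
    (h1 : t ^ 2 - 1 ≠ 0) (h2 : t ^ 2 + 1 ≠ 0) :
    (W.preΨ (p : ℤ)).eval ((e * t) ^ 2 / (t ^ 2 - 1) ^ 2) =
      W.b₂ ^ ((p - 1) / 2) * ((e * t) ^ 2 / (t ^ 2 - 1) ^ 2) ^ ((p ^ 2 - p) / 2) := by
  have hb4 : W.b₄ = 0 := by rw [WeierstrassCurve.b₄, h3, h4]; ring
  have hb6 : W.b₆ = 0 := by rw [WeierstrassCurve.b₆, h3, h6]; ring
  have hb8 : W.b₈ = 0 := by rw [WeierstrassCurve.b₈, h3, h4, h6]; ring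
  have h1' : -1 + t ^ 2 ≠ 0 := by rwa [neg_add_eq_sub]
  have hb := lucasN_two_ne he0 ht h1 h2
  set x : K := (e * t) ^ 2 / (t ^ 2 - 1) ^ 2 with hx
  have e2 : W.Ψ₂Sq.eval x = lucasN e t 2 ^ 2 := by
    rw [WeierstrassCurve.Ψ₂Sq, hb4, hb6, ← he, hx]
    simp only [eval_add, eval_mul, eval_C, eval_pow, eval_X, lucasN]
    field_simp
    ring
  have e3 : W.Ψ₃.eval x = lucasN e t 3 := by
    rw [WeierstrassCurve.Ψ₃, hb4, hb6, hb8, ← he, hx]
    simp only [eval_add, eval_mul, eval_C, eval_pow, eval_X, eval_ofNat, lucasN]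
    field_simp
    ring
  have e4 : W.preΨ₄.eval x = lucasN e t 4 / lucasN e t 2 := by
    rw [eq_div_iff hb, WeierstrassCurve.preΨ₄, hb4, hb6, hb8, ← he, hx]
    simp only [eval_add, eval_mul, eval_C, eval_pow, eval_X, eval_ofNat, lucasN]
    field_simp
    ring
  have hodd : Odd p := hp.out.odd_of_ne_two hp2
  have hnev : ¬ Even (p : ℤ) := by
    rw [Int.not_even_iff_odd]
    exact_mod_cast hodd
  have key := normEDS_lucas he0 ht h1 h2 p
  rw [normEDS, if_neg hnev, mul_one] at key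
  rw [eval_preΨ_eq, e2, e3, e4, ← pow_mul, show 2 * 2 = 4 from rfl, key]
  -- the closed form in characteristic `p`
  have hchar : t ^ (2 * p) - 1 = (t ^ 2 - 1) ^ p := by
    rw [sub_pow_char, one_pow, ← pow_mul]
  obtain ⟨j, rfl⟩ := hodd
  have ej : (2 * j + 1 - 1) / 2 = j := by omega
  have ej2 : ((2 * j + 1) ^ 2 - (2 * j + 1)) / 2 = j * (2 * j + 1) := by
    have : (2 * j + 1) ^ 2 = (2 * j + 1) + 2 * (j * (2 * j + 1)) := by ring
    rw [this, Nat.add_sub_cancel_left, Nat.mul_div_cancel_left _ (by norm_num : 0 < 2)]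
  rw [ej, ej2, ← he, lucasN, hchar, hx, div_pow, ← pow_mul, ← pow_mul, ← pow_mul]
  field_simp
  ring

end Eval

section Main

variable {K : Type*} [Field K] {p : ℕ} [hp : Fact p.Prime] [CharP K p]

/-- the algebraically closed case -/
theorem preΨ_nodal_of_isAlgClosed [IsAlgClosed K] (hp2 : p ≠ 2) (W : WeierstrassCurve K)
    (h3 : W.a₃ = 0) (h4 : W.a₄ = 0) (h6 : W.a₆ = 0) (hb : W.b₂ ≠ 0) :
    W.preΨ (p : ℤ) = C (W.b₂ ^ ((p - 1) / 2)) * X ^ ((p ^ 2 - p) / 2) := by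
  have h2K : (2 : K) ≠ 0 := by
    intro h
    have h2 : ((2 : ℕ) : K) = 0 := by exact_mod_cast h
    have hdvd : p ∣ 2 := (CharP.cast_eq_zero_iff K p 2).mp h2
    have := (Nat.prime_dvd_prime_iff_eq hp.out Nat.prime_two).mp hdvd
    exact hp2 this
  obtain ⟨e, he⟩ := IsAlgClosed.exists_pow_nat_eq W.b₂ (by norm_num : 0 < 2)
  have he0 : e ≠ 0 := by
    rintro rfl
    exact hb (by rw [← he]; ring)
  apply Polynomial.eq_of_infinite_eval_eq
  have hfin : ({0, -W.b₂ / 4} : Set K).Finite := Set.toFinite _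
  refine Set.Infinite.mono ?_ hfin.infinite_compl
  intro x hx
  rw [Set.mem_compl_iff, Set.mem_insert_iff, Set.mem_singleton_iff, not_or] at hx
  obtain ⟨hx0, hx4⟩ := hx
  obtain ⟨h, hh⟩ := IsAlgClosed.exists_pow_nat_eq x (by norm_num : 0 < 2)
  have hh0 : h ≠ 0 := by
    rintro rfl
    exact hx0 (by rw [← hh]; ring)
  obtain ⟨s, hs⟩ := IsAlgClosed.exists_pow_nat_eq (e ^ 2 + 4 * h ^ 2) (by norm_num : 0 < 2)
  set t : K := (e + s) / (2 * h) with htdef
  have hrel : h * (t ^ 2 - 1) = e * t := by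
    rw [htdef]
    field_simp
    linear_combination hs
  have ht : t ≠ 0 := by
    intro h0
    rw [h0] at hrel
    apply hh0
    linear_combination -hrel
  have h1 : t ^ 2 - 1 ≠ 0 := by
    intro h0
    rw [h0, mul_zero] at hrel
    rcases mul_eq_zero.mp hrel.symm with h' | h'
    · exact he0 h'
    · exact ht h'
  have h2 : t ^ 2 + 1 ≠ 0 := by
    intro h0
    apply hx4
    have ht2 : t ^ 2 = -1 := by linear_combination h0
    have h4K : (4 : K) ≠ 0 := by
      have : (4 : K) = 2 * 2 := by norm_num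
      rw [this]; exact mul_ne_zero h2K h2K
    rw [eq_div_iff h4K, ← hh, ← he]
    have : h * (-1 - 1) = e * t := by rw [← ht2]; exact hrel
    linear_combination (e * t - 2 * h) * this + e ^ 2 * ht2
  have hxe : x = (e * t) ^ 2 / (t ^ 2 - 1) ^ 2 := by
    rw [← hh, eq_div_iff (pow_ne_zero 2 h1), ← mul_pow, hrel]
  show (W.preΨ (p : ℤ)).eval x = (C (W.b₂ ^ ((p - 1) / 2)) * X ^ ((p ^ 2 - p) / 2)).eval x
  rw [eval_mul, eval_C, eval_pow, eval_X, hxe]
  exact eval_preΨ_nodal_param hp2 W h3 h4 h6 e t he he0 ht h1 h2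

end Main

/-- **leaf 3**: the `p`-th division polynomial of a nodal cubic in characteristic `p`. -/
theorem preΨ_nodal {k : Type*} [Field k] {p : ℕ} [hp : Fact p.Prime] [CharP k p] (hp2 : p ≠ 2)
    (W : WeierstrassCurve k) (h3 : W.a₃ = 0) (h4 : W.a₄ = 0) (h6 : W.a₆ = 0) (hb : W.b₂ ≠ 0) :
    W.preΨ (p : ℤ) = C (W.b₂ ^ ((p - 1) / 2)) * X ^ ((p ^ 2 - p) / 2) := by
  let K := AlgebraicClosure k
  let f : k →+* K := algebraMap k K
  have : CharP K p := charP_of_injective_algebraMap f.injective p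
  have hmap := preΨ_nodal_of_isAlgClosed (K := K) (p := p) hp2 (W.map f)
    (by simp [h3]) (by simp [h4]) (by simp [h6])
    (by
      rw [WeierstrassCurve.map_b₂]
      exact fun h => hb (f.injective (by rw [h, map_zero])))
  apply Polynomial.map_injective f f.injective
  rw [← WeierstrassCurve.map_preΨ, hmap, WeierstrassCurve.map_b₂]
  simp [Polynomial.map_mul, Polynomial.map_pow]

end Fermat.Agent.ML
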