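/-
ML (S59) — helper7 — (e-STRICT), reduction of the `p`-th division polynomial of a nodal model.

`K` a field with valuation subring `A` of residue characteristic `p` (odd), `W` a Weierstrass curve
over `K` with `a₁, a₂ ∈ A`, `a₃ = 0`, `a₄, a₆ ∈ 𝔪`, `b₂` a unit (nodal reduction, node at the
origin).  Then `f := preΨ_p ∈ A[X]` reduces to `b̄₂^((p-1)/2) X^((p²-p)/2)`; hence
* `mem_nonunits_of_preΨ_mem` : `x ∈ A`, `f(x) ∈ 𝔪` ⇒ `x ∈ 𝔪`;
* `exists_integral_root` : (`K` algebraically closed of characteristic zero) `f` has a root in `A`.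
-/
import Mathlib
import Fermat.Agent.ML.ESTRICT_helper7_DivPoly
import Fermat.Agent.Tate.NodeLine
import Fermat.Agent.EC.Tors_helper6_Dagger

set_option autoImplicit false
set_option linter.unusedSectionVars false

open Polynomial WeierstrassCurve IsLocalRing

namespace Fermat.Agent.ML

section Red

variable {K : Type*} [Field K] (A : ValuationSubring K) {p : ℕ} [hp : Fact p.Prime]

/-- the residue characteristic -/
theorem charP_residueField_of_mem (hpA : (p : K) ∈ A.nonunits) : CharP (ResidueField ↥A) p := by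
  have h0 : ((p : ℕ) : ResidueField ↥A) = 0 := by
    have h1 : ((p : ℕ) : ResidueField ↥A) = residue ↥A ((p : ℕ) : ↥A) := (map_natCast _ p).symm
    rw [h1, residue_eq_zero_iff]
    obtain ⟨ha, hm⟩ := A.mem_nonunits_iff_exists_mem_maximalIdeal.mp hpA
    exact hm
  have := CharP.ringChar_of_prime_eq_zero hp.out h0
  exact this ▸ ringChar.charP (ResidueField ↥A)

variable (W : WeierstrassCurve K) (h₁ : W.a₁ ∈ A) (h₂ : W.a₂ ∈ A) (h₃ : W.a₃ = 0)
  (h₄ : W.a₄ ∈ A.nonunits) (h₆ : W.a₆ ∈ A.nonunits)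

/-- the model over the valuation ring -/
def nodalIntModel : WeierstrassCurve ↥A :=
  ⟨⟨W.a₁, h₁⟩, ⟨W.a₂, h₂⟩, 0, ⟨W.a₄, A.nonunits_le h₄⟩, ⟨W.a₆, A.nonunits_le h₆⟩⟩

include h₃ in
theorem nodalIntModel_map : (nodalIntModel A W h₁ h₂ h₄ h₆).map A.subtype = W := by
  ext
  · rfl
  · rfl
  · show A.subtype 0 = W.a₃
    rw [map_zero, h₃]
  · rfl
  · rfl

/-- the reduced curve -/
noncomputable def nodalRed : WeierstrassCurve (ResidueField ↥A) :=
  (nodalIntModel A W h₁ h₂ h₄ h₆).map (residue ↥A)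

theorem nodalRed_a₃ : (nodalRed A W h₁ h₂ h₄ h₆).a₃ = 0 := by
  show residue ↥A 0 = 0
  exact map_zero _

theorem nodalRed_a₄ : (nodalRed A W h₁ h₂ h₄ h₆).a₄ = 0 := by
  show residue ↥A ⟨W.a₄, _⟩ = 0
  rw [residue_eq_zero_iff]
  exact (A.mem_nonunits_iff_exists_mem_maximalIdeal.mp h₄).2

theorem nodalRed_a₆ : (nodalRed A W h₁ h₂ h₄ h₆).a₆ = 0 := by
  show residue ↥A ⟨W.a₆, _⟩ = 0
  rw [residue_eq_zero_iff]
  exact (A.mem_nonunits_iff_exists_mem_maximalIdeal.mp h₆).2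

include h₃ in
theorem nodalRed_b₂ (hb₂ : W.b₂ ∉ A.nonunits) : (nodalRed A W h₁ h₂ h₄ h₆).b₂ ≠ 0 := by
  rw [nodalRed, WeierstrassCurve.map_b₂]
  intro h
  rw [residue_eq_zero_iff] at h
  apply hb₂
  rw [A.mem_nonunits_iff_exists_mem_maximalIdeal]
  have e : ((nodalIntModel A W h₁ h₂ h₄ h₆).b₂ : K) = W.b₂ := by
    conv_rhs => rw [← nodalIntModel_map A W h₁ h₂ h₃ h₄ h₆, WeierstrassCurve.map_b₂]
    rfl
  refine ⟨e ▸ ((nodalIntModel A W h₁ h₂ h₄ h₆).b₂).2, ?_⟩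
  convert h using 1
  exact Subtype.ext e.symm

include h₃ in
/-- the reduction of `preΨ_p` -/
theorem nodalRed_preΨ (hpA : (p : K) ∈ A.nonunits) (hp2 : p ≠ 2) (hb₂ : W.b₂ ∉ A.nonunits) :
    ((nodalIntModel A W h₁ h₂ h₄ h₆).preΨ (p : ℤ)).map (residue ↥A) =
      C ((nodalRed A W h₁ h₂ h₄ h₆).b₂ ^ ((p - 1) / 2)) * X ^ ((p ^ 2 - p) / 2) := by
  have : CharP (ResidueField ↥A) p := charP_residueField_of_mem A hpA
  rw [← WeierstrassCurve.map_preΨ]
  exact preΨ_nodal hp2 (nodalRed A W h₁ h₂ h₄ h₆) (nodalRed_a₃ A W h₁ h₂ h₄ h₆)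
    (nodalRed_a₄ A W h₁ h₂ h₄ h₆) (nodalRed_a₆ A W h₁ h₂ h₄ h₆)
    (nodalRed_b₂ A W h₁ h₂ h₃ h₄ h₆ hb₂)

include h₃ in
theorem nodal_preΨ_eq : W.preΨ (p : ℤ) =
    ((nodalIntModel A W h₁ h₂ h₄ h₆).preΨ (p : ℤ)).map A.subtype := by
  rw [← WeierstrassCurve.map_preΨ, nodalIntModel_map A W h₁ h₂ h₃ h₄ h₆]

/-- the exponent `(p² - p)/2` is positive -/
theorem half_sq_sub_pos (hp2 : p ≠ 2) : 1 ≤ (p ^ 2 - p) / 2 := by
  have h3 : 3 ≤ p := by
    have := hp.out.two_le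
    omega
  have : 6 ≤ p ^ 2 - p := by
    have h9 : p * 3 ≤ p * p := Nat.mul_le_mul_left p h3
    have : p ^ 2 = p * p := by ring
    omega
  omega

include h₁ h₂ h₃ h₄ h₆ in
/-- **(R1')**: an integral `x` with `preΨ_p(x) ∈ 𝔪` lies in `𝔪`. -/
theorem mem_nonunits_of_preΨ_mem (hpA : (p : K) ∈ A.nonunits) (hp2 : p ≠ 2)
    (hb₂ : W.b₂ ∉ A.nonunits) {x : K} (hx : x ∈ A)
    (hfx : (W.preΨ (p : ℤ)).eval x ∈ A.nonunits) : x ∈ A.nonunits := by
  set fA := (nodalIntModel A W h₁ h₂ h₄ h₆).preΨ (p : ℤ) with hfA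
  have e1 : (W.preΨ (p : ℤ)).eval x = ((fA.eval ⟨x, hx⟩ : ↥A) : K) := by
    rw [nodal_preΨ_eq A W h₁ h₂ h₃ h₄ h₆, eval_map]
    exact Polynomial.eval₂_at_apply A.subtype (⟨x, hx⟩ : ↥A)
  rw [e1] at hfx
  have h2 : residue ↥A (fA.eval ⟨x, hx⟩) = 0 := by
    rw [residue_eq_zero_iff]
    obtain ⟨_, hm⟩ := A.mem_nonunits_iff_exists_mem_maximalIdeal.mp hfx
    exact hm
  have h3 : residue ↥A (fA.eval ⟨x, hx⟩) = (fA.map (residue ↥A)).eval (residue ↥A ⟨x, hx⟩) := by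
    rw [eval_map]
    exact (Polynomial.eval₂_at_apply (residue ↥A) (⟨x, hx⟩ : ↥A)).symm
  rw [h3, nodalRed_preΨ A W h₁ h₂ h₃ h₄ h₆ hpA hp2 hb₂, eval_mul, eval_C, eval_pow, eval_X] at h2
  have hb := nodalRed_b₂ A W h₁ h₂ h₃ h₄ h₆ hb₂
  rcases mul_eq_zero.mp h2 with h | h
  · exact absurd (pow_eq_zero_iff (by
      have := half_sq_sub_pos (p := p) hp2
      have h3 : 3 ≤ p := by have := hp.out.two_le; omega
      omega) |>.mp h) hb
  · have hx0 : residue ↥A ⟨x, hx⟩ = 0 := by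
      have hpos := half_sq_sub_pos (p := p) hp2
      exact (pow_eq_zero_iff (by omega)).mp h
    rw [residue_eq_zero_iff] at hx0
    exact A.mem_nonunits_iff_exists_mem_maximalIdeal.mpr ⟨hx, hx0⟩

end Red

section Gauss

open Fermat.Agent.Tate

variable {K : Type*} [Field K] (A : ValuationSubring K)

/-- the constant coefficient strictly dominates all the others -/
def ConstDominant (g : K[X]) : Prop :=
  g.coeff 0 ≠ 0 ∧ ∀ k, 1 ≤ k → g.coeff k / g.coeff 0 ∈ A.nonunits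

theorem constDominant_C {c : K} (hc : c ≠ 0) : ConstDominant A (C c) := by
  refine ⟨by rwa [coeff_C_zero], fun k hk => ?_⟩
  rw [coeff_C, if_neg (by omega), zero_div]
  exact A.nonunits.zero_mem

variable {A}

theorem ConstDominant.mul_X_sub_C {g : K[X]} (hg : ConstDominant A g) {r : K} (hr : r ∉ A) :
    ConstDominant A (g * (X - C r)) := by
  have hr0 : r ≠ 0 := by rintro rfl; exact hr A.zero_mem
  have hrinv : r⁻¹ ∈ A.nonunits := by
    rw [ValuationSubring.inv_mem_nonunits_iff]; exact Or.inr hr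
  have h0 : (g * (X - C r)).coeff 0 = g.coeff 0 * (-r) := by
    rw [mul_coeff_zero, coeff_sub, coeff_X_zero, coeff_C_zero, zero_sub]
  refine ⟨by rw [h0]; exact mul_ne_zero hg.1 (neg_ne_zero.mpr hr0), fun k hk => ?_⟩
  obtain ⟨k, rfl⟩ : ∃ j, k = j + 1 := ⟨k - 1, by omega⟩
  rw [h0, coeff_mul_X_sub_C]
  have e : (g.coeff k - g.coeff (k + 1) * r) / (g.coeff 0 * -r) =
      -(g.coeff k / g.coeff 0 * r⁻¹) + g.coeff (k + 1) / g.coeff 0 := by
    have := hg.1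
    field_simp
    ring
  rw [e]
  refine A.nonunits.add_mem (A.nonunits.neg_mem ?_) (hg.2 (k + 1) (by omega))
  rcases Nat.eq_zero_or_pos k with rfl | hk0
  · rw [div_self hg.1, one_mul]; exact hrinv
  · exact mul_mem_nonunits_left (hg.2 k hk0) (A.nonunits_le hrinv)

theorem constDominant_prod {c : K} (hc : c ≠ 0) (M : Multiset K) (hM : ∀ r ∈ M, r ∉ A) :
    ConstDominant A (C c * (M.map (fun r => X - C r)).prod) := by
  induction M using Multiset.induction_on with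
  | empty => simpa using constDominant_C A hc
  | cons a M ih =>
    rw [Multiset.map_cons, Multiset.prod_cons]
    have := (ih fun r hr => hM r (Multiset.mem_cons_of_mem hr)).mul_X_sub_C
      (hM a (Multiset.mem_cons_self a M))
    rwa [mul_assoc, mul_comm _ (X - C a)] at this

end Gauss

section Root

open Fermat.Agent.Tate

variable {K : Type*} [Field K] [IsAlgClosed K] [CharZero K] (A : ValuationSubring K) {p : ℕ}
  [hp : Fact p.Prime]
  (W : WeierstrassCurve K) (h₁ : W.a₁ ∈ A) (h₂ : W.a₂ ∈ A) (h₃ : W.a₃ = 0)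
  (h₄ : W.a₄ ∈ A.nonunits) (h₆ : W.a₆ ∈ A.nonunits)

include h₁ h₂ h₃ h₄ h₆ in
/-- **(R2)**: `preΨ_p` has an integral root. -/
theorem exists_integral_root (hpA : (p : K) ∈ A.nonunits) (hp2 : p ≠ 2)
    (hb₂ : W.b₂ ∉ A.nonunits) : ∃ x ∈ A, (W.preΨ (p : ℤ)).eval x = 0 := by
  by_contra hcon
  push Not at hcon
  set f := W.preΨ (p : ℤ) with hf
  have hpK : ((p : ℤ) : K) ≠ 0 := by
    have : (p : K) ≠ 0 := Nat.cast_ne_zero.mpr hp.out.ne_zero
    exact_mod_cast this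
  have hf0 : f ≠ 0 := WeierstrassCurve.preΨ_ne_zero W hpK
  have hsplit := IsAlgClosed.splits f
  have hprod := hsplit.eq_prod_roots
  have hroots : ∀ r ∈ f.roots, r ∉ A := by
    intro r hr hrA
    exact hcon r hrA ((mem_roots hf0).mp hr)
  have hdom := constDominant_prod (A := A) (c := f.leadingCoeff) (leadingCoeff_ne_zero.mpr hf0)
    f.roots hroots
  rw [← hprod] at hdom
  -- all coefficients of positive degree lie in `𝔪`
  have hcoeffA : ∀ k, f.coeff k ∈ A := fun k =>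
    Fermat.Agent.EC.preΨ_coeff_mem A.toSubring W h₁ h₂ (h₃ ▸ A.zero_mem) (A.nonunits_le h₄)
      (A.nonunits_le h₆) _ k
  have hcoeff : ∀ k, 1 ≤ k → f.coeff k ∈ A.nonunits := by
    intro k hk
    have := mul_mem_nonunits_left (hdom.2 k hk) (hcoeffA 0)
    rwa [div_mul_cancel₀ _ hdom.1] at this
  -- contradiction with the reduction
  set m := (p ^ 2 - p) / 2 with hm
  have hm1 : 1 ≤ m := half_sq_sub_pos (p := p) hp2
  have hred := nodalRed_preΨ A W h₁ h₂ h₃ h₄ h₆ hpA hp2 hb₂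
  have hc := congrArg (fun g => g.coeff m) hred
  simp only [coeff_map, coeff_C_mul, coeff_X_pow] at hc
  rw [if_pos hm, mul_one] at hc
  have hz : residue ↥A (((nodalIntModel A W h₁ h₂ h₄ h₆).preΨ (p : ℤ)).coeff m) = 0 := by
    rw [residue_eq_zero_iff]
    have h1 := hcoeff m hm1
    rw [hf, nodal_preΨ_eq A W h₁ h₂ h₃ h₄ h₆, coeff_map] at h1
    exact (A.mem_nonunits_iff_exists_mem_maximalIdeal.mp h1).2
  rw [hz] at hc
  exact pow_ne_zero _ (nodalRed_b₂ A W h₁ h₂ h₃ h₄ h₆ hb₂) hc.symm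

end Root

end Fermat.Agent.ML
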