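/-
ML (S59) — helper7 — (e-STRICT), points of a nodal model in residue characteristic `p`.

`K` algebraically closed of characteristic zero, `A` a valuation subring of residue characteristic
`p` (odd), `W` with `a₁, a₂ ∈ A`, `a₃ = 0`, `a₄, a₆ ∈ 𝔪`, `b₂` a unit, `Δ ≠ 0`.
* `exists_torsion_of_root` : a root of `preΨ_p` is the abscissa of a `p`-torsion point;
* `exists_torsion_not_mem_kerRed` : some `p`-torsion point lies outside the kernel of reduction;
* `nsmul_not_mem_kerRed` : if `Q = (x, y)` is a `p`-power torsion point with `x` a unit of `A`,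
  then `p • Q` is not in the kernel of reduction.
-/
import Mathlib
import Fermat.Agent.ML.ESTRICT_helper7_Red
import Fermat.Agent.Tate.R1_helper8
import Fermat.Agent.EC.Tors_helper6_CountGe

set_option autoImplicit false
set_option linter.unusedSectionVars false

open Polynomial WeierstrassCurve WeierstrassCurve.Affine IsLocalRing

namespace Fermat.Agent.ML

open Fermat.Agent.Tate Fermat.Agent.EC

section Points

variable {K : Type*} [Field K] [DecidableEq K] (A : ValuationSubring K) {p : ℕ} [hp : Fact p.Prime]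
  (W : Affine K) (h₁ : W.a₁ ∈ A) (h₂ : W.a₂ ∈ A) (h₃ : W.a₃ = 0)
  (h₄ : W.a₄ ∈ A.nonunits) (h₆ : W.a₆ ∈ A.nonunits)

include h₁ h₂ h₃ h₄ h₆ in
theorem nodal_isIntegralCurve : IsIntegralCurve A W :=
  ⟨h₁, h₂, h₃ ▸ A.zero_mem, A.nonunits_le h₄, A.nonunits_le h₆⟩

theorem inv_mem_of_not_mem_nonunits {u : K} (hu : u ∈ A) (hu' : u ∉ A.nonunits) : u⁻¹ ∈ A := by
  rw [← A.valuation_le_one_iff] at hu ⊢
  rw [ValuationSubring.mem_nonunits_iff, not_lt] at hu'
  have h1 : A.valuation u = 1 := le_antisymm hu hu'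
  rw [map_inv₀, h1, inv_one]

include h₁ h₂ h₃ h₄ h₆ in
theorem eval_preΨ_mem {x : K} (hx : x ∈ A) (n : ℤ) : (W.preΨ n).eval x ∈ A := by
  have e : W.preΨ n = ((nodalIntModel A W h₁ h₂ h₄ h₆).preΨ n).map A.subtype := by
    rw [← WeierstrassCurve.map_preΨ, nodalIntModel_map A W h₁ h₂ h₃ h₄ h₆]
  rw [e, eval_map]
  have := Polynomial.eval₂_at_apply A.subtype (p := (nodalIntModel A W h₁ h₂ h₄ h₆).preΨ n)
    (⟨x, hx⟩ : ↥A)
  rw [show A.subtype (⟨x, hx⟩ : ↥A) = x from rfl] at this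
  rw [this]
  exact Subtype.property _

include h₁ h₂ h₃ h₄ h₆ in
theorem eval_Φ_mem {x : K} (hx : x ∈ A) (n : ℤ) : (W.Φ n).eval x ∈ A := by
  have e : W.Φ n = ((nodalIntModel A W h₁ h₂ h₄ h₆).Φ n).map A.subtype := by
    rw [← WeierstrassCurve.map_Φ, nodalIntModel_map A W h₁ h₂ h₃ h₄ h₆]
  rw [e, eval_map]
  have := Polynomial.eval₂_at_apply A.subtype (p := (nodalIntModel A W h₁ h₂ h₄ h₆).Φ n)
    (⟨x, hx⟩ : ↥A)
  rw [show A.subtype (⟨x, hx⟩ : ↥A) = x from rfl] at this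
  rw [this]
  exact Subtype.property _

/-- **(P1)**: a root of `preΨ_p` is the abscissa of a `p`-torsion point. -/
theorem exists_torsion_of_root [IsAlgClosed K] [CharZero K] (hΔ : W.Δ ≠ 0) (hp2 : p ≠ 2) {x : K}
    (hx : (W.preΨ (p : ℤ)).eval x = 0) :
    ∃ (y : K) (h : W.Nonsingular x y), p • Point.some x y h = 0 := by
  obtain ⟨y, h⟩ := exists_nonsingular hΔ x
  refine ⟨y, h, ?_⟩
  have hodd' : ¬ Even (p : ℤ) := by
    rw [Int.even_coe_nat]
    exact fun he => hp2 ((Nat.Prime.even_iff hp.out).mp he)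
  have hpsi : psiVal W x y (p : ℤ) = 0 := by
    rw [psiVal_odd h.1 hodd']; exact hx
  have hex : ∃ k : ℕ, 1 ≤ k ∧ k • Point.some x y h = 0 := by
    by_contra hcon
    have hN : ∀ k, 1 ≤ k → k ≤ p → k • Point.some x y h ≠ 0 :=
      fun k h1 _ hk => hcon ⟨k, h1, hk⟩
    obtain ⟨hne, -, -⟩ := firstZero h p hN
    exact hne p hp.out.one_le le_rfl hpsi
  set m := Nat.find hex with hm
  have hspec : 1 ≤ m ∧ m • Point.some x y h = 0 := Nat.find_spec hex
  obtain ⟨hm1, hmP⟩ := hspec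
  have hmin : ∀ k, 1 ≤ k → k < m → k • Point.some x y h ≠ 0 := by
    intro k h1 hk hk0
    exact Nat.find_min hex hk ⟨h1, hk0⟩
  have hm2 : 2 ≤ m := by
    rcases Nat.lt_or_ge m 2 with hlt | hge
    · exfalso
      have : m = 1 := by omega
      rw [this, one_nsmul] at hmP
      exact Point.some_ne_zero _ hmP
    · exact hge
  have hA := psiNat_ne_of_not_dvd h m hm2 hmP hmin
  have hdvd : m ∣ p := by
    by_contra hnd
    exact hA p hnd hpsi
  have hmp : m = p := by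
    rcases (Nat.dvd_prime hp.out).mp hdvd with e | e
    · omega
    · exact e
  rw [← hmp]; exact hmP

include h₁ h₂ h₃ h₄ h₆ in
/-- **(P2)**: some `p`-torsion point lies outside the kernel of reduction. -/
theorem exists_torsion_not_mem_kerRed [IsAlgClosed K] [CharZero K] (hΔ : W.Δ ≠ 0)
    (hpA : (p : K) ∈ A.nonunits) (hp2 : p ≠ 2) (hb₂ : W.b₂ ∉ A.nonunits)
    (hW : IsIntegralCurve A W) : ∃ Q : W.Point, p • Q = 0 ∧ Q ∉ kerRed hW := by
  obtain ⟨x, hxA, hx⟩ := exists_integral_root A W h₁ h₂ h₃ h₄ h₆ hpA hp2 hb₂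
  obtain ⟨y, h, hQ⟩ := exists_torsion_of_root W hΔ hp2 hx
  refine ⟨Point.some x y h, hQ, ?_⟩
  rw [some_mem_kerRed_iff]
  exact fun hc => hc hxA

include h₁ h₂ h₃ h₄ h₆ in
/-- **(P3)**: if `Q = (x, y)` is a `p`-power torsion point with `x` a unit of `A`, then `p • Q`
is not in the kernel of reduction. -/
theorem nsmul_not_mem_kerRed (hpA : (p : K) ∈ A.nonunits) (hp2 : p ≠ 2)
    (hb₂ : W.b₂ ∉ A.nonunits) (hW : IsIntegralCurve A W) {x y : K} (h : W.Nonsingular x y)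
    (hxA : x ∈ A) (hxu : x ∉ A.nonunits) {n : ℕ} (htors : p ^ n • Point.some x y h = 0) :
    p • Point.some x y h ∉ kerRed hW := by
  have hodd' : ¬ Even (p : ℤ) := by
    rw [Int.even_coe_nat]
    exact fun he => hp2 ((Nat.Prime.even_iff hp.out).mp he)
  have hpre : (W.preΨ (p : ℤ)).eval x ∉ A.nonunits := fun hc =>
    hxu (mem_nonunits_of_preΨ_mem A W h₁ h₂ h₃ h₄ h₆ hpA hp2 hb₂ hxA hc)
  have hpreA : (W.preΨ (p : ℤ)).eval x ∈ A := eval_preΨ_mem A W h₁ h₂ h₃ h₄ h₆ hxA _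
  have hP0 : Point.some x y h ≠ 0 := Point.some_ne_zero h
  have hmin : ∀ k, 1 ≤ k → k < p → k • Point.some x y h ≠ 0 := by
    intro k hk1 hkp hk0
    have hcop : Nat.Coprime k (p ^ n) :=
      Nat.Coprime.pow_right n (Nat.coprime_of_lt_prime (by omega) hkp hp.out).symm
    have d1 : addOrderOf (Point.some x y h) ∣ p ^ n := addOrderOf_dvd_of_nsmul_eq_zero htors
    have d2 : addOrderOf (Point.some x y h) ∣ k := addOrderOf_dvd_of_nsmul_eq_zero hk0
    have d3 : addOrderOf (Point.some x y h) ∣ 1 := by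
      have := Nat.dvd_gcd d2 d1
      rwa [hcop.gcd_eq_one] at this
    exact hP0 (AddMonoid.addOrderOf_eq_one_iff.mp (Nat.dvd_one.mp d3))
  have hpP : p • Point.some x y h ≠ 0 := by
    intro h0
    have := preΨ_eval_xOf_eq_zero hp.out hp2 hP0 h0
    rw [xOf_some] at this
    apply hpre
    rw [this]
    exact A.nonunits.zero_mem
  have hN : ∀ k, 1 ≤ k → k ≤ p → k • Point.some x y h ≠ 0 := by
    intro k h1 hk
    rcases Nat.lt_or_ge k p with hlt | hge
    · exact hmin k h1 hlt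
    · have : k = p := le_antisymm hk hge
      rw [this]; exact hpP
  obtain ⟨hΨne, hrel⟩ := xOf_nsmul_mul h p hp.out.one_le hN
  have hΨSq : (W.ΨSq (p : ℤ)).eval x = ((W.preΨ (p : ℤ)).eval x) ^ 2 := by
    rw [WeierstrassCurve.ΨSq, if_neg hodd', mul_one, eval_pow]
  have hΦA : (W.Φ (p : ℤ)).eval x ∈ A := eval_Φ_mem A W h₁ h₂ h₃ h₄ h₆ hxA _
  have hu := inv_mem_of_not_mem_nonunits A hpreA hpre
  rcases hQ : p • Point.some x y h with _ | ⟨x', y', h'⟩
  · exact absurd hQ hpP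
  · rw [some_mem_kerRed_iff, not_not]
    rw [hQ, xOf_some, hΨSq] at hrel
    have hu0 : (W.preΨ (p : ℤ)).eval x ≠ 0 := by
      intro h0
      apply hpre; rw [h0]; exact A.nonunits.zero_mem
    have : x' = (W.Φ (p : ℤ)).eval x * (((W.preΨ (p : ℤ)).eval x)⁻¹) ^ 2 := by
      rw [← hrel]; field_simp
    rw [this]
    exact A.mul_mem _ _ hΦA (pow_mem hu 2)

end Points

end Fermat.Agent.ML
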