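/-
ML (S59) — helper7 — (e-STRICT), the component class and the decomposition group on a nodal model in
residue characteristic `p`.

Part 1 (no Galois): on a nodal model (`S13.GNodeCtx.IsModel`) over a field with valuation subring `A`
of residue characteristic `p` (odd), if `f, g` are additive endomorphisms of the group of points
which preserve the kernel of reduction `E₁` (in both directions) and have the same component class,
then `f Q - g Q ∈ E₁` for every `p`-power torsion point `Q`.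

Part 2: an automorphism `σ` stabilising `A` and fixing an element of nonzero valuation either fixes
or swaps the tangent slopes; accordingly `σ Q - Q ∈ E₁` resp. `σ Q + Q ∈ E₁` on `p`-power torsion.
-/
import Mathlib
import Fermat.Agent.ML.ESTRICT_helper7_Points
import Fermat.Agent.S13.At2_helper2_Inertia

set_option autoImplicit false
set_option linter.unusedSectionVars false

open Polynomial WeierstrassCurve WeierstrassCurve.Affine IsLocalRing
open scoped WeierstrassCurve.Affine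

namespace Fermat.Agent.ML

open Fermat.Agent.Tate Fermat.Agent.EC Fermat.Agent.S13

section Model

variable {K : Type*} [Field K] [DecidableEq K] {A : ValuationSubring K} {p : ℕ}
  [hp : Fact p.Prime] {W : Affine K} (C : GNodeCtx K A) {α β : K} (hM : C.IsModel W α β)

include hM in
theorem model_b₂ : W.b₂ = C.γ ^ 2 := by
  rw [WeierstrassCurve.b₂, hM.a₁, hM.a₂, ← hM.hγ]; ring

include hM in
theorem model_b₂_unit : W.b₂ ∉ A.nonunits := by
  rw [model_b₂ C hM]
  intro h
  have := C.L.pos_of_mem_nonunits (pow_ne_zero 2 C.γ_ne) h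
  rw [C.L.map_pow C.γ_ne, C.γ_unit] at this
  simp at this

include hM in
theorem model_a₁_mem : W.a₁ ∈ A := by rw [hM.a₁]; exact neg_mem (A.add_mem _ _ hM.hα hM.hβ)

include hM in
theorem model_a₂_mem : W.a₂ ∈ A := by rw [hM.a₂]; exact neg_mem (mul_mem hM.hα hM.hβ)

include hM in
theorem model_a₄_mem : W.a₄ ∈ A.nonunits := by rw [hM.a₄]; exact GNodeCtx.a₄_mem

include hM in
theorem model_a₆_mem : W.a₆ ∈ A.nonunits := by rw [hM.a₆]; exact GNodeCtx.a₆_mem

theorem integralPt_of_not_mem_kerRed (hW : IsIntegralCurve A W) {P : W.Point}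
    (hP : P ∉ kerRed hW) : IntegralPt A P := by
  rcases P with _ | ⟨x, y, h⟩
  · trivial
  · rw [some_mem_kerRed_iff, not_not] at hP
    exact ⟨hP, y_mem_of_x_mem hW h.1 hP⟩

theorem neg_mem_kerRed_iff (hW : IsIntegralCurve A W) {P : W.Point} :
    -P ∈ kerRed hW ↔ P ∈ kerRed hW := (kerRed hW).neg_mem_iff

include hM in
/-- two points outside `E₁` with the same component class whose difference is not in `E₁` have a
difference on the identity component -/
theorem depthPt_sub_eq_zero (hW : IsIntegralCurve A W) {P₁ P₂ : W.Point}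
    (h1 : P₁ ∉ kerRed hW) (h2 : P₂ ∉ kerRed hW) (h3 : P₁ - P₂ ∉ kerRed hW)
    (hd : C.depthPt α P₁ = C.depthPt α P₂) : C.depthPt α (P₁ - P₂) = 0 := by
  have i1 := integralPt_of_not_mem_kerRed hW h1
  have i2 : IntegralPt A (-P₂) :=
    integralPt_of_not_mem_kerRed hW (fun h => h2 ((neg_mem_kerRed_iff hW).mp h))
  have i3 := integralPt_of_not_mem_kerRed hW h3
  rw [sub_eq_add_neg] at i3 ⊢
  obtain ⟨k, hk⟩ := hM.depthPt_add P₁ (-P₂) i1 i2 i3
  obtain ⟨k', hk'⟩ := hM.depthPt_neg P₂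
  obtain ⟨h0, hn⟩ := GNodeCtx.depthPt_range (C := C) α (P₁ + -P₂)
  refine GNodeCtx.eq_zero_of_int_mul h0 hn (k := k' + k) ?_
  rw [hk, hk', hd]; push_cast; ring

include hM in
/-- **the induction**: `f Q - g Q ∉ E₁` propagates to all `p`-power multiples. -/
theorem pow_nsmul_sub_not_mem (hpA : (p : K) ∈ A.nonunits) (hp2 : p ≠ 2)
    (hW : IsIntegralCurve A W) (f g : W.Point →+ W.Point)
    (hf : ∀ Q, f Q ∈ kerRed hW ↔ Q ∈ kerRed hW) (hg : ∀ Q, g Q ∈ kerRed hW ↔ Q ∈ kerRed hW)
    (hfg : ∀ Q, C.depthPt α (f Q) = C.depthPt α (g Q)) (k : ℕ) :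
    ∀ Q : W.Point, (∃ n : ℕ, p ^ n • Q = 0) → f Q - g Q ∉ kerRed hW →
      p ^ k • (f Q - g Q) ∉ kerRed hW := by
  induction k with
  | zero => intro Q _ h; simpa using h
  | succ k ih =>
    intro Q hQ hR
    obtain ⟨n, hn⟩ := hQ
    have hQ1 : Q ∉ kerRed hW := fun h =>
      hR ((kerRed hW).sub_mem ((hf Q).mpr h) ((hg Q).mpr h))
    have hfQ : f Q ∉ kerRed hW := fun h => hQ1 ((hf Q).mp h)
    have hgQ : g Q ∉ kerRed hW := fun h => hQ1 ((hg Q).mp h)
    have hd := depthPt_sub_eq_zero C hM hW hfQ hgQ hR (hfg Q)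
    have htors : p ^ n • (f Q - g Q) = 0 := by
      rw [smul_sub, ← map_nsmul, ← map_nsmul, hn, map_zero, map_zero, sub_zero]
    have hstep : p • (f Q - g Q) ∉ kerRed hW := by
      rcases hD : f Q - g Q with _ | ⟨x, y, h⟩
      · exfalso
        apply hR
        rw [hD]
        exact (kerRed hW).zero_mem
      · rw [hD] at hd hR htors
        rw [GNodeCtx.depthPt_some, GNodeCtx.depth_eq_zero_iff] at hd
        rw [some_mem_kerRed_iff, not_not] at hR
        exact nsmul_not_mem_kerRed A W (model_a₁_mem C hM) (model_a₂_mem C hM) hM.a₃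
          (model_a₄_mem C hM) (model_a₆_mem C hM) hpA hp2 (model_b₂_unit C hM) hW h hR hd htors
    have hpQ : f (p • Q) - g (p • Q) = p • (f Q - g Q) := by
      rw [map_nsmul, map_nsmul, smul_sub]
    have := ih (p • Q) ⟨n, by rw [smul_comm, hn, smul_zero]⟩ (by rw [hpQ]; exact hstep)
    rw [hpQ, ← mul_smul, ← pow_succ] at this
    exact this

include hM in
/-- **(d)/(e), abstract form**: two additive endomorphisms preserving `E₁` with the same component
class agree modulo `E₁` on the `p`-power torsion. -/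
theorem sub_mem_kerRed_of_depth_eq (hpA : (p : K) ∈ A.nonunits) (hp2 : p ≠ 2)
    (hW : IsIntegralCurve A W) (f g : W.Point →+ W.Point)
    (hf : ∀ Q, f Q ∈ kerRed hW ↔ Q ∈ kerRed hW) (hg : ∀ Q, g Q ∈ kerRed hW ↔ Q ∈ kerRed hW)
    (hfg : ∀ Q, C.depthPt α (f Q) = C.depthPt α (g Q)) (Q : W.Point)
    (hQ : ∃ n : ℕ, p ^ n • Q = 0) : f Q - g Q ∈ kerRed hW := by
  by_contra hR
  obtain ⟨n, hn⟩ := hQ
  have := pow_nsmul_sub_not_mem C hM hpA hp2 hW f g hf hg hfg n Q ⟨n, hn⟩ hR
  apply this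
  rw [smul_sub, ← map_nsmul, ← map_nsmul, hn, map_zero, map_zero, sub_zero]
  exact (kerRed hW).zero_mem

end Model

section Galois

variable {K : Type*} [Field K] [DecidableEq K] {A : ValuationSubring K} {p : ℕ}
  [hp : Fact p.Prime]
  {R : Type*} {S : Type*} [CommRing R] [CommRing S] [Algebra R S]
  [Algebra R K] [Algebra S K] [IsScalarTower R S K]
  (W' : Affine R) (C : GNodeCtx K A) {α β : K} (hM : C.IsModel (W'⁄K) α β)
  (σ : K ≃ₐ[S] K) (hσA : ∀ a : K, a ∈ A ↔ σ a ∈ A)
  {π : K} (hπ0 : π ≠ 0) (hπ : C.L.w π ≠ 0) (hσπ : σ π = π)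

include hM in
/-- `σ` fixes or swaps the tangent slopes -/
theorem map_slope_cases : (σ α = α ∧ σ β = β) ∨ (σ α = β ∧ σ β = α) := by
  have h1 : σ α + σ β = α + β := by
    have := smul_a₁ W' σ
    rw [hM.a₁, map_neg, map_add] at this
    linear_combination -this
  have h2 : σ α * σ β = α * β := by
    have := smul_a₂ W' σ
    rw [hM.a₂, map_neg, map_mul] at this
    linear_combination -this
  have h3 : (σ α - α) * (σ α - β) = 0 := by
    have : σ β = α + β - σ α := by linear_combination h1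
    rw [this] at h2
    linear_combination -h2
  rcases mul_eq_zero.mp h3 with h | h
  · left
    have hα : σ α = α := sub_eq_zero.mp h
    exact ⟨hα, by linear_combination h1 - hα⟩
  · right
    have hα : σ α = β := sub_eq_zero.mp h
    exact ⟨hα, by linear_combination h1 - hα⟩

include hσA hπ0 hπ hσπ in
theorem w_map_dec (x : K) : C.L.w (σ x) = C.L.w x := by
  rcases eq_or_ne x 0 with rfl | hx
  · simp
  · exact logVal_map_eq C.L hπ0 hπ (σ := (σ : K →+* K)) hσπ hσA hx

include hσA hπ0 hπ hσπ in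
theorem mem_nonunits_iff_map_dec (x : K) : σ x ∈ A.nonunits ↔ x ∈ A.nonunits := by
  rcases eq_or_ne x 0 with rfl | hx
  · simp
  · have hσx : σ x ≠ 0 := (map_ne_zero σ).mpr hx
    rw [← C.L.pos_iff hσx, ← C.L.pos_iff hx, w_map_dec C σ hσA hπ0 hπ hσπ x]

include hσA hπ0 hπ hσπ in
/-- the depth is invariant under `σ` -/
theorem depth_map_dec (x a : K) : C.depth (σ x) (σ a) = C.depth x a := by
  have hw := w_map_dec C σ hσA hπ0 hπ hσπ
  have hnu := mem_nonunits_iff_map_dec C σ hσA hπ0 hπ hσπ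
  simp only [GNodeCtx.depth, hw, map_eq_zero]
  by_cases hx : x ∈ A.nonunits
  · rw [if_pos hx, if_pos ((hnu x).mpr hx)]
    split_ifs <;> rfl
  · rw [if_neg hx, if_neg (fun h => hx ((hnu x).mp h))]

theorem depth_neg_right (x a : K) : C.depth x (-a) = C.depth x a := by
  simp only [GNodeCtx.depth, neg_eq_zero, C.L.map_neg]
  split_ifs <;> rfl

include hσA in
theorem smul_mem_kerRed_iff (hW : IsIntegralCurve A (W'⁄K)) (Q : (W'⁄K).Point) :
    σ • Q ∈ kerRed hW ↔ Q ∈ kerRed hW := by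
  rcases Q with _ | ⟨x, y, h⟩
  · have h0 : (Point.zero : (W'⁄K).Point) = 0 := rfl
    rw [h0, smul_zero]
  · rw [smul_some, some_mem_kerRed_iff, some_mem_kerRed_iff, not_iff_not]
    exact (hσA x).symm

include hM hσA hπ0 hπ hσπ in
/-- slopes fixed: the component class is invariant -/
theorem depthPt_smul_of_fix (hα : σ α = α) (Q : (W'⁄K).Point) :
    C.depthPt α (σ • Q) = C.depthPt α Q := by
  rcases Q with _ | ⟨x, y, h⟩
  · rfl
  rw [smul_some, GNodeCtx.depthPt_some, GNodeCtx.depthPt_some]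
  have : σ y - α * σ x = σ (y - α * x) := by rw [map_sub, map_mul, hα]
  rw [this]
  exact depth_map_dec C σ hσA hπ0 hπ hσπ x _

include hM hσA hπ0 hπ hσπ in
/-- slopes swapped: the component class is negated -/
theorem depthPt_smul_of_swap (hα : σ β = α) (Q : (W'⁄K).Point) :
    C.depthPt α (σ • Q) = C.depthPt α (-Q) := by
  rcases Q with _ | ⟨x, y, h⟩
  · rfl
  rw [smul_some, Point.neg_some, GNodeCtx.depthPt_some, GNodeCtx.depthPt_some, hM.negY]
  have e1 : σ y - α * σ x = σ (y - β * x) := by rw [map_sub, map_mul, hα]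
  have e2 : -y + (α + β) * x - α * x = -(y - β * x) := by ring
  rw [e1, e2, depth_neg_right]
  exact depth_map_dec C σ hσA hπ0 hπ hσπ x _

include hM hσA hπ0 hπ hσπ in
/-- **(e) on the nodal model**: `σ Q - Q ∈ E₁` for all `p`-power torsion `Q` (slopes fixed), or
`σ Q + Q ∈ E₁` for all of them (slopes swapped). -/
theorem smul_sub_or_add_mem_kerRed (hpA : (p : K) ∈ A.nonunits) (hp2 : p ≠ 2)
    (hW : IsIntegralCurve A (W'⁄K)) :
    (σ α = α ∧ ∀ Q : (W'⁄K).Point, (∃ n : ℕ, p ^ n • Q = 0) → σ • Q - Q ∈ kerRed hW) ∨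
    (σ α = β ∧ ∀ Q : (W'⁄K).Point, (∃ n : ℕ, p ^ n • Q = 0) → σ • Q + Q ∈ kerRed hW) := by
  let f : (W'⁄K).Point →+ (W'⁄K).Point := DistribSMul.toAddMonoidHom _ σ
  have hf : ∀ Q, f Q ∈ kerRed hW ↔ Q ∈ kerRed hW := fun Q =>
    smul_mem_kerRed_iff W' σ hσA hW Q
  rcases map_slope_cases W' C hM σ with ⟨hα, -⟩ | ⟨hα, hβ⟩
  · left
    refine ⟨hα, fun Q hQ => ?_⟩
    exact sub_mem_kerRed_of_depth_eq C hM hpA hp2 hW f (AddMonoidHom.id _) hf (fun Q => Iff.rfl)
      (fun Q => depthPt_smul_of_fix W' C hM σ hσA hπ0 hπ hσπ hα Q) Q hQ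
  · right
    refine ⟨hα, fun Q hQ => ?_⟩
    have := sub_mem_kerRed_of_depth_eq C hM hpA hp2 hW f (-AddMonoidHom.id _) hf
      (fun Q => neg_mem_kerRed_iff hW)
      (fun Q => depthPt_smul_of_swap W' C hM σ hσA hπ0 hπ hσπ hβ Q) Q hQ
    change σ • Q - -Q ∈ kerRed hW at this
    rwa [sub_neg_eq_add] at this

end Galois

end Fermat.Agent.ML
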