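/-
ML (S59) — helper1 — **[RHO-W, flat] part 4: Hensel lifting of points** in `padicPlace p`:
an approximate point `(x₀, y₀)` of an integral Weierstrass curve at which the derivative of the
equation in the direction `(α, β)` is a unit moves to a unique point `(x₀ + α t, y₀ + β t)`,
`t ∈ 𝔪`.
-/
import Mathlib
import Fermat.Agent.FG.HENSEL_helper2_Padic
import Fermat.Agent.FG.REFL_helper5_Lin
import Fermat.Agent.Tate.R1_helper8

set_option autoImplicit false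
set_option linter.unusedSectionVars false
set_option linter.unusedVariables false

namespace Fermat.Agent.ML

open WeierstrassCurve WeierstrassCurve.Affine Fermat.Agent.Tate Fermat.Agent.FG IsLocalRing
  MvPolynomial

/-- `Ω = AlgebraicClosure ℚ`. -/
local notation "Ω" => AlgebraicClosure ℚ

variable (p : ℕ) [Fact p.Prime]

section Hensel

/-- the polynomial `F(x₀ + α T, y₀ + β T)`. -/
noncomputable def flatHenselPoly {R : Type*} [CommRing R] (a₁ a₂ a₃ a₄ a₆ x₀ y₀ α β : R) :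
    MvPolynomial Unit R :=
  (C y₀ + C β * X ()) ^ 2 + C a₁ * (C x₀ + C α * X ()) * (C y₀ + C β * X ()) +
    C a₃ * (C y₀ + C β * X ()) -
    ((C x₀ + C α * X ()) ^ 3 + C a₂ * (C x₀ + C α * X ()) ^ 2 + C a₄ * (C x₀ + C α * X ()) + C a₆)

theorem flatHenselPoly_eval {R : Type*} [CommRing R] (a₁ a₂ a₃ a₄ a₆ x₀ y₀ α β : R)
    (t : Unit → R) : eval t (flatHenselPoly a₁ a₂ a₃ a₄ a₆ x₀ y₀ α β) =
      (y₀ + β * t ()) ^ 2 + a₁ * (x₀ + α * t ()) * (y₀ + β * t ()) + a₃ * (y₀ + β * t ()) -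
        ((x₀ + α * t ()) ^ 3 + a₂ * (x₀ + α * t ()) ^ 2 + a₄ * (x₀ + α * t ()) + a₆) := by
  simp [flatHenselPoly]

theorem flatHenselPoly_constantCoeff {R : Type*} [CommRing R] (a₁ a₂ a₃ a₄ a₆ x₀ y₀ α β : R) :
    constantCoeff (flatHenselPoly a₁ a₂ a₃ a₄ a₆ x₀ y₀ α β) =
      y₀ ^ 2 + a₁ * x₀ * y₀ + a₃ * y₀ - (x₀ ^ 3 + a₂ * x₀ ^ 2 + a₄ * x₀ + a₆) := by
  simp [flatHenselPoly]

theorem flatHenselPoly_lin {R : Type*} [CommRing R] (a₁ a₂ a₃ a₄ a₆ x₀ y₀ α β : R) :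
    constantCoeff (pderiv () (flatHenselPoly a₁ a₂ a₃ a₄ a₆ x₀ y₀ α β)) =
      β * (2 * y₀ + a₁ * x₀ + a₃) - α * (3 * x₀ ^ 2 + 2 * a₂ * x₀ + a₄ - a₁ * y₀) := by
  classical
  show lin () (flatHenselPoly a₁ a₂ a₃ a₄ a₆ x₀ y₀ α β) = _
  simp [flatHenselPoly, lin_mul, lin_X, lin_add, lin_sub, pow_succ]
  ring

/-- the Weierstrass equation as a function. -/
def flatF {R : Type*} [CommRing R] (a₁ a₂ a₃ a₄ a₆ x y : R) : R :=
  y ^ 2 + a₁ * x * y + a₃ * y - (x ^ 3 + a₂ * x ^ 2 + a₄ * x + a₆)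

theorem flatF_eq_zero_iff {K : Type*} [Field K] (W : Affine K) (x y : K) :
    flatF W.a₁ W.a₂ W.a₃ W.a₄ W.a₆ x y = 0 ↔ W.Equation x y := by
  rw [equation_iff, flatF, sub_eq_zero]

/-- **Hensel lifting of an approximate point in the direction `(α, β)`.** -/
theorem flat_hensel_point {a₁ a₂ a₃ a₄ a₆ x₀ y₀ α β : Ω} (h₁ : a₁ ∈ padicPlace p)
    (h₂ : a₂ ∈ padicPlace p) (h₃ : a₃ ∈ padicPlace p) (h₄ : a₄ ∈ padicPlace p)
    (h₆ : a₆ ∈ padicPlace p) (hx₀ : x₀ ∈ padicPlace p) (hy₀ : y₀ ∈ padicPlace p)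
    (hα : α ∈ padicPlace p) (hβ : β ∈ padicPlace p)
    (h0 : flatF a₁ a₂ a₃ a₄ a₆ x₀ y₀ ∈ (padicPlace p).nonunits)
    (hder : β * (2 * y₀ + a₁ * x₀ + a₃) - α * (3 * x₀ ^ 2 + 2 * a₂ * x₀ + a₄ - a₁ * y₀) ∉
      (padicPlace p).nonunits) :
    ∃ t ∈ (padicPlace p).nonunits, flatF a₁ a₂ a₃ a₄ a₆ (x₀ + α * t) (y₀ + β * t) = 0 ∧
      ∀ t' ∈ (padicPlace p).nonunits, flatF a₁ a₂ a₃ a₄ a₆ (x₀ + α * t') (y₀ + β * t') = 0 →
        t' = t := by
  classical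
  set G : Unit → MvPolynomial Unit ↥(padicPlace p) := fun _ =>
    flatHenselPoly (⟨a₁, h₁⟩ : ↥(padicPlace p)) ⟨a₂, h₂⟩ ⟨a₃, h₃⟩ ⟨a₄, h₄⟩ ⟨a₆, h₆⟩ ⟨x₀, hx₀⟩
      ⟨y₀, hy₀⟩ ⟨α, hα⟩ ⟨β, hβ⟩ with hG
  have hG0 : ∀ i, constantCoeff (G i) ∈ maximalIdeal ↥(padicPlace p) := by
    intro i
    rw [hG, flatHenselPoly_constantCoeff, ← ValuationSubring.coe_mem_nonunits_iff]
    push_cast
    exact h0
  have hJ : IsUnit (Matrix.det (Matrix.of fun i j => constantCoeff (pderiv j (G i)))) := by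
    rw [Matrix.det_unique, Matrix.of_apply]
    show IsUnit (constantCoeff (pderiv () (G ())))
    rw [hG, flatHenselPoly_lin, ← IsLocalRing.notMem_maximalIdeal,
      ← ValuationSubring.coe_mem_nonunits_iff]
    push_cast
    exact hder
  have hcoe : ∀ t : Unit → ↥(padicPlace p), ((eval t (G ()) : ↥(padicPlace p)) : Ω) =
      flatF a₁ a₂ a₃ a₄ a₆ (x₀ + α * (t () : Ω)) (y₀ + β * (t () : Ω)) := by
    intro t
    rw [hG, flatHenselPoly_eval, flatF]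
    push_cast
    rfl
  obtain ⟨x, hxm, hxG⟩ := hensel_mv_padicPlace p G hG0 hJ
  refine ⟨(x () : Ω), ValuationSubring.coe_mem_nonunits_iff.mpr (hxm ()), ?_, fun t' ht' h' => ?_⟩
  · rw [← hcoe, hxG ()]
    rfl
  · have ht'A : t' ∈ padicPlace p := (padicPlace p).nonunits_le ht'
    have hx' : ∀ i, (fun _ : Unit => (⟨t', ht'A⟩ : ↥(padicPlace p))) i ∈
        maximalIdeal ↥(padicPlace p) := fun _ =>
      ValuationSubring.coe_mem_nonunits_iff.mp ht'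
    have hG' : ∀ i, eval (fun _ : Unit => (⟨t', ht'A⟩ : ↥(padicPlace p))) (G i) = 0 := by
      intro i
      apply Subtype.ext
      rw [hcoe]
      exact h'
    have := hensel_mv_unique_padicPlace p G hJ _ x hx' hxm hG' hxG
    have h2 := congrFun this ()
    exact congrArg Subtype.val h2

end Hensel

end Fermat.Agent.ML
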