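/-
ML (S59) — helper1 — **[RHO-W, flat] part 5: unramified lifts of the points of the reduction.**
`W/ℤ` with good reduction at `p`, `A = padicPlace p`.  Every point `P` of `W(ℚ̄)` is congruent
modulo the kernel of reduction to a point `Q` which is fixed by every element of the decomposition
group fixing finitely many Teichmüller constants (`flat_exists_lift`); consequently the cosets of
the kernel of reduction in a finite subgroup have lifts fixed by `Gal(ℚ̄_p/ℚ_p(ζ))` for ONE root of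
unity `ζ` of order prime to `p` (`flat_exists_coset_lifts`, the input `(m, ζ, c)` of helper1's front
`FG.hasHopfOrder_of_front`).
-/
import Mathlib
import Fermat.Agent.ML.FLAT_helper1_Hensel
import Fermat.Agent.ML.FLAT_helper1_SameRed
import Fermat.Agent.FG.LIFT_helper8_Padic
import Fermat.Agent.FG.GLUE_helper8_Lifts
import Fermat.Agent.Tate.NodeGalois
import Fermat.Agent.S58.E2_helper2_Int

set_option autoImplicit false
set_option linter.unusedSectionVars false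
set_option linter.unusedVariables false
set_option linter.style.haveILetI false

open scoped WeierstrassCurve.Affine

namespace Fermat.Agent.ML

open WeierstrassCurve WeierstrassCurve.Affine Fermat.Agent.Tate Fermat.Agent.FG IsLocalRing

/-- `Ω = AlgebraicClosure ℚ`. -/
local notation "Ω" => AlgebraicClosure ℚ

/-- the absolute Galois group. -/
local notation "GQ" => (AlgebraicClosure ℚ ≃ₐ[ℚ] AlgebraicClosure ℚ)

variable (p : ℕ) [Fact p.Prime] (W : WeierstrassCurve ℤ)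
  (hW : IsIntegralCurve (padicPlace p) (W⁄Ω)) (hΔ : (W⁄Ω).Δ ∉ (padicPlace p).nonunits)

/-- an automorphism preserving `A` preserves its maximal ideal. -/
theorem flat_map_mem_nonunits {A : ValuationSubring Ω} {σ : GQ} (hσ : ∀ a, σ a ∈ A ↔ a ∈ A)
    {a : Ω} (ha : a ∈ A.nonunits) : σ a ∈ A.nonunits := by
  rw [ValuationSubring.mem_nonunits_iff_or] at ha ⊢
  rcases ha with ha | ha
  · left
    rw [ha, map_zero]
  · right
    rw [← map_inv₀, hσ]
    exact ha

/-- `smul_some` with an opaque proof. -/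
theorem flat_exists_smul_some (σ : GQ) {x y : Ω} (h : (W⁄Ω).Nonsingular x y) :
    ∃ h' : (W⁄Ω).Nonsingular (σ x) (σ y), σ • Point.some x y h = Point.some (σ x) (σ y) h' :=
  ⟨_, smul_some σ h⟩

include hΔ in
/-- the core: Hensel lifting from an approximate point with Galois-fixed coordinates. -/
theorem flat_lift_core {x y x₀ y₀ α β : Ω} (h : (W⁄Ω).Nonsingular x y) (hx : x ∈ padicPlace p)
    (hx₀ : x₀ ∈ padicPlace p) (hy₀ : y₀ ∈ padicPlace p) (hα : α ∈ padicPlace p)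
    (hβ : β ∈ padicPlace p) (hxx : x - x₀ ∈ (padicPlace p).nonunits)
    (hyy : y - y₀ ∈ (padicPlace p).nonunits)
    (hder : β * (2 * y₀ + (W⁄Ω).a₁ * x₀ + (W⁄Ω).a₃) -
      α * (3 * x₀ ^ 2 + 2 * (W⁄Ω).a₂ * x₀ + (W⁄Ω).a₄ - (W⁄Ω).a₁ * y₀) ∉ (padicPlace p).nonunits) :
    ∃ Q : (W⁄Ω).Point, Point.some x y h - Q ∈ kerRed hW ∧
      ∀ σ : GQ, (∀ a, σ a ∈ padicPlace p ↔ a ∈ padicPlace p) → σ x₀ = x₀ → σ y₀ = y₀ →
        σ α = α → σ β = β → σ • Q = Q := by
  have hy : y ∈ padicPlace p := y_mem_of_x_mem hW h.1 hx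
  have hΔ0 : (W⁄Ω).Δ ≠ 0 := by
    intro h0
    apply hΔ
    rw [h0]
    exact (padicPlace p).mem_nonunits_iff.mpr (by rw [map_zero]; exact zero_lt_one)
  have h2 : (2 : Ω) ∈ padicPlace p := by exact_mod_cast natCast_mem (padicPlace p) 2
  -- the approximate point
  have h0 : flatF (W⁄Ω).a₁ (W⁄Ω).a₂ (W⁄Ω).a₃ (W⁄Ω).a₄ (W⁄Ω).a₆ x₀ y₀ ∈
      (padicPlace p).nonunits := by
    have hF := (flatF_eq_zero_iff (W⁄Ω) x y).mpr h.1
    have e : flatF (W⁄Ω).a₁ (W⁄Ω).a₂ (W⁄Ω).a₃ (W⁄Ω).a₄ (W⁄Ω).a₆ x₀ y₀ =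
        (-(y₀ + y + (W⁄Ω).a₁ * x₀ + (W⁄Ω).a₃)) * (y - y₀) +
        (-((W⁄Ω).a₁ * y - (x₀ ^ 2 + x₀ * x + x ^ 2) - (W⁄Ω).a₂ * (x₀ + x) - (W⁄Ω).a₄)) *
          (x - x₀) := by
      unfold flatF at hF ⊢
      linear_combination hF
    rw [e]
    refine (padicPlace p).nonunits.add_mem (mul_mem_nonunits_right (neg_mem ?_) hyy)
      (mul_mem_nonunits_right (neg_mem ?_) hxx)
    · exact add_mem (add_mem (add_mem hy₀ hy) (mul_mem hW.a₁ hx₀)) hW.a₃
    · exact sub_mem (sub_mem (sub_mem (mul_mem hW.a₁ hy)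
        (add_mem (add_mem (pow_mem hx₀ 2) (mul_mem hx₀ hx)) (pow_mem hx 2)))
        (mul_mem hW.a₂ (add_mem hx₀ hx))) hW.a₄
  obtain ⟨t, ht, hFt, huniq⟩ := flat_hensel_point p hW.a₁ hW.a₂ hW.a₃ hW.a₄ hW.a₆ hx₀ hy₀ hα hβ
    h0 hder
  have htA : t ∈ padicPlace p := (padicPlace p).nonunits_le ht
  have hQ : (W⁄Ω).Nonsingular (x₀ + α * t) (y₀ + β * t) :=
    ((W⁄Ω).equation_iff_nonsingular_of_Δ_ne_zero hΔ0).mp ((flatF_eq_zero_iff (W⁄Ω) _ _).mp hFt)
  refine ⟨Point.some _ _ hQ, ?_, fun σ hσ hσx hσy hσα hσβ => ?_⟩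
  · refine sub_mem_kerRed_of_congr hW hΔ h hQ hx ?_ ?_
    · have e : x - (x₀ + α * t) = (x - x₀) - α * t := by ring
      rw [e]
      exact (padicPlace p).nonunits.sub_mem hxx (mul_mem_nonunits_right hα ht)
    · have e : y - (y₀ + β * t) = (y - y₀) - β * t := by ring
      rw [e]
      exact (padicPlace p).nonunits.sub_mem hyy (mul_mem_nonunits_right hβ ht)
  · obtain ⟨hQ', hsm⟩ := flat_exists_smul_some W σ hQ
    rw [hsm]
    have hσt : σ t = t := by
      refine huniq (σ t) (flat_map_mem_nonunits hσ ht) ?_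
      rw [flatF_eq_zero_iff]
      have := hQ'.1
      rw [map_add, map_add, map_mul, map_mul, hσx, hσy, hσα, hσβ] at this
      exact this
    rw [Point.some.injEq]
    constructor
    · rw [map_add, map_mul, hσx, hσα, hσt]
    · rw [map_add, map_mul, hσy, hσβ, hσt]

include hΔ in
/-- **unramified lifts**: every point is congruent modulo the kernel of reduction to a point fixed
by the stabiliser (in the decomposition group) of finitely many Teichmüller constants. -/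
theorem flat_exists_lift (P : (W⁄Ω).Point) :
    ∃ (Q : (W⁄Ω).Point) (T : Finset Ω), P - Q ∈ kerRed hW ∧
      (∀ a ∈ T, IsTeich (padicPlace p) a) ∧
      ∀ σ : GQ, (∀ a, σ a ∈ padicPlace p ↔ a ∈ padicPlace p) → (∀ a ∈ T, σ a = a) →
        σ • Q = Q := by
  classical
  by_cases hP : P ∈ kerRed hW
  · exact ⟨0, ∅, by rwa [sub_zero], fun a ha => absurd ha (Finset.notMem_empty a),
      fun σ _ _ => rfl⟩
  rcases P with _ | ⟨x, y, h⟩
  · exact absurd (kerRed hW).zero_mem hP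
  have hx : x ∈ padicPlace p := by
    by_contra hx
    exact hP ((some_mem_kerRed_iff hW).mpr hx)
  have hy : y ∈ padicPlace p := y_mem_of_x_mem hW h.1 hx
  have hA : (padicPlace p).LiesOverPrime p := glue_natCast_mem_nonunits p
  have hk := residueField_pow_eq_one (A := padicPlace p) (ℓ := p) hA
  obtain ⟨x₀, hx₀r, hx₀T⟩ := exists_isTeich_lift (padicPlace p) hk
    (residue ↥(padicPlace p) ⟨x, hx⟩)
  obtain ⟨y₀, hy₀r, hy₀T⟩ := exists_isTeich_lift (padicPlace p) hk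
    (residue ↥(padicPlace p) ⟨y, hy⟩)
  have hxx : x - (x₀ : Ω) ∈ (padicPlace p).nonunits := by
    rw [(padicPlace p).mem_nonunits_iff]
    exact (valuation_sub_lt_one_iff (padicPlace p) ⟨x, hx⟩ x₀).mpr hx₀r.symm
  have hyy : y - (y₀ : Ω) ∈ (padicPlace p).nonunits := by
    rw [(padicPlace p).mem_nonunits_iff]
    exact (valuation_sub_lt_one_iff (padicPlace p) ⟨y, hy⟩ y₀).mpr hy₀r.symm
  have h2 : (2 : Ω) ∈ padicPlace p := by exact_mod_cast natCast_mem (padicPlace p) 2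
  have h3 : (3 : Ω) ∈ padicPlace p := by exact_mod_cast natCast_mem (padicPlace p) 3
  have hpart := not_partials_mem_of_Δ hW.a₁ hW.a₂ hΔ hx h.1
  have hTeich : ∀ a ∈ ({(x₀ : Ω), (y₀ : Ω)} : Finset Ω), IsTeich (padicPlace p) a := by
    intro a ha
    rw [Finset.mem_insert, Finset.mem_singleton] at ha
    rcases ha with rfl | rfl
    · exact hx₀T
    · exact hy₀T
  by_cases hψ : 2 * y + (W⁄Ω).a₁ * x + (W⁄Ω).a₃ ∈ (padicPlace p).nonunits
  · -- horizontal direction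
    have hφ : 3 * x ^ 2 + 2 * (W⁄Ω).a₂ * x + (W⁄Ω).a₄ - (W⁄Ω).a₁ * y ∉
        (padicPlace p).nonunits := fun h' => hpart ⟨h', hψ⟩
    have hder : (0 : Ω) * (2 * (y₀ : Ω) + (W⁄Ω).a₁ * (x₀ : Ω) + (W⁄Ω).a₃) -
        1 * (3 * (x₀ : Ω) ^ 2 + 2 * (W⁄Ω).a₂ * (x₀ : Ω) + (W⁄Ω).a₄ - (W⁄Ω).a₁ * (y₀ : Ω)) ∉
        (padicPlace p).nonunits := by
      intro hcon
      apply hφ
      have e : 3 * x ^ 2 + 2 * (W⁄Ω).a₂ * x + (W⁄Ω).a₄ - (W⁄Ω).a₁ * y =
          -((0 : Ω) * (2 * (y₀ : Ω) + (W⁄Ω).a₁ * (x₀ : Ω) + (W⁄Ω).a₃) -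
            1 * (3 * (x₀ : Ω) ^ 2 + 2 * (W⁄Ω).a₂ * (x₀ : Ω) + (W⁄Ω).a₄ - (W⁄Ω).a₁ * (y₀ : Ω))) +
          ((3 * (x + (x₀ : Ω)) + 2 * (W⁄Ω).a₂) * (x - (x₀ : Ω)) -
            (W⁄Ω).a₁ * (y - (y₀ : Ω))) := by ring
      rw [e]
      refine (padicPlace p).nonunits.add_mem ((padicPlace p).nonunits.neg_mem hcon)
        ((padicPlace p).nonunits.sub_mem (mul_mem_nonunits_right ?_ hxx)
          (mul_mem_nonunits_right hW.a₁ hyy))
      exact add_mem (mul_mem h3 (add_mem hx x₀.2)) (mul_mem h2 hW.a₂)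
    obtain ⟨Q, hQ1, hQ2⟩ := flat_lift_core p W hW hΔ h hx x₀.2 y₀.2 (one_mem _) (zero_mem _)
      hxx hyy hder
    exact ⟨Q, {(x₀ : Ω), (y₀ : Ω)}, hQ1, hTeich, fun σ hσ hT =>
      hQ2 σ hσ (hT _ (by simp)) (hT _ (by simp)) (map_one σ) (map_zero σ)⟩
  · -- vertical direction
    have hder : (1 : Ω) * (2 * (y₀ : Ω) + (W⁄Ω).a₁ * (x₀ : Ω) + (W⁄Ω).a₃) -
        0 * (3 * (x₀ : Ω) ^ 2 + 2 * (W⁄Ω).a₂ * (x₀ : Ω) + (W⁄Ω).a₄ - (W⁄Ω).a₁ * (y₀ : Ω)) ∉
        (padicPlace p).nonunits := by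
      intro hcon
      apply hψ
      have e : 2 * y + (W⁄Ω).a₁ * x + (W⁄Ω).a₃ =
          ((1 : Ω) * (2 * (y₀ : Ω) + (W⁄Ω).a₁ * (x₀ : Ω) + (W⁄Ω).a₃) -
            0 * (3 * (x₀ : Ω) ^ 2 + 2 * (W⁄Ω).a₂ * (x₀ : Ω) + (W⁄Ω).a₄ - (W⁄Ω).a₁ * (y₀ : Ω))) +
          (2 * (y - (y₀ : Ω)) + (W⁄Ω).a₁ * (x - (x₀ : Ω))) := by ring
      rw [e]
      exact (padicPlace p).nonunits.add_mem hcon ((padicPlace p).nonunits.add_mem
        (mul_mem_nonunits_right h2 hyy) (mul_mem_nonunits_right hW.a₁ hxx))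
    obtain ⟨Q, hQ1, hQ2⟩ := flat_lift_core p W hW hΔ h hx x₀.2 y₀.2 (zero_mem _) (one_mem _)
      hxx hyy hder
    exact ⟨Q, {(x₀ : Ω), (y₀ : Ω)}, hQ1, hTeich, fun σ hσ hT =>
      hQ2 σ hσ (hT _ (by simp)) (hT _ (by simp)) (map_zero σ) (map_one σ)⟩

include hΔ in
/-- **the coset lifts of the front**: a section of the reduction on a finite subgroup, constant on
the cosets of the kernel of reduction, with all values fixed by the stabiliser of ONE primitive
root of unity `ζ ∈ ℚ̄_p` of order prime to `p`. -/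
theorem flat_exists_coset_lifts {G : Type} [AddCommGroup G] [Finite G] (j : G →+ (W⁄Ω).Point) :
    ∃ (m : ℕ) (_ : ¬ p ∣ m) (ζ : PadicAlgCl p) (_ : IsPrimitiveRoot ζ m)
      (c : G → (W⁄Ω).Point),
      (∀ g, j g - c g ∈ kerRed hW) ∧
      (∀ ρ : PadicAlgCl p ≃ₐ[ℚ_[p]] PadicAlgCl p, ρ ζ = ζ →
        ∀ g, localGaloisToGlobal p ρ • c g = c g) ∧
      (∀ g g', j g - j g' ∈ kerRed hW → c g = c g') := by
  classical
  haveI := Fintype.ofFinite G
  choose Q T hQ hT hfix using fun g : G => flat_exists_lift p W hW hΔ (j g)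
  set TT : Finset Ω := Finset.univ.biUnion T with hTT
  have hTTeich : ∀ a ∈ TT, IsTeich (padicPlace p) a := by
    intro a ha
    rw [hTT, Finset.mem_biUnion] at ha
    obtain ⟨g, -, hg⟩ := ha
    exact hT g a hg
  obtain ⟨n, ζ', hn, hζ', hall⟩ := exists_root_of_unity_of_isTeich (padicPlace p) TT hTTeich
  have hpn : ¬ p ∣ n := glue_not_dvd_of_natCast_ne_zero p hn
  have hn0 : n ≠ 0 := fun h0 => hpn (h0 ▸ dvd_zero p)
  haveI : NeZero n := ⟨hn0⟩
  haveI : NeZero ((n : ℕ) : PadicAlgCl p) := ⟨by exact_mod_cast hn0⟩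
  obtain ⟨ζ, hζ⟩ := HasEnoughRootsOfUnity.exists_primitiveRoot (PadicAlgCl p) n
  -- representatives of the cosets
  set G₀ : AddSubgroup G := (kerRed hW).comap j with hG₀
  set r : G → G := fun g => Quotient.out (QuotientAddGroup.mk g : G ⧸ G₀) with hr
  have hr1 : ∀ g, j g - j (r g) ∈ kerRed hW := by
    intro g
    obtain ⟨h, hh⟩ := QuotientAddGroup.mk_out_eq_add G₀ g
    have hjh : j (h : G) ∈ kerRed hW := h.2
    have e : j g - j (r g) = -j (h : G) := by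
      rw [hr]
      show j g - j (Quotient.out (QuotientAddGroup.mk g : G ⧸ G₀)) = _
      rw [hh, map_add]
      abel
    rw [e]
    exact (kerRed hW).neg_mem hjh
  have hr2 : ∀ g g', j g - j g' ∈ kerRed hW → r g = r g' := by
    intro g g' h
    have hmk : (QuotientAddGroup.mk g : G ⧸ G₀) = QuotientAddGroup.mk g' := by
      rw [QuotientAddGroup.eq]
      show j (-g + g') ∈ kerRed hW
      have e : j (-g + g') = -(j g - j g') := by
        rw [map_add, map_neg]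
        abel
      rw [e]
      exact (kerRed hW).neg_mem h
    rw [hr]
    show Quotient.out (QuotientAddGroup.mk g : G ⧸ G₀) = Quotient.out (QuotientAddGroup.mk g' : G ⧸ G₀)
    rw [hmk]
  refine ⟨n, hpn, ζ, hζ, fun g => Q (r g), fun g => ?_, fun ρ hρ g => ?_, fun g g' h => ?_⟩
  · have e : j g - Q (r g) = (j g - j (r g)) + (j (r g) - Q (r g)) := by abel
    rw [e]
    exact (kerRed hW).add_mem (hr1 g) (hQ (r g))
  · have hdec := localGaloisToGlobal_mem_decompositionSubgroup p ρ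
    refine hfix (r g) (localGaloisToGlobal p ρ)
      (fun a => Fermat.Agent.S58.e2_decomp_map_mem_iff hdec a) fun a ha => ?_
    have hσζ : localGaloisToGlobal p ρ ζ' = ζ' := by
      apply (padicEmbedding p).injective
      show padicEmbedding p (localGaloisToGlobal p ρ ζ') = padicEmbedding p ζ'
      rw [padicEmbedding_localGaloisToGlobal]
      have h1 : (padicEmbedding p ζ') ^ n = 1 := by
        rw [← map_pow, hζ', map_one]
      obtain ⟨i, -, hi⟩ := hζ.eq_pow_of_pow_eq_one h1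
      rw [← hi, map_pow, hρ]
    have haTT : a ∈ TT := by
      rw [hTT, Finset.mem_biUnion]
      exact ⟨r g, Finset.mem_univ _, ha⟩
    exact hall (localGaloisToGlobal p ρ).toRingEquiv hσζ a haTT
  · show Q (r g) = Q (r g')
    rw [hr2 g g' h]

end Fermat.Agent.ML
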