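/-
PROJECT ML (S59) — helper8 — **[GDESC] at `p = 3`, abstract part: Galois descent of cubes.**

`H` a finite group of automorphisms of a field `E` (char `≠ 3`), `ζ ∈ E^H` a primitive ninth root
of unity (`ζ³ = ω`), `γ ∈ E^×` with `τ γ = ω γ` for some `τ ∈ H`, `σ γ ∈ μ₃ γ` for all `σ ∈ H`, and
the stabiliser `N` of `γ` of exponent `2`.  If the class of `g ∈ E^×` modulo cubes is
`H`-invariant then `g = f · γ ^ b · k ^ 3` with `f ∈ (E^H)^×`, `b < 3`
(`exists_eq_mul_pow_mul_cube_of_invariant`).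

Proof: norm over `N` (`|N|` prime to `3` by Cauchy), then the cyclic cubic step by an explicit
Lagrange resolvent (`exists_resolvent_of_norm_eq_one`, test elements `1, γ, γ²`), the obstruction
in `μ₃` being killed by a power of `γ`.
-/
import Mathlib

set_option autoImplicit false
set_option linter.style.haveILetI false

namespace Fermat.Agent.ML

section GDescAbs

variable {E : Type*} [Field E] {H : Type*} [Group H] [MulSemiringAction H E]

/-- the norm over a finite subgroup. -/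
noncomputable def gdNorm (N : Subgroup H) [Fintype N] (x : E) : E := ∏ σ : N, (σ : H) • x

theorem gdNorm_mul (N : Subgroup H) [Fintype N] (x y : E) :
    gdNorm N (x * y) = gdNorm N x * gdNorm N y := by
  simp only [gdNorm, smul_mul', Finset.prod_mul_distrib]

theorem gdNorm_pow (N : Subgroup H) [Fintype N] (x : E) (k : ℕ) :
    gdNorm N (x ^ k) = gdNorm N x ^ k := by
  simp only [gdNorm, smul_pow', Finset.prod_pow]

theorem gdNorm_ne_zero (N : Subgroup H) [Fintype N] {x : E} (hx : x ≠ 0) : gdNorm N x ≠ 0 := by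
  unfold gdNorm
  rw [Finset.prod_ne_zero_iff]
  intro σ _
  exact (smul_ne_zero_iff_ne _).2 hx

theorem smul_gdNorm_of_mem (N : Subgroup H) [Fintype N] {n : H} (hn : n ∈ N) (x : E) :
    n • gdNorm N x = gdNorm N x := by
  unfold gdNorm
  rw [Finset.smul_prod']
  simp_rw [smul_smul]
  exact Fintype.prod_equiv (Equiv.mulLeft (⟨n, hn⟩ : N)) _ _ (fun σ => rfl)

theorem smul_gdNorm_of_normal (N : Subgroup H) [Fintype N] [hN : N.Normal] (τ : H) (x : E) :
    τ • gdNorm N x = gdNorm N (τ • x) := by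
  unfold gdNorm
  rw [Finset.smul_prod']
  refine Fintype.prod_equiv (MulAut.conjNormal τ : N ≃* N).toEquiv _ _ (fun σ => ?_)
  rw [smul_smul, smul_smul]
  congr 1
  show τ * (σ : H) = ((MulAut.conjNormal τ σ : N) : H) * τ
  rw [MulAut.conjNormal_apply]
  group



/-- explicit Hilbert 90 for a "cyclic cubic" situation with a Kummer generator `γ`. -/
theorem exists_resolvent_of_norm_eq_one (h3 : (3 : E) ≠ 0) {ω γ : E} (hω : ω ^ 2 + ω + 1 = 0)
    (hγ0 : γ ≠ 0) {τ : H} (hτω : τ • ω = ω) (hτ : τ • γ = ω * γ) {y : E}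
    (hy : y * τ • y * τ • τ • y = 1) :
    ∃ (i : ℕ) (m : E), i < 3 ∧ m ≠ 0 ∧
      m = γ ^ i * (1 + y * ω ^ i + y * τ • y * ω ^ (2 * i)) ∧ y * τ • m = m := by
  have hω3 : ω ^ 3 = 1 := by linear_combination (ω - 1) * hω
  have hsum : (1 + y * ω ^ 0 + y * τ • y * ω ^ (2 * 0)) + (1 + y * ω ^ 1 + y * τ • y * ω ^ (2 * 1)) +
      (1 + y * ω ^ 2 + y * τ • y * ω ^ (2 * 2)) = 3 := by
    have h4 : ω ^ 4 = ω := by linear_combination ω * hω3
    simp only [pow_zero, pow_one, mul_zero, mul_one, Nat.reduceMul, h4]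
    linear_combination (y + y * τ • y) * hω
  have hex : ∃ i : ℕ, i < 3 ∧ (1 + y * ω ^ i + y * τ • y * ω ^ (2 * i)) ≠ 0 := by
    by_contra hcon
    push Not at hcon
    rw [hcon 0 (by norm_num), hcon 1 (by norm_num), hcon 2 (by norm_num)] at hsum
    apply h3
    rw [← hsum]
    ring
  obtain ⟨i, hi3, hi⟩ := hex
  refine ⟨i, _, hi3, mul_ne_zero (pow_ne_zero i hγ0) hi, rfl, ?_⟩
  have hω3i : ω ^ (3 * i) = 1 := by rw [pow_mul, hω3, one_pow]
  simp only [smul_mul', smul_add, smul_pow', smul_one, hτ, hτω]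
  have e1 : ω ^ i * ω ^ i * ω ^ i = 1 := by rw [← pow_add, ← pow_add, ← hω3i]; congr 1; ring
  have e2 : ω ^ (2 * i) = ω ^ i * ω ^ i := by rw [two_mul, pow_add]
  rw [mul_pow, e2]
  linear_combination γ ^ i * hy * (ω ^ i * ω ^ i * ω ^ i) + γ ^ i * (e1)
  
/-- **abstract Galois descent of cubes**: `H` a finite group of automorphisms of a field `E`
containing the ninth roots of unity in its fixed field, `γ` a Kummer element of degree `3`
(`τ γ = ω γ`) whose stabiliser has exponent `2`.  An element `g` whose class modulo cubes is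
`H`-invariant is an `H`-invariant element times a power of `γ` times a cube. -/
theorem exists_eq_mul_pow_mul_cube_of_invariant [Finite H] (h3 : (3 : E) ≠ 0)
    {ω ζ γ : E} (hω : ω ^ 2 + ω + 1 = 0) (hζ : ζ ^ 3 = ω) (hζfix : ∀ σ : H, σ • ζ = ζ)
    (hγ0 : γ ≠ 0) (hγ : ∀ σ : H, ∃ i : ℕ, σ • γ = ω ^ i * γ)
    {τ : H} (hτ : τ • γ = ω * γ)
    (hstab : ∀ σ : H, σ • γ = γ → σ * σ = 1)
    {g : E} (hg0 : g ≠ 0) (hg : ∀ σ : H, ∃ h : E, h ≠ 0 ∧ σ • g = g * h ^ 3) :
    ∃ (b : ℕ) (f k : E), b < 3 ∧ f ≠ 0 ∧ k ≠ 0 ∧ (∀ σ : H, σ • f = f) ∧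
      g = f * γ ^ b * k ^ 3 := by
  classical
  haveI : Fintype H := Fintype.ofFinite H
  have hω3 : ω ^ 3 = 1 := by linear_combination (ω - 1) * hω
  have hω0 : ω ≠ 0 := by
    intro h0
    rw [h0] at hω3
    simp at hω3
  have hωfix : ∀ σ : H, σ • ω = ω := fun σ => by rw [← hζ, smul_pow', hζfix]
  -- the stabiliser of `γ`
  set N : Subgroup H := MulAction.stabilizer H γ with hNdef
  have hmemN : ∀ σ : H, σ ∈ N ↔ σ • γ = γ := fun σ => MulAction.mem_stabilizer_iff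
  haveI hNn : N.Normal := by
    constructor
    intro n hn ρ
    rw [hmemN] at hn ⊢
    obtain ⟨i, hi⟩ := hγ ρ⁻¹
    rw [mul_smul, mul_smul, hi, smul_mul', smul_pow', hωfix, hn, ← hi, smul_inv_smul]
  -- its order is prime to `3`
  have hcop : Nat.Coprime (Fintype.card N) 3 := by
    rw [Nat.coprime_comm, Nat.Prime.coprime_iff_not_dvd Nat.prime_three]
    intro hdvd
    haveI : Fact (Nat.Prime 3) := ⟨Nat.prime_three⟩
    obtain ⟨x, hx⟩ := exists_prime_orderOf_dvd_card 3 hdvd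
    have hx2 : x * x = 1 := Subtype.ext (hstab x ((hmemN x).1 x.2))
    have h2 : orderOf x ∣ 2 := orderOf_dvd_of_pow_eq_one (by rw [pow_two]; exact hx2)
    rw [hx] at h2
    omega
  choose h hh0 hh using hg
  -- the norm of `g`
  set g₁ : E := gdNorm N g with hg₁def
  set P : E := ∏ σ : N, h (σ : H) with hPdef
  have hP0 : P ≠ 0 := Finset.prod_ne_zero_iff.2 (fun σ _ => hh0 _)
  have hg₁ : g₁ = g ^ Fintype.card N * P ^ 3 := by
    rw [hg₁def, gdNorm, hPdef]
    simp_rw [hh]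
    rw [Finset.prod_mul_distrib, Finset.prod_const, Finset.prod_pow, Finset.card_univ]
  have hg₁0 : g₁ ≠ 0 := gdNorm_ne_zero N hg0
  set h' : E := gdNorm N (h τ) with hh'def
  have hh'0 : h' ≠ 0 := gdNorm_ne_zero N (hh0 τ)
  have hτg₁ : τ • g₁ = g₁ * h' ^ 3 := by
    rw [hg₁def, smul_gdNorm_of_normal, hh τ, gdNorm_mul, gdNorm_pow]
  -- `N`-invariants
  have hfixτ : ∀ x : E, (∀ n ∈ N, n • x = x) → ∀ n ∈ N, n • τ • x = τ • x := by
    intro x hx n hn
    have h1 : τ⁻¹ * n * τ ∈ N := by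
      have := hNn.conj_mem n hn τ⁻¹
      rwa [inv_inv] at this
    have h2 : n * τ = τ * (τ⁻¹ * n * τ) := by group
    rw [smul_smul, h2, mul_smul, hx _ h1]
  have hfixg₁ : ∀ n ∈ N, n • g₁ = g₁ := fun n hn => smul_gdNorm_of_mem N hn g
  have hfixh' : ∀ n ∈ N, n • h' = h' := fun n hn => smul_gdNorm_of_mem N hn (h τ)
  have hfixγ : ∀ n ∈ N, n • γ = γ := fun n hn => (hmemN n).1 hn
  -- `τ ^ 3 ∈ N`
  have hτ3 : τ * τ * τ ∈ N := by
    have a2 : τ • τ • γ = ω * (ω * γ) := by rw [hτ, smul_mul', hωfix, hτ]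
    have a3 : τ • τ • τ • γ = ω * (ω * (ω * γ)) := by
      rw [a2, smul_mul', hωfix, smul_mul', hωfix, hτ]
    rw [hmemN, mul_smul, mul_smul, a3]
    linear_combination γ * hω3
  -- the obstruction
  set e : E := h' * τ • h' * τ • τ • h' with hedef
  have he3 : e ^ 3 = 1 := by
    have h1 : (τ * τ * τ) • g₁ = g₁ := hfixg₁ _ hτ3
    have b2 : τ • τ • g₁ = g₁ * h' ^ 3 * (τ • h') ^ 3 := by
      rw [hτg₁, smul_mul', smul_pow', hτg₁]
    have b3 : τ • τ • τ • g₁ = g₁ * h' ^ 3 * (τ • h') ^ 3 * (τ • τ • h') ^ 3 := by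
      rw [b2, smul_mul', smul_mul', smul_pow', smul_pow', hτg₁]
    rw [mul_smul, mul_smul, b3] at h1
    have h2 : g₁ * e ^ 3 = g₁ * 1 := by
      rw [mul_one, hedef]
      linear_combination h1
    exact mul_left_cancel₀ hg₁0 h2
  have he : ∃ b : ℕ, b < 3 ∧ ω ^ b * e = 1 := by
    have h1 : (e - 1) * ((e - ω) * (e - ω ^ 2)) = 0 := by
      linear_combination he3 - (e ^ 2 - e * ω) * hω - hω3
    rcases mul_eq_zero.1 h1 with h1 | h1
    · exact ⟨0, by norm_num, by rw [pow_zero, one_mul]; exact sub_eq_zero.1 h1⟩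
    rcases mul_eq_zero.1 h1 with h1 | h1
    · refine ⟨2, by norm_num, ?_⟩
      rw [sub_eq_zero.1 h1, ← pow_succ, hω3]
    · refine ⟨1, by norm_num, ?_⟩
      rw [sub_eq_zero.1 h1, pow_one, ← pow_succ', hω3]
  obtain ⟨b, hb3, hbe⟩ := he
  -- the corrected cocycle
  set y : E := ζ ^ b * h' with hydef
  have hτy : τ • y = ζ ^ b * τ • h' := by rw [hydef, smul_mul', smul_pow', hζfix]
  have hττy : τ • τ • y = ζ ^ b * τ • τ • h' := by rw [hτy, smul_mul', smul_pow', hζfix]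
  have hy1 : y * τ • y * τ • τ • y = 1 := by
    rw [hττy, hτy, hydef, ← hbe, hedef, ← hζ]
    ring
  have hfixy : ∀ n ∈ N, n • y = y := by
    intro n hn
    rw [hydef, smul_mul', smul_pow', hζfix, hfixh' n hn]
  obtain ⟨i, m, hi3, hm0, hm, hym⟩ := exists_resolvent_of_norm_eq_one h3 hω hγ0 (hωfix τ) hτ hy1
  have hfixm : ∀ n ∈ N, n • m = m := by
    intro n hn
    rw [hm]
    simp only [smul_mul', smul_add, smul_pow', smul_one, hfixγ n hn, hωfix, hfixy n hn,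
      hfixτ y hfixy n hn]
  -- the invariant element
  set f : E := g₁ * γ ^ b * m ^ 3 with hfdef
  have hf0 : f ≠ 0 := mul_ne_zero (mul_ne_zero hg₁0 (pow_ne_zero b hγ0)) (pow_ne_zero 3 hm0)
  have hτf : τ • f = f := by
    rw [hfdef, smul_mul', smul_mul', smul_pow', smul_pow', hτg₁, hτ]
    have h1 : (τ • m) ^ 3 * y ^ 3 = m ^ 3 := by rw [← mul_pow, mul_comm, hym]
    have h2 : y ^ 3 = ω ^ b * h' ^ 3 := by rw [hydef, mul_pow, ← pow_mul, mul_comm b 3, pow_mul, hζ]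
    rw [← h1, h2]
    ring
  have hNf : ∀ n ∈ N, n • f = f := by
    intro n hn
    rw [hfdef, smul_mul', smul_mul', smul_pow', smul_pow', hfixg₁ n hn, hfixγ n hn, hfixm n hn]
  have hτpow : ∀ k : ℕ, (τ ^ k) • f = f := by
    intro k
    induction k with
    | zero => rw [pow_zero, one_smul]
    | succ k ih => rw [pow_succ, mul_smul, hτf, ih]
  have hτpowγ : ∀ k : ℕ, (τ ^ k) • γ = ω ^ k * γ := by
    intro k
    induction k with
    | zero => rw [pow_zero, one_smul, pow_zero, one_mul]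
    | succ k ih => rw [pow_succ, mul_smul, hτ, smul_mul', hωfix, ih, pow_succ]; ring
  have hHf : ∀ σ : H, σ • f = f := by
    intro σ
    obtain ⟨k, hk⟩ := hγ σ
    have h1 : (τ ^ k)⁻¹ * σ ∈ N := by
      rw [hmemN, mul_smul, hk, ← hτpowγ k, inv_smul_smul]
    have h2 : σ = τ ^ k * ((τ ^ k)⁻¹ * σ) := by group
    rw [h2, mul_smul, hNf _ h1, hτpow]
  -- conclusion
  have key : g ^ Fintype.card N * (P * m) ^ 3 * γ ^ b = f := by
    rw [hfdef, hg₁]
    ring
  obtain ⟨a, d, had⟩ : ∃ a d : ℕ, a * Fintype.card N = 1 + 3 * d := by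
    have hc := hcop
    have h1 : Fintype.card N % 3 = 1 ∨ Fintype.card N % 3 = 2 := by
      have : ¬ 3 ∣ Fintype.card N := by
        rw [← Nat.Prime.coprime_iff_not_dvd Nat.prime_three]
        exact hc.symm
      omega
    rcases h1 with h1 | h1
    · exact ⟨1, Fintype.card N / 3, by omega⟩
    · exact ⟨2, (2 * Fintype.card N) / 3, by omega⟩
  -- `g = g ^ (a c) / g ^ (3 d)`
  have hPm0 : P * m ≠ 0 := mul_ne_zero hP0 hm0
  have key2 : g ^ (1 + 3 * d) * ((P * m) ^ a) ^ 3 * γ ^ (a * b) = f ^ a := by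
    rw [← key, ← had]
    ring
  -- `γ ^ (- a b) = γ ^ b' * cube`
  obtain ⟨b', c', hb', hbc⟩ : ∃ b' c' : ℕ, b' < 3 ∧ a * b + b' = 3 * c' := by
    refine ⟨(3 - (a * b) % 3) % 3, (a * b + (3 - (a * b) % 3) % 3) / 3, Nat.mod_lt _ (by norm_num), ?_⟩
    omega
  refine ⟨b', f ^ a, (g ^ d * (P * m) ^ a * γ ^ c')⁻¹, hb', pow_ne_zero a hf0, ?_, ?_, ?_⟩
  · exact inv_ne_zero (mul_ne_zero (mul_ne_zero (pow_ne_zero d hg0) (pow_ne_zero a hPm0))
      (pow_ne_zero c' hγ0))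
  · intro σ
    rw [smul_pow', hHf]
  · rw [← key2, inv_pow]
    have hne : (g ^ d * (P * m) ^ a * γ ^ c') ^ 3 ≠ 0 :=
      pow_ne_zero 3 (mul_ne_zero (mul_ne_zero (pow_ne_zero d hg0) (pow_ne_zero a hPm0))
        (pow_ne_zero c' hγ0))
    rw [eq_mul_inv_iff_mul_eq₀ hne]
    have h5 : γ ^ (a * b) * γ ^ b' = (γ ^ c') ^ 3 := by rw [← pow_add, hbc, mul_comm 3 c', pow_mul]
    calc g * (g ^ d * (P * m) ^ a * γ ^ c') ^ 3
        = g ^ (1 + 3 * d) * ((P * m) ^ a) ^ 3 * (γ ^ c') ^ 3 := by ring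
      _ = g ^ (1 + 3 * d) * ((P * m) ^ a) ^ 3 * γ ^ (a * b) * γ ^ b' := by rw [← h5]; ring

end GDescAbs

end Fermat.Agent.ML
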