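/-
PROJECT ML (S59) — helper8 — **[GDESC] at `p = 3`: Galois descent of cubes through the Hesse
cover** (`hesGalDescentStatement_of_one : HesGalDescentStatement`, literal of `ML/IFACE_helper6_Maz23`).

`L = keyFq Ω M`, `E = hesE Ω M`, `φ = fullToHesE Ω M`, `H = fixingAlong φ` (finite, `E^H = φ L`).
`γ = hesG t` (`27 γ³ = φ j`, simple pole in `x`), the twist `x ↦ ω x` moves `γ`, the stabiliser of
`γ` has exponent `2`.  The abstract descent (`ML/GDESC_helper8_Abs`) gives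
`g = φ f · γ ^ b · k ^ 3`, `b < 3`; comparing the orders in `x` gives `b = 0`.
-/
import Mathlib
import Fermat.Agent.ML.GDESC_helper8_Abs
import Fermat.Agent.ML.HES3_helper8_Host
import Fermat.Agent.ML.IFACE_helper6_Maz23
import Fermat.Agent.FG.EGAL_helper6_PullHes

set_option autoImplicit false
set_option linter.unusedSectionVars false
set_option linter.unusedVariables false
set_option linter.style.haveILetI false
set_option synthInstance.maxHeartbeats 400000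

open IntermediateField AlgebraicCurve ModularCurve Polynomial

noncomputable section

namespace Fermat.Agent.ML

open Fermat.Agent.JA Fermat.Agent.SS Fermat.Agent.FG Fermat.Agent.Igusa Fermat.Agent.FF
open scoped Fermat.Agent.JA.Host

local notation "Ω" => AlgebraicClosure ℚ

section TwistAlg

variable (K : Type*) [Field K] [Algebra ℚ K] (N : ℕ) [NeZero N]

/-- the twist on the Hesse host as a `K`-algebra automorphism. -/
def hostHesTwistAlg {ω : K} (hω : ω ^ 2 + ω + 1 = 0) {ξ : Kˣ} (hξ : ξ ^ 3 = 1) :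
    ↥(hesE K N) ≃ₐ[K] ↥(hesE K N) :=
  AlgEquiv.ofRingEquiv (f := hostHesTwist K N hω hξ) (fun c => Subtype.ext (by
    rw [coe_hostHesTwist]
    exact (hesTwist K ξ).commutes c))

theorem coe_hostHesTwistAlg {ω : K} (hω : ω ^ 2 + ω + 1 = 0) {ξ : Kˣ} (hξ : ξ ^ 3 = 1)
    (x : ↥(hesE K N)) :
    ((hostHesTwistAlg K N hω hξ x : ↥(hesE K N)) : LaurentSeries K) = hesTwist K ξ x := rfl

theorem hostHesTwistAlg_mem_fixingAlong {ω : K} (hω : ω ^ 2 + ω + 1 = 0) {ξ : Kˣ}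
    (hξ : ξ ^ 3 = 1) : hostHesTwistAlg K N hω hξ ∈ fixingAlong (fullToHesE K N) := fun f =>
  hostHesTwist_fullToHesE K N hω hξ f

theorem hostHesTwistAlg_hesG_ne {ω : K} (hω : ω ^ 2 + ω + 1 = 0) {ξ : Kˣ} (hξ : ξ ^ 3 = 1)
    (hξ1 : ξ ≠ 1) : hostHesTwistAlg K N hω hξ (hesG (hesTE K N)) ≠ hesG (hesTE K N) := by
  intro h
  have h1 := congrArg (Subtype.val : ↥(hesE K N) → LaurentSeries K) h
  rw [coe_hostHesTwistAlg, coe_hesG_hesTE] at h1
  exact hesTwist_hesG_ne K hξ1 h1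

end TwistAlg

section Main

variable (M : ℕ) [NeZero M]

/-- the automorphism group of the Hesse cover is finite. -/
theorem finite_fixingAlong_fullToHesE : Finite ↥(fixingAlong (fullToHesE Ω M)) := by
  letI := algebraAlong (fullToHesE Ω M)
  haveI : Module.Finite ↥(keyFq Ω M) ↥(hesE Ω M) := finiteAlong_fullToHesE M
  refine Finite.of_injective (fixingAlongToAlgEquiv (fullToHesE Ω M)) (fun a b hab => ?_)
  apply Subtype.ext
  refine AlgEquiv.ext (fun y => ?_)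
  have h1 := congrArg (fun f : ↥(hesE Ω M) ≃ₐ[↥(keyFq Ω M)] ↥(hesE Ω M) => f y) hab
  exact h1

theorem fixingAlong_smul_def (σ : ↥(fixingAlong (fullToHesE Ω M))) (x : ↥(hesE Ω M)) :
    σ • x = (σ : ↥(hesE Ω M) ≃ₐ[Ω] ↥(hesE Ω M)) x := rfl

/-- the stabiliser of `γ` in the automorphism group of the Hesse cover has exponent `2`. -/
theorem fixingAlong_sq_eq_one_of_apply_hesG {ω : Ω} (hω : ω ^ 2 + ω + 1 = 0)
    {σ : ↥(hesE Ω M) ≃ₐ[Ω] ↥(hesE Ω M)} (hσ : σ ∈ fixingAlong (fullToHesE Ω M))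
    (hfix : σ (hesG (hesTE Ω M)) = hesG (hesTE Ω M)) : σ * σ = 1 := by
  haveI : CharZero ↥(hesE Ω M) :=
    charZero_of_injective_algebraMap (algebraMap Ω ↥(hesE Ω M)).injective
  have h3 : (3 : ↥(hesE Ω M)) ≠ 0 := by norm_num
  set w : ↥(hesE Ω M) := algebraMap Ω ↥(hesE Ω M) ω with hwdef
  have hw : w ^ 2 + w + 1 = 0 := by
    rw [hwdef, ← map_pow, ← map_add, ← map_one (algebraMap Ω ↥(hesE Ω M)), ← map_add, hω, map_zero]
  have hw3 : w ^ 3 = 1 := by linear_combination (w - 1) * hw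
  have hw23 : (w ^ 2) ^ 3 = 1 := by rw [← pow_mul, mul_comm, pow_mul, hw3, one_pow]
  have hgw : σ w = w := σ.commutes ω
  have hgw2 : σ (w ^ 2) = w ^ 2 := by rw [map_pow, hgw]
  set t : ↥(hesE Ω M) := hesTE Ω M with htdef
  have ht3 : t ^ 3 - 1 ≠ 0 := hesTE_cube_sub_one_ne_zero M
  have hgt3 : (σ t) ^ 3 - 1 ≠ 0 := by
    intro h0
    apply ht3
    have : σ (t ^ 3 - 1) = 0 := by rw [map_sub, map_pow, map_one, h0]
    exact (map_eq_zero σ).mp this
  have hgt : σ (σ t) = t := by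
    have e1 : hesG (σ t) = hesG t := by rw [← map_hesG, hfix]
    rcases hesG_fibre w hw t (σ t) ht3 hgt3 e1 with e | e | e | e
    · rw [e, e]
    · have hε : (1 : ↥(hesE Ω M)) ^ 3 = 1 := one_pow 3
      exact HesRel.unique hε h3 (e.map σ (map_one σ)) e.symm
    · exact HesRel.unique hw3 h3 (e.map σ hgw) e.symm
    · exact HesRel.unique hw23 h3 (e.map σ hgw2) e.symm
  exact hesE_eq_one_of_apply_hesTE M (mul_mem hσ hσ) hgt

/-- **[GDESC]**, with `d = 1`. -/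
theorem hesGalDescent_one (g : ↥(hesE Ω M)) (hg0 : g ≠ 0)
    (hinv : ∀ σ ∈ fixingAlong (fullToHesE Ω M), ∃ (c : Ω) (h : ↥(hesE Ω M)), c ≠ 0 ∧ h ≠ 0 ∧
      σ g = algebraMap Ω ↥(hesE Ω M) c * g * h ^ 3)
    (hord : (3 : ℤ) ∣ ((g : ↥(hesE Ω M)) : LaurentSeries Ω).order) :
    ∃ (f : ↥(keyFq Ω M)) (k : ↥(hesE Ω M)), f ≠ 0 ∧ k ≠ 0 ∧ g = fullToHesE Ω M f * k ^ 3 := by
  classical
  haveI : CharZero ↥(hesE Ω M) :=
    charZero_of_injective_algebraMap (algebraMap Ω ↥(hesE Ω M)).injective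
  have h3 : (3 : ↥(hesE Ω M)) ≠ 0 := by norm_num
  haveI : Finite ↥(fixingAlong (fullToHesE Ω M)) := finite_fixingAlong_fullToHesE M
  obtain ⟨ω, hω⟩ := exists_omega_bar
  obtain ⟨ζ, hζ⟩ := IsAlgClosed.exists_pow_nat_eq ω (by norm_num : 0 < 3)
  have hω3 : ω ^ 3 = 1 := by linear_combination (ω - 1) * hω
  have hω1 : ω ≠ 1 := by
    intro h1
    rw [h1] at hω
    norm_num at hω
  set w : ↥(hesE Ω M) := algebraMap Ω ↥(hesE Ω M) ω with hwdef
  set z : ↥(hesE Ω M) := algebraMap Ω ↥(hesE Ω M) ζ with hzdef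
  have hw : w ^ 2 + w + 1 = 0 := by
    rw [hwdef, ← map_pow, ← map_add, ← map_one (algebraMap Ω ↥(hesE Ω M)), ← map_add, hω, map_zero]
  have hw3 : w ^ 3 = 1 := by linear_combination (w - 1) * hw
  have hz : z ^ 3 = w := by rw [hzdef, ← map_pow, hζ]
  have hzfix : ∀ σ : ↥(fixingAlong (fullToHesE Ω M)), σ • z = z := fun σ =>
    (σ : ↥(hesE Ω M) ≃ₐ[Ω] ↥(hesE Ω M)).commutes ζ
  -- `γ`
  set γ : ↥(hesE Ω M) := hesG (hesTE Ω M) with hγdef
  have hγord : ((γ : ↥(hesE Ω M)) : LaurentSeries Ω).order = -1 := by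
    rw [hγdef, coe_hesG_hesTE]
    exact order_hesG_hesT Ω
  have hγ0 : γ ≠ 0 := by
    intro h0
    rw [h0] at hγord
    simp at hγord
  have ht3 : hesTE Ω M ^ 3 - 1 ≠ 0 := hesTE_cube_sub_one_ne_zero M
  have hγ3 : 27 * γ ^ 3 = hesJE Ω M := by
    rw [hγdef, hesG, div_pow, mul_div_assoc', div_eq_iff (pow_ne_zero 3 ht3)]
    linear_combination -(hesTE_rel M)
  have hγσ3 : ∀ σ : ↥(fixingAlong (fullToHesE Ω M)), (σ • γ) ^ 3 = γ ^ 3 := by
    intro σ
    have h1 := congrArg (σ : ↥(hesE Ω M) ≃ₐ[Ω] ↥(hesE Ω M)) hγ3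
    rw [map_mul, map_pow, map_ofNat, apply_hesJE M σ.2, ← hγ3] at h1
    have h27 : (27 : ↥(hesE Ω M)) ≠ 0 := by norm_num
    exact mul_left_cancel₀ h27 h1
  have hγσ : ∀ σ : ↥(fixingAlong (fullToHesE Ω M)), ∃ i : ℕ, σ • γ = w ^ i * γ := by
    intro σ
    rcases hesA4_eq_or_of_cube_eq w hw (hγσ3 σ) with e | e | e
    · exact ⟨0, by rw [e, pow_zero, one_mul]⟩
    · exact ⟨1, by rw [e, pow_one]⟩
    · exact ⟨2, e⟩
  -- the twist
  set ξ : Ωˣ := Units.mk0 ω (by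
    intro h0
    rw [h0] at hω3
    simp at hω3) with hξdef
  have hξ3 : ξ ^ 3 = 1 := Units.ext (by rw [Units.val_pow_eq_pow_val, Units.val_mk0, hω3]; rfl)
  have hξ1 : ξ ≠ 1 := fun h => hω1 (by
    have := congrArg Units.val h
    rwa [Units.val_mk0, Units.val_one] at this)
  set τ₀ : ↥(fixingAlong (fullToHesE Ω M)) :=
    ⟨hostHesTwistAlg Ω M hω hξ3, hostHesTwistAlg_mem_fixingAlong Ω M hω hξ3⟩ with hτ₀def
  have hτ₀ne : τ₀ • γ ≠ γ := hostHesTwistAlg_hesG_ne Ω M hω hξ3 hξ1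
  obtain ⟨τ, hτ⟩ : ∃ τ : ↥(fixingAlong (fullToHesE Ω M)), τ • γ = w * γ := by
    rcases hesA4_eq_or_of_cube_eq w hw (hγσ3 τ₀) with e | e | e
    · exact absurd e hτ₀ne
    · exact ⟨τ₀, e⟩
    · refine ⟨τ₀ * τ₀, ?_⟩
      have hτw : τ₀ • w = w := (τ₀ : ↥(hesE Ω M) ≃ₐ[Ω] ↥(hesE Ω M)).commutes ω
      rw [mul_smul, e, smul_mul', smul_pow', hτw, e]
      linear_combination (w * γ) * hw3
  have hstab : ∀ σ : ↥(fixingAlong (fullToHesE Ω M)), σ • γ = γ → σ * σ = 1 := by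
    intro σ hσ
    apply Subtype.ext
    exact fixingAlong_sq_eq_one_of_apply_hesG M hω σ.2 hσ
  -- absorb the constants
  have hg' : ∀ σ : ↥(fixingAlong (fullToHesE Ω M)), ∃ h : ↥(hesE Ω M), h ≠ 0 ∧
      σ • g = g * h ^ 3 := by
    intro σ
    obtain ⟨c, h, hc0, hh0, hh⟩ := hinv σ σ.2
    obtain ⟨d, hd⟩ := IsAlgClosed.exists_pow_nat_eq c (by norm_num : 0 < 3)
    have hd0 : d ≠ 0 := by
      intro h0
      rw [h0] at hd
      exact hc0 (by rw [← hd]; simp)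
    refine ⟨algebraMap Ω ↥(hesE Ω M) d * h, mul_ne_zero ?_ hh0, ?_⟩
    · exact (_root_.map_ne_zero _).2 hd0
    · rw [fixingAlong_smul_def, hh, mul_pow, ← map_pow, hd]
      ring
  obtain ⟨b, f, k, hb3, hf0, hk0, hfix, hgfk⟩ :=
    exists_eq_mul_pow_mul_cube_of_invariant h3 hw hz hzfix hγ0 hγσ hτ hstab hg0 hg'
  obtain ⟨f', rfl⟩ := hesE_mem_range_of_fixed M f (fun h hh => hfix ⟨h, hh⟩)
  have hf'0 : f' ≠ 0 := by
    intro h0
    rw [h0, map_zero] at hf0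
    exact hf0 rfl
  -- `b = 0` by comparing orders
  have hb0 : b = 0 := by
    have h1 : ((g : ↥(hesE Ω M)) : LaurentSeries Ω).order =
        (((fullToHesE Ω M f' * γ ^ b * k ^ 3 : ↥(hesE Ω M)) : ↥(hesE Ω M)) : LaurentSeries Ω).order := by
      rw [← hgfk]
    have c1 : ((fullToHesE Ω M f' : ↥(hesE Ω M)) : LaurentSeries Ω) ≠ 0 := fun h => hf0 (Subtype.ext h)
    have c2 : ((γ : ↥(hesE Ω M)) : LaurentSeries Ω) ≠ 0 := fun h => hγ0 (Subtype.ext h)
    have c3 : ((k : ↥(hesE Ω M)) : LaurentSeries Ω) ≠ 0 := fun h => hk0 (Subtype.ext h)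
    have e1 : (((fullToHesE Ω M f' * γ ^ b * k ^ 3 : ↥(hesE Ω M)) : ↥(hesE Ω M)) : LaurentSeries Ω) =
        ((fullToHesE Ω M f' : ↥(hesE Ω M)) : LaurentSeries Ω) *
          ((γ : ↥(hesE Ω M)) : LaurentSeries Ω) ^ b * ((k : ↥(hesE Ω M)) : LaurentSeries Ω) ^ 3 := by
      push_cast
      rfl
    rw [e1, HahnSeries.order_mul (mul_ne_zero c1 (pow_ne_zero b c2)) (pow_ne_zero 3 c3),
      HahnSeries.order_mul c1 (pow_ne_zero b c2), HahnSeries.order_pow, HahnSeries.order_pow,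
      hγord, coe_fullToHesE, order_qExpand] at h1
    simp only [nsmul_eq_mul] at h1
    push_cast at h1
    obtain ⟨e, he⟩ := hord
    omega
  refine ⟨f', k, hf'0, hk0, ?_⟩
  rw [hgfk, hb0, pow_zero, mul_one]

/-- **[GDESC]** (literal of `ML/IFACE_helper6_Maz23`). -/
theorem hesGalDescentStatement_of_one : HesGalDescentStatement := by
  intro M _ g hg0 hinv hord
  obtain ⟨f, k, hf0, hk0, h⟩ := hesGalDescent_one M g hg0 hinv hord
  exact ⟨1, f, k, Or.inl rfl, hf0, hk0, by rw [pow_one]; exact h⟩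

end Main

end Fermat.Agent.ML
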