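/-
PROJECT ML — [GLUE-L] (helper9), file 1: **from the algebraic Taylor–Wiles chain level
(`AlgChainLevel`: `𝒪`-modules `H i` with commuting diamond operators `gg i q` of order `p ^ n`, free
over the group algebra, with an action of the ring of the local problems commuting with them and
the chain maps) to the `S∞`-modules `TWChainLevel` of the CORE** (through helper4's [SINF]:
`Z_q ↦ (g_q − 1)(g_q + 1)⁻¹`, as in `RB/GLUE_helper9_SInf`).
-/
import Mathlib
import Fermat.Agent.ML.IFACE_helper9_Core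
import Fermat.Agent.RB.GLUE_helper9_SInf

set_option autoImplicit false
set_option linter.unusedSectionVars false
set_option linter.unusedVariables false
set_option linter.style.haveILetI false

namespace Fermat.Agent.ML.GLUE

open MvPowerSeries IsLocalRing Fermat.Agent.RB Fermat.Agent.RB.GLUE

/-- **the algebraic Taylor–Wiles chain level** -/
structure AlgChainLevel {O : Type} [CommRing O] [IsLocalRing O] {m : ℕ} {nv : Fin m → ℕ} {g : ℕ}
    (D : ChainModel O m nv g) (p r : ℕ) (d : Fin (m + 1) → ℕ) (kk : Fin m → ℕ)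
    (M0 : Type) [AddCommGroup M0] [Module O M0] (C0 : Submodule O M0) (K0 : Prop) (n : ℕ) :
    Type 1 where
  H : Fin (m + 1) → Type
  [instAddCommGroup : ∀ i, AddCommGroup (H i)]
  [instModule : ∀ i, Module O (H i)]
  gg : ∀ i, Fin r → Module.End O (H i)
  gg_pow : ∀ i q, gg i q ^ (p ^ n) = 1
  gg_comm : ∀ i q q', Commute (gg i q) (gg i q')
  b : ∀ i, Fin (d i) → H i
  free : ∀ i, Function.Bijective fun c : (Fin (d i) × (Fin r → Fin (p ^ n))) →₀ O =>
    c.sum fun je a =>
      a • (((List.finRange r).map fun q => gg i q ^ ((je.2 q : Fin (p ^ n)) : ℕ)).prod (b i je.1))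
  act : ∀ i, CPS O m nv g →ₐ[O] Module.End O (H i)
  act_comm : ∀ i f q, Commute (act i f) (gg i q)
  kill_rel : ∀ (i : Fin (m + 1)) (j : Fin m), j.val < i.val → ∀ f ∈ D.rel j, act i f = 0
  kill_unr : ∀ (i : Fin (m + 1)) (j : Fin m), i.val ≤ j.val → (i.val = 0 → K0) →
    ∀ f ∈ D.unr j, act i f = 0
  iota : ∀ j : Fin m, Fin (kk j) → (H j.castSucc →ₗ[O] H j.succ)
  iota_g : ∀ (j : Fin m) (c : Fin (kk j)) (q : Fin r) (x : H j.castSucc),
    iota j c (gg j.castSucc q x) = gg j.succ q (iota j c x)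
  iota_act : ∀ (j : Fin m) (c : Fin (kk j)) (f : CPS O m nv g) (x : H j.castSucc),
    iota j c (act j.castSucc f x) = act j.succ f (iota j c x)
  retr : ∀ j : Fin m, Fin (kk j) → (H j.succ →ₗ[O] H j.castSucc)
  retr_g : ∀ (j : Fin m) (c : Fin (kk j)) (q : Fin r) (x : H j.succ),
    retr j c (gg j.succ q x) = gg j.castSucc q (retr j c x)
  retr_iota : ∀ (j : Fin m) (c c' : Fin (kk j)) (x : H j.castSucc),
    retr j c (iota j c' x) = if c = c' then x else 0
  kill_new : ∀ (j : Fin m), ∀ f ∈ D.new j, ∀ x : H j.succ,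
    ∃ y : Fin (kk j) → H j.castSucc, act j.succ f x = ∑ c, iota j c (y c)
  omega : ∀ j : Fin m, H j.succ →ₗ[O] H j.castSucc
  omega_g : ∀ (j : Fin m) (q : Fin r) (x : H j.succ),
    omega j (gg j.succ q x) = gg j.castSucc q (omega j x)
  omega_act : ∀ (j : Fin m) (f : CPS O m nv g) (x : H j.succ),
    omega j (act j.succ f x) = act j.castSucc f (omega j x)
  omega_surjective : ∀ j : Fin m, Function.Surjective (omega j)
  omega_iota : ∀ (j : Fin m) (c : Fin (kk j)) (x : H j.castSucc),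
    ∃ y : H j.castSucc, omega j (iota j c x) = act j.castSucc (D.th j) y
  w : CPS O m nv g →ₐ[O] O ⧸ maximalIdeal O ^ n
  w_st : ∀ j : Fin m, ∀ f ∈ D.st j, w f = 0
  hF : ∀ (i : Fin (m + 1)) (q : Fin r), ∃ G ∈ maximalIdeal (CPS O m nv g), w G = 0 ∧
    act i G * (gg i q + 1) ^ 2 = (gg i q - 1) ^ 2
  ctl : H (Fin.last m) →ₗ[O] M0
  ctl_surjective : Function.Surjective ctl
  ctl_g : ∀ q x, ctl (gg (Fin.last m) q x) = ctl x
  ker_ctl : ∀ x, ctl x = 0 → x ∈ ⨆ q, LinearMap.range (gg (Fin.last m) q - 1)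
  ctl_C : ∀ y ∈ C0, y ∈ Submodule.span O
    {z | ∃ (f : CPS O m nv g) (x : H (Fin.last m)), w f = 0 ∧ z = ctl (act (Fin.last m) f x)}

attribute [instance] AlgChainLevel.instAddCommGroup AlgChainLevel.instModule

section Main

variable {O : Type} [CommRing O] [IsLocalRing O] [IsNoetherianRing O]
  [IsAdicComplete (maximalIdeal O) O] {m : ℕ} {nv : Fin m → ℕ} {g : ℕ}
  {D : ChainModel O m nv g} {p : ℕ} [hp : Fact p.Prime]
  {r : ℕ} {d : Fin (m + 1) → ℕ} {kk : Fin m → ℕ}
  {M0 : Type} [AddCommGroup M0] [Module O M0] {C0 : Submodule O M0} {K0 : Prop} {n : ℕ}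
  (A : AlgChainLevel D p r d kk M0 C0 K0 n)
  (hp2 : p ≠ 2) (hpO : (p : O) ∈ maximalIdeal O)

/-- the control map -/
noncomputable def ctlSC : A.H (Fin.last m) →+ M0 ⧸ (maximalIdeal O ^ n • ⊤ : Submodule O M0) :=
  ((Submodule.mkQ (maximalIdeal O ^ n • ⊤ : Submodule O M0)).comp A.ctl).toAddMonoidHom

theorem ctlSC_apply (x : A.H (Fin.last m)) :
    ctlSC A x = Submodule.mkQ (maximalIdeal O ^ n • ⊤ : Submodule O M0) (A.ctl x) := rfl

theorem ctl_evC (s : SInf O r) (x : A.H (Fin.last m)) :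
    A.ctl (SINF.ev p r n hp2 hpO (A.gg (Fin.last m)) (A.gg_pow _) (A.gg_comm _) s x) =
      constantCoeff s • A.ctl x := by
  have h1 := SINF.ev_natural p r n hp2 hpO (A.gg (Fin.last m)) (A.gg_pow _) (A.gg_comm _)
    (fun _ : Fin r => (1 : Module.End O M0)) (fun _ => one_pow _) (fun _ _ => Commute.one_left _)
    A.ctl (fun q x => by rw [A.ctl_g]; rfl) s x
  rw [h1, SINF.ev_of_trivial p r n hp2 hpO _ _ _ (fun _ => rfl)]
  rfl

theorem ker_ctlSC {lam : O} (hlam : maximalIdeal O = Ideal.span {lam}) (x : A.H (Fin.last m))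
    (hx : ctlSC A x = 0) :
    ∃ (y : A.H (Fin.last m)) (z : Fin r → A.H (Fin.last m)),
      x = SINF.ev p r n hp2 hpO (A.gg (Fin.last m)) (A.gg_pow _) (A.gg_comm _) (C (lam ^ n)) y +
        ∑ q, SINF.ev p r n hp2 hpO (A.gg (Fin.last m)) (A.gg_pow _) (A.gg_comm _) (X q) (z q) := by
  rw [ctlSC_apply, Submodule.mkQ_apply, Submodule.Quotient.mk_eq_zero, hlam,
    Ideal.span_singleton_pow, Submodule.ideal_span_singleton_smul] at hx
  obtain ⟨m', -, hm'⟩ := hx
  obtain ⟨y, rfl⟩ := A.ctl_surjective m'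
  have h1 : A.ctl (x - lam ^ n • y) = 0 := by
    rw [map_sub, map_smul]
    exact sub_eq_zero.2 hm'.symm
  have h2 := A.ker_ctl _ h1
  have h3 : ∀ x' ∈ (⨆ q, LinearMap.range (A.gg (Fin.last m) q - 1)),
      ∃ z : Fin r → A.H (Fin.last m), x' = ∑ q, (A.gg (Fin.last m) q - 1) (z q) := by
    intro x' hx'
    induction hx' using Submodule.iSup_induction' with
    | mem q x' hx' =>
      obtain ⟨y', rfl⟩ := hx'
      classical
      refine ⟨Pi.single q y', ?_⟩
      rw [Finset.sum_eq_single q]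
      · rw [Pi.single_eq_same]
      · intro q' _ hq'
        rw [Pi.single_eq_of_ne hq', map_zero]
      · intro h; exact absurd (Finset.mem_univ q) h
    | zero => exact ⟨0, by simp⟩
    | add x' y' _ _ hx' hy' =>
      obtain ⟨z, rfl⟩ := hx'
      obtain ⟨z', rfl⟩ := hy'
      refine ⟨z + z', ?_⟩
      rw [← Finset.sum_add_distrib]
      refine Finset.sum_congr rfl fun q _ => ?_
      rw [Pi.add_apply, map_add]
  obtain ⟨z, hz⟩ := h3 _ h2
  refine ⟨y, fun q => (A.gg (Fin.last m) q + 1) (z q), ?_⟩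
  rw [ev_C]
  have : ∀ q, SINF.ev p r n hp2 hpO (A.gg (Fin.last m)) (A.gg_pow _) (A.gg_comm _) (X q)
      ((A.gg (Fin.last m) q + 1) (z q)) = (A.gg (Fin.last m) q - 1) (z q) :=
    fun q => ev_X_apply p hp2 hpO r n (A.gg (Fin.last m)) (A.gg_pow _) (A.gg_comm _) q (z q)
  simp only [this]
  rw [← hz]
  abel

theorem ctlSC_C (y : M0 ⧸ (maximalIdeal O ^ n • ⊤ : Submodule O M0))
    (hy : y ∈ Submodule.map (Submodule.mkQ (maximalIdeal O ^ n • ⊤ : Submodule O M0)) C0) :
    y ∈ Submodule.span O {z | ∃ (f : CPS O m nv g) (x : A.H (Fin.last m)),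
      A.w f = 0 ∧ z = ctlSC A (A.act (Fin.last m) f x)} := by
  obtain ⟨c, hc, rfl⟩ := hy
  have h1 := A.ctl_C c hc
  have h2 := Submodule.mem_map_of_mem
    (f := Submodule.mkQ (maximalIdeal O ^ n • ⊤ : Submodule O M0)) h1
  rw [Submodule.map_span] at h2
  refine Submodule.span_mono ?_ h2
  rintro _ ⟨_, ⟨f, x, hf, rfl⟩, rfl⟩
  exact ⟨f, x, hf, rfl⟩

include A hp2 hpO in
/-- **the `S∞`-modules of the CORE from the algebraic Taylor–Wiles chain level.** -/
theorem nonempty_twChainLevel {lam : O} (hlam : maximalIdeal O = Ideal.span {lam}) :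
    Nonempty (TWChainLevel D lam r d kk M0 C0 K0 n) := by
  refine ⟨{
    H := A.H
    instAddCommGroup := inferInstance
    instModule := fun i => sMod p hp2 hpO r n (A.gg i) (A.gg_pow i) (A.gg_comm i)
    act := fun i => actS hp2 hpO (A.gg i) (A.gg_pow i) (A.gg_comm i) (A.act i) (A.act_comm i)
    act_C := ?_
    kill_rel := ?_
    kill_unr := ?_
    J := SINF.J p hp2 hpO r n
    J_le := SINF.J_le p hp2 hpO r n
    b := A.b
    b_span := ?_
    b_rel := ?_
    iota := fun j c => linS hp2 hpO (A.gg j.castSucc) (A.gg_pow _) (A.gg_comm _)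
      (A.gg j.succ) (A.gg_pow _) (A.gg_comm _) (A.iota j c) (A.iota_g j c)
    iota_act := ?_
    retr := fun j c => linS hp2 hpO (A.gg j.succ) (A.gg_pow _) (A.gg_comm _)
      (A.gg j.castSucc) (A.gg_pow _) (A.gg_comm _) (A.retr j c) (A.retr_g j c)
    retr_iota := ?_
    kill_new := ?_
    omega := fun j => linS hp2 hpO (A.gg j.succ) (A.gg_pow _) (A.gg_comm _)
      (A.gg j.castSucc) (A.gg_pow _) (A.gg_comm _) (A.omega j) (A.omega_g j)
    omega_act := ?_
    omega_surjective := ?_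
    omega_iota := ?_
    w := A.w
    w_st := A.w_st
    hF := ?_
    ctl := ctlSC A
    ctl_smul := ?_
    ctl_surjective := ?_
    ker_ctl := ?_
    ctl_C := ?_ }⟩
  · intro i c x
    show A.act i (C c) x = SINF.ev p r n hp2 hpO (A.gg i) (A.gg_pow i) (A.gg_comm i) (C c) x
    rw [ev_C]
    have h1 : (C c : CPS O m nv g) = algebraMap O (CPS O m nv g) c := rfl
    rw [h1, AlgHom.commutes]
    rfl
  · intro i j hj f hf
    letI := sMod p hp2 hpO r n (A.gg i) (A.gg_pow i) (A.gg_comm i)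
    ext x
    show A.act i f x = 0
    rw [A.kill_rel i j hj f hf]; rfl
  · intro i j hj hi f hf
    letI := sMod p hp2 hpO r n (A.gg i) (A.gg_pow i) (A.gg_comm i)
    ext x
    show A.act i f x = 0
    rw [A.kill_unr i j hj hi f hf]; rfl
  · intro i x
    exact SINF.exists_repr p hp2 hpO r n (A.gg i) (A.gg_pow i) (A.gg_comm i) (A.b i) (A.free i) x
  · intro i c
    exact SINF.sum_eq_zero_iff p hp2 hpO r n (A.gg i) (A.gg_pow i) (A.gg_comm i) (A.b i)
      (A.free i) c
  · intro j c f x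
    exact A.iota_act j c f x
  · intro j c c' x
    exact A.retr_iota j c c' x
  · intro j f hf x
    exact A.kill_new j f hf x
  · intro j f x
    exact A.omega_act j f x
  · intro j
    exact A.omega_surjective j
  · intro j c x
    exact A.omega_iota j c x
  · intro i q
    obtain ⟨G, hG, hGw, hGq⟩ := A.hF i q
    refine ⟨G, hG, hGw, fun x => ?_⟩
    exact eq_ev_X_sq p hp2 hpO r n (A.gg i) (A.gg_pow i) (A.gg_comm i) q (A.act i G) hGq x
  · intro s x
    show ctlSC A (SINF.ev p r n hp2 hpO (A.gg (Fin.last m)) (A.gg_pow _) (A.gg_comm _) s x) =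
      constantCoeff s • ctlSC A x
    rw [ctlSC_apply, ctl_evC A hp2 hpO, map_smul]
    rfl
  · intro y
    obtain ⟨m', rfl⟩ := Submodule.mkQ_surjective _ y
    obtain ⟨x, rfl⟩ := A.ctl_surjective m'
    exact ⟨x, rfl⟩
  · intro x hx
    exact ker_ctlSC A hp2 hpO hlam x hx
  · intro y hy
    exact ctlSC_C A y hy

end Main

end Fermat.Agent.ML.GLUE
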