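/-
PROJECT ML — [GLUE-L] (helper9), file 2: **from the Galois side of the Taylor–Wiles construction
(`TWChainGalois`), the charts (E1)–(E5) of [LOC-L] and the generation of the maximal ideal ([SEL-L])
to the algebraic chain level `AlgChainLevel`, hence to the `TWChainLevel` of the CORE.**

`ev = chainEval c y : CPS → T` is surjective; `act i = h i ∘ ev`; `w = (toO ∘ ev) mod λ ^ n`;
`K0 = (pc ≠ chain)`; `C0 = wSubmodule ρ_W M0 tr0`.
-/
import Mathlib
import Fermat.Agent.ML.GLUE_helper9_AlgChain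
import Fermat.Agent.ML.IFACE_helper9_Chart
import Fermat.Agent.RB.GLUE_helper9_Data

set_option autoImplicit false
set_option linter.unusedSectionVars false
set_option linter.unusedVariables false
set_option linter.style.haveILetI false

namespace Fermat.Agent.ML.GLUE

open Polynomial IsLocalRing Fermat.Agent.RB Fermat.Agent.RB.GLUE
open Fermat.Agent.CFT.Arith

local notation "GQ" => (AlgebraicClosure ℚ ≃ₐ[ℚ] AlgebraicClosure ℚ)

variable {𝒪 : Type} [CommRing 𝒪] [IsDomain 𝒪] [IsDiscreteValuationRing 𝒪]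
  [IsAdicComplete (maximalIdeal 𝒪) 𝒪]
  {p : ℕ} [hp : Fact p.Prime]
  {ρW : GaloisRepAdic 𝒪} {ρbar : ResidualGaloisRep (ResidueField 𝒪)} {S : Finset ℕ} {pc : PCase}
  {m : ℕ} {cq : Fin m → ℕ} {sgn : Fin m → 𝒪} {r : ℕ} {d : Fin (m + 1) → ℕ} {kk : Fin m → ℕ}
  {M0 : Type} [AddCommGroup M0] [Module 𝒪 M0] {tr0 : GQ → Module.End 𝒪 M0} {n : ℕ}
  {Q : Fin r → ℕ}
  (L : TWChainGalois p ρW ρbar S pc cq sgn r d kk M0 tr0 n Q)
  {nv : Fin m → ℕ} {g : ℕ} (D : ChainModel 𝒪 m nv g)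
  (c : (Σ j : Fin m, Fin (nv j)) → L.T) (hc : ∀ a, c a ∈ maximalIdeal L.T)
  (y : Fin g → L.T) (hy : ∀ i, y i ∈ maximalIdeal L.T)

/-- the evaluation is surjective if the coordinates generate the maximal ideal -/
theorem chainEval_surjective
    (hgen : maximalIdeal L.T = (maximalIdeal 𝒪).map (algebraMap 𝒪 L.T) ⊔
      (⨆ j : Fin m, Ideal.span (Set.range fun a : Fin (nv j) => c ⟨j, a⟩)) ⊔
        Ideal.span (Set.range y)) :
    Function.Surjective (chainEval (𝒪 := 𝒪) c hc y hy) := by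
  refine Fermat.Agent.TW.algHom_surjective_of_gen L.residue_surjective _ ?_
  have e : (fun t => chainEval (𝒪 := 𝒪) c hc y hy (MvPowerSeries.X t)) = Sum.elim c y := by
    funext t
    exact Fermat.Agent.TW.psLift_X _ _ _ t
  rw [e]
  apply le_antisymm
  · refine sup_le (sup_le ?_ ?_) ?_
    · rw [Ideal.span_le]
      rintro _ ⟨t, rfl⟩
      rcases t with a | i
      · exact hc a
      · exact hy i
    · rw [Ideal.map_le_iff_le_comap]
      intro a ha
      rw [Ideal.mem_comap, mem_maximalIdeal, mem_nonunits_iff]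
      intro hu
      exact (mem_maximalIdeal _).mp ha (isUnit_of_map_unit (algebraMap 𝒪 L.T) a hu)
    · exact Ideal.pow_le_self two_ne_zero
  · rw [hgen]
    refine sup_le (sup_le ?_ ?_) ?_
    · exact le_sup_of_le_left le_sup_right
    · refine iSup_le fun j => ?_
      rw [Ideal.span_le]
      rintro _ ⟨a, rfl⟩
      exact Ideal.mem_sup_left (Ideal.mem_sup_left (Ideal.subset_span ⟨Sum.inl ⟨j, a⟩, rfl⟩))
    · rw [Ideal.span_le]
      rintro _ ⟨i, rfl⟩
      exact Ideal.mem_sup_left (Ideal.mem_sup_left (Ideal.subset_span ⟨Sum.inr i, rfl⟩))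

/-- **(KEY-H) in the form used by the CORE**, from `keyH` and the surjectivity of `CPS → T`; the
element vanishes at the point of `W` because `ρ_W` is unramified at the Taylor–Wiles primes. -/
theorem exists_hF (hp2 : p ≠ 2) (hp𝒪 : (p : 𝒪) ∈ maximalIdeal 𝒪)
    (hunrQ : ∀ q, ρbar.IsUnramifiedAt (Q q)) (hWQ : ∀ q, ρW.IsUnramifiedAt (Q q))
    (hsurj : Function.Surjective (chainEval (𝒪 := 𝒪) c hc y hy)) (i : Fin (m + 1)) (q : Fin r) :
    ∃ G ∈ maximalIdeal (CPS 𝒪 m nv g), L.toO (chainEval (𝒪 := 𝒪) c hc y hy G) = 0 ∧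
      ((L.h i).comp (chainEval (𝒪 := 𝒪) c hc y hy)) G * (L.g i q + 1) ^ 2 =
        (L.g i q - 1) ^ 2 := by
  obtain ⟨Pl, hPl, σ, hσ, hkey⟩ := L.keyH i q
  have hσbar : ρbar.ρ σ = 1 := hunrQ q Pl hPl σ hσ
  set t := L.ρ.trace σ with ht
  -- `t ≡ 2`
  have ht2 : t - 2 ∈ maximalIdeal L.T := by
    rw [← residue_eq_zero_iff, map_sub, sub_eq_zero,
      residue_trace L.ρ _ ρbar L.residual_isEquiv σ, hσbar, LinearMap.trace_one,
      ρbar.finrank_eq]
    simp only [Nat.cast_ofNat, map_ofNat]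
  have h2u : IsUnit (2 : L.T) := by
    have := (isUnit_two_of_odd hp.out hp2 hp𝒪).map (algebraMap 𝒪 L.T)
    rwa [map_ofNat] at this
  have hu : IsUnit (t + 2) := by
    by_contra hnu
    have h1 : t + 2 ∈ maximalIdeal L.T := (mem_maximalIdeal _).2 hnu
    have h4 : (2 : L.T) * 2 ∈ maximalIdeal L.T := by
      have := Ideal.sub_mem _ h1 ht2
      have e : t + 2 - (t - 2) = 2 * 2 := by ring
      rwa [e] at this
    exact (mem_maximalIdeal _).1 h4 (h2u.mul h2u)
  obtain ⟨w, hw⟩ := hu.exists_right_inv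
  have hz : w * (t - 2) ∈ maximalIdeal L.T := Ideal.mul_mem_left _ _ ht2
  obtain ⟨Gq, hGq⟩ := hsurj (w * (t - 2))
  refine ⟨Gq, ?_, ?_, ?_⟩
  · rw [mem_maximalIdeal, mem_nonunits_iff]
    intro hGu
    have := hGu.map (chainEval (𝒪 := 𝒪) c hc y hy)
    rw [hGq] at this
    exact (mem_maximalIdeal _).1 hz this
  · rw [hGq, map_mul, map_sub, ht, L.toO_trace]
    have h1 : ρW.trace σ = 2 := by
      rw [GaloisRepAdic.trace, hWQ q Pl hPl σ hσ, LinearMap.trace_one, ρW.finrank_eq]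
      norm_num
    rw [h1, map_ofNat, sub_self, mul_zero]
  · rw [AlgHom.comp_apply, hGq]
    have hpos : 0 < p ^ n := pow_pos hp.out.pos n
    set gq := L.g i q with hgq
    set gi := gq ^ (p ^ n - 1) with hgi
    have hgi1 : gq * gi = 1 := by
      rw [hgi, ← pow_succ', Nat.sub_add_cancel hpos, L.g_pow]
    have hht : L.h i t = gq + gi := hkey
    have hcm : ∀ t' : L.T, gq * L.h i t' = L.h i t' * gq := fun t' => (L.g_comm_h i q t').eq
    have h2 : L.h i (2 : L.T) = 2 := map_ofNat (L.h i) 2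
    have e1 : (gq + 1) ^ 2 = gq * L.h i (t + 2) := by
      rw [map_add, hht, h2, mul_add, mul_add, hgi1, pow_two, add_mul, mul_add, mul_one, one_mul,
        mul_two]
      abel
    have e2 : (gq - 1) ^ 2 = gq * L.h i (t - 2) := by
      rw [map_sub, hht, h2, mul_sub, mul_add, hgi1, pow_two, sub_mul, mul_sub, mul_one, one_mul,
        mul_two]
      abel
    rw [e1, e2, ← mul_assoc, ← hcm, mul_assoc, ← map_mul]
    congr 2
    calc w * (t - 2) * (t + 2) = ((t + 2) * w) * (t - 2) := by ring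
      _ = t - 2 := by rw [hw, one_mul]

/-- the elements of `T` mapping `H (j + 1)` into the old part form an ideal -/
def oldIdeal (j : Fin m) : Ideal L.T where
  carrier := {a | ∀ x : L.H j.succ, ∃ z : Fin (kk j) → L.H j.castSucc,
    L.h j.succ a x = ∑ c, L.iota j c (z c)}
  add_mem' := by
    intro a b ha hb x
    obtain ⟨z, hz⟩ := ha x
    obtain ⟨z', hz'⟩ := hb x
    refine ⟨z + z', ?_⟩
    rw [map_add, LinearMap.add_apply, hz, hz', ← Finset.sum_add_distrib]
    exact Finset.sum_congr rfl fun c _ => by rw [Pi.add_apply, map_add]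
  zero_mem' := by
    intro x
    refine ⟨0, ?_⟩
    rw [map_zero, LinearMap.zero_apply]
    exact (Finset.sum_eq_zero fun c _ => by rw [Pi.zero_apply, map_zero]).symm
  smul_mem' := by
    intro t a ha x
    obtain ⟨z, hz⟩ := ha x
    refine ⟨fun c => L.h j.castSucc t (z c), ?_⟩
    rw [smul_eq_mul, map_mul, Module.End.mul_apply, hz, map_sum]
    exact Finset.sum_congr rfl fun c _ => (L.iota_h j c t (z c)).symm

theorem mem_oldIdeal (j : Fin m) (a : L.T) :
    a ∈ oldIdeal L j ↔ ∀ x : L.H j.succ, ∃ z : Fin (kk j) → L.H j.castSucc,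
      L.h j.succ a x = ∑ c, L.iota j c (z c) := Iff.rfl

/-- the point of `W` on the ring of the local problems, modulo `λ ^ n` -/
noncomputable def wPoint : CPS 𝒪 m nv g →ₐ[𝒪] 𝒪 ⧸ maximalIdeal 𝒪 ^ n :=
  (Ideal.Quotient.mkₐ 𝒪 (maximalIdeal 𝒪 ^ n)).comp (L.toO.comp (chainEval (𝒪 := 𝒪) c hc y hy))

theorem wPoint_apply (f : CPS 𝒪 m nv g) :
    wPoint L c hc y hy f =
      Ideal.Quotient.mk (maximalIdeal 𝒪 ^ n) (L.toO (chainEval (𝒪 := 𝒪) c hc y hy f)) := rfl

include L in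
/-- **[GLUE-L]**: the Galois side of the Taylor–Wiles construction, with charts and generators,
gives the algebraic chain level. -/
theorem nonempty_algChainLevel (hp2 : p ≠ 2) (hp𝒪 : (p : 𝒪) ∈ maximalIdeal 𝒪)
    {K : Fin m → ChainKind} (hres : IsResChain ρbar p pc cq sgn K)
    (hunrQ : ∀ q, ρbar.IsUnramifiedAt (Q q)) (hWQ : ∀ q, ρW.IsUnramifiedAt (Q q))
    (hgen : maximalIdeal L.T = (maximalIdeal 𝒪).map (algebraMap 𝒪 L.T) ⊔
      (⨆ j : Fin m, Ideal.span (Set.range fun a : Fin (nv j) => c ⟨j, a⟩)) ⊔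
        Ideal.span (Set.range y))
    (E1 : ∀ j, ∀ f ∈ D.rel j, chainEval (𝒪 := 𝒪) c hc y hy f = 0)
    (E2 : ∀ j, cq j ≠ p → ∀ f ∈ D.unr j,
      chainEval (𝒪 := 𝒪) c hc y hy f ∈ RB.inertiaIdeal L.ρ (cq j))
    (E3 : ∀ j, cq j ≠ p → ∀ f ∈ D.new j, chainEval (𝒪 := 𝒪) c hc y hy f ∈
      Ideal.span {a : L.T | ∃ (P : ValuationSubring (AlgebraicClosure ℚ))
        (_ : P.LiesOverPrime (cq j)) (φ : GQ) (_ : P.IsFrobeniusAt φ (cq j)),
        a = L.ρ.trace φ ^ 2 - (((cq j : ℕ) : L.T) + 1) ^ 2})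
    (E3p : ∀ j, cq j = p → ∀ I : Ideal L.T,
      (∀ (B : Type) [CommRing B] [IsLocalRing B] (π : L.T →+* B) (hπ : IsLocalHom π),
        Function.Surjective π → I ≤ RingHom.ker π →
          (L.ρ.baseChangeAlong π hπ).IsStrictOrdinaryAt p) →
      ∀ f ∈ D.new j, chainEval (𝒪 := 𝒪) c hc y hy f ∈ I)
    (E4 : ∀ j, ∀ f ∈ D.st j, L.toO (chainEval (𝒪 := 𝒪) c hc y hy f) = 0)
    (E5 : ∀ j, cq j ≠ p →
      ∀ (P : ValuationSubring (AlgebraicClosure ℚ)), P.LiesOverPrime (cq j) →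
      ∀ φ : GQ, P.IsFrobeniusAt φ (cq j) → ∃ u : L.T, IsUnit u ∧
        chainEval (𝒪 := 𝒪) c hc y hy (D.th j) -
          u * (((cq j : ℕ) : L.T) + 1 - algebraMap 𝒪 L.T (sgn j) * L.ρ.trace φ) ∈
            RB.inertiaIdeal L.ρ (cq j))
    (E5p : ∀ j, cq j = p → ∀ hpc : pc = PCase.chain, ∃ u : L.T, IsUnit u ∧
      chainEval (𝒪 := 𝒪) c hc y hy (D.th j) = u * (L.Up hpc ^ 2 - 1)) :
    Nonempty (AlgChainLevel D p r d kk M0 (wSubmodule ρW M0 tr0) (pc ≠ PCase.chain) n) := by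
  classical
  have hsurj := chainEval_surjective L c hc y hy hgen
  -- the chain primes
  have hchain : ∀ j, cq j = p → pc = PCase.chain := fun j hj => hres.eq_p_iff.mp ⟨j, hj⟩
  refine ⟨{
    H := L.H
    gg := L.g
    gg_pow := L.g_pow
    gg_comm := L.g_comm
    b := L.b
    free := L.free
    act := fun i => (L.h i).comp (chainEval (𝒪 := 𝒪) c hc y hy)
    act_comm := fun i f q => (L.g_comm_h i q _).symm
    kill_rel := ?_
    kill_unr := ?_
    iota := L.iota
    iota_g := L.iota_g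
    iota_act := fun j c' f x => L.iota_h j c' _ x
    retr := L.retr
    retr_g := L.retr_g
    retr_iota := L.retr_iota
    kill_new := ?_
    omega := L.omega
    omega_g := L.omega_g
    omega_act := fun j f x => L.omega_h j _ x
    omega_surjective := L.omega_surjective
    omega_iota := ?_
    w := wPoint L c hc y hy
    w_st := ?_
    hF := ?_
    ctl := L.ctl
    ctl_surjective := L.ctl_surjective
    ctl_g := ?_
    ker_ctl := fun x hx => (L.ker_ctl x).mp hx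
    ctl_C := ?_ }⟩
  · -- kill_rel
    intro i j _ f hf
    rw [AlgHom.comp_apply, E1 j f hf, map_zero]
  · -- kill_unr
    intro i j hij hi f hf
    by_cases hj : cq j = p
    · exfalso
      have hj0 : j.val = 0 := hres.eq_p_zero j hj
      exact hi (by omega) (hchain j hj)
    · rw [AlgHom.comp_apply]
      exact L.unr i j hij hj _ (E2 j hj f hf)
  · -- kill_new
    intro j f hf x
    rw [AlgHom.comp_apply]
    by_cases hj : cq j = p
    · obtain ⟨I, hI1, hI2⟩ := L.new_p (hchain j hj) j hj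
      exact hI1 _ (E3p j hj I hI2 f hf) x
    · have hle : Ideal.span {a : L.T | ∃ (P : ValuationSubring (AlgebraicClosure ℚ))
          (_ : P.LiesOverPrime (cq j)) (φ : GQ) (_ : P.IsFrobeniusAt φ (cq j)),
          a = L.ρ.trace φ ^ 2 - (((cq j : ℕ) : L.T) + 1) ^ 2} ≤ oldIdeal L j := by
        rw [Ideal.span_le]
        rintro _ ⟨P, hP, φ, hφ, rfl⟩
        exact fun x => L.new_q j hj P hP φ hφ x
      exact hle (E3 j hj f hf) x
  · -- omega_iota
    intro j c' x
    by_cases hj : cq j = p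
    · have hpc := hchain j hj
      obtain ⟨u, hu, hth⟩ := E5p j hj hpc
      obtain ⟨z, hz⟩ := L.omega_iota_p hpc j hj c' x
      obtain ⟨v, hv⟩ := hu.exists_right_inv
      refine ⟨L.h j.castSucc v z, ?_⟩
      rw [AlgHom.comp_apply, hth, hz, ← Module.End.mul_apply, ← map_mul]
      congr 2
      calc L.Up hpc ^ 2 - 1 = (u * v) * (L.Up hpc ^ 2 - 1) := by rw [hv, one_mul]
        _ = u * (L.Up hpc ^ 2 - 1) * v := by ring
    · have : Fact (cq j).Prime := ⟨hres.prime j⟩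
      have hP := Fermat.Agent.TW.Kill.padicPlace_liesOverPrime (cq j)
      have hφ := frobElt_spec (cq j)
      obtain ⟨u, hu, hth⟩ := E5 j hj _ hP _ hφ
      obtain ⟨z, hz⟩ := L.omega_iota_q j hj _ hP _ hφ c' x
      obtain ⟨v, hv⟩ := hu.exists_right_inv
      refine ⟨L.h j.castSucc v z, ?_⟩
      set t := ((cq j : ℕ) : L.T) + 1 - algebraMap 𝒪 L.T (sgn j) * L.ρ.trace (frobElt (cq j))
        with ht
      have h0 : L.h j.castSucc (chainEval (𝒪 := 𝒪) c hc y hy (D.th j) - u * t) = 0 :=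
        L.unr j.castSucc j le_rfl hj _ hth
      have h1 : L.h j.castSucc (chainEval (𝒪 := 𝒪) c hc y hy (D.th j)) =
          L.h j.castSucc (u * t) := by
        rw [map_sub, sub_eq_zero] at h0
        exact h0
      rw [AlgHom.comp_apply, h1, hz, ← Module.End.mul_apply, ← map_mul]
      congr 2
      calc t = (u * v) * t := by rw [hv, one_mul]
        _ = u * t * v := by ring
  · -- w_st
    intro j f hf
    rw [wPoint_apply, E4 j f hf, map_zero]
  · -- hF
    intro i q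
    obtain ⟨G, hG, hGw, hGq⟩ := exists_hF L c hc y hy hp2 hp𝒪 hunrQ hWQ hsurj i q
    refine ⟨G, hG, ?_, hGq⟩
    rw [wPoint_apply, hGw, map_zero]
  · -- ctl_g
    intro q x
    have h1 : L.ctl ((L.g (Fin.last m) q - 1) x) = 0 := by
      rw [L.ker_ctl]
      exact Submodule.mem_iSup_of_mem q ⟨x, rfl⟩
    rw [LinearMap.sub_apply, Module.End.one_apply, map_sub, sub_eq_zero] at h1
    exact h1
  · -- ctl_C
    intro z hz
    rw [wSubmodule] at hz
    induction hz using Submodule.iSup_induction' with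
    | mem σ z hz =>
      obtain ⟨z', rfl⟩ := hz
      obtain ⟨x, rfl⟩ := L.ctl_surjective z'
      set t' : L.T := L.ρ.trace σ - algebraMap 𝒪 L.T (ρW.trace σ) with ht'
      obtain ⟨f, hf⟩ := hsurj t'
      refine Submodule.subset_span ⟨f, x, ?_, ?_⟩
      · rw [wPoint_apply, hf, ht', map_sub, L.toO_trace, AlgHom.commutes]
        have : (algebraMap 𝒪 𝒪) (ρW.trace σ) = ρW.trace σ := rfl
        rw [this, sub_self, map_zero]
      · rw [AlgHom.comp_apply, hf, ht', map_sub]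
        rw [LinearMap.sub_apply, LinearMap.sub_apply, map_sub, L.ctl_trace, AlgHom.commutes]
        congr 1
        rw [Module.algebraMap_end_apply, Module.algebraMap_end_apply, map_smul]
    | zero => exact zero_mem _
    | add z z' _ _ hz hz' => exact add_mem hz hz'

include L in
/-- **[GLUE-L]**: the Galois side of the Taylor–Wiles construction, with charts and generators,
gives the `S∞`-modules of the CORE. -/
theorem nonempty_twChainLevel_of_galois (hp2 : p ≠ 2) (hp𝒪 : (p : 𝒪) ∈ maximalIdeal 𝒪)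
    {lam : 𝒪} (hlam : maximalIdeal 𝒪 = Ideal.span {lam})
    {K : Fin m → ChainKind} (hres : IsResChain ρbar p pc cq sgn K)
    (hunrQ : ∀ q, ρbar.IsUnramifiedAt (Q q)) (hWQ : ∀ q, ρW.IsUnramifiedAt (Q q))
    (hgen : maximalIdeal L.T = (maximalIdeal 𝒪).map (algebraMap 𝒪 L.T) ⊔
      (⨆ j : Fin m, Ideal.span (Set.range fun a : Fin (nv j) => c ⟨j, a⟩)) ⊔
        Ideal.span (Set.range y))
    (E1 : ∀ j, ∀ f ∈ D.rel j, chainEval (𝒪 := 𝒪) c hc y hy f = 0)
    (E2 : ∀ j, cq j ≠ p → ∀ f ∈ D.unr j,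
      chainEval (𝒪 := 𝒪) c hc y hy f ∈ RB.inertiaIdeal L.ρ (cq j))
    (E3 : ∀ j, cq j ≠ p → ∀ f ∈ D.new j, chainEval (𝒪 := 𝒪) c hc y hy f ∈
      Ideal.span {a : L.T | ∃ (P : ValuationSubring (AlgebraicClosure ℚ))
        (_ : P.LiesOverPrime (cq j)) (φ : GQ) (_ : P.IsFrobeniusAt φ (cq j)),
        a = L.ρ.trace φ ^ 2 - (((cq j : ℕ) : L.T) + 1) ^ 2})
    (E3p : ∀ j, cq j = p → ∀ I : Ideal L.T,
      (∀ (B : Type) [CommRing B] [IsLocalRing B] (π : L.T →+* B) (hπ : IsLocalHom π),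
        Function.Surjective π → I ≤ RingHom.ker π →
          (L.ρ.baseChangeAlong π hπ).IsStrictOrdinaryAt p) →
      ∀ f ∈ D.new j, chainEval (𝒪 := 𝒪) c hc y hy f ∈ I)
    (E4 : ∀ j, ∀ f ∈ D.st j, L.toO (chainEval (𝒪 := 𝒪) c hc y hy f) = 0)
    (E5 : ∀ j, cq j ≠ p →
      ∀ (P : ValuationSubring (AlgebraicClosure ℚ)), P.LiesOverPrime (cq j) →
      ∀ φ : GQ, P.IsFrobeniusAt φ (cq j) → ∃ u : L.T, IsUnit u ∧
        chainEval (𝒪 := 𝒪) c hc y hy (D.th j) -
          u * (((cq j : ℕ) : L.T) + 1 - algebraMap 𝒪 L.T (sgn j) * L.ρ.trace φ) ∈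
            RB.inertiaIdeal L.ρ (cq j))
    (E5p : ∀ j, cq j = p → ∀ hpc : pc = PCase.chain, ∃ u : L.T, IsUnit u ∧
      chainEval (𝒪 := 𝒪) c hc y hy (D.th j) = u * (L.Up hpc ^ 2 - 1)) :
    Nonempty (TWChainLevel D lam r d kk M0 (wSubmodule ρW M0 tr0) (pc ≠ PCase.chain) n) := by
  obtain ⟨A⟩ := nonempty_algChainLevel L D c hc y hy hp2 hp𝒪 hres hunrQ hWQ hgen E1 E2 E3 E3p E4
    E5 E5p
  exact nonempty_twChainLevel A hp2 hp𝒪 hlam

end Fermat.Agent.ML.GLUE
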