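/-
PROJECT ML (S59) — helper8 — **[MASS], input (E2): pole sections with respect to `j` versus pole
sections with respect to the Legendre coordinate `t`.**

`F / k` a field extension, `t, j ∈ F` with `j t² (t − 1)² = 256 (t² − t + 1)³`, `256 ≠ 0` in `k`,
`u = t (t − 1)`.  For every valuation subring `O ⊇ k` of `F`:

* `t ∉ O → j ∉ O`;  `t ∈ O`, `j ∉ O` ⇒ `u ∈ 𝔪`, `t² − t + 1` a unit;  `t, j ∈ O` ⇒ `u` a unit.

Hence (`polePlaceLat` = the spaces `L(m · (x)_∞)` in the currency of places):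

* `mul_pow_mem_polePlaceLat_leg` : `f ∈ L(n (j)_∞)` ⇒ `f u ^ (2n) ∈ L(6n (t)_∞)`;
* `div_pow_mem_polePlaceLat_leg` : `g ∈ L(6n (t)_∞)` ⇒ `g / u ^ (2n) ∈ L(n (j)_∞)`.
-/
import Mathlib
import Fermat.Agent.FG.COH_helper8_PolePlace

set_option autoImplicit false
set_option linter.unusedSectionVars false
set_option linter.unusedVariables false
set_option linter.style.haveILetI false

namespace Fermat.Agent.ML

open AlgebraicCurve Fermat.Agent.FG

section Val

variable {F : Type*} [Field F] (O : ValuationSubring F) {t j : F}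

/-- `1 + x` is a unit of `O` when `x` is a non-unit element. -/
theorem one_add_inv_mem_of_nonunit {x : F} (hx : x ∈ O) (hxu : x = 0 ∨ x⁻¹ ∉ O) :
    (1 + x)⁻¹ ∈ O := by
  rcases hxu with rfl | hxu
  · rw [add_zero, inv_one]; exact one_mem _
  by_contra hcon
  have h1 : 1 + x ∈ O := add_mem (one_mem _) hx
  -- `1 + x` is a non-unit, `x` is a non-unit: their difference `1` is a non-unit
  have hv1 : O.valuation (1 + x) < 1 := by
    by_contra hge
    rw [not_lt] at hge
    have heq : O.valuation (1 + x) = 1 :=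
      le_antisymm ((O.valuation_le_one_iff _).2 h1) hge
    apply hcon
    rw [← O.valuation_le_one_iff, map_inv₀, heq, inv_one]
  have hv2 : O.valuation x < 1 := by
    by_contra hge
    rw [not_lt] at hge
    have heq : O.valuation x = 1 := le_antisymm ((O.valuation_le_one_iff _).2 hx) hge
    apply hxu
    rw [← O.valuation_le_one_iff, map_inv₀, heq, inv_one]
  have h3 : O.valuation ((1 + x) - x) < 1 :=
    lt_of_le_of_lt (Valuation.map_sub _ _ _) (max_lt hv1 hv2)
  rw [add_sub_cancel_right, map_one] at h3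
  exact lt_irrefl _ h3

end Val

section Leg

variable {F : Type*} [Field F] (O : ValuationSubring F) {t j : F}

theorem zpow_neg_mul_mem_iff {x : F} (hx : x ≠ 0) (m : ℕ) (f : F) :
    x ^ (-(m : ℤ)) * f ∈ O ↔ O.valuation f ≤ O.valuation x ^ m := by
  have hvx : O.valuation x ≠ 0 := (Valuation.ne_zero_iff _).2 hx
  have hvxm : O.valuation x ^ m ≠ 0 := pow_ne_zero m hvx
  rw [← O.valuation_le_one_iff, map_mul, zpow_neg, zpow_natCast, map_inv₀, map_pow,
    inv_mul_le_iff₀ (zero_lt_iff.2 hvxm), mul_one]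

variable (hrel : j * (t ^ 2 * (t - 1) ^ 2) = 256 * (t ^ 2 - t + 1) ^ 3)
  (h256 : O.valuation (256 : F) = 1)

include hrel h256

/-- at a pole of `t`: `v(j) = v(t)²`, `v(t (t − 1)) = v(t)²`. -/
theorem leg_val_of_pole (ht : 1 < O.valuation t) :
    O.valuation j = O.valuation t ^ 2 ∧ O.valuation (t * (t - 1)) = O.valuation t ^ 2 := by
  set v := O.valuation with hv
  have hvt0 : v t ≠ 0 := fun h => by rw [h] at ht; exact not_lt.2 zero_le_one ht
  have h1 : v (t - 1) = v t := Valuation.map_sub_eq_of_lt_left v (by rw [map_one]; exact ht)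
  have h2 : v (t ^ 2) = v t ^ 2 := map_pow _ _ _
  have h3 : v t < v t ^ 2 := by
    rw [pow_two]
    calc v t = v t * 1 := (mul_one _).symm
      _ < v t * v t := by
        exact mul_lt_mul_of_pos_left ht (zero_lt_iff.2 hvt0)
  have h4 : v (t ^ 2 - t) = v t ^ 2 := by
    rw [← h2]
    exact Valuation.map_sub_eq_of_lt_left v (by rw [h2]; exact h3)
  have h5 : v (t ^ 2 - t + 1) = v t ^ 2 := by
    rw [← h4]
    exact Valuation.map_add_eq_of_lt_left v (by rw [map_one, h4]; exact lt_trans ht h3)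
  have h6 := congrArg v hrel
  rw [map_mul, map_mul, map_pow, map_pow, map_mul, map_pow, h1, h5, h256, one_mul] at h6
  refine ⟨?_, by rw [map_mul, h1, pow_two]⟩
  have h7 : v j * (v t ^ 2 * v t ^ 2) = v t ^ 2 * (v t ^ 2 * v t ^ 2) := by
    rw [h6, pow_succ (v t ^ 2) 2, pow_two (v t ^ 2), mul_assoc]
  exact mul_right_cancel₀ (mul_ne_zero (pow_ne_zero 2 hvt0) (pow_ne_zero 2 hvt0)) h7

/-- `v(j) · v(u)² = v(t² − t + 1)³`. -/
theorem leg_val_rel :
    O.valuation j * O.valuation (t * (t - 1)) ^ 2 = O.valuation (t ^ 2 - t + 1) ^ 3 := by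
  have e1 : j * (t ^ 2 * (t - 1) ^ 2) = j * (t * (t - 1)) ^ 2 := by ring
  have h6 := congrArg O.valuation hrel
  rw [e1] at h6
  simp only [map_mul, map_pow, h256, one_mul] at h6
  simp only [map_mul]
  exact h6

/-- where `t` is regular and `j` has a pole: `u = t (t − 1)` vanishes and `t² − t + 1` is a
unit. -/
theorem leg_val_of_regular_pole (ht : O.valuation t ≤ 1) (hj : 1 < O.valuation j) :
    O.valuation (t * (t - 1)) < 1 ∧ O.valuation (t ^ 2 - t + 1) = 1 := by
  set v := O.valuation with hv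
  have htm : t ∈ O := (O.valuation_le_one_iff _).1 ht
  have hum : t * (t - 1) ∈ O := mul_mem htm (sub_mem htm (one_mem _))
  have hu1 : v (t * (t - 1)) ≤ 1 := (O.valuation_le_one_iff _).2 hum
  have hw : t ^ 2 - t + 1 = t * (t - 1) + 1 := by ring
  have hwm : t ^ 2 - t + 1 ∈ O := by rw [hw]; exact add_mem hum (one_mem _)
  have hw1 : v (t ^ 2 - t + 1) ≤ 1 := (O.valuation_le_one_iff _).2 hwm
  have hr := leg_val_rel O hrel h256
  have hult : v (t * (t - 1)) < 1 := by
    by_contra hge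
    have heq : v (t * (t - 1)) = 1 := le_antisymm hu1 (not_lt.1 hge)
    rw [heq, one_pow, mul_one] at hr
    have : v j ≤ 1 := by
      rw [hr]
      exact pow_le_one₀ zero_le hw1
    exact not_lt.2 this hj
  refine ⟨hult, ?_⟩
  rw [hw, add_comm]
  have := Valuation.map_add_eq_of_lt_left v (x := (1 : F)) (y := t * (t - 1))
    (by rw [map_one]; exact hult)
  rw [this, map_one]

/-- where `t` and `j` are regular, `u = t (t − 1)` is a unit. -/
theorem leg_val_of_regular (ht : O.valuation t ≤ 1) (hj : O.valuation j ≤ 1) :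
    O.valuation (t * (t - 1)) = 1 := by
  set v := O.valuation with hv
  have htm : t ∈ O := (O.valuation_le_one_iff _).1 ht
  have hum : t * (t - 1) ∈ O := mul_mem htm (sub_mem htm (one_mem _))
  have hu1 : v (t * (t - 1)) ≤ 1 := (O.valuation_le_one_iff _).2 hum
  by_contra hne
  have hult : v (t * (t - 1)) < 1 := lt_of_le_of_ne hu1 hne
  have hw : t ^ 2 - t + 1 = 1 + t * (t - 1) := by ring
  have hw1 : v (t ^ 2 - t + 1) = 1 := by
    rw [hw]
    have := Valuation.map_add_eq_of_lt_left v (x := (1 : F)) (y := t * (t - 1))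
      (by rw [map_one]; exact hult)
    rw [this, map_one]
  have hr := leg_val_rel O hrel h256
  rw [hw1, one_pow] at hr
  have h2 : v (t * (t - 1)) ^ 2 < 1 := pow_lt_one₀ zero_le hult two_ne_zero
  have h3 : v j * v (t * (t - 1)) ^ 2 < 1 := by
    calc v j * v (t * (t - 1)) ^ 2 ≤ 1 * v (t * (t - 1)) ^ 2 :=
          mul_le_mul_of_nonneg_right hj zero_le
      _ = v (t * (t - 1)) ^ 2 := one_mul _
      _ < 1 := h2
  rw [hr] at h3
  exact lt_irrefl _ h3

/-- **`L(n (j)_∞) · u ^ (2n) ⊆ L(6n (t)_∞)`**, at one valuation ring. -/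
theorem leg_val_mul_pow (n : ℕ) (f : F)
    (h1 : O.valuation j ≤ 1 → O.valuation f ≤ 1)
    (h2 : 1 < O.valuation j → O.valuation f ≤ O.valuation j ^ n) :
    (O.valuation t ≤ 1 → O.valuation (f * (t * (t - 1)) ^ (2 * n)) ≤ 1) ∧
    (1 < O.valuation t →
      O.valuation (f * (t * (t - 1)) ^ (2 * n)) ≤ O.valuation t ^ (6 * n)) := by
  set v := O.valuation with hv
  constructor
  · intro ht
    have htm : t ∈ O := (O.valuation_le_one_iff _).1 ht
    have hum : t * (t - 1) ∈ O := mul_mem htm (sub_mem htm (one_mem _))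
    have hu1 : v (t * (t - 1)) ≤ 1 := (O.valuation_le_one_iff _).2 hum
    rw [map_mul, map_pow]
    rcases le_or_gt (v j) 1 with hj | hj
    · calc v f * v (t * (t - 1)) ^ (2 * n) ≤ 1 * 1 :=
          mul_le_mul' (h1 hj) (pow_le_one₀ zero_le hu1)
        _ = 1 := mul_one _
    · obtain ⟨-, hw⟩ := leg_val_of_regular_pole O hrel h256 ht hj
      have hr := leg_val_rel O hrel h256
      rw [hw, one_pow] at hr
      calc v f * v (t * (t - 1)) ^ (2 * n) ≤ v j ^ n * v (t * (t - 1)) ^ (2 * n) :=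
            mul_le_mul_of_nonneg_right (h2 hj) zero_le
        _ = (v j * v (t * (t - 1)) ^ 2) ^ n := by rw [mul_pow, ← pow_mul]
        _ = 1 := by rw [hr, one_pow]
  · intro ht
    obtain ⟨hj, hu⟩ := leg_val_of_pole O hrel h256 ht
    have hj1 : 1 < v j := by
      rw [hj]
      exact one_lt_pow₀ ht two_ne_zero
    rw [map_mul, map_pow, hu]
    calc v f * (v t ^ 2) ^ (2 * n) ≤ v j ^ n * (v t ^ 2) ^ (2 * n) :=
          mul_le_mul_of_nonneg_right (h2 hj1) zero_le
      _ = v t ^ (6 * n) := by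
        rw [hj, ← pow_mul, ← pow_mul, ← pow_add]
        congr 1
        ring

/-- **`L(6n (t)_∞) / u ^ (2n) ⊆ L(n (j)_∞)`**, at one valuation ring. -/
theorem leg_val_div_pow (ht0 : t ≠ 0) (ht1 : t ≠ 1) (n : ℕ) (g : F)
    (h1 : O.valuation t ≤ 1 → O.valuation g ≤ 1)
    (h2 : 1 < O.valuation t → O.valuation g ≤ O.valuation t ^ (6 * n)) :
    (O.valuation j ≤ 1 → O.valuation (g / (t * (t - 1)) ^ (2 * n)) ≤ 1) ∧
    (1 < O.valuation j →
      O.valuation (g / (t * (t - 1)) ^ (2 * n)) ≤ O.valuation j ^ n) := by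
  set v := O.valuation with hv
  have hu0 : t * (t - 1) ≠ 0 := mul_ne_zero ht0 (sub_ne_zero.2 ht1)
  have hvu0 : v (t * (t - 1)) ≠ 0 := (Valuation.ne_zero_iff _).2 hu0
  have hvupos : 0 < v (t * (t - 1)) ^ (2 * n) := zero_lt_iff.2 (pow_ne_zero _ hvu0)
  constructor
  · intro hj
    have ht : v t ≤ 1 := by
      by_contra hgt
      obtain ⟨hj', -⟩ := leg_val_of_pole O hrel h256 (not_le.1 hgt)
      have : 1 < v j := by rw [hj']; exact one_lt_pow₀ (not_le.1 hgt) two_ne_zero
      exact not_lt.2 hj this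
    have hu := leg_val_of_regular O hrel h256 ht hj
    rw [map_div₀, map_pow, hu, one_pow, div_one]
    exact h1 ht
  · intro hj
    rw [map_div₀, map_pow, div_le_iff₀ hvupos]
    rcases le_or_gt (v t) 1 with ht | ht
    · obtain ⟨-, hw⟩ := leg_val_of_regular_pole O hrel h256 ht hj
      have hr := leg_val_rel O hrel h256
      rw [hw, one_pow] at hr
      have : v j ^ n * v (t * (t - 1)) ^ (2 * n) = 1 := by
        rw [pow_mul, ← mul_pow, hr, one_pow]
      rw [this]
      exact h1 ht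
    · obtain ⟨hj', hu⟩ := leg_val_of_pole O hrel h256 ht
      rw [hj', hu, ← pow_mul, ← pow_mul, ← pow_add]
      have : 2 * n + 2 * (2 * n) = 6 * n := by ring
      rw [this]
      exact h2 ht

end Leg

section Places

variable {k F : Type*} [Field k] [Field F] [Algebra k F] {t j : F}

theorem valuation_ofNat256_eq_one (h256 : (256 : k) ≠ 0) (v : Place k F) :
    v.toValuationSubring.valuation (256 : F) = 1 := by
  have e : (256 : F) = algebraMap k F 256 := (map_ofNat (algebraMap k F) 256).symm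
  have h1 : (256 : F) ∈ v.toValuationSubring := by rw [e]; exact v.algebraMap_mem' _
  have h2 : ((256 : F))⁻¹ ∈ v.toValuationSubring := by
    rw [e, ← map_inv₀]; exact v.algebraMap_mem' _
  apply le_antisymm ((v.toValuationSubring.valuation_le_one_iff _).2 h1)
  have h3 := (v.toValuationSubring.valuation_le_one_iff _).2 h2
  rw [map_inv₀] at h3
  have h0 : v.toValuationSubring.valuation (256 : F) ≠ 0 := by
    rw [Valuation.ne_zero_iff, e]
    exact (map_ne_zero _).2 h256
  exact (inv_le_one₀ (zero_lt_iff.2 h0)).1 h3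

theorem mem_polePlaceLat_iff_valuation {x : F} (hx : x ≠ 0) (m : ℕ) (f : F) :
    f ∈ polePlaceLat (k := k) x (m : ℤ) ↔
      ∀ v : Place k F, (v.toValuationSubring.valuation x ≤ 1 →
          v.toValuationSubring.valuation f ≤ 1) ∧
        (1 < v.toValuationSubring.valuation x →
          v.toValuationSubring.valuation f ≤ v.toValuationSubring.valuation x ^ m) := by
  rw [mem_polePlaceLat]
  refine forall_congr' fun v => ?_
  rw [← zpow_neg_mul_mem_iff v.toValuationSubring hx m f,
    v.toValuationSubring.valuation_le_one_iff, v.toValuationSubring.valuation_le_one_iff,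
    ← not_le, v.toValuationSubring.valuation_le_one_iff]

variable (hrel : j * (t ^ 2 * (t - 1) ^ 2) = 256 * (t ^ 2 - t + 1) ^ 3) (h256 : (256 : k) ≠ 0)

include hrel h256

/-- **`L(n (j)_∞) · u ^ (2n) ⊆ L(6n (t)_∞)`**, `u = t (t − 1)`. -/
theorem mul_pow_mem_polePlaceLat_leg (hj0 : j ≠ 0) (ht0 : t ≠ 0) (n : ℕ) {f : F}
    (hf : f ∈ polePlaceLat (k := k) j (n : ℤ)) :
    f * (t * (t - 1)) ^ (2 * n) ∈ polePlaceLat (k := k) t ((6 * n : ℕ) : ℤ) := by
  rw [mem_polePlaceLat_iff_valuation hj0] at hf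
  rw [mem_polePlaceLat_iff_valuation ht0]
  intro v
  exact leg_val_mul_pow v.toValuationSubring hrel (valuation_ofNat256_eq_one h256 v) n f
    (hf v).1 (hf v).2

/-- **`L(6n (t)_∞) / u ^ (2n) ⊆ L(n (j)_∞)`**. -/
theorem div_pow_mem_polePlaceLat_leg (hj0 : j ≠ 0) (ht0 : t ≠ 0) (ht1 : t ≠ 1) (n : ℕ) {g : F}
    (hg : g ∈ polePlaceLat (k := k) t ((6 * n : ℕ) : ℤ)) :
    g / (t * (t - 1)) ^ (2 * n) ∈ polePlaceLat (k := k) j (n : ℤ) := by
  rw [mem_polePlaceLat_iff_valuation ht0] at hg
  rw [mem_polePlaceLat_iff_valuation hj0]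
  intro v
  exact leg_val_div_pow v.toValuationSubring hrel (valuation_ofNat256_eq_one h256 v) ht0 ht1 n g
    (hg v).1 (hg v).2

end Places

end Fermat.Agent.ML
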