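/-
PROJECT ML (S59) — helper8 — **[MASS], input (E2): lifting of sections of `O(n (j̄)_∞)` on the reduced
Legendre host.**

For `ℓ ∤ N`, `ℓ ≠ 2` and `n` large, every element of `L(n (j̄)_∞)` on the reduced host `legEt` is the
reduction of a Gauss-integral pole section of `O(n (j)_∞)` on `legE Ω N`
(multiply by `(t̄ (t̄ − 1)) ^ (2 n)`, lift in the coordinate `t`, divide by `(t (t − 1)) ^ (2 n)`).
-/
import Mathlib
import Fermat.Agent.ML.MASS_helper8_LiftT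
import Fermat.Agent.ML.MASS_helper8_Mobius
import Fermat.Agent.FG.EGAL_helper6_PullLeg
import Fermat.Agent.MP.ROLDQ_helper8_HostSeriesC
import Fermat.Agent.MP.HECKERO_helper8_NormHost
import Fermat.Agent.SS.MODEL_helper7_Defs

set_option autoImplicit false
set_option linter.unusedSectionVars false
set_option linter.unusedVariables false
set_option linter.style.haveILetI false
set_option synthInstance.maxHeartbeats 400000

open HahnSeries IntermediateField AlgebraicCurve ModularCurve IsLocalRing Polynomial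

namespace Fermat.Agent.ML

open Fermat.Agent.JA Fermat.Agent.Igusa Fermat.Agent.SS Fermat.Agent.FF Fermat.Agent.FG
  Fermat.Agent.MP
open scoped Fermat.Agent.JA.Host

/-- `Ω = AlgebraicClosure ℚ`. -/
local notation "Ω" => AlgebraicClosure ℚ

section JCoord

variable (N : ℕ) [NeZero N]

/-- the coordinate `j` on the Legendre host over `Ω`. -/
noncomputable def legJCoordBar : FF.Coord Ω ↥(legE Ω N) :=
  letI : Algebra Ω ℂ := ((IsAlgClosed.lift : Ω →ₐ[ℚ] ℂ) : Ω →+* ℂ).toAlgebra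
  haveI := finite_legE_adjoin_j Ω N
  coordOfHost (legE Ω N) (jqNModC Ω 2) (transcendental_jqNModC 2)

theorem legJCoordBar_x : (legJCoordBar N).x = legJE Ω N := Subtype.ext rfl

theorem legCoordBar_x_eq_legTE : (legCoordBar N).x = legTE Ω N := Subtype.ext rfl

theorem legJE_ne_zero : legJE Ω N ≠ 0 := by
  rw [← legJCoordBar_x]
  intro h
  exact (legJCoordBar N).trans (h ▸ isAlgebraic_zero)

end JCoord

section Lift

variable {ℓ : ℕ} [Fact ℓ.Prime] {A : ValuationSubring Ω} (hA : A.LiesOverPrime ℓ)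
  (N : ℕ) [NeZero N]

/-- the reduction of `j` on the reduced Legendre host. -/
noncomputable def legJb (hℓ2 : ℓ ≠ 2) : legEt hA N hℓ2 :=
  legρ hA N hℓ2 ⟨legJE Ω N, legJE_mem_legWE N hA hℓ2⟩

include hA in
theorem ofNat_256_ne_zero_residueField (hℓ2 : ℓ ≠ 2) : (256 : ResidueField ↥A) ≠ 0 := by
  haveI : CharP (ResidueField ↥A) ℓ := charP_residueField hA
  have hq : ℓ.Prime := Fact.out
  have h1 : ((256 : ℕ) : ResidueField ↥A) ≠ 0 := by
    rw [Ne, CharP.cast_eq_zero_iff (ResidueField ↥A) ℓ]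
    intro hdvd
    have h2 : ℓ ∣ 2 ^ 8 := by norm_num; exact hdvd
    exact hℓ2 ((Nat.prime_dvd_prime_iff_eq hq Nat.prime_two).1 (hq.dvd_of_dvd_pow h2))
  exact_mod_cast h1

/-- the Legendre relation on the reduced host. -/
theorem legJb_rel (hℓN : ¬ ℓ ∣ N) (hℓ2 : ℓ ≠ 2) :
    legJb hA N hℓ2 * ((legCoordRed hA N hℓN hℓ2).x ^ 2 * ((legCoordRed hA N hℓN hℓ2).x - 1) ^ 2) =
      256 * ((legCoordRed hA N hℓN hℓ2).x ^ 2 - (legCoordRed hA N hℓN hℓ2).x + 1) ^ 3 := by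
  have htW := legCoordBar_x_mem_legWE hA N hℓ2
  set jW : ↥(legWE hA N hℓ2) := ⟨legJE Ω N, legJE_mem_legWE N hA hℓ2⟩ with hjW
  set tW : ↥(legWE hA N hℓ2) := ⟨(legCoordBar N).x, htW⟩ with htWdef
  have hrt : jW * (tW ^ 2 * (tW - 1) ^ 2) = 256 * (tW ^ 2 - tW + 1) ^ 3 := by
    apply Subtype.ext
    push_cast
    exact legTE_rel N
  have hrt' := congrArg (legρ hA N hℓ2) hrt
  simp only [map_mul, map_pow, map_sub, map_add, map_one, map_ofNat] at hrt'
  exact hrt'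

theorem legCoordRed_x_ne_zero (hℓN : ¬ ℓ ∣ N) (hℓ2 : ℓ ≠ 2) :
    (legCoordRed hA N hℓN hℓ2).x ≠ 0 := by
  intro h
  exact (legCoordRed hA N hℓN hℓ2).trans (h ▸ isAlgebraic_zero)

theorem legCoordRed_x_ne_one (hℓN : ¬ ℓ ∣ N) (hℓ2 : ℓ ≠ 2) :
    (legCoordRed hA N hℓN hℓ2).x ≠ 1 := by
  intro h
  exact (legCoordRed hA N hℓN hℓ2).trans (h ▸ isAlgebraic_one)

theorem legJb_ne_zero (hℓN : ¬ ℓ ∣ N) (hℓ2 : ℓ ≠ 2) : legJb hA N hℓ2 ≠ 0 := by
  intro h0
  have hrel := legJb_rel hA N hℓN hℓ2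
  rw [h0, zero_mul] at hrel
  have h256 : (256 : legEt hA N hℓ2) ≠ 0 := by
    have h1 := ofNat_256_ne_zero_residueField hA hℓ2
    have h3 : algebraMap (ResidueField ↥A) (legEt hA N hℓ2) (256 : ResidueField ↥A) ≠ 0 :=
      (_root_.map_ne_zero _).2 h1
    rwa [map_ofNat] at h3
  have h2 : (legCoordRed hA N hℓN hℓ2).x ^ 2 - (legCoordRed hA N hℓN hℓ2).x + 1 = 0 := by
    rcases mul_eq_zero.1 hrel.symm with h | h
    · exact absurd h h256
    · exact pow_eq_zero_iff (by norm_num) |>.1 h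
  apply (legCoordRed hA N hℓN hℓ2).trans
  refine ⟨X ^ 2 - X + 1, ?_, ?_⟩
  · intro h
    have := congrArg (Polynomial.eval (0 : ResidueField ↥A)) h
    simp at this
  · simpa using h2

/-- a Gauss-integral function with nonzero reduction is a Gauss unit. -/
theorem inv_mem_legWE_of_legρ_ne_zero (hℓ2 : ℓ ≠ 2) (u : ↥(legWE hA N hℓ2))
    (hu : legρ hA N hℓ2 u ≠ 0) : ((u : ↥(legE Ω N)))⁻¹ ∈ legWE hA N hℓ2 := by
  have h1 : ¬ (legWE hA N hℓ2).valuation (u : ↥(legE Ω N)) < 1 := fun h =>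
    hu ((legρ_eq_zero_iff hA hℓ2 N u).2 h)
  have h2 : (legWE hA N hℓ2).valuation (u : ↥(legE Ω N)) ≤ 1 :=
    ((legWE hA N hℓ2).valuation_le_one_iff _).2 u.2
  have h3 : (legWE hA N hℓ2).valuation (u : ↥(legE Ω N)) = 1 := le_antisymm h2 (not_lt.1 h1)
  rw [← (legWE hA N hℓ2).valuation_le_one_iff, map_inv₀, h3, inv_one]

set_option maxHeartbeats 1600000 in
include hA in
/-- **lifting of sections of `O(n (j̄)_∞)`.** -/
theorem exists_lift_polePlaceLat_legJ (hℓN : ¬ ℓ ∣ N) (hℓ2 : ℓ ≠ 2) :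
    ∃ n₀ : ℕ, ∀ n : ℕ, n₀ ≤ n → ∀ fb : legEt hA N hℓ2,
      fb ∈ polePlaceLat (k := ResidueField ↥A) (legJb hA N hℓ2) (n : ℤ) →
      ∃ (f : ↥(legE Ω N)) (hf : f ∈ legWE hA N hℓ2), legρ hA N hℓ2 ⟨f, hf⟩ = fb ∧
        IsPoleSection Ω (legJE Ω N) n f := by
  classical
  haveI : IsAlgClosed (ResidueField ↥A) := isAlgClosed_residueField A
  obtain ⟨m₀, hm₀⟩ := exists_lift_poleSection_legE hA N hℓN hℓ2
  refine ⟨m₀, fun n hn fb hfb => ?_⟩
  set tb := (legCoordRed hA N hℓN hℓ2).x with htb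
  have ht0b : tb ≠ 0 := legCoordRed_x_ne_zero hA N hℓN hℓ2
  have ht1b : tb ≠ 1 := legCoordRed_x_ne_one hA N hℓN hℓ2
  have h1 := mul_pow_mem_polePlaceLat_leg (k := ResidueField ↥A) (legJb_rel hA N hℓN hℓ2)
    (ofNat_256_ne_zero_residueField hA hℓ2) (legJb_ne_zero hA N hℓN hℓ2) ht0b n hfb
  have h2 := isPoleSection_of_mem_polePlaceLat (legCoordRed hA N hℓN hℓ2)
    (legCoordRed_isSeparable hA N hℓN hℓ2) h1
  obtain ⟨g, hg, hgρ, hgs⟩ := hm₀ (6 * n) (by omega) _ h2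
  -- the unit `u = t (t − 1)`
  have htW := legCoordBar_x_mem_legWE hA N hℓ2
  set tW : ↥(legWE hA N hℓ2) := ⟨(legCoordBar N).x, htW⟩ with htWdef
  set uW : ↥(legWE hA N hℓ2) := tW * (tW - 1) with huW
  have htρ : legρ hA N hℓ2 tW = tb := rfl
  have huρ : legρ hA N hℓ2 uW = tb * (tb - 1) := by
    rw [huW, map_mul, map_sub, map_one, htρ]
  have huρ0 : legρ hA N hℓ2 uW ≠ 0 := by
    rw [huρ]
    exact mul_ne_zero ht0b (sub_ne_zero.2 ht1b)
  have huinv := inv_mem_legWE_of_legρ_ne_zero hA N hℓ2 uW huρ0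
  have hucoe : (uW : ↥(legE Ω N)) = (legCoordBar N).x * ((legCoordBar N).x - 1) := rfl
  have hu0 : (uW : ↥(legE Ω N)) ≠ 0 := by
    intro h0
    apply huρ0
    have : uW = 0 := Subtype.ext h0
    rw [this, map_zero]
  set f : ↥(legE Ω N) := g / ((legCoordBar N).x * ((legCoordBar N).x - 1)) ^ (2 * n) with hf
  have hfW : f ∈ legWE hA N hℓ2 := by
    rw [hf, div_eq_mul_inv, ← inv_pow, ← hucoe]
    exact mul_mem hg (pow_mem huinv _)
  refine ⟨f, hfW, ?_, ?_⟩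
  · have hmul : (⟨f, hfW⟩ : ↥(legWE hA N hℓ2)) * uW ^ (2 * n) = ⟨g, hg⟩ := by
      apply Subtype.ext
      show f * (uW : ↥(legE Ω N)) ^ (2 * n) = g
      rw [hf, hucoe, div_mul_cancel₀]
      rw [← hucoe]
      exact pow_ne_zero _ hu0
    have h3 := congrArg (legρ hA N hℓ2) hmul
    rw [map_mul, map_pow, hgρ, huρ] at h3
    exact mul_right_cancel₀ (pow_ne_zero _ (by rw [← huρ]; exact huρ0)) h3
  · have hgL : g ∈ polePlaceLat (k := Ω) (legCoordBar N).x ((6 * n : ℕ) : ℤ) :=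
      hgs.mem_polePlaceLat
    have h256 : (256 : Ω) ≠ 0 := by norm_num
    have hrel : legJE Ω N * ((legCoordBar N).x ^ 2 * ((legCoordBar N).x - 1) ^ 2) =
        256 * ((legCoordBar N).x ^ 2 - (legCoordBar N).x + 1) ^ 3 := by
      rw [legCoordBar_x_eq_legTE]
      exact legTE_rel N
    have ht0 : (legCoordBar N).x ≠ 0 := by
      rw [legCoordBar_x_eq_legTE]; exact legTE_ne_zero N
    have ht1 : (legCoordBar N).x ≠ 1 := by
      rw [legCoordBar_x_eq_legTE]; exact legTE_ne_one N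
    have h4 := div_pow_mem_polePlaceLat_leg (k := Ω) hrel h256 (legJE_ne_zero N) ht0 ht1 n hgL
    haveI := (legJCoordBar N).fin
    haveI : CharZero ↥Ω⟮(legJCoordBar N).x⟯ :=
      charZero_of_injective_algebraMap (algebraMap Ω ↥Ω⟮(legJCoordBar N).x⟯).injective
    have hsepΩ : Algebra.IsSeparable ↥Ω⟮(legJCoordBar N).x⟯ ↥(legE Ω N) := inferInstance
    rw [← legJCoordBar_x] at h4 ⊢
    exact isPoleSection_of_mem_polePlaceLat (legJCoordBar N) hsepΩ h4

end Lift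

end Fermat.Agent.ML
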