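/-
PROJECT ML (S59) — helper8 — **[MASS], input (E3): averaging over the deck group of the Legendre
cover.**

`q ≥ 5`, `q ∤ N`.  If a Gauss-integral pole section `f` of `O(n (j)_∞)` on the Legendre host
`legE Ω N` has the same reduction as a function `φ g` of the level field `F̄(X₀(N))`, then its
average over the deck group of `legE Ω N / φ F` is a Gauss-integral pole section `φ h` of the level
field with the same reduction (the order of the deck group divides `6`, a unit at `q`).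
-/
import Mathlib
import Fermat.Agent.ML.MASS_helper8_Sect
import Fermat.Agent.ML.MASS_helper8_LiftJ
import Fermat.Agent.RB.ROLD_helper4_Gal
import Fermat.Agent.RB.ROLD_helper4_Norm

set_option autoImplicit false
set_option linter.unusedSectionVars false
set_option linter.unusedVariables false
set_option linter.style.haveILetI false
set_option synthInstance.maxHeartbeats 400000

open HahnSeries IntermediateField AlgebraicCurve ModularCurve IsLocalRing Polynomial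

namespace Fermat.Agent.ML

open Fermat.Agent.JA Fermat.Agent.Igusa Fermat.Agent.SS Fermat.Agent.FF Fermat.Agent.FG
  Fermat.Agent.MP Fermat.Agent.RB.ROLD Fermat.Agent.GR
open scoped Fermat.Agent.JA.Host

/-- `Ω = AlgebraicClosure ℚ`. -/
local notation "Ω" => AlgebraicClosure ℚ

section Avg

variable {q : ℕ} [Fact q.Prime] {A : ValuationSubring Ω} (hA : A.LiesOverPrime q)
  (N : ℕ) [NeZero N]

set_option maxHeartbeats 1600000 in
include hA in
/-- **averaging over the deck group.** -/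
theorem exists_level_poleSection (hqN : ¬ q ∣ N) (hq2 : q ≠ 2) (hq5 : 5 ≤ q) {n : ℕ}
    {f : ↥(legE Ω N)} (hf : f ∈ legWE hA N hq2) (hfs : IsPoleSection Ω (legJE Ω N) n f)
    (g : ↥(keyFq Ω N)) (hg : fullToLegE Ω N g ∈ legWE hA N hq2)
    (hρ : legρ hA N hq2 ⟨f, hf⟩ = legρ hA N hq2 ⟨fullToLegE Ω N g, hg⟩) :
    ∃ (h : ↥(keyFq Ω N)) (hh : fullToLegE Ω N h ∈ legWE hA N hq2),
      legρ hA N hq2 ⟨fullToLegE Ω N h, hh⟩ = legρ hA N hq2 ⟨fullToLegE Ω N g, hg⟩ ∧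
      IsPoleSection Ω (egalJ N) n h := by
  classical
  letI := algebraAlong (fullToLegE Ω N)
  haveI := isScalarTower_along (fullToLegE Ω N)
  haveI : Module.Finite ↥(keyFq Ω N) ↥(legE Ω N) := finiteAlong_fullToLegE N
  haveI : IsGalois ↥(keyFq Ω N) ↥(legE Ω N) := isGalois_fullToLegE N
  have hq : q.Prime := Fact.out
  set d : ℕ := Module.finrank ↥(keyFq Ω N) ↥(legE Ω N) with hd
  have hdeq : d = legCoverDeg N := rfl
  have hcop : Nat.Coprime d q := hdeq ▸ legCoverDeg_coprime N hq hq5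
  have hqd : ¬ q ∣ d := (Nat.Prime.coprime_iff_not_dvd hq).1 hcop.symm
  have hval : A.valuation ((d : ℕ) : Ω) = 1 :=
    Fermat.Agent.TW.Kill.valuation_natCast_eq_one hq hqd hA
  have hd0 : ((d : ℕ) : Ω) ≠ 0 := by
    intro h0
    rw [h0, map_zero] at hval
    exact zero_ne_one hval
  have hdA : ((d : ℕ) : Ω) ∈ A := by
    rw [← A.valuation_le_one_iff, hval]
  have hdinv : (((d : ℕ) : Ω))⁻¹ ∈ A := by
    rw [← A.valuation_le_one_iff, map_inv₀, hval, inv_one]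
  -- each conjugate
  have hσj : ∀ σ : ↥(legE Ω N) ≃ₐ[↥(keyFq Ω N)] ↥(legE Ω N),
      (σ.restrictScalars Ω) (legJE Ω N) = legJE Ω N := by
    intro σ
    rw [← fullToLegE_egalJ]
    exact σ.commutes (egalJ N)
  have key : ∀ σ : ↥(legE Ω N) ≃ₐ[↥(keyFq Ω N)] ↥(legE Ω N),
      ∃ hσ : σ f ∈ legWE hA N hq2,
        legρ hA N hq2 ⟨σ f, hσ⟩ = legρ hA N hq2 ⟨fullToLegE Ω N g, hg⟩ := by
    intro σ
    have h1 : (σ.restrictScalars Ω) f ∈ legWE hA N hq2 :=
      apply_mem_legWE hA N hqN hq2 (σ.restrictScalars Ω) (hσj σ) hf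
    refine ⟨h1, ?_⟩
    have hdiff : f - fullToLegE Ω N g ∈ legWE hA N hq2 := sub_mem hf hg
    have h0 : legρ hA N hq2 ⟨f - fullToLegE Ω N g, hdiff⟩ = 0 := by
      have : (⟨f - fullToLegE Ω N g, hdiff⟩ : ↥(legWE hA N hq2)) =
          ⟨f, hf⟩ - ⟨fullToLegE Ω N g, hg⟩ := rfl
      rw [this, map_sub, hρ, sub_self]
    have h2 := legρ_apply_eq_zero hA N hqN hq2 (σ.restrictScalars Ω) (hσj σ) hdiff h0
    have h3 : (⟨(σ.restrictScalars Ω) (f - fullToLegE Ω N g),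
        apply_mem_legWE hA N hqN hq2 (σ.restrictScalars Ω) (hσj σ) hdiff⟩ :
          ↥(legWE hA N hq2)) = ⟨σ f, h1⟩ - ⟨fullToLegE Ω N g, hg⟩ := by
      apply Subtype.ext
      show (σ.restrictScalars Ω) (f - fullToLegE Ω N g) = σ f - fullToLegE Ω N g
      rw [map_sub]
      congr 1
      exact σ.commutes g
    rw [h3, map_sub, sub_eq_zero] at h2
    exact h2
  choose hσW hσρ using key
  -- the sum
  set S : ↥(legE Ω N) := ∑ σ : ↥(legE Ω N) ≃ₐ[↥(keyFq Ω N)] ↥(legE Ω N), σ f with hSdef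
  have hS : algebraMap ↥(keyFq Ω N) ↥(legE Ω N) (Algebra.trace ↥(keyFq Ω N) ↥(legE Ω N) f) = S :=
    trace_eq_sum_automorphisms f
  have hSW : S ∈ legWE hA N hq2 := sum_mem (fun σ _ => hσW σ)
  have hSρ : legρ hA N hq2 ⟨S, hSW⟩ =
      ((d : ℕ) : legEt hA N hq2) * legρ hA N hq2 ⟨fullToLegE Ω N g, hg⟩ := by
    have e : (⟨S, hSW⟩ : ↥(legWE hA N hq2)) =
        ∑ σ : ↥(legE Ω N) ≃ₐ[↥(keyFq Ω N)] ↥(legE Ω N), ⟨σ f, hσW σ⟩ := by
      apply Subtype.ext
      rw [AddSubmonoidClass.coe_finsetSum]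
    rw [e, map_sum]
    simp only [hσρ]
    rw [Finset.sum_const, Finset.card_univ, nsmul_eq_mul, ← Nat.card_eq_fintype_card,
      IsGalois.card_aut_eq_finrank]
  -- the average
  set h : ↥(keyFq Ω N) := algebraMap Ω ↥(keyFq Ω N) (((d : ℕ) : Ω))⁻¹ *
    Algebra.trace ↥(keyFq Ω N) ↥(legE Ω N) f with hh
  have hφh : fullToLegE Ω N h = algebraMap Ω ↥(legE Ω N) (((d : ℕ) : Ω))⁻¹ * S := by
    rw [hh, map_mul, AlgHom.commutes, ← hS]
    rfl
  have hcW : algebraMap Ω ↥(legE Ω N) (((d : ℕ) : Ω))⁻¹ ∈ legWE hA N hq2 :=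
    (algebraMap_mem_legWE_iff hA N hq2 _).2 hdinv
  have hhW : fullToLegE Ω N h ∈ legWE hA N hq2 := by
    rw [hφh]; exact mul_mem hcW hSW
  refine ⟨h, hhW, ?_, ?_⟩
  · have e : (⟨fullToLegE Ω N h, hhW⟩ : ↥(legWE hA N hq2)) =
        ⟨algebraMap Ω ↥(legE Ω N) (((d : ℕ) : Ω))⁻¹, hcW⟩ * ⟨S, hSW⟩ := Subtype.ext hφh
    rw [e, map_mul, hSρ, legρ_algebraMap hA N hq2 ⟨(((d : ℕ) : Ω))⁻¹, hdinv⟩ hcW]
    have hone : algebraMap (ResidueField ↥A) (legEt hA N hq2)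
        (residue ↥A ⟨(((d : ℕ) : Ω))⁻¹, hdinv⟩) * ((d : ℕ) : legEt hA N hq2) = 1 := by
      have e1 : ((d : ℕ) : legEt hA N hq2) = algebraMap (ResidueField ↥A) (legEt hA N hq2)
          (residue ↥A ⟨((d : ℕ) : Ω), hdA⟩) := by
        have : (⟨((d : ℕ) : Ω), hdA⟩ : ↥A) = ((d : ℕ) : ↥A) := Subtype.ext (by push_cast; rfl)
        rw [this, map_natCast, map_natCast]
      rw [e1, ← map_mul, ← map_mul]
      have : (⟨(((d : ℕ) : Ω))⁻¹, hdinv⟩ * ⟨((d : ℕ) : Ω), hdA⟩ : ↥A) = 1 :=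
        Subtype.ext (inv_mul_cancel₀ hd0)
      rw [this, map_one, map_one]
    rw [← mul_assoc, hone, one_mul]
  · apply IsPoleSection.of_map (RingHom.id Ω) Function.surjective_id
      ((fullToLegE Ω N : ↥(keyFq Ω N) →ₐ[Ω] ↥(legE Ω N)) : ↥(keyFq Ω N) →+* ↥(legE Ω N))
      (fun a => by simp)
    show IsPoleSection Ω (fullToLegE Ω N (egalJ N)) n (fullToLegE Ω N h)
    rw [fullToLegE_egalJ, hφh]
    refine IsPoleSection.const_mul' _ (IsPoleSection.sum' _ _ (fun σ _ => ?_))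
    have h5 := hfs.map (RingHom.id Ω)
      (((σ.restrictScalars Ω : ↥(legE Ω N) ≃ₐ[Ω] ↥(legE Ω N)) : ↥(legE Ω N) →ₐ[Ω] ↥(legE Ω N)) :
        ↥(legE Ω N) →+* ↥(legE Ω N)) (fun a => (σ.restrictScalars Ω).commutes a)
    have h6 : (((σ.restrictScalars Ω : ↥(legE Ω N) ≃ₐ[Ω] ↥(legE Ω N)) :
        ↥(legE Ω N) →ₐ[Ω] ↥(legE Ω N)) : ↥(legE Ω N) →+* ↥(legE Ω N)) (legJE Ω N) = legJE Ω N :=
      hσj σ
    rw [h6] at h5
    exact h5

end Avg

end Fermat.Agent.ML
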