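/-
PROJECT ML (S59) — helper8 — **[MASS], input (E1): lifting of pole sections of the reduced Legendre
host**, in the host coordinate `t`.

For `ℓ ∤ N`, `ℓ ≠ 2` and `m` large, every pole section of `O(m (t̄)_∞)` on the reduced host `legEt`
is the reduction of a Gauss-integral pole section of `O(m (t)_∞)` on `legE Ω N` (my
`exists_lift_poleSection_of_comparison` fed with helper6's comparison maps `legPsi` at the base
`flatBase ℓ`, exactly as in `coh_legE`).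
-/
import Mathlib
import Fermat.Agent.FG.COH_helper8_Final

set_option autoImplicit false
set_option linter.unusedSectionVars false
set_option linter.style.haveILetI false
set_option synthInstance.maxHeartbeats 400000

open HahnSeries IntermediateField AlgebraicCurve ModularCurve IsLocalRing Polynomial

namespace Fermat.Agent.ML

open Fermat.Agent.JA Fermat.Agent.Igusa Fermat.Agent.SS Fermat.Agent.FF Fermat.Agent.FG
open scoped Fermat.Agent.JA.Host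

/-- `Ω = AlgebraicClosure ℚ`. -/
local notation "Ω" => AlgebraicClosure ℚ

section Leg

variable {ℓ : ℕ} [Fact ℓ.Prime] {A : ValuationSubring Ω} (hA : A.LiesOverPrime ℓ)
  (N : ℕ) [NeZero N] {K₁ : IntermediateField ℚ Ω}

set_option maxHeartbeats 3200000 in
include hA in
/-- lifting of pole sections from the comparison data at one base. -/
theorem exists_lift_poleSection_legE_of_comparison (hℓN : ¬ ℓ ∣ N) (hK₁ : IsBase ℓ K₁)
    (hℓ2 : ℓ ≠ 2)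
    [IsDiscreteValuationRing ↥(baseRing A K₁)] {ϖ : ↥(baseRing A K₁)} (hϖ : Irreducible ϖ)
    (𝒢t : ValuationSubring ↥(↥K₁)⟮legT ↥K₁⟯)
    (h𝒢t : IsGaussAt ↥(baseRing A K₁) ϖ (AdjoinSimple.gen ↥K₁ (legT ↥K₁)) 𝒢t)
    [IsLocalRing ↥(integralClosure ↥𝒢t ↥(legE ↥K₁ N))]
    (ψ : ResidueField ↥(integralClosure ↥𝒢t ↥(legE ↥K₁ N)) →+* legEt hA N hℓ2)
    (hψs : Function.Surjective ψ)
    (hψ : ∀ (b : ↥(legE ↥K₁ N)) (hb : IsIntegral ↥𝒢t b),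
      ∃ hW : legBC N K₁ b ∈ legWE hA N hℓ2,
        ψ (residue _ ⟨b, hb⟩) = legρ hA N hℓ2 ⟨legBC N K₁ b, hW⟩)
    (htW : (legCoordBar N).x ∈ legWE hA N hℓ2) :
    ∃ m₀ : ℕ, ∀ m : ℕ, m₀ ≤ m → ∀ fb : legEt hA N hℓ2,
      IsPoleSection (ResidueField ↥A) (legρ hA N hℓ2 ⟨(legCoordBar N).x, htW⟩) m fb →
      ∃ (f : ↥(legE Ω N)) (hf : f ∈ legWE hA N hℓ2), legρ hA N hℓ2 ⟨f, hf⟩ = fb ∧
        IsPoleSection Ω (legCoordBar N).x m f := by
  classical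
  haveI : CharZero ↥(baseRing A K₁) := charZero_valuationSubring_of_algebraRat _
  have hgeo := geoHyps_legE_baseRing hA N hℓN hK₁ hℓ2 hϖ
  obtain ⟨S', hgeo'⟩ := hgeo.inv
  have h𝒢t' : IsGaussAt ↥(baseRing A K₁) ϖ (AdjoinSimple.gen ↥K₁ (legT ↥K₁))⁻¹ 𝒢t :=
    isGaussAt_inv ϖ hϖ.prime _ 𝒢t h𝒢t
  set res : ↥(baseRing A K₁) →+* ResidueField ↥A :=
    (baseResidueMap A K₁).comp (IsLocalRing.residue ↥(baseRing A K₁)) with hres_def
  have hres : Function.Surjective res :=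
    (hK₁.baseResidueMap_bijective hA).2.comp IsLocalRing.residue_surjective
  set ι : ↥(baseRing A K₁) →+* Ω := A.subtype.comp (baseIncl A K₁) with hι_def
  have hBC : ∀ r : ↥(baseRing A K₁), legBC N K₁ (algebraMap ↥(baseRing A K₁) ↥(legE ↥K₁ N) r) =
      algebraMap Ω ↥(legE Ω N) (ι r) := by
    intro r
    rw [IsScalarTower.algebraMap_apply ↥(baseRing A K₁) ↥K₁ ↥(legE ↥K₁ N), legBC_algebraMap]
    rfl
  have hρ := legρ_algebraMap hA N hℓ2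
  have hψk := comparison_const 𝒢t h𝒢t res (legWE hA N hℓ2) (legρ hA N hℓ2) (legBC N K₁) ι hBC ψ hψ
    (fun r => (baseIncl A K₁ r).2) (fun r => rfl) hρ
  have hc : (legCoordBar N).x = legBC N K₁ (algebraMap ↥(↥K₁)⟮legT ↥K₁⟯ ↥(legE ↥K₁ N)
      (AdjoinSimple.gen ↥K₁ (legT ↥K₁))) :=
    Subtype.ext (coeffMap_legT (algebraMap ↥K₁ Ω)).symm
  have hcb' : legρ hA N hℓ2 ⟨(legCoordBar N).x, htW⟩ = ψ (geoTb hgeo 𝒢t h𝒢t) := by
    obtain ⟨hW, e⟩ := hψ (algebraMap ↥(↥K₁)⟮legT ↥K₁⟯ ↥(legE ↥K₁ N)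
      (AdjoinSimple.gen ↥K₁ (legT ↥K₁)))
      (isIntegral_gauss_of_mem_chart hgeo 𝒢t h𝒢t (geoCoord ↥(legE ↥K₁ N) _))
    refine Eq.trans ?_ e.symm
    congr 1
  obtain ⟨m₀, hm₀⟩ := exists_lift_poleSection_of_comparison hgeo hgeo' 𝒢t h𝒢t h𝒢t' res hres
    (legWE hA N hℓ2) (legρ hA N hℓ2) (legBC N K₁) ι hBC ψ hψs hψ hψk
  refine ⟨m₀, fun m hm fb hfb => ?_⟩
  rw [hcb'] at hfb
  obtain ⟨f, hf, hfρ, hfs⟩ := hm₀ m hm fb hfb
  refine ⟨f, hf, hfρ, ?_⟩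
  rw [hc]
  exact hfs

set_option maxHeartbeats 3200000 in
include hA in
/-- **lifting of pole sections, Legendre host, coordinate `t`.** -/
theorem exists_lift_poleSection_legE (hℓN : ¬ ℓ ∣ N) (hℓ2 : ℓ ≠ 2) :
    ∃ m₀ : ℕ, ∀ m : ℕ, m₀ ≤ m → ∀ fb : legEt hA N hℓ2,
      IsPoleSection (ResidueField ↥A) (legCoordRed hA N hℓN hℓ2).x m fb →
      ∃ (f : ↥(legE Ω N)) (hf : f ∈ legWE hA N hℓ2), legρ hA N hℓ2 ⟨f, hf⟩ = fb ∧
        IsPoleSection Ω (legCoordBar N).x m f := by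
  classical
  have hK₁ : IsBase ℓ (flatBase ℓ) := isBase_flatBase
  haveI := hK₁.isDiscreteValuationRing hA
  haveI : CharZero ↥(baseRing A (flatBase ℓ)) := charZero_valuationSubring_of_algebraRat _
  obtain ⟨ϖ, hϖ⟩ := IsDiscreteValuationRing.exists_irreducible ↥(baseRing A (flatBase ℓ))
  have hgeo := geoHyps_legE_baseRing hA N hℓN hK₁ hℓ2 hϖ
  obtain ⟨𝒢t, h𝒢t⟩ := exists_isGaussAt ϖ hϖ _ hgeo.transcendental hgeo.adjoin_eq_top
  haveI : IsLocalRing ↥(legW₁ N 𝒢t) := hgeo.isLocalRing 𝒢t h𝒢t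
  have h := exists_lift_poleSection_legE_of_comparison hA N hℓN hK₁ hℓ2 hϖ 𝒢t h𝒢t
    (legPsi hA N hℓN hK₁ hℓ2 hϖ 𝒢t h𝒢t) (legPsi_surjective hA N hℓN hK₁ hℓ2 hϖ 𝒢t h𝒢t)
    (legPsi_spec hA N hℓN hK₁ hℓ2 hϖ 𝒢t h𝒢t) (legCoordBar_x_mem_legWE hA N hℓ2)
  rw [← legCoordRed_x_eq hA N hℓN hℓ2 (legCoordBar_x_mem_legWE hA N hℓ2)] at h
  exact h

end Leg

end Fermat.Agent.ML
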