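/-
ML (S59) — helper1 — Mazur (2,3), leaf [HCUSP]: the pure cusp COMBINATORICS.

* `period_T_eq`, `card_orbit_T`: the width of the cusp through a coset `q` of `Γ₀(N)` with
  parameter `(δ, b)` is `(N / δ) / gcd δ (N / δ)`; for squarefree `N` it is `N / δ`;
* `orbitRel_of_card_orbit_eq`: for squarefree `N` the cusps have pairwise distinct widths;
* `cuspCount_mul_prime`: `cuspCount (M * ℓ) = 2 * cuspCount M` for a prime `ℓ ∤ M`;
* `ramification_squeeze`: the counting lemma forcing `(e_α, e_β) ∈ {(1, ℓ), (ℓ, 1)}`.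
-/
import Mathlib
import Fermat.Agent.X0N.Cosets_helper9_Cusps
import Fermat.Agent.X0N.Cusp_helper9_Val

set_option autoImplicit false

namespace Fermat.Agent.ML.MAZ23C

open CongruenceSubgroup MatrixGroups ModularGroup Matrix Fermat.Agent.X0N

/-! ### widths -/

section Width

variable (N : ℕ) [NeZero N]

theorem parQ_fst_dvd (x : SL(2, ℤ) ⧸ Gamma0 N) : (parQ N x).1 ∣ N := by
  have h := parQ_mem N x
  rw [mem_parSet] at h
  exact (Nat.mem_divisors.mp h.1).1

theorem parQ_fst_pos (x : SL(2, ℤ) ⧸ Gamma0 N) : 0 < (parQ N x).1 :=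
  Nat.pos_of_dvd_of_pos (parQ_fst_dvd N x) (NeZero.pos N)

theorem div_parQ_fst_pos (x : SL(2, ℤ) ⧸ Gamma0 N) : 0 < N / (parQ N x).1 :=
  Nat.div_pos (Nat.le_of_dvd (NeZero.pos N) (parQ_fst_dvd N x)) (parQ_fst_pos N x)

/-- `T ^ t` fixes the coset with parameter `(δ, b)` iff `N / δ ∣ t δ`. -/
theorem T_pow_smul_eq_iff (t : ℕ) (x : SL(2, ℤ) ⧸ Gamma0 N) :
    T ^ t • x = x ↔ N / (parQ N x).1 ∣ t * (parQ N x).1 := by
  have hx := parQ_mem N x
  rw [mem_parSet] at hx
  have hb : (parQ N x).2 < N / (parQ N x).1 := hx.2.1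
  constructor
  · intro h
    have h1 := parQ_T_pow_smul N t x
    rw [h] at h1
    have h2 : (parQ N x).2 = ((parQ N x).2 + t * (parQ N x).1) % (N / (parQ N x).1) := by
      have := congrArg Sigma.snd h1
      exact this
    have h3 : (parQ N x).2 % (N / (parQ N x).1) =
        ((parQ N x).2 + t * (parQ N x).1) % (N / (parQ N x).1) := by
      rw [Nat.mod_eq_of_lt hb]; exact h2
    have h4 : (parQ N x).2 + 0 ≡ (parQ N x).2 + t * (parQ N x).1 [MOD N / (parQ N x).1] := by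
      rw [add_zero]; exact h3
    have h5 := Nat.ModEq.add_left_cancel' _ h4
    exact (Nat.modEq_zero_iff_dvd.mp h5.symm)
  · intro h
    apply parQ_injective N
    rw [parQ_T_pow_smul]
    refine Sigma.ext rfl ?_
    simp only [heq_eq_eq]
    rw [Nat.add_mod, Nat.mod_eq_zero_of_dvd h, add_zero, Nat.mod_mod, Nat.mod_eq_of_lt hb]

/-- the period of `T` on the coset with parameter `(δ, b)`. -/
theorem period_T_eq (x : SL(2, ℤ) ⧸ Gamma0 N) :
    MulAction.period T x =
      (N / (parQ N x).1) / Nat.gcd (parQ N x).1 (N / (parQ N x).1) := by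
  set δ := (parQ N x).1 with hδ
  set m := N / δ with hm
  have hmpos : 0 < m := div_parQ_fst_pos N x
  have hgpos : 0 < Nat.gcd δ m := Nat.gcd_pos_of_pos_right _ hmpos
  have key : ∀ t : ℕ, T ^ t • x = x ↔ m / Nat.gcd δ m ∣ t := by
    intro t
    rw [T_pow_smul_eq_iff]
    change m ∣ t * δ ↔ _
    set g := Nat.gcd δ m with hg
    obtain ⟨m', hm'⟩ : g ∣ m := Nat.gcd_dvd_right δ m
    obtain ⟨δ', hδ'⟩ : g ∣ δ := Nat.gcd_dvd_left δ m
    have e1 : δ / g = δ' := Nat.div_eq_of_eq_mul_right hgpos hδ'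
    have e2 : m / g = m' := Nat.div_eq_of_eq_mul_right hgpos hm'
    have hcop : Nat.Coprime m' δ' := by
      have := Nat.coprime_div_gcd_div_gcd hgpos (m := δ) (n := m)
      rw [← hg, e1, e2] at this
      exact this.symm
    rw [e2]
    constructor
    · intro h
      have h1 : g * m' ∣ g * (t * δ') := by
        have : g * (t * δ') = t * δ := by
          rw [hδ']
          ring
        rw [this, ← hm']
        exact h
      have h2 : m' ∣ t * δ' := Nat.dvd_of_mul_dvd_mul_left hgpos h1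
      exact hcop.dvd_of_dvd_mul_right h2
    · intro h
      obtain ⟨s, rfl⟩ := h
      refine ⟨s * δ', ?_⟩
      rw [hδ', hm']
      ring
  apply Nat.dvd_antisymm
  · exact MulAction.pow_smul_eq_iff_period_dvd.mp ((key _).mpr dvd_rfl)
  · rw [← key]
    exact MulAction.pow_period_smul T x

/-- **the width of the cusp through `q`**. -/
theorem card_orbit_T (q : SL(2, ℤ) ⧸ Gamma0 N) :
    Nat.card {q' // MulAction.orbitRel (Subgroup.zpowers T) (SL(2, ℤ) ⧸ Gamma0 N) q' q} =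
      (N / (parQ N q).1) / Nat.gcd (parQ N q).1 (N / (parQ N q).1) := by
  rw [card_orbit_T_eq_period, period_T_eq]

theorem coprime_parQ_of_squarefree (hN : Squarefree N) (q : SL(2, ℤ) ⧸ Gamma0 N) :
    Nat.gcd (parQ N q).1 (N / (parQ N q).1) = 1 := by
  have h : (parQ N q).1 * (N / (parQ N q).1) = N := Nat.mul_div_cancel' (parQ_fst_dvd N q)
  have hsq : Squarefree ((parQ N q).1 * (N / (parQ N q).1)) := by rw [h]; exact hN
  exact Nat.coprime_of_squarefree_mul hsq

/-- **for squarefree `N` the width of the cusp with parameter `(δ, b)` is `N / δ`**. -/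
theorem card_orbit_T_of_squarefree (hN : Squarefree N) (q : SL(2, ℤ) ⧸ Gamma0 N) :
    Nat.card {q' // MulAction.orbitRel (Subgroup.zpowers T) (SL(2, ℤ) ⧸ Gamma0 N) q' q} =
      N / (parQ N q).1 := by
  rw [card_orbit_T, coprime_parQ_of_squarefree N hN, Nat.div_one]

/-- **for squarefree `N` the cusps of `Γ₀(N)` have pairwise distinct widths**. -/
theorem orbitRel_of_card_orbit_eq (hN : Squarefree N) (q₁ q₂ : SL(2, ℤ) ⧸ Gamma0 N)
    (h : Nat.card {q' // MulAction.orbitRel (Subgroup.zpowers T) (SL(2, ℤ) ⧸ Gamma0 N) q' q₁} =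
      Nat.card {q' // MulAction.orbitRel (Subgroup.zpowers T) (SL(2, ℤ) ⧸ Gamma0 N) q' q₂}) :
    MulAction.orbitRel (Subgroup.zpowers T) (SL(2, ℤ) ⧸ Gamma0 N) q₁ q₂ := by
  rw [card_orbit_T_of_squarefree N hN, card_orbit_T_of_squarefree N hN] at h
  have h1 : (parQ N q₁).1 = (parQ N q₂).1 := by
    have e1 : (parQ N q₁).1 * (N / (parQ N q₁).1) = N := Nat.mul_div_cancel' (parQ_fst_dvd N q₁)
    have e2 : (parQ N q₂).1 * (N / (parQ N q₂).1) = N := Nat.mul_div_cancel' (parQ_fst_dvd N q₂)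
    rw [h] at e1
    have hpos := div_parQ_fst_pos N q₂
    exact Nat.eq_of_mul_eq_mul_right hpos (e1.trans e2.symm)
  have h2 : cuspPar N q₁ = cuspPar N q₂ := by
    unfold cuspPar
    refine Sigma.ext h1 ?_
    simp only [heq_eq_eq]
    rw [coprime_parQ_of_squarefree N hN, coprime_parQ_of_squarefree N hN, Nat.mod_one, Nat.mod_one]
  have h3 : (Quotient.mk _ q₁ : MulAction.orbitRel.Quotient (Subgroup.zpowers T)
      (SL(2, ℤ) ⧸ Gamma0 N)) = Quotient.mk _ q₂ := cuspParQ_injective N h2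
  exact Quotient.exact h3

end Width

/-! ### the number of cusps -/

theorem divisors_mul_prime {M ℓ : ℕ} (hM : M ≠ 0) (hℓ : ℓ.Prime) (hℓM : ¬ ℓ ∣ M) :
    (M * ℓ).divisors = M.divisors ∪ M.divisors.image (· * ℓ) := by
  ext k
  simp only [Finset.mem_union, Finset.mem_image, Nat.mem_divisors]
  constructor
  · rintro ⟨hk, _⟩
    by_cases hℓk : ℓ ∣ k
    · obtain ⟨d, rfl⟩ := hℓk
      right
      refine ⟨d, ⟨?_, hM⟩, by ring⟩
      rw [mul_comm M ℓ] at hk
      exact Nat.dvd_of_mul_dvd_mul_left hℓ.pos hk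
    · left
      have hcop : Nat.Coprime k ℓ := ((Nat.Prime.coprime_iff_not_dvd hℓ).mpr hℓk).symm
      exact ⟨hcop.dvd_of_dvd_mul_right hk, hM⟩
  · rintro (⟨hk, _⟩ | ⟨d, ⟨hd, _⟩, rfl⟩)
    · exact ⟨hk.mul_right ℓ, Nat.mul_ne_zero hM hℓ.ne_zero⟩
    · exact ⟨Nat.mul_dvd_mul_right hd ℓ, Nat.mul_ne_zero hM hℓ.ne_zero⟩

/-- **`cuspCount (M ℓ) = 2 cuspCount M`** for a prime `ℓ ∤ M`. -/
theorem cuspCount_mul_prime {M ℓ : ℕ} (hM : M ≠ 0) (hℓ : ℓ.Prime) (hℓM : ¬ ℓ ∣ M) :
    ModularCurve.cuspCount (M * ℓ) = 2 * ModularCurve.cuspCount M := by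
  unfold ModularCurve.cuspCount
  rw [divisors_mul_prime hM hℓ hℓM, Finset.sum_union, Finset.sum_image, two_mul]
  · congr 1
    · refine Finset.sum_congr rfl fun d hd => ?_
      have hdM : d ∣ M := (Nat.mem_divisors.mp hd).1
      have hdpos : 0 < d := Nat.pos_of_dvd_of_pos hdM (Nat.pos_of_ne_zero hM)
      have hcop : Nat.Coprime d ℓ := by
        rw [Nat.coprime_comm, Nat.Prime.coprime_iff_not_dvd hℓ]
        exact fun h => hℓM (h.trans hdM)
      congr 1
      have e : M * ℓ / d = M / d * ℓ := by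
        obtain ⟨m, rfl⟩ := hdM
        rw [Nat.mul_div_cancel_left _ hdpos, mul_assoc, Nat.mul_div_cancel_left _ hdpos]
      rw [e]
      exact Nat.Coprime.gcd_mul_right_cancel_right _ hcop.symm
    · refine Finset.sum_congr rfl fun d hd => ?_
      have hdM : d ∣ M := (Nat.mem_divisors.mp hd).1
      have hdpos : 0 < d := Nat.pos_of_dvd_of_pos hdM (Nat.pos_of_ne_zero hM)
      have hcop : Nat.Coprime ℓ (M / d) := by
        rw [Nat.Prime.coprime_iff_not_dvd hℓ]
        exact fun h => hℓM (h.trans (Nat.div_dvd_of_dvd hdM))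
      congr 1
      have e : M * ℓ / (d * ℓ) = M / d := Nat.mul_div_mul_right _ _ hℓ.pos
      rw [e]
      exact Nat.Coprime.gcd_mul_right_cancel _ hcop
  · intro a ha b hb hab
    exact Nat.eq_of_mul_eq_mul_right hℓ.pos hab
  · rw [Finset.disjoint_left]
    intro k hk hk'
    obtain ⟨d, _, rfl⟩ := Finset.mem_image.mp hk'
    exact hℓM ((Dvd.intro_left d rfl).trans (Nat.mem_divisors.mp hk).1)

/-! ### the counting lemma -/

/-- **the ramification squeeze**: `s` = the cusps of level `M ℓ`, `c` = the number of cusps of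
level `M`; `e_α`, `e_β` the ramification indices along the two degeneracy maps. If `ℓ ∣ e_β` on
the cusps of type `+`, `ℓ ∣ e_α` on the others, both sums are `(ℓ + 1) c` and there are at least
`2 c` cusps, then `(e_α, e_β) = (1, ℓ)` on type `+` and `(ℓ, 1)` on the others. -/
theorem ramification_squeeze {C : Type*} (s : Finset C) (ℓ c : ℕ) (eα eβ : C → ℕ)
    (plus : C → Prop)
    (hα1 : ∀ w ∈ s, 1 ≤ eα w) (hβ1 : ∀ w ∈ s, 1 ≤ eβ w)
    (hplus : ∀ w ∈ s, plus w → ℓ ∣ eβ w) (hminus : ∀ w ∈ s, ¬ plus w → ℓ ∣ eα w)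
    (hsumα : ∑ w ∈ s, eα w = (ℓ + 1) * c) (hsumβ : ∑ w ∈ s, eβ w = (ℓ + 1) * c)
    (hcard : 2 * c ≤ s.card) :
    ∀ w ∈ s, (plus w → eα w = 1 ∧ eβ w = ℓ) ∧ (¬ plus w → eα w = ℓ ∧ eβ w = 1) := by
  classical
  have hge : ∀ w ∈ s, ℓ + 1 ≤ eα w + eβ w := by
    intro w hw
    by_cases hp : plus w
    · have := Nat.le_of_dvd (hβ1 w hw) (hplus w hw hp)
      have := hα1 w hw
      omega
    · have := Nat.le_of_dvd (hα1 w hw) (hminus w hw hp)
      have := hβ1 w hw
      omega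
  have hsum : ∑ w ∈ s, (eα w + eβ w) = ∑ _w ∈ s, (ℓ + 1) := by
    apply le_antisymm
    · rw [Finset.sum_add_distrib, hsumα, hsumβ, Finset.sum_const, smul_eq_mul]
      calc (ℓ + 1) * c + (ℓ + 1) * c = (2 * c) * (ℓ + 1) := by ring
        _ ≤ s.card * (ℓ + 1) := Nat.mul_le_mul_right _ hcard
    · exact Finset.sum_le_sum hge
  have heq : ∀ w ∈ s, ℓ + 1 = eα w + eβ w :=
    (Finset.sum_eq_sum_iff_of_le hge).mp hsum.symm
  intro w hw
  have h1 := heq w hw
  constructor
  · intro hp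
    have := Nat.le_of_dvd (hβ1 w hw) (hplus w hw hp)
    have := hα1 w hw
    omega
  · intro hp
    have := Nat.le_of_dvd (hα1 w hw) (hminus w hw hp)
    have := hβ1 w hw
    omega

end Fermat.Agent.ML.MAZ23C
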