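/-
PROJECT ML (S59) — Mazur's principle at `(q, p) = (2, 3)` — leaf **[KER3]** (helper2), part 1:
**the kernel of reduction of a good-reduction datum has no `m`-torsion** for `m` a unit of the
valuation ring.

The uniqueness half of `MW/DIV_helper2_KerRed` (`exists_div_sol`): two small solutions of the
division system `(k+1)·E_{y'} + E_w ~ (k n + n + n)·∞` coincide (`hensel_mv_unique`, the Jacobian
`divJacA` is invertible when `k + 1` is a unit).  Applied with `w` = the normal form of `0`: the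
normal form `y` of a class `z` of the kernel with `(k+1) z = 0` and `w` itself are two solutions,
hence `y = w` and `z = 0`.

Final literal: `Fermat.Agent.ML.kerRed_torsionFree`.
-/
import Mathlib
import Fermat.Agent.MW.DIV_helper2_KerRed

set_option autoImplicit false
set_option linter.unusedSectionVars false
set_option linter.unusedVariables false
set_option linter.style.haveILetI false

noncomputable section

namespace Fermat.Agent.FG

open AlgebraicCurve IsLocalRing IntermediateField Fermat.Agent.FF Fermat.Agent.JA Fermat.Agent.MW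
open scoped Classical

namespace GoodRed

variable {Ω : Type*} [Field Ω] {A : ValuationSubring Ω} {𝔽 : Type*} [Field 𝔽] [Algebra Ω 𝔽]
  {𝔽b : Type*} [Field 𝔽b] [Algebra (ResidueField ↥A) 𝔽b] (X : GoodRed Ω A 𝔽 𝔽b)

variable {n k : ℕ} {w : Fin (n + 1) → Ω}
variable {hN : 2 * (X.g : ℤ) - 1 ≤ (k * n + n + n : ℕ)} (NP : X.NormPoly hN)

include NP in
/-- a small `y` with `(k+1)·E_y + E_w ~ (k n + n + n)·∞` gives a small solution of the (lifted)
division system, whose gap part is `y`. -/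
theorem exists_sol_of_div [IsAlgClosed Ω] [CharZero Ω] (hw : ∀ γ, w γ ∈ A.nonunits)
    (GA : Fin (k * n + n + n + 1) → MvPolynomial (Fin (k * n + n + n + 1)) ↥A)
    (hGA : ∀ i, MvPolynomial.map A.subtype (GA i) = X.sysG NP id (X.divω n k w) i)
    {y : Fin (n + 1) → Ω} (hy : ∀ γ, y γ ∈ A.nonunits)
    (hprin : Divisor.IsPrincipal ((k + 1) • X.Edy n y + X.Edy n w
        - Finsupp.single X.cusp ((k * n + n + n : ℕ) : ℤ))) :
    ∃ x : Fin (k * n + n + n + 1) → ↥A, (∀ i, x i ∈ maximalIdeal ↥A) ∧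
      (∀ i, MvPolynomial.eval x (GA i) = 0) ∧
      ∀ γ : Fin (n + 1), γ ∉ X.nongaps n → ((x (gpos (k * n + n) n γ) : ↥A) : Ω) = y γ := by
  have hEy := X.inDisc_Edy (𝔽 := 𝔽) n hy
  have hEw := X.inDisc_Edy (𝔽 := 𝔽) n hw
  have hsum : X.InDisc ((k + 1) • X.Edy n y + X.Edy n w) :=
    InDisc.add X (X.inDisc_nsmul hEy (k + 1)) hEw
  have hdegsum : Divisor.degree ((k + 1) • X.Edy n y + X.Edy n w)
      = ((k * n + n + n : ℕ) : ℤ) := by
    rw [map_add, map_nsmul, X.degree_Edy n hy, X.degree_Edy n hw, nsmul_eq_mul]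
    push_cast
    ring
  obtain ⟨c, hc, hcE⟩ := X.exists_Ediv_eq hN hsum hdegsum hprin
  let ygap : Fin (k * n + n + n + 1) → Ω := fun i =>
    if h : (i : ℕ) < n + 1 then y ⟨i, h⟩ else 0
  let u : Fin (k * n + n + n + 1) → Ω := fun i =>
    if i = 0 then 0 else if i ∈ X.nongaps (k * n + n + n) then c i else ygap i
  have hu : ∀ i, u i ∈ A.nonunits := by
    intro i
    show (if i = 0 then 0 else if i ∈ X.nongaps (k * n + n + n) then c i else ygap i)
      ∈ A.nonunits
    split_ifs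
    · exact zero_mem_nonunits
    · exact hc i
    · show (if h : (i : ℕ) < n + 1 then y ⟨i, h⟩ else 0) ∈ A.nonunits
      split_ifs
      · exact hy _
      · exact zero_mem_nonunits
  have hkf : X.kfun hN u = X.kfun hN c := by
    apply X.kfun_congr hN
    intro ν hν
    show (if (ν : Fin (k * n + n + n + 1)) = 0 then 0 else
      if (ν : Fin (k * n + n + n + 1)) ∈ X.nongaps (k * n + n + n) then c ν else ygap ν) = c ν
    rw [if_neg hν, if_pos ν.2]
  have hugap : ∀ γ : Fin (n + 1), γ ∉ X.nongaps n → u (gpos (k * n + n) n γ) = y γ := by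
    intro γ hγ
    have h1 : gpos (k * n + n) n γ ≠ 0 := by
      intro h
      have := congrArg Fin.val h
      rw [coe_gpos] at this
      have := X.gap_pos hγ
      simp at *
      omega
    have h2 : gpos (k * n + n) n γ ∉ X.nongaps (k * n + n + n) := by
      intro h
      apply hγ
      rw [X.mem_nongaps] at h ⊢
      exact h
    show (if gpos (k * n + n) n γ = 0 then 0 else
      if gpos (k * n + n) n γ ∈ X.nongaps (k * n + n + n) then c (gpos (k * n + n) n γ)
        else ygap (gpos (k * n + n) n γ)) = y γ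
    rw [if_neg h1, if_neg h2]
    show (if h : ((gpos (k * n + n) n γ : Fin (k * n + n + n + 1)) : ℕ) < n + 1
      then y ⟨_, h⟩ else 0) = y γ
    rw [dif_pos (by rw [coe_gpos]; exact γ.2)]
    rfl
  have hDy : X.Dy n (fun γ => u (gpos (k * n + n) n γ)) = X.Dy n y :=
    X.Dy_congr n fun γ hγ => hugap γ hγ
  have hEu : X.Ediv hN u = (k + 1) • X.Edy n y + X.Edy n w := by
    rw [← hcE]
    exact X.Ediv_congr hN hkf
  set W : Polynomial Ω := X.Dy n y ^ k * X.Dy n w with hWdef
  have hWcoeff : ∀ a, W.coeff a = MvPolynomial.eval u (X.divω n k w a) := by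
    intro a
    have hcomp : (MvPolynomial.eval u).comp
        (MvPolynomial.C : Ω →+* MvPolynomial (Fin (k * n + n + n + 1)) Ω) = RingHom.id Ω := by
      ext b
      simp
    unfold divω
    rw [← Polynomial.coeff_map, Polynomial.map_mul, Polynomial.map_pow, divD, X.map_eval_Dgen,
      divPw, Polynomial.map_map, hcomp, Polynomial.map_id, hDy]
  have hsol : ∀ i : Fin (k * n + n + n + 1), i ≠ 0 →
      MvPolynomial.eval u (X.sysG NP id (X.divω n k w) i) = 0 := by
    intro i hi
    apply X.eval_sysG_eq_zero NP id (X.divω n k w) u W hWcoeff hu _ i hi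
    show X.polyOf (X.Ediv hN u) = W * X.Dy n (fun γ => u (gpos (k * n + n) n γ))
    rw [hEu, X.polyOf_add (X.inDisc_nsmul hEy (k + 1)) hEw, X.polyOf_nsmul hEy,
      X.polyOf_Edy n hy, X.polyOf_Edy n hw, hDy, hWdef]
    ring
  have hsol0 : MvPolynomial.eval u (X.sysG NP id (X.divω n k w) 0) = 0 := by
    unfold sysG
    rw [if_pos rfl, MvPolynomial.eval_X]
    show (if (0 : Fin (k * n + n + n + 1)) = 0 then 0 else _) = (0 : Ω)
    rw [if_pos rfl]
  refine ⟨fun i => ⟨u i, ValuationSubring.nonunits_le (hu i)⟩, fun i => ?_, fun i => ?_,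
    fun γ hγ => hugap γ hγ⟩
  · exact ValuationSubring.coe_mem_nonunits_iff.mp (hu i)
  · apply Subtype.ext
    rw [subtype_eval, hGA]
    by_cases hi : i = 0
    · rw [hi]; exact hsol0
    · exact hsol i hi

include NP in
/-- **division in the disc, uniqueness**: for `w ∈ 𝔪` there is at most one `y ∈ 𝔪` (zero at the
nongaps) with `(k+1)·E_y + E_w ~ (k n + n + n)·∞`, as soon as `k + 1` is a unit of `A`. -/
theorem div_sol_unique [IsAlgClosed Ω] [CharZero Ω]
    (hn : 2 * X.g ≤ n) (hw : ∀ γ, w γ ∈ A.nonunits)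
    (hk : A.valuation (((k + 1 : ℕ) : ℕ) : Ω) = 1)
    {y y' : Fin (n + 1) → Ω} (hy : ∀ γ, y γ ∈ A.nonunits) (hy' : ∀ γ, y' γ ∈ A.nonunits)
    (hy0 : ∀ γ ∈ X.nongaps n, y γ = 0) (hy0' : ∀ γ ∈ X.nongaps n, y' γ = 0)
    (hprin : Divisor.IsPrincipal ((k + 1) • X.Edy n y + X.Edy n w
        - Finsupp.single X.cusp ((k * n + n + n : ℕ) : ℤ)))
    (hprin' : Divisor.IsPrincipal ((k + 1) • X.Edy n y' + X.Edy n w
        - Finsupp.single X.cusp ((k * n + n + n : ℕ) : ℤ))) :
    y = y' := by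
  obtain ⟨GA, hGA⟩ := X.exists_liftG_div NP hw
  obtain ⟨x, hx, hxG, hxy⟩ := X.exists_sol_of_div NP hw GA hGA hy hprin
  obtain ⟨x', hx', hxG', hxy'⟩ := X.exists_sol_of_div NP hw GA hGA hy' hprin'
  have hJ : IsUnit ((polyJac GA).map
      (MvPolynomial.eval (0 : Fin (k * n + n + n + 1) → ↥A))).det := by
    have : (polyJac GA).map (MvPolynomial.eval (0 : Fin (k * n + n + n + 1) → ↥A))
        = Matrix.of fun i j => MvPolynomial.constantCoeff (MvPolynomial.pderiv j (GA i)) := by
      ext i j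
      rw [Matrix.map_apply, polyJac_apply, MvPolynomial.eval_zero, Matrix.of_apply]
    rw [this, X.jac_liftG_div NP hw hn GA hGA]
    exact X.isUnit_det_divJacA NP hw hn hk
  have hxx : x = x' := hensel_mv_unique GA 0 x x'
    (fun i => by rw [Pi.zero_apply, sub_zero]; exact hx i)
    (fun i => by rw [Pi.zero_apply, sub_zero]; exact hx' i) hxG hxG' hJ
  funext γ
  by_cases hγ : γ ∈ X.nongaps n
  · rw [hy0 γ hγ, hy0' γ hγ]
  · rw [← hxy γ hγ, ← hxy' γ hγ, hxx]

/-! ### the kernel of reduction is torsion-free away from the residue characteristic -/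

/-- `(k+1)·[E - n∞] + [E' - n∞] = 0` iff `(k+1)·E + E' - (k n + n + n)∞` is principal. -/
theorem nsmul_clsOf_add_clsOf_eq_zero_iff (n k : ℕ) {E E' : Divisor Ω 𝔽}
    (h : Divisor.degree E = n) (h' : Divisor.degree E' = n) :
    (k + 1) • X.clsOf n E h + X.clsOf n E' h' = 0 ↔
      Divisor.IsPrincipal ((k + 1) • E + E'
        - Finsupp.single X.cusp ((k * n + n + n : ℕ) : ℤ)) := by
  rw [clsOf, clsOf]
  show Pic0.mk ((k + 1) • X.degZeroOf n E h + X.degZeroOf n E' h') = 0 ↔ _
  rw [mk_eq_zero_iff_isPrincipal]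
  have e : (((k + 1) • X.degZeroOf n E h + X.degZeroOf n E' h' :
      Divisor.degZero (K := Ω) (F := 𝔽)) : Divisor Ω 𝔽) = (k + 1) • E + E'
        - Finsupp.single X.cusp ((k * n + n + n : ℕ) : ℤ) := by
    rw [AddSubgroup.coe_add, AddSubgroup.coe_nsmul, coe_degZeroOf, coe_degZeroOf, smul_sub,
      Finsupp.smul_single]
    have h2 : ((k * n + n + n : ℕ) : ℤ) = (k + 1) • (n : ℤ) + (n : ℤ) := by
      rw [nsmul_eq_mul]
      push_cast
      ring
    rw [h2, Finsupp.single_add]
    abel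
  rw [e]

/-- the kernel of reduction has no `(k+1)`-torsion when `k + 1` is a unit of `A`. -/
theorem kerRed_torsionFree_succ [IsAlgClosed Ω] [CharZero Ω] [IsAlgClosed (ResidueField ↥A)]
    (hens : IsMvHenselian A) (k : ℕ) (hk : A.valuation (((k + 1 : ℕ) : ℕ) : Ω) = 1)
    (z : Pic0 Ω 𝔽) (hz : z ∈ X.kerRed) (hkz : (k + 1) • z = 0) : z = 0 := by
  have hN : 2 * (X.g : ℤ) - 1 ≤ (k * X.chartN + X.chartN + X.chartN : ℕ) := by
    unfold chartN
    push_cast
    nlinarith [Nat.zero_le k, Nat.zero_le X.g,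
      mul_nonneg (Nat.cast_nonneg (α := ℤ) k) (Nat.cast_nonneg (α := ℤ) X.g)]
  -- the normal forms of `0` and of `z`
  obtain ⟨w, hwNF, -⟩ := X.existsUnique_isNF hens X.chartN_le (X.normPolyData X.chartN_two)
    (X.kerRed.zero_mem)
  obtain ⟨hw, hw0, hdegw, hclsw⟩ := hwNF
  obtain ⟨y, hyNF, -⟩ := X.existsUnique_isNF hens X.chartN_le (X.normPolyData X.chartN_two) hz
  obtain ⟨hy, hy0, hdegy, hclsy⟩ := hyNF
  have h1 : Divisor.IsPrincipal ((k + 1) • X.Edy X.chartN y + X.Edy X.chartN w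
      - Finsupp.single X.cusp ((k * X.chartN + X.chartN + X.chartN : ℕ) : ℤ)) := by
    rw [← X.nsmul_clsOf_add_clsOf_eq_zero_iff X.chartN k hdegy hdegw, hclsy, hclsw, hkz, add_zero]
  have h2 : Divisor.IsPrincipal ((k + 1) • X.Edy X.chartN w + X.Edy X.chartN w
      - Finsupp.single X.cusp ((k * X.chartN + X.chartN + X.chartN : ℕ) : ℤ)) := by
    rw [← X.nsmul_clsOf_add_clsOf_eq_zero_iff X.chartN k hdegw hdegw, hclsw, smul_zero, add_zero]
  have hyw : y = w := X.div_sol_unique (X.normPolyData hN) X.chartN_le hw hk hy hw hy0 hw0 h1 h2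
  rw [← hclsy, ← hclsw]
  exact X.clsOf_congr X.chartN (by rw [hyw]) hdegy hdegw

end GoodRed

end Fermat.Agent.FG

namespace Fermat.Agent.ML

open AlgebraicCurve

/-- **[KER3] (i): the kernel of reduction of a good-reduction datum over a multivariable Henselian
valuation ring has no `m`-torsion for `m` a unit of the valuation ring.** -/
theorem kerRed_torsionFree {Ω : Type*} [Field Ω] [IsAlgClosed Ω] [CharZero Ω]
    {A : ValuationSubring Ω} [IsAlgClosed (IsLocalRing.ResidueField ↥A)]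
    {𝔽 : Type*} [Field 𝔽] [Algebra Ω 𝔽]
    {𝔽b : Type*} [Field 𝔽b] [Algebra (IsLocalRing.ResidueField ↥A) 𝔽b]
    (X : FG.GoodRed Ω A 𝔽 𝔽b) (hens : FG.IsMvHenselian A) (m : ℕ)
    (hm : A.valuation ((m : ℕ) : Ω) = 1) :
    ∀ z ∈ X.kerRed, m • z = 0 → z = 0 := by
  intro z hz hmz
  rcases m with _ | k
  · exfalso
    rw [Nat.cast_zero, map_zero] at hm
    exact zero_ne_one hm
  · exact X.kerRed_torsionFree_succ hens k hm z hz hmz

end Fermat.Agent.ML

end
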