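/-
ML — helper3 — **[MSQ] leaf (b) (abstract): existence of the two node data at the triple points of
the three-sheet chart.**

Setting of `S36.sheetDatumAt_three_sheet_chart`.  At a closed point `𝔫` through which the three
sheets pass, a toric function `(G; lam)` (horizontally an `m`-th power up to units) has a closed
root `Γ` (REG1: a local equation of one sheet `hLE3`, `S36.exists_closed_datum_of_family`) and branch
roots on the three sheets (`S36.exists_branch_unit_of_datum`), hence node data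
(`ML.exists_nodeRatioAt`) on `(W 0, W 1)` and on `(W 1, W 2)`, powers of a given primitive `m`-th
root of unity of `R`.
-/
import Mathlib
import Fermat.Agent.ML.DATUM_helper3_Ratio
import Fermat.Agent.S36.POINTS36_helper3_Final

set_option autoImplicit false
set_option linter.unusedSectionVars false
set_option linter.unusedVariables false
set_option linter.style.haveILetI false

namespace Fermat.Agent.ML.INJ3

open Fermat.Agent.SS Fermat.Agent.JA Fermat.Agent.S36 Fermat.Agent.S35 Fermat.Agent.ML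

section Abs

variable {R : Type*} [CommRing R] [IsDomain R] [IsDiscreteValuationRing R] [CharZero R]
  {K₁ : Type*} [Field K₁] [Algebra R K₁] [IsFractionRing R K₁]
  {KN₁ : Type*} [Field KN₁] [Algebra K₁ KN₁] [Algebra R KN₁] [IsScalarTower R K₁ KN₁]
  {E₁ : Type*} [Field E₁] [Algebra KN₁ E₁] [Algebra R E₁] [IsScalarTower R KN₁ E₁]
  [FiniteDimensional KN₁ E₁]
  {KN₂ : Type*} [Field KN₂] [Algebra K₁ KN₂] [Algebra R KN₂] [IsScalarTower R K₁ KN₂]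
  {E : Type*} [Field E] [Algebra KN₂ E] [Algebra R E] [IsScalarTower R KN₂ E]
  [FiniteDimensional KN₂ E]
  {π : R} {j₁ : KN₁} {j₂ : KN₂} {W10 W01 : ValuationSubring E₁} {W : Fin 3 → ValuationSubring E}

set_option maxHeartbeats 1600000 in
/-- **the two node data at a triple point exist**, and are powers of a primitive `m`-th root of
unity of `R`. -/
theorem exists_nodeRatioAt_three (hπ : Irreducible π)
    (hj₁ : Transcendental K₁ j₁) (hKj₁ : IntermediateField.adjoin K₁ {j₁} = ⊤)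
    (hj₂ : Transcendental K₁ j₂) (hKj₂ : IntermediateField.adjoin K₁ {j₂} = ⊤)
    (h2 : IsTwoSheet π j₁ W10 W01)
    (hmod : IsModelChart E₁ π (sheetIdeal j₁ W10 h2.chart_le_inf)
      (sheetIdeal j₁ W01 h2.chart_le_zero))
    (fam : IsSheetFamily π j₂ W) (α β : E₁ →+* E)
    (hαB : ∀ b ∈ chartOne R E₁ j₁, α b ∈ chartOne R E j₂)
    (hβB : ∀ b ∈ chartOne R E₁ j₁, β b ∈ chartOne R E j₂)
    (hαint : (chartRestrictHom (B' := chartOne R E₁ j₁) (B := chartOne R E j₂) α hαB).IsIntegral)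
    (hβint : (chartRestrictHom (B' := chartOne R E₁ j₁) (B := chartOne R E j₂) β hβB).IsIntegral)
    (hα0 : (W 0).comap α = W10) (hα1 : (W 1).comap α = W10) (hβ2 : (W 2).comap β = W01)
    (hresα0 : ∀ x ∈ W 0, ∃ a ∈ W10, (W 0).valuation (x - α a) < 1)
    (hresα1 : ∀ x ∈ W 1, ∃ a ∈ W10, (W 1).valuation (x - α a) < 1)
    (hresβ2 : ∀ x ∈ W 2, ∃ a ∈ W01, (W 2).valuation (x - β a) < 1)
    (hLE3 : ∀ (𝔫 : Ideal ↥(chartOne R E j₂)) (_ : 𝔫.IsMaximal),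
      (∀ l, sheetIdeal j₂ (W l) (fam.chart_le l) ≤ 𝔫) →
      ∃ (l₁ : Fin 3) (z : ↥(chartOne R E j₂)), z ∈ sheetIdeal j₂ (W l₁) (fam.chart_le l₁) ∧
        z ≠ 0 ∧ ∀ w ∈ sheetIdeal j₂ (W l₁) (fam.chart_le l₁),
          ∃ s : ↥(chartOne R E j₂), s ∉ 𝔫 ∧ z ∣ s * w)
    (hinj : Function.Injective (algebraMap R E))
    {m : ℕ} (hm : 0 < m) {ξ : R} (hξ : IsPrimitiveRoot ξ m)
    {G : E} (hG : G ≠ 0) {lam : Fin 3 → E} (hlam : ∀ l, lam l ≠ 0)
    (hGW : ∀ l, (W l).valuation (G / lam l ^ m - 1) < 1)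
    (hhor : HorPow36 (K₁ := K₁) j₂ hKj₂ π m G)
    (𝔫 : Ideal ↥(chartOne R E j₂)) (h𝔫 : 𝔫.IsMaximal)
    (hall : ∀ l, sheetIdeal j₂ (W l) (fam.chart_le l) ≤ 𝔫) :
    ∃ i k : ℕ,
      @NodeRatioAt R _ E _ _ (chartOne R E j₂) 𝔫 h𝔫.isPrime (W 0) (W 1) m G (lam 0) (lam 1)
        (ξ ^ i) ∧
      @NodeRatioAt R _ E _ _ (chartOne R E j₂) 𝔫 h𝔫.isPrime (W 1) (W 2) m G (lam 1) (lam 2)
        (ξ ^ k) := by
  classical
  haveI := h𝔫
  haveI h𝔫p : 𝔫.IsPrime := h𝔫.isPrime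
  haveI : IsFractionRing ↥(chartOne R E j₂) E := isFractionRing_chartOne (K₁ := K₁) j₂ hKj₂
  haveI : IsNoetherianRing ↥(chartOne R E₁ j₁) := isNoetherianRing_chartOne (K₁ := K₁) j₁ hj₁ hKj₁
  have hbr := fun (l : Fin 3) (hle : sheetIdeal j₂ (W l) (fam.chart_le l) ≤ 𝔫) =>
    exists_isBranchUniformizer_three hπ hj₁ hKj₁ h2 hmod fam α β hαB hβB hαint hβint hα0 hα1 hβ2
      hresα0 hresα1 hresβ2 𝔫 l hle
  obtain ⟨l₁, z, hz, hz0, hgen⟩ := hLE3 𝔫 h𝔫 hall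
  obtain ⟨u₁, hu₁⟩ := hbr l₁ (hall l₁)
  obtain ⟨Γ, hΓ, hdat⟩ := exists_closed_datum_of_family fam hπ hj₂ hKj₂ 𝔫 l₁ (hall l₁) hz hz0
    hgen hu₁ hG hlam (fun i _ => hGW i) (fun 𝔮 h𝔮 hh hπ𝔮 _ => hhor 𝔮 h𝔮 hh hπ𝔮)
  have hwex : ∀ i : Fin 3, ∃ w ∈ locRing (chartOne R E j₂) 𝔫, w ∉ locMax (chartOne R E j₂) 𝔫 ∧
      (W i).valuation (lam i / Γ - w) < 1 := by
    intro i
    obtain ⟨u, hu⟩ := hbr i (hall i)
    exact exists_branch_unit_of_datum fam hπ hj₂ hKj₂ 𝔫 i (hall i) hu hm.ne' (hlam i) hΓ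
      (hGW i) hdat
  choose w hw1 hw2 hw3 using hwex
  have hWt : ∀ l, IsSheetThrough (chartOne R E j₂) 𝔫 (W l) := fun l =>
    isSheetThrough_of_le (fam.chart_le l) (mem_sheetIdeal_iff j₂ (W l) (fam.chart_le l)) (hall l)
  have hcl : IsClosedRootAt (chartOne R E j₂) 𝔫 m G Γ := ⟨hΓ, hdat⟩
  have hb : ∀ l, IsBranchRootAt (chartOne R E j₂) 𝔫 (W l) (lam l) Γ (w l) := fun l =>
    ⟨hw1 l, hw2 l, hw3 l⟩
  obtain ⟨i, hi⟩ := exists_nodeRatioAt hinj hξ hm.ne' (hWt 0) (hWt 1) hcl (hb 0) (hb 1) (hlam 0)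
    (hlam 1) (hGW 0) (hGW 1)
  obtain ⟨k, hk⟩ := exists_nodeRatioAt hinj hξ hm.ne' (hWt 1) (hWt 2) hcl (hb 1) (hb 2) (hlam 1)
    (hlam 2) (hGW 1) (hGW 2)
  exact ⟨i, k, hi, hk⟩

end Abs

end Fermat.Agent.ML.INJ3
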