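/-
ML — helper3 — [MSQ] **the three sheets of the level fields `F_{Mq} → F_{Mq²}` (F-level).**

`R` a discrete valuation ring with fraction field `K ⊇ ℚ`, `q ∈ π R`, `q ∤ M`, and a cyclotomic
enlargement `(R', K', φ, κ, ζ, u)` with `φ π = (ζ - 1)^(q-1) u`.  helper7's abstract
`SS.host_three_sheet`, instantiated at the level fields themselves (`E_L = F_M`, `E_M = F_{Mq}`,
`E_N = F_{Mq²}`, sheets `keyFqWinf`, `keyFqW11`, `keyFqW02` of helper6's `S36/MODEL36_*`), gives the
residue-degree-one statements at the F-level: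

* along `W20 = keyFqWinf` and along `W11`: every integral function is congruent to `A a`,
  `a ∈ W_∞(F_{Mq})`;
* along `W11` and along `W02`: every integral function is congruent to `B a`, `a ∈ W_0(F_{Mq})`;

and, composed with helper8's two-sheet statements (`MP.keyFq_res_inf`, `MP.keyFq_res_zero`), the
parametrisations of the three residue fields by `F_M`:
`W20, W11 : f ≡ A (A w)`, `W02 : f ≡ B (B w)`, `w ∈ V_M` (`keyFq_res_sq_20/11/02`).
-/
import Mathlib
import Fermat.Agent.MP.KEYFQ_helper8_ResInf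
import Fermat.Agent.S36.HOST36_helper7_Leg
import Fermat.Agent.S36.MODEL36_helper6_Kron
import Fermat.Agent.SS.VAL3_helper7_HostThree

set_option autoImplicit false
set_option linter.unusedSectionVars false
set_option linter.unusedVariables false
set_option linter.style.haveILetI false
set_option synthInstance.maxHeartbeats 200000

open ModularCurve Fermat.Agent.Igusa Fermat.Agent.JA Fermat.Agent.SS Fermat.Agent.X0N
  Fermat.Agent.S35 Fermat.Agent.S36 Fermat.Agent.MP

namespace Fermat.Agent.ML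

noncomputable section

section FSheets

variable (R : Type*) [CommRing R] [IsDomain R] [IsDiscreteValuationRing R] [CharZero R]
  (K : Type*) [Field K] [Algebra R K] [IsFractionRing R K] [Algebra ℚ K] [Algebra K ℂ]
  {M q : ℕ} [NeZero M] [NeZero q] [NeZero (M * q)] [NeZero (M * q * q)] {x y : ℤ}
  (h : (q : ℤ) * x + M * y = 1) (hq : q.Prime)
  {R' : Type*} [CommRing R'] [IsDomain R'] [IsDiscreteValuationRing R']
  {K' : Type*} [Field K'] [Algebra R' K'] [IsFractionRing R' K']
  (φ : R →+* R') [IsLocalHom φ] (κ : K →+* K')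
  (hκ : ∀ r : R, κ (algebraMap R K r) = algebraMap R' K' (φ r))
  (ζ : R'ˣ) (hζq : ζ ^ q = 1) (hζ1 : ζ ≠ 1)

local notation "kR" => IsLocalRing.ResidueField R

set_option maxHeartbeats 1600000 in
/-- **the three sheets of `F_{Mq²}(K)`: residue degree one along `A` and along `B`.** -/
theorem keyFq_three_sheet_res {π : R} (hπ : Irreducible π) (hqπ : (q : R) ∈ Ideal.span {π})
    (u : R'ˣ) (hπζ : φ π = ((ζ : R') - 1) ^ (q - 1) * u) :
    (∀ f ∈ keyFqWinf R K (M * q * q), ∃ a ∈ keyFqWinf R K (M * q),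
      (keyFqWinf R K (M * q * q)).valuation (f - keyFqA K (M * q) q a) < 1) ∧
    (∀ f ∈ keyFqW11 R K h hq φ κ hκ ζ hζq hζ1, ∃ a ∈ keyFqWinf R K (M * q),
      (keyFqW11 R K h hq φ κ hκ ζ hζq hζ1).valuation (f - keyFqA K (M * q) q a) < 1) ∧
    (∀ f ∈ keyFqW11 R K h hq φ κ hκ ζ hζq hζ1, ∃ a ∈ keyFqW0 R K (algebraMap K ℂ) h hq,
      (keyFqW11 R K h hq φ κ hκ ζ hζq hζ1).valuation (f - keyFqB K (M * q) q a) < 1) ∧
    (∀ f ∈ keyFqW02 R K h hq, ∃ a ∈ keyFqW0 R K (algebraMap K ℂ) h hq,
      (keyFqW02 R K h hq).valuation (f - keyFqB K (M * q) q a) < 1) := by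
  classical
  have hqM : ¬ q ∣ M := model36_not_dvd_of_bezout h hq
  haveI : CharZero K := algebraRat.charZero K
  haveI : CharP kR q := charP_residueField_of_mem_span hπ hq hqπ
  haveI : ExpChar kR q := ExpChar.prime hq
  have hchar : (q : kR) = 0 := CharP.cast_eq_zero kR q
  have hEL : keyFq K M ≤ gaussField R K := laurentBaseChange_full_le_gaussField R K M
  have hEM : keyFq K (M * q) ≤ gaussField R K := laurentBaseChange_full_le_gaussField R K (M * q)
  have hEN : keyFq K (M * q * q) ≤ gaussField R K :=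
    laurentBaseChange_full_le_gaussField R K (M * q * q)
  have hLM : keyFq K M ≤ keyFq K (M * q) := keyFq_le_of_dvd K (dvd_mul_right M q)
  have hMN : keyFq K (M * q) ≤ keyFq K (M * q * q) := keyFq_le_of_dvd K (dvd_mul_right (M * q) q)
  have hBL : ∀ f ∈ keyFq K M, qExpand K q f ∈ keyFq K (M * q) :=
    fun _ hf => qExpand_mem_keyFq K (by rw [mul_comm]) hf
  have hBM : ∀ f ∈ keyFq K (M * q), qExpand K q f ∈ keyFq K (M * q * q) :=
    fun _ hf => qExpand_mem_keyFq K (by rw [mul_comm]) hf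
  -- the coordinate `j`
  have hJc : ((jGen K M : ↥(keyFq K M)) : LaurentSeries K) = jqModC K :=
    coeffEmb_jq_eq_jqModC K
  have hJ : ((jGen K M : ↥(keyFq K M)) : LaurentSeries K) ∈ gaussInt R K := by
    rw [hJc]; exact jqModC_mem_gaussInt R K
  have hJred : gaussRed R K ⟨((jGen K M : ↥(keyFq K M)) : LaurentSeries K), hJ⟩ = jqModC kR := by
    have e : (⟨((jGen K M : ↥(keyFq K M)) : LaurentSeries K), hJ⟩ : gaussInt R K) =
        ⟨jqModC K, jqModC_mem_gaussInt R K⟩ := Subtype.ext hJc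
    rw [e, gaussRed_jqModC]
  have hJo : (gaussRed R K ⟨((jGen K M : ↥(keyFq K M)) : LaurentSeries K), hJ⟩).order =
      -((1 : ℕ) : ℤ) := by
    rw [hJred]
    have := order_jqNModC_field kR 1
    rwa [jqNModC, qExpand_one_apply] at this
  have hJ0 : gaussRed R K ⟨((jGen K M : ↥(keyFq K M)) : LaurentSeries K), hJ⟩ ≠ 0 := by
    intro h0
    rw [h0, HahnSeries.order_zero] at hJo
    simp at hJo
  -- level `(M, M q)`
  obtain ⟨hne, -, -, -, hunif0, -, hres0⟩ :=
    keyFq_two_sheet (R := R) (K := K) (algebraMap K ℂ) h hq hqM hπ hqπ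
  have cB0 := keyFqW0_comap_keyFqB (R := R) (algebraMap K ℂ) h hq
  obtain ⟨hfinB₁, hdegB₁⟩ := keyFq_finrank_along_keyFqB (K := K) (algebraMap K ℂ) hq hqM
  haveI : CharZero ↥(keyFq K M) :=
    charZero_of_injective_algebraMap (algebraMap K ↥(keyFq K M)).injective
  have hsepB₁ : letI := (keyFqB K M q : ↥(keyFq K M) →+* ↥(keyFq K (M * q))).toAlgebra;
      Algebra.IsSeparable ↥(keyFq K M) ↥(keyFq K (M * q)) := by
    letI := (keyFqB K M q : ↥(keyFq K M) →+* ↥(keyFq K (M * q))).toAlgebra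
    haveI := hfinB₁
    exact Algebra.IsAlgebraic.isSeparable_of_perfectField
  haveI : IsDiscreteValuationRing ↥(keyFqWinf R K M) := by
    unfold keyFqWinf
    infer_instance
  have hdvr : IsDiscreteValuationRing ↥(keyFqW0 R K (algebraMap K ℂ) h hq) :=
    isDiscreteValuationRing_of_comap (keyFqB K M q : ↥(keyFq K M) →+* ↥(keyFq K (M * q)))
      (keyFqWinf R K M) hfinB₁ hsepB₁ cB0
  -- degrees at level `(M q, M q q)`
  have hdA : letI := (keyFqA K (M * q) q).toRingHom.toAlgebra
      Module.finrank ↥(keyFq K (M * q)) ↥(keyFq K (M * q * q)) = q :=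
    finrank_keyFqA_of_dvd K M q hq
  have hfinA : letI := (keyFqA K (M * q) q).toRingHom.toAlgebra
      FiniteDimensional ↥(keyFq K (M * q)) ↥(keyFq K (M * q * q)) := by
    letI := (keyFqA K (M * q) q).toRingHom.toAlgebra
    exact Module.finite_of_finrank_pos (by rw [hdA]; exact hq.pos)
  have hdB : letI := (keyFqB K (M * q) q).toRingHom.toAlgebra
      Module.finrank ↥(keyFq K (M * q)) ↥(keyFq K (M * q * q)) = q := by
    have h1 := finrankAlong_heckeBetaBar (k := K) (M * q) q hq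
    rw [if_pos (dvd_mul_left q M)] at h1
    have e : heckeBetaBar K (M * q) q = keyFqB K (M * q) q :=
      AlgHom.ext fun c => (keyFqB_eq_heckeBetaBar K c).symm
    rw [e] at h1
    exact h1
  have hfinB : letI := (keyFqB K (M * q) q).toRingHom.toAlgebra
      FiniteDimensional ↥(keyFq K (M * q)) ↥(keyFq K (M * q * q)) := by
    letI := (keyFqB K (M * q) q).toRingHom.toAlgebra
    exact Module.finite_of_finrank_pos (by rw [hdB]; exact hq.pos)
  -- the sheets
  have h11A := keyFqW11_comap_keyFqA R K h hq φ κ hκ ζ hζq hζ1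
  have h11B := keyFqW11_comap_keyFqB R K h hq φ κ hκ ζ hζq hζ1
  have h02A := keyFqW02_comap_keyFqA R K h hq
  have h02B := keyFqW02_comap_keyFqB R K h hq
  have hδ := keyFqW11_valuation_keyFqDelta R K h hq φ κ hκ ζ hζq hζ1 u hπζ
  have hkron : (keyFqW02 R K h hq).valuation
      (keyFqA K (M * q) q (keyFqB K M q (jGen K M)) -
        keyFqB K (M * q) q (keyFqB K M q (jGen K M)) ^ q) < 1 := keyFqW02_kron R K h hq
  obtain ⟨-, -, -, -, -, -, -, -, r20, r11A, r11B, r02⟩ :=
    host_three_sheet (R := R) (keyFq K M) (keyFq K (M * q)) (keyFq K (M * q * q)) hLM hMN q hBL hBM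
      hEL hEM hEN hq hchar hπ 1 (Nat.coprime_one_left q) (jGen K M) hJ hJo hJ0
      (keyFqW0 R K (algebraMap K ℂ) h hq) hdvr cB0 hres0 hunif0 hne hfinA hdA.le hfinB hdB.le
      (keyFqW11 R K h hq φ κ hκ ζ hζq hζ1) (keyFqW02 R K h hq) h11A h11B h02A h02B
      (keyFqDelta K (M := M) (q := q)) hδ hkron
  exact ⟨r20, r11A, r11B, r02⟩

end FSheets

end

end Fermat.Agent.ML
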