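/-
ML — helper3 — **[MSQ] leaf (b), [INJ3] part 1 (abstract): the closed datum at a triple point from
two constant node data.**

`B ⊆ E` a chart, `𝔫` a closed point through which three sheets `W 0`, `W 1`, `W 2` pass.  If the
node datum (`ML.NodeRatioAt`) of `(G; lam 0, lam 1)` on `(W 0, W 1)` is `γ₁` and the node datum of
`(G; lam 1, lam 2)` on `(W 1, W 2)` is `γ₂`, then `(G / (κ ^ m ε); lam 0 / κ, γ₁ lam 1 / κ,
γ₁ γ₂ lam 2 / κ)` has a closed datum `S36.SheetDatumAt` at `𝔫`.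

* `IsBranchRootAt.change_root` : change of the closed root in a branch root;
* `sheetDatumAt_fin3_of_nodeRatio`.
-/
import Mathlib
import Fermat.Agent.ML.DATUM_helper3_Ratio

set_option autoImplicit false
set_option linter.unusedSectionVars false
set_option linter.unusedVariables false
set_option linter.style.haveILetI false

namespace Fermat.Agent.ML.INJ3

open Fermat.Agent.SS Fermat.Agent.JA Fermat.Agent.S36 Fermat.Agent.ML

section Node

variable {R : Type*} [CommRing R] {E : Type*} [Field E] [Algebra R E]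
  {B : Subalgebra R E} {𝔫 : Ideal ↥B}

/-- **change of the closed root in a branch root**: if `Γ' / Γ` is a unit of the local ring, a
branch root `w` relative to `Γ'` gives the branch root `(Γ' / Γ) w` relative to `Γ`. -/
theorem IsBranchRootAt.change_root [h𝔫 : 𝔫.IsPrime] {W : ValuationSubring E}
    (hW : IsSheetThrough B 𝔫 W) {lam Γ Γ' w : E} (hΓ : Γ ≠ 0) (hΓ' : Γ' ≠ 0)
    (hε : Γ' / Γ ∈ locRing B 𝔫) (hε' : Γ' / Γ ∉ locMax B 𝔫)
    (h : IsBranchRootAt B 𝔫 W lam Γ' w) : IsBranchRootAt B 𝔫 W lam Γ (Γ' / Γ * w) := by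
  refine ⟨(locRing B 𝔫).mul_mem hε h.1, mul_notMem_locMax hε h.1 hε' h.2.1, ?_⟩
  have e : lam / Γ - Γ' / Γ * w = Γ' / Γ * (lam / Γ' - w) := by
    field_simp
  rw [e, map_mul]
  calc W.valuation (Γ' / Γ) * W.valuation (lam / Γ' - w)
      ≤ 1 * W.valuation (lam / Γ' - w) := mul_le_mul_left (hW.valuation_le_one hε) _
    _ < 1 := by rw [one_mul]; exact h.2.2

/-- **the closed datum at a triple point from two constant node data.** -/
theorem sheetDatumAt_fin3_of_nodeRatio [hmax : 𝔫.IsMaximal]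
    (hB : ∀ e : E, IsIntegral ↥B e → e ∈ B) (𝔭 : Fin 3 → Ideal ↥B)
    {W : Fin 3 → ValuationSubring E} (hW : ∀ l, IsSheetThrough B 𝔫 (W l))
    (hR : ∀ l, ∀ r : R, algebraMap R E r ∈ W l) {m : ℕ} (hm : m ≠ 0) {G : E} {lam : Fin 3 → E}
    {γ₁ γ₂ : R}
    (h01 : @NodeRatioAt R _ E _ _ B 𝔫 hmax.isPrime (W 0) (W 1) m G (lam 0) (lam 1) γ₁)
    (h12 : @NodeRatioAt R _ E _ _ B 𝔫 hmax.isPrime (W 1) (W 2) m G (lam 1) (lam 2) γ₂)
    (hγ₁ : algebraMap R ↥B γ₁ ∉ 𝔫) (hγ₂ : algebraMap R ↥B γ₂ ∉ 𝔫) {κ : E} (hκ : κ ≠ 0) {ε : R}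
    (hε : algebraMap R ↥B ε ∉ 𝔫) :
    @SheetDatumAt R _ E _ _ B (Fin 3) 𝔭 𝔫 hmax.isPrime W m (G * (κ ^ m * algebraMap R E ε)⁻¹)
      ![lam 0 / κ, algebraMap R E γ₁ * lam 1 / κ, algebraMap R E (γ₁ * γ₂) * lam 2 / κ] := by
  haveI h𝔫 : 𝔫.IsPrime := hmax.isPrime
  obtain ⟨Γ, w0, w1, hΓ, hw0, hw1, hr01⟩ := nodeRatioAt_iff.mp h01
  obtain ⟨Γ₂, v1, v2, hΓ₂, hv1, hv2, hr12⟩ := nodeRatioAt_iff.mp h12
  obtain ⟨hu, hu'⟩ := hΓ.div_unit hB hm hΓ₂
  -- the branch root on `W 2` relative to `Γ`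
  have hw2 : IsBranchRootAt B 𝔫 (W 2) (lam 2) Γ (Γ₂ / Γ * v2) :=
    IsBranchRootAt.change_root (hW 2) hΓ.1 hΓ₂.1 hu hu' hv2
  set w2 : E := Γ₂ / Γ * v2 with hw2def
  have hγ₂L : algebraMap R E γ₂ ∈ locRing B 𝔫 := (locRing B 𝔫).algebraMap_mem γ₂
  have hγ₁L : algebraMap R E γ₁ ∈ locRing B 𝔫 := (locRing B 𝔫).algebraMap_mem γ₁
  have hr12' : w1 - algebraMap R E γ₂ * w2 ∈ locMax B 𝔫 :=
    ratio_congr hB hm (hW 1) (hW 2) hΓ₂ hv1 hv2 hΓ hw1 hw2 hγ₂L hr12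
  have hcoe : ∀ r : R, ((algebraMap R ↥B r : ↥B) : E) = algebraMap R E r := fun r => rfl
  have hγ₁M : algebraMap R E γ₁ ∉ locMax B 𝔫 := by
    rw [← hcoe, coe_mem_locMax_iff]; exact hγ₁
  have hγ₂M : algebraMap R E γ₂ ∉ locMax B 𝔫 := by
    rw [← hcoe, coe_mem_locMax_iff]; exact hγ₂
  have hγ₁₂L : algebraMap R E (γ₁ * γ₂) ∈ locRing B 𝔫 := (locRing B 𝔫).algebraMap_mem _
  have hγ₁₂M : algebraMap R E (γ₁ * γ₂) ∉ locMax B 𝔫 := by
    rw [map_mul]; exact mul_notMem_locMax hγ₁L hγ₂L hγ₁M hγ₂M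
  have hεE : algebraMap R E ε ≠ 0 := by
    intro h0
    apply hε
    have : algebraMap R ↥B ε = 0 := Subtype.ext (by
      show algebraMap R E ε = 0
      exact h0)
    rw [this]; exact 𝔫.zero_mem
  obtain ⟨hΓ0, c, d, hc, hd, hcd⟩ := hΓ
  -- the differences
  have d01 : w0 - algebraMap R E γ₁ * w1 ∈ locMax B 𝔫 := hr01
  have d12 : algebraMap R E γ₁ * w1 - algebraMap R E (γ₁ * γ₂) * w2 ∈ locMax B 𝔫 := by
    have e : algebraMap R E γ₁ * w1 - algebraMap R E (γ₁ * γ₂) * w2 =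
        algebraMap R E γ₁ * (w1 - algebraMap R E γ₂ * w2) := by rw [map_mul]; ring
    rw [e]; exact mul_mem_locMax hγ₁L hr12'
  have d02 : w0 - algebraMap R E (γ₁ * γ₂) * w2 ∈ locMax B 𝔫 := by
    have e : w0 - algebraMap R E (γ₁ * γ₂) * w2 =
        (w0 - algebraMap R E γ₁ * w1) +
          (algebraMap R E γ₁ * w1 - algebraMap R E (γ₁ * γ₂) * w2) := by ring
    rw [e]; exact add_mem_locMax d01 d12
  have hneg : ∀ {a b : E}, a - b ∈ locMax B 𝔫 → b - a ∈ locMax B 𝔫 := by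
    intro a b h
    have e : b - a = -(a - b) := by ring
    rw [e]; exact neg_mem_locMax h
  refine ⟨Γ / κ, ![w0, algebraMap R E γ₁ * w1, algebraMap R E (γ₁ * γ₂) * w2],
    div_ne_zero hΓ0 hκ,
    ⟨c, d * algebraMap R ↥B ε, hc, fun h => (h𝔫.mem_or_mem h).elim hd hε, ?_⟩, ?_, ?_⟩
  · show G * (κ ^ m * algebraMap R E ε)⁻¹ * ((d : E) * algebraMap R E ε) = (Γ / κ) ^ m * (c : E)
    have hκm : κ ^ m ≠ 0 := pow_ne_zero _ hκ
    rw [div_pow]
    calc G * (κ ^ m * algebraMap R E ε)⁻¹ * ((d : E) * algebraMap R E ε)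
        = G * (d : E) * (κ ^ m)⁻¹ := by field_simp
      _ = Γ ^ m * (c : E) * (κ ^ m)⁻¹ := by rw [hcd]
      _ = Γ ^ m / κ ^ m * (c : E) := by ring
  · intro i _
    fin_cases i
    · refine ⟨hw0.1, hw0.2.1, ?_⟩
      show (W 0).valuation (lam 0 / κ / (Γ / κ) - w0) < 1
      rw [div_div_div_cancel_right₀ hκ]
      exact hw0.2.2
    · refine ⟨(locRing B 𝔫).mul_mem hγ₁L hw1.1, mul_notMem_locMax hγ₁L hw1.1 hγ₁M hw1.2.1, ?_⟩
      show (W 1).valuation (algebraMap R E γ₁ * lam 1 / κ / (Γ / κ) - algebraMap R E γ₁ * w1) < 1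
      rw [div_div_div_cancel_right₀ hκ, mul_div_assoc, ← mul_sub, map_mul]
      calc (W 1).valuation (algebraMap R E γ₁) * (W 1).valuation (lam 1 / Γ - w1)
          ≤ 1 * (W 1).valuation (lam 1 / Γ - w1) :=
            mul_le_mul_left ((ValuationSubring.valuation_le_one_iff _ _).mpr (hR 1 γ₁)) _
        _ < 1 := by rw [one_mul]; exact hw1.2.2
    · refine ⟨(locRing B 𝔫).mul_mem hγ₁₂L hw2.1,
        mul_notMem_locMax hγ₁₂L hw2.1 hγ₁₂M hw2.2.1, ?_⟩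
      show (W 2).valuation (algebraMap R E (γ₁ * γ₂) * lam 2 / κ / (Γ / κ) -
        algebraMap R E (γ₁ * γ₂) * w2) < 1
      rw [div_div_div_cancel_right₀ hκ, mul_div_assoc, ← mul_sub, map_mul]
      calc (W 2).valuation (algebraMap R E (γ₁ * γ₂)) * (W 2).valuation (lam 2 / Γ - w2)
          ≤ 1 * (W 2).valuation (lam 2 / Γ - w2) :=
            mul_le_mul_left ((ValuationSubring.valuation_le_one_iff _ _).mpr (hR 2 _)) _
        _ < 1 := by rw [one_mul]; exact hw2.2.2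
  · intro i k _ _
    fin_cases i <;> fin_cases k
    · show w0 - w0 ∈ locMax B 𝔫
      rw [sub_self]; exact zero_mem_locMax
    · exact d01
    · exact d02
    · exact hneg d01
    · show algebraMap R E γ₁ * w1 - algebraMap R E γ₁ * w1 ∈ locMax B 𝔫
      rw [sub_self]; exact zero_mem_locMax
    · exact d12
    · exact hneg d02
    · exact hneg d12
    · show algebraMap R E (γ₁ * γ₂) * w2 - algebraMap R E (γ₁ * γ₂) * w2 ∈ locMax B 𝔫
      rw [sub_self]; exact zero_mem_locMax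

end Node

end Fermat.Agent.ML.INJ3
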