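/-
ML — helper3 — **[MSQ] leaf (b): lifting the automorphisms of a cover along a base change of
degree prime to the degree of the cover** (abstract Galois theory).

`E₁ = F₁(t)` a finite extension, `F₂ / F₁` finite of degree prime to `[E₁ : F₁]`, `E₂ / F₂` normal,
`E₁ → E₂` compatible with `F₁ → F₂`.  Then `t` has the same minimal polynomial over `F₂` as over
`F₁`, so every `F₁`-automorphism `s₁` of `E₁` extends to an `F₂`-automorphism `s₂` of `E₂`
(`s₂ ∘ A = A ∘ s₁`).

* `exists_lift_algEquiv` : the statement with `Algebra` instances;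
* `exists_lift_fixingAlong` : the statement along `K`-algebra homomorphisms
  (`FG.fixingAlong`).
-/
import Mathlib
import Fermat.Agent.FG.EGAL_helper6_Gal

set_option autoImplicit false
set_option linter.unusedSectionVars false
set_option linter.unusedVariables false
set_option linter.style.haveILetI false

open Polynomial IntermediateField AlgebraicCurve

namespace Fermat.Agent.ML

open Fermat.Agent.FG

section Abs

variable {F₁ F₂ E₁ E₂ : Type*} [Field F₁] [Field F₂] [Field E₁] [Field E₂]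
  [Algebra F₁ E₁] [Algebra F₂ E₂] [Algebra F₁ F₂] [Algebra E₁ E₂] [Algebra F₁ E₂]
  [IsScalarTower F₁ F₂ E₂] [IsScalarTower F₁ E₁ E₂]

/-- **the minimal polynomial of a generator does not change under a base change of degree prime
to the degree of the cover.** -/
theorem minpoly_map_eq_of_coprime [FiniteDimensional F₁ E₁] [FiniteDimensional F₁ F₂]
    [FiniteDimensional F₂ E₂] (t : E₁) (ht : F₁⟮t⟯ = ⊤)
    (hcop : Nat.Coprime (Module.finrank F₁ E₁) (Module.finrank F₁ F₂)) :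
    minpoly F₂ (algebraMap E₁ E₂ t) = (minpoly F₁ t).map (algebraMap F₁ F₂) := by
  have hint : IsIntegral F₁ t := IsIntegral.of_finite F₁ t
  set T : E₂ := algebraMap E₁ E₂ t with hT
  have hintT : IsIntegral F₂ T := IsIntegral.of_finite F₂ T
  have hd : (minpoly F₁ t).natDegree = Module.finrank F₁ E₁ := by
    rw [← IntermediateField.adjoin.finrank hint, ht, IntermediateField.finrank_top']
  -- `T` is a root of the image of the minimal polynomial of `t`
  have hroot : aeval T ((minpoly F₁ t).map (algebraMap F₁ F₂)) = 0 := by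
    rw [aeval_map_algebraMap, hT, aeval_algebraMap_apply, minpoly.aeval, map_zero]
  have hdvd : minpoly F₂ T ∣ (minpoly F₁ t).map (algebraMap F₁ F₂) := minpoly.dvd _ _ hroot
  have hmon : ((minpoly F₁ t).map (algebraMap F₁ F₂)).Monic := (minpoly.monic hint).map _
  have hle : (minpoly F₂ T).natDegree ≤ Module.finrank F₁ E₁ := by
    have := natDegree_le_of_dvd hdvd hmon.ne_zero
    rwa [natDegree_map, hd] at this
  -- the degree of `F₂(T)` over `F₁`
  set L : IntermediateField F₂ E₂ := F₂⟮T⟯ with hL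
  have hd₂ : (minpoly F₂ T).natDegree = Module.finrank F₂ ↥L :=
    (IntermediateField.adjoin.finrank hintT).symm
  let ψ : E₁ →ₐ[F₁] E₂ := IsScalarTower.toAlgHom F₁ E₁ E₂
  have hψle : ψ.fieldRange ≤ L.restrictScalars F₁ := by
    have h1 : ψ.fieldRange = F₁⟮T⟯ := by
      rw [AlgHom.fieldRange_eq_map, ← ht, IntermediateField.adjoin_map, Set.image_singleton]
      rfl
    rw [h1, IntermediateField.adjoin_le_iff, Set.singleton_subset_iff]
    exact IntermediateField.mem_adjoin_simple_self F₂ T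
  have h1 : Module.finrank F₁ ↥ψ.fieldRange ∣ Module.finrank F₁ ↥(L.restrictScalars F₁) :=
    IntermediateField.finrank_dvd_of_le_right hψle
  have h2 : Module.finrank F₁ ↥ψ.fieldRange = Module.finrank F₁ E₁ :=
    (LinearEquiv.finrank_eq (AlgEquiv.ofInjectiveField ψ).toLinearEquiv).symm
  have h3 : Module.finrank F₁ ↥(L.restrictScalars F₁) =
      Module.finrank F₁ F₂ * Module.finrank F₂ ↥L :=
    (Module.finrank_mul_finrank F₁ F₂ ↥L).symm
  rw [h2, h3] at h1
  have h4 : Module.finrank F₁ E₁ ∣ Module.finrank F₂ ↥L := hcop.dvd_of_dvd_mul_left h1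
  have hpos : 0 < Module.finrank F₂ ↥L := Module.finrank_pos
  have h5 : Module.finrank F₁ E₁ ≤ (minpoly F₂ T).natDegree := by
    rw [hd₂]; exact Nat.le_of_dvd hpos h4
  refine (eq_of_monic_of_dvd_of_natDegree_le (minpoly.monic hintT) hmon hdvd ?_).symm
  rw [natDegree_map, hd]
  exact h5

/-- **lifting the automorphisms.** -/
theorem exists_lift_algEquiv [FiniteDimensional F₁ E₁] [FiniteDimensional F₁ F₂]
    [FiniteDimensional F₂ E₂] [Normal F₂ E₂] (t : E₁) (ht : F₁⟮t⟯ = ⊤)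
    (hcop : Nat.Coprime (Module.finrank F₁ E₁) (Module.finrank F₁ F₂))
    (s₁ : E₁ ≃ₐ[F₁] E₁) :
    ∃ s₂ : E₂ ≃ₐ[F₂] E₂, ∀ e : E₁, s₂ (algebraMap E₁ E₂ e) = algebraMap E₁ E₂ (s₁ e) := by
  have hint : IsIntegral F₁ t := IsIntegral.of_finite F₁ t
  set T : E₂ := algebraMap E₁ E₂ t with hT
  have hintT : IsIntegral F₂ T := IsIntegral.of_finite F₂ T
  have hmin := minpoly_map_eq_of_coprime (F₂ := F₂) (E₂ := E₂) t ht hcop
  -- `A (s₁ t)` is a conjugate of `T`
  have hroot : aeval (algebraMap E₁ E₂ (s₁ t)) (minpoly F₂ T) = 0 := by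
    rw [hmin, aeval_map_algebraMap, aeval_algebraMap_apply]
    have : aeval (s₁ t) (minpoly F₁ t) = s₁ (aeval t (minpoly F₁ t)) :=
      (Polynomial.aeval_algHom_apply (s₁ : E₁ →ₐ[F₁] E₁) t (minpoly F₁ t))
    rw [this, minpoly.aeval, map_zero, map_zero]
  have hconj : IsConjRoot F₂ T (algebraMap E₁ E₂ (s₁ t)) := isConjRoot_of_aeval_eq_zero hintT hroot
  obtain ⟨σ, hσ⟩ := isConjRoot_iff_exists_algEquiv.mp hconj.symm
  refine ⟨σ, ?_⟩
  -- two `F₁`-algebra homomorphisms `E₁ → E₂` agreeing on the generator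
  let ψ : E₁ →ₐ[F₁] E₂ := IsScalarTower.toAlgHom F₁ E₁ E₂
  let g₁ : E₁ →ₐ[F₁] E₂ := ((σ.restrictScalars F₁ : E₂ ≃ₐ[F₁] E₂) : E₂ →ₐ[F₁] E₂).comp ψ
  let g₂ : E₁ →ₐ[F₁] E₂ := ψ.comp (s₁ : E₁ →ₐ[F₁] E₁)
  have hgen : Algebra.adjoin F₁ {t} = ⊤ := by
    have := IntermediateField.adjoin_simple_toSubalgebra_of_isAlgebraic hint.isAlgebraic
    rw [ht] at this
    exact this.symm
  have heq : g₁ = g₂ := by
    apply AlgHom.ext_of_adjoin_eq_top hgen
    intro x hx
    rw [Set.mem_singleton_iff] at hx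
    subst hx
    exact hσ
  intro e
  exact congrArg (fun g : E₁ →ₐ[F₁] E₂ => g e) heq

end Abs

section Along

variable {K F₁ F₂ E₁ E₂ : Type*} [Field K] [Field F₁] [Field F₂] [Field E₁] [Field E₂]
  [Algebra K F₁] [Algebra K F₂] [Algebra K E₁] [Algebra K E₂]

/-- **lifting the automorphisms of a cover along a base change of degree prime to the degree of
the cover**, along `K`-algebra homomorphisms. -/
theorem exists_lift_fixingAlong (φ₁ : F₁ →ₐ[K] E₁) (φ₂ : F₂ →ₐ[K] E₂) (a : F₁ →ₐ[K] F₂)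
    (A : E₁ →ₐ[K] E₂) (hcomm : ∀ f : F₁, A (φ₁ f) = φ₂ (a f))
    (hfin₁ : FiniteAlong K φ₁) (hfin₂ : FiniteAlong K φ₂) (hfina : FiniteAlong K a)
    (hnorm : letI := algebraAlong φ₂; Normal F₂ E₂) (t : E₁)
    (ht : letI := algebraAlong φ₁; IntermediateField.adjoin F₁ {t} = ⊤)
    (hcop : Nat.Coprime (finrankAlong K φ₁) (finrankAlong K a))
    {s₁ : E₁ ≃ₐ[K] E₁} (hs₁ : s₁ ∈ fixingAlong φ₁) :
    ∃ s₂ ∈ fixingAlong φ₂, ∀ e : E₁, s₂ (A e) = A (s₁ e) := by
  letI i1 : Algebra F₁ E₁ := algebraAlong φ₁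
  letI i2 : Algebra F₂ E₂ := algebraAlong φ₂
  letI i3 : Algebra F₁ F₂ := algebraAlong a
  letI i4 : Algebra E₁ E₂ := algebraAlong A
  letI i5 : Algebra F₁ E₂ := (φ₂.toRingHom.comp a.toRingHom).toAlgebra
  haveI := isScalarTower_along φ₁
  haveI := isScalarTower_along φ₂
  haveI t1 : IsScalarTower F₁ F₂ E₂ := IsScalarTower.of_algebraMap_eq fun x => rfl
  haveI t2 : IsScalarTower F₁ E₁ E₂ := IsScalarTower.of_algebraMap_eq fun x => (hcomm x).symm
  haveI : FiniteDimensional F₁ E₁ := hfin₁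
  haveI : FiniteDimensional F₂ E₂ := hfin₂
  haveI : FiniteDimensional F₁ F₂ := hfina
  haveI : Normal F₂ E₂ := hnorm
  obtain ⟨s₂, hs₂⟩ := exists_lift_algEquiv (F₁ := F₁) (F₂ := F₂) (E₁ := E₁) (E₂ := E₂) t ht hcop
    (fixingAlongToAlgEquiv φ₁ ⟨s₁, hs₁⟩)
  exact ⟨s₂.restrictScalars K, restrictScalars_mem_fixingAlong φ₂ s₂, fun e => hs₂ e⟩

end Along

end Fermat.Agent.ML
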