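/-
ML — helper3 — **[MSQ] leaf (b): the deck transformations of the Legendre host of level `M q` lift to
the Legendre host of level `M q q` along both degeneracy maps** (`q ≥ 5`).

`[legE K N : F_N]` is even and `≤ 6` (helper4's `Deck.deckSextic`, `Deck.deckD`), hence prime to
`q = [F_{Mqq} : A F_{Mq}] = [F_{Mqq} : B F_{Mq}]`; `ML.exists_lift_fixingAlong`.

* `deck_finrank_coprime`;
* `legDeck_lift_A`, `legDeck_lift_B`.
-/
import Mathlib
import Fermat.Agent.ML.MSQ_helper3_Lift
import Fermat.Agent.ML.DECK_helper4_Gal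
import Fermat.Agent.MW.DIV_helper1_Leg
import Fermat.Agent.S36.MODEL36_helper6_Tower
import Fermat.Agent.S35.XPORT_helper7_Main

set_option autoImplicit false
set_option linter.unusedSectionVars false
set_option linter.unusedVariables false
set_option linter.style.haveILetI false
set_option synthInstance.maxHeartbeats 400000

open Polynomial IntermediateField AlgebraicCurve ModularCurve

namespace Fermat.Agent.ML

open Fermat.Agent.FG Fermat.Agent.JA Fermat.Agent.SS Fermat.Agent.S35 Fermat.Agent.S36
  Fermat.Agent.GR Fermat.Agent.FF Fermat.Agent.X0N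

open scoped Fermat.Agent.JA.Host

noncomputable section

section Deg

variable (K : Type*) [Field K] [Algebra ℚ K] (N : ℕ) [NeZero N]

theorem deckSextic_natDegree_le : (Deck.deckSextic K N).natDegree ≤ 6 := by
  unfold Deck.deckSextic
  compute_degree

/-- **the degree of the Legendre cover over a general field is prime to every prime `q ≥ 5`.** -/
theorem deck_finrank_coprime {q : ℕ} (hq : q.Prime) (hq5 : 5 ≤ q) :
    Nat.Coprime (finrankAlong K (fullToLegE K N)) q := by
  haveI : CharZero K := algebraRat.charZero K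
  letI := algebraAlong (fullToLegE K N)
  haveI : FiniteDimensional ↥(keyFq K N) ↥(legE K N) := Deck.deck_finiteAlong K N
  haveI : CharZero ↥(legE K N) :=
    charZero_of_injective_algebraMap (algebraMap K ↥(legE K N)).injective
  have ht : IntermediateField.adjoin ↥(keyFq K N) {legTE K N} = ⊤ :=
    Deck.deck_adjoin_legTE_eq_top K N
  have hpt : aeval (legTE K N) (Deck.deckSextic K N) = 0 := by
    rw [aeval_def, eval₂_eq_eval_map]
    exact Deck.deckSextic_eval K N
  have hint : IsIntegral ↥(keyFq K N) (legTE K N) := Algebra.IsIntegral.isIntegral _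
  have h64 : (64 : ↥(legE K N)) ≠ 0 := by norm_num
  have hc : Deck.deckD K N ^ 2 =
      algebraMap ↥(keyFq K N) ↥(legE K N) ((Deck.deckJ K N - 1728) / 64) := by
    have h1 : algebraMap ↥(keyFq K N) ↥(legE K N) ((Deck.deckJ K N - 1728) / 64) =
        (legJE K N - 1728) / 64 := by
      rw [map_div₀, map_sub, map_ofNat, map_ofNat]
      congr 2
    rw [h1, ← Deck.deckD_sq K N, mul_div_cancel_left₀ _ h64]
  have h5 : Nat.Coprime (Module.finrank ↥(keyFq K N) ↥(legE K N)) 5 :=
    Fermat.Agent.MW.coprime_five_finrank_of_sextic ht (Deck.deckSextic_ne_zero K N) hpt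
      (deckSextic_natDegree_le K N) (Deck.deckD_not_mem_range K N) hc
  have h6 : Module.finrank ↥(keyFq K N) ↥(legE K N) ≤ 6 := by
    have h2 : Module.finrank ↥(keyFq K N) ↥(legE K N) =
        (minpoly ↥(keyFq K N) (legTE K N)).natDegree := by
      rw [← IntermediateField.adjoin.finrank hint, ht, IntermediateField.finrank_top']
    rw [h2]
    exact (natDegree_le_of_dvd (minpoly.dvd _ _ hpt) (Deck.deckSextic_ne_zero K N)).trans
      (deckSextic_natDegree_le K N)
  have hpos : 0 < Module.finrank ↥(keyFq K N) ↥(legE K N) := Module.finrank_pos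
  show Nat.Coprime (Module.finrank ↥(keyFq K N) ↥(legE K N)) q
  by_cases hq5' : q = 5
  · rw [hq5']; exact h5
  · have h7 : 7 ≤ q := by
      by_contra hlt
      have h6' : q = 6 := by omega
      subst h6'
      exact absurd hq (by norm_num)
    exact ((Nat.Prime.coprime_iff_not_dvd hq).2
      (Nat.not_dvd_of_pos_of_lt hpos (by omega))).symm

end Deg

section Lift

variable (K : Type*) [Field K] [Algebra ℚ K] [Algebra K ℂ] (M q : ℕ) [NeZero M] [NeZero q]
  [NeZero (M * q)] [NeZero (M * q * q)]

/-- **the deck transformations of level `M q` lift along `A`.** -/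
theorem legDeck_lift_A (hq : q.Prime) (hq5 : 5 ≤ q)
    {s₁ : ↥(legE K (M * q)) ≃ₐ[K] ↥(legE K (M * q))}
    (hs₁ : s₁ ∈ fixingAlong (fullToLegE K (M * q))) :
    ∃ s₂ ∈ fixingAlong (fullToLegE K (M * q * q)),
      ∀ e : ↥(legE K (M * q)), s₂ (legHostA K (M * q) q e) = legHostA K (M * q) q (s₁ e) := by
  haveI : CharZero K := algebraRat.charZero K
  have hdA : letI := (keyFqA K (M * q) q).toRingHom.toAlgebra
      Module.finrank ↥(keyFq K (M * q)) ↥(keyFq K (M * q * q)) = q :=
    finrank_keyFqA_of_dvd K M q hq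
  have hfinA : FiniteAlong K (keyFqA K (M * q) q) := by
    letI := (keyFqA K (M * q) q).toRingHom.toAlgebra
    exact Module.finite_of_finrank_pos (by rw [hdA]; exact hq.pos)
  have hnorm : letI := algebraAlong (fullToLegE K (M * q * q))
      Normal ↥(keyFq K (M * q * q)) ↥(legE K (M * q * q)) := by
    letI := algebraAlong (fullToLegE K (M * q * q))
    haveI := Deck.deck_isGalois K (M * q * q)
    infer_instance
  refine exists_lift_fixingAlong (fullToLegE K (M * q)) (fullToLegE K (M * q * q))
    (keyFqA K (M * q) q) (legHostA K (M * q) q)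
    (fun f => (xport_fullToLegE_keyFqA K f).symm)
    (Deck.deck_finiteAlong K (M * q)) (Deck.deck_finiteAlong K (M * q * q)) hfinA hnorm
    (legTE K (M * q)) (Deck.deck_adjoin_legTE_eq_top K (M * q)) ?_ hs₁
  have h1 := deck_finrank_coprime K (M * q) hq hq5
  have h2 : finrankAlong K (keyFqA K (M * q) q) = q := hdA
  rw [h2]
  exact h1

/-- **the deck transformations of level `M q` lift along `B`.** -/
theorem legDeck_lift_B (hq : q.Prime) (hq2 : q ≠ 2) (hq5 : 5 ≤ q)
    {s₁ : ↥(legE K (M * q)) ≃ₐ[K] ↥(legE K (M * q))}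
    (hs₁ : s₁ ∈ fixingAlong (fullToLegE K (M * q))) :
    ∃ s₂ ∈ fixingAlong (fullToLegE K (M * q * q)),
      ∀ e : ↥(legE K (M * q)),
        s₂ (legHostB K (M * q) q hq hq2 e) = legHostB K (M * q) q hq hq2 (s₁ e) := by
  haveI : CharZero K := algebraRat.charZero K
  have hdB : letI := (keyFqB K (M * q) q).toRingHom.toAlgebra
      Module.finrank ↥(keyFq K (M * q)) ↥(keyFq K (M * q * q)) = q := by
    have h1 := finrankAlong_heckeBetaBar (k := K) (M * q) q hq
    rw [if_pos (dvd_mul_left q M)] at h1
    have e : heckeBetaBar K (M * q) q = keyFqB K (M * q) q :=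
      AlgHom.ext fun c => (keyFqB_eq_heckeBetaBar K c).symm
    rw [e] at h1
    exact h1
  have hfinB : FiniteAlong K (keyFqB K (M * q) q) := by
    letI := (keyFqB K (M * q) q).toRingHom.toAlgebra
    exact Module.finite_of_finrank_pos (by rw [hdB]; exact hq.pos)
  have hnorm : letI := algebraAlong (fullToLegE K (M * q * q))
      Normal ↥(keyFq K (M * q * q)) ↥(legE K (M * q * q)) := by
    letI := algebraAlong (fullToLegE K (M * q * q))
    haveI := Deck.deck_isGalois K (M * q * q)
    infer_instance
  refine exists_lift_fixingAlong (fullToLegE K (M * q)) (fullToLegE K (M * q * q))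
    (keyFqB K (M * q) q) (legHostB K (M * q) q hq hq2)
    (fun f => (xport_fullToLegE_keyFqB K hq hq2 f).symm)
    (Deck.deck_finiteAlong K (M * q)) (Deck.deck_finiteAlong K (M * q * q)) hfinB hnorm
    (legTE K (M * q)) (Deck.deck_adjoin_legTE_eq_top K (M * q)) ?_ hs₁
  have h1 := deck_finrank_coprime K (M * q) hq hq5
  have h2 : finrankAlong K (keyFqB K (M * q) q) = q := hdB
  rw [h2]
  exact h1

end Lift

end

end Fermat.Agent.ML
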