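/-
ML — helper7 — [S59] [NEWT-L] **(D2) `LegNewDeltaQO`**: the closing step of helper6's `legNewDeltaQ`
(RB/NEWT_helper6_Delta.lean) copied VERBATIM for the literal without the (unused) hypothesis `5 ≤ p`
(all the ingredients `legNew_exists_wU`, `legNew_pos`, `legNew_cong`, `legρ_modUnit_unique` are
`5 ≤ p`-free).
-/
import Mathlib
import Fermat.Agent.ML.NEWT_helper7_Lit
import Fermat.Agent.RB.NEWT_helper6_Delta

set_option autoImplicit false
set_option linter.unusedSectionVars false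
set_option linter.unusedVariables false
set_option linter.style.haveILetI false
set_option synthInstance.maxHeartbeats 400000

open HahnSeries IntermediateField AlgebraicCurve ModularCurve IsLocalRing

namespace Fermat.Agent.ML

open Fermat.Agent.RB

open Fermat.Agent.JA Fermat.Agent.FF Fermat.Agent.SS Fermat.Agent.S35 Fermat.Agent.Igusa
  Fermat.Agent.NP Fermat.Agent.MW.NAdic Fermat.Agent.MW Fermat.Agent.FG Fermat.Agent.MP
  Fermat.Agent.GR Fermat.Agent.X0N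

open scoped Fermat.Agent.JA.Host

/-- `Ω = AlgebraicClosure ℚ`. -/
local notation "Ω" => AlgebraicClosure ℚ

set_option maxHeartbeats 1600000 in
/-- **(D2) [NEW-DELTA]**, every prime `p ≠ q`. -/
theorem legNewDeltaQO : LegNewDeltaQO := by
  intro M _ q _ _ _ hq2 hqM p hp hpq A hA
  classical
  haveI := legEt_principal_red hA M hqM hq2
  by_cases hex : ∃ (K₀ : IntermediateField ℚ Ω)
      (_ : IsDiscreteValuationRing ↥(baseRing A K₀)), IsBase q K₀
  · obtain ⟨K₀, hdvr, hK₀⟩ := hex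
    haveI := hdvr
    obtain ⟨wU₀, hwU₀, hcU₀⟩ := legNew_exists_wU M q hqM A hA K₀ hK₀
    have hW₀ : fullToLegE Ω M (keyFqBC M K₀ wU₀) ∈ legWE hA M hq2 :=
      redDict_mem_legWE M hA hq2 K₀ wU₀ ((mem_keyFqWinf_iff _ _ _ wU₀).mp hwU₀)
    obtain ⟨hūne, hpos⟩ := legNew_pos M q hq2 hqM A hA K₀ hK₀ wU₀ hwU₀ hcU₀ hW₀
    obtain ⟨DU, hDU, -⟩ := HasPrincipalDivisors.exists_divisor (K := ResidueField ↥A) _ hūne
    have hZ := hpos DU hDU
    obtain ⟨c₀, m, hm, hZm⟩ := Nat.exists_eq_pow_mul_and_not_dvd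
      (Int.natAbs_ne_zero.mpr hZ.ne') p hp.ne_one
    have hZ' : legNcDeg hA M hq2 DU = ((p ^ c₀ * m : ℕ) : ℤ) := by
      rw [← hZm, Int.natCast_natAbs, abs_of_pos hZ]
    refine ⟨c₀, ?_⟩
    intro k K₁ _ K' _ f₀ H ϖ hϖ h2 x y hbez ainf a0 hfinf hf0
    obtain ⟨wU, hwU, hcU⟩ := legNew_exists_wU M q hqM A hA K' H.base
    have hW : fullToLegE Ω M (keyFqBC M K' wU) ∈ legWE hA M hq2 :=
      redDict_mem_legWE M hA hq2 K' wU ((mem_keyFqWinf_iff _ _ _ wU).mp hwU)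
    have huniq := legρ_modUnit_unique M hA hq2 K' K₀ wU hwU hcU wU₀ hwU₀ hcU₀ hW hW₀
    have hDU' : ∀ Q, DU Q = Q.ord (legρ hA M hq2 ⟨fullToLegE Ω M (keyFqBC M K' wU), hW⟩) :=
      fun Q => by rw [huniq]; exact hDU Q
    have hdvd := legNew_cong M q hq2 hqM (pow_ne_zero k hp.ne_zero) A hA K₁ K' f₀ H ϖ hϖ h2
      hbez ainf a0 hfinf hf0 wU hwU hcU hW DU hDU'
    rw [hZ'] at hdvd
    exact pow_dvd_pow_mul_of_dvd_mul_h6 hp hm k _ hdvd
  · refine ⟨0, ?_⟩
    intro k K₁ _ K' hdvr f₀ H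
    exact absurd ⟨K', hdvr, H.base⟩ hex

end Fermat.Agent.ML
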