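/-
PROJECT ML (S59) — helper8 — **[REMOVE-P], interface**: the S40-form of the Mazur–Ribet theorem
("`p` can be removed from the level of a curve with good reduction at `p`"), for `p ∈ {3, 5}`.

* `RemovePAt p` : the frozen statement S40 at the prime `p`;
* `RemovePStatement` : `RemovePAt 3 ∧ RemovePAt 5`.
-/
import Mathlib
import Fermat.Prelude.Def_FLTPrelim_ModularRep

set_option autoImplicit false

namespace Fermat.Agent.ML

/-- **[REMOVE-P] at `p`**: a curve `W/ℤ` with good reduction at the odd prime `p` and irreducible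
`W[p]`, residually modular of a level `M` exactly divisible by `p`, is residually modular of level
`M / p` (the frozen statement S40 at the prime `p`). -/
def RemovePAt (p : ℕ) : Prop :=
  ∀ (W : WeierstrassCurve ℤ), W.Δ ≠ 0 → p.Prime → p ≠ 2 → W.IsGoodPrimeFor p →
    W.ModRepIsIrreducible p → ∀ {M : ℕ}, 0 < M → p ∣ M → ¬ p ^ 2 ∣ M →
    W.IsResiduallyModularOfLevel p M → W.IsResiduallyModularOfLevel p (M / p)

/-- **[REMOVE-P]**, `p ∈ {3, 5}`. -/
def RemovePStatement : Prop :=
  RemovePAt 3 ∧ RemovePAt 5

end Fermat.Agent.ML
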