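/-
PROJECT ML (S59) — [REPT-L] part A (helper9): **the prime `p`, top level.**

* `exists_frobenius_at` : every place over `p` has a Frobenius lift;
* `ordQuotScalar_ofResidual_of_line`, `frobScalar_residue` : the residue of the Frobenius scalar
  of an ordinary lift is the residual scalar (`IsResChain.ord_p`: the sign);
* `old_point_relation`, `new_point_relation` : helper2's `AtPOldPointStatement` /
  `AtPNewPointStatement` read on the Hecke algebra of the top level of the chain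
  (`LevelGalois Y ρbar Nb Sres Q` with `Nb = M p`), at a point `ψ : heckeAlg Y Sres → B`.
-/
import Mathlib
import Fermat.Agent.ML.REPTL_helper9_LevelOf
import Fermat.Agent.RB.GLUE_helper9_Residual

set_option autoImplicit false
set_option linter.unusedSectionVars false
set_option linter.unusedVariables false
set_option linter.style.haveILetI false

namespace Fermat.Agent.ML.REPTL

open Polynomial IsLocalRing Fermat.Agent.RB Fermat.Agent.RB.REPT CuspForm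
open Fermat.Agent.GR Fermat.Agent.LR

local notation "Ω" => AlgebraicClosure ℚ
local notation "GQ" => (AlgebraicClosure ℚ ≃ₐ[ℚ] AlgebraicClosure ℚ)

/-- every place over `p` has a Frobenius lift. -/
theorem exists_frobenius_at {p : ℕ} (hp : p.Prime) {P : ValuationSubring Ω}
    (hP : P.LiesOverPrime p) : ∃ φ : GQ, P.IsFrobeniusAt φ p := by
  obtain ⟨P₀, φ₀, hP₀, hφ₀⟩ := Fermat.Agent.S54.exists_frobenius p hp
  obtain ⟨g, rfl⟩ := Fermat.Agent.EC.exists_smul_eq_of_liesOverPrime hp hP₀ hP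
  exact ⟨g * φ₀ * g⁻¹, Fermat.Agent.RB.SEL.isFrobeniusAt_conj g hφ₀⟩

section Residue

variable {k : Type} [Field k] {T : Type} [CommRing T] [IsLocalRing T]

/-- the residual shape at `p` (`IsResChain.ord_p`) as an `OrdQuotScalar`. -/
theorem ordQuotScalar_ofResidual_of_line (ρbar : ResidualGaloisRep k) {P : ValuationSubring Ω}
    {φ : GQ} {s : k} (Lbar : Submodule k ρbar.V)
    (hv : ∃ v : ρbar.V, v ≠ 0 ∧ Lbar = Submodule.span k {v})
    (hD : ∀ σ ∈ P.decompositionSubgroup ℚ, ∀ v ∈ Lbar, ρbar.ρ σ v ∈ Lbar)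
    (hI : ∀ σ ∈ P.inertiaSubgroupIn ℚ, ∀ v : ρbar.V, ρbar.ρ σ v - v ∈ Lbar)
    (hφ : ∀ v : ρbar.V, ρbar.ρ φ v - s • v ∈ Lbar) :
    OrdQuotScalar (GaloisRepAdic.ofResidualGaloisRep ρbar) P φ s := by
  obtain ⟨v, hv0, rfl⟩ := hv
  obtain ⟨w, hvw⟩ := exists_linearIndependent_pair_of_one_lt_finrank
    (by rw [ρbar.finrank_eq]; norm_num : 1 < Module.finrank k ρbar.V) hv0
  obtain ⟨b, hb⟩ : ∃ b : Module.Basis (Fin 2) k ρbar.V, b 0 = v := by
    refine ⟨basisOfLinearIndependentOfCardEqFinrank hvw (by rw [ρbar.finrank_eq]; rfl), ?_⟩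
    rw [coe_basisOfLinearIndependentOfCardEqFinrank]; rfl
  subst hb
  exact ⟨Submodule.span k {b 0}, ⟨b, rfl⟩, hD, hI, hφ⟩

variable (ρ : GaloisRepAdic T) (ψ : k →+* ResidueField T) (ρbar : ResidualGaloisRep k)
  (hres : ρ.residual.IsEquiv (ρbar.baseChangeAlong ψ))

include hres in
/-- **the residue of the Frobenius scalar of a lift is the residual scalar.** -/
theorem frobScalar_residue {P : ValuationSubring Ω} {σ τ : GQ}
    (hσ : σ ∈ P.decompositionSubgroup ℚ) (hτ : τ ∈ P.inertiaSubgroupIn ℚ)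
    (hu : IsUnit (LinearMap.det (ρ.ρ τ) - 1)) {U : T} {s : k}
    (hU : OrdQuotScalar ρ P σ U)
    (hs : OrdQuotScalar (GaloisRepAdic.ofResidualGaloisRep ρbar) P σ s) :
    residue T U = ψ s := by
  have h1 := congrArg (residue T) (ordQuotScalar_formula ρ hU hσ hτ)
  have h2 := congrArg ψ (ordQuotScalar_formula (GaloisRepAdic.ofResidualGaloisRep ρbar) hs hσ hτ)
  rw [map_mul, map_sub, map_sub, map_mul, map_one] at h1 h2
  have e1 : ∀ g : GQ, ψ ((GaloisRepAdic.ofResidualGaloisRep ρbar).trace g) =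
      residue T (ρ.trace g) := fun g =>
    (Fermat.Agent.RB.GLUE.residue_trace ρ ψ ρbar hres g).symm
  have e2 : ∀ g : GQ, ψ (LinearMap.det ((GaloisRepAdic.ofResidualGaloisRep ρbar).ρ g)) =
      residue T (LinearMap.det (ρ.ρ g)) := fun g =>
    (Fermat.Agent.RB.GLUE.residue_det ρ ψ ρbar hres g).symm
  rw [e1, e1, e2] at h2
  have hu' : IsUnit (residue T (LinearMap.det (ρ.ρ τ)) - 1) := by
    have := hu.map (residue T)
    rwa [map_sub, map_one] at this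
  exact hu'.mul_left_injective (h1.trans h2.symm)

end Residue

section TopPoint

variable {𝒪 : Type} [CommRing 𝒪] [IsDomain 𝒪] [IsDiscreteValuationRing 𝒪]
  [IsAdicComplete (maximalIdeal 𝒪) 𝒪] [Finite (ResidueField 𝒪)] [CharZero 𝒪]
  {p r d n : ℕ} {Y : TWModSide 𝒪 p r d n} {ρbar : ResidualGaloisRep (ResidueField 𝒪)}
  {Sres : Finset ℕ} {Q : Fin r → ℕ}

/-- **the old points**: `z² - a'_p z + p = 0`. -/
theorem old_point_relation (hOld : AtPOldPointStatement) (hp : p.Prime) (hp2 : p ≠ 2)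
    (hp𝒪 : (p : 𝒪) ∈ maximalIdeal 𝒪) {Nb : ℕ} [NeZero Nb]
    (LG : LevelGalois Y ρbar Nb Sres Q)
    {M : ℕ} [NeZero M] [NeZero (M * p)] (hNb : Nb = M * p) (hpM : ¬ p ∣ M)
    (hNS : ∀ q : ℕ, q.Prime → q ∣ Nb → q ∈ Sres)
    (hord : (GaloisRepAdic.ofResidualGaloisRep ρbar).IsOrdinaryAt p)
    {P : ValuationSubring Ω} (hP : P.LiesOverPrime p) (σ : GQ) (hσ : P.IsFrobeniusAt σ p)
    (z : LG.Tb) (hz : OrdQuotScalar LG.datum.ρ P σ z)
    (B : Type) [CommRing B] [IsDomain B] [IsDiscreteValuationRing B]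
    [IsAdicComplete (maximalIdeal B) B] [Finite (ResidueField B)] [CharZero B]
    (ψ : heckeAlg Y Sres →+* B)
    (hψ : IsLocalHom (ψ.comp (LG.f : LG.Tb →+* heckeAlg Y Sres)))
    (Lf : Type) [Field Lf] [Algebra B Lf] [IsFractionRing B Lf]
    (M' : ℕ) [NeZero M'] (hM' : M' ∣ M) (a' : Nat.Primes → B)
    (hocc : eigenPar M' Lf (mapSys B Lf a') ≠ ⊥)
    (ha : ∀ (ℓ : ℕ) (hℓ : ℓ.Prime) (hℓS : ℓ ∉ Sres), a' ⟨ℓ, hℓ⟩ = ψ (TtH Y ⟨ℓ, hℓ⟩ hℓS)) :
    ψ (LG.f z) ^ 2 - a' ⟨p, hp⟩ * ψ (LG.f z) + (p : B) = 0 := by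
  subst hNb
  haveI := hψ
  have hres := isOrdinaryAt_ofResidual_of_isEquiv _ ρbar _ LG.residual_isEquiv hord
  exact hOld hp hp2 hpM hp𝒪 hNS LG.datum hres hP σ hσ z hz B
    (ψ.comp (LG.f : LG.Tb →+* heckeAlg Y Sres)) Lf M' hM' a' hocc
    (fun ℓ hℓ hℓN hℓS => by
      have hℓS' : ℓ ∉ Sres := fun h => hℓS (Finset.mem_coe.2 h)
      rw [ha ℓ hℓ hℓS', RingHom.comp_apply]
      exact congrArg ψ (LG.f_T ℓ hℓ hℓN hℓS hℓS').symm)

/-- **the new points**: `z² = 1`. -/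
theorem new_point_relation (hNew : AtPNewPointStatement) (hp : p.Prime) (hp2 : p ≠ 2)
    (hp𝒪 : (p : 𝒪) ∈ maximalIdeal 𝒪) {Nb : ℕ} [NeZero Nb]
    (LG : LevelGalois Y ρbar Nb Sres Q)
    {M : ℕ} [NeZero M] [NeZero (M * p)] (hNb : Nb = M * p) (hpM : ¬ p ∣ M)
    (hNS : ∀ q : ℕ, q.Prime → q ∣ Nb → q ∈ Sres)
    (hord : (GaloisRepAdic.ofResidualGaloisRep ρbar).IsOrdinaryAt p)
    {P : ValuationSubring Ω} (hP : P.LiesOverPrime p) (σ : GQ) (hσ : P.IsFrobeniusAt σ p)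
    (z : LG.Tb) (hz : OrdQuotScalar LG.datum.ρ P σ z)
    (B : Type) [CommRing B] [IsDomain B] [IsDiscreteValuationRing B]
    [IsAdicComplete (maximalIdeal B) B] [Finite (ResidueField B)] [CharZero B]
    (ψ : heckeAlg Y Sres →+* B)
    (hψ : IsLocalHom (ψ.comp (LG.f : LG.Tb →+* heckeAlg Y Sres)))
    (Lf : Type) [Field Lf] [Algebra B Lf] [IsFractionRing B Lf]
    (M' : ℕ) [NeZero M'] (hM' : M' ∣ M)
    {q : ℕ} (hq : q.Prime) (hqp : q = p) (hqM' : ¬ q ∣ M') [NeZero (M' * q)]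
    (a : Nat.Primes → B)
    (ha : ∀ (ℓ : ℕ) (hℓ : ℓ.Prime) (hℓS : ℓ ∉ Sres), a ⟨ℓ, hℓ⟩ = ψ (TtH Y ⟨ℓ, hℓ⟩ hℓS))
    (hkill : ∃ v ∈ eigenPar (M' * q) Lf (mapSys B Lf a),
      v ≠ 0 ∧ pushA M' q hq hqM' Lf v = 0 ∧ pushB M' q hq hqM' Lf v = 0) :
    ψ (LG.f z) ^ 2 = 1 := by
  subst hNb
  subst hqp
  haveI := hψ
  have hres := isOrdinaryAt_ofResidual_of_isEquiv _ ρbar _ LG.residual_isEquiv hord
  exact hNew hp hp2 hpM hp𝒪 hNS LG.datum hres hP σ hσ z hz B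
    (ψ.comp (LG.f : LG.Tb →+* heckeAlg Y Sres)) Lf M' hM' hqM' a
    (fun ℓ hℓ hℓN hℓS => by
      have hℓS' : ℓ ∉ Sres := fun h => hℓS (Finset.mem_coe.2 h)
      rw [ha ℓ hℓ hℓS', RingHom.comp_apply]
      exact congrArg ψ (LG.f_T ℓ hℓ hℓN hℓS hℓS').symm) hkill

end TopPoint

end Fermat.Agent.ML.REPTL
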