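/-
PROJECT ML (S59) — [REPT-L] part A (helper9): **the inertia ideal through traces.**

For a residually absolutely irreducible `ρ : G_ℚ → GL₂(A)` the matrices `ρ(τ)` span `M₂(A)`, and
the trace pairing is perfect; so the matrix coefficients of `ρ(σ) - 1` lie in the ideal generated
by the `tr ρ(σ τ) - tr ρ(τ)`.

* `entries_mem_of_trace_mul_mem` : full span + `tr(N r(g)) ∈ J` for all `g` ⟹ the entries of `N`
  lie in `J`;
* `map_eq_one_of_trace` : `tr ρ(σ τ) = tr ρ(τ)` for all `τ` ⟹ `ρ(σ) = 1`;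
* `inertiaIdeal_le_span_trace` : `inertiaIdeal ρ v ≤ ⟨tr ρ(σ τ) - tr ρ(τ) : σ ∈ I_v, τ⟩`;
* `isUnramifiedAt_of_trace` : unramifiedness from the traces.
-/
import Mathlib
import Fermat.Agent.RB.REPT_helper1_MatRep
import Fermat.Agent.RB.IFACE_helper9_Datum

set_option autoImplicit false
set_option linter.unusedSectionVars false
set_option linter.unusedVariables false
set_option linter.style.haveILetI false

namespace Fermat.Agent.ML.REPTL

open Polynomial IsLocalRing Fermat.Agent.S53 Fermat.Agent.S53.L1 Fermat.Agent.RB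
  Fermat.Agent.RB.REPT

local notation "Ω" => AlgebraicClosure ℚ
local notation "GQ" => (AlgebraicClosure ℚ ≃ₐ[ℚ] AlgebraicClosure ℚ)

section Pairing

variable {A : Type*} [CommRing A] {G : Type*} [Monoid G]

/-- the trace pairing against a full-span family detects the entries modulo an ideal. -/
theorem entries_mem_of_trace_mul_mem (J : Ideal A) (r : G →* Mat2 A) (hfull : FullSpan r)
    (N : Mat2 A) (h : ∀ g, (N * r g).trace ∈ J) (i j : Fin 2) : N i j ∈ J := by
  let S : Submodule A (Mat2 A) :=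
    { carrier := {X | (N * X).trace ∈ J}
      add_mem' := fun {X Y} hX hY => by
        show (N * (X + Y)).trace ∈ J
        rw [mul_add, Matrix.trace_add]
        exact J.add_mem hX hY
      zero_mem' := by
        show (N * 0).trace ∈ J
        rw [mul_zero, Matrix.trace_zero]
        exact J.zero_mem
      smul_mem' := fun c X hX => by
        show (N * (c • X)).trace ∈ J
        rw [Matrix.mul_smul, Matrix.trace_smul, smul_eq_mul]
        exact J.mul_mem_left _ hX }
  have h1 : Submodule.span A (Set.range r) ≤ S := by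
    rw [Submodule.span_le]
    rintro _ ⟨g, rfl⟩
    exact h g
  unfold FullSpan at hfull
  rw [hfull] at h1
  have h2 : (Matrix.single j i (1 : A) : Mat2 A) ∈ S := h1 Submodule.mem_top
  have h3 : (N * Matrix.single j i (1 : A)).trace ∈ J := h2
  have h4 : (N * Matrix.single j i (1 : A)).trace = N i j := by
    rw [Matrix.trace_fin_two]
    fin_cases i <;> fin_cases j <;> simp [Matrix.mul_apply, Matrix.single_apply]
  rwa [h4] at h3

end Pairing

section Rep

variable {A : Type} [CommRing A] [IsLocalRing A] (ρ : GaloisRepAdic A)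

/-- the matrix coefficients of `ρ(σ) - 1` lie in `J` as soon as the `tr ρ(σ τ) - tr ρ(τ)` do. -/
theorem matRep_sub_one_mem_of_trace (habs : ρ.residual.IsAbsolutelyIrreducible)
    (b : Module.Basis (Fin 2) A ρ.V) (J : Ideal A) (σ : GQ)
    (h : ∀ τ : GQ, ρ.trace (σ * τ) - ρ.trace τ ∈ J) (i j : Fin 2) :
    (matRep ρ b σ - 1) i j ∈ J := by
  refine entries_mem_of_trace_mul_mem J (matRep ρ b) (fullSpan_matRep ρ b habs) _ (fun τ => ?_) i j
  have e : (matRep ρ b σ - 1) * matRep ρ b τ = matRep ρ b (σ * τ) - matRep ρ b τ := by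
    rw [sub_mul, one_mul, map_mul]
  rw [e, Matrix.trace_sub, trace_matRep, trace_matRep]
  exact h τ

/-- **`tr ρ(σ τ) = tr ρ(τ)` for all `τ` implies `ρ(σ) = 1`.** -/
theorem map_eq_one_of_trace (habs : ρ.residual.IsAbsolutelyIrreducible) (σ : GQ)
    (h : ∀ τ : GQ, ρ.trace (σ * τ) = ρ.trace τ) : ρ.ρ σ = 1 := by
  classical
  let b : Module.Basis (Fin 2) A ρ.V := Module.finBasisOfFinrankEq A ρ.V ρ.finrank_eq
  have h1 : matRep ρ b σ - 1 = 0 := by
    ext i j
    have := matRep_sub_one_mem_of_trace ρ habs b ⊥ σ (fun τ => by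
      rw [Ideal.mem_bot, sub_eq_zero]; exact h τ) i j
    rwa [Ideal.mem_bot] at this
  have h2 : matRep ρ b σ = 1 := sub_eq_zero.1 h1
  rw [matRep_apply] at h2
  have h3 : LinearMap.toMatrix b b (ρ.ρ σ) = LinearMap.toMatrix b b (1 : Module.End A ρ.V) := by
    rw [h2]
    exact (LinearMap.toMatrix_one b).symm
  exact (LinearMap.toMatrix b b).injective h3

/-- **the inertia ideal is generated by trace differences.** -/
theorem inertiaIdeal_le_span_trace (habs : ρ.residual.IsAbsolutelyIrreducible) (v : ℕ) :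
    inertiaIdeal ρ v ≤ Ideal.span {a : A | ∃ (P : ValuationSubring Ω) (_ : P.LiesOverPrime v)
      (σ : GQ) (_ : σ ∈ P.inertiaSubgroupIn ℚ) (τ : GQ), a = ρ.trace (σ * τ) - ρ.trace τ} := by
  classical
  let b : Module.Basis (Fin 2) A ρ.V := Module.finBasisOfFinrankEq A ρ.V ρ.finrank_eq
  unfold inertiaIdeal
  rw [Ideal.span_le]
  rintro _ ⟨P, hP, σ, hσ, x, φ, rfl⟩
  set J : Ideal A := Ideal.span {a : A | ∃ (P : ValuationSubring Ω) (_ : P.LiesOverPrime v)
      (σ : GQ) (_ : σ ∈ P.inertiaSubgroupIn ℚ) (τ : GQ), a = ρ.trace (σ * τ) - ρ.trace τ} with hJ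
  have hN : ∀ i j, (matRep ρ b σ - 1) i j ∈ J := fun i j =>
    matRep_sub_one_mem_of_trace ρ habs b J σ (fun τ =>
      Ideal.subset_span ⟨P, hP, σ, hσ, τ, rfl⟩) i j
  -- expand `ρ(σ) x - x` in the basis
  have hx : ρ.ρ σ x - x = ∑ i, (∑ j, (matRep ρ b σ - 1) i j * b.repr x j) • b i := by
    have h1 : ρ.ρ σ x - x = (ρ.ρ σ - 1) x := by
      rw [LinearMap.sub_apply, Module.End.one_apply]
    rw [h1]
    have h2 : (ρ.ρ σ - 1) x = ∑ i, b.repr ((ρ.ρ σ - 1) x) i • b i := (b.sum_repr _).symm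
    rw [h2]
    refine Finset.sum_congr rfl fun i _ => ?_
    congr 1
    have h3 := LinearMap.toMatrix_mulVec_repr b b (ρ.ρ σ - 1) x
    have h4 := congrFun h3 i
    rw [← h4, Matrix.mulVec, dotProduct]
    refine Finset.sum_congr rfl fun j _ => ?_
    rw [map_sub, matRep_apply, LinearMap.toMatrix_one b]
  show φ (ρ.ρ σ x - x) ∈ J
  rw [hx, map_sum]
  refine J.sum_mem fun i _ => ?_
  rw [map_smul, smul_eq_mul]
  refine J.mul_mem_right _ (J.sum_mem fun j _ => ?_)
  exact J.mul_mem_right _ (hN i j)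

/-- **unramifiedness through traces.** -/
theorem isUnramifiedAt_of_trace (habs : ρ.residual.IsAbsolutelyIrreducible) (v : ℕ)
    (h : ∀ (P : ValuationSubring Ω), P.LiesOverPrime v → ∀ σ ∈ P.inertiaSubgroupIn ℚ,
      ∀ τ : GQ, ρ.trace (σ * τ) = ρ.trace τ) : ρ.IsUnramifiedAt v := by
  intro P hP σ hσ
  exact map_eq_one_of_trace ρ habs σ (h P hP σ hσ)

end Rep

end Fermat.Agent.ML.REPTL
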