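/-
PROJECT ML (S59) — [REPT-L] part A (helper9): **the chain algebra, the formal fields of
`TWChainGalois`.**

`L : TWModChainLevel …`; `T` a commutative `𝒪`-algebra with `f₁ : T → heckeAlg (side last) Sres`
(the trace ring, a subring of `heckeAlg(top) × 𝒪`) and a representation `ρ'` over `T` whose traces
map to the traces of the top level.  `hh i = E i ∘ f₁ : T → End (H i)`.

* `hh_iota`, `hh_beta`, `commute_g_hh`;
* `omega j = beta j 0 - sgn j • beta j 1` : `omega_hh`, `omega_g`, `omega_surjective`,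
  `omega_iota_zero/one`;
* with the representations `R i` of the levels: `hh_trace`, `keyH_hh`, `unr_hh`, `omega_iota_q_hh`;
* `ctl_trace_hh`.
-/
import Mathlib
import Fermat.Agent.ML.REPTL_helper9_LevelRep
import Fermat.Agent.ML.REPTL_helper9_TraceIdeal

set_option autoImplicit false
set_option linter.unusedSectionVars false
set_option linter.unusedVariables false
set_option linter.style.haveILetI false

namespace Fermat.Agent.ML.REPTL

open Polynomial IsLocalRing Fermat.Agent.RB Fermat.Agent.RB.REPT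

local notation "Ω" => AlgebraicClosure ℚ
local notation "GQ" => (AlgebraicClosure ℚ ≃ₐ[ℚ] AlgebraicClosure ℚ)

section Side

variable {𝒪 : Type} [CommRing 𝒪] {p r d n : ℕ} (Y : TWModSide 𝒪 p r d n)

/-- a level of rank `0` is zero. -/
theorem subsingleton_of_rank_zero (hd : d = 0) : Subsingleton Y.H := by
  subst hd
  haveI : IsEmpty (Fin 0 × (Fin r → Fin (p ^ n))) := ⟨fun x => x.1.elim0⟩
  refine ⟨fun x y => ?_⟩
  obtain ⟨cx, rfl⟩ := Y.free.2 x
  obtain ⟨cy, rfl⟩ := Y.free.2 y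
  rw [Subsingleton.elim cx cy]

end Side

section Chain

variable {𝒪 : Type} [CommRing 𝒪] [IsDomain 𝒪] [IsDiscreteValuationRing 𝒪]
  [IsAdicComplete (maximalIdeal 𝒪) 𝒪]
  {p : ℕ} {lam : 𝒪} {c : Nat.Primes → 𝒪} {m : ℕ} {Nl : Fin (m + 1) → ℕ} [∀ i, NeZero (Nl i)]
  {qc : Fin m → ℕ} {hqc : ∀ j, (qc j).Prime} {d : Fin (m + 1) → ℕ} {r n : ℕ} {Q : Fin r → ℕ}
  {Nt Nbig : Fin (m + 1) → ℕ} [∀ i, NeZero (Nt i)] [∀ i, NeZero (Nbig i)]
  [∀ j : Fin m, NeZero (Nbig j.castSucc * qc j)] {hqN : ∀ j : Fin m, ¬ qc j ∣ Nbig j.castSucc}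
  (L : TWModChainLevel p lam c Nl qc hqc d r n Q Nt Nbig hqN)
  (Sres : Finset ℕ)
  (hS : ∀ ℓ : ℕ, ℓ ∉ Sres → ℓ ∉ badSet p (Nl (Fin.last m)) ∪ Set.range Q)
  (hNl : ∀ j : Fin m, Nl j.succ = Nl j.castSucc * qc j)
  {T : Type} [CommRing T] [Algebra 𝒪 T]
  (f₁ : T →ₐ[𝒪] heckeAlg (L.side (Fin.last m)) Sres)

/-- **the action of the trace ring on the level `i`.** -/
noncomputable def hh (i : Fin (m + 1)) : T →ₐ[𝒪] Module.End 𝒪 (L.side i).H :=
  (E L Sres hS hNl i).comp f₁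

theorem hh_apply (i : Fin (m + 1)) (t : T) :
    hh L Sres hS hNl f₁ i t = E L Sres hS hNl i (f₁ t) := rfl

theorem hh_last (t : T) :
    hh L Sres hS hNl f₁ (Fin.last m) t =
      ((f₁ t : heckeAlg (L.side (Fin.last m)) Sres) : Module.End 𝒪 (L.side (Fin.last m)).H) :=
  E_last L Sres hS hNl (f₁ t)

theorem hh_iota (j : Fin m) (c' : Fin 2) (t : T) (x : (L.side j.castSucc).H) :
    L.iota j c' (hh L Sres hS hNl f₁ j.castSucc t x) =
      hh L Sres hS hNl f₁ j.succ t (L.iota j c' x) :=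
  iota_E L Sres hS hNl j c' (f₁ t) x

theorem hh_beta (j : Fin m) (c' : Fin 2) (t : T) (x : (L.side j.succ).H) :
    L.beta j c' (hh L Sres hS hNl f₁ j.succ t x) =
      hh L Sres hS hNl f₁ j.castSucc t (L.beta j c' x) :=
  beta_E L Sres hS hNl j c' (f₁ t) x

theorem commute_g_hh (i : Fin (m + 1)) (q : Fin r) (t : T) :
    Commute ((L.side i).g q) (hh L Sres hS hNl f₁ i t) :=
  commute_g_E L Sres hS hNl i q (f₁ t)

/-! ### the level lowering map -/

/-- **the level lowering map** `beta j 0 - sgn j • beta j 1`. -/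
noncomputable def omega (sgn : Fin m → 𝒪) (j : Fin m) :
    (L.side j.succ).H →ₗ[𝒪] (L.side j.castSucc).H :=
  L.beta j 0 - sgn j • L.beta j 1

theorem omega_apply (sgn : Fin m → 𝒪) (j : Fin m) (x : (L.side j.succ).H) :
    omega L sgn j x = L.beta j 0 x - sgn j • L.beta j 1 x := rfl

theorem omega_hh (sgn : Fin m → 𝒪) (j : Fin m) (t : T) (x : (L.side j.succ).H) :
    omega L sgn j (hh L Sres hS hNl f₁ j.succ t x) =
      hh L Sres hS hNl f₁ j.castSucc t (omega L sgn j x) := by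
  rw [omega_apply, omega_apply, hh_beta, hh_beta, map_sub, map_smul]

theorem omega_g (sgn : Fin m → 𝒪) (j : Fin m) (q : Fin r) (x : (L.side j.succ).H) :
    omega L sgn j ((L.side j.succ).g q x) = (L.side j.castSucc).g q (omega L sgn j x) := by
  rw [omega_apply, omega_apply, L.beta_g, L.beta_g, map_sub, map_smul]

theorem omega_surjective (sgn : Fin m → 𝒪) (j : Fin m) :
    Function.Surjective (omega L sgn j) := by
  intro y
  obtain ⟨x, hx⟩ := L.beta_surjective j (fun c' => if c' = 0 then y else 0)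
  refine ⟨x, ?_⟩
  rw [omega_apply, hx 0, hx 1]
  simp

theorem omega_iota_zero (sgn : Fin m → 𝒪) (j : Fin m) (x : (L.side j.castSucc).H) :
    omega L sgn j (L.iota j 0 x) = ((qc j : 𝒪) + 1) • x - sgn j • L.Tq j x := by
  rw [omega_apply, L.beta_iota, L.beta_iota, if_pos rfl, if_neg (by decide)]

theorem omega_iota_one (sgn : Fin m → 𝒪) (j : Fin m) (x : (L.side j.castSucc).H) :
    omega L sgn j (L.iota j 1 x) = L.Tq j x - sgn j • ((qc j : 𝒪) + 1) • x := by
  rw [omega_apply, L.beta_iota, L.beta_iota, if_neg (by decide), if_pos rfl]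

/-- **`omega ∘ iota` through an element of `T` acting as `(q + 1) - sgn · T_q`.** -/
theorem omega_iota_of_eq (sgn : Fin m → 𝒪) (hsgn : ∀ j, sgn j ^ 2 = 1) (j : Fin m) (t : T)
    (ht : hh L Sres hS hNl f₁ j.castSucc t =
      algebraMap 𝒪 (Module.End 𝒪 (L.side j.castSucc).H) ((qc j : 𝒪) + 1) - sgn j • L.Tq j)
    (c' : Fin 2) (x : (L.side j.castSucc).H) :
    ∃ y : (L.side j.castSucc).H,
      omega L sgn j (L.iota j c' x) = hh L Sres hS hNl f₁ j.castSucc t y := by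
  have hsq : sgn j * sgn j = 1 := by rw [← pow_two]; exact hsgn j
  fin_cases c'
  · refine ⟨x, ?_⟩
    show omega L sgn j (L.iota j 0 x) = _
    rw [omega_iota_zero, ht]
    simp [Algebra.algebraMap_eq_smul_one]
  · refine ⟨-(sgn j • x), ?_⟩
    show omega L sgn j (L.iota j 1 x) = _
    rw [omega_iota_one, ht]
    simp only [LinearMap.sub_apply, LinearMap.smul_apply, map_neg, map_smul,
      Algebra.algebraMap_eq_smul_one, Module.End.one_apply]
    rw [smul_sub, smul_smul (sgn j) (sgn j), hsq, one_smul]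
    abel

/-! ### the representations of the levels -/

variable [IsLocalRing T] (ρ' : GaloisRepAdic T)
  {ρbar : ResidualGaloisRep (ResidueField 𝒪)}
  {Sb : Fin (m + 1) → Finset ℕ}
  (Rt : LevelRep (L.side (Fin.last m)) ρbar (Sb (Fin.last m)) Sres (Nl (Fin.last m)) Q)
  (hf₁ : ∀ σ : GQ, f₁ (ρ'.trace σ) = Rt.tr σ)

/-- the Frobenius traces of a level are its Hecke operators. -/
theorem tr_frob {i : Fin (m + 1)} (Ri : LevelRep (L.side i) ρbar (Sb i) Sres (Nl i) Q)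
    (ℓ : ℕ) (hℓ : ℓ.Prime) (hℓS : ℓ ∉ Sb i) (P : ValuationSubring Ω) (hP : P.LiesOverPrime ℓ)
    (σ : GQ) (hσ : P.IsFrobeniusAt σ ℓ) :
    ((Ri.tr σ : heckeAlg (L.side i) Sres) : Module.End 𝒪 (L.side i).H) = (L.side i).Tt ⟨ℓ, hℓ⟩ :=
  Ri.trace_frob ℓ hℓ hℓS P hP σ hσ

include hf₁ in
/-- the traces act through the traces of the level. -/
theorem hh_trace (i : Fin (m + 1)) (Ri : LevelRep (L.side i) ρbar (Sb i) Sres (Nl i) Q) (σ : GQ) :
    hh L Sres hS hNl f₁ i (ρ'.trace σ) =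
      ((Ri.tr σ : heckeAlg (L.side i) Sres) : Module.End 𝒪 (L.side i).H) := by
  rw [hh_apply, hf₁]
  exact E_trace L Sres hS hNl Rt i Ri σ

include hf₁ in
/-- **(KEY-H)** for the action of the trace ring. -/
theorem keyH_hh (i : Fin (m + 1)) (Ri : LevelRep (L.side i) ρbar (Sb i) Sres (Nl i) Q)
    (q : Fin r) :
    ∃ (P : ValuationSubring Ω) (_ : P.LiesOverPrime (Q q)) (σ : GQ)
      (_ : σ ∈ P.inertiaSubgroupIn ℚ),
      hh L Sres hS hNl f₁ i (ρ'.trace σ) = (L.side i).g q + (L.side i).g q ^ (p ^ n - 1) := by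
  obtain ⟨P, hP, σ, hσ, h⟩ := Ri.keyH q
  refine ⟨P, hP, σ, hσ, ?_⟩
  rw [hh_trace L Sres hS hNl f₁ ρ' Rt hf₁ i Ri σ]
  exact h

include hf₁ in
/-- **the inertia ideal at a prime where the level `i` is unramified acts as zero.** -/
theorem unr_hh (habs : ρ'.residual.IsAbsolutelyIrreducible) (i : Fin (m + 1))
    (Ri : LevelRep (L.side i) ρbar (Sb i) Sres (Nl i) Q) (v : ℕ) (hv : v.Prime)
    (hvS : v ∉ Sb i) (a : T) (ha : a ∈ RB.inertiaIdeal ρ' v) :
    hh L Sres hS hNl f₁ i a = 0 := by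
  have h1 := inertiaIdeal_le_span_trace ρ' habs v ha
  have hker : Ideal.span {a : T | ∃ (P : ValuationSubring Ω) (_ : P.LiesOverPrime v)
      (σ : GQ) (_ : σ ∈ P.inertiaSubgroupIn ℚ) (τ : GQ),
        a = ρ'.trace (σ * τ) - ρ'.trace τ} ≤
      RingHom.ker (hh L Sres hS hNl f₁ i : T →+* Module.End 𝒪 (L.side i).H) := by
    rw [Ideal.span_le]
    rintro _ ⟨P, hP, σ, hσ, τ, rfl⟩
    show (hh L Sres hS hNl f₁ i : T →+* Module.End 𝒪 (L.side i).H) _ = 0
    show hh L Sres hS hNl f₁ i (ρ'.trace (σ * τ) - ρ'.trace τ) = 0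
    rw [map_sub, hh_trace L Sres hS hNl f₁ ρ' Rt hf₁ i Ri, hh_trace L Sres hS hNl f₁ ρ' Rt hf₁ i Ri]
    haveI := Ri.isLocalRingA
    have h2 : Ri.ρ.ρ σ = 1 := Ri.unr v hv hvS P hP σ hσ
    have h3 : Ri.tr (σ * τ) = Ri.tr τ := by
      show Ri.ρ.trace (σ * τ) = Ri.ρ.trace τ
      unfold GaloisRepAdic.trace
      rw [map_mul, h2, one_mul]
    rw [h3, sub_self]
  exact hker h1

include hf₁ in
/-- **`omega ∘ iota = ± (q + 1 - sgn · T_q)` at a chain prime `q ≠ p`.** -/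
theorem omega_iota_q_hh (sgn : Fin m → 𝒪) (hsgn : ∀ j, sgn j ^ 2 = 1) (j : Fin m)
    (hjp : qc j ≠ p)
    (Ri : LevelRep (L.side j.castSucc) ρbar (Sb j.castSucc) Sres (Nl j.castSucc) Q)
    (hqS : qc j ∉ Sb j.castSucc)
    (P : ValuationSubring Ω) (hP : P.LiesOverPrime (qc j)) (φ : GQ)
    (hφ : P.IsFrobeniusAt φ (qc j)) (c' : Fin 2) (x : (L.side j.castSucc).H) :
    ∃ y : (L.side j.castSucc).H, omega L sgn j (L.iota j c' x) =
      hh L Sres hS hNl f₁ j.castSucc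
        (((qc j : ℕ) : T) + 1 - algebraMap 𝒪 T (sgn j) * ρ'.trace φ) y := by
  refine omega_iota_of_eq L Sres hS hNl f₁ sgn hsgn j _ ?_ c' x
  rw [map_sub, map_add, map_one, map_mul, AlgHom.commutes, map_natCast,
    hh_trace L Sres hS hNl f₁ ρ' Rt hf₁ j.castSucc Ri φ,
    tr_frob L Sres Ri (qc j) (hqc j) hqS P hP φ hφ, L.Tq_eq j hjp]
  ext y
  simp only [LinearMap.sub_apply, LinearMap.add_apply, Module.End.mul_apply,
    Algebra.algebraMap_eq_smul_one, LinearMap.smul_apply, Module.End.one_apply,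
    Module.End.natCast_apply, add_smul, one_smul, Nat.cast_smul_eq_nsmul]

/-! ### control -/

include hf₁ in
/-- the control map intertwines the traces with `tr0`. -/
theorem ctl_trace_hh {M0 : Type} [AddCommGroup M0] [Module 𝒪 M0]
    (ctl : (L.side (Fin.last m)).H →ₗ[𝒪] M0) (tr0 : GQ → Module.End 𝒪 M0)
    (htr0 : ∀ (σ : GQ) (x : (L.side (Fin.last m)).H),
      ctl (((Rt.tr σ : heckeAlg (L.side (Fin.last m)) Sres) :
        Module.End 𝒪 (L.side (Fin.last m)).H) x) = tr0 σ (ctl x))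
    (σ : GQ) (x : (L.side (Fin.last m)).H) :
    ctl (hh L Sres hS hNl f₁ (Fin.last m) (ρ'.trace σ) x) = tr0 σ (ctl x) := by
  rw [hh_last, hf₁]
  exact htr0 σ x

end Chain

end Fermat.Agent.ML.REPTL
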