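/-
PROJECT ML (S59) — [REPT-L] part A (helper9): **reduced finite `𝒪`-algebras and their points.**

* `exists_smul_eq_sq_mul` : in a reduced commutative algebra `A`, integral over a domain `𝒪`, every
  element `a` satisfies `c • a = a² b` for some `c ≠ 0` ("von Neumann regular up to torsion");
* `smul_eq_zero_of_sq` : hence on a torsion-free module, `t² m = 0 → t m = 0` (annihilators of
  subsets are radical ideals);
* `mem_of_forall_point` : for a radical and saturated ideal `I` of a finite `𝒪`-algebra `R`, an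
  element which vanishes at all DVR points of `R` killing `I` lies in `I`.
-/
import Mathlib
import Fermat.Agent.RB.REPT_helper1_Points
import Fermat.Agent.RB.REPT_helper1_Sub

set_option autoImplicit false
set_option linter.unusedSectionVars false
set_option linter.unusedVariables false
set_option linter.style.haveILetI false

namespace Fermat.Agent.ML.REPTL

open Polynomial IsLocalRing Fermat.Agent.RB.REPT

section VNR

variable {𝒪 : Type*} [CommRing 𝒪] [IsDomain 𝒪] {A : Type*} [CommRing A] [Algebra 𝒪 A]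

/-- a monic polynomial is `X ^ k * q` with `q` monic and `q(0) ≠ 0`. -/
theorem exists_eq_X_pow_mul (P : 𝒪[X]) (hP : P.Monic) :
    ∃ (k : ℕ) (q : 𝒪[X]), P = X ^ k * q ∧ q.coeff 0 ≠ 0 := by
  induction h : P.natDegree using Nat.strong_induction_on generalizing P with
  | _ n ih =>
    by_cases h0 : P.coeff 0 = 0
    · obtain ⟨q, hq⟩ := X_dvd_iff.mpr h0
      have hq0 : q ≠ 0 := by
        rintro rfl
        rw [mul_zero] at hq
        exact hP.ne_zero hq
      have hqm : q.Monic := by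
        have := hP
        rw [hq] at this
        exact (Monic.of_mul_monic_left monic_X this)
      have hdeg : q.natDegree < n := by
        rw [← h, hq, natDegree_X_mul hq0]
        omega
      obtain ⟨k, q', hq', hq'0⟩ := ih q.natDegree hdeg q hqm rfl
      refine ⟨k + 1, q', ?_, hq'0⟩
      rw [hq, hq', pow_succ']
      ring
    · exact ⟨0, P, by rw [pow_zero, one_mul], h0⟩

/-- **von Neumann regularity up to torsion.** -/
theorem exists_smul_eq_sq_mul [IsReduced A] (a : A) (ha : IsIntegral 𝒪 a) :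
    ∃ (c : 𝒪) (b : A), c ≠ 0 ∧ c • a = a ^ 2 * b := by
  obtain ⟨P, hP, hPa⟩ := ha
  obtain ⟨k, q, hPq, hq0⟩ := exists_eq_X_pow_mul P hP
  have hPa' : aeval a P = 0 := by rwa [aeval_def]
  rw [hPq, map_mul, map_pow, aeval_X] at hPa'
  -- `a * q(a) = 0`
  have h1 : a * aeval a q = 0 := by
    have : (a * aeval a q) ^ (k + 1) = 0 := by
      have h' : (a * aeval a q) ^ (k + 1) = (a ^ k * aeval a q) * (a * aeval a q ^ k) := by ring
      rw [h', hPa', zero_mul]
    exact IsReduced.eq_zero _ ⟨k + 1, this⟩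
  -- `q = q(0) + X * q₁`
  obtain ⟨q₁, hq₁⟩ : ∃ q₁ : 𝒪[X], q = C (q.coeff 0) + X * q₁ := by
    refine ⟨q.divX, ?_⟩
    conv_lhs => rw [← divX_mul_X_add q]
    ring
  refine ⟨q.coeff 0, -aeval a q₁, hq0, ?_⟩
  have h2 : aeval a q = algebraMap 𝒪 A (q.coeff 0) + a * aeval a q₁ := by
    conv_lhs => rw [hq₁]
    rw [map_add, aeval_C, map_mul, aeval_X]
  rw [h2, mul_add] at h1
  rw [Algebra.smul_def, mul_comm]
  have : a * algebraMap 𝒪 A (q.coeff 0) = -(a * (a * aeval a q₁)) := eq_neg_of_add_eq_zero_left h1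
  rw [this]
  ring

/-- on a torsion-free module the annihilators are radical. -/
theorem smul_eq_zero_of_sq [IsReduced A] [Algebra.IsIntegral 𝒪 A] {M : Type*} [AddCommGroup M]
    [Module 𝒪 M] [Module A M] [IsScalarTower 𝒪 A M]
    (htf : ∀ (c : 𝒪) (x : M), c ≠ 0 → c • x = 0 → x = 0) (t : A) (x : M)
    (h : (t ^ 2) • x = 0) : t • x = 0 := by
  obtain ⟨c, b, hc, hcb⟩ := exists_smul_eq_sq_mul (𝒪 := 𝒪) t (Algebra.IsIntegral.isIntegral t)
  refine htf c _ hc ?_
  rw [← smul_assoc, hcb, mul_comm, mul_smul, h, smul_zero]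

end VNR

section Points

variable {𝒪 : Type} [CommRing 𝒪] [IsDomain 𝒪] [IsDiscreteValuationRing 𝒪]
  [IsAdicComplete (maximalIdeal 𝒪) 𝒪] [CharZero 𝒪] [Finite (ResidueField 𝒪)]
  {R : Type} [CommRing R] [Algebra 𝒪 R] [Module.Finite 𝒪 R]

/-- a minimal prime of a torsion-free `𝒪`-algebra lies over `0`. -/
theorem comap_eq_bot_of_mem_minimalPrimes' {A : Type} [CommRing A] [Algebra 𝒪 A]
    (htf : ∀ (c : 𝒪) (x : A), c ≠ 0 → c • x = 0 → x = 0)
    {𝔭 : Ideal A} (h𝔭 : 𝔭 ∈ minimalPrimes A) : 𝔭.comap (algebraMap 𝒪 A) = ⊥ := by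
  rw [eq_bot_iff]
  intro a ha
  rw [Ideal.mem_bot]
  by_contra ha0
  have hnzd : algebraMap 𝒪 A a ∈ nonZeroDivisors A := by
    rw [mem_nonZeroDivisors_iff_right]
    intro x hx
    have h1 : a • x = 0 := by rw [Algebra.smul_def, mul_comm]; exact hx
    exact htf a x ha0 h1
  exact Set.disjoint_left.1 (Ideal.disjoint_nonZeroDivisors_of_mem_minimalPrimes h𝔭) ha hnzd

/-- **the points killing a radical saturated ideal cut it out.** -/
theorem mem_of_forall_point (I : Ideal R) (hrad : I.IsRadical)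
    (hsat : ∀ (c : 𝒪) (t : R), c ≠ 0 → c • t ∈ I → t ∈ I) (a : R)
    (h : ∀ P : DVRPoint 𝒪 R, I ≤ RingHom.ker (P.ψ : R →+* P.B) → P.ψ a = 0) : a ∈ I := by
  haveI : IsReduced (R ⧸ I) := (Ideal.isRadical_iff_quotient_reduced I).1 hrad
  have htf : ∀ (c : 𝒪) (x : R ⧸ I), c ≠ 0 → c • x = 0 → x = 0 := by
    intro c x hc hx
    obtain ⟨t, rfl⟩ := Ideal.Quotient.mk_surjective x
    rw [← Ideal.Quotient.mkₐ_eq_mk 𝒪, ← map_smul, Ideal.Quotient.mkₐ_eq_mk,
      Ideal.Quotient.eq_zero_iff_mem] at hx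
    rw [Ideal.Quotient.eq_zero_iff_mem]
    exact hsat c t hc hx
  rw [← Ideal.Quotient.eq_zero_iff_mem]
  have hnil : (⊥ : Ideal (R ⧸ I)) = sInf (minimalPrimes (R ⧸ I)) := by
    have h1 : sInf ((⊥ : Ideal (R ⧸ I)).minimalPrimes) = (⊥ : Ideal (R ⧸ I)).radical :=
      Ideal.sInf_minimalPrimes
    have h2 : (⊥ : Ideal (R ⧸ I)).radical = ⊥ := nilradical_eq_zero (R ⧸ I)
    rw [← h2, ← h1]
  have hmem : Ideal.Quotient.mk I a ∈ (⊥ : Ideal (R ⧸ I)) := by
    rw [hnil, Ideal.mem_sInf]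
    intro 𝔭 h𝔭
    haveI : 𝔭.IsPrime := h𝔭.1.1
    obtain ⟨P, hP⟩ := exists_point_of_prime (𝒪 := 𝒪) 𝔭
      (comap_eq_bot_of_mem_minimalPrimes' htf h𝔭)
    let P' : DVRPoint 𝒪 R :=
      { B := P.B
        injective := P.injective
        ψ := P.ψ.comp (Ideal.Quotient.mkₐ 𝒪 I) }
    have hP' : I ≤ RingHom.ker (P'.ψ : R →+* P'.B) := by
      intro t ht
      rw [RingHom.mem_ker]
      show P.ψ (Ideal.Quotient.mk I t) = 0
      rw [Ideal.Quotient.eq_zero_iff_mem.2 ht, map_zero]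
    have h1 : P.ψ (Ideal.Quotient.mk I a) = 0 := h P' hP'
    rw [← hP]
    exact h1
  exact hmem

end Points

end Fermat.Agent.ML.REPTL
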