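/-
PROJECT ML (S59) — [REPT-L] part A (helper9): **the `q`-new quotient** (`TWChainGalois.new_q`,
`new_p`): an element `a` of the Hecke algebra of the top level which
  (i)  kills `ker β₀ ∩ ker β₁ ⊂ H (j+1)` (checked at the points, `kill_of_points`), and
  (ii) is `κ ((q + 1)² - t²)` with `t` acting on `H j` as `Tq j`
maps `H (j+1)` into `im (ι₀ + ι₁)`  (`new_of_kill`).

Proof of `new_of_kill`: `β (a h) = a β h = κ Θ adj(Θ) β h = β α (κ adj(Θ) β h)` with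
`Θ = β α = [[q+1, T_q],[T_q, q+1]]`, so `a h - α(…) ∈ ker β` and `a² h ∈ im α`; the Hecke algebra is
reduced, so `c a = a² b` with `c ≠ 0` (`exists_smul_eq_sq_mul`), and `im α` is saturated (`retr`).
-/
import Mathlib
import Fermat.Agent.ML.REPTL_helper9_Core
import Fermat.Agent.ML.REPTL_helper9_Points
import Fermat.Agent.ML.IFACE_helper5_SteinbergKill
import Fermat.Prelude.Thm_IsLocalRing_isAdicComplete_of_module_finite

set_option autoImplicit false
set_option linter.unusedSectionVars false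
set_option linter.unusedVariables false
set_option linter.style.haveILetI false

namespace Fermat.Agent.ML.REPTL

open Polynomial IsLocalRing Fermat.Agent.RB Fermat.Agent.RB.REPT

local notation "Ω" => AlgebraicClosure ℚ
local notation "GQ" => (AlgebraicClosure ℚ ≃ₐ[ℚ] AlgebraicClosure ℚ)

section Side

variable {𝒪 : Type} [CommRing 𝒪] [IsDomain 𝒪] [IsDiscreteValuationRing 𝒪]
  [IsAdicComplete (maximalIdeal 𝒪) 𝒪] [CharZero 𝒪] [Finite (ResidueField 𝒪)]
  {p r d n : ℕ} (Y : TWModSide 𝒪 p r d n)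

/-- **an element of the algebra which vanishes at all points killing the annihilator of `K ⊂ H`
kills `K`** (`alg` reduced). -/
theorem kill_of_points_side (hred : ∀ t : Y.alg, t ^ 2 = 0 → t = 0) (K : Set Y.H) (a : Y.alg)
    (hpt : ∀ P : DVRPoint 𝒪 Y.alg,
      (∀ t : Y.alg, (∀ h ∈ K, (t : Module.End 𝒪 Y.H) h = 0) → P.ψ t = 0) → P.ψ a = 0) :
    ∀ h ∈ K, (a : Module.End 𝒪 Y.H) h = 0 := by
  haveI : IsReduced Y.alg := (isReduced_iff_pow_one_lt 2 one_lt_two).2 hred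
  haveI : Module.Finite 𝒪 Y.alg := finite_alg Y
  -- the annihilator of `K`
  let I : Ideal Y.alg :=
    { carrier := {t | ∀ h ∈ K, (t : Module.End 𝒪 Y.H) h = 0}
      add_mem' := by
        intro t t' ht ht' h hh
        show ((t + t' : Y.alg) : Module.End 𝒪 Y.H) h = 0
        rw [Subalgebra.coe_add, LinearMap.add_apply, ht h hh, ht' h hh, add_zero]
      zero_mem' := by
        intro h _
        show ((0 : Y.alg) : Module.End 𝒪 Y.H) h = 0
        rw [Subalgebra.coe_zero, LinearMap.zero_apply]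
      smul_mem' := by
        intro s t ht h hh
        show ((s * t : Y.alg) : Module.End 𝒪 Y.H) h = 0
        rw [Subalgebra.coe_mul, Module.End.mul_apply, ht h hh, map_zero] }
  have hImem : ∀ t : Y.alg, t ∈ I ↔ ∀ h ∈ K, (t : Module.End 𝒪 Y.H) h = 0 := fun t => Iff.rfl
  have hsat : ∀ (c₀ : 𝒪) (t : Y.alg), c₀ ≠ 0 → c₀ • t ∈ I → t ∈ I := by
    intro c₀ t hc₀ ht h hh
    have h1 := ht h hh
    have h2 : ((c₀ • t : Y.alg) : Module.End 𝒪 Y.H) h = c₀ • (t : Module.End 𝒪 Y.H) h := by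
      rw [Subalgebra.coe_smul, LinearMap.smul_apply]
    rw [h2] at h1
    exact (smul_eq_zero.mp h1).resolve_left hc₀
  have hrad : I.IsRadical := by
    rw [Ideal.isRadical_iff_pow_one_lt 2 one_lt_two]
    intro t ht
    obtain ⟨c₀, b, hc₀, hcb⟩ := exists_smul_eq_sq_mul (𝒪 := 𝒪) t
      (Algebra.IsIntegral.isIntegral t)
    refine hsat c₀ t hc₀ ?_
    rw [hcb, mul_comm]
    exact I.mul_mem_left b ht
  have := mem_of_forall_point (𝒪 := 𝒪) I hrad hsat a (fun P hP => hpt P fun t ht => by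
    have : t ∈ RingHom.ker (P.ψ : Y.alg →+* P.B) := hP ((hImem t).2 ht)
    exact this)
  exact (hImem a).1 this

end Side

section Chain

variable {𝒪 : Type} [CommRing 𝒪] [IsDomain 𝒪] [IsDiscreteValuationRing 𝒪]
  [IsAdicComplete (maximalIdeal 𝒪) 𝒪]
  {p : ℕ} {lam : 𝒪} {c : Nat.Primes → 𝒪} {m : ℕ} {Nl : Fin (m + 1) → ℕ} [∀ i, NeZero (Nl i)]
  {qc : Fin m → ℕ} {hqc : ∀ j, (qc j).Prime} {d : Fin (m + 1) → ℕ} {r n : ℕ} {Q : Fin r → ℕ}
  {Nt Nbig : Fin (m + 1) → ℕ} [∀ i, NeZero (Nt i)] [∀ i, NeZero (Nbig i)]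
  [∀ j : Fin m, NeZero (Nbig j.castSucc * qc j)] {hqN : ∀ j : Fin m, ¬ qc j ∣ Nbig j.castSucc}
  (L : TWModChainLevel p lam c Nl qc hqc d r n Q Nt Nbig hqN)
  (Sres : Finset ℕ)
  (hS : ∀ ℓ : ℕ, ℓ ∉ Sres → ℓ ∉ badSet p (Nl (Fin.last m)) ∪ Set.range Q)
  (hNl : ∀ j : Fin m, Nl j.succ = Nl j.castSucc * qc j)

/-- the sum of the two degeneracy maps -/
noncomputable def alphaSum (j : Fin m) (y : Fin 2 → (L.side j.castSucc).H) : (L.side j.succ).H :=
  ∑ c', L.iota j c' (y c')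

theorem beta_alphaSum (j : Fin m) (y : Fin 2 → (L.side j.castSucc).H) :
    L.beta j 0 (alphaSum L j y) = ((qc j : 𝒪) + 1) • y 0 + L.Tq j (y 1) ∧
    L.beta j 1 (alphaSum L j y) = L.Tq j (y 0) + ((qc j : 𝒪) + 1) • y 1 := by
  unfold alphaSum
  rw [Fin.sum_univ_two, map_add, map_add, L.beta_iota, L.beta_iota, L.beta_iota, L.beta_iota]
  simp

/-- the image of the degeneracy maps is saturated. -/
theorem alphaSum_saturated (j : Fin m) (c₀ : 𝒪) (hc₀ : c₀ ≠ 0) (w : (L.side j.succ).H)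
    (y : Fin 2 → (L.side j.castSucc).H) (h : c₀ • w = alphaSum L j y) :
    w = alphaSum L j (fun c' => L.retr j c' w) := by
  have h1 : ∀ c', L.retr j c' (c₀ • w) = y c' := by
    intro c'
    rw [h]
    unfold alphaSum
    rw [map_sum]
    simp only [L.retr_iota]
    rw [Finset.sum_ite_eq]
    simp
  have h2 : c₀ • (w - alphaSum L j (fun c' => L.retr j c' w)) = 0 := by
    rw [smul_sub, h]
    unfold alphaSum
    rw [Finset.smul_sum, sub_eq_zero]
    refine Finset.sum_congr rfl fun c' _ => ?_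
    rw [← map_smul, ← map_smul, h1]
  have h3 := (smul_eq_zero.mp h2).resolve_left hc₀
  exact sub_eq_zero.mp h3

include hS hNl in
/-- `E (j+1) t` maps `im α` to `im α`. -/
theorem E_alphaSum (j : Fin m) (t : heckeAlg (L.side (Fin.last m)) Sres)
    (y : Fin 2 → (L.side j.castSucc).H) :
    E L Sres hS hNl j.succ t (alphaSum L j y) =
      alphaSum L j (fun c' => E L Sres hS hNl j.castSucc t (y c')) := by
  unfold alphaSum
  rw [map_sum]
  refine Finset.sum_congr rfl fun c' _ => ?_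
  rw [iota_E]

include hS hNl in
/-- **from `a (ker β) = 0` to `a H ⊂ im α`.** -/
theorem new_of_kill [IsReduced (heckeAlg (L.side (Fin.last m)) Sres)] (j : Fin m)
    (tq κ a : heckeAlg (L.side (Fin.last m)) Sres)
    (ha : a = κ * (algebraMap 𝒪 _ ((qc j : 𝒪) + 1) ^ 2 - tq ^ 2))
    (htq : E L Sres hS hNl j.castSucc tq = L.Tq j)
    (hkill : ∀ h : (L.side j.succ).H, (∀ c', L.beta j c' h = 0) →
      E L Sres hS hNl j.succ a h = 0)
    (x : (L.side j.succ).H) :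
    ∃ y : Fin 2 → (L.side j.castSucc).H,
      E L Sres hS hNl j.succ a x = ∑ c', L.iota j c' (y c') := by
  classical
  obtain ⟨E₀, hE₀⟩ : ∃ E₀, E₀ = E L Sres hS hNl j.castSucc := ⟨_, rfl⟩
  obtain ⟨E₁, hE₁⟩ : ∃ E₁, E₁ = E L Sres hS hNl j.succ := ⟨_, rfl⟩
  obtain ⟨s, hs⟩ : ∃ s : 𝒪, s = (qc j : 𝒪) + 1 := ⟨_, rfl⟩
  obtain ⟨K, hK⟩ : ∃ K : Module.End 𝒪 (L.side j.castSucc).H, K = E₀ κ := ⟨_, rfl⟩
  obtain ⟨Tq, hTq⟩ : ∃ Tq : Module.End 𝒪 (L.side j.castSucc).H, Tq = L.Tq j := ⟨_, rfl⟩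
  rw [← hE₀] at htq
  rw [← hE₁] at hkill ⊢
  have hcomm : ∀ v, Tq (K v) = K (Tq v) := by
    intro v
    have : E₀ κ * E₀ tq = E₀ tq * E₀ κ := by rw [← map_mul, ← map_mul, mul_comm]
    rw [htq, ← hK, ← hTq] at this
    exact (LinearMap.congr_fun this v).symm
  -- `E₀ a = K ∘ (s² - Tq²)`
  have hE₀a : ∀ v, E₀ a v = K (s • s • v - Tq (Tq v)) := by
    intro v
    rw [ha, map_mul, map_sub, map_pow, map_pow, AlgHom.commutes, htq, ← hs, ← hK, ← hTq]
    simp only [Module.End.mul_apply, LinearMap.sub_apply, pow_two, Module.algebraMap_end_apply]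
  -- the correction term
  obtain ⟨u0, hu0⟩ : ∃ u0, u0 = L.beta j 0 x := ⟨_, rfl⟩
  obtain ⟨u1, hu1⟩ : ∃ u1, u1 = L.beta j 1 x := ⟨_, rfl⟩
  obtain ⟨y₀, hy₀⟩ : ∃ y₀ : Fin 2 → (L.side j.castSucc).H, y₀ = fun c' =>
    if c' = 0 then K (s • u0 - Tq u1) else K (s • u1 - Tq u0) := ⟨_, rfl⟩
  have hy00 : y₀ 0 = K (s • u0 - Tq u1) := by rw [hy₀]; exact if_pos rfl
  have hy01 : y₀ 1 = K (s • u1 - Tq u0) := by rw [hy₀]; exact if_neg (by decide)
  have hb0 : L.beta j 0 (alphaSum L j y₀) = s • y₀ 0 + Tq (y₀ 1) := by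
    rw [(beta_alphaSum L j y₀).1, hs, hTq]
  have hb1 : L.beta j 1 (alphaSum L j y₀) = Tq (y₀ 0) + s • y₀ 1 := by
    rw [(beta_alphaSum L j y₀).2, hs, hTq]
  have hβE : ∀ c', L.beta j c' (E₁ a x) = E₀ a (L.beta j c' x) := by
    intro c'
    rw [hE₁, hE₀, beta_E]
  have hker : ∀ c', L.beta j c' (E₁ a x - alphaSum L j y₀) = 0 := by
    intro c'
    rw [map_sub, hβE, hE₀a]
    fin_cases c'
    · show K (s • s • L.beta j 0 x - Tq (Tq (L.beta j 0 x))) - L.beta j 0 (alphaSum L j y₀) = 0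
      rw [hb0, hy00, hy01, ← hu0, ← map_smul K s, hcomm, ← map_add, ← map_sub]
      have : s • s • u0 - Tq (Tq u0) - (s • (s • u0 - Tq u1) + Tq (s • u1 - Tq u0)) = 0 := by
        rw [map_sub, map_smul, smul_sub]; abel
      rw [this, map_zero]
    · show K (s • s • L.beta j 1 x - Tq (Tq (L.beta j 1 x))) - L.beta j 1 (alphaSum L j y₀) = 0
      rw [hb1, hy00, hy01, ← hu1, ← map_smul K s, hcomm, ← map_add, ← map_sub]
      have : s • s • u1 - Tq (Tq u1) - (Tq (s • u0 - Tq u1) + s • (s • u1 - Tq u0)) = 0 := by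
        rw [map_sub, map_smul, smul_sub]; abel
      rw [this, map_zero]
  -- `a² x ∈ im α`
  have h2 : E₁ a (E₁ a x) = alphaSum L j (fun c' => E₀ a (y₀ c')) := by
    have := hkill _ hker
    rw [map_sub, sub_eq_zero] at this
    rw [this, hE₁, hE₀, E_alphaSum]
  -- `c₀ a = a² b`
  haveI : Module.Finite 𝒪 (heckeAlg (L.side (Fin.last m)) Sres) := finite_heckeAlg _ _
  obtain ⟨c₀, b, hc₀, hcb⟩ := exists_smul_eq_sq_mul (𝒪 := 𝒪) a
    (Algebra.IsIntegral.isIntegral a)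
  have h3 : c₀ • E₁ a x = alphaSum L j (fun c' => E₀ b (E₀ a (y₀ c'))) := by
    have h4 : c₀ • E₁ a x = E₁ (c₀ • a) x := by rw [map_smul]; rfl
    rw [h4, hcb, pow_two, mul_comm, map_mul, map_mul, Module.End.mul_apply,
      Module.End.mul_apply, h2, hE₁, hE₀, E_alphaSum]
  exact ⟨_, alphaSum_saturated L j c₀ hc₀ _ _ h3⟩

/-! ### `new_q` -/

section NewQ

variable [CharZero 𝒪] [Finite (ResidueField 𝒪)]
  {T : Type} [CommRing T] [Algebra 𝒪 T] [IsLocalRing T] [IsLocalHom (algebraMap 𝒪 T)]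
  [Module.Finite 𝒪 T]
  (f₁ : T →ₐ[𝒪] heckeAlg (L.side (Fin.last m)) Sres) (ρ' : GaloisRepAdic T)
  {ρbar : ResidualGaloisRep (ResidueField 𝒪)}
  {Sb : Fin (m + 1) → Finset ℕ}
  (Rt : LevelRep (L.side (Fin.last m)) ρbar (Sb (Fin.last m)) Sres (Nl (Fin.last m)) Q)
  (hf₁ : ∀ σ : GQ, f₁ (ρ'.trace σ) = Rt.tr σ)

/-- the point of `T` attached to a point of the algebra of the level `i`. -/
noncomputable def pointOf (i : Fin (m + 1)) (P : DVRPoint 𝒪 (L.side i).alg) : T →ₐ[𝒪] P.B :=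
  P.ψ.comp ((heckeIncl (L.side i) Sres).comp ((EA L Sres hS hNl i).comp f₁))

theorem pointOf_apply (i : Fin (m + 1)) (P : DVRPoint 𝒪 (L.side i).alg) (t : T) :
    pointOf L Sres hS hNl f₁ i P t =
      P.ψ (heckeIncl (L.side i) Sres (EA L Sres hS hNl i (f₁ t))) := rfl

theorem coe_heckeIncl_EA (i : Fin (m + 1)) (t : heckeAlg (L.side (Fin.last m)) Sres) :
    ((heckeIncl (L.side i) Sres (EA L Sres hS hNl i t) : (L.side i).alg) :
      Module.End 𝒪 (L.side i).H) = E L Sres hS hNl i t := rfl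

include hf₁ in
/-- **`new_q`**: the `qc j`-new quotient is Steinberg at `qc j ≠ p`. -/
theorem new_q_hh (hSK : SteinbergOfKillStatement) [Fact p.Prime] (hp2 : p ≠ 2)
    (hp𝒪 : (p : 𝒪) ∈ maximalIdeal 𝒪)
    (habs : ρ'.residual.IsAbsolutelyIrreducible)
    (hcharT : ∀ (ℓ : ℕ) (hℓ : ℓ.Prime) (hℓS : ℓ ∉ Sres) (P : ValuationSubring Ω),
      P.LiesOverPrime ℓ → ∀ φ : GQ, P.IsFrobeniusAt φ ℓ →
        (LinearMap.charpoly (ρ'.ρ φ)).map (f₁ : T →+* heckeAlg (L.side (Fin.last m)) Sres) =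
          X ^ 2 - C (TtH (L.side (Fin.last m)) ⟨ℓ, hℓ⟩ hℓS) * X +
            C ((ℓ : ℕ) : heckeAlg (L.side (Fin.last m)) Sres))
    (j : Fin m) (hjp : qc j ≠ p)
    (P : ValuationSubring Ω) (hP : P.LiesOverPrime (qc j)) (φ : GQ)
    (hφ : P.IsFrobeniusAt φ (qc j))
    (htq : E L Sres hS hNl j.castSucc (Rt.tr φ) = L.Tq j)
    (x : (L.side j.succ).H) :
    ∃ y : Fin 2 → (L.side j.castSucc).H,
      hh L Sres hS hNl f₁ j.succ (ρ'.trace φ ^ 2 - (((qc j : ℕ) : T) + 1) ^ 2) x =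
        ∑ c', L.iota j c' (y c') := by
  classical
  haveI : IsReduced (heckeAlg (L.side (Fin.last m)) Sres) := by
    refine (isReduced_iff_pow_one_lt 2 one_lt_two).2 fun t ht => ?_
    have h1 : heckeIncl (L.side (Fin.last m)) Sres t = 0 := by
      refine (L.occ (Fin.last m)).reduced _ ?_
      rw [← map_pow, ht, map_zero]
    exact heckeIncl_injective _ _ (h1.trans (map_zero _).symm)
  -- the element of the top Hecke algebra
  obtain ⟨a, ha⟩ : ∃ a : heckeAlg (L.side (Fin.last m)) Sres,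
      a = Rt.tr φ ^ 2 - algebraMap 𝒪 _ ((qc j : 𝒪) + 1) ^ 2 := ⟨_, rfl⟩
  have hfa : f₁ (ρ'.trace φ ^ 2 - (((qc j : ℕ) : T) + 1) ^ 2) = a := by
    rw [ha, map_sub, map_pow, map_pow, map_add, map_one, map_natCast, hf₁, map_add, map_one,
      map_natCast]
  rw [hh_apply, hfa]
  refine new_of_kill L Sres hS hNl j (Rt.tr φ) (-1) a (by rw [ha]; ring) htq ?_ x
  -- the points
  intro h hh0
  have key := kill_of_points_side (L.side j.succ) (L.occ j.succ).reduced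
    {h | ∀ c', L.beta j c' h = 0}
    (heckeIncl (L.side j.succ) Sres (EA L Sres hS hNl j.succ a)) ?_ h hh0
  · exact key
  intro Pt hPt
  obtain ⟨B', iCR, iDom, iDVR, iAlg, iFin, hinj, L', iF, iAlgL, iFrac, a', ha', v, hv, hv0, hvA, hvB⟩ :=
    L.occ_new j Pt.B Pt.ψ (fun t ht => hPt t (fun h hh => ht h hh))
  letI := iCR
  letI := iDom
  letI := iDVR
  letI := iAlg
  letI := iFin
  letI := iF
  letI := iAlgL
  letI := iFrac
  haveI : CharZero B' := charZero_of_injective_algebraMap hinj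
  haveI : FaithfulSMul Pt.B B' := (faithfulSMul_iff_algebraMap_injective Pt.B B').mpr hinj
  haveI : Algebra.IsIntegral Pt.B B' := Algebra.IsIntegral.of_finite Pt.B B'
  haveI : IsLocalHom (algebraMap Pt.B B') := Algebra.IsIntegral.isLocalHom Pt.B B'
  haveI : IsAdicComplete (maximalIdeal B') B' :=
    IsLocalRing.isAdicComplete_of_module_finite (𝒪 := Pt.B)
  haveI : NeZero (qc j) := ⟨(hqc j).ne_zero⟩
  -- the point of `T`
  have hloc₀ : IsLocalHom (pointOf L Sres hS hNl f₁ j.succ Pt : T →+* Pt.B) :=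
    isLocalHom_of_finite _
  obtain ⟨ψ, hψ⟩ : ∃ ψ : T →+* B', ψ = (algebraMap Pt.B B').comp
      (pointOf L Sres hS hNl f₁ j.succ Pt : T →+* Pt.B) := ⟨_, rfl⟩
  haveI : IsLocalHom ψ := by
    rw [hψ]
    exact RingHom.isLocalHom_comp _ _
  have hpB' : (p : B') ∈ maximalIdeal B' := by
    have h1 : (p : B') = ψ (algebraMap 𝒪 T (p : 𝒪)) := by
      rw [map_natCast, map_natCast]
    rw [h1]
    have h2 : ¬ IsUnit (algebraMap 𝒪 T (p : 𝒪)) := fun hu =>
      hp𝒪 (isUnit_of_map_unit (algebraMap 𝒪 T) _ hu)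
    exact fun hu => h2 (isUnit_of_map_unit ψ _ hu)
  have hψapp : ∀ t : T, ψ t = algebraMap Pt.B B'
      (Pt.ψ (heckeIncl (L.side j.succ) Sres (EA L Sres hS hNl j.succ (f₁ t)))) := by
    intro t
    rw [hψ]
    rfl
  -- the Frobenius polynomials
  have hchar : ∀ (ℓ : ℕ) (hℓ : ℓ.Prime), ℓ ∉ Sres → ∀ P' : ValuationSubring Ω,
      P'.LiesOverPrime ℓ → ∀ φ' : GQ, P'.IsFrobeniusAt φ' ℓ →
        (LinearMap.charpoly (ρ'.ρ φ')).map ψ = X ^ 2 - C (a' ⟨ℓ, hℓ⟩) * X + C (ℓ : B') := by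
    intro ℓ hℓ hℓS P' hP' φ' hφ'
    have h1 := hcharT ℓ hℓ hℓS P' hP' φ' hφ'
    obtain ⟨g, hg⟩ : ∃ g : heckeAlg (L.side (Fin.last m)) Sres →+* B',
        g = (algebraMap Pt.B B').comp ((Pt.ψ : (L.side j.succ).alg →+* Pt.B).comp
          (((heckeIncl (L.side j.succ) Sres : _ →+* (L.side j.succ).alg)).comp
            (EA L Sres hS hNl j.succ : _ →+* heckeAlg (L.side j.succ) Sres))) := ⟨_, rfl⟩
    have hψg : ψ = g.comp (f₁ : T →+* heckeAlg (L.side (Fin.last m)) Sres) := by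
      rw [hψ, hg]
      rfl
    rw [hψg, ← Polynomial.map_map, h1]
    simp only [Polynomial.map_add, Polynomial.map_sub, Polynomial.map_mul, Polynomial.map_pow,
      Polynomial.map_X, Polynomial.map_C, map_natCast]
    have h2 : g (TtH (L.side (Fin.last m)) ⟨ℓ, hℓ⟩ hℓS) = a' ⟨ℓ, hℓ⟩ := by
      rw [ha' ⟨ℓ, hℓ⟩ (notMem_level Sres hS hNl hℓS j.succ), hg]
      show algebraMap Pt.B B' (Pt.ψ (heckeIncl (L.side j.succ) Sres
        (EA L Sres hS hNl j.succ (TtH (L.side (Fin.last m)) ⟨ℓ, hℓ⟩ hℓS)))) = _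
      rw [EA_TtH]
      rfl
    rw [h2, Polynomial.map_natCast]
  have hmain := hSK hp2 (Nbig j.castSucc) (qc j) (hqc j) hjp (hqN j) ρ' habs B' hpB' ψ L' a' Sres
    hchar ⟨v, hv, hv0, hvA, hvB⟩ P hP φ hφ
  -- conclusion
  have h3 : ψ (ρ'.trace φ ^ 2 - (((qc j : ℕ) : T) + 1) ^ 2) = 0 := by
    rw [map_sub, map_pow, map_pow, map_add, map_one, map_natCast, hmain, sub_self]
  rw [hψapp, hfa] at h3
  exact hinj (h3.trans (map_zero _).symm)

end NewQ

end Chain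

end Fermat.Agent.ML.REPTL
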