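/-
PROJECT ML (S59) — [REPT-L] part A (helper9): **the prime `p` in the chain** (`qc j = p`).

* `eq_zero_of_forall_point_sub` : an element of a commutative reduced subalgebra of `End_𝒪(H)`
  (`H` finite free) which vanishes at all DVR points is zero;
* `old_relation` : `z₀² - T_p z₀ + p = 0` on the level prime to `p`, `z₀` the image of the
  Frobenius scalar of the top level (from `AtPOldPointStatement` at the points of
  `𝒪[Tt, g, T_p]`, `Tq_reduced`, `Tq_occ`);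
* `Tq_eq_of_relation` : `T_p = z₀ + p z₀⁻¹`;
* `omega_iota_p_hh`, `new_p_kill` : the fields `omega_iota_p` and `new_p` (first half) of
  `TWChainGalois`.
-/
import Mathlib
import Fermat.Agent.ML.REPTL_helper9_AtPTop
import Fermat.Agent.ML.REPTL_helper9_New

set_option autoImplicit false
set_option linter.unusedSectionVars false
set_option linter.unusedVariables false
set_option linter.style.haveILetI false

namespace Fermat.Agent.ML.REPTL

open Polynomial IsLocalRing Fermat.Agent.RB Fermat.Agent.RB.REPT CuspForm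
open Fermat.Agent.GR Fermat.Agent.LR

local notation "Ω" => AlgebraicClosure ℚ
local notation "GQ" => (AlgebraicClosure ℚ ≃ₐ[ℚ] AlgebraicClosure ℚ)

section SubPoints

variable {𝒪 : Type} [CommRing 𝒪] [IsDomain 𝒪] [IsDiscreteValuationRing 𝒪]
  [IsAdicComplete (maximalIdeal 𝒪) 𝒪] [CharZero 𝒪] [Finite (ResidueField 𝒪)]
  {H : Type} [AddCommGroup H] [Module 𝒪 H] [Module.Free 𝒪 H] [Module.Finite 𝒪 H]

/-- **an element of a commutative reduced subalgebra of `End(H)` vanishing at all points is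
zero.** -/
theorem eq_zero_of_forall_point_sub (A' : Subalgebra 𝒪 (Module.End 𝒪 H))
    (hcomm : ∀ a ∈ A', ∀ b ∈ A', a * b = b * a)
    (hred : ∀ t : A', t ^ 2 = 0 → t = 0) (a : A')
    (h : ∀ (B : Type) [CommRing B] [IsDomain B] [IsDiscreteValuationRing B]
      [IsAdicComplete (maximalIdeal B) B] [Finite (ResidueField B)] [CharZero B]
      [Algebra 𝒪 B] [Module.Finite 𝒪 B] [IsLocalHom (algebraMap 𝒪 B)]
      (_ : Function.Injective (algebraMap 𝒪 B)) (x : A' →ₐ[𝒪] B), x a = 0) : a = 0 := by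
  letI : CommRing A' := commRingOfComm A' hcomm
  haveI : IsReduced A' := (isReduced_iff_pow_one_lt 2 one_lt_two).2 hred
  haveI : Module.Finite 𝒪 A' := by
    haveI : IsNoetherian 𝒪 (Module.End 𝒪 H) := isNoetherian_of_isNoetherianRing_of_finite 𝒪 _
    exact Module.Finite.of_injective A'.val.toLinearMap Subtype.val_injective
  have hsat : ∀ (c₀ : 𝒪) (t : A'), c₀ ≠ 0 → c₀ • t ∈ (⊥ : Ideal A') → t ∈ (⊥ : Ideal A') := by
    intro c₀ t hc₀ ht
    rw [Ideal.mem_bot] at ht ⊢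
    have h1 : c₀ • (t : Module.End 𝒪 H) = 0 := by
      have := congrArg (Subtype.val : A' → Module.End 𝒪 H) ht
      simpa using this
    have h2 : (t : Module.End 𝒪 H) = 0 := by
      refine LinearMap.ext fun v => ?_
      have h3 := LinearMap.congr_fun h1 v
      rw [LinearMap.smul_apply, LinearMap.zero_apply] at h3
      exact (smul_eq_zero.mp h3).resolve_left hc₀
    exact Subtype.ext h2
  have hrad : (⊥ : Ideal A').IsRadical := by
    rw [Ideal.isRadical_iff_pow_one_lt 2 one_lt_two]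
    intro t ht
    rw [Ideal.mem_bot] at ht ⊢
    exact hred t ht
  have := mem_of_forall_point (𝒪 := 𝒪) (⊥ : Ideal A') hrad hsat a
    (fun P _ => h P.B P.injective P.ψ)
  exact (Ideal.mem_bot).1 this

end SubPoints

section Chain

variable {𝒪 : Type} [CommRing 𝒪] [IsDomain 𝒪] [IsDiscreteValuationRing 𝒪]
  [IsAdicComplete (maximalIdeal 𝒪) 𝒪] [CharZero 𝒪] [Finite (ResidueField 𝒪)]
  {p : ℕ} {lam : 𝒪} {c : Nat.Primes → 𝒪} {m : ℕ} {Nl : Fin (m + 1) → ℕ} [∀ i, NeZero (Nl i)]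
  {qc : Fin m → ℕ} {hqc : ∀ j, (qc j).Prime} {d : Fin (m + 1) → ℕ} {r n : ℕ} {Q : Fin r → ℕ}
  {Nt Nbig : Fin (m + 1) → ℕ} [∀ i, NeZero (Nt i)] [∀ i, NeZero (Nbig i)]
  [∀ j : Fin m, NeZero (Nbig j.castSucc * qc j)] {hqN : ∀ j : Fin m, ¬ qc j ∣ Nbig j.castSucc}
  (L : TWModChainLevel p lam c Nl qc hqc d r n Q Nt Nbig hqN)
  (Sres : Finset ℕ)
  (hS : ∀ ℓ : ℕ, ℓ ∉ Sres → ℓ ∉ badSet p (Nl (Fin.last m)) ∪ Set.range Q)
  (hNl : ∀ j : Fin m, Nl j.succ = Nl j.castSucc * qc j)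
  {ρbar : ResidualGaloisRep (ResidueField 𝒪)}

/-- the subalgebra `𝒪[Tt, g, T_q]` of the level without `qc j`. -/
abbrev algP (j : Fin m) : Subalgebra 𝒪 (Module.End 𝒪 (L.side j.castSucc).H) :=
  Algebra.adjoin 𝒪 (Set.range (L.side j.castSucc).Tt ∪ Set.range (L.side j.castSucc).g ∪
    {L.Tq j})

theorem algP_gen_comm (j : Fin m) :
    ∀ a ∈ (Set.range (L.side j.castSucc).Tt ∪ Set.range (L.side j.castSucc).g ∪ {L.Tq j}),
    ∀ b ∈ (Set.range (L.side j.castSucc).Tt ∪ Set.range (L.side j.castSucc).g ∪ {L.Tq j}),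
      a * b = b * a := by
  rintro a (ha | ha) b (hb | hb)
  · exact alg_gen_comm (L.side j.castSucc) a ha b hb
  · rw [Set.mem_singleton_iff] at hb
    subst hb
    rcases ha with ⟨ℓ, rfl⟩ | ⟨q, rfl⟩
    · exact ((L.Tq_comm_Tt j ℓ).eq).symm
    · exact ((L.Tq_comm_g j q).eq).symm
  · rw [Set.mem_singleton_iff] at ha
    subst ha
    rcases hb with ⟨ℓ, rfl⟩ | ⟨q, rfl⟩
    · exact (L.Tq_comm_Tt j ℓ).eq
    · exact (L.Tq_comm_g j q).eq
  · rw [Set.mem_singleton_iff] at ha hb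
    rw [ha, hb]

theorem algP_comm (j : Fin m) : ∀ a ∈ algP L j, ∀ b ∈ algP L j, a * b = b * a := by
  intro a ha b hb
  have h1 := Algebra.adjoin_le_centralizer_centralizer 𝒪
    (Set.range (L.side j.castSucc).Tt ∪ Set.range (L.side j.castSucc).g ∪ {L.Tq j})
  exact Set.centralizer_centralizer_comm_of_comm (algP_gen_comm L j) _ (h1 ha) _ (h1 hb)

theorem heckeAlg_le_algP (j : Fin m) : heckeAlg (L.side j.castSucc) Sres ≤ algP L j :=
  (heckeAlg_le_alg _ _).trans (Algebra.adjoin_mono Set.subset_union_left)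

include hS hNl in
/-- **the relation of the old points on the level prime to `p`.** -/
theorem old_relation (hOld : AtPOldPointStatement) (hp : p.Prime) (hp2 : p ≠ 2)
    (hp𝒪 : (p : 𝒪) ∈ maximalIdeal 𝒪) (j : Fin m) (hj : qc j = p)
    (LGt : LevelGalois (L.side (Fin.last m)) ρbar (Nbig (Fin.last m)) Sres Q)
    {M : ℕ} [NeZero M] [NeZero (M * p)] (hM : Nbig (Fin.last m) = M * p) (hpM : ¬ p ∣ M)
    (hM' : Nbig j.castSucc ∣ M)
    (hNS : ∀ q : ℕ, q.Prime → q ∣ Nbig (Fin.last m) → q ∈ Sres)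
    (hord : (GaloisRepAdic.ofResidualGaloisRep ρbar).IsOrdinaryAt p)
    (Zb : LGt.Tb)
    (hZb : ∀ P : ValuationSubring Ω, P.LiesOverPrime p → ∀ φ : GQ, P.IsFrobeniusAt φ p →
      OrdQuotScalar LGt.datum.ρ P φ Zb) :
    E L Sres hS hNl j.castSucc (LGt.f Zb) * E L Sres hS hNl j.castSucc (LGt.f Zb)
      - L.Tq j * E L Sres hS hNl j.castSucc (LGt.f Zb)
      + algebraMap 𝒪 (Module.End 𝒪 (L.side j.castSucc).H) (p : 𝒪) = 0 := by
  classical
  obtain ⟨P, φ, hP, hφ⟩ := Fermat.Agent.S54.exists_frobenius p hp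
  have hcomm := algP_comm L j
  have hle := heckeAlg_le_algP L Sres j
  obtain ⟨z₀, hz₀⟩ : ∃ z₀ : algP L j, z₀ = Subalgebra.inclusion hle
      (EA L Sres hS hNl j.castSucc (LGt.f Zb)) := ⟨_, rfl⟩
  obtain ⟨tq, htq⟩ : ∃ tq : algP L j, tq = ⟨L.Tq j, Algebra.subset_adjoin (Or.inr rfl)⟩ :=
    ⟨_, rfl⟩
  have key : z₀ * z₀ - tq * z₀ + algebraMap 𝒪 (algP L j) (p : 𝒪) = 0 := by
    apply eq_zero_of_forall_point_sub (algP L j) hcomm (L.Tq_reduced j hj)
    intro B _ _ _ _ _ _ _ _ _ hinjB x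
    obtain ⟨B', iCR, iDom, iDVR, iAlg, iFin, hinj, L', iF, iAlgL, iFrac, a', hocc, ha', hap⟩ :=
      L.Tq_occ j hj B x
    letI := iCR
    letI := iDom
    letI := iDVR
    letI := iAlg
    letI := iFin
    letI := iF
    letI := iAlgL
    letI := iFrac
    haveI : CharZero B' := charZero_of_injective_algebraMap hinj
    haveI : FaithfulSMul B B' := (faithfulSMul_iff_algebraMap_injective B B').mpr hinj
    haveI : Algebra.IsIntegral B B' := Algebra.IsIntegral.of_finite B B'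
    haveI : IsLocalHom (algebraMap B B') := Algebra.IsIntegral.isLocalHom B B'
    haveI : IsAdicComplete (maximalIdeal B') B' :=
      IsLocalRing.isAdicComplete_of_module_finite (𝒪 := B)
    haveI : Finite (ResidueField B') :=
      IsLocalRing.ResidueField.finite_of_finite (R := B) (S := B') inferInstance
    -- the point of the top Hecke algebra
    obtain ⟨ψ₀, hψ₀⟩ : ∃ ψ₀ : heckeAlg (L.side (Fin.last m)) Sres →ₐ[𝒪] B,
        ψ₀ = x.comp ((Subalgebra.inclusion hle).comp (EA L Sres hS hNl j.castSucc)) := ⟨_, rfl⟩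
    obtain ⟨ψ, hψ⟩ : ∃ ψ : heckeAlg (L.side (Fin.last m)) Sres →+* B',
        ψ = (algebraMap B B').comp (ψ₀ : heckeAlg (L.side (Fin.last m)) Sres →+* B) := ⟨_, rfl⟩
    have hψloc : IsLocalHom (ψ.comp (LGt.f : LGt.Tb →+* heckeAlg (L.side (Fin.last m)) Sres)) := by
      have h1 : IsLocalHom ((ψ₀.comp LGt.f : LGt.Tb →ₐ[𝒪] B) : LGt.Tb →+* B) :=
        isLocalHom_of_finite _
      have h2 : ψ.comp (LGt.f : LGt.Tb →+* heckeAlg (L.side (Fin.last m)) Sres) =
          (algebraMap B B').comp ((ψ₀.comp LGt.f : LGt.Tb →ₐ[𝒪] B) : LGt.Tb →+* B) := by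
        rw [hψ]; rfl
      rw [h2]
      exact RingHom.isLocalHom_comp _ _
    have hψapp : ∀ t : heckeAlg (L.side (Fin.last m)) Sres, ψ t = algebraMap B B'
        (x (Subalgebra.inclusion hle (EA L Sres hS hNl j.castSucc t))) := by
      intro t
      rw [hψ, hψ₀]; rfl
    have hrel := old_point_relation hOld hp hp2 hp𝒪 LGt hM hpM hNS hord hP φ hφ Zb
      (hZb P hP φ hφ) B' ψ hψloc L' (Nbig j.castSucc) hM' a' hocc (fun ℓ hℓ hℓS => by
        rw [ha' ⟨ℓ, hℓ⟩ (notMem_level Sres hS hNl hℓS j.castSucc), hψapp, EA_TtH]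
        rfl)
    have hap' : a' ⟨p, hp⟩ = algebraMap B B' (x tq) := by
      have : (⟨p, hp⟩ : Nat.Primes) = ⟨qc j, hqc j⟩ := Subtype.ext hj.symm
      rw [this, hap, htq]
    rw [hap', hψapp, ← hz₀] at hrel
    have hx : algebraMap B B' (x (z₀ * z₀ - tq * z₀ + algebraMap 𝒪 (algP L j) (p : 𝒪))) =
        algebraMap B B' (x z₀) ^ 2 - algebraMap B B' (x tq) * algebraMap B B' (x z₀) +
          (p : B') := by
      rw [map_add, map_sub, map_mul, map_mul, AlgHom.commutes, map_natCast, map_add, map_sub,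
        map_mul, map_mul, map_natCast, pow_two]
    apply hinj
    rw [hx, hrel, map_zero]
  have := congrArg (Subtype.val : algP L j → Module.End 𝒪 (L.side j.castSucc).H) key
  rw [hz₀, htq] at this
  exact this

include hS hNl in
/-- **`T_p = z₀ + p z₀⁻¹`** on the level prime to `p`. -/
theorem Tq_eq_of_relation (j : Fin m) (Zt Zi : heckeAlg (L.side (Fin.last m)) Sres)
    (hZ : Zt * Zi = 1)
    (hrel : E L Sres hS hNl j.castSucc Zt * E L Sres hS hNl j.castSucc Zt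
      - L.Tq j * E L Sres hS hNl j.castSucc Zt
      + algebraMap 𝒪 (Module.End 𝒪 (L.side j.castSucc).H) (p : 𝒪) = 0) :
    E L Sres hS hNl j.castSucc (Zt + algebraMap 𝒪 _ (p : 𝒪) * Zi) = L.Tq j := by
  obtain ⟨z, hz⟩ : ∃ z, z = E L Sres hS hNl j.castSucc Zt := ⟨_, rfl⟩
  obtain ⟨w, hw⟩ : ∃ w, w = E L Sres hS hNl j.castSucc Zi := ⟨_, rfl⟩
  have hzw : z * w = 1 := by rw [hz, hw, ← map_mul, hZ, map_one]
  rw [← hz] at hrel
  rw [map_add, map_mul, AlgHom.commutes, ← hz, ← hw]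
  have h1 := congrArg (fun t => t * w) hrel
  simp only [add_mul, sub_mul, zero_mul, mul_assoc, hzw, mul_one] at h1
  rw [sub_add_eq_add_sub, sub_eq_zero] at h1
  exact h1

section Trace

variable {T : Type} [CommRing T] [Algebra 𝒪 T]
  (f₁ : T →ₐ[𝒪] heckeAlg (L.side (Fin.last m)) Sres)

include hS hNl in
/-- **`omega ∘ iota = (U² - 1) · (…)` at `p`.** -/
theorem omega_iota_p_hh (sgn : Fin m → 𝒪) (hsgn : ∀ j, sgn j ^ 2 = 1) (j : Fin m)
    (hj : qc j = p) (U Ui V : T) (hU : U * Ui = 1)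
    (hV : (U + algebraMap 𝒪 T (sgn j)) * V = 1)
    (htq : E L Sres hS hNl j.castSucc (f₁ U + algebraMap 𝒪 _ (p : 𝒪) * f₁ Ui) = L.Tq j)
    (c' : Fin 2) (x : (L.side j.castSucc).H) :
    ∃ y : (L.side j.castSucc).H, omega L sgn j (L.iota j c' x) =
      hh L Sres hS hNl f₁ j.castSucc (U ^ 2 - 1) y := by
  obtain ⟨s, hs⟩ : ∃ s : T, s = algebraMap 𝒪 T (sgn j) := ⟨_, rfl⟩
  obtain ⟨P, hP⟩ : ∃ P : T, P = algebraMap 𝒪 T (p : 𝒪) := ⟨_, rfl⟩
  rw [← hs] at hV
  have hss : s * s = 1 := by rw [hs, ← map_mul, ← pow_two, hsgn j, map_one]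
  obtain ⟨t, ht⟩ : ∃ t : T, t = P + 1 - s * (U + P * Ui) := ⟨_, rfl⟩
  obtain ⟨u, hu⟩ : ∃ u : T, u = -s * Ui * (U - s * P) * V := ⟨_, rfl⟩
  have h1 : t * U = -s * (U - s) * (U - s * P) := by
    rw [ht]
    linear_combination (-((P + 1) * U - s * P)) * hss + (-(s * P)) * hU
  have h2 : U ^ 2 - 1 = (U - s) * (U + s) := by linear_combination hss
  have h3 : t = (U ^ 2 - 1) * u := by
    have e1 : t = t * U * Ui := by rw [mul_assoc, hU, mul_one]
    have e2 : (U ^ 2 - 1) * u = (U - s) * ((U + s) * V) * (-s * Ui * (U - s * P)) := by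
      rw [h2, hu]; ring
    rw [e2, hV, e1, h1]; ring
  have htt : hh L Sres hS hNl f₁ j.castSucc t =
      algebraMap 𝒪 (Module.End 𝒪 (L.side j.castSucc).H) ((qc j : 𝒪) + 1) - sgn j • L.Tq j := by
    rw [ht, hP, hs, hh_apply, map_sub, map_add, map_one, map_mul, map_add, map_mul,
      AlgHom.commutes, AlgHom.commutes, map_sub, map_add, map_one, map_mul, AlgHom.commutes,
      AlgHom.commutes, ← htq, hj, map_add, map_mul, AlgHom.commutes, map_add, map_one]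
    simp only [Algebra.algebraMap_eq_smul_one, smul_mul_assoc, one_mul]
  obtain ⟨y, hy⟩ := omega_iota_of_eq L Sres hS hNl f₁ sgn hsgn j t htt c' x
  refine ⟨hh L Sres hS hNl f₁ j.castSucc u y, ?_⟩
  rw [hy, h3, map_mul, Module.End.mul_apply]

include hS hNl in
/-- **the `p`-new quotient is killed by `U² - 1`** (first half of `new_p`). -/
theorem new_p_kill (hNew : AtPNewPointStatement) (hp : p.Prime) (hp2 : p ≠ 2)
    (hp𝒪 : (p : 𝒪) ∈ maximalIdeal 𝒪) (j : Fin m) (hj : qc j = p)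
    (LGt : LevelGalois (L.side (Fin.last m)) ρbar (Nbig (Fin.last m)) Sres Q)
    {M : ℕ} [NeZero M] [NeZero (M * p)] (hM : Nbig (Fin.last m) = M * p) (hpM : ¬ p ∣ M)
    (hM' : Nbig j.castSucc ∣ M)
    (hNS : ∀ q : ℕ, q.Prime → q ∣ Nbig (Fin.last m) → q ∈ Sres)
    (hord : (GaloisRepAdic.ofResidualGaloisRep ρbar).IsOrdinaryAt p)
    (Zb : LGt.Tb)
    (hZb : ∀ P : ValuationSubring Ω, P.LiesOverPrime p → ∀ φ : GQ, P.IsFrobeniusAt φ p →
      OrdQuotScalar LGt.datum.ρ P φ Zb)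
    (Zi K : heckeAlg (L.side (Fin.last m)) Sres) (hZ : LGt.f Zb * Zi = 1)
    (hK : K * (1 - algebraMap 𝒪 _ (p : 𝒪) ^ 2 * Zi ^ 2) = 1)
    (htq : E L Sres hS hNl j.castSucc (LGt.f Zb + algebraMap 𝒪 _ (p : 𝒪) * Zi) = L.Tq j)
    (U : T) (hfU : f₁ U = LGt.f Zb) (a : T) (ha : a ∈ Ideal.span {U ^ 2 - 1})
    (x : (L.side j.succ).H) :
    ∃ y : Fin 2 → (L.side j.castSucc).H,
      hh L Sres hS hNl f₁ j.succ a x = ∑ c', L.iota j c' (y c') := by
  classical
  obtain ⟨b, rfl⟩ := Ideal.mem_span_singleton'.1 ha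
  obtain ⟨P, φ, hP, hφ⟩ := Fermat.Agent.S54.exists_frobenius p hp
  haveI : IsReduced (heckeAlg (L.side (Fin.last m)) Sres) := by
    refine (isReduced_iff_pow_one_lt 2 one_lt_two).2 fun t ht => ?_
    have h1 : heckeIncl (L.side (Fin.last m)) Sres t = 0 := by
      refine (L.occ (Fin.last m)).reduced _ ?_
      rw [← map_pow, ht, map_zero]
    exact heckeIncl_injective _ _ (h1.trans (map_zero _).symm)
  obtain ⟨Zt, hZt⟩ : ∃ Zt, Zt = LGt.f Zb := ⟨_, rfl⟩
  rw [← hZt] at hZ htq hfU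
  obtain ⟨a₀, ha₀⟩ : ∃ a₀ : heckeAlg (L.side (Fin.last m)) Sres, a₀ = Zt ^ 2 - 1 := ⟨_, rfl⟩
  have hfa : f₁ (U ^ 2 - 1) = a₀ := by
    rw [ha₀, map_sub, map_pow, map_one, hfU]
  -- reduce to `a₀`
  suffices hmain : ∀ x : (L.side j.succ).H, ∃ y : Fin 2 → (L.side j.castSucc).H,
      E L Sres hS hNl j.succ a₀ x = ∑ c', L.iota j c' (y c') by
    obtain ⟨y, hy⟩ := hmain (hh L Sres hS hNl f₁ j.succ b x)
    refine ⟨y, ?_⟩
    rw [mul_comm, map_mul, Module.End.mul_apply, ← hy, hh_apply, hfa]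
  intro x
  obtain ⟨Pp, hPp⟩ : ∃ Pp : heckeAlg (L.side (Fin.last m)) Sres,
      Pp = algebraMap 𝒪 _ (p : 𝒪) := ⟨_, rfl⟩
  rw [← hPp] at hK htq
  have hqcast : algebraMap 𝒪 (heckeAlg (L.side (Fin.last m)) Sres) ((qc j : 𝒪) + 1) = Pp + 1 := by
    rw [hPp, hj, map_add, map_one]
  refine new_of_kill L Sres hS hNl j (Zt + Pp * Zi) (-K) a₀ ?_ htq ?_ x
  · rw [hqcast, ha₀]
    linear_combination (-(Zt ^ 2 - 1)) * hK +
      (-(K * Pp ^ 2 * (Zt * Zi + 1) + 2 * Pp * K)) * hZ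
  -- the points
  intro h hh0
  have key := kill_of_points_side (L.side j.succ) (L.occ j.succ).reduced
    {h | ∀ c', L.beta j c' h = 0}
    (heckeIncl (L.side j.succ) Sres (EA L Sres hS hNl j.succ a₀)) ?_ h hh0
  · exact key
  intro Pt hPt
  obtain ⟨B', iCR, iDom, iDVR, iAlg, iFin, hinj, L', iF, iAlgL, iFrac, a', ha', v, hv, hv0, hvA,
    hvB⟩ := L.occ_new j Pt.B Pt.ψ (fun t ht => hPt t (fun h hh => ht h hh))
  letI := iCR
  letI := iDom
  letI := iDVR
  letI := iAlg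
  letI := iFin
  letI := iF
  letI := iAlgL
  letI := iFrac
  haveI : CharZero B' := charZero_of_injective_algebraMap hinj
  haveI : FaithfulSMul Pt.B B' := (faithfulSMul_iff_algebraMap_injective Pt.B B').mpr hinj
  haveI : Algebra.IsIntegral Pt.B B' := Algebra.IsIntegral.of_finite Pt.B B'
  haveI : IsLocalHom (algebraMap Pt.B B') := Algebra.IsIntegral.isLocalHom Pt.B B'
  haveI : IsAdicComplete (maximalIdeal B') B' :=
    IsLocalRing.isAdicComplete_of_module_finite (𝒪 := Pt.B)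
  haveI : Finite (ResidueField B') :=
    IsLocalRing.ResidueField.finite_of_finite (R := Pt.B) (S := B') inferInstance
  obtain ⟨ψ₀, hψ₀⟩ : ∃ ψ₀ : heckeAlg (L.side (Fin.last m)) Sres →ₐ[𝒪] Pt.B,
      ψ₀ = Pt.ψ.comp ((heckeIncl (L.side j.succ) Sres).comp (EA L Sres hS hNl j.succ)) :=
    ⟨_, rfl⟩
  obtain ⟨ψ, hψ⟩ : ∃ ψ : heckeAlg (L.side (Fin.last m)) Sres →+* B',
      ψ = (algebraMap Pt.B B').comp (ψ₀ : heckeAlg (L.side (Fin.last m)) Sres →+* Pt.B) :=
    ⟨_, rfl⟩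
  have hψloc : IsLocalHom (ψ.comp (LGt.f : LGt.Tb →+* heckeAlg (L.side (Fin.last m)) Sres)) := by
    have h1 : IsLocalHom ((ψ₀.comp LGt.f : LGt.Tb →ₐ[𝒪] Pt.B) : LGt.Tb →+* Pt.B) :=
      isLocalHom_of_finite _
    have h2 : ψ.comp (LGt.f : LGt.Tb →+* heckeAlg (L.side (Fin.last m)) Sres) =
        (algebraMap Pt.B B').comp ((ψ₀.comp LGt.f : LGt.Tb →ₐ[𝒪] Pt.B) : LGt.Tb →+* Pt.B) := by
      rw [hψ]; rfl
    rw [h2]
    exact RingHom.isLocalHom_comp _ _
  have hψapp : ∀ t : heckeAlg (L.side (Fin.last m)) Sres, ψ t = algebraMap Pt.B B'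
      (Pt.ψ (heckeIncl (L.side j.succ) Sres (EA L Sres hS hNl j.succ t))) := by
    intro t
    rw [hψ, hψ₀]; rfl
  have hrel := new_point_relation hNew hp hp2 hp𝒪 LGt hM hpM hNS hord hP φ hφ Zb
    (hZb P hP φ hφ) B' ψ hψloc L' (Nbig j.castSucc) hM' (hqc j) hj (hqN j) a'
    (fun ℓ hℓ hℓS => by
      rw [ha' ⟨ℓ, hℓ⟩ (notMem_level Sres hS hNl hℓS j.succ), hψapp, EA_TtH]
      rfl) ⟨v, hv, hv0, hvA, hvB⟩
  rw [← hZt] at hrel
  have h3 : ψ a₀ = 0 := by rw [ha₀, map_sub, map_pow, map_one, hrel, sub_self]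
  rw [hψapp] at h3
  exact hinj (h3.trans (map_zero _).symm)

end Trace

end Chain

section Strict

variable {T : Type} [CommRing T] [IsLocalRing T] [IsNoetherianRing T] (ρ' : GaloisRepAdic T)

/-- **modulo `U² - 1` an ordinary representation with cyclotomic determinant is strictly
ordinary** (second half of `new_p`). -/
theorem strict_of_scalar_sq {p : ℕ} (hp : p.Prime) (hdet : ρ'.DetIsCyclotomic p) (U : T)
    (hU : ∀ P : ValuationSubring Ω, P.LiesOverPrime p → ∀ φ : GQ, P.IsFrobeniusAt φ p →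
      OrdQuotScalar ρ' P φ U)
    (B : Type) [CommRing B] [IsLocalRing B] (π : T →+* B) (hπ : IsLocalHom π)
    (hsurj : Function.Surjective π) (hker : Ideal.span {U ^ 2 - 1} ≤ RingHom.ker π) :
    (ρ'.baseChangeAlong π hπ).IsStrictOrdinaryAt p := by
  haveI : IsNoetherianRing B := isNoetherianRing_of_surjective T B π hsurj
  refine isStrictOrdinaryAt_of_frobenius_scalar_sq _ hp
    (Fermat.Agent.TW.detIsCyclotomic_baseChangeAlong _ _ _ hdet) ?_
  intro P hP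
  obtain ⟨φ, hφ⟩ := exists_frobenius_at hp hP
  refine ⟨φ, π U, hφ, ordQuotScalar_baseChangeAlong π hπ ρ' (hU P hP φ hφ), ?_⟩
  have h1 : U ^ 2 - 1 ∈ RingHom.ker π := hker (Ideal.subset_span rfl)
  rw [RingHom.mem_ker, map_sub, map_pow, map_one, sub_eq_zero] at h1
  exact h1

end Strict

end Fermat.Agent.ML.REPTL
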