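/-
PROJECT ML (S59) — [REPT-L] part A (helper9), file 5: **descent of flatness to a subring of a
product**: `T ↪ B₁ × B₂` through two finite local homomorphisms, `ρ ⊗ B₁` and `ρ ⊗ B₂` flat at `p`
⇒ `ρ` flat at `p`.

Proof: for `I` of finite index in `T` choose (Artin–Rees) `N` with `T ∩ 𝔪_T^N (B₁ × B₂) ⊆ I`; then
`V / I V` is a quotient of the image of `V` in `(B₁ ⊗ V) / 𝔪_T^N × (B₂ ⊗ V) / 𝔪_T^N`, a product of flat
Galois modules (closure under products and subquotients: FG/HOPF_helper8).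
-/
import Mathlib
import Fermat.Agent.ML.REPTL_helper9_Descent

set_option autoImplicit false
set_option linter.unusedSectionVars false
set_option linter.unusedVariables false
set_option linter.style.haveILetI false

noncomputable section

namespace Fermat.Agent.ML.REPTL

open Polynomial IsLocalRing GaloisRepAdic Fermat.Agent.TW
open scoped TensorProduct

local notation "Ω" => AlgebraicClosure ℚ
local notation "GQ" => (AlgebraicClosure ℚ ≃ₐ[ℚ] AlgebraicClosure ℚ)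

section Prod

variable {R : Type*} [CommRing R] {M₁ M₂ : Type*} [AddCommGroup M₁] [Module R M₁]
  [AddCommGroup M₂] [Module R M₂]

/-- `(a, b) ∈ I (M₁ × M₂)` if `a ∈ I M₁` and `b ∈ I M₂`. -/
theorem prod_mem_smul_top (I : Ideal R) {a : M₁} {b : M₂}
    (ha : a ∈ I • (⊤ : Submodule R M₁)) (hb : b ∈ I • (⊤ : Submodule R M₂)) :
    ((a, b) : M₁ × M₂) ∈ I • (⊤ : Submodule R (M₁ × M₂)) := by
  have h1 : (I • (⊤ : Submodule R M₁)).map (LinearMap.inl R M₁ M₂) ≤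
      I • (⊤ : Submodule R (M₁ × M₂)) := by
    rw [Submodule.map_smul'']
    exact Submodule.smul_mono le_rfl le_top
  have h2 : (I • (⊤ : Submodule R M₂)).map (LinearMap.inr R M₁ M₂) ≤
      I • (⊤ : Submodule R (M₁ × M₂)) := by
    rw [Submodule.map_smul'']
    exact Submodule.smul_mono le_rfl le_top
  have : ((a, b) : M₁ × M₂) = LinearMap.inl R M₁ M₂ a + LinearMap.inr R M₁ M₂ b := by
    simp
  rw [this]
  exact Submodule.add_mem _ (h1 ⟨a, ha, rfl⟩) (h2 ⟨b, hb, rfl⟩)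

end Prod

section Flat

variable {T B₁ B₂ : Type} [CommRing T] [IsLocalRing T] [IsNoetherianRing T]
  [CommRing B₁] [IsLocalRing B₁] [IsNoetherianRing B₁]
  [CommRing B₂] [IsLocalRing B₂] [IsNoetherianRing B₂]
  (f₁ : T →+* B₁) (hf₁ : IsLocalHom f₁) (f₂ : T →+* B₂) (hf₂ : IsLocalHom f₂)
  (hinj : ∀ x : T, f₁ x = 0 → f₂ x = 0 → x = 0) (ρ : GaloisRepAdic T)

include hinj in
/-- Artin–Rees for `T ↪ B₁ × B₂`. -/
theorem exists_pow_comap_le (hfin₁ : f₁.Finite) (hfin₂ : f₂.Finite) (k : ℕ) :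
    ∃ N : ℕ, ∀ x : T, f₁ x ∈ (maximalIdeal T ^ N).map f₁ → f₂ x ∈ (maximalIdeal T ^ N).map f₂ →
      x ∈ maximalIdeal T ^ k := by
  letI : Algebra T B₁ := f₁.toAlgebra
  letI : Algebra T B₂ := f₂.toAlgebra
  haveI : Module.Finite T B₁ := hfin₁
  haveI : Module.Finite T B₂ := hfin₂
  let F : T →ₗ[T] (B₁ × B₂) :=
    LinearMap.prod (Algebra.linearMap T B₁) (Algebra.linearMap T B₂)
  have hF : Function.Injective F := by
    intro x y hxy
    rw [← sub_eq_zero]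
    have h1 := congrArg Prod.fst hxy
    have h2 := congrArg Prod.snd hxy
    refine hinj _ ?_ ?_
    · rw [map_sub, sub_eq_zero]; exact h1
    · rw [map_sub, sub_eq_zero]; exact h2
  obtain ⟨N, hN⟩ := Fermat.Agent.RB.REPT.exists_forall_mem_pow_of_injective F hF k
  refine ⟨N, fun x h1 h2 => hN x ?_⟩
  show ((algebraMap T B₁ x, algebraMap T B₂ x) : B₁ × B₂) ∈ _
  refine prod_mem_smul_top _ ?_ ?_
  · rw [Ideal.smul_top_eq_map]
    exact h1
  · rw [Ideal.smul_top_eq_map]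
    exact h2

/-- `B / 𝔪_T^N B` is finite. -/
theorem finite_quotient_map_pow {B : Type} [CommRing B] [IsLocalRing B] [IsNoetherianRing B]
    [Finite (ResidueField B)] (f : T →+* B) (e : ℕ)
    (he : maximalIdeal B ^ e ≤ (maximalIdeal T).map f) (N : ℕ) :
    Finite (B ⧸ (maximalIdeal T ^ N).map f) := by
  rw [IsLocalRing.finite_quotient_iff]
  refine ⟨e * N, ?_⟩
  rw [pow_mul, Ideal.map_pow]
  exact Ideal.pow_right_mono he N

include hinj in
/-- **flatness descends.** -/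
theorem isFlatAt_of_pair {p : ℕ} [Fact p.Prime] (hfin₁ : f₁.Finite) (hfin₂ : f₂.Finite) (e : ℕ)
    (he₁ : maximalIdeal B₁ ^ e ≤ (maximalIdeal T).map f₁)
    (he₂ : maximalIdeal B₂ ^ e ≤ (maximalIdeal T).map f₂)
    (h₁ : (ρ.baseChangeAlong f₁ hf₁).IsFlatAt p) (h₂ : (ρ.baseChangeAlong f₂ hf₂).IsFlatAt p) :
    ρ.IsFlatAt p := by
  rw [isFlatAt_iff] at h₁ h₂ ⊢
  haveI := h₁.1
  haveI := h₂.1
  haveI := hf₁
  have hresfin : Finite (ResidueField T) :=
    Finite.of_injective (IsLocalRing.ResidueField.map f₁) (RingHom.injective _)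
  refine ⟨hresfin, fun I hI => ?_⟩
  -- `𝔪^k ≤ I`
  obtain ⟨k, hk⟩ := (IsLocalRing.finite_quotient_iff (R := T)).1 hI
  obtain ⟨N, hN⟩ := exists_pow_comap_le f₁ f₂ hinj hfin₁ hfin₂ k
  letI : Algebra T B₁ := f₁.toAlgebra
  letI : Algebra T B₂ := f₂.toAlgebra
  set J₁ : Ideal B₁ := (maximalIdeal T ^ N).map f₁ with hJ₁
  set J₂ : Ideal B₂ := (maximalIdeal T ^ N).map f₂ with hJ₂
  have hfJ₁ : Finite (B₁ ⧸ J₁) := finite_quotient_map_pow f₁ e he₁ N
  have hfJ₂ : Finite (B₂ ⧸ J₂) := finite_quotient_map_pow f₂ e he₂ N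
  have hG₁ := h₁.2 J₁ hfJ₁
  have hG₂ := h₂.2 J₂ hfJ₂
  have hG := hG₁.prod hG₂
  -- the map `V → G₁ × G₂`
  let g : ρ.V →ₗ[T] ((B₁ ⊗[T] ρ.V) ⧸ (J₁ • (⊤ : Submodule B₁ (B₁ ⊗[T] ρ.V)))) ×
      ((B₂ ⊗[T] ρ.V) ⧸ (J₂ • (⊤ : Submodule B₂ (B₂ ⊗[T] ρ.V)))) :=
    LinearMap.prod (tensorQuotMap (A := T) (V := ρ.V) J₁) (tensorQuotMap (A := T) (V := ρ.V) J₂)
  set b := Fermat.Agent.S53.someBasis ρ
  have hker : LinearMap.ker g ≤ I • (⊤ : Submodule T ρ.V) := by
    intro v hv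
    rw [LinearMap.mem_ker] at hv
    have hv1 : tensorQuotMap (A := T) (V := ρ.V) J₁ v = 0 := congrArg Prod.fst hv
    have hv2 : tensorQuotMap (A := T) (V := ρ.V) J₂ v = 0 := congrArg Prod.snd hv
    rw [← LinearMap.mem_ker, ker_tensorQuotMap b J₁, Fermat.Agent.S53.mem_smul_top_iff_repr b]
      at hv1
    rw [← LinearMap.mem_ker, ker_tensorQuotMap b J₂, Fermat.Agent.S53.mem_smul_top_iff_repr b]
      at hv2
    rw [Fermat.Agent.S53.mem_smul_top_iff_repr b]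
    intro i
    exact hk (hN _ (hv1 i) (hv2 i))
  -- stability of the kernel
  have hgσ : ∀ (σ : GQ) (v : ρ.V), g (ρ.ρ σ v) =
      ((ρ.baseChangeAlong f₁ hf₁).levelAction J₁ σ (g v).1,
        (ρ.baseChangeAlong f₂ hf₂).levelAction J₂ σ (g v).2) := by
    intro σ v
    refine Prod.ext ?_ ?_
    · show Submodule.Quotient.mk ((1 : B₁) ⊗ₜ[T] (ρ.ρ σ v)) =
        Submodule.Quotient.mk ((ρ.ρ σ).baseChange B₁ ((1 : B₁) ⊗ₜ[T] v))
      rw [LinearMap.baseChange_tmul]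
    · show Submodule.Quotient.mk ((1 : B₂) ⊗ₜ[T] (ρ.ρ σ v)) =
        Submodule.Quotient.mk ((ρ.ρ σ).baseChange B₂ ((1 : B₂) ⊗ₜ[T] v))
      rw [LinearMap.baseChange_tmul]
  have hstab : ∀ σ : GQ, LinearMap.ker g ≤ (LinearMap.ker g).comap (ρ.ρ σ) := by
    intro σ v hv
    rw [LinearMap.mem_ker] at hv
    rw [Submodule.mem_comap, LinearMap.mem_ker, hgσ σ v, hv]
    refine Prod.ext ?_ ?_
    · exact map_zero _
    · exact map_zero _
  let actW : GQ → (ρ.V ⧸ LinearMap.ker g) → (ρ.V ⧸ LinearMap.ker g) :=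
    fun σ => Submodule.mapQ _ _ (ρ.ρ σ) (hstab σ)
  let ι : (ρ.V ⧸ LinearMap.ker g) →ₗ[T] _ := Submodule.liftQ (LinearMap.ker g) g le_rfl
  have hι : Function.Injective ι := by
    rw [← LinearMap.ker_eq_bot]
    exact Submodule.ker_liftQ_eq_bot _ _ _ le_rfl
  let π : (ρ.V ⧸ LinearMap.ker g) →ₗ[T] (ρ.V ⧸ (I • (⊤ : Submodule T ρ.V))) :=
    Submodule.mapQ _ _ LinearMap.id (by
      intro v hv
      exact hker hv)
  have hπ : Function.Surjective π := by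
    intro y
    obtain ⟨v, rfl⟩ := Submodule.Quotient.mk_surjective _ y
    exact ⟨Submodule.Quotient.mk v, rfl⟩
  refine hG.of_subquotient (actW := actW) ι.toAddMonoidHom hι ?_ π.toAddMonoidHom hπ ?_
  · intro σ w
    obtain ⟨v, rfl⟩ := Submodule.Quotient.mk_surjective _ w
    show g (ρ.ρ σ v) = _
    rw [hgσ σ v]
    rfl
  · intro σ w
    obtain ⟨v, rfl⟩ := Submodule.Quotient.mk_surjective _ w
    rfl

end Flat

end Fermat.Agent.ML.REPTL
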