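/-
PROJECT ML (S59) — [REPT-L] part A (helper9): **the trace ring with one more point, as a package.**

`B` a finite local `𝒪`-algebra acting faithfully on a finite free `𝒪`-module `H` (the Hecke algebra of
the top level of the chain), `ρ₁` over `B`, `ρ₂` over `𝒪` (the representation of `W`), with congruent
traces.  `exists_traceRing` produces the trace ring `T ⊂ B × 𝒪` with its representation `ρ'`, the two
projections `f₁ : T → B`, `f₂ : T → 𝒪`, and ALL the transfer statements the assembly of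
`TWChainGalois` needs (the base changes and their equivalences stay inside):

* `T` local, finite and torsion-free over `𝒪`, residue field `k`; generated by the traces of `ρ'`;
* `f₁ (tr ρ') = tr ρ₁`, `f₂ (tr ρ') = tr ρ₂`, `f₁ (det ρ') = det ρ₁`, `charpoly ρ' ↦ charpoly ρ₁`;
* `ρ'` is residually absolutely irreducible, and residually `ρ̄` if `ρ₁` is;
* cyclotomic determinant, unramified, unipotent inertia, flat, ordinary descend from `(ρ₁, ρ₂)` to
  `ρ'` (`ML/REPTL_helper9_Descent*`).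

Also `residual_isEquiv_of_baseChangeAlong` : descent of the residual equivalence along a local
homomorphism which is onto on residue fields.
-/
import Mathlib
import Fermat.Agent.ML.REPTL_helper9_LevelRep
import Fermat.Agent.ML.REPTL_helper9_Descent
import Fermat.Agent.ML.REPTL_helper9_DescentFlat
import Fermat.Agent.ML.REPTL_helper9_DescentOrd
import Fermat.Agent.ML.REPTL_helper9_OrdAux

set_option autoImplicit false
set_option linter.unusedSectionVars false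
set_option linter.unusedVariables false
set_option linter.style.haveILetI false

namespace Fermat.Agent.ML.REPTL

open Polynomial IsLocalRing Fermat.Agent.S53 Fermat.Agent.RB.REPT

local notation "Ω" => AlgebraicClosure ℚ
local notation "GQ" => (AlgebraicClosure ℚ ≃ₐ[ℚ] AlgebraicClosure ℚ)

section ResidualDescent

variable {k : Type} [Field k] {T B : Type} [CommRing T] [IsLocalRing T] [CommRing B]
  [IsLocalRing B]

/-- **descent of the residual equivalence** along a local homomorphism which is onto on the residue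
fields. -/
theorem residual_isEquiv_of_baseChangeAlong (f : T →+* B) (hf : IsLocalHom f)
    (ρ : GaloisRepAdic T) (ρ₁ : GaloisRepAdic B) (he : (ρ.baseChangeAlong f hf).IsEquiv ρ₁)
    (ρbar : ResidualGaloisRep k) (ψT : k →+* ResidueField T) (ψB : k →+* ResidueField B)
    (hψ : ∀ x, haveI := hf; ResidueField.map f (ψT x) = ψB x)
    (hsurj : haveI := hf; Function.Surjective (ResidueField.map f))
    (h₁ : ρ₁.residual.IsEquiv (ρbar.baseChangeAlong ψB)) :
    ρ.residual.IsEquiv (ρbar.baseChangeAlong ψT) := by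
  haveI := hf
  obtain ⟨κ, hκ⟩ : ∃ κ : ResidueField T →+* ResidueField B, κ = ResidueField.map f := ⟨_, rfl⟩
  rw [← hκ] at hψ hsurj
  have hκres : ∀ x : T, κ (residue T x) = residue B (f x) := by
    intro x
    rw [hκ]
    rfl
  let e : ResidueField T ≃+* ResidueField B := RingEquiv.ofBijective κ ⟨κ.injective, hsurj⟩
  obtain ⟨b, hb⟩ : ∃ b, b = someBasis ρ := ⟨_, rfl⟩
  obtain ⟨b₁, hb₁⟩ : ∃ b₁, b₁ = someBasis ρ₁ := ⟨_, rfl⟩
  obtain ⟨β, hβ⟩ : ∃ β, β = resSomeBasis ρbar := ⟨_, rfl⟩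
  obtain ⟨W, hW⟩ := (isEquiv_iff_matrixOf _ _ (baseChangeBasis f hf ρ b) b₁).1 he
  obtain ⟨U, hU⟩ := (residual_isEquiv_iff ρ₁ b₁ ψB ρbar β).1 h₁
  rw [residual_isEquiv_iff ρ b ψT ρbar β]
  -- the unit over `k_B`
  let Wbar : (M2 (ResidueField B))ˣ :=
    Units.map (((residue B).mapMatrix : M2 B →+* M2 (ResidueField B)) :
      M2 B →* M2 (ResidueField B)) W
  let V : (M2 (ResidueField B))ˣ := U * Wbar
  let V' : (M2 (ResidueField T))ˣ :=
    Units.map ((e.symm.mapMatrix : M2 (ResidueField B) ≃+* M2 (ResidueField T)) :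
      M2 (ResidueField B) →* M2 (ResidueField T)) V
  refine ⟨V', fun σ => ?_⟩
  apply (e.mapMatrix : M2 (ResidueField T) ≃+* M2 (ResidueField B)).injective
  have hV' : (e.mapMatrix : M2 (ResidueField T) ≃+* M2 (ResidueField B))
      (V' : M2 (ResidueField T)) = (V : M2 (ResidueField B)) := by
    show (e.mapMatrix : M2 (ResidueField T) ≃+* M2 (ResidueField B))
      ((e.symm.mapMatrix : M2 (ResidueField B) ≃+* M2 (ResidueField T))
        (V : M2 (ResidueField B))) = _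
    ext i j
    simp
  have hM : (e.mapMatrix : M2 (ResidueField T) ≃+* M2 (ResidueField B))
      ((matrixOf ρ b σ).map (residue T)) = ((matrixOf ρ b σ).map f).map (residue B) := by
    ext i j
    simp only [RingEquiv.mapMatrix_apply, Matrix.map_apply]
    exact hκres _
  have hR : (e.mapMatrix : M2 (ResidueField T) ≃+* M2 (ResidueField B))
      ((resMatrixOf ρbar β σ).map ψT) = (resMatrixOf ρbar β σ).map ψB := by
    ext i j
    simp only [RingEquiv.mapMatrix_apply, Matrix.map_apply]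
    exact hψ _
  rw [map_mul, map_mul, hV', hM, hR]
  have h1 := hW σ
  rw [matrixOf_baseChangeAlong, mapMat_apply] at h1
  have h2 := congrArg (fun M : M2 B => M.map (residue B)) h1
  simp only [Matrix.map_mul] at h2
  have h3 := hU σ
  show (U : M2 (ResidueField B)) * ((W : M2 B).map (residue B)) * _ =
    _ * ((U : M2 (ResidueField B)) * ((W : M2 B).map (residue B)))
  rw [mul_assoc, h2, ← mul_assoc, h3, mul_assoc]

end ResidualDescent

section TraceRing

variable {𝒪 : Type} [CommRing 𝒪] [IsDomain 𝒪] [IsDiscreteValuationRing 𝒪]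
  [Finite (ResidueField 𝒪)]
  {B : Type} [CommRing B] [IsLocalRing B] [Algebra 𝒪 B] [IsLocalHom (algebraMap 𝒪 B)]
  [Module.Finite 𝒪 B]

/-- `B` is `p`-adically separated. -/
theorem separated_natCast_of_finite {p : ℕ} (hp : (p : 𝒪) ∈ maximalIdeal 𝒪) :
    ∀ b : B, (∀ n : ℕ, b ∈ Ideal.span {((p ^ n : ℕ) : B)}) → b = 0 := by
  haveI : IsNoetherianRing B := IsNoetherianRing.of_finite 𝒪 B
  intro b hb
  refine separated_of_noetherian_local B b fun n => ?_
  have hpB : (p : B) ∈ maximalIdeal B := by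
    have h1 : algebraMap 𝒪 B (p : 𝒪) ∈ maximalIdeal B := map_nonunit (algebraMap 𝒪 B) _ hp
    rwa [map_natCast] at h1
  have h2 : Ideal.span {((p ^ n : ℕ) : B)} ≤ maximalIdeal B ^ n := by
    rw [Ideal.span_singleton_le_iff_mem, Nat.cast_pow]
    exact Ideal.pow_mem_pow hpB n
  exact h2 (hb n)

variable (ρ₁ : GaloisRepAdic B) (ρ₂ : GaloisRepAdic 𝒪)

local notation "TT" => pairRing (tracePairs ρ₁ ρ₂)
local notation "F₁" => pairFst (tracePairs ρ₁ ρ₂)
local notation "F₂" => pairSnd (tracePairs ρ₁ ρ₂)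

/-- **the trace ring with one more point.** -/
theorem exists_traceRing (H : Type) [AddCommGroup H] [Module 𝒪 H] [Module B H]
    [IsScalarTower 𝒪 B H] [Module.Free 𝒪 H] [Module.Finite 𝒪 H] [FaithfulSMul B H]
    (hcong : ∀ σ : GQ, ρ₁.trace σ - algebraMap 𝒪 B (ρ₂.trace σ) ∈ maximalIdeal B)
    (hBsurj : Function.Surjective (residue B ∘ algebraMap 𝒪 B))
    (h2 : IsUnit (2 : 𝒪)) (S : Finset ℕ) (t₁ : ℕ → B) (t₂ : ℕ → 𝒪)
    (hchar₁ : ∀ ℓ : ℕ, ℓ.Prime → ℓ ∉ S → ∀ A : ValuationSubring Ω, A.LiesOverPrime ℓ →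
      ∀ σ : GQ, A.IsFrobeniusAt σ ℓ →
        LinearMap.charpoly (ρ₁.ρ σ) = X ^ 2 - C (t₁ ℓ) * X + C ((ℓ : ℕ) : B))
    (hchar₂ : ∀ ℓ : ℕ, ℓ.Prime → ℓ ∉ S → ∀ A : ValuationSubring Ω, A.LiesOverPrime ℓ →
      ∀ σ : GQ, A.IsFrobeniusAt σ ℓ →
        LinearMap.charpoly (ρ₂.ρ σ) = X ^ 2 - C (t₂ ℓ) * X + C ((ℓ : ℕ) : 𝒪))
    (c₀ : GQ) (hc₀ : c₀ * c₀ = 1) (hdet₁ : LinearMap.det (ρ₁.ρ c₀) = -1)
    (hdet₂ : LinearMap.det (ρ₂.ρ c₀) = -1)
    (hirr : ρ₂.residual.IsAbsolutelyIrreducible) :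
    ∃ (T : Type) (_ : CommRing T) (_ : IsLocalRing T) (_ : Algebra 𝒪 T)
      (_ : IsLocalHom (algebraMap 𝒪 T)) (_ : Module.Finite 𝒪 T)
      (f₁ : T →ₐ[𝒪] B) (f₂ : T →ₐ[𝒪] 𝒪) (ρ' : GaloisRepAdic T),
      Function.Surjective (residue T ∘ algebraMap 𝒪 T) ∧
      (∀ a : 𝒪, a ≠ 0 → ∀ t : T, a • t = 0 → t = 0) ∧
      (∀ σ : GQ, f₁ (ρ'.trace σ) = ρ₁.trace σ) ∧
      (∀ σ : GQ, f₂ (ρ'.trace σ) = ρ₂.trace σ) ∧
      (∀ σ : GQ, f₁ (LinearMap.det (ρ'.ρ σ)) = LinearMap.det (ρ₁.ρ σ)) ∧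
      (∀ σ : GQ, (LinearMap.charpoly (ρ'.ρ σ)).map (f₁ : T →+* B) = LinearMap.charpoly (ρ₁.ρ σ)) ∧
      Algebra.adjoin 𝒪 (Set.range ρ'.trace) = ⊤ ∧
      ρ'.residual.IsAbsolutelyIrreducible ∧
      (∀ ρbar : ResidualGaloisRep (ResidueField 𝒪),
        ρ₁.residual.IsEquiv (ρbar.baseChangeAlong (ResidueField.map (algebraMap 𝒪 B))) →
        ρ'.residual.IsEquiv (ρbar.baseChangeAlong (ResidueField.map (algebraMap 𝒪 T)))) ∧
      (∀ p : ℕ, 0 < p → ρ₁.DetIsCyclotomic p → ρ₂.DetIsCyclotomic p → ρ'.DetIsCyclotomic p) ∧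
      (∀ q : ℕ, ρ₁.IsUnramifiedAt q → ρ₂.IsUnramifiedAt q → ρ'.IsUnramifiedAt q) ∧
      (∀ q : ℕ, ρ₁.IsUnipotentOnInertiaAt q → ρ₂.IsUnipotentOnInertiaAt q →
        ρ'.IsUnipotentOnInertiaAt q) ∧
      (∀ (p : ℕ) [Fact p.Prime], ρ₁.IsFlatAt p → ρ₂.IsFlatAt p → ρ'.IsFlatAt p) ∧
      (∀ p : ℕ, p.Prime → p ≠ 2 → ρ'.DetIsCyclotomic p → ρ₁.IsOrdinaryAt p → ρ₂.IsOrdinaryAt p →
        ρ'.IsOrdinaryAt p) := by
  classical
  have hrad : maximalIdeal B = (redKer 𝒪 B H).radical :=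
    maximalIdeal_eq_radical_redKer' (𝒪 := 𝒪) (A := B) (H := H)
  have hs := tracePairs_residual (H := H) ρ₁ ρ₂ hrad hcong
  haveI iLoc : IsLocalRing TT := isLocalRing_pairRing (H := H) _ hs
  haveI iLH : IsLocalHom (algebraMap 𝒪 TT) := isLocalHom_algebraMap_pairRing (H := H) _ hs
  haveI iFin : Module.Finite 𝒪 TT := finite_pairRing H _
  haveI iTF : Module.IsTorsionFree 𝒪 TT := isTorsionFree_pairRing H _
  haveI : IsNoetherianRing TT := IsNoetherianRing.of_finite 𝒪 _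
  haveI : IsNoetherianRing B := IsNoetherianRing.of_finite 𝒪 B
  have hressurj := residue_surjective_pairRing (H := H) _ hs
  obtain ⟨ρ', hl₁, hl₂, ⟨E₁⟩, ⟨E₂⟩, htr, -, habs⟩ := exists_rep_pairRing ρ₁ ρ₂ h2 S t₁ t₂ hchar₁
    hchar₂ c₀ hc₀ hdet₁ hdet₂ hirr
  have hinj : ∀ x : TT, F₁ x = 0 → F₂ x = 0 → x = 0 := fun x h1 h2' => pair_eq_zero h1 h2'
  have hinj' : ∀ x : TT, (F₁ : TT →+* B) x = 0 → (F₂ : TT →+* 𝒪) x = 0 → x = 0 := hinj
  have htr₁ : ∀ σ : GQ, F₁ (ρ'.trace σ) = ρ₁.trace σ := by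
    intro σ
    rw [htr σ]
    rfl
  have htr₂ : ∀ σ : GQ, F₂ (ρ'.trace σ) = ρ₂.trace σ := by
    intro σ
    rw [htr σ]
    rfl
  -- finiteness of the projections and the exponent
  have hfin₁ : (F₁ : TT →+* B).Finite := by
    refine RingHom.Finite.of_comp_finite (f := algebraMap 𝒪 TT) ?_
    have : (F₁ : TT →+* B).comp (algebraMap 𝒪 TT) = algebraMap 𝒪 B := (F₁).comp_algebraMap
    rw [this]
    exact RingHom.finite_algebraMap.mpr inferInstance
  have hfin₂ : (F₂ : TT →+* 𝒪).Finite := by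
    refine RingHom.Finite.of_comp_finite (f := algebraMap 𝒪 TT) ?_
    have : (F₂ : TT →+* 𝒪).comp (algebraMap 𝒪 TT) = algebraMap 𝒪 𝒪 := (F₂).comp_algebraMap
    rw [this]
    exact RingHom.finite_algebraMap.mpr inferInstance
  have hmapmax : ∀ (C : Type) [CommRing C] [IsLocalRing C] [Algebra 𝒪 C] (f : TT →ₐ[𝒪] C),
      (maximalIdeal 𝒪).map (algebraMap 𝒪 C) ≤ (maximalIdeal TT).map (f : TT →+* C) := by
    intro C _ _ _ f
    rw [Ideal.map_le_iff_le_comap]
    intro a ha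
    rw [Ideal.mem_comap, ← f.commutes]
    exact Ideal.mem_map_of_mem _ (map_nonunit (algebraMap 𝒪 TT) a ha)
  obtain ⟨e, he⟩ := exists_maximalIdeal_pow_le_map (𝒪 := 𝒪) B
  have he₁ : maximalIdeal B ^ (e + 1) ≤ (maximalIdeal TT).map (F₁ : TT →+* B) :=
    (Ideal.pow_le_pow_right (Nat.le_succ e)).trans (he.trans (hmapmax B F₁))
  have he₂ : maximalIdeal 𝒪 ^ (e + 1) ≤ (maximalIdeal TT).map (F₂ : TT →+* 𝒪) := by
    refine (Ideal.pow_le_self (Nat.succ_ne_zero e)).trans ?_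
    refine le_trans ?_ (hmapmax 𝒪 F₂)
    rw [Algebra.algebraMap_self, Ideal.map_id]
  refine ⟨TT, inferInstance, iLoc, inferInstance, iLH, iFin, F₁, F₂, ρ',
    hressurj, ?_, htr₁, htr₂, ?_, ?_, ?_, habs, ?_, ?_, ?_, ?_, ?_, ?_⟩
  · -- torsion free
    intro a ha t hat
    exact (smul_eq_zero.mp hat).resolve_left ha
  · -- determinants
    intro σ
    have h1 := Fermat.Agent.TW.det_baseChangeAlong (F₁ : TT →+* B) hl₁ ρ' σ
    rw [← Fermat.Agent.TW.det_eq_of_equiv E₁ σ] at h1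
    exact h1.symm
  · -- characteristic polynomials
    intro σ
    rw [← Fermat.Agent.TW.charpoly_baseChangeAlong (F₁ : TT →+* B) hl₁ ρ' σ]
    exact (Fermat.Agent.TW.charpoly_eq_of_equiv E₁ σ).symm
  · -- generated by traces
    have h1 := adjoin_tracePair ρ₁ ρ₂
    have h2' : Set.range ρ'.trace = Set.range (tracePair ρ₁ ρ₂) := by
      congr 1
      funext σ
      exact htr σ
    rw [h2']
    exact h1
  · -- residual equivalence
    intro ρbar hres
    refine residual_isEquiv_of_baseChangeAlong (F₁ : TT →+* B) hl₁ ρ' ρ₁ ⟨E₁⟩ ρbar _ _ ?_ ?_ hres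
    · intro x
      haveI := hl₁
      obtain ⟨a, rfl⟩ := residue_surjective x
      show ResidueField.map (F₁ : TT →+* B) (residue _ (algebraMap 𝒪 _ a)) =
        residue B (algebraMap 𝒪 B a)
      rw [ResidueField.map_residue]
      show residue B (F₁ (algebraMap 𝒪 _ a)) = _
      rw [(F₁).commutes]
    · haveI := hl₁
      intro y
      obtain ⟨a, ha⟩ := hBsurj y
      refine ⟨residue _ (algebraMap 𝒪 _ a), ?_⟩
      rw [ResidueField.map_residue]
      show residue B (F₁ (algebraMap 𝒪 _ a)) = y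
      rw [(F₁).commutes]
      exact ha
  · -- determinant
    intro p hp h₁ h₂
    refine detIsCyclotomic_of_pair F₁ hl₁ F₂ hl₂ hinj ρ' hp
      (separated_natCast_of_finite (𝒪 := 𝒪) h₂.1)
      (Fermat.Agent.TW.detIsCyclotomic_of_equiv E₁.symm h₁)
      (Fermat.Agent.TW.detIsCyclotomic_of_equiv E₂.symm h₂)
  · -- unramified
    intro q h₁ h₂
    exact isUnramifiedAt_of_pair _ hl₁ _ hl₂ hinj' ρ'
      (Fermat.Agent.TW.isUnramifiedAt_of_equiv E₁.symm h₁)
      (Fermat.Agent.TW.isUnramifiedAt_of_equiv E₂.symm h₂)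
  · -- unipotent
    intro q h₁ h₂
    exact isUnipotentOnInertiaAt_of_pair _ hl₁ _ hl₂ hinj' ρ'
      (Fermat.Agent.TW.isUnipotentOnInertiaAt_of_equiv E₁.symm h₁)
      (Fermat.Agent.TW.isUnipotentOnInertiaAt_of_equiv E₂.symm h₂)
  · -- flat
    intro p _ h₁ h₂
    exact isFlatAt_of_pair _ hl₁ _ hl₂ hinj' ρ' hfin₁ hfin₂ (e + 1) he₁ he₂
      (Fermat.Agent.TW.isFlatAt_of_equiv E₁.symm h₁)
      (Fermat.Agent.TW.isFlatAt_of_equiv E₂.symm h₂)
  · -- ordinary
    intro p hp hp2 hdet h₁ h₂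
    exact isOrdinaryAt_of_pair _ hl₁ _ hl₂ hinj' ρ' hp hp2 hdet
      (isOrdinaryAt_of_equiv E₁.symm h₁) (isOrdinaryAt_of_equiv E₂.symm h₂)

end TraceRing

end Fermat.Agent.ML.REPTL
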