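/-
PROJECT ML (S59) — [REPT-L] part A (helper9): **the assembly of `TWChainGalois`.**

Input: helper2's module data `L : TWModChainLevel …` for a Taylor–Wiles set `Q`, the Hecke–Galois
representations `R i : LevelRep (L.side i) …` of the levels of positive rank (Layer B + S31–S34,
`levelRepOf`), the representation `ρ_W` of `W`, and in the chain case the Frobenius scalar `Zt` of
the top level with the two relations (P1) (old points) and (P2′) (new points) of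
`ML/REPTL_helper9_AtPChain`.

* `nonempty_twChainGalois_aux` : the structure from an ABSTRACT trace ring `T` (with `f₁`, `f₂`,
  `ρ'` and the transfer facts);
* `nonempty_twChainGalois` : the structure, with `T` the trace ring `𝒪[(tr ρ_top σ, tr ρ_W σ)]`
  of `ML/REPTL_helper9_TraceRing`.
-/
import Mathlib
import Fermat.Agent.ML.REPTL_helper9_TraceRing
import Fermat.Agent.ML.REPTL_helper9_AtPChain
import Fermat.Agent.ML.IFACE_helper9_Chart
import Fermat.Agent.RB.GLUE_helper9_Data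

set_option autoImplicit false
set_option linter.unusedSectionVars false
set_option linter.unusedVariables false
set_option linter.style.haveILetI false

namespace Fermat.Agent.ML.REPTL

open Polynomial IsLocalRing Fermat.Agent.RB Fermat.Agent.RB.REPT

local notation "Ω" => AlgebraicClosure ℚ
local notation "GQ" => (AlgebraicClosure ℚ ≃ₐ[ℚ] AlgebraicClosure ℚ)

section Aux

variable {𝒪 : Type} [CommRing 𝒪] [IsDomain 𝒪] [IsDiscreteValuationRing 𝒪]
  [IsAdicComplete (maximalIdeal 𝒪) 𝒪] [CharZero 𝒪] [Finite (ResidueField 𝒪)]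
  {p : ℕ} {lam : 𝒪} {c : Nat.Primes → 𝒪} {m : ℕ} {Nl : Fin (m + 1) → ℕ} [∀ i, NeZero (Nl i)]
  {qc : Fin m → ℕ} {hqc : ∀ j, (qc j).Prime} {d : Fin (m + 1) → ℕ} {r n : ℕ} {Q : Fin r → ℕ}
  {Nt Nbig : Fin (m + 1) → ℕ} [∀ i, NeZero (Nt i)] [∀ i, NeZero (Nbig i)]
  [∀ j : Fin m, NeZero (Nbig j.castSucc * qc j)] {hqN : ∀ j : Fin m, ¬ qc j ∣ Nbig j.castSucc}
  (L : TWModChainLevel p lam c Nl qc hqc d r n Q Nt Nbig hqN)
  (Sres : Finset ℕ)
  (hS : ∀ ℓ : ℕ, ℓ ∉ Sres → ℓ ∉ badSet p (Nl (Fin.last m)) ∪ Set.range Q)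
  (hNl : ∀ j : Fin m, Nl j.succ = Nl j.castSucc * qc j)
  {ρbar : ResidualGaloisRep (ResidueField 𝒪)}

/-- a linear endomorphism of a level of rank `0` is anything. -/
theorem end_eq_of_rank_zero {i : Fin (m + 1)} (hd : d i = 0)
    (a b : Module.End 𝒪 (L.side i).H) : a = b := by
  haveI := subsingleton_of_rank_zero (L.side i) hd
  exact LinearMap.ext fun x => Subsingleton.elim _ _

/-- **the unit facts on the Frobenius scalar** (chain case): `U ≡ sgn` modulo `𝔪`. -/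
theorem frobScalar_sub_sgn_mem [Fact p.Prime] (hp2 : p ≠ 2)
    {pc : PCase} {sgn : Fin m → 𝒪} {K : Fin m → ChainKind}
    (hres : IsResChain ρbar p pc qc sgn K)
    {T : Type} [CommRing T] [IsLocalRing T] [Algebra 𝒪 T] [IsLocalHom (algebraMap 𝒪 T)]
    (ρ' : GaloisRepAdic T)
    (hresT : ρ'.residual.IsEquiv (ρbar.baseChangeAlong (ResidueField.map (algebraMap 𝒪 T))))
    (hdetT : ρ'.DetIsCyclotomic p) (U : T)
    (hU : ∀ P : ValuationSubring Ω, P.LiesOverPrime p → ∀ φ : GQ, P.IsFrobeniusAt φ p →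
      OrdQuotScalar ρ' P φ U) (j : Fin m) (hj : qc j = p) :
    U - algebraMap 𝒪 T (sgn j) ∈ maximalIdeal T := by
  have hp : p.Prime := Fact.out
  obtain ⟨P, φ, hP, hφ⟩ := Fermat.Agent.S54.exists_frobenius p hp
  obtain ⟨Lbar, hv, hD, hI, hφL⟩ := hres.ord_p j hj P hP
  have hs := ordQuotScalar_ofResidual_of_line ρbar Lbar hv hD hI (hφL φ hφ)
  obtain ⟨τ, hτ, hu⟩ := exists_mem_inertia_isUnit_det_sub_one ρ' hp hp2 hdetT hP
  have h1 := frobScalar_residue ρ' (ResidueField.map (algebraMap 𝒪 T)) ρbar hresT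
    hφ.mem_decompositionSubgroup hτ hu (hU P hP φ hφ) hs
  rw [← residue_eq_zero_iff, map_sub, h1, ResidueField.map_residue, sub_self]

/-- **the assembly from an abstract trace ring.** -/
theorem nonempty_twChainGalois_aux (hSK : SteinbergOfKillStatement) [Fact p.Prime] (hp2 : p ≠ 2)
    (hp𝒪 : (p : 𝒪) ∈ maximalIdeal 𝒪)
    {pc : PCase} {sgn : Fin m → 𝒪} {K : Fin m → ChainKind}
    (hres : IsResChain ρbar p pc qc sgn K)
    (hQ : ∀ q, (Q q).Prime)
    (Sb : Fin (m + 1) → Finset ℕ)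
    (R : ∀ i, 0 < d i → LevelRep (L.side i) ρbar (Sb i) Sres (Nl i) Q)
    (hdt : 0 < d (Fin.last m))
    (hqcSb : ∀ (i : Fin (m + 1)) (j : Fin m), i.val ≤ j.val → qc j ≠ p → qc j ∉ Sb i)
    (ρW : GaloisRepAdic 𝒪) (S : Finset ℕ)
    {T : Type} [CommRing T] [IsLocalRing T] [Algebra 𝒪 T] [IsLocalHom (algebraMap 𝒪 T)]
    [Module.Finite 𝒪 T]
    (f₁ : T →ₐ[𝒪] heckeAlg (L.side (Fin.last m)) Sres) (f₂ : T →ₐ[𝒪] 𝒪) (ρ' : GaloisRepAdic T)
    (hTsurj : Function.Surjective (residue T ∘ algebraMap 𝒪 T))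
    (hTtf : ∀ a : 𝒪, a ≠ 0 → ∀ t : T, a • t = 0 → t = 0)
    (hf₁ : ∀ σ : GQ, f₁ (ρ'.trace σ) = (R (Fin.last m) hdt).tr σ)
    (hf₂ : ∀ σ : GQ, f₂ (ρ'.trace σ) = ρW.trace σ)
    (hcharT : ∀ (ℓ : ℕ) (hℓ : ℓ.Prime) (hℓS : ℓ ∉ Sres) (P : ValuationSubring Ω),
      P.LiesOverPrime ℓ → ∀ φ : GQ, P.IsFrobeniusAt φ ℓ →
        (LinearMap.charpoly (ρ'.ρ φ)).map (f₁ : T →+* heckeAlg (L.side (Fin.last m)) Sres) =
          X ^ 2 - C (TtH (L.side (Fin.last m)) ⟨ℓ, hℓ⟩ hℓS) * X +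
            C ((ℓ : ℕ) : heckeAlg (L.side (Fin.last m)) Sres))
    (hadj : Algebra.adjoin 𝒪 (Set.range ρ'.trace) = ⊤)
    (habs : ρ'.residual.IsAbsolutelyIrreducible)
    (hresT : ρ'.residual.IsEquiv (ρbar.baseChangeAlong (ResidueField.map (algebraMap 𝒪 T))))
    (htype : chainCondition 𝒪 p S (Finset.univ.image qc) (Finset.univ.image Q) pc ρ')
    -- the chain case
    (Zt : heckeAlg (L.side (Fin.last m)) Sres) (U : T)
    (hU : pc = PCase.chain → ∀ P : ValuationSubring Ω, P.LiesOverPrime p → ∀ φ : GQ,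
      P.IsFrobeniusAt φ p → OrdQuotScalar ρ' P φ U)
    (hfU : pc = PCase.chain → f₁ U = Zt)
    (hP1 : pc = PCase.chain → ∀ j : Fin m, qc j = p →
      E L Sres hS hNl j.castSucc Zt * E L Sres hS hNl j.castSucc Zt
        - L.Tq j * E L Sres hS hNl j.castSucc Zt
        + algebraMap 𝒪 (Module.End 𝒪 (L.side j.castSucc).H) (p : 𝒪) = 0)
    (hP2 : pc = PCase.chain → ∀ j : Fin m, qc j = p → ∀ x : (L.side j.succ).H,
      ∃ y : Fin 2 → (L.side j.castSucc).H,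
        E L Sres hS hNl j.succ (Zt ^ 2 - 1) x = ∑ c', L.iota j c' (y c'))
    -- control
    {M0 : Type} [AddCommGroup M0] [Module 𝒪 M0] (ctl : (L.side (Fin.last m)).H →ₗ[𝒪] M0)
    (hctl : Function.Surjective ctl)
    (hker : ∀ x, ctl x = 0 ↔ x ∈ ⨆ q, LinearMap.range ((L.side (Fin.last m)).g q - 1))
    (tr0 : GQ → Module.End 𝒪 M0)
    (htr0 : ∀ (σ : GQ) (x : (L.side (Fin.last m)).H),
      ctl ((((R (Fin.last m) hdt).tr σ : heckeAlg (L.side (Fin.last m)) Sres) :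
        Module.End 𝒪 (L.side (Fin.last m)).H) x) = tr0 σ (ctl x)) :
    Nonempty (TWChainGalois p ρW ρbar S pc qc sgn r d (fun _ => 2) M0 tr0 n Q) := by
  classical
  have hp : p.Prime := Fact.out
  obtain ⟨Rt, hRt⟩ : ∃ Rt, Rt = R (Fin.last m) hdt := ⟨_, rfl⟩
  rw [← hRt] at hf₁ htr0
  haveI : IsNoetherianRing T := IsNoetherianRing.of_finite 𝒪 T
  haveI : IsAdicComplete (maximalIdeal T) T :=
    IsLocalRing.isAdicComplete_of_module_finite (𝒪 := 𝒪)
  have hsgn : ∀ j, sgn j ^ 2 = 1 := hres.sgn_sq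
  have hdetT : ρ'.DetIsCyclotomic p := htype.1
  refine ⟨{
    T := T
    residue_surjective := hTsurj
    torsion_free := hTtf
    ρ := ρ'
    residual_isEquiv := hresT
    isOfType := htype
    adjoin_trace := hadj
    toO := f₂
    toO_trace := hf₂
    H := fun i => (L.side i).H
    h := fun i => hh L Sres hS hNl f₁ i
    g := fun i => (L.side i).g
    g_pow := fun i => (L.side i).g_pow
    g_comm := fun i => (L.side i).g_comm
    g_comm_h := fun i q t => commute_g_hh L Sres hS hNl f₁ i q t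
    b := fun i => (L.side i).b
    free := fun i => (L.side i).free
    keyH := ?_
    unr := ?_
    iota := fun j c' => L.iota j c'
    iota_h := fun j c' t x => hh_iota L Sres hS hNl f₁ j c' t x
    iota_g := fun j c' q x => L.iota_g j c' q x
    retr := fun j c' => L.retr j c'
    retr_g := fun j c' q x => L.retr_g j c' q x
    retr_iota := fun j c' c'' x => L.retr_iota j c' c'' x
    omega := fun j => omega L sgn j
    omega_h := fun j t x => omega_hh L Sres hS hNl f₁ sgn j t x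
    omega_g := fun j q x => omega_g L sgn j q x
    omega_surjective := fun j => omega_surjective L sgn j
    omega_iota_q := ?_
    new_q := ?_
    Up := fun _ => U
    Up_spec := fun hpc P hP φ hφ => hU hpc P hP φ hφ
    omega_iota_p := ?_
    new_p := ?_
    ctl := ctl
    ctl_surjective := hctl
    ker_ctl := hker
    ctl_trace := fun σ x => ctl_trace_hh L Sres hS hNl f₁ ρ' Rt hf₁ ctl tr0 htr0 σ x }⟩
  · -- (KEY-H)
    intro i q
    rcases Nat.eq_zero_or_pos (d i) with hd | hd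
    · obtain ⟨P, φ, hP, -⟩ := Fermat.Agent.S54.exists_frobenius (Q q) (hQ q)
      exact ⟨P, hP, 1, Subgroup.one_mem _, end_eq_of_rank_zero L hd _ _⟩
    · exact keyH_hh L Sres hS hNl f₁ ρ' Rt hf₁ i (R i hd) q
  · -- unramified at the chain primes above the level
    intro i j hij hjp a ha
    rcases Nat.eq_zero_or_pos (d i) with hd | hd
    · exact end_eq_of_rank_zero L hd _ _
    · exact unr_hh L Sres hS hNl f₁ ρ' Rt hf₁ habs i (R i hd) (qc j) (hqc j)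
        (hqcSb i j hij hjp) a ha
  · -- `omega ∘ iota` at `q ≠ p`
    intro j hjp P hP φ hφ c' x
    rcases Nat.eq_zero_or_pos (d j.castSucc) with hd | hd
    · haveI := subsingleton_of_rank_zero (L.side j.castSucc) hd
      exact ⟨x, Subsingleton.elim _ _⟩
    · exact omega_iota_q_hh L Sres hS hNl f₁ ρ' Rt hf₁ sgn hsgn j hjp (R j.castSucc hd)
        (hqcSb j.castSucc j le_rfl hjp) P hP φ hφ c' x
  · -- the `q`-new quotient
    intro j hjp P hP φ hφ x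
    have htq : E L Sres hS hNl j.castSucc (Rt.tr φ) = L.Tq j := by
      rcases Nat.eq_zero_or_pos (d j.castSucc) with hd | hd
      · exact end_eq_of_rank_zero L hd _ _
      · rw [E_trace L Sres hS hNl Rt j.castSucc (R j.castSucc hd) φ,
          tr_frob L Sres (R j.castSucc hd) (qc j) (hqc j) (hqcSb j.castSucc j le_rfl hjp) P hP φ hφ,
          L.Tq_eq j hjp]
    exact new_q_hh L Sres hS hNl f₁ ρ' Rt hf₁ hSK hp2 hp𝒪 habs hcharT j hjp P hP φ hφ htq x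
  · -- `omega ∘ iota` at `p`
    intro hpc j hj c' x
    have hmem := frobScalar_sub_sgn_mem hp2 hres ρ' hresT hdetT U (hU hpc) j hj
    have hsu : IsUnit (algebraMap 𝒪 T (sgn j)) := by
      refine IsUnit.map (algebraMap 𝒪 T) ?_
      exact IsUnit.of_mul_eq_one (sgn j) (by rw [← pow_two]; exact hsgn j)
    have hUu : IsUnit U := isUnit_of_sub_mem hsu hmem
    have h2T : IsUnit (2 : T) := by
      have := (Fermat.Agent.RB.GLUE.isUnit_two_of_odd hp hp2 hp𝒪).map (algebraMap 𝒪 T)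
      rwa [map_ofNat] at this
    have hVu : IsUnit (U + algebraMap 𝒪 T (sgn j)) := by
      refine isUnit_of_sub_mem (h2T.mul hsu) ?_
      have : U + algebraMap 𝒪 T (sgn j) - 2 * algebraMap 𝒪 T (sgn j) =
          U - algebraMap 𝒪 T (sgn j) := by ring
      rw [this]
      exact hmem
    obtain ⟨Ui, hUi⟩ := hUu.exists_right_inv
    obtain ⟨V, hV⟩ := hVu.exists_right_inv
    have hZ : f₁ U * f₁ Ui = 1 := by rw [← map_mul, hUi, map_one]
    have hrel := hP1 hpc j hj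
    rw [← hfU hpc] at hrel
    have htq := Tq_eq_of_relation L Sres hS hNl j (f₁ U) (f₁ Ui) hZ hrel
    exact omega_iota_p_hh L Sres hS hNl f₁ sgn hsgn j hj U Ui V hUi hV htq c' x
  · -- the `p`-new quotient
    intro hpc j hj
    refine ⟨Ideal.span {U ^ 2 - 1}, fun a ha x => ?_, fun B _ _ π hπ hsurj hker' => ?_⟩
    · obtain ⟨b, rfl⟩ := Ideal.mem_span_singleton'.1 ha
      obtain ⟨y, hy⟩ := hP2 hpc j hj (hh L Sres hS hNl f₁ j.succ b x)
      refine ⟨y, ?_⟩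
      rw [mul_comm, map_mul, Module.End.mul_apply, ← hy, hh_apply, map_sub, map_pow, map_one,
        hfU hpc]
    · exact strict_of_scalar_sq ρ' hp hdetT U (hU hpc) B π hπ hsurj hker'

/-- **[REPT-L] part A: the Taylor–Wiles data `TWChainGalois` of a chain of levels**, with the trace
ring `𝒪[(tr ρ_top σ, tr ρ_W σ)]`. -/
theorem nonempty_twChainGalois (hSK : SteinbergOfKillStatement) (hTres : StrictOfTresStatement)
    [Fact p.Prime] (hp2 : p ≠ 2) (hp𝒪 : (p : 𝒪) ∈ maximalIdeal 𝒪)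
    {pc : PCase} {sgn : Fin m → 𝒪} {K : Fin m → ChainKind}
    (hres : IsResChain ρbar p pc qc sgn K)
    (hQ : ∀ q, (Q q).Prime)
    (Sb : Fin (m + 1) → Finset ℕ)
    (R : ∀ i, 0 < d i → LevelRep (L.side i) ρbar (Sb i) Sres (Nl i) Q)
    (hdt : 0 < d (Fin.last m))
    (hqcSb : ∀ (i : Fin (m + 1)) (j : Fin m), i.val ≤ j.val → qc j ≠ p → qc j ∉ Sb i)
    -- the representation of `W`
    (ρW : GaloisRepAdic 𝒪)
    (hWtr : ∀ σ : GQ, residue 𝒪 (ρW.trace σ) =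
      LinearMap.trace (ResidueField 𝒪) ρbar.V (ρbar.ρ σ))
    (hWirr : ρW.residual.IsAbsolutelyIrreducible)
    (t₂ : ℕ → 𝒪)
    (hWchar : ∀ ℓ : ℕ, ℓ.Prime → ℓ ∉ Sres → ∀ A : ValuationSubring Ω, A.LiesOverPrime ℓ →
      ∀ σ : GQ, A.IsFrobeniusAt σ ℓ →
        LinearMap.charpoly (ρW.ρ σ) = X ^ 2 - C (t₂ ℓ) * X + C ((ℓ : ℕ) : 𝒪))
    (hWdet : ρW.DetIsCyclotomic p)
    (S : Finset ℕ)
    (hWunr : ∀ ℓ : ℕ, ℓ.Prime → ℓ ∉ S ∪ Finset.univ.image qc → ρW.IsUnramifiedAt ℓ)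
    (hWunip : ∀ ℓ : ℕ, ℓ.Prime → ℓ ≠ p → ρW.IsUnipotentOnInertiaAt ℓ)
    (hWflat : pc = PCase.flat → ρW.IsFlatAt p)
    (hWord : pc ≠ PCase.flat → ρW.IsOrdinaryAt p)
    -- the sets of primes and the top level
    (hSbtop : ∀ q : ℕ, q.Prime → q ∉ S ∪ Finset.univ.image qc ∪ Finset.univ.image Q →
      q ∉ Sb (Fin.last m))
    (hSdvd : ∀ ℓ ∈ S ∪ Finset.univ.image qc, ℓ.Prime → ℓ ≠ p → ℓ ∣ Nl (Fin.last m))
    (hflatN : pc = PCase.flat → ¬ p ∣ Nl (Fin.last m))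
    (hordN : pc ≠ PCase.flat → p ∣ Nl (Fin.last m))
    (htres : pc = PCase.strict → ¬ IsPeuRamifieeAt ρbar p)
    -- the chain case: the Frobenius scalar of the top level, (P1), (P2′)
    (Zt : heckeAlg (L.side (Fin.last m)) Sres)
    (hZt : pc = PCase.chain → ∀ P : ValuationSubring Ω, P.LiesOverPrime p → ∀ φ : GQ,
      P.IsFrobeniusAt φ p →
        @OrdQuotScalar (heckeAlg (L.side (Fin.last m)) Sres) _ (R (Fin.last m) hdt).isLocalRingA
          (R (Fin.last m) hdt).ρ P φ Zt)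
    (hP1 : pc = PCase.chain → ∀ j : Fin m, qc j = p →
      E L Sres hS hNl j.castSucc Zt * E L Sres hS hNl j.castSucc Zt
        - L.Tq j * E L Sres hS hNl j.castSucc Zt
        + algebraMap 𝒪 (Module.End 𝒪 (L.side j.castSucc).H) (p : 𝒪) = 0)
    (hP2 : pc = PCase.chain → ∀ j : Fin m, qc j = p → ∀ x : (L.side j.succ).H,
      ∃ y : Fin 2 → (L.side j.castSucc).H,
        E L Sres hS hNl j.succ (Zt ^ 2 - 1) x = ∑ c', L.iota j c' (y c'))
    -- control
    {M0 : Type} [AddCommGroup M0] [Module 𝒪 M0] (ctl : (L.side (Fin.last m)).H →ₗ[𝒪] M0)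
    (hctl : Function.Surjective ctl)
    (hker : ∀ x, ctl x = 0 ↔ x ∈ ⨆ q, LinearMap.range ((L.side (Fin.last m)).g q - 1))
    (tr0 : GQ → Module.End 𝒪 M0)
    (htr0 : ∀ (σ : GQ) (x : (L.side (Fin.last m)).H),
      ctl ((((R (Fin.last m) hdt).tr σ : heckeAlg (L.side (Fin.last m)) Sres) :
        Module.End 𝒪 (L.side (Fin.last m)).H) x) = tr0 σ (ctl x)) :
    Nonempty (TWChainGalois p ρW ρbar S pc qc sgn r d (fun _ => 2) M0 tr0 n Q) := by
  classical
  have hp : p.Prime := Fact.out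
  obtain ⟨Rt, hRt⟩ : ∃ Rt, Rt = R (Fin.last m) hdt := ⟨_, rfl⟩
  rw [← hRt] at hZt htr0
  haveI := Rt.isLocalRingA
  haveI := Rt.isLocalHomA
  haveI : Module.Finite 𝒪 (heckeAlg (L.side (Fin.last m)) Sres) := finite_heckeAlg _ _
  haveI : IsNoetherianRing (heckeAlg (L.side (Fin.last m)) Sres) :=
    IsNoetherianRing.of_finite 𝒪 _
  have h2 : IsUnit (2 : 𝒪) := Fermat.Agent.RB.GLUE.isUnit_two_of_odd hp hp2 hp𝒪
  -- the congruence of the traces
  have hcong : ∀ σ : GQ, Rt.ρ.trace σ - algebraMap 𝒪 (heckeAlg (L.side (Fin.last m)) Sres)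
      (ρW.trace σ) ∈ maximalIdeal (heckeAlg (L.side (Fin.last m)) Sres) := by
    intro σ
    rw [← residue_eq_zero_iff, map_sub,
      Fermat.Agent.RB.GLUE.residue_trace Rt.ρ _ ρbar Rt.residual_isEquiv σ, ← hWtr σ,
      ResidueField.map_residue, sub_self]
  -- the Frobenius traces of the top level
  obtain ⟨t₁, ht₁⟩ : ∃ t₁ : ℕ → heckeAlg (L.side (Fin.last m)) Sres,
      ∀ (ℓ : ℕ) (hℓ : ℓ.Prime) (hℓS : ℓ ∉ Sres),
        t₁ ℓ = TtH (L.side (Fin.last m)) ⟨ℓ, hℓ⟩ hℓS :=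
    ⟨fun ℓ => if h : ℓ.Prime ∧ ℓ ∉ Sres then TtH (L.side (Fin.last m)) ⟨ℓ, h.1⟩ h.2 else 0,
      fun ℓ hℓ hℓS => dif_pos ⟨hℓ, hℓS⟩⟩
  have hchar₁ : ∀ ℓ : ℕ, ℓ.Prime → ℓ ∉ Sres → ∀ A : ValuationSubring Ω, A.LiesOverPrime ℓ →
      ∀ σ : GQ, A.IsFrobeniusAt σ ℓ → LinearMap.charpoly (Rt.ρ.ρ σ) =
        X ^ 2 - C (t₁ ℓ) * X + C ((ℓ : ℕ) : heckeAlg (L.side (Fin.last m)) Sres) := by
    intro ℓ hℓ hℓS A hA σ hσ
    rw [ht₁ ℓ hℓ hℓS]
    exact Rt.charpoly_frob ℓ hℓ hℓS A hA σ hσ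
  have hdet₁ := Fermat.Agent.RB.GLUE.det_complexConjugation_eq Rt.ρ hp Rt.det
  have hdet₂ := Fermat.Agent.RB.GLUE.det_complexConjugation_eq ρW hp hWdet
  obtain ⟨T, iCR, iLoc, iAlg, iLH, iFin, f₁, f₂, ρ', hTsurj, hTtf, hf₁, hf₂, hdetf₁, hcharf₁, hadj,
    habs, hresT, hDet, hUnr, hUnip, hFlat, hOrd⟩ :=
    exists_traceRing Rt.ρ ρW (L.side (Fin.last m)).H hcong Rt.residue_surjective h2 Sres t₁ t₂
      hchar₁ hWchar complexConjugation complexConjugation_mul_self hdet₁ hdet₂ hWirr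
  letI := iCR
  letI := iLoc
  letI := iAlg
  letI := iLH
  letI := iFin
  haveI : IsNoetherianRing T := IsNoetherianRing.of_finite 𝒪 T
  haveI : IsAdicComplete (maximalIdeal T) T :=
    IsLocalRing.isAdicComplete_of_module_finite (𝒪 := 𝒪)
  have hresT' := hresT ρbar Rt.residual_isEquiv
  have hdetT : ρ'.DetIsCyclotomic p := hDet p hp.pos Rt.det hWdet
  have hordT : pc ≠ PCase.flat → ρ'.IsOrdinaryAt p := fun h =>
    hOrd p hp hp2 hdetT (Rt.ord (hordN h)) (hWord h)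
  have htype : chainCondition 𝒪 p S (Finset.univ.image qc) (Finset.univ.image Q) pc ρ' := by
    refine ⟨hdetT, fun q hq hqS => ?_, fun ℓ hℓ hℓp hℓne => ?_, fun hpc => ?_, fun hpc => ?_,
      fun hpc => ?_⟩
    · exact hUnr q (Rt.unr q hq (hSbtop q hq hqS))
        (hWunr q hq (fun h => hqS (Finset.mem_union_left _ h)))
    · exact hUnip ℓ (Rt.unip ℓ hℓp hℓne (hSdvd ℓ hℓ hℓp hℓne)) (hWunip ℓ hℓp hℓne)
    · exact hFlat p (Rt.flat (hflatN hpc)) (hWflat hpc)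
    · have hne : pc ≠ PCase.flat := by rw [hpc]; decide
      exact hTres p hp2 hp𝒪 ρbar (htres hpc) T hTsurj ρ' hresT' hdetT (hordT hne)
    · exact hordT (by rw [hpc]; decide)
  -- the Frobenius scalar
  obtain ⟨U, hU⟩ : ∃ U : T, pc = PCase.chain → ∀ P : ValuationSubring Ω, P.LiesOverPrime p →
      ∀ φ : GQ, P.IsFrobeniusAt φ p → OrdQuotScalar ρ' P φ U := by
    by_cases hpc : pc = PCase.chain
    · obtain ⟨U, hU⟩ := exists_frobenius_scalar ρ' hp (hordT (by rw [hpc]; decide))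
      exact ⟨U, fun _ => hU⟩
    · exact ⟨0, fun h => absurd h hpc⟩
  have hfU : pc = PCase.chain → f₁ U = Zt := by
    intro hpc
    obtain ⟨P, φ, hP, hφ⟩ := Fermat.Agent.S54.exists_frobenius p hp
    obtain ⟨τ, hτ, hu⟩ := exists_mem_inertia_isUnit_det_sub_one Rt.ρ hp hp2 Rt.det hP
    exact ordQuotScalar_map_eq ρ' Rt.ρ (f₁ : T →+* heckeAlg (L.side (Fin.last m)) Sres) hf₁ hdetf₁
      hφ.mem_decompositionSubgroup hτ hu (hU hpc P hP φ hφ) (hZt hpc P hP φ hφ)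
  have hcharT : ∀ (ℓ : ℕ) (hℓ : ℓ.Prime) (hℓS : ℓ ∉ Sres) (P : ValuationSubring Ω),
      P.LiesOverPrime ℓ → ∀ φ : GQ, P.IsFrobeniusAt φ ℓ →
        (LinearMap.charpoly (ρ'.ρ φ)).map (f₁ : T →+* heckeAlg (L.side (Fin.last m)) Sres) =
          X ^ 2 - C (TtH (L.side (Fin.last m)) ⟨ℓ, hℓ⟩ hℓS) * X +
            C ((ℓ : ℕ) : heckeAlg (L.side (Fin.last m)) Sres) := by
    intro ℓ hℓ hℓS P hP φ hφ
    rw [hcharf₁ φ]
    exact Rt.charpoly_frob ℓ hℓ hℓS P hP φ hφ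
  subst hRt
  exact nonempty_twChainGalois_aux L Sres hS hNl hSK hp2 hp𝒪 hres hQ Sb R hdt hqcSb ρW S f₁ f₂ ρ'
    hTsurj hTtf hf₁ hf₂ hcharT hadj habs hresT' htype Zt U hU hfU hP1 hP2 ctl hctl hker tr0 htr0

end Aux

end Fermat.Agent.ML.REPTL
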