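/-
ML (S59) — helper1 — **[RHO-W] the multiplicative character of a nodal model**.

`K` a field with valuation subring `A`, `W` a nodal model (`S13.GNodeCtx.IsModel`):
`(y - α x)(y - β x) = x³ + a₄ x + a₆`, `a₄, a₆ ∈ 𝔪`, `α - β` a unit.  On the integral points with
nonsingular reduction (`depthPt = 0`) the class of `(y - α x)/(y - β x)` in the residue field is a
character: `tch (P + Q) = tch P * tch Q` (`tch_add`), `tch (-P) = (tch P)⁻¹`, and `tch P = 1` only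
for `P = 0`.  Any residue characteristic.
-/
import Mathlib
import Fermat.Agent.S13.At2_helper2_Inertia

set_option autoImplicit false
set_option linter.unusedSectionVars false
set_option linter.unusedVariables false

namespace Fermat.Agent.ML

open Fermat.Agent.Tate Fermat.Agent.S13
open WeierstrassCurve WeierstrassCurve.Affine IsLocalRing Polynomial

variable {K : Type*} [Field K] {A : ValuationSubring K}

/-! ### the partial residue map -/

open Classical in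
/-- the residue class of an element of `A` (`0` outside `A`). -/
noncomputable def resK (A : ValuationSubring K) (u : K) : ResidueField A :=
  if h : u ∈ A then residue A ⟨u, h⟩ else 0

theorem resK_of_mem {u : K} (h : u ∈ A) : resK A u = residue A ⟨u, h⟩ := by
  rw [resK, dif_pos h]

theorem resK_one : resK A (1 : K) = 1 := by
  rw [resK_of_mem A.one_mem]
  exact map_one (residue A)

theorem resK_mul {u v : K} (hu : u ∈ A) (hv : v ∈ A) : resK A (u * v) = resK A u * resK A v := by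
  rw [resK_of_mem hu, resK_of_mem hv, resK_of_mem (A.mul_mem _ _ hu hv), ← map_mul]
  rfl

theorem resK_neg {u : K} (hu : u ∈ A) : resK A (-u) = -resK A u := by
  rw [resK_of_mem hu, resK_of_mem (A.neg_mem _ hu), ← map_neg]
  rfl

theorem resK_pow {u : K} (hu : u ∈ A) (n : ℕ) : resK A (u ^ n) = resK A u ^ n := by
  rw [resK_of_mem hu, resK_of_mem (A.pow_mem hu n), ← map_pow]
  rfl

theorem resK_eq_iff {u v : K} (hu : u ∈ A) (hv : v ∈ A) :
    resK A u = resK A v ↔ u - v ∈ A.nonunits := by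
  rw [resK_of_mem hu, resK_of_mem hv, ← sub_eq_zero, ← map_sub, residue_eq_zero_iff]
  have h1 : (((⟨u, hu⟩ : A) - ⟨v, hv⟩ : A) : K) = u - v := rfl
  rw [← h1, A.coe_mem_nonunits_iff]

theorem resK_eq_zero_iff {u : K} (hu : u ∈ A) : resK A u = 0 ↔ u ∈ A.nonunits := by
  rw [resK_of_mem hu, residue_eq_zero_iff]
  have h1 : ((⟨u, hu⟩ : A) : K) = u := rfl
  conv_rhs => rw [← h1, A.coe_mem_nonunits_iff]

theorem resK_ne_zero {u : K} (hu : u ∈ A) (hu' : u ∉ A.nonunits) : resK A u ≠ 0 := fun h =>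
  hu' ((resK_eq_zero_iff hu).mp h)

/-! ### the product identity on an integral line -/

namespace NodeChar

variable {C : GNodeCtx K A} {m₁ m₂ μ x₁ x₂ x₃ : K}

theorem prod_eq (h : C.LineData m₁ m₂ μ x₁ x₂ x₃) (m : K) :
    (m * x₁ + μ) * (m * x₂ + μ) * (m * x₃ + μ) =
      m ^ 3 * (μ ^ 2 - C.a₆) + m ^ 2 * μ * (C.a₄ - (m₁ + m₂) * μ) + m * μ ^ 2 * (m₁ * m₂)
        + μ ^ 3 := by
  linear_combination (m ^ 3) * h.E3 + (m ^ 2 * μ) * h.E2 + (m * μ ^ 2) * h.E1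

theorem prod_sub_prod (h : C.LineData m₁ m₂ μ x₁ x₂ x₃) :
    (m₁ * x₁ + μ) * (m₁ * x₂ + μ) * (m₁ * x₃ + μ) -
      (m₂ * x₁ + μ) * (m₂ * x₂ + μ) * (m₂ * x₃ + μ) =
      (m₁ ^ 2 - m₂ ^ 2) * μ * C.a₄ - (m₁ ^ 3 - m₂ ^ 3) * C.a₆ := by
  rw [prod_eq h m₁, prod_eq h m₂]
  ring

theorem prod_sub_prod_mem (h : C.LineData m₁ m₂ μ x₁ x₂ x₃) :
    (m₁ * x₁ + μ) * (m₁ * x₂ + μ) * (m₁ * x₃ + μ) -
      (m₂ * x₁ + μ) * (m₂ * x₂ + μ) * (m₂ * x₃ + μ) ∈ A.nonunits := by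
  rw [prod_sub_prod h]
  have h1 : (m₁ ^ 2 - m₂ ^ 2) * μ ∈ A :=
    A.mul_mem _ _ (sub_mem (A.pow_mem h.hm₁ 2) (A.pow_mem h.hm₂ 2)) h.hμ
  have h2 : m₁ ^ 3 - m₂ ^ 3 ∈ A := sub_mem (A.pow_mem h.hm₁ 3) (A.pow_mem h.hm₂ 3)
  exact A.nonunits.sub_mem (mul_mem_nonunits_right h1 GNodeCtx.a₄_mem)
    (mul_mem_nonunits_right h2 GNodeCtx.a₆_mem)

/-- `R x` is a unit for a unit `x`. -/
theorem R_not_mem {x : K} (hx : x ∈ A) (hx' : x ∉ A.nonunits) : C.R x ∉ A.nonunits := by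
  intro h
  have h1 : x ^ 3 ∈ A.nonunits := by
    have e : x ^ 3 = C.R x - (C.a₄ * x + C.a₆) := by rw [GNodeCtx.R]; ring
    rw [e]
    exact A.nonunits.sub_mem h
      (A.nonunits.add_mem (mul_mem_nonunits_left GNodeCtx.a₄_mem hx) GNodeCtx.a₆_mem)
  exact hx' (mem_nonunits_of_pow_mem h1)

/-- both factors of a unit product of integral elements are units. -/
theorem not_mem_of_mul {a b : K} (ha : a ∈ A) (hb : b ∈ A) (h : a * b ∉ A.nonunits) :
    a ∉ A.nonunits ∧ b ∉ A.nonunits :=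
  ⟨fun h1 => h (mul_mem_nonunits_left h1 hb), fun h1 => h (mul_mem_nonunits_right ha h1)⟩

theorem field_aux {k : Type*} [Field k] {a₁ a₂ a₃ b₁ b₂ b₃ : k} (n₁ : b₁ ≠ 0) (n₂ : b₂ ≠ 0)
    (m₃ : a₃ ≠ 0) (h : a₁ * a₂ * a₃ = b₁ * b₂ * b₃) : b₃ / a₃ = a₁ / b₁ * (a₂ / b₂) := by
  rw [div_mul_div_comm, div_eq_div_iff m₃ (mul_ne_zero n₁ n₂)]
  linear_combination -h

end NodeChar

/-! ### the character -/

section Char

variable [DecidableEq K] {C : GNodeCtx K A} {W : Affine K} {α β : K}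

/-- the character `(y - α x)/(y - β x)` modulo `𝔪` (`1` at the origin). -/
noncomputable def tch (A : ValuationSubring K) (α β : K) {W : Affine K} :
    W.Point → ResidueField A
  | .zero => 1
  | .some x y _ => resK A (y - α * x) / resK A (y - β * x)

@[simp] theorem tch_zero : tch A α β (0 : W.Point) = 1 := rfl

theorem tch_some {x y : K} (h : W.Nonsingular x y) :
    tch A α β (Point.some x y h) = resK A (y - α * x) / resK A (y - β * x) := rfl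

/-- integral points with nonsingular reduction. -/
def GoodPt (C : GNodeCtx K A) (α : K) {W : Affine K} (P : W.Point) : Prop :=
  IntegralPt A P ∧ C.depthPt α P = 0

theorem goodPt_zero : GoodPt C α (0 : W.Point) := ⟨trivial, rfl⟩

theorem goodPt_some_iff {x y : K} (h : W.Nonsingular x y) :
    GoodPt C α (Point.some x y h) ↔ (x ∈ A ∧ y ∈ A) ∧ x ∉ A.nonunits := by
  unfold GoodPt
  rw [integralPt_some, GNodeCtx.depthPt_some, GNodeCtx.depth_eq_zero_iff]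

/-- the two linear forms at a good point are units. -/
theorem node_forms_unit (hM : C.IsModel W α β) {x y : K} (h : W.Nonsingular x y)
    (hx : x ∈ A) (hy : y ∈ A) (hx' : x ∉ A.nonunits) :
    (y - α * x ∈ A ∧ y - α * x ∉ A.nonunits) ∧ (y - β * x ∈ A ∧ y - β * x ∉ A.nonunits) := by
  have ha : y - α * x ∈ A := sub_mem hy (A.mul_mem _ _ hM.hα hx)
  have hb : y - β * x ∈ A := sub_mem hy (A.mul_mem _ _ hM.hβ hx)
  have hprod : (y - α * x) * (y - β * x) ∉ A.nonunits := by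
    rw [hM.equation h.1]
    exact NodeChar.R_not_mem hx hx'
  obtain ⟨h1, h2⟩ := NodeChar.not_mem_of_mul ha hb hprod
  exact ⟨⟨ha, h1⟩, ⟨hb, h2⟩⟩

theorem node_tch_ne_zero (hM : C.IsModel W α β) {P : W.Point} (hP : GoodPt C α P) :
    tch A α β P ≠ 0 := by
  rcases P with _ | ⟨x, y, h⟩
  · exact one_ne_zero
  · obtain ⟨⟨hx, hy⟩, hx'⟩ := (goodPt_some_iff h).mp hP
    obtain ⟨⟨ha, ha'⟩, ⟨hb, hb'⟩⟩ := node_forms_unit hM h hx hy hx'
    rw [tch_some]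
    exact div_ne_zero (resK_ne_zero ha ha') (resK_ne_zero hb hb')

/-- the negative of a good point is good. -/
theorem node_goodPt_neg (hM : C.IsModel W α β) {P : W.Point} (hP : GoodPt C α P) :
    GoodPt C α (-P) := by
  rcases P with _ | ⟨x, y, h⟩
  · exact hP
  · obtain ⟨⟨hx, hy⟩, hx'⟩ := (goodPt_some_iff h).mp hP
    rw [Point.neg_some, goodPt_some_iff]
    refine ⟨⟨hx, ?_⟩, hx'⟩
    rw [hM.negY]
    exact A.add_mem _ _ (A.neg_mem _ hy) (A.mul_mem _ _ (A.add_mem _ _ hM.hα hM.hβ) hx)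

/-- `tch (-P) = (tch P)⁻¹`. -/
theorem node_tch_neg (hM : C.IsModel W α β) {P : W.Point} (hP : GoodPt C α P) :
    tch A α β (-P) = (tch A α β P)⁻¹ := by
  rcases P with _ | ⟨x, y, h⟩
  · show tch A α β (0 : W.Point) = (tch A α β (0 : W.Point))⁻¹
    rw [tch_zero, inv_one]
  · obtain ⟨⟨hx, hy⟩, hx'⟩ := (goodPt_some_iff h).mp hP
    obtain ⟨⟨ha, ha'⟩, ⟨hb, hb'⟩⟩ := node_forms_unit hM h hx hy hx'
    rw [Point.neg_some, tch_some, tch_some, hM.negY, inv_div]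
    have e1 : -y + (α + β) * x - α * x = -(y - β * x) := by ring
    have e2 : -y + (α + β) * x - β * x = -(y - α * x) := by ring
    rw [e1, e2, resK_neg hb, resK_neg ha, neg_div_neg_eq]

/-- a good point with trivial character is the origin. -/
theorem node_eq_zero_of_tch_eq_one (hM : C.IsModel W α β) {P : W.Point} (hP : GoodPt C α P)
    (h1 : tch A α β P = 1) : P = 0 := by
  rcases P with _ | ⟨x, y, h⟩
  · rfl
  · exfalso
    obtain ⟨⟨hx, hy⟩, hx'⟩ := (goodPt_some_iff h).mp hP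
    obtain ⟨⟨ha, ha'⟩, ⟨hb, hb'⟩⟩ := node_forms_unit hM h hx hy hx'
    rw [tch_some, div_eq_one_iff_eq (resK_ne_zero hb hb'), resK_eq_iff ha hb] at h1
    have e : y - α * x - (y - β * x) = -(C.γ * x) := by rw [← hM.hγ]; ring
    rw [e] at h1
    have h2 : C.γ * x ∈ A.nonunits := by
      have := A.nonunits.neg_mem h1
      rwa [neg_neg] at this
    have hγA : C.γ ∈ A := by rw [← hM.hγ]; exact sub_mem hM.hα hM.hβ
    rcases mem_nonunits_of_mul_mem hγA hx h2 with h3 | h3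
    · have := C.L.pos_of_mem_nonunits C.γ_ne h3
      rw [C.γ_unit] at this
      exact lt_irrefl _ this
    · exact hx' h3

/-- the sum of two good points, if integral, is good. -/
theorem node_goodPt_add (hM : C.IsModel W α β) {P Q : W.Point} (hP : GoodPt C α P)
    (hQ : GoodPt C α Q) (hPQ : IntegralPt A (P + Q)) : GoodPt C α (P + Q) := by
  refine ⟨hPQ, ?_⟩
  obtain ⟨k, hk⟩ := hM.depthPt_add P Q hP.1 hQ.1 hPQ
  rw [hP.2, hQ.2, zero_add, zero_add] at hk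
  obtain ⟨h0, h1⟩ := GNodeCtx.depthPt_range (C := C) α (P + Q)
  exact GNodeCtx.eq_zero_of_int_mul h0 h1 hk

/-- **multiplicativity of the character.** -/
theorem node_tch_add (hM : C.IsModel W α β) {P Q : W.Point} (hP : GoodPt C α P)
    (hQ : GoodPt C α Q) (hPQ : IntegralPt A (P + Q)) :
    tch A α β (P + Q) = tch A α β P * tch A α β Q := by
  have hG := node_goodPt_add hM hP hQ hPQ
  rcases P with _ | ⟨x₁, y₁, h₁⟩
  · show tch A α β (0 + Q) = tch A α β (0 : W.Point) * tch A α β Q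
    rw [zero_add, tch_zero, one_mul]
  rcases Q with _ | ⟨x₂, y₂, h₂⟩
  · show tch A α β (Point.some x₁ y₁ h₁ + 0) =
      tch A α β (Point.some x₁ y₁ h₁) * tch A α β (0 : W.Point)
    rw [add_zero, tch_zero, mul_one]
  by_cases hxy : x₁ = x₂ ∧ y₁ = W.negY x₂ y₂
  · -- opposite points
    have hsum : Point.some x₁ y₁ h₁ + Point.some x₂ y₂ h₂ = 0 := Point.add_of_Y_eq hxy.1 hxy.2
    have hneg : Point.some x₁ y₁ h₁ = -Point.some x₂ y₂ h₂ := by
      rw [← add_eq_zero_iff_eq_neg]; exact hsum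
    rw [hsum, hneg, node_tch_neg hM hQ, tch_zero, inv_mul_cancel₀ (node_tch_ne_zero hM hQ)]
  obtain ⟨x₃, y₃, h₃, hadd, hy₂, hy₃, hF⟩ := exists_collinear_of_add W h₁ h₂ hxy
  set l := W.slope x₁ x₂ y₁ y₂ with hl
  obtain ⟨E1, E2, E3⟩ := vieta_of_addPolynomial_eq W hF
  rw [hM.a₁, hM.a₂] at E1
  rw [hM.a₁, hM.a₃, hM.a₄] at E2
  rw [hM.a₃, hM.a₆] at E3
  -- the third point is good
  have hG3 : GoodPt C α (Point.some x₃ y₃ h₃) := by
    have := node_goodPt_neg hM hG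
    rwa [hadd, neg_neg] at this
  obtain ⟨⟨hx₁, hy₁⟩, hx₁'⟩ := (goodPt_some_iff h₁).mp hP
  obtain ⟨⟨hx₂, hy₂A⟩, hx₂'⟩ := (goodPt_some_iff h₂).mp hQ
  obtain ⟨⟨hx₃, hy₃A⟩, hx₃'⟩ := (goodPt_some_iff h₃).mp hG3
  have hlA : l ∈ A := by
    by_contra hl'
    have hc : α * β - (x₁ + x₂ + x₃) ∈ A :=
      sub_mem (mul_mem hM.hα hM.hβ) (A.add_mem _ _ (A.add_mem _ _ hx₁ hx₂) hx₃)
    have ha : -(α + β) ∈ A := neg_mem (A.add_mem _ _ hM.hα hM.hβ)
    apply sq_add_not_mem hl' ha hc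
    have : l ^ 2 + -(α + β) * l + (α * β - (x₁ + x₂ + x₃)) = 0 := by rw [E1]; ring
    rw [this]; exact A.zero_mem
  set μ := y₁ - l * x₁ with hμ
  have hμA : μ ∈ A := sub_mem hy₁ (A.mul_mem _ _ hlA hx₁)
  have hLD : C.LineData (l - α) (l - β) μ x₁ x₂ x₃ :=
    ⟨sub_mem hlA hM.hα, sub_mem hlA hM.hβ, by rw [← hM.hγ]; ring, hμA, hx₁, hx₂, hx₃,
      by rw [E1]; ring, by rw [E2, hμ]; ring, by rw [E3, hμ]; ring⟩
  have key := NodeChar.prod_sub_prod_mem hLD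
  have e₁ : (l - α) * x₁ + μ = y₁ - α * x₁ := by rw [hμ]; ring
  have e₂ : (l - α) * x₂ + μ = y₂ - α * x₂ := by rw [hμ, hy₂]; ring
  have e₃ : (l - α) * x₃ + μ = y₃ - α * x₃ := by rw [hμ, hy₃]; ring
  have f₁ : (l - β) * x₁ + μ = y₁ - β * x₁ := by rw [hμ]; ring
  have f₂ : (l - β) * x₂ + μ = y₂ - β * x₂ := by rw [hμ, hy₂]; ring
  have f₃ : (l - β) * x₃ + μ = y₃ - β * x₃ := by rw [hμ, hy₃]; ring
  rw [e₁, e₂, e₃, f₁, f₂, f₃] at key
  obtain ⟨⟨ha₁, ha₁'⟩, ⟨hb₁, hb₁'⟩⟩ := node_forms_unit hM h₁ hx₁ hy₁ hx₁'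
  obtain ⟨⟨ha₂, ha₂'⟩, ⟨hb₂, hb₂'⟩⟩ := node_forms_unit hM h₂ hx₂ hy₂A hx₂'
  obtain ⟨⟨ha₃, ha₃'⟩, ⟨hb₃, hb₃'⟩⟩ := node_forms_unit hM h₃ hx₃ hy₃A hx₃'
  have key2 : resK A (y₁ - α * x₁) * resK A (y₂ - α * x₂) * resK A (y₃ - α * x₃) =
      resK A (y₁ - β * x₁) * resK A (y₂ - β * x₂) * resK A (y₃ - β * x₃) := by
    rw [← resK_mul ha₁ ha₂, ← resK_mul (A.mul_mem _ _ ha₁ ha₂) ha₃, ← resK_mul hb₁ hb₂,
      ← resK_mul (A.mul_mem _ _ hb₁ hb₂) hb₃,
      resK_eq_iff (A.mul_mem _ _ (A.mul_mem _ _ ha₁ ha₂) ha₃)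
        (A.mul_mem _ _ (A.mul_mem _ _ hb₁ hb₂) hb₃)]
    exact key
  have n₁ := resK_ne_zero hb₁ hb₁'
  have n₂ := resK_ne_zero hb₂ hb₂'
  have n₃ := resK_ne_zero hb₃ hb₃'
  have m₃ := resK_ne_zero ha₃ ha₃'
  rw [hadd, node_tch_neg hM hG3, tch_some, tch_some, tch_some, inv_div]
  exact NodeChar.field_aux n₁ n₂ m₃ key2

end Char

end Fermat.Agent.ML
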