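/-
ML (S59) — helper1 — **[RHO-W] the toric part of the torsion of a nodal model**.

For a nodal model `W` over `(K, A)` whose `p`-power torsion points are integral:
* `toricTors hM m hint`: the `m`-torsion points with nonsingular reduction form a subgroup on which
  `tch` is an injective character with values in the `m`-th roots of unity of the residue field
  (`card_toricTors_le`);
* if `#E[p] = p²`: there is a non-toric `p`-torsion point and a nonzero toric one;
* the toric `p`-power torsion is `p`-divisible (`exists_toric_div`);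
* `exists_toric_tateSeq`: a Tate sequence with all components toric and nonzero first component.
-/
import Mathlib
import Fermat.Agent.ML.RHOW_helper1_NodeChar
import Fermat.Agent.S58.TMOD_helper4_Basic

set_option autoImplicit false
set_option linter.unusedSectionVars false
set_option linter.unusedVariables false
set_option linter.style.haveILetI false

namespace Fermat.Agent.ML

open Fermat.Agent.Tate Fermat.Agent.S13 Fermat.Agent.GR Fermat.Agent.S58
open WeierstrassCurve WeierstrassCurve.Affine IsLocalRing Polynomial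

variable {K : Type*} [Field K] [DecidableEq K] {A : ValuationSubring K}
  {C : GNodeCtx K A} {W : Affine K} {α β : K}

/-- the `m`-torsion points are integral. -/
def IntTors (A : ValuationSubring K) (W : Affine K) (m : ℕ) : Prop :=
  ∀ P : W.Point, m • P = 0 → IntegralPt A P

theorem IntTors.of_dvd {m m' : ℕ} (h : IntTors A W m') (hd : m ∣ m') : IntTors A W m := by
  intro P hP
  obtain ⟨c, rfl⟩ := hd
  apply h P
  rw [mul_comm, mul_smul, hP, smul_zero]

theorem intTors_of_hR1 {m : ℕ}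
    (hR1 : ∀ {x y : K} (h : W.Nonsingular x y), m • Point.some x y h = 0 → x ∈ A ∧ y ∈ A) :
    IntTors A W m := by
  intro P hP
  rcases P with _ | ⟨x, y, h⟩
  · trivial
  · exact hR1 h hP

section Tors

variable (hM : C.IsModel W α β)

include hM

/-- depth of a sum of torsion points. -/
theorem depth_add_tors {m : ℕ} (hint : IntTors A W m) {P Q : W.Point} (hP : m • P = 0)
    (hQ : m • Q = 0) : ∃ k : ℤ, C.depthPt α (P + Q) = C.depthPt α P + C.depthPt α Q + k * C.n :=
  hM.depthPt_add P Q (hint P hP) (hint Q hQ) (hint (P + Q) (by rw [smul_add, hP, hQ, add_zero]))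

/-- depth of a multiple of a torsion point. -/
theorem depth_nsmul_tors {m : ℕ} (hint : IntTors A W m) {P : W.Point} (hP : m • P = 0) (j : ℕ) :
    ∃ k : ℤ, C.depthPt α (j • P) = j * C.depthPt α P + k * C.n :=
  hM.depthPt_nsmul P j (fun i _ => hint (i • P) (by rw [smul_comm, hP, smul_zero]))

/-- `m · depth P ∈ n ℤ` for an `m`-torsion point. -/
theorem mul_depth_tors {m : ℕ} (hint : IntTors A W m) {P : W.Point} (hP : m • P = 0) :
    ∃ a : ℤ, (m : ℚ) * C.depthPt α P = a * C.n := by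
  obtain ⟨k, hk⟩ := depth_nsmul_tors hM hint hP m
  rw [hP, GNodeCtx.depthPt_zero] at hk
  exact ⟨-k, by push_cast; linarith⟩

omit hM in
/-- a depth which is an integral multiple of `n` vanishes. -/
theorem depth_eq_zero_of_int (P : W.Point) {k : ℤ} (hk : C.depthPt α P = k * C.n) :
    C.depthPt α P = 0 := by
  obtain ⟨h0, h1⟩ := GNodeCtx.depthPt_range (C := C) α P
  exact GNodeCtx.eq_zero_of_int_mul h0 h1 hk

/-- the toric part of the `m`-torsion. -/
def toricTors (m : ℕ) (hint : IntTors A W m) : AddSubgroup W.Point where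
  carrier := {P | m • P = 0 ∧ C.depthPt α P = 0}
  zero_mem' := ⟨smul_zero m, rfl⟩
  add_mem' := by
    rintro P Q ⟨hP, hPd⟩ ⟨hQ, hQd⟩
    refine ⟨by rw [smul_add, hP, hQ, add_zero], ?_⟩
    obtain ⟨k, hk⟩ := depth_add_tors hM hint hP hQ
    rw [hPd, hQd, zero_add, zero_add] at hk
    exact depth_eq_zero_of_int _ hk
  neg_mem' := by
    rintro P ⟨hP, hPd⟩
    refine ⟨by rw [smul_neg, hP, neg_zero], ?_⟩
    obtain ⟨k, hk⟩ := hM.depthPt_neg P
    rw [hPd, neg_zero, zero_add] at hk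
    exact depth_eq_zero_of_int _ hk

theorem mem_toricTors {m : ℕ} {hint : IntTors A W m} {P : W.Point} :
    P ∈ toricTors hM m hint ↔ m • P = 0 ∧ C.depthPt α P = 0 := Iff.rfl

theorem goodPt_of_mem {m : ℕ} {hint : IntTors A W m} {P : W.Point}
    (hP : P ∈ toricTors hM m hint) : GoodPt C α P := ⟨hint P hP.1, hP.2⟩

/-- `tch` is additive on the toric torsion. -/
theorem tch_add_tors {m : ℕ} {hint : IntTors A W m} {P Q : W.Point}
    (hP : P ∈ toricTors hM m hint) (hQ : Q ∈ toricTors hM m hint) :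
    tch A α β (P + Q) = tch A α β P * tch A α β Q :=
  node_tch_add hM (goodPt_of_mem hM hP) (goodPt_of_mem hM hQ)
    (hint (P + Q) ((toricTors hM m hint).add_mem hP hQ).1)

theorem tch_nsmul_tors {m : ℕ} {hint : IntTors A W m} {P : W.Point}
    (hP : P ∈ toricTors hM m hint) (j : ℕ) : tch A α β (j • P) = tch A α β P ^ j := by
  induction j with
  | zero => rw [zero_smul, pow_zero, tch_zero]
  | succ j ih =>
    rw [succ_nsmul, tch_add_tors hM ((toricTors hM m hint).nsmul_mem hP j) hP, ih, pow_succ]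

theorem tch_neg_tors {m : ℕ} {hint : IntTors A W m} {P : W.Point}
    (hP : P ∈ toricTors hM m hint) : tch A α β (-P) = (tch A α β P)⁻¹ :=
  node_tch_neg hM (goodPt_of_mem hM hP)

theorem tch_pow_tors {m : ℕ} {hint : IntTors A W m} {P : W.Point}
    (hP : P ∈ toricTors hM m hint) : tch A α β P ^ m = 1 := by
  rw [← tch_nsmul_tors hM hP, hP.1, tch_zero]

/-- **injectivity of the character on the toric torsion.** -/
theorem tch_inj_tors {m : ℕ} {hint : IntTors A W m} {P Q : W.Point}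
    (hP : P ∈ toricTors hM m hint) (hQ : Q ∈ toricTors hM m hint)
    (h : tch A α β P = tch A α β Q) : P = Q := by
  have hnQ := (toricTors hM m hint).neg_mem hQ
  have hPQ := (toricTors hM m hint).add_mem hP hnQ
  have h1 : tch A α β (P + -Q) = 1 := by
    rw [tch_add_tors hM hP hnQ, tch_neg_tors hM hQ, h,
      mul_inv_cancel₀ (node_tch_ne_zero hM (goodPt_of_mem hM hQ))]
  have h2 := node_eq_zero_of_tch_eq_one hM (goodPt_of_mem hM hPQ) h1
  rwa [← sub_eq_add_neg, sub_eq_zero] at h2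

/-- **the toric `m`-torsion has at most `m` elements.** -/
theorem card_toricTors_le {m : ℕ} (hm : 0 < m) (hint : IntTors A W m) :
    Nat.card (toricTors hM m hint) ≤ m := by
  classical
  let f : toricTors hM m hint → ↥(nthRootsFinset m (1 : ResidueField A)) := fun P =>
    ⟨tch A α β P.1, (mem_nthRootsFinset hm 1).mpr (tch_pow_tors hM P.2)⟩
  have hf : Function.Injective f := by
    intro P Q h
    apply Subtype.ext
    exact tch_inj_tors hM P.2 Q.2 (congrArg Subtype.val h)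
  have h1 := Nat.card_le_card_of_injective f hf
  have h2 : Nat.card ↥(nthRootsFinset m (1 : ResidueField A)) ≤ m := by
    rw [Nat.card_eq_fintype_card, Fintype.card_coe]
    exact (Multiset.toFinset_card_le _).trans (card_nthRoots m 1)
  exact h1.trans h2

/-! ### level `p` -/

variable {p : ℕ}

/-- the depth of a `p`-torsion point is `a n / p` with `0 ≤ a < p`. -/
theorem depth_tors_p (hp : 0 < p) (hint : IntTors A W p) {P : W.Point} (hP : p • P = 0) :
    ∃ a : ℕ, a < p ∧ C.depthPt α P = a * C.n / p := by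
  obtain ⟨a, ha⟩ := mul_depth_tors hM hint hP
  obtain ⟨h0, h1⟩ := GNodeCtx.depthPt_range (C := C) α P
  have hn := C.n_pos
  have hpQ : (0 : ℚ) < p := by exact_mod_cast hp
  have ha0 : 0 ≤ a := by
    by_contra hneg
    have h2 : a ≤ -1 := by omega
    have h3 : (a : ℚ) ≤ -1 := by exact_mod_cast h2
    have h4 : (a : ℚ) * C.n ≤ -1 * C.n := mul_le_mul_of_nonneg_right h3 hn.le
    have h5 : 0 ≤ (p : ℚ) * C.depthPt α P := mul_nonneg hpQ.le h0
    linarith
  have hap : a < p := by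
    by_contra hge
    have h2 : (p : ℤ) ≤ a := by omega
    have h3 : (p : ℚ) ≤ a := by exact_mod_cast h2
    have h4 : (p : ℚ) * C.n ≤ a * C.n := mul_le_mul_of_nonneg_right h3 hn.le
    have h5 : (p : ℚ) * C.depthPt α P < p * C.n := mul_lt_mul_of_pos_left h1 hpQ
    linarith
  refine ⟨a.toNat, by omega, ?_⟩
  have h6 : ((a.toNat : ℕ) : ℚ) = (a : ℚ) := by
    have : ((a.toNat : ℕ) : ℤ) = a := Int.toNat_of_nonneg ha0
    exact_mod_cast this
  rw [h6, eq_div_iff hpQ.ne']
  linarith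

/-- **a non-toric `p`-torsion point** when `#E[p] = p²`. -/
theorem exists_nontoric (hp : p.Prime) (hint : IntTors A W p)
    (hcard : Nat.card {P : W.Point // p • P = 0} = p ^ 2) :
    ∃ R₀ : W.Point, p • R₀ = 0 ∧ C.depthPt α R₀ ≠ 0 := by
  by_contra hcon
  have hall : ∀ P : W.Point, p • P = 0 → C.depthPt α P = 0 := by
    intro P hP
    by_contra h
    exact hcon ⟨P, hP, h⟩
  have hle := card_toricTors_le hM hp.pos hint
  let g : {P : W.Point // p • P = 0} → toricTors hM p hint := fun P => ⟨P.1, P.2, hall P.1 P.2⟩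
  have hg : Function.Injective g := by
    intro P Q h
    apply Subtype.ext
    exact congrArg (fun z : toricTors hM p hint => (z : W.Point)) h
  haveI : Finite (toricTors hM p hint) := by
    apply Nat.finite_of_card_ne_zero
    intro h0
    have hfin : Finite {P : W.Point // p • P = 0} :=
      Nat.finite_of_card_ne_zero (by rw [hcard]; exact pow_ne_zero _ hp.ne_zero)
    have hsurj : Function.Surjective g := fun Q => ⟨⟨Q.1, Q.2.1⟩, rfl⟩
    haveI := Finite.of_surjective g hsurj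
    have : Nat.card (toricTors hM p hint) ≠ 0 := by
      rw [Nat.card_ne_zero]
      exact ⟨⟨0, (toricTors hM p hint).zero_mem⟩, inferInstance⟩
    exact this h0
  have h1 := Nat.card_le_card_of_injective g hg
  rw [hcard] at h1
  have h2 : p ^ 2 ≤ p := h1.trans hle
  have h3 : p * 2 ≤ p ^ 2 := by rw [sq]; exact Nat.mul_le_mul_left p hp.two_le
  have := hp.pos
  omega

/-- **a nonzero toric `p`-torsion point** when `#E[p] = p²`. -/
theorem exists_toric_ne_zero (hp : p.Prime) (hint : IntTors A W p)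
    (hcard : Nat.card {P : W.Point // p • P = 0} = p ^ 2) :
    ∃ e : W.Point, e ≠ 0 ∧ p • e = 0 ∧ C.depthPt α e = 0 := by
  classical
  haveI hfin : Finite {P : W.Point // p • P = 0} :=
    Nat.finite_of_card_ne_zero (by rw [hcard]; exact pow_ne_zero _ hp.ne_zero)
  haveI := Fintype.ofFinite {P : W.Point // p • P = 0}
  let t : Finset ℚ := (Finset.range p).image (fun a : ℕ => (a : ℚ) * C.n / p)
  have hc : t.card < (Finset.univ : Finset {P : W.Point // p • P = 0}).card := by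
    rw [Finset.card_univ, ← Nat.card_eq_fintype_card, hcard]
    have h1 : t.card ≤ p := by
      refine Finset.card_image_le.trans ?_
      rw [Finset.card_range]
    have h3 : p * 2 ≤ p ^ 2 := by rw [sq]; exact Nat.mul_le_mul_left p hp.two_le
    have := hp.pos
    omega
  have hmaps : ∀ P ∈ (Finset.univ : Finset {P : W.Point // p • P = 0}),
      C.depthPt α P.1 ∈ t := by
    intro P _
    obtain ⟨a, ha, hd⟩ := depth_tors_p hM hp.pos hint P.2
    rw [Finset.mem_image]
    exact ⟨a, Finset.mem_range.mpr ha, hd.symm⟩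
  obtain ⟨P, -, Q, -, hne, hd⟩ := Finset.exists_ne_map_eq_of_card_lt_of_maps_to hc hmaps
  refine ⟨P.1 - Q.1, ?_, ?_, ?_⟩
  · intro h
    apply hne
    apply Subtype.ext
    exact sub_eq_zero.mp h
  · rw [smul_sub, P.2, Q.2, sub_zero]
  · have hnQ : p • (-Q.1) = 0 := by rw [smul_neg, Q.2, neg_zero]
    obtain ⟨k, hk⟩ := depth_add_tors hM hint P.2 hnQ
    obtain ⟨k', hk'⟩ := hM.depthPt_neg Q.1
    rw [sub_eq_add_neg]
    apply depth_eq_zero_of_int _ (k := k + k')
    rw [hk, hk', hd]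
    push_cast
    ring

/-! ### divisibility of the toric `p`-power torsion -/

omit hM in
/-- solving `c a₁ + a₀ ≡ 0` modulo a prime. -/
theorem exists_mul_add_dvd (hp : p.Prime) {a₁ : ℕ} (h0 : 0 < a₁) (h1 : a₁ < p) (a₀ : ℤ) :
    ∃ c : ℕ, (p : ℤ) ∣ (c : ℤ) * a₁ + a₀ := by
  have hcop : IsCoprime (a₁ : ℤ) (p : ℤ) := by
    rw [Int.isCoprime_iff_gcd_eq_one, Int.gcd_natCast_natCast]
    exact (Nat.Coprime.symm ((Nat.Prime.coprime_iff_not_dvd hp).mpr
      (Nat.not_dvd_of_pos_of_lt h0 h1)))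
  obtain ⟨u, v, huv⟩ := hcop
  -- `c' = -a₀ u`
  refine ⟨((-a₀ * u) % p).toNat, ?_⟩
  have hpos : (0 : ℤ) < p := by exact_mod_cast hp.pos
  have h2 : (((-a₀ * u) % p).toNat : ℤ) = (-a₀ * u) % p :=
    Int.toNat_of_nonneg (Int.emod_nonneg _ hpos.ne')
  rw [h2]
  have h3 : (-a₀ * u) % p = -a₀ * u - p * ((-a₀ * u) / p) := by
    have := Int.emod_add_mul_ediv (-a₀ * u) p
    linarith
  rw [h3]
  refine ⟨-((-a₀ * u) / p) * a₁ + a₀ * v, ?_⟩
  linear_combination (-a₀) * huv

/-- **divisibility by `p` inside the toric `p`-power torsion.** -/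
theorem exists_toric_div (hp : p.Prime) (hint : ∀ n : ℕ, IntTors A W (p ^ n))
    {R₀ : W.Point} (hR₀ : p • R₀ = 0) (hR₀d : C.depthPt α R₀ ≠ 0)
    {P : W.Point} {n : ℕ} (hP : p ^ n • P = 0) (hPd : C.depthPt α P = 0)
    {Q₀ : W.Point} (hQ₀ : p • Q₀ = P) :
    ∃ Q : W.Point, p • Q = P ∧ p ^ (n + 1) • Q = 0 ∧ C.depthPt α Q = 0 := by
  have hint1 : IntTors A W p := by
    have := hint 1
    rwa [pow_one] at this
  have hintN := hint (n + 1)
  have hn := C.n_pos
  have hpQ : (0 : ℚ) < p := by exact_mod_cast hp.pos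
  have hQ₀t : p ^ (n + 1) • Q₀ = 0 := by rw [pow_succ, mul_smul, hQ₀, hP]
  have hR₀t : p ^ (n + 1) • R₀ = 0 := by rw [pow_succ, mul_smul, hR₀, smul_zero]
  -- the depth of `Q₀`
  obtain ⟨k₀, hk₀⟩ := depth_nsmul_tors hM hintN hQ₀t p
  rw [hQ₀, hPd] at hk₀
  -- the depth of `R₀`
  obtain ⟨a₁, ha₁, hd₁⟩ := depth_tors_p hM hp.pos hint1 hR₀
  have ha₁0 : 0 < a₁ := by
    rcases Nat.eq_zero_or_pos a₁ with h | h
    · exfalso
      apply hR₀d
      rw [hd₁, h]
      simp
    · exact h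
  obtain ⟨c, b, hb⟩ := exists_mul_add_dvd hp ha₁0 ha₁ (-k₀)
  refine ⟨Q₀ + c • R₀, ?_, ?_, ?_⟩
  · rw [smul_add, hQ₀, smul_comm, hR₀, smul_zero, add_zero]
  · rw [smul_add, hQ₀t, smul_comm, hR₀t, smul_zero, add_zero]
  · have hcR : p ^ (n + 1) • (c • R₀) = 0 := by rw [smul_comm, hR₀t, smul_zero]
    obtain ⟨k₂, hk₂⟩ := depth_nsmul_tors hM hintN hR₀t c
    obtain ⟨k₃, hk₃⟩ := depth_add_tors hM hintN hQ₀t hcR
    apply depth_eq_zero_of_int _ (k := b + k₂ + k₃)
    rw [hk₃, hk₂, hd₁]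
    have hbQ : ((c : ℤ) : ℚ) * ((a₁ : ℤ) : ℚ) + ((-k₀ : ℤ) : ℚ) = ((p : ℤ) : ℚ) * (b : ℚ) := by
      exact_mod_cast congrArg (fun z : ℤ => (z : ℚ)) hb
    push_cast at hbQ ⊢
    have hd₀ : C.depthPt α Q₀ = -k₀ * C.n / p := by
      rw [eq_div_iff hpQ.ne']
      linarith
    have key : -(k₀ : ℚ) * C.n / p + c * (a₁ * C.n / p) = b * C.n := by
      have e1 : -(k₀ : ℚ) * C.n / p + c * (a₁ * C.n / p) =
          ((c : ℚ) * a₁ + -k₀) * C.n / p := by ring
      rw [e1, hbQ]
      field_simp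
    rw [hd₀]
    linarith

/-- the toric `p`-power torsion. -/
def toricPow (p : ℕ) (hint : ∀ n : ℕ, IntTors A W (p ^ n)) : AddSubgroup W.Point where
  carrier := {P | (∃ n : ℕ, p ^ n • P = 0) ∧ C.depthPt α P = 0}
  zero_mem' := ⟨⟨0, smul_zero _⟩, rfl⟩
  add_mem' := by
    rintro P Q ⟨⟨n, hP⟩, hPd⟩ ⟨⟨n', hQ⟩, hQd⟩
    have hP' : p ^ (n + n') • P = 0 := by rw [pow_add, mul_comm, mul_smul, hP, smul_zero]
    have hQ' : p ^ (n + n') • Q = 0 := by rw [pow_add, mul_smul, hQ, smul_zero]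
    exact ⟨⟨n + n', ((toricTors hM _ (hint (n + n'))).add_mem ⟨hP', hPd⟩ ⟨hQ', hQd⟩).1⟩,
      ((toricTors hM _ (hint (n + n'))).add_mem ⟨hP', hPd⟩ ⟨hQ', hQd⟩).2⟩
  neg_mem' := by
    rintro P ⟨⟨n, hP⟩, hPd⟩
    exact ⟨⟨n, ((toricTors hM _ (hint n)).neg_mem ⟨hP, hPd⟩).1⟩,
      ((toricTors hM _ (hint n)).neg_mem ⟨hP, hPd⟩).2⟩

/-- **a Tate sequence in the toric part with nonzero first component.** -/
theorem exists_toric_tateSeq (hp : p.Prime) (hint : ∀ n : ℕ, IntTors A W (p ^ n))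
    (hcard : Nat.card {P : W.Point // p • P = 0} = p ^ 2)
    (hdiv : ∀ P : W.Point, (∃ n : ℕ, p ^ n • P = 0) → ∃ Q : W.Point, p • Q = P) :
    ∃ x : ↥(TateSeq W.Point p), x.1 1 ≠ 0 ∧ ∀ k, C.depthPt α (x.1 k) = 0 := by
  have hint1 : IntTors A W p := by
    have := hint 1
    rwa [pow_one] at this
  obtain ⟨R₀, hR₀, hR₀d⟩ := exists_nontoric hM hp hint1 hcard
  obtain ⟨e, he0, hep, hed⟩ := exists_toric_ne_zero hM hp hint1 hcard
  let T := toricPow hM p hint
  have hdivT : ∀ P : T, (∃ n : ℕ, p ^ n • P = 0) → ∃ Q : T, p • Q = P := by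
    rintro ⟨P, ⟨n, hP⟩, hPd⟩ -
    obtain ⟨Q₀, hQ₀⟩ := hdiv P ⟨n, hP⟩
    obtain ⟨Q, hQ1, hQ2, hQ3⟩ := exists_toric_div hM hp hint hR₀ hR₀d hP hPd hQ₀
    exact ⟨⟨Q, ⟨n + 1, hQ2⟩, hQ3⟩, Subtype.ext hQ1⟩
  have heT : e ∈ T := ⟨⟨1, by rw [pow_one]; exact hep⟩, hed⟩
  obtain ⟨t, ht⟩ := tmod_exists_tateSeq (J := T) (p := p) hdivT ⟨e, heT⟩ (Subtype.ext hep)
  refine ⟨⟨fun k => ((t.1 k : T) : W.Point), ?_, ?_⟩, ?_, ?_⟩
  · show ((t.1 0 : T) : W.Point) = 0
    rw [TateSeq.zero_eq t]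
    rfl
  · intro k
    show p • ((t.1 (k + 1) : T) : W.Point) = ((t.1 k : T) : W.Point)
    rw [← TateSeq.smul_succ t k]
    rfl
  · show ((t.1 1 : T) : W.Point) ≠ 0
    rw [ht]
    exact he0
  · intro k
    exact (t.1 k).2.2

end Tors

end Fermat.Agent.ML
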