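/-
ML (S59) — helper1 — **[RHO-W] Frobenius on the toric torsion of a nodal model**.

`σ` an automorphism of `K` stabilising `A`, acting on the residue field as the `q`-th power, and
fixing the coefficients of the nodal model `W'⁄K`.  Then `σ` permutes the two tangent slopes and
acts on the toric `m`-torsion as `q` (slopes fixed: split case) or as `-q` (slopes exchanged).
-/
import Mathlib
import Fermat.Agent.ML.RHOW_helper1_NodeTors

set_option autoImplicit false
set_option linter.unusedSectionVars false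
set_option linter.unusedVariables false
set_option linter.style.haveILetI false

namespace Fermat.Agent.ML

open Fermat.Agent.Tate Fermat.Agent.S13 Fermat.Agent.GR Fermat.Agent.S58
open WeierstrassCurve WeierstrassCurve.Affine IsLocalRing Polynomial
open scoped WeierstrassCurve.Affine

variable {K : Type*} [Field K] [DecidableEq K] {A : ValuationSubring K}
  {R : Type*} {S : Type*} [CommRing R] [CommRing S] [Algebra R S]
  [Algebra R K] [Algebra S K] [IsScalarTower R S K]

section Frob

variable (W' : Affine R) (C : GNodeCtx K A) {α β : K} (hM : C.IsModel (W'⁄K) α β)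
  (σ : K ≃ₐ[S] K) (hσA : ∀ a : K, σ a ∈ A ↔ a ∈ A)

include hM in
/-- `σ` permutes the tangent slopes. -/
theorem node_map_slopes : (σ α = α ∧ σ β = β) ∨ (σ α = β ∧ σ β = α) := by
  have h1 : σ α + σ β = α + β := by
    have := smul_a₁ W' σ
    rw [hM.a₁, map_neg, map_add] at this
    linear_combination -this
  have h2 : σ α * σ β = α * β := by
    have := smul_a₂ W' σ
    rw [hM.a₂, map_neg, map_mul] at this
    linear_combination -this
  have h3 : (σ α - α) * (σ α - β) = 0 := by
    have : σ β = α + β - σ α := by linear_combination h1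
    rw [this] at h2
    linear_combination -h2
  rcases mul_eq_zero.mp h3 with h | h
  · left
    have hα : σ α = α := sub_eq_zero.mp h
    exact ⟨hα, by linear_combination h1 - hα⟩
  · right
    have hα : σ α = β := sub_eq_zero.mp h
    exact ⟨hα, by linear_combination h1 - hα⟩

include hσA in
theorem node_map_mem_nonunits_iff (a : K) : σ a ∈ A.nonunits ↔ a ∈ A.nonunits := by
  rw [A.mem_nonunits_iff_or, A.mem_nonunits_iff_or, ← map_inv₀, hσA, map_eq_zero]

omit [DecidableEq K] in
/-- `smul_some` with an opaque proof. -/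
theorem node_exists_smul_some [DecidableEq K] {x y : K} (h : (W'⁄K).Nonsingular x y) :
    ∃ h' : (W'⁄K).Nonsingular (σ x) (σ y), σ • Point.some x y h = Point.some (σ x) (σ y) h' :=
  ⟨_, smul_some σ h⟩

variable (q : ℕ) (hσq : ∀ a ∈ A, σ a - a ^ q ∈ A.nonunits)

include hσA hσq in
/-- the action of `σ` on residues. -/
theorem node_resK_map {u : K} (hu : u ∈ A) : resK A (σ u) = resK A u ^ q := by
  rw [← resK_pow hu, resK_eq_iff ((hσA u).mpr hu) (A.pow_mem hu q)]
  exact hσq u hu

include hσA in
/-- `σ` preserves the good points. -/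
theorem node_goodPt_smul {P : (W'⁄K).Point} (hP : GoodPt C α P) : GoodPt C α (σ • P) := by
  rcases P with _ | ⟨x, y, h⟩
  · exact hP
  · obtain ⟨⟨hx, hy⟩, hx'⟩ := (goodPt_some_iff h).mp hP
    obtain ⟨h', hh⟩ := node_exists_smul_some W' σ h
    rw [hh, goodPt_some_iff]
    exact ⟨⟨(hσA x).mpr hx, (hσA y).mpr hy⟩,
      fun h1 => hx' ((node_map_mem_nonunits_iff σ hσA x).mp h1)⟩

include hM hσA hσq in
/-- the character of `σ • P`, slopes fixed. -/
theorem node_tch_smul_split (hα : σ α = α) (hβ : σ β = β) {P : (W'⁄K).Point}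
    (hP : GoodPt C α P) : tch A α β (σ • P) = tch A α β P ^ q := by
  rcases P with _ | ⟨x, y, h⟩
  · show tch A α β (0 : (W'⁄K).Point) = tch A α β (0 : (W'⁄K).Point) ^ q
    rw [tch_zero, one_pow]
  · obtain ⟨⟨hx, hy⟩, hx'⟩ := (goodPt_some_iff h).mp hP
    obtain ⟨⟨ha, ha'⟩, ⟨hb, hb'⟩⟩ := node_forms_unit hM h hx hy hx'
    obtain ⟨h', hh⟩ := node_exists_smul_some W' σ h
    rw [hh, tch_some, tch_some, div_pow, ← node_resK_map σ hσA q hσq ha,
      ← node_resK_map σ hσA q hσq hb, map_sub, map_sub, map_mul, map_mul, hα, hβ]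

include hM hσA hσq in
/-- the character of `σ • P`, slopes exchanged. -/
theorem node_tch_smul_nonsplit (hα : σ α = β) (hβ : σ β = α) {P : (W'⁄K).Point}
    (hP : GoodPt C α P) : tch A α β (σ • P) = (tch A α β P ^ q)⁻¹ := by
  rcases P with _ | ⟨x, y, h⟩
  · show tch A α β (0 : (W'⁄K).Point) = (tch A α β (0 : (W'⁄K).Point) ^ q)⁻¹
    rw [tch_zero, one_pow, inv_one]
  · obtain ⟨⟨hx, hy⟩, hx'⟩ := (goodPt_some_iff h).mp hP
    obtain ⟨⟨ha, ha'⟩, ⟨hb, hb'⟩⟩ := node_forms_unit hM h hx hy hx'
    obtain ⟨h', hh⟩ := node_exists_smul_some W' σ h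
    rw [hh, tch_some, tch_some, div_pow, inv_div, ← node_resK_map σ hσA q hσq ha,
      ← node_resK_map σ hσA q hσq hb, map_sub, map_sub, map_mul, map_mul, hα, hβ]

include hM hσA in
/-- `σ` preserves the toric torsion. -/
theorem node_smul_mem_toricTors {m : ℕ} {hint : IntTors A (W'⁄K) m} {P : (W'⁄K).Point}
    (hP : P ∈ toricTors hM m hint) : σ • P ∈ toricTors hM m hint :=
  ⟨nsmul_smul_eq_zero σ hP.1, (node_goodPt_smul W' C σ hσA (goodPt_of_mem hM hP)).2⟩

include hM hσA hσq in
/-- **Frobenius on the toric torsion, split case**: `σ P = q P`. -/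
theorem node_smul_eq_split (hα : σ α = α) (hβ : σ β = β) {m : ℕ}
    {hint : IntTors A (W'⁄K) m} {P : (W'⁄K).Point} (hP : P ∈ toricTors hM m hint) :
    σ • P = q • P := by
  apply tch_inj_tors hM (node_smul_mem_toricTors W' C hM σ hσA hP)
    ((toricTors hM m hint).nsmul_mem hP q)
  rw [node_tch_smul_split W' C hM σ hσA q hσq hα hβ (goodPt_of_mem hM hP),
    tch_nsmul_tors hM hP]

include hM hσA hσq in
/-- **Frobenius on the toric torsion, non-split case**: `σ P = -(q P)`. -/
theorem node_smul_eq_nonsplit (hα : σ α = β) (hβ : σ β = α) {m : ℕ}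
    {hint : IntTors A (W'⁄K) m} {P : (W'⁄K).Point} (hP : P ∈ toricTors hM m hint) :
    σ • P = -(q • P) := by
  have hq := (toricTors hM m hint).nsmul_mem hP q
  apply tch_inj_tors hM (node_smul_mem_toricTors W' C hM σ hσA hP)
    ((toricTors hM m hint).neg_mem hq)
  rw [node_tch_smul_nonsplit W' C hM σ hσA q hσq hα hβ (goodPt_of_mem hM hP),
    tch_neg_tors hM hq, tch_nsmul_tors hM hP]

end Frob

end Fermat.Agent.ML
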