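/-
ML (S59) — helper1 — **[RHO-W] Frobenius on the toric torsion of an integral Weierstrass curve**
with multiplicative reduction at `A`: transport of `node_smul_eq_split/nonsplit` along the
translation `(r, t)` to the nodal model (pattern of S58 `unipotent_of_gnode_params`).

`ToricAt A r P`: the point `P = (x, y)` of `W⁄K` does not reduce to the node (`x - r ∉ 𝔪`).
-/
import Mathlib
import Fermat.Agent.ML.RHOW_helper1_NodeFrob
import Fermat.Agent.S58.ECTATE_helper7_Unip

set_option autoImplicit false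
set_option linter.unusedSectionVars false
set_option linter.unusedVariables false
set_option linter.style.haveILetI false

namespace Fermat.Agent.ML

open Fermat.Agent.Tate Fermat.Agent.S13 Fermat.Agent.GR Fermat.Agent.S58
open WeierstrassCurve WeierstrassCurve.Affine IsLocalRing Polynomial
open scoped WeierstrassCurve.Affine

variable {K : Type*} [Field K] [DecidableEq K] [Algebra ℚ K] [CharZero K]
  {A : ValuationSubring K}

/-- the point does not reduce to the node `(r, t)`. -/
def ToricAt (A : ValuationSubring K) (r : K) {W : Affine K} : W.Point → Prop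
  | .zero => True
  | .some x _ _ => x - r ∉ A.nonunits

theorem toricAt_zero (r : K) {W : Affine K} : ToricAt A r (0 : W.Point) := trivial

theorem toricAt_some (r : K) {W : Affine K} {x y : K} (h : W.Nonsingular x y) :
    ToricAt A r (Point.some x y h) ↔ x - r ∉ A.nonunits := Iff.rfl

/-- the sign of `σ` on the tangent slopes. -/
noncomputable def nodeSign (σ : K ≃ₐ[ℚ] K) (α : K) : ℤ := by
  classical exact if σ α = α then 1 else -1

theorem nodeSign_of_eq {σ : K ≃ₐ[ℚ] K} {α : K} (h : σ α = α) : nodeSign σ α = 1 := by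
  unfold nodeSign
  rw [if_pos h]

theorem nodeSign_of_ne {σ : K ≃ₐ[ℚ] K} {α : K} (h : σ α ≠ α) : nodeSign σ α = -1 := by
  unfold nodeSign
  rw [if_neg h]

theorem nodeSign_sq (σ : K ≃ₐ[ℚ] K) (α : K) : nodeSign σ α ^ 2 = 1 := by
  by_cases h : σ α = α
  · rw [nodeSign_of_eq h, one_pow]
  · rw [nodeSign_of_ne h]; norm_num

/-- **Frobenius on the toric torsion**: `σ P = (± q) P`. -/
theorem frob_toric_of_gnode_params (W : WeierstrassCurve ℤ) (r t α β : K) (C : GNodeCtx K A)
    (hM : C.IsModel (VariableChange.mk 1 r 0 t • (W.toAffine⁄K)).toAffine α β)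
    {m : ℕ} (hm0 : m ≠ 0) (hminv : ((m : K))⁻¹ ∈ A)
    (σ : K ≃ₐ[ℚ] K) (hσA : ∀ a : K, σ a ∈ A ↔ a ∈ A) (q : ℕ)
    (hσq : ∀ a ∈ A, σ a - a ^ q ∈ A.nonunits) (hσr : σ r = r) (hσt : σ t = t)
    (P : (W.toAffine⁄K).Point) (hP : m • P = 0) (hPt : ToricAt A r P) :
    σ • P = (nodeSign σ α * q) • P := by
  -- the fixed field of `σ`
  let F₀ : IntermediateField ℚ K := FixedBy.intermediateField ℚ K σ
  let r' : F₀ := ⟨r, hσr⟩
  let t' : F₀ := ⟨t, hσt⟩
  let σ' : K ≃ₐ[F₀] K := { σ.toRingEquiv with commutes' := fun x => x.2 }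
  have hσσ' : ∀ x : K, σ' x = σ x := fun x => rfl
  let W_F : WeierstrassCurve F₀ := W.map (algebraMap ℤ F₀)
  let C₀ : VariableChange F₀ := ⟨1, r', 0, t'⟩
  have h1 : (W_F.toAffine⁄K) = (W.toAffine⁄K) := by
    show (W.map (algebraMap ℤ F₀)).map (algebraMap F₀ K) = W.map (algebraMap ℤ K)
    rw [WeierstrassCurve.map_map]
    congr 1
  have hC₀ : C₀.baseChange K = VariableChange.mk 1 r 0 t := by
    show VariableChange.mk (Units.map (algebraMap F₀ K : F₀ →* K) 1) (algebraMap F₀ K r')
      (algebraMap F₀ K 0) (algebraMap F₀ K t') = _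
    rw [map_one, map_zero]
    rfl
  have h2 : ((C₀ • W_F).toAffine⁄K) = VariableChange.mk 1 r 0 t • (W.toAffine⁄K) := by
    have := baseChange_variableChange W_F C₀ K
    rw [hC₀] at this
    rw [← h1]
    exact this
  have hM' : C.IsModel ((C₀ • W_F).toAffine⁄K) α β := by
    rw [h2]; exact hM
  have hint : IntTors A ((C₀ • W_F).toAffine⁄K) m := intTors_of_hR1 fun h ht =>
    mem_of_nsmul_eq_zero' (gnode_isIntegralCurve58 hM') hm0 hminv h ht
  have hσ1 : ∀ a : K, σ' a ∈ A ↔ a ∈ A := hσA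
  have hσ1q : ∀ a ∈ A, σ' a - a ^ q ∈ A.nonunits := hσq
  -- transport
  let e := vcPtBaseChange W_F C₀ K
  have he : ∀ Q, σ' • e Q = e (σ' • Q) := fun Q => smul_vcPtBaseChange W_F C₀ σ' Q
  have hc : ∀ P' : (W_F.toAffine⁄K).Point, ptCast h1 (σ' • P') = σ • ptCast h1 P' :=
    fun P' => ptCast_smul W_F.toAffine W.toAffine h1 σ' σ hσσ' P'
  obtain ⟨P', rfl⟩ := (ptCast h1).surjective P
  obtain ⟨Q, rfl⟩ := e.surjective P'
  have hQ : m • Q = 0 := by
    apply e.injective
    apply (ptCast h1).injective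
    rw [map_nsmul, map_nsmul, hP, map_zero, map_zero]
  have hQd : C.depthPt α Q = 0 := by
    rcases Q with _ | ⟨x, y, h⟩
    · rfl
    · rw [GNodeCtx.depthPt_some, GNodeCtx.depth_eq_zero_iff]
      have h3 : e (Point.some x y h) = Point.some (vcX (C₀.baseChange K) x)
          (vcY (C₀.baseChange K) x y) ((nonsingular_vcBaseChange W_F C₀ K).mp h) :=
        vcPtBaseChange_some W_F C₀ K h
      rw [h3, ptCast_some, toricAt_some] at hPt
      have h4 : vcX (C₀.baseChange K) x - r = x := by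
        rw [hC₀]
        simp [vcX]
      rwa [h4] at hPt
  have hQT : Q ∈ toricTors hM' m hint := ⟨hQ, hQd⟩
  have key : σ' • Q = (nodeSign σ α * q) • Q := by
    rcases node_map_slopes (C₀ • W_F).toAffine C hM' σ' with ⟨hα, hβ⟩ | ⟨hα, hβ⟩
    · rw [node_smul_eq_split (C₀ • W_F).toAffine C hM' σ' hσ1 q hσ1q hα hβ hQT,
        nodeSign_of_eq (show σ α = α from hα), one_mul, natCast_zsmul]
    · have hne : σ α ≠ α := by
        intro h
        have h5 : α = β := by rw [← h]; exact hα
        apply C.γ_ne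
        rw [← hM'.hγ, h5, sub_self]
      rw [node_smul_eq_nonsplit (C₀ • W_F).toAffine C hM' σ' hσ1 q hσ1q hα hβ hQT,
        nodeSign_of_ne hne, neg_one_mul, neg_smul, natCast_zsmul]
  rw [← hc, he, key, map_zsmul, map_zsmul]

/-- `σ` permutes the tangent slopes of the nodal model. -/
theorem map_slopes_of_gnode_params (W : WeierstrassCurve ℤ) (r t α β : K) (C : GNodeCtx K A)
    (hM : C.IsModel (VariableChange.mk 1 r 0 t • (W.toAffine⁄K)).toAffine α β)
    (σ : K ≃ₐ[ℚ] K) (hσr : σ r = r) (hσt : σ t = t) :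
    (σ α = α ∧ σ β = β) ∨ (σ α = β ∧ σ β = α) := by
  let F₀ : IntermediateField ℚ K := FixedBy.intermediateField ℚ K σ
  let r' : F₀ := ⟨r, hσr⟩
  let t' : F₀ := ⟨t, hσt⟩
  let σ' : K ≃ₐ[F₀] K := { σ.toRingEquiv with commutes' := fun x => x.2 }
  let W_F : WeierstrassCurve F₀ := W.map (algebraMap ℤ F₀)
  let C₀ : VariableChange F₀ := ⟨1, r', 0, t'⟩
  have h1 : (W_F.toAffine⁄K) = (W.toAffine⁄K) := by
    show (W.map (algebraMap ℤ F₀)).map (algebraMap F₀ K) = W.map (algebraMap ℤ K)
    rw [WeierstrassCurve.map_map]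
    congr 1
  have hC₀ : C₀.baseChange K = VariableChange.mk 1 r 0 t := by
    show VariableChange.mk (Units.map (algebraMap F₀ K : F₀ →* K) 1) (algebraMap F₀ K r')
      (algebraMap F₀ K 0) (algebraMap F₀ K t') = _
    rw [map_one, map_zero]
    rfl
  have h2 : ((C₀ • W_F).toAffine⁄K) = VariableChange.mk 1 r 0 t • (W.toAffine⁄K) := by
    have := baseChange_variableChange W_F C₀ K
    rw [hC₀] at this
    rw [← h1]
    exact this
  have hM' : C.IsModel ((C₀ • W_F).toAffine⁄K) α β := by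
    rw [h2]; exact hM
  exact node_map_slopes (C₀ • W_F).toAffine C hM' σ'

end Fermat.Agent.ML
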