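/-
PROJECT ML (S59) — helper8 — [SQ2] = route (C) for the square step at `(p, q) = (3, 2)`,
part 1: **the groups**.

`red2 : SL₂(ℤ) → SL₂(𝔽₂)`; `A3 ≤ SL₂(𝔽₂)` the subgroup of order three; for odd `M`:
* `G0up N q = Γ₀(N) ∩ Γ⁰(q)` and `kap N q : Γ₀(N q) ≃* G0up N q` (conjugation by `diag(1, q)`);
* `Hs M = {γ ∈ Γ₀(M) | γ mod 2 ∈ A3}` (index two in `Γ₀(M)`),
  `Ns M = G0up (M * 2) 2 = Γ₀(M) ∩ Γ(2)`, `Hw M = G0up M 2 = Γ₀(M) ∩ Γ⁰(2)`;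
* `IsBLevel M Γ'` : `Γ' ≤ Γ₀(M)` is the preimage in `Γ₀(M)` of its reduction modulo two;
* `chi M : Hs M →* A3`, onto for odd `M`, with kernel `≃ Ns M`.
-/
import Mathlib
import Fermat.Agent.LR.XFER_helper4_Defs
import Fermat.Agent.RB.P3_helper2_NoThree
import Fermat.Agent.GR.BETTI_lead_Par

set_option autoImplicit false
set_option linter.unusedSectionVars false
set_option linter.unusedVariables false
set_option linter.style.haveILetI false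

open Matrix CongruenceSubgroup
open scoped MatrixGroups

namespace Fermat.Agent.ML.SQ2

open Fermat.Agent.GR Fermat.Agent.LR

/-! ### reduction modulo two -/

/-- reduction modulo two. -/
def red2 : SL(2, ℤ) →* SL(2, ZMod 2) := SpecialLinearGroup.map (Int.castRingHom (ZMod 2))

theorem red2_apply (γ : SL(2, ℤ)) (i j : Fin 2) : (red2 γ) i j = ((γ i j : ℤ) : ZMod 2) := rfl

theorem red2_eq_iff (γ δ : SL(2, ℤ)) :
    red2 γ = red2 δ ↔ ∀ i j : Fin 2, ((γ i j : ℤ) : ZMod 2) = ((δ i j : ℤ) : ZMod 2) := by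
  constructor
  · intro h i j
    rw [← red2_apply, ← red2_apply, h]
  · intro h
    apply Subtype.ext
    ext i j
    exact h i j

/-- the element `(1 1; 1 0)` of order three of `SL₂(𝔽₂)`. -/
def s0 : SL(2, ZMod 2) := ⟨!![1, 1; 1, 0], by decide⟩

/-- the transvection `(1 0; 1 1)` of `SL₂(𝔽₂)`. -/
def t0 : SL(2, ZMod 2) := ⟨!![1, 0; 1, 1], by decide⟩

/-- the subgroup of order three of `SL₂(𝔽₂)`. -/
def A3 : Subgroup SL(2, ZMod 2) where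
  carrier := {x | x = 1 ∨ x = s0 ∨ x = s0 * s0}
  one_mem' := Or.inl rfl
  mul_mem' := by
    have h : ∀ a b : SL(2, ZMod 2), (a = 1 ∨ a = s0 ∨ a = s0 * s0) →
        (b = 1 ∨ b = s0 ∨ b = s0 * s0) → (a * b = 1 ∨ a * b = s0 ∨ a * b = s0 * s0) := by decide
    intro a b ha hb
    exact h a b ha hb
  inv_mem' := by
    have h : ∀ a : SL(2, ZMod 2), (a = 1 ∨ a = s0 ∨ a = s0 * s0) →
        (a⁻¹ = 1 ∨ a⁻¹ = s0 ∨ a⁻¹ = s0 * s0) := by decide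
    intro a ha
    exact h a ha

theorem mem_A3 {x : SL(2, ZMod 2)} : x ∈ A3 ↔ x = 1 ∨ x = s0 ∨ x = s0 * s0 := Iff.rfl

instance decidableMemA3 : DecidablePred (· ∈ A3) :=
  fun x => inferInstanceAs (Decidable (x = 1 ∨ x = s0 ∨ x = s0 * s0))

theorem s0_mem_A3 : s0 ∈ A3 := Or.inr (Or.inl rfl)

theorem t0_notMem_A3 : t0 ∉ A3 := by decide

/-- `A3` is commutative. -/
instance commGroupA3 : CommGroup ↥A3 :=
  { (inferInstance : Group ↥A3) with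
    mul_comm := by
      have h : ∀ a b : SL(2, ZMod 2), a ∈ A3 → b ∈ A3 → a * b = b * a := by decide
      intro a b
      exact Subtype.ext (h a b a.2 b.2) }

theorem card_A3 : Nat.card ↥A3 = 3 := by
  rw [Nat.card_eq_fintype_card]
  decide

theorem isPGroup_A3 : IsPGroup 3 ↥A3 :=
  IsPGroup.of_card (n := 1) (by rw [card_A3, pow_one])

/-- the generator of `A3`. -/
def s0A : ↥A3 := ⟨s0, s0_mem_A3⟩

theorem s0A_ne_one : s0A ≠ 1 := by decide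

/-- an element outside `A3` inverts `A3` by conjugation. -/
theorem conj_A3_of_notMem {t a : SL(2, ZMod 2)} (ht : t ∉ A3) (ha : a ∈ A3) :
    t * a * t⁻¹ = a⁻¹ := by
  have h : ∀ t a : SL(2, ZMod 2), t ∉ A3 → a ∈ A3 → t * a * t⁻¹ = a⁻¹ := by decide
  exact h t a ht ha

/-- the product of two elements outside `A3` lies in `A3`. -/
theorem mul_mem_A3_of_notMem {t t' : SL(2, ZMod 2)} (ht : t ∉ A3) (ht' : t' ∉ A3) :
    t * t' ∈ A3 := by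
  have h : ∀ t t' : SL(2, ZMod 2), t ∉ A3 → t' ∉ A3 → t * t' ∈ A3 := by decide
  exact h t t' ht ht'

/-- every element of `A3` is a square in `A3`. -/
theorem exists_sq_A3 (a : ↥A3) : ∃ b : ↥A3, b * b = a := by
  have h : ∀ a : ↥A3, ∃ b : ↥A3, b * b = a := by decide
  exact h a

/-- the elements of `SL₂(𝔽₂)` with vanishing upper right entry. -/
theorem eq_one_or_t0_of_zero_one {x : SL(2, ZMod 2)} (h : x 0 1 = 0) : x = 1 ∨ x = t0 := by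
  have h' : ∀ x : SL(2, ZMod 2), x 0 1 = 0 → x = 1 ∨ x = t0 := by decide
  exact h' x h

theorem eq_one_of_zero_one_one_zero {x : SL(2, ZMod 2)} (h : x 0 1 = 0) (h' : x 1 0 = 0) :
    x = 1 := by
  have h'' : ∀ x : SL(2, ZMod 2), x 0 1 = 0 → x 1 0 = 0 → x = 1 := by decide
  exact h'' x h h'

/-! ### the groups `Γ₀(N) ∩ Γ⁰(q)` -/

/-- `Γ₀(N) ∩ Γ⁰(q)`. -/
def G0up (N q : ℕ) : Subgroup SL(2, ℤ) where
  carrier := {γ | γ ∈ Gamma0 N ∧ (q : ℤ) ∣ γ 0 1}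
  one_mem' := ⟨one_mem _, by simp⟩
  mul_mem' := by
    rintro a b ⟨ha, ha'⟩ ⟨hb, hb'⟩
    refine ⟨mul_mem ha hb, ?_⟩
    rw [Matrix.SpecialLinearGroup.coe_mul, Matrix.mul_apply, Fin.sum_univ_two]
    exact dvd_add (Dvd.dvd.mul_left hb' _) (Dvd.dvd.mul_right ha' _)
  inv_mem' := by
    rintro a ⟨ha, ha'⟩
    refine ⟨inv_mem ha, ?_⟩
    rw [Matrix.SpecialLinearGroup.coe_inv, Matrix.adjugate_fin_two]
    simpa using ha'

theorem mem_G0up {N q : ℕ} {γ : SL(2, ℤ)} :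
    γ ∈ G0up N q ↔ γ ∈ Gamma0 N ∧ (q : ℤ) ∣ γ 0 1 := Iff.rfl

theorem G0up_le_Gamma0 (N q : ℕ) : G0up N q ≤ Gamma0 N := fun _ h => h.1

/-- `Γ₀(N q) → Γ₀(N) ∩ Γ⁰(q)`, `(a b; c d) ↦ (a, q b; c / q, d)`. -/
def kapHom (N q : ℕ) (hq : q.Prime) : Gamma0 (N * q) →* ↥(G0up N q) where
  toFun γ := ⟨(conjDownHom N q hq γ : SL(2, ℤ)), (conjDownHom N q hq γ).2, by
    rw [conjDownHom_zero_one]
    exact dvd_mul_right _ _⟩
  map_one' := Subtype.ext (by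
    show ((conjDownHom N q hq 1 : Gamma0 N) : SL(2, ℤ)) = 1
    rw [map_one]; rfl)
  map_mul' a b := Subtype.ext (by
    show ((conjDownHom N q hq (a * b) : Gamma0 N) : SL(2, ℤ)) =
      ((conjDownHom N q hq a : Gamma0 N) : SL(2, ℤ)) * ((conjDownHom N q hq b : Gamma0 N) : SL(2, ℤ))
    rw [map_mul]; rfl)

theorem coe_kapHom (N q : ℕ) (hq : q.Prime) (γ : Gamma0 (N * q)) :
    ((kapHom N q hq γ : ↥(G0up N q)) : SL(2, ℤ)) = (conjDownHom N q hq γ : SL(2, ℤ)) := rfl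

theorem kapHom_injective (N q : ℕ) (hq : q.Prime) : Function.Injective (kapHom N q hq) := by
  intro a b h
  have h1 : (conjDownHom N q hq a : SL(2, ℤ)) = (conjDownHom N q hq b : SL(2, ℤ)) :=
    congrArg (fun x : ↥(G0up N q) => (x : SL(2, ℤ))) h
  have h2 : conjDownHom N q hq a = conjDownHom N q hq b := Subtype.ext h1
  have h3 := congrArg (gammaEmb N) h2
  have e : ∀ γ : Gamma0 (N * q), gammaEmb N (conjDownHom N q hq γ) =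
      (ModularForm.heckeMatrix q 0)⁻¹ * gammaEmb (N * q) γ * ModularForm.heckeMatrix q 0 :=
    fun γ => gammaEmb_conjDownFun N q hq γ
  rw [e, e] at h3
  exact gammaEmb_injective (N * q) (mul_left_cancel (mul_right_cancel h3))

theorem kapHom_surjective (N q : ℕ) (hq : q.Prime) : Function.Surjective (kapHom N q hq) := by
  rintro ⟨x, hx, hx'⟩
  have hq0 : (q : ℤ) ≠ 0 := by exact_mod_cast hq.ne_zero
  have hmem : xferdConjDiag q x hx' ∈ Gamma0 (N * q) := by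
    rw [mem_Gamma0_iff_dvd]
    show ((N * q : ℕ) : ℤ) ∣ (q : ℤ) * x 1 0
    push_cast
    rw [mul_comm (N : ℤ)]
    exact mul_dvd_mul_left _ ((mem_Gamma0_iff_dvd x).mp hx)
  refine ⟨⟨xferdConjDiag q x hx', hmem⟩, ?_⟩
  apply Subtype.ext
  apply Subtype.ext
  rw [coe_kapHom]
  ext i j
  fin_cases i <;> fin_cases j
  · rfl
  · show (q : ℤ) * (x 0 1 / (q : ℤ)) = x 0 1
    exact Int.mul_ediv_cancel' hx'
  · show (q : ℤ) * x 1 0 / (q : ℤ) = x 1 0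
    exact Int.mul_ediv_cancel_left _ hq0
  · rfl

/-- **`Γ₀(N q) ≃ Γ₀(N) ∩ Γ⁰(q)`** (conjugation by `diag(1, q)`). -/
noncomputable def kap (N q : ℕ) (hq : q.Prime) : Gamma0 (N * q) ≃* ↥(G0up N q) :=
  MulEquiv.ofBijective (kapHom N q hq) ⟨kapHom_injective N q hq, kapHom_surjective N q hq⟩

theorem coe_kap (N q : ℕ) (hq : q.Prime) (γ : Gamma0 (N * q)) :
    ((kap N q hq γ : ↥(G0up N q)) : SL(2, ℤ)) = (conjDownHom N q hq γ : SL(2, ℤ)) := rfl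

theorem trace_kap (N q : ℕ) (hq : q.Prime) (γ : Gamma0 (N * q)) :
    (((kap N q hq γ : ↥(G0up N q)) : SL(2, ℤ)) : Matrix (Fin 2) (Fin 2) ℤ).trace =
      ((γ : SL(2, ℤ)) : Matrix (Fin 2) (Fin 2) ℤ).trace := by
  rw [coe_kap]
  exact trace_conjDownHom N q hq γ

/-- the embedding of `kap γ` is the conjugate of the embedding of `γ`. -/
theorem mapGL_kap (N q : ℕ) (hq : q.Prime) (γ : Gamma0 (N * q)) :
    (((kap N q hq γ : ↥(G0up N q)) : SL(2, ℤ)) : GL (Fin 2) ℝ) =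
      (ModularForm.heckeMatrix q 0)⁻¹ * gammaEmb (N * q) γ * ModularForm.heckeMatrix q 0 := by
  rw [coe_kap]
  exact gammaEmb_conjDownFun N q hq γ

/-! ### the level structures at two above an odd level `M` -/

/-- `Γ' ≤ Γ₀(M)` is the full preimage in `Γ₀(M)` of its reduction modulo two. -/
structure IsBLevel (M : ℕ) (Γ' : Subgroup SL(2, ℤ)) : Prop where
  le : Γ' ≤ Gamma0 M
  sat : ∀ γ ∈ Γ', ∀ γ' ∈ Gamma0 M, red2 γ' = red2 γ → γ' ∈ Γ'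

/-- the level structure attached to a subgroup of `SL₂(𝔽₂)`. -/
def lvl (M : ℕ) (S : Subgroup SL(2, ZMod 2)) : Subgroup SL(2, ℤ) := Gamma0 M ⊓ S.comap red2

theorem mem_lvl {M : ℕ} {S : Subgroup SL(2, ZMod 2)} {γ : SL(2, ℤ)} :
    γ ∈ lvl M S ↔ γ ∈ Gamma0 M ∧ red2 γ ∈ S := Iff.rfl

theorem isBLevel_lvl (M : ℕ) (S : Subgroup SL(2, ZMod 2)) : IsBLevel M (lvl M S) where
  le := inf_le_left
  sat γ hγ γ' hγ' h := ⟨hγ', by
    show red2 γ' ∈ S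
    rw [h]
    exact hγ.2⟩

/-- **`G⁺`**: the elements of `Γ₀(M)` whose reduction modulo two lies in `A3`. -/
def Hs (M : ℕ) : Subgroup SL(2, ℤ) := lvl M A3

/-- **`Γ₀(M) ∩ Γ(2) = Γ₀(2 M) ∩ Γ⁰(2)`**, isomorphic to `Γ₀(4 M)`. -/
def Ns (M : ℕ) : Subgroup SL(2, ℤ) := G0up (M * 2) 2

/-- **`Γ₀(M) ∩ Γ⁰(2)`**, isomorphic to `Γ₀(2 M)`. -/
def Hw (M : ℕ) : Subgroup SL(2, ℤ) := G0up M 2

theorem Hs_le_Gamma0 (M : ℕ) : Hs M ≤ Gamma0 M := inf_le_left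

theorem isBLevel_Hs (M : ℕ) : IsBLevel M (Hs M) := isBLevel_lvl M A3

theorem intCast_zmod_two_eq_zero_iff (a : ℤ) : ((a : ℤ) : ZMod 2) = 0 ↔ (2 : ℤ) ∣ a := by
  have := ZMod.intCast_zmod_eq_zero_iff_dvd a 2
  simpa using this

theorem mem_Ns_iff {M : ℕ} (hM : ¬ 2 ∣ M) {γ : SL(2, ℤ)} :
    γ ∈ Ns M ↔ γ ∈ Gamma0 M ∧ red2 γ = 1 := by
  rw [Ns, mem_G0up, mem_Gamma0_iff_dvd, mem_Gamma0_iff_dvd]
  have hcop : IsCoprime (M : ℤ) (2 : ℤ) := by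
    have h1 : Nat.Coprime M 2 := (Nat.Coprime.symm ((Nat.Prime.coprime_iff_not_dvd
      Nat.prime_two).mpr hM))
    exact_mod_cast (Nat.isCoprime_iff_coprime.mpr h1)
  constructor
  · rintro ⟨h1, h2⟩
    push_cast at h1
    have h3 : (M : ℤ) ∣ γ 1 0 := dvd_trans (dvd_mul_right _ _) h1
    have h4 : (2 : ℤ) ∣ γ 1 0 := dvd_trans (dvd_mul_left _ _) h1
    refine ⟨h3, eq_one_of_zero_one_one_zero ?_ ?_⟩
    · rw [red2_apply, intCast_zmod_two_eq_zero_iff]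
      exact_mod_cast h2
    · rw [red2_apply, intCast_zmod_two_eq_zero_iff]
      exact h4
  · rintro ⟨h1, h2⟩
    have h01 : (red2 γ) 0 1 = 0 := by rw [h2]; rfl
    have h10 : (red2 γ) 1 0 = 0 := by rw [h2]; rfl
    rw [red2_apply, intCast_zmod_two_eq_zero_iff] at h01 h10
    refine ⟨?_, by exact_mod_cast h01⟩
    push_cast
    exact hcop.mul_dvd h1 h10

theorem mem_Hw_iff {M : ℕ} {γ : SL(2, ℤ)} :
    γ ∈ Hw M ↔ γ ∈ Gamma0 M ∧ (red2 γ = 1 ∨ red2 γ = t0) := by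
  rw [Hw, mem_G0up]
  constructor
  · rintro ⟨h1, h2⟩
    refine ⟨h1, eq_one_or_t0_of_zero_one ?_⟩
    rw [red2_apply, intCast_zmod_two_eq_zero_iff]
    exact_mod_cast h2
  · rintro ⟨h1, h2⟩
    refine ⟨h1, ?_⟩
    have h01 : (red2 γ) 0 1 = 0 := by
      rcases h2 with h | h <;> rw [h] <;> rfl
    rw [red2_apply, intCast_zmod_two_eq_zero_iff] at h01
    exact_mod_cast h01

theorem isBLevel_Ns {M : ℕ} (hM : ¬ 2 ∣ M) : IsBLevel M (Ns M) where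
  le γ hγ := ((mem_Ns_iff hM).mp hγ).1
  sat γ hγ γ' hγ' h := (mem_Ns_iff hM).mpr ⟨hγ', by rw [h]; exact ((mem_Ns_iff hM).mp hγ).2⟩

theorem isBLevel_Hw (M : ℕ) : IsBLevel M (Hw M) where
  le γ hγ := (mem_Hw_iff.mp hγ).1
  sat γ hγ γ' hγ' h := mem_Hw_iff.mpr ⟨hγ', by rw [h]; exact (mem_Hw_iff.mp hγ).2⟩

theorem Ns_le_Hs {M : ℕ} (hM : ¬ 2 ∣ M) : Ns M ≤ Hs M := by
  intro γ hγ
  obtain ⟨h1, h2⟩ := (mem_Ns_iff hM).mp hγ
  exact ⟨h1, by show red2 γ ∈ A3; rw [h2]; exact one_mem _⟩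

theorem Ns_le_Hw {M : ℕ} (hM : ¬ 2 ∣ M) : Ns M ≤ Hw M := by
  intro γ hγ
  obtain ⟨h1, h2⟩ := (mem_Ns_iff hM).mp hγ
  exact mem_Hw_iff.mpr ⟨h1, Or.inl h2⟩

/-- `Ns M` is normal in `Γ₀(M)`. -/
theorem Ns_normal {M : ℕ} (hM : ¬ 2 ∣ M) :
    ∀ σ ∈ Gamma0 M, ∀ γ ∈ Ns M, σ * γ * σ⁻¹ ∈ Ns M := by
  intro σ hσ γ hγ
  obtain ⟨h1, h2⟩ := (mem_Ns_iff hM).mp hγ
  refine (mem_Ns_iff hM).mpr ⟨mul_mem (mul_mem hσ h1) (inv_mem hσ), ?_⟩
  rw [map_mul, map_mul, h2, mul_one, map_inv, mul_inv_cancel]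

/-! ### the character `Hs M → A3` -/

/-- **the character `γ ↦ γ mod 2`** of `Hs M` with values in `A3`. -/
def chi (M : ℕ) : ↥(Hs M) →* ↥A3 where
  toFun γ := ⟨red2 (γ : SL(2, ℤ)), γ.2.2⟩
  map_one' := Subtype.ext (map_one red2)
  map_mul' a b := Subtype.ext (map_mul red2 _ _)

theorem coe_chi (M : ℕ) (γ : ↥(Hs M)) : ((chi M γ : ↥A3) : SL(2, ZMod 2)) = red2 (γ : SL(2, ℤ)) :=
  rfl

/-- the element `(1 1; M, M + 1)` of `Hs M` (`M` odd). -/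
def sigmaS (M : ℕ) : SL(2, ℤ) := ⟨!![1, 1; (M : ℤ), (M : ℤ) + 1], by
  rw [Matrix.det_fin_two_of]; ring⟩

theorem odd_cast_zmod_two {M : ℕ} (hM : ¬ 2 ∣ M) : ((M : ℤ) : ZMod 2) = 1 := by
  have h1 : M % 2 = 1 := by omega
  have h2 : ((M : ℕ) : ZMod 2) = ((M % 2 : ℕ) : ZMod 2) := by
    rw [ZMod.natCast_mod]
  rw [Int.cast_natCast, h2, h1, Nat.cast_one]

theorem red2_sigmaS {M : ℕ} (hM : ¬ 2 ∣ M) : red2 (sigmaS M) = s0 := by
  apply Subtype.ext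
  ext i j
  fin_cases i <;> fin_cases j
  · show ((1 : ℤ) : ZMod 2) = 1
    simp
  · show ((1 : ℤ) : ZMod 2) = 1
    simp
  · show (((M : ℤ) : ℤ) : ZMod 2) = 1
    exact odd_cast_zmod_two hM
  · show ((((M : ℤ) + 1 : ℤ)) : ZMod 2) = 0
    rw [Int.cast_add, odd_cast_zmod_two hM]
    decide

theorem sigmaS_mem_Gamma0 (M : ℕ) : sigmaS M ∈ Gamma0 M := by
  rw [mem_Gamma0_iff_dvd]
  exact dvd_rfl

theorem sigmaS_mem_Hs {M : ℕ} (hM : ¬ 2 ∣ M) : sigmaS M ∈ Hs M :=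
  ⟨sigmaS_mem_Gamma0 M, by show red2 (sigmaS M) ∈ A3; rw [red2_sigmaS hM]; exact s0_mem_A3⟩

theorem chi_sigmaS {M : ℕ} (hM : ¬ 2 ∣ M) : chi M ⟨sigmaS M, sigmaS_mem_Hs hM⟩ = s0A :=
  Subtype.ext (red2_sigmaS hM)

theorem chi_surjective {M : ℕ} (hM : ¬ 2 ∣ M) : Function.Surjective (chi M) := by
  have h : ∀ a : ↥A3, a = 1 ∨ a = s0A ∨ a = s0A * s0A := by decide
  intro a
  rcases h a with rfl | rfl | rfl
  · exact ⟨1, map_one _⟩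
  · exact ⟨_, chi_sigmaS hM⟩
  · exact ⟨⟨sigmaS M, sigmaS_mem_Hs hM⟩ * ⟨sigmaS M, sigmaS_mem_Hs hM⟩, by
      rw [map_mul, chi_sigmaS hM]⟩

theorem mem_ker_chi_iff {M : ℕ} (hM : ¬ 2 ∣ M) (γ : ↥(Hs M)) :
    γ ∈ (chi M).ker ↔ (γ : SL(2, ℤ)) ∈ Ns M := by
  rw [MonoidHom.mem_ker, mem_Ns_iff hM]
  constructor
  · intro h
    exact ⟨γ.2.1, congrArg Subtype.val h⟩
  · intro h
    exact Subtype.ext h.2

/-- **the kernel of `chi` is `Ns M`.** -/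
def kerEquivNs {M : ℕ} (hM : ¬ 2 ∣ M) : ↥(chi M).ker ≃* ↥(Ns M) where
  toFun γ := ⟨((γ : ↥(Hs M)) : SL(2, ℤ)), (mem_ker_chi_iff hM γ.1).mp γ.2⟩
  invFun γ := ⟨⟨(γ : SL(2, ℤ)), Ns_le_Hs hM γ.2⟩, (mem_ker_chi_iff hM _).mpr γ.2⟩
  left_inv γ := rfl
  right_inv γ := rfl
  map_mul' a b := rfl

@[simp] theorem coe_kerEquivNs {M : ℕ} (hM : ¬ 2 ∣ M) (γ : ↥(chi M).ker) :
    ((kerEquivNs hM γ : ↥(Ns M)) : SL(2, ℤ)) = ((γ : ↥(Hs M)) : SL(2, ℤ)) := rfl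

@[simp] theorem coe_kerEquivNs_symm {M : ℕ} (hM : ¬ 2 ∣ M) (γ : ↥(Ns M)) :
    ((((kerEquivNs hM).symm γ : ↥(chi M).ker) : ↥(Hs M)) : SL(2, ℤ)) = (γ : SL(2, ℤ)) := rfl

/-! ### finiteness, torsion -/

instance finiteIndex_Hs (M : ℕ) [NeZero M] : (Hs M).FiniteIndex := by
  haveI : (A3.comap red2).FiniteIndex := by
    haveI : red2.ker.FiniteIndex := Subgroup.finiteIndex_ker red2
    exact Subgroup.finiteIndex_of_le (H := red2.ker) (fun x hx => by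
      show red2 x ∈ A3
      rw [MonoidHom.mem_ker.mp hx]
      exact one_mem _)
  show (Gamma0 M ⊓ A3.comap red2).FiniteIndex
  infer_instance

instance group_fg_Hs (M : ℕ) [NeZero M] : Group.FG ↥(Hs M) :=
  Subgroup.fg_of_index_ne_zero (Hs M)

/-- `Hs M` has no element of order three as soon as a prime `r ≡ 2 mod 3` divides `M`. -/
theorem Hs_eq_one_of_pow_three {M r : ℕ} (hr : r.Prime) (hrM : r ∣ M) (hr3 : r % 3 = 2)
    (δ : ↥(Hs M)) (h : δ ^ 3 = 1) : δ = 1 := by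
  have h1 : (⟨(δ : SL(2, ℤ)), δ.2.1⟩ : ↥(Gamma0 M)) ^ 3 = 1 := by
    apply Subtype.ext
    have := congrArg (fun x : ↥(Hs M) => (x : SL(2, ℤ))) h
    simpa using this
  have h2 := Fermat.Agent.RB.P3.Gamma0_eq_one_of_pow_three hr hrM hr3 _ h1
  exact Subtype.ext (congrArg (fun x : ↥(Gamma0 M) => (x : SL(2, ℤ))) h2)

/-- the element `(1 0; M 1)` of `Γ₀(M)`, outside `Hs M` for odd `M`. -/
def wM (M : ℕ) : SL(2, ℤ) := lowerUni (M : ℤ)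

theorem wM_mem_Gamma0 (M : ℕ) : wM M ∈ Gamma0 M := by
  rw [mem_Gamma0_iff_dvd]
  exact dvd_rfl

theorem red2_wM {M : ℕ} (hM : ¬ 2 ∣ M) : red2 (wM M) = t0 := by
  apply Subtype.ext
  ext i j
  fin_cases i <;> fin_cases j
  · show ((1 : ℤ) : ZMod 2) = 1
    simp
  · show ((0 : ℤ) : ZMod 2) = 0
    simp
  · show (((M : ℤ) : ℤ) : ZMod 2) = 1
    exact odd_cast_zmod_two hM
  · show ((1 : ℤ) : ZMod 2) = 1
    simp

theorem wM_mem_Hw {M : ℕ} (hM : ¬ 2 ∣ M) : wM M ∈ Hw M :=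
  mem_Hw_iff.mpr ⟨wM_mem_Gamma0 M, Or.inr (red2_wM hM)⟩

theorem wM_sq_mem_Ns {M : ℕ} (hM : ¬ 2 ∣ M) : wM M * wM M ∈ Ns M := by
  refine (mem_Ns_iff hM).mpr ⟨mul_mem (wM_mem_Gamma0 M) (wM_mem_Gamma0 M), ?_⟩
  rw [map_mul, red2_wM hM]
  decide

/-- every element of `Hw M` lies in `Ns M` or in `wM · Ns M`. -/
theorem mem_Ns_or_of_mem_Hw {M : ℕ} (hM : ¬ 2 ∣ M) {γ : SL(2, ℤ)} (hγ : γ ∈ Hw M) :
    γ ∈ Ns M ∨ (wM M)⁻¹ * γ ∈ Ns M := by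
  obtain ⟨h1, h2⟩ := mem_Hw_iff.mp hγ
  rcases h2 with h | h
  · exact Or.inl ((mem_Ns_iff hM).mpr ⟨h1, h⟩)
  · right
    refine (mem_Ns_iff hM).mpr ⟨mul_mem (inv_mem (wM_mem_Gamma0 M)) h1, ?_⟩
    rw [map_mul, map_inv, red2_wM hM, h]
    decide

end Fermat.Agent.ML.SQ2
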