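/-
ML (S59) — helper1 — **[TATE-DICT] (T2), step 1**: an element of `ℚ̄` fixed by the inertia at the
`q`-adic place `padicPlace q` (the image of `unrInertia q`) has integral log valuation
(`L.w q = 1`).  From lead's `KP.exists_zpow_norm_eq_of_fixed` (the inertia field of `ℚ̄_q / ℚ_q` is
unramified) and the comparison of `L.w` with the `q`-adic norm.
-/
import Mathlib
import Fermat.Agent.ML.KP_lead_KumVal
import Fermat.Agent.Tate.LogVal

set_option autoImplicit false
set_option linter.unusedSectionVars false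
set_option linter.unusedVariables false

namespace Fermat.Agent.ML.TATED

open Fermat.Agent.Tate Fermat.Agent.TW

variable {q : ℕ} [hq : Fact q.Prime]

/-- `Ω = AlgebraicClosure ℚ`. -/
local notation "Ω" => AlgebraicClosure ℚ

theorem norm_padicEmbedding_natCast_self : ‖padicEmbedding q ((q : ℕ) : Ω)‖ = ((q : ℕ) : ℝ)⁻¹ := by
  rw [map_natCast]
  have h1 : ((q : ℕ) : PadicAlgCl q) = algebraMap ℚ_[q] (PadicAlgCl q) ((q : ℕ) : ℚ_[q]) := by
    rw [map_natCast]
  rw [h1]
  have h2 := PadicAlgCl.norm_extends q ((q : ℕ) : ℚ_[q])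
  rw [show ((((q : ℕ) : ℚ_[q]) : PadicAlgCl q)) = algebraMap ℚ_[q] (PadicAlgCl q) ((q : ℕ) : ℚ_[q])
    from rfl] at h2
  rw [h2, Padic.norm_p]

/-- the place `padicPlace q` lies over `q`. -/
theorem natCast_mem_nonunits_padicPlace : ((q : ℕ) : Ω) ∈ (padicPlace q).nonunits := by
  rw [mem_nonunits_padicPlace_iff]
  have h1 := norm_padicEmbedding_natCast_self (q := q)
  have h2 : ((q : ℕ) : ℝ)⁻¹ < 1 := by
    apply inv_lt_one_of_one_lt₀
    exact_mod_cast hq.out.one_lt
  have h3 : ‖padicEmbedding q ((q : ℕ) : Ω)‖ < 1 := by rw [h1]; exact h2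
  exact_mod_cast h3

/-- a unit of `padicPlace q` has norm one. -/
theorem norm_padicEmbedding_eq_one {u : Ω} (hu : u ∈ padicPlace q) (hu' : u⁻¹ ∈ padicPlace q)
    (hu0 : u ≠ 0) : ‖padicEmbedding q u‖ = 1 := by
  have h1 : ‖padicEmbedding q u‖ ≤ 1 := by
    have := (mem_padicPlace_iff q).1 hu
    exact_mod_cast this
  have h2 : ‖padicEmbedding q u⁻¹‖ ≤ 1 := by
    have := (mem_padicPlace_iff q).1 hu'
    exact_mod_cast this
  rw [map_inv₀, norm_inv] at h2
  have hpos : 0 < ‖padicEmbedding q u‖ := by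
    rw [norm_pos_iff, Ne, map_eq_zero]
    exact hu0
  have h3 : 1 ≤ ‖padicEmbedding q u‖ := by
    by_contra hlt
    push Not at hlt
    have := one_lt_inv_iff₀.mpr ⟨hpos, hlt⟩
    linarith
  exact le_antisymm h1 h3

/-- **an element fixed by the inertia at `padicPlace q` has integral valuation.** -/
theorem exists_int_logVal_of_fixed (L : LogVal (padicPlace q)) (hL : L.w ((q : ℕ) : Ω) = 1)
    {z : Ω} (hz : z ≠ 0)
    (hfix : ∀ g ∈ unrInertia q, localGaloisToGlobal q g z = z) : ∃ j : ℤ, L.w z = j := by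
  have hq1 : (1 : ℝ) < (q : ℝ) := by exact_mod_cast hq.out.one_lt
  have hq0 : (0 : ℝ) < (q : ℝ) := by linarith
  have hqΩ : ((q : ℕ) : Ω) ≠ 0 := Nat.cast_ne_zero.mpr hq.out.ne_zero
  -- the norm of `ι z` is an integral power of `q`
  have hfix' : ∀ τ ∈ unrInertia q, τ (padicEmbedding q z) = padicEmbedding q z := by
    intro τ hτ
    rw [← padicEmbedding_localGaloisToGlobal, hfix τ hτ]
  have hιz : padicEmbedding q z ≠ 0 := by rw [Ne, map_eq_zero]; exact hz
  obtain ⟨m, hm⟩ := KP.exists_zpow_norm_eq_of_fixed hfix' hιz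
  -- the unit `u = z ^ b / q ^ a`, `w z = a / b`
  set r : ℚ := L.w z with hr
  have hden : (0 : ℚ) < r.den := by exact_mod_cast r.den_pos
  have hrel : (r.den : ℚ) * L.w z = r.num := by
    have h1 : r * r.den = r.num := Rat.mul_den_eq_num r
    rw [← hr, ← h1]; ring
  set u : Ω := z ^ r.den / ((q : ℕ) : Ω) ^ r.num with hu
  have hzb : z ^ r.den ≠ 0 := pow_ne_zero _ hz
  have hqa : ((q : ℕ) : Ω) ^ r.num ≠ 0 := zpow_ne_zero _ hqΩ
  have hu0 : u ≠ 0 := div_ne_zero hzb hqa
  have hwu : L.w u = 0 := by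
    rw [hu, L.map_div hzb hqa, L.map_pow hz, L.map_zpow hqΩ, hL, hrel]
    ring
  obtain ⟨huA, huA'⟩ := (L.eq_zero_iff hu0).mp hwu
  have hnu := norm_padicEmbedding_eq_one huA huA' hu0
  rw [hu, map_div₀, map_pow, map_zpow₀, norm_div, norm_pow, norm_zpow,
    norm_padicEmbedding_natCast_self, hm] at hnu
  -- compare the exponents
  have h1 : ((q : ℝ) ^ m) ^ r.den = (q : ℝ) ^ (m * (r.den : ℤ)) := by
    rw [zpow_mul, zpow_natCast]
  have h2 : (((q : ℕ) : ℝ)⁻¹) ^ r.num = (q : ℝ) ^ (-r.num) := by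
    rw [inv_zpow, zpow_neg]
  rw [h1, h2, div_eq_iff (zpow_ne_zero _ hq0.ne'), one_mul] at hnu
  have h3 : m * (r.den : ℤ) = -r.num :=
    zpow_right_injective₀ hq0 hq1.ne' hnu
  refine ⟨-m, ?_⟩
  have h4 : (r.num : ℚ) = -(m : ℚ) * r.den := by
    have := congrArg (fun t : ℤ => (t : ℚ)) h3
    push_cast at this
    linarith
  have h5 : r = r.num / r.den := (Rat.num_div_den r).symm
  rw [h5, h4]
  push_cast
  field_simp

end Fermat.Agent.ML.TATED
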