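/-
ML (S59) — helper1 — **[TATE-DICT] (T1, bad case) on a nodal model**, any residue characteristic.

`K` a field with valuation subring `A`, `W'⁄K` a nodal model (`S13.GNodeCtx.IsModel`):
* `gnode_w_disc`: the discriminant of a nodal model has valuation `n = w(a₆)`;
* `gnode_eq_of_close`: two `p`-torsion points near the node which are close to each other coincide
  (chord trick);
* `gnode_galois_fix`: if `n = p k w(π)` with `π` fixed by the inertia-like automorphism `σ`, then `σ`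
  fixes every `p`-torsion point (`p` odd).
Generalisation of `Tate/NodeGalois.lean` (`galois_fix_of_node`: `2` a unit, `n = 2 p k`).
-/
import Mathlib
import Fermat.Agent.S13.At2_helper2_Inertia

set_option autoImplicit false
set_option linter.unusedSectionVars false
set_option linter.unusedVariables false

namespace Fermat.Agent.ML.TATED

open Fermat.Agent.Tate Fermat.Agent.S13
open WeierstrassCurve WeierstrassCurve.Affine
open scoped WeierstrassCurve.Affine

variable {K : Type*} [Field K] [DecidableEq K] {A : ValuationSubring K}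
  {C : GNodeCtx K A} {α β : K}

/-! ### the discriminant of a nodal model -/

/-- **the discriminant of a nodal model has valuation `n`.** -/
theorem gnode_w_disc {W : Affine K} (hM : C.IsModel W α β) :
    W.Δ ≠ 0 ∧ C.L.w W.Δ = C.n := by
  have hn := C.n_pos
  have hγ6 : C.γ ^ 6 ≠ 0 := pow_ne_zero 6 C.γ_ne
  have hwγ6 : C.L.w (C.γ ^ 6) = 0 := by rw [C.L.map_pow C.γ_ne, C.γ_unit, mul_zero]
  have hmain0 : -(C.γ ^ 6 * C.a₆) ≠ 0 := neg_ne_zero.mpr (mul_ne_zero hγ6 C.a₆_ne)
  have hwmain : C.L.w (-(C.γ ^ 6 * C.a₆)) = C.n := by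
    rw [C.L.map_neg, C.L.map_mul hγ6 C.a₆_ne, hwγ6, zero_add]; rfl
  -- the remainder
  have h4 : C.L.Ge C.n C.a₄ := by
    rcases C.a₄_le with h | h
    · exact Or.inl h
    · exact Or.inr h
  have h6 : C.L.Ge C.n C.a₆ := Or.inr le_rfl
  have hγ : C.L.Ge 0 C.γ := Or.inr C.γ_unit.ge
  have hnat : ∀ m : ℕ, C.L.Ge 0 (m : K) := fun m =>
    LogVal.ge_zero_iff.mpr (natCast_mem A m)
  have hΔ : W.Δ = -(C.γ ^ 6 * C.a₆) +
      (C.γ ^ 4 * (C.a₄ * C.a₄) - ((64 : ℕ) : K) * C.a₄ * (C.a₄ * C.a₄)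
        - ((432 : ℕ) : K) * (C.a₆ * C.a₆) + ((72 : ℕ) : K) * C.γ ^ 2 * (C.a₄ * C.a₆)) := by
    simp only [WeierstrassCurve.Δ, WeierstrassCurve.b₂, WeierstrassCurve.b₄, WeierstrassCurve.b₆,
      WeierstrassCurve.b₈, hM.a₁, hM.a₂, hM.a₃, hM.a₄, hM.a₆, ← hM.hγ]
    push_cast
    ring
  have h44 : C.L.Ge (C.n + C.n) (C.a₄ * C.a₄) := h4.mul h4
  have h66 : C.L.Ge (C.n + C.n) (C.a₆ * C.a₆) := h6.mul h6
  have h46 : C.L.Ge (C.n + C.n) (C.a₄ * C.a₆) := h4.mul h6
  have e1 : C.L.Ge (C.n + C.n) (C.γ ^ 4 * (C.a₄ * C.a₄)) := by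
    have := (hγ.pow 4).mul h44
    simpa using this
  have e2 : C.L.Ge (C.n + C.n) (((64 : ℕ) : K) * C.a₄ * (C.a₄ * C.a₄)) := by
    have h := ((hnat 64).mul (h4.mono hn.le)).mul h44
    simpa using h
  have e3 : C.L.Ge (C.n + C.n) (((432 : ℕ) : K) * (C.a₆ * C.a₆)) := by
    have := (hnat 432).mul h66
    simpa using this
  have e4 : C.L.Ge (C.n + C.n) (((72 : ℕ) : K) * C.γ ^ 2 * (C.a₄ * C.a₆)) := by
    have := ((hnat 72).mul (hγ.pow 2)).mul h46
    simpa using this
  have hrem := ((e1.sub e2).sub e3).add e4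
  have hgt := hrem.gt_of_lt (c' := C.n) (by linarith)
  rw [← hwmain] at hgt
  have := C.L.map_add_of_gt hmain0 hgt
  rw [← hΔ, hwmain] at this
  exact this

/-! ### the chord trick near the node -/

/-- **chord trick near the node**: two `p`-torsion points which are close to each other (relative
to the depth `w x`) coincide, if `2 y + a₁ x` has the valuation of `x`. -/
theorem gnode_eq_of_close {W : Affine K} (hM : C.IsModel W α β) {p : ℕ}
    (hR1 : ∀ {x y : K} (h : W.Nonsingular x y), p • Point.some x y h = 0 → x ∈ A ∧ y ∈ A)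
    {x y x' y' : K} (h : W.Nonsingular x y) (h' : W.Nonsingular x' y')
    (ht : p • Point.some x y h = 0) (ht' : p • Point.some x' y' h' = 0)
    (hxA : x ∈ A) (hx'A : x' ∈ A)
    (hs0 : 2 * y - (α + β) * x ≠ 0) (hws : C.L.w (2 * y - (α + β) * x) = C.L.w x)
    (hcx : C.L.Gt (C.L.w x) (x' - x)) (hcy : C.L.Gt (C.L.w x) (y' - y)) :
    Point.some x' y' h' = Point.some x y h := by
  by_cases hxx : x' = x
  · subst hxx
    rcases Y_eq_of_X_eq h'.1 h.1 rfl with hyy | hyy
    · subst hyy; rfl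
    · exfalso
      rw [hM.negY] at hyy
      have e : y' - y = -(2 * y - (α + β) * x') := by rw [hyy]; ring
      rw [e] at hcy
      have := hcy.lt (neg_ne_zero.mpr hs0)
      rw [C.L.map_neg, hws] at this
      exact lt_irrefl _ this
  exfalso
  have ha₁ : W.a₁ ∈ A := by rw [hM.a₁]; exact neg_mem (A.add_mem _ _ hM.hα hM.hβ)
  have ha₂ : W.a₂ ∈ A := by rw [hM.a₂]; exact neg_mem (mul_mem hM.hα hM.hβ)
  have hnegt : p • (-Point.some x y h) = 0 := by rw [smul_neg, ht, neg_zero]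
  rw [Point.neg_some] at hnegt
  have hne : ¬ (x' = x ∧ y' = W.negY x (W.negY x y)) := fun hh => hxx hh.1
  have hsl := slope_mem_of_torsion ha₁ ha₂ hR1 h' ((nonsingular_neg ..).mpr h) hx'A hxA ht' hnegt hne
  rw [slope_of_X_ne hxx, hM.negY] at hsl
  have hd0 : x' - x ≠ 0 := sub_ne_zero.mpr hxx
  have hwd := hcx.lt hd0
  have hnum : y' - (-y + (α + β) * x) ≠ 0 ∧ C.L.w (y' - (-y + (α + β) * x)) = C.L.w x := by
    have e : y' - (-y + (α + β) * x) = (2 * y - (α + β) * x) + (y' - y) := by ring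
    rw [e]
    have := C.L.map_add_of_gt hs0 (by rw [hws]; exact hcy)
    rwa [hws] at this
  have hl0 : (y' - (-y + (α + β) * x)) / (x' - x) ≠ 0 := div_ne_zero hnum.1 hd0
  have hwl := C.L.nonneg_of_mem hl0 hsl
  rw [C.L.map_div hnum.1 hd0, hnum.2] at hwl
  linarith

/-! ### inertia fixes the torsion -/

section Galois

variable {R : Type*} {S : Type*} [CommRing R] [CommRing S] [Algebra R S]
  [Algebra R K] [Algebra S K] [IsScalarTower R S K]

/-- **(T1), bad case, on the nodal model**: if `n = p k w(π)`, every `p`-torsion point is fixed by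
`σ`. -/
theorem gnode_galois_fix (W' : Affine R) (C : GNodeCtx K A) {α β : K}
    (hM : C.IsModel (W'⁄K) α β) {p : ℕ} (hpodd : Odd p)
    (hR1 : ∀ {x y : K} (h : (W'⁄K).Nonsingular x y), p • Point.some x y h = 0 → x ∈ A ∧ y ∈ A)
    {π : K} (hπ0 : π ≠ 0) (hπ : C.L.w π = 1) (k : ℕ) (hn : C.n = p * k)
    (σ : K ≃ₐ[S] K) (hσπ : σ π = π) (hσ : ∀ a ∈ A, σ a ∈ A ∧ σ a - a ∈ A.nonunits)
    (Q : (W'⁄K).Point) (hQ : p • Q = 0) : σ • Q = Q := by
  rcases Q with _ | ⟨x, y, h⟩
  · rfl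
  by_cases hx : x ∈ A.nonunits
  swap
  · exact smul_eq_of_not_near W' C hM hpodd hR1 σ hσ h hQ hx
  have hσQ := nsmul_smul_eq_zero σ hQ
  rw [smul_some] at hσQ ⊢
  obtain ⟨hxA, hyA⟩ := hR1 h hQ
  have hp0 : (p : ℚ) ≠ 0 := by
    obtain ⟨j, rfl⟩ := hpodd
    have : 2 * j + 1 ≠ 0 := Nat.succ_ne_zero (2 * j)
    exact_mod_cast this
  have hσ' : ∀ a ∈ A, (σ : K →+* K) a - a ∈ A.nonunits := fun a ha => (hσ a ha).2
  obtain ⟨hx0, hlt, m, hm⟩ := hM.torsion_near_node hpodd hR1 h hQ hx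
  have hj : C.L.w x = ((m * k : ℤ) : ℚ) := by
    rw [hn] at hm
    have : (p : ℚ) * C.L.w x = p * (m * k) := by rw [hm]; ring
    have := mul_left_cancel₀ hp0 this
    rw [this]; push_cast; ring
  have hcx : C.L.Gt (C.L.w x) (σ x - x) :=
    C.L.gt_of_inertia hπ0 hπ (σ := (σ : K →+* K)) hσπ hσ' hx0 hj
  -- the slopes are fixed
  have hα : σ α = α := map_slope_eq W' C hM σ hσ
  have hβ : σ β = β := by
    have := smul_a₁ W' σ
    rw [hM.a₁, map_neg, map_add, hα] at this
    linear_combination -this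
  have hN := hM.nearPt h.1 hx
  rcases hN.classify with hc | hc | hc
  · exfalso
    rcases hc.hx with h0 | h0
    · exact hx0 h0
    · linarith
  · -- `+` branch: `b = y - β x` has the valuation of `x`
    have hs : 2 * y - (α + β) * x = (y - α * x) + (y - β * x) := by ring
    have hsum := C.L.map_add_of_gt' hc.hb (by rw [hc.hwb]; exact hc.ha)
    rw [← hs, hc.hwb] at hsum
    have hcb : C.L.Gt (C.L.w x) (σ (y - β * x) - (y - β * x)) := by
      have := C.L.gt_of_inertia hπ0 hπ (σ := (σ : K →+* K)) hσπ hσ' hc.hb (hc.hwb.trans hj)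
      rwa [hc.hwb] at this
    have hcy : C.L.Gt (C.L.w x) (σ y - y) := by
      have e : σ y - y = (σ (y - β * x) - (y - β * x)) + β * (σ x - x) := by
        rw [map_sub, map_mul, hβ]; ring
      rw [e]
      refine hcb.add ?_
      have h1 : C.L.Ge 0 β := LogVal.ge_zero_iff.mpr hM.hβ
      have := h1.mul_gt hcx
      rwa [zero_add] at this
    exact gnode_eq_of_close hM hR1 h _ hQ hσQ hxA (hσ x hxA).1 hsum.1 hsum.2 hcx hcy
  · -- `-` branch: `a = y - α x` has the valuation of `x`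
    have hs : 2 * y - (α + β) * x = (y - α * x) + (y - β * x) := by ring
    have hsum := C.L.map_add_of_gt hc.ha (by rw [hc.hwa]; exact hc.hb)
    rw [← hs, hc.hwa] at hsum
    have hca : C.L.Gt (C.L.w x) (σ (y - α * x) - (y - α * x)) := by
      have := C.L.gt_of_inertia hπ0 hπ (σ := (σ : K →+* K)) hσπ hσ' hc.ha (hc.hwa.trans hj)
      rwa [hc.hwa] at this
    have hcy : C.L.Gt (C.L.w x) (σ y - y) := by
      have e : σ y - y = (σ (y - α * x) - (y - α * x)) + α * (σ x - x) := by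
        rw [map_sub, map_mul, hα]; ring
      rw [e]
      refine hca.add ?_
      have h1 : C.L.Ge 0 α := LogVal.ge_zero_iff.mpr hM.hα
      have := h1.mul_gt hcx
      rwa [zero_add] at this
    exact gnode_eq_of_close hM hR1 h _ hQ hσQ hxA (hσ x hxA).1 hsum.1 hsum.2 hcx hcy

end Galois

end Fermat.Agent.ML.TATED
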